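/-
S36 / row (D1) DESC36, part (D1a) generic core (helper11).

`K`, `F` a function field with the RR-bank hypotheses `FFBase K F`, `P0` a place of degree one,
`S` a set of semilinear automorphisms fixing `P0`.

* `smul_minEff_eq` : if `g • P0 = P0` and `g • D ~ D` then `g` fixes the minimal effective
  divisor of `D` (no `ell`-equivariance needed: uniqueness of the effective divisor in `|D + t P0|`
  for the SAME `t`);
* `exists_fixed_representative` : a class `y : Pic0 K F` fixed by all `g ∈ S` has a representative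
  `D` (of degree zero) with `g • D = D` for all `g ∈ S`;
* `exists_function_of_zsmul_eq_zero` : if `m • [D] = 0` there is `f ≠ 0` with `div f = m D`;
* `ord_smul_eq_of_smul_eq` : if `g • D = D` and `div f = m D` then `div (g • f) = div f`.
-/
import Mathlib
import Fermat.Prelude.Def_AlgebraicCurve_BaseChangeGalois
import Fermat.Agent.S29.H3_MinEffective

set_option autoImplicit false

noncomputable section

namespace Fermat.Agent.S36.H11

open AlgebraicCurve Fermat.Agent.RR.H76 Fermat.Agent.S29

variable {K F : Type*} [Field K] [Field F] [Algebra K F]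

theorem pic0_mk_eq_mk_iff (D E : Divisor.degZero (K := K) (F := F)) :
    Pic0.mk D = Pic0.mk E ↔
      (E : Divisor K F) - (D : Divisor K F) ∈ Divisor.principal (K := K) (F := F) := by
  unfold Pic0.mk
  rw [QuotientAddGroup.eq, AddSubgroup.mem_addSubgroupOf]
  have e : ((-D + E : Divisor.degZero (K := K) (F := F)) : Divisor K F) =
      (E : Divisor K F) - (D : Divisor K F) := by
    push_cast
    abel
  rw [e]

theorem pic0_mk_eq_zero_iff (D : Divisor.degZero (K := K) (F := F)) :
    Pic0.mk D = 0 ↔ (D : Divisor K F) ∈ Divisor.principal (K := K) (F := F) := by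
  have h := pic0_mk_eq_mk_iff (0 : Divisor.degZero (K := K) (F := F)) D
  rw [Pic0.mk_zero] at h
  rw [eq_comm, h]
  simp

theorem divisor_smul_nonneg (g : SemilinearAut K F) {E : Divisor K F} (hE : 0 ≤ E) :
    0 ≤ g • E := by
  intro w
  rw [SemilinearAut.divisor_smul_apply, Finsupp.zero_apply]
  exact hE _

theorem smul_shift (g : SemilinearAut K F) {P0 : Place K F} (hg : g • P0 = P0)
    (D : Divisor K F) (t : ℤ) : g • H3.shift P0 D t = H3.shift P0 (g • D) t := by
  rw [H3.shift, smul_add, SemilinearAut.smul_single, hg, H3.shift]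

/-- If `g` fixes `P0` and `g • D ~ D`, then `g` fixes the minimal effective divisor of `D`. -/
theorem smul_minEff_eq (h : FFBase K F) (P0 : Place K F) (hP0 : P0.deg = 1)
    (g : SemilinearAut K F) (hg : g • P0 = P0) (D : Divisor K F)
    (hD : g • D - D ∈ Divisor.principal (K := K) (F := F)) :
    g • H3.minEff h P0 hP0 D = H3.minEff h P0 hP0 D := by
  refine H3.eq_minEff h P0 hP0 D (divisor_smul_nonneg g (H3.minEff_nonneg h P0 hP0 D)) ?_
  have h1 := SemilinearAut.smul_mem_principal g (H3.minEff_sub_mem_principal h P0 hP0 D)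
  have h2 := (Divisor.principal (K := K) (F := F)).add_mem h1 hD
  have e : g • (H3.minEff h P0 hP0 D - H3.shift P0 D (H3.minShift h P0 hP0 D)) + (g • D - D) =
      g • H3.minEff h P0 hP0 D - H3.shift P0 D (H3.minShift h P0 hP0 D) := by
    rw [smul_sub, smul_shift g hg]
    simp only [H3.shift]
    abel
  rwa [e] at h2

/-- **(D1a), divisor half.**  A class fixed by a set `S` of semilinear automorphisms fixing a
place `P0` of degree one has an `S`-fixed representative. -/
theorem exists_fixed_representative (h : FFBase K F) (P0 : Place K F) (hP0 : P0.deg = 1)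
    (S : Set (SemilinearAut K F)) (hS : ∀ g ∈ S, g • P0 = P0)
    (y : Pic0 K F) (hy : ∀ g ∈ S, g • y = y) :
    ∃ D : Divisor.degZero (K := K) (F := F), Pic0.mk D = y ∧
      ∀ g ∈ S, g • (D : Divisor K F) = (D : Divisor K F) := by
  obtain ⟨D₁, rfl⟩ := Pic0.mk_surjective y
  set E := H3.minEff h P0 hP0 (D₁ : Divisor K F) with hE
  set t := H3.minShift h P0 hP0 (D₁ : Divisor K F) with ht
  have hdeg : Divisor.degree (E - Finsupp.single P0 t) = 0 := by
    rw [map_sub, hE, H3.degree_minEff, Divisor.degree_single, hP0,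
      Divisor.mem_degZero.mp D₁.2]
    push_cast
    ring
  refine ⟨⟨E - Finsupp.single P0 t, Divisor.mem_degZero.mpr hdeg⟩, ?_, ?_⟩
  · rw [eq_comm, pic0_mk_eq_mk_iff]
    have := H3.sub_minEff_mem_principal h P0 hP0 (D₁ : Divisor K F)
    have h2 := (Divisor.principal (K := K) (F := F)).neg_mem this
    rwa [neg_sub] at h2
  · intro g hgS
    have hgD : g • (D₁ : Divisor K F) - (D₁ : Divisor K F) ∈
        Divisor.principal (K := K) (F := F) := by
      have h1 := hy g hgS
      rw [SemilinearAut.pic0_smul_mk, eq_comm, pic0_mk_eq_mk_iff] at h1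
      exact h1
    show g • (E - Finsupp.single P0 t) = E - Finsupp.single P0 t
    rw [smul_sub, SemilinearAut.smul_single, hS g hgS, hE,
      smul_minEff_eq h P0 hP0 g (hS g hgS) _ hgD]

/-- If `m • [D] = 0` then `m D` is the divisor of a function. -/
theorem exists_function_of_zsmul_eq_zero (D : Divisor.degZero (K := K) (F := F)) (m : ℤ)
    (hm : m • (Pic0.mk D : Pic0 K F) = 0) :
    ∃ f : F, f ≠ 0 ∧ ∀ v : Place K F, v.ord f = m * (D : Divisor K F) v := by
  have h1 : (Pic0.mk (m • D) : Pic0 K F) = 0 := by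
    rw [← hm]; rfl
  rw [pic0_mk_eq_zero_iff] at h1
  obtain ⟨f, hf, hfD⟩ := h1
  refine ⟨f, hf, fun v => ?_⟩
  rw [← hfD v]
  show ((m • (D : Divisor K F) : Divisor K F)) v = m * (D : Divisor K F) v
  rw [Finsupp.smul_apply, smul_eq_mul]

/-- `ord_v (g • f) = ord_{g⁻¹ v} f`. -/
theorem ord_smul_eq_ord_inv_smul (g : SemilinearAut K F) (v : Place K F) (f : F) :
    v.ord (g • f) = (g⁻¹ • v).ord f := by
  have h := SemilinearAut.ord_smul g (g⁻¹ • v) f
  rwa [smul_inv_smul] at h

/-- If `g • D = D` and `div f = m D` then `g • f` has the same divisor as `f`. -/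
theorem ord_smul_eq_of_smul_eq (g : SemilinearAut K F) (D : Divisor K F)
    (hgD : g • D = D) (m : ℤ) (f : F) (hf : ∀ v : Place K F, v.ord f = m * D v)
    (v : Place K F) : v.ord (g • f) = v.ord f := by
  rw [ord_smul_eq_ord_inv_smul, hf, hf, ← SemilinearAut.divisor_smul_apply, hgD]

end Fermat.Agent.S36.H11
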