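/-
S36 / row (D1) DESC36, part (D1a) at the `Qbar` level (helper11).

* `cuspInfty L N` : the place of `FL L N = L(X₀(N))` at the cusp `∞` (the `q`-order), fixed by the
  arithmetic Galois action (`arithmeticGalois_smul_cuspInfty`);
* `exists_fixed_divisor_function` : **(D1a)**.  For a set `S` of elements of `Gal(Qbar/ℚ)`, a class
  `y : JZero N` with `m • y = 0` fixed by all `σ ∈ S` has a representative `D` and a function
  `f ≠ 0` with `div f = m D`, both FIXED by all `σ ∈ S` (`f` is normalised by its leading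
  `q`-expansion coefficient).
-/
import Mathlib
import Fermat.Prelude.Def_ModularCurve_ArithmeticGalois
import Fermat.Agent.S24.H27_PlaceOfValuation
import Fermat.Agent.S28.H39_Laurent
import Fermat.Agent.S29.H74_FFBankL
import Fermat.Agent.S37.H8_FinDimL
import Fermat.Agent.S36.H11_Desc36Core

set_option autoImplicit false
set_option linter.unusedSectionVars false
set_option linter.style.haveILetI false
set_option synthInstance.maxHeartbeats 400000

noncomputable section

namespace Fermat.Agent.S36.H11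

open AlgebraicCurve ModularCurve HahnSeries
open Fermat.Agent.S24 Fermat.Agent.S29 Fermat.Agent.S37.H8

/-! ### orders of Laurent series under coefficient maps -/

theorem order_eq_of_coeff_eq_zero_iff {R S : Type*} [Zero R] [Zero S]
    {x : HahnSeries ℤ R} {y : HahnSeries ℤ S}
    (h : ∀ n, x.coeff n = 0 ↔ y.coeff n = 0) : x.order = y.order := by
  by_cases hx : x = 0
  · have hy : y = 0 := by
      ext n
      rw [HahnSeries.coeff_zero, ← h n, hx, HahnSeries.coeff_zero]
    rw [hx, hy, HahnSeries.order_zero, HahnSeries.order_zero]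
  · have hy : y ≠ 0 := by
      intro hy
      apply hx
      ext n
      rw [HahnSeries.coeff_zero, h n, hy, HahnSeries.coeff_zero]
    have h1 : x.coeff x.order ≠ 0 := HahnSeries.coeff_order_eq_zero.not.mpr hx
    have h2 : y.coeff y.order ≠ 0 := HahnSeries.coeff_order_eq_zero.not.mpr hy
    have h1' : y.coeff x.order ≠ 0 := fun h0 => h1 ((h _).mpr h0)
    have h2' : x.coeff y.order ≠ 0 := fun h0 => h2 ((h _).mp h0)
    exact le_antisymm (HahnSeries.order_le_of_coeff_ne_zero h2')
      (HahnSeries.order_le_of_coeff_ne_zero h1')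

theorem order_coeffMap_of_injective {R S : Type*} [CommRing R] [CommRing S] (φ : R →+* S)
    (hφ : Function.Injective φ) (x : LaurentSeries R) : (coeffMap φ x).order = x.order := by
  apply order_eq_of_coeff_eq_zero_iff
  intro n
  rw [coeffMap_coeff]
  exact map_eq_zero_iff φ hφ

/-! ### the place at the cusp `∞` -/

section Cusp

variable (L : Type*) [Field L] [Algebra ℚ L] (N : ℕ) [NeZero N]

theorem coe_algebraMap_FL (a : L) :
    ((algebraMap L (FL L N) a : FL L N) : LaurentSeries L) = HahnSeries.single 0 a := by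
  rw [← algebraMap_laurentSeries_eq_single]
  rfl

theorem order_jL : ((jL L N : FL L N) : LaurentSeries L).order = -1 := by
  rw [coe_jL, coeffEmb, order_coeffMap_of_injective _ (algebraMap ℚ L).injective, ← jqModC_rat]
  exact Fermat.Agent.S28.H39.order_jqModC

theorem jL_ne_zero : jL L N ≠ 0 := by
  intro h
  have := order_jL L N
  rw [h] at this
  simp at this

/-- `f ↦ ord_q f` is an order function on `FL L N`. -/
theorem isOrdFunction_orderFL :
    H27.IsOrdFunction L (fun f : FL L N => (f : LaurentSeries L).order) where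
  map_mul f g hf hg := by
    show ((f * g : FL L N) : LaurentSeries L).order = _
    have hf' : (f : LaurentSeries L) ≠ 0 := fun h => hf (Subtype.ext h)
    have hg' : (g : LaurentSeries L) ≠ 0 := fun h => hg (Subtype.ext h)
    exact HahnSeries.order_mul hf' hg'
  map_add f g _ _ hfg := by
    show min _ _ ≤ ((f + g : FL L N) : LaurentSeries L).order
    refine HahnSeries.min_order_le_order_add ?_
    intro h
    exact hfg (Subtype.ext h)
  map_algebraMap a ha := by
    show ((algebraMap L (FL L N) a : FL L N) : LaurentSeries L).order = 0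
    rw [coe_algebraMap_FL, HahnSeries.order_single ha]
  nontrivial := ⟨jL L N, jL_ne_zero L N, by
    show ((jL L N : FL L N) : LaurentSeries L).order ≠ 0
    rw [order_jL]; decide⟩

/-- The place of `FL L N` at the cusp `∞`. -/
def cuspInfty : Place L (FL L N) := (isOrdFunction_orderFL L N).place

theorem mem_cuspInfty_iff {f : FL L N} :
    f ∈ (cuspInfty L N).toValuationSubring ↔ f = 0 ∨ 0 ≤ (f : LaurentSeries L).order :=
  Iff.rfl

theorem ord_cuspInfty {f : FL L N} (hf : f ≠ 0) :
    (cuspInfty L N).ord f = (f : LaurentSeries L).order := by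
  refine (isOrdFunction_orderFL L N).ord_place_eq ⟨(jL L N)⁻¹, inv_ne_zero (jL_ne_zero L N), ?_⟩ hf
  show (((jL L N)⁻¹ : FL L N) : LaurentSeries L).order = 1
  have h := (isOrdFunction_orderFL L N).map_inv (jL_ne_zero L N)
  have h2 : (((jL L N)⁻¹ : FL L N) : LaurentSeries L).order =
      -((jL L N : FL L N) : LaurentSeries L).order := h
  rw [h2, order_jL]
  norm_num

/-- The cusp `∞` is fixed by the arithmetic Galois action. -/
theorem arithmeticGalois_smul_cuspInfty (σ : L ≃ₐ[ℚ] L) :
    arithmeticGalois (modularFunctionFieldFull N) σ • cuspInfty L N = cuspInfty L N := by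
  apply Place.ext
  ext f
  rw [SemilinearAut.smul_toValuationSubring,
    ValuationSubring.mem_pointwise_smul_iff_inv_smul_mem, mem_cuspInfty_iff, mem_cuspInfty_iff]
  have h1 : (((arithmeticGalois (modularFunctionFieldFull N) σ)⁻¹ • f : FL L N) :
      LaurentSeries L) = coeffMap ((σ⁻¹ : L ≃ₐ[ℚ] L) : L →+* L) (f : LaurentSeries L) := by
    rw [← map_inv]
    exact coe_arithmeticGalois_smul (modularFunctionFieldFull N) σ⁻¹ f
  rw [h1, order_coeffMap_of_injective _ ((σ⁻¹ : L ≃ₐ[ℚ] L) : L →+* L).injective,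
    smul_eq_zero_iff_eq]

end Cusp

/-! ### (D1a) -/

section Main

local notation "Qb" => AlgebraicClosure ℚ

variable (N : ℕ) [NeZero N]

theorem coeff_smul_FL (a : Qb) (x : FL Qb N) (n : ℤ) :
    ((a • x : FL Qb N) : LaurentSeries Qb).coeff n = a * (x : LaurentSeries Qb).coeff n := by
  rw [Algebra.smul_def]
  show (((algebraMap Qb (FL Qb N) a : FL Qb N) : LaurentSeries Qb) *
    (x : LaurentSeries Qb)).coeff n = _
  rw [coe_algebraMap_FL, ← HahnSeries.C_apply, HahnSeries.C_mul_eq_smul, HahnSeries.coeff_smul,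
    smul_eq_mul]

/-- A function with a `q`-expansion coefficient equal to `1` whose divisor is preserved by
`σ` is fixed by `σ`. -/
theorem arithmeticGalois_smul_eq_self_of_ord_eq (σ : Qb ≃ₐ[ℚ] Qb) (f : FL Qb N) (hf0 : f ≠ 0)
    (n₀ : ℤ) (hcoeff : (f : LaurentSeries Qb).coeff n₀ = 1)
    (hord : ∀ v : Place Qb (FL Qb N),
      v.ord (arithmeticGalois (L := Qb) (modularFunctionFieldFull N) σ • f) = v.ord f) :
    arithmeticGalois (L := Qb) (modularFunctionFieldFull N) σ • f = f := by
  set g := arithmeticGalois (L := Qb) (modularFunctionFieldFull N) σ with hg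
  have hgf0 : g • f ≠ 0 := by
    rw [Ne, smul_eq_zero_iff_eq]; exact hf0
  obtain ⟨c, hc0, hc⟩ := H74.eq_const_mul_of_ord_eq Qb N hgf0 hf0 hord
  have h1 : ((g • f : FL Qb N) : LaurentSeries Qb).coeff n₀ = 1 := by
    rw [hg, coe_arithmeticGalois_smul, coeffMap_coeff, hcoeff]
    exact map_one _
  have h2 : ((g • f : FL Qb N) : LaurentSeries Qb).coeff n₀ = c := by
    rw [hc, ← Algebra.smul_def, coeff_smul_FL, hcoeff, mul_one]
  have hc1 : c = 1 := by rw [← h2, h1]
  rw [hc, hc1, map_one, one_mul]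

/-- Normalisation of the leading coefficient. -/
theorem exists_smul_coeff_eq_one {f : FL Qb N} (hf : f ≠ 0) :
    ∃ (a : Qb) (n₀ : ℤ), a ≠ 0 ∧ ((a⁻¹ • f : FL Qb N) : LaurentSeries Qb).coeff n₀ = 1 := by
  have hf' : (f : LaurentSeries Qb) ≠ 0 := fun h => hf (Subtype.ext h)
  have ha0 : (f : LaurentSeries Qb).coeff (f : LaurentSeries Qb).order ≠ 0 :=
    HahnSeries.coeff_order_eq_zero.not.mpr hf'
  refine ⟨_, (f : LaurentSeries Qb).order, ha0, ?_⟩
  rw [coeff_smul_FL, inv_mul_cancel₀ ha0]

theorem ord_smul_const {a : Qb} (ha : a ≠ 0) (f : FL Qb N) (hf : f ≠ 0)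
    (v : Place Qb (FL Qb N)) : v.ord (a • f) = v.ord f := by
  rw [Algebra.smul_def, v.ord_mul (by simpa using ha) hf,
    Fermat.Agent.S24.H24.PlaceLemmas.ord_algebraMap v _, zero_add]

/-- **(D1a).**  A class `y ∈ J₀(N)(Qbar)[m]` fixed by a set `S` of Galois automorphisms is the
class of an `S`-fixed divisor `D`, and `m D = div f` for an `S`-fixed function `f`. -/
theorem exists_fixed_divisor_function (S : Set (Qb ≃ₐ[ℚ] Qb)) (m : ℤ) (y : JZero N)
    (hm : m • y = 0) (hfix : ∀ σ ∈ S, σ • y = y) :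
    ∃ (D : Divisor.degZero (K := Qb) (F := modularFunctionFieldBar N))
      (f : modularFunctionFieldBar N),
      f ≠ 0 ∧ Pic0.mk D = y ∧
      (∀ v : Place Qb (modularFunctionFieldBar N),
        v.ord f = m * (D : Divisor Qb (modularFunctionFieldBar N)) v) ∧
      (∀ σ ∈ S, arithmeticGalois (modularFunctionFieldFull N) σ •
        (D : Divisor Qb (modularFunctionFieldBar N)) = D) ∧
      ∀ σ ∈ S, arithmeticGalois (modularFunctionFieldFull N) σ • f = f := by
  have hB : Fermat.Agent.RR.H76.FFBase Qb (FL Qb N) := H74.ffBase_FL Qb N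
  have hP0 : (cuspInfty Qb N).deg = 1 := H74.deg_eq_one_FL' Qb N _
  obtain ⟨D, hDy, hDfix⟩ := exists_fixed_representative hB (cuspInfty Qb N) hP0
    ((arithmeticGalois (L := Qb) (modularFunctionFieldFull N)) '' S)
    (by rintro _ ⟨σ, -, rfl⟩; exact arithmeticGalois_smul_cuspInfty Qb N σ)
    y (by rintro _ ⟨σ, hσ, rfl⟩; exact hfix σ hσ)
  obtain ⟨f₁, hf₁, hf₁D⟩ := exists_function_of_zsmul_eq_zero D m (by rw [hDy]; exact hm)
  obtain ⟨a, n₀, ha0, hcoeff⟩ := exists_smul_coeff_eq_one N hf₁
  have hf0 : a⁻¹ • f₁ ≠ 0 := smul_ne_zero (inv_ne_zero ha0) hf₁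
  have hfD : ∀ v : Place Qb (FL Qb N),
      v.ord (a⁻¹ • f₁) = m * (D : Divisor Qb (FL Qb N)) v := by
    intro v
    rw [ord_smul_const N (inv_ne_zero ha0) f₁ hf₁ v, hf₁D v]
  refine ⟨D, a⁻¹ • f₁, hf0, hDy, hfD, fun σ hσ => hDfix _ ⟨σ, hσ, rfl⟩, fun σ hσ => ?_⟩
  exact arithmeticGalois_smul_eq_self_of_ord_eq N σ _ hf0 n₀ hcoeff
    (fun v => ord_smul_eq_of_smul_eq _ _ (hDfix _ ⟨σ, hσ, rfl⟩) m _ hfD v)

end Main

end Fermat.Agent.S36.H11
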