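/-
helper18 — S36 row (E7), top of the G side: **the interface between the class level `(IF-GEO36)`
and the function level at a finite unramified field `E0`.**

* `IfGeo36 M0 q p` : `(IF-GEO36)` of helper78's chain v1 (#3108), verbatim: a constant `c > 0`
  killing every `p`-power torsion class of `J₀((M0 q) q)` that is fixed by an inertia group over
  `q` and killed by both pushforwards to `J₀(M0 q)`.
* `GeoFn36E q N1 N2 hN hqN E0 m C` : the function-level statement at the finite level `E0`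
  (variable levels `N1 ∣ N2`, `q * N1 ∣ N2`, as `S35.H18.GeoFnEN`): for `f ≠ 0` over `E0` with
  `m ∣ ord_v f` at every place (over `Qbar`) and both norms to the level `N1` in `E0^× · F^{× m}`,
  `f ^ C ∈ E0^× · F^{× m}`.
* `Desc36 M0 q m A y` : the conclusion of the descent row (D1) (helper11): a finite `E0`, pointwise
  fixed by the inertia group, a representative `D` of `y` and `f0` over `E0` with `div f0 = m D`,
  and the two norm identities over `E0`.
* `ifGeo36_of_geoFn36E` : `(D1)` + the function-level statement at every unramified `E0` give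
  `(IF-GEO36)`.
-/
import Mathlib
import Fermat.Agent.S35.H86_Pushforward
import Fermat.Agent.S35.H16_RelDegV
import Fermat.Agent.S18.H99_F1Basics
import Fermat.Agent.S18.H45_CutOverField
import Fermat.Agent.S24.H27_PlaceOfValuation

set_option autoImplicit false
set_option linter.unusedSectionVars false
set_option linter.style.haveILetI false
set_option synthInstance.maxHeartbeats 400000

noncomputable section

namespace Fermat.Agent.S36.H18

open ModularCurve AlgebraicCurve IntermediateField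
open Fermat.Agent.S18 Fermat.Agent.S34

local notation "Qbar" => AlgebraicClosure ℚ
local notation "GQ" => (AlgebraicClosure ℚ ≃ₐ[ℚ] AlgebraicClosure ℚ)

/-- **`(IF-GEO36)`** (helper78 #3108): there is `c > 0` with `c • y = 0` for every `p`-power
torsion class `y` of `J₀((M0 q) q)` fixed by an inertia group over `q` and killed by both
pushforwards to `J₀(M0 q)`. -/
def IfGeo36 (M0 q p : ℕ) [NeZero M0] [NeZero q] : Prop :=
  ∃ c : ℕ, 0 < c ∧ ∀ (k : ℕ) (A : ValuationSubring Qbar), A.LiesOverPrime q →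
    ∀ y : JZero ((M0 * q) * q), (p ^ k) • y = 0 →
      (∀ σ ∈ A.inertiaSubgroupIn ℚ, σ • y = y) →
      S35.H86.pushAlpha (M0 * q) q y = 0 → S35.H86.pushBeta (M0 * q) q y = 0 → c • y = 0

/-- **The function-level statement at a finite level `E0`** (variable levels `N1 ∣ N2`,
`q * N1 ∣ N2`). -/
def GeoFn36E (q N1 N2 : ℕ) [NeZero q] [NeZero N1] [NeZero N2] (hN : N1 ∣ N2) (hqN : q * N1 ∣ N2)
    {l : ℕ} (E0 : IntermediateField (H45.unrCyclo l) Qbar) (m C : ℕ) : Prop :=
  ∀ f : modularFunctionFieldFullC ↥E0 N2, f ≠ 0 →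
    (∀ v : Place Qbar (S24.FN N2), (m : ℤ) ∣ v.ord (H99.toBar ↥E0 N2 f)) →
    (∃ (c : ↥E0) (h : modularFunctionFieldFullC ↥E0 N1), c ≠ 0 ∧ h ≠ 0 ∧
      (letI := H16.degAlgebra ↥E0 N1 N2 hN;
        Algebra.norm (modularFunctionFieldFullC ↥E0 N1) f) =
          algebraMap ↥E0 (modularFunctionFieldFullC ↥E0 N1) c * h ^ m) →
    (∃ (c : ↥E0) (h : modularFunctionFieldFullC ↥E0 N1), c ≠ 0 ∧ h ≠ 0 ∧
      (letI := S35.H16.vAlgebra ↥E0 q N1 N2 hqN;
        Algebra.norm (modularFunctionFieldFullC ↥E0 N1) f) =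
          algebraMap ↥E0 (modularFunctionFieldFullC ↥E0 N1) c * h ^ m) →
    ∃ (c : ↥E0) (w : modularFunctionFieldFullC ↥E0 N2), c ≠ 0 ∧ w ≠ 0 ∧
      f ^ C = algebraMap ↥E0 (modularFunctionFieldFullC ↥E0 N2) c * w ^ m

/-- **The conclusion of the descent row (D1)**: `y` has a representative `D` and a function `f0`
defined over a finite field `E0` pointwise fixed by the inertia group of `A`, with
`div f0 = m D` and both norms to the level `M0 q` in `E0^× · F^{× m}`. -/
def Desc36 (M0 q m : ℕ) [NeZero M0] [NeZero q] (A : ValuationSubring Qbar)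
    (y : JZero ((M0 * q) * q)) : Prop :=
  ∃ E0 : IntermediateField (H45.unrCyclo q) Qbar,
    FiniteDimensional (H45.unrCyclo q) E0 ∧
    (∀ σ ∈ A.inertiaSubgroupIn ℚ, ∀ x : E0, σ (x : Qbar) = x) ∧
    ∃ (f0 : modularFunctionFieldFullC ↥E0 ((M0 * q) * q))
      (D : Divisor.degZero (K := Qbar) (F := modularFunctionFieldBar ((M0 * q) * q))),
      f0 ≠ 0 ∧ Pic0.mk D = y ∧
      (∀ v : Place Qbar (S24.FN ((M0 * q) * q)),
        v.ord (H99.toBar ↥E0 ((M0 * q) * q) f0) =
          (m : ℤ) * (D : Divisor Qbar (modularFunctionFieldBar ((M0 * q) * q))) v) ∧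
      (∃ (c : ↥E0) (h : modularFunctionFieldFullC ↥E0 (M0 * q)), c ≠ 0 ∧ h ≠ 0 ∧
        (letI := H16.degAlgebra ↥E0 (M0 * q) ((M0 * q) * q) (dvd_mul_right (M0 * q) q);
          Algebra.norm (modularFunctionFieldFullC ↥E0 (M0 * q)) f0) =
            algebraMap ↥E0 (modularFunctionFieldFullC ↥E0 (M0 * q)) c * h ^ m) ∧
      (∃ (c : ↥E0) (h : modularFunctionFieldFullC ↥E0 (M0 * q)), c ≠ 0 ∧ h ≠ 0 ∧
        (letI := S35.H16.vAlgebra ↥E0 q (M0 * q) ((M0 * q) * q)
            (dvd_of_eq (mul_comm q (M0 * q)));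
          Algebra.norm (modularFunctionFieldFullC ↥E0 (M0 * q)) f0) =
            algebraMap ↥E0 (modularFunctionFieldFullC ↥E0 (M0 * q)) c * h ^ m)

/-- **`(D1)` + the function-level statement at every unramified finite level give
`(IF-GEO36)`.** -/
theorem ifGeo36_of_geoFn36E (M0 q p : ℕ) [NeZero M0] [NeZero q] (hp : p ≠ 0) (C : ℕ)
    (hC : 0 < C)
    (hdesc : ∀ (k : ℕ) (A : ValuationSubring Qbar), A.LiesOverPrime q →
      ∀ y : JZero ((M0 * q) * q), (p ^ k) • y = 0 →
        (∀ σ ∈ A.inertiaSubgroupIn ℚ, σ • y = y) →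
        S35.H86.pushAlpha (M0 * q) q y = 0 → S35.H86.pushBeta (M0 * q) q y = 0 →
        Desc36 M0 q (p ^ k) A y)
    (hgeo : ∀ (k : ℕ) (A : ValuationSubring Qbar), A.LiesOverPrime q →
      ∀ (E0 : IntermediateField (H45.unrCyclo q) Qbar) [FiniteDimensional (H45.unrCyclo q) E0],
        (∀ σ ∈ A.inertiaSubgroupIn ℚ, ∀ x : E0, σ (x : Qbar) = x) →
        GeoFn36E q (M0 * q) ((M0 * q) * q) (dvd_mul_right (M0 * q) q)
          (dvd_of_eq (mul_comm q (M0 * q))) E0 (p ^ k) C) :
    IfGeo36 M0 q p := by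
  refine ⟨C, hC, fun k A hA y hy hinv hα hβ => ?_⟩
  obtain ⟨E0, hfin, hfix, f0, D, hf0, hDy, hord, hNα, hNβ⟩ := hdesc k A hA y hy hinv hα hβ
  haveI := hfin
  obtain ⟨c, w, hc, hw, hfw⟩ :=
    hgeo k A hA E0 hfix f0 hf0 (fun v => ⟨_, hord v⟩) hNα hNβ
  have hm : ((p ^ k : ℕ) : ℤ) ≠ 0 := by exact_mod_cast pow_ne_zero k hp
  -- `C • D = div (toBar w)`
  have hwbar : H99.toBar ↥E0 ((M0 * q) * q) w ≠ 0 := fun h0 =>
    hw (H99.toBar_injective ↥E0 ((M0 * q) * q) (by rw [h0, map_zero]))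
  have hfbar : H99.toBar ↥E0 ((M0 * q) * q) f0 ≠ 0 := fun h0 =>
    hf0 (H99.toBar_injective ↥E0 ((M0 * q) * q) (by rw [h0, map_zero]))
  have hcbar : algebraMap Qbar (S24.FN ((M0 * q) * q)) (algebraMap ↥E0 Qbar c) ≠ 0 := by
    intro h0
    apply hc
    have h1 : algebraMap ↥E0 Qbar c = 0 :=
      (algebraMap Qbar (S24.FN ((M0 * q) * q))).injective (by rw [h0, map_zero])
    exact (algebraMap ↥E0 Qbar).injective (by rw [h1, map_zero])
  have hkey : ∀ v : Place Qbar (S24.FN ((M0 * q) * q)),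
      ((C • D : Divisor.degZero (K := Qbar) (F := modularFunctionFieldBar ((M0 * q) * q))) :
        Divisor Qbar (modularFunctionFieldBar ((M0 * q) * q))) v =
        v.ord (H99.toBar ↥E0 ((M0 * q) * q) w) := by
    intro v
    have h1 := congrArg (H99.toBar ↥E0 ((M0 * q) * q)) hfw
    rw [map_pow, map_mul, map_pow, H99.toBar_algebraMap] at h1
    have h2 := congrArg v.ord h1
    rw [← zpow_natCast, ← zpow_natCast, v.ord_zpow, v.ord_mul hcbar (zpow_ne_zero _ hwbar),
      S24.H27.ord_algebraMap, zero_add, v.ord_zpow, hord v] at h2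
    have h3 : ((p ^ k : ℕ) : ℤ) * ((C : ℤ) *
        (D : Divisor Qbar (modularFunctionFieldBar ((M0 * q) * q))) v) =
        ((p ^ k : ℕ) : ℤ) * v.ord (H99.toBar ↥E0 ((M0 * q) * q) w) := by
      rw [← h2]; ring
    have h4 := mul_left_cancel₀ hm h3
    rw [← h4, AddSubgroup.coe_nsmul, Finsupp.smul_apply, nsmul_eq_mul]
  rw [← hDy]
  have hCD : C • Pic0.mk D = Pic0.mk (C • D) := (QuotientAddGroup.mk_nsmul _ D C).symm
  rw [hCD, Pic0.mk, QuotientAddGroup.eq_zero_iff, AddSubgroup.mem_addSubgroupOf]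
  exact ⟨H99.toBar ↥E0 ((M0 * q) * q) w, hwbar, hkey⟩

end Fermat.Agent.S36.H18
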