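/-
helper18 — S36 rows (D1)/(E7): **norm descent `F_L(M q) → F_L(M)` versus `FN (M q) → FN M` at
EVERY level `M`** (in particular `q ∣ M`, which `S35.H18.toBar_norm_alpha/_beta` exclude).

For a field `L` with `Algebra L Qbar`, a level `M` and `q` (`M q ≠ 0`), the coefficient embedding
`toBar : F_L(·) → FN (·)` intertwines the norms:

* `toBar_norm_alpha36` : along the inclusion `H16.degAlgebra L M (M * q)` / `heckeAlphaBar`;
* `toBar_norm_beta36`  : along `V_q` = `S35.H16.vAlgebra L q M (M * q)` / `heckeBetaBar`.

The degree equalities `[F_L(Mq) : F_L(M)] = [FN (Mq) : FN M]` come from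
`ψ(M) · [F_K(Mq) : F_K(M)] = ψ(M q)` for every `K` (helper16's `relfinrank_fullC_mul`,
`relfinrank_kJq_vRange`, `relfinrank_kJq_fullC`, none of which has a coprimality hypothesis).
-/
import Mathlib
import Fermat.Agent.S35.H18_NormDesc

set_option autoImplicit false
set_option linter.unusedSectionVars false
set_option linter.style.haveILetI false
set_option synthInstance.maxHeartbeats 400000

noncomputable section

namespace Fermat.Agent.S36.H18

open ModularCurve AlgebraicCurve HahnSeries Fermat.Agent.S18 Fermat.Agent.S34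

local notation "Qbar" => AlgebraicClosure ℚ

section Degree

variable (K : Type) [Field K] (M q : ℕ) [NeZero M] [NeZero q]

/-- `ψ(M) · [F_K(M q) : F_K(M)] = ψ(M q)` for the inclusion algebra. -/
theorem psi_mul_finrank_deg (hNK : ((M * q : ℕ) : K) ≠ 0) :
    letI := H16.degAlgebra K M (M * q) (dvd_mul_right M q)
    dedekindPsi M * Module.finrank (modularFunctionFieldFullC K M)
      (modularFunctionFieldFullC K (M * q)) = dedekindPsi (M * q) := by
  letI := H16.degAlgebra K M (M * q) (dvd_mul_right M q)
  rw [← H16.relfinrank_fullC_mul K M (M * q) (dvd_mul_right M q) hNK,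
    IntermediateField.relfinrank_eq_finrank_of_le (full_degeneracyC_le K (dvd_mul_right M q))]
  let e : (IntermediateField.extendScalars (full_degeneracyC_le K (dvd_mul_right M q)))
      ≃ₗ[modularFunctionFieldFullC K M] modularFunctionFieldFullC K (M * q) :=
    { toFun := fun x => ⟨x.1, x.2⟩
      invFun := fun x => ⟨x.1, x.2⟩
      map_add' := fun _ _ => rfl
      map_smul' := fun _ _ => rfl
      left_inv := fun _ => rfl
      right_inv := fun _ => rfl }
  rw [e.finrank_eq]

/-- `ψ(M) · [F_K(M q) : V_q F_K(M)] = ψ(M q)` for the `V_q`-algebra. -/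
theorem psi_mul_finrank_v (hNK : ((M * q : ℕ) : K) ≠ 0) :
    letI := S35.H16.vAlgebra K q M (M * q) (dvd_of_eq (mul_comm q M))
    dedekindPsi M * Module.finrank (modularFunctionFieldFullC K M)
      (modularFunctionFieldFullC K (M * q)) = dedekindPsi (M * q) := by
  letI := S35.H16.vAlgebra K q M (M * q) (dvd_of_eq (mul_comm q M))
  have hN : M * q = q * M := mul_comm M q
  have hqN : q ∣ M * q := Dvd.intro_left M rfl
  have hMN : M ∣ M * q := dvd_mul_right M q
  have h1 := S35.H16.relfinrank_kJq_vRange K q M (S35.H16.natCast_ne_zero_of_dvd K hMN hNK)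
  have h2 := S35.H16.relfinrank_kJq_fullC K q (M * q) hqN hNK
  have h3 := IntermediateField.relfinrank_mul_relfinrank (S35.H16.kJq_le_vRange K q M)
    (S35.H16.vRange_le_fullC K q M (M * q) hN)
  rw [h1, h2] at h3
  rw [← h3, IntermediateField.relfinrank_eq_finrank_of_le
    (S35.H16.vRange_le_fullC K q M (M * q) hN)]
  congr 1
  let i : modularFunctionFieldFullC K M ≃+* S35.H16.vRange K q M :=
    (IntermediateField.equivMap (modularFunctionFieldFullC K M) (qExpandAlgHomC K q)).toRingEquiv
  let j : modularFunctionFieldFullC K (M * q) ≃+*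
      (IntermediateField.extendScalars (S35.H16.vRange_le_fullC K q M (M * q) hN)) :=
    { toFun := fun x => ⟨x.1, x.2⟩
      invFun := fun x => ⟨x.1, x.2⟩
      left_inv := fun _ => rfl
      right_inv := fun _ => rfl
      map_mul' := fun _ _ => rfl
      map_add' := fun _ _ => rfl }
  refine Algebra.finrank_eq_of_equiv_equiv i j ?_
  apply RingHom.ext
  intro x
  apply Subtype.ext
  rfl

end Degree

variable (L : Type) [Field L] [Algebra L Qbar] (M q : ℕ) [NeZero M] [NeZero q]

/-- `[FN (M q) : α (FN M)] = [F_Qbar(M q) : F_Qbar(M)]`. -/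
theorem finrank_alphaBar_eq :
    (letI := algebraAlong (heckeAlphaBar Qbar M q);
      Module.finrank (S24.FN M) (S24.FN (M * q))) =
    (letI := H16.degAlgebra Qbar M (M * q) (dvd_mul_right M q);
      Module.finrank (modularFunctionFieldFullC Qbar M) (modularFunctionFieldFullC Qbar (M * q))) := by
  letI a2 := algebraAlong (heckeAlphaBar Qbar M q)
  letI a1 := H16.degAlgebra Qbar M (M * q) (dvd_mul_right M q)
  symm
  let i : modularFunctionFieldFullC Qbar M ≃+* S24.FN M :=
    (IntermediateField.equivOfEq (H99.fullC_Qbar_eq_bar M)).toRingEquiv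
  let j : modularFunctionFieldFullC Qbar (M * q) ≃+* S24.FN (M * q) :=
    (IntermediateField.equivOfEq (H99.fullC_Qbar_eq_bar (M * q))).toRingEquiv
  refine Algebra.finrank_eq_of_equiv_equiv i j ?_
  apply RingHom.ext
  intro x
  apply Subtype.ext
  show ((heckeAlphaBar Qbar M q (i x) : S24.FN (M * q)) : LaurentSeries Qbar) =
    ((algebraMap (modularFunctionFieldFullC Qbar M) (modularFunctionFieldFullC Qbar (M * q)) x :
      modularFunctionFieldFullC Qbar (M * q)) : LaurentSeries Qbar)
  rw [coe_heckeAlphaBar, H16.degAlgebra_algebraMap_coe]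
  rfl

/-- `[FN (M q) : β (FN M)] = [F_Qbar(M q) : V_q F_Qbar(M)]`. -/
theorem finrank_betaBar_eq :
    (letI := algebraAlong (heckeBetaBar Qbar M q);
      Module.finrank (S24.FN M) (S24.FN (M * q))) =
    (letI := S35.H16.vAlgebra Qbar q M (M * q) (dvd_of_eq (mul_comm q M));
      Module.finrank (modularFunctionFieldFullC Qbar M) (modularFunctionFieldFullC Qbar (M * q))) := by
  letI a2 := algebraAlong (heckeBetaBar Qbar M q)
  letI a1 := S35.H16.vAlgebra Qbar q M (M * q) (dvd_of_eq (mul_comm q M))
  symm
  let i : modularFunctionFieldFullC Qbar M ≃+* S24.FN M :=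
    (IntermediateField.equivOfEq (H99.fullC_Qbar_eq_bar M)).toRingEquiv
  let j : modularFunctionFieldFullC Qbar (M * q) ≃+* S24.FN (M * q) :=
    (IntermediateField.equivOfEq (H99.fullC_Qbar_eq_bar (M * q))).toRingEquiv
  refine Algebra.finrank_eq_of_equiv_equiv i j ?_
  apply RingHom.ext
  intro x
  apply Subtype.ext
  show ((heckeBetaBar Qbar M q (i x) : S24.FN (M * q)) : LaurentSeries Qbar) =
    ((algebraMap (modularFunctionFieldFullC Qbar M) (modularFunctionFieldFullC Qbar (M * q)) x :
      modularFunctionFieldFullC Qbar (M * q)) : LaurentSeries Qbar)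
  rw [coe_heckeBetaBar, S35.H16.vAlgebra_algebraMap_coe]
  rfl

/-- **Norm descent along `α` at every level.** -/
theorem toBar_norm_alpha36 (x : modularFunctionFieldFullC L (M * q)) :
    (letI := H16.degAlgebra L M (M * q) (dvd_mul_right M q);
      H99.toBar L M (Algebra.norm (modularFunctionFieldFullC L M) x)) =
    (letI := algebraAlong (heckeAlphaBar Qbar M q);
      Algebra.norm (S24.FN M) (H99.toBar L (M * q) x)) := by
  letI a1 := H16.degAlgebra L M (M * q) (dvd_mul_right M q)
  letI a2 := algebraAlong (heckeAlphaBar Qbar M q)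
  have hψ := psi_mul_finrank_deg L M q (S35.H18.natCast_ne_zero_L L (M * q))
  have hψ' := psi_mul_finrank_deg Qbar M q (S35.H18.natCast_ne_zero_L Qbar (M * q))
  have hpos : 0 < dedekindPsi (M * q) := S18.H16.dedekindPsi_pos' (M * q)
  haveI : FiniteDimensional (modularFunctionFieldFullC L M)
      (modularFunctionFieldFullC L (M * q)) := by
    apply Module.finite_of_finrank_pos
    by_contra h0
    rw [Nat.eq_zero_of_not_pos h0, mul_zero] at hψ
    omega
  have hdeg : Module.finrank (S24.FN M) (S24.FN (M * q)) =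
      Module.finrank (modularFunctionFieldFullC L M) (modularFunctionFieldFullC L (M * q)) := by
    rw [finrank_alphaBar_eq M q]
    exact Nat.eq_of_mul_eq_mul_left (S18.H16.dedekindPsi_pos' M) (hψ'.trans hψ.symm)
  exact ((Fermat.Agent.S29.H19.norm_baseChange (H99.toBar L M) (H99.toBar L (M * q))
    (S35.H18.toBar_degAlgebra_algebraMap L M q) hdeg
    (S35.H18.closure_alpha_toBar_eq_top L M q) x).1).symm

/-- **Norm descent along `β` at every level.** -/
theorem toBar_norm_beta36 (x : modularFunctionFieldFullC L (M * q)) :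
    (letI := S35.H16.vAlgebra L q M (M * q) (dvd_of_eq (mul_comm q M));
      H99.toBar L M (Algebra.norm (modularFunctionFieldFullC L M) x)) =
    (letI := algebraAlong (heckeBetaBar Qbar M q);
      Algebra.norm (S24.FN M) (H99.toBar L (M * q) x)) := by
  letI a1 := S35.H16.vAlgebra L q M (M * q) (dvd_of_eq (mul_comm q M))
  letI a2 := algebraAlong (heckeBetaBar Qbar M q)
  have hψ := psi_mul_finrank_v L M q (S35.H18.natCast_ne_zero_L L (M * q))
  have hψ' := psi_mul_finrank_v Qbar M q (S35.H18.natCast_ne_zero_L Qbar (M * q))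
  have hpos : 0 < dedekindPsi (M * q) := S18.H16.dedekindPsi_pos' (M * q)
  haveI : FiniteDimensional (modularFunctionFieldFullC L M)
      (modularFunctionFieldFullC L (M * q)) := by
    apply Module.finite_of_finrank_pos
    by_contra h0
    rw [Nat.eq_zero_of_not_pos h0, mul_zero] at hψ
    omega
  have hdeg : Module.finrank (S24.FN M) (S24.FN (M * q)) =
      Module.finrank (modularFunctionFieldFullC L M) (modularFunctionFieldFullC L (M * q)) := by
    rw [finrank_betaBar_eq M q]
    exact Nat.eq_of_mul_eq_mul_left (S18.H16.dedekindPsi_pos' M) (hψ'.trans hψ.symm)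
  exact ((Fermat.Agent.S29.H19.norm_baseChange (H99.toBar L M) (H99.toBar L (M * q))
    (S35.H18.toBar_vAlgebra_algebraMap L M q) hdeg
    (S35.H18.closure_beta_toBar_eq_top L M q) x).1).symm

end Fermat.Agent.S36.H18
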