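/-
S36 / row (D1) DESC36, finite level (helper11): **the descent row, in the shape `H18.Desc36`
consumed by helper18's `H18.ifGeo36_of_geoFn36E`.**

* `inertiaFixed hq hA` : the fixed field of the frozen inertia group of `A`, as an intermediate
  field of `Qbar / unrCyclo q`;
* `exists_toBar_eq_of_forall_coeff_mem` : an element of `FN N` all of whose `q`-expansion
  coefficients lie in `E0` comes from `F_{E0}(N)` (field descent `S29.H62` / `S16.H38`);
* `exists_normalised_norm_eq` : `u = c h^m` with `u` fixed by a set of Galois automorphisms can be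
  rewritten with `c`, `h` fixed;
* `desc36` : **(D1)**.
-/
import Mathlib
import Fermat.Agent.S16.H38_CoeffDescent
import Fermat.Agent.S18.H45_InertiaBase
import Fermat.Agent.S35.H86_DescLevel
import Fermat.Agent.S36.H11_Desc36Bar
import Fermat.Agent.S36.H18_Geo36Top
import Fermat.Agent.S36.H18_NormDesc36

set_option autoImplicit false
set_option linter.unusedSectionVars false
set_option linter.style.haveILetI false
set_option synthInstance.maxHeartbeats 400000
set_option maxHeartbeats 1600000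

noncomputable section

namespace Fermat.Agent.S36.H11

open AlgebraicCurve ModularCurve HahnSeries IntermediateField
open Fermat.Agent.S18 Fermat.Agent.S24 Fermat.Agent.S29 Fermat.Agent.S37.H8

local notation "Qb" => AlgebraicClosure ℚ
local notation "GQ" => (AlgebraicClosure ℚ ≃ₐ[ℚ] AlgebraicClosure ℚ)

/-! ### the fixed field of inertia -/

section Fixed

variable {A : ValuationSubring Qb} {q : ℕ} (hq : q.Prime) (hA : A.LiesOverPrime q)

/-- The fixed field of the frozen inertia group of `A`, over `unrCyclo q`. -/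
def inertiaFixed : IntermediateField (H45.unrCyclo q) Qb where
  carrier := {x | ∀ σ ∈ A.inertiaSubgroupIn ℚ, σ x = x}
  mul_mem' := fun ha hb σ hσ => by rw [map_mul, ha σ hσ, hb σ hσ]
  one_mem' := fun σ _ => map_one σ
  add_mem' := fun ha hb σ hσ => by rw [map_add, ha σ hσ, hb σ hσ]
  zero_mem' := fun σ _ => map_zero σ
  algebraMap_mem' := fun x σ hσ => H45.inertia_apply_unrCyclo hq hA hσ x
  inv_mem' := fun x hx σ hσ => by rw [map_inv₀, hx σ hσ]

theorem mem_inertiaFixed {x : Qb} :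
    x ∈ inertiaFixed hq hA ↔ ∀ σ ∈ A.inertiaSubgroupIn ℚ, σ x = x := Iff.rfl

end Fixed

/-! ### coefficients -/

section Coeff

variable (N : ℕ) [NeZero N]

/-- Field descent: an element of `FN N` whose coefficients all lie in `K` comes from `F_K(N)`. -/
theorem exists_toBar_eq_of_forall_coeff_mem (K : Type) [Field K] [Algebra K Qb]
    (x : FN N)
    (h : ∀ n, (x : LaurentSeries Qb).coeff n ∈ Set.range (algebraMap K Qb)) :
    ∃ y : modularFunctionFieldFullC K N, H99.toBar K N y = x := by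
  haveI : CharZero K := RingHom.charZero (algebraMap K Qb)
  letI : Algebra ℚ K := DivisionRing.toRatAlgebra
  haveI : IsScalarTower ℚ K Qb := IsScalarTower.of_algebraMap_eq' (Subsingleton.elim _ _)
  obtain ⟨g, hg⟩ := Fermat.Agent.S16.H38.exists_bcField_eq_of_forall_coeff_mem_range
    (k := K) (L := Qb) (modularFunctionFieldFull N) x h
  have hmem : (g : LaurentSeries K) ∈ modularFunctionFieldFullC K N := by
    rw [H99.fullC_eq_laurentBaseChange]
    exact g.2
  refine ⟨⟨(g : LaurentSeries K), hmem⟩, Subtype.ext ?_⟩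
  rw [H99.coe_toBar, ← hg]
  rfl

/-- The coefficients of an element in the image of `toBar K N` lie in `K`. -/
theorem coeff_toBar_mem (K : Type) [Field K] [Algebra K Qb]
    (y : modularFunctionFieldFullC K N) (n : ℤ) :
    ((H99.toBar K N y : FN N) : LaurentSeries Qb).coeff n ∈ Set.range (algebraMap K Qb) := by
  rw [H99.coe_toBar, coeffMap_coeff]
  exact ⟨_, rfl⟩

/-- The coefficients of a function fixed by `σ` are fixed by `σ`. -/
theorem coeff_fixed_of_smul_eq (σ : GQ) (x : FN N)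
    (hx : arithmeticGalois (L := Qb) (modularFunctionFieldFull N) σ • x = x) (n : ℤ) :
    σ ((x : LaurentSeries Qb).coeff n) = (x : LaurentSeries Qb).coeff n := by
  have h : ((arithmeticGalois (L := Qb) (modularFunctionFieldFull N) σ • x : FN N) :
      LaurentSeries Qb).coeff n = (x : LaurentSeries Qb).coeff n := by rw [hx]
  rw [coe_arithmeticGalois_smul, coeffMap_coeff] at h
  exact h

end Coeff

/-! ### normalising `u = c h^m` -/

section Normalise

variable (N : ℕ) [NeZero N]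

/-- If `u = c h^m` is fixed by a set `S` of Galois automorphisms (`m ≠ 0`), then `c` and `h` can
be chosen fixed by `S`. -/
theorem exists_normalised_norm_eq (S : Set GQ) {m : ℕ} (hm : m ≠ 0) (u : FL Qb N)
    (hu : ∀ σ ∈ S, arithmeticGalois (L := Qb) (modularFunctionFieldFull N) σ • u = u)
    (c : Qb) (h : FL Qb N) (hc : c ≠ 0) (hh : h ≠ 0)
    (huch : u = algebraMap Qb (FL Qb N) c * h ^ m) :
    ∃ (c' : Qb) (h' : FL Qb N), c' ≠ 0 ∧ h' ≠ 0 ∧
      u = algebraMap Qb (FL Qb N) c' * h' ^ m ∧ (∀ σ ∈ S, σ c' = c') ∧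
      ∀ σ ∈ S, arithmeticGalois (L := Qb) (modularFunctionFieldFull N) σ • h' = h' := by
  obtain ⟨a, n₀, ha0, hcoeff⟩ := exists_smul_coeff_eq_one N hh
  set h' : FL Qb N := a⁻¹ • h with hh'
  have hh'0 : h' ≠ 0 := smul_ne_zero (inv_ne_zero ha0) hh
  have hc'0 : c * a ^ m ≠ 0 := mul_ne_zero hc (pow_ne_zero _ ha0)
  have hu' : u = algebraMap Qb (FL Qb N) (c * a ^ m) * h' ^ m := by
    have ha' : algebraMap Qb (FL Qb N) a ≠ 0 := by simpa using ha0
    rw [huch, hh', Algebra.smul_def, mul_pow, map_mul, map_pow, map_inv₀, inv_pow, mul_assoc,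
      ← mul_assoc (algebraMap Qb (FL Qb N) a ^ m), mul_inv_cancel₀ (pow_ne_zero m ha'), one_mul]
  have hu0 : u ≠ 0 := by
    rw [hu']
    exact mul_ne_zero (by simpa using hc'0) (pow_ne_zero _ hh'0)
  have hmz : (m : ℤ) ≠ 0 := by exact_mod_cast hm
  -- `h'` is fixed
  have hfixh : ∀ σ ∈ S, arithmeticGalois (L := Qb) (modularFunctionFieldFull N) σ • h' = h' := by
    intro σ hσ
    set g := arithmeticGalois (L := Qb) (modularFunctionFieldFull N) σ with hg
    refine arithmeticGalois_smul_eq_self_of_ord_eq N σ h' hh'0 n₀ hcoeff (fun v => ?_)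
    have hgh'0 : g • h' ≠ 0 := by
      rw [Ne, smul_eq_zero_iff_eq]; exact hh'0
    have h1 : g • u = algebraMap Qb (FL Qb N) (σ (c * a ^ m)) * (g • h') ^ m := by
      rw [hu', smul_mul', smul_pow', SemilinearAut.smul_algebraMap]
      rfl
    have hσc0 : algebraMap Qb (FL Qb N) (σ (c * a ^ m)) ≠ 0 := by
      simpa using hc'0
    have h2 : v.ord (g • u) = (m : ℤ) * v.ord (g • h') := by
      rw [h1, v.ord_mul hσc0 (pow_ne_zero _ hgh'0),
        Fermat.Agent.S24.H24.PlaceLemmas.ord_algebraMap v _, zero_add, ← zpow_natCast,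
        v.ord_zpow]
    have h3 : v.ord u = (m : ℤ) * v.ord h' := by
      rw [hu', v.ord_mul (by simpa using hc'0) (pow_ne_zero _ hh'0),
        Fermat.Agent.S24.H24.PlaceLemmas.ord_algebraMap v _, zero_add, ← zpow_natCast,
        v.ord_zpow]
    rw [hu σ hσ, h3] at h2
    exact (mul_left_cancel₀ hmz h2).symm
  refine ⟨c * a ^ m, h', hc'0, hh'0, hu', fun σ hσ => ?_, hfixh⟩
  -- `c'` is fixed
  set g := arithmeticGalois (L := Qb) (modularFunctionFieldFull N) σ with hg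
  have h1 : g • u = algebraMap Qb (FL Qb N) (σ (c * a ^ m)) * (g • h') ^ m := by
    rw [hu', smul_mul', smul_pow', SemilinearAut.smul_algebraMap]
    rfl
  rw [hu σ hσ, hfixh σ hσ] at h1
  have h2 : algebraMap Qb (FL Qb N) (c * a ^ m) * h' ^ m =
      algebraMap Qb (FL Qb N) (σ (c * a ^ m)) * h' ^ m := by
    rw [← hu', h1]
  have h3 := mul_right_cancel₀ (pow_ne_zero m hh'0) h2
  exact ((algebraMap Qb (FL Qb N)).injective h3).symm

end Normalise

/-! ### (D1) -/

section Main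

variable (M0 q : ℕ) [NeZero M0] [NeZero q]

/-- **(D1) DESC36.** -/
theorem desc36 (hq : q.Prime) {m : ℕ} (hm : m ≠ 0) (A : ValuationSubring Qb)
    (hA : A.LiesOverPrime q) (y : JZero ((M0 * q) * q)) (hy : m • y = 0)
    (hinv : ∀ σ ∈ A.inertiaSubgroupIn ℚ, σ • y = y)
    (hα : S35.H86.pushAlpha (M0 * q) q y = 0) (hβ : S35.H86.pushBeta (M0 * q) q y = 0) :
    H18.Desc36 M0 q m A y := by
  classical
  set S : Set GQ := {σ | σ ∈ A.inertiaSubgroupIn ℚ} with hS
  -- (D1a)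
  obtain ⟨D, f, hf0, hDy, hfD, -, hffix⟩ :=
    exists_fixed_divisor_function ((M0 * q) * q) S (m : ℤ) y
      (by rw [natCast_zsmul]; exact hy) (fun σ hσ => hinv σ hσ)
  -- the two norms at the `Qbar` level
  obtain ⟨cα, hα', hcα, hhα, hNα⟩ :=
    S35.H86.exists_normAlpha_eq_of_pushAlpha_eq_zero (M0 * q) q D (by rw [hDy]; exact hα) hf0 hfD
  obtain ⟨cβ, hβ', hcβ, hhβ, hNβ⟩ :=
    S35.H86.exists_normBeta_eq_of_pushBeta_eq_zero (M0 * q) q D (by rw [hDy]; exact hβ) hf0 hfD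
  -- a first level `E1` carrying `f`
  obtain ⟨C₁, hC₁⟩ := S35.H86.exists_finset_forall_mem_range_toBar ((M0 * q) * q) f
  obtain ⟨E1, hE1fin, -, hE1C⟩ := H45.exists_finite_galois_ge q C₁
  have hfE : ∀ (E0 : IntermediateField (H45.unrCyclo q) Qb), E1 ⊓ inertiaFixed hq hA ≤ E0 →
      ∃ f0 : modularFunctionFieldFullC ↥E0 ((M0 * q) * q),
        H99.toBar ↥E0 ((M0 * q) * q) f0 = f := by
    intro E0 hle
    obtain ⟨f1, hf1⟩ := hC₁ ↥E1 (fun c hc => ⟨⟨c, hE1C c hc⟩, rfl⟩)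
    refine exists_toBar_eq_of_forall_coeff_mem ((M0 * q) * q) ↥E0 f (fun n => ?_)
    have h1 : (f : LaurentSeries Qb).coeff n ∈ E1 := by
      obtain ⟨a, ha⟩ := coeff_toBar_mem ((M0 * q) * q) ↥E1 f1 n
      rw [hf1] at ha
      rw [← ha]
      exact a.2
    have h2 : (f : LaurentSeries Qb).coeff n ∈ inertiaFixed hq hA := fun σ hσ =>
      coeff_fixed_of_smul_eq ((M0 * q) * q) σ f (hffix σ hσ) n
    exact ⟨⟨_, hle ⟨h1, h2⟩⟩, rfl⟩
  -- the norms of `f` are fixed by inertia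
  obtain ⟨f1, hf1⟩ := hfE (E1 ⊓ inertiaFixed hq hA) le_rfl
  have hfixE : ∀ σ ∈ S, ∀ x : ↥(E1 ⊓ inertiaFixed hq hA), σ (x : Qb) = x :=
    fun σ hσ x => x.2.2 σ hσ
  have hfix_toBar : ∀ (N : ℕ) [NeZero N] (z : modularFunctionFieldFullC ↥(E1 ⊓ inertiaFixed hq hA) N),
      ∀ σ ∈ S, arithmeticGalois (L := Qb) (modularFunctionFieldFull N) σ •
        H99.toBar ↥(E1 ⊓ inertiaFixed hq hA) N z = H99.toBar ↥(E1 ⊓ inertiaFixed hq hA) N z := by
    intro N _ z σ hσ
    apply Subtype.ext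
    rw [coe_arithmeticGalois_smul, H99.coe_toBar, coeffMap_coeffMap]
    exact coeffMap_congr (RingHom.ext fun c => hfixE σ hσ c) _
  have hNαfix : ∀ σ ∈ S, arithmeticGalois (L := Qb) (modularFunctionFieldFull (M0 * q)) σ •
      S35.H86.normAlpha (M0 * q) q f = S35.H86.normAlpha (M0 * q) q f := by
    intro σ hσ
    have h1 := H18.toBar_norm_alpha36 ↥(E1 ⊓ inertiaFixed hq hA) (M0 * q) q f1
    rw [hf1] at h1
    have h2 : S35.H86.normAlpha (M0 * q) q f = _ := h1.symm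
    rw [h2]
    exact hfix_toBar (M0 * q) _ σ hσ
  have hNβfix : ∀ σ ∈ S, arithmeticGalois (L := Qb) (modularFunctionFieldFull (M0 * q)) σ •
      S35.H86.normBeta (M0 * q) q f = S35.H86.normBeta (M0 * q) q f := by
    intro σ hσ
    have h1 := H18.toBar_norm_beta36 ↥(E1 ⊓ inertiaFixed hq hA) (M0 * q) q f1
    rw [hf1] at h1
    have h2 : S35.H86.normBeta (M0 * q) q f = _ := h1.symm
    rw [h2]
    exact hfix_toBar (M0 * q) _ σ hσ
  -- normalise
  obtain ⟨cα₁, hα₁, hcα₁, hhα₁, hNα₁, hcαfix, hhαfix⟩ :=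
    exists_normalised_norm_eq (M0 * q) S hm _ hNαfix cα hα' hcα hhα hNα
  obtain ⟨cβ₁, hβ₁, hcβ₁, hhβ₁, hNβ₁, hcβfix, hhβfix⟩ :=
    exists_normalised_norm_eq (M0 * q) S hm _ hNβfix cβ hβ' hcβ hhβ hNβ
  -- the final level
  obtain ⟨C₂, hC₂⟩ := S35.H86.exists_finset_forall_mem_range_toBar (M0 * q) hα₁
  obtain ⟨C₃, hC₃⟩ := S35.H86.exists_finset_forall_mem_range_toBar (M0 * q) hβ₁
  obtain ⟨E2, hE2fin, -, hE2C⟩ := H45.exists_finite_galois_ge q (C₁ ∪ C₂ ∪ C₃ ∪ {cα₁, cβ₁})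
  set E0 : IntermediateField (H45.unrCyclo q) Qb := E2 ⊓ inertiaFixed hq hA with hE0
  have hE0fin : FiniteDimensional (H45.unrCyclo q) ↥E0 := by
    haveI := hE2fin
    exact Module.Finite.of_injective (IntermediateField.inclusion (inf_le_left : E0 ≤ E2)).toLinearMap
      (IntermediateField.inclusion_injective (inf_le_left : E0 ≤ E2))
  have hE0fix : ∀ σ ∈ A.inertiaSubgroupIn ℚ, ∀ x : ↥E0, σ (x : Qb) = x :=
    fun σ hσ x => x.2.2 σ hσ
  -- membership of the coefficients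
  have hmemE0 : ∀ (N : ℕ) [NeZero N] (x : FN N) (C : Finset Qb),
      (∀ (K : Type) [Field K] [Algebra K Qb], (∀ c ∈ C, c ∈ (algebraMap K Qb).range) →
        ∃ y : modularFunctionFieldFullC K N, H99.toBar K N y = x) →
      (∀ c ∈ C, c ∈ E2) →
      (∀ σ ∈ S, arithmeticGalois (L := Qb) (modularFunctionFieldFull N) σ • x = x) →
      ∃ x0 : modularFunctionFieldFullC ↥E0 N, H99.toBar ↥E0 N x0 = x := by
    intro N _ x C hC hCE hxfix
    obtain ⟨x1, hx1⟩ := hC ↥E2 (fun c hc => ⟨⟨c, hCE c hc⟩, rfl⟩)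
    refine exists_toBar_eq_of_forall_coeff_mem N ↥E0 x (fun n => ?_)
    have h1 : (x : LaurentSeries Qb).coeff n ∈ E2 := by
      obtain ⟨a, ha⟩ := coeff_toBar_mem N ↥E2 x1 n
      rw [hx1] at ha
      rw [← ha]
      exact a.2
    have h2 : (x : LaurentSeries Qb).coeff n ∈ inertiaFixed hq hA := fun σ hσ =>
      coeff_fixed_of_smul_eq N σ x (hxfix σ hσ) n
    exact ⟨⟨_, ⟨h1, h2⟩⟩, rfl⟩
  have hsub : ∀ c ∈ C₁ ∪ C₂ ∪ C₃ ∪ {cα₁, cβ₁}, c ∈ E2 := hE2C
  obtain ⟨f0, hf0'⟩ := hmemE0 ((M0 * q) * q) f C₁ hC₁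
    (fun c hc => hsub c (by simp only [Finset.mem_union]; tauto)) hffix
  obtain ⟨hα0, hhα0⟩ := hmemE0 (M0 * q) hα₁ C₂ hC₂
    (fun c hc => hsub c (by simp only [Finset.mem_union]; tauto)) hhαfix
  obtain ⟨hβ0, hhβ0⟩ := hmemE0 (M0 * q) hβ₁ C₃ hC₃
    (fun c hc => hsub c (by simp only [Finset.mem_union]; tauto)) hhβfix
  have hcαE0 : cα₁ ∈ E0 :=
    ⟨hsub cα₁ (by simp), fun σ hσ => hcαfix σ hσ⟩
  have hcβE0 : cβ₁ ∈ E0 :=
    ⟨hsub cβ₁ (by simp), fun σ hσ => hcβfix σ hσ⟩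
  have hf00 : f0 ≠ 0 := by
    rintro rfl
    rw [map_zero] at hf0'
    exact hf0 hf0'.symm
  have hhα00 : hα0 ≠ 0 := by
    rintro rfl
    rw [map_zero] at hhα0
    exact hhα₁ hhα0.symm
  have hhβ00 : hβ0 ≠ 0 := by
    rintro rfl
    rw [map_zero] at hhβ0
    exact hhβ₁ hhβ0.symm
  refine ⟨E0, hE0fin, hE0fix, f0, D, hf00, hDy, ?_, ?_, ?_⟩
  · intro v
    rw [hf0']
    exact hfD v
  · refine ⟨⟨cα₁, hcαE0⟩, hα0, ?_, hhα00, ?_⟩
    · intro h0
      exact hcα₁ (congrArg Subtype.val h0)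
    · apply H99.toBar_injective ↥E0 (M0 * q)
      have h1 := H18.toBar_norm_alpha36 ↥E0 (M0 * q) q f0
      rw [hf0'] at h1
      rw [h1, map_mul, map_pow, H99.toBar_algebraMap, hhα0]
      exact hNα₁
  · refine ⟨⟨cβ₁, hcβE0⟩, hβ0, ?_, hhβ00, ?_⟩
    · intro h0
      exact hcβ₁ (congrArg Subtype.val h0)
    · apply H99.toBar_injective ↥E0 (M0 * q)
      have h1 := H18.toBar_norm_beta36 ↥E0 (M0 * q) q f0
      rw [hf0'] at h1
      rw [h1, map_mul, map_pow, H99.toBar_algebraMap, hhβ0]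
      exact hNβ₁

/-- **`(IF-GEO36)` from the function-level statement alone** (helper18's
`H18.ifGeo36_of_geoFn36E` with its descent hypothesis discharged by `desc36`). -/
theorem ifGeo36_of_geoFn36E_only (p : ℕ) (hq : q.Prime) (hp : p ≠ 0) (C : ℕ) (hC : 0 < C)
    (hgeo : ∀ (k : ℕ) (A : ValuationSubring Qb), A.LiesOverPrime q →
      ∀ (E0 : IntermediateField (H45.unrCyclo q) Qb) [FiniteDimensional (H45.unrCyclo q) E0],
        (∀ σ ∈ A.inertiaSubgroupIn ℚ, ∀ x : E0, σ (x : Qb) = x) →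
        H18.GeoFn36E q (M0 * q) ((M0 * q) * q) (dvd_mul_right (M0 * q) q)
          (dvd_of_eq (mul_comm q (M0 * q))) E0 (p ^ k) C) :
    H18.IfGeo36 M0 q p :=
  H18.ifGeo36_of_geoFn36E M0 q p hp C hC
    (fun k A hA y hy hinv hα hβ =>
      desc36 M0 q hq (pow_ne_zero k hp) A hA y hy hinv hα hβ) hgeo

end Main

end Fermat.Agent.S36.H11
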