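/-
helper18 — S36 row (E7): **the level seam.**  The class-level statement `H18.IfGeo36 L q p` lives at
the levels `L * q`, `(L * q) * q` (helper86's `pushAlpha (L * q) q`); the L0-based model side lives
at `q * L`, `q * (q * L)`.  `geoFn36E_of_level_eq` transports `GeoFn36E` along equalities of levels,
and `ifGeo36_of_model` is `H18.ifGeo36_of_geoFn36E` with the model-side hypothesis at the
producers' spelling of the levels.
-/
import Mathlib
import Fermat.Agent.S36.H18_Geo36Top

set_option autoImplicit false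
set_option linter.unusedSectionVars false
set_option linter.style.haveILetI false
set_option synthInstance.maxHeartbeats 400000

noncomputable section

namespace Fermat.Agent.S36.H18

open ModularCurve AlgebraicCurve IntermediateField
open Fermat.Agent.S18 Fermat.Agent.S34

local notation "Qbar" => AlgebraicClosure ℚ

/-- Transport of `GeoFn36E` along equalities of levels. -/
theorem geoFn36E_of_level_eq (q : ℕ) [NeZero q] {N1 N2 N1' N2' : ℕ} [NeZero N1] [NeZero N2]
    [NeZero N1'] [NeZero N2'] (h1 : N1 = N1') (h2 : N2 = N2')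
    (hN : N1 ∣ N2) (hqN : q * N1 ∣ N2) (hN' : N1' ∣ N2') (hqN' : q * N1' ∣ N2')
    {l : ℕ} (E0 : IntermediateField (H45.unrCyclo l) Qbar) (m C : ℕ)
    (H : GeoFn36E q N1 N2 hN hqN E0 m C) : GeoFn36E q N1' N2' hN' hqN' E0 m C := by
  subst h1
  subst h2
  exact H

/-- **`(D1)` + the model-side statement at the levels `q * L`, `q * (q * L)` give `(IF-GEO36)`
at `L`.** -/
theorem ifGeo36_of_model (L q p : ℕ) [NeZero L] [NeZero q] (hp : p ≠ 0) (C : ℕ) (hC : 0 < C)
    (hdesc : ∀ (k : ℕ) (A : ValuationSubring Qbar), A.LiesOverPrime q →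
      ∀ y : JZero ((L * q) * q), (p ^ k) • y = 0 →
        (∀ σ ∈ A.inertiaSubgroupIn ℚ, σ • y = y) →
        S35.H86.pushAlpha (L * q) q y = 0 → S35.H86.pushBeta (L * q) q y = 0 →
        Desc36 L q (p ^ k) A y)
    (hmodel : ∀ (k : ℕ) (A : ValuationSubring Qbar), A.LiesOverPrime q →
      ∀ (E0 : IntermediateField (H45.unrCyclo q) Qbar) [FiniteDimensional (H45.unrCyclo q) E0],
        (∀ σ ∈ A.inertiaSubgroupIn ℚ, ∀ x : E0, σ (x : Qbar) = x) →
        GeoFn36E q (q * L) (q * (q * L)) (dvd_mul_left (q * L) q) dvd_rfl E0 (p ^ k) C) :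
    IfGeo36 L q p := by
  refine ifGeo36_of_geoFn36E L q p hp C hC hdesc (fun k A hA E0 _ hfix => ?_)
  exact geoFn36E_of_level_eq q (mul_comm q L) (by rw [mul_comm q (q * L), mul_comm q L])
    (dvd_mul_left (q * L) q) dvd_rfl (dvd_mul_right (L * q) q)
    (dvd_of_eq (mul_comm q (L * q))) E0 (p ^ k) C (hmodel k A hA E0 hfix)

/-- `IfGeo36` in helper57's WEAKEST input form of `H57.s36_of_geo36` (one place `A` over `q`). -/
theorem weakest_of_ifGeo36 {M0 q p : ℕ} [NeZero M0] [NeZero q] (h : IfGeo36 M0 q p)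
    (hA : ∃ A : ValuationSubring Qbar, A.LiesOverPrime q) :
    ∃ A : ValuationSubring Qbar, A.LiesOverPrime q ∧ ∃ c : ℕ, c ≠ 0 ∧
      ∀ y : JZero ((M0 * q) * q), (∃ k : ℕ, p ^ k • y = 0) →
        S35.H86.pushAlpha (M0 * q) q y = 0 → S35.H86.pushBeta (M0 * q) q y = 0 →
        (∀ σ ∈ A.inertiaSubgroupIn ℚ, σ • y = y) → c • y = 0 := by
  obtain ⟨A, hA⟩ := hA
  obtain ⟨c, hc, h⟩ := h
  exact ⟨A, hA, c, hc.ne', fun y ⟨k, hk⟩ hα hβ hinv => h k A hA y hk hinv hα hβ⟩

end Fermat.Agent.S36.H18
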