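/-
helper72 — S36 row (D2) AUX LEVEL, part 1: linear disjointness of the level inclusions.

* `series_ne_jd_of_not_dvd` : `j(t^N) ∉ F_M` when `N ∤ M` (analytic: `Θ` of an element of `F_M` is
  `Γ₀(M)`-invariant, `τ ↦ J(Nτ)` is invariant exactly under `Γ₀(N)`);
* `span_range_inclHom` : for `M₁ ∣ M`, `M₂ ∣ M` with `[F_M : F_{M₂}]` prime and `M₁ ∤ M₂`, the field
  `F_M` is spanned over `F_{M₂}` by `F_{M₁}`;
* `normAlong_inclHom_baseChange` : norm base change in the square of inclusions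
  `F_{M₀} ⊆ F_{M₁}`, `F_{M₀} ⊆ F_{M₂}`, `F_{M₁}, F_{M₂} ⊆ F_M`.
-/
import Mathlib
import Fermat.Agent.S24.H17_Theta
import Fermat.Agent.S24.H40_Generation
import Fermat.Agent.S29.H87_HeckeFuncComm

set_option autoImplicit false
set_option linter.unusedSectionVars false
set_option linter.style.haveILetI false

noncomputable section

namespace Fermat.Agent.S36.H72

open UpperHalfPlane ModularCurve AlgebraicCurve
open scoped Manifold MatrixGroups
open Fermat.Agent.S24 Fermat.Agent.S29.H87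

/-- The element `(1 0; M 1)` of `Γ₀(M)`. -/
def lowerUnip (M : ℕ) : SL(2, ℤ) :=
  ⟨!![1, 0; (M : ℤ), 1], by simp [Matrix.det_fin_two]⟩

theorem lowerUnip_mem_Gamma0_iff (M N : ℕ) :
    lowerUnip M ∈ CongruenceSubgroup.Gamma0 N ↔ N ∣ M := by
  rw [CongruenceSubgroup.Gamma0_mem]
  show (((M : ℤ) : ZMod N)) = 0 ↔ N ∣ M
  rw [Int.cast_natCast, ZMod.natCast_eq_zero_iff]

/-- **`j(t^N) ∉ F_M` when `N ∤ M`.** -/
theorem series_ne_jd_of_not_dvd {M N : ℕ} [NeZero M] [NeZero N] (hNM : ¬ N ∣ M) (x : FN M) :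
    (x : LaurentSeries Qbar) ≠ ((jd N N dvd_rfl : FN N) : LaurentSeries Qbar) := by
  intro hx
  obtain ⟨a, ha, b, hb, hb0, hxab⟩ := H40.exists_div_AN M x
  have ha' : a ∈ H17.A M := ha
  have hb' : b ∈ H17.A M := hb
  have hbx : b * x = a := by rw [hxab]; field_simp
  have hser : (b : LaurentSeries Qbar) * ((jd N N dvd_rfl : FN N) : LaurentSeries Qbar)
      = (a : LaurentSeries Qbar) := by
    rw [← hx, ← hbx]
    rfl
  have hQa := H17.isQSum_Theta M ha'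
  have hQb := H17.isQSum_Theta M hb'
  have hQj := H17.isQSum_jd N N dvd_rfl
  have hmul := hQb.mul hQj
  rw [← map_mul, hser] at hmul
  have hfun : H17.Theta M a = H17.Theta M b * (fun τ => H28.J (H17.mulD N τ)) :=
    hQa.unique hmul
  set g : SL(2, ℤ) := lowerUnip M with hg
  have hgM : g ∈ CongruenceSubgroup.Gamma0 M := (lowerUnip_mem_Gamma0_iff M M).mpr dvd_rfl
  have hgN : g ∉ CongruenceSubgroup.Gamma0 N := fun h => hNM ((lowerUnip_mem_Gamma0_iff M N).mp h)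
  -- the two conjugates of `j_N`
  set F₁ : ℍ → ℂ := H17.thetaConj N g⁻¹ (jd N N dvd_rfl) with hF₁
  set F₀ : ℍ → ℂ := H17.thetaConj N 1 (jd N N dvd_rfl) with hF₀
  have hF₁τ : ∀ τ, F₁ τ = H28.J (H17.mulD N (g • τ)) := by
    intro τ
    rw [hF₁, H17.thetaConj_jd, inv_inv]
  have hF₀τ : ∀ τ, F₀ τ = H28.J (H17.mulD N τ) := by
    intro τ
    rw [hF₀, H17.thetaConj_jd, inv_one, one_smul]
  have hmd₁ : MDiff F₁ := H17.thetaConj_mdiff N (H17.jd_mem_A N N dvd_rfl) _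
  have hmd₀ : MDiff F₀ := H17.thetaConj_mdiff N (H17.jd_mem_A N N dvd_rfl) _
  have hmdb : MDiff (H17.Theta M b) := H17.Theta_mdiff M hb'
  have hprod : H17.Theta M b * (F₁ - F₀) = 0 := by
    funext τ
    have h1 := congrFun hfun (g • τ)
    have h2 := congrFun hfun τ
    rw [Pi.mul_apply, H17.Theta_smul M ha' hgM, H17.Theta_smul M hb' hgM] at h1
    rw [Pi.mul_apply] at h2
    rw [Pi.mul_apply, Pi.sub_apply, Pi.zero_apply, hF₁τ, hF₀τ, mul_sub, ← h1, ← h2, sub_self]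
  rcases (UpperHalfPlane.mul_eq_zero_iff hmdb (hmd₁.sub hmd₀)).mp hprod with h | h
  · exact hb0 (H17.Theta_eq_zero M hb' h)
  · have h' : F₁ = F₀ := sub_eq_zero.mp h
    have := (H17.thetaConj_jd_eq_iff N g⁻¹ 1).mp h'
    rw [inv_inv, mul_one] at this
    exact hgN this


/-! ### Spanning in the square of inclusions -/

section Span

variable {M₁ M₂ M : ℕ} [NeZero M₁] [NeZero M₂] [NeZero M]

/-- If `[F_M : F_{M₂}]` is prime and `M₁ ∤ M₂` then `F_M` is spanned over `F_{M₂}` by `F_{M₁}`. -/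
theorem span_range_inclHom (h₁ : M₁ ∣ M) (h₂ : M₂ ∣ M)
    (hprime : letI := (inclHom Qbar M₂ M h₂).toRingHom.toAlgebra
      (Module.finrank (FN M₂) (FN M)).Prime)
    (hnd : ¬ M₁ ∣ M₂) :
    letI := (inclHom Qbar M₂ M h₂).toRingHom.toAlgebra
    ⊤ ≤ Submodule.span (FN M₂) (Set.range (inclHom Qbar M₁ M h₁)) := by
  letI alg : Algebra (FN M₂) (FN M) := (inclHom Qbar M₂ M h₂).toRingHom.toAlgebra
  haveI : Module.Finite (FN M₂) (FN M) := finite_incl h₂
  set S : Subalgebra (FN M₂) (FN M) :=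
    Algebra.adjoin (FN M₂) (Set.range (inclHom Qbar M₁ M h₁)) with hS
  have hspan : Subalgebra.toSubmodule S
      = Submodule.span (FN M₂) (Set.range (inclHom Qbar M₁ M h₁)) := by
    rw [hS, Algebra.adjoin_eq_span]
    congr 1
    have := Submonoid.closure_eq (MonoidHom.mrange
      ((inclHom Qbar M₁ M h₁ : FN M₁ →+* FN M) : FN M₁ →* FN M))
    rw [MonoidHom.coe_mrange] at this
    exact congrArg _ this
  haveI : IsSimpleOrder (Subalgebra (FN M₂) (FN M)) :=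
    Subalgebra.isSimpleOrder_of_finrank_prime (FN M₂) (FN M) hprime
  have hStop : S = ⊤ := by
    rcases eq_bot_or_eq_top S with hbot | htop
    · exfalso
      have hmem : inclHom Qbar M₁ M h₁ (jd M₁ M₁ dvd_rfl) ∈ S :=
        Algebra.subset_adjoin ⟨_, rfl⟩
      rw [hbot, Algebra.mem_bot] at hmem
      obtain ⟨x, hx⟩ := hmem
      refine series_ne_jd_of_not_dvd hnd x ?_
      have h3 : ((inclHom Qbar M₂ M h₂ x : FN M) : LaurentSeries Qbar)
          = ((inclHom Qbar M₁ M h₁ (jd M₁ M₁ dvd_rfl) : FN M) : LaurentSeries Qbar) :=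
        congrArg (fun z : FN M => (z : LaurentSeries Qbar)) hx
      rw [coe_inclHom, coe_inclHom] at h3
      exact h3
    · exact htop
  intro x _
  rw [← hspan, hStop]
  exact (Subalgebra.mem_toSubmodule (S := (⊤ : Subalgebra (FN M₂) (FN M)))).mpr Algebra.mem_top

end Span

/-! ### Norm base change in the square of inclusions -/

section BaseChange

variable {M₀ M₁ M₂ M : ℕ} [NeZero M₀] [NeZero M₁] [NeZero M₂] [NeZero M]

/-- **Norm base change for the square of inclusions** `F_{M₀} ⊆ F_{M₁}, F_{M₂} ⊆ F_M`: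
`Nm_{F_M/F_{M₂}}(x) = Nm_{F_{M₁}/F_{M₀}}(x)` for `x ∈ F_{M₁}`, provided `[F_M : F_{M₂}] = ℓ` is
prime, equals `[F_{M₁} : F_{M₀}]` (`ψ`-condition), and `M₁ ∤ M₂`. -/
theorem normAlong_inclHom_baseChange (h₀₁ : M₀ ∣ M₁) (h₀₂ : M₀ ∣ M₂) (h₁ : M₁ ∣ M) (h₂ : M₂ ∣ M)
    {ℓ : ℕ} (hℓ : ℓ.Prime) (hdeg : dedekindPsi M = ℓ * dedekindPsi M₂)
    (hpsi : dedekindPsi M * dedekindPsi M₀ = dedekindPsi M₂ * dedekindPsi M₁)
    (hnd : ¬ M₁ ∣ M₂) (g : FN M₁) :
    normAlong (inclHom Qbar M₂ M h₂) (inclHom Qbar M₁ M h₁ g)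
      = inclHom Qbar M₀ M₂ h₀₂ (normAlong (inclHom Qbar M₀ M₁ h₀₁) g) := by
  letI alg₂ : Algebra (FN M₂) (FN M) := (inclHom Qbar M₂ M h₂).toRingHom.toAlgebra
  letI alg₀ : Algebra (FN M₀) (FN M₁) := (inclHom Qbar M₀ M₁ h₀₁).toRingHom.toAlgebra
  haveI : Module.Finite (FN M₀) (FN M₁) := finite_incl h₀₁
  have e₂ := finrank_incl_mul_psi h₂
  have e₀ := finrank_incl_mul_psi h₀₁
  have p₀ := dedekindPsi_pos' M₀
  have p₂ := dedekindPsi_pos' M₂
  have hrank2 : Module.finrank (FN M₂) (FN M) = ℓ := by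
    have : Module.finrank (FN M₂) (FN M) * dedekindPsi M₂ = ℓ * dedekindPsi M₂ := by
      rw [e₂, hdeg]
    exact Nat.eq_of_mul_eq_mul_right p₂ this
  have hrank : Module.finrank (FN M₂) (FN M) = Module.finrank (FN M₀) (FN M₁) := by
    have : Module.finrank (FN M₂) (FN M) * (dedekindPsi M₂ * dedekindPsi M₀)
        = Module.finrank (FN M₀) (FN M₁) * (dedekindPsi M₂ * dedekindPsi M₀) := by
      calc Module.finrank (FN M₂) (FN M) * (dedekindPsi M₂ * dedekindPsi M₀)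
          = (Module.finrank (FN M₂) (FN M) * dedekindPsi M₂) * dedekindPsi M₀ := by ring
        _ = dedekindPsi M₂ * (Module.finrank (FN M₀) (FN M₁) * dedekindPsi M₀) := by
            rw [e₂, e₀, hpsi]
        _ = _ := by ring
    exact Nat.eq_of_mul_eq_mul_right (Nat.mul_pos p₂ p₀) this
  have hcomm : ∀ x : FN M₀, (inclHom Qbar M₁ M h₁ : FN M₁ →+* FN M) (algebraMap (FN M₀) (FN M₁) x)
      = algebraMap (FN M₂) (FN M) ((inclHom Qbar M₀ M₂ h₀₂ : FN M₀ →+* FN M₂) x) := by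
    intro x
    apply Subtype.ext
    show ((inclHom Qbar M₁ M h₁ (inclHom Qbar M₀ M₁ h₀₁ x) : FN M) : LaurentSeries Qbar)
      = ((inclHom Qbar M₂ M h₂ (inclHom Qbar M₀ M₂ h₀₂ x) : FN M) : LaurentSeries Qbar)
    rw [coe_inclHom, coe_inclHom, coe_inclHom, coe_inclHom]
  have hprime : (Module.finrank (FN M₂) (FN M)).Prime := by rw [hrank2]; exact hℓ
  exact norm_baseChange (inclHom Qbar M₀ M₂ h₀₂ : FN M₀ →+* FN M₂)
    (inclHom Qbar M₁ M h₁ : FN M₁ →+* FN M) hcomm hrank (span_range_inclHom h₁ h₂ hprime hnd) g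

end BaseChange

end Fermat.Agent.S36.H72
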