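/-
helper72 — S36 row (D2) AUX LEVEL, part 2 (generic): the `Pic⁰`-pullback along a `K`-embedding of
function fields, its equivariance, and — on torsion classes — the commutation of push-forward
and pull-back in a commutative square of fields in which norms base-change.

* `pic0PullAlong φ hφ hFI : Pic0 K F →+ Pic0 K F'`, `pic0PullAlong_mk`, `pic0PullAlong_smul`;
* `pushforward_pullback_comm_of_ord` : divisor level, for a principal divisor;
* `pic0_push_pull_comm` : `a'_* (π^* y) = π'^* (a_* y)` for torsion `y`, given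
  `Nm_{a'}(π g) = π'(Nm_a g)`;
* `pic0_push_pull_self` : `φ_* (φ^* y) = [F' : F] • y` for torsion `y`.
-/
import Mathlib
import Fermat.Agent.S35.H86_Pushforward
import Fermat.Agent.S29.H87_CorrComm

set_option autoImplicit false
set_option linter.unusedSectionVars false
set_option linter.style.haveILetI false

noncomputable section

namespace Fermat.Agent.S36.H72

open AlgebraicCurve AlgebraicCurve.SemilinearAut
open Fermat.Agent.S29 Fermat.Agent.S35

section Pull

variable {K F F' : Type*} [Field K] [Field F] [Field F'] [Algebra K F] [Algebra K F']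
  [HasPrincipalDivisors K F']

/-- Pull-back of degree-zero divisors along `φ`. -/
def degZeroPullAlong (φ : F →ₐ[K] F') (hφ : φ.toRingHom.IsIntegral)
    (hFI : FundamentalIdentityAlong K φ hφ) :
    Divisor.degZero (K := K) (F := F) →+ Divisor.degZero (K := K) (F := F') :=
  ((Divisor.pullbackAlong φ hφ).domRestrict (Divisor.degZero (K := K) (F := F))).codRestrict _
    (fun D => Divisor.pullbackAlong_mem_degZero φ hφ hFI D.2)

@[simp]
theorem coe_degZeroPullAlong (φ : F →ₐ[K] F') (hφ : φ.toRingHom.IsIntegral)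
    (hFI : FundamentalIdentityAlong K φ hφ) (D : Divisor.degZero (K := K) (F := F)) :
    (degZeroPullAlong φ hφ hFI D : Divisor K F') = Divisor.pullbackAlong φ hφ (D : Divisor K F) :=
  rfl

/-- The `Pic⁰`-pull-back `φ^* : Pic⁰(F) → Pic⁰(F')` along a `K`-embedding `φ : F → F'`. -/
def pic0PullAlong (φ : F →ₐ[K] F') (hφ : φ.toRingHom.IsIntegral)
    (hFI : FundamentalIdentityAlong K φ hφ) : Pic0 K F →+ Pic0 K F' :=
  QuotientAddGroup.map _ _ (degZeroPullAlong φ hφ hFI) (by
    rintro ⟨D, hD0⟩ hD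
    simp only [AddSubgroup.mem_addSubgroupOf] at hD ⊢
    exact Divisor.isPrincipal_pullbackAlong φ hφ hD)

theorem pic0PullAlong_mk (φ : F →ₐ[K] F') (hφ : φ.toRingHom.IsIntegral)
    (hFI : FundamentalIdentityAlong K φ hφ) (D : Divisor.degZero (K := K) (F := F)) :
    pic0PullAlong φ hφ hFI (Pic0.mk D) = Pic0.mk (degZeroPullAlong φ hφ hFI D) :=
  rfl

/-- `φ^*` commutes with semilinear automorphisms intertwined by `φ`. -/
theorem pic0PullAlong_smul (φ : F →ₐ[K] F') (hφ : φ.toRingHom.IsIntegral)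
    (hFI : FundamentalIdentityAlong K φ hφ)
    {g : SemilinearAut K F} {g' : SemilinearAut K F'}
    (h : SemilinearAut.IntertwinesAlong (φ : F →+* F') g g') (x : Pic0 K F) :
    pic0PullAlong φ hφ hFI (g • x) = g' • pic0PullAlong φ hφ hFI x := by
  obtain ⟨D, rfl⟩ := Pic0.mk_surjective x
  rw [SemilinearAut.pic0_smul_mk, pic0PullAlong_mk, pic0PullAlong_mk, SemilinearAut.pic0_smul_mk]
  refine congrArg Pic0.mk (Subtype.ext ?_)
  rw [coe_degZeroPullAlong, SemilinearAut.coe_degZeroSMulHom, SemilinearAut.coe_degZeroSMulHom,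
    coe_degZeroPullAlong]
  exact Fermat.Agent.S29.H28.pullbackAlong_smul φ hφ h _

end Pull

section Torsion

variable {K F : Type*} [Field K] [Field F] [Algebra K F]

/-- A torsion class has a representative `D` with `m D = div f`. -/
theorem exists_ord_eq_of_nsmul_eq_zero {m : ℕ} (y : Pic0 K F) (hy : m • y = 0) :
    ∃ (D : Divisor.degZero (K := K) (F := F)) (f : F), Pic0.mk D = y ∧ f ≠ 0 ∧
      ∀ v : Place K F, (m • (D : Divisor K F)) v = v.ord f := by
  obtain ⟨D, rfl⟩ := Pic0.mk_surjective y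
  have hmD : Pic0.mk (m • D) = (0 : Pic0 K F) := by
    rw [← hy]; rfl
  have hprin : ((m • D : Divisor.degZero (K := K) (F := F)) : Divisor K F)
      ∈ Divisor.principal (K := K) (F := F) :=
    AddSubgroup.mem_addSubgroupOf.mp ((QuotientAddGroup.eq_zero_iff (m • D)).mp hmD)
  obtain ⟨f, hf, hfD⟩ := hprin
  exact ⟨D, f, rfl, hf, fun v => hfD v⟩

end Torsion

section Square

variable {K F₀ F₁ F₂ E : Type*} [Field K] [Field F₀] [Field F₁] [Field F₂] [Field E]
  [Algebra K F₀] [Algebra K F₁] [Algebra K F₂] [Algebra K E]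
  [HasPrincipalDivisors K F₂] [HasPrincipalDivisors K E]

/-- **Divisor-level base change** for a principal divisor: in a square `a : F₀ → F₁`,
`a' : F₂ → E`, `π' : F₀ → F₂`, `π : F₁ → E` in which norms base-change,
`a'_* π^* (div f) = π'^* a_* (div f)`. -/
theorem pushforward_pullback_comm_of_ord
    (a : F₀ →ₐ[K] F₁) (a' : F₂ →ₐ[K] E) (π' : F₀ →ₐ[K] F₂) (π : F₁ →ₐ[K] E)
    (ha : a.toRingHom.IsIntegral) (ha' : a'.toRingHom.IsIntegral)
    (hπ' : π'.toRingHom.IsIntegral) (hπ : π.toRingHom.IsIntegral)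
    (hfin : FiniteAlong K a) (hN : NormFormulaAlong K a hfin)
    (hfin' : FiniteAlong K a') (hN' : NormFormulaAlong K a' hfin')
    (hnorm : ∀ g : F₁, H87.normAlong a' (π g) = π' (H87.normAlong a g))
    {f : F₁} (hf : f ≠ 0) {D : Divisor K F₁} (hD : ∀ v, D v = v.ord f) :
    Divisor.pushforwardAlong a' ha' (Divisor.pullbackAlong π hπ D)
      = Divisor.pullbackAlong π' hπ' (Divisor.pushforwardAlong a ha D) := by
  ext v
  rw [H87.pushforwardAlong_apply_of_ord a' ha' hfin' hN' ((map_ne_zero π).mpr hf)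
      (fun w => H87.pullbackAlong_apply_of_ord π hπ hD w) v,
    H87.pullbackAlong_apply_of_ord π' hπ'
      (fun w => H87.pushforwardAlong_apply_of_ord a ha hfin hN hf hD w) v, hnorm]

/-- **`Pic⁰`-level base change on torsion classes**: `a'_* (π^* y) = π'^* (a_* y)`. -/
theorem pic0_push_pull_comm
    (a : F₀ →ₐ[K] F₁) (a' : F₂ →ₐ[K] E) (π' : F₀ →ₐ[K] F₂) (π : F₁ →ₐ[K] E)
    (ha : a.toRingHom.IsIntegral) (ha' : a'.toRingHom.IsIntegral)
    (hπ' : π'.toRingHom.IsIntegral) (hπ : π.toRingHom.IsIntegral)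
    (hfin : FiniteAlong K a) (hN : NormFormulaAlong K a hfin)
    (hfin' : FiniteAlong K a') (hN' : NormFormulaAlong K a' hfin')
    (hFIπ' : FundamentalIdentityAlong K π' hπ') (hFIπ : FundamentalIdentityAlong K π hπ)
    (hnorm : ∀ g : F₁, H87.normAlong a' (π g) = π' (H87.normAlong a g))
    {m : ℕ} (hm : m ≠ 0) (y : Pic0 K F₁) (hy : m • y = 0) :
    H86.pic0PushAlong a' ha' hfin' hN' (pic0PullAlong π hπ hFIπ y)
      = pic0PullAlong π' hπ' hFIπ' (H86.pic0PushAlong a ha hfin hN y) := by
  obtain ⟨D, f, rfl, hf, hfD⟩ := exists_ord_eq_of_nsmul_eq_zero y hy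
  rw [pic0PullAlong_mk, H86.pic0PushAlong_mk, H86.pic0PushAlong_mk, pic0PullAlong_mk]
  refine congrArg Pic0.mk (Subtype.ext ?_)
  rw [H86.coe_degZeroPushAlong, coe_degZeroPullAlong, coe_degZeroPullAlong,
    H86.coe_degZeroPushAlong]
  have key := pushforward_pullback_comm_of_ord a a' π' π ha ha' hπ' hπ hfin hN hfin' hN' hnorm
    hf hfD
  rw [map_nsmul, map_nsmul, map_nsmul, map_nsmul] at key
  have hinj : Function.Injective fun D : Divisor K F₂ => m • D := by
    intro D₁ D₂ h
    ext v
    have := DFunLike.congr_fun h v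
    simp only [Finsupp.smul_apply, nsmul_eq_mul] at this
    exact mul_left_cancel₀ (by exact_mod_cast hm) this
  exact hinj key

end Square

section Self

variable {K F F' : Type*} [Field K] [Field F] [Field F'] [Algebra K F] [Algebra K F']
  [HasPrincipalDivisors K F']

/-- **`φ_* φ^* = deg φ`** on torsion classes. -/
theorem pic0_push_pull_self (φ : F →ₐ[K] F') (hφ : φ.toRingHom.IsIntegral)
    (hfin : FiniteAlong K φ) (hN : NormFormulaAlong K φ hfin)
    (hFI : FundamentalIdentityAlong K φ hφ)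
    {m : ℕ} (hm : m ≠ 0) (y : Pic0 K F) (hy : m • y = 0) :
    H86.pic0PushAlong φ hφ hfin hN (pic0PullAlong φ hφ hFI y) = finrankAlong K φ • y := by
  obtain ⟨D, f, rfl, hf, hfD⟩ := exists_ord_eq_of_nsmul_eq_zero y hy
  rw [pic0PullAlong_mk, H86.pic0PushAlong_mk]
  show _ = Pic0.mk (finrankAlong K φ • D)
  refine congrArg Pic0.mk (Subtype.ext ?_)
  rw [H86.coe_degZeroPushAlong, coe_degZeroPullAlong]
  have hnorm : H87.normAlong φ (φ f) = f ^ finrankAlong K φ := by
    letI := algebraAlong φ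
    haveI : Module.Finite F F' := hfin
    exact Algebra.norm_algebraMap (S := F') f
  have key : ∀ v : Place K F,
      (m • Divisor.pushforwardAlong φ hφ (Divisor.pullbackAlong φ hφ (D : Divisor K F))) v
        = (m • (finrankAlong K φ • (D : Divisor K F))) v := by
    intro v
    rw [← map_nsmul, ← map_nsmul,
      H87.pushforwardAlong_apply_of_ord φ hφ hfin hN ((map_ne_zero φ).mpr hf)
        (fun w => H87.pullbackAlong_apply_of_ord φ hφ hfD w) v, hnorm,
      Fermat.Agent.S34.H47.ord_pow, ← hfD v]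
    simp only [Finsupp.smul_apply, nsmul_eq_mul]
    ring
  ext v
  have := key v
  simp only [Finsupp.smul_apply, nsmul_eq_mul] at this
  have h2 := mul_left_cancel₀ (by exact_mod_cast hm : (m : ℤ) ≠ 0) this
  rw [h2]
  simp [Finsupp.smul_apply]

end Self

end Fermat.Agent.S36.H72
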