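/-
helper72 — S36 row (D2) AUX LEVEL, part 4 (assembly).

`Geo36Stmt N q p` is the statement (IF-GEO36) at level `N * q` (in the application `N = M0 * q`):
a constant `c > 0` kills every `p`-power torsion, inertia-invariant class of `J₀(N q)` lying in
the kernels of `α_*, β_* : J₀(N q) → J₀(N)`.

* `pullIncl h : J₀(M) →+ J₀(M')`, `pushIncl h : J₀(M') →+ J₀(M)` for `M ∣ M'` (pull-back and
  push-forward along the inclusion `F_M ⊆ F_{M'}`), `pullIncl_smul` (Galois equivariance),
  `pushIncl_pullIncl` (`= [F_{M'} : F_M]` on torsion);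
* `pushAlpha_pullIncl`, `pushBeta_pullIncl` : on torsion classes `π^*` commutes with `α_*`, `β_*`;
* `geo36_of_dvd` : `Geo36Stmt N' q p → Geo36Stmt N q p` for `q ∣ N ∣ N'`, `N q ∤ N'`;
* `exists_aux_prime` : a prime `r ≡ 11 (mod 12)` beyond any bound (Dirichlet);
* `geo36_of_aux` : (IF-GEO36) at `M0` from (IF-GEO36) at all `M0 * r`, `r ≡ 11 (mod 12)` prime,
  `r ∤ q M0 p`.
-/
import Mathlib
import Fermat.Prelude.Def_FLTPrelim_Ramification
import Fermat.Agent.S36.H72_InclDisjoint
import Fermat.Agent.S36.H72_ExpIncl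
import Fermat.Agent.S36.H72_PullAlong

set_option autoImplicit false
set_option linter.unusedSectionVars false
set_option linter.style.haveILetI false

noncomputable section

namespace Fermat.Agent.S36.H72

open ModularCurve AlgebraicCurve
open Fermat.Agent.S24 Fermat.Agent.S29 Fermat.Agent.S29.H87 Fermat.Agent.S35
open Fermat.Agent.S37.H8

local notation "GQ" => (Qbar ≃ₐ[ℚ] Qbar)

/-! ### `Qbar`-embeddings between the fields `FN` -/

section FNHoms

variable {A B : ℕ} [NeZero A] [NeZero B] (φ : FN A →ₐ[Qbar] FN B)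

theorem integral_FN : φ.toRingHom.IsIntegral :=
  isIntegral_of_finiteAlong _ (finiteAlong_FN φ)

theorem normFormulaAlong_FN : NormFormulaAlong Qbar φ (finiteAlong_FN φ) := by
  haveI := H40.finiteDimensional_FN A
  haveI := H40.finiteDimensional_FN B
  exact normFormulaAlong_of_transcendental (K := Qbar) (jBar A) (jBar B)
    (H40.transcendental_jBar A) (H40.transcendental_jBar B) _ _

theorem fundamentalIdentityAlong_FN :
    haveI := hasPrincipalDivisors_FN B
    FundamentalIdentityAlong Qbar φ (integral_FN φ) := by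
  haveI := H40.finiteDimensional_FN A
  haveI := H40.finiteDimensional_FN B
  haveI := hasPrincipalDivisors_FN B
  exact fundamentalIdentityAlong_of_transcendental (K := Qbar) (jBar A) (jBar B)
    (H40.transcendental_jBar A) (H40.transcendental_jBar B) _ _

theorem finrankAlong_FN_pos : 0 < finrankAlong Qbar φ := by
  letI := algebraAlong φ
  haveI : Module.Finite (FN A) (FN B) := finiteAlong_FN φ
  exact Module.finrank_pos

end FNHoms

/-! ### Pull-back and push-forward along the inclusions -/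

section Incl

variable {M M' : ℕ} [NeZero M] [NeZero M']

/-- `π^* : J₀(M) → J₀(M')` for `M ∣ M'`. -/
def pullIncl (h : M ∣ M') : JZero M →+ JZero M' :=
  haveI := hasPrincipalDivisors_FN M'
  pic0PullAlong (inclHom Qbar M M' h) (integral_FN _) (fundamentalIdentityAlong_FN _)

/-- `π_* : J₀(M') → J₀(M)` for `M ∣ M'`. -/
def pushIncl (h : M ∣ M') : JZero M' →+ JZero M :=
  H86.pic0PushAlong (inclHom Qbar M M' h) (integral_FN _) (finiteAlong_FN _)
    (normFormulaAlong_FN _)

theorem intertwines_inclHom (h : M ∣ M') (σ : GQ) :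
    SemilinearAut.IntertwinesAlong ((inclHom Qbar M M' h : _ →ₐ[Qbar] _) : _ →+* _)
      (arithmeticGalois (modularFunctionFieldFull M) σ)
      (arithmeticGalois (modularFunctionFieldFull M') σ) := by
  intro x
  apply Subtype.ext
  rw [coe_arithmeticGalois_smul]
  show coeffMap (σ : Qbar →+* Qbar) ((inclHom Qbar M M' h x : _) : LaurentSeries Qbar) =
    ((inclHom Qbar M M' h (arithmeticGalois (modularFunctionFieldFull M) σ • x) : _) :
      LaurentSeries Qbar)
  rw [coe_inclHom, coe_inclHom, coe_arithmeticGalois_smul]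

/-- `π^*` is `G_ℚ`-equivariant. -/
theorem pullIncl_smul (h : M ∣ M') (σ : GQ) (x : JZero M) :
    pullIncl h (σ • x) = σ • pullIncl h x := by
  haveI := hasPrincipalDivisors_FN M'
  rw [galois_smul_pic0_def, galois_smul_pic0_def]
  exact pic0PullAlong_smul _ _ _ (intertwines_inclHom h σ) x

/-- `π_* π^* = [F_{M'} : F_M]` on torsion classes. -/
theorem pushIncl_pullIncl (h : M ∣ M') {m : ℕ} (hm : m ≠ 0) (y : JZero M) (hy : m • y = 0) :
    pushIncl h (pullIncl h y) = finrankAlong Qbar (inclHom Qbar M M' h) • y := by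
  haveI := hasPrincipalDivisors_FN M'
  exact pic0_push_pull_self _ _ _ _ _ hm y hy

end Incl

/-! ### `π^*` commutes with `α_*`, `β_*` on torsion classes -/

section Comm

variable {N N' q : ℕ} [NeZero N] [NeZero N'] [NeZero q]

theorem psi_mul_prime_of_dvd (hq : q.Prime) {K : ℕ} [NeZero K] (hqK : q ∣ K) :
    dedekindPsi (K * q) = q * dedekindPsi K := by
  rw [mul_comm K q, Fermat.Agent.S28.H64.dedekindPsi_prime_mul hq (Nat.pos_of_ne_zero (NeZero.ne K)),
    if_pos hqK, mul_comm]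

theorem pushAlpha_pullIncl (hq : q.Prime) (hqN : q ∣ N) (h : N ∣ N') (hnd : ¬ N * q ∣ N')
    {m : ℕ} (hm : m ≠ 0) (y : JZero (N * q)) (hy : m • y = 0) :
    H86.pushAlpha N' q (pullIncl (Nat.mul_dvd_mul_right h q) y)
      = pullIncl h (H86.pushAlpha N q y) := by
  haveI := hasPrincipalDivisors_FN N'
  haveI := hasPrincipalDivisors_FN (N' * q)
  have hqN' : q ∣ N' := hqN.trans h
  have hdeg : dedekindPsi (N' * q) = q * dedekindPsi N' := psi_mul_prime_of_dvd hq hqN'
  have hdeg0 : dedekindPsi (N * q) = q * dedekindPsi N := psi_mul_prime_of_dvd hq hqN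
  have hpsi : dedekindPsi (N' * q) * dedekindPsi N = dedekindPsi N' * dedekindPsi (N * q) := by
    rw [hdeg, hdeg0]; ring
  have hnorm : ∀ g : FN (N * q),
      H87.normAlong (heckeAlphaBar Qbar N' q) (inclHom Qbar (N * q) (N' * q)
        (Nat.mul_dvd_mul_right h q) g)
        = inclHom Qbar N N' h (H87.normAlong (heckeAlphaBar Qbar N q) g) := fun g =>
    normAlong_inclHom_baseChange (M₀ := N) (M₁ := N * q) (M₂ := N') (M := N' * q)
      (dvd_mul_right N q) h (Nat.mul_dvd_mul_right h q) (dvd_mul_right N' q) hq hdeg hpsi hnd g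
  exact pic0_push_pull_comm (heckeAlphaBar Qbar N q) (heckeAlphaBar Qbar N' q)
    (inclHom Qbar N N' h) (inclHom Qbar (N * q) (N' * q) (Nat.mul_dvd_mul_right h q))
    _ _ _ _ _ _ _ _ _ _ hnorm hm y hy

theorem pushBeta_pullIncl (hq : q.Prime) (hqN : q ∣ N) (h : N ∣ N')
    {m : ℕ} (hm : m ≠ 0) (y : JZero (N * q)) (hy : m • y = 0) :
    H86.pushBeta N' q (pullIncl (Nat.mul_dvd_mul_right h q) y)
      = pullIncl h (H86.pushBeta N q y) := by
  haveI := hasPrincipalDivisors_FN N'
  haveI := hasPrincipalDivisors_FN (N' * q)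
  have hqN' : q ∣ N' := hqN.trans h
  have hdeg : dedekindPsi (N' * q) = q * dedekindPsi N' := psi_mul_prime_of_dvd hq hqN'
  have hdeg0 : dedekindPsi (N * q) = q * dedekindPsi N := psi_mul_prime_of_dvd hq hqN
  have hpsi : dedekindPsi (N' * q) * dedekindPsi N = dedekindPsi (N * q) * dedekindPsi N' := by
    rw [hdeg, hdeg0]; ring
  have hnorm : ∀ g : FN (N * q),
      H87.normAlong (heckeBetaBar Qbar N' q) (inclHom Qbar (N * q) (N' * q)
        (Nat.mul_dvd_mul_right h q) g)
        = inclHom Qbar N N' h (H87.normAlong (heckeBetaBar Qbar N q) g) := by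
    intro g
    rw [heckeBetaBar_eq_expHom, heckeBetaBar_eq_expHom]
    exact normAlong_expHom_inclHom (M₀ := N) (M₁ := N * q) (M₂ := N') (M := N' * q) (d := q)
      h dvd_rfl (Nat.mul_dvd_mul_right h q) dvd_rfl (mul_comm N' q) hpsi g
  exact pic0_push_pull_comm (heckeBetaBar Qbar N q) (heckeBetaBar Qbar N' q)
    (inclHom Qbar N N' h) (inclHom Qbar (N * q) (N' * q) (Nat.mul_dvd_mul_right h q))
    _ _ _ _ _ _ _ _ _ _ hnorm hm y hy

end Comm

/-! ### The statement (IF-GEO36) and the change of level -/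

/-- **(IF-GEO36) at level `N * q`** (in the application `N = M0 * q`, `q ∤ M0`): a constant `c > 0`
kills every `p`-power torsion class of `J₀(N q)` which is fixed by an inertia group at `q` and
lies in the kernels of `α_*` and `β_*`. -/
def Geo36Stmt (N q p : ℕ) [NeZero N] [NeZero q] : Prop :=
  ∃ c : ℕ, 0 < c ∧ ∀ (k : ℕ) (A : ValuationSubring Qbar), A.LiesOverPrime q →
    ∀ y : JZero (N * q), p ^ k • y = 0 → (∀ σ ∈ A.inertiaSubgroupIn ℚ, σ • y = y) →
      H86.pushAlpha N q y = 0 → H86.pushBeta N q y = 0 → c • y = 0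

section Level

variable {N N' q : ℕ} [NeZero N] [NeZero N'] [NeZero q]

/-- **Change of level**: (IF-GEO36) at `N'` gives (IF-GEO36) at `N` whenever `q ∣ N ∣ N'` and
`N q ∤ N'`; the constant picks up the degree `[F_{N' q} : F_{N q}]`. -/
theorem geo36_of_dvd {p : ℕ} (hp : p ≠ 0) (hq : q.Prime) (hqN : q ∣ N) (h : N ∣ N')
    (hnd : ¬ N * q ∣ N') (H : Geo36Stmt N' q p) : Geo36Stmt N q p := by
  obtain ⟨c', hc', H'⟩ := H
  have hdvd : N * q ∣ N' * q := Nat.mul_dvd_mul_right h q
  set n := finrankAlong Qbar (inclHom Qbar (N * q) (N' * q) hdvd) with hn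
  have hnpos : 0 < n := finrankAlong_FN_pos _
  refine ⟨c' * n, Nat.mul_pos hc' hnpos, ?_⟩
  intro k A hA y hy hfix hα hβ
  have hm : p ^ k ≠ 0 := pow_ne_zero k hp
  have h1 : p ^ k • pullIncl hdvd y = 0 := by rw [← map_nsmul, hy, map_zero]
  have h2 : ∀ σ ∈ A.inertiaSubgroupIn ℚ, σ • pullIncl hdvd y = pullIncl hdvd y := by
    intro σ hσ
    rw [← pullIncl_smul, hfix σ hσ]
  have h3 : H86.pushAlpha N' q (pullIncl hdvd y) = 0 := by
    rw [pushAlpha_pullIncl hq hqN h hnd hm y hy, hα, map_zero]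
  have h4 : H86.pushBeta N' q (pullIncl hdvd y) = 0 := by
    rw [pushBeta_pullIncl hq hqN h hm y hy, hβ, map_zero]
  have h5 : c' • pullIncl hdvd y = 0 := H' k A hA _ h1 h2 h3 h4
  have h6 := congrArg (pushIncl hdvd) h5
  rw [map_nsmul, pushIncl_pullIncl hdvd hm y hy, map_zero, ← hn, ← mul_nsmul'] at h6
  exact h6

end Level

/-! ### The auxiliary prime -/

/-- **Dirichlet**: there is a prime `r ≡ 11 (mod 12)` beyond any bound. -/
theorem exists_aux_prime (B : ℕ) : ∃ r : ℕ, r.Prime ∧ r % 12 = 11 ∧ B < r := by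
  obtain ⟨r, hrB, hr, hmod⟩ :=
    Nat.forall_exists_prime_gt_and_modEq B (q := 12) (a := 11) (by norm_num) (by norm_num)
  exact ⟨r, hr, hmod, hrB⟩

/-- **(D2) AUX LEVEL.** (IF-GEO36) for `M0` follows from (IF-GEO36) for the levels `M0 * r`,
`r` a prime `≡ 11 (mod 12)` not dividing `q M0 p`. -/
theorem geo36_of_aux {M0 q p : ℕ} [NeZero M0] [NeZero q] (hq : q.Prime) (hp : p ≠ 0)
    (Haux : ∀ (r : ℕ) [NeZero r], r.Prime → r % 12 = 11 → ¬ r ∣ q * M0 * p →
      Geo36Stmt ((M0 * r) * q) q p) :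
    Geo36Stmt (M0 * q) q p := by
  obtain ⟨r, hr, hr12, hrB⟩ := exists_aux_prime (q * M0 * p)
  haveI : NeZero r := ⟨hr.ne_zero⟩
  have hM0 : 0 < M0 := Nat.pos_of_ne_zero (NeZero.ne M0)
  have hBpos : 0 < q * M0 * p :=
    Nat.mul_pos (Nat.mul_pos hq.pos hM0) (Nat.pos_of_ne_zero hp)
  have hrnd : ¬ r ∣ q * M0 * p := Nat.not_dvd_of_pos_of_lt hBpos hrB
  have hqr : q ≠ r := by
    rintro rfl
    exact hrnd (Dvd.dvd.mul_right (dvd_mul_right q M0) p)
  refine geo36_of_dvd hp hq (dvd_mul_left q M0) ?_ ?_ (Haux r hr hr12 hrnd)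
  · exact Nat.mul_dvd_mul_right (dvd_mul_right M0 r) q
  · intro hdvd
    have h1 : M0 * q ∣ M0 * r := Nat.dvd_of_mul_dvd_mul_right hq.pos hdvd
    have h2 : q ∣ r := Nat.dvd_of_mul_dvd_mul_left hM0 h1
    exact hqr ((Nat.prime_dvd_prime_iff_eq hq hr).mp h2)

end Fermat.Agent.S36.H72
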