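/-
helper72 — S36 row (D2) AUX LEVEL, top: the statements of `H72_AuxLevel` in helper18's vocabulary
`H18.IfGeo36` (the constant consumed by `H57.s36_of_ifGeo36`).

* `geo36Stmt_iff_ifGeo36` : `Geo36Stmt (M0 * q) q p ↔ H18.IfGeo36 M0 q p` (`Iff.rfl`);
* `ifGeo36_of_aux` : `(∀ r prime, r ≡ 11 (mod 12), r ∤ q M0 p → IfGeo36 (M0 * r) q p) →
  IfGeo36 M0 q p`;
* `not_dvd_aux_level` : `q ∤ M0 * r` for such `r` when `q ∤ M0`;
* `hGEO_of_aux` : the hypothesis `hGEO` of `H57.s36_of_ifGeo36` from (IF-GEO36) at the auxiliary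
  levels `M0 * r` only.
-/
import Mathlib
import Fermat.Agent.S36.H72_AuxLevel
import Fermat.Agent.S36.H18_Geo36Top

set_option autoImplicit false
set_option linter.unusedSectionVars false
set_option linter.style.haveILetI false

noncomputable section

namespace Fermat.Agent.S36.H72

open Fermat.Agent.S36

theorem geo36Stmt_iff_ifGeo36 (M0 q p : ℕ) [NeZero M0] [NeZero q] :
    Geo36Stmt (M0 * q) q p ↔ H18.IfGeo36 M0 q p :=
  Iff.rfl

/-- **(D2) AUX LEVEL** in helper18's vocabulary. -/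
theorem ifGeo36_of_aux {M0 q p : ℕ} [NeZero M0] [NeZero q] (hq : q.Prime) (hp : p ≠ 0)
    (Haux : ∀ (r : ℕ) [NeZero r], r.Prime → r % 12 = 11 → ¬ r ∣ q * M0 * p →
      H18.IfGeo36 (M0 * r) q p) :
    H18.IfGeo36 M0 q p :=
  geo36_of_aux hq hp Haux

/-- `q ∤ M0 * r` at the auxiliary level. -/
theorem not_dvd_aux_level {M0 q r p : ℕ} (hq : q.Prime) (hr : r.Prime) (hqM0 : ¬ q ∣ M0)
    (hrnd : ¬ r ∣ q * M0 * p) : ¬ q ∣ M0 * r := by
  intro h
  rcases (Nat.Prime.dvd_mul hq).mp h with h1 | h1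
  · exact hqM0 h1
  · have : q = r := (Nat.prime_dvd_prime_iff_eq hq hr).mp h1
    subst this
    exact hrnd (Dvd.dvd.mul_right (dvd_mul_right q M0) p)

/-- `r ∤ M0`, `r ≠ q`, `r ≠ p` at the auxiliary level. -/
theorem aux_prime_facts {M0 q r p : ℕ} (hrnd : ¬ r ∣ q * M0 * p) :
    ¬ r ∣ M0 ∧ r ≠ q ∧ r ≠ p := by
  refine ⟨fun h => hrnd (Dvd.dvd.mul_right (Dvd.dvd.mul_left h q) p), ?_, ?_⟩
  · rintro rfl
    exact hrnd (Dvd.dvd.mul_right (dvd_mul_right r M0) p)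
  · rintro rfl
    exact hrnd (dvd_mul_left r (q * M0))

/-- **The hypothesis `hGEO` of `H57.s36_of_ifGeo36`** from (IF-GEO36) at the auxiliary levels
`M0 * r` (`r` prime, `r ≡ 11 (mod 12)`, `r ∤ q M0 p`) only. -/
theorem hGEO_of_aux
    (Hmodel : ∀ (M0 q r p : ℕ) [NeZero M0] [NeZero q] [NeZero r], q.Prime → ¬ q ∣ M0 →
      p.Prime → p ≠ q → r.Prime → r % 12 = 11 → ¬ r ∣ q * M0 * p →
      H18.IfGeo36 (M0 * r) q p) :
    ∀ (M0 q : ℕ) [NeZero M0] [NeZero q], q.Prime → ¬ q ∣ M0 → ∀ p : ℕ, p.Prime →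
      p ≠ q → H18.IfGeo36 M0 q p := by
  intro M0 q _ _ hq hqM0 p hp hpq
  exact ifGeo36_of_aux hq hp.ne_zero
    (fun r _ hr hr12 hrnd => Hmodel M0 q r p hq hqM0 hp hpq hr hr12 hrnd)

end Fermat.Agent.S36.H72
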