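/-
S36 (helper57), leaf (top-2): the frozen statement S36 from the ONE remaining input, the
model-side statement `hmodel` = helper18's `H18.GeoFn36E` at the levels `(q L, q (q L))` for every
level `L` divisible by an auxiliary prime `r ≡ 11 (mod 12)`, with a constant `C` uniform in
`k`, `A`, `E0`.

Wiring (all landed): (D1) `H11.desc36`, (D2) `H72.hGEO_of_aux`, (E7b) `H18.ifGeo36_of_model`,
(N36)+(T2) `H90.s36_of_ifGeo36'`.
-/
import Mathlib
import Fermat.Agent.S36.H90_N36Final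
import Fermat.Agent.S36.H18_Geo36Seam
import Fermat.Agent.S36.H11_Desc36Level
import Fermat.Agent.S36.H72_AuxLevelTop

set_option autoImplicit false
set_option linter.style.haveILetI false

namespace Fermat.Agent.S36.H57

open Polynomial CuspForm IsLocalRing ModularCurve AlgebraicCurve
open Fermat.Agent.S18 Fermat.Agent.S35

local notation "Qbar" => AlgebraicClosure ℚ

noncomputable section

/-- the model-side statement at an auxiliary level `L` -/
def Model36 : Prop :=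
  ∀ (L q p : ℕ) [NeZero L] [NeZero q], q.Prime → ¬ q ∣ L → p.Prime → p ≠ q →
    (∃ r : ℕ, r.Prime ∧ r % 12 = 11 ∧ r ∣ L ∧ r ≠ q ∧ r ≠ p) →
    ∃ C : ℕ, 0 < C ∧ ∀ (k : ℕ) (A : ValuationSubring Qbar), A.LiesOverPrime q →
      ∀ (E0 : IntermediateField (H45.unrCyclo q) Qbar) [FiniteDimensional (H45.unrCyclo q) E0],
        (∀ σ ∈ A.inertiaSubgroupIn ℚ, ∀ x : E0, σ (x : Qbar) = x) →
        S36.H18.GeoFn36E q (q * L) (q * (q * L)) (dvd_mul_left (q * L) q) dvd_rfl E0 (p ^ k) C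

/-- **INPUT 1 from the model statement**: `IfGeo36 M0 q p` for all `q ∤ M0`, `p ≠ q`. -/
theorem hGEO36_of_model (hmodel : Model36) :
    ∀ (M0 q : ℕ) [NeZero M0] [NeZero q], q.Prime → ¬ q ∣ M0 → ∀ p : ℕ, p.Prime →
      p ≠ q → S36.H18.IfGeo36 M0 q p := by
  refine S36.H72.hGEO_of_aux ?_
  intro M0 q r p _ _ _ hq hqM0 hp hpq hr hr12 hrnd
  have hqL : ¬ q ∣ M0 * r := S36.H72.not_dvd_aux_level hq hr hqM0 hrnd
  obtain ⟨-, hrq, hrp⟩ := S36.H72.aux_prime_facts hrnd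
  obtain ⟨C, hC, hm⟩ := hmodel (M0 * r) q p hq hqL hp hpq
    ⟨r, hr, hr12, dvd_mul_left r M0, hrq, hrp⟩
  refine S36.H18.ifGeo36_of_model (M0 * r) q p hp.ne_zero C hC ?_ hm
  intro k A hA y hy hinv ha hb
  exact S36.H11.desc36 (M0 * r) q hq (pow_ne_zero k hp.ne_zero) A hA y hy hinv ha hb

/-- **The frozen S36 from the model statement.** -/
theorem s36_of_model (hmodel : Model36)
    {M : ℕ} [NeZero M] {g : CuspForm (CongruenceSubgroup.Gamma0 M) 2} (hg : g.IsNewform)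
    (lam : ℕ) [Fact lam.Prime]
    (S : Finset ℕ)
    (O' : Type) [CommRing O'] [IsDomain O'] [IsDiscreteValuationRing O']
    [IsAdicComplete (IsLocalRing.maximalIdeal O') O'] [Finite (IsLocalRing.ResidueField O')]
    [CharZero O'] (hlamO' : (lam : O') ∈ IsLocalRing.maximalIdeal O')
    (hlam2 : lam ≠ 2)
    (chig : CuspForm.heckeAlgebra M 2 (↑S : Set ℕ) →+* ℂ)
    (hchig : ∀ (ℓ : ℕ) (hℓ : ℓ.Prime) (hℓM : ¬ ℓ ∣ M) (hℓS : ℓ ∉ (↑S : Set ℕ)),
      chig (CuspForm.heckeAlgebra.T hℓ hℓM hℓS) = ModularFormClass.qCoeff g ℓ)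
    (iota : chig.range →+* O')
    (hlamS : lam ∈ S) (hMS : ∀ q : ℕ, q.Prime → q ∣ M → q ∈ S) :
    ∃ (O'' : Type) (_ : CommRing O'') (_ : IsDomain O'') (_ : IsDiscreteValuationRing O'')
      (_ : IsAdicComplete (IsLocalRing.maximalIdeal O'') O'')
      (_ : Finite (IsLocalRing.ResidueField O''))
      (_ : CharZero O'') (_ : Algebra O' O'') (_ : Module.Finite O' O'')
      (_ : IsLocalHom (algebraMap O' O'')),
      Function.Injective (algebraMap O' O'') ∧
      ∃ ρ : GaloisRepAdic O'',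
        (∀ (ℓ : ℕ) (hℓ : ℓ.Prime) (hℓM : ¬ ℓ ∣ M) (hℓS : ℓ ∉ (↑S : Set ℕ)),
          ∀ A : ValuationSubring (AlgebraicClosure ℚ), A.LiesOverPrime ℓ →
            ∀ σ : AlgebraicClosure ℚ ≃ₐ[ℚ] AlgebraicClosure ℚ, A.IsFrobeniusAt σ ℓ →
              LinearMap.charpoly (ρ.ρ σ) =
                X ^ 2 - C (algebraMap O' O''
                  ((iota.comp chig.rangeRestrict) (CuspForm.heckeAlgebra.T hℓ hℓM hℓS))) * X
                  + C ((ℓ : O''))) ∧
        (∀ q : ℕ, q.Prime → q ≠ lam → M.factorization q = 2 →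
          ¬ ρ.IsUnipotentOnInertiaAt q) :=
  S36.H90.s36_of_ifGeo36' (hGEO36_of_model hmodel)
    hg lam S O' hlamO' hlam2 chig hchig iota hlamS hMS

end

end Fermat.Agent.S36.H57
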