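import Mathlib

/-!
S36 / (E5), (M1) (helper16): **clearing local denominators in `O[θ]`** (Mathlib only).

`O` a commutative ring, `ϖ ∈ O`, `L` an `O`-algebra, `θ y ∈ L`, `f ∈ O[X]` with `f(θ) = 0`.
If `ϖ ^ n * y ∈ O[θ]` for some `n`, and there are `d E V W ∈ O[X]` with `y * d(θ) ∈ O[θ]` and
`d * E + V * f = 1 + ϖ * W` (i.e. `d̄` is invertible modulo `(ϖ, f)`), then `y ∈ O[θ]`.

In the application (`O` a DVR, `f̄ = (X - ā) ^ n (X - c̄)`, `ā ≠ c̄`): `y` lies in the valuation
rings of the places above `ϖ`, `y * sᵢ(θ) = aᵢ(θ)` with `s̄₁(ā) ≠ 0`, `s̄₂(c̄) ≠ 0`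
(`exists_repr`), `d = s₁ (X - c) + s₂ (X - a)`; so the intersection of the places above `ϖ` is
`O[θ]` even when `f̄` is NOT squarefree (`bezout_of_eval_ne_zero_two`).
-/

set_option autoImplicit false

namespace Fermat.Agent.S36.H16

open Polynomial

section Clear

variable {O : Type*} [CommRing O] {L : Type*} [CommRing L] [Algebra O L]

/-- one step: `ϖ ^ (k+1) * y ∈ O[θ]` implies `ϖ ^ k * y ∈ O[θ]`. -/
theorem pow_mul_mem_adjoin_step (ϖ : O) (θ y : L) {f d E V W : O[X]} (hθ : aeval θ f = 0)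
    (hd : ∃ a : O[X], y * aeval θ d = aeval θ a)
    (hbez : d * E + V * f = 1 + C ϖ * W) (k : ℕ)
    (h : ∃ p : O[X], algebraMap O L ϖ ^ (k + 1) * y = aeval θ p) :
    ∃ p : O[X], algebraMap O L ϖ ^ k * y = aeval θ p := by
  obtain ⟨a, ha⟩ := hd
  obtain ⟨p, hp⟩ := h
  have h1 := congrArg (aeval θ) hbez
  rw [map_add, map_mul, map_mul, hθ, mul_zero, add_zero, map_add, map_one, map_mul, aeval_C]
    at h1
  -- `ϖ^k y = ϖ^k y (d E)(θ) - ϖ^(k+1) y W(θ)`
  refine ⟨C ϖ ^ k * a * E - p * W, ?_⟩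
  rw [map_sub, map_mul, map_mul, map_pow, aeval_C, map_mul, ← hp, ← ha]
  have h2 : aeval θ d * aeval θ E = 1 + algebraMap O L ϖ * aeval θ W := h1
  calc algebraMap O L ϖ ^ k * y
      = algebraMap O L ϖ ^ k * y * (1 + algebraMap O L ϖ * aeval θ W) -
          algebraMap O L ϖ ^ (k + 1) * y * aeval θ W := by ring
    _ = algebraMap O L ϖ ^ k * (y * aeval θ d) * aeval θ E -
          algebraMap O L ϖ ^ (k + 1) * y * aeval θ W := by rw [← h2]; ring

/-- **clearing denominators**: `ϖ ^ n * y ∈ O[θ]`, `y * d(θ) ∈ O[θ]`, `d` invertible modulo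
`(ϖ, f)` ⟹ `y ∈ O[θ]`. -/
theorem mem_adjoin_of_bezout (ϖ : O) (θ y : L) {f d E V W : O[X]} (hθ : aeval θ f = 0)
    (hd : ∃ a : O[X], y * aeval θ d = aeval θ a)
    (hbez : d * E + V * f = 1 + C ϖ * W) (n : ℕ)
    (h : ∃ p : O[X], algebraMap O L ϖ ^ n * y = aeval θ p) :
    ∃ p : O[X], y = aeval θ p := by
  induction n with
  | zero => simpa using h
  | succ k ih => exact ih (pow_mul_mem_adjoin_step ϖ θ y hθ hd hbez k h)

end Clear

section Bezout

variable {k : Type*} [Field k]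

/-- a polynomial not vanishing at `a` and `c` is invertible modulo `(X - a) ^ n * (X - c)`. -/
theorem isCoprime_pow_mul_of_eval_ne_zero (d : k[X]) (a c : k) (n : ℕ) (ha : d.eval a ≠ 0)
    (hc : d.eval c ≠ 0) : IsCoprime d ((X - C a) ^ n * (X - C c)) := by
  have h1 : IsCoprime d (X - C a) := by
    rw [isCoprime_comm]
    refine (irreducible_X_sub_C a).coprime_iff_not_dvd.mpr ?_
    rw [dvd_iff_isRoot]; exact ha
  have h2 : IsCoprime d (X - C c) := by
    rw [isCoprime_comm]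
    refine (irreducible_X_sub_C c).coprime_iff_not_dvd.mpr ?_
    rw [dvd_iff_isRoot]; exact hc
  exact IsCoprime.mul_right (h1.pow_right) h2

end Bezout

section Lift

variable {O : Type*} [CommRing O] [IsLocalRing O]

/-- lifting a Bezout relation from the residue field: if `f̄ = (X - ā) ^ n (X - c̄)` and
`d̄(ā) ≠ 0`, `d̄(c̄) ≠ 0`, then `d E + V f = 1 + ϖ W` over `O` (`maximalIdeal O = (ϖ)`). -/
theorem bezout_of_eval_ne_zero_two {ϖ : O} (hϖ : IsLocalRing.maximalIdeal O = Ideal.span {ϖ})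
    (f d : O[X]) (a c : O) (n : ℕ)
    (hf : f.map (IsLocalRing.residue O) =
      (X - C (IsLocalRing.residue O a)) ^ n * (X - C (IsLocalRing.residue O c)))
    (ha : IsLocalRing.residue O (d.eval a) ≠ 0) (hc : IsLocalRing.residue O (d.eval c) ≠ 0) :
    ∃ E V W : O[X], d * E + V * f = 1 + C ϖ * W := by
  have ha' : (d.map (IsLocalRing.residue O)).eval (IsLocalRing.residue O a) ≠ 0 := by
    rw [eval_map, Polynomial.eval₂_at_apply]; exact ha
  have hc' : (d.map (IsLocalRing.residue O)).eval (IsLocalRing.residue O c) ≠ 0 := by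
    rw [eval_map, Polynomial.eval₂_at_apply]; exact hc
  obtain ⟨Eb, Vb, hEV⟩ := isCoprime_pow_mul_of_eval_ne_zero _ _ _ n ha' hc'
  rw [← hf] at hEV
  obtain ⟨E, rfl⟩ := Polynomial.map_surjective (IsLocalRing.residue O)
    IsLocalRing.residue_surjective Eb
  obtain ⟨V, rfl⟩ := Polynomial.map_surjective (IsLocalRing.residue O)
    IsLocalRing.residue_surjective Vb
  -- `d E + V f - 1` has all coefficients in `(ϖ)`
  have hzero : (d * E + V * f - 1).map (IsLocalRing.residue O) = 0 := by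
    rw [Polynomial.map_sub, Polynomial.map_add, Polynomial.map_mul, Polynomial.map_mul,
      Polynomial.map_one, mul_comm (d.map _), hEV, sub_self]
  have hcoeff : ∀ i, (d * E + V * f - 1).coeff i ∈ Ideal.span {ϖ} := by
    intro i
    have := congrArg (fun p => p.coeff i) hzero
    simp only [coeff_map, coeff_zero] at this
    rw [← hϖ]
    exact (IsLocalRing.residue_eq_zero_iff _).mp this
  have hmem : (d * E + V * f - 1) ∈ Ideal.span {(C ϖ : O[X])} := by
    have h1 : Ideal.span {(C ϖ : O[X])} = Ideal.map C (Ideal.span {ϖ}) := by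
      rw [Ideal.map_span, Set.image_singleton]
    rw [h1, Ideal.mem_map_C_iff]
    exact hcoeff
  obtain ⟨W, hW⟩ := Ideal.mem_span_singleton'.mp hmem
  refine ⟨E, V, W, ?_⟩
  rw [mul_comm (C ϖ) W, hW]; ring

end Lift

end Fermat.Agent.S36.H16
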