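import Mathlib
import Fermat.Agent.S36.H16_AdjoinDenominators
import Fermat.Agent.CA.H99_TwoPlacesThm

/-!
S36 / (E5), (M1) (helper16): **the intersection of the places above a DVR is `O[θ]`, ramified
case** `f̄ = (X - ā) ^ n (X - c̄)`, `ā ≠ c̄` (twin of `CA.H99.exists_eq_aeval_of_mem_of_mem`, which
needs `f̄` squarefree): if `y * s₁(θ) = a₁(θ)` with `s̄₁(ā) ≠ 0` and `y * s₂(θ) = a₂(θ)` with
`s̄₂(c̄) ≠ 0` (the `exists_repr` fields of the two places), then `y ∈ O[θ]`.
Also the one-place version `f̄ = ḡ ^ n`-free: a single `exists_repr` with `s̄` invertible mod `f̄`.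
-/

set_option autoImplicit false
set_option linter.unusedSectionVars false

namespace Fermat.Agent.S36.H16

open Polynomial IsLocalRing

variable {O : Type*} [CommRing O] [IsDomain O] [IsDiscreteValuationRing O]
variable {K : Type*} [Field K] [Algebra O K] [IsFractionRing O K]
variable {L : Type*} [Field L] [Algebra O L] [Algebra K L] [IsScalarTower O K L]

/-- **`V₁ ∩ V₂ = O[θ]`, ramified pair.** -/
theorem exists_eq_aeval_of_repr_two {ϖ : O} (hϖ : maximalIdeal O = Ideal.span {ϖ})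
    (θ : L) (hgen : Algebra.adjoin K {θ} = ⊤) (f : O[X]) (hθ : aeval θ f = 0) (a c : O) (n : ℕ)
    (hf : f.map (residue O) = (X - C (residue O a)) ^ n * (X - C (residue O c)))
    (hac : residue O a ≠ residue O c) {y : L} (s₁ a₁ s₂ a₂ : O[X])
    (hs₁ : residue O (s₁.eval a) ≠ 0) (e₁ : y * aeval θ s₁ = aeval θ a₁)
    (hs₂ : residue O (s₂.eval c) ≠ 0) (e₂ : y * aeval θ s₂ = aeval θ a₂) :
    ∃ p : O[X], y = aeval θ p := by
  set d : O[X] := s₁ * (X - C c) + s₂ * (X - C a) with hd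
  have hda : residue O (d.eval a) ≠ 0 := by
    rw [hd]
    simp only [eval_add, eval_mul, eval_sub, eval_X, eval_C, sub_self, mul_zero, add_zero,
      map_mul, map_sub]
    exact mul_ne_zero hs₁ (sub_ne_zero.mpr hac)
  have hdc : residue O (d.eval c) ≠ 0 := by
    rw [hd]
    simp only [eval_add, eval_mul, eval_sub, eval_X, eval_C, sub_self, mul_zero, zero_add,
      map_mul, map_sub]
    exact mul_ne_zero hs₂ (sub_ne_zero.mpr hac.symm)
  obtain ⟨E, V, W, hbez⟩ := bezout_of_eval_ne_zero_two hϖ f d a c n hf hda hdc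
  have hyd : ∃ b : O[X], y * aeval θ d = aeval θ b := by
    refine ⟨a₁ * (X - C c) + a₂ * (X - C a), ?_⟩
    rw [hd, map_add, map_mul, map_mul, map_add, map_mul, map_mul, ← e₁, ← e₂]
    ring
  obtain ⟨k, p, hp⟩ := CA.H99.exists_pow_mul_eq_aeval (K := K) hϖ θ hgen y
  exact mem_adjoin_of_bezout ϖ θ y hθ hyd hbez k ⟨p, hp⟩

/-- **one place above**: a single representation with `s̄` invertible modulo `(ϖ, f)`. -/
theorem exists_eq_aeval_of_repr_one {ϖ : O} (hϖ : maximalIdeal O = Ideal.span {ϖ})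
    (θ : L) (hgen : Algebra.adjoin K {θ} = ⊤) (f : O[X]) (hθ : aeval θ f = 0) {y : L}
    (s a E V W : O[X]) (hbez : s * E + V * f = 1 + C ϖ * W)
    (e : y * aeval θ s = aeval θ a) : ∃ p : O[X], y = aeval θ p := by
  obtain ⟨k, p, hp⟩ := CA.H99.exists_pow_mul_eq_aeval (K := K) hϖ θ hgen y
  exact mem_adjoin_of_bezout ϖ θ y hθ ⟨a, e⟩ hbez k ⟨p, hp⟩

end Fermat.Agent.S36.H16
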