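import Mathlib
import Fermat.Agent.CA.H94_NormReduction

/-!
S36 / (E5) (helper16): the two root-multiset shapes of helper94's norm reduction
`CA.H94.exists_norm_aeval_reduction` needed at level `q²`:

* `exists_norm_aeval_reduction_ram`  : `f̄ = (X - θ₁) ^ n * (X - θ₂)` (one place with `e = n`,
  `f = 1` and one place with `e = f = 1`): `ι (N(p(θ))) = p̄(θ₁) ^ n * p̄(θ₂)`;
* `exists_norm_aeval_reduction_insep`: `f̄ = X ^ q - θ₃ ^ q` in characteristic `q` (one purely
  inseparable place, `e = 1`, `f = q`): `ι (N(p(θ))) = p̄(θ₃) ^ q`.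
-/

set_option autoImplicit false

namespace Fermat.Agent.S36.H16

open Polynomial

variable {O K L Fk : Type*} [CommRing O] [Field K] [Algebra O K] [Field L] [Algebra K L]
  [Algebra O L] [IsScalarTower O K L] [FiniteDimensional K L] [Algebra.IsSeparable K L]
  [Field Fk]

/-- **Norm reduction, ramified shape** `f̄ = (X - θ₁) ^ n * (X - θ₂)`. -/
theorem exists_norm_aeval_reduction_ram (hinj : Function.Injective (algebraMap O K))
    (ι : O →+* Fk) (n : ℕ) (f : O[X]) (hf : f.Monic) {θ : L} (hθ : aeval θ f = 0)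
    (hdeg : f.natDegree = Module.finrank K L) (hgen : Algebra.adjoin K {θ} = ⊤)
    (θ₁ θ₂ : Fk) (hsplit : f.map ι = (X - C θ₁) ^ n * (X - C θ₂)) (p : O[X]) :
    ∃ m : O, algebraMap O K m = Algebra.norm K (aeval θ p) ∧
      ι m = (p.map ι).eval θ₁ ^ n * (p.map ι).eval θ₂ := by
  have hsplit' : f.map ι
      = ((θ₂ ::ₘ Multiset.replicate n θ₁).map fun r => X - C r).prod := by
    rw [Multiset.map_cons, Multiset.prod_cons, Multiset.map_replicate, Multiset.prod_replicate,
      hsplit, mul_comm]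
  obtain ⟨m, hm1, hm2⟩ :=
    CA.H94.exists_norm_aeval_reduction hinj ι f hf hθ hdeg hgen _ hsplit' p
  refine ⟨m, hm1, ?_⟩
  rw [hm2, Multiset.map_cons, Multiset.prod_cons, Multiset.map_replicate,
    Multiset.prod_replicate, mul_comm]

/-- **Norm reduction, purely inseparable shape** `f̄ = X ^ q - θ₃ ^ q`, characteristic `q`. -/
theorem exists_norm_aeval_reduction_insep (hinj : Function.Injective (algebraMap O K))
    (ι : O →+* Fk) (q : ℕ) [Fact q.Prime] [CharP Fk q]
    (f : O[X]) (hf : f.Monic) {θ : L} (hθ : aeval θ f = 0)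
    (hdeg : f.natDegree = Module.finrank K L) (hgen : Algebra.adjoin K {θ} = ⊤)
    (θ₃ : Fk) (hsplit : f.map ι = X ^ q - C (θ₃ ^ q)) (p : O[X]) :
    ∃ m : O, algebraMap O K m = Algebra.norm K (aeval θ p) ∧
      ι m = (p.map ι).eval θ₃ ^ q := by
  have hsplit' : f.map ι
      = ((Multiset.replicate q θ₃).map fun r => X - C r).prod := by
    rw [Multiset.map_replicate, Multiset.prod_replicate, hsplit, sub_pow_char, ← C_pow]
  obtain ⟨m, hm1, hm2⟩ :=
    CA.H94.exists_norm_aeval_reduction hinj ι f hf hθ hdeg hgen _ hsplit' p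
  refine ⟨m, hm1, ?_⟩
  rw [hm2, Multiset.map_replicate, Multiset.prod_replicate]

end Fermat.Agent.S36.H16
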