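import Mathlib
import Fermat.Agent.CA.H99_TwoPlaces

/-!
# (G-iii)(c) abstract core: the totally ramified ("Eisenstein at one root") place of `K(θ)` over a DVR

`O` a DVR with uniformiser `ϖ`, fraction field `K`; `L = K(θ)`, `θ` a root of a monic `f : O[X]`
generating the relations of `θ`.  Suppose that after the shift `X ↦ X + a` the polynomial is
"Eisenstein at the root `a`":  `f(X + a) = X ^ n * h₁ + ϖ * r` with `h₁(0)`, `r(0)` units, `n ≥ 1`.
Then there is a place of `L` over `O` (a valuation subring `O1 ⊆ L` containing `O` and `θ`, with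
reduction map `res1 : O1 →+* Fk` extending `ι`, `θ ↦ ι a`) whose maximal ideal is generated by
`τ := θ - a`, and `ϖ = unit * τ ^ n` (`e = n`, `f = 1`).
-/

set_option autoImplicit false
set_option linter.unusedSectionVars false
set_option linter.style.haveILetI false

open Polynomial IsLocalRing

namespace Fermat.Agent.S36.H6

/-- A **ramified place of `L` over `O`** with prescribed reduction: a valuation subring `O1 ⊆ L`
containing `O` and `θ`, with a reduction map `res1 : O1 →+* Fk` extending `ι`, sending `θ ↦ θb`,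
with kernel `τ O1`, where `ϖ = u τ ^ n` for a unit `u` of `O1`; elements with non-zero residue are
invertible in `O1`. -/
structure PlaceOverRam {O : Type*} [CommRing O] {L : Type*} [Field L] [Algebra O L] {Fk : Type*}
    [Field Fk] (ϖ : O) (θ τ : L) (n : ℕ) (ι : O →+* Fk) (θb : Fk) where
  /-- the valuation ring -/
  O1 : Subring L
  /-- its reduction map -/
  res1 : O1 →+* Fk
  algebraMap_mem : ∀ a : O, algebraMap O L a ∈ O1
  res1_algebraMap : ∀ a : O, res1 ⟨algebraMap O L a, algebraMap_mem a⟩ = ι a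
  θ_mem : θ ∈ O1
  res1_θ : res1 ⟨θ, θ_mem⟩ = θb
  τ_mem : τ ∈ O1
  res1_eq_zero_iff : ∀ (y : L) (hy : y ∈ O1),
    res1 ⟨y, hy⟩ = 0 ↔ ∃ z ∈ O1, y = τ * z
  unif_eq : ∃ u : L, u ∈ O1 ∧ u⁻¹ ∈ O1 ∧ algebraMap O L ϖ = u * τ ^ n
  inv_mem : ∀ (y : L) (hy : y ∈ O1), res1 ⟨y, hy⟩ ≠ 0 → y⁻¹ ∈ O1
  mem_or_inv_mem : ∀ y : L, y ∈ O1 ∨ y⁻¹ ∈ O1
  exists_repr : ∀ y ∈ O1, ∃ a s : O[X], s.eval₂ ι θb ≠ 0 ∧ y * aeval θ s = aeval θ a

section Construction

variable {O : Type*} [CommRing O] [IsDomain O] [IsDiscreteValuationRing O]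
variable {K : Type*} [Field K] [Algebra O K] [IsFractionRing O K]
variable {L : Type*} [Field L] [Algebra O L] [Algebra K L] [IsScalarTower O K L]
variable {Fk : Type*} [Field Fk]

/-- a ring hom from a DVR to a field killing the uniformiser kills exactly the maximal ideal. -/
theorem map_eq_zero_iff_mem {ϖ : O} (hϖ : maximalIdeal O = Ideal.span {ϖ})
    (ι : O →+* Fk) (hιϖ : ι ϖ = 0) (c : O) : ι c = 0 ↔ c ∈ maximalIdeal O := by
  constructor
  · intro hc
    by_contra hnm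
    have hu : IsUnit c := by
      by_contra hnu
      exact hnm ((IsLocalRing.mem_maximalIdeal c).mpr hnu)
    have := hu.map ι
    rw [hc] at this
    exact not_isUnit_zero this
  · exact CA.H99.map_eq_zero_of_mem_maximalIdeal hϖ ι hιϖ c

/-- Taylor at `a`, degree zero and one: `p = (X - a) s + p(a)`. -/
theorem exists_eq_X_sub_C_mul_add (p : O[X]) (a : O) :
    ∃ s : O[X], p = (X - C a) * s + C (p.eval a) := by
  refine ⟨p /ₘ (X - C a), ?_⟩
  have h := Polynomial.modByMonic_add_div p (X - C a)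
  rw [Polynomial.modByMonic_X_sub_C_eq_C_eval] at h
  rw [add_comm]
  exact h.symm

set_option maxHeartbeats 1600000 in
/-- **The Eisenstein place at a root `a` of the reduction.** -/
theorem nonempty_placeOverRam {f : O[X]} (hf : f.Monic)
    {ϖ : O} (hϖ : maximalIdeal O = Ideal.span {ϖ})
    (θ : L) (hθ : aeval θ f = 0) (hmin : ∀ p : O[X], aeval θ p = 0 → f ∣ p)
    (hgen : Algebra.adjoin K {θ} = ⊤)
    (a : O) {n : ℕ} (hn : 0 < n) (h₁ r : O[X])
    (hshift : f = (X - C a) ^ n * h₁ + C ϖ * r)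
    (hh₁ : IsUnit (h₁.eval a)) (hr : IsUnit (r.eval a))
    (ι : O →+* Fk) (hιϖ : ι ϖ = 0) :
    Nonempty (PlaceOverRam ϖ θ (θ - algebraMap O L a) n ι (ι a)) := by
  have hOL : Function.Injective (algebraMap O L) := S28.H98.algebraMap_injective_of_tower K
  have hϖ0 : ϖ ≠ 0 := by
    rintro rfl
    have : maximalIdeal O = ⊥ := by rw [hϖ]; simp
    exact IsDiscreteValuationRing.not_a_field O this
  set φ : AdjoinRoot f →ₐ[O] L := S28.H98.evalRoot f θ hθ with hφ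
  have hinj : Function.Injective φ := CA.H99.evalRoot_injective_of_min θ hθ hmin
  haveI hdom : IsDomain (AdjoinRoot f) := hinj.isDomain (φ : AdjoinRoot f →+* L)
  haveI hnoeth : IsNoetherianRing (AdjoinRoot f) := S28.H98.isNoetherianRing_adjoinRoot hf
  -- `f(ι a) = 0`
  have hfa : f.eval₂ ι (ι a) = 0 := by
    rw [hshift, eval₂_add, eval₂_mul, eval₂_mul, eval₂_pow, eval₂_sub, eval₂_X, eval₂_C, sub_self,
      zero_pow hn.ne', zero_mul, eval₂_C, hιϖ, zero_mul, add_zero]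
  set ρ : AdjoinRoot f →+* Fk := AdjoinRoot.lift ι (ι a) hfa with hρ
  have hρmk : ∀ p : O[X], ρ (AdjoinRoot.mk f p) = p.eval₂ ι (ι a) :=
    fun p => AdjoinRoot.lift_mk hfa p
  have hρeval : ∀ p : O[X], ρ (AdjoinRoot.mk f p) = ι (p.eval a) := by
    intro p
    rw [hρmk, Polynomial.eval₂_at_apply]
  set P : Ideal (AdjoinRoot f) := RingHom.ker ρ with hP
  haveI hPprime : P.IsPrime := RingHom.ker_isPrime ρ
  have hmemP : ∀ b, b ∈ P ↔ ρ b = 0 := fun b => RingHom.mem_ker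
  -- the localisation
  let Λ := Localization.AtPrime P
  haveI hΛdom : IsDomain Λ :=
    IsLocalization.isDomain_of_le_nonZeroDivisors (M := P.primeCompl) Λ
      P.primeCompl_le_nonZeroDivisors
  haveI hΛnoeth : IsNoetherianRing Λ := IsLocalization.isNoetherianRing P.primeCompl Λ hnoeth
  have hAΛinj : Function.Injective (algebraMap (AdjoinRoot f) Λ) :=
    IsLocalization.injective Λ P.primeCompl_le_nonZeroDivisors
  have hφunit : ∀ s : P.primeCompl, IsUnit ((φ : AdjoinRoot f →+* L) s) := by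
    intro s
    apply IsUnit.mk0
    intro h0
    have : (s : AdjoinRoot f) = 0 := hinj (by rw [map_zero]; exact h0)
    exact s.2 (by rw [this]; exact P.zero_mem)
  have hρunit : ∀ s : P.primeCompl, IsUnit (ρ s) := by
    intro s
    apply IsUnit.mk0
    intro h0
    exact s.2 ((hmemP _).2 h0)
  let Φ : Λ →+* L := IsLocalization.lift (M := P.primeCompl) hφunit
  let ρΛ : Λ →+* Fk := IsLocalization.lift (M := P.primeCompl) hρunit
  have hΦalg : ∀ b : AdjoinRoot f, Φ (algebraMap (AdjoinRoot f) Λ b) = φ b :=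
    fun b => IsLocalization.lift_eq hφunit b
  have hρalg : ∀ b : AdjoinRoot f, ρΛ (algebraMap (AdjoinRoot f) Λ b) = ρ b :=
    fun b => IsLocalization.lift_eq hρunit b
  have hΦinj : Function.Injective Φ := by
    rw [IsLocalization.lift_injective_iff]
    intro x y
    exact ⟨fun hxy => congrArg _ (hAΛinj hxy), fun hxy => congrArg _ (hinj hxy)⟩
  -- the uniformiser of `O` and the new uniformiser `τ`
  set ϖA : AdjoinRoot f := AdjoinRoot.of f ϖ with hϖA
  set ϖΛ : Λ := algebraMap (AdjoinRoot f) Λ ϖA with hϖΛ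
  set τA : AdjoinRoot f := AdjoinRoot.mk f (X - C a) with hτA
  set τΛ : Λ := algebraMap (AdjoinRoot f) Λ τA with hτΛ
  have hρϖ : ρ ϖA = 0 := by rw [hϖA, hρ, AdjoinRoot.lift_of, hιϖ]
  have hϖP : ϖA ∈ P := (hmemP _).2 hρϖ
  have hρτ : ρ τA = 0 := by
    rw [hτA, hρeval, eval_sub, eval_X, eval_C, sub_self, map_zero]
  have hτP : τA ∈ P := (hmemP _).2 hρτ
  have hφϖ : φ ϖA = algebraMap O L ϖ := S28.H98.evalRoot_of f θ hθ ϖ
  have hΦϖ : Φ ϖΛ = algebraMap O L ϖ := by rw [hϖΛ, hΦalg, hφϖ]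
  have hφτ : φ τA = θ - algebraMap O L a := by
    rw [hτA, hφ, S28.H98.evalRoot_mk, map_sub, aeval_X, aeval_C]
  have hΦτ : Φ τΛ = θ - algebraMap O L a := by rw [hτΛ, hΦalg, hφτ]
  have hϖL : algebraMap O L ϖ ≠ 0 := fun h0 => hϖ0 (hOL (by rw [h0, map_zero]))
  have hϖΛ0 : ϖΛ ≠ 0 := by
    intro h0
    apply hϖL
    rw [← hΦϖ, h0, map_zero]
  -- the Eisenstein relation `τ ^ n * H₁ + ϖ * R = 0` in `AdjoinRoot f`
  have hrel : τA ^ n * AdjoinRoot.mk f h₁ + ϖA * AdjoinRoot.mk f r = 0 := by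
    have h0 : AdjoinRoot.mk f ((X - C a) ^ n * h₁ + C ϖ * r) = 0 := by
      rw [← hshift]; exact AdjoinRoot.mk_self
    rw [map_add, map_mul, map_mul, map_pow, AdjoinRoot.mk_C] at h0
    exact h0
  have hh₁P : AdjoinRoot.mk f h₁ ∉ P := by
    rw [hmemP, hρeval, map_eq_zero_iff_mem hϖ ι hιϖ]
    exact fun hm => (IsLocalRing.mem_maximalIdeal _).mp hm hh₁
  have hrP : AdjoinRoot.mk f r ∉ P := by
    rw [hmemP, hρeval, map_eq_zero_iff_mem hϖ ι hιϖ]
    exact fun hm => (IsLocalRing.mem_maximalIdeal _).mp hm hr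
  obtain ⟨uH, huH⟩ : IsUnit (algebraMap (AdjoinRoot f) Λ (AdjoinRoot.mk f h₁)) :=
    IsLocalization.map_units Λ (⟨AdjoinRoot.mk f h₁, hh₁P⟩ : P.primeCompl)
  obtain ⟨uR, huR⟩ : IsUnit (algebraMap (AdjoinRoot f) Λ (AdjoinRoot.mk f r)) :=
    IsLocalization.map_units Λ (⟨AdjoinRoot.mk f r, hrP⟩ : P.primeCompl)
  -- `ϖ = unit * τ ^ n` in `Λ`
  have hϖτ : ϖΛ = (-(uH : Λ) * ((uR⁻¹ : Λˣ) : Λ)) * τΛ ^ n := by
    have h2 := congrArg (algebraMap (AdjoinRoot f) Λ) hrel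
    rw [map_add, map_mul, map_mul, map_pow, map_zero, ← huH, ← huR] at h2
    have h3 : ϖΛ * (uR : Λ) = -(τΛ ^ n * (uH : Λ)) := by
      rw [hϖΛ, hτΛ]; exact eq_neg_of_add_eq_zero_right h2
    calc ϖΛ = ϖΛ * (uR : Λ) * ((uR⁻¹ : Λˣ) : Λ) := by rw [mul_assoc, Units.mul_inv, mul_one]
      _ = (-(uH : Λ) * ((uR⁻¹ : Λˣ) : Λ)) * τΛ ^ n := by rw [h3]; ring
  have hϖmem : ϖΛ ∈ Ideal.span {τΛ} := by
    rw [Ideal.mem_span_singleton, hϖτ]
    obtain ⟨m, rfl⟩ : ∃ m, n = m + 1 := ⟨n - 1, by omega⟩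
    exact ⟨(-(uH : Λ) * ((uR⁻¹ : Λˣ) : Λ)) * τΛ ^ m, by ring⟩
  -- the maximal ideal of `Λ` is `(τ)`
  have hmax : maximalIdeal Λ = Ideal.span {τΛ} := by
    apply le_antisymm
    · rw [← IsLocalization.AtPrime.map_eq_maximalIdeal P Λ, Ideal.map_le_iff_le_comap]
      intro b hb
      rw [Ideal.mem_comap]
      obtain ⟨p, rfl⟩ := AdjoinRoot.mk_surjective b
      rw [hmemP, hρeval, map_eq_zero_iff_mem hϖ ι hιϖ, hϖ, Ideal.mem_span_singleton] at hb
      obtain ⟨c, hc⟩ := hb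
      obtain ⟨s, hs⟩ := exists_eq_X_sub_C_mul_add p a
      have hb' : AdjoinRoot.mk f p = τA * AdjoinRoot.mk f s + ϖA * AdjoinRoot.of f c := by
        conv_lhs => rw [hs, hc]
        rw [map_add, map_mul, AdjoinRoot.mk_C, map_mul]
      rw [hb', map_add, map_mul, map_mul]
      exact Ideal.add_mem _ (Ideal.mul_mem_right _ _ (Ideal.mem_span_singleton_self _))
        (Ideal.mul_mem_right _ _ hϖmem)
    · rw [Ideal.span_singleton_le_iff_mem, ← IsLocalization.AtPrime.map_eq_maximalIdeal P Λ]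
      exact Ideal.mem_map_of_mem _ hτP
  have hτΛ0 : τΛ ≠ 0 := by
    intro h0
    apply hϖΛ0
    rw [hϖτ, h0, zero_pow hn.ne', mul_zero]
  have hnf : ¬ IsField Λ := by
    intro hF
    have h0 : maximalIdeal Λ = ⊥ := IsLocalRing.isField_iff_maximalIdeal_eq.mp hF
    have : τΛ ∈ maximalIdeal Λ := by rw [hmax]; exact Ideal.mem_span_singleton_self _
    rw [h0, Ideal.mem_bot] at this
    exact hτΛ0 this
  haveI hdvr : IsDiscreteValuationRing Λ := by
    have hprinc : (maximalIdeal Λ).IsPrincipal := by rw [hmax]; exact ⟨⟨_, rfl⟩⟩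
    exact ((IsDiscreteValuationRing.TFAE Λ hnf).out 4 0).mp hprinc
  -- kernel of the reduction on `Λ`
  have hker : ∀ x : Λ, ρΛ x = 0 ↔ ∃ z : Λ, x = τΛ * z := by
    intro x
    have hk : RingHom.ker ρΛ = maximalIdeal Λ := by
      apply le_antisymm
      · exact IsLocalRing.le_maximalIdeal (RingHom.ker_ne_top ρΛ)
      · rw [hmax, Ideal.span_singleton_le_iff_mem, RingHom.mem_ker, hτΛ, hρalg, hρτ]
    rw [← RingHom.mem_ker, hk, hmax, Ideal.mem_span_singleton]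
    rfl
  have hunitΛ : ∀ x : Λ, ρΛ x ≠ 0 → IsUnit x := by
    intro x hx
    by_contra hnu
    have : x ∈ maximalIdeal Λ := (IsLocalRing.mem_maximalIdeal x).mpr hnu
    rw [hmax, Ideal.mem_span_singleton] at this
    exact hx ((hker x).2 this)
  -- transport to the subring `Φ(Λ) ⊆ L`
  have hbij : Function.Bijective Φ.rangeRestrict :=
    ⟨fun x y hxy => hΦinj (congrArg Subtype.val hxy), Φ.rangeRestrict_surjective⟩
  let e : Λ ≃+* Φ.range := RingEquiv.ofBijective Φ.rangeRestrict hbij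
  have he : ∀ x : Λ, ((e x : Φ.range) : L) = Φ x := fun x => rfl
  have hes : ∀ (x : Λ) (hx : Φ x ∈ Φ.range), e.symm ⟨Φ x, hx⟩ = x := by
    intro x hx
    apply e.injective
    rw [RingEquiv.apply_symm_apply]
    exact Subtype.ext (he x).symm
  let res1 : Φ.range →+* Fk := ρΛ.comp (e.symm : Φ.range →+* Λ)
  have hres : ∀ (x : Λ) (hx : Φ x ∈ Φ.range), res1 ⟨Φ x, hx⟩ = ρΛ x := by
    intro x hx
    change ρΛ (e.symm ⟨Φ x, hx⟩) = ρΛ x
    rw [hes]
  have hmemr : ∀ x : Λ, Φ x ∈ Φ.range := fun x => ⟨x, rfl⟩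
  have hunitinv : ∀ u : Λˣ, (Φ (u : Λ))⁻¹ = Φ ((u⁻¹ : Λˣ) : Λ) := by
    intro u
    have h1 : Φ (u : Λ) * Φ ((u⁻¹ : Λˣ) : Λ) = 1 := by rw [← map_mul, Units.mul_inv, map_one]
    exact (eq_inv_of_mul_eq_one_right h1).symm
  refine ⟨⟨Φ.range, res1, ?_, ?_, ?_, ?_, ?_, ?_, ?_, ?_, ?_, ?_⟩⟩
  · intro c
    have h1 : Φ (algebraMap (AdjoinRoot f) Λ (AdjoinRoot.of f c)) = algebraMap O L c := by
      rw [hΦalg]; exact S28.H98.evalRoot_of f θ hθ c
    exact h1 ▸ hmemr _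
  · intro c
    have h1 : Φ (algebraMap (AdjoinRoot f) Λ (AdjoinRoot.of f c)) = algebraMap O L c := by
      rw [hΦalg]; exact S28.H98.evalRoot_of f θ hθ c
    have h2 := hres (algebraMap (AdjoinRoot f) Λ (AdjoinRoot.of f c)) (hmemr _)
    rw [hρalg, hρ, AdjoinRoot.lift_of] at h2
    rw [← h2]
    congr 1
    exact Subtype.ext h1.symm
  · have h1 : Φ (algebraMap (AdjoinRoot f) Λ (AdjoinRoot.root f)) = θ := by
      rw [hΦalg]; exact S28.H98.evalRoot_root f θ hθ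
    exact h1 ▸ hmemr _
  · have h1 : Φ (algebraMap (AdjoinRoot f) Λ (AdjoinRoot.root f)) = θ := by
      rw [hΦalg]; exact S28.H98.evalRoot_root f θ hθ
    have h2 := hres (algebraMap (AdjoinRoot f) Λ (AdjoinRoot.root f)) (hmemr _)
    rw [hρalg, hρ, AdjoinRoot.lift_root] at h2
    rw [← h2]
    congr 1
    exact Subtype.ext h1.symm
  · exact hΦτ ▸ hmemr τΛ
  · rintro y ⟨x, rfl⟩
    have h1 := hres x ⟨x, rfl⟩
    rw [h1, hker x]
    constructor
    · rintro ⟨z, rfl⟩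
      exact ⟨Φ z, hmemr z, by rw [map_mul, hΦτ]⟩
    · rintro ⟨_, ⟨z, rfl⟩, hz⟩
      refine ⟨z, hΦinj ?_⟩
      rw [hz, map_mul, hΦτ]
  · refine ⟨Φ (-(uH : Λ) * ((uR⁻¹ : Λˣ) : Λ)), hmemr _, ?_, ?_⟩
    · have : -(uH : Λ) * ((uR⁻¹ : Λˣ) : Λ) = ((-uH * uR⁻¹ : Λˣ) : Λ) := by
        push_cast; ring
      rw [this, hunitinv]
      exact hmemr _
    · rw [← hΦϖ, hϖτ, map_mul, map_pow, hΦτ]
  · rintro y ⟨x, rfl⟩ hne
    have h1 := hres x ⟨x, rfl⟩
    rw [h1] at hne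
    obtain ⟨u, rfl⟩ := hunitΛ x hne
    rw [hunitinv]
    exact hmemr _
  · intro y
    obtain ⟨s, hs0, gy, hsg⟩ := S28.H98.exists_smul_mem_adjoin (O := O) (K := K) θ
      (show y ∈ Algebra.adjoin K {θ} by rw [hgen]; trivial)
    have hsL : algebraMap O L s ≠ 0 := fun h0 => hs0 (hOL (by rw [h0, map_zero]))
    set a' : Λ := algebraMap (AdjoinRoot f) Λ (AdjoinRoot.mk f gy) with ha'
    set b' : Λ := algebraMap (AdjoinRoot f) Λ (AdjoinRoot.of f s) with hb'
    have hΦa : Φ a' = aeval θ gy := by rw [ha', hΦalg]; rfl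
    have hΦb : Φ b' = algebraMap O L s := by
      rw [hb', hΦalg]; exact S28.H98.evalRoot_of f θ hθ s
    have hy : y = Φ a' / Φ b' := by
      rw [hΦa, hΦb, ← hsg, mul_div_cancel_left₀ _ hsL]
    rcases ValuationRing.dvd_total a' b' with ⟨c, hc⟩ | ⟨c, hc⟩
    · by_cases ha0 : Φ a' = 0
      · left
        rw [hy, ha0, zero_div]
        exact Subring.zero_mem _
      · right
        refine ⟨c, ?_⟩
        rw [hy, inv_div, hc, map_mul, mul_div_cancel_left₀ _ ha0]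
    · left
      refine ⟨c, ?_⟩
      have hb0 : Φ b' ≠ 0 := by rw [hΦb]; exact hsL
      rw [hy, hc, map_mul, mul_div_cancel_left₀ _ hb0]
  · rintro y ⟨x, rfl⟩
    obtain ⟨⟨a', s⟩, rfl⟩ := IsLocalization.mk'_surjective P.primeCompl x
    obtain ⟨pa, rfl⟩ := AdjoinRoot.mk_surjective a'
    obtain ⟨ps, hps⟩ := AdjoinRoot.mk_surjective (s : AdjoinRoot f)
    refine ⟨pa, ps, ?_, ?_⟩
    · rw [← hρmk, hps]
      exact fun h0 => s.2 ((hmemP _).2 h0)
    · have h1 := congrArg Φ (IsLocalization.mk'_spec Λ (AdjoinRoot.mk f pa) s)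
      rw [map_mul, hΦalg, hΦalg, ← hps] at h1
      exact h1

end Construction

end Fermat.Agent.S36.H6
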