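import Mathlib
import Fermat.Agent.S36.H16_NormRedRam
import Fermat.Agent.S36.H16_IntersectRam
import Fermat.Agent.S36.H6_EisensteinPlace

/-!
S36 / (E5) (helper16): **norm reduction at the three places of level `q²`, in the `PlaceOver` /
`PlaceOverRam` vocabulary of (M1)** (generic in the base DVR `O`, `K = Frac O`, `L = K(θ)` finite
separable; twin of `S35.H16.exists_norm_reduction_incl` / `_vq`).

* `ram_aeval_mem`, `ram_res1_aeval` : `res1 (p(θ)) = p^ι(θb)` for a `PlaceOverRam`;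
* `exists_eq_aeval_caseV` : `P₁.O1 ∩ P₂.O1 = O[θ]` for `f = (X - a)^n (X - c) + ϖ r`, `a - c` a unit;
* `exists_norm_reduction_caseV` : for `u ∈ P₁.O1 ∩ P₂.O1`: `N(u) ∈ O` and
  `ι (N u) = res₁(u) ^ n * res₂(u)`   [`P₁` the Eisenstein place (`e = n`), `P₂` the simple one];
* `exists_eq_aeval_caseF`, `exists_norm_reduction_caseF` : for `f = (X^q - b) + ϖ r`, `X^q - b̄`
  irreducible, `u ∈ P.O1`: `N(u) ∈ O` and `ι (N u) = res(u) ^ q`.

The hypotheses `hfac` are VERBATIM the outputs of `S36.H6.exists_shift_of_kronecker_zero/_infty`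
(as used in `S36.H6.places_caseV/_caseF`).
-/

set_option autoImplicit false
set_option linter.unusedSectionVars false

namespace Fermat.Agent.S36.H16

open Polynomial IsLocalRing

section Ram

variable {O : Type*} [CommRing O] {L : Type*} [Field L] [Algebra O L] {Fk : Type*} [Field Fk]
  {ϖ : O} {θ τ : L} {n : ℕ} {ι : O →+* Fk} {θb : Fk} (P : H6.PlaceOverRam ϖ θ τ n ι θb)

theorem ram_res1_congr {y z : L} (hy : y ∈ P.O1) (hz : z ∈ P.O1) (h : y = z) :
    P.res1 ⟨y, hy⟩ = P.res1 ⟨z, hz⟩ := by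
  subst h; rfl

theorem ram_aeval_mem (p : O[X]) : aeval θ p ∈ P.O1 := by
  rw [aeval_def, eval₂_eq_sum_range]
  exact Subring.sum_mem _ fun i _ =>
    Subring.mul_mem _ (P.algebraMap_mem _) (Subring.pow_mem _ P.θ_mem _)

/-- `O[X] → O1`, `p ↦ p(θ)`. -/
noncomputable def ramAevalHom : O[X] →+* P.O1 :=
  ((aeval θ : O[X] →ₐ[O] L) : O[X] →+* L).codRestrict P.O1 (ram_aeval_mem P)

theorem ram_res1_aeval (p : O[X]) :
    P.res1 ⟨aeval θ p, ram_aeval_mem P p⟩ = p.eval₂ ι θb := by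
  have h : P.res1.comp (ramAevalHom P) = Polynomial.eval₂RingHom ι θb := by
    apply Polynomial.ringHom_ext
    · intro a
      change P.res1 ⟨aeval θ (C a), _⟩ = (C a).eval₂ ι θb
      rw [eval₂_C]
      exact (ram_res1_congr P _ _ (aeval_C θ a)).trans (P.res1_algebraMap a)
    · change P.res1 ⟨aeval θ X, _⟩ = (X : O[X]).eval₂ ι θb
      rw [eval₂_X]
      exact (ram_res1_congr P _ _ (aeval_X θ)).trans P.res1_θ
  exact congrFun (congrArg DFunLike.coe h) p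

end Ram

section Norm

variable {O : Type*} [CommRing O] [IsDomain O] [IsDiscreteValuationRing O]
variable {K : Type*} [Field K] [Algebra O K] [IsFractionRing O K]
variable {L : Type*} [Field L] [Algebra O L] [Algebra K L] [IsScalarTower O K L]
variable {Fk : Type*} [Field Fk]

theorem residue_uniformizer_eq_zero {ϖ : O} (hϖ : maximalIdeal O = Ideal.span {ϖ}) :
    residue O ϖ = 0 := by
  rw [residue_eq_zero_iff, hϖ]
  exact Ideal.mem_span_singleton_self _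

/-- a non-zero value under `ι` has non-zero residue. -/
theorem residue_ne_zero_of_map_ne_zero {ϖ : O} (hϖ : maximalIdeal O = Ideal.span {ϖ})
    (ι : O →+* Fk) (hιϖ : ι ϖ = 0) {x : O} (hx : ι x ≠ 0) : residue O x ≠ 0 := by
  intro h0
  apply hx
  rw [residue_eq_zero_iff] at h0
  exact CA.H99.map_eq_zero_of_mem_maximalIdeal hϖ ι hιϖ x h0

/-- **`P₁.O1 ∩ P₂.O1 = O[θ]`** in the case `f = (X - a)^n (X - c) + ϖ r`. -/
theorem exists_eq_aeval_caseV {ϖ : O} (hϖ : maximalIdeal O = Ideal.span {ϖ})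
    {f : O[X]} {θ : L} (hθ : aeval θ f = 0) (hgen : Algebra.adjoin K {θ} = ⊤)
    (a c : O) (n : ℕ) (r : O[X]) (hfac : f = (X - C a) ^ n * (X - C c) + C ϖ * r)
    (hac : IsUnit (a - c))
    (ι : O →+* Fk) (hιϖ : ι ϖ = 0)
    {τ : L} (P₁ : H6.PlaceOverRam ϖ θ τ n ι (ι a)) (P₂ : CA.H99.PlaceOver ϖ θ ι (ι c))
    {u : L} (h₁ : u ∈ P₁.O1) (h₂ : u ∈ P₂.O1) : ∃ p : O[X], u = aeval θ p := by
  obtain ⟨a₁, s₁, hs₁, e₁⟩ := P₁.exists_repr u h₁
  obtain ⟨a₂, s₂, hs₂, e₂⟩ := P₂.exists_repr u h₂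
  rw [Polynomial.eval₂_at_apply] at hs₁ hs₂
  have hf' : f.map (residue O) = (X - C (residue O a)) ^ n * (X - C (residue O c)) := by
    rw [hfac, Polynomial.map_add, Polynomial.map_mul, Polynomial.map_mul, Polynomial.map_C,
      residue_uniformizer_eq_zero hϖ, C_0, zero_mul, add_zero, Polynomial.map_pow,
      Polynomial.map_sub, Polynomial.map_sub, Polynomial.map_X, Polynomial.map_C,
      Polynomial.map_C]
  have hac' : residue O a ≠ residue O c := by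
    intro h0
    have h1 : residue O (a - c) = 0 := by rw [map_sub, h0, sub_self]
    exact (hac.map (residue O)).ne_zero h1
  exact exists_eq_aeval_of_repr_two (K := K) hϖ θ hgen f hθ a c n hf' hac' s₁ a₁ s₂ a₂
    (residue_ne_zero_of_map_ne_zero hϖ ι hιϖ hs₁) e₁
    (residue_ne_zero_of_map_ne_zero hϖ ι hιϖ hs₂) e₂

/-- **`P.O1 = O[θ]`** in the case `f = (X^q - b) + ϖ r`, `X^q - b̄` irreducible. -/
theorem exists_eq_aeval_caseF (q : ℕ) {ϖ : O} (hϖ : maximalIdeal O = Ideal.span {ϖ})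
    {f : O[X]} {θ : L} (hθ : aeval θ f = 0) (hgen : Algebra.adjoin K {θ} = ⊤)
    (b : O) (r : O[X]) (hfac : f = (X ^ q - C b) + C ϖ * r)
    (hirr : Irreducible ((X ^ q - C b : O[X]).map (residue O)))
    (ι : O →+* Fk) (hιϖ : ι ϖ = 0) (θb : Fk) (hθb : θb ^ q = ι b)
    (P : CA.H99.PlaceOver ϖ θ ι θb) {u : L} (h : u ∈ P.O1) : ∃ p : O[X], u = aeval θ p := by
  obtain ⟨a₀, s, hs, e⟩ := P.exists_repr u h
  have hθb' : (X ^ q - C b : O[X]).eval₂ ι θb = 0 := by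
    rw [eval₂_sub, eval₂_pow, eval₂_X, eval₂_C, hθb, sub_self]
  obtain ⟨E, V, W, hb⟩ := CA.H99.exists_bezout_of_eval₂_ne_zero hirr hϖ ι hιϖ θb hθb' hs
  refine exists_eq_aeval_of_repr_one (K := K) hϖ θ hgen f hθ s a₀ E V (W + V * r) ?_ e
  rw [hfac]
  linear_combination hb

variable [FiniteDimensional K L] [Algebra.IsSeparable K L]

/-- **(E5), case (V)**: `ι (N u) = res₁(u) ^ n * res₂(u)` for `u ∈ P₁.O1 ∩ P₂.O1`. -/
theorem exists_norm_reduction_caseV {ϖ : O} (hϖ : maximalIdeal O = Ideal.span {ϖ})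
    {f : O[X]} (hf : f.Monic) {θ : L} (hθ : aeval θ f = 0)
    (hdeg : f.natDegree = Module.finrank K L) (hgen : Algebra.adjoin K {θ} = ⊤)
    (a c : O) (n : ℕ) (r : O[X]) (hfac : f = (X - C a) ^ n * (X - C c) + C ϖ * r)
    (hac : IsUnit (a - c))
    (ι : O →+* Fk) (hιϖ : ι ϖ = 0)
    {τ : L} (P₁ : H6.PlaceOverRam ϖ θ τ n ι (ι a)) (P₂ : CA.H99.PlaceOver ϖ θ ι (ι c))
    {u : L} (h₁ : u ∈ P₁.O1) (h₂ : u ∈ P₂.O1) :
    ∃ m : O, algebraMap O K m = Algebra.norm K u ∧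
      ι m = P₁.res1 ⟨u, h₁⟩ ^ n * P₂.res1 ⟨u, h₂⟩ := by
  obtain ⟨p, rfl⟩ := exists_eq_aeval_caseV (K := K) hϖ hθ hgen a c n r hfac hac ι hιϖ P₁ P₂ h₁ h₂
  have hsplit : f.map ι = (X - C (ι a)) ^ n * (X - C (ι c)) := by
    rw [hfac, Polynomial.map_add, Polynomial.map_mul, Polynomial.map_mul, Polynomial.map_C,
      hιϖ, C_0, zero_mul, add_zero, Polynomial.map_pow, Polynomial.map_sub, Polynomial.map_sub,
      Polynomial.map_X, Polynomial.map_C, Polynomial.map_C]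
  obtain ⟨m, hm1, hm2⟩ := exists_norm_aeval_reduction_ram (K := K) (L := L)
    (IsFractionRing.injective O K) ι n f hf hθ hdeg hgen (ι a) (ι c) hsplit p
  refine ⟨m, hm1, ?_⟩
  rw [hm2, eval_map, eval_map, ← ram_res1_aeval P₁ p, ← P₂.res1_aeval p]

/-- **(E5), case (F)**: `ι (N u) = res(u) ^ q` for `u ∈ P.O1`. -/
theorem exists_norm_reduction_caseF (q : ℕ) [Fact q.Prime] [CharP Fk q]
    {ϖ : O} (hϖ : maximalIdeal O = Ideal.span {ϖ})
    {f : O[X]} (hf : f.Monic) {θ : L} (hθ : aeval θ f = 0)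
    (hdeg : f.natDegree = Module.finrank K L) (hgen : Algebra.adjoin K {θ} = ⊤)
    (b : O) (r : O[X]) (hfac : f = (X ^ q - C b) + C ϖ * r)
    (hirr : Irreducible ((X ^ q - C b : O[X]).map (residue O)))
    (ι : O →+* Fk) (hιϖ : ι ϖ = 0) (θb : Fk) (hθb : θb ^ q = ι b)
    (P : CA.H99.PlaceOver ϖ θ ι θb) {u : L} (h : u ∈ P.O1) :
    ∃ m : O, algebraMap O K m = Algebra.norm K u ∧ ι m = P.res1 ⟨u, h⟩ ^ q := by
  obtain ⟨p, rfl⟩ := exists_eq_aeval_caseF (K := K) q hϖ hθ hgen b r hfac hirr ι hιϖ θb hθb P h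
  have hsplit : f.map ι = X ^ q - C (θb ^ q) := by
    rw [hfac, Polynomial.map_add, Polynomial.map_mul, Polynomial.map_C, hιϖ, C_0, zero_mul,
      add_zero, Polynomial.map_sub, Polynomial.map_pow, Polynomial.map_X, Polynomial.map_C, hθb]
  obtain ⟨m, hm1, hm2⟩ := exists_norm_aeval_reduction_insep (K := K) (L := L)
    (IsFractionRing.injective O K) ι q f hf hθ hdeg hgen θb hsplit p
  refine ⟨m, hm1, ?_⟩
  rw [hm2, eval_map, ← P.res1_aeval p]

end Norm

end Fermat.Agent.S36.H16
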