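import Mathlib
import Fermat.Agent.S35.H16_RelDegV

/-!
S36 / (M1)+(E5) field-theory inputs (helper16): the level-raising step `N = q * M` with `q ∣ M`.

For `q ∣ M` the extension `F_N / F_M` has degree `q` (not `q + 1`), for BOTH embeddings
`F_M → F_N` (the inclusion `degAlgebra`, and `V_q = vAlgebra`, `f(t) ↦ f(t^q)`), and the minimal
polynomial of the new generator is the DIVIDED Kronecker polynomial `Φ_q(y, Y) / (Y - w)`, where
`w ∈ F_M` is "the other root":

* inclusion: `y = j_M`, `θ = j_N`, `w = j_{M/q}`;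
* `V_q`: `y = j`, `θ = j`, `w = j_q` (`V_q w = j_{q²}`).

1. generic layer (`K₀ ⊆ L` fields, `[L : K₀] = q`, `L = K₀(θ)`, `Φ_q(y, θ) = 0`, `Φ_q(y, w) = 0`):
   `divPolyAt`, `minpoly_eq_divPolyAt`, integral forms `aeval_divByMonic_eq_zero`,
   `divByMonic_dvd_of_aeval_eq_zero` (= `hθ`, `hmin` of `CA.H99.nonempty_placeOver` /
   `S36.H6.nonempty_placeOverRam` for `f := (D.Φ.map φ) /ₘ (X - C wO)`).
2. degrees: `relfinrank_fullC_prime_dvd`, `finrank_fullC_prime_dvd`,
   `relfinrank_vRange_fullC_dvd`, `finrank_vSub_dvd`.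
3. the two instances `alpha_*`, `beta_*`.
-/

set_option autoImplicit false
set_option linter.unusedSectionVars false
set_option linter.style.haveILetI false
set_option synthInstance.maxHeartbeats 400000

noncomputable section

namespace Fermat.Agent.S36.H16

open ModularCurve Polynomial IntermediateField Fermat.Agent.S28
open Fermat.Agent.S34.H16 Fermat.Agent.S35.H16

/-! ### 1. Generic layer: the divided Kronecker polynomial as a minimal polynomial -/

section Generic

variable {K₀ L : Type*} [Field K₀] [Field L] [Algebra K₀ L]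
  (q : ℕ) [NeZero q] (D : ModularPolynomialData q) (y w : K₀) (θ : L)

/-- `Φ_q(y, Y) / (Y - w) ∈ K₀[Y]`. -/
def divPolyAt : K₀[X] := relPolyAt q D y /ₘ (X - C w)

variable {q D y w θ}

theorem relPolyAt_eq_mul_divPolyAt (hw : (relPolyAt q D y).eval w = 0) :
    relPolyAt q D y = (X - C w) * divPolyAt q D y w :=
  (Polynomial.mul_divByMonic_eq_iff_isRoot.2 hw).symm

theorem divPolyAt_monic (hw : (relPolyAt q D y).eval w = 0) : (divPolyAt q D y w).Monic := by
  have h1 := relPolyAt_monic q D y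
  rw [relPolyAt_eq_mul_divPolyAt hw] at h1
  exact (monic_X_sub_C w).of_mul_monic_left h1

theorem divPolyAt_natDegree (hq : q.Prime) : (divPolyAt q D y w).natDegree = q := by
  rw [divPolyAt, Polynomial.natDegree_divByMonic _ (monic_X_sub_C w), relPolyAt_natDegree q D y hq,
    natDegree_X_sub_C, Nat.add_sub_cancel]

/-- `θ` generates an extension of prime degree, hence is not in the base field. -/
theorem ne_algebraMap_of_adjoin_eq_top (hq : q.Prime)
    (hgen : IntermediateField.adjoin K₀ {θ} = ⊤) (hdeg : Module.finrank K₀ L = q) (c : K₀) :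
    θ ≠ algebraMap K₀ L c := by
  intro h0
  have h1 : IntermediateField.adjoin K₀ {θ} = ⊥ := by
    rw [IntermediateField.adjoin_simple_eq_bot_iff, h0]
    exact IntermediateField.algebraMap_mem ⊥ c
  rw [hgen] at h1
  have h2 := IntermediateField.bot_eq_top_iff_finrank_eq_one.1 h1.symm
  rw [hdeg] at h2
  exact hq.one_lt.ne' h2

theorem aeval_divPolyAt_eq_zero (hrel : Polynomial.aeval θ (relPolyAt q D y) = 0)
    (hw : (relPolyAt q D y).eval w = 0) (hne : θ ≠ algebraMap K₀ L w) :
    Polynomial.aeval θ (divPolyAt q D y w) = 0 := by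
  rw [relPolyAt_eq_mul_divPolyAt hw, map_mul, map_sub, aeval_X, aeval_C] at hrel
  exact (mul_eq_zero.1 hrel).resolve_left (sub_ne_zero.2 hne)

/-- **`minpoly K₀ θ = Φ_q(y, Y) / (Y - w)`** when `[K₀(θ) : K₀] = q`. -/
theorem minpoly_eq_divPolyAt (hq : q.Prime) (hrel : Polynomial.aeval θ (relPolyAt q D y) = 0)
    (hw : (relPolyAt q D y).eval w = 0)
    (hgen : IntermediateField.adjoin K₀ {θ} = ⊤) (hdeg : Module.finrank K₀ L = q) :
    minpoly K₀ θ = divPolyAt q D y w := by
  have hint := isIntegral_of_rel hrel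
  have hd : (minpoly K₀ θ).natDegree = q := by
    rw [← IntermediateField.adjoin.finrank hint, hgen, IntermediateField.finrank_top', hdeg]
  have h0 := aeval_divPolyAt_eq_zero hrel hw (ne_algebraMap_of_adjoin_eq_top hq hgen hdeg w)
  have hdvd := minpoly.dvd K₀ θ h0
  exact (Polynomial.eq_of_monic_of_dvd_of_natDegree_le (minpoly.monic hint)
    (divPolyAt_monic hw) hdvd (by rw [hd, divPolyAt_natDegree hq])).symm

end Generic

section Integral

variable {K₀ L : Type*} [Field K₀] [Field L] [Algebra K₀ L]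
  {q : ℕ} [NeZero q] {D : ModularPolynomialData q} {y w : K₀} {θ : L}
  {O : Type*} [CommRing O] [Algebra O K₀] [Algebra O L] [IsScalarTower O K₀ L]

/-- `f.map (O → K₀) = Φ_q(y, Y) / (Y - w)` for `f := (D.Φ.map φ) /ₘ (X - C wO)`. -/
theorem map_divByMonic_eq_divPolyAt (φ : ℤ[X] →+* O) (hφ : algebraMap O K₀ (φ X) = y)
    (wO : O) (hwO : algebraMap O K₀ wO = w) :
    ((D.Φ.map φ) /ₘ (X - C wO)).map (algebraMap O K₀) = divPolyAt q D y w := by
  rw [Polynomial.map_divByMonic _ (monic_X_sub_C wO), map_map_eq_relPolyAt φ hφ, Polynomial.map_sub,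
    Polynomial.map_X, Polynomial.map_C, hwO, divPolyAt]

theorem divByMonic_monic (φ : ℤ[X] →+* O) (wO : O) (hroot : (D.Φ.map φ).eval wO = 0) :
    ((D.Φ.map φ) /ₘ (X - C wO)).Monic := by
  have h1 : (D.Φ.map φ).Monic := D.monic.map φ
  rw [← Polynomial.mul_divByMonic_eq_iff_isRoot.2 hroot] at h1
  exact (monic_X_sub_C wO).of_mul_monic_left h1

theorem divByMonic_natDegree [Nontrivial O] (hq : q.Prime) (φ : ℤ[X] →+* O) (wO : O) :
    ((D.Φ.map φ) /ₘ (X - C wO)).natDegree = q := by
  rw [Polynomial.natDegree_divByMonic _ (monic_X_sub_C wO), D.monic.natDegree_map, D.natDegree_eq,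
    dedekindPsi_prime_eq' hq, natDegree_X_sub_C, Nat.add_sub_cancel]

/-- `hθ` of `nonempty_placeOver*` for the divided polynomial. -/
theorem aeval_divByMonic_eq_zero (hmp : minpoly K₀ θ = divPolyAt q D y w)
    (φ : ℤ[X] →+* O) (hφ : algebraMap O K₀ (φ X) = y) (wO : O) (hwO : algebraMap O K₀ wO = w) :
    Polynomial.aeval θ ((D.Φ.map φ) /ₘ (X - C wO)) = 0 := by
  have h1 := minpoly.aeval K₀ θ
  rw [hmp, ← map_divByMonic_eq_divPolyAt φ hφ wO hwO, Polynomial.aeval_map_algebraMap] at h1
  exact h1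

/-- `hmin` of `nonempty_placeOver*` for the divided polynomial. -/
theorem divByMonic_dvd_of_aeval_eq_zero (hmp : minpoly K₀ θ = divPolyAt q D y w)
    (hinj : Function.Injective (algebraMap O K₀))
    (φ : ℤ[X] →+* O) (hφ : algebraMap O K₀ (φ X) = y) (wO : O) (hwO : algebraMap O K₀ wO = w)
    (hroot : (D.Φ.map φ).eval wO = 0) :
    ∀ p : O[X], Polynomial.aeval θ p = 0 → (D.Φ.map φ) /ₘ (X - C wO) ∣ p := by
  intro p hp
  rw [← Polynomial.aeval_map_algebraMap K₀] at hp
  have h1 := minpoly.dvd K₀ θ hp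
  rw [hmp, ← map_divByMonic_eq_divPolyAt φ hφ wO hwO] at h1
  exact (Polynomial.map_dvd_map _ hinj (divByMonic_monic φ wO hroot)).1 h1

/-- The root condition over `O` follows from the one over `K₀`. -/
theorem eval_map_eq_zero_of_injective (hinj : Function.Injective (algebraMap O K₀))
    (φ : ℤ[X] →+* O) (hφ : algebraMap O K₀ (φ X) = y) (wO : O) (hwO : algebraMap O K₀ wO = w)
    (hw : (relPolyAt q D y).eval w = 0) : (D.Φ.map φ).eval wO = 0 := by
  apply hinj
  rw [map_zero, ← Polynomial.eval_map_apply, map_map_eq_relPolyAt φ hφ, hwO]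
  exact hw

end Integral

/-! ### 2. Degrees at `q ∣ M` -/

section Degree

variable (K : Type) [Field K] (M N : ℕ) [NeZero M] [NeZero N]

theorem dedekindPsi_prime_mul_of_dvd {q : ℕ} (hq : q.Prime) (hqM : q ∣ M) :
    dedekindPsi (q * M) = dedekindPsi M * q := by
  rw [S28.H64.dedekindPsi_prime_mul hq (Nat.pos_of_ne_zero (NeZero.ne M)), if_pos hqM]

/-- `relfinrank F_M F_N = q` for `N = q * M`, `q` prime, `q ∣ M`. -/
theorem relfinrank_fullC_prime_dvd (q : ℕ) (hq : q.Prime) (hqM : q ∣ M) (hN : N = q * M)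
    (hNK : ((N : ℕ) : K) ≠ 0) :
    IntermediateField.relfinrank (modularFunctionFieldFullC K M)
      (modularFunctionFieldFullC K N) = q := by
  have h := relfinrank_fullC_mul K M N (hN ▸ Dvd.intro_left q rfl) hNK
  have hψ : dedekindPsi N = dedekindPsi M * q := by
    rw [hN, dedekindPsi_prime_mul_of_dvd M hq hqM]
  rw [hψ] at h
  exact Nat.eq_of_mul_eq_mul_left (S18.H16.dedekindPsi_pos' M) h

/-- `finrank = relfinrank` for the inclusion algebra. -/
theorem finrank_degAlgebra_eq_relfinrank (h : M ∣ N) :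
    letI := degAlgebra K M N h
    Module.finrank (modularFunctionFieldFullC K M) (modularFunctionFieldFullC K N) =
      IntermediateField.relfinrank (modularFunctionFieldFullC K M)
        (modularFunctionFieldFullC K N) := by
  letI := degAlgebra K M N h
  rw [IntermediateField.relfinrank_eq_finrank_of_le (full_degeneracyC_le K h)]
  symm
  let e : (IntermediateField.extendScalars (full_degeneracyC_le K h))
      ≃ₗ[modularFunctionFieldFullC K M] modularFunctionFieldFullC K N :=
    { toFun := fun x => ⟨x.1, x.2⟩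
      invFun := fun x => ⟨x.1, x.2⟩
      map_add' := fun _ _ => rfl
      map_smul' := fun _ _ => rfl
      left_inv := fun _ => rfl
      right_inv := fun _ => rfl }
  exact e.finrank_eq

/-- **`[F_N : F_M] = q`** for `N = q * M`, `q ∣ M`, for the inclusion algebra. -/
theorem finrank_fullC_prime_dvd (h : M ∣ N) (q : ℕ) (hq : q.Prime) (hqM : q ∣ M) (hN : N = q * M)
    (hNK : ((N : ℕ) : K) ≠ 0) :
    letI := degAlgebra K M N h
    Module.finrank (modularFunctionFieldFullC K M) (modularFunctionFieldFullC K N) = q := by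
  letI := degAlgebra K M N h
  rw [finrank_degAlgebra_eq_relfinrank K M N h, relfinrank_fullC_prime_dvd K M N q hq hqM hN hNK]

theorem finiteDimensional_fullC_prime_dvd (h : M ∣ N) (q : ℕ) (hq : q.Prime) (hqM : q ∣ M)
    (hN : N = q * M) (hNK : ((N : ℕ) : K) ≠ 0) :
    letI := degAlgebra K M N h
    FiniteDimensional (modularFunctionFieldFullC K M) (modularFunctionFieldFullC K N) := by
  letI := degAlgebra K M N h
  apply Module.finite_of_finrank_pos
  rw [finrank_fullC_prime_dvd K M N h q hq hqM hN hNK]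
  exact hq.pos

/-- `[F_N : V_q(F_M)] = q` for `N = q * M`, `q` prime, `q ∣ M`. -/
theorem relfinrank_vRange_fullC_dvd (q : ℕ) [NeZero q] (hq : q.Prime)
    (hqM : q ∣ M) (hN : N = q * M) (hNK : ((N : ℕ) : K) ≠ 0) :
    IntermediateField.relfinrank (vRange K q M) (modularFunctionFieldFullC K N) = q := by
  have hqN : q ∣ N := hN ▸ Dvd.intro M rfl
  have hMN : M ∣ N := hN ▸ Dvd.intro_left q rfl
  have h1 := relfinrank_kJq_vRange K q M (natCast_ne_zero_of_dvd K hMN hNK)
  have h2 := relfinrank_kJq_fullC K q N hqN hNK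
  have h3 := IntermediateField.relfinrank_mul_relfinrank (kJq_le_vRange K q M)
    (vRange_le_fullC K q M N hN)
  rw [h1, h2] at h3
  have hψ : dedekindPsi N = dedekindPsi M * q := by
    rw [hN, dedekindPsi_prime_mul_of_dvd M hq hqM]
  rw [hψ] at h3
  exact Nat.eq_of_mul_eq_mul_left (S18.H16.dedekindPsi_pos' M) h3

/-- `finrank = relfinrank` over the range, for the `V_q` algebra. -/
theorem finrank_vAlgebra_eq_relfinrank (q : ℕ) [NeZero q] (hN : N = q * M) :
    letI := vAlgebra K q M N (dvd_of_eq hN.symm)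
    Module.finrank (modularFunctionFieldFullC K M) (modularFunctionFieldFullC K N) =
      IntermediateField.relfinrank (vRange K q M) (modularFunctionFieldFullC K N) := by
  letI := vAlgebra K q M N (dvd_of_eq hN.symm)
  rw [IntermediateField.relfinrank_eq_finrank_of_le (vRange_le_fullC K q M N hN)]
  let i : modularFunctionFieldFullC K M ≃+* vRange K q M :=
    (IntermediateField.equivMap (modularFunctionFieldFullC K M) (qExpandAlgHomC K q)).toRingEquiv
  let j : modularFunctionFieldFullC K N ≃+*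
      (IntermediateField.extendScalars (vRange_le_fullC K q M N hN)) :=
    { toFun := fun x => ⟨x.1, x.2⟩
      invFun := fun x => ⟨x.1, x.2⟩
      left_inv := fun _ => rfl
      right_inv := fun _ => rfl
      map_mul' := fun _ _ => rfl
      map_add' := fun _ _ => rfl }
  refine Algebra.finrank_eq_of_equiv_equiv i j ?_
  apply RingHom.ext
  intro x
  apply Subtype.ext
  rfl

/-- **`[F_N : F_M] = q` for the algebra structure `V_q`** (`q ∣ M`). -/
theorem finrank_vSub_dvd (q : ℕ) [NeZero q] (hq : q.Prime) (hqM : q ∣ M) (hN : N = q * M)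
    (hNK : ((N : ℕ) : K) ≠ 0) :
    letI := vAlgebra K q M N (dvd_of_eq hN.symm)
    Module.finrank (modularFunctionFieldFullC K M) (modularFunctionFieldFullC K N) = q := by
  letI := vAlgebra K q M N (dvd_of_eq hN.symm)
  rw [finrank_vAlgebra_eq_relfinrank K M N q hN,
    relfinrank_vRange_fullC_dvd K M N q hq hqM hN hNK]

theorem finiteDimensional_vSub_dvd (q : ℕ) [NeZero q] (hq : q.Prime) (hqM : q ∣ M)
    (hN : N = q * M) (hNK : ((N : ℕ) : K) ≠ 0) :
    letI := vAlgebra K q M N (dvd_of_eq hN.symm)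
    FiniteDimensional (modularFunctionFieldFullC K M) (modularFunctionFieldFullC K N) := by
  letI := vAlgebra K q M N (dvd_of_eq hN.symm)
  apply Module.finite_of_finrank_pos
  rw [finrank_vSub_dvd K M N q hq hqM hN hNK]
  exact hq.pos

/-! ### 3. The two instances -/

/-- `α`-side relation: `Φ_q(j_M, j_N) = 0` (`relPolyAt` form; no condition on `q`, `M`). -/
theorem alpha_rel (h : M ∣ N) (q : ℕ) [NeZero q] (hN : N = q * M) (D : ModularPolynomialData q) :
    letI := degAlgebra K M N h
    Polynomial.aeval (S18.H16.jNK K N) (relPolyAt q D (S18.H16.jNK K M)) = 0 :=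
  aeval_jNK_relPoly K M N h q hN D

/-- `α`-side "other root": `Φ_q(j_M, j_{M₀}) = 0` for `M = M₀ * q`. -/
theorem alpha_root (q : ℕ) [NeZero q] (M₀ : ℕ) [NeZero M₀] (hM : M = M₀ * q)
    (D : ModularPolynomialData q)
    (hD : ∀ (k : Type) [Field k] (ζ : kˣ), IsPrimitiveRoot ζ q → RootsAt k q ζ D.Φ) :
    (relPolyAt q D (S18.H16.jNK K M)).eval (S18.H99.jdK K M M₀ (Dvd.intro _ hM.symm)) = 0 := by
  rw [relPolyAt, Polynomial.eval_map]
  exact relFK_swap K M q D hD M₀ M hM (Dvd.intro _ hM.symm) dvd_rfl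

/-- **`α`-side minimal polynomial**: `minpoly F_M j_N = Φ_q(j_M, Y) / (Y - j_{M₀})`
(`N = q * M`, `M = M₀ * q`). -/
theorem alpha_minpoly (h : M ∣ N) (q : ℕ) [NeZero q] (hq : q.Prime) (M₀ : ℕ) [NeZero M₀]
    (hM : M = M₀ * q) (hN : N = q * M) (hNK : ((N : ℕ) : K) ≠ 0) (D : ModularPolynomialData q)
    (hD : ∀ (k : Type) [Field k] (ζ : kˣ), IsPrimitiveRoot ζ q → RootsAt k q ζ D.Φ) :
    letI := degAlgebra K M N h
    minpoly (modularFunctionFieldFullC K M) (S18.H16.jNK K N) =
      divPolyAt q D (S18.H16.jNK K M) (S18.H99.jdK K M M₀ (Dvd.intro _ hM.symm)) := by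
  letI := degAlgebra K M N h
  exact minpoly_eq_divPolyAt hq (alpha_rel K M N h q hN D) (alpha_root K M q M₀ hM D hD)
    (adjoin_jNK_over_eq_top K M N h hNK)
    (finrank_fullC_prime_dvd K M N h q hq (Dvd.intro_left _ hM.symm) hN hNK)

/-- `β`-side "other root": `Φ_q(j, j_q) = 0` in `F_M` for `q ∣ M`. -/
theorem beta_root (q : ℕ) [NeZero q] (hqM : q ∣ M) (D : ModularPolynomialData q) :
    (relPolyAt q D (S18.H16.jK K M)).eval (S18.H99.jdK K M q hqM) = 0 := by
  rw [relPolyAt, Polynomial.eval_map, ← S18.H99.jdK_one K M]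
  exact relFK K M q D 1 q (one_mul q).symm (one_dvd M) hqM

/-- **`β`-side minimal polynomial**: for the `V_q` algebra,
`minpoly F_M j = Φ_q(j, Y) / (Y - j_q)` (`N = q * M`, `q ∣ M`). -/
theorem beta_minpoly (q : ℕ) [NeZero q] (hq : q.Prime) (hqM : q ∣ M) (hN : N = q * M)
    (hNK : ((N : ℕ) : K) ≠ 0) (D : ModularPolynomialData q)
    (hD : ∀ (k : Type) [Field k] (ζ : kˣ), IsPrimitiveRoot ζ q → RootsAt k q ζ D.Φ) :
    letI := vAlgebra K q M N (dvd_of_eq hN.symm)
    minpoly (modularFunctionFieldFullC K M) (S18.H16.jK K N) =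
      divPolyAt q D (S18.H16.jK K M) (S18.H99.jdK K M q hqM) := by
  letI := vAlgebra K q M N (dvd_of_eq hN.symm)
  exact minpoly_eq_divPolyAt hq (vAlgebra_rel K q M N (dvd_of_eq hN.symm) D hD)
    (beta_root K M q hqM D) (vAlgebra_adjoin_jK_eq_top K q M N hN hNK)
    (finrank_vSub_dvd K M N q hq hqM hN hNK)

end Degree

end Fermat.Agent.S36.H16
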