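import Mathlib

/-!
# (M1) polynomial algebra for the level-`q²` step of L0: the divided Kronecker polynomial

`F = Φ_q(·, v) ∈ O[X]` satisfies Kronecker's congruence `F = (X - a)(X^q - b) + q R`
(`a = v^q`, `b = v`), and `w ∈ O` is a root of `F` (`w = j_q`).  The minimal polynomial of "another
root" `u` over the level-`q` field is `g0 := F /ₘ (X - w)`.

* over the place `P_0` (`w^q ≡ b`, i.e. `v ≡ w^q`):
  `g0 = (X - w)^(q-1) (X - a) + q r` with `q r(w) = F'(w)`   [→ Eisenstein place at `w`, `e = q-1`,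
  and the unramified place at `a`];
* over the place `P_∞` (`w ≡ a`, i.e. `w ≡ v^q`):
  `g0 = (X^q - b) + q r`   [→ one place, `e = 1`, `f = q` inseparable].

Everything is Mathlib-only and generic in `O`.
-/

set_option autoImplicit false

open Polynomial

namespace Fermat.Agent.S36.H6

variable {O : Type*} [CommRing O]

/-- the geometric sum polynomial `∑_{i<n} X^i w^(n-1-i) = (X^n - w^n)/(X - w)`. -/
noncomputable def geomPoly (n : ℕ) (w : O) : O[X] :=
  ∑ i ∈ Finset.range n, X ^ i * C w ^ (n - 1 - i)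

theorem X_sub_C_mul_geomPoly (n : ℕ) (w : O) :
    (X - C w) * geomPoly n w = X ^ n - C w ^ n := by
  rw [geomPoly, mul_comm]
  exact (Commute.all X (C w)).geom_sum₂_mul n

/-- a multiple of the monic `X - w` which is a constant is zero. -/
theorem eq_zero_of_X_sub_C_mul_eq_C [Nontrivial O] {B : O[X]} (w c : O)
    (h : (X - C w) * B = C c) : B = 0 := by
  by_contra hB
  have h1 := (monic_X_sub_C w).natDegree_mul' hB
  rw [h, natDegree_C, natDegree_X_sub_C] at h1
  omega

/-- divided difference: `p - p(w) = (X - w) * (p /ₘ (X - w))`. -/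
theorem sub_eval_eq_mul_divByMonic (p : O[X]) (w : O) :
    p - C (p.eval w) = (X - C w) * (p /ₘ (X - C w)) := by
  have h := Polynomial.modByMonic_add_div p (X - C w)
  rw [Polynomial.modByMonic_X_sub_C_eq_C_eval] at h
  exact sub_eq_of_eq_add' h.symm

/-- In characteristic dividing the prime `q`, `(X^q - w^q)/(X - w) = (X - w)^(q-1)`; over any ring
the difference is divisible by `q`. -/
theorem exists_geomPoly_eq (q : ℕ) [hq : Fact q.Prime] (w : O) :
    ∃ S : O[X], geomPoly q w = (X - C w) ^ (q - 1) + C (q : O) * S := by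
  rcases subsingleton_or_nontrivial O with hsub | hnt
  · exact ⟨0, Subsingleton.elim _ _⟩
  have hdiff : ∃ T : O[X], (X - C w) ^ q = X ^ q - C w ^ q + C (q : O) * T := by
    obtain ⟨r, hr⟩ := exists_add_pow_prime_eq hq.out (X : O[X]) (-C w)
    have hodd : ∃ T' : O[X], (-C w : O[X]) ^ q = -(C w ^ q) + C (q : O) * T' := by
      rcases hq.out.eq_two_or_odd' with h2 | hodd
      · refine ⟨C w ^ 2, ?_⟩
        rw [h2, C_eq_natCast]
        push_cast
        ring
      · exact ⟨0, by rw [hodd.neg_pow]; ring⟩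
    obtain ⟨T', hT'⟩ := hodd
    refine ⟨X * (-C w) * r + T', ?_⟩
    rw [sub_eq_add_neg, hr, hT', C_eq_natCast]
    ring
  obtain ⟨T, hT⟩ := hdiff
  have hq1 : q = (q - 1) + 1 := (Nat.succ_pred_eq_of_pos hq.out.pos).symm
  have h1 : (X - C w) * (geomPoly q w - (X - C w) ^ (q - 1)) = C (q : O) * (-T) := by
    rw [mul_sub, X_sub_C_mul_geomPoly, ← pow_succ', ← hq1, hT]; ring
  -- `T = (X - w) T₁ + T(w)`
  have hTw := sub_eval_eq_mul_divByMonic T w
  set T₁ := T /ₘ (X - C w) with hT₁
  have h2 : (X - C w) * (geomPoly q w - (X - C w) ^ (q - 1) + C (q : O) * T₁) =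
      C (-((q : O) * T.eval w)) := by
    have hT' : T = (X - C w) * T₁ + C (T.eval w) := by rw [← hTw]; ring
    rw [mul_add, h1]
    conv_lhs => rw [hT']
    simp only [C_neg, C_mul]
    ring
  have h3 := eq_zero_of_X_sub_C_mul_eq_C w _ h2
  refine ⟨-T₁, ?_⟩
  have h4 : geomPoly q w = (X - C w) ^ (q - 1) - C (q : O) * T₁ := by
    rw [eq_sub_iff_add_eq, ← sub_eq_zero, ← h3]; ring
  rw [h4]; ring

/-- uniqueness of the quotient by the monic `X - w`. -/
theorem eq_of_X_sub_C_mul_eq {g g' : O[X]} (w : O) (h : (X - C w) * g = (X - C w) * g') :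
    g = g' := by
  have hmonic : (X - C w : O[X]).Monic := monic_X_sub_C w
  have h1 : (X - C w) * (g - g') = 0 := by rw [mul_sub, h, sub_self]
  have h2 := hmonic.mul_right_eq_zero_iff.1 h1
  exact sub_eq_zero.1 h2

/-- **Over `P_0`.**  `F = (X - a)(X^q - b) + q R`, `F(w) = 0`, `w^q - b = q δ`:
`F /ₘ (X - w) = (X - w)^(q-1) (X - a) + q r` and `q r(w) = F'(w)`. -/
theorem exists_shift_of_kronecker_zero (q : ℕ) [hq : Fact q.Prime] (F R : O[X]) (a b w δ : O)
    (hF : F = (X - C a) * (X ^ q - C b) + C (q : O) * R) (hw : F.eval w = 0)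
    (hδ : w ^ q - b = (q : O) * δ) :
    ∃ r : O[X], F /ₘ (X - C w) = (X - C w) ^ (q - 1) * (X - C a) + C (q : O) * r ∧
      (q : O) * r.eval w = (derivative F).eval w ∧ F = (X - C w) * (F /ₘ (X - C w)) := by
  obtain ⟨S, hS⟩ := exists_geomPoly_eq q w
  have hFw : F = (X - C w) * (F /ₘ (X - C w)) := by
    have := sub_eval_eq_mul_divByMonic F w
    rw [hw, C_0, sub_zero] at this
    exact this
  set R₁ := R /ₘ (X - C w) with hR₁
  have hRw : R - C (R.eval w) = (X - C w) * R₁ := sub_eval_eq_mul_divByMonic R w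
  -- the value `F(w) = 0` spelled out
  have hval : (w - a) * (w ^ q - b) + (q : O) * R.eval w = 0 := by
    have := hw
    rw [hF] at this
    simpa using this
  set r : O[X] := S * (X - C a) + C δ + R₁ with hr
  have hg0 : F /ₘ (X - C w) = (X - C w) ^ (q - 1) * (X - C a) + C (q : O) * r := by
    apply eq_of_X_sub_C_mul_eq w
    rw [← hFw]
    -- `F = F - F(w)` expanded
    have hC : (C ((w - a) * (w ^ q - b) + (q : O) * R.eval w) : O[X]) = 0 := by
      rw [hval, C_0]
    have hexp : F = (X - C a) * ((X - C w) * geomPoly q w) + (X - C w) * C (w ^ q - b)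
        + C (q : O) * ((X - C w) * R₁) := by
      rw [X_sub_C_mul_geomPoly, ← hRw, hF]
      have : (X - C a) * (X ^ q - C b) + C (q : O) * R =
          (X - C a) * (X ^ q - C w ^ q) + (X - C w) * C (w ^ q - b) + C (q : O) * (R - C (R.eval w))
          + C ((w - a) * (w ^ q - b) + (q : O) * R.eval w) := by
        simp only [C_add, C_mul, C_sub, C_pow]
        ring
      rw [this, hC, add_zero]
    rw [hexp, hS, hδ, hr]
    simp only [C_mul]
    ring
  refine ⟨r, hg0, ?_, hFw⟩
  -- derivative: `F' = g0 + (X - w) g0'`, so `F'(w) = g0(w) = q r(w)` (`q - 1 ≥ 1`)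
  have hder : (derivative F).eval w = (F /ₘ (X - C w)).eval w := by
    conv_lhs => rw [hFw]
    rw [derivative_mul]
    simp
  rw [hder, hg0]
  have hq1 : q - 1 ≠ 0 := by have := hq.out.two_le; omega
  simp [hq1]

/-- **Over `P_∞`.**  `F = (X - a)(X^q - b) + q R`, `F(w) = 0`, `w - a = q δ`, `q` a non-zero-divisor:
`F /ₘ (X - w) = (X^q - b) + q r`. -/
theorem exists_shift_of_kronecker_infty (q : ℕ) (F R : O[X]) (a b w δ : O)
    (hq0 : ∀ x : O, (q : O) * x = 0 → x = 0)
    (hF : F = (X - C a) * (X ^ q - C b) + C (q : O) * R) (hw : F.eval w = 0)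
    (hδ : w - a = (q : O) * δ) :
    ∃ r : O[X], F /ₘ (X - C w) = (X ^ q - C b) + C (q : O) * r ∧
      F = (X - C w) * (F /ₘ (X - C w)) := by
  have hFw : F = (X - C w) * (F /ₘ (X - C w)) := by
    have := sub_eval_eq_mul_divByMonic F w
    rw [hw, C_0, sub_zero] at this
    exact this
  set G : O[X] := C δ * (X ^ q - C b) + R with hG
  have hFG : F = (X - C w) * (X ^ q - C b) + C (q : O) * G := by
    rw [hF, hG]
    have : (X - C a : O[X]) = (X - C w) + C (q : O) * C δ := by
      rw [← C_mul, ← hδ, C_sub]; ring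
    rw [this]; ring
  have hGw : G.eval w = 0 := by
    apply hq0
    have := hw
    rw [hFG] at this
    simpa using this
  have hGdiv : G = (X - C w) * (G /ₘ (X - C w)) := by
    have := sub_eval_eq_mul_divByMonic G w
    rw [hGw, C_0, sub_zero] at this
    exact this
  refine ⟨G /ₘ (X - C w), ?_, hFw⟩
  apply eq_of_X_sub_C_mul_eq w
  rw [← hFw]
  conv_lhs => rw [hFG, hGdiv]
  ring

end Fermat.Agent.S36.H6
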