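import Mathlib
import Fermat.Agent.CA.H99_TwoPlacesThm
import Fermat.Agent.S36.H6_EisensteinPlace

/-!
# (M1) "exactly these places", ramified case

Uniqueness of the Eisenstein place `PlaceOverRam` and the dichotomy for a defining polynomial whose
reduction is `(X - a)^n (X - b)`-like:  a valuation subring of `L` containing `O` in which `ϖ` is a
non-unit is the ramified place at `a` or the unramified place attached to the coprime factor.
-/

set_option autoImplicit false
set_option linter.unusedSectionVars false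

open Polynomial IsLocalRing

namespace Fermat.Agent.S36.H6

section Unique

variable {O : Type*} [CommRing O] [IsDomain O] [IsDiscreteValuationRing O]
variable {L : Type*} [Field L] [Algebra O L]
variable {Fk : Type*} [Field Fk]

/-- a unit of `O` has valuation one in every valuation subring containing `O`. -/
theorem valuation_eq_one_of_isUnit (V : ValuationSubring L)
    (hOV : ∀ a : O, algebraMap O L a ∈ V) {c : O} (hc : IsUnit c) :
    V.valuation (algebraMap O L c) = 1 := by
  obtain ⟨u, rfl⟩ := hc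
  have h1 : V.valuation (algebraMap O L (u : O)) ≤ 1 := (V.valuation_le_one_iff _).2 (hOV _)
  have h2 : V.valuation (algebraMap O L ((u⁻¹ : Oˣ) : O)) ≤ 1 :=
    (V.valuation_le_one_iff _).2 (hOV _)
  have h3 : V.valuation (algebraMap O L (u : O)) * V.valuation (algebraMap O L ((u⁻¹ : Oˣ) : O))
      = 1 := by
    rw [← map_mul, ← map_mul, Units.mul_inv, map_one, map_one]
  apply le_antisymm h1
  calc (1 : _) = V.valuation (algebraMap O L (u : O)) *
        V.valuation (algebraMap O L ((u⁻¹ : Oˣ) : O)) := h3.symm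
    _ ≤ V.valuation (algebraMap O L (u : O)) * 1 := mul_le_mul' le_rfl h2
    _ = V.valuation (algebraMap O L (u : O)) := mul_one _

/-- **Uniqueness of the ramified place**: a valuation subring of `L` containing `O` and `θ`, in
which `θ - a` is a non-unit, is the Eisenstein place at `a`. -/
theorem eq_of_valuationSubring_ram
    {ϖ : O} (hϖ : maximalIdeal O = Ideal.span {ϖ})
    (θ : L) (a : O) {n : ℕ}
    {ι : O →+* Fk} (hι : ι ϖ = 0)
    (P : PlaceOverRam ϖ θ (θ - algebraMap O L a) n ι (ι a)) (V : ValuationSubring L)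
    (hOV : ∀ c : O, algebraMap O L c ∈ V) (hθV : θ ∈ V)
    (hτV : θ - algebraMap O L a ∈ V.nonunits) : V.toSubring = P.O1 := by
  have hS : ∀ p : O[X], aeval θ p ∈ V := CA.H99.aeval_mem_valuationSubring V hOV hθV
  rw [ValuationSubring.mem_nonunits_iff] at hτV
  have hle : P.O1 ≤ V.toSubring := by
    intro y hy
    obtain ⟨pa, s, hs, e⟩ := P.exists_repr y hy
    -- `s = (X - a) s' + s(a)`, `s(a)` a unit of `O`
    obtain ⟨s', hs'⟩ := exists_eq_X_sub_C_mul_add s a
    have hsa : IsUnit (s.eval a) := by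
      by_contra hnu
      have hm : s.eval a ∈ maximalIdeal O := (IsLocalRing.mem_maximalIdeal _).mpr hnu
      apply hs
      rw [Polynomial.eval₂_at_apply]
      exact (map_eq_zero_iff_mem hϖ ι hι _).2 hm
    have hsθ : aeval θ s = (θ - algebraMap O L a) * aeval θ s' + algebraMap O L (s.eval a) := by
      conv_lhs => rw [hs']
      rw [map_add, map_mul, map_sub, aeval_X, aeval_C, aeval_C]
    have hn : V.valuation ((θ - algebraMap O L a) * aeval θ s') < 1 := by
      rw [map_mul]
      exact mul_lt_one_of_lt_of_le hτV ((V.valuation_le_one_iff _).2 (hS s'))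
    have hs1 : V.valuation (aeval θ s) = 1 := by
      rw [hsθ, add_comm]
      have h1 := valuation_eq_one_of_isUnit V hOV hsa
      rw [← h1]
      apply Valuation.map_add_eq_of_lt_left
      rw [h1]
      exact hn
    have hs0 : aeval θ s ≠ 0 := by
      intro h0
      rw [h0, map_zero] at hs1
      exact zero_ne_one hs1
    have hy' : y = aeval θ pa * (aeval θ s)⁻¹ := by
      rw [← e, mul_assoc, mul_inv_cancel₀ hs0, mul_one]
    change y ∈ V
    rw [hy', ← V.valuation_le_one_iff, map_mul, map_inv₀, hs1, inv_one, mul_one]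
    exact (V.valuation_le_one_iff _).2 (hS pa)
  apply le_antisymm _ hle
  intro y hy
  by_contra hyO
  have hyinv : y⁻¹ ∈ P.O1 := (P.mem_or_inv_mem y).resolve_left hyO
  have hres : P.res1 ⟨y⁻¹, hyinv⟩ = 0 := by
    by_contra hne
    have := P.inv_mem _ hyinv hne
    rw [inv_inv] at this
    exact hyO this
  obtain ⟨z, hz, e⟩ := (P.res1_eq_zero_iff _ hyinv).1 hres
  have hy0 : y ≠ 0 := by
    rintro rfl
    exact hyO (Subring.zero_mem _)
  have h1 : V.valuation y⁻¹ < 1 := by
    rw [e, map_mul]
    exact mul_lt_one_of_lt_of_le hτV ((V.valuation_le_one_iff _).2 (hle hz))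
  have h2 : V.valuation y ≤ 1 := (V.valuation_le_one_iff _).2 hy
  rw [map_inv₀] at h1
  have h3 : V.valuation y ≠ 0 := (Valuation.ne_zero_iff _).2 hy0
  have h4 : (1 : _) < V.valuation y := by
    by_contra hle1
    replace hle1 := not_lt.1 hle1
    have : 1 ≤ (V.valuation y)⁻¹ := by
      rw [one_le_inv₀ (zero_lt_iff.2 h3)]
      exact hle1
    exact absurd h1 (not_lt.2 this)
  exact absurd h2 (not_le.2 h4)

/-- **Exactly two places over a DVR when `f ≡ (X - a)^n * g₂`**: a valuation subring of `L`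
containing `O` in which `ϖ` is a non-unit is the Eisenstein place at `a` or the unramified place
attached to the irreducible factor `g₂`.  (`f = (X - a)^n * g₂ + ϖ r'` is the only input.) -/
theorem eq_or_eq_of_valuationSubring_ram {Fk₂ : Type*} [Field Fk₂] {f g₂ r' : O[X]}
    (hf : f.Monic) (a : O) {n : ℕ}
    {ϖ : O} (hϖ : maximalIdeal O = Ideal.span {ϖ})
    (hfac : f = (X - C a) ^ n * g₂ + C ϖ * r')
    (hirr₂ : Irreducible (g₂.map (residue O)))
    (θ : L) (hθ : aeval θ f = 0)
    {ι₁ : O →+* Fk} (hι₁ : ι₁ ϖ = 0)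
    {ι₂ : O →+* Fk₂} (hι₂ : ι₂ ϖ = 0) {θb₂ : Fk₂} (hθb₂ : g₂.eval₂ ι₂ θb₂ = 0)
    (P₁ : PlaceOverRam ϖ θ (θ - algebraMap O L a) n ι₁ (ι₁ a))
    (P₂ : CA.H99.PlaceOver ϖ θ ι₂ θb₂) (V : ValuationSubring L)
    (hOV : ∀ c : O, algebraMap O L c ∈ V) (hϖV : algebraMap O L ϖ ∈ V.nonunits) :
    V.toSubring = P₁.O1 ∨ V.toSubring = P₂.O1 := by
  have hθV : θ ∈ V := CA.H99.mem_valuationSubring_of_isIntegral V hOV ⟨f, hf, hθ⟩
  have hS : ∀ p : O[X], aeval θ p ∈ V := CA.H99.aeval_mem_valuationSubring V hOV hθV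
  have h1 := congrArg (aeval θ) hfac
  rw [hθ, map_add, map_mul, map_mul, map_pow, map_sub, aeval_X, aeval_C, aeval_C] at h1
  have h2 : (θ - algebraMap O L a) ^ n * aeval θ g₂ = -(algebraMap O L ϖ * aeval θ r') := by
    rw [eq_neg_iff_add_eq_zero]; exact h1.symm
  have hlt : V.valuation (θ - algebraMap O L a) ^ n * V.valuation (aeval θ g₂) < 1 := by
    rw [← map_pow, ← map_mul, h2, Valuation.map_neg, map_mul]
    exact mul_lt_one_of_lt_of_le ((ValuationSubring.mem_nonunits_iff V).1 hϖV)
      ((V.valuation_le_one_iff _).2 (hS r'))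
  have hτmem : θ - algebraMap O L a ∈ V := V.toSubring.sub_mem hθV (hOV a)
  by_cases hg1 : V.valuation (θ - algebraMap O L a) < 1
  · left
    exact eq_of_valuationSubring_ram hϖ θ a hι₁ P₁ V hOV hθV
      ((ValuationSubring.mem_nonunits_iff V).2 hg1)
  · right
    have hg1' : V.valuation (θ - algebraMap O L a) = 1 :=
      le_antisymm ((V.valuation_le_one_iff _).2 hτmem) (not_lt.1 hg1)
    rw [hg1', one_pow, one_mul] at hlt
    exact CA.H99.eq_of_valuationSubring hf hirr₂ hϖ θ hθ hι₂ hθb₂ P₂ V hOV hϖV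
      ((ValuationSubring.mem_nonunits_iff V).2 hlt)

end Unique

/-- The valuation subring of a ramified place. -/
def PlaceOverRam.toValuationSubring {O : Type*} [CommRing O] {L : Type*} [Field L] [Algebra O L]
    {Fk : Type*} [Field Fk] {ϖ : O} {θ τ : L} {n : ℕ} {ι : O →+* Fk} {θb : Fk}
    (P : PlaceOverRam ϖ θ τ n ι θb) : ValuationSubring L :=
  { P.O1 with mem_or_inv_mem' := P.mem_or_inv_mem }

theorem PlaceOverRam.toValuationSubring_toSubring {O : Type*} [CommRing O] {L : Type*} [Field L]
    [Algebra O L] {Fk : Type*} [Field Fk] {ϖ : O} {θ τ : L} {n : ℕ} {ι : O →+* Fk} {θb : Fk}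
    (P : PlaceOverRam ϖ θ τ n ι θb) : P.toValuationSubring.toSubring = P.O1 := rfl

end Fermat.Agent.S36.H6
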