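import Mathlib
import Fermat.Agent.S34.H16_TwoPlacesJN
import Fermat.Agent.S34.H16_RelSwap
import Fermat.Agent.CA.H99_KroneckerPlaces
import Fermat.Agent.S36.H6_ThreePlaces
import Fermat.Agent.S36.H6_DividedKronecker

/-!
S36 / (M1) (helper6): the SEAM FILE of the level-`q²` Kummer–Dedekind step, compiled against the real
exports (level-`q²` twin of helper16's `S34/H16_TwoPlacesJN`).

Tower `M ∣ N = q M ∣ N₂ = q N`.  For ANY discrete valuation ring `O` with fraction field
`F_N = FullC K N`, uniformiser `q`, residue characteristic `q`, containing `v = j_N` (`φ X`) and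
`w = j_M`, the field `F_{N₂} = FullC K N₂ = F_N(j_{N₂})` has

* `g0 := Φ_q(v, X) /ₘ (X - w)`, monic of degree `q`, the minimal polynomial of `j_{N₂}` over `O`;
* **case (V)** `w^q ≡ v` (S34's `PlaceInf`), `Φ_q'(v, w) = q·unit`, `w - v^q` a unit:
  the Eisenstein place at `w` (`PlaceOverRam`, `e = q - 1`, uniformiser `j_{N₂} - j_M`), the
  unramified place at `v^q` (`PlaceOver`), and these are ALL the places over `O`;
* **case (F)** `w ≡ v^q` (S34's `PlaceZero`), `v̄` not a `q`-th power in the residue field: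
  exactly one place (`PlaceOver`, `e = 1`, `f = q`), with `res(j_{N₂})^q = res(v)`.
-/

set_option autoImplicit false
set_option linter.unusedSectionVars false
set_option linter.style.haveILetI false
set_option synthInstance.maxHeartbeats 400000

noncomputable section

namespace Fermat.Agent.S36.H6

open ModularCurve Polynomial IsLocalRing Fermat.Agent.S28 Fermat.Agent.S34.H16

section Degree

variable (K : Type) [Field K] (N N₂ : ℕ) [NeZero N] [NeZero N₂]

/-- `relfinrank F_N F_{N₂} = q` for `N₂ = q N`, `q` prime, `q ∣ N`. -/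
theorem relfinrank_fullC_prime_dvd (q : ℕ) (hq : q.Prime) (hqN : q ∣ N) (hN₂ : N₂ = q * N)
    (hNK : ((N₂ : ℕ) : K) ≠ 0) :
    IntermediateField.relfinrank (modularFunctionFieldFullC K N)
      (modularFunctionFieldFullC K N₂) = q := by
  have h := relfinrank_fullC_mul K N N₂ (hN₂ ▸ Dvd.intro_left q rfl) hNK
  have hψ : dedekindPsi N₂ = dedekindPsi N * q := by
    rw [hN₂, S28.H64.dedekindPsi_prime_mul hq (Nat.pos_of_ne_zero (NeZero.ne N)), if_pos hqN]
  rw [hψ] at h
  exact Nat.eq_of_mul_eq_mul_left (S18.H16.dedekindPsi_pos' N) h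

/-- `[F_{N₂} : F_N] = q` for the inclusion algebra. -/
theorem finrank_fullC_prime_dvd (h : N ∣ N₂) (q : ℕ) (hq : q.Prime) (hqN : q ∣ N)
    (hN₂ : N₂ = q * N) (hNK : ((N₂ : ℕ) : K) ≠ 0) :
    letI := degAlgebra K N N₂ h
    Module.finrank (modularFunctionFieldFullC K N) (modularFunctionFieldFullC K N₂) = q := by
  letI := degAlgebra K N N₂ h
  rw [← relfinrank_fullC_prime_dvd K N N₂ q hq hqN hN₂ hNK,
    IntermediateField.relfinrank_eq_finrank_of_le (full_degeneracyC_le K h)]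
  symm
  let e : (IntermediateField.extendScalars (full_degeneracyC_le K h)) ≃ₗ[modularFunctionFieldFullC K N]
      modularFunctionFieldFullC K N₂ :=
    { toFun := fun x => ⟨x.1, x.2⟩
      invFun := fun x => ⟨x.1, x.2⟩
      map_add' := fun _ _ => rfl
      map_smul' := fun _ _ => rfl
      left_inv := fun _ => rfl
      right_inv := fun _ => rfl }
  exact e.finrank_eq

/-- `j_{N₂} ≠ j_d` in `F_{N₂}` for a proper divisor `d`. -/
theorem jNK_ne_jdK (d : ℕ) [NeZero d] (hd : d ∣ N₂) (hne : d ≠ N₂) :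
    S18.H16.jNK K N₂ ≠ S18.H99.jdK K N₂ d hd := by
  intro h
  have h1 := congrArg (fun x : modularFunctionFieldFullC K N₂ => ((x : LaurentSeries K)).order) h
  simp only [S18.H16.coe_jNK, S18.H99.coe_jdK, S28.H39.order_qExpand, S28.H39.order_jqModC] at h1
  apply hne
  have : (N₂ : ℤ) = d := by linarith
  exact_mod_cast this.symm

end Degree

/-- the minimal polynomial of `j_{N₂}` over `O`: `Φ_q(j_N, X) / (X - j_M)`. -/
def g0 {q : ℕ} [NeZero q] (D : ModularPolynomialData q) {O : Type*} [CommRing O]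
    (φ : ℤ[X] →+* O) (w : O) : O[X] := (D.Φ.map φ) /ₘ (X - C w)

section Seam

variable (K : Type) [Field K] (M N N₂ : ℕ) [NeZero M] [NeZero N] [NeZero N₂]
  (hMN : M ∣ N) (hNN₂ : N ∣ N₂)
  (q : ℕ) [Fact q.Prime] [NeZero q] (hN : N = q * M) (hN₂ : N₂ = q * N)
  (hNK : ((N₂ : ℕ) : K) ≠ 0)
  (D : ModularPolynomialData q)
  (hD : ∀ (k : Type) [Field k] (ζ : kˣ), IsPrimitiveRoot ζ q → RootsAt k q ζ D.Φ)
  {O : Type*} [CommRing O] [IsDomain O] [IsDiscreteValuationRing O]
  [CharP (ResidueField O) q]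
  [Algebra O (modularFunctionFieldFullC K N)] [IsFractionRing O (modularFunctionFieldFullC K N)]
  [Algebra O (modularFunctionFieldFullC K N₂)]
  (htower : letI := degAlgebra K N N₂ hNN₂
    IsScalarTower O (modularFunctionFieldFullC K N) (modularFunctionFieldFullC K N₂))
  (φ : ℤ[X] →+* O)
  (hφ : algebraMap O (modularFunctionFieldFullC K N) (φ X) = S18.H16.jNK K N)
  (w : O) (hw : algebraMap O (modularFunctionFieldFullC K N) w = S18.H99.jdK K N M hMN)
  (hϖ : maximalIdeal O = Ideal.span {((q : ℕ) : O)})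

include hD hN hφ hw in
/-- `Φ_q(j_N, j_M) = 0`: `w` is a root of `F = Φ_q(v, X)`. -/
theorem eval_w_map_eq_zero : (D.Φ.map φ).eval w = 0 := by
  apply IsFractionRing.injective O (modularFunctionFieldFullC K N)
  rw [map_zero, ← Polynomial.eval₂_hom, ← Polynomial.eval_map, hw,
    map_map_eq_relPoly K N q D φ hφ, relPoly, Polynomial.eval_map]
  exact relFK_swap K N q D hD M N (hN.trans (mul_comm q M)) hMN dvd_rfl

include hD hN hφ hw in
theorem map_eq_mul_g0 : D.Φ.map φ = (X - C w) * g0 D φ w := by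
  have h := sub_eval_eq_mul_divByMonic (D.Φ.map φ) w
  rw [eval_w_map_eq_zero K M N hMN q hN D hD φ hφ w hw, C_0, sub_zero] at h
  exact h

include hD hN hφ hw in
theorem g0_monic : (g0 D φ w).Monic :=
  (monic_X_sub_C w).of_mul_monic_left
    (by rw [← map_eq_mul_g0 K M N hMN q hN D hD φ hφ w hw]; exact D.monic.map φ)

include hD hN hφ hw in
theorem g0_natDegree : (g0 D φ w).natDegree = q := by
  have h1 := congrArg Polynomial.natDegree (map_eq_mul_g0 K M N hMN q hN D hD φ hφ w hw)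
  rw [(monic_X_sub_C w).natDegree_mul (g0_monic K M N hMN q hN D hD φ hφ w hw),
    natDegree_X_sub_C, S34.H6.natDegree_map_Phi q D φ] at h1
  omega

include hD hN hN₂ hφ hw htower in
/-- `hθ`: `g0(j_{N₂}) = 0`. -/
theorem aeval_jNK_g0 : aeval (S18.H16.jNK K N₂) (g0 D φ w) = 0 := by
  letI := degAlgebra K N N₂ hNN₂
  haveI := htower
  have h1 := aeval_jNK_map_eq_zero K N N₂ hNN₂ q hN₂ D φ hφ htower
  rw [map_eq_mul_g0 K M N hMN q hN D hD φ hφ w hw, map_mul, map_sub, aeval_X, aeval_C] at h1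
  have hwN₂ : algebraMap O (modularFunctionFieldFullC K N₂) w =
      S18.H99.jdK K N₂ M (hMN.trans hNN₂) := by
    rw [IsScalarTower.algebraMap_apply O (modularFunctionFieldFullC K N)
      (modularFunctionFieldFullC K N₂), hw]
    exact degAlgebra_algebraMap_jdK K N N₂ hNN₂ M hMN
  have hq2 := (Fact.out : q.Prime).two_le
  have hne : S18.H16.jNK K N₂ - algebraMap O (modularFunctionFieldFullC K N₂) w ≠ 0 := by
    rw [hwN₂, sub_ne_zero]
    refine jNK_ne_jdK K N₂ M (hMN.trans hNN₂) ?_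
    rw [hN₂, hN]
    have hM : 0 < M := Nat.pos_of_ne_zero (NeZero.ne M)
    intro h
    have : q * (q * M) ≥ 2 * (2 * M) := Nat.mul_le_mul hq2 (Nat.mul_le_mul hq2 le_rfl)
    omega
  exact (mul_eq_zero.1 h1).resolve_left hne

include hD hN hN₂ hNK hφ hw htower in
/-- `hmin`: a polynomial over `O` killing `j_{N₂}` is a multiple of `g0`. -/
theorem g0_dvd_of_aeval_eq_zero :
    ∀ p : O[X], aeval (S18.H16.jNK K N₂) p = 0 → g0 D φ w ∣ p := by
  letI := degAlgebra K N N₂ hNN₂
  haveI := htower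
  have hqN : q ∣ N := hN ▸ Dvd.intro M rfl
  refine CA.H99.dvd_of_aeval_eq_zero_of_finrank (K := modularFunctionFieldFullC K N)
    (g0_monic K M N hMN q hN D hD φ hφ w hw) (S18.H16.jNK K N₂)
    (aeval_jNK_g0 K M N N₂ hMN hNN₂ q hN hN₂ D hD htower φ hφ w hw)
    (algebra_adjoin_jNK_over_eq_top K N N₂ hNN₂ q hN₂ hNK) ?_
  rw [g0_natDegree K M N hMN q hN D hD φ hφ w hw]
  exact finrank_fullC_prime_dvd K N N₂ hNN₂ q (Fact.out : q.Prime) hqN hN₂ hNK

include hD hϖ in
/-- **Kronecker, lifted to `O`**: `F = (X - v^q)(X^q - v) + q R`. -/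
theorem exists_kronecker_lift :
    ∃ R : O[X], D.Φ.map φ = (X - C (φ X ^ q)) * (X ^ q - C (φ X)) + C ((q : ℕ) : O) * R := by
  obtain ⟨r, hr⟩ := CA.H99.exists_mul_eq_add
    (S34.H6.map_map_kronecker q D hD φ (residue O)) hϖ
  exact ⟨-r, by rw [hr]; ring⟩

/-! ### Case (V): `w^q ≡ v` -/

include hD hN hN₂ hNK hφ hw htower hϖ in
/-- **Case (V)**, existence + uniqueness: the Eisenstein place at `w = j_M` (`e = q - 1`), the
unramified place at `v^q`, and nothing else. -/
theorem places_caseV (δ : O) (hδ : w ^ q - φ X = ((q : ℕ) : O) * δ)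
    (c : O) (hc : IsUnit c)
    (hder : (derivative (D.Φ.map φ)).eval w = ((q : ℕ) : O) * c)
    (hunit : IsUnit (w - φ X ^ q))
    {Fk : Type*} [Field Fk] (ι : O →+* Fk) (hιϖ : ι ((q : ℕ) : O) = 0) :
    letI := degAlgebra K N N₂ hNN₂
    ∃ (P₁ : PlaceOverRam (L := modularFunctionFieldFullC K N₂) ((q : ℕ) : O) (S18.H16.jNK K N₂)
        (S18.H16.jNK K N₂ - algebraMap O (modularFunctionFieldFullC K N₂) w) (q - 1) ι (ι w))
      (P₂ : CA.H99.PlaceOver (L := modularFunctionFieldFullC K N₂) ((q : ℕ) : O)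
        (S18.H16.jNK K N₂) ι (ι (φ X) ^ q)),
      ∀ V : ValuationSubring (modularFunctionFieldFullC K N₂),
        (∀ a : O, algebraMap O (modularFunctionFieldFullC K N₂) a ∈ V) →
        algebraMap O (modularFunctionFieldFullC K N₂) ((q : ℕ) : O) ∈ V.nonunits →
        V.toSubring = P₁.O1 ∨ V.toSubring = P₂.O1 := by
  letI := degAlgebra K N N₂ hNN₂
  haveI := htower
  have hq : q.Prime := Fact.out
  have hq1 : 0 < q - 1 := by have := hq.two_le; omega
  obtain ⟨R, hR⟩ := exists_kronecker_lift q D hD φ hϖ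
  obtain ⟨r, hg0, hrw, -⟩ := exists_shift_of_kronecker_zero q (D.Φ.map φ) R (φ X ^ q) (φ X) w δ hR
    (eval_w_map_eq_zero K M N hMN q hN D hD φ hφ w hw) hδ
  have hq0 : (((q : ℕ) : O)) ≠ 0 := by
    intro h0
    have : maximalIdeal O = ⊥ := by rw [hϖ, h0]; simp
    exact IsDiscreteValuationRing.not_a_field O this
  have hrc : r.eval w = c := mul_left_cancel₀ hq0 (by rw [hrw, hder])
  have hmonic := g0_monic K M N hMN q hN D hD φ hφ w hw
  have hθ := aeval_jNK_g0 K M N N₂ hMN hNN₂ q hN hN₂ D hD htower φ hφ w hw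
  have hmin := g0_dvd_of_aeval_eq_zero K M N N₂ hMN hNN₂ q hN hN₂ hNK D hD htower φ hφ w hw
  have hgen := algebra_adjoin_jNK_over_eq_top K N N₂ hNN₂ q hN₂ hNK
  have hg0' : g0 D φ w = (X - C w) ^ (q - 1) * (X - C (φ X ^ q)) + C ((q : ℕ) : O) * r := hg0
  -- the Eisenstein place
  obtain ⟨P₁⟩ := nonempty_placeOverRam (K := modularFunctionFieldFullC K N) hmonic hϖ
    (S18.H16.jNK K N₂) hθ hmin hgen w hq1 (X - C (φ X ^ q)) r hg0'
    (by rw [eval_sub, eval_X, eval_C]; exact hunit) (by rw [hrc]; exact hc) ι hιϖ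
  -- the unramified place
  have hfac : (g0 D φ w).map (residue O) =
      (X - C (φ X ^ q) : O[X]).map (residue O) * ((X - C w) ^ (q - 1) : O[X]).map (residue O) := by
    rw [hg0', Polynomial.map_add, Polynomial.map_mul, Polynomial.map_mul, Polynomial.map_C]
    have : residue O ((q : ℕ) : O) = 0 := by
      rw [residue_eq_zero_iff, hϖ]; exact Ideal.mem_span_singleton_self _
    rw [this, C_0, zero_mul, add_zero, mul_comm]
  have hcop : IsCoprime ((X - C (φ X ^ q) : O[X]).map (residue O))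
      (((X - C w) ^ (q - 1) : O[X]).map (residue O)) := by
    rw [Polynomial.map_pow, Polynomial.map_sub, Polynomial.map_sub, Polynomial.map_X,
      Polynomial.map_C, Polynomial.map_C]
    apply IsCoprime.pow_right
    apply Polynomial.isCoprime_X_sub_C_of_isUnit_sub
    rw [← map_sub]
    have : IsUnit (φ X ^ q - w) := by
      have := hunit.neg; rwa [neg_sub] at this
    exact this.map (residue O)
  obtain ⟨P₂⟩ := CA.H99.nonempty_placeOver (K := modularFunctionFieldFullC K N)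
    (f := g0 D φ w) (g := X - C (φ X ^ q)) (h := (X - C w) ^ (q - 1)) hmonic hfac
    (S34.H6.irreducible_map_X_sub_C (residue O) _) hcop hϖ (S18.H16.jNK K N₂) hθ hmin hgen
    ι hιϖ (ι (φ X) ^ q) (by rw [eval₂_sub, eval₂_X, eval₂_C, map_pow, sub_self])
  refine ⟨P₁, P₂, fun V hOV hϖV => ?_⟩
  exact eq_or_eq_of_valuationSubring_ram hmonic w hϖ hg0'
    (S34.H6.irreducible_map_X_sub_C (residue O) _) (S18.H16.jNK K N₂) hθ hιϖ hιϖ
    (by rw [eval₂_sub, eval₂_X, eval₂_C, map_pow, sub_self]) P₁ P₂ V hOV hϖV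

/-! ### Case (F): `w ≡ v^q` -/

include hD hN hN₂ hNK hφ hw htower hϖ in
/-- **Case (F)**, existence + uniqueness: one place, `e = 1`, residue of `j_{N₂}` a `q`-th root of
the residue of `v = j_N`. -/
theorem places_caseF (δ : O) (hδ : w - φ X ^ q = ((q : ℕ) : O) * δ)
    (hnp : ∀ b : ResidueField O, b ^ q ≠ residue O (φ X))
    {Fk : Type*} [Field Fk] (ι : O →+* Fk) (hιϖ : ι ((q : ℕ) : O) = 0)
    (θb : Fk) (hθb : θb ^ q = ι (φ X)) :
    letI := degAlgebra K N N₂ hNN₂
    ∃ P : CA.H99.PlaceOver (L := modularFunctionFieldFullC K N₂) ((q : ℕ) : O)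
        (S18.H16.jNK K N₂) ι θb,
      ∀ V : ValuationSubring (modularFunctionFieldFullC K N₂),
        (∀ a : O, algebraMap O (modularFunctionFieldFullC K N₂) a ∈ V) →
        algebraMap O (modularFunctionFieldFullC K N₂) ((q : ℕ) : O) ∈ V.nonunits →
        V.toSubring = P.O1 := by
  letI := degAlgebra K N N₂ hNN₂
  haveI := htower
  have hq : q.Prime := Fact.out
  obtain ⟨R, hR⟩ := exists_kronecker_lift q D hD φ hϖ
  have hq0 : ∀ x : O, ((q : ℕ) : O) * x = 0 → x = 0 := by
    intro x hx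
    rcases mul_eq_zero.1 hx with h0 | h0
    · exfalso
      have : maximalIdeal O = ⊥ := by rw [hϖ, h0]; simp
      exact IsDiscreteValuationRing.not_a_field O this
    · exact h0
  obtain ⟨r, hg0, -⟩ := exists_shift_of_kronecker_infty q (D.Φ.map φ) R (φ X ^ q) (φ X) w δ hq0 hR
    (eval_w_map_eq_zero K M N hMN q hN D hD φ hφ w hw) hδ
  have hg0' : g0 D φ w = (X ^ q - C (φ X)) + C ((q : ℕ) : O) * r := hg0
  have hmonic := g0_monic K M N hMN q hN D hD φ hφ w hw
  have hθ := aeval_jNK_g0 K M N N₂ hMN hNN₂ q hN hN₂ D hD htower φ hφ w hw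
  have hmin := g0_dvd_of_aeval_eq_zero K M N N₂ hMN hNN₂ q hN hN₂ hNK D hD htower φ hφ w hw
  have hgen := algebra_adjoin_jNK_over_eq_top K N N₂ hNN₂ q hN₂ hNK
  have hres0 : residue O ((q : ℕ) : O) = 0 := by
    rw [residue_eq_zero_iff, hϖ]; exact Ideal.mem_span_singleton_self _
  have hfac : (g0 D φ w).map (residue O) =
      (X ^ q - C (φ X) : O[X]).map (residue O) * (1 : O[X]).map (residue O) := by
    rw [hg0', Polynomial.map_add, Polynomial.map_mul, Polynomial.map_C, hres0, C_0, zero_mul,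
      add_zero, Polynomial.map_one, mul_one]
  have hirr := S34.H6.irreducible_map_X_pow_sub_C (residue O) q hq (φ X) hnp
  have hcop : IsCoprime ((X ^ q - C (φ X) : O[X]).map (residue O))
      ((1 : O[X]).map (residue O)) := by
    rw [Polynomial.map_one]; exact isCoprime_one_right
  have hθb' : (X ^ q - C (φ X) : O[X]).eval₂ ι θb = 0 := by
    rw [eval₂_sub, eval₂_pow, eval₂_X, eval₂_C, hθb, sub_self]
  obtain ⟨P⟩ := CA.H99.nonempty_placeOver (K := modularFunctionFieldFullC K N)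
    (f := g0 D φ w) (g := X ^ q - C (φ X)) (h := 1) hmonic hfac hirr hcop hϖ
    (S18.H16.jNK K N₂) hθ hmin hgen ι hιϖ θb hθb'
  refine ⟨P, fun V hOV hϖV => ?_⟩
  have hθV : S18.H16.jNK K N₂ ∈ V :=
    CA.H99.mem_valuationSubring_of_isIntegral V hOV ⟨g0 D φ w, hmonic, hθ⟩
  have hS : ∀ p : O[X], aeval (S18.H16.jNK K N₂) p ∈ V :=
    CA.H99.aeval_mem_valuationSubring V hOV hθV
  refine CA.H99.eq_of_valuationSubring hmonic hirr hϖ (S18.H16.jNK K N₂) hθ hιϖ hθb' P V hOV hϖV ?_
  -- `g(θ) = - q r(θ)` is a non-unit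
  have h1 := congrArg (aeval (S18.H16.jNK K N₂)) hg0'
  rw [hθ, map_add, map_mul, aeval_C] at h1
  have h2 : aeval (S18.H16.jNK K N₂) (X ^ q - C (φ X) : O[X]) =
      -(algebraMap O (modularFunctionFieldFullC K N₂) ((q : ℕ) : O) *
        aeval (S18.H16.jNK K N₂) r) := by
    rw [eq_neg_iff_add_eq_zero]; exact h1.symm
  rw [ValuationSubring.mem_nonunits_iff] at hϖV ⊢
  rw [h2, Valuation.map_neg, map_mul]
  exact mul_lt_one_of_lt_of_le hϖV ((V.valuation_le_one_iff _).2 (hS r))

end Seam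

end Fermat.Agent.S36.H6
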