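import Mathlib
import Fermat.Agent.S36.H16_RelDegQ
import Fermat.Agent.S36.H16_NormRedPlaces
import Fermat.Agent.S36.H6_ThreePlacesJN

/-!
S36 / (M1)+(E5) (helper16): the level-`q²` Kummer–Dedekind step and the norm reduction for a GENERIC
"divided Kronecker" extension, so that BOTH embeddings `F_N → F_{N₂}` (inclusion and `V_q`) are
instances (generic twin of helper6's `S36/H6_ThreePlacesJN`, which is the inclusion instance).

`K₀ ⊆ L` fields, `[L : K₀] = q`, `L = K₀(θ)`, `minpoly K₀ θ = Φ_q(y, Y) / (Y - w)`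
(`S36.H16.divPolyAt`); `O` a DVR with fraction field `K₀`, uniformiser `q`, containing `y = φ X`
and `w = wO`; `f := (D.Φ.map φ) /ₘ (X - C wO)`.

* `gen_places_caseV` : `w^q ≡ y`, `Φ'(w) = q·unit`, `w - y^q` unit ⟹ the Eisenstein place at `w`
  (`e = q - 1`) and the simple place at `y^q`, and nothing else;
* `gen_places_caseF` : `w ≡ y^q`, `ȳ` not a `q`-th power ⟹ exactly one place (`f = q`);
* `gen_norm_caseV` : `ι (N u) = res₁(u)^(q-1) * res₂(u)` for ANY `P₁ P₂` of these shapes;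
* `gen_norm_caseF` : `ι (N u) = res(u)^q`.
-/

set_option autoImplicit false
set_option linter.unusedSectionVars false
set_option linter.style.haveILetI false
set_option synthInstance.maxHeartbeats 400000

noncomputable section

namespace Fermat.Agent.S36.H16

open ModularCurve Polynomial IsLocalRing Fermat.Agent.S28 Fermat.Agent.S35.H16

section Prime

variable {O : Type*} [CommRing O] [IsDomain O] [IsDiscreteValuationRing O]
variable {K : Type*} [Field K] [Algebra O K] [IsFractionRing O K]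
variable {L : Type*} [Field L] [Algebra O L] [Algebra K L] [IsScalarTower O K L]
variable {Fk : Type*} [Field Fk] [FiniteDimensional K L] [Algebra.IsSeparable K L]

/-- `exists_norm_reduction_caseV` with the residues of `θ` given up to equality. -/
theorem exists_norm_reduction_caseV' {ϖ : O} (hϖ : maximalIdeal O = Ideal.span {ϖ})
    {f : O[X]} (hf : f.Monic) {θ : L} (hθ : aeval θ f = 0)
    (hdeg : f.natDegree = Module.finrank K L) (hgen : Algebra.adjoin K {θ} = ⊤)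
    (a c : O) (n : ℕ) (r : O[X]) (hfac : f = (X - C a) ^ n * (X - C c) + C ϖ * r)
    (hac : IsUnit (a - c))
    (ι : O →+* Fk) (hιϖ : ι ϖ = 0) (θb₁ θb₂ : Fk) (e₁ : θb₁ = ι a) (e₂ : θb₂ = ι c)
    {τ : L} (P₁ : H6.PlaceOverRam ϖ θ τ n ι θb₁) (P₂ : CA.H99.PlaceOver ϖ θ ι θb₂)
    {u : L} (h₁ : u ∈ P₁.O1) (h₂ : u ∈ P₂.O1) :
    ∃ m : O, algebraMap O K m = Algebra.norm K u ∧
      ι m = P₁.res1 ⟨u, h₁⟩ ^ n * P₂.res1 ⟨u, h₂⟩ := by
  subst e₁ e₂
  exact exists_norm_reduction_caseV (K := K) hϖ hf hθ hdeg hgen a c n r hfac hac ι hιϖ P₁ P₂ h₁ h₂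

end Prime

section Gen

variable {K₀ L : Type*} [Field K₀] [Field L] [Algebra K₀ L]
  (q : ℕ) [Fact q.Prime] [NeZero q] (D : ModularPolynomialData q)
  (hD : ∀ (k : Type) [Field k] (ζ : kˣ), IsPrimitiveRoot ζ q → RootsAt k q ζ D.Φ)
  {y w : K₀} {θ : L}
  (hmp : minpoly K₀ θ = divPolyAt q D y w) (hw : (relPolyAt q D y).eval w = 0)
  (hgen : Algebra.adjoin K₀ {θ} = ⊤) (hdeg : Module.finrank K₀ L = q)
  {O : Type*} [CommRing O] [IsDomain O] [IsDiscreteValuationRing O]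
  [CharP (ResidueField O) q]
  [Algebra O K₀] [IsFractionRing O K₀] [Algebra O L] [IsScalarTower O K₀ L]
  (φ : ℤ[X] →+* O) (hφ : algebraMap O K₀ (φ X) = y)
  (wO : O) (hwO : algebraMap O K₀ wO = w)
  (hϖ : maximalIdeal O = Ideal.span {((q : ℕ) : O)})

include hϖ in
theorem natCast_ne_zero_of_unif : (((q : ℕ) : O)) ≠ 0 := by
  intro h0
  have : maximalIdeal O = ⊥ := by rw [hϖ, h0]; simp
  exact IsDiscreteValuationRing.not_a_field O this

include hD hmp hw hgen hφ hwO hϖ in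
/-- **Case (V)**, existence + uniqueness. -/
theorem gen_places_caseV (δ : O) (hδ : wO ^ q - φ X = ((q : ℕ) : O) * δ)
    (c : O) (hc : IsUnit c)
    (hder : (derivative (D.Φ.map φ)).eval wO = ((q : ℕ) : O) * c)
    (hunit : IsUnit (wO - φ X ^ q))
    {Fk : Type*} [Field Fk] (ι : O →+* Fk) (hιϖ : ι ((q : ℕ) : O) = 0) :
    ∃ (P₁ : H6.PlaceOverRam (L := L) ((q : ℕ) : O) θ (θ - algebraMap O L wO) (q - 1) ι (ι wO))
      (P₂ : CA.H99.PlaceOver (L := L) ((q : ℕ) : O) θ ι (ι (φ X) ^ q)),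
      ∀ V : ValuationSubring L, (∀ a : O, algebraMap O L a ∈ V) →
        algebraMap O L ((q : ℕ) : O) ∈ V.nonunits →
        V.toSubring = P₁.O1 ∨ V.toSubring = P₂.O1 := by
  have hq : q.Prime := Fact.out
  have hq1 : 0 < q - 1 := by have := hq.two_le; omega
  have hinj := IsFractionRing.injective O K₀
  have hroot := eval_map_eq_zero_of_injective hinj φ hφ wO hwO hw
  obtain ⟨R, hR⟩ := H6.exists_kronecker_lift q D hD φ hϖ
  obtain ⟨r, hg0, hrw, -⟩ := H6.exists_shift_of_kronecker_zero q (D.Φ.map φ) R (φ X ^ q) (φ X) wO δ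
    hR hroot hδ
  have hq0 := natCast_ne_zero_of_unif q hϖ
  have hrc : r.eval wO = c := mul_left_cancel₀ hq0 (by rw [hrw, hder])
  have hmonic := divByMonic_monic (D := D) φ wO hroot
  have hθ := aeval_divByMonic_eq_zero hmp φ hφ wO hwO
  have hmin := divByMonic_dvd_of_aeval_eq_zero hmp hinj φ hφ wO hwO hroot
  -- the Eisenstein place
  obtain ⟨P₁⟩ := H6.nonempty_placeOverRam (K := K₀) hmonic hϖ θ hθ hmin hgen wO hq1
    (X - C (φ X ^ q)) r hg0
    (by rw [eval_sub, eval_X, eval_C]; exact hunit) (by rw [hrc]; exact hc) ι hιϖ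
  -- the unramified place
  have hfac : ((D.Φ.map φ) /ₘ (X - C wO)).map (residue O) =
      (X - C (φ X ^ q) : O[X]).map (residue O) * ((X - C wO) ^ (q - 1) : O[X]).map (residue O) := by
    rw [hg0, Polynomial.map_add, Polynomial.map_mul, Polynomial.map_mul, Polynomial.map_C,
      residue_uniformizer_eq_zero hϖ, C_0, zero_mul, add_zero, mul_comm]
  have hcop : IsCoprime ((X - C (φ X ^ q) : O[X]).map (residue O))
      (((X - C wO) ^ (q - 1) : O[X]).map (residue O)) := by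
    rw [Polynomial.map_pow, Polynomial.map_sub, Polynomial.map_sub, Polynomial.map_X,
      Polynomial.map_C, Polynomial.map_C]
    apply IsCoprime.pow_right
    apply Polynomial.isCoprime_X_sub_C_of_isUnit_sub
    rw [← map_sub]
    have : IsUnit (φ X ^ q - wO) := by
      have := hunit.neg; rwa [neg_sub] at this
    exact this.map (residue O)
  obtain ⟨P₂⟩ := CA.H99.nonempty_placeOver (K := K₀)
    (f := (D.Φ.map φ) /ₘ (X - C wO)) (g := X - C (φ X ^ q)) (h := (X - C wO) ^ (q - 1)) hmonic hfac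
    (S34.H6.irreducible_map_X_sub_C (residue O) _) hcop hϖ θ hθ hmin hgen
    ι hιϖ (ι (φ X) ^ q) (by rw [eval₂_sub, eval₂_X, eval₂_C, map_pow, sub_self])
  refine ⟨P₁, P₂, fun V hOV hϖV => ?_⟩
  exact H6.eq_or_eq_of_valuationSubring_ram hmonic wO hϖ hg0
    (S34.H6.irreducible_map_X_sub_C (residue O) _) θ hθ hιϖ hιϖ
    (by rw [eval₂_sub, eval₂_X, eval₂_C, map_pow, sub_self]) P₁ P₂ V hOV hϖV

include hD hmp hw hgen hφ hwO hϖ in
/-- **Case (F)**, existence + uniqueness. -/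
theorem gen_places_caseF (δ : O) (hδ : wO - φ X ^ q = ((q : ℕ) : O) * δ)
    (hnp : ∀ b : ResidueField O, b ^ q ≠ residue O (φ X))
    {Fk : Type*} [Field Fk] (ι : O →+* Fk) (hιϖ : ι ((q : ℕ) : O) = 0)
    (θb : Fk) (hθb : θb ^ q = ι (φ X)) :
    ∃ P : CA.H99.PlaceOver (L := L) ((q : ℕ) : O) θ ι θb,
      ∀ V : ValuationSubring L, (∀ a : O, algebraMap O L a ∈ V) →
        algebraMap O L ((q : ℕ) : O) ∈ V.nonunits → V.toSubring = P.O1 := by
  have hq : q.Prime := Fact.out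
  have hinj := IsFractionRing.injective O K₀
  have hroot := eval_map_eq_zero_of_injective hinj φ hφ wO hwO hw
  obtain ⟨R, hR⟩ := H6.exists_kronecker_lift q D hD φ hϖ
  have hq0 : ∀ x : O, ((q : ℕ) : O) * x = 0 → x = 0 := by
    intro x hx
    rcases mul_eq_zero.1 hx with h0 | h0
    · exact absurd h0 (natCast_ne_zero_of_unif q hϖ)
    · exact h0
  obtain ⟨r, hg0, -⟩ := H6.exists_shift_of_kronecker_infty q (D.Φ.map φ) R (φ X ^ q) (φ X) wO δ hq0
    hR hroot hδ
  have hmonic := divByMonic_monic (D := D) φ wO hroot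
  have hθ := aeval_divByMonic_eq_zero hmp φ hφ wO hwO
  have hmin := divByMonic_dvd_of_aeval_eq_zero hmp hinj φ hφ wO hwO hroot
  have hres0 := residue_uniformizer_eq_zero hϖ
  have hfac : ((D.Φ.map φ) /ₘ (X - C wO)).map (residue O) =
      (X ^ q - C (φ X) : O[X]).map (residue O) * (1 : O[X]).map (residue O) := by
    rw [hg0, Polynomial.map_add, Polynomial.map_mul, Polynomial.map_C, hres0, C_0, zero_mul,
      add_zero, Polynomial.map_one, mul_one]
  have hirr := S34.H6.irreducible_map_X_pow_sub_C (residue O) q hq (φ X) hnp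
  have hcop : IsCoprime ((X ^ q - C (φ X) : O[X]).map (residue O))
      ((1 : O[X]).map (residue O)) := by
    rw [Polynomial.map_one]; exact isCoprime_one_right
  have hθb' : (X ^ q - C (φ X) : O[X]).eval₂ ι θb = 0 := by
    rw [eval₂_sub, eval₂_pow, eval₂_X, eval₂_C, hθb, sub_self]
  obtain ⟨P⟩ := CA.H99.nonempty_placeOver (K := K₀)
    (f := (D.Φ.map φ) /ₘ (X - C wO)) (g := X ^ q - C (φ X)) (h := 1) hmonic hfac hirr hcop hϖ
    θ hθ hmin hgen ι hιϖ θb hθb'
  refine ⟨P, fun V hOV hϖV => ?_⟩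
  have hθV : θ ∈ V :=
    CA.H99.mem_valuationSubring_of_isIntegral V hOV ⟨(D.Φ.map φ) /ₘ (X - C wO), hmonic, hθ⟩
  have hS : ∀ p : O[X], aeval θ p ∈ V := CA.H99.aeval_mem_valuationSubring V hOV hθV
  refine CA.H99.eq_of_valuationSubring hmonic hirr hϖ θ hθ hιϖ hθb' P V hOV hϖV ?_
  have h1 := congrArg (aeval θ) hg0
  rw [hθ, map_add, map_mul, aeval_C] at h1
  have h2 : aeval θ (X ^ q - C (φ X) : O[X]) =
      -(algebraMap O L ((q : ℕ) : O) * aeval θ r) := by
    rw [eq_neg_iff_add_eq_zero]; exact h1.symm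
  rw [ValuationSubring.mem_nonunits_iff] at hϖV ⊢
  rw [h2, Valuation.map_neg, map_mul]
  exact mul_lt_one_of_lt_of_le hϖV ((V.valuation_le_one_iff _).2 (hS r))

variable [FiniteDimensional K₀ L] [Algebra.IsSeparable K₀ L]

include hD hmp hw hgen hdeg hφ hwO hϖ in
/-- **(E5), case (V)**: for ANY Eisenstein place `P₁` at `w` and simple place `P₂` at `y^q`:
`ι (N u) = res₁(u)^(q-1) * res₂(u)`. -/
theorem gen_norm_caseV (δ : O) (hδ : wO ^ q - φ X = ((q : ℕ) : O) * δ)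
    (hunit : IsUnit (wO - φ X ^ q))
    {Fk : Type*} [Field Fk] (ι : O →+* Fk) (hιϖ : ι ((q : ℕ) : O) = 0) {τ : L}
    (P₁ : H6.PlaceOverRam (L := L) ((q : ℕ) : O) θ τ (q - 1) ι (ι wO))
    (P₂ : CA.H99.PlaceOver (L := L) ((q : ℕ) : O) θ ι (ι (φ X) ^ q))
    {u : L} (h₁ : u ∈ P₁.O1) (h₂ : u ∈ P₂.O1) :
    ∃ m : O, algebraMap O K₀ m = Algebra.norm K₀ u ∧
      ι m = P₁.res1 ⟨u, h₁⟩ ^ (q - 1) * P₂.res1 ⟨u, h₂⟩ := by
  have hq : q.Prime := Fact.out
  have hinj := IsFractionRing.injective O K₀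
  have hroot := eval_map_eq_zero_of_injective hinj φ hφ wO hwO hw
  obtain ⟨R, hR⟩ := H6.exists_kronecker_lift q D hD φ hϖ
  obtain ⟨r, hg0, -, -⟩ := H6.exists_shift_of_kronecker_zero q (D.Φ.map φ) R (φ X ^ q) (φ X) wO δ
    hR hroot hδ
  have hmonic := divByMonic_monic (D := D) φ wO hroot
  have hθ := aeval_divByMonic_eq_zero hmp φ hφ wO hwO
  have hnd : ((D.Φ.map φ) /ₘ (X - C wO)).natDegree = Module.finrank K₀ L := by
    rw [divByMonic_natDegree hq φ wO, hdeg]
  exact exists_norm_reduction_caseV' (K := K₀) hϖ hmonic hθ hnd hgen wO (φ X ^ q) (q - 1) r hg0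
    hunit ι hιϖ (ι wO) (ι (φ X) ^ q) rfl (map_pow ι _ _).symm P₁ P₂ h₁ h₂

include hD hmp hw hgen hdeg hφ hwO hϖ in
/-- **(E5), case (F)**: for ANY place `P` with `res(θ)^q = ι y`: `ι (N u) = res(u)^q`. -/
theorem gen_norm_caseF (δ : O) (hδ : wO - φ X ^ q = ((q : ℕ) : O) * δ)
    (hnp : ∀ b : ResidueField O, b ^ q ≠ residue O (φ X))
    {Fk : Type*} [Field Fk] [CharP Fk q] (ι : O →+* Fk) (hιϖ : ι ((q : ℕ) : O) = 0)
    (θb : Fk) (hθb : θb ^ q = ι (φ X))
    (P : CA.H99.PlaceOver (L := L) ((q : ℕ) : O) θ ι θb) {u : L} (h : u ∈ P.O1) :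
    ∃ m : O, algebraMap O K₀ m = Algebra.norm K₀ u ∧ ι m = P.res1 ⟨u, h⟩ ^ q := by
  have hq : q.Prime := Fact.out
  have hinj := IsFractionRing.injective O K₀
  have hroot := eval_map_eq_zero_of_injective hinj φ hφ wO hwO hw
  obtain ⟨R, hR⟩ := H6.exists_kronecker_lift q D hD φ hϖ
  have hq0 : ∀ x : O, ((q : ℕ) : O) * x = 0 → x = 0 := by
    intro x hx
    rcases mul_eq_zero.1 hx with h0 | h0
    · exact absurd h0 (natCast_ne_zero_of_unif q hϖ)
    · exact h0
  obtain ⟨r, hg0, -⟩ := H6.exists_shift_of_kronecker_infty q (D.Φ.map φ) R (φ X ^ q) (φ X) wO δ hq0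
    hR hroot hδ
  have hmonic := divByMonic_monic (D := D) φ wO hroot
  have hθ := aeval_divByMonic_eq_zero hmp φ hφ wO hwO
  have hnd : ((D.Φ.map φ) /ₘ (X - C wO)).natDegree = Module.finrank K₀ L := by
    rw [divByMonic_natDegree hq φ wO, hdeg]
  have hirr := S34.H6.irreducible_map_X_pow_sub_C (residue O) q hq (φ X) hnp
  exact exists_norm_reduction_caseF (K := K₀) q hϖ hmonic hθ hnd hgen (φ X) r hg0 hirr ι hιϖ θb hθb
    P h

end Gen

end Fermat.Agent.S36.H16
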