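import Mathlib
import Fermat.Agent.S36.H16_ThreePlacesGen
import Fermat.Agent.S35.H16_NormRedGen

/-!
S36 / (M1)+(E5) (helper16): the two INSTANCES of `S36/H16_ThreePlacesGen` at the function fields
`F_N = FullC K N ⊆ F_{N₂} = FullC K N₂`, `N₂ = q N`, `q ∣ N`, over ANY DVR `O` with fraction field
`F_N`, uniformiser `q`:

* **`V_q` side** (`[Algebra O F_{N₂}]` through `S35.H16.vAlgebra`; `φ X ↦ j`, `wO ↦ j_q`,
  generator `θ = j`): `beta_places_caseV`, `beta_places_caseF` (existence + uniqueness of the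
  places), `beta_norm_caseV`, `beta_norm_caseF` (norm reduction);
* **inclusion side** (`S34.H16.degAlgebra`; `φ X ↦ j_N`, `wO ↦ j_M`, `θ = j_{N₂}`): the places are
  helper6's `S36.H6.places_caseV/_caseF`; here `alpha_norm_caseV`, `alpha_norm_caseF`.
-/

set_option autoImplicit false
set_option linter.unusedSectionVars false
set_option linter.style.haveILetI false
set_option synthInstance.maxHeartbeats 400000

noncomputable section

namespace Fermat.Agent.S36.H16

open ModularCurve Polynomial IsLocalRing Fermat.Agent.S28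
open Fermat.Agent.S34.H16 Fermat.Agent.S35.H16

section Beta

variable (K : Type) [Field K] [CharZero K] (N N₂ : ℕ) [NeZero N] [NeZero N₂]
  (q : ℕ) [Fact q.Prime] [NeZero q] (hqN : q ∣ N) (hN₂ : N₂ = q * N)
  (hNK : ((N₂ : ℕ) : K) ≠ 0)
  (D : ModularPolynomialData q)
  (hD : ∀ (k : Type) [Field k] (ζ : kˣ), IsPrimitiveRoot ζ q → RootsAt k q ζ D.Φ)
  {O : Type*} [CommRing O] [IsDomain O] [IsDiscreteValuationRing O]
  [CharP (ResidueField O) q]
  [Algebra O (modularFunctionFieldFullC K N)] [IsFractionRing O (modularFunctionFieldFullC K N)]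
  [Algebra O (modularFunctionFieldFullC K N₂)]
  (htower : letI := vAlgebra K q N N₂ (dvd_of_eq hN₂.symm)
    IsScalarTower O (modularFunctionFieldFullC K N) (modularFunctionFieldFullC K N₂))
  (φ : ℤ[X] →+* O)
  (hφ : algebraMap O (modularFunctionFieldFullC K N) (φ X) = S18.H16.jK K N)
  (wO : O) (hwO : algebraMap O (modularFunctionFieldFullC K N) wO = S18.H99.jdK K N q hqN)
  (hϖ : maximalIdeal O = Ideal.span {((q : ℕ) : O)})

include hD hNK htower hφ hwO hϖ

set_option maxHeartbeats 1600000 in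
/-- **`V_q` side, case (V)** (`j_q^q ≡ j`): the Eisenstein place at `j_q` (`e = q - 1`,
uniformiser `j - V_q j_q = j - j_{q²}`), the simple place at `j^q`, and nothing else. -/
theorem beta_places_caseV (δ : O) (hδ : wO ^ q - φ X = ((q : ℕ) : O) * δ)
    (c : O) (hc : IsUnit c)
    (hder : (derivative (D.Φ.map φ)).eval wO = ((q : ℕ) : O) * c)
    (hunit : IsUnit (wO - φ X ^ q))
    {Fk : Type*} [Field Fk] (ι : O →+* Fk) (hιϖ : ι ((q : ℕ) : O) = 0) :
    ∃ (P₁ : H6.PlaceOverRam (L := modularFunctionFieldFullC K N₂) ((q : ℕ) : O) (S18.H16.jK K N₂)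
        (S18.H16.jK K N₂ - algebraMap O (modularFunctionFieldFullC K N₂) wO) (q - 1) ι (ι wO))
      (P₂ : CA.H99.PlaceOver (L := modularFunctionFieldFullC K N₂) ((q : ℕ) : O)
        (S18.H16.jK K N₂) ι (ι (φ X) ^ q)),
      ∀ V : ValuationSubring (modularFunctionFieldFullC K N₂),
        (∀ a : O, algebraMap O (modularFunctionFieldFullC K N₂) a ∈ V) →
        algebraMap O (modularFunctionFieldFullC K N₂) ((q : ℕ) : O) ∈ V.nonunits →
        V.toSubring = P₁.O1 ∨ V.toSubring = P₂.O1 := by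
  letI := vAlgebra K q N N₂ (dvd_of_eq hN₂.symm)
  haveI := htower
  have hq : q.Prime := Fact.out
  have hmp := beta_minpoly K N N₂ q hq hqN hN₂ hNK D hD
  have hw := beta_root K N q hqN D
  have hgen := algebra_adjoin_eq_top (vAlgebra_rel K q N N₂ (dvd_of_eq hN₂.symm) D hD)
    (vAlgebra_adjoin_jK_eq_top K q N N₂ hN₂ hNK)
  have key := gen_places_caseV (K₀ := modularFunctionFieldFullC K N)
    (L := modularFunctionFieldFullC K N₂) q D hD hmp hw hgen φ hφ wO hwO hϖ δ hδ c hc hder hunit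
    ι hιϖ
  exact key

set_option maxHeartbeats 1600000 in
/-- **`V_q` side, case (F)** (`j_q ≡ j^q`): exactly one place, `res(j)^q = res(V_q j)`. -/
theorem beta_places_caseF (δ : O) (hδ : wO - φ X ^ q = ((q : ℕ) : O) * δ)
    (hnp : ∀ b : ResidueField O, b ^ q ≠ residue O (φ X))
    {Fk : Type*} [Field Fk] (ι : O →+* Fk) (hιϖ : ι ((q : ℕ) : O) = 0)
    (θb : Fk) (hθb : θb ^ q = ι (φ X)) :
    ∃ P : CA.H99.PlaceOver (L := modularFunctionFieldFullC K N₂) ((q : ℕ) : O)
        (S18.H16.jK K N₂) ι θb,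
      ∀ V : ValuationSubring (modularFunctionFieldFullC K N₂),
        (∀ a : O, algebraMap O (modularFunctionFieldFullC K N₂) a ∈ V) →
        algebraMap O (modularFunctionFieldFullC K N₂) ((q : ℕ) : O) ∈ V.nonunits →
        V.toSubring = P.O1 := by
  letI := vAlgebra K q N N₂ (dvd_of_eq hN₂.symm)
  haveI := htower
  have hq : q.Prime := Fact.out
  have hmp := beta_minpoly K N N₂ q hq hqN hN₂ hNK D hD
  have hw := beta_root K N q hqN D
  have hgen := algebra_adjoin_eq_top (vAlgebra_rel K q N N₂ (dvd_of_eq hN₂.symm) D hD)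
    (vAlgebra_adjoin_jK_eq_top K q N N₂ hN₂ hNK)
  have key := gen_places_caseF (K₀ := modularFunctionFieldFullC K N)
    (L := modularFunctionFieldFullC K N₂) q D hD hmp hw hgen φ hφ wO hwO hϖ δ hδ hnp ι hιϖ θb hθb
  exact key

set_option maxHeartbeats 1600000 in
/-- **(E5), `V_q` side, case (V)**: `ι (N_V u) = res₁(u)^(q-1) * res₂(u)`. -/
theorem beta_norm_caseV (δ : O) (hδ : wO ^ q - φ X = ((q : ℕ) : O) * δ)
    (hunit : IsUnit (wO - φ X ^ q))
    {Fk : Type*} [Field Fk] (ι : O →+* Fk) (hιϖ : ι ((q : ℕ) : O) = 0)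
    {τ : modularFunctionFieldFullC K N₂}
    (P₁ : H6.PlaceOverRam (L := modularFunctionFieldFullC K N₂) ((q : ℕ) : O) (S18.H16.jK K N₂)
      τ (q - 1) ι (ι wO))
    (P₂ : CA.H99.PlaceOver (L := modularFunctionFieldFullC K N₂) ((q : ℕ) : O)
      (S18.H16.jK K N₂) ι (ι (φ X) ^ q))
    {u : modularFunctionFieldFullC K N₂} (h₁ : u ∈ P₁.O1) (h₂ : u ∈ P₂.O1) :
    letI := vAlgebra K q N N₂ (dvd_of_eq hN₂.symm)
    ∃ m : O, algebraMap O (modularFunctionFieldFullC K N) m =
        Algebra.norm (modularFunctionFieldFullC K N) u ∧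
      ι m = P₁.res1 ⟨u, h₁⟩ ^ (q - 1) * P₂.res1 ⟨u, h₂⟩ := by
  letI := vAlgebra K q N N₂ (dvd_of_eq hN₂.symm)
  haveI := htower
  have hq : q.Prime := Fact.out
  have hmp := beta_minpoly K N N₂ q hq hqN hN₂ hNK D hD
  have hw := beta_root K N q hqN D
  have hgen := algebra_adjoin_eq_top (vAlgebra_rel K q N N₂ (dvd_of_eq hN₂.symm) D hD)
    (vAlgebra_adjoin_jK_eq_top K q N N₂ hN₂ hNK)
  have hfr := finrank_vSub_dvd K N N₂ q hq hqN hN₂ hNK
  haveI := charZero_fullC K N
  obtain ⟨hfd, hsep⟩ := isSeparable_of_finrank_pos' (F := modularFunctionFieldFullC K N)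
    (E := modularFunctionFieldFullC K N₂) (by rw [hfr]; exact hq.pos)
  have key := gen_norm_caseV (K₀ := modularFunctionFieldFullC K N)
    (L := modularFunctionFieldFullC K N₂) q D hD hmp hw hgen hfr φ hφ wO hwO hϖ δ hδ hunit
    ι hιϖ P₁ P₂ h₁ h₂
  exact key

set_option maxHeartbeats 1600000 in
/-- **(E5), `V_q` side, case (F)**: `ι (N_V u) = res(u)^q`. -/
theorem beta_norm_caseF (δ : O) (hδ : wO - φ X ^ q = ((q : ℕ) : O) * δ)
    (hnp : ∀ b : ResidueField O, b ^ q ≠ residue O (φ X))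
    {Fk : Type*} [Field Fk] [CharP Fk q] (ι : O →+* Fk) (hιϖ : ι ((q : ℕ) : O) = 0)
    (θb : Fk) (hθb : θb ^ q = ι (φ X))
    (P : CA.H99.PlaceOver (L := modularFunctionFieldFullC K N₂) ((q : ℕ) : O)
      (S18.H16.jK K N₂) ι θb)
    {u : modularFunctionFieldFullC K N₂} (h : u ∈ P.O1) :
    letI := vAlgebra K q N N₂ (dvd_of_eq hN₂.symm)
    ∃ m : O, algebraMap O (modularFunctionFieldFullC K N) m =
        Algebra.norm (modularFunctionFieldFullC K N) u ∧ ι m = P.res1 ⟨u, h⟩ ^ q := by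
  letI := vAlgebra K q N N₂ (dvd_of_eq hN₂.symm)
  haveI := htower
  have hq : q.Prime := Fact.out
  have hmp := beta_minpoly K N N₂ q hq hqN hN₂ hNK D hD
  have hw := beta_root K N q hqN D
  have hgen := algebra_adjoin_eq_top (vAlgebra_rel K q N N₂ (dvd_of_eq hN₂.symm) D hD)
    (vAlgebra_adjoin_jK_eq_top K q N N₂ hN₂ hNK)
  have hfr := finrank_vSub_dvd K N N₂ q hq hqN hN₂ hNK
  haveI := charZero_fullC K N
  obtain ⟨hfd, hsep⟩ := isSeparable_of_finrank_pos' (F := modularFunctionFieldFullC K N)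
    (E := modularFunctionFieldFullC K N₂) (by rw [hfr]; exact hq.pos)
  have key := gen_norm_caseF (K₀ := modularFunctionFieldFullC K N)
    (L := modularFunctionFieldFullC K N₂) q D hD hmp hw hgen hfr φ hφ wO hwO hϖ δ hδ hnp
    ι hιϖ θb hθb P h
  exact key

end Beta

section Alpha

variable (K : Type) [Field K] [CharZero K] (M N N₂ : ℕ) [NeZero M] [NeZero N] [NeZero N₂]
  (hMN : M ∣ N) (hNN₂ : N ∣ N₂)
  (q : ℕ) [Fact q.Prime] [NeZero q] (hN : N = q * M) (hN₂ : N₂ = q * N)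
  (hNK : ((N₂ : ℕ) : K) ≠ 0)
  (D : ModularPolynomialData q)
  (hD : ∀ (k : Type) [Field k] (ζ : kˣ), IsPrimitiveRoot ζ q → RootsAt k q ζ D.Φ)
  {O : Type*} [CommRing O] [IsDomain O] [IsDiscreteValuationRing O]
  [CharP (ResidueField O) q]
  [Algebra O (modularFunctionFieldFullC K N)] [IsFractionRing O (modularFunctionFieldFullC K N)]
  [Algebra O (modularFunctionFieldFullC K N₂)]
  (htower : letI := degAlgebra K N N₂ hNN₂
    IsScalarTower O (modularFunctionFieldFullC K N) (modularFunctionFieldFullC K N₂))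
  (φ : ℤ[X] →+* O)
  (hφ : algebraMap O (modularFunctionFieldFullC K N) (φ X) = S18.H16.jNK K N)
  (wO : O) (hwO : algebraMap O (modularFunctionFieldFullC K N) wO = S18.H99.jdK K N M hMN)
  (hϖ : maximalIdeal O = Ideal.span {((q : ℕ) : O)})

include hD hN hN₂ hNK htower hφ hwO hϖ

set_option maxHeartbeats 1600000 in
/-- **(E5), inclusion side, case (V)**: `ι (N_ι u) = res₁(u)^(q-1) * res₂(u)` for helper6's places
`S36.H6.places_caseV`. -/
theorem alpha_norm_caseV (δ : O) (hδ : wO ^ q - φ X = ((q : ℕ) : O) * δ)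
    (hunit : IsUnit (wO - φ X ^ q))
    {Fk : Type*} [Field Fk] (ι : O →+* Fk) (hιϖ : ι ((q : ℕ) : O) = 0)
    {τ : modularFunctionFieldFullC K N₂}
    (P₁ : H6.PlaceOverRam (L := modularFunctionFieldFullC K N₂) ((q : ℕ) : O) (S18.H16.jNK K N₂)
      τ (q - 1) ι (ι wO))
    (P₂ : CA.H99.PlaceOver (L := modularFunctionFieldFullC K N₂) ((q : ℕ) : O)
      (S18.H16.jNK K N₂) ι (ι (φ X) ^ q))
    {u : modularFunctionFieldFullC K N₂} (h₁ : u ∈ P₁.O1) (h₂ : u ∈ P₂.O1) :
    letI := degAlgebra K N N₂ hNN₂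
    ∃ m : O, algebraMap O (modularFunctionFieldFullC K N) m =
        Algebra.norm (modularFunctionFieldFullC K N) u ∧
      ι m = P₁.res1 ⟨u, h₁⟩ ^ (q - 1) * P₂.res1 ⟨u, h₂⟩ := by
  letI := degAlgebra K N N₂ hNN₂
  haveI := htower
  have hq : q.Prime := Fact.out
  have hM : N = M * q := hN.trans (mul_comm q M)
  have hqN : q ∣ N := Dvd.intro_left _ hM.symm
  have hmp := alpha_minpoly K N N₂ hNN₂ q hq M hM hN₂ hNK D hD
  have hw := alpha_root K N q M hM D hD
  have hgen := algebra_adjoin_jNK_over_eq_top K N N₂ hNN₂ q hN₂ hNK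
  have hfr := finrank_fullC_prime_dvd K N N₂ hNN₂ q hq hqN hN₂ hNK
  haveI := charZero_fullC K N
  obtain ⟨hfd, hsep⟩ := isSeparable_of_finrank_pos' (F := modularFunctionFieldFullC K N)
    (E := modularFunctionFieldFullC K N₂) (by rw [hfr]; exact hq.pos)
  have key := gen_norm_caseV (K₀ := modularFunctionFieldFullC K N)
    (L := modularFunctionFieldFullC K N₂) q D hD hmp hw hgen hfr φ hφ wO hwO hϖ δ hδ hunit
    ι hιϖ P₁ P₂ h₁ h₂
  exact key

set_option maxHeartbeats 1600000 in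
/-- **(E5), inclusion side, case (F)**: `ι (N_ι u) = res(u)^q`. -/
theorem alpha_norm_caseF (δ : O) (hδ : wO - φ X ^ q = ((q : ℕ) : O) * δ)
    (hnp : ∀ b : ResidueField O, b ^ q ≠ residue O (φ X))
    {Fk : Type*} [Field Fk] [CharP Fk q] (ι : O →+* Fk) (hιϖ : ι ((q : ℕ) : O) = 0)
    (θb : Fk) (hθb : θb ^ q = ι (φ X))
    (P : CA.H99.PlaceOver (L := modularFunctionFieldFullC K N₂) ((q : ℕ) : O)
      (S18.H16.jNK K N₂) ι θb)
    {u : modularFunctionFieldFullC K N₂} (h : u ∈ P.O1) :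
    letI := degAlgebra K N N₂ hNN₂
    ∃ m : O, algebraMap O (modularFunctionFieldFullC K N) m =
        Algebra.norm (modularFunctionFieldFullC K N) u ∧ ι m = P.res1 ⟨u, h⟩ ^ q := by
  letI := degAlgebra K N N₂ hNN₂
  haveI := htower
  have hq : q.Prime := Fact.out
  have hM : N = M * q := hN.trans (mul_comm q M)
  have hqN : q ∣ N := Dvd.intro_left _ hM.symm
  have hmp := alpha_minpoly K N N₂ hNN₂ q hq M hM hN₂ hNK D hD
  have hw := alpha_root K N q M hM D hD
  have hgen := algebra_adjoin_jNK_over_eq_top K N N₂ hNN₂ q hN₂ hNK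
  have hfr := finrank_fullC_prime_dvd K N N₂ hNN₂ q hq hqN hN₂ hNK
  haveI := charZero_fullC K N
  obtain ⟨hfd, hsep⟩ := isSeparable_of_finrank_pos' (F := modularFunctionFieldFullC K N)
    (E := modularFunctionFieldFullC K N₂) (by rw [hfr]; exact hq.pos)
  have key := gen_norm_caseF (K₀ := modularFunctionFieldFullC K N)
    (L := modularFunctionFieldFullC K N₂) q D hD hmp hw hgen hfr φ hφ wO hwO hϖ δ hδ hnp
    ι hιϖ θb hθb P h
  exact key

end Alpha

end Fermat.Agent.S36.H16
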