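/-
S36 (Carayol), row (E5) (helper46): **the `HasRes` ↔ `OneU` dictionary** between a `ResPlace`
(`S35.H46`: a subring `O1` of a field with a reduction map detecting units) and a valuation
subring `V` with the same underlying ring, and the **local norm formulas of (E5) in `OneU` form**
(the fields of helper85's `S36.H85.TowerVal`, for elements which are units at the places
involved), produced from the `HasRes` forms (helper16's `S36.H16.hasRes_norm_ram_pair`,
`hasRes_norm_insep`).  Generic: no modular input.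
-/
import Mathlib
import Fermat.Agent.S35.H46_G3Inst

set_option autoImplicit false
set_option linter.unusedSectionVars false

namespace Fermat.Agent.S36.H46

open Fermat.Agent.S34.H47 Fermat.Agent.S35.H46

section Bridge

variable {F κ : Type*} [Field F] [Field κ]

/-- The place bridge: the `ResPlace` `R` and the valuation subring `V` have the same ring, and the
kernel of the reduction is the maximal ideal. -/
structure PlaceBridge (R : ResPlace F κ) (V : ValuationSubring F) : Prop where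
  hO : ∀ y, y ∈ R.O1 ↔ y ∈ V
  hker : ∀ (y : F) (hy : y ∈ R.O1), R.res ⟨y, hy⟩ = 0 → V.valuation y < 1

variable {R : ResPlace F κ} {V : ValuationSubring F}

theorem PlaceBridge.exists_hasRes (b : PlaceBridge R V) {y : F} (hy : V.valuation y = 1) :
    ∃ s, R.HasRes y s :=
  ResPlace.exists_hasRes_of_valuation_eq_one b.hO hy

theorem PlaceBridge.valuation_eq_one (b : PlaceBridge R V) {y : F} {s : κˣ} (h : R.HasRes y s) :
    V.valuation y = 1 :=
  valuation_eq_one_of_hasRes (fun y hy => (b.hO y).mp hy) h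

theorem PlaceBridge.oneU_of_hasRes (b : PlaceBridge R V) {x : F} (h : R.HasRes x 1) : OneU V x :=
  oneU_of_hasRes_one b.hker h

/-- the converse of `hker`. -/
theorem PlaceBridge.res_eq_zero (b : PlaceBridge R V) {y : F} (hy : y ∈ R.O1)
    (h : V.valuation y < 1) : R.res ⟨y, hy⟩ = 0 := by
  by_contra hne
  have h1 : R.HasRes y (Units.mk0 _ hne) := ⟨hy, rfl⟩
  have := b.valuation_eq_one h1
  rw [this] at h
  exact lt_irrefl _ h

theorem PlaceBridge.hasRes_of_oneU (b : PlaceBridge R V) {x : F} (h : OneU V x) :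
    R.HasRes x 1 := by
  have h1 : x - 1 ∈ R.O1 := (b.hO _).mpr ((V.valuation_le_one_iff _).mp (le_of_lt h))
  have h2 : R.res ⟨x - 1, h1⟩ = 0 := b.res_eq_zero h1 h
  have hx : x ∈ R.O1 := by
    have := R.O1.add_mem h1 R.O1.one_mem
    rwa [sub_add_cancel] at this
  refine ⟨hx, ?_⟩
  have e : (⟨x - 1, h1⟩ : R.O1) = ⟨x, hx⟩ - 1 := rfl
  rw [e, map_sub, map_one, sub_eq_zero] at h2
  rw [h2, Units.val_one]

theorem PlaceBridge.oneU_iff (b : PlaceBridge R V) {x : F} : OneU V x ↔ R.HasRes x 1 :=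
  ⟨b.hasRes_of_oneU, b.oneU_of_hasRes⟩

/-- `x ≡ y` and `y` has residue `s` ⟹ `x` has residue `s`. -/
theorem PlaceBridge.hasRes_of_oneU_div (b : PlaceBridge R V) {x y : F} {s : κˣ}
    (h : OneU V (x / y)) (hy : R.HasRes y s) : R.HasRes x s := by
  have h1 := (b.hasRes_of_oneU h).mul hy
  rwa [div_mul_cancel₀ _ hy.ne_zero, one_mul] at h1

/-- same residue ⟹ `x ≡ y`. -/
theorem PlaceBridge.oneU_div_of_hasRes (b : PlaceBridge R V) {x y : F} {s : κˣ}
    (hx : R.HasRes x s) (hy : R.HasRes y s) : OneU V (x / y) := by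
  have h1 := hx.div hy
  rw [div_self'] at h1
  exact b.oneU_of_hasRes h1

end Bridge

section LiesOver

variable {F1 F2 κ : Type*} [Field F1] [Field F2] [Field κ]

/-- `R` (a place of `F2`) lies over `Q` (a place of `F1`) along `a`, compatibly with the
reductions. -/
def LiesOver (a : F1 →+* F2) (Q : ResPlace F1 κ) (R : ResPlace F2 κ) : Prop :=
  ∀ (y : F1) (hy : y ∈ Q.O1), ∃ h : a y ∈ R.O1, R.res ⟨a y, h⟩ = Q.res ⟨y, hy⟩

variable {a : F1 →+* F2} {Q : ResPlace F1 κ} {R : ResPlace F2 κ}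

theorem LiesOver.hasRes (h : LiesOver a Q R) {y : F1} {s : κˣ} (hy : Q.HasRes y s) :
    R.HasRes (a y) s := by
  obtain ⟨h1, h2⟩ := hy
  obtain ⟨h3, h4⟩ := h y h1
  exact ⟨h3, h4.trans h2⟩

variable {W : ValuationSubring F1} {V : ValuationSubring F2}

/-- units above come from units below. -/
theorem LiesOver.valuation_eq_one (h : LiesOver a Q R) (bW : PlaceBridge Q W)
    (bV : PlaceBridge R V) {y : F1} (hy : V.valuation (a y) = 1) : W.valuation y = 1 := by
  have hy0 : y ≠ 0 := by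
    rintro rfl
    rw [map_zero, map_zero] at hy
    exact zero_ne_one hy
  -- if `v(y) < 1` then `res y = 0`, so `res (a y) = 0`, so `v (a y) < 1`
  have key : ∀ z : F1, V.valuation (a z) = 1 → ¬ W.valuation z < 1 := by
    intro z hz hlt
    have hzO : z ∈ Q.O1 := (bW.hO z).mpr ((W.valuation_le_one_iff _).mp hlt.le)
    have h0 := bW.res_eq_zero hzO hlt
    obtain ⟨h3, h4⟩ := h z hzO
    rw [h0] at h4
    have := bV.hker _ h3 h4
    rw [hz] at this
    exact lt_irrefl _ this
  have h1 : ¬ W.valuation y < 1 := key y hy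
  have h2 : ¬ W.valuation y⁻¹ < 1 := by
    apply key
    rw [map_inv₀, map_inv₀, hy, inv_one]
  rw [map_inv₀] at h2
  have hv0 : 0 < W.valuation y := zero_lt_iff.mpr ((Valuation.ne_zero_iff _).mpr hy0)
  apply le_antisymm
  · by_contra hgt
    rw [not_le] at hgt
    exact h2 ((inv_lt_one₀ hv0).mpr hgt)
  · exact not_lt.mp h1

/-- `1`-units below map to `1`-units above. -/
theorem LiesOver.oneU (h : LiesOver a Q R) (bW : PlaceBridge Q W) (bV : PlaceBridge R V)
    {x : F1} (hx : OneU W x) : OneU V (a x) :=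
  bV.oneU_of_hasRes (h.hasRes (bW.hasRes_of_oneU hx))

end LiesOver

section NormFormulas

variable {F1 F2 κ : Type*} [Field F1] [Field F2] [Field κ]
  {a : F1 →+* F2} {Na : F2 →*₀ F1}
  {Qs Qi : ResPlace F1 κ} {Rs Rm Ri : ResPlace F2 κ}
  {Ws Wi : ValuationSubring F1} {Vs Vm Vi : ValuationSubring F2}

/-- **Local norm formula over `Ws` in `OneU` form** (`e = (1, n)`, `f = (1, 1)`), for `x` a unit at
`Vs` and `Vm`. -/
theorem oneU_norm_ram_pair (n : ℕ) (bWs : PlaceBridge Qs Ws) (bVs : PlaceBridge Rs Vs)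
    (bVm : PlaceBridge Rm Vm) (ls : LiesOver a Qs Rs) (lm : LiesOver a Qs Rm)
    (g2 : ∀ u sm ss, Rm.HasRes u sm → Rs.HasRes u ss → Qs.HasRes (Na u) (sm ^ n * ss))
    {x : F2} {x1 x2 : F1} (hxs : Vs.valuation x = 1) (hxm : Vm.valuation x = 1)
    (h1 : OneU Vs (x / a x1)) (h2 : OneU Vm (x / a x2)) :
    OneU Ws (Na x / (x1 * x2 ^ n)) := by
  have v1 : Vs.valuation (a x1) = 1 := by
    have := h1.valuation_eq_one
    rw [map_div₀, hxs] at this
    rw [one_div, inv_eq_one] at this
    exact this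
  have v2 : Vm.valuation (a x2) = 1 := by
    have := h2.valuation_eq_one
    rw [map_div₀, hxm] at this
    rw [one_div, inv_eq_one] at this
    exact this
  obtain ⟨s1, k1⟩ := bWs.exists_hasRes (ls.valuation_eq_one bWs bVs v1)
  obtain ⟨s2, k2⟩ := bWs.exists_hasRes (lm.valuation_eq_one bWs bVm v2)
  have r1 : Rs.HasRes x s1 := bVs.hasRes_of_oneU_div h1 (ls.hasRes k1)
  have r2 : Rm.HasRes x s2 := bVm.hasRes_of_oneU_div h2 (lm.hasRes k2)
  have hN := g2 x s2 s1 r2 r1
  have hD : Qs.HasRes (x1 * x2 ^ n) (s2 ^ n * s1) := by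
    have := k1.mul (k2.pow n)
    rwa [mul_comm s1] at this
  exact bWs.oneU_div_of_hasRes hN hD

/-- **Local norm formula over `Wi` in `OneU` form** (`e = 1`, `f = q` purely inseparable), for `x`
a unit at `Vi`. -/
theorem oneU_norm_insep (q : ℕ) (bWi : PlaceBridge Qi Wi) (bVi : PlaceBridge Ri Vi)
    (li : LiesOver a Qi Ri)
    (g2 : ∀ u t, Ri.HasRes u t → Qi.HasRes (Na u) (t ^ q))
    {x : F2} {x3 : F1} (hxi : Vi.valuation x = 1) (h3 : OneU Vi (x ^ q / a x3)) :
    OneU Wi (Na x / x3) := by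
  obtain ⟨t, kt⟩ := bVi.exists_hasRes hxi
  have v3 : Vi.valuation (a x3) = 1 := by
    have := h3.valuation_eq_one
    rw [map_div₀, map_pow, hxi, one_pow] at this
    rw [one_div, inv_eq_one] at this
    exact this
  obtain ⟨s3, k3⟩ := bWi.exists_hasRes (li.valuation_eq_one bWi bVi v3)
  have r3 : Ri.HasRes (x ^ q) s3 := bVi.hasRes_of_oneU_div h3 (li.hasRes k3)
  have e : t ^ q = s3 := (kt.pow q).unique r3
  have hN := g2 x t kt
  rw [e] at hN
  exact bWi.oneU_div_of_hasRes hN k3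

/-- residue lift at a place with `f = 1`. -/
theorem exists_oneU_lift (bVs : PlaceBridge Rs Vs) (ls : LiesOver a Qs Rs)
    (hsurj : ∀ s ∈ Rs.resUnits, s ∈ Qs.resUnits) {x : F2} (hx : Vs.valuation x = 1) :
    ∃ x1, OneU Vs (x / a x1) := by
  obtain ⟨s, ks⟩ := bVs.exists_hasRes hx
  obtain ⟨x1, k1⟩ := hsurj s ks.mem_resUnits
  exact ⟨x1, bVs.oneU_div_of_hasRes ks (ls.hasRes k1)⟩

/-- residue lift of the `q`-th power at a purely inseparable place (via the norm). -/
theorem exists_oneU_lift_pow (q : ℕ) (bVi : PlaceBridge Ri Vi) (li : LiesOver a Qi Ri)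
    (g2 : ∀ u t, Ri.HasRes u t → Qi.HasRes (Na u) (t ^ q)) {x : F2}
    (hx : Vi.valuation x = 1) : ∃ x3, OneU Vi (x ^ q / a x3) := by
  obtain ⟨t, kt⟩ := bVi.exists_hasRes hx
  exact ⟨Na x, bVi.oneU_div_of_hasRes (kt.pow q) (li.hasRes (g2 x t kt))⟩

end NormFormulas

end Fermat.Agent.S36.H46
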