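/-
S36, row (E6) (helper85), abstract part 3 (Mathlib only): the field algebra behind the
renormalisation of the gluing values.

From the two relations (tower data `α`, `β`)
  `A₁ A₂^(q-1) Z^js  = A₃^q Z^ji`,     `A₃ A₂^(q-1) Z^js' = A₁^q Z^ji'`
with `Z^m = 1` we get explicit exponents `X, Y` (depending only on `q, m, js, ji, js', ji'`) with
  `A₁^(q²-1) Z^X = A₃^(q²-1)`,   `A₂^(q²-1) Z^Y = A₃^(q²-1)`.
-/
import Mathlib

set_option autoImplicit false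

namespace Fermat.Agent.S36.H85

section Field

variable {k : Type*} [Field k]

/-- the exponent correcting the first branch -/
def expX (q m js ji js' ji' : ℕ) : ℕ := (q - 1) * (js + ji') + (m - 1) * ((q - 1) * (ji + js'))

/-- the exponent correcting the middle branch -/
def expY (q m js ji js' ji' : ℕ) : ℕ := (q * js + js') + (m - 1) * (q * ji + ji')

theorem pow_mul_pred_mul {Z : k} {m : ℕ} (hm : 0 < m) (hZ : Z ^ m = 1) (e : ℕ) :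
    Z ^ e * Z ^ ((m - 1) * e) = 1 := by
  rw [← pow_add]
  have : e + (m - 1) * e = m * e := by
    obtain ⟨m0, rfl⟩ : ∃ m0, m = m0 + 1 := ⟨m - 1, by omega⟩
    rw [Nat.add_sub_cancel]
    ring
  rw [this, pow_mul, hZ, one_pow]

/-- **Renormalisation of the gluing values.** -/
theorem glue_const {A₁ A₂ A₃ Z : k} {q m js ji js' ji' : ℕ} (hq : 0 < q) (hm : 0 < m)
    (h₁ : A₁ ≠ 0) (h₂ : A₂ ≠ 0) (hZ : Z ^ m = 1)
    (R1 : A₁ * A₂ ^ (q - 1) * Z ^ js = A₃ ^ q * Z ^ ji)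
    (R2 : A₃ * A₂ ^ (q - 1) * Z ^ js' = A₁ ^ q * Z ^ ji') :
    A₁ ^ (q ^ 2 - 1) * Z ^ expX q m js ji js' ji' = A₃ ^ (q ^ 2 - 1) ∧
    A₂ ^ (q ^ 2 - 1) * Z ^ expY q m js ji js' ji' = A₃ ^ (q ^ 2 - 1) := by
  obtain ⟨q0, rfl⟩ : ∃ q0, q = q0 + 1 := ⟨q - 1, by omega⟩
  rw [Nat.add_sub_cancel] at R1 R2
  have hZ0 : Z ≠ 0 := by
    intro h0
    rw [h0, zero_pow hm.ne'] at hZ
    exact zero_ne_one hZ
  have hsq : (q0 + 1) ^ 2 - 1 = q0 * (q0 + 2) := by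
    have : (q0 + 1) ^ 2 = q0 * (q0 + 2) + 1 := by ring
    rw [this, Nat.add_sub_cancel]
  -- (q+1)-st powers
  have E1 : A₁ ^ (q0 + 2) * Z ^ (js + ji') = A₃ ^ (q0 + 2) * Z ^ (ji + js') := by
    have hA2 : A₂ ^ q0 ≠ 0 := pow_ne_zero _ h₂
    apply mul_right_cancel₀ hA2
    linear_combination (A₁ ^ (q0 + 1) * Z ^ ji') * R1 - (A₃ ^ (q0 + 1) * Z ^ ji) * R2
  -- first claim
  have C1 : A₁ ^ (q0 * (q0 + 2)) * Z ^ (q0 * (js + ji'))
      = A₃ ^ (q0 * (q0 + 2)) * Z ^ (q0 * (ji + js')) := by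
    calc A₁ ^ (q0 * (q0 + 2)) * Z ^ (q0 * (js + ji'))
        = (A₁ ^ (q0 + 2) * Z ^ (js + ji')) ^ q0 := by ring
      _ = (A₃ ^ (q0 + 2) * Z ^ (ji + js')) ^ q0 := by rw [E1]
      _ = A₃ ^ (q0 * (q0 + 2)) * Z ^ (q0 * (ji + js')) := by ring
  -- second claim
  have P1 : (A₁ * A₂ ^ q0 * Z ^ js) ^ (q0 + 2) = (A₃ ^ (q0 + 1) * Z ^ ji) ^ (q0 + 2) := by
    rw [R1]
  have C2 : A₂ ^ (q0 * (q0 + 2)) * Z ^ ((q0 + 1) * js + js')
      = A₃ ^ (q0 * (q0 + 2)) * Z ^ ((q0 + 1) * ji + ji') := by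
    have hA1 : A₁ ^ (q0 + 2) ≠ 0 := pow_ne_zero _ h₁
    have hZ1 : Z ^ (js + ji') ≠ 0 := pow_ne_zero _ hZ0
    apply mul_left_cancel₀ (mul_ne_zero hA1 hZ1)
    linear_combination (Z ^ (ji' + js')) * P1
      - (A₃ ^ (q0 * (q0 + 2)) * Z ^ ((q0 + 1) * ji + ji')) * E1
  refine ⟨?_, ?_⟩
  · rw [hsq]
    unfold expX
    rw [Nat.add_sub_cancel, pow_add, ← mul_assoc, C1, mul_assoc, pow_mul_pred_mul hm hZ, mul_one]
  · rw [hsq]
    unfold expY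
    rw [pow_add, ← mul_assoc, C2, mul_assoc, pow_mul_pred_mul hm hZ, mul_one]

end Field

end Fermat.Agent.S36.H85
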