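/-
S36, row (E6) (helper85), abstract part 1 (Mathlib + S34.H47_KummerInduct only):
assembly of the RADICAL local datum from
  (E5) residues `u ≡ T_k ^ m` at the vertical valuations,
  (E4) local equations `u = η_n G_n ^ m`, `η_n ∈ O_n^×`,
  (Λ)  units `Λ_n ∈ O_n^×` with residue `T_k / G_n` on every branch `k` through `n`,
  (Ψ)  a global `Ψ` with `Ψ ≡ T_k` at every vertical valuation (weak approximation).
Output: for `u'' := u / Ψ ^ m` and `ψ_n := G_n Λ_n / Ψ`: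
  `u'' / ψ_n ^ m ∈ O_n^×`, it is a `1`-unit at every vertical valuation through `n`,
  and so is `ψ_n`.
-/
import Mathlib
import Fermat.Agent.S34.H47_KummerInduct

set_option autoImplicit false

namespace Fermat.Agent.S36.H85

open Fermat.Agent.S34.H47

section UnitIn

variable {F : Type*} [Field F] {S : Subring F}

theorem UnitIn.mul {a b : F} (ha : UnitIn S a) (hb : UnitIn S b) : UnitIn S (a * b) := by
  obtain ⟨ha1, ha2, ha0⟩ := ha
  obtain ⟨hb1, hb2, hb0⟩ := hb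
  refine ⟨S.mul_mem ha1 hb1, ?_, mul_ne_zero ha0 hb0⟩
  rw [mul_inv]
  exact S.mul_mem ha2 hb2

theorem UnitIn.inv {a : F} (ha : UnitIn S a) : UnitIn S a⁻¹ := by
  obtain ⟨ha1, ha2, ha0⟩ := ha
  exact ⟨ha2, by rwa [inv_inv], inv_ne_zero ha0⟩

theorem UnitIn.one : UnitIn S (1 : F) := ⟨S.one_mem, by rw [inv_one]; exact S.one_mem, one_ne_zero⟩

theorem UnitIn.pow {a : F} (ha : UnitIn S a) (k : ℕ) : UnitIn S (a ^ k) := by
  induction k with
  | zero => rw [pow_zero]; exact UnitIn.one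
  | succ k ih => rw [pow_succ]; exact ih.mul ha

theorem UnitIn.div {a b : F} (ha : UnitIn S a) (hb : UnitIn S b) : UnitIn S (a / b) := by
  rw [div_eq_mul_inv]; exact ha.mul hb.inv

end UnitIn

section Datum

variable {F : Type*} [Field F] {ν κ : Type*} (O : ν → Subring F) (V : κ → ValuationSubring F)
  (Thr : ν → κ → Prop)

/-- **Radical local datum** of `u` for the exponent `m`: at every closed point `n` a function
`ψ ≠ 0` such that `u / ψ ^ m` is a unit of `O n`, and both `u / ψ ^ m` and `ψ` are `1`-units at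
every vertical valuation through `n`. -/
def RadDatum (u : F) (m : ℕ) : Prop :=
  ∀ n : ν, ∃ ψ : F, ψ ≠ 0 ∧ UnitIn (O n) (u / ψ ^ m) ∧
    (∀ k, Thr n k → OneU (V k) (u / ψ ^ m)) ∧ ∀ k, Thr n k → OneU (V k) ψ

variable {O V Thr}

/-- **Assembly of the radical datum.** -/
theorem radDatum_of_glue {u : F} {m : ℕ} (T : κ → F)
    (hT : ∀ k, OneU (V k) (u / T k ^ m))
    (Ψ : F) (hΨ0 : Ψ ≠ 0) (hΨ : ∀ k, OneU (V k) (Ψ / T k))
    (G : ν → F) (hG0 : ∀ n, G n ≠ 0) (hG : ∀ n, UnitIn (O n) (u / G n ^ m))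
    (hΛ : ∀ n, ∃ Λ : F, UnitIn (O n) Λ ∧ ∀ k, Thr n k → OneU (V k) (Λ * G n / T k)) :
    RadDatum O V Thr (u / Ψ ^ m) m := by
  intro n
  obtain ⟨Λ, hΛu, hΛk⟩ := hΛ n
  have hΛ0 : Λ ≠ 0 := hΛu.2.2
  have hG0n := hG0 n
  have hT0 : ∀ k, T k ≠ 0 := fun k => by
    intro h0
    have := (hΨ k).ne_zero
    rw [h0, div_zero] at this
    exact this rfl
  refine ⟨G n * Λ / Ψ, div_ne_zero (mul_ne_zero hG0n hΛ0) hΨ0, ?_, ?_, ?_⟩
  · have hΨm : Ψ ^ m ≠ 0 := pow_ne_zero m hΨ0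
    have hGm : G n ^ m ≠ 0 := pow_ne_zero m hG0n
    have hΛm : Λ ^ m ≠ 0 := pow_ne_zero m hΛ0
    have e : u / Ψ ^ m / (G n * Λ / Ψ) ^ m = (u / G n ^ m) / Λ ^ m := by
      rw [div_pow, mul_pow]
      field_simp
    rw [e]
    exact UnitIn.div (hG n) (UnitIn.pow hΛu m)
  · intro k hk
    have hTk := hT0 k
    have hΨm : Ψ ^ m ≠ 0 := pow_ne_zero m hΨ0
    have hTm : T k ^ m ≠ 0 := pow_ne_zero m hTk
    have hGm : G n ^ m ≠ 0 := pow_ne_zero m hG0n
    have hΛm : Λ ^ m ≠ 0 := pow_ne_zero m hΛ0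
    have e : u / Ψ ^ m / (G n * Λ / Ψ) ^ m = (u / T k ^ m) * ((Λ * G n / T k) ^ m)⁻¹ := by
      rw [div_pow, div_pow, mul_pow, mul_pow]
      field_simp
    rw [e]
    exact (hT k).mul ((hΛk k hk).pow m).inv
  · intro k hk
    have hTk := hT0 k
    have e : G n * Λ / Ψ = (Λ * G n / T k) * (Ψ / T k)⁻¹ := by
      field_simp
    rw [e]
    exact (hΛk k hk).mul (hΨ k).inv

end Datum

end Fermat.Agent.S36.H85
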