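/-
S36, row (E6) (helper85), abstract part 2 (Mathlib + S34.H47_KummerInduct only):
**Step 4, the gluing values at the triple points.**

One "tower datum" = one of the two degeneracy maps `a : F1 →+* F2` (level `q M0` → level `q² M0`)
with its norm `Na : F2 →*₀ F1`, the three vertical valuations of `F2` sorted as
  `Vs` (e = f = 1 over `Ws`), `Vm` (e = q - 1, f = 1 over `Ws`), `Vi` (e = 1, f = q purely
  inseparable over `Wi`),
and the local norm formulas of row (E5):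
  `hNs : x ≡ a x1 (Vs) → x ≡ a x2 (Vm) → Na x ≡ x1 * x2 ^ (q - 1) (Ws)`,
  `hNi : x ^ q ≡ a x3 (Vi) → Na x ≡ x3 (Wi)`.

`GlueGlobal` : from `Na u = c * h ^ m`, `c ≡ 1`, and `u ≡ T ^ m` at the three valuations, two GLOBAL
exponents `js, ji` of the `m`-th root of unity `ζ`.
`glue_rel` : at every closed point `n` lying on the three branches, with `u = η G ^ m`,
`T_k / G ≡ a_k` (`a_k ∈ O_n^×`):  `a_s(n) a_m(n)^(q-1) ζ^js = a_i(n)^q ζ^ji`.
-/
import Mathlib
import Fermat.Agent.S34.H47_KummerInduct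
import Fermat.Agent.S36.H85_RadicalDatum

set_option autoImplicit false

namespace Fermat.Agent.S36.H85

open Fermat.Agent.S34.H47

section OneUTools

variable {F : Type*} [Field F] {A : ValuationSubring F}

theorem oneU_div_of_sub_lt {x y : F} (hy : A.valuation y = 1) (h : A.valuation (x - y) < 1) :
    OneU A (x / y) := by
  have hy0 : y ≠ 0 := by
    intro h0; rw [h0, map_zero] at hy; exact zero_ne_one hy
  unfold OneU
  have e : x / y - 1 = (x - y) / y := by field_simp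
  rw [e, map_div₀, hy, div_one]
  exact h

theorem valuation_eq_one_of_pow {x : F} {m : ℕ} (hm : 0 < m) (h : A.valuation (x ^ m) = 1) :
    A.valuation x = 1 := by
  rw [map_pow] at h
  exact (pow_eq_one_iff_of_nonneg zero_le hm.ne').mp h

/-- `y ^ m ≡ 1` implies `y ≡ ζ ^ j` for some `j`. -/
theorem oneU_exists_root {m : ℕ} (hm : 0 < m) {ζ : F} (hζ : IsPrimitiveRoot ζ m)
    (hζA : A.valuation ζ ≤ 1) {y : F} (h : OneU A (y ^ m)) :
    ∃ j < m, OneU A (y / ζ ^ j) := by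
  have hy : A.valuation y = 1 := valuation_eq_one_of_pow hm h.valuation_eq_one
  obtain ⟨j, hj, hlt⟩ := exists_pow_sub_lt_one (A := A) hm hζ hζA hy.le h
  have hζ1 : A.valuation ζ = 1 := by
    apply valuation_eq_one_of_pow hm
    rw [hζ.pow_eq_one, map_one]
  refine ⟨j, hj, oneU_div_of_sub_lt ?_ hlt⟩
  rw [map_pow, hζ1, one_pow]

theorem oneU_trans_div {x y z : F} (h1 : OneU A (x / y)) (h2 : OneU A (y / z)) :
    OneU A (x / z) := by
  have hy : y ≠ 0 := by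
    intro h0
    have := h1.ne_zero
    rw [h0, div_zero] at this
    exact this rfl
  have e : x / z = x / y * (y / z) := by field_simp
  rw [e]
  exact h1.mul h2

theorem oneU_symm_div {x y : F} (h : OneU A (x / y)) : OneU A (y / x) := by
  have := h.inv
  rwa [inv_div] at this

theorem oneU_div_pow {x y : F} (h : OneU A (x / y)) (k : ℕ) : OneU A (x ^ k / y ^ k) := by
  rw [← _root_.div_pow]
  exact h.pow k

end OneUTools

section Tower

variable {F1 F2 : Type*} [Field F1] [Field F2]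

/-- The valuation-theoretic part of one tower datum (global). -/
structure TowerVal (a : F1 →+* F2) (Na : F2 →*₀ F1) (q : ℕ)
    (Vs Vm Vi : ValuationSubring F2) (Ws Wi : ValuationSubring F1) : Prop where
  /-- `Vs`, `Vm` lie over `Ws`; `Vi` over `Wi` -/
  haVs : ∀ x, OneU Ws x → OneU Vs (a x)
  haVm : ∀ x, OneU Ws x → OneU Vm (a x)
  haVi : ∀ x, OneU Wi x → OneU Vi (a x)
  /-- local norm formula over `Ws` (e = (1, q-1), f = (1, 1)) -/
  hNs : ∀ x x1 x2, OneU Vs (x / a x1) → OneU Vm (x / a x2) → OneU Ws (Na x / (x1 * x2 ^ (q - 1)))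
  /-- local norm formula over `Wi` (e = 1, f = q purely inseparable) -/
  hNi : ∀ x x3, OneU Vi (x ^ q / a x3) → OneU Wi (Na x / x3)
  /-- residues at `Vs`, `Vm` come from `F1` (f = 1); `q`-th powers of residues at `Vi` do -/
  hls : ∀ x, Vs.valuation x = 1 → ∃ x1, OneU Vs (x / a x1)
  hlm : ∀ x, Vm.valuation x = 1 → ∃ x2, OneU Vm (x / a x2)
  hli : ∀ x, Vi.valuation x = 1 → ∃ x3, OneU Vi (x ^ q / a x3)

variable {a : F1 →+* F2} {Na : F2 →*₀ F1} {q : ℕ}
  {Vs Vm Vi : ValuationSubring F2} {Ws Wi : ValuationSubring F1}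

/-- **Global part**: lifts `ts tm ti ∈ F1` of the residues of `T_s, T_m, T_i ^ q` and two global
exponents. -/
theorem TowerVal.exists_global (H : TowerVal a Na q Vs Vm Vi Ws Wi) {m : ℕ} (hm : 0 < m)
    {ζ : F1} (hζ : IsPrimitiveRoot ζ m) (hζs : Ws.valuation ζ ≤ 1) (hζi : Wi.valuation ζ ≤ 1)
    {u Ts Tm Ti : F2} (hTs : OneU Vs (u / Ts ^ m)) (hTm : OneU Vm (u / Tm ^ m))
    (hTi : OneU Vi (u / Ti ^ m))
    (hus : Vs.valuation u = 1) (hum : Vm.valuation u = 1) (hui : Vi.valuation u = 1)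
    {c h : F1} (hN : Na u = c * h ^ m) (hcs : OneU Ws c) (hci : OneU Wi c) :
    ∃ (ts tm ti : F1) (js ji : ℕ), OneU Vs (Ts / a ts) ∧ OneU Vm (Tm / a tm) ∧
      OneU Vi (Ti ^ q / a ti) ∧ OneU Ws (h / (ts * tm ^ (q - 1)) / ζ ^ js) ∧
      OneU Wi (h / ti / ζ ^ ji) := by
  have hvTs : Vs.valuation Ts = 1 := by
    apply valuation_eq_one_of_pow hm
    have := hTs.valuation_eq_one
    rw [map_div₀, hus] at this
    have h2 : Vs.valuation (Ts ^ m) ≠ 0 := by
      intro h0; rw [h0, div_zero] at this; exact zero_ne_one this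
    field_simp at this
    exact this.symm
  have hvTm : Vm.valuation Tm = 1 := by
    apply valuation_eq_one_of_pow hm
    have := hTm.valuation_eq_one
    rw [map_div₀, hum] at this
    have h2 : Vm.valuation (Tm ^ m) ≠ 0 := by
      intro h0; rw [h0, div_zero] at this; exact zero_ne_one this
    field_simp at this
    exact this.symm
  have hvTi : Vi.valuation Ti = 1 := by
    apply valuation_eq_one_of_pow hm
    have := hTi.valuation_eq_one
    rw [map_div₀, hui] at this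
    have h2 : Vi.valuation (Ti ^ m) ≠ 0 := by
      intro h0; rw [h0, div_zero] at this; exact zero_ne_one this
    field_simp at this
    exact this.symm
  obtain ⟨ts, hts⟩ := H.hls Ts hvTs
  obtain ⟨tm, htm⟩ := H.hlm Tm hvTm
  obtain ⟨ti, hti⟩ := H.hli Ti hvTi
  -- `u ≡ a (ts ^ m)` at `Vs`, `u ≡ a (tm ^ m)` at `Vm`
  have h1 : OneU Vs (u / a (ts ^ m)) := by
    rw [map_pow]
    exact oneU_trans_div hTs (oneU_div_pow hts m)
  have h2 : OneU Vm (u / a (tm ^ m)) := by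
    rw [map_pow]
    exact oneU_trans_div hTm (oneU_div_pow htm m)
  have h3 := H.hNs u (ts ^ m) (tm ^ m) h1 h2
  -- `u ^ q ≡ a (ti ^ m)` at `Vi`
  have h4 : OneU Vi (u ^ q / a (ti ^ m)) := by
    rw [map_pow]
    have e1 : OneU Vi (u ^ q / (Ti ^ m) ^ q) := oneU_div_pow hTi q
    have e2 : OneU Vi ((Ti ^ q) ^ m / a ti ^ m) := oneU_div_pow hti m
    have e3 : (Ti ^ m) ^ q = (Ti ^ q) ^ m := by rw [← pow_mul, ← pow_mul, mul_comm]
    rw [e3] at e1
    exact oneU_trans_div e1 e2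
  have h5 := H.hNi u (ti ^ m) h4
  have hc0 : c ≠ 0 := hcs.ne_zero
  -- at `Ws`
  have h6 : OneU Ws ((h / (ts * tm ^ (q - 1))) ^ m) := by
    rw [hN] at h3
    have e : (h / (ts * tm ^ (q - 1))) ^ m = c * h ^ m / (ts ^ m * (tm ^ m) ^ (q - 1)) * c⁻¹ := by
      rw [_root_.div_pow, mul_pow, ← pow_mul, ← pow_mul, mul_comm m (q - 1)]
      field_simp
    rw [e]
    exact h3.mul hcs.inv
  have h7 : OneU Wi ((h / ti) ^ m) := by
    rw [hN] at h5
    have e : (h / ti) ^ m = c * h ^ m / ti ^ m * c⁻¹ := by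
      rw [_root_.div_pow]
      field_simp
    rw [e]
    exact h5.mul hci.inv
  obtain ⟨js, -, hjs⟩ := oneU_exists_root hm hζ hζs h6
  obtain ⟨ji, -, hji⟩ := oneU_exists_root hm hζ hζi h7
  exact ⟨ts, tm, ti, js, ji, hts, htm, hti, hjs, hji⟩

end Tower

section Eval

variable {F : Type*} [Field F] {k : Type*} [Field k] {O : Subring F}

theorem ev_mul (ev : O →+* k) {x y : F} (hx : x ∈ O) (hy : y ∈ O) :
    ev ⟨x * y, O.mul_mem hx hy⟩ = ev ⟨x, hx⟩ * ev ⟨y, hy⟩ :=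
  map_mul ev ⟨x, hx⟩ ⟨y, hy⟩

theorem ev_pow (ev : O →+* k) {x : F} (hx : x ∈ O) (n : ℕ) :
    ev ⟨x ^ n, O.pow_mem hx n⟩ = ev ⟨x, hx⟩ ^ n :=
  map_pow ev ⟨x, hx⟩ n

theorem ev_congr (ev : O →+* k) {x y : F} (h : x = y) (hx : x ∈ O) (hy : y ∈ O) :
    ev ⟨x, hx⟩ = ev ⟨y, hy⟩ := by
  subst h; rfl

theorem ev_ne_zero (ev : O →+* k) {x : F} (hx : UnitIn O x) : ev ⟨x, hx.1⟩ ≠ 0 := by
  intro h0
  have h1 : ev ⟨x * x⁻¹, O.mul_mem hx.1 hx.2.1⟩ = 1 := by
    rw [ev_congr ev (mul_inv_cancel₀ hx.2.2) _ O.one_mem]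
    exact map_one ev
  rw [ev_mul ev hx.1 hx.2.1, h0, zero_mul] at h1
  exact zero_ne_one h1

end Eval

section Local

variable {F1 F2 : Type*} [Field F1] [Field F2] {k : Type*} [Field k]

/-- The local part of one tower datum at a closed point `n` of level `q²` (local ring `O`) with
the closed point `n'` of level `q` below it (local ring `O'`); `ev`, `ev'` the residue maps. -/
structure TowerLoc (a : F1 →+* F2) (Na : F2 →*₀ F1) (q m : ℕ)
    (Vs Vm Vi : ValuationSubring F2) (Ws Wi : ValuationSubring F1)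
    (O : Subring F2) (O' : Subring F1) (ev : O →+* k) (ev' : O' →+* k) : Prop where
  haO : ∀ x ∈ O', a x ∈ O
  hev : ∀ (x : F1) (hx : x ∈ O') (hx2 : a x ∈ O), ev ⟨a x, hx2⟩ = ev' ⟨x, hx⟩
  /-- norms of units are units (integrality of `O` over `O'`, `O'` normal) -/
  hNunit : ∀ e, UnitIn O e → UnitIn O' (Na e)
  /-- `O'` is `m`-root closed (normal) -/
  hroot' : ∀ x : F1, x ≠ 0 → UnitIn O' (x ^ m) → UnitIn O' x
  /-- the branch rings of `O` along `Vs`, `Vm` are those of `O'` along `Ws` (f = 1) -/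
  hbs : ∀ e, UnitIn O e → ∃ e', UnitIn O' e' ∧ OneU Vs (e / a e')
  hbm : ∀ e, UnitIn O e → ∃ e', UnitIn O' e' ∧ OneU Vm (e / a e')
  /-- the `q`-th powers of the branch ring of `O` along `Vi` lie in that of `O'` along `Wi` -/
  hbi : ∀ e, UnitIn O e → ∃ e', UnitIn O' e' ∧ OneU Vi (e ^ q / a e')
  /-- the three branches pass through `n`, the two branches below pass through `n'` -/
  hevs : ∀ (x : F2) (hx : x ∈ O), OneU Vs x → ev ⟨x, hx⟩ = 1
  hevm : ∀ (x : F2) (hx : x ∈ O), OneU Vm x → ev ⟨x, hx⟩ = 1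
  hevi : ∀ (x : F2) (hx : x ∈ O), OneU Vi x → ev ⟨x, hx⟩ = 1
  hev's : ∀ (x : F1) (hx : x ∈ O'), OneU Ws x → ev' ⟨x, hx⟩ = 1
  hev'i : ∀ (x : F1) (hx : x ∈ O'), OneU Wi x → ev' ⟨x, hx⟩ = 1

variable {a : F1 →+* F2} {Na : F2 →*₀ F1} {q m : ℕ}
  {Vs Vm Vi : ValuationSubring F2} {Ws Wi : ValuationSubring F1}
  {O : Subring F2} {O' : Subring F1} {ev : O →+* k} {ev' : O' →+* k}

/-- **The gluing relation of one tower datum at a triple point.** -/
theorem glue_rel (HV : TowerVal a Na q Vs Vm Vi Ws Wi)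
    (HL : TowerLoc a Na q m Vs Vm Vi Ws Wi O O' ev ev')
    {ζ : F1} (hζ : UnitIn O' ζ)
    {u Ts Tm Ti : F2} {c h : F1} (hN : Na u = c * h ^ m) (hc : UnitIn O' c)
    {ts tm ti : F1} {js ji : ℕ}
    (hts : OneU Vs (Ts / a ts)) (htm : OneU Vm (Tm / a tm)) (hti : OneU Vi (Ti ^ q / a ti))
    (hjs : OneU Ws (h / (ts * tm ^ (q - 1)) / ζ ^ js)) (hji : OneU Wi (h / ti / ζ ^ ji))
    {G : F2} (hG0 : G ≠ 0) (hG : UnitIn O (u / G ^ m))
    {as am ai : F2} (has : UnitIn O as) (ham : UnitIn O am) (hai : UnitIn O ai)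
    (hμs : OneU Vs (Ts / G / as)) (hμm : OneU Vm (Tm / G / am)) (hμi : OneU Vi (Ti / G / ai)) :
    ev ⟨as, has.1⟩ * ev ⟨am, ham.1⟩ ^ (q - 1) * ev' ⟨ζ, hζ.1⟩ ^ js
      = ev ⟨ai, hai.1⟩ ^ q * ev' ⟨ζ, hζ.1⟩ ^ ji := by
  -- nonvanishing
  have hGm : G ^ m ≠ 0 := pow_ne_zero m hG0
  have hu0 : u ≠ 0 := by
    intro h0
    have := hG.2.2
    rw [h0, zero_div] at this
    exact this rfl
  have hNu0 : Na u ≠ 0 := (map_ne_zero Na).mpr hu0
  have hc0 : c ≠ 0 := hc.2.2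
  have hh0 : h ≠ 0 := by
    intro h0
    rcases Nat.eq_zero_or_pos m with hm | hm
    · -- `m = 0` : then `h ^ m = 1`; we do not get `h ≠ 0` from `hN`, use `hji`
      have := hji.ne_zero
      rw [h0, zero_div, zero_div] at this
      exact this rfl
    · rw [h0, zero_pow hm.ne', mul_zero] at hN
      exact hNu0 hN
  have hts0 : ts ≠ 0 := by
    intro h0
    have := hts.ne_zero
    rw [h0, map_zero, div_zero] at this
    exact this rfl
  have htm0 : tm ≠ 0 := by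
    intro h0
    have := htm.ne_zero
    rw [h0, map_zero, div_zero] at this
    exact this rfl
  have hti0 : ti ≠ 0 := by
    intro h0
    have := hti.ne_zero
    rw [h0, map_zero, div_zero] at this
    exact this rfl
  have hζ0 : ζ ≠ 0 := hζ.2.2
  have hTs0 : Ts ≠ 0 := by
    intro h0
    have := hts.ne_zero
    rw [h0, zero_div] at this
    exact this rfl
  have hTm0 : Tm ≠ 0 := by
    intro h0
    have := htm.ne_zero
    rw [h0, zero_div] at this
    exact this rfl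
  have hTi0 : Ti ≠ 0 := by
    intro h0
    have := hμi.ne_zero
    rw [h0, zero_div, zero_div] at this
    exact this rfl
  -- the norm of the local equation
  set η : F2 := u / G ^ m with hη
  have hηu : u = η * G ^ m := by rw [hη]; field_simp
  have hη' : UnitIn O' (Na η) := HL.hNunit η hG
  set G' : F1 := Na G with hG'
  have hG'0 : G' ≠ 0 := (map_ne_zero Na).mpr hG0
  have hNu : Na u = Na η * G' ^ m := by
    rw [hηu, map_mul, map_pow]
  set ε : F1 := G' / h with hε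
  have hε0 : ε ≠ 0 := div_ne_zero hG'0 hh0
  have hεm : ε ^ m = c / Na η := by
    have hη'0 : Na η ≠ 0 := hη'.2.2
    have h1 : c * h ^ m = Na η * G' ^ m := by rw [← hN, hNu]
    rw [hε, _root_.div_pow]
    have hhm : h ^ m ≠ 0 := pow_ne_zero m hh0
    field_simp
    linear_combination -h1
  have hεu : UnitIn O' ε := HL.hroot' ε hε0 (by rw [hεm]; exact UnitIn.div hc hη')
  -- branch lifts
  obtain ⟨as', has', has'1⟩ := HL.hbs as has
  obtain ⟨am', ham', ham'1⟩ := HL.hbm am ham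
  obtain ⟨ai', hai', hai'1⟩ := HL.hbi ai hai
  have has'0 : as' ≠ 0 := has'.2.2
  have ham'0 : am' ≠ 0 := ham'.2.2
  have hai'0 : ai' ≠ 0 := hai'.2.2
  have has0 : as ≠ 0 := has.2.2
  have ham0 : am ≠ 0 := ham.2.2
  have hai0 : ai ≠ 0 := hai.2.2
  have haas' : a as' ≠ 0 := (map_ne_zero a).mpr has'0
  have haam' : a am' ≠ 0 := (map_ne_zero a).mpr ham'0
  have haai' : a ai' ≠ 0 := (map_ne_zero a).mpr hai'0
  have hats : a ts ≠ 0 := (map_ne_zero a).mpr hts0
  have hatm : a tm ≠ 0 := (map_ne_zero a).mpr htm0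
  have hati : a ti ≠ 0 := (map_ne_zero a).mpr hti0
  -- `G ≡ a (ts / as')` along `Vs`, etc.
  have hGs : OneU Vs (G / a (ts / as')) := by
    have e : G / a (ts / as') = (Ts / a ts) * (as / a as')⁻¹ * (Ts / G / as)⁻¹ := by
      rw [map_div₀]
      field_simp
    rw [e]
    exact (hts.mul has'1.inv).mul hμs.inv
  have hGm' : OneU Vm (G / a (tm / am')) := by
    have e : G / a (tm / am') = (Tm / a tm) * (am / a am')⁻¹ * (Tm / G / am)⁻¹ := by
      rw [map_div₀]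
      field_simp
    rw [e]
    exact (htm.mul ham'1.inv).mul hμm.inv
  have hGi : OneU Vi (G ^ q / a (ti / ai')) := by
    have e : G ^ q / a (ti / ai') = (Ti ^ q / a ti) * (ai ^ q / a ai')⁻¹ * ((Ti / G / ai) ^ q)⁻¹ := by
      rw [map_div₀, _root_.div_pow, _root_.div_pow]
      have : G ^ q ≠ 0 := pow_ne_zero q hG0
      have : Ti ^ q ≠ 0 := pow_ne_zero q hTi0
      have : ai ^ q ≠ 0 := pow_ne_zero q hai0
      field_simp
    rw [e]
    exact (hti.mul hai'1.inv).mul (hμi.pow q).inv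
  have hN1 := HV.hNs G (ts / as') (tm / am') hGs hGm'
  have hN2 := HV.hNi G (ti / ai') hGi
  -- the two elements of `O'` congruent to `1`
  have hes : OneU Ws (ε * (as' * am' ^ (q - 1)) * ζ ^ js) := by
    have e : ε * (as' * am' ^ (q - 1)) * ζ ^ js
        = (G' / (ts / as' * (tm / am') ^ (q - 1))) * (h / (ts * tm ^ (q - 1)) / ζ ^ js)⁻¹ := by
      rw [hε, _root_.div_pow]
      have : tm ^ (q - 1) ≠ 0 := pow_ne_zero _ htm0
      have : am' ^ (q - 1) ≠ 0 := pow_ne_zero _ ham'0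
      have : ζ ^ js ≠ 0 := pow_ne_zero _ hζ0
      field_simp
    rw [e]
    exact hN1.mul hjs.inv
  have hei : OneU Wi (ε * ai' * ζ ^ ji) := by
    have e : ε * ai' * ζ ^ ji = (G' / (ti / ai')) * (h / ti / ζ ^ ji)⁻¹ := by
      rw [hε]
      have : ζ ^ ji ≠ 0 := pow_ne_zero _ hζ0
      field_simp
    rw [e]
    exact hN2.mul hji.inv
  have hmem_s : ε * (as' * am' ^ (q - 1)) * ζ ^ js ∈ O' :=
    O'.mul_mem (O'.mul_mem hεu.1 (O'.mul_mem has'.1 (O'.pow_mem ham'.1 _))) (O'.pow_mem hζ.1 _)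
  have hmem_i : ε * ai' * ζ ^ ji ∈ O' :=
    O'.mul_mem (O'.mul_mem hεu.1 hai'.1) (O'.pow_mem hζ.1 _)
  have h1s := HL.hev's _ hmem_s hes
  have h1i := HL.hev'i _ hmem_i hei
  rw [ev_mul ev' (O'.mul_mem hεu.1 (O'.mul_mem has'.1 (O'.pow_mem ham'.1 _))) (O'.pow_mem hζ.1 _),
    ev_mul ev' hεu.1 (O'.mul_mem has'.1 (O'.pow_mem ham'.1 _)),
    ev_mul ev' has'.1 (O'.pow_mem ham'.1 _), ev_pow ev' ham'.1, ev_pow ev' hζ.1] at h1s
  rw [ev_mul ev' (O'.mul_mem hεu.1 hai'.1) (O'.pow_mem hζ.1 _), ev_mul ev' hεu.1 hai'.1,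
    ev_pow ev' hζ.1] at h1i
  have hεne : ev' ⟨ε, hεu.1⟩ ≠ 0 := ev_ne_zero ev' hεu
  -- transfer to `n`
  have tr_s : ev ⟨as, has.1⟩ = ev' ⟨as', has'.1⟩ := by
    have hmem : as / a as' ∈ O := by
      rw [div_eq_mul_inv, ← map_inv₀]
      exact O.mul_mem has.1 (HL.haO _ has'.2.1)
    have h1 := HL.hevs _ hmem has'1
    have h2 : ev ⟨as, has.1⟩ = ev ⟨as / a as', hmem⟩ * ev ⟨a as', HL.haO _ has'.1⟩ := by
      rw [← ev_mul ev hmem (HL.haO _ has'.1)]
      exact ev_congr ev (by field_simp) _ _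
    rw [h2, h1, one_mul, HL.hev]
  have tr_m : ev ⟨am, ham.1⟩ = ev' ⟨am', ham'.1⟩ := by
    have hmem : am / a am' ∈ O := by
      rw [div_eq_mul_inv, ← map_inv₀]
      exact O.mul_mem ham.1 (HL.haO _ ham'.2.1)
    have h1 := HL.hevm _ hmem ham'1
    have h2 : ev ⟨am, ham.1⟩ = ev ⟨am / a am', hmem⟩ * ev ⟨a am', HL.haO _ ham'.1⟩ := by
      rw [← ev_mul ev hmem (HL.haO _ ham'.1)]
      exact ev_congr ev (by field_simp) _ _
    rw [h2, h1, one_mul, HL.hev]
  have tr_i : ev ⟨ai, hai.1⟩ ^ q = ev' ⟨ai', hai'.1⟩ := by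
    have hmem : ai ^ q / a ai' ∈ O := by
      rw [div_eq_mul_inv, ← map_inv₀]
      exact O.mul_mem (O.pow_mem hai.1 q) (HL.haO _ hai'.2.1)
    have h1 := HL.hevi _ hmem hai'1
    have h2 : ev ⟨ai ^ q, O.pow_mem hai.1 q⟩
        = ev ⟨ai ^ q / a ai', hmem⟩ * ev ⟨a ai', HL.haO _ hai'.1⟩ := by
      rw [← ev_mul ev hmem (HL.haO _ hai'.1)]
      exact ev_congr ev (by field_simp) _ _
    rw [← ev_pow ev hai.1, h2, h1, one_mul, HL.hev]
  rw [tr_s, tr_m, tr_i]
  have key : ev' ⟨ε, hεu.1⟩ * (ev' ⟨as', has'.1⟩ * ev' ⟨am', ham'.1⟩ ^ (q - 1) * ev' ⟨ζ, hζ.1⟩ ^ js)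
      = ev' ⟨ε, hεu.1⟩ * (ev' ⟨ai', hai'.1⟩ * ev' ⟨ζ, hζ.1⟩ ^ ji) := by
    rw [← mul_assoc, ← mul_assoc, ← mul_assoc]
    rw [← mul_assoc] at h1s
    rw [h1s, h1i]
  exact mul_left_cancel₀ hεne key

end Local

end Fermat.Agent.S36.H85
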