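/-
S36, row (E6) (helper85), abstract part 4: **Step 4 complete** - the radical local datum of
`u ^ (q² - 1) / Ψ ^ m` from
  * the two tower data `α = (V₀, V₁, V₂ | WF, WV)`, `β = (V₂, V₁, V₀ | WV, WF)` (local norm
    formulas, row (E5)),
  * the two norm identities `Nα u = cα hα ^ m`, `Nβ u = cβ hβ ^ m` (`α_* y = β_* y = 0`),
  * the residues `u ≡ T_k ^ m` (row (E5)), the local equations `u = η_n G_n ^ m` (row (E4)),
  * the one-branch lifting (helper84) and the triple-point unit lemma (helper47).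
-/
import Mathlib
import Fermat.Agent.S36.H85_GlueValues
import Fermat.Agent.S36.H85_GlueConst

set_option autoImplicit false

namespace Fermat.Agent.S36.H85

open Fermat.Agent.S34.H47

section Triple

variable {F2 : Type*} [Field F2] {k : Type*} [Field k]

/-- **The renormalised data at a triple point**: from the two gluing relations, the unit lemma
gives `Λ`. -/
theorem exists_lambda_triple {O : Subring F2} {ev : O →+* k} {V : Fin 3 → ValuationSubring F2}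
    {q m js ji js' ji' : ℕ} (hq : 0 < q) (hm : 0 < m)
    {u G : F2} {T : Fin 3 → F2} (hG0 : G ≠ 0) (hG : UnitIn O (u / G ^ m))
    (hT : ∀ i, OneU (V i) (u / T i ^ m))
    {z : F2} (hz : UnitIn O z) (hzm : z ^ m = 1)
    {a : Fin 3 → F2} (ha : ∀ i, UnitIn O (a i)) (hμ : ∀ i, OneU (V i) (T i / G / a i))
    (R1 : ev ⟨a 0, (ha 0).1⟩ * ev ⟨a 1, (ha 1).1⟩ ^ (q - 1) * ev ⟨z, hz.1⟩ ^ js
      = ev ⟨a 2, (ha 2).1⟩ ^ q * ev ⟨z, hz.1⟩ ^ ji)
    (R2 : ev ⟨a 2, (ha 2).1⟩ * ev ⟨a 1, (ha 1).1⟩ ^ (q - 1) * ev ⟨z, hz.1⟩ ^ js'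
      = ev ⟨a 0, (ha 0).1⟩ ^ q * ev ⟨z, hz.1⟩ ^ ji')
    (hunit : ∀ (b : Fin 3 → F2) (η : F2) (hb : ∀ i, UnitIn O (b i)), UnitIn O η →
      (∀ i, OneU (V i) (b i ^ m / η)) → ev ⟨b 0, (hb 0).1⟩ = ev ⟨b 2, (hb 2).1⟩ →
      ev ⟨b 1, (hb 1).1⟩ = ev ⟨b 2, (hb 2).1⟩ →
      ∃ Λ, UnitIn O Λ ∧ ∀ i, OneU (V i) (Λ / b i)) :
    ∃ Λ, UnitIn O Λ ∧ ∀ i, OneU (V i)
      (Λ * G ^ (q ^ 2 - 1) /
        (T i ^ (q ^ 2 - 1) * z ^ (![expX q m js ji js' ji', expY q m js ji js' ji', 0] i))) := by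
  set N := q ^ 2 - 1 with hN
  set X := expX q m js ji js' ji' with hX
  set Y := expY q m js ji js' ji' with hY
  have hz0 : z ≠ 0 := hz.2.2
  have ha0 : ∀ i, a i ≠ 0 := fun i => (ha i).2.2
  have hT0 : ∀ i, T i ≠ 0 := fun i => by
    intro h0
    have := (hμ i).ne_zero
    rw [h0, zero_div, zero_div] at this
    exact this rfl
  -- the renormalised branch values
  let e : Fin 3 → ℕ := ![X, Y, 0]
  let b : Fin 3 → F2 := fun i => a i ^ N * z ^ e i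
  have hb : ∀ i, UnitIn O (b i) := fun i => UnitIn.mul (UnitIn.pow (ha i) N) (UnitIn.pow hz _)
  have hη : UnitIn O ((u / G ^ m) ^ N) := UnitIn.pow hG N
  -- `a i ^ m ≡ u / G ^ m`
  have h1 : ∀ i, OneU (V i) (a i ^ m / (u / G ^ m)) := fun i => by
    have hGm : G ^ m ≠ 0 := pow_ne_zero m hG0
    have hTm : T i ^ m ≠ 0 := pow_ne_zero m (hT0 i)
    have ham : a i ^ m ≠ 0 := pow_ne_zero m (ha0 i)
    have hu0 : u ≠ 0 := by
      intro h0
      have := (hT i).ne_zero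
      rw [h0, zero_div] at this
      exact this rfl
    have e1 : a i ^ m / (u / G ^ m) = ((T i / G / a i) ^ m)⁻¹ * (u / T i ^ m)⁻¹ := by
      rw [_root_.div_pow, _root_.div_pow]
      field_simp
    rw [e1]
    exact ((hμ i).pow m).inv.mul (hT i).inv
  have h2 : ∀ i, OneU (V i) (b i ^ m / (u / G ^ m) ^ N) := fun i => by
    have e1 : b i ^ m / (u / G ^ m) ^ N = (a i ^ m / (u / G ^ m)) ^ N := by
      show (a i ^ N * z ^ e i) ^ m / (u / G ^ m) ^ N = _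
      rw [mul_pow, ← pow_mul (z), mul_comm (e i) m, pow_mul z, hzm, one_pow, mul_one,
        _root_.div_pow (a i ^ m), ← pow_mul, ← pow_mul, mul_comm N m]
    rw [e1]
    exact (h1 i).pow N
  -- equal values
  have hA1 : ev ⟨a 0, (ha 0).1⟩ ≠ 0 := ev_ne_zero ev (ha 0)
  have hA2 : ev ⟨a 1, (ha 1).1⟩ ≠ 0 := ev_ne_zero ev (ha 1)
  have hZ : ev ⟨z, hz.1⟩ ^ m = 1 := by
    rw [← ev_pow ev hz.1, ev_congr ev hzm _ O.one_mem]
    exact map_one ev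
  obtain ⟨c1, c2⟩ := glue_const hq hm hA1 hA2 hZ R1 R2
  have evb : ∀ i, ev ⟨b i, (hb i).1⟩ = ev ⟨a i, (ha i).1⟩ ^ N * ev ⟨z, hz.1⟩ ^ e i := fun i => by
    rw [← ev_pow ev (ha i).1, ← ev_pow ev hz.1, ← ev_mul ev (O.pow_mem (ha i).1 N)
      (O.pow_mem hz.1 (e i))]
  have hb02 : ev ⟨b 0, (hb 0).1⟩ = ev ⟨b 2, (hb 2).1⟩ := by
    rw [evb 0, evb 2]
    show _ * _ ^ X = _ * _ ^ 0
    rw [pow_zero, mul_one]
    exact c1
  have hb12 : ev ⟨b 1, (hb 1).1⟩ = ev ⟨b 2, (hb 2).1⟩ := by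
    rw [evb 1, evb 2]
    show _ * _ ^ Y = _ * _ ^ 0
    rw [pow_zero, mul_one]
    exact c2
  obtain ⟨Λ, hΛ, hΛb⟩ := hunit b _ hb hη h2 hb02 hb12
  refine ⟨Λ, hΛ, fun i => ?_⟩
  have hGN : G ^ N ≠ 0 := pow_ne_zero N hG0
  have hTN : T i ^ N ≠ 0 := pow_ne_zero N (hT0 i)
  have haN : a i ^ N ≠ 0 := pow_ne_zero N (ha0 i)
  have hze : z ^ e i ≠ 0 := pow_ne_zero _ hz0
  have e1 : Λ * G ^ N / (T i ^ N * z ^ e i) = (Λ / b i) * ((T i / G / a i) ^ N)⁻¹ := by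
    show _ = (Λ / (a i ^ N * z ^ e i)) * _
    rw [_root_.div_pow, _root_.div_pow]
    field_simp
  have e2 : (![expX q m js ji js' ji', expY q m js ji js' ji', 0] : Fin 3 → ℕ) i = e i := rfl
  rw [e2, e1]
  exact (hΛb i).mul ((hμ i).pow N).inv

end Triple

end Fermat.Agent.S36.H85
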