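/-
S36, row (E6) (helper85), abstract part 5: **the final wiring of Step 4**.

`radDatum_of_towers` : from
  * the two global tower data `α = (V 0, V 1, V 2 | WF, WV)`, `β = (V 2, V 1, V 0 | WV, WF)`
    (`TowerVal`, row (E5)), the two norm identities `Nα u = cα hα ^ m`, `Nβ u = cβ hβ ^ m`,
  * the residues `u ≡ T i ^ m` at the three vertical valuations (row (E5)),
  * the local equations `u = η_n G_n ^ m` at every closed point (row (E4)),
  * weak approximation at the three vertical valuations (`happrox`, helper84's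
    `exists_psi_approx`),
  * lifting on one branch (`hbr`, helper84's `exists_lambda_branch`),
  * at every closed point: either at most one branch passes through it, or all three do and we
    have the local tower data `TripleLoc` (rows (E2)/(M1)) and the triple-point lifting
    `TripleLift` (helper84's `H84_LambdaTriple` wrapper of helper42's unit lemma),
a global `Ψ ≠ 0` such that `u ^ (q² - 1) / Ψ ^ m` has a radical local datum.
-/
import Mathlib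
import Fermat.Agent.S36.H85_RadicalDatum
import Fermat.Agent.S36.H85_GlueFinal

set_option autoImplicit false

namespace Fermat.Agent.S36.H85

open Fermat.Agent.S34.H47

/-- the exponents of `z` renormalising the three residues `T 0, T 1, T 2` -/
def renormExp (q m js ji js' ji' : ℕ) : Fin 3 → ℕ :=
  ![expX q m js ji js' ji', expY q m js ji js' ji', 0]

section EqualValues

variable {F2 : Type*} [Field F2] {k : Type*} [Field k]

theorem ev_sub {O : Subring F2} (ev : O →+* k) {x y : F2} (hx : x ∈ O) (hy : y ∈ O) :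
    ev ⟨x - y, O.sub_mem hx hy⟩ = ev ⟨x, hx⟩ - ev ⟨y, hy⟩ :=
  map_sub ev ⟨x, hx⟩ ⟨y, hy⟩

/-- The renormalised branch values `a i ^ (q² - 1) * z ^ e i` have equal values at the point. -/
theorem renorm_equal_values {O : Subring F2} {ev : O →+* k}
    {q m js ji js' ji' : ℕ} (hq : 0 < q) (hm : 0 < m)
    {z : F2} (hz : UnitIn O z) (hzm : z ^ m = 1)
    {a : Fin 3 → F2} (ha : ∀ i, UnitIn O (a i))
    (R1 : ev ⟨a 0, (ha 0).1⟩ * ev ⟨a 1, (ha 1).1⟩ ^ (q - 1) * ev ⟨z, hz.1⟩ ^ js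
      = ev ⟨a 2, (ha 2).1⟩ ^ q * ev ⟨z, hz.1⟩ ^ ji)
    (R2 : ev ⟨a 2, (ha 2).1⟩ * ev ⟨a 1, (ha 1).1⟩ ^ (q - 1) * ev ⟨z, hz.1⟩ ^ js'
      = ev ⟨a 0, (ha 0).1⟩ ^ q * ev ⟨z, hz.1⟩ ^ ji')
    (hb : ∀ i, UnitIn O (a i ^ (q ^ 2 - 1) * z ^ renormExp q m js ji js' ji' i)) (i : Fin 3) :
    ev ⟨a i ^ (q ^ 2 - 1) * z ^ renormExp q m js ji js' ji' i, (hb i).1⟩
      = ev ⟨a 2 ^ (q ^ 2 - 1) * z ^ renormExp q m js ji js' ji' 2, (hb 2).1⟩ := by
  have hA1 : ev ⟨a 0, (ha 0).1⟩ ≠ 0 := ev_ne_zero ev (ha 0)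
  have hA2 : ev ⟨a 1, (ha 1).1⟩ ≠ 0 := ev_ne_zero ev (ha 1)
  have hZ : ev ⟨z, hz.1⟩ ^ m = 1 := by
    rw [← ev_pow ev hz.1, ev_congr ev hzm _ O.one_mem]
    exact map_one ev
  obtain ⟨c1, c2⟩ := glue_const hq hm hA1 hA2 hZ R1 R2
  have evb : ∀ j, ev ⟨a j ^ (q ^ 2 - 1) * z ^ renormExp q m js ji js' ji' j, (hb j).1⟩
      = ev ⟨a j, (ha j).1⟩ ^ (q ^ 2 - 1) * ev ⟨z, hz.1⟩ ^ renormExp q m js ji js' ji' j :=
    fun j => by
      rw [← ev_pow ev (ha j).1, ← ev_pow ev hz.1, ← ev_mul ev (O.pow_mem (ha j).1 _)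
        (O.pow_mem hz.1 _)]
  rw [evb i, evb 2]
  have e2 : renormExp q m js ji js' ji' 2 = 0 := rfl
  rw [e2, pow_zero, mul_one]
  fin_cases i
  · exact c1
  · exact c2
  · show _ * _ ^ renormExp q m js ji js' ji' 2 = _
    rw [e2, pow_zero, mul_one]
    rfl

/-- **(EQ)**: the hypothesis "equal values at the point" of the triple-point lifting, for the
renormalised data `u ^ (q² - 1)`, `G ^ (q² - 1)`, `T i ^ (q² - 1) * z ^ e i`. -/
theorem triple_EQ {O : Subring F2} {ev : O →+* k} {V : Fin 3 → ValuationSubring F2}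
    (hev1 : ∀ i (x : F2) (hx : x ∈ O), OneU (V i) x → ev ⟨x, hx⟩ = 1)
    {q m js ji js' ji' : ℕ} (hq : 0 < q) (hm : 0 < m)
    {G : F2} {T : Fin 3 → F2} (hG0 : G ≠ 0)
    {z : F2} (hz : UnitIn O z) (hzm : z ^ m = 1)
    {a : Fin 3 → F2} (ha : ∀ i, UnitIn O (a i)) (hμ : ∀ i, OneU (V i) (T i / G / a i))
    (R1 : ev ⟨a 0, (ha 0).1⟩ * ev ⟨a 1, (ha 1).1⟩ ^ (q - 1) * ev ⟨z, hz.1⟩ ^ js
      = ev ⟨a 2, (ha 2).1⟩ ^ q * ev ⟨z, hz.1⟩ ^ ji)
    (R2 : ev ⟨a 2, (ha 2).1⟩ * ev ⟨a 1, (ha 1).1⟩ ^ (q - 1) * ev ⟨z, hz.1⟩ ^ js'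
      = ev ⟨a 0, (ha 0).1⟩ ^ q * ev ⟨z, hz.1⟩ ^ ji') :
    ∃ c, UnitIn O c ∧ ∀ i a', UnitIn O a' →
      OneU (V i) (a' * G ^ (q ^ 2 - 1) /
        (T i ^ (q ^ 2 - 1) * z ^ renormExp q m js ji js' ji' i)) →
      ¬ UnitIn O (a' - c) := by
  set N := q ^ 2 - 1 with hN
  set e := renormExp q m js ji js' ji' with he
  have hz0 : z ≠ 0 := hz.2.2
  have ha0 : ∀ i, a i ≠ 0 := fun i => (ha i).2.2
  have hT0 : ∀ i, T i ≠ 0 := fun i => by
    intro h0
    have := (hμ i).ne_zero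
    rw [h0, zero_div, zero_div] at this
    exact this rfl
  have hb : ∀ i, UnitIn O (a i ^ N * z ^ e i) :=
    fun i => UnitIn.mul (UnitIn.pow (ha i) N) (UnitIn.pow hz _)
  have heq := renorm_equal_values hq hm hz hzm ha R1 R2 hb
  refine ⟨a 2 ^ N * z ^ e 2, hb 2, fun i a' ha' h1 hunit => ?_⟩
  have hGN : G ^ N ≠ 0 := pow_ne_zero N hG0
  have hTN : T i ^ N ≠ 0 := pow_ne_zero N (hT0 i)
  have haN : a i ^ N ≠ 0 := pow_ne_zero N (ha0 i)
  have hze : z ^ e i ≠ 0 := pow_ne_zero _ hz0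
  -- `a' ≡ b i` at `V i`
  have h2 : OneU (V i) (a' / (a i ^ N * z ^ e i)) := by
    have e1 : a' / (a i ^ N * z ^ e i)
        = (a' * G ^ N / (T i ^ N * z ^ e i)) * (T i / G / a i) ^ N := by
      rw [_root_.div_pow, _root_.div_pow]
      field_simp
    rw [e1]
    exact h1.mul ((hμ i).pow N)
  have h3 : UnitIn O (a' / (a i ^ N * z ^ e i)) := UnitIn.div ha' (hb i)
  have h4 := hev1 i _ h3.1 h2
  -- `ev a' = ev (b i)`
  have h5 : ev ⟨a', ha'.1⟩ = ev ⟨a i ^ N * z ^ e i, (hb i).1⟩ := by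
    have e1 : a' = a' / (a i ^ N * z ^ e i) * (a i ^ N * z ^ e i) := by
      field_simp
    rw [ev_congr ev e1 ha'.1 (O.mul_mem h3.1 (hb i).1), ev_mul ev h3.1 (hb i).1, h4, one_mul]
  have h6 := ev_ne_zero ev hunit
  apply h6
  rw [ev_congr ev rfl _ (O.sub_mem ha'.1 (hb 2).1), ev_sub ev ha'.1 (hb 2).1, h5, heq i, sub_self]

end EqualValues

section Wire

variable {F1 F2 : Type*} [Field F1] [Field F2]

/-- **Triple-point lifting** (the conclusion of helper84's wrapper `H84_LambdaTriple` of the unit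
lemma, for arbitrary data): if all one-branch lifts have the same value at the point (`(EQ)`),
there is a common lift `Λ`. -/
def TripleLift (m : ℕ) (V : Fin 3 → ValuationSubring F2) (O : Subring F2) : Prop :=
  ∀ (u G : F2) (T : Fin 3 → F2), G ≠ 0 → (∀ i, T i ≠ 0) → UnitIn O (u / G ^ m) →
    (∀ i, OneU (V i) (u / T i ^ m)) →
    (∃ c, UnitIn O c ∧ ∀ i a, UnitIn O a → OneU (V i) (a * G / T i) → ¬ UnitIn O (a - c)) →
    ∃ Λ, UnitIn O Λ ∧ ∀ i, OneU (V i) (Λ * G / T i)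

/-- **Local data of the two towers at a triple point** with local ring `O`: the local rings
`O'a`, `O'b` of the points below it, residue maps into one field `k`, the two `TowerLoc`, and
`ζ`, `ca`, `cb` units below. -/
def TripleLoc (a b : F1 →+* F2) (Na Nb : F2 →*₀ F1) (q m : ℕ)
    (V : Fin 3 → ValuationSubring F2) (WF WV : ValuationSubring F1) (ζ ca cb : F1)
    (k : Type*) [Field k] (O : Subring F2) : Prop :=
  ∃ (O'a O'b : Subring F1) (ev : O →+* k) (eva : O'a →+* k) (evb : O'b →+* k),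
    TowerLoc a Na q m (V 0) (V 1) (V 2) WF WV O O'a ev eva ∧
    TowerLoc b Nb q m (V 2) (V 1) (V 0) WV WF O O'b ev evb ∧
    UnitIn O'a ζ ∧ UnitIn O'b ζ ∧ UnitIn O'a ca ∧ UnitIn O'b cb

variable {k : Type*} [Field k]
  {a b : F1 →+* F2} {Na Nb : F2 →*₀ F1} {q m : ℕ}
  {V : Fin 3 → ValuationSubring F2} {WF WV : ValuationSubring F1}

/-- **`Λ` at a triple point** for the renormalised data. -/
theorem exists_lambda_of_towers (hq : 0 < q) (hm : 0 < m)
    (HVa : TowerVal a Na q (V 0) (V 1) (V 2) WF WV)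
    (HVb : TowerVal b Nb q (V 2) (V 1) (V 0) WV WF)
    {ζ ca cb : F1} (hζm : ζ ^ m = 1) (hab : a ζ = b ζ)
    {O : Subring F2} (HL : TripleLoc a b Na Nb q m V WF WV ζ ca cb k O)
    (hlift : TripleLift m V O)
    {u : F2} {T : Fin 3 → F2} (hT : ∀ i, OneU (V i) (u / T i ^ m))
    {ha hb : F1} (hNa : Na u = ca * ha ^ m) (hNb : Nb u = cb * hb ^ m)
    {ts tm ti : F1} {js ji : ℕ}
    (hts : OneU (V 0) (T 0 / a ts)) (htm : OneU (V 1) (T 1 / a tm))
    (hti : OneU (V 2) (T 2 ^ q / a ti))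
    (hjs : OneU WF (ha / (ts * tm ^ (q - 1)) / ζ ^ js)) (hji : OneU WV (ha / ti / ζ ^ ji))
    {ts' tm' ti' : F1} {js' ji' : ℕ}
    (hts' : OneU (V 2) (T 2 / b ts')) (htm' : OneU (V 1) (T 1 / b tm'))
    (hti' : OneU (V 0) (T 0 ^ q / b ti'))
    (hjs' : OneU WV (hb / (ts' * tm' ^ (q - 1)) / ζ ^ js')) (hji' : OneU WF (hb / ti' / ζ ^ ji'))
    {G : F2} (hG0 : G ≠ 0) (hG : UnitIn O (u / G ^ m))
    {av : Fin 3 → F2} (hav : ∀ i, UnitIn O (av i)) (hμ : ∀ i, OneU (V i) (T i / G / av i)) :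
    ∃ Λ, UnitIn O Λ ∧ ∀ i, OneU (V i)
      (Λ * G ^ (q ^ 2 - 1) /
        (T i ^ (q ^ 2 - 1) * a ζ ^ renormExp q m js ji js' ji' i)) := by
  obtain ⟨O'a, O'b, ev, eva, evb, HLa, HLb, hζa, hζb, hca, hcb⟩ := HL
  set N := q ^ 2 - 1 with hN
  set e := renormExp q m js ji js' ji' with he
  set z : F2 := a ζ with hz
  -- `z` is a unit of `O` with `z ^ m = 1`
  have hzO : UnitIn O z := by
    refine ⟨HLa.haO ζ hζa.1, ?_, (map_ne_zero a).mpr hζa.2.2⟩
    rw [hz, ← map_inv₀]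
    exact HLa.haO _ hζa.2.1
  have hzm : z ^ m = 1 := by rw [hz, ← map_pow, hζm, map_one]
  -- the two gluing relations
  have R1 := glue_rel HVa HLa hζa hNa hca hts htm hti hjs hji hG0 hG (hav 0) (hav 1) (hav 2)
    (hμ 0) (hμ 1) (hμ 2)
  have R2 := glue_rel HVb HLb hζb hNb hcb hts' htm' hti' hjs' hji' hG0 hG (hav 2) (hav 1) (hav 0)
    (hμ 2) (hμ 1) (hμ 0)
  have e1 : eva ⟨ζ, hζa.1⟩ = ev ⟨z, hzO.1⟩ := (HLa.hev ζ hζa.1 hzO.1).symm
  have e2 : evb ⟨ζ, hζb.1⟩ = ev ⟨z, hzO.1⟩ := by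
    have hbz : b ζ ∈ O := by rw [← hab]; exact hzO.1
    rw [← HLb.hev ζ hζb.1 hbz]
    exact ev_congr ev hab.symm _ _
  rw [e1] at R1
  rw [e2] at R2
  -- values at the point of `1`-units
  have hev1 : ∀ i (x : F2) (hx : x ∈ O), OneU (V i) x → ev ⟨x, hx⟩ = 1 := by
    intro i x hx h
    fin_cases i
    · exact HLa.hevs x hx h
    · exact HLa.hevm x hx h
    · exact HLa.hevi x hx h
  have hEQ := triple_EQ hev1 hq hm (T := T) hG0 hzO hzm hav hμ R1 R2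
  have hT0 : ∀ i, T i ≠ 0 := fun i => by
    intro h0
    have := (hμ i).ne_zero
    rw [h0, zero_div, zero_div] at this
    exact this rfl
  have hz0 : z ≠ 0 := hzO.2.2
  refine hlift (u ^ N) (G ^ N) (fun i => T i ^ N * z ^ e i) (pow_ne_zero N hG0)
    (fun i => mul_ne_zero (pow_ne_zero N (hT0 i)) (pow_ne_zero _ hz0)) ?_ (fun i => ?_) hEQ
  · have e3 : u ^ N / (G ^ N) ^ m = (u / G ^ m) ^ N := by
      rw [_root_.div_pow, ← pow_mul, ← pow_mul, mul_comm]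
    rw [e3]
    exact UnitIn.pow hG N
  · have e3 : u ^ N / (T i ^ N * z ^ e i) ^ m = (u / T i ^ m) ^ N := by
      rw [mul_pow, ← pow_mul z, mul_comm (e i) m, pow_mul z, hzm, one_pow, mul_one,
        _root_.div_pow, ← pow_mul, ← pow_mul, mul_comm]
    rw [e3]
    exact (hT i).pow N

/-- **Step 4 complete: the radical local datum of `u ^ (q² - 1) / Ψ ^ m`.** -/
theorem radDatum_of_towers {ν : Type*} (hq : 0 < q) (hm : 0 < m)
    (HVa : TowerVal a Na q (V 0) (V 1) (V 2) WF WV)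
    (HVb : TowerVal b Nb q (V 2) (V 1) (V 0) WV WF)
    {O : ν → Subring F2} {Thr : ν → Fin 3 → Prop}
    {ζ : F1} (hζ : IsPrimitiveRoot ζ m) (hζF : WF.valuation ζ ≤ 1) (hζV : WV.valuation ζ ≤ 1)
    (hab : a ζ = b ζ)
    {u : F2} (hu : ∀ i, (V i).valuation u = 1)
    {T : Fin 3 → F2} (hT : ∀ i, OneU (V i) (u / T i ^ m))
    {ca ha cb hb : F1} (hNa : Na u = ca * ha ^ m) (hNb : Nb u = cb * hb ^ m)
    (hcaF : OneU WF ca) (hcaV : OneU WV ca) (hcbF : OneU WF cb) (hcbV : OneU WV cb)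
    {G : ν → F2} (hG0 : ∀ n, G n ≠ 0) (hG : ∀ n, UnitIn (O n) (u / G n ^ m))
    (happrox : ∀ T' : Fin 3 → F2, (∀ i, (V i).valuation (T' i) = 1) →
      ∃ Ψ : F2, Ψ ≠ 0 ∧ ∀ i, OneU (V i) (Ψ / T' i))
    (hbr : ∀ n i, Thr n i → ∀ u' G' T' : F2, G' ≠ 0 → T' ≠ 0 → UnitIn (O n) (u' / G' ^ m) →
      OneU (V i) (u' / T' ^ m) → ∃ Λ : F2, UnitIn (O n) Λ ∧ OneU (V i) (Λ * G' / T'))
    (hpt : ∀ n, (∃ i₀, ∀ i, Thr n i → i = i₀) ∨
      ((∀ i, Thr n i) ∧ TripleLoc a b Na Nb q m V WF WV ζ ca cb k (O n) ∧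
        TripleLift m V (O n))) :
    ∃ Ψ : F2, Ψ ≠ 0 ∧ RadDatum O V Thr (u ^ (q ^ 2 - 1) / Ψ ^ m) m := by
  obtain ⟨ts, tm, ti, js, ji, hts, htm, hti, hjs, hji⟩ :=
    HVa.exists_global hm hζ hζF hζV (hT 0) (hT 1) (hT 2) (hu 0) (hu 1) (hu 2) hNa hcaF hcaV
  obtain ⟨ts', tm', ti', js', ji', hts', htm', hti', hjs', hji'⟩ :=
    HVb.exists_global hm hζ hζV hζF (hT 2) (hT 1) (hT 0) (hu 2) (hu 1) (hu 0) hNb hcbV hcbF
  set N := q ^ 2 - 1 with hN
  set e := renormExp q m js ji js' ji' with he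
  set z : F2 := a ζ with hz
  have hζm : ζ ^ m = 1 := hζ.pow_eq_one
  have hzm : z ^ m = 1 := by rw [hz, ← map_pow, hζm, map_one]
  have hz0 : z ≠ 0 := by
    intro h0
    rw [h0, zero_pow hm.ne'] at hzm
    exact zero_ne_one hzm
  have hT0 : ∀ i, T i ≠ 0 := fun i => by
    intro h0
    have h1 := (hT i).valuation_eq_one
    rw [h0, zero_pow hm.ne', div_zero, map_zero] at h1
    exact zero_ne_one h1
  have hu0 : u ≠ 0 := by
    intro h0
    have := hu 0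
    rw [h0, map_zero] at this
    exact zero_ne_one this
  -- valuations of the `T i` and of `z`
  have hvT : ∀ i, (V i).valuation (T i) = 1 := fun i => by
    apply valuation_eq_one_of_pow hm
    have := (hT i).valuation_eq_one
    rw [map_div₀, hu i] at this
    have h2 : (V i).valuation (T i ^ m) ≠ 0 := by
      intro h0; rw [h0, div_zero] at this; exact zero_ne_one this
    field_simp at this
    exact this.symm
  have hvz : ∀ i, (V i).valuation z = 1 := fun i => by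
    apply valuation_eq_one_of_pow hm
    rw [hzm, map_one]
  -- the renormalised residues
  set T' : Fin 3 → F2 := fun i => T i ^ N * z ^ e i with hT'
  have hvT' : ∀ i, (V i).valuation (T' i) = 1 := fun i => by
    show (V i).valuation (T i ^ N * z ^ e i) = 1
    rw [map_mul, map_pow, map_pow, hvT i, hvz i, one_pow, one_pow, one_mul]
  have hT'0 : ∀ i, T' i ≠ 0 := fun i =>
    mul_ne_zero (pow_ne_zero N (hT0 i)) (pow_ne_zero _ hz0)
  have hT'u : ∀ i, OneU (V i) (u ^ N / T' i ^ m) := fun i => by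
    have e3 : u ^ N / T' i ^ m = (u / T i ^ m) ^ N := by
      show u ^ N / (T i ^ N * z ^ e i) ^ m = _
      rw [mul_pow, ← pow_mul z, mul_comm (e i) m, pow_mul z, hzm, one_pow, mul_one,
        _root_.div_pow, ← pow_mul, ← pow_mul, mul_comm]
    rw [e3]
    exact (hT i).pow N
  have hG' : ∀ n, UnitIn (O n) (u ^ N / (G n ^ N) ^ m) := fun n => by
    have e3 : u ^ N / (G n ^ N) ^ m = (u / G n ^ m) ^ N := by
      rw [_root_.div_pow, ← pow_mul, ← pow_mul, mul_comm]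
    rw [e3]
    exact UnitIn.pow (hG n) N
  obtain ⟨Ψ, hΨ0, hΨ⟩ := happrox T' hvT'
  refine ⟨Ψ, hΨ0, radDatum_of_glue T' hT'u Ψ hΨ0 hΨ (fun n => G n ^ N)
    (fun n => pow_ne_zero N (hG0 n)) hG' (fun n => ?_)⟩
  rcases hpt n with ⟨i₀, hone⟩ | ⟨hall, hloc, hlift⟩
  · by_cases hthr : Thr n i₀
    · obtain ⟨Λ, hΛ, hΛT⟩ := hbr n i₀ hthr (u ^ N) (G n ^ N) (T' i₀) (pow_ne_zero N (hG0 n))
        (hT'0 i₀) (hG' n) (hT'u i₀)
      refine ⟨Λ, hΛ, fun i hi => ?_⟩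
      obtain rfl := hone i hi
      exact hΛT
    · refine ⟨1, UnitIn.one, fun i hi => ?_⟩
      exact absurd (hone i hi ▸ hi) hthr
  · -- branch values of the original data
    have hval : ∀ i, ∃ av : F2, UnitIn (O n) av ∧ OneU (V i) (T i / G n / av) := fun i => by
      obtain ⟨Λ, hΛ, hΛT⟩ := hbr n i (hall i) u (G n) (T i) (hG0 n) (hT0 i) (hG n) (hT i)
      refine ⟨Λ, hΛ, ?_⟩
      have hΛ0 : Λ ≠ 0 := hΛ.2.2
      have hGn := hG0 n
      have hTi := hT0 i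
      have e3 : T i / G n / Λ = (Λ * G n / T i)⁻¹ := by
        field_simp
      rw [e3]
      exact hΛT.inv
    choose av hav hμ using hval
    obtain ⟨Λ, hΛ, hΛT⟩ := exists_lambda_of_towers hq hm HVa HVb hζm hab hloc hlift hT hNa hNb
      hts htm hti hjs hji hts' htm' hti' hjs' hji' (hG0 n) (hG n) hav hμ
    exact ⟨Λ, hΛ, fun i _ => hΛT i⟩

end Wire

end Fermat.Agent.S36.H85
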