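/-
S36 (Carayol), rows (E5)/(E6) seam (helper46; agreed with helper85 (owner (E6)) and helper47
(reviewer), board #3206/#3217): **the unit form of helper85's tower datum**.

`H85.TowerVal.hNs / hNi` (local norm formulas in `OneU` form) are stated for ALL `x`; row (E5)
delivers them for `x` a UNIT at the valuations involved (helper16's `hasRes_norm_ram_pair`,
`hasRes_norm_insep` are statements about elements with non-zero residues), and Step 4 only applies
them to `u` and to `G_n` (`G_n ^ m = u / η_n`), which are units at the three vertical valuations.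

* `TowerValU` : `TowerVal` with `hNs`, `hNi` restricted to units; `towerValU_of_towerVal`;
* `TowerValU.exists_global`, `glue_relU`, `exists_lambda_of_towersU`, `radDatum_of_towersU` :
  helper85's four theorems (`H85.TowerVal.exists_global`, `H85.glue_rel`,
  `H85.exists_lambda_of_towers`, `H85.radDatum_of_towers`) with `TowerValU`; proofs verbatim up to
  the inserted unit facts; conclusions IDENTICAL; `radDatum_of_towersU` has the one extra hypothesis
  `hOV` (units of `O n` are units of `V i` when `V i` passes through `n`);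
* `towerValU_of_places` : the PRODUCER of `TowerValU` from the `ResPlace`-level data of (E5)
  (place bridges, lies-over, helper16's two norm facts, `f = 1` residue surjectivity).
-/
import Mathlib
import Fermat.Agent.S36.H85_GlueWire
import Fermat.Agent.S36.H46_PlaceBridge

set_option autoImplicit false
set_option linter.unusedSectionVars false

namespace Fermat.Agent.S36.H46

open Fermat.Agent.S34.H47 Fermat.Agent.S35.H46 Fermat.Agent.S36.H85

section Tower

variable {F1 F2 : Type*} [Field F1] [Field F2]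

/-- The valuation-theoretic part of one tower datum, **unit form** (`hNs`, `hNi` only for units). -/
structure TowerValU (a : F1 →+* F2) (Na : F2 →*₀ F1) (q : ℕ)
    (Vs Vm Vi : ValuationSubring F2) (Ws Wi : ValuationSubring F1) : Prop where
  /-- `Vs`, `Vm` lie over `Ws`; `Vi` over `Wi` -/
  haVs : ∀ x, OneU Ws x → OneU Vs (a x)
  haVm : ∀ x, OneU Ws x → OneU Vm (a x)
  haVi : ∀ x, OneU Wi x → OneU Vi (a x)
  /-- local norm formula over `Ws` (e = (1, q-1), f = (1, 1)), for units -/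
  hNs : ∀ x x1 x2, Vs.valuation x = 1 → Vm.valuation x = 1 → OneU Vs (x / a x1) →
    OneU Vm (x / a x2) → OneU Ws (Na x / (x1 * x2 ^ (q - 1)))
  /-- local norm formula over `Wi` (e = 1, f = q purely inseparable), for units -/
  hNi : ∀ x x3, Vi.valuation x = 1 → OneU Vi (x ^ q / a x3) → OneU Wi (Na x / x3)
  /-- residues at `Vs`, `Vm` come from `F1` (f = 1); `q`-th powers of residues at `Vi` do -/
  hls : ∀ x, Vs.valuation x = 1 → ∃ x1, OneU Vs (x / a x1)
  hlm : ∀ x, Vm.valuation x = 1 → ∃ x2, OneU Vm (x / a x2)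
  hli : ∀ x, Vi.valuation x = 1 → ∃ x3, OneU Vi (x ^ q / a x3)

variable {a : F1 →+* F2} {Na : F2 →*₀ F1} {q : ℕ}
  {Vs Vm Vi : ValuationSubring F2} {Ws Wi : ValuationSubring F1}

theorem towerValU_of_towerVal (H : TowerVal a Na q Vs Vm Vi Ws Wi) :
    TowerValU a Na q Vs Vm Vi Ws Wi where
  haVs := H.haVs
  haVm := H.haVm
  haVi := H.haVi
  hNs := fun x x1 x2 _ _ h1 h2 => H.hNs x x1 x2 h1 h2
  hNi := fun x x3 _ h3 => H.hNi x x3 h3
  hls := H.hls
  hlm := H.hlm
  hli := H.hli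

/-- **Global part** (unit form of `H85.TowerVal.exists_global`; proof verbatim): lifts
`ts tm ti ∈ F1` of the residues of `T_s, T_m, T_i ^ q` and two global
exponents. -/
theorem TowerValU.exists_global (H : TowerValU a Na q Vs Vm Vi Ws Wi) {m : ℕ} (hm : 0 < m)
    {ζ : F1} (hζ : IsPrimitiveRoot ζ m) (hζs : Ws.valuation ζ ≤ 1) (hζi : Wi.valuation ζ ≤ 1)
    {u Ts Tm Ti : F2} (hTs : OneU Vs (u / Ts ^ m)) (hTm : OneU Vm (u / Tm ^ m))
    (hTi : OneU Vi (u / Ti ^ m))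
    (hus : Vs.valuation u = 1) (hum : Vm.valuation u = 1) (hui : Vi.valuation u = 1)
    {c h : F1} (hN : Na u = c * h ^ m) (hcs : OneU Ws c) (hci : OneU Wi c) :
    ∃ (ts tm ti : F1) (js ji : ℕ), OneU Vs (Ts / a ts) ∧ OneU Vm (Tm / a tm) ∧
      OneU Vi (Ti ^ q / a ti) ∧ OneU Ws (h / (ts * tm ^ (q - 1)) / ζ ^ js) ∧
      OneU Wi (h / ti / ζ ^ ji) := by
  have hvTs : Vs.valuation Ts = 1 := by
    apply valuation_eq_one_of_pow hm
    have := hTs.valuation_eq_one
    rw [map_div₀, hus] at this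
    have h2 : Vs.valuation (Ts ^ m) ≠ 0 := by
      intro h0; rw [h0, div_zero] at this; exact zero_ne_one this
    field_simp at this
    exact this.symm
  have hvTm : Vm.valuation Tm = 1 := by
    apply valuation_eq_one_of_pow hm
    have := hTm.valuation_eq_one
    rw [map_div₀, hum] at this
    have h2 : Vm.valuation (Tm ^ m) ≠ 0 := by
      intro h0; rw [h0, div_zero] at this; exact zero_ne_one this
    field_simp at this
    exact this.symm
  have hvTi : Vi.valuation Ti = 1 := by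
    apply valuation_eq_one_of_pow hm
    have := hTi.valuation_eq_one
    rw [map_div₀, hui] at this
    have h2 : Vi.valuation (Ti ^ m) ≠ 0 := by
      intro h0; rw [h0, div_zero] at this; exact zero_ne_one this
    field_simp at this
    exact this.symm
  obtain ⟨ts, hts⟩ := H.hls Ts hvTs
  obtain ⟨tm, htm⟩ := H.hlm Tm hvTm
  obtain ⟨ti, hti⟩ := H.hli Ti hvTi
  -- `u ≡ a (ts ^ m)` at `Vs`, `u ≡ a (tm ^ m)` at `Vm`
  have h1 : OneU Vs (u / a (ts ^ m)) := by
    rw [map_pow]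
    exact oneU_trans_div hTs (oneU_div_pow hts m)
  have h2 : OneU Vm (u / a (tm ^ m)) := by
    rw [map_pow]
    exact oneU_trans_div hTm (oneU_div_pow htm m)
  have h3 := H.hNs u (ts ^ m) (tm ^ m) hus hum h1 h2
  -- `u ^ q ≡ a (ti ^ m)` at `Vi`
  have h4 : OneU Vi (u ^ q / a (ti ^ m)) := by
    rw [map_pow]
    have e1 : OneU Vi (u ^ q / (Ti ^ m) ^ q) := oneU_div_pow hTi q
    have e2 : OneU Vi ((Ti ^ q) ^ m / a ti ^ m) := oneU_div_pow hti m
    have e3 : (Ti ^ m) ^ q = (Ti ^ q) ^ m := by rw [← pow_mul, ← pow_mul, mul_comm]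
    rw [e3] at e1
    exact oneU_trans_div e1 e2
  have h5 := H.hNi u (ti ^ m) hui h4
  have hc0 : c ≠ 0 := hcs.ne_zero
  -- at `Ws`
  have h6 : OneU Ws ((h / (ts * tm ^ (q - 1))) ^ m) := by
    rw [hN] at h3
    have e : (h / (ts * tm ^ (q - 1))) ^ m = c * h ^ m / (ts ^ m * (tm ^ m) ^ (q - 1)) * c⁻¹ := by
      rw [_root_.div_pow, mul_pow, ← pow_mul, ← pow_mul, mul_comm m (q - 1)]
      field_simp
    rw [e]
    exact h3.mul hcs.inv
  have h7 : OneU Wi ((h / ti) ^ m) := by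
    rw [hN] at h5
    have e : (h / ti) ^ m = c * h ^ m / ti ^ m * c⁻¹ := by
      rw [_root_.div_pow]
      field_simp
    rw [e]
    exact h5.mul hci.inv
  obtain ⟨js, -, hjs⟩ := oneU_exists_root hm hζ hζs h6
  obtain ⟨ji, -, hji⟩ := oneU_exists_root hm hζ hζi h7
  exact ⟨ts, tm, ti, js, ji, hts, htm, hti, hjs, hji⟩

end Tower

section Local

variable {F1 F2 : Type*} [Field F1] [Field F2] {k : Type*} [Field k]

variable {a : F1 →+* F2} {Na : F2 →*₀ F1} {q m : ℕ}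
  {Vs Vm Vi : ValuationSubring F2} {Ws Wi : ValuationSubring F1}
  {O : Subring F2} {O' : Subring F1} {ev : O →+* k} {ev' : O' →+* k}

/-- **The gluing relation of one tower datum at a triple point** (unit form; proof = helper85's
`H85.glue_rel`, with `G` a unit at the three valuations). -/
theorem glue_relU (HV : TowerValU a Na q Vs Vm Vi Ws Wi)
    (HL : TowerLoc a Na q m Vs Vm Vi Ws Wi O O' ev ev')
    {ζ : F1} (hζ : UnitIn O' ζ)
    {u Ts Tm Ti : F2} {c h : F1} (hN : Na u = c * h ^ m) (hc : UnitIn O' c)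
    {ts tm ti : F1} {js ji : ℕ}
    (hts : OneU Vs (Ts / a ts)) (htm : OneU Vm (Tm / a tm)) (hti : OneU Vi (Ti ^ q / a ti))
    (hjs : OneU Ws (h / (ts * tm ^ (q - 1)) / ζ ^ js)) (hji : OneU Wi (h / ti / ζ ^ ji))
    {G : F2} (hG0 : G ≠ 0) (hG : UnitIn O (u / G ^ m))
    (hGVs : Vs.valuation G = 1) (hGVm : Vm.valuation G = 1) (hGVi : Vi.valuation G = 1)
    {as am ai : F2} (has : UnitIn O as) (ham : UnitIn O am) (hai : UnitIn O ai)
    (hμs : OneU Vs (Ts / G / as)) (hμm : OneU Vm (Tm / G / am)) (hμi : OneU Vi (Ti / G / ai)) :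
    ev ⟨as, has.1⟩ * ev ⟨am, ham.1⟩ ^ (q - 1) * ev' ⟨ζ, hζ.1⟩ ^ js
      = ev ⟨ai, hai.1⟩ ^ q * ev' ⟨ζ, hζ.1⟩ ^ ji := by
  -- nonvanishing
  have hGm : G ^ m ≠ 0 := pow_ne_zero m hG0
  have hu0 : u ≠ 0 := by
    intro h0
    have := hG.2.2
    rw [h0, zero_div] at this
    exact this rfl
  have hNu0 : Na u ≠ 0 := (map_ne_zero Na).mpr hu0
  have hc0 : c ≠ 0 := hc.2.2
  have hh0 : h ≠ 0 := by
    intro h0
    rcases Nat.eq_zero_or_pos m with hm | hm
    · -- `m = 0` : then `h ^ m = 1`; we do not get `h ≠ 0` from `hN`, use `hji`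
      have := hji.ne_zero
      rw [h0, zero_div, zero_div] at this
      exact this rfl
    · rw [h0, zero_pow hm.ne', mul_zero] at hN
      exact hNu0 hN
  have hts0 : ts ≠ 0 := by
    intro h0
    have := hts.ne_zero
    rw [h0, map_zero, div_zero] at this
    exact this rfl
  have htm0 : tm ≠ 0 := by
    intro h0
    have := htm.ne_zero
    rw [h0, map_zero, div_zero] at this
    exact this rfl
  have hti0 : ti ≠ 0 := by
    intro h0
    have := hti.ne_zero
    rw [h0, map_zero, div_zero] at this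
    exact this rfl
  have hζ0 : ζ ≠ 0 := hζ.2.2
  have hTs0 : Ts ≠ 0 := by
    intro h0
    have := hts.ne_zero
    rw [h0, zero_div] at this
    exact this rfl
  have hTm0 : Tm ≠ 0 := by
    intro h0
    have := htm.ne_zero
    rw [h0, zero_div] at this
    exact this rfl
  have hTi0 : Ti ≠ 0 := by
    intro h0
    have := hμi.ne_zero
    rw [h0, zero_div, zero_div] at this
    exact this rfl
  -- the norm of the local equation
  set η : F2 := u / G ^ m with hη
  have hηu : u = η * G ^ m := by rw [hη]; field_simp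
  have hη' : UnitIn O' (Na η) := HL.hNunit η hG
  set G' : F1 := Na G with hG'
  have hG'0 : G' ≠ 0 := (map_ne_zero Na).mpr hG0
  have hNu : Na u = Na η * G' ^ m := by
    rw [hηu, map_mul, map_pow]
  set ε : F1 := G' / h with hε
  have hε0 : ε ≠ 0 := div_ne_zero hG'0 hh0
  have hεm : ε ^ m = c / Na η := by
    have hη'0 : Na η ≠ 0 := hη'.2.2
    have h1 : c * h ^ m = Na η * G' ^ m := by rw [← hN, hNu]
    rw [hε, _root_.div_pow]
    have hhm : h ^ m ≠ 0 := pow_ne_zero m hh0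
    field_simp
    linear_combination -h1
  have hεu : UnitIn O' ε := HL.hroot' ε hε0 (by rw [hεm]; exact UnitIn.div hc hη')
  -- branch lifts
  obtain ⟨as', has', has'1⟩ := HL.hbs as has
  obtain ⟨am', ham', ham'1⟩ := HL.hbm am ham
  obtain ⟨ai', hai', hai'1⟩ := HL.hbi ai hai
  have has'0 : as' ≠ 0 := has'.2.2
  have ham'0 : am' ≠ 0 := ham'.2.2
  have hai'0 : ai' ≠ 0 := hai'.2.2
  have has0 : as ≠ 0 := has.2.2
  have ham0 : am ≠ 0 := ham.2.2
  have hai0 : ai ≠ 0 := hai.2.2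
  have haas' : a as' ≠ 0 := (map_ne_zero a).mpr has'0
  have haam' : a am' ≠ 0 := (map_ne_zero a).mpr ham'0
  have haai' : a ai' ≠ 0 := (map_ne_zero a).mpr hai'0
  have hats : a ts ≠ 0 := (map_ne_zero a).mpr hts0
  have hatm : a tm ≠ 0 := (map_ne_zero a).mpr htm0
  have hati : a ti ≠ 0 := (map_ne_zero a).mpr hti0
  -- `G ≡ a (ts / as')` along `Vs`, etc.
  have hGs : OneU Vs (G / a (ts / as')) := by
    have e : G / a (ts / as') = (Ts / a ts) * (as / a as')⁻¹ * (Ts / G / as)⁻¹ := by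
      rw [map_div₀]
      field_simp
    rw [e]
    exact (hts.mul has'1.inv).mul hμs.inv
  have hGm' : OneU Vm (G / a (tm / am')) := by
    have e : G / a (tm / am') = (Tm / a tm) * (am / a am')⁻¹ * (Tm / G / am)⁻¹ := by
      rw [map_div₀]
      field_simp
    rw [e]
    exact (htm.mul ham'1.inv).mul hμm.inv
  have hGi : OneU Vi (G ^ q / a (ti / ai')) := by
    have e : G ^ q / a (ti / ai') = (Ti ^ q / a ti) * (ai ^ q / a ai')⁻¹ * ((Ti / G / ai) ^ q)⁻¹ := by
      rw [map_div₀, _root_.div_pow, _root_.div_pow]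
      have : G ^ q ≠ 0 := pow_ne_zero q hG0
      have : Ti ^ q ≠ 0 := pow_ne_zero q hTi0
      have : ai ^ q ≠ 0 := pow_ne_zero q hai0
      field_simp
    rw [e]
    exact (hti.mul hai'1.inv).mul (hμi.pow q).inv
  have hN1 := HV.hNs G (ts / as') (tm / am') hGVs hGVm hGs hGm'
  have hN2 := HV.hNi G (ti / ai') hGVi hGi
  -- the two elements of `O'` congruent to `1`
  have hes : OneU Ws (ε * (as' * am' ^ (q - 1)) * ζ ^ js) := by
    have e : ε * (as' * am' ^ (q - 1)) * ζ ^ js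
        = (G' / (ts / as' * (tm / am') ^ (q - 1))) * (h / (ts * tm ^ (q - 1)) / ζ ^ js)⁻¹ := by
      rw [hε, _root_.div_pow]
      have : tm ^ (q - 1) ≠ 0 := pow_ne_zero _ htm0
      have : am' ^ (q - 1) ≠ 0 := pow_ne_zero _ ham'0
      have : ζ ^ js ≠ 0 := pow_ne_zero _ hζ0
      field_simp
    rw [e]
    exact hN1.mul hjs.inv
  have hei : OneU Wi (ε * ai' * ζ ^ ji) := by
    have e : ε * ai' * ζ ^ ji = (G' / (ti / ai')) * (h / ti / ζ ^ ji)⁻¹ := by
      rw [hε]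
      have : ζ ^ ji ≠ 0 := pow_ne_zero _ hζ0
      field_simp
    rw [e]
    exact hN2.mul hji.inv
  have hmem_s : ε * (as' * am' ^ (q - 1)) * ζ ^ js ∈ O' :=
    O'.mul_mem (O'.mul_mem hεu.1 (O'.mul_mem has'.1 (O'.pow_mem ham'.1 _))) (O'.pow_mem hζ.1 _)
  have hmem_i : ε * ai' * ζ ^ ji ∈ O' :=
    O'.mul_mem (O'.mul_mem hεu.1 hai'.1) (O'.pow_mem hζ.1 _)
  have h1s := HL.hev's _ hmem_s hes
  have h1i := HL.hev'i _ hmem_i hei
  rw [ev_mul ev' (O'.mul_mem hεu.1 (O'.mul_mem has'.1 (O'.pow_mem ham'.1 _))) (O'.pow_mem hζ.1 _),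
    ev_mul ev' hεu.1 (O'.mul_mem has'.1 (O'.pow_mem ham'.1 _)),
    ev_mul ev' has'.1 (O'.pow_mem ham'.1 _), ev_pow ev' ham'.1, ev_pow ev' hζ.1] at h1s
  rw [ev_mul ev' (O'.mul_mem hεu.1 hai'.1) (O'.pow_mem hζ.1 _), ev_mul ev' hεu.1 hai'.1,
    ev_pow ev' hζ.1] at h1i
  have hεne : ev' ⟨ε, hεu.1⟩ ≠ 0 := ev_ne_zero ev' hεu
  -- transfer to `n`
  have tr_s : ev ⟨as, has.1⟩ = ev' ⟨as', has'.1⟩ := by
    have hmem : as / a as' ∈ O := by
      rw [div_eq_mul_inv, ← map_inv₀]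
      exact O.mul_mem has.1 (HL.haO _ has'.2.1)
    have h1 := HL.hevs _ hmem has'1
    have h2 : ev ⟨as, has.1⟩ = ev ⟨as / a as', hmem⟩ * ev ⟨a as', HL.haO _ has'.1⟩ := by
      rw [← ev_mul ev hmem (HL.haO _ has'.1)]
      exact ev_congr ev (by field_simp) _ _
    rw [h2, h1, one_mul, HL.hev]
  have tr_m : ev ⟨am, ham.1⟩ = ev' ⟨am', ham'.1⟩ := by
    have hmem : am / a am' ∈ O := by
      rw [div_eq_mul_inv, ← map_inv₀]
      exact O.mul_mem ham.1 (HL.haO _ ham'.2.1)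
    have h1 := HL.hevm _ hmem ham'1
    have h2 : ev ⟨am, ham.1⟩ = ev ⟨am / a am', hmem⟩ * ev ⟨a am', HL.haO _ ham'.1⟩ := by
      rw [← ev_mul ev hmem (HL.haO _ ham'.1)]
      exact ev_congr ev (by field_simp) _ _
    rw [h2, h1, one_mul, HL.hev]
  have tr_i : ev ⟨ai, hai.1⟩ ^ q = ev' ⟨ai', hai'.1⟩ := by
    have hmem : ai ^ q / a ai' ∈ O := by
      rw [div_eq_mul_inv, ← map_inv₀]
      exact O.mul_mem (O.pow_mem hai.1 q) (HL.haO _ hai'.2.1)
    have h1 := HL.hevi _ hmem hai'1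
    have h2 : ev ⟨ai ^ q, O.pow_mem hai.1 q⟩
        = ev ⟨ai ^ q / a ai', hmem⟩ * ev ⟨a ai', HL.haO _ hai'.1⟩ := by
      rw [← ev_mul ev hmem (HL.haO _ hai'.1)]
      exact ev_congr ev (by field_simp) _ _
    rw [← ev_pow ev hai.1, h2, h1, one_mul, HL.hev]
  rw [tr_s, tr_m, tr_i]
  have key : ev' ⟨ε, hεu.1⟩ * (ev' ⟨as', has'.1⟩ * ev' ⟨am', ham'.1⟩ ^ (q - 1) * ev' ⟨ζ, hζ.1⟩ ^ js)
      = ev' ⟨ε, hεu.1⟩ * (ev' ⟨ai', hai'.1⟩ * ev' ⟨ζ, hζ.1⟩ ^ ji) := by
    rw [← mul_assoc, ← mul_assoc, ← mul_assoc]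
    rw [← mul_assoc] at h1s
    rw [h1s, h1i]
  exact mul_left_cancel₀ hεne key

end Local

section Wire

variable {F1 F2 : Type*} [Field F1] [Field F2]

variable {k : Type*} [Field k]
  {a b : F1 →+* F2} {Na Nb : F2 →*₀ F1} {q m : ℕ}
  {V : Fin 3 → ValuationSubring F2} {WF WV : ValuationSubring F1}

/-- **`Λ` at a triple point** for the renormalised data (unit form of `H85.exists_lambda_of_towers`). -/
theorem exists_lambda_of_towersU (hq : 0 < q) (hm : 0 < m)
    (HVa : TowerValU a Na q (V 0) (V 1) (V 2) WF WV)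
    (HVb : TowerValU b Nb q (V 2) (V 1) (V 0) WV WF)
    {ζ ca cb : F1} (hζm : ζ ^ m = 1) (hab : a ζ = b ζ)
    {O : Subring F2} (HL : TripleLoc a b Na Nb q m V WF WV ζ ca cb k O)
    (hlift : TripleLift m V O)
    {u : F2} {T : Fin 3 → F2} (hT : ∀ i, OneU (V i) (u / T i ^ m))
    {ha hb : F1} (hNa : Na u = ca * ha ^ m) (hNb : Nb u = cb * hb ^ m)
    {ts tm ti : F1} {js ji : ℕ}
    (hts : OneU (V 0) (T 0 / a ts)) (htm : OneU (V 1) (T 1 / a tm))
    (hti : OneU (V 2) (T 2 ^ q / a ti))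
    (hjs : OneU WF (ha / (ts * tm ^ (q - 1)) / ζ ^ js)) (hji : OneU WV (ha / ti / ζ ^ ji))
    {ts' tm' ti' : F1} {js' ji' : ℕ}
    (hts' : OneU (V 2) (T 2 / b ts')) (htm' : OneU (V 1) (T 1 / b tm'))
    (hti' : OneU (V 0) (T 0 ^ q / b ti'))
    (hjs' : OneU WV (hb / (ts' * tm' ^ (q - 1)) / ζ ^ js')) (hji' : OneU WF (hb / ti' / ζ ^ ji'))
    {G : F2} (hG0 : G ≠ 0) (hG : UnitIn O (u / G ^ m)) (hGV : ∀ i, (V i).valuation G = 1)
    {av : Fin 3 → F2} (hav : ∀ i, UnitIn O (av i)) (hμ : ∀ i, OneU (V i) (T i / G / av i)) :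
    ∃ Λ, UnitIn O Λ ∧ ∀ i, OneU (V i)
      (Λ * G ^ (q ^ 2 - 1) /
        (T i ^ (q ^ 2 - 1) * a ζ ^ renormExp q m js ji js' ji' i)) := by
  obtain ⟨O'a, O'b, ev, eva, evb, HLa, HLb, hζa, hζb, hca, hcb⟩ := HL
  set N := q ^ 2 - 1 with hN
  set e := renormExp q m js ji js' ji' with he
  set z : F2 := a ζ with hz
  -- `z` is a unit of `O` with `z ^ m = 1`
  have hzO : UnitIn O z := by
    refine ⟨HLa.haO ζ hζa.1, ?_, (map_ne_zero a).mpr hζa.2.2⟩
    rw [hz, ← map_inv₀]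
    exact HLa.haO _ hζa.2.1
  have hzm : z ^ m = 1 := by rw [hz, ← map_pow, hζm, map_one]
  -- the two gluing relations
  have R1 := glue_relU HVa HLa hζa hNa hca hts htm hti hjs hji hG0 hG (hGV 0) (hGV 1) (hGV 2)
    (hav 0) (hav 1) (hav 2)
    (hμ 0) (hμ 1) (hμ 2)
  have R2 := glue_relU HVb HLb hζb hNb hcb hts' htm' hti' hjs' hji' hG0 hG (hGV 2) (hGV 1) (hGV 0)
    (hav 2) (hav 1) (hav 0)
    (hμ 2) (hμ 1) (hμ 0)
  have e1 : eva ⟨ζ, hζa.1⟩ = ev ⟨z, hzO.1⟩ := (HLa.hev ζ hζa.1 hzO.1).symm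
  have e2 : evb ⟨ζ, hζb.1⟩ = ev ⟨z, hzO.1⟩ := by
    have hbz : b ζ ∈ O := by rw [← hab]; exact hzO.1
    rw [← HLb.hev ζ hζb.1 hbz]
    exact ev_congr ev hab.symm _ _
  rw [e1] at R1
  rw [e2] at R2
  -- values at the point of `1`-units
  have hev1 : ∀ i (x : F2) (hx : x ∈ O), OneU (V i) x → ev ⟨x, hx⟩ = 1 := by
    intro i x hx h
    fin_cases i
    · exact HLa.hevs x hx h
    · exact HLa.hevm x hx h
    · exact HLa.hevi x hx h
  have hEQ := triple_EQ hev1 hq hm (T := T) hG0 hzO hzm hav hμ R1 R2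
  have hT0 : ∀ i, T i ≠ 0 := fun i => by
    intro h0
    have := (hμ i).ne_zero
    rw [h0, zero_div, zero_div] at this
    exact this rfl
  have hz0 : z ≠ 0 := hzO.2.2
  refine hlift (u ^ N) (G ^ N) (fun i => T i ^ N * z ^ e i) (pow_ne_zero N hG0)
    (fun i => mul_ne_zero (pow_ne_zero N (hT0 i)) (pow_ne_zero _ hz0)) ?_ (fun i => ?_) hEQ
  · have e3 : u ^ N / (G ^ N) ^ m = (u / G ^ m) ^ N := by
      rw [_root_.div_pow, ← pow_mul, ← pow_mul, mul_comm]
    rw [e3]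
    exact H85.UnitIn.pow hG N
  · have e3 : u ^ N / (T i ^ N * z ^ e i) ^ m = (u / T i ^ m) ^ N := by
      rw [mul_pow, ← pow_mul z, mul_comm (e i) m, pow_mul z, hzm, one_pow, mul_one,
        _root_.div_pow, ← pow_mul, ← pow_mul, mul_comm]
    rw [e3]
    exact (hT i).pow N

/-- **Step 4 complete: the radical local datum of `u ^ (q² - 1) / Ψ ^ m`** (unit form of helper85's
`H85.radDatum_of_towers`: `TowerValU` instead of `TowerVal`, plus `hOV`: units of `O n` are units at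
the vertical valuations through `n`). -/
theorem radDatum_of_towersU {ν : Type*} (hq : 0 < q) (hm : 0 < m)
    (HVa : TowerValU a Na q (V 0) (V 1) (V 2) WF WV)
    (HVb : TowerValU b Nb q (V 2) (V 1) (V 0) WV WF)
    {O : ν → Subring F2} {Thr : ν → Fin 3 → Prop}
    {ζ : F1} (hζ : IsPrimitiveRoot ζ m) (hζF : WF.valuation ζ ≤ 1) (hζV : WV.valuation ζ ≤ 1)
    (hab : a ζ = b ζ)
    {u : F2} (hu : ∀ i, (V i).valuation u = 1)
    {T : Fin 3 → F2} (hT : ∀ i, OneU (V i) (u / T i ^ m))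
    {ca ha cb hb : F1} (hNa : Na u = ca * ha ^ m) (hNb : Nb u = cb * hb ^ m)
    (hcaF : OneU WF ca) (hcaV : OneU WV ca) (hcbF : OneU WF cb) (hcbV : OneU WV cb)
    {G : ν → F2} (hG0 : ∀ n, G n ≠ 0) (hG : ∀ n, UnitIn (O n) (u / G n ^ m))
    (hOV : ∀ n i, Thr n i → ∀ x : F2, UnitIn (O n) x → (V i).valuation x = 1)
    (happrox : ∀ T' : Fin 3 → F2, (∀ i, (V i).valuation (T' i) = 1) →
      ∃ Ψ : F2, Ψ ≠ 0 ∧ ∀ i, OneU (V i) (Ψ / T' i))
    (hbr : ∀ n i, Thr n i → ∀ u' G' T' : F2, G' ≠ 0 → T' ≠ 0 → UnitIn (O n) (u' / G' ^ m) →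
      OneU (V i) (u' / T' ^ m) → ∃ Λ : F2, UnitIn (O n) Λ ∧ OneU (V i) (Λ * G' / T'))
    (hpt : ∀ n, (∃ i₀, ∀ i, Thr n i → i = i₀) ∨
      ((∀ i, Thr n i) ∧ TripleLoc a b Na Nb q m V WF WV ζ ca cb k (O n) ∧
        TripleLift m V (O n))) :
    ∃ Ψ : F2, Ψ ≠ 0 ∧ RadDatum O V Thr (u ^ (q ^ 2 - 1) / Ψ ^ m) m := by
  obtain ⟨ts, tm, ti, js, ji, hts, htm, hti, hjs, hji⟩ :=
    HVa.exists_global hm hζ hζF hζV (hT 0) (hT 1) (hT 2) (hu 0) (hu 1) (hu 2) hNa hcaF hcaV
  obtain ⟨ts', tm', ti', js', ji', hts', htm', hti', hjs', hji'⟩ :=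
    HVb.exists_global hm hζ hζV hζF (hT 2) (hT 1) (hT 0) (hu 2) (hu 1) (hu 0) hNb hcbV hcbF
  set N := q ^ 2 - 1 with hN
  set e := renormExp q m js ji js' ji' with he
  set z : F2 := a ζ with hz
  have hζm : ζ ^ m = 1 := hζ.pow_eq_one
  have hzm : z ^ m = 1 := by rw [hz, ← map_pow, hζm, map_one]
  have hz0 : z ≠ 0 := by
    intro h0
    rw [h0, zero_pow hm.ne'] at hzm
    exact zero_ne_one hzm
  have hT0 : ∀ i, T i ≠ 0 := fun i => by
    intro h0
    have h1 := (hT i).valuation_eq_one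
    rw [h0, zero_pow hm.ne', div_zero, map_zero] at h1
    exact zero_ne_one h1
  have hu0 : u ≠ 0 := by
    intro h0
    have := hu 0
    rw [h0, map_zero] at this
    exact zero_ne_one this
  -- valuations of the `T i` and of `z`
  have hvT : ∀ i, (V i).valuation (T i) = 1 := fun i => by
    apply valuation_eq_one_of_pow hm
    have := (hT i).valuation_eq_one
    rw [map_div₀, hu i] at this
    have h2 : (V i).valuation (T i ^ m) ≠ 0 := by
      intro h0; rw [h0, div_zero] at this; exact zero_ne_one this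
    field_simp at this
    exact this.symm
  have hvz : ∀ i, (V i).valuation z = 1 := fun i => by
    apply valuation_eq_one_of_pow hm
    rw [hzm, map_one]
  -- the renormalised residues
  set T' : Fin 3 → F2 := fun i => T i ^ N * z ^ e i with hT'
  have hvT' : ∀ i, (V i).valuation (T' i) = 1 := fun i => by
    show (V i).valuation (T i ^ N * z ^ e i) = 1
    rw [map_mul, map_pow, map_pow, hvT i, hvz i, one_pow, one_pow, one_mul]
  have hT'0 : ∀ i, T' i ≠ 0 := fun i =>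
    mul_ne_zero (pow_ne_zero N (hT0 i)) (pow_ne_zero _ hz0)
  have hT'u : ∀ i, OneU (V i) (u ^ N / T' i ^ m) := fun i => by
    have e3 : u ^ N / T' i ^ m = (u / T i ^ m) ^ N := by
      show u ^ N / (T i ^ N * z ^ e i) ^ m = _
      rw [mul_pow, ← pow_mul z, mul_comm (e i) m, pow_mul z, hzm, one_pow, mul_one,
        _root_.div_pow, ← pow_mul, ← pow_mul, mul_comm]
    rw [e3]
    exact (hT i).pow N
  have hG' : ∀ n, UnitIn (O n) (u ^ N / (G n ^ N) ^ m) := fun n => by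
    have e3 : u ^ N / (G n ^ N) ^ m = (u / G n ^ m) ^ N := by
      rw [_root_.div_pow, ← pow_mul, ← pow_mul, mul_comm]
    rw [e3]
    exact H85.UnitIn.pow (hG n) N
  obtain ⟨Ψ, hΨ0, hΨ⟩ := happrox T' hvT'
  refine ⟨Ψ, hΨ0, radDatum_of_glue T' hT'u Ψ hΨ0 hΨ (fun n => G n ^ N)
    (fun n => pow_ne_zero N (hG0 n)) hG' (fun n => ?_)⟩
  rcases hpt n with ⟨i₀, hone⟩ | ⟨hall, hloc, hlift⟩
  · by_cases hthr : Thr n i₀
    · obtain ⟨Λ, hΛ, hΛT⟩ := hbr n i₀ hthr (u ^ N) (G n ^ N) (T' i₀) (pow_ne_zero N (hG0 n))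
        (hT'0 i₀) (hG' n) (hT'u i₀)
      refine ⟨Λ, hΛ, fun i hi => ?_⟩
      obtain rfl := hone i hi
      exact hΛT
    · refine ⟨1, UnitIn.one, fun i hi => ?_⟩
      exact absurd (hone i hi ▸ hi) hthr
  · -- branch values of the original data
    have hval : ∀ i, ∃ av : F2, UnitIn (O n) av ∧ OneU (V i) (T i / G n / av) := fun i => by
      obtain ⟨Λ, hΛ, hΛT⟩ := hbr n i (hall i) u (G n) (T i) (hG0 n) (hT0 i) (hG n) (hT i)
      refine ⟨Λ, hΛ, ?_⟩
      have hΛ0 : Λ ≠ 0 := hΛ.2.2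
      have hGn := hG0 n
      have hTi := hT0 i
      have e3 : T i / G n / Λ = (Λ * G n / T i)⁻¹ := by
        field_simp
      rw [e3]
      exact hΛT.inv
    choose av hav hμ using hval
    have hGV : ∀ i, (V i).valuation (G n) = 1 := fun i => by
      apply valuation_eq_one_of_pow hm
      have h1 := hOV n i (hall i) _ (hG n)
      rw [map_div₀, hu i] at h1
      rw [one_div, inv_eq_one] at h1
      exact h1
    obtain ⟨Λ, hΛ, hΛT⟩ := exists_lambda_of_towersU hq hm HVa HVb hζm hab hloc hlift hT hNa hNb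
      hts htm hti hjs hji hts' htm' hti' hjs' hji' (hG0 n) (hG n) hGV hav hμ
    exact ⟨Λ, hΛ, fun i _ => hΛT i⟩

end Wire

section Producer

variable {F1 F2 κ : Type*} [Field F1] [Field F2] [Field κ]
  {a : F1 →+* F2} {Na : F2 →*₀ F1}
  {Qs Qi : ResPlace F1 κ} {Rs Rm Ri : ResPlace F2 κ}
  {Ws Wi : ValuationSubring F1} {Vs Vm Vi : ValuationSubring F2}

/-- **(E5) → (E6): the tower datum from the `ResPlace`-level data.**  `Rs Rm Ri` the three places
of `F2` sorted as `(e,f) = (1,1), (q-1,1), (1,q)` with respect to `a`, `Qs Qi` the two places of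
`F1` below them (`Qi` with its reduction twisted so that `Ri` lies over it compatibly), all
reductions in ONE field `κ`; place bridges to the valuation subrings; the two norm facts in
helper16's shapes `S36.H16.hasRes_norm_ram_pair` (`n := q - 1`), `hasRes_norm_insep`. -/
theorem towerValU_of_places (q : ℕ)
    (bWs : PlaceBridge Qs Ws) (bWi : PlaceBridge Qi Wi)
    (bVs : PlaceBridge Rs Vs) (bVm : PlaceBridge Rm Vm) (bVi : PlaceBridge Ri Vi)
    (ls : LiesOver a Qs Rs) (lm : LiesOver a Qs Rm) (li : LiesOver a Qi Ri)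
    (hsurj_s : ∀ s ∈ Rs.resUnits, s ∈ Qs.resUnits) (hsurj_m : ∀ s ∈ Rm.resUnits, s ∈ Qs.resUnits)
    (g2s : ∀ u sm ss, Rm.HasRes u sm → Rs.HasRes u ss → Qs.HasRes (Na u) (sm ^ (q - 1) * ss))
    (g2i : ∀ u t, Ri.HasRes u t → Qi.HasRes (Na u) (t ^ q)) :
    TowerValU a Na q Vs Vm Vi Ws Wi where
  haVs := fun _ hx => ls.oneU bWs bVs hx
  haVm := fun _ hx => lm.oneU bWs bVm hx
  haVi := fun _ hx => li.oneU bWi bVi hx
  hNs := fun _ _ _ hxs hxm h1 h2 => oneU_norm_ram_pair (q - 1) bWs bVs bVm ls lm g2s hxs hxm h1 h2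
  hNi := fun _ _ hxi h3 => oneU_norm_insep q bWi bVi li g2i hxi h3
  hls := fun _ hx => exists_oneU_lift bVs ls hsurj_s hx
  hlm := fun _ hx => exists_oneU_lift bVm lm hsurj_m hx
  hli := fun _ hx => exists_oneU_lift_pow q bVi li g2i hx

end Producer

end Fermat.Agent.S36.H46
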