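import Mathlib
import Fermat.Agent.S36.H46_TowerValU
import Fermat.Agent.S36.H16_NormRedPlaces

/-!
S36 / (E5) → (E6) (helper16): **helper46's tower datum `S36.H46.TowerValU` from the `(M1)` place
structures** (`CA.H99.PlaceOver`, `S36.H6.PlaceOverRam`) **and the norm reductions of (E5)**
(`S36.H16.alpha_norm_caseV/_caseF`, `beta_norm_caseV/_caseF`), GENERIC in the two base DVRs.

* `basePlace ι` : the `ResPlace` of `K = Frac O` attached to a DVR `O` and `ι : O →+* κ` with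
  kernel the maximal ideal;
* `placeBridge_of_toSubring_eq` : a `ResPlace` and a valuation subring with the same ring are
  bridged (`hker` is automatic);
* `towerValU_of_placeOver` : `P₁` (Eisenstein, `e = q - 1`), `P₂` (simple) over `Os`; `P₃`
  (purely inseparable, `f = q`) over `Oi`; the two norm reductions as hypotheses `hNs hNi` in the
  exact output shape of `alpha_norm_*` / `beta_norm_*`; valuation subrings with the same rings
  ⟹ `TowerValU (algebraMap K L) Na q Vs Vm Vi Ws Wi`.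

Only the RINGS of the places matter for the conclusion: the `α`-side and the `β`-side may use
different residue maps for the same three valuation rings.
-/

set_option autoImplicit false
set_option linter.unusedSectionVars false

noncomputable section

namespace Fermat.Agent.S36.H16

open Polynomial IsLocalRing Fermat.Agent.S35.H46 Fermat.Agent.S36.H46

section Bridge

variable {F κ : Type*} [Field F] [Field κ]

/-- a `ResPlace` and a valuation subring with the same ring are bridged. -/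
theorem placeBridge_of_toSubring_eq (R : ResPlace F κ) (V : ValuationSubring F)
    (h : V.toSubring = R.O1) : PlaceBridge R V where
  hO := fun y => by rw [← h]; exact Iff.rfl
  hker := by
    intro y hy h0
    by_contra hlt
    have hyV : y ∈ V := by
      have : y ∈ V.toSubring := by rw [h]; exact hy
      exact this
    have h1 : V.valuation y = 1 :=
      le_antisymm ((V.valuation_le_one_iff y).2 hyV) (not_lt.1 hlt)
    have hy0 : y ≠ 0 := by
      rintro rfl
      rw [map_zero] at h1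
      exact zero_ne_one h1
    have hinvV : y⁻¹ ∈ V := by
      rw [← V.valuation_le_one_iff, map_inv₀, h1, inv_one]
    have hinv : y⁻¹ ∈ R.O1 := by
      rw [← h]; exact hinvV
    have hmul : (⟨y, hy⟩ : R.O1) * ⟨y⁻¹, hinv⟩ = 1 := Subtype.ext (mul_inv_cancel₀ hy0)
    have h3 := congrArg R.res hmul
    rw [map_mul, h0, zero_mul, map_one] at h3
    exact zero_ne_one h3

end Bridge

section Base

variable {O : Type*} [CommRing O] [IsDomain O] [IsDiscreteValuationRing O]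
variable {K : Type*} [Field K] [Algebra O K] [IsFractionRing O K]
variable {κ : Type*} [Field κ]

/-- `O ≃ range (O → K)`. -/
def rangeEquiv (O K : Type*) [CommRing O] [IsDomain O] [Field K] [Algebra O K]
    [IsFractionRing O K] : O ≃+* (algebraMap O K).range :=
  RingEquiv.ofBijective (algebraMap O K).rangeRestrict
    ⟨fun _ _ h => IsFractionRing.injective O K (congrArg Subtype.val h),
      (algebraMap O K).rangeRestrict_surjective⟩

theorem rangeEquiv_symm_apply (x : O) :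
    (rangeEquiv O K).symm ⟨algebraMap O K x, ⟨x, rfl⟩⟩ = x := by
  apply (rangeEquiv O K).injective
  rw [RingEquiv.apply_symm_apply]
  rfl

/-- **The base place** of `K = Frac O` attached to `ι : O →+* κ` killing the uniformiser. -/
def basePlace {ϖ : O} (hϖ : maximalIdeal O = Ideal.span {ϖ}) (ι : O →+* κ) (hιϖ : ι ϖ = 0) :
    ResPlace K κ where
  O1 := (algebraMap O K).range
  res := ι.comp ((rangeEquiv O K).symm : (algebraMap O K).range →+* O)
  inv_mem := by
    rintro y ⟨x, rfl⟩ hne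
    have hx : ι x ≠ 0 := by
      intro h0
      apply hne
      rw [RingHom.comp_apply]
      change ι ((rangeEquiv O K).symm ⟨algebraMap O K x, ⟨x, rfl⟩⟩) = 0
      rw [rangeEquiv_symm_apply, h0]
    have hu : IsUnit x := by
      by_contra hnu
      exact hx ((H6.map_eq_zero_iff_mem hϖ ι hιϖ x).2 ((IsLocalRing.mem_maximalIdeal x).mpr hnu))
    obtain ⟨u, rfl⟩ := hu
    refine ⟨((u⁻¹ : Oˣ) : O), ?_⟩
    have h1 : algebraMap O K ((u⁻¹ : Oˣ) : O) * algebraMap O K (u : O) = 1 := by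
      rw [← map_mul, Units.inv_mul, map_one]
    exact eq_inv_of_mul_eq_one_left h1

theorem basePlace_O1 {ϖ : O} (hϖ : maximalIdeal O = Ideal.span {ϖ}) (ι : O →+* κ)
    (hιϖ : ι ϖ = 0) : (basePlace (K := K) hϖ ι hιϖ).O1 = (algebraMap O K).range := rfl

theorem basePlace_res_algebraMap {ϖ : O} (hϖ : maximalIdeal O = Ideal.span {ϖ}) (ι : O →+* κ)
    (hιϖ : ι ϖ = 0) (x : O) (h : algebraMap O K x ∈ (basePlace (K := K) hϖ ι hιϖ).O1) :
    (basePlace (K := K) hϖ ι hιϖ).res ⟨algebraMap O K x, h⟩ = ι x := by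
  change ι ((rangeEquiv O K).symm ⟨algebraMap O K x, _⟩) = ι x
  rw [rangeEquiv_symm_apply]

theorem basePlace_hasRes {ϖ : O} (hϖ : maximalIdeal O = Ideal.span {ϖ}) (ι : O →+* κ)
    (hιϖ : ι ϖ = 0) {x : O} {s : κˣ} (hx : ι x = s) :
    (basePlace (K := K) hϖ ι hιϖ).HasRes (algebraMap O K x) s :=
  ⟨⟨x, rfl⟩, (basePlace_res_algebraMap hϖ ι hιϖ x _).trans hx⟩

end Base

section Tower

variable {K L κ : Type*} [Field K] [Field L] [Field κ] [Algebra K L]

/-- the `ResPlace` of a `PlaceOver`. -/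
def resPlaceOfPlaceOver {O : Type*} [CommRing O] [Algebra O L] {ϖ : O} {θ : L} {ι : O →+* κ}
    {θb : κ} (P : CA.H99.PlaceOver ϖ θ ι θb) : ResPlace L κ :=
  ⟨P.O1, P.res1, P.inv_mem⟩

/-- the `ResPlace` of a `PlaceOverRam`. -/
def resPlaceOfPlaceOverRam {O : Type*} [CommRing O] [Algebra O L] {ϖ : O} {θ τ : L} {n : ℕ}
    {ι : O →+* κ} {θb : κ} (P : H6.PlaceOverRam ϖ θ τ n ι θb) : ResPlace L κ :=
  ⟨P.O1, P.res1, P.inv_mem⟩

section One

variable {O : Type*} [CommRing O] [IsDomain O] [IsDiscreteValuationRing O]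
  [Algebra O K] [IsFractionRing O K] [Algebra O L] [IsScalarTower O K L]
  {ϖ : O} (hϖ : maximalIdeal O = Ideal.span {ϖ}) (ι : O →+* κ) (hιϖ : ι ϖ = 0)

theorem liesOver_placeOver {θ : L} {θb : κ} (P : CA.H99.PlaceOver ϖ θ ι θb) :
    LiesOver (algebraMap K L) (basePlace (K := K) hϖ ι hιϖ) (resPlaceOfPlaceOver P) := by
  rintro y ⟨x, rfl⟩
  have e : algebraMap K L (algebraMap O K x) = algebraMap O L x :=
    (IsScalarTower.algebraMap_apply O K L x).symm
  have hm : algebraMap K L (algebraMap O K x) ∈ P.O1 := e ▸ P.algebraMap_mem x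
  refine ⟨hm, ?_⟩
  exact ((P.res1_congr hm (P.algebraMap_mem x) e).trans (P.res1_algebraMap x)).trans
    (basePlace_res_algebraMap hϖ ι hιϖ x _).symm

theorem liesOver_placeOverRam {θ τ : L} {n : ℕ} {θb : κ} (P : H6.PlaceOverRam ϖ θ τ n ι θb) :
    LiesOver (algebraMap K L) (basePlace (K := K) hϖ ι hιϖ) (resPlaceOfPlaceOverRam P) := by
  rintro y ⟨x, rfl⟩
  have e : algebraMap K L (algebraMap O K x) = algebraMap O L x :=
    (IsScalarTower.algebraMap_apply O K L x).symm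
  have hm : algebraMap K L (algebraMap O K x) ∈ P.O1 := e ▸ P.algebraMap_mem x
  refine ⟨hm, ?_⟩
  exact ((ram_res1_congr P hm (P.algebraMap_mem x) e).trans (P.res1_algebraMap x)).trans
    (basePlace_res_algebraMap hϖ ι hιϖ x _).symm

include hϖ hιϖ in
/-- a residue `a^ι(ι c) / s^ι(ι c)` comes from `O`. -/
theorem exists_map_eq_of_repr (c : O) {r : κ} (a s : O[X]) (hs : s.eval₂ ι (ι c) ≠ 0)
    (e : r * s.eval₂ ι (ι c) = a.eval₂ ι (ι c)) : ∃ x : O, ι x = r := by
  rw [Polynomial.eval₂_at_apply] at hs e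
  rw [Polynomial.eval₂_at_apply] at e
  have hu : IsUnit (s.eval c) := by
    by_contra hnu
    exact hs ((H6.map_eq_zero_iff_mem hϖ ι hιϖ _).2 ((IsLocalRing.mem_maximalIdeal _).mpr hnu))
  obtain ⟨u, hu⟩ := hu
  refine ⟨a.eval c * ((u⁻¹ : Oˣ) : O), ?_⟩
  have h1 : ι (s.eval c) * ι ((u⁻¹ : Oˣ) : O) = 1 := by
    rw [← hu, ← map_mul, Units.mul_inv, map_one]
  rw [map_mul, ← e, mul_assoc, h1, mul_one]

/-- `f = 1`: the residues of a `PlaceOver` at `θb = ι c` come from `O`. -/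
theorem resUnits_placeOver_le {θ : L} (c : O) (P : CA.H99.PlaceOver ϖ θ ι (ι c)) :
    ∀ s ∈ (resPlaceOfPlaceOver P).resUnits, s ∈ (basePlace (K := K) hϖ ι hιϖ).resUnits := by
  rintro s ⟨y, hy, hys⟩
  obtain ⟨a, s₀, hs₀, e⟩ := P.exists_repr y hy
  have h1 : P.res1 ⟨y, hy⟩ * s₀.eval₂ ι (ι c) = a.eval₂ ι (ι c) := by
    rw [← P.res1_aeval s₀, ← P.res1_aeval a, ← map_mul]
    exact P.res1_congr _ _ e
  obtain ⟨x, hx⟩ := exists_map_eq_of_repr hϖ ι hιϖ c a s₀ hs₀ h1
  exact ⟨algebraMap O K x, basePlace_hasRes hϖ ι hιϖ (hx.trans hys)⟩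

/-- `f = 1`: the residues of a `PlaceOverRam` at `θb = ι c` come from `O`. -/
theorem resUnits_placeOverRam_le {θ τ : L} {n : ℕ} (c : O)
    (P : H6.PlaceOverRam ϖ θ τ n ι (ι c)) :
    ∀ s ∈ (resPlaceOfPlaceOverRam P).resUnits, s ∈ (basePlace (K := K) hϖ ι hιϖ).resUnits := by
  rintro s ⟨y, hy, hys⟩
  obtain ⟨a, s₀, hs₀, e⟩ := P.exists_repr y hy
  have h1 : P.res1 ⟨y, hy⟩ * s₀.eval₂ ι (ι c) = a.eval₂ ι (ι c) := by
    rw [← ram_res1_aeval P s₀, ← ram_res1_aeval P a, ← map_mul]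
    exact ram_res1_congr P _ _ e
  obtain ⟨x, hx⟩ := exists_map_eq_of_repr hϖ ι hιϖ c a s₀ hs₀ h1
  exact ⟨algebraMap O K x, basePlace_hasRes hϖ ι hιϖ (hx.trans hys)⟩

end One

/-- **(E5) → (E6)**: the tower datum from the three place structures and the two norm
reductions. -/
theorem towerValU_of_placeOver (q : ℕ)
    {Os : Type*} [CommRing Os] [IsDomain Os] [IsDiscreteValuationRing Os]
    [Algebra Os K] [IsFractionRing Os K] [Algebra Os L] [IsScalarTower Os K L]
    {ϖs : Os} (hϖs : maximalIdeal Os = Ideal.span {ϖs}) (ιs : Os →+* κ) (hιs : ιs ϖs = 0)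
    {θ τ : L} {θb₁ θb₂ : κ} (c₁ c₂ : Os) (e₁ : θb₁ = ιs c₁) (e₂ : θb₂ = ιs c₂)
    (P₁ : H6.PlaceOverRam ϖs θ τ (q - 1) ιs θb₁) (P₂ : CA.H99.PlaceOver ϖs θ ιs θb₂)
    (hNs : ∀ (u : L) (h₁ : u ∈ P₁.O1) (h₂ : u ∈ P₂.O1), ∃ m : Os,
      algebraMap Os K m = Algebra.norm K u ∧
        ιs m = P₁.res1 ⟨u, h₁⟩ ^ (q - 1) * P₂.res1 ⟨u, h₂⟩)
    {Oi : Type*} [CommRing Oi] [IsDomain Oi] [IsDiscreteValuationRing Oi]
    [Algebra Oi K] [IsFractionRing Oi K] [Algebra Oi L] [IsScalarTower Oi K L]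
    {ϖi : Oi} (hϖi : maximalIdeal Oi = Ideal.span {ϖi}) (ιi : Oi →+* κ) (hιi : ιi ϖi = 0)
    {θ' : L} {θb₃ : κ} (P₃ : CA.H99.PlaceOver ϖi θ' ιi θb₃)
    (hNi : ∀ (u : L) (h : u ∈ P₃.O1), ∃ m : Oi,
      algebraMap Oi K m = Algebra.norm K u ∧ ιi m = P₃.res1 ⟨u, h⟩ ^ q)
    (Vs Vm Vi : ValuationSubring L) (hVs : Vs.toSubring = P₂.O1) (hVm : Vm.toSubring = P₁.O1)
    (hVi : Vi.toSubring = P₃.O1)
    (Ws Wi : ValuationSubring K) (hWs : Ws.toSubring = (algebraMap Os K).range)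
    (hWi : Wi.toSubring = (algebraMap Oi K).range)
    (Na : L →*₀ K) (hNa : ∀ x, Na x = Algebra.norm K x) :
    TowerValU (algebraMap K L) Na q Vs Vm Vi Ws Wi := by
  subst e₁ e₂
  refine towerValU_of_places (Qs := basePlace (K := K) hϖs ιs hιs)
    (Qi := basePlace (K := K) hϖi ιi hιi)
    (Rs := resPlaceOfPlaceOver P₂) (Rm := resPlaceOfPlaceOverRam P₁)
    (Ri := resPlaceOfPlaceOver P₃) q
    (placeBridge_of_toSubring_eq _ Ws hWs) (placeBridge_of_toSubring_eq _ Wi hWi)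
    (placeBridge_of_toSubring_eq _ Vs hVs) (placeBridge_of_toSubring_eq _ Vm hVm)
    (placeBridge_of_toSubring_eq _ Vi hVi)
    (liesOver_placeOver hϖs ιs hιs P₂) (liesOver_placeOverRam hϖs ιs hιs P₁)
    (liesOver_placeOver hϖi ιi hιi P₃)
    (resUnits_placeOver_le hϖs ιs hιs c₂ P₂) (resUnits_placeOverRam_le hϖs ιs hιs c₁ P₁) ?_ ?_
  · rintro u sm ss ⟨h₁, e₁⟩ ⟨h₂, e₂⟩
    obtain ⟨m, hm1, hm2⟩ := hNs u h₁ h₂
    rw [hNa, ← hm1]
    refine basePlace_hasRes hϖs ιs hιs ?_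
    rw [hm2, Units.val_mul, Units.val_pow_eq_pow_val, ← e₁, ← e₂]
    rfl
  · rintro u t ⟨h, e⟩
    obtain ⟨m, hm1, hm2⟩ := hNi u h
    rw [hNa, ← hm1]
    refine basePlace_hasRes hϖi ιi hιi ?_
    rw [hm2, Units.val_pow_eq_pow_val, ← e]
    rfl

end Tower

end Fermat.Agent.S36.H16
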