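/-
helper18 — S36 row (E7), **real-types base vocabulary**: the two degeneracy maps and the two
norms between the function fields `F_K(N1) ⊆ F_K(N2)` over an arbitrary coefficient field `K`
(in the application `K = ↥E0`, `N1 = q L`, `N2 = q (q L)`), packaged as plain ring homomorphisms
and `→*₀`-homomorphisms (the shapes consumed by `S36.H85.TowerVal` / `radDatum_of_towers`), and
the reformulation of `H18.GeoFn36E` in this vocabulary.

* `normZ : F2 →*₀ F1` : `Algebra.norm` as a monoid-with-zero hom (value `0` at `0` by decree, so no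
  finiteness instance is needed to STATE things; `normZ_apply`, `normZ_eq_norm`).
* `alphaK K N1 N2 hN`, `betaK K q N1 N2 hqN : F_K(N1) →+* F_K(N2)` : inclusion and `V_q`
  (`= algebraMap` of `S34.H16.degAlgebra` / `S35.H16.vAlgebra`, by `rfl`).
* `normAlphaK`, `normBetaK : F_K(N2) →*₀ F_K(N1)` : the norms along them.
* `geoFn36E_iff` : `GeoFn36E` restated with `normAlphaK` / `normBetaK`.
-/
import Mathlib
import Fermat.Agent.S36.H18_Geo36Top

set_option autoImplicit false
set_option linter.unusedSectionVars false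
set_option linter.style.haveILetI false
set_option synthInstance.maxHeartbeats 400000

noncomputable section

namespace Fermat.Agent.S36.H18

open ModularCurve AlgebraicCurve IntermediateField
open Fermat.Agent.S18 Fermat.Agent.S34

local notation "Qbar" => AlgebraicClosure ℚ

section NormZ

variable {F1 F2 : Type*} [Field F1] [Field F2] [Algebra F1 F2]

open Classical in
/-- `Algebra.norm F1 : F2 → F1` as a monoid-with-zero homomorphism (value `0` at `0`). -/
def normZ : F2 →*₀ F1 where
  toFun x := if x = 0 then 0 else Algebra.norm F1 x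
  map_zero' := if_pos rfl
  map_one' := by rw [if_neg one_ne_zero, map_one]
  map_mul' x y := by
    by_cases hx : x = 0
    · rw [hx, zero_mul, if_pos rfl, zero_mul]
    by_cases hy : y = 0
    · rw [hy, mul_zero, if_pos rfl, mul_zero]
    rw [if_neg hx, if_neg hy, if_neg (mul_ne_zero hx hy), map_mul]

theorem normZ_apply {x : F2} (hx : x ≠ 0) : normZ (F1 := F1) x = Algebra.norm F1 x := by
  classical
  exact if_neg hx

theorem normZ_eq_norm [FiniteDimensional F1 F2] (x : F2) :
    normZ (F1 := F1) x = Algebra.norm F1 x := by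
  by_cases hx : x = 0
  · rw [hx, map_zero, Algebra.norm_zero]
  · exact normZ_apply hx

end NormZ

section Maps

variable (K : Type) [Field K] (q N1 N2 : ℕ) [NeZero q] [NeZero N1] [NeZero N2]
  (hN : N1 ∣ N2) (hqN : q * N1 ∣ N2)

/-- `α : F_K(N1) → F_K(N2)`, the inclusion (`f(t) ↦ f(t)`). -/
def alphaK : modularFunctionFieldFullC K N1 →+* modularFunctionFieldFullC K N2 :=
  letI := H16.degAlgebra K N1 N2 hN
  algebraMap (modularFunctionFieldFullC K N1) (modularFunctionFieldFullC K N2)

/-- `β = V_q : F_K(N1) → F_K(N2)`, `f(t) ↦ f(t^q)`. -/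
def betaK : modularFunctionFieldFullC K N1 →+* modularFunctionFieldFullC K N2 :=
  letI := S35.H16.vAlgebra K q N1 N2 hqN
  algebraMap (modularFunctionFieldFullC K N1) (modularFunctionFieldFullC K N2)

theorem alphaK_def :
    alphaK K N1 N2 hN =
      (letI := H16.degAlgebra K N1 N2 hN;
        algebraMap (modularFunctionFieldFullC K N1) (modularFunctionFieldFullC K N2)) := rfl

theorem betaK_def :
    betaK K q N1 N2 hqN =
      (letI := S35.H16.vAlgebra K q N1 N2 hqN;
        algebraMap (modularFunctionFieldFullC K N1) (modularFunctionFieldFullC K N2)) := rfl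

theorem coe_alphaK (x : modularFunctionFieldFullC K N1) :
    ((alphaK K N1 N2 hN x : modularFunctionFieldFullC K N2) : LaurentSeries K) =
      (x : LaurentSeries K) :=
  H16.degAlgebra_algebraMap_coe K N1 N2 hN x

theorem coe_betaK (x : modularFunctionFieldFullC K N1) :
    ((betaK K q N1 N2 hqN x : modularFunctionFieldFullC K N2) : LaurentSeries K) =
      qExpand K q (x : LaurentSeries K) :=
  S35.H16.vAlgebra_algebraMap_coe K q N1 N2 hqN x

/-- The norm along `α` as a `→*₀`. -/
def normAlphaK : modularFunctionFieldFullC K N2 →*₀ modularFunctionFieldFullC K N1 :=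
  letI := H16.degAlgebra K N1 N2 hN
  normZ

/-- The norm along `β` as a `→*₀`. -/
def normBetaK : modularFunctionFieldFullC K N2 →*₀ modularFunctionFieldFullC K N1 :=
  letI := S35.H16.vAlgebra K q N1 N2 hqN
  normZ

theorem normAlphaK_apply {f : modularFunctionFieldFullC K N2} (hf : f ≠ 0) :
    normAlphaK K N1 N2 hN f =
      (letI := H16.degAlgebra K N1 N2 hN; Algebra.norm (modularFunctionFieldFullC K N1) f) := by
  letI := H16.degAlgebra K N1 N2 hN
  exact normZ_apply hf

theorem normBetaK_apply {f : modularFunctionFieldFullC K N2} (hf : f ≠ 0) :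
    normBetaK K q N1 N2 hqN f =
      (letI := S35.H16.vAlgebra K q N1 N2 hqN;
        Algebra.norm (modularFunctionFieldFullC K N1) f) := by
  letI := S35.H16.vAlgebra K q N1 N2 hqN
  exact normZ_apply hf

end Maps

/-- `GeoFn36E` in the vocabulary of `alphaK/betaK/normAlphaK/normBetaK`. -/
theorem geoFn36E_iff (q N1 N2 : ℕ) [NeZero q] [NeZero N1] [NeZero N2] (hN : N1 ∣ N2)
    (hqN : q * N1 ∣ N2) {l : ℕ} (E0 : IntermediateField (H45.unrCyclo l) Qbar) (m C : ℕ) :
    GeoFn36E q N1 N2 hN hqN E0 m C ↔
      ∀ f : modularFunctionFieldFullC ↥E0 N2, f ≠ 0 →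
        (∀ v : Place Qbar (S24.FN N2), (m : ℤ) ∣ v.ord (H99.toBar ↥E0 N2 f)) →
        (∃ (c : ↥E0) (h : modularFunctionFieldFullC ↥E0 N1), c ≠ 0 ∧ h ≠ 0 ∧
          normAlphaK ↥E0 N1 N2 hN f =
            algebraMap ↥E0 (modularFunctionFieldFullC ↥E0 N1) c * h ^ m) →
        (∃ (c : ↥E0) (h : modularFunctionFieldFullC ↥E0 N1), c ≠ 0 ∧ h ≠ 0 ∧
          normBetaK ↥E0 q N1 N2 hqN f =
            algebraMap ↥E0 (modularFunctionFieldFullC ↥E0 N1) c * h ^ m) →
        ∃ (c : ↥E0) (w : modularFunctionFieldFullC ↥E0 N2), c ≠ 0 ∧ w ≠ 0 ∧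
          f ^ C = algebraMap ↥E0 (modularFunctionFieldFullC ↥E0 N2) c * w ^ m := by
  constructor
  · intro h f hf hdiv hα hβ
    rw [normAlphaK_apply ↥E0 N1 N2 hN hf] at hα
    rw [normBetaK_apply ↥E0 q N1 N2 hqN hf] at hβ
    exact h f hf hdiv hα hβ
  · intro h f hf hdiv hα hβ
    rw [← normAlphaK_apply ↥E0 N1 N2 hN hf] at hα
    rw [← normBetaK_apply ↥E0 q N1 N2 hqN hf] at hβ
    exact h f hf hdiv hα hβ

end Fermat.Agent.S36.H18
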