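import Mathlib
import Fermat.Agent.S36.H6_EisensteinPlace

/-!
# (M1) brick (ii): a `PlaceOver` (resp. `PlaceOverRam`) over a DVR is itself a DVR

`O` a DVR with uniformiser `ϖ`, `K = Frac O`, `L / K` an algebraic field extension.  For a place
`P : CA.H99.PlaceOver ϖ θ ι θb` the subring `P.O1 ⊆ L` is a discrete valuation ring with uniformiser
`ϖ`, its fraction field is `L`, and `P.O1 ∩ K = O`.  Same for `PlaceOverRam` with uniformiser `τ`.
This is what is needed to ITERATE `CA.H99.nonempty_placeOver` / `nonempty_placeOverRam` with the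
base DVR `O' := P.O1`, `K' := L`.
-/

set_option autoImplicit false
set_option linter.unusedSectionVars false
set_option linter.style.haveILetI false

open Polynomial IsLocalRing

namespace Fermat.Agent.S36.H6

section Abstract

variable {L : Type*} [Field L] {Fk : Type*} [Field Fk]

/-- units of a "place-like" subring are the elements with non-zero residue. -/
theorem isUnit_iff_res_ne_zero {S : Subring L} (res : S →+* Fk)
    (hinv : ∀ x : S, res x ≠ 0 → ((x : L))⁻¹ ∈ S) (x : S) : IsUnit x ↔ res x ≠ 0 := by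
  constructor
  · intro hu
    exact (hu.map res).ne_zero
  · intro hx
    have hx0 : (x : L) ≠ 0 := by
      intro h0
      apply hx
      have : x = 0 := Subtype.ext h0
      rw [this, map_zero]
    refine IsUnit.of_mul_eq_one (⟨(x : L)⁻¹, hinv x hx⟩ : S) ?_
    apply Subtype.ext
    change (x : L) * (x : L)⁻¹ = 1
    exact mul_inv_cancel₀ hx0

/-- **Abstract core.**  A subring `S` of a field with a reduction map `res` to a field whose kernel
is `t S` (`t ≠ 0`), whose residue-units are invertible, and in which no non-zero element is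
divisible by all powers of `t`, is a DVR with uniformiser `t`. -/
theorem exists_eq_pow_mul_unit {S : Subring L} (res : S →+* Fk) (t : S)
    (hker : ∀ x : S, res x = 0 ↔ ∃ z : S, x = t * z)
    (hinv : ∀ x : S, res x ≠ 0 → ((x : L))⁻¹ ∈ S)
    (x : S) (k : ℕ) (hk : ¬ ∃ z : S, x = t ^ k * z) :
    ∃ (n : ℕ) (u : S), IsUnit u ∧ x = t ^ n * u := by
  induction k generalizing x with
  | zero => exact absurd ⟨x, by rw [pow_zero, one_mul]⟩ hk
  | succ k ih =>
    by_cases hx : res x = 0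
    · obtain ⟨z, rfl⟩ := (hker x).1 hx
      have hz : ¬ ∃ w : S, z = t ^ k * w := by
        rintro ⟨w, rfl⟩
        exact hk ⟨w, by rw [pow_succ]; ring⟩
      obtain ⟨n, u, hu, rfl⟩ := ih z hz
      exact ⟨n + 1, u, hu, by rw [pow_succ]; ring⟩
    · exact ⟨0, x, (isUnit_iff_res_ne_zero res hinv x).2 hx, by rw [pow_zero, one_mul]⟩

theorem irreducible_of_place {S : Subring L} (res : S →+* Fk) (t : S) (ht : t ≠ 0)
    (hker : ∀ x : S, res x = 0 ↔ ∃ z : S, x = t * z)
    (hinv : ∀ x : S, res x ≠ 0 → ((x : L))⁻¹ ∈ S) : Irreducible t := by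
  rw [irreducible_iff]
  refine ⟨?_, ?_⟩
  · rw [isUnit_iff_res_ne_zero res hinv, not_not, hker]
    exact ⟨1, (mul_one t).symm⟩
  · intro a b hab
    by_cases ha : res a = 0
    · right
      obtain ⟨z, rfl⟩ := (hker a).1 ha
      have h1 : t * (z * b) = t * 1 := by rw [mul_one, ← mul_assoc, ← hab]
      have h2 : z * b = 1 := mul_left_cancel₀ ht h1
      exact IsUnit.of_mul_eq_one z (by rw [mul_comm]; exact h2)
    · left
      exact (isUnit_iff_res_ne_zero res hinv a).2 ha

/-- **A place-like subring is a DVR** (uniformiser `t`). -/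
theorem isDiscreteValuationRing_of_place {S : Subring L} (res : S →+* Fk) (t : S) (ht : t ≠ 0)
    (hker : ∀ x : S, res x = 0 ↔ ∃ z : S, x = t * z)
    (hinv : ∀ x : S, res x ≠ 0 → ((x : L))⁻¹ ∈ S)
    (hfin : ∀ x : S, x ≠ 0 → ∃ k : ℕ, ¬ ∃ z : S, x = t ^ k * z) :
    IsDiscreteValuationRing S := by
  apply IsDiscreteValuationRing.ofHasUnitMulPowIrreducibleFactorization
  refine ⟨t, irreducible_of_place res t ht hker hinv, ?_⟩
  intro x hx
  obtain ⟨k, hk⟩ := hfin x hx
  obtain ⟨n, u, hu, rfl⟩ := exists_eq_pow_mul_unit res t hker hinv x k hk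
  obtain ⟨u', rfl⟩ := hu
  exact ⟨n, ⟨u', rfl⟩⟩

/-- the maximal ideal of a place-like DVR is `(t)`. -/
theorem maximalIdeal_eq_span_of_place {S : Subring L} [IsLocalRing S] (res : S →+* Fk) (t : S)
    (hker : ∀ x : S, res x = 0 ↔ ∃ z : S, x = t * z)
    (hinv : ∀ x : S, res x ≠ 0 → ((x : L))⁻¹ ∈ S) :
    maximalIdeal S = Ideal.span {t} := by
  ext x
  rw [IsLocalRing.mem_maximalIdeal, mem_nonunits_iff, isUnit_iff_res_ne_zero res hinv, not_not,
    hker, Ideal.mem_span_singleton]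
  rfl

/-- a subring of a field containing `y` or `y⁻¹` for every `y` has that field as fraction field. -/
theorem isFractionRing_of_mem_or_inv_mem {S : Subring L}
    (h : ∀ y : L, y ∈ S ∨ y⁻¹ ∈ S) : IsFractionRing S L := by
  haveI : FaithfulSMul S L := (faithfulSMul_iff_algebraMap_injective S L).2 Subtype.val_injective
  apply IsFractionRing.of_field
  intro z
  rcases h z with hz | hz
  · exact ⟨⟨z, hz⟩, 1, by rw [map_one, div_one]; rfl⟩
  · by_cases hz0 : z = 0
    · exact ⟨0, 1, by rw [hz0, map_zero, zero_div]⟩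
    · refine ⟨1, ⟨z⁻¹, hz⟩, ?_⟩
      rw [map_one]
      change z = 1 / z⁻¹
      rw [one_div, inv_inv]

end Abstract

section Places

variable {O : Type*} [CommRing O] [IsDomain O] [IsDiscreteValuationRing O]
variable {K : Type*} [Field K] [Algebra O K] [IsFractionRing O K]
variable {L : Type*} [Field L] [Algebra O L] [Algebra K L] [IsScalarTower O K L]
variable {Fk : Type*} [Field Fk]

/-- For `x ≠ 0` algebraic over `K = Frac O` there is a polynomial over `O` with non-zero constant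
term vanishing at `x`. -/
theorem exists_poly_coeff_zero_ne_zero [Algebra.IsAlgebraic K L] {x : L} (hx : x ≠ 0) :
    ∃ p : O[X], p.coeff 0 ≠ 0 ∧ aeval x p = 0 := by
  have hOL : Function.Injective (algebraMap O L) := S28.H98.algebraMap_injective_of_tower K
  have halg : IsAlgebraic O x :=
    (IsFractionRing.isAlgebraic_iff O K L).2 (Algebra.IsAlgebraic.isAlgebraic x)
  obtain ⟨p, hp0, hpx⟩ := halg
  -- divide out the powers of `X`
  induction hn : p.natDegree using Nat.strong_induction_on generalizing p with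
  | _ n ih =>
    by_cases h0 : p.coeff 0 = 0
    · obtain ⟨p', rfl⟩ := Polynomial.X_dvd_iff.2 h0
      have hp'0 : p' ≠ 0 := by rintro rfl; exact hp0 (mul_zero _)
      have hp'x : aeval x p' = 0 := by
        rw [map_mul, aeval_X] at hpx
        exact (mul_eq_zero.1 hpx).resolve_left hx
      have hdeg : p'.natDegree < n := by
        rw [← hn, Polynomial.natDegree_X_mul hp'0]
        exact Nat.lt_succ_self _
      exact ih _ hdeg p' hp'0 hp'x rfl
    · exact ⟨p, h0, hpx⟩

/-- **no non-zero element of a place is divisible by all powers of `ϖ`**: abstract form. -/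
theorem not_forall_pow_dvd [Algebra.IsAlgebraic K L] {ϖ : O}
    (hϖ : maximalIdeal O = Ideal.span {ϖ}) (S : Subring L)
    (hO : ∀ a : O, algebraMap O L a ∈ S)
    (hϖS : (algebraMap O L ϖ)⁻¹ ∉ S) {x : L} (hxS : x ∈ S) (hx : x ≠ 0) :
    ∃ k : ℕ, ¬ ∃ z ∈ S, x = algebraMap O L ϖ ^ k * z := by
  have hOL : Function.Injective (algebraMap O L) := S28.H98.algebraMap_injective_of_tower K
  have hirr : Irreducible ϖ :=
    (IsDiscreteValuationRing.irreducible_iff_uniformizer ϖ).2 hϖ
  have hϖL : algebraMap O L ϖ ≠ 0 := fun h0 =>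
    hirr.ne_zero (hOL (by rw [h0, map_zero]))
  obtain ⟨p, hp0, hpx⟩ := exists_poly_coeff_zero_ne_zero (O := O) (K := K) hx
  obtain ⟨m, u, hu⟩ := IsDiscreteValuationRing.eq_unit_mul_pow_irreducible hp0 hirr
  refine ⟨m + 1, ?_⟩
  rintro ⟨z, hz, rfl⟩
  -- `p = X * p' + C (p.coeff 0)`
  obtain ⟨p', hp'⟩ : ∃ p' : O[X], p = X * p' + C (p.coeff 0) := by
    refine ⟨p.divX, ?_⟩
    rw [mul_comm]
    exact (Polynomial.divX_mul_X_add p).symm
  have hp'S : aeval (algebraMap O L ϖ ^ (m + 1) * z) p' ∈ S := by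
    rw [Polynomial.aeval_def, Polynomial.eval₂_eq_sum_range]
    refine Subring.sum_mem _ fun i _ => ?_
    exact Subring.mul_mem _ (hO _) (Subring.pow_mem _
      (Subring.mul_mem _ (Subring.pow_mem _ (hO ϖ) _) hz) _)
  rw [hp', map_add, map_mul, aeval_X, aeval_C, hu, map_mul, map_pow] at hpx
  -- `u ϖ^m = - ϖ^(m+1) z p'(..)`, cancel `ϖ^m`
  set w : L := aeval (algebraMap O L ϖ ^ (m + 1) * z) p' with hw
  have h1 : algebraMap O L ϖ ^ m * (algebraMap O L (u : O) + algebraMap O L ϖ * (z * w)) = 0 := by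
    rw [← hpx]; ring
  have h2 : algebraMap O L (u : O) + algebraMap O L ϖ * (z * w) = 0 :=
    (mul_eq_zero.1 h1).resolve_left (pow_ne_zero _ hϖL)
  -- so `ϖ⁻¹ = - u⁻¹ z w ∈ S`
  apply hϖS
  have hu1 : algebraMap O L (u : O) * algebraMap O L ((u⁻¹ : Oˣ) : O) = 1 := by
    rw [← map_mul, Units.mul_inv, map_one]
  have h3 : (algebraMap O L ϖ)⁻¹ = -(algebraMap O L ((u⁻¹ : Oˣ) : O) * (z * w)) := by
    rw [inv_eq_iff_eq_inv, ← one_div, eq_div_iff (by
      intro h0
      have : algebraMap O L ((u⁻¹ : Oˣ) : O) * (z * w) = 0 := neg_eq_zero.1 h0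
      have h4 : algebraMap O L ϖ * (z * w) = -algebraMap O L (u : O) := by
        rw [eq_neg_iff_add_eq_zero, add_comm]; exact h2
      have h5 : z * w = 0 := by
        rcases mul_eq_zero.1 this with h | h
        · exfalso
          rw [h, mul_zero] at hu1
          exact zero_ne_one hu1
        · exact h
      rw [h5, mul_zero] at h4
      have : algebraMap O L (u : O) = 0 := by rw [← neg_neg (algebraMap O L (u : O)), ← h4, neg_zero]
      rw [this, zero_mul] at hu1
      exact zero_ne_one hu1)]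
    have h4 : algebraMap O L ϖ * (z * w) = -algebraMap O L (u : O) := by
      rw [eq_neg_iff_add_eq_zero, add_comm]; exact h2
    calc algebraMap O L ϖ * -(algebraMap O L ((u⁻¹ : Oˣ) : O) * (z * w))
        = -(algebraMap O L ((u⁻¹ : Oˣ) : O) * (algebraMap O L ϖ * (z * w))) := by ring
      _ = algebraMap O L ((u⁻¹ : Oˣ) : O) * algebraMap O L (u : O) := by rw [h4]; ring
      _ = 1 := by rw [mul_comm]; exact hu1
  rw [h3]
  exact Subring.neg_mem _ (Subring.mul_mem _ (hO _) (Subring.mul_mem _ hz hp'S))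

end Places

section Instances

variable {O : Type*} [CommRing O] [IsDomain O] [IsDiscreteValuationRing O]
variable {K : Type*} [Field K] [Algebra O K] [IsFractionRing O K]
variable {L : Type*} [Field L] [Algebra O L] [Algebra K L] [IsScalarTower O K L]
variable {Fk : Type*} [Field Fk]
variable {ϖ : O} {θ τ : L} {n : ℕ} {ι : O →+* Fk} {θb : Fk}

/-- the uniformiser `ϖ` as an element of the place. -/
def unifOf (P : CA.H99.PlaceOver ϖ θ ι θb) : P.O1 := ⟨algebraMap O L ϖ, P.algebraMap_mem ϖ⟩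

theorem placeOver_hker (P : CA.H99.PlaceOver ϖ θ ι θb) (x : P.O1) :
    P.res1 x = 0 ↔ ∃ z : P.O1, x = unifOf P * z := by
  obtain ⟨y, hy⟩ := x
  rw [P.res1_eq_zero_iff y hy]
  constructor
  · rintro ⟨z, hz, rfl⟩
    exact ⟨⟨z, hz⟩, rfl⟩
  · rintro ⟨⟨z, hz⟩, h⟩
    exact ⟨z, hz, congrArg Subtype.val h⟩

theorem placeOver_hinv (P : CA.H99.PlaceOver ϖ θ ι θb) (x : P.O1) (hx : P.res1 x ≠ 0) :
    ((x : L))⁻¹ ∈ P.O1 := P.inv_mem x.1 x.2 hx

theorem placeOver_res1_unif (P : CA.H99.PlaceOver ϖ θ ι θb) : P.res1 (unifOf P) = 0 :=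
  (placeOver_hker P _).2 ⟨1, (mul_one _).symm⟩

theorem placeOver_unif_inv_not_mem (P : CA.H99.PlaceOver ϖ θ ι θb)
    (hϖL : algebraMap O L ϖ ≠ 0) : (algebraMap O L ϖ)⁻¹ ∉ P.O1 := by
  intro hmem
  have h1 : unifOf P * ⟨(algebraMap O L ϖ)⁻¹, hmem⟩ = 1 := by
    apply Subtype.ext
    change algebraMap O L ϖ * (algebraMap O L ϖ)⁻¹ = 1
    exact mul_inv_cancel₀ hϖL
  have h2 := congrArg P.res1 h1
  rw [map_mul, placeOver_res1_unif, zero_mul, map_one] at h2
  exact zero_ne_one h2

/-- **brick (ii)**: a `PlaceOver` over a DVR (with `L / K` algebraic) is a DVR. -/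
theorem isDiscreteValuationRing_placeOver [Algebra.IsAlgebraic K L]
    (hϖ : maximalIdeal O = Ideal.span {ϖ}) (P : CA.H99.PlaceOver ϖ θ ι θb) :
    IsDiscreteValuationRing P.O1 := by
  have hOL : Function.Injective (algebraMap O L) := S28.H98.algebraMap_injective_of_tower K
  have hirr : Irreducible ϖ :=
    (IsDiscreteValuationRing.irreducible_iff_uniformizer ϖ).2 hϖ
  have hϖL : algebraMap O L ϖ ≠ 0 := fun h0 =>
    hirr.ne_zero (hOL (by rw [h0, map_zero]))
  refine isDiscreteValuationRing_of_place P.res1 (unifOf P)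
    (fun h0 => hϖL (congrArg Subtype.val h0)) (placeOver_hker P) (placeOver_hinv P) ?_
  rintro ⟨x, hxS⟩ hx
  have hx0 : x ≠ 0 := fun h0 => hx (Subtype.ext h0)
  obtain ⟨k, hk⟩ := not_forall_pow_dvd (K := K) hϖ P.O1 P.algebraMap_mem
    (placeOver_unif_inv_not_mem P hϖL) hxS hx0
  refine ⟨k, ?_⟩
  rintro ⟨⟨z, hz⟩, h⟩
  exact hk ⟨z, hz, congrArg Subtype.val h⟩

/-- its maximal ideal is generated by `ϖ`. -/
theorem maximalIdeal_placeOver (P : CA.H99.PlaceOver ϖ θ ι θb) [IsLocalRing P.O1] :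
    maximalIdeal P.O1 = Ideal.span {unifOf P} :=
  maximalIdeal_eq_span_of_place P.res1 (unifOf P) (placeOver_hker P) (placeOver_hinv P)

/-- its fraction field is `L`. -/
theorem isFractionRing_placeOver (P : CA.H99.PlaceOver ϖ θ ι θb) : IsFractionRing P.O1 L :=
  isFractionRing_of_mem_or_inv_mem P.mem_or_inv_mem

/-! ### the ramified sibling -/

/-- the uniformiser `τ` as an element of the ramified place. -/
def tauOf (P : PlaceOverRam ϖ θ τ n ι θb) : P.O1 := ⟨τ, P.τ_mem⟩

theorem placeOverRam_hker (P : PlaceOverRam ϖ θ τ n ι θb) (x : P.O1) :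
    P.res1 x = 0 ↔ ∃ z : P.O1, x = tauOf P * z := by
  obtain ⟨y, hy⟩ := x
  rw [P.res1_eq_zero_iff y hy]
  constructor
  · rintro ⟨z, hz, rfl⟩
    exact ⟨⟨z, hz⟩, rfl⟩
  · rintro ⟨⟨z, hz⟩, h⟩
    exact ⟨z, hz, congrArg Subtype.val h⟩

theorem placeOverRam_hinv (P : PlaceOverRam ϖ θ τ n ι θb) (x : P.O1) (hx : P.res1 x ≠ 0) :
    ((x : L))⁻¹ ∈ P.O1 := P.inv_mem x.1 x.2 hx

/-- **brick (ii), ramified**: a `PlaceOverRam` over a DVR (with `L / K` algebraic, `0 < n`) is a DVR
with uniformiser `τ`. -/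
theorem isDiscreteValuationRing_placeOverRam [Algebra.IsAlgebraic K L]
    (hϖ : maximalIdeal O = Ideal.span {ϖ}) (hn : 0 < n) (P : PlaceOverRam ϖ θ τ n ι θb) :
    IsDiscreteValuationRing P.O1 := by
  have hOL : Function.Injective (algebraMap O L) := S28.H98.algebraMap_injective_of_tower K
  have hirr : Irreducible ϖ :=
    (IsDiscreteValuationRing.irreducible_iff_uniformizer ϖ).2 hϖ
  have hϖL : algebraMap O L ϖ ≠ 0 := fun h0 =>
    hirr.ne_zero (hOL (by rw [h0, map_zero]))
  obtain ⟨u, hu, hui, huτ⟩ := P.unif_eq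
  have hτ0 : τ ≠ 0 := by
    rintro rfl
    rw [zero_pow hn.ne', mul_zero] at huτ
    exact hϖL huτ
  have hu0 : u ≠ 0 := by
    rintro rfl
    rw [zero_mul] at huτ
    exact hϖL huτ
  -- `τ` is not a unit, hence `ϖ⁻¹ ∉ O1`
  have hτres : P.res1 (tauOf P) = 0 := (placeOverRam_hker P _).2 ⟨1, (mul_one _).symm⟩
  have hϖinv : (algebraMap O L ϖ)⁻¹ ∉ P.O1 := by
    intro hmem
    obtain ⟨m, rfl⟩ : ∃ m, n = m + 1 := ⟨n - 1, by omega⟩
    have h1 : tauOf P * (⟨u, hu⟩ * tauOf P ^ m * ⟨(algebraMap O L ϖ)⁻¹, hmem⟩) = 1 := by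
      apply Subtype.ext
      change τ * (u * τ ^ m * (algebraMap O L ϖ)⁻¹) = 1
      have h3 : τ * (u * τ ^ m) = algebraMap O L ϖ := by rw [huτ, pow_succ]; ring
      rw [← mul_assoc, h3]
      exact mul_inv_cancel₀ hϖL
    have h2 := congrArg P.res1 h1
    rw [map_mul, hτres, zero_mul, map_one] at h2
    exact zero_ne_one h2
  refine isDiscreteValuationRing_of_place P.res1 (tauOf P)
    (fun h0 => hτ0 (congrArg Subtype.val h0)) (placeOverRam_hker P) (placeOverRam_hinv P) ?_
  rintro ⟨x, hxS⟩ hx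
  have hx0 : x ≠ 0 := fun h0 => hx (Subtype.ext h0)
  obtain ⟨k, hk⟩ := not_forall_pow_dvd (K := K) hϖ P.O1 P.algebraMap_mem hϖinv hxS hx0
  refine ⟨n * k, ?_⟩
  rintro ⟨⟨z, hz⟩, h⟩
  apply hk
  refine ⟨u⁻¹ ^ k * z, Subring.mul_mem _ (Subring.pow_mem _ hui _) hz, ?_⟩
  have h' : x = τ ^ (n * k) * z := congrArg Subtype.val h
  rw [h', huτ, mul_pow, ← pow_mul, inv_pow]
  field_simp

theorem maximalIdeal_placeOverRam (P : PlaceOverRam ϖ θ τ n ι θb) [IsLocalRing P.O1] :
    maximalIdeal P.O1 = Ideal.span {tauOf P} :=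
  maximalIdeal_eq_span_of_place P.res1 (tauOf P) (placeOverRam_hker P) (placeOverRam_hinv P)

theorem isFractionRing_placeOverRam (P : PlaceOverRam ϖ θ τ n ι θb) : IsFractionRing P.O1 L :=
  isFractionRing_of_mem_or_inv_mem P.mem_or_inv_mem

end Instances

end Fermat.Agent.S36.H6
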