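import Mathlib
import Fermat.Agent.S34.H55_L0Base
import Fermat.Agent.S36.H6_PlaceDVR
import Fermat.Agent.S36.H6_ThreePlacesJN

/-!
S36 / (M1)(b) (helper6): the level-`q²` step AT THE REAL TYPES, over BOTH base rings.

Vocabulary of `S34.H55_L0Base` at the level pair `(M, ℓ) := (L, q)`, `q ∤ L`:
`F0 = FullC L₁ L`, `F1 = FullC L₁ (q * L)`, `F2 = FullC L₁ (q * (q * L))`, bottom places
`P : S34.H55.PlaceGen L hqL A hA ι' θb` (in particular `PlaceInf`, `PlaceZero`), `O := PO1 .. P`.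

* `isDiscreteValuationRing_PO1`, `isFractionRing_PO1`, `charP_residueField_PO1`,
  `maximalIdeal_PO1` : `O` is a DVR of `F1` with uniformiser `q`, residue characteristic `q`;
* `algO1F2 P : Algebra O F2` (`= (iotaMN (q * L)).comp O.subtype`), `isScalarTower_O1F2`;
* `vO P`, `wO P : O` (`v = j_{qL}`, `w = j_L`), `phiO P : ℤ[X] →+* O` (`X ↦ v`), their residues;
* `three_places_over_inf` : over `PlaceInf`: the Eisenstein place `PC` (`e = q - 1`) and the
  unramified place `PB`, and nothing else (the q-expansion CLAIM `hder` is a named hypothesis);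
* `three_places_over_zero` : over `PlaceZero`: exactly one place `PA` (`e = 1`, `f = q`).
-/

set_option autoImplicit false
set_option linter.unusedSectionVars false
set_option linter.style.haveILetI false
set_option synthInstance.maxHeartbeats 400000

noncomputable section

namespace Fermat.Agent.S36.H6

open ModularCurve Polynomial IsLocalRing Fermat.Agent.S28
open Fermat.Agent.S18 Fermat.Agent.S34.H92 Fermat.Agent.S34.H16 Fermat.Agent.S34.H55

local notation "Qbar" => AlgebraicClosure ℚ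

section L0

variable (L : ℕ) [NeZero L] {q : ℕ} [hq : Fact q.Prime] (hqL : ¬ q ∣ L)
  (A : ValuationSubring Qbar) (hA : A.LiesOverPrime q)

local notation "kA" => IsLocalRing.ResidueField A
local notation "L₁" => H45.unrCyclo q
local notation "F0" => modularFunctionFieldFullC (H45.unrCyclo q) L
local notation "F1" => modularFunctionFieldFullC (H45.unrCyclo q) (q * L)
local notation "F2" => modularFunctionFieldFullC (H45.unrCyclo q) (q * (q * L))
local notation "V" => VM L hqL A hA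

variable {ι' : ↥(VM L hqL A hA) →+* LaurentSeries (IsLocalRing.ResidueField A)}
  {θb : LaurentSeries (IsLocalRing.ResidueField A)}
  (P : PlaceGen L hqL A hA ι' θb)

/-- shortcut instance (the generic search takes 7 s). -/
instance (priority := 2000) algebraPO1F1 :
    Algebra ↥(PO1 L hqL A hA P) ↥(modularFunctionFieldFullC (↥(H45.unrCyclo q)) (q * L)) :=
  Algebra.ofSubsemiring (PO1 L hqL A hA P).toSubsemiring

/-! ### `O := PO1 P` is a DVR of `F1` with uniformiser `q` -/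

include hqL in
theorem isAlgebraic_F0F1 :
    letI := degAlgebra L₁ L (q * L) (dvd_level L)
    Algebra.IsAlgebraic F0 F1 := by
  letI := degAlgebra L₁ L (q * L) (dvd_level L)
  haveI := finiteDimensional_fullC_prime L₁ L (q * L) (dvd_level L) q hq.out hqL rfl
    (natCast_level_ne_zero L)
  exact Algebra.IsAlgebraic.of_finite F0 F1

theorem isDiscreteValuationRing_PO1 : IsDiscreteValuationRing ↥(PO1 L hqL A hA P) := by
  letI := degAlgebra L₁ L (q * L) (dvd_level L)
  letI := algebraVMFN L hqL A hA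
  haveI := isDiscreteValuationRing_VM L hqL A hA
  haveI := isScalarTower_VMFN L hqL A hA
  haveI := isAlgebraic_F0F1 L hqL
  exact isDiscreteValuationRing_placeOver (K := F0) (maximalIdeal_VM L hqL A hA) P

theorem isFractionRing_PO1 : IsFractionRing ↥(PO1 L hqL A hA P) F1 := by
  letI := algebraVMFN L hqL A hA
  haveI := isDiscreteValuationRing_VM L hqL A hA
  exact isFractionRing_placeOver P

theorem natCast_PO1 : (((q : ℕ) : ↥(PO1 L hqL A hA P)) : F1) = ((q : ℕ) : F1) := by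
  push_cast; rfl

theorem unifOf_eq_natCast :
    letI := algebraVMFN L hqL A hA
    haveI := isDiscreteValuationRing_VM L hqL A hA
    (unifOf P : ↥(PO1 L hqL A hA P)) = ((q : ℕ) : ↥(PO1 L hqL A hA P)) := by
  letI := algebraVMFN L hqL A hA
  haveI := isDiscreteValuationRing_VM L hqL A hA
  apply Subtype.ext
  change algebraMap ↥V F1 ((q : ℕ) : ↥V) = _
  rw [map_natCast]
  rfl

theorem maximalIdeal_PO1 :
    haveI := isDiscreteValuationRing_PO1 L hqL A hA P
    maximalIdeal ↥(PO1 L hqL A hA P) = Ideal.span {((q : ℕ) : ↥(PO1 L hqL A hA P))} := by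
  haveI := isDiscreteValuationRing_PO1 L hqL A hA P
  letI := algebraVMFN L hqL A hA
  haveI := isDiscreteValuationRing_VM L hqL A hA
  haveI : IsDiscreteValuationRing ↥P.O1 := isDiscreteValuationRing_PO1 L hqL A hA P
  rw [← unifOf_eq_natCast L hqL A hA P]
  exact maximalIdeal_placeOver P

theorem Pres1_natCast : Pres1 L hqL A hA P ((q : ℕ) : ↥(PO1 L hqL A hA P)) = 0 := by
  letI := algebraVMFN L hqL A hA
  haveI := isDiscreteValuationRing_VM L hqL A hA
  rw [← unifOf_eq_natCast L hqL A hA P]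
  exact placeOver_res1_unif P

theorem charP_residueField_PO1 :
    haveI := isDiscreteValuationRing_PO1 L hqL A hA P
    CharP (ResidueField ↥(PO1 L hqL A hA P)) q := by
  haveI := isDiscreteValuationRing_PO1 L hqL A hA P
  rw [CharP.charP_iff_prime_eq_zero hq.out]
  have h : ((q : ℕ) : ↥(PO1 L hqL A hA P)) ∈ maximalIdeal ↥(PO1 L hqL A hA P) := by
    rw [maximalIdeal_PO1 L hqL A hA P]
    exact Ideal.mem_span_singleton_self _
  have h2 : residue ↥(PO1 L hqL A hA P) ((q : ℕ) : ↥(PO1 L hqL A hA P)) = 0 :=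
    (residue_eq_zero_iff _).2 h
  rwa [map_natCast] at h2

/-- an element with zero residue is a multiple of `q`. -/
theorem exists_eq_natCast_mul_of_Pres1_eq_zero (x : ↥(PO1 L hqL A hA P))
    (hx : Pres1 L hqL A hA P x = 0) :
    ∃ δ : ↥(PO1 L hqL A hA P), x = ((q : ℕ) : ↥(PO1 L hqL A hA P)) * δ := by
  letI := algebraVMFN L hqL A hA
  haveI := isDiscreteValuationRing_VM L hqL A hA
  obtain ⟨z, hz⟩ := (placeOver_hker P x).1 hx
  exact ⟨z, by rw [hz, unifOf_eq_natCast L hqL A hA P]; rfl⟩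

/-- an element with non-zero residue is a unit. -/
theorem isUnit_of_Pres1_ne_zero (x : ↥(PO1 L hqL A hA P))
    (hx : Pres1 L hqL A hA P x ≠ 0) : IsUnit x := by
  letI := algebraVMFN L hqL A hA
  haveI := isDiscreteValuationRing_VM L hqL A hA
  exact (isUnit_iff_res_ne_zero P.res1 (placeOver_hinv P) x).2 hx

/-! ### the algebra `O → F2` -/

/-- `O ⊆ F1 ⊆ F2` (helper55's pinned `algPO1F2`, same term). -/
abbrev algO1F2 : Algebra ↥(PO1 L hqL A hA P) F2 :=
  ((iotaMN (q * L) (ℓ := q)).comp (PO1 L hqL A hA P).subtype).toAlgebra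

theorem isScalarTower_O1F2 :
    letI := degAlgebra L₁ (q * L) (q * (q * L)) (dvd_level (q * L))
    letI := algO1F2 L hqL A hA P
    @IsScalarTower ↥(PO1 L hqL A hA P) F1 F2 Algebra.toSMul Algebra.toSMul Algebra.toSMul := by
  letI := degAlgebra L₁ (q * L) (q * (q * L)) (dvd_level (q * L))
  letI := algO1F2 L hqL A hA P
  refine @IsScalarTower.of_algebraMap_eq ↥(PO1 L hqL A hA P) F1 F2 _ _ _ _ _ _ (fun x => ?_)
  rfl

/-! ### the elements `v = j_{qL}`, `w = j_L` of `O` -/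

/-- `v = j_{qL} ∈ O`. -/
def vO : ↥(PO1 L hqL A hA P) := ⟨S18.H16.jNK L₁ (q * L), (jN_mem L hqL A hA P).1⟩

/-- `w = j_L ∈ O`. -/
def wO : ↥(PO1 L hqL A hA P) :=
  ⟨iotaMN L (ℓ := q) (S18.H16.jNK L₁ L), (iotaMN_mem L hqL A hA P _ (jMV L hqL A hA).2).1⟩

theorem Pres1_vO : Pres1 L hqL A hA P (vO L hqL A hA P) = θb := (jN_mem L hqL A hA P).2

theorem Pres1_wO : Pres1 L hqL A hA P (wO L hqL A hA P) = ι' (jMV L hqL A hA) :=
  (iotaMN_mem L hqL A hA P _ (jMV L hqL A hA).2).2

/-- `ℤ[X] → O`, `X ↦ v`. -/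
def phiO : ℤ[X] →+* ↥(PO1 L hqL A hA P) :=
  (Polynomial.aeval (R := ℤ) (vO L hqL A hA P)).toRingHom

theorem phiO_X : phiO L hqL A hA P X = vO L hqL A hA P := by
  simp [phiO]

theorem algebraMap_phiO_X :
    algebraMap ↥(PO1 L hqL A hA P) F1 (phiO L hqL A hA P X) = S18.H16.jNK L₁ (q * L) := by
  rw [phiO_X]
  rfl

theorem algebraMap_wO :
    algebraMap ↥(PO1 L hqL A hA P) F1 (wO L hqL A hA P) =
      S18.H99.jdK L₁ (q * L) L (dvd_level L) :=
  degAlgebra_algebraMap_jNK L₁ L (q * L) (dvd_level L)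

theorem natCast_level2_ne_zero : (((q * (q * L) : ℕ) : ℕ) : L₁) ≠ 0 :=
  Nat.cast_ne_zero.2 (NeZero.ne (q * (q * L)))

/-- the embedding of the residue field of `O` into `kA((t))` induced by `Pres1`. -/
def rhoO1 : (haveI := isDiscreteValuationRing_PO1 L hqL A hA P
    ResidueField ↥(PO1 L hqL A hA P)) →+* LaurentSeries (IsLocalRing.ResidueField A) :=
  haveI := isDiscreteValuationRing_PO1 L hqL A hA P
  CA.H99.resLift (maximalIdeal_PO1 L hqL A hA P) (Pres1 L hqL A hA P)
    (Pres1_natCast L hqL A hA P)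

theorem rhoO1_residue (y : ↥(PO1 L hqL A hA P)) :
    haveI := isDiscreteValuationRing_PO1 L hqL A hA P
    rhoO1 L hqL A hA P (residue ↥(PO1 L hqL A hA P) y) = Pres1 L hqL A hA P y := rfl

theorem order_resM_jMV :
    (resM L hqL A hA (jMV L hqL A hA)).order = -(L : ℤ) := by
  rw [resM_jMV, S28.H39.order_qExpand, S28.H39.order_jqModC]
  ring

/-! ### Over `PlaceInf`: the Eisenstein place `PC` and the unramified place `PB` -/

set_option maxHeartbeats 1600000 in
/-- **(M1), over `PlaceInf`**: `F2` has exactly two places over `O_i = PO1 Pi`: the Eisenstein place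
`PC` (`e = q - 1`, uniformiser `j_{q²L} - j_L`, residues `(w, v, u) ↦ (x, x^q, x)`) and the unramified
place `PB` (`(w, v, u) ↦ (x, x^q, x^(q²))`), `x = j̄_L`.  The q-expansion CLAIM
`Φ_X'(v, w) = q · unit` is the named hypothesis `hder`. -/
theorem three_places_over_inf (D : ModularPolynomialData q)
    (hD : ∀ (k : Type) [Field k] (ζ : kˣ), IsPrimitiveRoot ζ q → RootsAt k q ζ D.Φ)
    (Pi : PlaceInf L hqL A hA)
    (c : ↥(PO1 L hqL A hA Pi)) (hc : IsUnit c)
    (hder : (derivative (D.Φ.map (phiO L hqL A hA Pi))).eval (wO L hqL A hA Pi) =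
      ((q : ℕ) : ↥(PO1 L hqL A hA Pi)) * c) :
    letI := algO1F2 L hqL A hA Pi
    ∃ (PC : PlaceOverRam (L := F2) ((q : ℕ) : ↥(PO1 L hqL A hA Pi))
        (S18.H16.jNK L₁ (q * (q * L)))
        (S18.H16.jNK L₁ (q * (q * L)) - algebraMap ↥(PO1 L hqL A hA Pi) F2 (wO L hqL A hA Pi))
        (q - 1) (Pres1 L hqL A hA Pi) (Pres1 L hqL A hA Pi (wO L hqL A hA Pi)))
      (PB : CA.H99.PlaceOver (L := F2) ((q : ℕ) : ↥(PO1 L hqL A hA Pi))
        (S18.H16.jNK L₁ (q * (q * L))) (Pres1 L hqL A hA Pi)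
        ((resM L hqL A hA (jMV L hqL A hA) ^ q) ^ q)),
      ∀ W : ValuationSubring F2,
        (∀ a : ↥(PO1 L hqL A hA Pi), algebraMap ↥(PO1 L hqL A hA Pi) F2 a ∈ W) →
        algebraMap ↥(PO1 L hqL A hA Pi) F2 ((q : ℕ) : ↥(PO1 L hqL A hA Pi)) ∈ W.nonunits →
        W.toSubring = PC.O1 ∨ W.toSubring = PB.O1 := by
  letI := algO1F2 L hqL A hA Pi
  haveI := isDiscreteValuationRing_PO1 L hqL A hA Pi
  haveI := isFractionRing_PO1 L hqL A hA Pi
  haveI := charP_residueField_PO1 L hqL A hA Pi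
  -- `w^q ≡ v`
  obtain ⟨δ, hδ⟩ := exists_eq_natCast_mul_of_Pres1_eq_zero L hqL A hA Pi
    (wO L hqL A hA Pi ^ q - phiO L hqL A hA Pi X)
    (by rw [map_sub, map_pow, Pres1_wO, phiO_X, Pres1_vO, sub_self])
  -- `w - v^q` is a unit
  have hunit : IsUnit (wO L hqL A hA Pi - phiO L hqL A hA Pi X ^ q) := by
    apply isUnit_of_Pres1_ne_zero
    rw [map_sub, map_pow, Pres1_wO, phiO_X, Pres1_vO, ← pow_mul, sub_ne_zero]
    refine (S34.H6.pow_ne_self_of_order q hq.out.two_le (RingHom.id _) _ ?_).symm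
    rw [RingHom.id_apply, order_resM_jMV, neg_ne_zero]
    exact_mod_cast NeZero.ne L
  have key : ∀ θB : LaurentSeries kA,
      θB = Pres1 L hqL A hA Pi (phiO L hqL A hA Pi X) ^ q →
      ∃ (PC : PlaceOverRam (L := F2) ((q : ℕ) : ↥(PO1 L hqL A hA Pi))
        (S18.H16.jNK L₁ (q * (q * L)))
        (S18.H16.jNK L₁ (q * (q * L)) - algebraMap ↥(PO1 L hqL A hA Pi) F2 (wO L hqL A hA Pi))
        (q - 1) (Pres1 L hqL A hA Pi) (Pres1 L hqL A hA Pi (wO L hqL A hA Pi)))
      (PB : CA.H99.PlaceOver (L := F2) ((q : ℕ) : ↥(PO1 L hqL A hA Pi))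
        (S18.H16.jNK L₁ (q * (q * L))) (Pres1 L hqL A hA Pi) θB),
      ∀ W : ValuationSubring F2,
        (∀ a : ↥(PO1 L hqL A hA Pi), algebraMap ↥(PO1 L hqL A hA Pi) F2 a ∈ W) →
        algebraMap ↥(PO1 L hqL A hA Pi) F2 ((q : ℕ) : ↥(PO1 L hqL A hA Pi)) ∈ W.nonunits →
        W.toSubring = PC.O1 ∨ W.toSubring = PB.O1 := by
    intro θB hθB
    subst hθB
    exact places_caseV L₁ L (q * L) (q * (q * L)) (dvd_level L) (dvd_level (q * L)) q rfl rfl
      (natCast_level2_ne_zero L) D hD (isScalarTower_O1F2 L hqL A hA Pi)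
      (phiO L hqL A hA Pi) (algebraMap_phiO_X L hqL A hA Pi) (wO L hqL A hA Pi)
      (algebraMap_wO L hqL A hA Pi) (maximalIdeal_PO1 L hqL A hA Pi) δ hδ c hc hder hunit
      (Pres1 L hqL A hA Pi) (Pres1_natCast L hqL A hA Pi)
  exact key _ (by rw [phiO_X, Pres1_vO])

/-! ### Over `PlaceZero`: the inert place `PA` -/

set_option maxHeartbeats 1600000 in
/-- **(M1), over `PlaceZero`**: `F2` has exactly ONE place over `O_0 = PO1 P0`: `PA`, `e = 1`,
`f = q` (purely inseparable), residues `(w, v, u) ↦ (x^(q²), x^q, x)`, `x = j̄_L`, for the reduction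
`ι_A = (t ↦ t^q) ∘ Pres1 P0`. -/
theorem three_places_over_zero (D : ModularPolynomialData q)
    (hD : ∀ (k : Type) [Field k] (ζ : kˣ), IsPrimitiveRoot ζ q → RootsAt k q ζ D.Φ)
    (P0 : PlaceZero L hqL A hA) :
    letI := algO1F2 L hqL A hA P0
    ∃ PA : CA.H99.PlaceOver (L := F2) ((q : ℕ) : ↥(PO1 L hqL A hA P0))
        (S18.H16.jNK L₁ (q * (q * L))) ((qExpand kA q).comp (Pres1 L hqL A hA P0))
        (resM L hqL A hA (jMV L hqL A hA)),
      ∀ W : ValuationSubring F2,
        (∀ a : ↥(PO1 L hqL A hA P0), algebraMap ↥(PO1 L hqL A hA P0) F2 a ∈ W) →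
        algebraMap ↥(PO1 L hqL A hA P0) F2 ((q : ℕ) : ↥(PO1 L hqL A hA P0)) ∈ W.nonunits →
        W.toSubring = PA.O1 := by
  letI := algO1F2 L hqL A hA P0
  haveI := isDiscreteValuationRing_PO1 L hqL A hA P0
  haveI := isFractionRing_PO1 L hqL A hA P0
  haveI := charP_residueField_PO1 L hqL A hA P0
  -- `w ≡ v^q`
  obtain ⟨δ, hδ⟩ := exists_eq_natCast_mul_of_Pres1_eq_zero L hqL A hA P0
    (wO L hqL A hA P0 - phiO L hqL A hA P0 X ^ q)
    (by rw [map_sub, map_pow, Pres1_wO, phiO_X, Pres1_vO, iotaZero_apply, qExpand_resM_jMV,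
      sub_self])
  -- `v̄` is not a `q`-th power
  have hnp : ∀ b : ResidueField ↥(PO1 L hqL A hA P0),
      b ^ q ≠ residue ↥(PO1 L hqL A hA P0) (phiO L hqL A hA P0 X) := by
    refine S34.H6.pow_ne_of_order q (rhoO1 L hqL A hA P0) _ ?_
    rw [rhoO1_residue, phiO_X, Pres1_vO, order_resM_jMV, dvd_neg]
    exact_mod_cast hqL
  exact places_caseF L₁ L (q * L) (q * (q * L)) (dvd_level L) (dvd_level (q * L)) q rfl rfl
    (natCast_level2_ne_zero L) D hD (isScalarTower_O1F2 L hqL A hA P0)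
    (phiO L hqL A hA P0) (algebraMap_phiO_X L hqL A hA P0) (wO L hqL A hA P0)
    (algebraMap_wO L hqL A hA P0) (maximalIdeal_PO1 L hqL A hA P0) δ hδ hnp
    ((qExpand kA q).comp (Pres1 L hqL A hA P0))
    (by rw [RingHom.comp_apply, Pres1_natCast, map_zero])
    (resM L hqL A hA (jMV L hqL A hA))
    (by rw [RingHom.comp_apply, phiO_X, Pres1_vO, qExpand_resM_jMV])

end L0

end Fermat.Agent.S36.H6
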