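import Mathlib
import Fermat.Agent.S36.H16_TowerValPlaces
import Fermat.Agent.S36.H16_ThreePlacesJV
import Fermat.Agent.S36.H6_L0ThreePoly
import Fermat.Agent.S36.H18_Geo36Base

/-!
S36 / (E5) → (E6), row (r3) (helper16): **the tower datum `TowerValU` of the INCLUSION
`α : F₁ → F₂` at the `L₁ = unrCyclo q` level**, for the three places `PB PC PA` of (M1)
(helper6's `S36.H6.three_places_over_inf(_final)` / `three_places_over_zero`, helper55's
`S36.H55.PlaceB / PlaceC / PlaceA`), hypothesis-free.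

`F₁ = FullC L₁ (q L)`, `F₂ = FullC L₁ (q (q L))`, bottom places `Pi : PlaceInf`, `P0 : PlaceZero`;
`PB` (`e = f = 1`) and `PC` (`e = q - 1`) over `PO1 Pi`, `PA` (`e = 1`, `f = q`) over `PO1 P0`.
For ANY valuation subrings with these rings:

  `TowerValU (alphaK L₁ (qL) (q(qL))) (normAlphaK L₁ (qL) (q(qL))) q V_B V_C V_A W_i W_0`.
-/

set_option autoImplicit false
set_option linter.unusedSectionVars false
set_option linter.style.haveILetI false
set_option synthInstance.maxHeartbeats 400000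

noncomputable section

namespace Fermat.Agent.S36.H16

open ModularCurve Polynomial IsLocalRing Fermat.Agent.S28
open Fermat.Agent.S18 Fermat.Agent.S34.H92 Fermat.Agent.S34.H16 Fermat.Agent.S34.H55
open Fermat.Agent.S36.H6 Fermat.Agent.S36.H46

local notation "Qbar" => AlgebraicClosure ℚ

section L0

variable (L : ℕ) [NeZero L] {q : ℕ} [hq : Fact q.Prime] (hqL : ¬ q ∣ L)
  (A : ValuationSubring Qbar) (hA : A.LiesOverPrime q)

local notation "kA" => IsLocalRing.ResidueField A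
local notation "L₁" => H45.unrCyclo q
local notation "F1" => modularFunctionFieldFullC (H45.unrCyclo q) (q * L)
local notation "F2" => modularFunctionFieldFullC (H45.unrCyclo q) (q * (q * L))

/-- `(algebraMap (PO1 P) F₁).range = PO1 P`. -/
theorem range_algebraMap_PO1
    {ι' : ↥(VM L hqL A hA) →+* LaurentSeries (IsLocalRing.ResidueField A)}
    {θb : LaurentSeries (IsLocalRing.ResidueField A)} (P : PlaceGen L hqL A hA ι' θb) :
    (algebraMap ↥(PO1 L hqL A hA P) F1).range = PO1 L hqL A hA P := by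
  ext x
  constructor
  · rintro ⟨y, rfl⟩
    exact y.2
  · intro hx
    exact ⟨⟨x, hx⟩, rfl⟩

set_option maxHeartbeats 3200000 in
/-- **The `α`-side tower datum at the `L₁`-level.** -/
theorem towerValU_alpha_real (D : ModularPolynomialData q)
    (hD : ∀ (k : Type) [Field k] (ζ : kˣ), IsPrimitiveRoot ζ q → RootsAt k q ζ D.Φ)
    (Pi : PlaceInf L hqL A hA) (P0 : PlaceZero L hqL A hA) :
    letI := algO1F2 L hqL A hA Pi
    letI := algO1F2 L hqL A hA P0
    ∀ {τ : F2} {θB : LaurentSeries kA}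
      (_ : θB = Pres1 L hqL A hA Pi (phiO L hqL A hA Pi X) ^ q)
      (PC : PlaceOverRam (L := F2) ((q : ℕ) : ↥(PO1 L hqL A hA Pi))
        (S18.H16.jNK L₁ (q * (q * L))) τ (q - 1) (Pres1 L hqL A hA Pi)
        (Pres1 L hqL A hA Pi (wO L hqL A hA Pi)))
      (PB : CA.H99.PlaceOver (L := F2) ((q : ℕ) : ↥(PO1 L hqL A hA Pi))
        (S18.H16.jNK L₁ (q * (q * L))) (Pres1 L hqL A hA Pi) θB)
      (PA : CA.H99.PlaceOver (L := F2) ((q : ℕ) : ↥(PO1 L hqL A hA P0))
        (S18.H16.jNK L₁ (q * (q * L))) ((qExpand kA q).comp (Pres1 L hqL A hA P0))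
        (resM L hqL A hA (jMV L hqL A hA)))
      (Vs Vm Vi : ValuationSubring F2) (_ : Vs.toSubring = PB.O1) (_ : Vm.toSubring = PC.O1)
      (_ : Vi.toSubring = PA.O1)
      (Ws Wi : ValuationSubring F1) (_ : Ws.toSubring = PO1 L hqL A hA Pi)
      (_ : Wi.toSubring = PO1 L hqL A hA P0),
      TowerValU (H18.alphaK L₁ (q * L) (q * (q * L)) (dvd_level (q * L)))
        (H18.normAlphaK L₁ (q * L) (q * (q * L)) (dvd_level (q * L))) q Vs Vm Vi Ws Wi := by
  letI := algO1F2 L hqL A hA Pi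
  letI := algO1F2 L hqL A hA P0
  intro τ θB hθB PC PB PA Vs Vm Vi hVs hVm hVi Ws Wi hWs hWi
  letI := degAlgebra L₁ (q * L) (q * (q * L)) (dvd_level (q * L))
  haveI := isDiscreteValuationRing_PO1 L hqL A hA Pi
  haveI := isFractionRing_PO1 L hqL A hA Pi
  haveI := charP_residueField_PO1 L hqL A hA Pi
  haveI := isDiscreteValuationRing_PO1 L hqL A hA P0
  haveI := isFractionRing_PO1 L hqL A hA P0
  haveI := charP_residueField_PO1 L hqL A hA P0
  haveI tI := isScalarTower_O1F2 L hqL A hA Pi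
  haveI t0 := isScalarTower_O1F2 L hqL A hA P0
  have hqp : q.Prime := hq.out
  haveI : FiniteDimensional F1 F2 :=
    finiteDimensional_fullC_prime_dvd L₁ (q * L) (q * (q * L)) (dvd_level (q * L)) q hqp
      (dvd_mul_right q L) rfl (natCast_level2_ne_zero L)
  -- over `Pi`: `w^q ≡ v`, `w - v^q` a unit
  obtain ⟨δi, hδi⟩ := exists_eq_natCast_mul_of_Pres1_eq_zero L hqL A hA Pi
    (wO L hqL A hA Pi ^ q - phiO L hqL A hA Pi X)
    (by rw [map_sub, map_pow, Pres1_wO, phiO_X, Pres1_vO, sub_self])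
  have hunit : IsUnit (wO L hqL A hA Pi - phiO L hqL A hA Pi X ^ q) := by
    apply isUnit_of_Pres1_ne_zero
    rw [map_sub, map_pow, Pres1_wO, phiO_X, Pres1_vO, ← pow_mul, sub_ne_zero]
    refine (S34.H6.pow_ne_self_of_order q hq.out.two_le (RingHom.id _) _ ?_).symm
    rw [RingHom.id_apply, order_resM_jMV, neg_ne_zero]
    exact_mod_cast NeZero.ne L
  -- over `P0`: `w ≡ v^q`, `v̄` not a `q`-th power
  obtain ⟨δ0, hδ0⟩ := exists_eq_natCast_mul_of_Pres1_eq_zero L hqL A hA P0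
    (wO L hqL A hA P0 - phiO L hqL A hA P0 X ^ q)
    (by rw [map_sub, map_pow, Pres1_wO, phiO_X, Pres1_vO, iotaZero_apply, qExpand_resM_jMV,
      sub_self])
  have hnp : ∀ b : ResidueField ↥(PO1 L hqL A hA P0),
      b ^ q ≠ residue ↥(PO1 L hqL A hA P0) (phiO L hqL A hA P0 X) := by
    refine S34.H6.pow_ne_of_order q (rhoO1 L hqL A hA P0) _ ?_
    rw [rhoO1_residue, phiO_X, Pres1_vO, order_resM_jMV, dvd_neg]
    exact_mod_cast hqL
  subst hθB
  -- the two norm reductions
  have hNs : ∀ (u : F2) (h₁ : u ∈ PC.O1) (h₂ : u ∈ PB.O1), ∃ m : ↥(PO1 L hqL A hA Pi),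
      algebraMap ↥(PO1 L hqL A hA Pi) F1 m = Algebra.norm F1 u ∧
        Pres1 L hqL A hA Pi m = PC.res1 ⟨u, h₁⟩ ^ (q - 1) * PB.res1 ⟨u, h₂⟩ := by
    intro u h₁ h₂
    have key := alpha_norm_caseV L₁ L (q * L) (q * (q * L)) (dvd_level L) (dvd_level (q * L)) q
      rfl rfl (natCast_level2_ne_zero L) D hD (isScalarTower_O1F2 L hqL A hA Pi)
      (phiO L hqL A hA Pi) (algebraMap_phiO_X L hqL A hA Pi) (wO L hqL A hA Pi)
      (algebraMap_wO L hqL A hA Pi) (maximalIdeal_PO1 L hqL A hA Pi) δi hδi hunit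
      (Pres1 L hqL A hA Pi) (Pres1_natCast L hqL A hA Pi) PC PB h₁ h₂
    exact key
  haveI : CharP (LaurentSeries kA) q := by
    haveI : CharP kA q := S18.H92.charP_residueField A hA
    exact charP_of_injective_ringHom (f := (HahnSeries.C : kA →+* LaurentSeries kA))
      HahnSeries.C_injective q
  have hNi : ∀ (u : F2) (h : u ∈ PA.O1), ∃ m : ↥(PO1 L hqL A hA P0),
      algebraMap ↥(PO1 L hqL A hA P0) F1 m = Algebra.norm F1 u ∧
        ((qExpand kA q).comp (Pres1 L hqL A hA P0)) m = PA.res1 ⟨u, h⟩ ^ q := by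
    intro u h
    have key := alpha_norm_caseF L₁ L (q * L) (q * (q * L)) (dvd_level L) (dvd_level (q * L)) q
      rfl rfl (natCast_level2_ne_zero L) D hD (isScalarTower_O1F2 L hqL A hA P0)
      (phiO L hqL A hA P0) (algebraMap_phiO_X L hqL A hA P0) (wO L hqL A hA P0)
      (algebraMap_wO L hqL A hA P0) (maximalIdeal_PO1 L hqL A hA P0) δ0 hδ0 hnp
      ((qExpand kA q).comp (Pres1 L hqL A hA P0))
      (by rw [RingHom.comp_apply, Pres1_natCast, map_zero])
      (resM L hqL A hA (jMV L hqL A hA))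
      (by rw [RingHom.comp_apply, phiO_X, Pres1_vO, qExpand_resM_jMV]) PA h
    exact key
  have key := towerValU_of_placeOver (K := F1) (L := F2) q
    (maximalIdeal_PO1 L hqL A hA Pi) (Pres1 L hqL A hA Pi) (Pres1_natCast L hqL A hA Pi)
    (wO L hqL A hA Pi) (phiO L hqL A hA Pi X ^ q) rfl (map_pow _ _ _).symm PC PB hNs
    (maximalIdeal_PO1 L hqL A hA P0) ((qExpand kA q).comp (Pres1 L hqL A hA P0))
    (by rw [RingHom.comp_apply, Pres1_natCast, map_zero]) PA hNi
    Vs Vm Vi hVs hVm hVi Ws Wi (hWs.trans (range_algebraMap_PO1 L hqL A hA Pi).symm)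
    (hWi.trans (range_algebraMap_PO1 L hqL A hA P0).symm)
    (H18.normAlphaK L₁ (q * L) (q * (q * L)) (dvd_level (q * L)))
    (fun x => H18.normZ_eq_norm x)
  exact key

end L0

end Fermat.Agent.S36.H16
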