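import Mathlib
import Fermat.Agent.S36.H16_NormRedRam
import Fermat.Agent.CA.H99_TwoPlacesThm

/-!
S36 / (E5) (helper16): **norm reduction at a ramified pair WITHOUT normality of `O[θ]`** (the
`V_q`-side of level `q²`, where `O[θ]` is normal iff the mirror Eisenstein claim holds).

`O` a DVR (uniformiser `ϖ`), `K = Frac O`, `L = K(θ)` finite separable, `f` monic of degree `[L:K]`
with `f(θ) = 0`, `f = (X - a)^n (X - c) + ϖ r`, `a - c` a unit.  Two BARE places `(O1ᵢ, resᵢ)` of
`L` (subring + reduction into `κ`, extending `ι : O →+* κ`, `res₁ θ = ι a`, `res₂ θ = ι c`) such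
that EVERY valuation subring of `L` over `O` with `ϖ` a non-unit is `O1₁` or `O1₂`, and
`res₁ x = 0 ⟹ x^n ∈ ϖ O1₁`, `res₂ x = 0 ⟹ x ∈ ϖ O1₂`.

* `isIntegral_of_mem_of_mem` : `O1₁ ∩ O1₂` is integral over `O`;
* `exists_norm_reduction_closure` : for `u ∈ O1₁ ∩ O1₂` with residues `ι c₁`, `ι c₂` (`c₁ c₂` units
  of `O`): `N(u) ∈ O` and `ι (N u) = (ι c₁)^n * ι c₂`, given the norm of `1`-units
  (`hone`, = `CA.H93`-type brick: `z^n ∈ ϖ·(integral)` ⟹ `N(1 + z) ∈ 1 + ϖ O`).
-/

set_option autoImplicit false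
set_option linter.unusedSectionVars false

namespace Fermat.Agent.S36.H16

open Polynomial IsLocalRing

section Integral

variable {O : Type*} [CommRing O] [IsDomain O] [IsDiscreteValuationRing O]
variable (K : Type*) [Field K] [Algebra O K] [IsFractionRing O K]
variable {L : Type*} [Field L] [Algebra O L] [Algebra K L] [IsScalarTower O K L]
  [Algebra.IsAlgebraic K L]

include K

/-- a valuation subring of `L` containing `O` in which the uniformiser is invertible is `L`. -/
theorem mem_valuationSubring_of_unif_isUnit {ϖ : O} (hϖ : maximalIdeal O = Ideal.span {ϖ})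
    (V : ValuationSubring L) (hOV : ∀ x : O, algebraMap O L x ∈ V)
    (hu : algebraMap O L ϖ ∉ V.nonunits) (x : L) : x ∈ V := by
  have hirr : Irreducible ϖ := (IsDiscreteValuationRing.irreducible_iff_uniformizer ϖ).2 hϖ
  have hv1 : V.valuation (algebraMap O L ϖ) = 1 := by
    rw [ValuationSubring.mem_nonunits_iff, not_lt] at hu
    exact le_antisymm ((V.valuation_le_one_iff _).2 (hOV ϖ)) hu
  have hunit : ∀ u : Oˣ, V.valuation (algebraMap O L (u : O)) = 1 := by
    intro u
    have h1 : V.valuation (algebraMap O L (u : O)) ≤ 1 := (V.valuation_le_one_iff _).2 (hOV _)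
    have h2 : V.valuation (algebraMap O L ((u⁻¹ : Oˣ) : O)) ≤ 1 :=
      (V.valuation_le_one_iff _).2 (hOV _)
    have h3 : V.valuation (algebraMap O L (u : O)) *
        V.valuation (algebraMap O L ((u⁻¹ : Oˣ) : O)) = 1 := by
      rw [← map_mul, ← map_mul, Units.mul_inv, map_one, map_one]
    apply le_antisymm h1
    calc (1 : _) = V.valuation (algebraMap O L (u : O)) *
          V.valuation (algebraMap O L ((u⁻¹ : Oˣ) : O)) := h3.symm
      _ ≤ V.valuation (algebraMap O L (u : O)) * 1 := mul_le_mul' le_rfl h2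
      _ = V.valuation (algebraMap O L (u : O)) := mul_one _
  -- every nonzero element of `O` is a unit of `V`
  have hO1 : ∀ b : O, b ≠ 0 → V.valuation (algebraMap O L b) = 1 := by
    intro b hb
    obtain ⟨n, u, rfl⟩ := IsDiscreteValuationRing.eq_unit_mul_pow_irreducible hb hirr
    rw [map_mul, map_pow, map_mul, map_pow, hv1, one_pow, mul_one]
    exact hunit u
  -- `b • x` is integral over `O` for some `b ≠ 0`
  have hx : IsAlgebraic K x := Algebra.IsAlgebraic.isAlgebraic x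
  have hxO : IsAlgebraic O x := (IsFractionRing.isAlgebraic_iff O K L).2 hx
  obtain ⟨b, hb0, hint⟩ := hxO.exists_integral_multiple
  have hbx : b • x ∈ V := CA.H99.mem_valuationSubring_of_isIntegral V hOV hint
  rw [Algebra.smul_def, ← V.valuation_le_one_iff, map_mul, hO1 b hb0, one_mul] at hbx
  exact (V.valuation_le_one_iff x).1 hbx

/-- **`O1₁ ∩ O1₂` is integral over `O`** when these are the only valuation rings over `O` in which
the uniformiser is a non-unit. -/
theorem isIntegral_of_mem_of_mem {ϖ : O} (hϖ : maximalIdeal O = Ideal.span {ϖ})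
    (O1₁ O1₂ : Subring L)
    (hex : ∀ V : ValuationSubring L, (∀ x : O, algebraMap O L x ∈ V) →
      algebraMap O L ϖ ∈ V.nonunits → V.toSubring = O1₁ ∨ V.toSubring = O1₂)
    {x : L} (h₁ : x ∈ O1₁) (h₂ : x ∈ O1₂) : IsIntegral O x := by
  have key : x ∈ (⨅ V : {V : ValuationSubring L //
      (Set.range (algebraMap O L)) ⊆ V.toSubring}, V.1.toSubring) := by
    rw [Subring.mem_iInf]
    rintro ⟨V, hV⟩
    have hOV : ∀ y : O, algebraMap O L y ∈ V := fun y => hV ⟨y, rfl⟩
    by_cases hu : algebraMap O L ϖ ∈ V.nonunits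
    · rcases hex V hOV hu with h | h
      · rw [h]; exact h₁
      · rw [h]; exact h₂
    · exact mem_valuationSubring_of_unif_isUnit K hϖ V hOV hu x
  rw [iInf_valuationSubring_superset] at key
  -- integral over the closure of the range = integral over `O`
  have h1 : IsIntegral (Subring.closure (Set.range (algebraMap O L))) x := key
  have h2 : Subring.closure (Set.range (algebraMap O L)) = (algebraMap O L).range := by
    rw [← RingHom.coe_range, Subring.closure_eq]
  obtain ⟨p, hp, hpx⟩ := h1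
  -- lift the coefficients to `O`
  have hsurj : Function.Surjective ((algebraMap O L).rangeRestrict) :=
    (algebraMap O L).rangeRestrict_surjective
  let e : (Subring.closure (Set.range (algebraMap O L))) →+* (algebraMap O L).range :=
    Subring.inclusion (le_of_eq h2)
  obtain ⟨p', hp'⟩ := Polynomial.map_surjective _ hsurj (p.map e)
  have hmonic : p'.Monic := by
    have h3 : (p'.map (algebraMap O L).rangeRestrict).Monic := by rw [hp']; exact hp.map e
    exact Polynomial.monic_of_injective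
      (f := (algebraMap O L).rangeRestrict) (by
        intro a b hab
        have : algebraMap O L a = algebraMap O L b := congrArg Subtype.val hab
        exact (S28.H98.algebraMap_injective_of_tower K) this) h3
  refine ⟨p', hmonic, ?_⟩
  have h4 : p'.eval₂ (algebraMap O L) x =
      (p'.map (algebraMap O L).rangeRestrict).eval₂ ((algebraMap O L).range.subtype) x := by
    rw [Polynomial.eval₂_map]
    rfl
  rw [h4, hp', Polynomial.eval₂_map]
  exact hpx

end Integral

section HasR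

variable {L Fk : Type*} [Field L] [Field Fk]

/-- `y` lies in the subring `S` and reduces to `s` under `res`. -/
def HasR (S : Subring L) (res : S →+* Fk) (y : L) (s : Fk) : Prop :=
  ∃ h : y ∈ S, res ⟨y, h⟩ = s

variable {S : Subring L} {res : S →+* Fk}

theorem HasR.add {x y : L} {s t : Fk} (hx : HasR S res x s) (hy : HasR S res y t) :
    HasR S res (x + y) (s + t) := by
  obtain ⟨h1, rfl⟩ := hx
  obtain ⟨h2, rfl⟩ := hy
  exact ⟨S.add_mem h1 h2, map_add res ⟨x, h1⟩ ⟨y, h2⟩⟩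

theorem HasR.sub {x y : L} {s t : Fk} (hx : HasR S res x s) (hy : HasR S res y t) :
    HasR S res (x - y) (s - t) := by
  obtain ⟨h1, rfl⟩ := hx
  obtain ⟨h2, rfl⟩ := hy
  exact ⟨S.sub_mem h1 h2, map_sub res ⟨x, h1⟩ ⟨y, h2⟩⟩

theorem HasR.mul {x y : L} {s t : Fk} (hx : HasR S res x s) (hy : HasR S res y t) :
    HasR S res (x * y) (s * t) := by
  obtain ⟨h1, rfl⟩ := hx
  obtain ⟨h2, rfl⟩ := hy
  exact ⟨S.mul_mem h1 h2, map_mul res ⟨x, h1⟩ ⟨y, h2⟩⟩

theorem HasR.one : HasR S res 1 1 := ⟨S.one_mem, map_one res⟩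

theorem HasR.inv (hinv : ∀ y (hy : y ∈ S), res ⟨y, hy⟩ ≠ 0 → y⁻¹ ∈ S) {x : L} {s : Fk}
    (hx : HasR S res x s) (hs : s ≠ 0) : HasR S res x⁻¹ s⁻¹ := by
  obtain ⟨h1, rfl⟩ := hx
  have h2 : x⁻¹ ∈ S := hinv x h1 hs
  refine ⟨h2, ?_⟩
  have hx0 : x ≠ 0 := by
    rintro rfl
    apply hs
    have : (⟨0, h1⟩ : S) = 0 := rfl
    rw [this, map_zero]
  have h3 : res ⟨x, h1⟩ * res ⟨x⁻¹, h2⟩ = 1 := by
    rw [← map_mul]
    have : (⟨x, h1⟩ * ⟨x⁻¹, h2⟩ : S) = 1 := Subtype.ext (mul_inv_cancel₀ hx0)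
    rw [this, map_one]
  exact eq_inv_of_mul_eq_one_right h3

theorem HasR.congr {x y : L} {s t : Fk} (hx : HasR S res x s) (hxy : x = y) (hst : s = t) :
    HasR S res y t := by
  subst hxy; subst hst; exact hx

end HasR

section Closure

variable {O : Type*} [CommRing O] [IsDomain O] [IsDiscreteValuationRing O]
variable {K : Type*} [Field K] [Algebra O K] [IsFractionRing O K]
variable {L : Type*} [Field L] [Algebra O L] [Algebra K L] [IsScalarTower O K L]
variable {Fk : Type*} [Field Fk]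
variable [FiniteDimensional K L] [Algebra.IsSeparable K L]

/-- **(E5), ramified pair, via the integral closure** (no normality of `O[θ]`): for `u` a unit at
both places, `ι (N u) = res₁(u) ^ n * res₂(u)`. -/
theorem exists_norm_reduction_closure {ϖ : O} (hϖ : maximalIdeal O = Ideal.span {ϖ})
    {f : O[X]} (hf : f.Monic) {θ : L} (hθ : aeval θ f = 0)
    (hdeg : f.natDegree = Module.finrank K L) (hgen : Algebra.adjoin K {θ} = ⊤)
    (a c : O) (n : ℕ) (hn : 0 < n) (r : O[X])
    (hfac : f = (X - C a) ^ n * (X - C c) + C ϖ * r) (hac : IsUnit (a - c))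
    (ι : O →+* Fk) (hιϖ : ι ϖ = 0)
    (O1₁ O1₂ : Subring L) (res₁ : O1₁ →+* Fk) (res₂ : O1₂ →+* Fk)
    (hinv₁ : ∀ y (hy : y ∈ O1₁), res₁ ⟨y, hy⟩ ≠ 0 → y⁻¹ ∈ O1₁)
    (hinv₂ : ∀ y (hy : y ∈ O1₂), res₂ ⟨y, hy⟩ ≠ 0 → y⁻¹ ∈ O1₂)
    (hO₁ : ∀ x : O, HasR O1₁ res₁ (algebraMap O L x) (ι x))
    (hO₂ : ∀ x : O, HasR O1₂ res₂ (algebraMap O L x) (ι x))
    (hθ₁ : HasR O1₁ res₁ θ (ι a)) (hθ₂ : HasR O1₂ res₂ θ (ι c))
    (hker₁ : ∀ y, HasR O1₁ res₁ y 0 → ∃ y' ∈ O1₁, y ^ n = algebraMap O L ϖ * y')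
    (hker₂ : ∀ y, HasR O1₂ res₂ y 0 → ∃ y' ∈ O1₂, y = algebraMap O L ϖ * y')
    (hex : ∀ V : ValuationSubring L, (∀ x : O, algebraMap O L x ∈ V) →
      algebraMap O L ϖ ∈ V.nonunits → V.toSubring = O1₁ ∨ V.toSubring = O1₂)
    (hone : ∀ z y : L, IsIntegral O z → IsIntegral O y → z ^ n = algebraMap O L ϖ * y →
      ∃ m : O, algebraMap O K (1 + ϖ * m) = Algebra.norm K (1 + z))
    {u : L} (c₁ c₂ : O) (hu₁ : HasR O1₁ res₁ u (ι c₁)) (hu₂ : HasR O1₂ res₂ u (ι c₂))
    (hc₁ : ι c₁ ≠ 0) (hc₂ : ι c₂ ≠ 0) :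
    ∃ m : O, algebraMap O K m = Algebra.norm K u ∧ ι m = ι c₁ ^ n * ι c₂ := by
  classical
  -- the unit `d = c - a` and the interpolating polynomial
  have hd : IsUnit (c - a) := by
    have : c - a = -(a - c) := by ring
    rw [this]; exact hac.neg
  obtain ⟨d, hdd⟩ := hd
  set e : O := (c₂ - c₁) * ((d⁻¹ : Oˣ) : O) with he
  have hed : e * (c - a) = c₂ - c₁ := by
    rw [he, ← hdd, mul_assoc, Units.inv_mul, mul_one]
  set p : O[X] := C c₁ + C e * (X - C a) with hp
  have hPv : aeval θ p = algebraMap O L c₁ + algebraMap O L e * (θ - algebraMap O L a) := by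
    rw [hp]; simp [aeval_C]
  set P : L := aeval θ p with hP
  have hP₁ : HasR O1₁ res₁ P (ι c₁) := by
    have := (hO₁ c₁).add ((hO₁ e).mul (hθ₁.sub (hO₁ a)))
    exact this.congr hPv.symm (by rw [sub_self, mul_zero, add_zero])
  have hP₂ : HasR O1₂ res₂ P (ι c₂) := by
    have := (hO₂ c₁).add ((hO₂ e).mul (hθ₂.sub (hO₂ a)))
    refine this.congr hPv.symm ?_
    rw [← map_sub, ← map_mul, hed, map_sub]; ring
  have hP0 : P ≠ 0 := by
    intro h0
    obtain ⟨h1, h2⟩ := hP₁
    apply hc₁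
    rw [← h2]
    have : (⟨P, h1⟩ : O1₁) = 0 := Subtype.ext h0
    rw [this, map_zero]
  -- `z = u / P - 1` reduces to zero at both places
  set z : L := u * P⁻¹ - 1 with hz
  have hz₁ : HasR O1₁ res₁ z 0 :=
    ((hu₁.mul (hP₁.inv hinv₁ hc₁)).sub HasR.one).congr rfl
      (by rw [mul_inv_cancel₀ hc₁, sub_self])
  have hz₂ : HasR O1₂ res₂ z 0 :=
    ((hu₂.mul (hP₂.inv hinv₂ hc₂)).sub HasR.one).congr rfl
      (by rw [mul_inv_cancel₀ hc₂, sub_self])
  have hϖL : algebraMap O L ϖ ≠ 0 := by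
    have hirr : Irreducible ϖ := (IsDiscreteValuationRing.irreducible_iff_uniformizer ϖ).2 hϖ
    intro h0
    apply hirr.ne_zero
    have hinj : Function.Injective (algebraMap O L) := by
      rw [IsScalarTower.algebraMap_eq O K L]
      exact (algebraMap K L).injective.comp (IsFractionRing.injective O K)
    exact hinj (by rw [h0, map_zero])
  obtain ⟨y₁, hy₁, e₁⟩ := hker₁ z hz₁
  obtain ⟨y₂', hy₂', e₂⟩ := hker₂ z hz₂
  have hy₂ : y₁ ∈ O1₂ := by
    have h1 : z ^ n = algebraMap O L ϖ * (y₂' * z ^ (n - 1)) := by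
      obtain ⟨k, rfl⟩ := Nat.exists_eq_succ_of_ne_zero hn.ne'
      rw [Nat.succ_sub_one, pow_succ']
      nth_rewrite 1 [e₂]
      ring
    have h2 : y₁ = y₂' * z ^ (n - 1) := mul_left_cancel₀ hϖL (e₁.symm.trans h1)
    rw [h2]
    exact O1₂.mul_mem hy₂' (O1₂.pow_mem hz₂.1 _)
  have hzint : IsIntegral O z := isIntegral_of_mem_of_mem K hϖ O1₁ O1₂ hex hz₁.1 hz₂.1
  have hyint : IsIntegral O y₁ := isIntegral_of_mem_of_mem K hϖ O1₁ O1₂ hex hy₁ hy₂
  obtain ⟨m₁, hm₁⟩ := hone z y₁ hzint hyint e₁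
  -- the polynomial part
  have hsplit : f.map ι = (X - C (ι a)) ^ n * (X - C (ι c)) := by
    rw [hfac, Polynomial.map_add, Polynomial.map_mul, Polynomial.map_mul, Polynomial.map_C,
      hιϖ, C_0, zero_mul, add_zero, Polynomial.map_pow, Polynomial.map_sub, Polynomial.map_sub,
      Polynomial.map_X, Polynomial.map_C, Polynomial.map_C]
  obtain ⟨m₀, hm₀, hm₀'⟩ := exists_norm_aeval_reduction_ram (K := K) (L := L)
    (IsFractionRing.injective O K) ι n f hf hθ hdeg hgen (ι a) (ι c) hsplit p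
  refine ⟨m₀ * (1 + ϖ * m₁), ?_, ?_⟩
  · rw [map_mul, hm₀, hm₁, ← map_mul]
    congr 1
    rw [hz, ← hP]
    field_simp
    ring
  · rw [map_mul, hm₀', map_add, map_mul, hιϖ, zero_mul, add_zero, map_one, mul_one]
    have e3 : (p.map ι).eval (ι a) = ι c₁ := by
      rw [hp]; simp
    have e4 : (p.map ι).eval (ι c) = ι c₂ := by
      rw [hp]
      simp only [Polynomial.map_add, Polynomial.map_mul, Polynomial.map_sub, Polynomial.map_C,
        Polynomial.map_X, eval_add, eval_mul, eval_sub, eval_C, eval_X]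
      rw [← map_sub, ← map_mul, hed, map_sub]; ring
    rw [e3, e4]

end Closure

end Fermat.Agent.S36.H16
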