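import Mathlib
import Fermat.Agent.S36.H16_NormRedClosure
import Fermat.Agent.CA.H93_NormOneUnit

/-!
S36 / (E5) (helper16): **the norm reduction at a ramified pair in VALUATIVE form** (no residue
maps, no place structures, no normality of `O[θ]`): the form in which the field `hNs` of
`S36.H46.TowerValU` can be produced at ANY level (in particular for the valuation subrings
`valuationSubringAt` of the vertical primes of the `E₀`-level charts).

`O` a DVR (uniformiser `ϖ`), `K = Frac O`, `L = K(θ)` finite separable, `f` monic of degree `[L:K]`,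
`f(θ) = 0`, `f = (X - a)^n (X - c) + ϖ r`, `a - c` a unit.  `V₁ V₂` valuation subrings of `L` over
`O` with `ϖ` a non-unit, and these are the ONLY ones; `θ ≡ a` at `V₁`, `θ ≡ c` at `V₂`;
`𝔪₁^n ⊆ ϖ V₁`, `𝔪₂ ⊆ ϖ V₂`.  Then for `u ≡ c₁` at `V₁`, `u ≡ c₂` at `V₂` (`c₁ c₂` units of `O`):
`N(u) ∈ O` and `N(u) ≡ c₁^n c₂` modulo the maximal ideal.
-/

set_option autoImplicit false
set_option linter.unusedSectionVars false

namespace Fermat.Agent.S36.H16

open Polynomial IsLocalRing

section Nonunits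

variable {L : Type*} [Field L] (V : ValuationSubring L)

theorem nonunits_add {x y : L} (hx : x ∈ V.nonunits) (hy : y ∈ V.nonunits) :
    x + y ∈ V.nonunits := by
  rw [ValuationSubring.mem_nonunits_iff] at hx hy ⊢
  exact Valuation.map_add_lt _ hx hy

theorem nonunits_neg {x : L} (hx : x ∈ V.nonunits) : -x ∈ V.nonunits := by
  rw [ValuationSubring.mem_nonunits_iff] at hx ⊢
  rwa [Valuation.map_neg]

theorem nonunits_sub {x y : L} (hx : x ∈ V.nonunits) (hy : y ∈ V.nonunits) :
    x - y ∈ V.nonunits := by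
  rw [sub_eq_add_neg]
  exact nonunits_add V hx (nonunits_neg V hy)

theorem mul_mem_nonunits {x y : L} (hx : x ∈ V) (hy : y ∈ V.nonunits) : x * y ∈ V.nonunits := by
  rw [ValuationSubring.mem_nonunits_iff] at hy ⊢
  rw [map_mul]
  have h1 : V.valuation x ≤ 1 := (V.valuation_le_one_iff x).2 hx
  calc V.valuation x * V.valuation y ≤ 1 * V.valuation y := mul_le_mul' h1 le_rfl
    _ = V.valuation y := one_mul _
    _ < 1 := hy

theorem mem_of_mem_nonunits {x : L} (hx : x ∈ V.nonunits) : x ∈ V := by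
  rw [ValuationSubring.mem_nonunits_iff] at hx
  exact (V.valuation_le_one_iff x).1 hx.le

/-- `x ≡ y` modulo the non-units and `v(y) = 1` ⟹ `v(x) = 1`. -/
theorem valuation_eq_one_of_sub_mem {x y : L} (hxy : x - y ∈ V.nonunits)
    (hy : V.valuation y = 1) : V.valuation x = 1 := by
  rw [ValuationSubring.mem_nonunits_iff] at hxy
  have h1 : V.valuation x = V.valuation (y + (x - y)) := by rw [add_sub_cancel]
  rw [h1, Valuation.map_add_eq_of_lt_left _ (by rw [hy]; exact hxy), hy]

end Nonunits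

section Val

variable {O : Type*} [CommRing O] [IsDomain O] [IsDiscreteValuationRing O]
variable {K : Type*} [Field K] [Algebra O K] [IsFractionRing O K]
variable {L : Type*} [Field L] [Algebra O L] [Algebra K L] [IsScalarTower O K L]

/-- a unit of `O` has valuation `1` at any valuation subring containing `O`. -/
theorem valuation_algebraMap_eq_one_of_isUnit (V : ValuationSubring L)
    (hOV : ∀ x : O, algebraMap O L x ∈ V) {c : O} (hc : IsUnit c) :
    V.valuation (algebraMap O L c) = 1 := by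
  obtain ⟨u, rfl⟩ := hc
  have h1 : V.valuation (algebraMap O L (u : O)) ≤ 1 := (V.valuation_le_one_iff _).2 (hOV _)
  have h2 : V.valuation (algebraMap O L ((u⁻¹ : Oˣ) : O)) ≤ 1 :=
    (V.valuation_le_one_iff _).2 (hOV _)
  have h3 : V.valuation (algebraMap O L (u : O)) *
      V.valuation (algebraMap O L ((u⁻¹ : Oˣ) : O)) = 1 := by
    rw [← map_mul, ← map_mul, Units.mul_inv, map_one, map_one]
  apply le_antisymm h1
  calc (1 : _) = V.valuation (algebraMap O L (u : O)) *
        V.valuation (algebraMap O L ((u⁻¹ : Oˣ) : O)) := h3.symm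
    _ ≤ V.valuation (algebraMap O L (u : O)) * 1 := mul_le_mul' le_rfl h2
    _ = V.valuation (algebraMap O L (u : O)) := mul_one _

variable [FiniteDimensional K L] [Algebra.IsSeparable K L]

/-- **(E5), ramified pair, valuative form.** -/
theorem exists_norm_congr_closure {ϖ : O} (hϖ : maximalIdeal O = Ideal.span {ϖ})
    {f : O[X]} (hf : f.Monic) {θ : L} (hθ : aeval θ f = 0)
    (hdeg : f.natDegree = Module.finrank K L) (hgen : Algebra.adjoin K {θ} = ⊤)
    (a c : O) (n : ℕ) (hn : 0 < n) (r : O[X])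
    (hfac : f = (X - C a) ^ n * (X - C c) + C ϖ * r) (hac : IsUnit (a - c))
    (V₁ V₂ : ValuationSubring L)
    (hO₁ : ∀ x : O, algebraMap O L x ∈ V₁) (hO₂ : ∀ x : O, algebraMap O L x ∈ V₂)
    (hθ₁ : θ - algebraMap O L a ∈ V₁.nonunits) (hθ₂ : θ - algebraMap O L c ∈ V₂.nonunits)
    (hker₁ : ∀ y ∈ V₁.nonunits, ∃ y' ∈ V₁, y ^ n = algebraMap O L ϖ * y')
    (hker₂ : ∀ y ∈ V₂.nonunits, ∃ y' ∈ V₂, y = algebraMap O L ϖ * y')
    (hex : ∀ V : ValuationSubring L, (∀ x : O, algebraMap O L x ∈ V) →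
      algebraMap O L ϖ ∈ V.nonunits → V = V₁ ∨ V = V₂)
    {u : L} (c₁ c₂ : O) (hc₁ : IsUnit c₁) (hc₂ : IsUnit c₂)
    (hu₁ : u - algebraMap O L c₁ ∈ V₁.nonunits) (hu₂ : u - algebraMap O L c₂ ∈ V₂.nonunits) :
    ∃ m : O, algebraMap O K m = Algebra.norm K u ∧ m - c₁ ^ n * c₂ ∈ maximalIdeal O := by
  classical
  have hirr : Irreducible ϖ := (IsDiscreteValuationRing.irreducible_iff_uniformizer ϖ).2 hϖ
  -- the unit `d = c - a` and the interpolating polynomial
  have hd : IsUnit (c - a) := by
    have : c - a = -(a - c) := by ring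
    rw [this]; exact hac.neg
  obtain ⟨d, hdd⟩ := hd
  set e : O := (c₂ - c₁) * ((d⁻¹ : Oˣ) : O) with he
  have hed : e * (c - a) = c₂ - c₁ := by
    rw [he, ← hdd, mul_assoc, Units.inv_mul, mul_one]
  set p : O[X] := C c₁ + C e * (X - C a) with hp
  have hPv : aeval θ p = algebraMap O L c₁ + algebraMap O L e * (θ - algebraMap O L a) := by
    rw [hp]; simp [aeval_C]
  set P : L := aeval θ p with hP
  have hP₁ : P - algebraMap O L c₁ ∈ V₁.nonunits := by
    have h1 : P - algebraMap O L c₁ = algebraMap O L e * (θ - algebraMap O L a) := by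
      rw [hPv]; ring
    rw [h1]
    exact mul_mem_nonunits V₁ (hO₁ e) hθ₁
  have hP₂ : P - algebraMap O L c₂ ∈ V₂.nonunits := by
    have h1 : P - algebraMap O L c₂ = algebraMap O L e * (θ - algebraMap O L c) := by
      have h2 : algebraMap O L e * (algebraMap O L c - algebraMap O L a) =
          algebraMap O L c₂ - algebraMap O L c₁ := by
        rw [← map_sub, ← map_mul, hed, map_sub]
      rw [hPv]
      linear_combination h2
    rw [h1]
    exact mul_mem_nonunits V₂ (hO₂ e) hθ₂
  have hvc₁ := valuation_algebraMap_eq_one_of_isUnit V₁ hO₁ hc₁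
  have hvc₂ := valuation_algebraMap_eq_one_of_isUnit V₂ hO₂ hc₂
  have hvP₁ : V₁.valuation P = 1 := valuation_eq_one_of_sub_mem V₁ hP₁ hvc₁
  have hvP₂ : V₂.valuation P = 1 := valuation_eq_one_of_sub_mem V₂ hP₂ hvc₂
  have hP0 : P ≠ 0 := by
    intro h0
    rw [h0, map_zero] at hvP₁
    exact zero_ne_one hvP₁
  have hPinv₁ : P⁻¹ ∈ V₁ := by
    rw [← V₁.valuation_le_one_iff, map_inv₀, hvP₁, inv_one]
  have hPinv₂ : P⁻¹ ∈ V₂ := by
    rw [← V₂.valuation_le_one_iff, map_inv₀, hvP₂, inv_one]
  -- `z = u / P - 1` is a non-unit at both places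
  set z : L := u * P⁻¹ - 1 with hz
  have hzeq : z = P⁻¹ * (u - P) := by
    rw [hz]; field_simp
  have hz₁ : z ∈ V₁.nonunits := by
    rw [hzeq]
    refine mul_mem_nonunits V₁ hPinv₁ ?_
    have : u - P = (u - algebraMap O L c₁) - (P - algebraMap O L c₁) := by ring
    rw [this]
    exact nonunits_sub V₁ hu₁ hP₁
  have hz₂ : z ∈ V₂.nonunits := by
    rw [hzeq]
    refine mul_mem_nonunits V₂ hPinv₂ ?_
    have : u - P = (u - algebraMap O L c₂) - (P - algebraMap O L c₂) := by ring
    rw [this]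
    exact nonunits_sub V₂ hu₂ hP₂
  have hϖL : algebraMap O L ϖ ≠ 0 := by
    intro h0
    apply hirr.ne_zero
    have hinj : Function.Injective (algebraMap O L) := by
      rw [IsScalarTower.algebraMap_eq O K L]
      exact (algebraMap K L).injective.comp (IsFractionRing.injective O K)
    exact hinj (by rw [h0, map_zero])
  obtain ⟨y₁, hy₁, e₁⟩ := hker₁ z hz₁
  obtain ⟨y₂', hy₂', e₂⟩ := hker₂ z hz₂
  have hzV₂ : z ∈ V₂ := mem_of_mem_nonunits V₂ hz₂
  have hy₂ : y₁ ∈ V₂ := by
    have h1 : z ^ n = algebraMap O L ϖ * (y₂' * z ^ (n - 1)) := by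
      obtain ⟨k, rfl⟩ := Nat.exists_eq_succ_of_ne_zero hn.ne'
      rw [Nat.succ_sub_one, pow_succ']
      nth_rewrite 1 [e₂]
      ring
    have h2 : y₁ = y₂' * z ^ (n - 1) := mul_left_cancel₀ hϖL (e₁.symm.trans h1)
    rw [h2]
    exact V₂.mul_mem _ _ hy₂' (pow_mem hzV₂ _)
  have hex' : ∀ V : ValuationSubring L, (∀ x : O, algebraMap O L x ∈ V) →
      algebraMap O L ϖ ∈ V.nonunits → V.toSubring = V₁.toSubring ∨ V.toSubring = V₂.toSubring := by
    intro V h1 h2
    rcases hex V h1 h2 with h | h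
    · exact Or.inl (by rw [h])
    · exact Or.inr (by rw [h])
  have hzint : IsIntegral O z := isIntegral_of_mem_of_mem K hϖ V₁.toSubring V₂.toSubring hex'
    (mem_of_mem_nonunits V₁ hz₁) hzV₂
  have hyint : IsIntegral O y₁ := isIntegral_of_mem_of_mem K hϖ V₁.toSubring V₂.toSubring hex'
    hy₁ hy₂
  obtain ⟨m₁, hm₁⟩ := CA.H93.exists_norm_one_add_eq (K := K) ϖ hirr z y₁ hzint hyint n e₁
  -- the polynomial part
  have hres0 : residue O ϖ = 0 := by
    rw [residue_eq_zero_iff, hϖ]; exact Ideal.mem_span_singleton_self _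
  have hsplit : f.map (residue O) =
      (X - C (residue O a)) ^ n * (X - C (residue O c)) := by
    rw [hfac, Polynomial.map_add, Polynomial.map_mul, Polynomial.map_mul, Polynomial.map_C,
      hres0, C_0, zero_mul, add_zero, Polynomial.map_pow, Polynomial.map_sub, Polynomial.map_sub,
      Polynomial.map_X, Polynomial.map_C, Polynomial.map_C]
  obtain ⟨m₀, hm₀, hm₀'⟩ := exists_norm_aeval_reduction_ram (K := K) (L := L)
    (IsFractionRing.injective O K) (residue O) n f hf hθ hdeg hgen (residue O a) (residue O c)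
    hsplit p
  refine ⟨m₀ * (1 + ϖ * m₁), ?_, ?_⟩
  · rw [map_mul, hm₀, hm₁, ← map_mul]
    congr 1
    rw [hz, ← hP]
    field_simp
    ring
  · rw [← residue_eq_zero_iff, map_sub, map_mul, hm₀', map_add, map_mul, hres0, zero_mul,
      add_zero, map_one, mul_one, map_mul, map_pow]
    have e3 : (p.map (residue O)).eval (residue O a) = residue O c₁ := by
      rw [hp]; simp
    have e4 : (p.map (residue O)).eval (residue O c) = residue O c₂ := by
      rw [hp]
      simp only [Polynomial.map_add, Polynomial.map_mul, Polynomial.map_sub, Polynomial.map_C,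
        Polynomial.map_X, eval_add, eval_mul, eval_sub, eval_C, eval_X]
      rw [← map_sub, ← map_mul, hed, map_sub]; ring
    rw [e3, e4, sub_self]

end Val

end Fermat.Agent.S36.H16
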