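import Mathlib
import Fermat.Agent.S36.H16_ThreePlacesJV
import Fermat.Agent.S36.H16_NormRedVal

/-!
S36 / (E5) (helper16): **the norm reduction at the ramified pair of level `q²` in VALUATIVE form**
(no place structures, no `hder`, no normality of `O[θ]`), for a generic divided-Kronecker extension
and for BOTH embeddings `F_N → F_{N₂}` (`N₂ = q N`, `q ∣ N`) over ANY field `K` of characteristic
`0` and ANY DVR `O` with fraction field `F_N`, uniformiser `q` (so also at the `E₀`-level, with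
`O := ↥W` for `W` a vertical valuation subring of `F_N(E₀)`).

Hypotheses on the two valuation subrings `V₁` (the ramified one, `θ ≡ w`) and `V₂` (the simple one,
`θ ≡ y^q`): they contain `O`, they are the only valuation subrings over `O` in which `q` is a
non-unit, `𝔪₁^(q-1) ⊆ q V₁`, `𝔪₂ ⊆ q V₂`.  Conclusion = the hypothesis `hNs` of
`S36.H16.towerValU_of_valuative`.
-/

set_option autoImplicit false
set_option linter.unusedSectionVars false
set_option linter.style.haveILetI false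
set_option synthInstance.maxHeartbeats 400000

noncomputable section

namespace Fermat.Agent.S36.H16

open ModularCurve Polynomial IsLocalRing Fermat.Agent.S28
open Fermat.Agent.S34.H16 Fermat.Agent.S35.H16

section Gen

variable {K₀ L : Type*} [Field K₀] [Field L] [Algebra K₀ L]
  (q : ℕ) [Fact q.Prime] [NeZero q] (D : ModularPolynomialData q)
  (hD : ∀ (k : Type) [Field k] (ζ : kˣ), IsPrimitiveRoot ζ q → RootsAt k q ζ D.Φ)
  {y w : K₀} {θ : L}
  (hmp : minpoly K₀ θ = divPolyAt q D y w) (hw : (relPolyAt q D y).eval w = 0)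
  (hgen : Algebra.adjoin K₀ {θ} = ⊤) (hdeg : Module.finrank K₀ L = q)
  {O : Type*} [CommRing O] [IsDomain O] [IsDiscreteValuationRing O]
  [CharP (ResidueField O) q]
  [Algebra O K₀] [IsFractionRing O K₀] [Algebra O L] [IsScalarTower O K₀ L]
  (φ : ℤ[X] →+* O) (hφ : algebraMap O K₀ (φ X) = y)
  (wO : O) (hwO : algebraMap O K₀ wO = w)
  (hϖ : maximalIdeal O = Ideal.span {((q : ℕ) : O)})

variable [FiniteDimensional K₀ L] [Algebra.IsSeparable K₀ L]

include hD hmp hw hgen hdeg hφ hwO hϖ in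
/-- **(E5), case (V), valuative form.** -/
theorem gen_norm_caseV_val (δ : O) (hδ : wO ^ q - φ X = ((q : ℕ) : O) * δ)
    (hunit : IsUnit (wO - φ X ^ q))
    (V₁ V₂ : ValuationSubring L)
    (hO₁ : ∀ x : O, algebraMap O L x ∈ V₁) (hO₂ : ∀ x : O, algebraMap O L x ∈ V₂)
    (hθ₁ : θ - algebraMap O L wO ∈ V₁.nonunits)
    (hθ₂ : θ - algebraMap O L (φ X ^ q) ∈ V₂.nonunits)
    (hker₁ : ∀ z ∈ V₁.nonunits, ∃ z' ∈ V₁, z ^ (q - 1) = algebraMap O L ((q : ℕ) : O) * z')
    (hker₂ : ∀ z ∈ V₂.nonunits, ∃ z' ∈ V₂, z = algebraMap O L ((q : ℕ) : O) * z')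
    (hex : ∀ V : ValuationSubring L, (∀ x : O, algebraMap O L x ∈ V) →
      algebraMap O L ((q : ℕ) : O) ∈ V.nonunits → V = V₁ ∨ V = V₂)
    {u : L} (c₁ c₂ : O) (hc₁ : IsUnit c₁) (hc₂ : IsUnit c₂)
    (hu₁ : u - algebraMap O L c₁ ∈ V₁.nonunits) (hu₂ : u - algebraMap O L c₂ ∈ V₂.nonunits) :
    ∃ m : O, algebraMap O K₀ m = Algebra.norm K₀ u ∧
      m - c₁ ^ (q - 1) * c₂ ∈ maximalIdeal O := by
  have hq : q.Prime := Fact.out
  have hq1 : 0 < q - 1 := by have := hq.two_le; omega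
  have hinj := IsFractionRing.injective O K₀
  have hroot := eval_map_eq_zero_of_injective hinj φ hφ wO hwO hw
  obtain ⟨R, hR⟩ := H6.exists_kronecker_lift q D hD φ hϖ
  obtain ⟨r, hg0, -, -⟩ := H6.exists_shift_of_kronecker_zero q (D.Φ.map φ) R (φ X ^ q) (φ X) wO δ
    hR hroot hδ
  have hmonic := divByMonic_monic (D := D) φ wO hroot
  have hθ := aeval_divByMonic_eq_zero hmp φ hφ wO hwO
  have hnd : ((D.Φ.map φ) /ₘ (X - C wO)).natDegree = Module.finrank K₀ L := by
    rw [divByMonic_natDegree hq φ wO, hdeg]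
  exact exists_norm_congr_closure (K := K₀) hϖ hmonic hθ hnd hgen wO (φ X ^ q) (q - 1) hq1 r hg0
    hunit V₁ V₂ hO₁ hO₂ hθ₁ hθ₂ hker₁ hker₂ hex c₁ c₂ hc₁ hc₂ hu₁ hu₂

end Gen

section Beta

variable (K : Type) [Field K] [CharZero K] (N N₂ : ℕ) [NeZero N] [NeZero N₂]
  (q : ℕ) [Fact q.Prime] [NeZero q] (hqN : q ∣ N) (hN₂ : N₂ = q * N)
  (hNK : ((N₂ : ℕ) : K) ≠ 0)
  (D : ModularPolynomialData q)
  (hD : ∀ (k : Type) [Field k] (ζ : kˣ), IsPrimitiveRoot ζ q → RootsAt k q ζ D.Φ)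
  {O : Type*} [CommRing O] [IsDomain O] [IsDiscreteValuationRing O]
  [CharP (ResidueField O) q]
  [Algebra O (modularFunctionFieldFullC K N)] [IsFractionRing O (modularFunctionFieldFullC K N)]
  [Algebra O (modularFunctionFieldFullC K N₂)]
  (htower : letI := vAlgebra K q N N₂ (dvd_of_eq hN₂.symm)
    IsScalarTower O (modularFunctionFieldFullC K N) (modularFunctionFieldFullC K N₂))
  (φ : ℤ[X] →+* O)
  (hφ : algebraMap O (modularFunctionFieldFullC K N) (φ X) = S18.H16.jK K N)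
  (wO : O) (hwO : algebraMap O (modularFunctionFieldFullC K N) wO = S18.H99.jdK K N q hqN)
  (hϖ : maximalIdeal O = Ideal.span {((q : ℕ) : O)})

include hD hNK htower hφ hwO hϖ

set_option maxHeartbeats 1600000 in
/-- **(E5), `V_q` side, case (V), valuative form**: generator `θ = j`, `V₁` the ramified valuation
(`j ≡ V_q(j_q) = j_{q²}`), `V₂` the simple one (`j ≡ V_q(j)^q = j_q^q`). -/
theorem beta_norm_caseV_val (δ : O) (hδ : wO ^ q - φ X = ((q : ℕ) : O) * δ)
    (hunit : IsUnit (wO - φ X ^ q))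
    (V₁ V₂ : ValuationSubring (modularFunctionFieldFullC K N₂))
    (hO₁ : ∀ x : O, algebraMap O (modularFunctionFieldFullC K N₂) x ∈ V₁)
    (hO₂ : ∀ x : O, algebraMap O (modularFunctionFieldFullC K N₂) x ∈ V₂)
    (hθ₁ : S18.H16.jK K N₂ - algebraMap O (modularFunctionFieldFullC K N₂) wO ∈ V₁.nonunits)
    (hθ₂ : S18.H16.jK K N₂ - algebraMap O (modularFunctionFieldFullC K N₂) (φ X ^ q) ∈
      V₂.nonunits)
    (hker₁ : ∀ z ∈ V₁.nonunits, ∃ z' ∈ V₁,
      z ^ (q - 1) = algebraMap O (modularFunctionFieldFullC K N₂) ((q : ℕ) : O) * z')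
    (hker₂ : ∀ z ∈ V₂.nonunits, ∃ z' ∈ V₂,
      z = algebraMap O (modularFunctionFieldFullC K N₂) ((q : ℕ) : O) * z')
    (hex : ∀ V : ValuationSubring (modularFunctionFieldFullC K N₂),
      (∀ x : O, algebraMap O (modularFunctionFieldFullC K N₂) x ∈ V) →
      algebraMap O (modularFunctionFieldFullC K N₂) ((q : ℕ) : O) ∈ V.nonunits →
      V = V₁ ∨ V = V₂)
    {u : modularFunctionFieldFullC K N₂} (c₁ c₂ : O) (hc₁ : IsUnit c₁) (hc₂ : IsUnit c₂)
    (hu₁ : u - algebraMap O (modularFunctionFieldFullC K N₂) c₁ ∈ V₁.nonunits)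
    (hu₂ : u - algebraMap O (modularFunctionFieldFullC K N₂) c₂ ∈ V₂.nonunits) :
    letI := vAlgebra K q N N₂ (dvd_of_eq hN₂.symm)
    ∃ m : O, algebraMap O (modularFunctionFieldFullC K N) m =
        Algebra.norm (modularFunctionFieldFullC K N) u ∧
      m - c₁ ^ (q - 1) * c₂ ∈ maximalIdeal O := by
  letI := vAlgebra K q N N₂ (dvd_of_eq hN₂.symm)
  haveI := htower
  have hq : q.Prime := Fact.out
  have hmp := beta_minpoly K N N₂ q hq hqN hN₂ hNK D hD
  have hw := beta_root K N q hqN D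
  have hgen := algebra_adjoin_eq_top (vAlgebra_rel K q N N₂ (dvd_of_eq hN₂.symm) D hD)
    (vAlgebra_adjoin_jK_eq_top K q N N₂ hN₂ hNK)
  have hfr := finrank_vSub_dvd K N N₂ q hq hqN hN₂ hNK
  haveI := charZero_fullC K N
  obtain ⟨hfd, hsep⟩ := isSeparable_of_finrank_pos' (F := modularFunctionFieldFullC K N)
    (E := modularFunctionFieldFullC K N₂) (by rw [hfr]; exact hq.pos)
  have key := gen_norm_caseV_val (K₀ := modularFunctionFieldFullC K N)
    (L := modularFunctionFieldFullC K N₂) q D hD hmp hw hgen hfr φ hφ wO hwO hϖ δ hδ hunit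
    V₁ V₂ hO₁ hO₂ hθ₁ hθ₂ hker₁ hker₂ hex c₁ c₂ hc₁ hc₂ hu₁ hu₂
  exact key

end Beta

section Alpha

variable (K : Type) [Field K] [CharZero K] (M N N₂ : ℕ) [NeZero M] [NeZero N] [NeZero N₂]
  (hMN : M ∣ N) (hNN₂ : N ∣ N₂)
  (q : ℕ) [Fact q.Prime] [NeZero q] (hN : N = q * M) (hN₂ : N₂ = q * N)
  (hNK : ((N₂ : ℕ) : K) ≠ 0)
  (D : ModularPolynomialData q)
  (hD : ∀ (k : Type) [Field k] (ζ : kˣ), IsPrimitiveRoot ζ q → RootsAt k q ζ D.Φ)
  {O : Type*} [CommRing O] [IsDomain O] [IsDiscreteValuationRing O]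
  [CharP (ResidueField O) q]
  [Algebra O (modularFunctionFieldFullC K N)] [IsFractionRing O (modularFunctionFieldFullC K N)]
  [Algebra O (modularFunctionFieldFullC K N₂)]
  (htower : letI := degAlgebra K N N₂ hNN₂
    IsScalarTower O (modularFunctionFieldFullC K N) (modularFunctionFieldFullC K N₂))
  (φ : ℤ[X] →+* O)
  (hφ : algebraMap O (modularFunctionFieldFullC K N) (φ X) = S18.H16.jNK K N)
  (wO : O) (hwO : algebraMap O (modularFunctionFieldFullC K N) wO = S18.H99.jdK K N M hMN)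
  (hϖ : maximalIdeal O = Ideal.span {((q : ℕ) : O)})

include hD hN hN₂ hNK htower hφ hwO hϖ

set_option maxHeartbeats 1600000 in
/-- **(E5), inclusion side, case (V), valuative form**: generator `θ = j_{N₂}`, `V₁` the ramified
valuation (`j_{N₂} ≡ j_M`), `V₂` the simple one (`j_{N₂} ≡ j_N^q`). -/
theorem alpha_norm_caseV_val (δ : O) (hδ : wO ^ q - φ X = ((q : ℕ) : O) * δ)
    (hunit : IsUnit (wO - φ X ^ q))
    (V₁ V₂ : ValuationSubring (modularFunctionFieldFullC K N₂))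
    (hO₁ : ∀ x : O, algebraMap O (modularFunctionFieldFullC K N₂) x ∈ V₁)
    (hO₂ : ∀ x : O, algebraMap O (modularFunctionFieldFullC K N₂) x ∈ V₂)
    (hθ₁ : S18.H16.jNK K N₂ - algebraMap O (modularFunctionFieldFullC K N₂) wO ∈ V₁.nonunits)
    (hθ₂ : S18.H16.jNK K N₂ - algebraMap O (modularFunctionFieldFullC K N₂) (φ X ^ q) ∈
      V₂.nonunits)
    (hker₁ : ∀ z ∈ V₁.nonunits, ∃ z' ∈ V₁,
      z ^ (q - 1) = algebraMap O (modularFunctionFieldFullC K N₂) ((q : ℕ) : O) * z')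
    (hker₂ : ∀ z ∈ V₂.nonunits, ∃ z' ∈ V₂,
      z = algebraMap O (modularFunctionFieldFullC K N₂) ((q : ℕ) : O) * z')
    (hex : ∀ V : ValuationSubring (modularFunctionFieldFullC K N₂),
      (∀ x : O, algebraMap O (modularFunctionFieldFullC K N₂) x ∈ V) →
      algebraMap O (modularFunctionFieldFullC K N₂) ((q : ℕ) : O) ∈ V.nonunits →
      V = V₁ ∨ V = V₂)
    {u : modularFunctionFieldFullC K N₂} (c₁ c₂ : O) (hc₁ : IsUnit c₁) (hc₂ : IsUnit c₂)
    (hu₁ : u - algebraMap O (modularFunctionFieldFullC K N₂) c₁ ∈ V₁.nonunits)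
    (hu₂ : u - algebraMap O (modularFunctionFieldFullC K N₂) c₂ ∈ V₂.nonunits) :
    letI := degAlgebra K N N₂ hNN₂
    ∃ m : O, algebraMap O (modularFunctionFieldFullC K N) m =
        Algebra.norm (modularFunctionFieldFullC K N) u ∧
      m - c₁ ^ (q - 1) * c₂ ∈ maximalIdeal O := by
  letI := degAlgebra K N N₂ hNN₂
  haveI := htower
  have hq : q.Prime := Fact.out
  have hM : N = M * q := hN.trans (mul_comm q M)
  have hqN : q ∣ N := Dvd.intro_left _ hM.symm
  have hmp := alpha_minpoly K N N₂ hNN₂ q hq M hM hN₂ hNK D hD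
  have hw := alpha_root K N q M hM D hD
  have hgen := algebra_adjoin_jNK_over_eq_top K N N₂ hNN₂ q hN₂ hNK
  have hfr := finrank_fullC_prime_dvd K N N₂ hNN₂ q hq hqN hN₂ hNK
  haveI := charZero_fullC K N
  obtain ⟨hfd, hsep⟩ := isSeparable_of_finrank_pos' (F := modularFunctionFieldFullC K N)
    (E := modularFunctionFieldFullC K N₂) (by rw [hfr]; exact hq.pos)
  have key := gen_norm_caseV_val (K₀ := modularFunctionFieldFullC K N)
    (L := modularFunctionFieldFullC K N₂) q D hD hmp hw hgen hfr φ hφ wO hwO hϖ δ hδ hunit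
    V₁ V₂ hO₁ hO₂ hθ₁ hθ₂ hker₁ hker₂ hex c₁ c₂ hc₁ hc₂ hu₁ hu₂
  exact key

end Alpha

end Fermat.Agent.S36.H16
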