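/-
S36 / (E2-ram) (helper1): generic `PlaceOverRam` twins of the `PlaceOver` helper lemmas of
`S34/H99_L0Chart.lean` (Part A) and `S34/H55_TwoComponentsIncl.lean` (`res1_mem_of_subfield`),
plus the THREE-factor product-coordinate lemmas (`u = x * y * z`, `u = (x * y * z)⁻¹`) for both
`S36.H6.PlaceOverRam` and `CA.H99.PlaceOver`, as needed for the chart coordinate
`J₃ = j(z) j(qz) j(q²z)` of (E2).

Part 0 (generic: a subring `S ⊆ L` with a reduction map `red : S →+* Fk`):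
* `red_congr`, `red_mul`, `red_inv`;
* `exists_red_mul`, `exists_red_mul_inv`, `exists_red_mul₃`, `exists_red_mul₃_inv`,
  `exists_red_mul_of_isIntegral`, `exists_red_mul₃_of_isIntegral`.

Part 1 (`P : S36.H6.PlaceOverRam ϖ θ τ n ι θb`):
* `PlaceOverRam.hconst`, `PlaceOverRam.hOic`;
* `PlaceOverRam.aeval_mem`, `PlaceOverRam.res1_aeval`, `PlaceOverRam.res1_mem_of_subfield`,
  `PlaceOverRam.res1_mem_fieldRange`;
* `PlaceOverRam.hker`, `PlaceOverRam.res1_τ`, `PlaceOverRam.hτpow`, `PlaceOverRam.hτpow_base`,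
  `PlaceOverRam.res1_uniformizer`;
* `PlaceOverRam.res1_mul`, `PlaceOverRam.res1_inv`;
* `PlaceOverRam.exists_res1_mul`, `PlaceOverRam.exists_res1_mul_inv`,
  `PlaceOverRam.exists_res1_mul₃`, `PlaceOverRam.exists_res1_mul₃_inv`.

Part 2 (`P : CA.H99.PlaceOver ϖ θ ι θb`): `PlaceOver.exists_res1_mul₃`,
`PlaceOver.exists_res1_mul₃_inv` (the two-factor versions are `CA.H99.PlaceOver.exists_res1_mul`,
`.exists_res1_mul_inv` in `S34/H99_L0Chart.lean`).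
-/
import Mathlib
import Fermat.Agent.S36.H6_ThreePlaces

set_option autoImplicit false
set_option linter.unusedSectionVars false

noncomputable section

namespace Fermat.Agent.S36.H1

open Polynomial

/-! ### Part 0: a subring with a reduction map -/

section Generic

variable {L : Type*} [Field L] {Fk : Type*} [Field Fk] (S : Subring L) (red : S →+* Fk)

theorem red_congr {y z : L} (hy : y ∈ S) (hz : z ∈ S) (h : y = z) :
    red ⟨y, hy⟩ = red ⟨z, hz⟩ := by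
  subst h; rfl

/-- the residue of a product. -/
theorem red_mul {x y : L} (hx : x ∈ S) (hy : y ∈ S) :
    red ⟨x * y, S.mul_mem hx hy⟩ = red ⟨x, hx⟩ * red ⟨y, hy⟩ := by
  rw [← map_mul]
  rfl

/-- the residue of an inverse. -/
theorem red_inv (hinv : ∀ (y : L) (hy : y ∈ S), red ⟨y, hy⟩ ≠ 0 → y⁻¹ ∈ S) {x : L} (hx : x ∈ S)
    (hx0 : red ⟨x, hx⟩ ≠ 0) :
    red ⟨x⁻¹, hinv x hx hx0⟩ = (red ⟨x, hx⟩)⁻¹ := by
  have hxne : x ≠ 0 := by
    rintro rfl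
    apply hx0
    have : (⟨(0 : L), hx⟩ : S) = 0 := rfl
    rw [this, map_zero]
  have h1 : (⟨x, hx⟩ : S) * ⟨x⁻¹, hinv x hx hx0⟩ = 1 :=
    Subtype.ext (mul_inv_cancel₀ hxne)
  have h2 := congrArg red h1
  rw [map_mul, map_one] at h2
  exact eq_inv_of_mul_eq_one_right h2

variable {k : Type*} [Field k] {Fk' : Type*} [Field Fk'] [Algebra k Fk']

theorem isIntegral_pow_self (w : Fk') (m : ℕ) : IsIntegral (Algebra.adjoin k {w}) (w ^ m) := by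
  have hmem : w ^ m ∈ Algebra.adjoin k {w} :=
    Subalgebra.pow_mem _ (Algebra.self_mem_adjoin_singleton k w) _
  exact isIntegral_algebraMap (R := Algebra.adjoin k {w}) (x := ⟨_, hmem⟩)

/-- product of two elements whose residues are `incl` of elements integral over `k[w]`. -/
theorem exists_red_mul_of_isIntegral (incl : Fk' →+* Fk) (w : Fk') {x y : L}
    (hx : x ∈ S) (hy : y ∈ S) {γx γy : Fk'}
    (hγx : IsIntegral (Algebra.adjoin k {w}) γx) (hγy : IsIntegral (Algebra.adjoin k {w}) γy)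
    (hxv : red ⟨x, hx⟩ = incl γx) (hyv : red ⟨y, hy⟩ = incl γy) :
    ∃ hu : x * y ∈ S, ∃ γ : Fk', IsIntegral (Algebra.adjoin k {w}) γ ∧
      red ⟨x * y, hu⟩ = incl γ := by
  refine ⟨S.mul_mem hx hy, γx * γy, hγx.mul hγy, ?_⟩
  rw [red_mul S red hx hy, hxv, hyv, map_mul]

/-- product of three elements whose residues are `incl` of elements integral over `k[w]`. -/
theorem exists_red_mul₃_of_isIntegral (incl : Fk' →+* Fk) (w : Fk') {x y z : L}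
    (hx : x ∈ S) (hy : y ∈ S) (hz : z ∈ S) {γx γy γz : Fk'}
    (hγx : IsIntegral (Algebra.adjoin k {w}) γx) (hγy : IsIntegral (Algebra.adjoin k {w}) γy)
    (hγz : IsIntegral (Algebra.adjoin k {w}) γz)
    (hxv : red ⟨x, hx⟩ = incl γx) (hyv : red ⟨y, hy⟩ = incl γy) (hzv : red ⟨z, hz⟩ = incl γz) :
    ∃ hu : x * y * z ∈ S, ∃ γ : Fk', IsIntegral (Algebra.adjoin k {w}) γ ∧
      red ⟨x * y * z, hu⟩ = incl γ := by
  refine ⟨S.mul_mem (S.mul_mem hx hy) hz, γx * γy * γz, (hγx.mul hγy).mul hγz, ?_⟩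
  rw [red_mul S red (S.mul_mem hx hy) hz, red_mul S red hx hy, hxv, hyv, hzv, map_mul, map_mul]

/-- **(hu/hw, chart `J ≠ ∞`, two factors)**. -/
theorem exists_red_mul (incl : Fk' →+* Fk) (w : Fk') {x y : L}
    (hx : x ∈ S) (hy : y ∈ S) (a b : ℕ)
    (hxv : red ⟨x, hx⟩ = incl w ^ a) (hyv : red ⟨y, hy⟩ = incl w ^ b) :
    ∃ hu : x * y ∈ S, ∃ γ : Fk', IsIntegral (Algebra.adjoin k {w}) γ ∧
      red ⟨x * y, hu⟩ = incl γ :=
  exists_red_mul_of_isIntegral S red incl w hx hy (isIntegral_pow_self w a)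
    (isIntegral_pow_self w b) (by rw [hxv, map_pow]) (by rw [hyv, map_pow])

/-- **(hu/hw, chart `J ≠ ∞`, three factors)**: `u = x * y * z ∈ S` with residue
`incl (w ^ (a + b + c))`. -/
theorem exists_red_mul₃ (incl : Fk' →+* Fk) (w : Fk') {x y z : L}
    (hx : x ∈ S) (hy : y ∈ S) (hz : z ∈ S) (a b c : ℕ)
    (hxv : red ⟨x, hx⟩ = incl w ^ a) (hyv : red ⟨y, hy⟩ = incl w ^ b)
    (hzv : red ⟨z, hz⟩ = incl w ^ c) :
    ∃ hu : x * y * z ∈ S, ∃ γ : Fk', IsIntegral (Algebra.adjoin k {w}) γ ∧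
      red ⟨x * y * z, hu⟩ = incl γ :=
  exists_red_mul₃_of_isIntegral S red incl w hx hy hz (isIntegral_pow_self w a)
    (isIntegral_pow_self w b) (isIntegral_pow_self w c) (by rw [hxv, map_pow])
    (by rw [hyv, map_pow]) (by rw [hzv, map_pow])

/-- the residue of `x * y * z` when the residues of the factors are powers of `incl w`. -/
theorem red_mul₃_eq_pow (incl : Fk' →+* Fk) (w : Fk') {x y z : L}
    (hx : x ∈ S) (hy : y ∈ S) (hz : z ∈ S) (a b c : ℕ)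
    (hxv : red ⟨x, hx⟩ = incl w ^ a) (hyv : red ⟨y, hy⟩ = incl w ^ b)
    (hzv : red ⟨z, hz⟩ = incl w ^ c) :
    red ⟨x * y * z, S.mul_mem (S.mul_mem hx hy) hz⟩ = incl w ^ (a + b + c) := by
  rw [red_mul S red (S.mul_mem hx hy) hz, red_mul S red hx hy, hxv, hyv, hzv, pow_add, pow_add]

/-- **(hu/hw, chart `J ≠ 0`, two factors)**: `u = (x * y)⁻¹ ∈ S` with residue
`incl (w⁻¹ ^ (a + b))`. -/
theorem exists_red_mul_inv (hinv : ∀ (y : L) (hy : y ∈ S), red ⟨y, hy⟩ ≠ 0 → y⁻¹ ∈ S)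
    (incl : Fk' →+* Fk) (w : Fk') (hw : w ≠ 0) {x y : L}
    (hx : x ∈ S) (hy : y ∈ S) (a b : ℕ)
    (hxv : red ⟨x, hx⟩ = incl w ^ a) (hyv : red ⟨y, hy⟩ = incl w ^ b) :
    ∃ hu : (x * y)⁻¹ ∈ S, ∃ γ : Fk', IsIntegral (Algebra.adjoin k {w⁻¹}) γ ∧
      red ⟨(x * y)⁻¹, hu⟩ = incl γ := by
  have hiw : incl w ≠ 0 := (map_ne_zero incl).2 hw
  have hres : red ⟨x * y, S.mul_mem hx hy⟩ = incl w ^ (a + b) := by
    rw [red_mul S red hx hy, hxv, hyv, pow_add]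
  have hne : red ⟨x * y, S.mul_mem hx hy⟩ ≠ 0 := by
    rw [hres]
    exact pow_ne_zero _ hiw
  refine ⟨hinv _ _ hne, w⁻¹ ^ (a + b), isIntegral_pow_self w⁻¹ (a + b), ?_⟩
  rw [red_inv S red hinv _ hne, hres, map_pow, map_inv₀, inv_pow]

/-- **(hu/hw, chart `J ≠ 0`, three factors)**: `u = (x * y * z)⁻¹ ∈ S` with residue
`incl (w⁻¹ ^ (a + b + c))`. -/
theorem exists_red_mul₃_inv (hinv : ∀ (y : L) (hy : y ∈ S), red ⟨y, hy⟩ ≠ 0 → y⁻¹ ∈ S)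
    (incl : Fk' →+* Fk) (w : Fk') (hw : w ≠ 0) {x y z : L}
    (hx : x ∈ S) (hy : y ∈ S) (hz : z ∈ S) (a b c : ℕ)
    (hxv : red ⟨x, hx⟩ = incl w ^ a) (hyv : red ⟨y, hy⟩ = incl w ^ b)
    (hzv : red ⟨z, hz⟩ = incl w ^ c) :
    ∃ hu : (x * y * z)⁻¹ ∈ S, ∃ γ : Fk', IsIntegral (Algebra.adjoin k {w⁻¹}) γ ∧
      red ⟨(x * y * z)⁻¹, hu⟩ = incl γ := by
  have hiw : incl w ≠ 0 := (map_ne_zero incl).2 hw
  have hres := red_mul₃_eq_pow S red incl w hx hy hz a b c hxv hyv hzv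
  have hne : red ⟨x * y * z, S.mul_mem (S.mul_mem hx hy) hz⟩ ≠ 0 := by
    rw [hres]
    exact pow_ne_zero _ hiw
  refine ⟨hinv _ _ hne, w⁻¹ ^ (a + b + c), isIntegral_pow_self w⁻¹ (a + b + c), ?_⟩
  rw [red_inv S red hinv _ hne, hres, map_pow, map_inv₀, inv_pow]

end Generic

/-! ### Part 1: `PlaceOverRam` -/

section Ram

variable {O : Type*} [CommRing O] {L : Type*} [Field L] [Algebra O L] {Fk : Type*} [Field Fk]
  {ϖ : O} {θ τ : L} {n : ℕ} {ι : O →+* Fk} {θb : Fk}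

/-- **(hconst)** constants of a base ring `R0 → O` lie in `P.O1` and reduce through `π0`. -/
theorem PlaceOverRam.hconst (P : H6.PlaceOverRam ϖ θ τ n ι θb) {R0 : Type*} [CommRing R0]
    [Algebra R0 L] {k : Type*} [Field k] [Algebra k Fk] (π0 : R0 →+* k) (c0 : R0 →+* O)
    (hc0 : ∀ r : R0, algebraMap R0 L r = algebraMap O L (c0 r))
    (hι : ∀ r : R0, ι (c0 r) = algebraMap k Fk (π0 r)) :
    ∀ r : R0, ∃ h : algebraMap R0 L r ∈ P.O1, P.res1 ⟨_, h⟩ = algebraMap k Fk (π0 r) := by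
  intro r
  have h : algebraMap R0 L r ∈ P.O1 := by
    rw [hc0 r]
    exact P.algebraMap_mem _
  refine ⟨h, ?_⟩
  have h2 : (⟨algebraMap R0 L r, h⟩ : P.O1) =
      ⟨algebraMap O L (c0 r), P.algebraMap_mem (c0 r)⟩ := Subtype.ext (hc0 r)
  rw [h2, P.res1_algebraMap, hι]

/-- **(hOic)** the ring of a ramified place is integrally closed in `L`. -/
theorem PlaceOverRam.hOic (P : H6.PlaceOverRam ϖ θ τ n ι θb) :
    ∀ y : L, IsIntegral P.O1 y → y ∈ P.O1 := by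
  intro y hy
  exact CA.H99.mem_valuationSubring_of_isIntegral P.toValuationSubring (fun a => a.2) hy

theorem PlaceOverRam.aeval_mem (P : H6.PlaceOverRam ϖ θ τ n ι θb) (p : O[X]) :
    aeval θ p ∈ P.O1 := by
  rw [aeval_def, eval₂_eq_sum_range]
  exact Subring.sum_mem _ fun i _ =>
    Subring.mul_mem _ (P.algebraMap_mem _) (Subring.pow_mem _ P.θ_mem _)

/-- `O[X] → O1`, `p ↦ p(θ)`. -/
def PlaceOverRam.aevalHom (P : H6.PlaceOverRam ϖ θ τ n ι θb) : O[X] →+* P.O1 :=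
  ((aeval θ : O[X] →ₐ[O] L) : O[X] →+* L).codRestrict P.O1 (PlaceOverRam.aeval_mem P)

theorem PlaceOverRam.res1_aeval (P : H6.PlaceOverRam ϖ θ τ n ι θb) (p : O[X]) :
    P.res1 ⟨aeval θ p, PlaceOverRam.aeval_mem P p⟩ = p.eval₂ ι θb := by
  have h : P.res1.comp (PlaceOverRam.aevalHom P) = Polynomial.eval₂RingHom ι θb := by
    apply Polynomial.ringHom_ext
    · intro a
      change P.res1 ⟨aeval θ (C a), _⟩ = (C a).eval₂ ι θb
      rw [eval₂_C]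
      exact (red_congr P.O1 P.res1 _ _ (aeval_C θ a)).trans (P.res1_algebraMap a)
    · change P.res1 ⟨aeval θ X, _⟩ = (X : O[X]).eval₂ ι θb
      rw [eval₂_X]
      exact (red_congr P.O1 P.res1 _ _ (aeval_X θ)).trans P.res1_θ
  exact congrFun (congrArg DFunLike.coe h) p

/-- the residues of a `PlaceOverRam` lie in every subfield containing `ι O` and `θb`. -/
theorem PlaceOverRam.res1_mem_of_subfield (P : H6.PlaceOverRam ϖ θ τ n ι θb) (S : Subfield Fk)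
    (hι : ∀ a : O, ι a ∈ S) (hθb : θb ∈ S) (y : L) (hy : y ∈ P.O1) : P.res1 ⟨y, hy⟩ ∈ S := by
  obtain ⟨a, s, hs, hys⟩ := P.exists_repr y hy
  have hev : ∀ p : O[X], p.eval₂ ι θb ∈ S := by
    intro p
    rw [eval₂_eq_sum_range]
    exact S.sum_mem fun i _ => S.mul_mem (hι _) (S.pow_mem hθb i)
  have h1 : (⟨y, hy⟩ : P.O1) * ⟨aeval θ s, PlaceOverRam.aeval_mem P s⟩ =
      ⟨aeval θ a, PlaceOverRam.aeval_mem P a⟩ := Subtype.ext hys
  have h2 := congrArg P.res1 h1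
  rw [map_mul, PlaceOverRam.res1_aeval, PlaceOverRam.res1_aeval] at h2
  have h3 : P.res1 ⟨y, hy⟩ = a.eval₂ ι θb / s.eval₂ ι θb := by
    rw [eq_div_iff hs]
    exact h2
  rw [h3]
  exact S.div_mem (hev a) (hev s)

/-- **(hr)** in the shape of `threeComponents_of_incl`: the residues lie in the field range of an
embedding `incl : Fk' →ₐ[k] Fk` as soon as `ι O` and `θb` do. -/
theorem PlaceOverRam.res1_mem_fieldRange (P : H6.PlaceOverRam ϖ θ τ n ι θb) {k : Type*} [Field k]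
    {Fk' : Type*} [Field Fk'] [Algebra k Fk'] [Algebra k Fk] (incl : Fk' →ₐ[k] Fk)
    (hι : ∀ a : O, ι a ∈ incl.fieldRange) (hθb : θb ∈ incl.fieldRange) :
    ∀ y : P.O1, P.res1 y ∈ incl.fieldRange := by
  rintro ⟨y, hy⟩
  exact PlaceOverRam.res1_mem_of_subfield P incl.fieldRange.toSubfield hι hθb y hy

/-- **(hkerc)** elements with zero residue are `τ ·` (element of `O1`). -/
theorem PlaceOverRam.hker (P : H6.PlaceOverRam ϖ θ τ n ι θb) :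
    ∀ (y : L) (hy : y ∈ P.O1), P.res1 ⟨y, hy⟩ = 0 → ∃ z ∈ P.O1, y = τ * z :=
  fun y hy h => (P.res1_eq_zero_iff y hy).1 h

theorem PlaceOverRam.res1_τ (P : H6.PlaceOverRam ϖ θ τ n ι θb) : P.res1 ⟨τ, P.τ_mem⟩ = 0 := by
  rw [P.res1_eq_zero_iff]
  exact ⟨1, Subring.one_mem _, (mul_one _).symm⟩

/-- **(hτpow)** `τ ^ n = ϖ * v` with `v ∈ O1` (indeed `v` a unit of `O1`). -/
theorem PlaceOverRam.hτpow (P : H6.PlaceOverRam ϖ θ τ n ι θb) (hϖL : algebraMap O L ϖ ≠ 0) :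
    ∃ v ∈ P.O1, τ ^ n = algebraMap O L ϖ * v := by
  obtain ⟨u, _, hu', e⟩ := P.unif_eq
  have hu0 : u ≠ 0 := by
    rintro rfl
    rw [zero_mul] at e
    exact hϖL e
  refine ⟨u⁻¹, hu', ?_⟩
  rw [e, mul_comm u, mul_assoc, mul_inv_cancel₀ hu0, mul_one]

/-- **(hτpow)** with the unit made explicit: `τ ^ n = ϖ * v`, `v, v⁻¹ ∈ O1`. -/
theorem PlaceOverRam.hτpow_unit (P : H6.PlaceOverRam ϖ θ τ n ι θb)
    (hϖL : algebraMap O L ϖ ≠ 0) :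
    ∃ v : L, v ∈ P.O1 ∧ v⁻¹ ∈ P.O1 ∧ v ≠ 0 ∧ τ ^ n = algebraMap O L ϖ * v := by
  obtain ⟨u, hu, hu', e⟩ := P.unif_eq
  have hu0 : u ≠ 0 := by
    rintro rfl
    rw [zero_mul] at e
    exact hϖL e
  refine ⟨u⁻¹, hu', by rwa [inv_inv], inv_ne_zero hu0, ?_⟩
  rw [e, mul_comm u, mul_assoc, mul_inv_cancel₀ hu0, mul_one]

/-- **(hτpow)** over a base ring `R0 → O`, in the shape of `threeComponents_of_incl`. -/
theorem PlaceOverRam.hτpow_base {R0 : Type*} [CommRing R0] [Algebra R0 L] (c0 : R0 →+* O)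
    (hc0 : ∀ r : R0, algebraMap R0 L r = algebraMap O L (c0 r)) {ϖ0 : R0}
    (P : H6.PlaceOverRam (c0 ϖ0) θ τ n ι θb) (hϖL : algebraMap R0 L ϖ0 ≠ 0) :
    ∃ v ∈ P.O1, τ ^ n = algebraMap R0 L ϖ0 * v := by
  rw [hc0 ϖ0] at hϖL ⊢
  exact PlaceOverRam.hτpow P hϖL

theorem PlaceOverRam.res1_uniformizer (P : H6.PlaceOverRam ϖ θ τ n ι θb) (hn : 0 < n) :
    P.res1 ⟨algebraMap O L ϖ, P.algebraMap_mem ϖ⟩ = 0 := by
  obtain ⟨u, hu, _, e⟩ := P.unif_eq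
  rw [P.res1_eq_zero_iff]
  obtain ⟨m, rfl⟩ : ∃ m, n = m + 1 := ⟨n - 1, by omega⟩
  refine ⟨u * τ ^ m, Subring.mul_mem _ hu (Subring.pow_mem _ P.τ_mem _), ?_⟩
  rw [e]
  ring

/-- the residue of a product. -/
theorem PlaceOverRam.res1_mul (P : H6.PlaceOverRam ϖ θ τ n ι θb) {x y : L} (hx : x ∈ P.O1)
    (hy : y ∈ P.O1) :
    P.res1 ⟨x * y, P.O1.mul_mem hx hy⟩ = P.res1 ⟨x, hx⟩ * P.res1 ⟨y, hy⟩ :=
  red_mul P.O1 P.res1 hx hy

/-- the residue of an inverse. -/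
theorem PlaceOverRam.res1_inv (P : H6.PlaceOverRam ϖ θ τ n ι θb) {x : L} (hx : x ∈ P.O1)
    (hx0 : P.res1 ⟨x, hx⟩ ≠ 0) :
    P.res1 ⟨x⁻¹, P.inv_mem x hx hx0⟩ = (P.res1 ⟨x, hx⟩)⁻¹ :=
  red_inv P.O1 P.res1 P.inv_mem hx hx0

variable {k : Type*} [Field k] {Fk' : Type*} [Field Fk'] [Algebra k Fk']

/-- **(hu/hw, chart `J ≠ ∞`)**, twin of `CA.H99.PlaceOver.exists_res1_mul`. -/
theorem PlaceOverRam.exists_res1_mul (P : H6.PlaceOverRam ϖ θ τ n ι θb)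
    (incl : Fk' →+* Fk) (w : Fk') {x y : L}
    (hx : x ∈ P.O1) (hy : y ∈ P.O1) (a b : ℕ)
    (hxv : P.res1 ⟨x, hx⟩ = incl w ^ a) (hyv : P.res1 ⟨y, hy⟩ = incl w ^ b) :
    ∃ hu : x * y ∈ P.O1, ∃ γ : Fk', IsIntegral (Algebra.adjoin k {w}) γ ∧
      P.res1 ⟨x * y, hu⟩ = incl γ :=
  exists_red_mul P.O1 P.res1 incl w hx hy a b hxv hyv

/-- **(hu/hw, chart `J ≠ 0`)**, twin of `CA.H99.PlaceOver.exists_res1_mul_inv`. -/
theorem PlaceOverRam.exists_res1_mul_inv (P : H6.PlaceOverRam ϖ θ τ n ι θb)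
    (incl : Fk' →+* Fk) (w : Fk') (hw : w ≠ 0) {x y : L}
    (hx : x ∈ P.O1) (hy : y ∈ P.O1) (a b : ℕ)
    (hxv : P.res1 ⟨x, hx⟩ = incl w ^ a) (hyv : P.res1 ⟨y, hy⟩ = incl w ^ b) :
    ∃ hu : (x * y)⁻¹ ∈ P.O1, ∃ γ : Fk', IsIntegral (Algebra.adjoin k {w⁻¹}) γ ∧
      P.res1 ⟨(x * y)⁻¹, hu⟩ = incl γ :=
  exists_red_mul_inv P.O1 P.res1 P.inv_mem incl w hw hx hy a b hxv hyv

/-- **(hu/hw at `J₃`, chart `J₃ ≠ ∞`)**: `u = x * y * z`. -/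
theorem PlaceOverRam.exists_res1_mul₃ (P : H6.PlaceOverRam ϖ θ τ n ι θb)
    (incl : Fk' →+* Fk) (w : Fk') {x y z : L}
    (hx : x ∈ P.O1) (hy : y ∈ P.O1) (hz : z ∈ P.O1) (a b c : ℕ)
    (hxv : P.res1 ⟨x, hx⟩ = incl w ^ a) (hyv : P.res1 ⟨y, hy⟩ = incl w ^ b)
    (hzv : P.res1 ⟨z, hz⟩ = incl w ^ c) :
    ∃ hu : x * y * z ∈ P.O1, ∃ γ : Fk', IsIntegral (Algebra.adjoin k {w}) γ ∧
      P.res1 ⟨x * y * z, hu⟩ = incl γ :=
  exists_red_mul₃ P.O1 P.res1 incl w hx hy hz a b c hxv hyv hzv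

/-- **(hu/hw at `J₃⁻¹`, chart `J₃ ≠ 0`)**: `u = (x * y * z)⁻¹`. -/
theorem PlaceOverRam.exists_res1_mul₃_inv (P : H6.PlaceOverRam ϖ θ τ n ι θb)
    (incl : Fk' →+* Fk) (w : Fk') (hw : w ≠ 0) {x y z : L}
    (hx : x ∈ P.O1) (hy : y ∈ P.O1) (hz : z ∈ P.O1) (a b c : ℕ)
    (hxv : P.res1 ⟨x, hx⟩ = incl w ^ a) (hyv : P.res1 ⟨y, hy⟩ = incl w ^ b)
    (hzv : P.res1 ⟨z, hz⟩ = incl w ^ c) :
    ∃ hu : (x * y * z)⁻¹ ∈ P.O1, ∃ γ : Fk', IsIntegral (Algebra.adjoin k {w⁻¹}) γ ∧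
      P.res1 ⟨(x * y * z)⁻¹, hu⟩ = incl γ :=
  exists_red_mul₃_inv P.O1 P.res1 P.inv_mem incl w hw hx hy hz a b c hxv hyv hzv

end Ram

/-! ### Part 2: three-factor versions for `CA.H99.PlaceOver` -/

section Unram

variable {O : Type*} [CommRing O] {L : Type*} [Field L] [Algebra O L] {Fk : Type*} [Field Fk]
  {ϖ : O} {θ : L} {ι : O →+* Fk} {θb : Fk}
  {k : Type*} [Field k] {Fk' : Type*} [Field Fk'] [Algebra k Fk']

/-- **(hu/hw at `J₃`, chart `J₃ ≠ ∞`)** for an unramified place: `u = x * y * z`. -/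
theorem PlaceOver.exists_res1_mul₃ (P : CA.H99.PlaceOver ϖ θ ι θb)
    (incl : Fk' →+* Fk) (w : Fk') {x y z : L}
    (hx : x ∈ P.O1) (hy : y ∈ P.O1) (hz : z ∈ P.O1) (a b c : ℕ)
    (hxv : P.res1 ⟨x, hx⟩ = incl w ^ a) (hyv : P.res1 ⟨y, hy⟩ = incl w ^ b)
    (hzv : P.res1 ⟨z, hz⟩ = incl w ^ c) :
    ∃ hu : x * y * z ∈ P.O1, ∃ γ : Fk', IsIntegral (Algebra.adjoin k {w}) γ ∧
      P.res1 ⟨x * y * z, hu⟩ = incl γ :=
  exists_red_mul₃ P.O1 P.res1 incl w hx hy hz a b c hxv hyv hzv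

/-- **(hu/hw at `J₃⁻¹`, chart `J₃ ≠ 0`)** for an unramified place: `u = (x * y * z)⁻¹`. -/
theorem PlaceOver.exists_res1_mul₃_inv (P : CA.H99.PlaceOver ϖ θ ι θb)
    (incl : Fk' →+* Fk) (w : Fk') (hw : w ≠ 0) {x y z : L}
    (hx : x ∈ P.O1) (hy : y ∈ P.O1) (hz : z ∈ P.O1) (a b c : ℕ)
    (hxv : P.res1 ⟨x, hx⟩ = incl w ^ a) (hyv : P.res1 ⟨y, hy⟩ = incl w ^ b)
    (hzv : P.res1 ⟨z, hz⟩ = incl w ^ c) :
    ∃ hu : (x * y * z)⁻¹ ∈ P.O1, ∃ γ : Fk', IsIntegral (Algebra.adjoin k {w⁻¹}) γ ∧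
      P.res1 ⟨(x * y * z)⁻¹, hu⟩ = incl γ :=
  exists_red_mul₃_inv P.O1 P.res1 P.inv_mem incl w hw hx hy hz a b c hxv hyv hzv

end Unram

end Fermat.Agent.S36.H1
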