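import Mathlib
import Fermat.Agent.CA.H99_TwoPlacesThm
import Fermat.Agent.CA.H99_TowerPlaces

/-!
# S36 / (M1)(g) (helper49): the MIRROR statement under the second embedding `β = V₂`, abstract layer

`F1 → F2` fields with TWO embeddings `ι2 φ : F1 →+* F2` (`ι2` = level inclusion, `φ = V₂`).

* **Lift of a place along a field embedding** (`map_mem_of_repr`, `map_mem_of_placeOver`): a place
  `(QO, Qres)` of `F1` presented over a base ring `O` by a generator `θ` (every element is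
  `a(θ)/s(θ)`, `s̄(θb) ≠ 0`; e.g. a `CA.H99.PlaceOver`) is mapped by `φ` into any "place-like"
  subring `(RO, Rres)` of `F2` which sees the images of the base and of the generator with the
  residues twisted by a ring hom `Ψ` of the residue fields:
  `φ y ∈ RO` and `Rres (φ y) = Ψ (Qres y)` for all `y ∈ QO`.  This is the producer of
  `S36.H46.LiesOver` under `β` (with `Ψ = id` over `P₀`, `Ψ = (t ↦ t^q)` over `P∞`).
* **Containment** (`incl_mem_of_map_mem`): a valuation subring `W` of `F2` in which `φ ϖ` is a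
  non-unit and which contains `φ(S0)` (`S0 = ι(V_L)`) contains `ι2(S0)` as well, as soon as
  "exactly two" is known for the SECOND embedding at the lower level (`hbotV`) and
  `ι2 ∘ V = φ ∘ ι` on the Gauss ring.
* **Separation** (`not_mem_nonunits_of_sep`) and the **mirror statement** (`mirror_places`):
  from "exactly three" (`hex3`) the only place over `Oi` along `φ` is `PB`, the only places over
  `O0` along `φ` are `PA` and `PC`.
-/

set_option autoImplicit false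
set_option linter.unusedSectionVars false

namespace Fermat.Agent.S36.H49

open Polynomial

section Lift

variable {O : Type*} [CommRing O] {F1 : Type*} [Field F1] [Algebra O F1] {Fk : Type*} [Field Fk]
  (QO : Subring F1) (Qres : QO →+* Fk) (θ : F1) (ι : O →+* Fk) (θb : Fk)
  (Qmem : ∀ p : O[X], aeval θ p ∈ QO)
  (Qaeval : ∀ p : O[X], Qres ⟨aeval θ p, Qmem p⟩ = p.eval₂ ι θb)
  (Qrepr : ∀ y ∈ QO, ∃ a s : O[X], s.eval₂ ι θb ≠ 0 ∧ y * aeval θ s = aeval θ a)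
  {F2 : Type*} [Field F2] (φ : F1 →+* F2) (RO : Subring F2) {Fk' : Type*} [Field Fk']
  (Rres : RO →+* Fk')
  (Rinv : ∀ (y : F2) (hy : y ∈ RO), Rres ⟨y, hy⟩ ≠ 0 → y⁻¹ ∈ RO)
  (Ψ : Fk →+* Fk')
  (hO : ∀ a : O, ∃ h : φ (algebraMap O F1 a) ∈ RO, Rres ⟨_, h⟩ = Ψ (ι a))
  (hθ : ∃ h : φ θ ∈ RO, Rres ⟨_, h⟩ = Ψ θb)

include hO hθ in
/-- images of polynomials in `θ` over `O` lie in `RO`, with the twisted residue. -/
theorem map_aeval_mem (s : O[X]) :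
    ∃ h : φ (aeval θ s) ∈ RO, Rres ⟨_, h⟩ = Ψ (s.eval₂ ι θb) := by
  let g : O →+* RO := (φ.comp (algebraMap O F1)).codRestrict RO (fun a => (hO a).1)
  let t : RO := ⟨φ θ, hθ.1⟩
  have hsub : ((eval₂ g t s : RO) : F2) = φ (aeval θ s) := by
    have h1 := Polynomial.hom_eval₂ s g RO.subtype t
    have h2 := Polynomial.hom_eval₂ s (algebraMap O F1) φ θ
    rw [aeval_def, h2]
    exact h1
  have hres : Rres (eval₂ g t s) = Ψ (s.eval₂ ι θb) := by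
    have h1 := Polynomial.hom_eval₂ s g Rres t
    have h2 := Polynomial.hom_eval₂ s ι Ψ θb
    rw [h1, h2]
    have h3 : Rres.comp g = Ψ.comp ι := by
      ext a
      exact (hO a).2
    have h4 : Rres t = Ψ θb := hθ.2
    rw [h3, h4]
  have hmem : φ (aeval θ s) ∈ RO := by
    rw [← hsub]
    exact (eval₂ g t s).2
  refine ⟨hmem, ?_⟩
  rw [← hres]
  exact congrArg Rres (Subtype.ext hsub.symm)

include Qmem Qaeval Qrepr Rinv hO hθ in
/-- **Lift of a presented place along `φ`**: `φ(QO) ⊆ RO`, and `Rres ∘ φ = Ψ ∘ Qres`. -/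
theorem map_mem_of_repr {y : F1} (hy : y ∈ QO) :
    ∃ h : φ y ∈ RO, Rres ⟨_, h⟩ = Ψ (Qres ⟨y, hy⟩) := by
  obtain ⟨a, s, hs, e⟩ := Qrepr y hy
  obtain ⟨hsR, esR⟩ := map_aeval_mem θ ι θb φ RO Rres Ψ hO hθ s
  obtain ⟨haR, eaR⟩ := map_aeval_mem θ ι θb φ RO Rres Ψ hO hθ a
  have hΨs : Ψ (s.eval₂ ι θb) ≠ 0 := (map_ne_zero Ψ).2 hs
  have hsne : Rres ⟨φ (aeval θ s), hsR⟩ ≠ 0 := by
    rw [esR]
    exact hΨs
  have hs0 : φ (aeval θ s) ≠ 0 := by
    intro h0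
    apply hsne
    have : (⟨φ (aeval θ s), hsR⟩ : RO) = 0 := Subtype.ext h0
    rw [this, map_zero]
  have hinv := Rinv _ hsR hsne
  have e' : φ y * φ (aeval θ s) = φ (aeval θ a) := by rw [← map_mul, e]
  have hy' : φ y = φ (aeval θ a) * (φ (aeval θ s))⁻¹ := by
    rw [← e', mul_assoc, mul_inv_cancel₀ hs0, mul_one]
  have hyR : φ y ∈ RO := by
    rw [hy']
    exact RO.mul_mem haR hinv
  refine ⟨hyR, ?_⟩
  have h1 : Rres ⟨φ y, hyR⟩ * Rres ⟨φ (aeval θ s), hsR⟩ = Rres ⟨φ (aeval θ a), haR⟩ := by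
    have : (⟨φ y, hyR⟩ : RO) * ⟨φ (aeval θ s), hsR⟩ = ⟨φ (aeval θ a), haR⟩ := Subtype.ext e'
    rw [← map_mul, this]
  have h2 : Qres ⟨y, hy⟩ * Qres ⟨aeval θ s, Qmem s⟩ = Qres ⟨aeval θ a, Qmem a⟩ := by
    have : (⟨y, hy⟩ : QO) * ⟨aeval θ s, Qmem s⟩ = ⟨aeval θ a, Qmem a⟩ := Subtype.ext e
    rw [← map_mul, this]
  rw [Qaeval, Qaeval] at h2
  rw [esR, eaR, ← h2, map_mul] at h1
  exact mul_right_cancel₀ hΨs h1

end Lift

section LiftPlaceOver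

variable {O : Type*} [CommRing O] {F1 : Type*} [Field F1] [Algebra O F1] {Fk : Type*} [Field Fk]
  {ϖ : O} {θ : F1} {ι : O →+* Fk} {θb : Fk} (P : CA.H99.PlaceOver ϖ θ ι θb)
  {F2 : Type*} [Field F2] (φ : F1 →+* F2) (RO : Subring F2) {Fk' : Type*} [Field Fk']
  (Rres : RO →+* Fk')
  (Rinv : ∀ (y : F2) (hy : y ∈ RO), Rres ⟨y, hy⟩ ≠ 0 → y⁻¹ ∈ RO)
  (Ψ : Fk →+* Fk')
  (hO : ∀ a : O, ∃ h : φ (algebraMap O F1 a) ∈ RO, Rres ⟨_, h⟩ = Ψ (ι a))
  (hθ : ∃ h : φ θ ∈ RO, Rres ⟨_, h⟩ = Ψ θb)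

include Rinv hO hθ in
/-- **Lift of a `PlaceOver` along `φ`** (= `S36.H46.LiesOver φ P R` with the residue of `P` twisted
by `Ψ`). -/
theorem map_mem_of_placeOver {y : F1} (hy : y ∈ P.O1) :
    ∃ h : φ y ∈ RO, Rres ⟨_, h⟩ = Ψ (P.res1 ⟨y, hy⟩) :=
  map_mem_of_repr P.O1 P.res1 θ ι θb P.aeval_mem P.res1_aeval P.exists_repr φ RO Rres Rinv Ψ hO hθ
    hy

include Rinv hO hθ in
/-- containment only. -/
theorem map_mem_O1_of_placeOver {y : F1} (hy : y ∈ P.O1) : φ y ∈ RO :=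
  (map_mem_of_placeOver P φ RO Rres Rinv Ψ hO hθ hy).1

end LiftPlaceOver

section Mirror

variable {F1 F2 : Type*} [Field F1] [Field F2]

/-- **Containment.**  `S0' = V(V_L)`, `S0 = ι(V_L)` inside `F1`; `ι2 ∘ V = φ ∘ ι` (`hcomm`).  If the
valuation subrings of `F1` over `S0'` with `ϖ` a non-unit are `Oi`, `O0` (`hbotV`, "exactly two" for
the second embedding at the lower level) and both contain `S0`, then every valuation subring `W`
of `F2` containing `φ(S0)` with `φ ϖ` a non-unit contains `ι2(S0)`. -/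
theorem incl_mem_of_map_mem (ι2 φ : F1 →+* F2) (ϖ : F1) (S0 S0' : Set F1) (Oi O0 : Subring F1)
    (hϖ : ι2 ϖ = φ ϖ)
    (hcomm : ∀ a ∈ S0', ∃ b ∈ S0, ι2 a = φ b)
    (hbotV : ∀ W1 : ValuationSubring F1, (∀ a ∈ S0', a ∈ W1) → ϖ ∈ W1.nonunits →
      W1.toSubring = Oi ∨ W1.toSubring = O0)
    (hSi : ∀ a ∈ S0, a ∈ Oi) (hS0 : ∀ a ∈ S0, a ∈ O0)
    (W : ValuationSubring F2) (hW : ∀ a ∈ S0, φ a ∈ W) (hWϖ : φ ϖ ∈ W.nonunits) :
    ∀ a ∈ S0, ι2 a ∈ W := by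
  have h1 : ∀ a ∈ S0', a ∈ W.comap ι2 := by
    intro a ha
    obtain ⟨b, hb, e⟩ := hcomm a ha
    rw [ValuationSubring.mem_comap, e]
    exact hW b hb
  have h2 : ϖ ∈ (W.comap ι2).nonunits := by
    rw [CA.H99.mem_nonunits_comap_iff, hϖ]
    exact hWϖ
  intro a ha
  rcases hbotV (W.comap ι2) h1 h2 with h | h
  · have : a ∈ (W.comap ι2).toSubring := h ▸ hSi a ha
    exact this
  · have : a ∈ (W.comap ι2).toSubring := h ▸ hS0 a ha
    exact this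

/-- **Separation.**  If `z = ϖ z'` with `z⁻¹` in one of `Oi`, `O0` and `z'` in one of them, no
valuation subring of `F2` in which `φ ϖ` is a non-unit contains both `φ(Oi)` and `φ(O0)`. -/
theorem not_mem_nonunits_of_sep (φ : F1 →+* F2) (ϖ : F1) (Oi O0 : Subring F1)
    {z z' : F1} (hz : z ≠ 0) (hzi : z⁻¹ ∈ Oi ∨ z⁻¹ ∈ O0) (hz' : z' ∈ Oi ∨ z' ∈ O0)
    (hzz : z = ϖ * z')
    (W : ValuationSubring F2) (hWi : ∀ a ∈ Oi, φ a ∈ W) (hW0 : ∀ a ∈ O0, φ a ∈ W) :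
    φ ϖ ∉ W.nonunits := by
  intro hϖ
  have h1 : φ z⁻¹ ∈ W := hzi.elim (hWi _) (hW0 _)
  have h2 : φ z' ∈ W := hz'.elim (hWi _) (hW0 _)
  have hϖ0 : ϖ ≠ 0 := by
    rintro rfl
    exact hz (by rw [hzz, zero_mul])
  have hz'0 : z' ≠ 0 := by
    rintro rfl
    exact hz (by rw [hzz, mul_zero])
  have e : φ ϖ⁻¹ = φ z' * φ z⁻¹ := by
    rw [← map_mul, hzz]
    congr 1
    field_simp
  have h3 : φ ϖ⁻¹ ∈ W := e ▸ W.mul_mem _ _ h2 h1
  rw [map_inv₀] at h3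
  rw [ValuationSubring.mem_nonunits_iff] at hϖ
  have h4 : W.valuation (φ ϖ)⁻¹ ≤ 1 := (W.valuation_le_one_iff _).2 h3
  have hv0 : W.valuation (φ ϖ) ≠ 0 := (Valuation.ne_zero_iff _).2 ((map_ne_zero φ).2 hϖ0)
  rw [map_inv₀, inv_le_one₀ (zero_lt_iff.2 hv0)] at h4
  exact absurd hϖ (not_lt.2 h4)

/-- **The mirror statement `(g1)` + `(g2)`, abstract form.**  `hex3` = "exactly three" along the
inclusion `ι2`; `hcont` = the containment (`incl_mem_of_map_mem`); `hBi hA0 hC0` = the three lifts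
(`map_mem_O1_of_placeOver`); the separator `z = ϖ z'`. -/
theorem mirror_places (ι2 φ : F1 →+* F2) (ϖ : F1) (S0 : Set F1) (Oi O0 : Subring F1)
    (PA PB PC : Subring F2)
    (hϖ : ι2 ϖ = φ ϖ)
    (hex3 : ∀ W : ValuationSubring F2, (∀ a ∈ S0, ι2 a ∈ W) → ι2 ϖ ∈ W.nonunits →
      W.toSubring = PA ∨ W.toSubring = PB ∨ W.toSubring = PC)
    (hcont : ∀ W : ValuationSubring F2, (∀ a ∈ S0, φ a ∈ W) → φ ϖ ∈ W.nonunits →
      ∀ a ∈ S0, ι2 a ∈ W)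
    (hSi : ∀ a ∈ S0, a ∈ Oi) (hS0 : ∀ a ∈ S0, a ∈ O0)
    (hBi : ∀ a ∈ Oi, φ a ∈ PB) (hA0 : ∀ a ∈ O0, φ a ∈ PA) (hC0 : ∀ a ∈ O0, φ a ∈ PC)
    {z z' : F1} (hz : z ≠ 0) (hzi : z⁻¹ ∈ Oi ∨ z⁻¹ ∈ O0) (hz' : z' ∈ Oi ∨ z' ∈ O0)
    (hzz : z = ϖ * z') :
    (∀ W : ValuationSubring F2, (∀ a ∈ Oi, φ a ∈ W) → φ ϖ ∈ W.nonunits → W.toSubring = PB) ∧
    (∀ W : ValuationSubring F2, (∀ a ∈ O0, φ a ∈ W) → φ ϖ ∈ W.nonunits →
      W.toSubring = PA ∨ W.toSubring = PC) := by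
  have hmem : ∀ {W : ValuationSubring F2} {P : Subring F2}, W.toSubring = P →
      ∀ {x : F2}, x ∈ P → x ∈ W := by
    intro W P h x hx
    have : x ∈ W.toSubring := h ▸ hx
    exact this
  constructor
  · intro W hW hWϖ
    have h3 := hex3 W (hcont W (fun a ha => hW a (hSi a ha)) hWϖ) (hϖ ▸ hWϖ)
    rcases h3 with h | h | h
    · exact absurd hWϖ (not_mem_nonunits_of_sep φ ϖ Oi O0 hz hzi hz' hzz W hW
        (fun a ha => hmem h (hA0 a ha)))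
    · exact h
    · exact absurd hWϖ (not_mem_nonunits_of_sep φ ϖ Oi O0 hz hzi hz' hzz W hW
        (fun a ha => hmem h (hC0 a ha)))
  · intro W hW hWϖ
    have h3 := hex3 W (hcont W (fun a ha => hW a (hS0 a ha)) hWϖ) (hϖ ▸ hWϖ)
    rcases h3 with h | h | h
    · exact Or.inl h
    · exact absurd hWϖ (not_mem_nonunits_of_sep φ ϖ Oi O0 hz hzi hz' hzz W
        (fun a ha => hmem h (hBi a ha)) hW)
    · exact Or.inr h

end Mirror

end Fermat.Agent.S36.H49
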