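import Mathlib
import Fermat.Agent.S35.H16_NormRedBothInst
import Fermat.Agent.S34.H55_L0Base
import Fermat.Agent.S36.H49_MirrorPlaces

/-!
# S36 / (M1)(g) (helper49): level-`q` inputs of the mirror statement, at the real types

`F_M = FullC L₁ M`, `F_N = FullC L₁ (ℓ M)` (`ℓ ∤ M`), `V_M` the level-`M` Gauss ring, `P∞`, `P₀` the
two places of `F_N` over `V_M` ALONG THE INCLUSION (`S34.H55.PlaceInf / PlaceZero`).

* `eq_or_eq_of_valuationSubring_V_of_transport` (generic DVR `O`) and `eq_or_eq_of_valuationSubring_V`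
  (real types): **exactly two along `V_ℓ`** - every valuation subring of `F_N` containing `V_ℓ(V_M)`
  in which `ℓ` is a non-unit is `P∞.O1` or `P₀.O1` (the SAME two subrings as along the inclusion).
  This is `hbotV` of `S36.H49.incl_mem_of_map_mem`.
* `exists_separator` : `z := j ^ ℓ - V_ℓ j = ℓ z'` with `z' ∈ P∞.O1` and `z⁻¹ ∈ P₀.O1`
  (`hz hzi hz' hzz` of `S36.H49.mirror_places`).
-/

set_option autoImplicit false
set_option linter.unusedSectionVars false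
set_option linter.style.haveILetI false
set_option synthInstance.maxHeartbeats 400000

noncomputable section

namespace Fermat.Agent.S36.H49

open ModularCurve Polynomial IsLocalRing Fermat.Agent.S28
open Fermat.Agent.S18 Fermat.Agent.S34.H16 Fermat.Agent.S35.H16

section Both

variable (K : Type) [Field K] [CharZero K] (M N : ℕ) [NeZero M] [NeZero N]
  (q : ℕ) [Fact q.Prime] [NeZero q] (hqM : ¬ q ∣ M) (hN : N = q * M) (hNK : ((N : ℕ) : K) ≠ 0)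
  (D : ModularPolynomialData q)
  (hD : ∀ (k : Type) [Field k] (ζ : kˣ), IsPrimitiveRoot ζ q → RootsAt k q ζ D.Φ)
  {O : Type*} [CommRing O] [IsDomain O] [IsDiscreteValuationRing O]
  [CharP (ResidueField O) q]
  [Algebra O (modularFunctionFieldFullC K M)] [IsFractionRing O (modularFunctionFieldFullC K M)]
  [Algebra O (modularFunctionFieldFullC K N)]
  (φ : ℤ[X] →+* O)
  {k : Type*} [CommRing k] [IsDomain k] (ρ : ResidueField O →+* LaurentSeries k)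
  (hord : ¬ (q : ℤ) ∣ (ρ (residue O (φ X))).order)
  {ϖ : O} (hϖ : maximalIdeal O = Ideal.span {ϖ})
  {Fk : Type*} [Field Fk] (ι : O →+* Fk) (hιϖ : ι ϖ = 0)
  [CharP Fk q] (F' : Fk →+* Fk)

include hqM hN hNK hD hord hϖ hιϖ

set_option maxHeartbeats 1600000 in
/-- **Exactly two along `V_q`, in terms of the places of the inclusion side** (generic `O`). -/
theorem eq_or_eq_of_valuationSubring_V_of_transport
    (htower : letI := vAlgebra K q M N (dvd_of_eq hN.symm)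
      IsScalarTower O (modularFunctionFieldFullC K M) (modularFunctionFieldFullC K N))
    (hφ : algebraMap O (modularFunctionFieldFullC K M) (φ X) = S18.H16.jK K M)
    (hFj : F' (ι (φ X)) = ι (φ X) ^ q)
    {O₂ : Type*} [CommRing O₂] [iP : Algebra O₂ (modularFunctionFieldFullC K N)]
    {ϖi : O₂} {θi : modularFunctionFieldFullC K N} {ιi ιz : O₂ →+* Fk} {θbi θbz : Fk}
    (Pinf : CA.H99.PlaceOver ϖi θi ιi θbi) (P0 : CA.H99.PlaceOver ϖi θi ιz θbz)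
    (Tinf : ∀ a : O, ∃ h : algebraMap O (modularFunctionFieldFullC K N) a ∈ Pinf.O1,
      Pinf.res1 ⟨_, h⟩ = F' (ι a))
    (T0 : ∀ a : O, ∃ h : algebraMap O (modularFunctionFieldFullC K N) a ∈ P0.O1,
      P0.res1 ⟨_, h⟩ = ι a)
    (Jinf : ∃ h : S18.H16.jK K N ∈ Pinf.O1, Pinf.res1 ⟨_, h⟩ = ι (φ X))
    (J0 : ∃ h : S18.H16.jK K N ∈ P0.O1, P0.res1 ⟨_, h⟩ = ι (φ X) ^ q)
    (W : ValuationSubring (modularFunctionFieldFullC K N))
    (hOW : ∀ a : O, algebraMap O (modularFunctionFieldFullC K N) a ∈ W)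
    (hϖW : algebraMap O (modularFunctionFieldFullC K N) ϖ ∈ W.nonunits) :
    W.toSubring = Pinf.O1 ∨ W.toSubring = P0.O1 := by
  obtain ⟨Qlin, Qpow, e1, e2, -, -⟩ := exists_placeV_eq_of_transport K M N q hqM hN hNK D hD φ ρ
    hord hϖ ι hιϖ F' htower hφ hFj Pinf P0 Tinf T0 Jinf J0
  have hq : q.Prime := Fact.out
  letI := vAlgebra K q M N (dvd_of_eq hN.symm)
  haveI := htower
  have hrel := vAlgebra_rel K q M N (dvd_of_eq hN.symm) D hD
  have hιϖ' : (F'.comp ι) ϖ = 0 := by rw [RingHom.comp_apply, hιϖ, map_zero]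
  have key := CA.H99.eq_or_eq_of_valuationSubring
    (f := D.Φ.map φ) (g₁ := X - C (φ X ^ q)) (g₂ := X ^ q - C (φ X)) (D.monic.map φ)
    (S34.H6.map_map_kronecker q D hD φ (residue O))
    (S34.H6.irreducible_map_X_sub_C (residue O) _)
    (S34.H6.irreducible_map_X_pow_sub_C_of_order (residue O) q hq ρ (φ X) hord)
    hϖ (S18.H16.jK K N) (aeval_map_eq_zero hrel φ hφ)
    hιϖ (θb₁ := ι (φ X) ^ q)
    (by rw [eval₂_sub, eval₂_X, eval₂_C, map_pow, sub_self])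
    hιϖ' (θb₂ := ι (φ X))
    (by rw [eval₂_sub, eval₂_pow, eval₂_X, eval₂_C, RingHom.comp_apply, hFj, sub_self])
    Qlin Qpow W hOW hϖW
  rcases key with h | h
  · exact Or.inr (h.trans e1)
  · exact Or.inl (h.trans e2)

end Both

section Aux

variable {L Fk : Type*} [Field L] [Field Fk] (S : Subring L) (res : S →+* Fk)

theorem res_pow_sub {a b : L} (ha : a ∈ S) (hb : b ∈ S) (n : ℕ) :
    ∃ h : a ^ n - b ∈ S, res ⟨_, h⟩ = res ⟨a, ha⟩ ^ n - res ⟨b, hb⟩ := by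
  refine ⟨S.sub_mem (S.pow_mem ha n) hb, ?_⟩
  have : (⟨a ^ n - b, S.sub_mem (S.pow_mem ha n) hb⟩ : S) = (⟨a, ha⟩ : S) ^ n - ⟨b, hb⟩ := rfl
  rw [this, map_sub, map_pow]

theorem res_eq_zero_of_eq_zero {a : L} (ha : a ∈ S) (h0 : a = 0) : res ⟨a, ha⟩ = 0 := by
  have : (⟨a, ha⟩ : S) = 0 := Subtype.ext h0
  rw [this, map_zero]

end Aux

section Inst

local notation "Qbar" => AlgebraicClosure ℚ

open Fermat.Agent.S34.H92

variable (M : ℕ) [NeZero M] {ℓ : ℕ} [hℓ : Fact ℓ.Prime] (hℓM : ¬ ℓ ∣ M)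
  (A : ValuationSubring Qbar) (hA : A.LiesOverPrime ℓ)

local notation "kA" => IsLocalRing.ResidueField A
local notation "L₁" => H45.unrCyclo ℓ
local notation "FM" => modularFunctionFieldFullC (H45.unrCyclo ℓ) M
local notation "FN" => modularFunctionFieldFullC (H45.unrCyclo ℓ) (ℓ * M)
local notation "V" => VM M hℓM A hA

set_option maxHeartbeats 1600000 in
/-- the four transport facts of the two inclusion-side places, for `V_ℓ` and `j`. -/
theorem transport_facts :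
    letI := algebraVMFN M hℓM A hA
    ∀ (Pinf : CA.H99.PlaceOver (L := FN) ((ℓ : ℕ) : V) (S18.H16.jNK L₁ (ℓ * M))
        (resM M hℓM A hA) (resM M hℓM A hA (jMV M hℓM A hA) ^ ℓ))
      (P0 : CA.H99.PlaceOver (L := FN) ((ℓ : ℕ) : V) (S18.H16.jNK L₁ (ℓ * M))
        (iotaZero M hℓM A hA) (resM M hℓM A hA (jMV M hℓM A hA))),
      (∀ a : V, ∃ h : S34.H36.vSub L₁ ℓ M (ℓ * M) dvd_rfl (a : FM) ∈ Pinf.O1,
        Pinf.res1 ⟨_, h⟩ = qExpand kA ℓ (resM M hℓM A hA a)) ∧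
      (∀ a : V, ∃ h : S34.H36.vSub L₁ ℓ M (ℓ * M) dvd_rfl (a : FM) ∈ P0.O1,
        P0.res1 ⟨_, h⟩ = resM M hℓM A hA a) ∧
      (∃ h : S18.H16.jK L₁ (ℓ * M) ∈ Pinf.O1,
        Pinf.res1 ⟨_, h⟩ = resM M hℓM A hA (phiVj M hℓM A hA X)) ∧
      (∃ h : S18.H16.jK L₁ (ℓ * M) ∈ P0.O1,
        P0.res1 ⟨_, h⟩ = resM M hℓM A hA (phiVj M hℓM A hA X) ^ ℓ) := by
  letI iι := algebraVMFN M hℓM A hA
  intro Pinf P0
  have HPinf := S34.H6.isPlaceData_of_placeOver' M hℓM A hA Pinf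
  have HP0 := S34.H6.isPlaceData_of_placeOver' M hℓM A hA P0
  refine ⟨fun a => HPinf.transport_vSub_infty rfl rfl (by rw [resM_jMV]) a,
    fun a => HP0.transport_vSub_zero rfl rfl (resM_jMV M hℓM A hA) a, ?_, ?_⟩
  · rw [phiVj_X]
    exact HPinf.jK_mem
  · obtain ⟨h, e⟩ := HP0.jK_mem
    refine ⟨h, ?_⟩
    rw [e, phiVj_X, iotaZero_apply]
    exact qExpand_resM_jV M hℓM A hA

set_option maxHeartbeats 1600000 in
/-- **Exactly two along `V_ℓ` at the real types**: a valuation subring of `F_N` containing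
`V_ℓ(V_M)` in which `ℓ` is a non-unit is `P∞.O1` or `P₀.O1`. -/
theorem eq_or_eq_of_valuationSubring_V (D : ModularPolynomialData ℓ)
    (hD : ∀ (k : Type) [Field k] (ζ : kˣ), IsPrimitiveRoot ζ ℓ → RootsAt k ℓ ζ D.Φ)
    (Pi : S34.H55.PlaceInf M hℓM A hA) (P0 : S34.H55.PlaceZero M hℓM A hA)
    (W : ValuationSubring FN)
    (hOW : ∀ a : V, S34.H55.VMN M (ℓ := ℓ) (a : FM) ∈ W)
    (hϖW : ((ℓ : ℕ) : FN) ∈ W.nonunits) :
    W.toSubring = S34.H55.PO1 M hℓM A hA Pi ∨ W.toSubring = S34.H55.PO1 M hℓM A hA P0 := by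
  letI iι := algebraVMFN M hℓM A hA
  haveI := isDiscreteValuationRing_VM M hℓM A hA
  obtain ⟨Tinf, T0, Jinf, J0⟩ := transport_facts M hℓM A hA Pi P0
  haveI := charP_residueField_VM M hℓM A hA
  haveI := charP_laurent A hA
  have Tinf' : ∀ a : V, ∃ h : @algebraMap V FN _ _ (algebraVMFNv M hℓM A hA) a ∈ Pi.O1,
      Pi.res1 ⟨_, h⟩ = qExpand kA ℓ (resM M hℓM A hA a) := by
    intro a
    rw [algebraMap_VMFNv_apply]
    exact Tinf a
  have T0' : ∀ a : V, ∃ h : @algebraMap V FN _ _ (algebraVMFNv M hℓM A hA) a ∈ P0.O1,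
      P0.res1 ⟨_, h⟩ = resM M hℓM A hA a := by
    intro a
    rw [algebraMap_VMFNv_apply]
    exact T0 a
  have hOW' : ∀ a : V, @algebraMap V FN _ _ (algebraVMFNv M hℓM A hA) a ∈ W := by
    intro a
    rw [algebraMap_VMFNv_apply]
    exact hOW a
  have hϖW' : @algebraMap V FN _ _ (algebraVMFNv M hℓM A hA) ((ℓ : ℕ) : V) ∈ W.nonunits := by
    rw [map_natCast]
    exact hϖW
  letI := vAlgebra L₁ ℓ M (ℓ * M) dvd_rfl
  letI iV := algebraVMFNv M hℓM A hA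
  exact eq_or_eq_of_valuationSubring_V_of_transport L₁ M (ℓ * M) ℓ hℓM rfl
    (natCast_level_ne_zero M) D hD
    (phiVj M hℓM A hA) (rhoV M hℓM A hA) (not_dvd_order_rhoV_jV M hℓM A hA)
    (maximalIdeal_VM M hℓM A hA) (resM M hℓM A hA) (resM_natCast M hℓM A hA) (qExpand kA ℓ)
    (isScalarTower_VMFNv M hℓM A hA) (algebraMap_phiVj_X M hℓM A hA)
    (by rw [phiVj_X]; exact qExpand_resM_jV M hℓM A hA)
    (iP := iι) Pi P0 Tinf' T0' Jinf J0 W hOW' hϖW'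

set_option maxHeartbeats 1600000 in
/-- **The separator**: `z := j ^ ℓ - V_ℓ j` is `ℓ ·` (an element of `P∞.O1`), and a unit of
`P₀.O1`. -/
theorem exists_separator (Pi : S34.H55.PlaceInf M hℓM A hA) (P0 : S34.H55.PlaceZero M hℓM A hA) :
    ∃ z z' : FN, z ≠ 0 ∧ z⁻¹ ∈ S34.H55.PO1 M hℓM A hA P0 ∧ z' ∈ S34.H55.PO1 M hℓM A hA Pi ∧
      z = ((ℓ : ℕ) : FN) * z' := by
  letI iι := algebraVMFN M hℓM A hA
  obtain ⟨Tinf, T0, Jinf, J0⟩ := transport_facts M hℓM A hA Pi P0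
  obtain ⟨hji, eji⟩ := Jinf
  obtain ⟨hj0, ej0⟩ := J0
  obtain ⟨hvi, evi⟩ := Tinf (jV M hℓM A hA)
  obtain ⟨hv0, ev0⟩ := T0 (jV M hℓM A hA)
  rw [phiVj_X] at eji ej0
  rw [qExpand_resM_jV] at evi
  -- at `P∞`
  obtain ⟨hzi, ezi⟩ := res_pow_sub Pi.O1 Pi.res1 hji hvi ℓ
  rw [eji, evi, sub_self] at ezi
  obtain ⟨z', hz', ez'⟩ := (Pi.res1_eq_zero_iff _ hzi).1 ezi
  -- at `P₀`
  obtain ⟨hz0, ez0⟩ := res_pow_sub P0.O1 P0.res1 hj0 hv0 ℓ
  rw [ej0, ev0, ← pow_mul] at ez0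
  have hne : P0.res1 ⟨_, hz0⟩ ≠ 0 := by
    rw [ez0, sub_ne_zero]
    refine S34.H6.pow_ne_self_of_order ℓ hℓ.out.two_le (RingHom.id (LaurentSeries kA)) _ ?_
    rw [RingHom.id_apply, resM_jV, S28.H39.order_jqModC]
    exact neg_ne_zero.2 one_ne_zero
  refine ⟨_, z', ?_, P0.inv_mem _ hz0 hne, hz', ?_⟩
  · intro h0
    exact hne (res_eq_zero_of_eq_zero P0.O1 P0.res1 hz0 h0)
  · rw [ez', map_natCast]

local notation "FN2" => modularFunctionFieldFullC (H45.unrCyclo ℓ) (ℓ * (ℓ * M))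

/-- `ι₂ ∘ V = V₂ ∘ ι` (`e_v`). -/
theorem iotaMN_VMN_comm (c : FM) :
    S34.H55.iotaMN (ℓ * M) (ℓ := ℓ) (S34.H55.VMN M (ℓ := ℓ) c) =
      S34.H55.VMN (ℓ * M) (ℓ := ℓ) (S34.H55.iotaMN M (ℓ := ℓ) c) := by
  apply Subtype.ext
  rw [S34.H55.coe_iotaMN, S34.H55.coe_VMN, S34.H55.coe_VMN, S34.H55.coe_iotaMN]

set_option maxHeartbeats 1600000 in
/-- **Containment at the real types**: a valuation subring `W` of `F₂ = FullC L₁ (ℓ (ℓ M))` in
which `ℓ` is a non-unit and which contains `e_v(V_M) = V₂(ι(V_M))` contains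
`e_w(V_M) = ι₂(ι(V_M))`. -/
theorem incl_mem_of_VMN_mem (D : ModularPolynomialData ℓ)
    (hD : ∀ (k : Type) [Field k] (ζ : kˣ), IsPrimitiveRoot ζ ℓ → RootsAt k ℓ ζ D.Φ)
    (Pi : S34.H55.PlaceInf M hℓM A hA) (P0 : S34.H55.PlaceZero M hℓM A hA)
    (W : ValuationSubring FN2)
    (hW : ∀ c : V, S34.H55.VMN (ℓ * M) (ℓ := ℓ) (S34.H55.iotaMN M (ℓ := ℓ) (c : FM)) ∈ W)
    (hWℓ : ((ℓ : ℕ) : FN2) ∈ W.nonunits) (c : V) :
    S34.H55.iotaMN (ℓ * M) (ℓ := ℓ) (S34.H55.iotaMN M (ℓ := ℓ) (c : FM)) ∈ W := by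
  have key := incl_mem_of_map_mem (S34.H55.iotaMN (ℓ * M) (ℓ := ℓ)) (S34.H55.VMN (ℓ * M) (ℓ := ℓ))
    ((ℓ : ℕ) : FN) {a | ∃ c : V, a = S34.H55.iotaMN M (ℓ := ℓ) (c : FM)}
    {a | ∃ c : V, a = S34.H55.VMN M (ℓ := ℓ) (c : FM)}
    (S34.H55.PO1 M hℓM A hA Pi) (S34.H55.PO1 M hℓM A hA P0)
    (by rw [map_natCast, map_natCast])
    (by
      rintro a ⟨c, rfl⟩
      exact ⟨_, ⟨c, rfl⟩, iotaMN_VMN_comm M (ℓ := ℓ) (c : FM)⟩)
    (by
      intro W1 h1 h2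
      exact eq_or_eq_of_valuationSubring_V M hℓM A hA D hD Pi P0 W1 (fun a => h1 _ ⟨a, rfl⟩) h2)
    (by
      rintro a ⟨c, rfl⟩
      exact (S34.H55.iotaMN_mem M hℓM A hA Pi (c : FM) c.2).1)
    (by
      rintro a ⟨c, rfl⟩
      exact (S34.H55.iotaMN_mem M hℓM A hA P0 (c : FM) c.2).1)
    W
    (by
      rintro a ⟨c, rfl⟩
      exact hW c)
    (by rw [map_natCast]; exact hWℓ)
  exact key _ ⟨c, rfl⟩

end Inst

end Fermat.Agent.S36.H49
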