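/-
S36 / (M1) L0-36, BASE LAYER (helper55): the real types for the three places of
`F₂ = FullC L₁ (q * (q * L))` over the level-`L` Gauss ring (`q ∤ L`).

Tower `F₀ = FullC L₁ L ⊆ F₁ = FullC L₁ (q * L) ⊆ F₂`, bottom places = the landed S34 places
`Pi : S34.H55.PlaceInf L hqL A hA`, `P0 : S34.H55.PlaceZero L hqL A hA` of `F₁` over `V_L`.
`w = j_L`, `v = j_{qL}`, `u = θ₂ = j_{q²L}`; `Φ_q(X, v)` has the roots `w` and `u`.

* `PlaceA` over `P0` (where `w ≡ v^q`): `e = 1`, `f = q` inseparable, `u ↦ j̄_L`;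
* `PlaceB` over `Pi` (where `v ≡ w^q`): `e = f = 1`, `u ↦ j̄_L^(q²)` (Gauss valuation);
* `PlaceC` over `Pi`: `e = q - 1`, `f = 1`, uniformiser `u - w`, `u ↦ j̄_L`.
-/
import Fermat.Agent.S34.H55_L0Final
import Fermat.Agent.S36.H6_ThreePlaces
import Fermat.Agent.S36.H6_PlaceDVR

set_option autoImplicit false
set_option linter.unusedSectionVars false
set_option linter.style.haveILetI false
set_option synthInstance.maxHeartbeats 400000

noncomputable section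

namespace Fermat.Agent.S36.H55

open ModularCurve Polynomial IsLocalRing
open Fermat.Agent.S18 Fermat.Agent.S34.H92 Fermat.Agent.S34.H16 Fermat.Agent.S34.H55

local notation "Qbar" => AlgebraicClosure ℚ

section L0Three

variable (L : ℕ) [NeZero L] {q : ℕ} [hq : Fact q.Prime] (hqL : ¬ q ∣ L)
  (A : ValuationSubring Qbar) (hA : A.LiesOverPrime q)

local notation "kA" => IsLocalRing.ResidueField A
local notation "A₁" => H45.A0 A q
local notation "L₁" => H45.unrCyclo q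
local notation "F0" => modularFunctionFieldFullC (H45.unrCyclo q) L
local notation "F1" => modularFunctionFieldFullC (H45.unrCyclo q) (q * L)
local notation "F2" => modularFunctionFieldFullC (H45.unrCyclo q) (q * (q * L))
local notation "Fk0" => modularFunctionFieldFullC (IsLocalRing.ResidueField A) L

/-- the level inclusion `F₁ ⊆ F₂`. -/
def iota2 : F1 →+* F2 := iotaMN (q * L) (ℓ := q)

/-- the substitution `t ↦ t ^ q`, `F₁ → F₂`. -/
def V2 : F1 →+* F2 := VMN (q * L) (ℓ := q)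

theorem coe_iota2 (x : F1) : ((iota2 L (q := q) x : F2) : LaurentSeries L₁) = x :=
  coe_iotaMN (q * L) x

theorem coe_V2 (x : F1) :
    ((V2 L (q := q) x : F2) : LaurentSeries L₁) = qExpand L₁ q (x : LaurentSeries L₁) :=
  coe_VMN (q * L) x

/-- `x(t) ↦ x(t)`, `F₀ → F₂`. -/
def eW : F0 →+* F2 := (iota2 L (q := q)).comp (iotaMN L (ℓ := q))

/-- `x(t) ↦ x(t^q)`, `F₀ → F₂`. -/
def eV : F0 →+* F2 := (iota2 L (q := q)).comp (VMN L (ℓ := q))

/-- `x(t) ↦ x(t^(q^2))`, `F₀ → F₂`. -/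
def eU : F0 →+* F2 := (V2 L (q := q)).comp (VMN L (ℓ := q))

theorem coe_eW (x : F0) : ((eW L (q := q) x : F2) : LaurentSeries L₁) = x := by
  rw [eW, RingHom.comp_apply, coe_iota2, coe_iotaMN]

theorem coe_eV (x : F0) :
    ((eV L (q := q) x : F2) : LaurentSeries L₁) = qExpand L₁ q (x : LaurentSeries L₁) := by
  rw [eV, RingHom.comp_apply, coe_iota2, coe_VMN]

theorem coe_eU (x : F0) :
    ((eU L (q := q) x : F2) : LaurentSeries L₁) =
      qExpand L₁ q (qExpand L₁ q (x : LaurentSeries L₁)) := by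
  rw [eU, RingHom.comp_apply, coe_V2, coe_VMN]

theorem eV_eq_V2_comp : eV L (q := q) = (V2 L (q := q)).comp (iotaMN L (ℓ := q)) := by
  refine RingHom.ext fun x => Subtype.ext ?_
  rw [coe_eV, RingHom.comp_apply, coe_V2, coe_iotaMN]


/-! ### The base rings `O = PO1 P ⊆ F₁` and the algebra structure `O → F₂` -/

/-- `PO1 P → F₂`: the composite `PO1 P ⊆ F₁ ⊆ F₂`. -/
abbrev algPO1F2 {ι' : ↥(VM L hqL A hA) →+* LaurentSeries kA} {θb : LaurentSeries kA}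
    (P : PlaceGen L hqL A hA ι' θb) : Algebra ↥(PO1 L hqL A hA P) F2 :=
  ((iota2 L (q := q)).comp (PO1 L hqL A hA P).subtype).toAlgebra

theorem algPO1F2_algebraMap {ι' : ↥(VM L hqL A hA) →+* LaurentSeries kA} {θb : LaurentSeries kA}
    (P : PlaceGen L hqL A hA ι' θb) (x : ↥(PO1 L hqL A hA P)) :
    @algebraMap ↥(PO1 L hqL A hA P) F2 _ _ (algPO1F2 L hqL A hA P) x = iota2 L (q := q) x.1 :=
  rfl

/-- `w = j_L` as an element of the place ring. -/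
def wO {ι' : ↥(VM L hqL A hA) →+* LaurentSeries kA} {θb : LaurentSeries kA}
    (P : PlaceGen L hqL A hA ι' θb) : ↥(PO1 L hqL A hA P) :=
  ⟨iotaMN L (ℓ := q) (S18.H16.jNK L₁ L),
    (iotaMN_mem L hqL A hA P _ (jNK_mem_VM L hqL A hA).1).1⟩

theorem Pres1_wO {ι' : ↥(VM L hqL A hA) →+* LaurentSeries kA} {θb : LaurentSeries kA}
    (P : PlaceGen L hqL A hA ι' θb) :
    Pres1 L hqL A hA P (wO L hqL A hA P) = ι' (jMV L hqL A hA) :=
  (iotaMN_mem L hqL A hA P _ (jNK_mem_VM L hqL A hA).1).2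

/-- `v = j_{qL}` as an element of the place ring. -/
def vO {ι' : ↥(VM L hqL A hA) →+* LaurentSeries kA} {θb : LaurentSeries kA}
    (P : PlaceGen L hqL A hA ι' θb) : ↥(PO1 L hqL A hA P) :=
  ⟨S18.H16.jNK L₁ (q * L), (jN_mem L hqL A hA P).1⟩

theorem Pres1_vO {ι' : ↥(VM L hqL A hA) →+* LaurentSeries kA} {θb : LaurentSeries kA}
    (P : PlaceGen L hqL A hA ι' θb) : Pres1 L hqL A hA P (vO L hqL A hA P) = θb :=
  (jN_mem L hqL A hA P).2

/-- `u = θ₂ = j_{q²L}`, the generator of `F₂ / F₁`. -/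
abbrev theta2 : F2 := S18.H16.jNK L₁ (q * (q * L))

/-- `w` as an element of `F₂`. -/
abbrev w2 : F2 := eW L (q := q) (S18.H16.jNK L₁ L)

/-- `v` as an element of `F₂`. -/
abbrev v2 : F2 := iota2 L (q := q) (S18.H16.jNK L₁ (q * L))

/-! ### The three place types -/

/-- reduction on `PO1 P0` for the place `A`: `qExpand ∘ Pres1 P0`. -/
def iotaA (P0 : PlaceZero L hqL A hA) : ↥(PO1 L hqL A hA P0) →+* LaurentSeries kA :=
  (qExpand kA q).comp (Pres1 L hqL A hA P0)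

theorem iotaA_apply (P0 : PlaceZero L hqL A hA) (x : ↥(PO1 L hqL A hA P0)) :
    iotaA L hqL A hA P0 x = qExpand kA q (Pres1 L hqL A hA P0 x) := rfl

/-- `j̄_L`. -/
abbrev xbar : LaurentSeries kA := resM L hqL A hA (jMV L hqL A hA)

/-- **Place `A`** of `F₂` over `PO1 P0`: `e = 1`, `f = q` (inseparable); `u ↦ j̄_L`. -/
abbrev PlaceA (P0 : PlaceZero L hqL A hA) : Type :=
  @CA.H99.PlaceOver ↥(PO1 L hqL A hA P0) _ ↥F2 _ (algPO1F2 L hqL A hA P0) (LaurentSeries kA) _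
    ((q : ℕ) : ↥(PO1 L hqL A hA P0)) (theta2 L (q := q)) (iotaA L hqL A hA P0) (xbar L hqL A hA)

/-- **Place `B`** of `F₂` over `PO1 Pi`: `e = f = 1`; `u ↦ j̄_L^(q²)`. -/
abbrev PlaceB (Pi : PlaceInf L hqL A hA) : Type :=
  @CA.H99.PlaceOver ↥(PO1 L hqL A hA Pi) _ ↥F2 _ (algPO1F2 L hqL A hA Pi) (LaurentSeries kA) _
    ((q : ℕ) : ↥(PO1 L hqL A hA Pi)) (theta2 L (q := q)) (Pres1 L hqL A hA Pi)
    ((xbar L hqL A hA ^ q) ^ q)

/-- **Place `C`** of `F₂` over `PO1 Pi`: `e = q - 1`, `f = 1`, uniformiser `u - w`; `u ↦ j̄_L`. -/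
abbrev PlaceC (Pi : PlaceInf L hqL A hA) : Type :=
  @S36.H6.PlaceOverRam ↥(PO1 L hqL A hA Pi) _ ↥F2 _ (algPO1F2 L hqL A hA Pi) (LaurentSeries kA) _
    ((q : ℕ) : ↥(PO1 L hqL A hA Pi)) (theta2 L (q := q))
    (theta2 L (q := q) - @algebraMap ↥(PO1 L hqL A hA Pi) F2 _ _ (algPO1F2 L hqL A hA Pi)
      (wO L hqL A hA Pi)) (q - 1) (Pres1 L hqL A hA Pi)
    (Pres1 L hqL A hA Pi (wO L hqL A hA Pi))


/-! ### The base rings are discrete valuation rings with fraction field `F₁` -/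

section BaseDVR

theorem natCast_level1_ne_zero : (((q * L : ℕ) : ℕ) : L₁) ≠ 0 :=
  Nat.cast_ne_zero.2 (NeZero.ne (q * L))

theorem natCast_level2_ne_zero : (((q * (q * L) : ℕ) : ℕ) : L₁) ≠ 0 :=
  Nat.cast_ne_zero.2 (NeZero.ne (q * (q * L)))

/-- `PO1 P` is a discrete valuation ring. -/
theorem isDiscreteValuationRing_PO1 {ι' : ↥(VM L hqL A hA) →+* LaurentSeries kA} {θb : LaurentSeries kA}
    (P : PlaceGen L hqL A hA ι' θb) : IsDiscreteValuationRing ↥(PO1 L hqL A hA P) := by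
  letI := degAlgebra L₁ L (q * L) (dvd_level L)
  letI := algebraVMFN L hqL A hA
  haveI := isDiscreteValuationRing_VM L hqL A hA
  haveI := isScalarTower_VMFN L hqL A hA
  haveI : FiniteDimensional F0 F1 :=
    finiteDimensional_fullC_prime L₁ L (q * L) (dvd_level L) q hq.out hqL rfl
      (natCast_level1_ne_zero L)
  haveI : Algebra.IsAlgebraic F0 F1 := Algebra.IsAlgebraic.of_finite F0 F1
  exact S36.H6.isDiscreteValuationRing_placeOver (K := F0) (maximalIdeal_VM L hqL A hA) P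

/-- the maximal ideal of `PO1 P` is generated by `q`. -/
theorem maximalIdeal_PO1 {ι' : ↥(VM L hqL A hA) →+* LaurentSeries kA} {θb : LaurentSeries kA}
    (P : PlaceGen L hqL A hA ι' θb) :
    haveI := isDiscreteValuationRing_PO1 L hqL A hA P
    maximalIdeal ↥(PO1 L hqL A hA P) = Ideal.span {((q : ℕ) : ↥(PO1 L hqL A hA P))} := by
  letI := algebraVMFN L hqL A hA
  haveI := isDiscreteValuationRing_VM L hqL A hA
  haveI hdvr := isDiscreteValuationRing_PO1 L hqL A hA P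
  haveI : IsLocalRing ↥P.O1 := hdvr.toIsLocalRing
  have h := S36.H6.maximalIdeal_placeOver P
  have e : S36.H6.unifOf P = ((q : ℕ) : ↥(PO1 L hqL A hA P)) := by
    apply Subtype.ext
    show algebraMap ↥(VM L hqL A hA) ↥F1 ((q : ℕ) : ↥(VM L hqL A hA)) = _
    rw [map_natCast]
    rfl
  rw [← e]
  exact h

/-- `F₁` is the fraction field of `PO1 P`. -/
theorem isFractionRing_PO1 {ι' : ↥(VM L hqL A hA) →+* LaurentSeries kA} {θb : LaurentSeries kA}
    (P : PlaceGen L hqL A hA ι' θb) : IsFractionRing ↥(PO1 L hqL A hA P) ↥F1 := by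
  letI := algebraVMFN L hqL A hA
  haveI := isDiscreteValuationRing_VM L hqL A hA
  exact S36.H6.isFractionRing_placeOver P

theorem isScalarTower_PO1 {ι' : ↥(VM L hqL A hA) →+* LaurentSeries kA} {θb : LaurentSeries kA}
    (P : PlaceGen L hqL A hA ι' θb) :
    letI := degAlgebra L₁ (q * L) (q * (q * L)) (dvd_level (q * L))
    letI := algPO1F2 L hqL A hA P
    IsScalarTower ↥(PO1 L hqL A hA P) ↥F1 ↥F2 := by
  letI := degAlgebra L₁ (q * L) (q * (q * L)) (dvd_level (q * L))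
  letI := algPO1F2 L hqL A hA P
  exact IsScalarTower.of_algebraMap_eq (fun _ => rfl)

/-- the reduction map kills `q`. -/
theorem Pres1_natCast {ι' : ↥(VM L hqL A hA) →+* LaurentSeries kA} {θb : LaurentSeries kA}
    (P : PlaceGen L hqL A hA ι' θb) : Pres1 L hqL A hA P ((q : ℕ) : ↥(PO1 L hqL A hA P)) = 0 := by
  haveI : CharP kA q := S18.H92.charP_residueField A hA
  haveI := S34.H6.charP_laurentSeries kA q
  rw [map_natCast]
  exact CharP.cast_eq_zero _ q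

end BaseDVR


/-! ### Wrappers (no `Algebra (PO1 P) F₂` instance leaks out of this file) -/

section Wrap

attribute [local instance] algPO1F2

/-- a place of `F₂` over `PO1 P` with arbitrary reduction data. -/
abbrev PlaceGen2 {ι' : ↥(VM L hqL A hA) →+* LaurentSeries kA} {θb : LaurentSeries kA}
    (P : PlaceGen L hqL A hA ι' θb)
    (ι'' : ↥(PO1 L hqL A hA P) →+* LaurentSeries kA) (θb'' : LaurentSeries kA) : Type :=
  @CA.H99.PlaceOver ↥(PO1 L hqL A hA P) _ ↥F2 _ (algPO1F2 L hqL A hA P) (LaurentSeries kA) _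
    ((q : ℕ) : ↥(PO1 L hqL A hA P)) (theta2 L (q := q)) ι'' θb''

/-- a ramified place of `F₂` over `PO1 P` with arbitrary reduction data. -/
abbrev PlaceRam2 {ι' : ↥(VM L hqL A hA) →+* LaurentSeries kA} {θb : LaurentSeries kA}
    (P : PlaceGen L hqL A hA ι' θb) (τ : F2) (n : ℕ)
    (ι'' : ↥(PO1 L hqL A hA P) →+* LaurentSeries kA) (θb'' : LaurentSeries kA) : Type :=
  @S36.H6.PlaceOverRam ↥(PO1 L hqL A hA P) _ ↥F2 _ (algPO1F2 L hqL A hA P) (LaurentSeries kA) _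
    ((q : ℕ) : ↥(PO1 L hqL A hA P)) (theta2 L (q := q)) τ n ι'' θb''

/-- the valuation ring of a place of `F₂`. -/
def QO1 {ι' : ↥(VM L hqL A hA) →+* LaurentSeries kA} {θb : LaurentSeries kA}
    {P : PlaceGen L hqL A hA ι' θb}
    {ι'' : ↥(PO1 L hqL A hA P) →+* LaurentSeries kA} {θb'' : LaurentSeries kA}
    (Q : PlaceGen2 L hqL A hA P ι'' θb'') : Subring ↥F2 := Q.O1

/-- the reduction map of a place of `F₂`. -/
def Qres1 {ι' : ↥(VM L hqL A hA) →+* LaurentSeries kA} {θb : LaurentSeries kA}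
    {P : PlaceGen L hqL A hA ι' θb}
    {ι'' : ↥(PO1 L hqL A hA P) →+* LaurentSeries kA} {θb'' : LaurentSeries kA}
    (Q : PlaceGen2 L hqL A hA P ι'' θb'') : QO1 L hqL A hA Q →+* LaurentSeries kA := Q.res1

/-- the valuation ring of a ramified place of `F₂`. -/
def RO1 {ι' : ↥(VM L hqL A hA) →+* LaurentSeries kA} {θb : LaurentSeries kA}
    {P : PlaceGen L hqL A hA ι' θb} {τ : F2} {n : ℕ}
    {ι'' : ↥(PO1 L hqL A hA P) →+* LaurentSeries kA} {θb'' : LaurentSeries kA}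
    (Q : PlaceRam2 L hqL A hA P τ n ι'' θb'') : Subring ↥F2 := Q.O1

/-- the reduction map of a ramified place of `F₂`. -/
def Rres1 {ι' : ↥(VM L hqL A hA) →+* LaurentSeries kA} {θb : LaurentSeries kA}
    {P : PlaceGen L hqL A hA ι' θb} {τ : F2} {n : ℕ}
    {ι'' : ↥(PO1 L hqL A hA P) →+* LaurentSeries kA} {θb'' : LaurentSeries kA}
    (Q : PlaceRam2 L hqL A hA P τ n ι'' θb'') : RO1 L hqL A hA Q →+* LaurentSeries kA := Q.res1

/-- an element of `PO1 P` pushed to `F₂` lies in a place over `PO1 P`, with residue `ι''`. -/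
theorem iota2_mem_QO1 {ι' : ↥(VM L hqL A hA) →+* LaurentSeries kA} {θb : LaurentSeries kA}
    {P : PlaceGen L hqL A hA ι' θb}
    {ι'' : ↥(PO1 L hqL A hA P) →+* LaurentSeries kA} {θb'' : LaurentSeries kA}
    (Q : PlaceGen2 L hqL A hA P ι'' θb'') (x : F1) (hx : x ∈ PO1 L hqL A hA P) :
    ∃ h : iota2 L (q := q) x ∈ QO1 L hqL A hA Q, Qres1 L hqL A hA Q ⟨_, h⟩ = ι'' ⟨x, hx⟩ :=
  ⟨Q.algebraMap_mem ⟨x, hx⟩, Q.res1_algebraMap ⟨x, hx⟩⟩

/-- the same for a ramified place. -/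
theorem iota2_mem_RO1 {ι' : ↥(VM L hqL A hA) →+* LaurentSeries kA} {θb : LaurentSeries kA}
    {P : PlaceGen L hqL A hA ι' θb} {τ : F2} {n : ℕ}
    {ι'' : ↥(PO1 L hqL A hA P) →+* LaurentSeries kA} {θb'' : LaurentSeries kA}
    (Q : PlaceRam2 L hqL A hA P τ n ι'' θb'') (x : F1) (hx : x ∈ PO1 L hqL A hA P) :
    ∃ h : iota2 L (q := q) x ∈ RO1 L hqL A hA Q, Rres1 L hqL A hA Q ⟨_, h⟩ = ι'' ⟨x, hx⟩ :=
  ⟨Q.algebraMap_mem ⟨x, hx⟩, Q.res1_algebraMap ⟨x, hx⟩⟩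

theorem theta2_mem_QO1 {ι' : ↥(VM L hqL A hA) →+* LaurentSeries kA} {θb : LaurentSeries kA}
    {P : PlaceGen L hqL A hA ι' θb}
    {ι'' : ↥(PO1 L hqL A hA P) →+* LaurentSeries kA} {θb'' : LaurentSeries kA}
    (Q : PlaceGen2 L hqL A hA P ι'' θb'') :
    ∃ h : theta2 L (q := q) ∈ QO1 L hqL A hA Q, Qres1 L hqL A hA Q ⟨_, h⟩ = θb'' :=
  ⟨Q.θ_mem, Q.res1_θ⟩

theorem theta2_mem_RO1 {ι' : ↥(VM L hqL A hA) →+* LaurentSeries kA} {θb : LaurentSeries kA}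
    {P : PlaceGen L hqL A hA ι' θb} {τ : F2} {n : ℕ}
    {ι'' : ↥(PO1 L hqL A hA P) →+* LaurentSeries kA} {θb'' : LaurentSeries kA}
    (Q : PlaceRam2 L hqL A hA P τ n ι'' θb'') :
    ∃ h : theta2 L (q := q) ∈ RO1 L hqL A hA Q, Rres1 L hqL A hA Q ⟨_, h⟩ = θb'' :=
  ⟨Q.θ_mem, Q.res1_θ⟩

end Wrap

/-! ### The six tower formulas (`e_w`, `e_v` at the three places) -/

section Tower

theorem inclk_FrM (γ : Fk0) :
    inclk L A (FrM L A hA γ) = qExpand kA q (inclk L A γ) := coe_FrM L A hA γ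

variable (Pi : PlaceInf L hqL A hA) (P0 : PlaceZero L hqL A hA)

theorem resA_eW (PA : PlaceA L hqL A hA P0) (y : F0) (hy : y ∈ (Mod L hqL A hA).O1) :
    ∃ h : eW L (q := q) y ∈ QO1 L hqL A hA PA,
      Qres1 L hqL A hA PA ⟨_, h⟩ =
        inclk L A (FrM L A hA (FrM L A hA ((Mod L hqL A hA).res1 ⟨y, hy⟩))) := by
  obtain ⟨h1, h2⟩ := H0ι L hqL A hA P0 y hy
  obtain ⟨h3, h4⟩ := iota2_mem_QO1 L hqL A hA PA _ h1
  refine ⟨h3, h4.trans ?_⟩
  rw [iotaA_apply, inclk_FrM, ← h2]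

theorem resA_eV (PA : PlaceA L hqL A hA P0) (y : F0) (hy : y ∈ (Mod L hqL A hA).O1) :
    ∃ h : eV L (q := q) y ∈ QO1 L hqL A hA PA,
      Qres1 L hqL A hA PA ⟨_, h⟩ = inclk L A (FrM L A hA ((Mod L hqL A hA).res1 ⟨y, hy⟩)) := by
  obtain ⟨h1, h2⟩ := H0V L hqL A hA P0 y hy
  obtain ⟨h3, h4⟩ := iota2_mem_QO1 L hqL A hA PA _ h1
  refine ⟨h3, h4.trans ?_⟩
  rw [iotaA_apply, inclk_FrM, ← h2]

theorem resB_eW (PB : PlaceB L hqL A hA Pi) (y : F0) (hy : y ∈ (Mod L hqL A hA).O1) :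
    ∃ h : eW L (q := q) y ∈ QO1 L hqL A hA PB,
      Qres1 L hqL A hA PB ⟨_, h⟩ = inclk L A ((Mod L hqL A hA).res1 ⟨y, hy⟩) := by
  obtain ⟨h1, h2⟩ := Hiι L hqL A hA Pi y hy
  obtain ⟨h3, h4⟩ := iota2_mem_QO1 L hqL A hA PB _ h1
  exact ⟨h3, h4.trans h2⟩

theorem resB_eV (PB : PlaceB L hqL A hA Pi) (y : F0) (hy : y ∈ (Mod L hqL A hA).O1) :
    ∃ h : eV L (q := q) y ∈ QO1 L hqL A hA PB,
      Qres1 L hqL A hA PB ⟨_, h⟩ = inclk L A (FrM L A hA ((Mod L hqL A hA).res1 ⟨y, hy⟩)) := by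
  obtain ⟨h1, h2⟩ := HiV L hqL A hA Pi y hy
  obtain ⟨h3, h4⟩ := iota2_mem_QO1 L hqL A hA PB _ h1
  exact ⟨h3, h4.trans h2⟩

theorem resC_eW (PC : PlaceC L hqL A hA Pi) (y : F0) (hy : y ∈ (Mod L hqL A hA).O1) :
    ∃ h : eW L (q := q) y ∈ RO1 L hqL A hA PC,
      Rres1 L hqL A hA PC ⟨_, h⟩ = inclk L A ((Mod L hqL A hA).res1 ⟨y, hy⟩) := by
  obtain ⟨h1, h2⟩ := Hiι L hqL A hA Pi y hy
  obtain ⟨h3, h4⟩ := iota2_mem_RO1 L hqL A hA PC _ h1
  exact ⟨h3, h4.trans h2⟩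

theorem resC_eV (PC : PlaceC L hqL A hA Pi) (y : F0) (hy : y ∈ (Mod L hqL A hA).O1) :
    ∃ h : eV L (q := q) y ∈ RO1 L hqL A hA PC,
      Rres1 L hqL A hA PC ⟨_, h⟩ = inclk L A (FrM L A hA ((Mod L hqL A hA).res1 ⟨y, hy⟩)) := by
  obtain ⟨h1, h2⟩ := HiV L hqL A hA Pi y hy
  obtain ⟨h3, h4⟩ := iota2_mem_RO1 L hqL A hA PC _ h1
  exact ⟨h3, h4.trans h2⟩

end Tower

/-! ### The (M1) statement -/

/-- **(M1), the facts about a triple of places**: the three non-tower residue formulas (for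
`e_u = V₂ ∘ V`) and "exactly three".  The six tower formulas are `resA_eW … resC_eV` above. -/
structure ThreePlacesFacts (Pi : PlaceInf L hqL A hA) (P0 : PlaceZero L hqL A hA)
    (PA : PlaceA L hqL A hA P0) (PB : PlaceB L hqL A hA Pi) (PC : PlaceC L hqL A hA Pi) :
    Prop where
  /-- at `A`: `res (y(t^(q²))) = ȳ`. -/
  resA_eU : ∀ (y : F0) (hy : y ∈ (Mod L hqL A hA).O1), ∃ h : eU L (q := q) y ∈ QO1 L hqL A hA PA,
    Qres1 L hqL A hA PA ⟨_, h⟩ = inclk L A ((Mod L hqL A hA).res1 ⟨y, hy⟩)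
  /-- at `B`: `res (y(t^(q²))) = ȳ(t^(q²))`. -/
  resB_eU : ∀ (y : F0) (hy : y ∈ (Mod L hqL A hA).O1), ∃ h : eU L (q := q) y ∈ QO1 L hqL A hA PB,
    Qres1 L hqL A hA PB ⟨_, h⟩ =
      inclk L A (FrM L A hA (FrM L A hA ((Mod L hqL A hA).res1 ⟨y, hy⟩)))
  /-- at `C`: `res (y(t^(q²))) = ȳ`. -/
  resC_eU : ∀ (y : F0) (hy : y ∈ (Mod L hqL A hA).O1), ∃ h : eU L (q := q) y ∈ RO1 L hqL A hA PC,
    Rres1 L hqL A hA PC ⟨_, h⟩ = inclk L A ((Mod L hqL A hA).res1 ⟨y, hy⟩)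
  /-- **exactly three**: a valuation subring of `F₂` containing the level-`L` Gauss ring (through
  `e_w`) in which `q` is a non-unit is one of `A`, `B`, `C`. -/
  exactly_three : ∀ W : ValuationSubring ↥F2,
    (∀ (y : F0), y ∈ (Mod L hqL A hA).O1 → eW L (q := q) y ∈ W) →
    ((q : ℕ) : F2) ∈ W.nonunits →
    W.toSubring = QO1 L hqL A hA PA ∨ W.toSubring = QO1 L hqL A hA PB ∨
      W.toSubring = RO1 L hqL A hA PC

/-- **(M1) TARGET** (to be proved in `S36/H55_L0ThreeFinal.lean` from the rows (b)–(e)). -/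
def ThreePlacesStatement : Prop :=
  ∃ (Pi : PlaceInf L hqL A hA) (P0 : PlaceZero L hqL A hA)
    (PA : PlaceA L hqL A hA P0) (PB : PlaceB L hqL A hA Pi) (PC : PlaceC L hqL A hA Pi),
    ThreePlacesFacts L hqL A hA Pi P0 PA PB PC

end L0Three

end Fermat.Agent.S36.H55
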