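import Mathlib
import Fermat.Agent.S36.H55_L0ThreeBase
import Fermat.Agent.S36.H49_MirrorLevelQ

/-!
# S36 / (M1)(g) (helper49): the MIRROR statement under `β = V₂` at the real types

Setting of `S36.H55_L0ThreeBase`: `F₁ = FullC L₁ (q L)`, `F₂ = FullC L₁ (q (q L))`, bottom places
`Pi`, `P0` of `F₁`, the three places `PA`, `PB`, `PC` of `F₂` (built along the inclusion `ι₂`).

* **Lifts along `V₂`** (NO hypothesis, only helper55's tower formulas):
  `V2_mem_QO1_A`, `V2_mem_RO1_C` : `V₂(PO1 P0) ⊆ PA.O1, PC.O1` with `res ∘ V₂ = Pres1 P0`;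
  `V2_mem_QO1_B` : `V₂(PO1 Pi) ⊆ PB.O1` with `res ∘ V₂ = (t ↦ t^q) ∘ Pres1 Pi`.
  (= helper3's `(g3)` and the three `S36.H46.LiesOver` facts of the `β`-tower.)
* **`(g1)`, `(g2)`** from `ThreePlacesFacts` (only `exactly_three` is used):
  `mirror_of_exactly_three`, and helper3's shapes `g1_of_threePlacesFacts`,
  `g2_of_threePlacesFacts`, `g3_of_places` with the local instance
  `(V2.comp (PO1 P).subtype).toAlgebra`.
-/

set_option autoImplicit false
set_option linter.unusedSectionVars false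
set_option linter.style.haveILetI false
set_option synthInstance.maxHeartbeats 400000

noncomputable section

namespace Fermat.Agent.S36.H49

open ModularCurve Polynomial IsLocalRing Fermat.Agent.S28
open Fermat.Agent.S18 Fermat.Agent.S34.H92 Fermat.Agent.S34.H16 Fermat.Agent.S34.H55
open Fermat.Agent.S36.H55

local notation "Qbar" => AlgebraicClosure ℚ

section L0Mirror

variable (L : ℕ) [NeZero L] {q : ℕ} [hq : Fact q.Prime] (hqL : ¬ q ∣ L)
  (A : ValuationSubring Qbar) (hA : A.LiesOverPrime q)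

local notation "kA" => IsLocalRing.ResidueField A
local notation "L₁" => H45.unrCyclo q
local notation "F0" => modularFunctionFieldFullC (H45.unrCyclo q) L
local notation "F1" => modularFunctionFieldFullC (H45.unrCyclo q) (q * L)
local notation "F2" => modularFunctionFieldFullC (H45.unrCyclo q) (q * (q * L))

/-- `V₂ v = u`. -/
theorem V2_jNK : V2 L (q := q) (S18.H16.jNK L₁ (q * L)) = theta2 L (q := q) :=
  S34.H36.vSub_jNK_self (K := L₁) (q := q) (M := q * L)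

/-- `V₂ (ι a) = e_v a`. -/
theorem V2_iotaMN (a : F0) : V2 L (q := q) (iotaMN L (ℓ := q) a) = eV L (q := q) a := by
  rw [eV_eq_V2_comp]
  rfl

theorem mem_O1_of_mem_V {y : F0} (hy : y ∈ VM L hqL A hA) : y ∈ (Mod L hqL A hA).O1 := by
  rw [gaussModelVM_O1]
  exact hy

/-- `res (e_v a) = ι₀ a` in the `iotaZero` spelling. -/
theorem inclk_FrM_res1 (y : F0) (hy : y ∈ (Mod L hqL A hA).O1) :
    inclk L A (FrM L A hA ((Mod L hqL A hA).res1 ⟨y, hy⟩)) =
      iotaZero L hqL A hA ⟨y, mem_V_of_mem_O1 L hqL A hA hy⟩ := by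
  rw [inclk_FrM, inclk_res1, iotaZero_apply]

/-- transport of a membership-with-residue statement along an equality of elements. -/
theorem exists_mem_res_congr {K Fk : Type*} [Field K] [Field Fk] {S : Subring K} {res : S →+* Fk}
    {x y : K} (e : x = y) {r r' : Fk} (er : r = r') (h : ∃ h : y ∈ S, res ⟨y, h⟩ = r) :
    ∃ h : x ∈ S, res ⟨x, h⟩ = r' := by
  subst e
  subst er
  exact h

variable (Pi : PlaceInf L hqL A hA) (P0 : PlaceZero L hqL A hA)

set_option maxHeartbeats 1600000 in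
/-- **Lift `P0 → PA` along `V₂`**: `res_A ∘ V₂ = res_0` on `PO1 P0`. -/
theorem V2_mem_QO1_A (PA : PlaceA L hqL A hA P0) (c : F1) (hc : c ∈ PO1 L hqL A hA P0) :
    ∃ h : V2 L (q := q) c ∈ QO1 L hqL A hA PA,
      Qres1 L hqL A hA PA ⟨_, h⟩ = Pres1 L hqL A hA P0 ⟨c, hc⟩ := by
  letI := algebraVMFN L hqL A hA
  have hO : ∀ a : ↥(VM L hqL A hA), ∃ h : V2 L (q := q) (algebraMap ↥(VM L hqL A hA) F1 a) ∈
      QO1 L hqL A hA PA, Qres1 L hqL A hA PA ⟨_, h⟩ =
        RingHom.id (LaurentSeries kA) (iotaZero L hqL A hA a) := by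
    intro a
    exact exists_mem_res_congr (V2_iotaMN L (a : F0))
      (inclk_FrM_res1 L hqL A hA (a : F0) (mem_O1_of_mem_V L hqL A hA a.2))
      (resA_eV L hqL A hA P0 PA (a : F0) (mem_O1_of_mem_V L hqL A hA a.2))
  have hθ : ∃ h : V2 L (q := q) (S18.H16.jNK L₁ (q * L)) ∈ QO1 L hqL A hA PA,
      Qres1 L hqL A hA PA ⟨_, h⟩ =
        RingHom.id (LaurentSeries kA) (resM L hqL A hA (jMV L hqL A hA)) := by
    exact exists_mem_res_congr (V2_jNK L) rfl (theta2_mem_QO1 L hqL A hA PA)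
  have hinv : ∀ (y : F2) (hy : y ∈ QO1 L hqL A hA PA), Qres1 L hqL A hA PA ⟨y, hy⟩ ≠ 0 →
      y⁻¹ ∈ QO1 L hqL A hA PA :=
    letI := algPO1F2 L hqL A hA P0
    PA.inv_mem
  exact map_mem_of_placeOver P0 (V2 L (q := q)) (QO1 L hqL A hA PA) (Qres1 L hqL A hA PA)
    hinv (RingHom.id _) hO hθ hc

set_option maxHeartbeats 1600000 in
/-- **Lift `P0 → PC` along `V₂`**: `res_C ∘ V₂ = res_0` on `PO1 P0`. -/
theorem V2_mem_RO1_C (PC : PlaceC L hqL A hA Pi) (c : F1) (hc : c ∈ PO1 L hqL A hA P0) :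
    ∃ h : V2 L (q := q) c ∈ RO1 L hqL A hA PC,
      Rres1 L hqL A hA PC ⟨_, h⟩ = Pres1 L hqL A hA P0 ⟨c, hc⟩ := by
  letI := algebraVMFN L hqL A hA
  have hO : ∀ a : ↥(VM L hqL A hA), ∃ h : V2 L (q := q) (algebraMap ↥(VM L hqL A hA) F1 a) ∈
      RO1 L hqL A hA PC, Rres1 L hqL A hA PC ⟨_, h⟩ =
        RingHom.id (LaurentSeries kA) (iotaZero L hqL A hA a) := by
    intro a
    exact exists_mem_res_congr (V2_iotaMN L (a : F0))
      (inclk_FrM_res1 L hqL A hA (a : F0) (mem_O1_of_mem_V L hqL A hA a.2))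
      (resC_eV L hqL A hA Pi PC (a : F0) (mem_O1_of_mem_V L hqL A hA a.2))
  have hθ : ∃ h : V2 L (q := q) (S18.H16.jNK L₁ (q * L)) ∈ RO1 L hqL A hA PC,
      Rres1 L hqL A hA PC ⟨_, h⟩ =
        RingHom.id (LaurentSeries kA) (resM L hqL A hA (jMV L hqL A hA)) := by
    exact exists_mem_res_congr (V2_jNK L) (Pres1_wO L hqL A hA Pi) (theta2_mem_RO1 L hqL A hA PC)
  have hinv : ∀ (y : F2) (hy : y ∈ RO1 L hqL A hA PC), Rres1 L hqL A hA PC ⟨y, hy⟩ ≠ 0 →
      y⁻¹ ∈ RO1 L hqL A hA PC :=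
    letI := algPO1F2 L hqL A hA Pi
    PC.inv_mem
  exact map_mem_of_placeOver P0 (V2 L (q := q)) (RO1 L hqL A hA PC) (Rres1 L hqL A hA PC)
    hinv (RingHom.id _) hO hθ hc

set_option maxHeartbeats 1600000 in
/-- **Lift `Pi → PB` along `V₂`**: `res_B ∘ V₂ = (t ↦ t^q) ∘ res_∞` on `PO1 Pi`. -/
theorem V2_mem_QO1_B (PB : PlaceB L hqL A hA Pi) (c : F1) (hc : c ∈ PO1 L hqL A hA Pi) :
    ∃ h : V2 L (q := q) c ∈ QO1 L hqL A hA PB,
      Qres1 L hqL A hA PB ⟨_, h⟩ = qExpand kA q (Pres1 L hqL A hA Pi ⟨c, hc⟩) := by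
  letI := algebraVMFN L hqL A hA
  have hO : ∀ a : ↥(VM L hqL A hA), ∃ h : V2 L (q := q) (algebraMap ↥(VM L hqL A hA) F1 a) ∈
      QO1 L hqL A hA PB, Qres1 L hqL A hA PB ⟨_, h⟩ =
        qExpand kA q (resM L hqL A hA a) := by
    intro a
    exact exists_mem_res_congr (V2_iotaMN L (a : F0))
      (inclk_FrM_res1 L hqL A hA (a : F0) (mem_O1_of_mem_V L hqL A hA a.2))
      (resB_eV L hqL A hA Pi PB (a : F0) (mem_O1_of_mem_V L hqL A hA a.2))
  have hθ : ∃ h : V2 L (q := q) (S18.H16.jNK L₁ (q * L)) ∈ QO1 L hqL A hA PB,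
      Qres1 L hqL A hA PB ⟨_, h⟩ =
        qExpand kA q (resM L hqL A hA (jMV L hqL A hA) ^ q) := by
    have er : (resM L hqL A hA (jMV L hqL A hA) ^ q) ^ q =
        qExpand kA q (resM L hqL A hA (jMV L hqL A hA) ^ q) := by
      rw [map_pow, qExpand_resM_jMV]
    exact exists_mem_res_congr (V2_jNK L) er (theta2_mem_QO1 L hqL A hA PB)
  have hinv : ∀ (y : F2) (hy : y ∈ QO1 L hqL A hA PB), Qres1 L hqL A hA PB ⟨y, hy⟩ ≠ 0 →
      y⁻¹ ∈ QO1 L hqL A hA PB :=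
    letI := algPO1F2 L hqL A hA Pi
    PB.inv_mem
  exact map_mem_of_placeOver Pi (V2 L (q := q)) (QO1 L hqL A hA PB) (Qres1 L hqL A hA PB)
    hinv (qExpand kA q) hO hθ hc

/-- containment forms of the three lifts (= helper3's `(g3)`, plus the `PB` one). -/
theorem V2_mem_A (PA : PlaceA L hqL A hA P0) {c : F1} (hc : c ∈ PO1 L hqL A hA P0) :
    V2 L (q := q) c ∈ QO1 L hqL A hA PA := (V2_mem_QO1_A L hqL A hA P0 PA c hc).1

theorem V2_mem_C (PC : PlaceC L hqL A hA Pi) {c : F1} (hc : c ∈ PO1 L hqL A hA P0) :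
    V2 L (q := q) c ∈ RO1 L hqL A hA PC := (V2_mem_RO1_C L hqL A hA Pi P0 PC c hc).1

theorem V2_mem_B (PB : PlaceB L hqL A hA Pi) {c : F1} (hc : c ∈ PO1 L hqL A hA Pi) :
    V2 L (q := q) c ∈ QO1 L hqL A hA PB := (V2_mem_QO1_B L hqL A hA Pi PB c hc).1

set_option maxHeartbeats 1600000 in
/-- **`(g1)` + `(g2)` at the real types, from "exactly three"** (`hex3` =
`ThreePlacesFacts.exactly_three` verbatim): the only place of `F₂` over `PO1 Pi` along `V₂` is `PB`;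
the only places over `PO1 P0` along `V₂` are `PA` and `PC`. -/
theorem mirror_of_exactly_three (D : ModularPolynomialData q)
    (hD : ∀ (k : Type) [Field k] (ζ : kˣ), IsPrimitiveRoot ζ q → RootsAt k q ζ D.Φ)
    (PA : PlaceA L hqL A hA P0) (PB : PlaceB L hqL A hA Pi) (PC : PlaceC L hqL A hA Pi)
    (hex3 : ∀ W : ValuationSubring ↥F2,
      (∀ (y : F0), y ∈ (Mod L hqL A hA).O1 → eW L (q := q) y ∈ W) →
      ((q : ℕ) : F2) ∈ W.nonunits →
      W.toSubring = QO1 L hqL A hA PA ∨ W.toSubring = QO1 L hqL A hA PB ∨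
        W.toSubring = RO1 L hqL A hA PC) :
    (∀ W : ValuationSubring ↥F2, (∀ c ∈ PO1 L hqL A hA Pi, V2 L (q := q) c ∈ W) →
      ((q : ℕ) : F2) ∈ W.nonunits → W.toSubring = QO1 L hqL A hA PB) ∧
    (∀ W : ValuationSubring ↥F2, (∀ c ∈ PO1 L hqL A hA P0, V2 L (q := q) c ∈ W) →
      ((q : ℕ) : F2) ∈ W.nonunits →
      W.toSubring = QO1 L hqL A hA PA ∨ W.toSubring = RO1 L hqL A hA PC) := by
  obtain ⟨z, z', hz, hzi, hz', hzz⟩ := exists_separator L hqL A hA Pi P0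
  have key := mirror_places (iota2 L (q := q)) (V2 L (q := q)) ((q : ℕ) : F1)
    {a | ∃ c : ↥(VM L hqL A hA), a = iotaMN L (ℓ := q) (c : F0)}
    (PO1 L hqL A hA Pi) (PO1 L hqL A hA P0)
    (QO1 L hqL A hA PA) (QO1 L hqL A hA PB) (RO1 L hqL A hA PC)
    (by rw [map_natCast, map_natCast])
    (by
      intro W h1 h2
      refine hex3 W (fun y hy => ?_) (by rwa [map_natCast] at h2)
      exact h1 _ ⟨⟨y, mem_V_of_mem_O1 L hqL A hA hy⟩, rfl⟩)
    (by
      rintro W h1 h2 a ⟨c, rfl⟩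
      exact incl_mem_of_VMN_mem L hqL A hA D hD Pi P0 W (fun c => h1 _ ⟨c, rfl⟩)
        (by rwa [map_natCast] at h2) c)
    (by
      rintro a ⟨c, rfl⟩
      exact (iotaMN_mem L hqL A hA Pi (c : F0) c.2).1)
    (by
      rintro a ⟨c, rfl⟩
      exact (iotaMN_mem L hqL A hA P0 (c : F0) c.2).1)
    (fun a ha => V2_mem_B L hqL A hA Pi PB ha)
    (fun a ha => V2_mem_A L hqL A hA P0 PA ha)
    (fun a ha => V2_mem_C L hqL A hA Pi P0 PC ha)
    hz (Or.inr hzi) (Or.inl hz') hzz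
  constructor
  · intro W h1 h2
    exact key.1 W h1 (by rwa [map_natCast])
  · intro W h1 h2
    exact key.2 W h1 (by rwa [map_natCast])

/-! ### helper3's shapes (#3299): the `β`-twin of `algPO1F2` as a LOCAL instance -/

/-- `PO1 P → F₂` along `V₂`: the composite `PO1 P ⊆ F₁ → F₂`, `x(t) ↦ x(t^q)`. -/
abbrev algPO1F2V {ι' : ↥(VM L hqL A hA) →+* LaurentSeries kA} {θb : LaurentSeries kA}
    (P : PlaceGen L hqL A hA ι' θb) : Algebra ↥(PO1 L hqL A hA P) F2 :=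
  ((V2 L (q := q)).comp (PO1 L hqL A hA P).subtype).toAlgebra

theorem algPO1F2V_algebraMap {ι' : ↥(VM L hqL A hA) →+* LaurentSeries kA} {θb : LaurentSeries kA}
    (P : PlaceGen L hqL A hA ι' θb) (x : ↥(PO1 L hqL A hA P)) :
    @algebraMap ↥(PO1 L hqL A hA P) F2 _ _ (algPO1F2V L hqL A hA P) x = V2 L (q := q) x.1 :=
  rfl

/-- **`(g1)`** in helper3's shape. -/
theorem g1_of_threePlacesFacts (D : ModularPolynomialData q)
    (hD : ∀ (k : Type) [Field k] (ζ : kˣ), IsPrimitiveRoot ζ q → RootsAt k q ζ D.Φ)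
    (PA : PlaceA L hqL A hA P0) (PB : PlaceB L hqL A hA Pi) (PC : PlaceC L hqL A hA Pi)
    (h : ThreePlacesFacts L hqL A hA Pi P0 PA PB PC) :
    letI := algPO1F2V L hqL A hA Pi
    ∀ W : ValuationSubring ↥F2,
      (∀ c : ↥(PO1 L hqL A hA Pi), algebraMap ↥(PO1 L hqL A hA Pi) F2 c ∈ W) →
      ((q : ℕ) : F2) ∈ W.nonunits → W.toSubring = QO1 L hqL A hA PB := by
  letI := algPO1F2V L hqL A hA Pi
  intro W h1 h2
  exact (mirror_of_exactly_three L hqL A hA Pi P0 D hD PA PB PC h.exactly_three).1 W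
    (fun c hc => h1 ⟨c, hc⟩) h2

/-- **`(g2)`** in helper3's shape. -/
theorem g2_of_threePlacesFacts (D : ModularPolynomialData q)
    (hD : ∀ (k : Type) [Field k] (ζ : kˣ), IsPrimitiveRoot ζ q → RootsAt k q ζ D.Φ)
    (PA : PlaceA L hqL A hA P0) (PB : PlaceB L hqL A hA Pi) (PC : PlaceC L hqL A hA Pi)
    (h : ThreePlacesFacts L hqL A hA Pi P0 PA PB PC) :
    letI := algPO1F2V L hqL A hA P0
    ∀ W : ValuationSubring ↥F2,
      (∀ c : ↥(PO1 L hqL A hA P0), algebraMap ↥(PO1 L hqL A hA P0) F2 c ∈ W) →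
      ((q : ℕ) : F2) ∈ W.nonunits →
      W.toSubring = QO1 L hqL A hA PA ∨ W.toSubring = RO1 L hqL A hA PC := by
  letI := algPO1F2V L hqL A hA P0
  intro W h1 h2
  exact (mirror_of_exactly_three L hqL A hA Pi P0 D hD PA PB PC h.exactly_three).2 W
    (fun c hc => h1 ⟨c, hc⟩) h2

/-- **`(g3)`** in helper3's shape (no hypothesis). -/
theorem g3_of_places (PA : PlaceA L hqL A hA P0) (PC : PlaceC L hqL A hA Pi)
    (c : ↥(PO1 L hqL A hA P0)) :
    V2 L (q := q) c.1 ∈ QO1 L hqL A hA PA ∧ V2 L (q := q) c.1 ∈ RO1 L hqL A hA PC :=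
  ⟨V2_mem_A L hqL A hA P0 PA c.2, V2_mem_C L hqL A hA Pi P0 PC c.2⟩

end L0Mirror

end Fermat.Agent.S36.H49
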