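import Mathlib

/-!
S36 / (E5) (helper16): **comparison of two places of the same field, structure-agnostic**
(Mathlib only; twin of `CA.H16_PlaceCompare` which is tied to `CA.H99.PlaceOver`, so that it also
applies to helper99's `PlaceOverU` and helper6's `PlaceOverRam`).

`P = (PO, Pres)` a subring of the field `L` with a reduction `Pres : PO →+* Fk` detecting units;
`Q = (QO, Qres)` a second one which is a valuation subring, presented over a base `O'` by a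
generator `θ'`: `O'[θ'] ⊆ QO`, `Qres (p(θ')) = p^ι'(θb')`, every element of `QO` is
`a(θ')/s(θ')` with `s^ι'(θb') ≠ 0`.  If `P` sees the data of `Q`
(`Pres (algebraMap O' L a) = ι' a`, `Pres θ' = θb'`), then `QO = PO` and `Qres = Pres`.
-/

set_option autoImplicit false
set_option linter.unusedSectionVars false

namespace Fermat.Agent.S36.H16

open Polynomial

section Compare

variable {L : Type*} [Field L] {Fk : Type*} [Field Fk]
  (PO : Subring L) (Pres : PO →+* Fk)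
  (Pinv : ∀ (y : L) (hy : y ∈ PO), Pres ⟨y, hy⟩ ≠ 0 → y⁻¹ ∈ PO)
  (QO : Subring L) (Qres : QO →+* Fk)
  (Qinv : ∀ (y : L) (hy : y ∈ QO), Qres ⟨y, hy⟩ ≠ 0 → y⁻¹ ∈ QO)
  (Qval : ∀ y : L, y ∈ QO ∨ y⁻¹ ∈ QO)
  {O' : Type*} [CommRing O'] [Algebra O' L] (θ' : L) (ι' : O' →+* Fk) (θb' : Fk)
  (Qmem : ∀ p : O'[X], aeval θ' p ∈ QO)
  (Qaeval : ∀ p : O'[X], Qres ⟨aeval θ' p, Qmem p⟩ = p.eval₂ ι' θb')
  (Qrepr : ∀ y ∈ QO, ∃ a s : O'[X], s.eval₂ ι' θb' ≠ 0 ∧ y * aeval θ' s = aeval θ' a)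
  (hO : ∀ a : O', ∃ h : algebraMap O' L a ∈ PO, Pres ⟨_, h⟩ = ι' a)
  (hθ : ∃ h : θ' ∈ PO, Pres ⟨_, h⟩ = θb')

include hO hθ in
/-- polynomials in `θ'` over `O'` lie in `PO`, with the expected residue. -/
theorem aeval_mem_of_transport_gen (s : O'[X]) :
    ∃ h : aeval θ' s ∈ PO, Pres ⟨_, h⟩ = s.eval₂ ι' θb' := by
  let g : O' →+* PO := (algebraMap O' L).codRestrict PO (fun a => (hO a).1)
  let t : PO := ⟨θ', hθ.1⟩
  have hsub : ((eval₂ g t s : PO) : L) = aeval θ' s := by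
    have h1 := Polynomial.hom_eval₂ s g PO.subtype t
    rw [aeval_def]
    exact h1
  have hres : Pres (eval₂ g t s) = s.eval₂ ι' θb' := by
    have h1 := Polynomial.hom_eval₂ s g Pres t
    rw [h1]
    have h2 : Pres.comp g = ι' := by
      ext a
      exact (hO a).2
    have h3 : Pres t = θb' := hθ.2
    rw [h2, h3]
  have hmem : aeval θ' s ∈ PO := by
    rw [← hsub]
    exact (eval₂ g t s).2
  refine ⟨hmem, ?_⟩
  rw [← hres]
  exact congrArg Pres (Subtype.ext hsub.symm)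

include Pinv Qmem Qaeval Qrepr hO hθ in
/-- `QO ⊆ PO`, with the same residues. -/
theorem le_of_transport_gen {y : L} (hy : y ∈ QO) :
    ∃ h : y ∈ PO, Pres ⟨y, h⟩ = Qres ⟨y, hy⟩ := by
  obtain ⟨a, s, hs, e⟩ := Qrepr y hy
  obtain ⟨hsP, esP⟩ := aeval_mem_of_transport_gen PO Pres θ' ι' θb' hO hθ s
  obtain ⟨haP, eaP⟩ := aeval_mem_of_transport_gen PO Pres θ' ι' θb' hO hθ a
  have hsne : Pres ⟨aeval θ' s, hsP⟩ ≠ 0 := by
    rw [esP]
    exact hs
  have hs0 : aeval θ' s ≠ 0 := by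
    intro h0
    apply hsne
    have : (⟨aeval θ' s, hsP⟩ : PO) = 0 := Subtype.ext h0
    rw [this, map_zero]
  have hinv := Pinv _ hsP hsne
  have hy' : y = aeval θ' a * (aeval θ' s)⁻¹ := by
    rw [← e, mul_assoc, mul_inv_cancel₀ hs0, mul_one]
  have hyP : y ∈ PO := by
    rw [hy']
    exact PO.mul_mem haP hinv
  refine ⟨hyP, ?_⟩
  have h1 : Pres ⟨y, hyP⟩ * Pres ⟨aeval θ' s, hsP⟩ = Pres ⟨aeval θ' a, haP⟩ := by
    have : (⟨y, hyP⟩ : PO) * ⟨aeval θ' s, hsP⟩ = ⟨aeval θ' a, haP⟩ := Subtype.ext e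
    rw [← map_mul, this]
  have h2 : Qres ⟨y, hy⟩ * Qres ⟨aeval θ' s, Qmem s⟩ = Qres ⟨aeval θ' a, Qmem a⟩ := by
    have : (⟨y, hy⟩ : QO) * ⟨aeval θ' s, Qmem s⟩ = ⟨aeval θ' a, Qmem a⟩ := Subtype.ext e
    rw [← map_mul, this]
  rw [Qaeval, Qaeval] at h2
  rw [esP, eaP] at h1
  exact mul_right_cancel₀ hs (h1.trans h2.symm)

include Pinv Qinv Qval Qmem Qaeval Qrepr hO hθ in
/-- **The two places coincide.** -/
theorem O1_eq_of_transport_gen : QO = PO := by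
  apply le_antisymm
  · intro y hy
    exact (le_of_transport_gen PO Pres Pinv QO Qres θ' ι' θb' Qmem Qaeval Qrepr hO hθ hy).1
  · intro y hy
    by_contra hyQ
    have hyinv : y⁻¹ ∈ QO := (Qval y).resolve_left hyQ
    have hres : Qres ⟨y⁻¹, hyinv⟩ = 0 := by
      by_contra hne
      have := Qinv _ hyinv hne
      rw [inv_inv] at this
      exact hyQ this
    obtain ⟨hP, eP⟩ :=
      le_of_transport_gen PO Pres Pinv QO Qres θ' ι' θb' Qmem Qaeval Qrepr hO hθ hyinv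
    have hy0 : y ≠ 0 := by
      rintro rfl
      exact hyQ (Subring.zero_mem _)
    have h1 : Pres ⟨y, hy⟩ * Pres ⟨y⁻¹, hP⟩ = 1 := by
      have : (⟨y, hy⟩ : PO) * ⟨y⁻¹, hP⟩ = 1 := Subtype.ext (mul_inv_cancel₀ hy0)
      rw [← map_mul, this, map_one]
    rw [eP, hres, mul_zero] at h1
    exact zero_ne_one h1

include Pinv Qmem Qaeval Qrepr hO hθ in
/-- **... with the same reduction maps.** -/
theorem res1_eq_of_transport_gen {y : L} (hy : y ∈ QO) (hy' : y ∈ PO) :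
    Qres ⟨y, hy⟩ = Pres ⟨y, hy'⟩ := by
  obtain ⟨_, e⟩ :=
    le_of_transport_gen PO Pres Pinv QO Qres θ' ι' θb' Qmem Qaeval Qrepr hO hθ hy
  exact e.symm

end Compare

end Fermat.Agent.S36.H16
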