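/-
helper96: S36, row (E2-lvl), PLACE LEVEL: the six place-level identities for the two level maps
`iota2 = S34.H55.iotaMN (q * L)` (`f(z) ↦ f(z)`) and `V2 = S34.H55.VMN (q * L)` (`f(z) ↦ f(qz)`),
`F1 = FullC L₁ (q * L) → F2 = FullC L₁ (q * (q * L))`, `q ∤ L`.

Bottom places: `Pi : S34.H55.PlaceInf L hqL A hA`, `P0 : S34.H55.PlaceZero L hqL A hA`
(subrings `PO1 ..` of `F1`, reductions `Pres1 ..` into `kA((t))`).

* `VMN_iotaMN` : `V2 ∘ iota = iota2 ∘ V` (`= e3v`);  `VMN_jNK` : `V2 j_{qL} = j_{q²L}`;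
* `beta_transport` (structure-agnostic): a subring `T ⊆ F2` with a reduction `rT` detecting units
  which sees `V2 ∘ iota` on the level-`L` Gauss ring with residue `ρ ∘ ι'` and `j_{q²L}` with residue
  `ρ θb` contains `V2 (PO1 P)` and `rT ∘ V2 = ρ ∘ Pres1 P` there (via `S36.H16.le_of_transport_gen`);
* `beta_of_over_inf_inf` : `T` a place over `Pi` with `θ2 ↦ θb^q`  (`PB`): `rT (V2 y) = (Pres1 Pi y)(t^q)`
  for `y ∈ PO1 Pi`;
* `beta_of_over_inf_zero` : `T` a place over `Pi` with `θ2 ↦ j̄_L` (`PC`): `rT (V2 y) = Pres1 P0 y`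
  for `y ∈ PO1 P0`;
* `beta_of_over_zero` : `T` a place over `P0` (reduction `(t ↦ t^q) ∘ Pres1 P0`) with `θ2 ↦ j̄_L`
  (`PA`): `rT (V2 y) = Pres1 P0 y` for `y ∈ PO1 P0`.
-/
import Fermat.Agent.S34.H55_L0Final
import Fermat.Agent.S36.H16_PlaceCompareGen

set_option autoImplicit false
set_option linter.unusedSectionVars false
set_option linter.style.haveILetI false
set_option synthInstance.maxHeartbeats 400000

noncomputable section

namespace Fermat.Agent.S36.H96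

open ModularCurve Polynomial IsLocalRing Fermat.Agent.S28
open Fermat.Agent.S18 Fermat.Agent.S34.H92 Fermat.Agent.S34.H16 Fermat.Agent.S34.H55

local notation "Qbar" => AlgebraicClosure ℚ

section L0

variable (L : ℕ) [NeZero L] {q : ℕ} [hq : Fact q.Prime] (hqL : ¬ q ∣ L)
  (A : ValuationSubring Qbar) (hA : A.LiesOverPrime q)

local notation "kA" => IsLocalRing.ResidueField A
local notation "A₁" => H45.A0 A q
local notation "L₁" => H45.unrCyclo q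
local notation "F0" => modularFunctionFieldFullC (H45.unrCyclo q) L
local notation "F1" => modularFunctionFieldFullC (H45.unrCyclo q) (q * L)
local notation "F2" => modularFunctionFieldFullC (H45.unrCyclo q) (q * (q * L))

/-- `V2 ∘ iota = iota2 ∘ V` (both are `f(z) ↦ f(qz)`, `F0 → F2`). -/
theorem VMN_iotaMN (x : F0) :
    VMN (q * L) (ℓ := q) (iotaMN L (ℓ := q) x) = iotaMN (q * L) (ℓ := q) (VMN L (ℓ := q) x) := by
  apply Subtype.ext
  rw [coe_VMN, coe_iotaMN, coe_iotaMN, coe_VMN]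

/-- `V2 (j_{qL}) = j_{q²L}`. -/
theorem VMN_jNK :
    VMN (q * L) (ℓ := q) (S18.H16.jNK L₁ (q * L)) = S18.H16.jNK L₁ (q * (q * L)) := by
  apply Subtype.ext
  rw [coe_VMN, S18.H16.coe_jNK, S18.H16.coe_jNK, qExpand_qExpand]

section Beta

attribute [local instance] Fermat.Agent.S34.H16.algebraVMFN

variable {ι' : ↥(VM L hqL A hA) →+* LaurentSeries (IsLocalRing.ResidueField A)}
  {θb : LaurentSeries (IsLocalRing.ResidueField A)}
  (P : PlaceGen L hqL A hA ι' θb)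

set_option maxHeartbeats 800000 in
/-- **β-transport, structure-agnostic form.** -/
theorem beta_transport (T : Subring ↥F2)
    (rT : ↥T →+* LaurentSeries (IsLocalRing.ResidueField A))
    (hTinv : ∀ (y : ↥F2) (hy : y ∈ T), rT ⟨y, hy⟩ ≠ 0 → y⁻¹ ∈ T)
    (ρ : LaurentSeries (IsLocalRing.ResidueField A) →+* LaurentSeries (IsLocalRing.ResidueField A))
    (hO : ∀ (a : ↥F0) (ha : a ∈ VM L hqL A hA),
      ∃ h : VMN (q * L) (ℓ := q) (iotaMN L (ℓ := q) a) ∈ T, rT ⟨_, h⟩ = ρ (ι' ⟨a, ha⟩))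
    (hθ : ∃ h : S18.H16.jNK L₁ (q * (q * L)) ∈ T, rT ⟨_, h⟩ = ρ θb)
    (y : ↥F1) (hy : y ∈ PO1 L hqL A hA P) :
    ∃ h : VMN (q * L) (ℓ := q) y ∈ T, rT ⟨_, h⟩ = ρ (Pres1 L hqL A hA P ⟨y, hy⟩) := by
  have hρinj : Function.Injective ρ := ρ.injective
  have hev : ∀ p : (↥(VM L hqL A hA))[X], p.eval₂ (ρ.comp ι') (ρ θb) = ρ (p.eval₂ ι' θb) :=
    fun p => (Polynomial.hom_eval₂ p ι' ρ θb).symm
  have key := S36.H16.le_of_transport_gen (L := ↥F1)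
    (Fk := LaurentSeries (IsLocalRing.ResidueField A))
    (T.comap (VMN (q * L) (ℓ := q)))
    (rT.comp ((VMN (q * L) (ℓ := q)).restrict (T.comap (VMN (q * L) (ℓ := q))) T
      (fun x hx => hx)))
    (fun z hz hne => by
      show VMN (q * L) (ℓ := q) z⁻¹ ∈ T
      rw [map_inv₀]
      exact hTinv _ hz hne)
    (PO1 L hqL A hA P) (ρ.comp (Pres1 L hqL A hA P))
    (O' := ↥(VM L hqL A hA)) (S18.H16.jNK L₁ (q * L)) (ρ.comp ι') (ρ θb)
    (fun p => CA.H99.PlaceOver.aeval_mem P p)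
    (fun p => by
      rw [hev]
      exact congrArg ρ (CA.H99.PlaceOver.res1_aeval P p))
    (fun z hz => by
      obtain ⟨a, s, hs, e⟩ := P.exists_repr z hz
      refine ⟨a, s, ?_, e⟩
      rw [hev]
      exact fun h0 => hs (hρinj (by rw [h0, map_zero])))
    (fun a => by
      obtain ⟨h, hh⟩ := hO (a : ↥F0) a.2
      exact ⟨h, hh⟩)
    (by
      obtain ⟨h, hh⟩ := hθ
      have e := VMN_jNK L (q := q)
      refine ⟨?_, ?_⟩
      · show VMN (q * L) (ℓ := q) (S18.H16.jNK L₁ (q * L)) ∈ T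
        rw [e]
        exact h
      · rw [← hh]
        exact congrArg rT (Subtype.ext e))
    hy
  obtain ⟨h, hh⟩ := key
  exact ⟨h, hh⟩

end Beta

/-! ### The two Gauss-ring inputs in `resM` form -/

theorem mem_O1_of_mem_V {a : ↥F0} (ha : a ∈ VM L hqL A hA) : a ∈ (Mod L hqL A hA).O1 := by
  rw [gaussModelVM_O1]
  exact ha

/-- `HiV` in `resM` form: `V a ∈ PO1 Pi` with residue `(resM a)(t^q)`. -/
theorem HiV_resM (Pi : PlaceInf L hqL A hA) (a : ↥F0) (ha : a ∈ VM L hqL A hA) :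
    ∃ h : VMN L (ℓ := q) a ∈ PO1 L hqL A hA Pi,
      Pres1 L hqL A hA Pi ⟨_, h⟩ =
        qExpand (IsLocalRing.ResidueField A) q (resM L hqL A hA ⟨a, ha⟩) := by
  obtain ⟨h, hh⟩ := HiV L hqL A hA Pi a (mem_O1_of_mem_V L hqL A hA ha)
  refine ⟨h, ?_⟩
  rw [hh]
  have e1 : inclk L A (FrM L A hA ((Mod L hqL A hA).res1 ⟨a, mem_O1_of_mem_V L hqL A hA ha⟩)) =
      qExpand (IsLocalRing.ResidueField A) q
        (inclk L A ((Mod L hqL A hA).res1 ⟨a, mem_O1_of_mem_V L hqL A hA ha⟩)) :=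
    coe_FrM L A hA _
  rw [e1, inclk_res1]

/-- `H0V` in `resM` form: `V a ∈ PO1 P0` with residue `resM a`. -/
theorem H0V_resM (P0 : PlaceZero L hqL A hA) (a : ↥F0) (ha : a ∈ VM L hqL A hA) :
    ∃ h : VMN L (ℓ := q) a ∈ PO1 L hqL A hA P0,
      Pres1 L hqL A hA P0 ⟨_, h⟩ = resM L hqL A hA ⟨a, ha⟩ := by
  obtain ⟨h, hh⟩ := H0V L hqL A hA P0 a (mem_O1_of_mem_V L hqL A hA ha)
  refine ⟨h, ?_⟩
  rw [hh, inclk_res1]

/-! ### The three β-identities, structure-agnostic in the top place `(T, rT)` -/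

set_option maxHeartbeats 1600000 in
/-- **(β, `PB`)**: `T` a place of `F2` over `Pi` (`rT ∘ iota2 = Pres1 Pi`) with
`j_{q²L} ↦ (j̄_L^q)^q`: `V2 (PO1 Pi) ⊆ T` and `rT (V2 y) = (Pres1 Pi y)(t^q)`. -/
theorem beta_of_over_inf_inf (Pi : PlaceInf L hqL A hA) (T : Subring ↥F2)
    (rT : ↥T →+* LaurentSeries (IsLocalRing.ResidueField A))
    (hTinv : ∀ (y : ↥F2) (hy : y ∈ T), rT ⟨y, hy⟩ ≠ 0 → y⁻¹ ∈ T)
    (hTα : ∀ (z : ↥F1) (hz : z ∈ PO1 L hqL A hA Pi),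
      ∃ h : iotaMN (q * L) (ℓ := q) z ∈ T, rT ⟨_, h⟩ = Pres1 L hqL A hA Pi ⟨z, hz⟩)
    (hθ : ∃ h : S18.H16.jNK L₁ (q * (q * L)) ∈ T,
      rT ⟨_, h⟩ = (resM L hqL A hA (jMV L hqL A hA) ^ q) ^ q)
    (y : ↥F1) (hy : y ∈ PO1 L hqL A hA Pi) :
    ∃ h : VMN (q * L) (ℓ := q) y ∈ T,
      rT ⟨_, h⟩ = qExpand (IsLocalRing.ResidueField A) q (Pres1 L hqL A hA Pi ⟨y, hy⟩) := by
  refine beta_transport L hqL A hA Pi T rT hTinv (qExpand (IsLocalRing.ResidueField A) q)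
    ?_ ?_ y hy
  · intro a ha
    obtain ⟨h1, hh1⟩ := HiV_resM L hqL A hA Pi a ha
    obtain ⟨h2, hh2⟩ := hTα _ h1
    have e := VMN_iotaMN L (q := q) a
    refine ⟨?_, ?_⟩
    · rw [e]
      exact h2
    · rw [← hh1, ← hh2]
      exact congrArg rT (Subtype.ext e)
  · obtain ⟨h, hh⟩ := hθ
    refine ⟨h, ?_⟩
    rw [hh, map_pow, qExpand_resM_jMV]

set_option maxHeartbeats 1600000 in
/-- **(β, `PC`)**: `T` a place of `F2` over `Pi` (`rT ∘ iota2 = Pres1 Pi`) with `j_{q²L} ↦ j̄_L`: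
`V2 (PO1 P0) ⊆ T` and `rT (V2 y) = Pres1 P0 y`. -/
theorem beta_of_over_inf_zero (Pi : PlaceInf L hqL A hA) (P0 : PlaceZero L hqL A hA)
    (T : Subring ↥F2) (rT : ↥T →+* LaurentSeries (IsLocalRing.ResidueField A))
    (hTinv : ∀ (y : ↥F2) (hy : y ∈ T), rT ⟨y, hy⟩ ≠ 0 → y⁻¹ ∈ T)
    (hTα : ∀ (z : ↥F1) (hz : z ∈ PO1 L hqL A hA Pi),
      ∃ h : iotaMN (q * L) (ℓ := q) z ∈ T, rT ⟨_, h⟩ = Pres1 L hqL A hA Pi ⟨z, hz⟩)
    (hθ : ∃ h : S18.H16.jNK L₁ (q * (q * L)) ∈ T,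
      rT ⟨_, h⟩ = resM L hqL A hA (jMV L hqL A hA))
    (y : ↥F1) (hy : y ∈ PO1 L hqL A hA P0) :
    ∃ h : VMN (q * L) (ℓ := q) y ∈ T, rT ⟨_, h⟩ = Pres1 L hqL A hA P0 ⟨y, hy⟩ := by
  refine beta_transport L hqL A hA P0 T rT hTinv (RingHom.id _) ?_ ?_ y hy
  · intro a ha
    obtain ⟨h1, hh1⟩ := HiV_resM L hqL A hA Pi a ha
    obtain ⟨h2, hh2⟩ := hTα _ h1
    have e := VMN_iotaMN L (q := q) a
    refine ⟨?_, ?_⟩
    · rw [e]
      exact h2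
    · rw [RingHom.id_apply, iotaZero_apply, ← hh1, ← hh2]
      exact congrArg rT (Subtype.ext e)
  · exact hθ

set_option maxHeartbeats 1600000 in
/-- **(β, `PA`)**: `T` a place of `F2` over `P0` with `rT ∘ iota2 = (t ↦ t^q) ∘ Pres1 P0` and
`j_{q²L} ↦ j̄_L`: `V2 (PO1 P0) ⊆ T` and `rT (V2 y) = Pres1 P0 y`. -/
theorem beta_of_over_zero (P0 : PlaceZero L hqL A hA)
    (T : Subring ↥F2) (rT : ↥T →+* LaurentSeries (IsLocalRing.ResidueField A))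
    (hTinv : ∀ (y : ↥F2) (hy : y ∈ T), rT ⟨y, hy⟩ ≠ 0 → y⁻¹ ∈ T)
    (hTα : ∀ (z : ↥F1) (hz : z ∈ PO1 L hqL A hA P0),
      ∃ h : iotaMN (q * L) (ℓ := q) z ∈ T,
        rT ⟨_, h⟩ = qExpand (IsLocalRing.ResidueField A) q (Pres1 L hqL A hA P0 ⟨z, hz⟩))
    (hθ : ∃ h : S18.H16.jNK L₁ (q * (q * L)) ∈ T,
      rT ⟨_, h⟩ = resM L hqL A hA (jMV L hqL A hA))
    (y : ↥F1) (hy : y ∈ PO1 L hqL A hA P0) :
    ∃ h : VMN (q * L) (ℓ := q) y ∈ T, rT ⟨_, h⟩ = Pres1 L hqL A hA P0 ⟨y, hy⟩ := by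
  refine beta_transport L hqL A hA P0 T rT hTinv (RingHom.id _) ?_ ?_ y hy
  · intro a ha
    obtain ⟨h1, hh1⟩ := H0V_resM L hqL A hA P0 a ha
    obtain ⟨h2, hh2⟩ := hTα _ h1
    have e := VMN_iotaMN L (q := q) a
    refine ⟨?_, ?_⟩
    · rw [e]
      exact h2
    · rw [RingHom.id_apply, iotaZero_apply, ← hh1, ← hh2]
      exact congrArg rT (Subtype.ext e)
  · exact hθ

end L0

end Fermat.Agent.S36.H96
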