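import Mathlib
import Fermat.Agent.S36.H49_MirrorInst
import Fermat.Agent.S36.H96_PlaceLevelBeta
import Fermat.Agent.S36.H1_PlaceOverRamLemmas
import Fermat.Agent.S36.H16_TowerValPlaces

/-!
S36 / (E5) → (E6), row (r3), `β`-side (helper16): **`f = 1` for the places `PA`, `PC` of `F₂` over
`PO1 P0` ALONG `β = V₂`**, hypothesis-free, and the kernel shapes needed by
`S36.H16.beta_norm_caseV_val`.

`F₁ = FullC L₁ (q L)`, `F₂ = FullC L₁ (q (q L))`; `P0 : PlaceZero`, `Pi : PlaceInf` (places of `F₁`),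
`PA : PlaceA P0`, `PB : PlaceB Pi`, `PC : PlaceC Pi` (helper55's pinned types, built along the
inclusion `ι₂`).  Along `V₂`, `PA` and `PC` lie over `P0` (`res ∘ V₂ = Pres1 P0`, helper49's
`V2_mem_QO1_A`, `V2_mem_RO1_C`).

* `resField P : Subfield kA((t))` : the residue field `Pres1 P (PO1 P)` of a place `P` of `F₁`;
* `exists_resM_eq_qExpand` : `resM (V_L)` is stable under `t ↦ t^q` (`resMF` is ONTO `Fk(L)`);
* `resM_mem_resField_zero`, `Pres1_inf_mem_resField_zero` (`κ(Pi) ⊆ κ(P0)`),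
  `qExpand_mem_resField_zero` (`κ(P0)` is stable under `t ↦ t^q`);
* **`exists_Pres1_eq_resA`, `exists_Pres1_eq_resC`** : every residue of `PA`, `PC` is a residue of
  `P0` (`f(PA | P0) = f(PC | P0) = 1` along `V₂`);
* `exists_sub_mem_nonunits_of_res` : the valuative form of `f = 1` (hypotheses `hfs hfm` of
  `S36.H16.towerValU_of_valuative`);
* `resPlaceA/B/C`, `kerA`, `kerC`, `kerB` : the `ResPlace`s and the kernels (`𝔪_A = q O_A`,
  `𝔪_C^(q-1) ⊆ q O_C`).
-/

set_option autoImplicit false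
set_option linter.unusedSectionVars false
set_option linter.style.haveILetI false
set_option synthInstance.maxHeartbeats 400000

noncomputable section

namespace Fermat.Agent.S36.H16

open ModularCurve Polynomial IsLocalRing Fermat.Agent.S28
open Fermat.Agent.S18 Fermat.Agent.S34.H92 Fermat.Agent.S34.H16 Fermat.Agent.S34.H55
open Fermat.Agent.S35.H46 Fermat.Agent.S36.H46

local notation "Qbar" => AlgebraicClosure ℚ

section Gen

variable {F Fk : Type*} [Field F] [Field Fk]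

/-- **`f = 1`, valuative form**: if every residue of the place `R` of `F` is the residue of an
element `ψ c` (`c : B`), then every unit of `V` (the valuation subring with ring `R.O1`) is
congruent to some `ψ c`. -/
theorem exists_sub_mem_nonunits_of_res {B : Type*} [CommRing B]
    (R : ResPlace F Fk) (V : ValuationSubring F) (hV : V.toSubring = R.O1)
    (ψ : B →+* F) (ρ : B →+* Fk)
    (hψ : ∀ c : B, ∃ h : ψ c ∈ R.O1, R.res ⟨_, h⟩ = ρ c)
    (hsurj : ∀ (y : F) (hy : y ∈ R.O1), ∃ c : B, ρ c = R.res ⟨y, hy⟩)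
    (x : F) (hx : V.valuation x = 1) : ∃ c : B, x - ψ c ∈ V.nonunits := by
  have b := placeBridge_of_toSubring_eq R V hV
  have hxV : x ∈ V := (V.valuation_le_one_iff x).1 hx.le
  have hxR : x ∈ R.O1 := (b.hO x).2 hxV
  obtain ⟨c, hc⟩ := hsurj x hxR
  obtain ⟨h, hh⟩ := hψ c
  refine ⟨c, ?_⟩
  rw [ValuationSubring.mem_nonunits_iff]
  refine b.hker _ (R.O1.sub_mem hxR h) ?_
  have e : (⟨x - ψ c, R.O1.sub_mem hxR h⟩ : R.O1) = ⟨x, hxR⟩ - ⟨ψ c, h⟩ := rfl
  rw [e, map_sub, hh, hc, sub_self]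

/-- an element of the ring of `R` with zero residue is a non-unit of `V`. -/
theorem mem_nonunits_of_res_eq_zero (R : ResPlace F Fk) (V : ValuationSubring F)
    (hV : V.toSubring = R.O1) {z : F} (hz : z ∈ R.O1) (h0 : R.res ⟨z, hz⟩ = 0) :
    z ∈ V.nonunits := by
  rw [ValuationSubring.mem_nonunits_iff]
  exact (placeBridge_of_toSubring_eq R V hV).hker z hz h0

/-- a non-unit of `V` lies in the ring of `R` and has zero residue. -/
theorem res_eq_zero_of_mem_nonunits (R : ResPlace F Fk) (V : ValuationSubring F)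
    (hV : V.toSubring = R.O1) {z : F} (hz : z ∈ V.nonunits) :
    ∃ h : z ∈ R.O1, R.res ⟨z, h⟩ = 0 := by
  have b := placeBridge_of_toSubring_eq R V hV
  rw [ValuationSubring.mem_nonunits_iff] at hz
  have hzV : z ∈ V := (V.valuation_le_one_iff z).1 hz.le
  have hzR : z ∈ R.O1 := (b.hO z).2 hzV
  exact ⟨hzR, b.res_eq_zero hzR hz⟩

end Gen

section L0

variable (L : ℕ) [NeZero L] {q : ℕ} [hq : Fact q.Prime] (hqL : ¬ q ∣ L)
  (A : ValuationSubring Qbar) (hA : A.LiesOverPrime q)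

local notation "kA" => IsLocalRing.ResidueField A
local notation "L₁" => H45.unrCyclo q
local notation "F0" => modularFunctionFieldFullC (H45.unrCyclo q) L
local notation "F1" => modularFunctionFieldFullC (H45.unrCyclo q) (q * L)
local notation "F2" => modularFunctionFieldFullC (H45.unrCyclo q) (q * (q * L))

section ResField

variable {ι' : ↥(VM L hqL A hA) →+* LaurentSeries (IsLocalRing.ResidueField A)}
  {θb : LaurentSeries (IsLocalRing.ResidueField A)}
  (P : PlaceGen L hqL A hA ι' θb)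

/-- the residue field `Pres1 P (PO1 P)` of a place `P` of `F₁`, as a subfield of `kA((t))`. -/
def resField : Subfield (LaurentSeries (IsLocalRing.ResidueField A)) where
  toSubring := (Pres1 L hqL A hA P).range
  inv_mem' := by
    rintro x ⟨c, rfl⟩
    by_cases h : Pres1 L hqL A hA P c = 0
    · rw [h, inv_zero]
      exact Subring.zero_mem _
    · have hinv : (c : F1)⁻¹ ∈ PO1 L hqL A hA P := Pinv_mem L hqL A hA P c.1 c.2 h
      refine ⟨⟨(c : F1)⁻¹, hinv⟩, ?_⟩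
      have hc0 : (c : F1) ≠ 0 := by
        intro h0
        apply h
        have : c = 0 := Subtype.ext h0
        rw [this, map_zero]
      have hmul : c * ⟨(c : F1)⁻¹, hinv⟩ = 1 := Subtype.ext (mul_inv_cancel₀ hc0)
      have h1 := congrArg (Pres1 L hqL A hA P) hmul
      rw [map_mul, map_one] at h1
      exact eq_inv_of_mul_eq_one_right h1

theorem mem_resField_iff {x : LaurentSeries (IsLocalRing.ResidueField A)} :
    x ∈ resField L hqL A hA P ↔ ∃ c : ↥(PO1 L hqL A hA P), Pres1 L hqL A hA P c = x :=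
  Iff.rfl

theorem Pres1_mem_resField (c : ↥(PO1 L hqL A hA P)) :
    Pres1 L hqL A hA P c ∈ resField L hqL A hA P := ⟨c, rfl⟩

/-- `ι' (V_L) ⊆ κ(P)`. -/
theorem iota_mem_resField (a : ↥(VM L hqL A hA)) : ι' a ∈ resField L hqL A hA P := by
  obtain ⟨h, hh⟩ := iotaMN_mem L hqL A hA P (a : F0) a.2
  exact ⟨⟨_, h⟩, hh⟩

end ResField

/-- **`resM (V_L)` is stable under `t ↦ t^q`** (`resMF` is onto `Fk(L)`, which is stable). -/
theorem exists_resM_eq_qExpand (a : ↥(VM L hqL A hA)) :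
    ∃ a' : ↥(VM L hqL A hA),
      resM L hqL A hA a' = qExpand (IsLocalRing.ResidueField A) q (resM L hqL A hA a) := by
  obtain ⟨a', ha'⟩ := resMF_surjective L hqL A hA (FrM L A hA (resMF L hqL A hA a))
  refine ⟨a', ?_⟩
  rw [resM_apply, ha', resM_apply]
  exact coe_FrM L A hA _

variable (Pi : PlaceInf L hqL A hA) (P0 : PlaceZero L hqL A hA)

/-- `resM (V_L) ⊆ κ(P0)` (through `V : F₀ → F₁`, `H0V`). -/
theorem resM_mem_resField_zero (a : ↥(VM L hqL A hA)) :
    resM L hqL A hA a ∈ resField L hqL A hA P0 := by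
  obtain ⟨h, hh⟩ := H96.H0V_resM L hqL A hA P0 (a : F0) a.2
  exact ⟨⟨_, h⟩, hh⟩

section WithAlg

attribute [local instance] Fermat.Agent.S34.H16.algebraVMFN

/-- **`κ(Pi) ⊆ κ(P0)`.** -/
theorem Pres1_inf_mem_resField_zero (c : ↥(PO1 L hqL A hA Pi)) :
    Pres1 L hqL A hA Pi c ∈ resField L hqL A hA P0 :=
  S34.H55.PlaceOver.res1_mem_of_subfield Pi (resField L hqL A hA P0)
    (resM_mem_resField_zero L hqL A hA P0)
    (pow_mem (resM_mem_resField_zero L hqL A hA P0 _) q) c.1 c.2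

/-- **`κ(P0)` is stable under `t ↦ t^q`.** -/
theorem qExpand_mem_resField_zero (c : ↥(PO1 L hqL A hA P0)) :
    qExpand (IsLocalRing.ResidueField A) q (Pres1 L hqL A hA P0 c) ∈
      resField L hqL A hA P0 := by
  have key : ∀ a : ↥(VM L hqL A hA), iotaZero L hqL A hA a ∈
      (resField L hqL A hA P0).comap (qExpand (IsLocalRing.ResidueField A) q) := by
    intro a
    obtain ⟨a', ha'⟩ := exists_resM_eq_qExpand L hqL A hA a
    show qExpand (IsLocalRing.ResidueField A) q (iotaZero L hqL A hA a) ∈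
      resField L hqL A hA P0
    rw [iotaZero_apply, ← ha', ← iotaZero_apply]
    exact iota_mem_resField L hqL A hA P0 a'
  have hθ : resM L hqL A hA (jMV L hqL A hA) ∈
      (resField L hqL A hA P0).comap (qExpand (IsLocalRing.ResidueField A) q) := by
    show qExpand (IsLocalRing.ResidueField A) q (resM L hqL A hA (jMV L hqL A hA)) ∈
      resField L hqL A hA P0
    rw [← iotaZero_apply]
    exact iota_mem_resField L hqL A hA P0 _
  exact S34.H55.PlaceOver.res1_mem_of_subfield P0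
    ((resField L hqL A hA P0).comap (qExpand (IsLocalRing.ResidueField A) q)) key hθ c.1 c.2

end WithAlg

/-! ### The three places of `F₂` -/

/-- the `ResPlace` of `PA`. -/
def resPlaceA (PA : H55.PlaceA L hqL A hA P0) :
    ResPlace ↥F2 (LaurentSeries (IsLocalRing.ResidueField A)) :=
  letI := H55.algPO1F2 L hqL A hA P0
  resPlaceOfPlaceOver PA

/-- the `ResPlace` of `PB`. -/
def resPlaceB (PB : H55.PlaceB L hqL A hA Pi) :
    ResPlace ↥F2 (LaurentSeries (IsLocalRing.ResidueField A)) :=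
  letI := H55.algPO1F2 L hqL A hA Pi
  resPlaceOfPlaceOver PB

/-- the `ResPlace` of `PC`. -/
def resPlaceC (PC : H55.PlaceC L hqL A hA Pi) :
    ResPlace ↥F2 (LaurentSeries (IsLocalRing.ResidueField A)) :=
  letI := H55.algPO1F2 L hqL A hA Pi
  resPlaceOfPlaceOverRam PC

theorem resPlaceA_O1 (PA : H55.PlaceA L hqL A hA P0) :
    (resPlaceA L hqL A hA P0 PA).O1 = H55.QO1 L hqL A hA PA := rfl

theorem resPlaceB_O1 (PB : H55.PlaceB L hqL A hA Pi) :
    (resPlaceB L hqL A hA Pi PB).O1 = H55.QO1 L hqL A hA PB := rfl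

theorem resPlaceC_O1 (PC : H55.PlaceC L hqL A hA Pi) :
    (resPlaceC L hqL A hA Pi PC).O1 = H55.RO1 L hqL A hA PC := rfl

/-- **`f(PA | P0) = 1` along `V₂`**: every residue of `PA` is a residue of `P0`. -/
theorem exists_Pres1_eq_resA (PA : H55.PlaceA L hqL A hA P0) (y : ↥F2)
    (hy : y ∈ (resPlaceA L hqL A hA P0 PA).O1) :
    ∃ c : ↥(PO1 L hqL A hA P0),
      Pres1 L hqL A hA P0 c = (resPlaceA L hqL A hA P0 PA).res ⟨y, hy⟩ := by
  letI := H55.algPO1F2 L hqL A hA P0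
  have h := S34.H55.PlaceOver.res1_mem_of_subfield PA (resField L hqL A hA P0)
    (fun c => qExpand_mem_resField_zero L hqL A hA P0 c)
    (resM_mem_resField_zero L hqL A hA P0 _) y hy
  exact h

/-- **`f(PC | P0) = 1` along `V₂`**: every residue of `PC` is a residue of `P0`. -/
theorem exists_Pres1_eq_resC (PC : H55.PlaceC L hqL A hA Pi) (y : ↥F2)
    (hy : y ∈ (resPlaceC L hqL A hA Pi PC).O1) :
    ∃ c : ↥(PO1 L hqL A hA P0),
      Pres1 L hqL A hA P0 c = (resPlaceC L hqL A hA Pi PC).res ⟨y, hy⟩ := by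
  letI := H55.algPO1F2 L hqL A hA Pi
  have h := S36.H1.PlaceOverRam.res1_mem_of_subfield PC (resField L hqL A hA P0)
    (fun c => Pres1_inf_mem_resField_zero L hqL A hA Pi P0 c)
    (Pres1_inf_mem_resField_zero L hqL A hA Pi P0 _) y hy
  exact h

/-- `res_A ∘ V₂ = Pres1 P0`, in `ResPlace` form (helper49's `V2_mem_QO1_A`). -/
theorem resA_V2 (PA : H55.PlaceA L hqL A hA P0) (c : ↥(PO1 L hqL A hA P0)) :
    ∃ h : H55.V2 L (q := q) c.1 ∈ (resPlaceA L hqL A hA P0 PA).O1,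
      (resPlaceA L hqL A hA P0 PA).res ⟨_, h⟩ = Pres1 L hqL A hA P0 c :=
  H49.V2_mem_QO1_A L hqL A hA P0 PA c.1 c.2

/-- `res_C ∘ V₂ = Pres1 P0`, in `ResPlace` form (helper49's `V2_mem_RO1_C`). -/
theorem resC_V2 (PC : H55.PlaceC L hqL A hA Pi) (c : ↥(PO1 L hqL A hA P0)) :
    ∃ h : H55.V2 L (q := q) c.1 ∈ (resPlaceC L hqL A hA Pi PC).O1,
      (resPlaceC L hqL A hA Pi PC).res ⟨_, h⟩ = Pres1 L hqL A hA P0 c :=
  H49.V2_mem_RO1_C L hqL A hA Pi P0 PC c.1 c.2

/-- `res_B ∘ V₂ = (t ↦ t^q) ∘ Pres1 Pi`, in `ResPlace` form (helper49's `V2_mem_QO1_B`). -/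
theorem resB_V2 (PB : H55.PlaceB L hqL A hA Pi) (c : ↥(PO1 L hqL A hA Pi)) :
    ∃ h : H55.V2 L (q := q) c.1 ∈ (resPlaceB L hqL A hA Pi PB).O1,
      (resPlaceB L hqL A hA Pi PB).res ⟨_, h⟩ =
        qExpand (IsLocalRing.ResidueField A) q (Pres1 L hqL A hA Pi c) :=
  H49.V2_mem_QO1_B L hqL A hA Pi PB c.1 c.2

/-- `F₂` has characteristic zero, so `q ≠ 0` there. -/
theorem natCast_F2_ne_zero : ((q : ℕ) : F2) ≠ 0 := by
  have h : ((q : ℕ) : L₁) ≠ 0 := Nat.cast_ne_zero.2 hq.out.ne_zero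
  intro h0
  apply h
  apply (algebraMap L₁ F2).injective
  rw [map_natCast, map_zero]
  exact h0

/-- **kernel of `res_A`**: `𝔪_A = q O_A`. -/
theorem kerA (PA : H55.PlaceA L hqL A hA P0) (z : ↥F2)
    (hz : z ∈ (resPlaceA L hqL A hA P0 PA).O1)
    (h0 : (resPlaceA L hqL A hA P0 PA).res ⟨z, hz⟩ = 0) :
    ∃ z' ∈ (resPlaceA L hqL A hA P0 PA).O1, z = ((q : ℕ) : F2) * z' := by
  letI := H55.algPO1F2 L hqL A hA P0
  obtain ⟨z', hz', e⟩ := (PA.res1_eq_zero_iff z hz).1 h0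
  refine ⟨z', hz', ?_⟩
  rw [e, map_natCast]

/-- **kernel of `res_B`**: `𝔪_B = q O_B`. -/
theorem kerB (PB : H55.PlaceB L hqL A hA Pi) (z : ↥F2)
    (hz : z ∈ (resPlaceB L hqL A hA Pi PB).O1)
    (h0 : (resPlaceB L hqL A hA Pi PB).res ⟨z, hz⟩ = 0) :
    ∃ z' ∈ (resPlaceB L hqL A hA Pi PB).O1, z = ((q : ℕ) : F2) * z' := by
  letI := H55.algPO1F2 L hqL A hA Pi
  obtain ⟨z', hz', e⟩ := (PB.res1_eq_zero_iff z hz).1 h0
  refine ⟨z', hz', ?_⟩
  rw [e, map_natCast]

/-- **kernel of `res_C`**: `𝔪_C^(q-1) ⊆ q O_C`. -/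
theorem kerC (PC : H55.PlaceC L hqL A hA Pi) (z : ↥F2)
    (hz : z ∈ (resPlaceC L hqL A hA Pi PC).O1)
    (h0 : (resPlaceC L hqL A hA Pi PC).res ⟨z, hz⟩ = 0) :
    ∃ z' ∈ (resPlaceC L hqL A hA Pi PC).O1, z ^ (q - 1) = ((q : ℕ) : F2) * z' := by
  letI := H55.algPO1F2 L hqL A hA Pi
  obtain ⟨z₁, hz₁, e⟩ := (PC.res1_eq_zero_iff z hz).1 h0
  have hq0 : algebraMap ↥(PO1 L hqL A hA Pi) F2 ((q : ℕ) : ↥(PO1 L hqL A hA Pi)) ≠ 0 := by
    rw [map_natCast]
    exact natCast_F2_ne_zero L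
  obtain ⟨v, hv, ev⟩ := S36.H1.PlaceOverRam.hτpow PC hq0
  refine ⟨v * z₁ ^ (q - 1), Subring.mul_mem _ hv (Subring.pow_mem _ hz₁ _), ?_⟩
  rw [e, mul_pow, ev, map_natCast]
  ring

/-- `q` is a non-unit at `A`, `B`, `C`. -/
theorem resA_natCast (PA : H55.PlaceA L hqL A hA P0) :
    ∃ h : ((q : ℕ) : F2) ∈ (resPlaceA L hqL A hA P0 PA).O1,
      (resPlaceA L hqL A hA P0 PA).res ⟨_, h⟩ = 0 := by
  have h1 : ((q : ℕ) : F2) ∈ (resPlaceA L hqL A hA P0 PA).O1 := natCast_mem _ q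
  refine ⟨h1, ?_⟩
  have e : (⟨((q : ℕ) : F2), h1⟩ : (resPlaceA L hqL A hA P0 PA).O1) =
      ((q : ℕ) : (resPlaceA L hqL A hA P0 PA).O1) := Subtype.ext (by push_cast; rfl)
  haveI : CharP (IsLocalRing.ResidueField A) q := S18.H92.charP_residueField A hA
  haveI := S34.H6.charP_laurentSeries (IsLocalRing.ResidueField A) q
  rw [e, map_natCast]
  exact CharP.cast_eq_zero _ q

theorem resB_natCast (PB : H55.PlaceB L hqL A hA Pi) :
    ∃ h : ((q : ℕ) : F2) ∈ (resPlaceB L hqL A hA Pi PB).O1,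
      (resPlaceB L hqL A hA Pi PB).res ⟨_, h⟩ = 0 := by
  have h1 : ((q : ℕ) : F2) ∈ (resPlaceB L hqL A hA Pi PB).O1 := natCast_mem _ q
  refine ⟨h1, ?_⟩
  have e : (⟨((q : ℕ) : F2), h1⟩ : (resPlaceB L hqL A hA Pi PB).O1) =
      ((q : ℕ) : (resPlaceB L hqL A hA Pi PB).O1) := Subtype.ext (by push_cast; rfl)
  haveI : CharP (IsLocalRing.ResidueField A) q := S18.H92.charP_residueField A hA
  haveI := S34.H6.charP_laurentSeries (IsLocalRing.ResidueField A) q
  rw [e, map_natCast]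
  exact CharP.cast_eq_zero _ q

theorem resC_natCast (PC : H55.PlaceC L hqL A hA Pi) :
    ∃ h : ((q : ℕ) : F2) ∈ (resPlaceC L hqL A hA Pi PC).O1,
      (resPlaceC L hqL A hA Pi PC).res ⟨_, h⟩ = 0 := by
  have h1 : ((q : ℕ) : F2) ∈ (resPlaceC L hqL A hA Pi PC).O1 := natCast_mem _ q
  refine ⟨h1, ?_⟩
  have e : (⟨((q : ℕ) : F2), h1⟩ : (resPlaceC L hqL A hA Pi PC).O1) =
      ((q : ℕ) : (resPlaceC L hqL A hA Pi PC).O1) := Subtype.ext (by push_cast; rfl)
  haveI : CharP (IsLocalRing.ResidueField A) q := S18.H92.charP_residueField A hA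
  haveI := S34.H6.charP_laurentSeries (IsLocalRing.ResidueField A) q
  rw [e, map_natCast]
  exact CharP.cast_eq_zero _ q

end L0

end Fermat.Agent.S36.H16
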