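import Mathlib
import Fermat.Agent.S36.H16_TowerValPlaces
import Fermat.Agent.S36.H16_NormRedVal

/-!
S36 / (E5) → (E6) (helper16): **the tower datum `S36.H46.TowerValU` from VALUATIVE data at the
ramified pair** (no place structures, no residue maps there) **and a `PlaceOver` structure at the
purely inseparable place**.

* `oneU_algebraMap_of_base`, `valuation_base_eq_one_of_map`, `exists_unit_eq_of_valuation_eq_one` :
  the dictionary between a DVR `O` (with `Ws.toSubring = range (O → K)`) and valuation subrings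
  `V` of `L` over it;
* `towerValU_of_valuative` : the producer.  The hypothesis `hNs` is the conclusion of
  `S36.H16.exists_norm_congr_closure` (`n := q - 1`), `hNi` the conclusion of
  `S36.H16.gen_norm_caseF` / `alpha_norm_caseF` / `beta_norm_caseF`.
-/

set_option autoImplicit false
set_option linter.unusedSectionVars false

noncomputable section

namespace Fermat.Agent.S36.H16

open Polynomial IsLocalRing Fermat.Agent.S34.H47 Fermat.Agent.S35.H46 Fermat.Agent.S36.H46

section Dict

variable {K L : Type*} [Field K] [Field L] [Algebra K L]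
variable {O : Type*} [CommRing O] [IsDomain O] [IsDiscreteValuationRing O]
  [Algebra O K] [IsFractionRing O K] [Algebra O L] [IsScalarTower O K L]

/-- elements of the maximal ideal of `O` have valuation `< 1` at `W` (`W = range (O → K)`). -/
theorem valuation_lt_one_of_mem_maximalIdeal (W : ValuationSubring K)
    (hW : W.toSubring = (algebraMap O K).range) {y : O} (hy : y ∈ maximalIdeal O) :
    W.valuation (algebraMap O K y) < 1 := by
  have hmem : algebraMap O K y ∈ W := by
    have : algebraMap O K y ∈ W.toSubring := by rw [hW]; exact ⟨y, rfl⟩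
    exact this
  by_contra hlt
  have h1 : W.valuation (algebraMap O K y) = 1 :=
    le_antisymm ((W.valuation_le_one_iff _).2 hmem) (not_lt.1 hlt)
  have hy0 : algebraMap O K y ≠ 0 := by
    intro h0
    rw [h0, map_zero] at h1
    exact zero_ne_one h1
  have hinv : (algebraMap O K y)⁻¹ ∈ W.toSubring := by
    change (algebraMap O K y)⁻¹ ∈ W
    rw [← W.valuation_le_one_iff, map_inv₀, h1, inv_one]
  rw [hW] at hinv
  obtain ⟨t, ht⟩ := hinv
  have hyt : y * t = 1 := by
    apply IsFractionRing.injective O K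
    rw [map_mul, ht, map_one, mul_inv_cancel₀ hy0]
  exact (IsLocalRing.mem_maximalIdeal y).1 hy (IsUnit.of_mul_eq_one _ hyt)

/-- an element of `K` of valuation `1` at `W` is the image of a unit of `O`. -/
theorem exists_unit_eq_of_valuation_eq_one (W : ValuationSubring K)
    (hW : W.toSubring = (algebraMap O K).range) {x : K} (hx : W.valuation x = 1) :
    ∃ c : O, IsUnit c ∧ algebraMap O K c = x := by
  have hx0 : x ≠ 0 := by
    rintro rfl
    rw [map_zero] at hx
    exact zero_ne_one hx
  have h1 : x ∈ W.toSubring := by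
    change x ∈ W
    rw [← W.valuation_le_one_iff, hx]
  have h2 : x⁻¹ ∈ W.toSubring := by
    change x⁻¹ ∈ W
    rw [← W.valuation_le_one_iff, map_inv₀, hx, inv_one]
  rw [hW] at h1 h2
  obtain ⟨c, hc⟩ := h1
  obtain ⟨t, ht⟩ := h2
  refine ⟨c, IsUnit.of_mul_eq_one t ?_, hc⟩
  apply IsFractionRing.injective O K
  rw [map_mul, hc, ht, map_one, mul_inv_cancel₀ hx0]

/-- elements of `W` come from `O`. -/
theorem exists_eq_of_mem_base (W : ValuationSubring K)
    (hW : W.toSubring = (algebraMap O K).range) {x : K} (hx : W.valuation x ≤ 1) :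
    ∃ c : O, algebraMap O K c = x := by
  have h1 : x ∈ W.toSubring := by
    change x ∈ W
    rwa [← W.valuation_le_one_iff]
  rw [hW] at h1
  exact h1

/-- elements of `K` of valuation `< 1` at `W` map to non-units of `V`. -/
theorem map_mem_nonunits_of_valuation_lt_one {ϖ : O} (hϖ : maximalIdeal O = Ideal.span {ϖ})
    (W : ValuationSubring K) (hW : W.toSubring = (algebraMap O K).range)
    (V : ValuationSubring L) (hOV : ∀ x : O, algebraMap O L x ∈ V)
    (hϖV : algebraMap O L ϖ ∈ V.nonunits) {x : K} (hx : W.valuation x < 1) :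
    algebraMap K L x ∈ V.nonunits := by
  obtain ⟨y, rfl⟩ := exists_eq_of_mem_base W hW hx.le
  have hy : y ∈ maximalIdeal O := by
    by_contra hn
    have hu : IsUnit y := by
      by_contra hnu
      exact hn ((IsLocalRing.mem_maximalIdeal y).2 hnu)
    obtain ⟨u, rfl⟩ := hu
    have h1 : W.valuation (algebraMap O K (u : O)) * W.valuation (algebraMap O K ((u⁻¹ : Oˣ) : O))
        = 1 := by
      rw [← map_mul, ← map_mul, Units.mul_inv, map_one, map_one]
    have h2 : W.valuation (algebraMap O K ((u⁻¹ : Oˣ) : O)) ≤ 1 := by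
      rw [W.valuation_le_one_iff]
      have : algebraMap O K ((u⁻¹ : Oˣ) : O) ∈ W.toSubring := by rw [hW]; exact ⟨_, rfl⟩
      exact this
    have h3 : 1 ≤ W.valuation (algebraMap O K (u : O)) := by
      calc (1 : _) = W.valuation (algebraMap O K (u : O)) *
            W.valuation (algebraMap O K ((u⁻¹ : Oˣ) : O)) := h1.symm
        _ ≤ W.valuation (algebraMap O K (u : O)) * 1 := mul_le_mul' le_rfl h2
        _ = W.valuation (algebraMap O K (u : O)) := mul_one _
    exact absurd hx (not_lt.2 h3)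
  rw [hϖ, Ideal.mem_span_singleton] at hy
  obtain ⟨t, rfl⟩ := hy
  rw [← IsScalarTower.algebraMap_apply O K L, map_mul, mul_comm]
  exact mul_mem_nonunits V (hOV t) hϖV

/-- `1`-units of `W` map to `1`-units of `V`. -/
theorem oneU_algebraMap_of_base {ϖ : O} (hϖ : maximalIdeal O = Ideal.span {ϖ})
    (W : ValuationSubring K) (hW : W.toSubring = (algebraMap O K).range)
    (V : ValuationSubring L) (hOV : ∀ x : O, algebraMap O L x ∈ V)
    (hϖV : algebraMap O L ϖ ∈ V.nonunits) {x : K} (hx : OneU W x) :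
    OneU V (algebraMap K L x) := by
  have h1 := map_mem_nonunits_of_valuation_lt_one hϖ W hW V hOV hϖV hx
  rw [ValuationSubring.mem_nonunits_iff, map_sub, map_one] at h1
  exact h1

/-- if `a x` is a unit of `V` then `x` is a unit of `W`. -/
theorem valuation_base_eq_one_of_map {ϖ : O} (hϖ : maximalIdeal O = Ideal.span {ϖ})
    (W : ValuationSubring K) (hW : W.toSubring = (algebraMap O K).range)
    (V : ValuationSubring L) (hOV : ∀ x : O, algebraMap O L x ∈ V)
    (hϖV : algebraMap O L ϖ ∈ V.nonunits) {x : K} (hx : V.valuation (algebraMap K L x) = 1) :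
    W.valuation x = 1 := by
  have hx0 : x ≠ 0 := by
    rintro rfl
    rw [map_zero, map_zero] at hx
    exact zero_ne_one hx
  have key : ∀ z : K, V.valuation (algebraMap K L z) = 1 → ¬ W.valuation z < 1 := by
    intro z hz hlt
    have h1 := map_mem_nonunits_of_valuation_lt_one hϖ W hW V hOV hϖV hlt
    rw [ValuationSubring.mem_nonunits_iff, hz] at h1
    exact lt_irrefl _ h1
  have h1 : ¬ W.valuation x < 1 := key x hx
  have h2 : ¬ W.valuation x⁻¹ < 1 := by
    apply key
    rw [map_inv₀, map_inv₀, hx, inv_one]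
  rw [map_inv₀] at h2
  have hv0 : 0 < W.valuation x := zero_lt_iff.mpr ((Valuation.ne_zero_iff _).mpr hx0)
  apply le_antisymm
  · by_contra hgt
    rw [not_le] at hgt
    exact h2 ((inv_lt_one₀ hv0).mpr hgt)
  · exact not_lt.mp h1

/-- `OneU V (x / y)` from `x - y` a non-unit and `y` a unit. -/
theorem oneU_div_of_sub_mem (V : ValuationSubring L) {x y : L} (hxy : x - y ∈ V.nonunits)
    (hy : V.valuation y = 1) : OneU V (x / y) := by
  have hy0 : y ≠ 0 := by
    rintro rfl
    rw [map_zero] at hy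
    exact zero_ne_one hy
  have h1 : x / y - 1 = (x - y) / y := by field_simp
  change V.valuation (x / y - 1) < 1
  rw [h1, map_div₀, hy, div_one]
  exact (ValuationSubring.mem_nonunits_iff V).1 hxy

/-- `x - y` a non-unit from `OneU V (x / y)` and `y` integral at `V`. -/
theorem sub_mem_of_oneU_div (V : ValuationSubring L) {x y : L} (h : OneU V (x / y))
    (hy : V.valuation y = 1) : x - y ∈ V.nonunits := by
  have hy0 : y ≠ 0 := by
    rintro rfl
    rw [map_zero] at hy
    exact zero_ne_one hy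
  have h1 : x - y = (x / y - 1) * y := by field_simp
  rw [ValuationSubring.mem_nonunits_iff, h1, map_mul, hy, mul_one]
  exact h

end Dict

section Tower

variable {K L κ : Type*} [Field K] [Field L] [Field κ] [Algebra K L]

/-- **(E5) → (E6), valuative form at the ramified pair.** -/
theorem towerValU_of_valuative (q : ℕ)
    {Os : Type*} [CommRing Os] [IsDomain Os] [IsDiscreteValuationRing Os]
    [Algebra Os K] [IsFractionRing Os K] [Algebra Os L] [IsScalarTower Os K L]
    {ϖs : Os} (hϖs : maximalIdeal Os = Ideal.span {ϖs})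
    (Vs Vm : ValuationSubring L) (Ws : ValuationSubring K)
    (hWs : Ws.toSubring = (algebraMap Os K).range)
    (hOs : ∀ x : Os, algebraMap Os L x ∈ Vs) (hOm : ∀ x : Os, algebraMap Os L x ∈ Vm)
    (hϖVs : algebraMap Os L ϖs ∈ Vs.nonunits) (hϖVm : algebraMap Os L ϖs ∈ Vm.nonunits)
    (hfs : ∀ x : L, Vs.valuation x = 1 → ∃ c : Os, x - algebraMap Os L c ∈ Vs.nonunits)
    (hfm : ∀ x : L, Vm.valuation x = 1 → ∃ c : Os, x - algebraMap Os L c ∈ Vm.nonunits)
    (hNs : ∀ (u : L) (c₁ c₂ : Os), IsUnit c₁ → IsUnit c₂ →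
      u - algebraMap Os L c₁ ∈ Vm.nonunits → u - algebraMap Os L c₂ ∈ Vs.nonunits →
      ∃ m : Os, algebraMap Os K m = Algebra.norm K u ∧
        m - c₁ ^ (q - 1) * c₂ ∈ maximalIdeal Os)
    {Oi : Type*} [CommRing Oi] [IsDomain Oi] [IsDiscreteValuationRing Oi]
    [Algebra Oi K] [IsFractionRing Oi K] [Algebra Oi L] [IsScalarTower Oi K L]
    {ϖi : Oi} (hϖi : maximalIdeal Oi = Ideal.span {ϖi}) (ιi : Oi →+* κ) (hιi : ιi ϖi = 0)
    {θ' : L} {θb₃ : κ} (P₃ : CA.H99.PlaceOver ϖi θ' ιi θb₃)
    (hNi : ∀ (u : L) (h : u ∈ P₃.O1), ∃ m : Oi,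
      algebraMap Oi K m = Algebra.norm K u ∧ ιi m = P₃.res1 ⟨u, h⟩ ^ q)
    (Vi : ValuationSubring L) (hVi : Vi.toSubring = P₃.O1)
    (Wi : ValuationSubring K) (hWi : Wi.toSubring = (algebraMap Oi K).range)
    (Na : L →*₀ K) (hNa : ∀ x, Na x = Algebra.norm K x) :
    TowerValU (algebraMap K L) Na q Vs Vm Vi Ws Wi := by
  have bWi := placeBridge_of_toSubring_eq (basePlace (K := K) hϖi ιi hιi) Wi hWi
  have bVi := placeBridge_of_toSubring_eq (resPlaceOfPlaceOver P₃) Vi hVi
  have li := liesOver_placeOver (K := K) hϖi ιi hιi P₃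
  have g2i : ∀ u t, (resPlaceOfPlaceOver P₃).HasRes u t →
      (basePlace (K := K) hϖi ιi hιi).HasRes (Na u) (t ^ q) := by
    rintro u t ⟨h, e⟩
    obtain ⟨m, hm1, hm2⟩ := hNi u h
    rw [hNa, ← hm1]
    refine basePlace_hasRes hϖi ιi hιi ?_
    rw [hm2, Units.val_pow_eq_pow_val, ← e]
    rfl
  -- the lift of residues at the two `f = 1` places
  have hlift : ∀ (V : ValuationSubring L), (∀ x : Os, algebraMap Os L x ∈ V) →
      (∀ x : L, V.valuation x = 1 → ∃ c : Os, x - algebraMap Os L c ∈ V.nonunits) →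
      ∀ x : L, V.valuation x = 1 → ∃ x1, OneU V (x / algebraMap K L x1) := by
    intro V hOV hf x hx
    obtain ⟨c, hc⟩ := hf x hx
    refine ⟨algebraMap Os K c, ?_⟩
    rw [← IsScalarTower.algebraMap_apply Os K L]
    refine oneU_div_of_sub_mem V hc ?_
    have h1 : algebraMap Os L c - x ∈ V.nonunits := by
      have := nonunits_neg V hc
      rwa [neg_sub] at this
    exact valuation_eq_one_of_sub_mem V h1 hx
  refine
    { haVs := fun x hx => oneU_algebraMap_of_base hϖs Ws hWs Vs hOs hϖVs hx
      haVm := fun x hx => oneU_algebraMap_of_base hϖs Ws hWs Vm hOm hϖVm hx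
      haVi := fun _ hx => li.oneU bWi bVi hx
      hNs := ?_
      hNi := fun _ _ hxi h3 => oneU_norm_insep q bWi bVi li g2i hxi h3
      hls := hlift Vs hOs hfs
      hlm := hlift Vm hOm hfm
      hli := fun _ hx => exists_oneU_lift_pow q bVi li g2i hx }
  intro x x1 x2 hxs hxm h1 h2
  -- `x1`, `x2` are images of units of `Os`
  have v1 : Vs.valuation (algebraMap K L x1) = 1 := by
    have := h1.valuation_eq_one
    rw [map_div₀, hxs, one_div, inv_eq_one] at this
    exact this
  have v2 : Vm.valuation (algebraMap K L x2) = 1 := by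
    have := h2.valuation_eq_one
    rw [map_div₀, hxm, one_div, inv_eq_one] at this
    exact this
  have w1 := valuation_base_eq_one_of_map hϖs Ws hWs Vs hOs hϖVs v1
  have w2 := valuation_base_eq_one_of_map hϖs Ws hWs Vm hOm hϖVm v2
  obtain ⟨c₂, hc₂, rfl⟩ := exists_unit_eq_of_valuation_eq_one (O := Os) Ws hWs w1
  obtain ⟨c₁, hc₁, rfl⟩ := exists_unit_eq_of_valuation_eq_one (O := Os) Ws hWs w2
  have hu₁ : x - algebraMap Os L c₁ ∈ Vm.nonunits := by
    rw [IsScalarTower.algebraMap_apply Os K L]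
    exact sub_mem_of_oneU_div Vm h2 v2
  have hu₂ : x - algebraMap Os L c₂ ∈ Vs.nonunits := by
    rw [IsScalarTower.algebraMap_apply Os K L]
    exact sub_mem_of_oneU_div Vs h1 v1
  obtain ⟨m, hm1, hm2⟩ := hNs x c₁ c₂ hc₁ hc₂ hu₁ hu₂
  rw [hNa, ← hm1, ← map_pow, ← map_mul]
  have hunit : IsUnit (c₂ * c₁ ^ (q - 1)) := hc₂.mul (hc₁.pow _)
  have hv : Ws.valuation (algebraMap Os K (c₂ * c₁ ^ (q - 1))) = 1 := by
    obtain ⟨u, hu⟩ := hunit
    rw [← hu]
    have e1 : Ws.valuation (algebraMap Os K (u : Os)) ≤ 1 := by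
      rw [Ws.valuation_le_one_iff]
      have : algebraMap Os K (u : Os) ∈ Ws.toSubring := by rw [hWs]; exact ⟨_, rfl⟩
      exact this
    have e2 : Ws.valuation (algebraMap Os K ((u⁻¹ : Osˣ) : Os)) ≤ 1 := by
      rw [Ws.valuation_le_one_iff]
      have : algebraMap Os K ((u⁻¹ : Osˣ) : Os) ∈ Ws.toSubring := by rw [hWs]; exact ⟨_, rfl⟩
      exact this
    have e3 : Ws.valuation (algebraMap Os K (u : Os)) *
        Ws.valuation (algebraMap Os K ((u⁻¹ : Osˣ) : Os)) = 1 := by
      rw [← map_mul, ← map_mul, Units.mul_inv, map_one, map_one]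
    apply le_antisymm e1
    calc (1 : _) = Ws.valuation (algebraMap Os K (u : Os)) *
          Ws.valuation (algebraMap Os K ((u⁻¹ : Osˣ) : Os)) := e3.symm
      _ ≤ Ws.valuation (algebraMap Os K (u : Os)) * 1 := mul_le_mul' le_rfl e2
      _ = Ws.valuation (algebraMap Os K (u : Os)) := mul_one _
  have hsub : algebraMap Os K m - algebraMap Os K (c₂ * c₁ ^ (q - 1)) ∈ Ws.nonunits := by
    rw [ValuationSubring.mem_nonunits_iff, ← map_sub]
    have : m - c₂ * c₁ ^ (q - 1) = m - c₁ ^ (q - 1) * c₂ := by ring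
    rw [this]
    exact valuation_lt_one_of_mem_maximalIdeal Ws hWs hm2
  exact oneU_div_of_sub_mem Ws hsub hv

end Tower

end Fermat.Agent.S36.H16
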