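import Mathlib
import Fermat.Agent.S28.H39_Laurent
import Fermat.Agent.S28.H96_Transfer
import Fermat.Agent.S34.H16_RelDeg
import Fermat.Agent.S34.H36_FrobLin

/-!
# S36 / MID-EMB (helper27), part 1: the middle roots `J(ζ^b t^L)` and the value of `∂Φ_q/∂X`

Tower `L ∣ q L ∣ q² L`, `v = j(t^(qL))` (inner slot of `Φ_q`), roots of `Φ_q(v; X)`:
`w = j(t^L)`, `j(t^(q²L))` and the **middle roots** `J(ζ^b t^L)`, `0 < b < q`
(`ζ` a primitive `q`-th root of unity).  Hence

  `Φ_X(w, v) := (∂Φ_q/∂X)(v; w) = (w - j(t^(q²L))) * ∏_{0<b<q} (w - J(ζ^b t^L)) = q * Z`,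

with `Z = midZ` an explicit series with coefficients in `ℤ[ζ]`, whose reduction along any
`f : ℤ[ζ] → k`, `f ζ = 1`, `char k = q`, is `(w̄ - w̄^(q²)) * ((θ j̄)(t^L))^(q-1)`, `θ = t d/dt`.

* `zgeom ξ n`, `qDiff ξ x` : `twist ξ x - x = C (ξ - 1) * qDiff ξ x`, `qDiff 1 = thetaOp`;
* `phiX R D q L` : `Φ_X(w, v)` over any commutative ring `R`;
* `midZ R ζ q L` : the quotient `Z`;
* `phiX_eq_C_mul_midZ` : `phiX = C q * midZ` over a domain with a primitive `q`-th root of unity;
* `coeffMap_midZ_of_map_eq_one` : the reduction formula;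
* `exists_int_quotient` : the `ℤ`-level statement (no `ζ` left).
-/

set_option autoImplicit false
set_option linter.unusedSectionVars false

noncomputable section

namespace Fermat.Agent.S36.H27

open ModularCurve Polynomial Fermat.Agent.S28

/-! ### 1. `q`-numbers and the difference operator -/

section QDiff

variable {R : Type*} [CommRing R] {S : Type*} [CommRing S]

/-- the `ξ`-number `[n]_ξ`, `n : ℤ`: `ξ^n - 1 = (ξ - 1) * [n]_ξ`. -/
def zgeom (ξ : Rˣ) (n : ℤ) : R :=
  if 0 ≤ n then ∑ i ∈ Finset.range n.toNat, (ξ : R) ^ i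
  else -(((ξ ^ n : Rˣ) : R)) * ∑ i ∈ Finset.range (-n).toNat, (ξ : R) ^ i

theorem zgeom_spec (ξ : Rˣ) (n : ℤ) : ((ξ ^ n : Rˣ) : R) - 1 = ((ξ : R) - 1) * zgeom ξ n := by
  unfold zgeom
  split_ifs with h
  · obtain ⟨m, rfl⟩ := Int.eq_ofNat_of_zero_le h
    rw [Int.toNat_natCast, mul_geom_sum, zpow_natCast, Units.val_pow_eq_pow_val]
  · rw [not_le] at h
    obtain ⟨m, hm⟩ : ∃ m : ℕ, n = -(m : ℤ) := ⟨(-n).toNat, by omega⟩
    subst hm
    rw [neg_neg, Int.toNat_natCast]
    have h1 : ((ξ : R) - 1) * (-(((ξ ^ (-(m : ℤ)) : Rˣ) : R)) * ∑ i ∈ Finset.range m, (ξ : R) ^ i)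
        = -(((ξ ^ (-(m : ℤ)) : Rˣ) : R)) * (((ξ : R) - 1) * ∑ i ∈ Finset.range m, (ξ : R) ^ i) := by
      ring
    rw [h1, mul_geom_sum]
    have h2 : ((ξ ^ (-(m : ℤ)) : Rˣ) : R) * (ξ : R) ^ m = 1 := by
      rw [← Units.val_pow_eq_pow_val, ← Units.val_mul, zpow_neg, zpow_natCast, inv_mul_cancel,
        Units.val_one]
    linear_combination h2

theorem map_zgeom (f : R →+* S) (ξ : Rˣ) (n : ℤ) :
    f (zgeom ξ n) = zgeom (Units.map (f : R →* S) ξ) n := by
  unfold zgeom
  split_ifs with h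
  · rw [map_sum]
    refine Finset.sum_congr rfl fun i _ => ?_
    rw [map_pow]; rfl
  · rw [map_mul, map_neg, map_sum, ← map_zpow]
    congr 1
    refine Finset.sum_congr rfl fun i _ => ?_
    rw [map_pow]; rfl

theorem zgeom_one (n : ℤ) : zgeom (1 : Rˣ) n = (n : R) := by
  unfold zgeom
  split_ifs with h
  · obtain ⟨m, rfl⟩ := Int.eq_ofNat_of_zero_le h
    simp
  · rw [not_le] at h
    obtain ⟨m, hm⟩ : ∃ m : ℕ, n = -(m : ℤ) := ⟨(-n).toNat, by omega⟩
    subst hm
    simp

theorem zgeom_neg_one (ξ : Rˣ) : zgeom ξ (-1) = -((ξ⁻¹ : Rˣ) : R) := by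
  unfold zgeom
  rw [if_neg (by norm_num)]
  simp

/-- `(x(ξ t) - x(t)) / (ξ - 1)`, coefficientwise: `a_n ↦ [n]_ξ a_n`. -/
def qDiff (ξ : Rˣ) (x : LaurentSeries R) : LaurentSeries R where
  coeff n := zgeom ξ n * x.coeff n
  isPWO_support' := x.isPWO_support.mono fun n hn => by
    simp only [Function.mem_support, ne_eq] at hn ⊢
    intro h
    exact hn (by rw [h, mul_zero])

@[simp]
theorem qDiff_coeff (ξ : Rˣ) (x : LaurentSeries R) (n : ℤ) :
    (qDiff ξ x).coeff n = zgeom ξ n * x.coeff n := rfl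

/-- **the key congruence**: `x(ξ t) - x(t) = (ξ - 1) * qDiff ξ x`. -/
theorem twist_sub_self (ξ : Rˣ) (x : LaurentSeries R) :
    twist ξ x - x = HahnSeries.C ((ξ : R) - 1) * qDiff ξ x := by
  ext n
  rw [HahnSeries.coeff_sub, twist_coeff, HahnSeries.C_mul_eq_smul, HahnSeries.coeff_smul,
    qDiff_coeff, smul_eq_mul, ← mul_assoc, ← zgeom_spec]
  ring

theorem coeffMap_qDiff (f : R →+* S) (ξ : Rˣ) (x : LaurentSeries R) :
    coeffMap f (qDiff ξ x) = qDiff (Units.map (f : R →* S) ξ) (coeffMap f x) := by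
  ext n
  rw [coeffMap_coeff, qDiff_coeff, qDiff_coeff, coeffMap_coeff, map_mul, map_zgeom]

theorem qDiff_one (x : LaurentSeries R) : qDiff (1 : Rˣ) x = thetaOp x := by
  ext n
  rw [qDiff_coeff, thetaOp_coeff, zgeom_one]

/-- modulo `ξ - 1` the difference quotient is `θ = t d/dt`. -/
theorem coeffMap_qDiff_of_map_eq_one (f : R →+* S) (ξ : Rˣ) (hξ : f (ξ : R) = 1)
    (x : LaurentSeries R) : coeffMap f (qDiff ξ x) = thetaOp (coeffMap f x) := by
  rw [coeffMap_qDiff]
  have h : Units.map (f : R →* S) ξ = 1 := Units.ext (by simpa using hξ)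
  rw [h, qDiff_one]

theorem qDiff_coeff_neg_one (ξ : Rˣ) : (qDiff ξ (jqModC R)).coeff (-1) = -((ξ⁻¹ : Rˣ) : R) := by
  rw [qDiff_coeff, zgeom_neg_one, coeff_jqModC_neg_one, mul_one]

end QDiff

/-! ### 2. Generalities on polynomials with known roots -/

section PolyRoots

variable {F : Type*} [Field F]

/-- a monic polynomial of degree `n` with `n` distinct roots is the product of the `X - ρ i`. -/
theorem eq_prod_X_sub_C_of_roots {ι : Type*} (p : F[X]) (hp : p.Monic) (s : Finset ι) (ρ : ι → F)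
    (hinj : Set.InjOn ρ s) (hroot : ∀ i ∈ s, p.eval (ρ i) = 0) (hcard : s.card = p.natDegree) :
    p = ∏ i ∈ s, (X - C (ρ i)) := by
  have hdvd : ∏ i ∈ s, (X - C (ρ i)) ∣ p := by
    refine Finset.prod_dvd_of_coprime ?_ ?_
    · intro i hi j hj hij
      exact Polynomial.isCoprime_X_sub_C_of_isUnit_sub
        (sub_ne_zero.2 fun h => hij (hinj hi hj h)).isUnit
    · intro i hi
      exact Polynomial.dvd_iff_isRoot.2 (hroot i hi)
  have hmonic : (∏ i ∈ s, (X - C (ρ i))).Monic := Polynomial.monic_prod_of_monic _ _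
    fun i _ => Polynomial.monic_X_sub_C _
  refine (Polynomial.eq_of_monic_of_dvd_of_natDegree_le hmonic hp hdvd ?_)
  rw [Polynomial.natDegree_prod_of_monic _ _ fun i _ => Polynomial.monic_X_sub_C _]
  simp [hcard]

/-- the derivative of `(X - a) * G` at `a` is `G(a)`. -/
theorem derivative_X_sub_C_mul_eval {A : Type*} [CommRing A] (a : A) (G : A[X]) :
    (derivative ((X - C a) * G)).eval a = G.eval a := by
  rw [derivative_mul, derivative_sub, derivative_X, derivative_C, sub_zero, one_mul, eval_add,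
    eval_mul, eval_sub, eval_X, eval_C, sub_self, zero_mul, add_zero]

end PolyRoots

/-! ### 3. `Φ_X(w, v)` and the quotient `Z` -/

section Defs

variable (q : ℕ) [NeZero q] (L : ℕ) [NeZero L]

/-- `Φ_X(w, v) = (∂Φ_q/∂X)(v; w)`, `v = j(t^(qL))` (inner slot), `w = j(t^L)`, over `R`. -/
def phiX (R : Type*) [CommRing R] (D : ModularPolynomialData q) : LaurentSeries R :=
  (derivative D.Φ).eval₂ (evalJ (qExpand R (q * L) (jqModC R))) (qExpand R L (jqModC R))

theorem phiX_eq (R : Type*) [CommRing R] (D : ModularPolynomialData q) :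
    (derivative (D.Φ.map (evalJ (qExpand R (q * L) (jqModC R))))).eval (qExpand R L (jqModC R)) =
      phiX q L R D := by
  rw [phiX, derivative_map, eval_map]

theorem coeffMap_phiX {R S : Type*} [CommRing R] [CommRing S] (f : R →+* S)
    (D : ModularPolynomialData q) : coeffMap f (phiX q L R D) = phiX q L S D := by
  rw [phiX, phiX, H96.coeffMap_eval₂_evalJ, coeffMap_qExpand, coeffMap_qExpand, coeffMap_jqModC]

/-- the quotient `Z = Φ_X(w, v) / q`, written with a `q`-th root of unity `ζ`: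
`(w - j(t^(q²L))) * ∏_{0<b<q} ((j(t) - j(ζ^b t))/(1 - ζ^b))(t^L)`. -/
def midZ (R : Type*) [CommRing R] (ζ : Rˣ) : LaurentSeries R :=
  (qExpand R L (jqModC R) - qExpand R (q * (q * L)) (jqModC R)) *
    ∏ b ∈ Finset.range (q - 1), qExpand R L (qDiff (ζ ^ (b + 1)) (jqModC R))

theorem coeffMap_midZ {R S : Type*} [CommRing R] [CommRing S] (f : R →+* S) (ζ : Rˣ) :
    coeffMap f (midZ q L R ζ) = midZ q L S (Units.map (f : R →* S) ζ) := by
  rw [midZ, midZ, map_mul, map_sub, map_prod, coeffMap_qExpand, coeffMap_qExpand, coeffMap_jqModC]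
  congr 1
  refine Finset.prod_congr rfl fun b _ => ?_
  rw [coeffMap_qExpand, coeffMap_qDiff, coeffMap_jqModC, map_pow]

end Defs

section Field

variable (q : ℕ) [NeZero q] (L : ℕ) [NeZero L]

theorem not_dvd_neg_level (hq : q.Prime) : ¬ (((q * (q * L) : ℕ) : ℤ)) ∣ -(L : ℤ) := by
  rw [dvd_neg, Int.natCast_dvd_natCast]
  intro h
  have hL : 0 < L := Nat.pos_of_ne_zero (NeZero.ne L)
  have h1 := Nat.le_of_dvd hL h
  have h2 : 2 ≤ q := hq.two_le
  have h3 : 2 * (2 * L) ≤ q * (q * L) := Nat.mul_le_mul h2 (Nat.mul_le_mul h2 le_rfl)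
  omega

/-- the `q + 1` roots of `Φ_q(v; X)`, `v = j(t^(qL))`: `J(ζ^i t^L)` (`i < q`) and `j(t^(q²L))`. -/
def midRoot (K : Type*) [CommRing K] (ζ : Kˣ) (i : ℕ) : LaurentSeries K :=
  if i < q then Jconj K (ζ ^ i) L else qExpand K (q * (q * L)) (jqModC K)

theorem midRoot_of_lt (K : Type*) [CommRing K] (ζ : Kˣ) {i : ℕ} (hi : i < q) :
    midRoot q L K ζ i = Jconj K (ζ ^ i) L := if_pos hi

theorem midRoot_self (K : Type*) [CommRing K] (ζ : Kˣ) :
    midRoot q L K ζ q = qExpand K (q * (q * L)) (jqModC K) := if_neg (lt_irrefl q)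

theorem midRoot_zero (K : Type*) [CommRing K] (ζ : Kˣ) :
    midRoot q L K ζ 0 = qExpand K L (jqModC K) := by
  rw [midRoot_of_lt q L K ζ (Nat.pos_of_ne_zero (NeZero.ne q)), pow_zero, Jconj_one]

/-- the middle roots are roots. -/
theorem eval₂_midRoot (K : Type*) [CommRing K] (ζ : Kˣ) (D : ModularPolynomialData q)
    (hD : RootsAt K q ζ D.Φ) {i : ℕ} (hi : i ≤ q) :
    D.Φ.eval₂ (evalJ (qExpand K (q * L) (jqModC K))) (midRoot q L K ζ i) = 0 := by
  rcases Nat.lt_or_ge i q with h | h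
  · rw [midRoot_of_lt q L K ζ h]
    have : NeZero (1 * 1) := ⟨by norm_num⟩
    have h1 := hD 1 i q ⟨one_mul q, h, by simp⟩ inferInstance
    have h2 := congrArg (qExpand K L) h1
    rw [H96.qExpand_eval₂_evalJ, map_zero, qExpand_qExpand, H39.qExpand_Jconj] at h2
    rw [qExpand_congr (mul_comm q L),
      H39.Jconj_congr (show ζ ^ i = ζ ^ (1 * i) by rw [one_mul])
        (show L = L * (1 * 1) by ring)]
    exact h2
  · have hiq : i = q := le_antisymm hi h
    subst hiq
    rw [midRoot_self]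
    exact S34.H16.modPoly_root_shift' i D (i * L) (i * (i * L)) (by ring) K

theorem midRoot_coeff_neg (K : Type*) [CommRing K] (ζ : Kˣ) {i : ℕ} (hi : i < q) :
    (midRoot q L K ζ i).coeff (-(L : ℤ)) = (((ζ ^ i)⁻¹ : Kˣ) : K) := by
  rw [midRoot_of_lt q L K ζ hi, H39.Jconj_coeff_neg]

theorem midRoot_self_coeff_neg (hq : q.Prime) (K : Type*) [CommRing K] (ζ : Kˣ) :
    (midRoot q L K ζ q).coeff (-(L : ℤ)) = 0 := by
  rw [midRoot_self, qExpand_coeff_of_not_dvd _ _ (not_dvd_neg_level q L hq)]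

theorem midRoot_injOn (hq : q.Prime) (K : Type*) [CommRing K] [Nontrivial K] (ζ : Kˣ)
    (hζ : IsPrimitiveRoot ζ q) : Set.InjOn (midRoot q L K ζ) (Finset.range (q + 1) : Set ℕ) := by
  intro i hi i' hi' h
  rw [Finset.coe_range, Set.mem_Iio] at hi hi'
  have hc : (midRoot q L K ζ i).coeff (-(L : ℤ)) = (midRoot q L K ζ i').coeff (-(L : ℤ)) := by
    rw [h]
  rcases Nat.lt_or_ge i q with h1 | h1 <;> rcases Nat.lt_or_ge i' q with h2 | h2
  · rw [midRoot_coeff_neg q L K ζ h1, midRoot_coeff_neg q L K ζ h2] at hc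
    have h3 : ζ ^ i = ζ ^ i' := inv_injective (Units.ext hc)
    exact hζ.pow_inj h1 h2 h3
  · have hi'q : i' = q := by omega
    subst hi'q
    rw [midRoot_coeff_neg i' L K ζ h1, midRoot_self_coeff_neg i' L hq K ζ] at hc
    exact absurd hc (Units.ne_zero _)
  · have hiq : i = q := by omega
    subst hiq
    rw [midRoot_coeff_neg i L K ζ h2, midRoot_self_coeff_neg i L hq K ζ] at hc
    exact absurd hc.symm (Units.ne_zero _)
  · omega

/-- `w - J(ξ t^L) = (1 - ξ) * ((j(ξ t) - j(t))/(ξ - 1))(t^L)`. -/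
theorem sub_Jconj (K : Type*) [CommRing K] (ξ : Kˣ) :
    qExpand K L (jqModC K) - Jconj K ξ L =
      HahnSeries.C (1 - (ξ : K)) * qExpand K L (qDiff ξ (jqModC K)) := by
  have h := twist_sub_self ξ (jqModC K)
  have h2 : jqModC K - twist ξ (jqModC K) =
      HahnSeries.C (1 - (ξ : K)) * qDiff ξ (jqModC K) := by
    rw [← neg_sub, h, ← neg_mul, ← map_neg, neg_sub]
  rw [Jconj, subst_apply, ← map_sub, h2, map_mul, qExpand_C]

/-- **the factorisation** of `Φ_q(v; X)` over `K((t))`. -/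
theorem map_evalJ_eq_prod (hq : q.Prime) (K : Type*) [Field K] (ζ : Kˣ)
    (hζ : IsPrimitiveRoot ζ q) (D : ModularPolynomialData q) (hD : RootsAt K q ζ D.Φ) :
    D.Φ.map (evalJ (qExpand K (q * L) (jqModC K))) =
      ∏ i ∈ Finset.range (q + 1), (X - Polynomial.C (midRoot q L K ζ i)) := by
  refine eq_prod_X_sub_C_of_roots _ (D.monic.map _) _ _ (midRoot_injOn q L hq K ζ hζ) ?_ ?_
  · intro i hi
    rw [eval_map]
    exact eval₂_midRoot q L K ζ D hD (Nat.lt_succ_iff.1 (Finset.mem_range.1 hi))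
  · rw [Finset.card_range, D.monic.natDegree_map, D.natDegree_eq,
      S34.H16.dedekindPsi_prime_eq hq]

/-- **the product formula**: `Φ_X(w, v) = q * Z` over a field with a primitive `q`-th root of
unity. -/
theorem phiX_eq_C_mul_midZ_field (hq : q.Prime) (K : Type*) [Field K] (ζ : Kˣ)
    (hζ : IsPrimitiveRoot ζ q) (D : ModularPolynomialData q) (hD : RootsAt K q ζ D.Φ) :
    phiX q L K D = HahnSeries.C (q : K) * midZ q L K ζ := by
  obtain ⟨n, rfl⟩ : ∃ n, q = n + 1 := ⟨q - 1, by have := hq.two_le; omega⟩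
  rw [← phiX_eq, map_evalJ_eq_prod (n + 1) L hq K ζ hζ D hD, Finset.prod_range_succ,
    Finset.prod_range_succ', midRoot_zero, midRoot_self]
  have h1 : (∏ k ∈ Finset.range n, (X - Polynomial.C (midRoot (n + 1) L K ζ (k + 1)))) *
      (X - Polynomial.C (qExpand K L (jqModC K))) *
      (X - Polynomial.C (qExpand K ((n + 1) * ((n + 1) * L)) (jqModC K))) =
      (X - Polynomial.C (qExpand K L (jqModC K))) *
        ((X - Polynomial.C (qExpand K ((n + 1) * ((n + 1) * L)) (jqModC K))) *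
          ∏ k ∈ Finset.range n, (X - Polynomial.C (midRoot (n + 1) L K ζ (k + 1)))) := by
    ring
  rw [h1, derivative_X_sub_C_mul_eval, eval_mul, eval_sub, eval_X, eval_C, eval_prod, midZ,
    Nat.add_sub_cancel]
  have h2 : ∀ k ∈ Finset.range n,
      eval (qExpand K L (jqModC K)) (X - Polynomial.C (midRoot (n + 1) L K ζ (k + 1))) =
        HahnSeries.C (1 - (ζ : K) ^ (k + 1)) *
          qExpand K L (qDiff (ζ ^ (k + 1)) (jqModC K)) := by
    intro k hk
    rw [eval_sub, eval_X, eval_C,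
      midRoot_of_lt (n + 1) L K ζ (Nat.succ_lt_succ (Finset.mem_range.1 hk)), sub_Jconj,
      Units.val_pow_eq_pow_val]
  rw [Finset.prod_congr rfl h2, Finset.prod_mul_distrib, ← map_prod]
  have hζ' : IsPrimitiveRoot (ζ : K) (n + 1) := IsPrimitiveRoot.coe_units_iff.2 hζ
  rw [hζ'.prod_one_sub_pow_eq_order]
  push_cast
  ring

end Field

/-! ### 4. Domains, reductions, and the `ℤ`-level statement -/

section Domain

variable (q : ℕ) [NeZero q] (L : ℕ) [NeZero L]

/-- **`Φ_X(w, v) = q * Z`** over any domain `R` (in `Type`) with a primitive `q`-th root of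
unity. -/
theorem phiX_eq_C_mul_midZ (hq : q.Prime) (R : Type) [CommRing R] [IsDomain R] (ζ : Rˣ)
    (hζ : IsPrimitiveRoot ζ q) (D : ModularPolynomialData q)
    (hD : ∀ (k : Type) [Field k] (ξ : kˣ), IsPrimitiveRoot ξ q → RootsAt k q ξ D.Φ) :
    phiX q L R D = HahnSeries.C (q : R) * midZ q L R ζ := by
  have hinj : Function.Injective (algebraMap R (FractionRing R)) :=
    IsFractionRing.injective R (FractionRing R)
  apply H96.coeffMap_injective (algebraMap R (FractionRing R)) hinj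
  have hζ' : IsPrimitiveRoot (Units.map (algebraMap R (FractionRing R) : R →* FractionRing R) ζ) q :=
    hζ.map_of_injective (Units.map_injective hinj)
  rw [coeffMap_phiX, map_mul, H96.coeffMap_C, coeffMap_midZ, map_natCast]
  exact phiX_eq_C_mul_midZ_field q L hq (FractionRing R) _ hζ' D (hD _ _ hζ')

/-- **the reduction of `Z`**: along `f : R → k` with `f ζ = 1` and `char k = q`,
`Z̄ = (w̄ - w̄^(q²)) * ((θ j̄)(t^L))^(q-1)`. -/
theorem coeffMap_midZ_of_map_eq_one [hqF : Fact q.Prime] {R : Type*} [CommRing R] (ζ : Rˣ)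
    {k : Type*} [CommRing k] [CharP k q] (f : R →+* k) (hf : f (ζ : R) = 1) :
    coeffMap f (midZ q L R ζ) =
      (qExpand k L (jqModC k) - qExpand k L (jqModC k) ^ (q * q)) *
        qExpand k L (thetaOp (jqModC k)) ^ (q - 1) := by
  rw [midZ, map_mul, map_sub, map_prod, coeffMap_qExpand, coeffMap_qExpand, coeffMap_jqModC]
  have h1 : ∀ b ∈ Finset.range (q - 1),
      coeffMap f (qExpand R L (qDiff (ζ ^ (b + 1)) (jqModC R))) =
        qExpand k L (thetaOp (jqModC k)) := by
    intro b _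
    rw [coeffMap_qExpand, coeffMap_qDiff_of_map_eq_one f (ζ ^ (b + 1))
      (by rw [Units.val_pow_eq_pow_val, map_pow, hf, one_pow]), coeffMap_jqModC]
  rw [Finset.prod_congr rfl h1, Finset.prod_const, Finset.card_range]
  have h2 : qExpand k (q * (q * L)) (jqModC k) = qExpand k L (jqModC k) ^ (q * q) := by
    rw [← qExpand_qExpand, S34.H36.qExpand_jd_char k q (q * L), ← qExpand_qExpand,
      S34.H36.qExpand_jd_char k q L, ← pow_mul]
  rw [h2]

end Domain

section IntLevel

variable (q : ℕ) [NeZero q] (L : ℕ) [NeZero L]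

/-- `ℤ[ζ_q] = ℤ[X]/(Φ_q)`. -/
abbrev cycR : Type := AdjoinRoot (cyclotomic q ℤ)

theorem isDomain_cycR : IsDomain (cycR q) :=
  AdjoinRoot.isDomain_of_prime
    (UniqueFactorizationMonoid.irreducible_iff_prime.1
      (Polynomial.cyclotomic.irreducible (Nat.pos_of_ne_zero (NeZero.ne q))))

theorem degree_cyclotomic_int_ne_zero : (cyclotomic q ℤ).degree ≠ 0 := by
  rw [degree_cyclotomic]
  have := Nat.totient_pos.2 (Nat.pos_of_ne_zero (NeZero.ne q))
  exact_mod_cast this.ne'

theorem intCast_cycR_injective : Function.Injective (Int.castRingHom (cycR q)) := by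
  have h := AdjoinRoot.of.injective_of_degree_ne_zero (degree_cyclotomic_int_ne_zero q)
  have h2 : Int.castRingHom (cycR q) = AdjoinRoot.of (cyclotomic q ℤ) := RingHom.ext_int _ _
  rw [h2]; exact h

theorem root_pow_eq_one : (AdjoinRoot.root (cyclotomic q ℤ)) ^ q = 1 := by
  have h : AdjoinRoot.mk (cyclotomic q ℤ) (X ^ q - 1) = 0 :=
    AdjoinRoot.mk_eq_zero.2 (Polynomial.cyclotomic.dvd_X_pow_sub_one q ℤ)
  rw [map_sub, map_pow, AdjoinRoot.mk_X, map_one, sub_eq_zero] at h
  exact h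

/-- `ζ_q` as a unit of `ℤ[ζ_q]`. -/
def zetaR : (cycR q)ˣ :=
  Units.ofPowEqOne (AdjoinRoot.root (cyclotomic q ℤ)) q (root_pow_eq_one q) (NeZero.ne q)

theorem coe_zetaR : ((zetaR q : (cycR q)ˣ) : cycR q) = AdjoinRoot.root (cyclotomic q ℤ) := rfl

theorem isPrimitiveRoot_zetaR : IsPrimitiveRoot (zetaR q) q := by
  have := isDomain_cycR q
  have : NeZero ((q : ℕ) : cycR q) := ⟨by
    intro h
    have h2 : Int.castRingHom (cycR q) (q : ℤ) = Int.castRingHom (cycR q) 0 := by
      rw [map_zero, map_natCast]; exact h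
    exact NeZero.ne q (by exact_mod_cast intCast_cycR_injective q h2)⟩
  rw [← IsPrimitiveRoot.coe_units_iff, coe_zetaR, ← Polynomial.isRoot_cyclotomic_iff]
  have h := AdjoinRoot.isRoot_root (cyclotomic q ℤ)
  rwa [map_cyclotomic] at h

/-- the reduction `ℤ[ζ_q] → ZMod q`, `ζ ↦ 1`. -/
def redR [Fact q.Prime] : cycR q →+* ZMod q :=
  AdjoinRoot.lift (Int.castRingHom (ZMod q)) 1 (by
    rw [← eval_map, map_cyclotomic, eval_one_cyclotomic_prime]
    exact ZMod.natCast_self q)

theorem redR_zetaR [Fact q.Prime] : redR q ((zetaR q : (cycR q)ˣ) : cycR q) = 1 := by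
  rw [coe_zetaR, redR, AdjoinRoot.lift_root]

/-- **the integral quotient** `Z = Φ_X(w, v) / q ∈ ℤ((t))`. -/
def midZInt (D : ModularPolynomialData q) : LaurentSeries ℤ where
  coeff n := (phiX q L ℤ D).coeff n / (q : ℤ)
  isPWO_support' := (phiX q L ℤ D).isPWO_support.mono fun n hn => by
    simp only [Function.mem_support, ne_eq] at hn ⊢
    intro h
    exact hn (by rw [h, Int.zero_ediv])

theorem midZInt_coeff (D : ModularPolynomialData q) (n : ℤ) :
    (midZInt q L D).coeff n = (phiX q L ℤ D).coeff n / (q : ℤ) := rfl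

section Main

variable [hqF : Fact q.Prime] (D : ModularPolynomialData q)
  (hD : ∀ (k : Type) [Field k] (ξ : kˣ), IsPrimitiveRoot ξ q → RootsAt k q ξ D.Φ)

include hD in
theorem phiX_cycR : phiX q L (cycR q) D =
    HahnSeries.C ((q : ℕ) : cycR q) * midZ q L (cycR q) (zetaR q) := by
  have := isDomain_cycR q
  exact phiX_eq_C_mul_midZ q L hqF.out (cycR q) (zetaR q) (isPrimitiveRoot_zetaR q) D hD

include hD in
theorem natCast_dvd_phiX_coeff (n : ℤ) : (q : ℤ) ∣ (phiX q L ℤ D).coeff n := by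
  rw [← ZMod.intCast_zmod_eq_zero_iff_dvd]
  have h1 : coeffMap (Int.castRingHom (cycR q)) (phiX q L ℤ D) =
      HahnSeries.C ((q : ℕ) : cycR q) * midZ q L (cycR q) (zetaR q) := by
    rw [coeffMap_phiX, phiX_cycR q L D hD]
  have h2 : (Int.castRingHom (cycR q)) ((phiX q L ℤ D).coeff n) =
      ((q : ℕ) : cycR q) * (midZ q L (cycR q) (zetaR q)).coeff n := by
    rw [← coeffMap_coeff, h1, HahnSeries.C_mul_eq_smul, HahnSeries.coeff_smul, smul_eq_mul]
  have h3 := congrArg (redR q) h2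
  rw [map_mul, map_natCast, ZMod.natCast_self, zero_mul, eq_intCast, map_intCast] at h3
  exact h3

include hD in
/-- **`Φ_X(w, v) = q * Z` in `ℤ((t))`.** -/
theorem phiX_int_eq : phiX q L ℤ D = HahnSeries.C (q : ℤ) * midZInt q L D := by
  ext n
  rw [HahnSeries.C_mul_eq_smul, HahnSeries.coeff_smul, midZInt_coeff, smul_eq_mul,
    Int.mul_ediv_cancel' (natCast_dvd_phiX_coeff q L D hD n)]

include hD in
/-- **`Φ_X(w, v) = q * Z` over every commutative ring.** -/
theorem phiX_eq_C_mul_coeffMap_midZInt (S : Type*) [CommRing S] :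
    phiX q L S D = HahnSeries.C (q : S) * coeffMap (Int.castRingHom S) (midZInt q L D) := by
  rw [← coeffMap_phiX q L (Int.castRingHom S) D, phiX_int_eq q L D hD, map_mul, H96.coeffMap_C,
    map_natCast]

include hD in
theorem coeffMap_midZInt_cycR :
    coeffMap (Int.castRingHom (cycR q)) (midZInt q L D) = midZ q L (cycR q) (zetaR q) := by
  have := isDomain_cycR q
  have h1 := phiX_eq_C_mul_coeffMap_midZInt q L D hD (cycR q)
  rw [phiX_cycR q L D hD] at h1
  have hq0 : ((q : ℕ) : cycR q) ≠ 0 := by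
    intro h
    have h2 : Int.castRingHom (cycR q) (q : ℤ) = Int.castRingHom (cycR q) 0 := by
      rw [map_zero, map_natCast]; exact h
    exact NeZero.ne q (by exact_mod_cast intCast_cycR_injective q h2)
  ext n
  have h3 : ((q : ℕ) : cycR q) * (midZ q L (cycR q) (zetaR q)).coeff n =
      ((q : ℕ) : cycR q) * (coeffMap (Int.castRingHom (cycR q)) (midZInt q L D)).coeff n := by
    rw [← smul_eq_mul, ← HahnSeries.coeff_smul, ← HahnSeries.C_mul_eq_smul, h1,
      HahnSeries.C_mul_eq_smul, HahnSeries.coeff_smul, smul_eq_mul]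
  exact (mul_left_cancel₀ hq0 h3).symm

include hD in
/-- **the reduction of `Z` in characteristic `q`**:
`Z̄ = (w̄ - w̄^(q²)) * ((θ j̄)(t^L))^(q-1)`, `w̄ = j̄(t^L)`, `θ = t d/dt`. -/
theorem coeffMap_midZInt (k : Type*) [CommRing k] [CharP k q] :
    coeffMap (Int.castRingHom k) (midZInt q L D) =
      (qExpand k L (jqModC k) - qExpand k L (jqModC k) ^ (q * q)) *
        qExpand k L (thetaOp (jqModC k)) ^ (q - 1) := by
  set f : cycR q →+* k := (ZMod.castHom (dvd_refl q) k).comp (redR q) with hf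
  have hfζ : f ((zetaR q : (cycR q)ˣ) : cycR q) = 1 := by
    rw [hf, RingHom.comp_apply, redR_zetaR, map_one]
  rw [← coeffMap_midZ_of_map_eq_one q L (zetaR q) f hfζ, ← coeffMap_midZInt_cycR q L D hD]
  ext n
  rw [coeffMap_coeff, coeffMap_coeff, coeffMap_coeff, eq_intCast, eq_intCast, map_intCast]

include hD in
/-- `Z̄ ≠ 0` over a field of characteristic `q` (so `Φ_X(w, v) / q` is a Gauss unit). -/
theorem coeffMap_midZInt_ne_zero (k : Type*) [Field k] [CharP k q] :
    coeffMap (Int.castRingHom k) (midZInt q L D) ≠ 0 := by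
  rw [coeffMap_midZInt q L D hD k]
  refine mul_ne_zero ?_ (pow_ne_zero _ ?_)
  · have h2 : qExpand k (q * (q * L)) (jqModC k) = qExpand k L (jqModC k) ^ (q * q) := by
      rw [← qExpand_qExpand, S34.H36.qExpand_jd_char k q (q * L), ← qExpand_qExpand,
        S34.H36.qExpand_jd_char k q L, ← pow_mul]
    rw [← h2]
    intro h
    have hc := congrArg (fun x : LaurentSeries k => x.coeff (-(L : ℤ))) h
    have h3 : (qExpand k L (jqModC k)).coeff (-(L : ℤ)) = 1 := by
      have := qExpand_coeff_mul (R := k) L (jqModC k) (-1)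
      rwa [mul_neg_one, coeff_jqModC_neg_one] at this
    simp only [HahnSeries.coeff_sub, HahnSeries.coeff_zero] at hc
    rw [h3, qExpand_coeff_of_not_dvd _ _ (not_dvd_neg_level q L hqF.out), sub_zero] at hc
    exact one_ne_zero hc
  · intro h
    have h1 : thetaOp (jqModC k) = 0 := qExpand_injective (R := k) L (by rw [h, map_zero])
    have hc := congrArg (fun x : LaurentSeries k => x.coeff (-1)) h1
    simp only [thetaOp_coeff, coeff_jqModC_neg_one, HahnSeries.coeff_zero, mul_one] at hc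
    have : ((-1 : ℤ) : k) = -1 := by push_cast; rfl
    rw [this] at hc
    exact one_ne_zero (neg_eq_zero.1 hc)

end Main

end IntLevel

end Fermat.Agent.S36.H27
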