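import Mathlib
import Fermat.Agent.S18.H92_GaussModel
import Fermat.Agent.CA.H99_TwoPlacesThm

/-!
# S36 / (M1): the `q`-expansion principle at a place over the Gauss ring (generic bridge)

`T : TwoGen A π` a two-generator field of `q`-expansions, `V = T.unitBall F hF` its Gauss ring.
Let `F'` be a field with an `V`-algebra structure and a ring hom `c : F' →+* L((t))` compatible
with the coercion of `V`, `θ : F'` with an `A`-integral expansion `c θ = up Θ`, and
`P : CA.H99.PlaceOver ϖ θ ι (red Θ)` a place of `F'` over `V` whose reduction restricts to the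
coefficientwise reduction `ι v = T.resFun v` on `V`.  Then **every `f : F'` with an `A`-integral
expansion `c f = up z` lies in `P.O1`, and `P.res1 f = red z`** (`mem_place_of_up`).

This is the bridge between the abstract (Kummer–Dedekind) `∞`-place of `F_{qM}` over `V_M` and
coefficientwise reduction of `q`-expansions; it is what turns the `q`-expansion identity
`Φ_X(j(t), j(t^q)) = q · unit` into `v_{P_∞}(Φ_X(w, v)) = 1`.
-/

set_option autoImplicit false
set_option linter.unusedSectionVars false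
set_option linter.style.haveILetI false

open Polynomial

namespace Fermat.Agent.S36.H99

open Fermat.Agent.S18.H92 Fermat.Agent.CA.H99

section Bridge

variable {L : Type*} [Field L] {k : Type*} [Field k] {A : ValuationSubring L} {π : A →+* k}
  (T : TwoGen A π)
  (F : IntermediateField L (LaurentSeries L)) (hF : F = T.FL)
  {F' : Type*} [Field F'] [Algebra (T.unitBall F hF) F']
  (c : F' →+* LaurentSeries L)
  (hc : ∀ v : T.unitBall F hF, c (algebraMap (T.unitBall F hF) F' v) = ((v : F) : LaurentSeries L))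
  (ι : T.unitBall F hF →+* LaurentSeries k)
  (hι : ∀ v : T.unitBall F hF, ι v = T.resFun ((v : F) : LaurentSeries L))
  {θ : F'} {Θ : LaurentSeries A} (hΘ : c θ = up A Θ)

include hc hι hΘ

/-- **common denominators**: for `p ∈ V[X]` there are `A`-integral series `β`, `S` with
`red β ≠ 0`, `up β * c (p(θ)) = up S` and `red S = red β * p̄(θb)`. -/
theorem exists_integral_multiple (p : (T.unitBall F hF)[X]) :
    ∃ β S : LaurentSeries A, T.red β ≠ 0 ∧ up A β * c (aeval θ p) = up A S ∧
      T.red S = T.red β * p.eval₂ ι (T.red Θ) := by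
  induction p using Polynomial.induction_on with
  | C v =>
    obtain ⟨a, -, b, -, hb0, hf⟩ := (T.mem_unitBall F hF).1 v.2
    refine ⟨b, a, hb0, ?_, ?_⟩
    · rw [aeval_C, hc, mul_comm]; exact hf
    · rw [eval₂_C, hι, T.resFun_eq hb0 hf ((T.mem_unitBall F hF).1 v.2), mul_div_cancel₀ _ hb0]
  | add p q hp hq =>
    obtain ⟨β, S, hβ, h1, h2⟩ := hp
    obtain ⟨β', S', hβ', h1', h2'⟩ := hq
    refine ⟨β * β', S * β' + S' * β, ?_, ?_, ?_⟩
    · rw [map_mul]; exact mul_ne_zero hβ hβ'
    · rw [map_add, map_add, map_mul, map_add, map_mul, map_mul, ← h1, ← h1']; ring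
    · rw [map_add, map_mul, map_mul, map_mul, h2, h2', eval₂_add]; ring
  | monomial n v hp =>
    obtain ⟨β, S, hβ, h1, h2⟩ := hp
    have hx : aeval θ (C v * X ^ (n + 1)) = aeval θ (C v * X ^ n) * θ := by
      rw [pow_succ, ← mul_assoc, map_mul, aeval_X]
    have hy : (C v * X ^ (n + 1)).eval₂ ι (T.red Θ) = (C v * X ^ n).eval₂ ι (T.red Θ) * T.red Θ := by
      rw [pow_succ, ← mul_assoc, eval₂_mul, eval₂_X]
    refine ⟨β, S * Θ, hβ, ?_, ?_⟩
    · rw [hx, map_mul c, ← mul_assoc, h1, hΘ, map_mul]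
    · rw [map_mul, h2, hy, mul_assoc]

variable {ϖ : T.unitBall F hF} (P : PlaceOver ϖ θ ι (T.red Θ))

/-- **(bridge, membership)** an `A`-integral expansion lies in the place. -/
theorem mem_place_of_up (f : F') (z : LaurentSeries A) (hz : c f = up A z) : f ∈ P.O1 := by
  by_contra hf
  have hfinv : f⁻¹ ∈ P.O1 := (P.mem_or_inv_mem f).resolve_left hf
  have hf0 : f ≠ 0 := by
    rintro rfl
    exact hf (Subring.zero_mem _)
  have hres : P.res1 ⟨f⁻¹, hfinv⟩ = 0 := by
    by_contra hne
    have := P.inv_mem _ hfinv hne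
    rw [inv_inv] at this
    exact hf this
  obtain ⟨y, hy, e⟩ := (P.res1_eq_zero_iff _ hfinv).1 hres
  obtain ⟨a, s, hs, eys⟩ := P.exists_repr y hy
  -- `s(θ) = ϖ a(θ) f`
  have hkey : aeval θ s = algebraMap (T.unitBall F hF) F' ϖ * aeval θ a * f := by
    have h1 : f⁻¹ * aeval θ s = algebraMap (T.unitBall F hF) F' ϖ * aeval θ a := by
      rw [e, mul_assoc, eys]
    calc aeval θ s = f * (f⁻¹ * aeval θ s) := by
          rw [← mul_assoc, mul_inv_cancel₀ hf0, one_mul]
      _ = algebraMap (T.unitBall F hF) F' ϖ * aeval θ a * f := by rw [h1]; ring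
  obtain ⟨βs, Ss, hβs, hs1, hs2⟩ := exists_integral_multiple T F hF c hc ι hι hΘ s
  obtain ⟨βa, Sa, hβa, ha1, ha2⟩ := exists_integral_multiple T F hF c hc ι hι hΘ a
  obtain ⟨βϖ, Sϖ, hβϖ, hϖ1, hϖ2⟩ := exists_integral_multiple T F hF c hc ι hι hΘ (C ϖ)
  rw [aeval_C] at hϖ1
  have hιϖ : ι ϖ = 0 := by
    have := P.res1_uniformizer
    rwa [P.res1_algebraMap] at this
  rw [eval₂_C, hιϖ, mul_zero] at hϖ2
  have h3 : up A (βa * βϖ * Ss) = up A (βs * Sϖ * Sa * z) := by
    rw [map_mul, map_mul, map_mul, map_mul, map_mul, ← hs1, ← ha1, ← hϖ1, ← hz, hkey, map_mul,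
      map_mul]
    ring
  have h4 := congrArg T.red (up_injective A h3)
  rw [map_mul, map_mul, map_mul, map_mul, map_mul, hϖ2, mul_zero, zero_mul, zero_mul, hs2] at h4
  rcases mul_eq_zero.1 h4 with h5 | h5
  · rcases mul_eq_zero.1 h5 with h6 | h6
    · exact hβa h6
    · exact hβϖ h6
  · rcases mul_eq_zero.1 h5 with h6 | h6
    · exact hβs h6
    · exact hs h6

/-- **(bridge, residue)** the place reduces an `A`-integral expansion coefficientwise. -/
theorem res1_of_up (f : F') (z : LaurentSeries A) (hz : c f = up A z) :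
    P.res1 ⟨f, mem_place_of_up T F hF c hc ι hι hΘ P f z hz⟩ = T.red z := by
  set hf := mem_place_of_up T F hF c hc ι hι hΘ P f z hz
  obtain ⟨a, s, hs, efs⟩ := P.exists_repr f hf
  obtain ⟨βs, Ss, hβs, hs1, hs2⟩ := exists_integral_multiple T F hF c hc ι hι hΘ s
  obtain ⟨βa, Sa, hβa, ha1, ha2⟩ := exists_integral_multiple T F hF c hc ι hι hΘ a
  -- residues
  have hr : P.res1 ⟨f, hf⟩ * s.eval₂ ι (T.red Θ) = a.eval₂ ι (T.red Θ) := by
    rw [← P.res1_aeval s, ← P.res1_aeval a, ← map_mul]
    exact P.res1_congr _ _ efs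
  -- expansions
  have h3 : up A (z * Ss * βa) = up A (Sa * βs) := by
    rw [map_mul, map_mul, map_mul, ← hs1, ← ha1, ← hz, ← efs, map_mul]
    ring
  have h4 := congrArg T.red (up_injective A h3)
  rw [map_mul, map_mul, map_mul, hs2, ha2] at h4
  have h5 : T.red z * s.eval₂ ι (T.red Θ) = a.eval₂ ι (T.red Θ) := by
    have h6 : T.red βs * T.red βa ≠ 0 := mul_ne_zero hβs hβa
    apply mul_left_cancel₀ h6
    rw [← sub_eq_zero] at h4 ⊢
    rw [← h4]; ring
  exact mul_right_cancel₀ hs (hr.trans h5.symm)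

omit hΘ in
/-- **(bridge)**, with a free name for the residue of `θ`. -/
theorem exists_mem_place_res1_of_up {ϖ : T.unitBall F hF} {θb : LaurentSeries k}
    (hΘ : c θ = up A Θ) (hθb : θb = T.red Θ) (P : PlaceOver ϖ θ ι θb)
    (f : F') (z : LaurentSeries A) (hz : c f = up A z) :
    ∃ hf : f ∈ P.O1, P.res1 ⟨f, hf⟩ = T.red z := by
  subst hθb
  exact ⟨mem_place_of_up T F hF c hc ι hι hΘ P f z hz, res1_of_up T F hF c hc ι hι hΘ P f z hz⟩

end Bridge

end Fermat.Agent.S36.H99
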