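import Mathlib
import Fermat.Agent.S36.H99_GaussBridge
import Fermat.Agent.S34.H16_L0Places

/-!
# S36 / (M1): the `q`-expansion principle at the `∞`-place of `F_{ℓM}` over `V_M` (real types)

`P` any `CA.H99.PlaceOver` of `F_N = FullC L₁ (ℓ * M)` over the level-`M` Gauss ring `V_M` with
the data of `S34.H16.nonempty_placeInfty` (reduction `resM` on `V_M`, `j_N ↦ j̄_M ^ ℓ`).  Every
`f : F_N` whose `q`-expansion has coefficients in `A₁` lies in `P.O1`, and `P.res1 f` is the
coefficientwise reduction (`exists_mem_placeInfty_of_up`).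
-/

set_option autoImplicit false
set_option linter.unusedSectionVars false
set_option linter.style.haveILetI false
set_option synthInstance.maxHeartbeats 400000

noncomputable section

namespace Fermat.Agent.S36.H99

open ModularCurve Polynomial IsLocalRing Fermat.Agent.S28
open Fermat.Agent.S18 Fermat.Agent.S34.H92 Fermat.Agent.S34.H16 Fermat.Agent.S18.H92

local notation "Qbar" => AlgebraicClosure ℚ

section L0

variable (M : ℕ) [NeZero M] {ℓ : ℕ} [hℓ : Fact ℓ.Prime] (hℓM : ¬ ℓ ∣ M)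
  (A : ValuationSubring Qbar) (hA : A.LiesOverPrime ℓ)

local notation "kA" => IsLocalRing.ResidueField A
local notation "A₁" => H45.A0 A ℓ
local notation "L₁" => H45.unrCyclo ℓ
local notation "FM" => modularFunctionFieldFullC (H45.unrCyclo ℓ) M
local notation "FN" => modularFunctionFieldFullC (H45.unrCyclo ℓ) (ℓ * M)
local notation "V" => VM M hℓM A hA

/-- the coercion `F_N → L₁((t))` as a ring hom. -/
def coeFN : FN →+* LaurentSeries L₁ := (IntermediateField.val FN).toRingHom

theorem coeFN_apply (f : FN) : coeFN M (ℓ := ℓ) f = (f : LaurentSeries L₁) := rfl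

/-- **The `q`-expansion principle at the `∞`-place of `F_{ℓM}`.** -/
theorem exists_mem_placeInfty_of_up :
    letI := algebraVMFN M hℓM A hA
    ∀ (P : CA.H99.PlaceOver (L := ↥FN) (((ℓ : ℕ) : ↥(VM M hℓM A hA))) (S18.H16.jNK L₁ (ℓ * M))
        (resM M hℓM A hA) (resM M hℓM A hA (jMV M hℓM A hA) ^ ℓ))
      (f : FN) (z : LaurentSeries A₁)
      (_ : (f : LaurentSeries L₁) = coeffMap (A₁).subtype z),
      ∃ hf : f ∈ P.O1, P.res1 ⟨f, hf⟩ = coeffMap (H45.resA0 A ℓ) z := by
  letI := algebraVMFN M hℓM A hA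
  haveI : CharP kA ℓ := Fermat.Agent.S18.H92.charP_residueField A hA
  intro P f z hz
  letI : Algebra ((twoGenA0 M hℓM A hA).unitBall FM (twoGenA0_FL M hℓM A hA)) FN :=
    algebraVMFN M hℓM A hA
  refine exists_mem_place_res1_of_up (twoGenA0 M hℓM A hA) FM (twoGenA0_FL M hℓM A hA)
    (F' := FN) (coeFN M) ?_ (resM M hℓM A hA) ?_
    (θ := S18.H16.jNK L₁ (ℓ * M)) (Θ := qExpand A₁ (ℓ * M) (jqModC A₁)) ?_ ?_ P f z hz
  · intro v
    exact degAlgebra_algebraMap_coe L₁ M (ℓ * M) (dvd_level M) (v : FM)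
  · intro v
    rfl
  · rw [coeFN_apply, S18.H16.coe_jNK]
    show _ = coeffMap (A₁).subtype (qExpand A₁ (ℓ * M) (jqModC A₁))
    rw [coeffMap_qExpand, coeffMap_jqModC]
  · show _ = coeffMap (H45.resA0 A ℓ) (qExpand A₁ (ℓ * M) (jqModC A₁))
    rw [coeffMap_qExpand, coeffMap_jqModC, resM_jMV]
    rw [← S34.H36.qExpand_jd_char kA ℓ M]
    exact qExpand_qExpand (R := kA) (N := M) ℓ (jqModC kA)

end L0

end Fermat.Agent.S36.H99
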