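import Mathlib
import Fermat.Agent.S36.H99_BridgeInfty
import Fermat.Agent.S28.H16_Transfer

/-!
# S36 / (M1)(d): `Φ_X(j_M, j_{ℓM}) = ℓ · unit` at the `∞`-place of `F_{ℓM}`, from the series identity

Input (`hser`): the `q`-expansion identity over `A₁`:
`(∂Φ/∂X)(j(t^M), j(t^{ℓM})) = ℓ * z` with `z ∈ A₁((t))` of non-zero coefficientwise reduction.
Output: for every `∞`-place `P` of `F_N = FullC L₁ (ℓ * M)` over `V_M` there is `y ∈ P.O1` with
non-zero residue (hence a unit of `P.O1`) such that `Φ_X(j_M, j_N) = ℓ * y` in `F_N`.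
This is hypothesis `hder` of `S36.H6.places_caseV` (helper55's CLAIM `v_{P_∞}(Φ_X(w,v)) = 1`).
-/

set_option autoImplicit false
set_option linter.unusedSectionVars false
set_option linter.style.haveILetI false
set_option synthInstance.maxHeartbeats 400000

noncomputable section

namespace Fermat.Agent.S36.H99

open ModularCurve Polynomial IsLocalRing Fermat.Agent.S28
open Fermat.Agent.S18 Fermat.Agent.S34.H92 Fermat.Agent.S34.H16 Fermat.Agent.S18.H92

local notation "Qbar" => AlgebraicClosure ℚ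

section Claim

variable (M : ℕ) [NeZero M] {ℓ : ℕ} [hℓ : Fact ℓ.Prime] (hℓM : ¬ ℓ ∣ M)
  (A : ValuationSubring Qbar) (hA : A.LiesOverPrime ℓ)

local notation "kA" => IsLocalRing.ResidueField A
local notation "A₁" => H45.A0 A ℓ
local notation "L₁" => H45.unrCyclo ℓ
local notation "FM" => modularFunctionFieldFullC (H45.unrCyclo ℓ) M
local notation "FN" => modularFunctionFieldFullC (H45.unrCyclo ℓ) (ℓ * M)

theorem dvd_level' : M ∣ ℓ * M := Dvd.intro_left ℓ rfl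

/-- the coercion of `ψ : ℤ[X] →+* F_N`, `X ↦ j_N`, to series is `evalJ j_N`. -/
theorem coeFN_comp_eq_evalJ (ψ : ℤ[X] →+* FN) (hψ : ψ X = S18.H16.jNK L₁ (ℓ * M)) :
    (coeFN M (ℓ := ℓ)).comp ψ = evalJ (qExpand L₁ (ℓ * M) (jqModC L₁)) := by
  apply Polynomial.ringHom_ext
  · intro a
    exact (eq_intCast (((coeFN M (ℓ := ℓ)).comp ψ).comp C) a).trans
      (eq_intCast ((evalJ (qExpand L₁ (ℓ * M) (jqModC L₁))).comp C) a).symm
  · rw [RingHom.comp_apply, hψ, evalJ_X, coeFN_apply, S18.H16.coe_jNK]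

/-- **(M1)(d)** at the real types: `Φ_X(j_M, j_N) = ℓ * y`, `y` a unit of the `∞`-place. -/
theorem exists_unit_deriv_infty (D : ModularPolynomialData ℓ)
    (hser : ∃ z : LaurentSeries A₁, coeffMap (H45.resA0 A ℓ) z ≠ 0 ∧
      (derivative D.Φ).eval₂ (evalJ (qExpand A₁ (ℓ * M) (jqModC A₁))) (qExpand A₁ M (jqModC A₁))
        = ((ℓ : ℕ) : LaurentSeries A₁) * z)
    (ψ : ℤ[X] →+* FN) (hψ : ψ X = S18.H16.jNK L₁ (ℓ * M)) :
    letI := algebraVMFN M hℓM A hA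
    ∀ (P : CA.H99.PlaceOver (L := ↥FN) (((ℓ : ℕ) : ↥(VM M hℓM A hA))) (S18.H16.jNK L₁ (ℓ * M))
        (resM M hℓM A hA) (resM M hℓM A hA (jMV M hℓM A hA) ^ ℓ)),
      ∃ (y : FN) (hy : y ∈ P.O1), P.res1 ⟨y, hy⟩ ≠ 0 ∧ y⁻¹ ∈ P.O1 ∧
        (derivative (D.Φ.map ψ)).eval (S18.H99.jdK L₁ (ℓ * M) M (dvd_level' M)) =
          ((ℓ : ℕ) : FN) * y := by
  letI := algebraVMFN M hℓM A hA
  intro P
  obtain ⟨z, hz0, hz⟩ := hser
  have hℓ0 : ((ℓ : ℕ) : FN) ≠ 0 := Nat.cast_ne_zero.2 hℓ.out.ne_zero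
  set x : FN := (derivative (D.Φ.map ψ)).eval (S18.H99.jdK L₁ (ℓ * M) M (dvd_level' M)) with hx
  -- the expansion of `x`
  have hxser : (x : LaurentSeries L₁) = ((ℓ : ℕ) : LaurentSeries L₁) * coeffMap (A₁).subtype z := by
    have h1 : coeFN M (ℓ := ℓ) x = (derivative D.Φ).eval₂ (evalJ (qExpand L₁ (ℓ * M) (jqModC L₁)))
        (qExpand L₁ M (jqModC L₁)) := by
      rw [hx, Polynomial.derivative_map, Polynomial.eval_map, Polynomial.hom_eval₂,
        coeFN_comp_eq_evalJ M ψ hψ, coeFN_apply, S18.H99.coe_jdK]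
    have h2 := congrArg (coeffMap (A₁).subtype) hz
    rw [H16.coeffMap_eval₂_evalJ, coeffMap_qExpand, coeffMap_qExpand, coeffMap_jqModC, map_mul,
      map_natCast] at h2
    rw [← coeFN_apply, h1, h2]
  -- `y := x / ℓ`
  have hyser : ((x / ((ℓ : ℕ) : FN) : FN) : LaurentSeries L₁) = coeffMap (A₁).subtype z := by
    have hℓs : ((ℓ : ℕ) : LaurentSeries L₁) ≠ 0 := by
      have : (((ℓ : ℕ) : FN) : LaurentSeries L₁) = ((ℓ : ℕ) : LaurentSeries L₁) := by
        rw [← coeFN_apply, map_natCast]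
      rw [← this]
      exact fun h0 => hℓ0 (Subtype.ext h0)
    have h3 : ((x / ((ℓ : ℕ) : FN) : FN) : LaurentSeries L₁) * ((ℓ : ℕ) : LaurentSeries L₁)
        = (x : LaurentSeries L₁) := by
      have : (x / ((ℓ : ℕ) : FN)) * ((ℓ : ℕ) : FN) = x := div_mul_cancel₀ x hℓ0
      have h4 := congrArg (coeFN M (ℓ := ℓ)) this
      rw [map_mul, map_natCast, coeFN_apply, coeFN_apply] at h4
      exact h4
    apply mul_right_cancel₀ hℓs
    rw [h3, hxser, mul_comm]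
  obtain ⟨hy, hres⟩ := exists_mem_placeInfty_of_up M hℓM A hA P (x / ((ℓ : ℕ) : FN)) z hyser
  have hne : P.res1 ⟨x / ((ℓ : ℕ) : FN), hy⟩ ≠ 0 := by rw [hres]; exact hz0
  refine ⟨x / ((ℓ : ℕ) : FN), hy, hne, P.inv_mem _ hy hne, ?_⟩
  rw [mul_div_cancel₀ x hℓ0]

include hA in
/-- transfer of the series identity from `ℤ((t))`, level one, to `A₁((t))`, level `M`. -/
theorem hser_of_int (D : ModularPolynomialData ℓ) (z : LaurentSeries ℤ) (n : ℤ)
    (hn : ¬ (ℓ : ℤ) ∣ z.coeff n)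
    (hz : (derivative D.Φ).eval₂ (evalJ (qExpand ℤ ℓ (jqModC ℤ))) (jqModC ℤ)
      = ((ℓ : ℕ) : LaurentSeries ℤ) * z) :
    ∃ zA : LaurentSeries A₁, coeffMap (H45.resA0 A ℓ) zA ≠ 0 ∧
      (derivative D.Φ).eval₂ (evalJ (qExpand A₁ (ℓ * M) (jqModC A₁))) (qExpand A₁ M (jqModC A₁))
        = ((ℓ : ℕ) : LaurentSeries A₁) * zA := by
  haveI : CharP kA ℓ := Fermat.Agent.S18.H92.charP_residueField A hA
  refine ⟨qExpand A₁ M (coeffMap (Int.castRingHom A₁) z), ?_, ?_⟩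
  · intro h0
    have h1 := congrArg (fun s : LaurentSeries kA => s.coeff ((M : ℤ) * n)) h0
    simp only [coeffMap_coeff, qExpand_coeff_mul, HahnSeries.coeff_zero] at h1
    rw [eq_intCast, map_intCast] at h1
    exact hn ((CharP.intCast_eq_zero_iff kA ℓ _).1 h1)
  · have h1 := congrArg (coeffMap (Int.castRingHom A₁)) hz
    rw [H16.coeffMap_eval₂_evalJ, coeffMap_qExpand, coeffMap_jqModC, map_mul, map_natCast] at h1
    have h2 := congrArg (qExpand A₁ M) h1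
    rw [H96.qExpand_eval₂_evalJ, qExpand_qExpand, map_mul, map_natCast] at h2
    rw [← h2, qExpand_congr (mul_comm ℓ M)]

end Claim

end Fermat.Agent.S36.H99
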