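import Mathlib
import Fermat.Agent.S36.H99_ClaimInfty
import Fermat.Agent.S36.H27_MidRoots

/-!
# S36 / (M1)(d) (helper27): helper55's CLAIM `v_{P_∞}(Φ_X(w, v)) = 1`, hypothesis-free

`hser` of `S36.H99.exists_unit_deriv_infty` discharged by the product formula of
`S36.H27_MidRoots` (`Φ_X(w, v) = q * Z`, `Z̄ ≠ 0`): for every `∞`-place `P` of
`F_N = FullC L₁ (ℓ * M)` over `V_M`, `Φ_X(j_M, j_N) = ℓ * y` with `y` a unit of `P.O1`, and the
residue of `y` is `(w̄ - w̄^(ℓ²)) * ((θ j̄)(t^M))^(ℓ-1)`.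
-/

set_option autoImplicit false
set_option linter.unusedSectionVars false
set_option linter.style.haveILetI false
set_option synthInstance.maxHeartbeats 400000

noncomputable section

namespace Fermat.Agent.S36.H27

open ModularCurve Polynomial IsLocalRing Fermat.Agent.S28
open Fermat.Agent.S18 Fermat.Agent.S34.H92 Fermat.Agent.S34.H16 Fermat.Agent.S18.H92

local notation "Qbar" => AlgebraicClosure ℚ

section Claim

variable (M : ℕ) [NeZero M] {ℓ : ℕ} [hℓ : Fact ℓ.Prime] (hℓM : ¬ ℓ ∣ M)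
  (A : ValuationSubring Qbar) (hA : A.LiesOverPrime ℓ)

local notation "kA" => IsLocalRing.ResidueField A
local notation "A₁" => H45.A0 A ℓ
local notation "L₁" => H45.unrCyclo ℓ
local notation "FN" => modularFunctionFieldFullC (H45.unrCyclo ℓ) (ℓ * M)

/-- the integral series `z = Φ_X(w, v) / ℓ` over `A₁`. -/
def zA0 (D : ModularPolynomialData ℓ) : LaurentSeries A₁ :=
  coeffMap (Int.castRingHom A₁) (midZInt ℓ M D)

theorem coeffMap_resA0_zA0 (D : ModularPolynomialData ℓ) :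
    coeffMap (H45.resA0 A ℓ) (zA0 M A D) = coeffMap (Int.castRingHom kA) (midZInt ℓ M D) := by
  ext n
  rw [zA0, coeffMap_coeff, coeffMap_coeff, coeffMap_coeff, eq_intCast, eq_intCast, map_intCast]

include hA in
/-- **the series identity `hser` of `S36.H99.exists_unit_deriv_infty`.** -/
theorem hser_midRoots (D : ModularPolynomialData ℓ)
    (hD : ∀ (k : Type) [Field k] (ζ : kˣ), IsPrimitiveRoot ζ ℓ → RootsAt k ℓ ζ D.Φ) :
    ∃ z : LaurentSeries A₁, coeffMap (H45.resA0 A ℓ) z ≠ 0 ∧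
      (derivative D.Φ).eval₂ (evalJ (qExpand A₁ (ℓ * M) (jqModC A₁))) (qExpand A₁ M (jqModC A₁))
        = ((ℓ : ℕ) : LaurentSeries A₁) * z := by
  haveI : CharP kA ℓ := Fermat.Agent.S18.H92.charP_residueField A hA
  refine ⟨zA0 M A D, ?_, ?_⟩
  · rw [coeffMap_resA0_zA0]
    exact coeffMap_midZInt_ne_zero ℓ M D hD kA
  · have h := phiX_eq_C_mul_coeffMap_midZInt ℓ M D hD A₁
    rw [phiX] at h
    rw [h, zA0, map_natCast]

include hA in
/-- the residue of `z`: `(w̄ - w̄^(ℓ²)) * ((θ j̄)(t^M))^(ℓ-1)`. -/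
theorem coeffMap_resA0_zA0_eq (D : ModularPolynomialData ℓ)
    (hD : ∀ (k : Type) [Field k] (ζ : kˣ), IsPrimitiveRoot ζ ℓ → RootsAt k ℓ ζ D.Φ) :
    coeffMap (H45.resA0 A ℓ) (zA0 M A D) =
      (qExpand kA M (jqModC kA) - qExpand kA M (jqModC kA) ^ (ℓ * ℓ)) *
        qExpand kA M (thetaOp (jqModC kA)) ^ (ℓ - 1) := by
  haveI : CharP kA ℓ := Fermat.Agent.S18.H92.charP_residueField A hA
  rw [coeffMap_resA0_zA0]
  exact coeffMap_midZInt ℓ M D hD kA

/-- **(M1)(d), hypothesis-free**: `Φ_X(j_M, j_N) = ℓ * y`, `y` a unit of every `∞`-place of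
`F_N` over `V_M`. -/
theorem exists_unit_deriv_infty_final (D : ModularPolynomialData ℓ)
    (hD : ∀ (k : Type) [Field k] (ζ : kˣ), IsPrimitiveRoot ζ ℓ → RootsAt k ℓ ζ D.Φ)
    (ψ : ℤ[X] →+* FN) (hψ : ψ X = S18.H16.jNK L₁ (ℓ * M)) :
    letI := algebraVMFN M hℓM A hA
    ∀ (P : CA.H99.PlaceOver (L := ↥FN) (((ℓ : ℕ) : ↥(VM M hℓM A hA))) (S18.H16.jNK L₁ (ℓ * M))
        (resM M hℓM A hA) (resM M hℓM A hA (jMV M hℓM A hA) ^ ℓ)),
      ∃ (y : FN) (hy : y ∈ P.O1), P.res1 ⟨y, hy⟩ ≠ 0 ∧ y⁻¹ ∈ P.O1 ∧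
        (derivative (D.Φ.map ψ)).eval (S18.H99.jdK L₁ (ℓ * M) M (S36.H99.dvd_level' M)) =
          ((ℓ : ℕ) : FN) * y :=
  S36.H99.exists_unit_deriv_infty M hℓM A hA D (hser_midRoots M A hA D hD) ψ hψ

end Claim

end Fermat.Agent.S36.H27
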