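import Mathlib
import Fermat.Agent.S36.H6_L0ThreePoly
import Fermat.Agent.S36.H27_ClaimInftyFinal

/-!
S36 / (M1) (helper6): the two real-type place theorems, HYPOTHESIS-FREE.

`three_places_over_inf` of `S36/H6_L0ThreePoly` kept helper55's q-expansion CLAIM
`Φ_X'(v, w) = q · unit` as the named hypothesis `hder`; helper27's
`S36.H27.exists_unit_deriv_infty_final` proves it.  Here: `exists_unit_deriv_PO1` (the CLAIM inside
`O_i = PO1 Pi`) and `three_places_over_inf_final`.
-/

set_option autoImplicit false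
set_option linter.unusedSectionVars false
set_option linter.style.haveILetI false
set_option synthInstance.maxHeartbeats 400000

noncomputable section

namespace Fermat.Agent.S36.H6

open ModularCurve Polynomial IsLocalRing Fermat.Agent.S28
open Fermat.Agent.S18 Fermat.Agent.S34.H92 Fermat.Agent.S34.H16 Fermat.Agent.S34.H55

local notation "Qbar" => AlgebraicClosure ℚ

section L0

variable (L : ℕ) [NeZero L] {q : ℕ} [hq : Fact q.Prime] (hqL : ¬ q ∣ L)
  (A : ValuationSubring Qbar) (hA : A.LiesOverPrime q)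

local notation "kA" => IsLocalRing.ResidueField A
local notation "L₁" => H45.unrCyclo q
local notation "F1" => modularFunctionFieldFullC (H45.unrCyclo q) (q * L)
local notation "F2" => modularFunctionFieldFullC (H45.unrCyclo q) (q * (q * L))

set_option maxHeartbeats 1600000 in
/-- **the CLAIM inside `O_i`**: `Φ_X'(v, w) = q · c` with `c` a unit of `PO1 Pi`. -/
theorem exists_unit_deriv_PO1 (D : ModularPolynomialData q)
    (hD : ∀ (k : Type) [Field k] (ζ : kˣ), IsPrimitiveRoot ζ q → RootsAt k q ζ D.Φ)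
    (Pi : PlaceInf L hqL A hA) :
    ∃ c : ↥(PO1 L hqL A hA Pi), IsUnit c ∧
      (derivative (D.Φ.map (phiO L hqL A hA Pi))).eval (wO L hqL A hA Pi) =
        ((q : ℕ) : ↥(PO1 L hqL A hA Pi)) * c := by
  letI := algebraVMFN L hqL A hA
  have hψ : ((PO1 L hqL A hA Pi).subtype.comp (phiO L hqL A hA Pi)) X =
      S18.H16.jNK L₁ (q * L) := by
    rw [RingHom.comp_apply, phiO_X]; rfl
  obtain ⟨y, hy, hres, -, hder⟩ := S36.H27.exists_unit_deriv_infty_final L hqL A hA D hD
    ((PO1 L hqL A hA Pi).subtype.comp (phiO L hqL A hA Pi)) hψ Pi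
  refine ⟨⟨y, hy⟩, isUnit_of_Pres1_ne_zero L hqL A hA Pi ⟨y, hy⟩ hres, ?_⟩
  apply (PO1 L hqL A hA Pi).subtype_injective
  have hw : (PO1 L hqL A hA Pi).subtype (wO L hqL A hA Pi) =
      S18.H99.jdK L₁ (q * L) L (S36.H99.dvd_level' L) := algebraMap_wO L hqL A hA Pi
  rw [← Polynomial.map_map, Polynomial.derivative_map, ← hw, Polynomial.eval_map,
    Polynomial.eval₂_at_apply] at hder
  rw [hder, map_mul, map_natCast]
  rfl

set_option maxHeartbeats 1600000 in
/-- **(M1), over `PlaceInf`, hypothesis-free**: exactly two places of `F2` over `O_i = PO1 Pi`: the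
Eisenstein place `PC` (`e = q - 1`) and the unramified place `PB`. -/
theorem three_places_over_inf_final (D : ModularPolynomialData q)
    (hD : ∀ (k : Type) [Field k] (ζ : kˣ), IsPrimitiveRoot ζ q → RootsAt k q ζ D.Φ)
    (Pi : PlaceInf L hqL A hA) :
    letI := algO1F2 L hqL A hA Pi
    ∃ (PC : PlaceOverRam (L := F2) ((q : ℕ) : ↥(PO1 L hqL A hA Pi))
        (S18.H16.jNK L₁ (q * (q * L)))
        (S18.H16.jNK L₁ (q * (q * L)) - algebraMap ↥(PO1 L hqL A hA Pi) F2 (wO L hqL A hA Pi))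
        (q - 1) (Pres1 L hqL A hA Pi) (Pres1 L hqL A hA Pi (wO L hqL A hA Pi)))
      (PB : CA.H99.PlaceOver (L := F2) ((q : ℕ) : ↥(PO1 L hqL A hA Pi))
        (S18.H16.jNK L₁ (q * (q * L))) (Pres1 L hqL A hA Pi)
        ((resM L hqL A hA (jMV L hqL A hA) ^ q) ^ q)),
      ∀ W : ValuationSubring F2,
        (∀ a : ↥(PO1 L hqL A hA Pi), algebraMap ↥(PO1 L hqL A hA Pi) F2 a ∈ W) →
        algebraMap ↥(PO1 L hqL A hA Pi) F2 ((q : ℕ) : ↥(PO1 L hqL A hA Pi)) ∈ W.nonunits →
        W.toSubring = PC.O1 ∨ W.toSubring = PB.O1 := by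
  obtain ⟨c, hc, hder⟩ := exists_unit_deriv_PO1 L hqL A hA D hD Pi
  exact three_places_over_inf L hqL A hA D hD Pi c hc hder

end L0

end Fermat.Agent.S36.H6
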