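import Mathlib
import Fermat.Agent.CA.H99_TowerPlaces
import Fermat.Agent.S34.H16_L0Places
import Fermat.Agent.S36.H55_L0ThreeBase
import Fermat.Agent.S36.H6_L0ThreeFinal

/-!
# S36 (M1)(c) (helper99): "exactly three" at the real types

* `eq_or_eq_of_valuationSubring_JN` : the generic bottom step — a valuation subring of
  `F_N = FullC K (q M)` containing a DVR `O` of `F_M` (uniformiser `ϖ`, `char (O/ϖ) = q`, `j̄_M` of
  order prime to `q`) in which `ϖ` is a non-unit is the `∞`-place or the `0`-place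
  (`S34.H16_TwoPlacesJN` + `CA.H99.eq_or_eq_of_valuationSubring`);
* `bottom_exactly_two` : the same at the real types of `S34.H55` (`PlaceInf`, `PlaceZero` over `V_M`);
* `exists_three_places` : helper55's places `PA`, `PB`, `PC` of `F₂ = FullC L₁ (q (q L))`
  (`S36.H55.PlaceA/B/C`) exist, and every valuation subring of `F₂` containing the level-`L` Gauss
  ring (through `e_w`) in which `q` is a non-unit is one of them
  (`= ThreePlacesFacts.exactly_three`).
-/

set_option autoImplicit false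
set_option linter.unusedSectionVars false
set_option linter.style.haveILetI false
set_option synthInstance.maxHeartbeats 400000

noncomputable section

namespace Fermat.Agent.S36.H99

open ModularCurve Polynomial IsLocalRing Fermat.Agent.S28
open Fermat.Agent.S18 Fermat.Agent.S34 Fermat.Agent.S34.H92 Fermat.Agent.S34.H16
  Fermat.Agent.S34.H55

section BottomGeneric

variable (K : Type) [Field K] (M N : ℕ) [NeZero M] [NeZero N] (h : M ∣ N)
  (q : ℕ) [Fact q.Prime] [NeZero q] (hqM : ¬ q ∣ M) (hN : N = q * M) (hNK : ((N : ℕ) : K) ≠ 0)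
  (D : ModularPolynomialData q)
  (hD : ∀ (k : Type) [Field k] (ζ : kˣ), IsPrimitiveRoot ζ q → RootsAt k q ζ D.Φ)
  {O : Type*} [CommRing O] [IsDomain O] [IsDiscreteValuationRing O]
  [CharP (ResidueField O) q]
  [Algebra O (modularFunctionFieldFullC K M)] [IsFractionRing O (modularFunctionFieldFullC K M)]
  [Algebra O (modularFunctionFieldFullC K N)]
  (htower : letI := degAlgebra K M N h
    IsScalarTower O (modularFunctionFieldFullC K M) (modularFunctionFieldFullC K N))
  (φ : ℤ[X] →+* O)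
  (hφ : algebraMap O (modularFunctionFieldFullC K M) (φ X) = S18.H16.jNK K M)
  {k : Type*} [CommRing k] [IsDomain k] (ρ : ResidueField O →+* LaurentSeries k)
  (hord : ¬ (q : ℤ) ∣ (ρ (residue O (φ X))).order)
  {ϖ : O} (hϖ : maximalIdeal O = Ideal.span {ϖ})

include hqM hN hNK hD htower hφ hord hϖ in
/-- **bottom step, generic**: exactly two places of `F_N` over `O`. -/
theorem eq_or_eq_of_valuationSubring_JN
    {Fk₁ Fk₂ : Type*} [Field Fk₁] [Field Fk₂]
    (ι₁ : O →+* Fk₁) (hι₁ : ι₁ ϖ = 0) (θb₁ : Fk₁) (hθb₁ : θb₁ = ι₁ (φ X) ^ q)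
    (ι₂ : O →+* Fk₂) (hι₂ : ι₂ ϖ = 0) (θb₂ : Fk₂) (hθb₂ : θb₂ ^ q = ι₂ (φ X))
    (Pi : CA.H99.PlaceOver (L := modularFunctionFieldFullC K N) ϖ (S18.H16.jNK K N) ι₁ θb₁)
    (P0 : CA.H99.PlaceOver (L := modularFunctionFieldFullC K N) ϖ (S18.H16.jNK K N) ι₂ θb₂)
    (W : ValuationSubring (modularFunctionFieldFullC K N))
    (hOW : ∀ a : O, algebraMap O (modularFunctionFieldFullC K N) a ∈ W)
    (hϖW : algebraMap O (modularFunctionFieldFullC K N) ϖ ∈ W.nonunits) :
    W.toSubring = Pi.O1 ∨ W.toSubring = P0.O1 := by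
  letI := degAlgebra K M N h
  haveI := htower
  have hq : q.Prime := Fact.out
  refine CA.H99.eq_or_eq_of_valuationSubring
    (f := D.Φ.map φ) (g₁ := X - C (φ X ^ q)) (g₂ := X ^ q - C (φ X)) (D.monic.map φ)
    (S34.H6.map_map_kronecker q D hD φ (residue O))
    (S34.H6.irreducible_map_X_sub_C (residue O) _)
    (S34.H6.irreducible_map_X_pow_sub_C_of_order (residue O) q hq ρ (φ X) hord)
    hϖ (S18.H16.jNK K N)
    (aeval_jNK_map_eq_zero K M N h q hN D φ hφ htower)
    hι₁ ?_ hι₂ ?_ Pi P0 W hOW hϖW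
  · rw [eval₂_sub, eval₂_X, eval₂_C, hθb₁, map_pow, sub_self]
  · rw [eval₂_sub, eval₂_pow, eval₂_X, eval₂_C, hθb₂, sub_self]

end BottomGeneric

local notation "Qbar" => AlgebraicClosure ℚ

section Bottom

variable (M : ℕ) [NeZero M] {ℓ : ℕ} [hℓ : Fact ℓ.Prime] (hℓM : ¬ ℓ ∣ M)
  (A : ValuationSubring Qbar) (hA : A.LiesOverPrime ℓ)

local notation "kA" => IsLocalRing.ResidueField A
local notation "L₁" => H45.unrCyclo ℓ
local notation "FM" => modularFunctionFieldFullC (H45.unrCyclo ℓ) M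
local notation "FN" => modularFunctionFieldFullC (H45.unrCyclo ℓ) (ℓ * M)
local notation "V" => VM M hℓM A hA

/-- **bottom step at the real types**: a valuation subring of `F_N` containing the level-`M` Gauss
ring in which `ℓ` is a non-unit is the ring of `Pi` or of `P0` (any `Pi : PlaceInf`,
`P0 : PlaceZero`). -/
theorem bottom_exactly_two (D : ModularPolynomialData ℓ)
    (hD : ∀ (k : Type) [Field k] (ζ : kˣ), IsPrimitiveRoot ζ ℓ → RootsAt k ℓ ζ D.Φ) :
    letI := algebraVMFN M hℓM A hA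
    ∀ (Pi : PlaceInf M hℓM A hA) (P0 : PlaceZero M hℓM A hA) (W : ValuationSubring FN),
      (∀ a : ↥V, algebraMap ↥V FN a ∈ W) →
      algebraMap ↥V FN ((ℓ : ℕ) : ↥V) ∈ W.nonunits →
      W.toSubring = PO1 M hℓM A hA Pi ∨ W.toSubring = PO1 M hℓM A hA P0 := by
  letI := degAlgebra L₁ M (ℓ * M) (dvd_level M)
  letI := algebraVMFN M hℓM A hA
  haveI := isDiscreteValuationRing_VM M hℓM A hA
  haveI := charP_residueField_VM M hℓM A hA
  intro Pi P0 W hW hℓW
  exact eq_or_eq_of_valuationSubring_JN L₁ M (ℓ * M) (dvd_level M) ℓ hℓM rfl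
    (natCast_level_ne_zero M) D hD (isScalarTower_VMFN M hℓM A hA) (phiV M hℓM A hA)
    (algebraMap_phiV_X M hℓM A hA) (rhoV M hℓM A hA) (not_dvd_order_rhoV_jMV M hℓM A hA)
    (maximalIdeal_VM M hℓM A hA)
    (resM M hℓM A hA) (resM_natCast M hℓM A hA) _ (by rw [phiV_X])
    (iotaZero M hℓM A hA) (iotaZero_natCast M hℓM A hA) _
    (by rw [phiV_X, iotaZero_apply, qExpand_resM_jMV]) Pi P0 W hW hℓW

end Bottom

section Three

open Fermat.Agent.S36.H55

variable (L : ℕ) [NeZero L] {q : ℕ} [hq : Fact q.Prime] (hqL : ¬ q ∣ L)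
  (A : ValuationSubring Qbar) (hA : A.LiesOverPrime q)

local notation "kA" => IsLocalRing.ResidueField A
local notation "L₁" => H45.unrCyclo q
local notation "F0" => modularFunctionFieldFullC (H45.unrCyclo q) L
local notation "F1" => modularFunctionFieldFullC (H45.unrCyclo q) (q * L)
local notation "F2" => modularFunctionFieldFullC (H45.unrCyclo q) (q * (q * L))

set_option maxHeartbeats 1600000 in
/-- **(M1)(c), exactly three**: helper55's three places `PA` (over `P0`), `PB`, `PC` (over `Pi`) of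
`F₂` exist, and every valuation subring of `F₂` containing the level-`L` Gauss ring (through `e_w`) in
which `q` is a non-unit is one of them. -/
theorem exists_three_places (D : ModularPolynomialData q)
    (hD : ∀ (k : Type) [Field k] (ζ : kˣ), IsPrimitiveRoot ζ q → RootsAt k q ζ D.Φ)
    (Pi : PlaceInf L hqL A hA) (P0 : PlaceZero L hqL A hA) :
    ∃ (PA : PlaceA L hqL A hA P0) (PB : PlaceB L hqL A hA Pi) (PC : PlaceC L hqL A hA Pi),
      ∀ W : ValuationSubring ↥F2,
        (∀ (y : F0), y ∈ (Mod L hqL A hA).O1 → eW L (q := q) y ∈ W) →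
        ((q : ℕ) : F2) ∈ W.nonunits →
        W.toSubring = QO1 L hqL A hA PA ∨ W.toSubring = QO1 L hqL A hA PB ∨
          W.toSubring = RO1 L hqL A hA PC := by
  obtain ⟨PC, PB, hi⟩ := S36.H6.three_places_over_inf_final L hqL A hA D hD Pi
  obtain ⟨PA, h0⟩ := S36.H6.three_places_over_zero L hqL A hA D hD P0
  let PA' : PlaceA L hqL A hA P0 := PA
  let PB' : PlaceB L hqL A hA Pi := PB
  let PC' : PlaceC L hqL A hA Pi := PC
  refine ⟨PA', PB', PC', fun W hW hqW => ?_⟩
  have hbot := bottom_exactly_two L hqL A hA D hD Pi P0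
  refine CA.H99.eq_or_eq_or_eq_of_tower (iota2 L (q := q))
    {a : F1 | ∃ y : F0, y ∈ (Mod L hqL A hA).O1 ∧ a = iotaMN L (ℓ := q) y} ((q : ℕ) : F1)
    (PO1 L hqL A hA Pi) (PO1 L hqL A hA P0) (QO1 L hqL A hA PA') (QO1 L hqL A hA PB')
    (RO1 L hqL A hA PC') ?_ ?_ ?_ W ?_ ?_
  · intro W1 hW1 hqW1
    refine hbot W1 (fun a => hW1 _ ⟨(a : F0), ?_, rfl⟩) ?_
    · exact a.2
    · rw [map_natCast]; exact hqW1
  · intro W' hW' hqW'
    refine (hi W' (fun a => hW' a.1 a.2) ?_).symm
    rw [map_natCast]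
    rw [map_natCast] at hqW'
    exact hqW'
  · intro W' hW' hqW'
    refine h0 W' (fun a => hW' a.1 a.2) ?_
    rw [map_natCast]
    rw [map_natCast] at hqW'
    exact hqW'
  · rintro a ⟨y, hy, rfl⟩
    exact hW y hy
  · rw [map_natCast]; exact hqW

end Three

end Fermat.Agent.S36.H99
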