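import Mathlib
import Fermat.Agent.S36.H99_L0ThreePlaces

/-!
# S36 (M1)(c) (helper99): uniqueness of the three places; "exactly three" for arbitrary places

* `inv_tauC_mem_placeB`, `inv_tauC_not_mem_placeC` : `τ = u - w` is a unit at every place of type
  `B` and a non-unit at every place of type `C`;
* `exactly_three` : for ARBITRARY `PA : PlaceA`, `PB : PlaceB`, `PC : PlaceC` (helper55's pinned
  types) every valuation subring of `F₂` containing the level-`L` Gauss ring (through `e_w`) in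
  which `q` is a non-unit is one of `PA`, `PB`, `PC` (`= ThreePlacesFacts.exactly_three`);
* `placeA_O1_unique`, `placeB_O1_unique`, `placeC_O1_unique` : two places of the same pinned type
  have the same valuation ring.
-/

set_option autoImplicit false
set_option linter.unusedSectionVars false
set_option linter.style.haveILetI false
set_option synthInstance.maxHeartbeats 400000

noncomputable section

namespace Fermat.Agent.S36.H99

open ModularCurve Polynomial IsLocalRing Fermat.Agent.S28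
open Fermat.Agent.S18 Fermat.Agent.S34 Fermat.Agent.S34.H92 Fermat.Agent.S34.H16
  Fermat.Agent.S34.H55

local notation "Qbar" => AlgebraicClosure ℚ

/-- an element of a valuation ring `V = O1` killed by a ring hom `res1 : O1 → Fk` to a field is a
non-unit of `V`. -/
theorem mem_nonunits_of_res_eq_zero {F Fk : Type*} [Field F] [Field Fk] (V : ValuationSubring F)
    (O1 : Subring F) (hV : V.toSubring = O1) (res1 : O1 →+* Fk) (y : F) (hy : y ∈ O1)
    (h0 : res1 ⟨y, hy⟩ = 0) : y ∈ V.nonunits := by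
  rw [ValuationSubring.mem_nonunits_iff]
  by_cases hy0 : y = 0
  · rw [hy0, map_zero]; exact zero_lt_one
  rw [CA.H99.valuation_lt_one_iff_inv_not_mem V y hy0]
  intro hinv
  have hinv' : y⁻¹ ∈ O1 := by rw [← hV]; exact hinv
  have h1 : res1 ⟨y, hy⟩ * res1 ⟨y⁻¹, hinv'⟩ = 1 := by
    rw [← map_mul, ← map_one res1]
    congr 1
    exact Subtype.ext (mul_inv_cancel₀ hy0)
  rw [h0, zero_mul] at h1
  exact zero_ne_one h1

section GenericPlaces

variable {O : Type*} [CommRing O] {F : Type*} [Field F] [Algebra O F] {Fk : Type*} [Field Fk]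

/-- the uniformiser `τ` of a ramified place is a non-unit of its ring. -/
theorem inv_tau_not_mem_of_placeOverRam {ϖ : O} {θ τ : F} {n : ℕ} {ι : O →+* Fk} {θb : Fk}
    (P : S36.H6.PlaceOverRam ϖ θ τ n ι θb) (hn : n ≠ 0) (hϖF : algebraMap O F ϖ ≠ 0) :
    τ⁻¹ ∉ P.O1 := by
  intro hinv
  have h0 : P.res1 ⟨τ, P.τ_mem⟩ = 0 :=
    (P.res1_eq_zero_iff _ P.τ_mem).2 ⟨1, P.O1.one_mem, (mul_one _).symm⟩
  have hτ0 : τ ≠ 0 := by
    intro h
    obtain ⟨u, _, _, hu⟩ := P.unif_eq
    rw [h, zero_pow hn, mul_zero] at hu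
    exact hϖF hu
  have h1 : P.res1 ⟨τ, P.τ_mem⟩ * P.res1 ⟨τ⁻¹, hinv⟩ = 1 := by
    rw [← map_mul, ← map_one P.res1]
    congr 1
    exact Subtype.ext (mul_inv_cancel₀ hτ0)
  rw [h0, zero_mul] at h1
  exact zero_ne_one h1

/-- `θ - a` is a unit of the ring of a place at which `θb ≠ ι a`. -/
theorem inv_sub_mem_of_placeOver {ϖ : O} {θ : F} {ι : O →+* Fk} {θb : Fk}
    (P : CA.H99.PlaceOver ϖ θ ι θb) (a : O) (h : θb ≠ ι a) :
    (θ - algebraMap O F a)⁻¹ ∈ P.O1 := by
  have hτ : θ - algebraMap O F a ∈ P.O1 := Subring.sub_mem _ P.θ_mem (P.algebraMap_mem a)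
  refine P.inv_mem _ hτ ?_
  have e : (⟨θ - algebraMap O F a, hτ⟩ : P.O1) =
      ⟨θ, P.θ_mem⟩ - ⟨_, P.algebraMap_mem a⟩ := rfl
  rw [e, map_sub, P.res1_θ, P.res1_algebraMap, sub_ne_zero]
  exact h

/-- the uniformiser `ϖ` is a non-unit of the valuation ring of a place. -/
theorem uniformiser_mem_nonunits_of_placeOver {ϖ : O} {θ : F} {ι : O →+* Fk} {θb : Fk}
    (P : CA.H99.PlaceOver ϖ θ ι θb) (hιϖ : ι ϖ = 0) :
    algebraMap O F ϖ ∈ P.toValuationSubring.nonunits :=
  mem_nonunits_of_res_eq_zero P.toValuationSubring P.O1 rfl P.res1 _ (P.algebraMap_mem ϖ)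
    (by rw [P.res1_algebraMap, hιϖ])

theorem uniformiser_mem_nonunits_of_placeOverRam {ϖ : O} {θ τ : F} {n : ℕ} {ι : O →+* Fk}
    {θb : Fk} (P : S36.H6.PlaceOverRam ϖ θ τ n ι θb) (hιϖ : ι ϖ = 0) :
    algebraMap O F ϖ ∈ P.toValuationSubring.nonunits :=
  mem_nonunits_of_res_eq_zero P.toValuationSubring P.O1 rfl P.res1 _ (P.algebraMap_mem ϖ)
    (by rw [P.res1_algebraMap, hιϖ])

end GenericPlaces

section Three

open Fermat.Agent.S36.H55

variable (L : ℕ) [NeZero L] {q : ℕ} [hq : Fact q.Prime] (hqL : ¬ q ∣ L)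
  (A : ValuationSubring Qbar) (hA : A.LiesOverPrime q)

local notation "kA" => IsLocalRing.ResidueField A
local notation "L₁" => H45.unrCyclo q
local notation "F0" => modularFunctionFieldFullC (H45.unrCyclo q) L
local notation "F1" => modularFunctionFieldFullC (H45.unrCyclo q) (q * L)
local notation "F2" => modularFunctionFieldFullC (H45.unrCyclo q) (q * (q * L))

/-! ### Uniqueness of the three places, and "exactly three" for ARBITRARY `PA`, `PB`, `PC` -/

section Unique

attribute [local instance] Fermat.Agent.S36.H55.algPO1F2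

variable (Pi : PlaceInf L hqL A hA) (P0 : PlaceZero L hqL A hA)

/-- `τ = u - w`, the uniformiser of `PC`. -/
abbrev tauC : F2 :=
  theta2 L (q := q) - algebraMap ↥(PO1 L hqL A hA Pi) F2 (wO L hqL A hA Pi)

include hA in
theorem xbar_pow_ne : (xbar L hqL A hA ^ q) ^ q ≠ xbar L hqL A hA := by
  rw [← pow_mul]
  refine S34.H6.pow_ne_self_of_order q hq.out.two_le (RingHom.id _) _ ?_
  rw [RingHom.id_apply, S36.H6.order_resM_jMV, neg_ne_zero]
  exact_mod_cast NeZero.ne L

/-- `τ` is a unit at every place of type `B`. -/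
theorem inv_tauC_mem_placeB (PB : PlaceB L hqL A hA Pi) :
    (tauC L hqL A hA Pi)⁻¹ ∈ QO1 L hqL A hA PB := by
  refine inv_sub_mem_of_placeOver PB (wO L hqL A hA Pi) ?_
  rw [Pres1_wO]
  exact xbar_pow_ne L hqL A hA

include hA in
/-- `τ` is a non-unit at every place of type `C`. -/
theorem inv_tauC_not_mem_placeC (PC : PlaceC L hqL A hA Pi) :
    (tauC L hqL A hA Pi)⁻¹ ∉ RO1 L hqL A hA PC := by
  refine inv_tau_not_mem_of_placeOverRam PC (Nat.sub_ne_zero_of_lt hq.out.one_lt) ?_
  rw [map_natCast]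
  exact Nat.cast_ne_zero.mpr hq.out.ne_zero

end Unique

section UniqueThm

attribute [local instance] Fermat.Agent.S36.H55.algPO1F2

set_option maxHeartbeats 1600000 in
/-- two places of type `A` have the same valuation ring. -/
theorem placeA_O1_unique (D : ModularPolynomialData q)
    (hD : ∀ (k : Type) [Field k] (ζ : kˣ), IsPrimitiveRoot ζ q → RootsAt k q ζ D.Φ)
    (P0 : PlaceZero L hqL A hA) (PA PA' : PlaceA L hqL A hA P0) :
    QO1 L hqL A hA PA = QO1 L hqL A hA PA' := by
  obtain ⟨PA₀, h0⟩ := S36.H6.three_places_over_zero L hqL A hA D hD P0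
  have key : ∀ P : PlaceA L hqL A hA P0, QO1 L hqL A hA P = PA₀.O1 := fun P =>
    h0 P.toValuationSubring P.algebraMap_mem
      (uniformiser_mem_nonunits_of_placeOver P
        (by rw [iotaA_apply, Pres1_natCast, map_zero]))
  rw [key PA, key PA']

set_option maxHeartbeats 1600000 in
/-- two places of type `B` have the same valuation ring. -/
theorem placeB_O1_unique (D : ModularPolynomialData q)
    (hD : ∀ (k : Type) [Field k] (ζ : kˣ), IsPrimitiveRoot ζ q → RootsAt k q ζ D.Φ)
    (Pi : PlaceInf L hqL A hA) (PB PB' : PlaceB L hqL A hA Pi) :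
    QO1 L hqL A hA PB = QO1 L hqL A hA PB' := by
  obtain ⟨PC₀, PB₀, hi⟩ := S36.H6.three_places_over_inf_final L hqL A hA D hD Pi
  let PC' : PlaceC L hqL A hA Pi := PC₀
  have key : ∀ P : PlaceB L hqL A hA Pi, QO1 L hqL A hA P = PB₀.O1 := fun P => by
    rcases hi P.toValuationSubring P.algebraMap_mem
      (uniformiser_mem_nonunits_of_placeOver P (Pres1_natCast L hqL A hA Pi)) with h | h
    · exfalso
      have h1 := inv_tauC_mem_placeB L hqL A hA Pi P
      have h2 : (tauC L hqL A hA Pi)⁻¹ ∈ RO1 L hqL A hA PC' := by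
        have : QO1 L hqL A hA P = RO1 L hqL A hA PC' := h
        rw [← this]; exact h1
      exact inv_tauC_not_mem_placeC L hqL A hA Pi PC' h2
    · exact h
  rw [key PB, key PB']

set_option maxHeartbeats 1600000 in
/-- two places of type `C` have the same valuation ring. -/
theorem placeC_O1_unique (D : ModularPolynomialData q)
    (hD : ∀ (k : Type) [Field k] (ζ : kˣ), IsPrimitiveRoot ζ q → RootsAt k q ζ D.Φ)
    (Pi : PlaceInf L hqL A hA) (PC PC' : PlaceC L hqL A hA Pi) :
    RO1 L hqL A hA PC = RO1 L hqL A hA PC' := by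
  obtain ⟨PC₀, PB₀, hi⟩ := S36.H6.three_places_over_inf_final L hqL A hA D hD Pi
  let PB' : PlaceB L hqL A hA Pi := PB₀
  have key : ∀ P : PlaceC L hqL A hA Pi, RO1 L hqL A hA P = PC₀.O1 := fun P => by
    rcases hi P.toValuationSubring P.algebraMap_mem
      (uniformiser_mem_nonunits_of_placeOverRam P (Pres1_natCast L hqL A hA Pi)) with h | h
    · exact h
    · exfalso
      have h1 := inv_tauC_mem_placeB L hqL A hA Pi PB'
      have h2 : (tauC L hqL A hA Pi)⁻¹ ∈ RO1 L hqL A hA P := by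
        have : RO1 L hqL A hA P = QO1 L hqL A hA PB' := h
        rw [this]; exact h1
      exact inv_tauC_not_mem_placeC L hqL A hA Pi P h2
  rw [key PC, key PC']

end UniqueThm

/-- **(M1)(c), exactly three, for ARBITRARY places of helper55's pinned types**
(`= S36.H55.ThreePlacesFacts.exactly_three`). -/
theorem exactly_three (D : ModularPolynomialData q)
    (hD : ∀ (k : Type) [Field k] (ζ : kˣ), IsPrimitiveRoot ζ q → RootsAt k q ζ D.Φ)
    (Pi : PlaceInf L hqL A hA) (P0 : PlaceZero L hqL A hA)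
    (PA : PlaceA L hqL A hA P0) (PB : PlaceB L hqL A hA Pi) (PC : PlaceC L hqL A hA Pi)
    (W : ValuationSubring ↥F2)
    (hW : ∀ (y : F0), y ∈ (Mod L hqL A hA).O1 → eW L (q := q) y ∈ W)
    (hqW : ((q : ℕ) : F2) ∈ W.nonunits) :
    W.toSubring = QO1 L hqL A hA PA ∨ W.toSubring = QO1 L hqL A hA PB ∨
      W.toSubring = RO1 L hqL A hA PC := by
  obtain ⟨PA₀, PB₀, PC₀, h⟩ := exists_three_places L hqL A hA D hD Pi P0
  rw [placeA_O1_unique L hqL A hA D hD P0 PA PA₀, placeB_O1_unique L hqL A hA D hD Pi PB PB₀,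
    placeC_O1_unique L hqL A hA D hD Pi PC PC₀]
  exact h W hW hqW

end Three

end Fermat.Agent.S36.H99
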