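import Mathlib
import Fermat.Agent.S36.H99_L0ThreeUnique
import Fermat.Agent.S36.H49_MirrorInst

/-!
# S36 / (M1)(g) (helper49): the mirror statement under `β = V₂`, HYPOTHESIS-FREE

`S36.H49.mirror_of_exactly_three` fed with helper99's `S36.H99.exactly_three`:
for ARBITRARY places `PA : PlaceA`, `PB : PlaceB`, `PC : PlaceC` of helper55's pinned types,

* `g1_real` : the only valuation subring of `F₂` over `V₂(PO1 Pi)` (with `q` a non-unit) is `PB`;
* `g2_real` : the only ones over `V₂(PO1 P0)` are `PA` and `PC`;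
* the same in helper3's local-instance shape (`g1_real'`, `g2_real'`).
-/

set_option autoImplicit false
set_option linter.unusedSectionVars false
set_option linter.style.haveILetI false
set_option synthInstance.maxHeartbeats 400000

noncomputable section

namespace Fermat.Agent.S36.H49

open ModularCurve Polynomial IsLocalRing Fermat.Agent.S28
open Fermat.Agent.S18 Fermat.Agent.S34.H92 Fermat.Agent.S34.H16 Fermat.Agent.S34.H55
open Fermat.Agent.S36.H55

local notation "Qbar" => AlgebraicClosure ℚ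

section L0MirrorFinal

variable (L : ℕ) [NeZero L] {q : ℕ} [hq : Fact q.Prime] (hqL : ¬ q ∣ L)
  (A : ValuationSubring Qbar) (hA : A.LiesOverPrime q)

local notation "kA" => IsLocalRing.ResidueField A
local notation "L₁" => H45.unrCyclo q
local notation "F0" => modularFunctionFieldFullC (H45.unrCyclo q) L
local notation "F1" => modularFunctionFieldFullC (H45.unrCyclo q) (q * L)
local notation "F2" => modularFunctionFieldFullC (H45.unrCyclo q) (q * (q * L))

variable (D : ModularPolynomialData q)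
  (hD : ∀ (k : Type) [Field k] (ζ : kˣ), IsPrimitiveRoot ζ q → RootsAt k q ζ D.Φ)
  (Pi : PlaceInf L hqL A hA) (P0 : PlaceZero L hqL A hA)

include D hD P0 in
/-- **`(g1)`, hypothesis-free**: the only place of `F₂` over `PO1 Pi` along `V₂` is `PB`. -/
theorem g1_real (PB : PlaceB L hqL A hA Pi) (W : ValuationSubring ↥F2)
    (hW : ∀ c ∈ PO1 L hqL A hA Pi, V2 L (q := q) c ∈ W) (hqW : ((q : ℕ) : F2) ∈ W.nonunits) :
    W.toSubring = QO1 L hqL A hA PB := by
  obtain ⟨PA, -, PC, -⟩ := S36.H99.exists_three_places L hqL A hA D hD Pi P0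
  exact (mirror_of_exactly_three L hqL A hA Pi P0 D hD PA PB PC
    (fun W hW hq => S36.H99.exactly_three L hqL A hA D hD Pi P0 PA PB PC W hW hq)).1 W hW hqW

include D hD in
/-- **`(g2)`, hypothesis-free**: the only places of `F₂` over `PO1 P0` along `V₂` are `PA`, `PC`. -/
theorem g2_real (PA : PlaceA L hqL A hA P0) (PC : PlaceC L hqL A hA Pi) (W : ValuationSubring ↥F2)
    (hW : ∀ c ∈ PO1 L hqL A hA P0, V2 L (q := q) c ∈ W) (hqW : ((q : ℕ) : F2) ∈ W.nonunits) :
    W.toSubring = QO1 L hqL A hA PA ∨ W.toSubring = RO1 L hqL A hA PC := by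
  obtain ⟨-, PB, -, -⟩ := S36.H99.exists_three_places L hqL A hA D hD Pi P0
  exact (mirror_of_exactly_three L hqL A hA Pi P0 D hD PA PB PC
    (fun W hW hq => S36.H99.exactly_three L hqL A hA D hD Pi P0 PA PB PC W hW hq)).2 W hW hqW

include D hD P0 in
/-- `(g1)` in helper3's shape (local instance `algPO1F2V`). -/
theorem g1_real' (PB : PlaceB L hqL A hA Pi) :
    letI := algPO1F2V L hqL A hA Pi
    ∀ W : ValuationSubring ↥F2,
      (∀ c : ↥(PO1 L hqL A hA Pi), algebraMap ↥(PO1 L hqL A hA Pi) F2 c ∈ W) →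
      ((q : ℕ) : F2) ∈ W.nonunits → W.toSubring = QO1 L hqL A hA PB := by
  letI := algPO1F2V L hqL A hA Pi
  intro W h1 h2
  exact g1_real L hqL A hA D hD Pi P0 PB W (fun c hc => h1 ⟨c, hc⟩) h2

include D hD in
/-- `(g2)` in helper3's shape (local instance `algPO1F2V`). -/
theorem g2_real' (PA : PlaceA L hqL A hA P0) (PC : PlaceC L hqL A hA Pi) :
    letI := algPO1F2V L hqL A hA P0
    ∀ W : ValuationSubring ↥F2,
      (∀ c : ↥(PO1 L hqL A hA P0), algebraMap ↥(PO1 L hqL A hA P0) F2 c ∈ W) →
      ((q : ℕ) : F2) ∈ W.nonunits →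
      W.toSubring = QO1 L hqL A hA PA ∨ W.toSubring = RO1 L hqL A hA PC := by
  letI := algPO1F2V L hqL A hA P0
  intro W h1 h2
  exact g2_real L hqL A hA D hD Pi P0 PA PC W (fun c hc => h1 ⟨c, hc⟩) h2

end L0MirrorFinal

end Fermat.Agent.S36.H49
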