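import Mathlib
import Fermat.Agent.S36.H16_TowerValBetaRes
import Fermat.Agent.S36.H16_TowerValVal
import Fermat.Agent.S36.H16_ThreePlacesVal
import Fermat.Agent.S36.H49_MirrorFinal
import Fermat.Agent.S36.H6_L0ThreePoly
import Fermat.Agent.S36.H18_Geo36Base

/-!
S36 / (E5) → (E6), row (r3) (helper16): **the tower datum `TowerValU` of `β = V_q : F₁ → F₂` at the
`L₁ = unrCyclo q` level**, for the three places `PA PB PC` of (M1) (helper55's pinned types
`S36.H55.PlaceA / PlaceB / PlaceC`), HYPOTHESIS-FREE.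

`F₁ = FullC L₁ (q L)`, `F₂ = FullC L₁ (q (q L))`, bottom places `Pi : PlaceInf`, `P0 : PlaceZero`.
ALONG `β`: `PA` (`e = f = 1`) and `PC` (`e = q - 1`, `f = 1`) lie over `P0`, `PB` (`e = 1`, `f = q`)
over `Pi`.  For ANY valuation subrings with these rings:

  `TowerValU (betaK L₁ q (qL) (q(qL))) (normBetaK L₁ q (qL) (q(qL))) q V_A V_C V_B W_0 W_i`.

Route: `S36.H16.towerValU_of_valuative` (valuative data at the ramified pair, no place structure
along `β` there) fed with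
* `f = 1` : `S36.H16.exists_Pres1_eq_resA/_resC` (`H16_TowerValBetaRes`),
* the norm reduction : `S36.H16.beta_norm_caseV_val` (no `hder`), with "exactly two" = helper49's
  `S36.H49.g2_real'`,
* at the inseparable place : `S36.H16.beta_places_caseF` (existence + uniqueness, so its ring is
  the ring of `PB`) and `beta_norm_caseF`.
-/

set_option autoImplicit false
set_option linter.unusedSectionVars false
set_option linter.style.haveILetI false
set_option synthInstance.maxHeartbeats 400000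

noncomputable section

namespace Fermat.Agent.S36.H16

open ModularCurve Polynomial IsLocalRing Fermat.Agent.S28
open Fermat.Agent.S18 Fermat.Agent.S34.H92 Fermat.Agent.S34.H16 Fermat.Agent.S34.H55
open Fermat.Agent.S35.H16 Fermat.Agent.S35.H46 Fermat.Agent.S36.H6 Fermat.Agent.S36.H46

local notation "Qbar" => AlgebraicClosure ℚ

section GenB

variable {F Fk : Type*} [Field F] [Field Fk]

/-- two elements of the ring of `R` with the same residue differ by a non-unit of `V`. -/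
theorem sub_mem_nonunits_of_res_eq (R : ResPlace F Fk) (V : ValuationSubring F)
    (hV : V.toSubring = R.O1) {x y : F} {r : Fk}
    (hx : ∃ h : x ∈ R.O1, R.res ⟨x, h⟩ = r) (hy : ∃ h : y ∈ R.O1, R.res ⟨y, h⟩ = r) :
    x - y ∈ V.nonunits := by
  obtain ⟨h1, e1⟩ := hx
  obtain ⟨h2, e2⟩ := hy
  refine mem_nonunits_of_res_eq_zero R V hV (R.O1.sub_mem h1 h2) ?_
  have e : (⟨x - y, R.O1.sub_mem h1 h2⟩ : R.O1) = ⟨x, h1⟩ - ⟨y, h2⟩ := rfl
  rw [e, map_sub, e1, e2, sub_self]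

end GenB

section L0

variable (L : ℕ) [NeZero L] {q : ℕ} [hq : Fact q.Prime] (hqL : ¬ q ∣ L)
  (A : ValuationSubring Qbar) (hA : A.LiesOverPrime q)

local notation "kA" => IsLocalRing.ResidueField A
local notation "L₁" => H45.unrCyclo q
local notation "F0" => modularFunctionFieldFullC (H45.unrCyclo q) L
local notation "F1" => modularFunctionFieldFullC (H45.unrCyclo q) (q * L)
local notation "F2" => modularFunctionFieldFullC (H45.unrCyclo q) (q * (q * L))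

section Base

variable {ι' : ↥(VM L hqL A hA) →+* LaurentSeries (IsLocalRing.ResidueField A)}
  {θb : LaurentSeries (IsLocalRing.ResidueField A)}
  (P : PlaceGen L hqL A hA ι' θb)

/-- `j ∈ O = PO1 P` (the image of `j ∈ V_L` under the inclusion `F₀ ⊆ F₁`). -/
def jO : ↥(PO1 L hqL A hA P) :=
  ⟨iotaMN L (ℓ := q) (S18.H16.jK L₁ L), (iotaMN_mem L hqL A hA P _ (jV L hqL A hA).2).1⟩

theorem Pres1_jO : Pres1 L hqL A hA P (jO L hqL A hA P) = ι' (jV L hqL A hA) :=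
  (iotaMN_mem L hqL A hA P _ (jV L hqL A hA).2).2

theorem algebraMap_jO :
    algebraMap ↥(PO1 L hqL A hA P) F1 (jO L hqL A hA P) = S18.H16.jK L₁ (q * L) :=
  degAlgebra_algebraMap_jK L₁ L (q * L) (dvd_level L)

/-- `ℤ[X] → O`, `X ↦ j`. -/
def phiJ : ℤ[X] →+* ↥(PO1 L hqL A hA P) :=
  (Polynomial.aeval (R := ℤ) (jO L hqL A hA P)).toRingHom

theorem phiJ_X : phiJ L hqL A hA P X = jO L hqL A hA P := by
  simp [phiJ]

theorem algebraMap_phiJ_X :
    algebraMap ↥(PO1 L hqL A hA P) F1 (phiJ L hqL A hA P X) = S18.H16.jK L₁ (q * L) := by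
  rw [phiJ_X]
  exact algebraMap_jO L hqL A hA P

/-- the tower `O ⊆ F₁ → F₂` along `V_q`. -/
theorem isScalarTower_O1F2V :
    letI := vAlgebra L₁ q (q * L) (q * (q * L)) dvd_rfl
    letI := H49.algPO1F2V L hqL A hA P
    @IsScalarTower ↥(PO1 L hqL A hA P) F1 F2 Algebra.toSMul Algebra.toSMul Algebra.toSMul := by
  letI := vAlgebra L₁ q (q * L) (q * (q * L)) dvd_rfl
  letI := H49.algPO1F2V L hqL A hA P
  refine @IsScalarTower.of_algebraMap_eq ↥(PO1 L hqL A hA P) F1 F2 _ _ _ _ _ _ (fun x => ?_)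
  rfl

end Base

variable (Pi : PlaceInf L hqL A hA) (P0 : PlaceZero L hqL A hA)

/-- `j_q = j(t^q) ∈ PO1 Pi`. -/
def jqOi : ↥(PO1 L hqL A hA Pi) :=
  ⟨VMN L (ℓ := q) (S18.H16.jK L₁ L), (H96.HiV_resM L hqL A hA Pi _ (jV L hqL A hA).2).1⟩

theorem Pres1_jqOi : Pres1 L hqL A hA Pi (jqOi L hqL A hA Pi) =
    qExpand (IsLocalRing.ResidueField A) q (resM L hqL A hA (jV L hqL A hA)) :=
  (H96.HiV_resM L hqL A hA Pi _ (jV L hqL A hA).2).2

theorem algebraMap_jqOi :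
    algebraMap ↥(PO1 L hqL A hA Pi) F1 (jqOi L hqL A hA Pi) =
      S18.H99.jdK L₁ (q * L) q (dvd_mul_right q L) :=
  S34.H36.vSub_jK (K := L₁) (q := q) (M := L) (N := q * L) dvd_rfl

/-- `j_q = j(t^q) ∈ PO1 P0`. -/
def jqO0 : ↥(PO1 L hqL A hA P0) :=
  ⟨VMN L (ℓ := q) (S18.H16.jK L₁ L), (H96.H0V_resM L hqL A hA P0 _ (jV L hqL A hA).2).1⟩

theorem Pres1_jqO0 : Pres1 L hqL A hA P0 (jqO0 L hqL A hA P0) =
    resM L hqL A hA (jV L hqL A hA) :=
  (H96.H0V_resM L hqL A hA P0 _ (jV L hqL A hA).2).2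

theorem algebraMap_jqO0 :
    algebraMap ↥(PO1 L hqL A hA P0) F1 (jqO0 L hqL A hA P0) =
      S18.H99.jdK L₁ (q * L) q (dvd_mul_right q L) :=
  S34.H36.vSub_jK (K := L₁) (q := q) (M := L) (N := q * L) dvd_rfl

/-- `j = e_w (j)` in `F₂`. -/
theorem jK_eq_eW : S18.H16.jK L₁ (q * (q * L)) = H55.eW L (q := q) (S18.H16.jK L₁ L) := by
  apply Subtype.ext
  rw [H55.coe_eW, S18.H16.coe_jK, S18.H16.coe_jK]

theorem order_resM_jV : (resM L hqL A hA (jV L hqL A hA)).order = -1 := by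
  rw [resM_jV, S28.H39.order_jqModC]

set_option maxHeartbeats 3200000 in
/-- **The `β`-side tower datum at the `L₁`-level**, hypothesis-free. -/
theorem towerValU_beta_real (D : ModularPolynomialData q)
    (hD : ∀ (k : Type) [Field k] (ζ : kˣ), IsPrimitiveRoot ζ q → RootsAt k q ζ D.Φ)
    (PA : H55.PlaceA L hqL A hA P0) (PB : H55.PlaceB L hqL A hA Pi)
    (PC : H55.PlaceC L hqL A hA Pi)
    (Vs Vm Vi : ValuationSubring F2)
    (hVs : Vs.toSubring = H55.QO1 L hqL A hA PA) (hVm : Vm.toSubring = H55.RO1 L hqL A hA PC)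
    (hVi : Vi.toSubring = H55.QO1 L hqL A hA PB)
    (Ws Wi : ValuationSubring F1) (hWs : Ws.toSubring = PO1 L hqL A hA P0)
    (hWi : Wi.toSubring = PO1 L hqL A hA Pi) :
    TowerValU (H18.betaK L₁ q (q * L) (q * (q * L)) dvd_rfl)
      (H18.normBetaK L₁ q (q * L) (q * (q * L)) dvd_rfl) q Vs Vm Vi Ws Wi := by
  letI aI := H49.algPO1F2V L hqL A hA Pi
  letI a0 := H49.algPO1F2V L hqL A hA P0
  letI := vAlgebra L₁ q (q * L) (q * (q * L)) dvd_rfl
  haveI := isDiscreteValuationRing_PO1 L hqL A hA Pi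
  haveI := isFractionRing_PO1 L hqL A hA Pi
  haveI := charP_residueField_PO1 L hqL A hA Pi
  haveI := isDiscreteValuationRing_PO1 L hqL A hA P0
  haveI := isFractionRing_PO1 L hqL A hA P0
  haveI := charP_residueField_PO1 L hqL A hA P0
  haveI tI := isScalarTower_O1F2V L hqL A hA Pi
  haveI t0 := isScalarTower_O1F2V L hqL A hA P0
  have hqp : q.Prime := hq.out
  haveI : FiniteDimensional F1 F2 :=
    finiteDimensional_vSub_dvd L₁ (q * L) (q * (q * L)) q hqp (dvd_mul_right q L) rfl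
      (natCast_level2_ne_zero L)
  haveI : CharP (IsLocalRing.ResidueField A) q := S18.H92.charP_residueField A hA
  haveI : CharP (LaurentSeries kA) q :=
    charP_of_injective_ringHom (f := (HahnSeries.C : kA →+* LaurentSeries kA))
      HahnSeries.C_injective q
  -- the three `ResPlace`s and their bridges
  have hVs' : Vs.toSubring = (resPlaceA L hqL A hA P0 PA).O1 := hVs
  have hVm' : Vm.toSubring = (resPlaceC L hqL A hA Pi PC).O1 := hVm
  have hVi' : Vi.toSubring = (resPlaceB L hqL A hA Pi PB).O1 := hVi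
  have bA := placeBridge_of_toSubring_eq (resPlaceA L hqL A hA P0 PA) Vs hVs'
  have bC := placeBridge_of_toSubring_eq (resPlaceC L hqL A hA Pi PC) Vm hVm'
  have bB := placeBridge_of_toSubring_eq (resPlaceB L hqL A hA Pi PB) Vi hVi'
  have hcast0 : algebraMap ↥(PO1 L hqL A hA P0) F2 ((q : ℕ) : ↥(PO1 L hqL A hA P0)) =
      ((q : ℕ) : F2) := map_natCast _ q
  have hcasti : algebraMap ↥(PO1 L hqL A hA Pi) F2 ((q : ℕ) : ↥(PO1 L hqL A hA Pi)) =
      ((q : ℕ) : F2) := map_natCast _ q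
  -- containments
  have hOs : ∀ x : ↥(PO1 L hqL A hA P0), algebraMap ↥(PO1 L hqL A hA P0) F2 x ∈ Vs :=
    fun x => (bA.hO _).1 (resA_V2 L hqL A hA P0 PA x).1
  have hOm : ∀ x : ↥(PO1 L hqL A hA P0), algebraMap ↥(PO1 L hqL A hA P0) F2 x ∈ Vm :=
    fun x => (bC.hO _).1 (resC_V2 L hqL A hA Pi P0 PC x).1
  have hOi : ∀ x : ↥(PO1 L hqL A hA Pi), algebraMap ↥(PO1 L hqL A hA Pi) F2 x ∈ Vi :=
    fun x => (bB.hO _).1 (resB_V2 L hqL A hA Pi PB x).1
  -- `q` is a non-unit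
  have hϖVs : algebraMap ↥(PO1 L hqL A hA P0) F2 ((q : ℕ) : ↥(PO1 L hqL A hA P0)) ∈
      Vs.nonunits := by
    rw [hcast0]
    obtain ⟨h, h0⟩ := resA_natCast L hqL A hA P0 PA
    exact mem_nonunits_of_res_eq_zero _ Vs hVs' h h0
  have hϖVm : algebraMap ↥(PO1 L hqL A hA P0) F2 ((q : ℕ) : ↥(PO1 L hqL A hA P0)) ∈
      Vm.nonunits := by
    rw [hcast0]
    obtain ⟨h, h0⟩ := resC_natCast L hqL A hA Pi PC
    exact mem_nonunits_of_res_eq_zero _ Vm hVm' h h0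
  have hϖVi : algebraMap ↥(PO1 L hqL A hA Pi) F2 ((q : ℕ) : ↥(PO1 L hqL A hA Pi)) ∈
      Vi.nonunits := by
    rw [hcasti]
    obtain ⟨h, h0⟩ := resB_natCast L hqL A hA Pi PB
    exact mem_nonunits_of_res_eq_zero _ Vi hVi' h h0
  -- `f = 1`
  have hfs : ∀ x : F2, Vs.valuation x = 1 → ∃ c : ↥(PO1 L hqL A hA P0),
      x - algebraMap ↥(PO1 L hqL A hA P0) F2 c ∈ Vs.nonunits :=
    exists_sub_mem_nonunits_of_res (resPlaceA L hqL A hA P0 PA) Vs hVs'
      (algebraMap ↥(PO1 L hqL A hA P0) F2) (Pres1 L hqL A hA P0)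
      (fun c => resA_V2 L hqL A hA P0 PA c) (exists_Pres1_eq_resA L hqL A hA P0 PA)
  have hfm : ∀ x : F2, Vm.valuation x = 1 → ∃ c : ↥(PO1 L hqL A hA P0),
      x - algebraMap ↥(PO1 L hqL A hA P0) F2 c ∈ Vm.nonunits :=
    exists_sub_mem_nonunits_of_res (resPlaceC L hqL A hA Pi PC) Vm hVm'
      (algebraMap ↥(PO1 L hqL A hA P0) F2) (Pres1 L hqL A hA P0)
      (fun c => resC_V2 L hqL A hA Pi P0 PC c) (exists_Pres1_eq_resC L hqL A hA Pi P0 PC)
  -- over `P0` (case (V)): `j_q^q ≡ j`, `j_q - j^q` a unit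
  obtain ⟨δ0, hδ0⟩ := exists_eq_natCast_mul_of_Pres1_eq_zero L hqL A hA P0
    (jqO0 L hqL A hA P0 ^ q - phiJ L hqL A hA P0 X)
    (by rw [map_sub, map_pow, Pres1_jqO0, phiJ_X, Pres1_jO, iotaZero_apply, qExpand_resM_jV,
      sub_self])
  have hunit0 : IsUnit (jqO0 L hqL A hA P0 - phiJ L hqL A hA P0 X ^ q) := by
    apply isUnit_of_Pres1_ne_zero
    rw [map_sub, map_pow, Pres1_jqO0, phiJ_X, Pres1_jO, iotaZero_apply, qExpand_resM_jV,
      ← pow_mul, sub_ne_zero]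
    refine (S34.H6.pow_ne_self_of_order q hq.out.two_le (RingHom.id _) _ ?_).symm
    rw [RingHom.id_apply, order_resM_jV]
    norm_num
  -- over `Pi` (case (F)): `j_q ≡ j^q`, `j̄` not a `q`-th power
  obtain ⟨δi, hδi⟩ := exists_eq_natCast_mul_of_Pres1_eq_zero L hqL A hA Pi
    (jqOi L hqL A hA Pi - phiJ L hqL A hA Pi X ^ q)
    (by rw [map_sub, map_pow, Pres1_jqOi, phiJ_X, Pres1_jO, qExpand_resM_jV, sub_self])
  have hnp : ∀ b : ResidueField ↥(PO1 L hqL A hA Pi),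
      b ^ q ≠ residue ↥(PO1 L hqL A hA Pi) (phiJ L hqL A hA Pi X) := by
    refine S34.H6.pow_ne_of_order q (rhoO1 L hqL A hA Pi) _ ?_
    rw [rhoO1_residue, phiJ_X, Pres1_jO, order_resM_jV, dvd_neg]
    intro h
    have h2 : q ∣ 1 := by exact_mod_cast h
    exact hq.out.one_lt.ne' (Nat.dvd_one.1 h2)
  -- the generator `j` at `C` and `A`
  have hmemV : S18.H16.jK L₁ L ∈ (Mod L hqL A hA).O1 :=
    H96.mem_O1_of_mem_V L hqL A hA (jV L hqL A hA).2
  have hθ₁ : S18.H16.jK L₁ (q * (q * L)) -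
      algebraMap ↥(PO1 L hqL A hA P0) F2 (jqO0 L hqL A hA P0) ∈ Vm.nonunits := by
    refine sub_mem_nonunits_of_res_eq (resPlaceC L hqL A hA Pi PC) Vm hVm'
      (r := resM L hqL A hA (jV L hqL A hA)) ?_ ?_
    · obtain ⟨h, hh⟩ := H55.resC_eW L hqL A hA Pi PC _ hmemV
      rw [jK_eq_eW]
      refine ⟨h, hh.trans ?_⟩
      exact inclk_res1 L hqL A hA _ hmemV
    · obtain ⟨h, hh⟩ := resC_V2 L hqL A hA Pi P0 PC (jqO0 L hqL A hA P0)
      exact ⟨h, hh.trans (Pres1_jqO0 L hqL A hA P0)⟩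
  have hθ₂ : S18.H16.jK L₁ (q * (q * L)) -
      algebraMap ↥(PO1 L hqL A hA P0) F2 (phiJ L hqL A hA P0 X ^ q) ∈ Vs.nonunits := by
    refine sub_mem_nonunits_of_res_eq (resPlaceA L hqL A hA P0 PA) Vs hVs'
      (r := qExpand kA q (resM L hqL A hA (jV L hqL A hA)) ^ q) ?_ ?_
    · obtain ⟨h, hh⟩ := H55.resA_eW L hqL A hA P0 PA _ hmemV
      rw [jK_eq_eW]
      refine ⟨h, hh.trans ?_⟩
      rw [H55.inclk_FrM, H55.inclk_FrM, inclk_res1 L hqL A hA _ hmemV, ← map_pow]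
      exact congrArg _ (qExpand_resM_jV L hqL A hA)
    · obtain ⟨h, hh⟩ := resA_V2 L hqL A hA P0 PA (phiJ L hqL A hA P0 X ^ q)
      refine ⟨h, hh.trans ?_⟩
      rw [map_pow, phiJ_X, Pres1_jO, iotaZero_apply]
  -- kernels
  have hker₁ : ∀ z ∈ Vm.nonunits, ∃ z' ∈ Vm, z ^ (q - 1) =
      algebraMap ↥(PO1 L hqL A hA P0) F2 ((q : ℕ) : ↥(PO1 L hqL A hA P0)) * z' := by
    intro z hz
    obtain ⟨h, h0⟩ := res_eq_zero_of_mem_nonunits _ Vm hVm' hz
    obtain ⟨z', hz', e⟩ := kerC L hqL A hA Pi PC z h h0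
    exact ⟨z', (bC.hO _).1 hz', by rw [hcast0]; exact e⟩
  have hker₂ : ∀ z ∈ Vs.nonunits, ∃ z' ∈ Vs, z =
      algebraMap ↥(PO1 L hqL A hA P0) F2 ((q : ℕ) : ↥(PO1 L hqL A hA P0)) * z' := by
    intro z hz
    obtain ⟨h, h0⟩ := res_eq_zero_of_mem_nonunits _ Vs hVs' hz
    obtain ⟨z', hz', e⟩ := kerA L hqL A hA P0 PA z h h0
    exact ⟨z', (bA.hO _).1 hz', by rw [hcast0]; exact e⟩
  -- exactly two
  have hex : ∀ V : ValuationSubring F2,
      (∀ x : ↥(PO1 L hqL A hA P0), algebraMap ↥(PO1 L hqL A hA P0) F2 x ∈ V) →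
      algebraMap ↥(PO1 L hqL A hA P0) F2 ((q : ℕ) : ↥(PO1 L hqL A hA P0)) ∈ V.nonunits →
      V = Vm ∨ V = Vs := by
    intro V h1 h2
    rw [hcast0] at h2
    rcases H49.g2_real' L hqL A hA D hD Pi P0 PA PC V h1 h2 with h | h
    · exact Or.inr (ValuationSubring.toSubring_injective (h.trans hVs.symm))
    · exact Or.inl (ValuationSubring.toSubring_injective (h.trans hVm.symm))
  -- the norm reduction at the ramified pair
  have hNs : ∀ (u : F2) (c₁ c₂ : ↥(PO1 L hqL A hA P0)), IsUnit c₁ → IsUnit c₂ →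
      u - algebraMap ↥(PO1 L hqL A hA P0) F2 c₁ ∈ Vm.nonunits →
      u - algebraMap ↥(PO1 L hqL A hA P0) F2 c₂ ∈ Vs.nonunits →
      ∃ m : ↥(PO1 L hqL A hA P0), algebraMap ↥(PO1 L hqL A hA P0) F1 m = Algebra.norm F1 u ∧
        m - c₁ ^ (q - 1) * c₂ ∈ maximalIdeal ↥(PO1 L hqL A hA P0) := by
    intro u c₁ c₂ hc₁ hc₂ hu₁ hu₂
    have key := beta_norm_caseV_val L₁ (q * L) (q * (q * L)) q (dvd_mul_right q L) rfl
      (natCast_level2_ne_zero L) D hD (isScalarTower_O1F2V L hqL A hA P0)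
      (phiJ L hqL A hA P0) (algebraMap_phiJ_X L hqL A hA P0) (jqO0 L hqL A hA P0)
      (algebraMap_jqO0 L hqL A hA P0) (maximalIdeal_PO1 L hqL A hA P0) δ0 hδ0 hunit0
      Vm Vs hOm hOs hθ₁ hθ₂ hker₁ hker₂ hex c₁ c₂ hc₁ hc₂ hu₁ hu₂
    exact key
  -- the inseparable place: existence + uniqueness along `β`
  have hιi : ((qExpand kA q).comp (Pres1 L hqL A hA Pi)) ((q : ℕ) : ↥(PO1 L hqL A hA Pi)) = 0 := by
    rw [RingHom.comp_apply, Pres1_natCast, map_zero]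
  have hθbi : resM L hqL A hA (jV L hqL A hA) ^ q =
      ((qExpand kA q).comp (Pres1 L hqL A hA Pi)) (phiJ L hqL A hA Pi X) := by
    rw [RingHom.comp_apply, phiJ_X, Pres1_jO, qExpand_resM_jV]
  obtain ⟨QB, hQB⟩ := beta_places_caseF L₁ (q * L) (q * (q * L)) q (dvd_mul_right q L) rfl
    (natCast_level2_ne_zero L) D hD (isScalarTower_O1F2V L hqL A hA Pi)
    (phiJ L hqL A hA Pi) (algebraMap_phiJ_X L hqL A hA Pi) (jqOi L hqL A hA Pi)
    (algebraMap_jqOi L hqL A hA Pi) (maximalIdeal_PO1 L hqL A hA Pi) δi hδi hnp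
    ((qExpand kA q).comp (Pres1 L hqL A hA Pi)) hιi (resM L hqL A hA (jV L hqL A hA)) hθbi
  have hViQ : Vi.toSubring = QB.O1 := hQB Vi hOi hϖVi
  have hNi : ∀ (u : F2) (h : u ∈ QB.O1), ∃ m : ↥(PO1 L hqL A hA Pi),
      algebraMap ↥(PO1 L hqL A hA Pi) F1 m = Algebra.norm F1 u ∧
        ((qExpand kA q).comp (Pres1 L hqL A hA Pi)) m = QB.res1 ⟨u, h⟩ ^ q := by
    intro u h
    have key := beta_norm_caseF L₁ (q * L) (q * (q * L)) q (dvd_mul_right q L) rfl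
      (natCast_level2_ne_zero L) D hD (isScalarTower_O1F2V L hqL A hA Pi)
      (phiJ L hqL A hA Pi) (algebraMap_phiJ_X L hqL A hA Pi) (jqOi L hqL A hA Pi)
      (algebraMap_jqOi L hqL A hA Pi) (maximalIdeal_PO1 L hqL A hA Pi) δi hδi hnp
      ((qExpand kA q).comp (Pres1 L hqL A hA Pi)) hιi (resM L hqL A hA (jV L hqL A hA)) hθbi QB h
    exact key
  -- the base rings
  have hr0 : (algebraMap ↥(PO1 L hqL A hA P0) F1).range = PO1 L hqL A hA P0 := by
    ext x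
    exact ⟨fun ⟨y, hy⟩ => hy ▸ y.2, fun hx => ⟨⟨x, hx⟩, rfl⟩⟩
  have hri : (algebraMap ↥(PO1 L hqL A hA Pi) F1).range = PO1 L hqL A hA Pi := by
    ext x
    exact ⟨fun ⟨y, hy⟩ => hy ▸ y.2, fun hx => ⟨⟨x, hx⟩, rfl⟩⟩
  have key := towerValU_of_valuative (K := F1) (L := F2) q
    (maximalIdeal_PO1 L hqL A hA P0) Vs Vm Ws (hWs.trans hr0.symm) hOs hOm hϖVs hϖVm hfs hfm hNs
    (maximalIdeal_PO1 L hqL A hA Pi) ((qExpand kA q).comp (Pres1 L hqL A hA Pi)) hιi QB hNi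
    Vi hViQ Wi (hWi.trans hri.symm)
    (H18.normBetaK L₁ q (q * L) (q * (q * L)) dvd_rfl)
    (fun x => H18.normZ_eq_norm x)
  exact key

end L0

end Fermat.Agent.S36.H16
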