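import Fermat.Agent.S34.H69_KummerPow

/-!
# S36: structure-agnostic bridge "vertical prime of a chart = a given valuation ring" (helper67)

`B` a noetherian integrally closed domain with fraction field `L`, `p` a height-one prime,
`W` a valuation subring of `L` containing `B` whose centre on `B` is `p`.  Then `B_p = W`.
Consequently two charts of the same field whose vertical primes are the centres of the same
valuation ring have the same `H56.valuationSubringAt` (the `hV` of
`S36.H67.kummer_descent_pow_of_mult_fam`), whatever structure (`PlaceOver`, `PlaceOverU`, ...)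
the valuation ring comes from.
-/

set_option autoImplicit false
set_option linter.unusedSectionVars false

open Fermat.Agent.S34 Fermat.Agent.CA.H69

namespace Fermat.Agent.S36.H67

section Bridge

variable {B L : Type*} [CommRing B] [IsDomain B] [Field L] [Algebra B L] [IsFractionRing B L]
  [IsNoetherianRing B] [IsIntegrallyClosed B]

/-- `B_p = W` when `W ⊇ B` is a valuation subring with centre `p` (height one). -/
theorem valuationSubringAt_eq_of_centre (W : ValuationSubring L) (p : Ideal B) [hp : p.IsPrime]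
    (h1 : p.height = 1) (hB : ∀ b : B, algebraMap B L b ∈ W)
    (hred : ∀ b : B, b ∈ p ↔ W.valuation (algebraMap B L b) < 1) :
    H56.valuationSubringAt (K := L) p h1 = W := by
  have hunit : ∀ s : B, s ∉ p → W.valuation (algebraMap B L s) = 1 := by
    intro s hs
    refine le_antisymm ((W.valuation_le_one_iff _).2 (hB s)) (not_lt.1 fun hlt => hs ?_)
    exact (hred s).2 hlt
  apply SetLike.ext
  intro x
  constructor
  · rintro ⟨a, s, hs, has⟩
    rw [← W.valuation_le_one_iff]
    have : W.valuation x = W.valuation (algebraMap B L a) := by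
      rw [← has, map_mul, hunit s hs, mul_one]
    rw [this]
    exact (W.valuation_le_one_iff _).2 (hB a)
  · intro hx
    by_contra hxV
    have hx0 : x ≠ 0 := fun h => hxV (h ▸ (H56.valuationSubringAt (K := L) p h1).zero_mem)
    have hlt : (H56.valuationSubringAt (K := L) p h1).valuation x⁻¹ < 1 := by
      have h2 : 1 < (H56.valuationSubringAt (K := L) p h1).valuation x := by
        by_contra hle
        exact hxV (((H56.valuationSubringAt (K := L) p h1).valuation_le_one_iff x).mp
          (not_lt.mp hle))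
      rw [map_inv₀]
      exact inv_lt_one_of_one_lt₀ h2
    obtain ⟨a, ha, s, hs, has⟩ := H69.inMaxB_of_valuation_lt_one h1 hlt
    have h3 : W.valuation x⁻¹ < 1 := by
      have : W.valuation x⁻¹ = W.valuation (algebraMap B L a) := by
        rw [← has, map_mul, hunit s hs, mul_one]
      rw [this]
      exact (hred a).1 ha
    rw [map_inv₀] at h3
    have h4 : W.valuation x ≤ 1 := (W.valuation_le_one_iff x).2 hx
    have hv0 : W.valuation x ≠ 0 := (Valuation.ne_zero_iff _).mpr hx0
    have h5 : 1 < W.valuation x := by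
      rwa [inv_lt_one₀ (zero_lt_iff.mpr hv0)] at h3
    exact absurd h4 (not_le.mpr h5)

/-- Two charts of the same field whose vertical primes are the centres of the same valuation
ring have the same valuation ring there. -/
theorem valuationSubringAt_eq_of_common_centre {B' : Type*} [CommRing B'] [IsDomain B']
    [Algebra B' L] [IsFractionRing B' L] [IsNoetherianRing B'] [IsIntegrallyClosed B']
    (W : ValuationSubring L)
    (p : Ideal B) [hp : p.IsPrime] (h1 : p.height = 1)
    (hB : ∀ b : B, algebraMap B L b ∈ W)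
    (hred : ∀ b : B, b ∈ p ↔ W.valuation (algebraMap B L b) < 1)
    (p' : Ideal B') [hp' : p'.IsPrime] (h1' : p'.height = 1)
    (hB' : ∀ b : B', algebraMap B' L b ∈ W)
    (hred' : ∀ b : B', b ∈ p' ↔ W.valuation (algebraMap B' L b) < 1) :
    H56.valuationSubringAt (K := L) p h1 = H56.valuationSubringAt (K := L) p' h1' :=
  (valuationSubringAt_eq_of_centre W p h1 hB hred).trans
    (valuationSubringAt_eq_of_centre W p' h1' hB' hred').symm

/-! ### bare "place" form: a subring with a residue map -/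

/-- The valuation subring attached to a bare place `(O1, mem_or_inv_mem)`. -/
def valuationSubringOfPlace (O1 : Subring L) (mem_or_inv_mem : ∀ y : L, y ∈ O1 ∨ y⁻¹ ∈ O1) :
    ValuationSubring L :=
  { O1 with mem_or_inv_mem' := mem_or_inv_mem }

theorem mem_valuationSubringOfPlace {O1 : Subring L}
    {mem_or_inv_mem : ∀ y : L, y ∈ O1 ∨ y⁻¹ ∈ O1} {y : L} :
    y ∈ valuationSubringOfPlace O1 mem_or_inv_mem ↔ y ∈ O1 := Iff.rfl

/-- In a bare place `(O1, res1, inv_mem, mem_or_inv_mem)` the elements of valuation `< 1` are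
those of `O1` with residue `0`. -/
theorem valuation_lt_one_iff_of_res {Fk : Type*} [Field Fk] (O1 : Subring L) (res1 : O1 →+* Fk)
    (inv_mem : ∀ (y : L) (hy : y ∈ O1), res1 ⟨y, hy⟩ ≠ 0 → y⁻¹ ∈ O1)
    (mem_or_inv_mem : ∀ y : L, y ∈ O1 ∨ y⁻¹ ∈ O1) {y : L} (hy : y ∈ O1) :
    (valuationSubringOfPlace O1 mem_or_inv_mem).valuation y < 1 ↔ res1 ⟨y, hy⟩ = 0 := by
  set W := valuationSubringOfPlace O1 mem_or_inv_mem with hW
  rcases eq_or_ne y 0 with rfl | hy0
  · have h0 : (⟨(0 : L), hy⟩ : O1) = 0 := rfl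
    rw [map_zero, h0, map_zero]
    exact ⟨fun _ => rfl, fun _ => zero_lt_one⟩
  have hle : W.valuation y ≤ 1 := (W.valuation_le_one_iff y).2 hy
  have hv0 : W.valuation y ≠ 0 := (Valuation.ne_zero_iff _).mpr hy0
  constructor
  · intro hlt
    by_contra hne
    have hinv : y⁻¹ ∈ W := inv_mem y hy hne
    have h1 : W.valuation y⁻¹ ≤ 1 := (W.valuation_le_one_iff _).2 hinv
    rw [map_inv₀, inv_le_one₀ (zero_lt_iff.mpr hv0)] at h1
    exact absurd hlt (not_lt.mpr h1)
  · intro h0
    rcases lt_or_eq_of_le hle with h | h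
    · exact h
    · exfalso
      have hinv : y⁻¹ ∈ O1 := by
        have : W.valuation y⁻¹ ≤ 1 := by rw [map_inv₀, h, inv_one]
        exact (W.valuation_le_one_iff _).1 this
      have hmul : (⟨y, hy⟩ : O1) * ⟨y⁻¹, hinv⟩ = 1 := Subtype.ext (mul_inv_cancel₀ hy0)
      have := congrArg res1 hmul
      rw [map_mul, h0, zero_mul, map_one] at this
      exact zero_ne_one this

/-- `B_p = O1` for a bare place whose residue map cuts out `p` on the chart `B`. -/
theorem valuationSubringAt_eq_of_res {Fk : Type*} [Field Fk] (O1 : Subring L) (res1 : O1 →+* Fk)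
    (inv_mem : ∀ (y : L) (hy : y ∈ O1), res1 ⟨y, hy⟩ ≠ 0 → y⁻¹ ∈ O1)
    (mem_or_inv_mem : ∀ y : L, y ∈ O1 ∨ y⁻¹ ∈ O1)
    (p : Ideal B) [hp : p.IsPrime] (h1 : p.height = 1)
    (hB : ∀ b : B, algebraMap B L b ∈ O1)
    (hred : ∀ b : B, b ∈ p ↔ res1 ⟨algebraMap B L b, hB b⟩ = 0) :
    H56.valuationSubringAt (K := L) p h1 = valuationSubringOfPlace O1 mem_or_inv_mem :=
  valuationSubringAt_eq_of_centre _ p h1 hB fun b =>
    (hred b).trans (valuation_lt_one_iff_of_res O1 res1 inv_mem mem_or_inv_mem (hB b)).symm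

/-- membership form -/
theorem mem_valuationSubringAt_iff_of_res {Fk : Type*} [Field Fk] (O1 : Subring L)
    (res1 : O1 →+* Fk)
    (inv_mem : ∀ (y : L) (hy : y ∈ O1), res1 ⟨y, hy⟩ ≠ 0 → y⁻¹ ∈ O1)
    (mem_or_inv_mem : ∀ y : L, y ∈ O1 ∨ y⁻¹ ∈ O1)
    (p : Ideal B) [hp : p.IsPrime] (h1 : p.height = 1)
    (hB : ∀ b : B, algebraMap B L b ∈ O1)
    (hred : ∀ b : B, b ∈ p ↔ res1 ⟨algebraMap B L b, hB b⟩ = 0) (y : L) :
    y ∈ H56.valuationSubringAt (K := L) p h1 ↔ y ∈ O1 := by
  rw [valuationSubringAt_eq_of_res O1 res1 inv_mem mem_or_inv_mem p h1 hB hred]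
  rfl

/-- **Two charts, one bare place**: the `hV` of `kummer_descent_pow_of_mult_fam`. -/
theorem valuationSubringAt_eq_of_common_res {B' : Type*} [CommRing B'] [IsDomain B']
    [Algebra B' L] [IsFractionRing B' L] [IsNoetherianRing B'] [IsIntegrallyClosed B']
    {Fk : Type*} [Field Fk] (O1 : Subring L) (res1 : O1 →+* Fk)
    (inv_mem : ∀ (y : L) (hy : y ∈ O1), res1 ⟨y, hy⟩ ≠ 0 → y⁻¹ ∈ O1)
    (mem_or_inv_mem : ∀ y : L, y ∈ O1 ∨ y⁻¹ ∈ O1)
    (p : Ideal B) [hp : p.IsPrime] (h1 : p.height = 1)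
    (hB : ∀ b : B, algebraMap B L b ∈ O1)
    (hred : ∀ b : B, b ∈ p ↔ res1 ⟨algebraMap B L b, hB b⟩ = 0)
    (p' : Ideal B') [hp' : p'.IsPrime] (h1' : p'.height = 1)
    (hB' : ∀ b : B', algebraMap B' L b ∈ O1)
    (hred' : ∀ b : B', b ∈ p' ↔ res1 ⟨algebraMap B' L b, hB' b⟩ = 0) :
    H56.valuationSubringAt (K := L) p h1 = H56.valuationSubringAt (K := L) p' h1' :=
  (valuationSubringAt_eq_of_res O1 res1 inv_mem mem_or_inv_mem p h1 hB hred).trans
    (valuationSubringAt_eq_of_res O1 res1 inv_mem mem_or_inv_mem p' h1' hB' hred').symm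

end Bridge

end Fermat.Agent.S36.H67
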