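/-
helper94: S36, row (E2-place), GENERIC layer (`CA.H99` places + `S36.H6.PlaceOverRam` + helper1's
`S36.H1` ramified-place lemmas).

A place `P` of a field `F2` over a subring `O` of a smaller field `F1`, where `O` acts on `F2`
through a ring hom `ι2 : F1 →+* F2` (`towerAlgebra ι2 O`, definitionally the instance
`(ι2.comp O.subtype).toAlgebra` used by the level-`q²L` places over the level-`qL` place rings).
We derive, in the exact binder shapes of `S36.H83.threeComponents_of_incl`, the place-side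
hypotheses `hconst*`, `hOic*`, `hker*`, `hτpow`, `hinvc`, `hr*` from the structure fields, for both
kinds of places (`CA.H99.PlaceOver`, `e = 1`, and `S36.H6.PlaceOverRam`, `e = n`).
-/
import Fermat.Agent.CA.H99_TwoPlacesThm
import Fermat.Agent.S36.H1_PlaceOverRamLemmas

set_option autoImplicit false
set_option linter.unusedSectionVars false
set_option linter.style.haveILetI false

noncomputable section

namespace Fermat.Agent.S36.H94

open Polynomial Fermat.Agent.CA.H99 Fermat.Agent.S36.H6 Fermat.Agent.S36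

/-! ### Places of `F2` over a subring of `F1`, along `ι2 : F1 →+* F2` -/

section Tower

variable {F1 F2 : Type*} [Field F1] [Field F2]

/-- the algebra structure of `F2` over a subring `O ⊆ F1` through `ι2 : F1 →+* F2`. -/
@[reducible] def towerAlgebra (ι2 : F1 →+* F2) (O : Subring F1) : Algebra O F2 :=
  (ι2.comp O.subtype).toAlgebra

theorem towerAlgebra_algebraMap (ι2 : F1 →+* F2) (O : Subring F1) (a : O) :
    @algebraMap O F2 _ _ (towerAlgebra ι2 O) a = ι2 (a : F1) := rfl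

variable {Fk : Type*} [Field Fk] (ι2 : F1 →+* F2) (O : Subring F1) [Algebra O F2]
  (halg : ∀ a : O, algebraMap O F2 a = ι2 (a : F1))
  {R0 : Type*} [CommRing R0] [Algebra R0 F1] [Algebra R0 F2]
  {k : Type*} [Field k] [Algebra k Fk] (π0 : R0 →+* k)

include halg in
/-- `algebraMap O F2 (m : O) = algebraMap R0 F2 (m : R0)` for a natural number `m`. -/
theorem tower_natCast (m : ℕ) :
    algebraMap O F2 ((m : ℕ) : O) = algebraMap R0 F2 ((m : ℕ) : R0) := by
  rw [halg, Subring.coe_natCast, map_natCast, map_natCast]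

section Unram

variable {ϖ : O} {θ : F2} {ι' : O →+* Fk} {θb : Fk}

include halg in
/-- **(hconst)** for a place over `O` along `ι2`, from the constants of the bottom place ring. -/
theorem tower_hconst (P : PlaceOver ϖ θ ι' θb)
    (hι2 : ∀ r : R0, ι2 (algebraMap R0 F1 r) = algebraMap R0 F2 r)
    (hc : ∀ r : R0, ∃ h : algebraMap R0 F1 r ∈ O, ι' ⟨_, h⟩ = algebraMap k Fk (π0 r)) :
    ∀ r : R0, ∃ h : algebraMap R0 F2 r ∈ P.O1, P.res1 ⟨_, h⟩ = algebraMap k Fk (π0 r) := by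
  intro r
  obtain ⟨h1, h2⟩ := hc r
  have e : algebraMap R0 F2 r = algebraMap O F2 ⟨algebraMap R0 F1 r, h1⟩ := by
    rw [halg]
    exact (hι2 r).symm
  have h : algebraMap R0 F2 r ∈ P.O1 := by
    rw [e]
    exact P.algebraMap_mem _
  refine ⟨h, ?_⟩
  have h3 : (⟨algebraMap R0 F2 r, h⟩ : P.O1) =
      ⟨algebraMap O F2 ⟨algebraMap R0 F1 r, h1⟩, P.algebraMap_mem _⟩ := Subtype.ext e
  rw [h3, P.res1_algebraMap, h2]

include halg in
/-- **(hker)** for an unramified place over `O` along `ι2` with uniformiser the natural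
number `m`. -/
theorem tower_hker {m : ℕ} (P : PlaceOver ((m : ℕ) : O) θ ι' θb) :
    ∀ (y : F2) (hy : y ∈ P.O1), P.res1 ⟨y, hy⟩ = 0 →
      ∃ z ∈ P.O1, y = algebraMap R0 F2 ((m : ℕ) : R0) * z := by
  intro y hy h0
  obtain ⟨z, hz, e⟩ := (P.res1_eq_zero_iff y hy).1 h0
  refine ⟨z, hz, ?_⟩
  rw [e, tower_natCast ι2 O halg (R0 := R0) m]

/-- **(hOic)** for a place over `O` along `ι2`. -/
theorem tower_hOic (P : PlaceOver ϖ θ ι' θb) : ∀ y : F2, IsIntegral P.O1 y → y ∈ P.O1 := by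
  intro y hy
  exact mem_valuationSubring_of_isIntegral P.toValuationSubring (fun a => a.2) hy

/-- **(hr)** the residues of a place lie in the range of `incl` as soon as `ι'` and `θb` do. -/
theorem tower_hr {Fk' : Type*} [Field Fk'] [Algebra k Fk'] (incl : Fk' →ₐ[k] Fk)
    (P : PlaceOver ϖ θ ι' θb)
    (hι' : ∀ a : O, ι' a ∈ incl.fieldRange) (hθb : θb ∈ incl.fieldRange) (y : P.O1) :
    P.res1 y ∈ incl.fieldRange := by
  obtain ⟨a, s, hs, hys⟩ := P.exists_repr y.1 y.2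
  have hev : ∀ p : O[X], p.eval₂ ι' θb ∈ incl.fieldRange := by
    intro p
    rw [eval₂_eq_sum_range]
    exact sum_mem fun i _ => mul_mem (hι' _) (pow_mem hθb i)
  have h1 : (⟨y.1, y.2⟩ : P.O1) * ⟨aeval θ s, P.aeval_mem s⟩ = ⟨aeval θ a, P.aeval_mem a⟩ :=
    Subtype.ext hys
  have h2 := congrArg P.res1 h1
  rw [map_mul, P.res1_aeval, P.res1_aeval] at h2
  have h3 : P.res1 y = a.eval₂ ι' θb / s.eval₂ ι' θb := by
    rw [eq_div_iff hs]
    exact h2
  rw [h3]
  exact div_mem (hev a) (hev s)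

end Unram

section Ram

variable {ϖ : O} {θ τ : F2} {n : ℕ} {ι' : O →+* Fk} {θb : Fk}

include halg in
/-- **(hconst)** for a ramified place over `O` along `ι2`. -/
theorem tower_hconst_ram (P : PlaceOverRam ϖ θ τ n ι' θb)
    (hι2 : ∀ r : R0, ι2 (algebraMap R0 F1 r) = algebraMap R0 F2 r)
    (hc : ∀ r : R0, ∃ h : algebraMap R0 F1 r ∈ O, ι' ⟨_, h⟩ = algebraMap k Fk (π0 r)) :
    ∀ r : R0, ∃ h : algebraMap R0 F2 r ∈ P.O1, P.res1 ⟨_, h⟩ = algebraMap k Fk (π0 r) := by
  intro r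
  obtain ⟨h1, h2⟩ := hc r
  have e : algebraMap R0 F2 r = algebraMap O F2 ⟨algebraMap R0 F1 r, h1⟩ := by
    rw [halg]
    exact (hι2 r).symm
  have h : algebraMap R0 F2 r ∈ P.O1 := by
    rw [e]
    exact P.algebraMap_mem _
  refine ⟨h, ?_⟩
  have h3 : (⟨algebraMap R0 F2 r, h⟩ : P.O1) =
      ⟨algebraMap O F2 ⟨algebraMap R0 F1 r, h1⟩, P.algebraMap_mem _⟩ := Subtype.ext e
  rw [h3, P.res1_algebraMap, h2]

/-- **(hkerc)** the kernel of the reduction of a ramified place is `τ · O1`. -/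
theorem tower_hker_ram (P : PlaceOverRam ϖ θ τ n ι' θb) :
    ∀ (y : F2) (hy : y ∈ P.O1), P.res1 ⟨y, hy⟩ = 0 → ∃ z ∈ P.O1, y = τ * z :=
  fun y hy h0 => (P.res1_eq_zero_iff y hy).1 h0

include halg in
/-- **(hτpow)** `τ ^ n = m * v` with `v ∈ P.O1`, for a ramified place over `O` along `ι2` whose
base uniformiser is the natural number `m`. -/
theorem tower_hτpow_ram {m : ℕ} (P : PlaceOverRam ((m : ℕ) : O) θ τ n ι' θb)
    (hm : algebraMap R0 F2 ((m : ℕ) : R0) ≠ 0) :
    ∃ v ∈ P.O1, τ ^ n = algebraMap R0 F2 ((m : ℕ) : R0) * v := by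
  have hm' : algebraMap O F2 ((m : ℕ) : O) ≠ 0 := by
    rw [tower_natCast ι2 O halg (R0 := R0) m]
    exact hm
  obtain ⟨v, hv, e⟩ := H1.PlaceOverRam.hτpow P hm'
  refine ⟨v, hv, ?_⟩
  rw [e, tower_natCast ι2 O halg (R0 := R0) m]

/-- **(hinvc)** elements with non-zero residue are invertible. -/
theorem tower_hinv_ram (P : PlaceOverRam ϖ θ τ n ι' θb) :
    ∀ (y : F2) (hy : y ∈ P.O1), P.res1 ⟨y, hy⟩ ≠ 0 → y⁻¹ ∈ P.O1 :=
  P.inv_mem

/-- **(hr)** for a ramified place over `O` along `ι2`. -/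
theorem tower_hr_ram {Fk' : Type*} [Field Fk'] [Algebra k Fk'] (incl : Fk' →ₐ[k] Fk)
    (P : PlaceOverRam ϖ θ τ n ι' θb)
    (hι' : ∀ a : O, ι' a ∈ incl.fieldRange) (hθb : θb ∈ incl.fieldRange) (y : P.O1) :
    P.res1 y ∈ incl.fieldRange :=
  H1.PlaceOverRam.res1_mem_fieldRange P incl hι' hθb y

end Ram

end Tower

end Fermat.Agent.S36.H94
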