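/-
helper94: S36, row (E2-place): the PLACE-SIDE hypotheses of `S36.H83.threeComponents_of_incl`
at the real types (twin of the "Wrap" section of `S34/H55_L0Base`).

Levels `L` (`q ∤ L`), `q L`, `q (q L)`; `F1 = FullC L₁ (q L)`, `F2 = FullC L₁ (q (q L))`,
`ι2 = S34.H55.iotaMN (q L) : F1 →+* F2`.  A bottom place `Pb` of `F1` (any `S34.H55.PlaceGen`,
in particular `PlaceInf` / `PlaceZero`), its ring `PO1 Pb ⊆ F1` acting on `F2` through `ι2`
(`towerAlgebra`, definitionally `(ι2.comp (PO1 Pb).subtype).toAlgebra`), and a top place of `F2`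
over `PO1 Pb` with uniformiser `q` below: either `CA.H99.PlaceOver` (`e = 1`) or
`S36.H6.PlaceOverRam` (`e = n`).  All statements are in the exact binder shapes of
`hr* hconst* hOic* hker* hkerc hτpow hinvc hπϖ hϖ0` of `threeComponents_of_incl` with
`R0 = A₁ = H45.A0 A q`, `k = kA`, `κ = kA((t))`, `π0 = H45.resA0 A q`, `ϖ = (q : A₁)`,
`incl = S34.H55.inclk L A`.
-/
import Fermat.Agent.S34.H55_L0Base
import Fermat.Agent.S36.H94_PlaceTower

set_option autoImplicit false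
set_option linter.unusedSectionVars false
set_option linter.style.haveILetI false
set_option synthInstance.maxHeartbeats 400000

noncomputable section

namespace Fermat.Agent.S36.H94

open ModularCurve Polynomial IsLocalRing
open Fermat.Agent.S18 Fermat.Agent.S34.H92 Fermat.Agent.S34.H16 Fermat.Agent.S34.H55
open Fermat.Agent.S36

local notation "Qbar" => AlgebraicClosure ℚ

section Three

variable (L : ℕ) [NeZero L] {q : ℕ} [hq : Fact q.Prime] (hqL : ¬ q ∣ L)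
  (A : ValuationSubring Qbar) (hA : A.LiesOverPrime q)

local notation "kA" => IsLocalRing.ResidueField A
local notation "A₁" => H45.A0 A q
local notation "L₁" => H45.unrCyclo q
local notation "F1" => modularFunctionFieldFullC (H45.unrCyclo q) (q * L)
local notation "F2" => modularFunctionFieldFullC (H45.unrCyclo q) (q * (q * L))
local notation "FkL" => modularFunctionFieldFullC (IsLocalRing.ResidueField A) L

/-- the level inclusion `F_{qL} ⊆ F_{q²L}`. -/
abbrev iota2 : F1 →+* F2 := S34.H55.iotaMN (q * L) (ℓ := q)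

/-! ### The two scalar facts -/

include hA in
/-- **(hπϖ)** -/
theorem hπϖ : H45.resA0 A q (((q : ℕ) : A₁)) = 0 :=
  H45.resA0_natCast_eq_zero hq.out hA

/-- **(hϖ0)** -/
theorem hϖ0 : algebraMap A₁ F2 (((q : ℕ) : A₁)) ≠ 0 := by
  rw [map_natCast]
  have h0 : ((q : ℕ) : L₁) ≠ 0 := Nat.cast_ne_zero.2 hq.out.ne_zero
  intro h
  apply h0
  have h1 : algebraMap L₁ F2 ((q : ℕ) : L₁) = 0 := by rw [map_natCast]; exact h
  exact (map_eq_zero (algebraMap L₁ F2)).1 h1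

/-! ### Membership of the reduction data in `Fk(L)` -/

include hA in
/-- `qExpand` (substitution `t ↦ t ^ q`) preserves `Fk(L) ⊆ kA((t))`. -/
theorem qExpand_mem_fieldRange {x : LaurentSeries kA} (hx : x ∈ (inclk L A).fieldRange) :
    qExpand kA q x ∈ (inclk L A).fieldRange := by
  rw [mem_fieldRange_inclk] at hx ⊢
  exact (FrM L A hA ⟨x, hx⟩).2

/-- the reduction map of the level-`L` Gauss ring has values in `Fk(L)`. -/
theorem resM_mem_fieldRange (a : ↥(VM L hqL A hA)) :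
    resM L hqL A hA a ∈ (inclk L A).fieldRange :=
  (mem_fieldRange_inclk L A).2 (resM_mem L hqL A hA a)

/-! ### A top place over the ring of a bottom place -/

section Top

variable {ι1 : ↥(VM L hqL A hA) →+* LaurentSeries (IsLocalRing.ResidueField A)}
  {θb1 : LaurentSeries (IsLocalRing.ResidueField A)} (Pb : PlaceGen L hqL A hA ι1 θb1)

/-- the ring of the bottom place acts on `F2` through `ι2` (a `def`, installed locally). -/
@[reducible] def algBot : Algebra ↥(PO1 L hqL A hA Pb) F2 :=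
  towerAlgebra (iota2 L (q := q)) (PO1 L hqL A hA Pb)

attribute [local instance] algBot

theorem algBot_algebraMap (a : ↥(PO1 L hqL A hA Pb)) :
    @algebraMap ↥(PO1 L hqL A hA Pb) F2 _ _ (algBot L hqL A hA Pb) a =
      iota2 L (q := q) (a : F1) := rfl

/-- `ι2` fixes the constants. -/
theorem iota2_algebraMap (r : A₁) : iota2 L (q := q) (algebraMap A₁ F1 r) = algebraMap A₁ F2 r :=
  S34.H55.iotaMN_algebraMap (q * L) A r

/-- the residues of the bottom place lie in `Fk(L)` as soon as its data do. -/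
theorem bot_mem_fieldRange (hι1 : ∀ a : ↥(VM L hqL A hA), ι1 a ∈ (inclk L A).fieldRange)
    (hθb1 : θb1 ∈ (inclk L A).fieldRange) (y : ↥(PO1 L hqL A hA Pb)) :
    Pres1 L hqL A hA Pb y ∈ (inclk L A).fieldRange :=
  (mem_fieldRange_inclk L A).2 (Pres1_mem L hqL A hA Pb
    (fun a => (mem_fieldRange_inclk L A).1 (hι1 a)) ((mem_fieldRange_inclk L A).1 hθb1) y)

section Unram

variable {θ : ↥(modularFunctionFieldFullC (H45.unrCyclo q) (q * (q * L)))}
  {ι' : ↥(PO1 L hqL A hA Pb) →+* LaurentSeries (IsLocalRing.ResidueField A)}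
  {θb : LaurentSeries (IsLocalRing.ResidueField A)}
  (P : @CA.H99.PlaceOver ↥(PO1 L hqL A hA Pb) _
    ↥(modularFunctionFieldFullC (H45.unrCyclo q) (q * (q * L))) _
    (algBot L hqL A hA Pb) (LaurentSeries (IsLocalRing.ResidueField A)) _
    (((q : ℕ) : ↥(PO1 L hqL A hA Pb))) θ ι' θb)

/-- **(hr)** for an unramified top place. -/
theorem top_hr (hι' : ∀ a : ↥(PO1 L hqL A hA Pb), ι' a ∈ (inclk L A).fieldRange) (hθb : θb ∈ (inclk L A).fieldRange) :
    ∀ y : P.O1, P.res1 y ∈ (inclk L A).fieldRange := by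
  exact tower_hr (PO1 L hqL A hA Pb) (inclk L A) P hι' hθb

/-- **(hconst)** for an unramified top place. -/
theorem top_hconst
    (hc : ∀ r : A₁, ∃ h : algebraMap A₁ F1 r ∈ PO1 L hqL A hA Pb,
      ι' ⟨_, h⟩ = algebraMap kA (LaurentSeries kA) (H45.resA0 A q r)) :
    ∀ r : A₁, ∃ h : algebraMap A₁ F2 r ∈ P.O1,
      P.res1 ⟨_, h⟩ = algebraMap kA (LaurentSeries kA) (H45.resA0 A q r) := by
  exact tower_hconst (iota2 L (q := q)) (PO1 L hqL A hA Pb) (fun _ => rfl) (H45.resA0 A q) P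
    (iota2_algebraMap L A) hc

/-- **(hOic)** for an unramified top place. -/
theorem top_hOic : ∀ y : F2, IsIntegral P.O1 y → y ∈ P.O1 := by
  exact tower_hOic (PO1 L hqL A hA Pb) P

/-- **(hker)** for an unramified top place. -/
theorem top_hker : ∀ (y : F2) (hy : y ∈ P.O1), P.res1 ⟨y, hy⟩ = 0 →
    ∃ z ∈ P.O1, y = algebraMap A₁ F2 (((q : ℕ) : A₁)) * z := by
  exact tower_hker (iota2 L (q := q)) (PO1 L hqL A hA Pb) (fun _ => rfl) P

end Unram

section Ram

variable {θ τ : ↥(modularFunctionFieldFullC (H45.unrCyclo q) (q * (q * L)))} {n : ℕ}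
  {ι' : ↥(PO1 L hqL A hA Pb) →+* LaurentSeries (IsLocalRing.ResidueField A)}
  {θb : LaurentSeries (IsLocalRing.ResidueField A)}
  (P : @H6.PlaceOverRam ↥(PO1 L hqL A hA Pb) _
    ↥(modularFunctionFieldFullC (H45.unrCyclo q) (q * (q * L))) _
    (algBot L hqL A hA Pb) (LaurentSeries (IsLocalRing.ResidueField A)) _
    (((q : ℕ) : ↥(PO1 L hqL A hA Pb))) θ τ n ι' θb)

/-- **(hrc)** for a ramified top place. -/
theorem top_hr_ram (hι' : ∀ a : ↥(PO1 L hqL A hA Pb), ι' a ∈ (inclk L A).fieldRange)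
    (hθb : θb ∈ (inclk L A).fieldRange) : ∀ y : P.O1, P.res1 y ∈ (inclk L A).fieldRange := by
  exact tower_hr_ram (PO1 L hqL A hA Pb) (inclk L A) P hι' hθb

/-- **(hconstc)** for a ramified top place. -/
theorem top_hconst_ram
    (hc : ∀ r : A₁, ∃ h : algebraMap A₁ F1 r ∈ PO1 L hqL A hA Pb,
      ι' ⟨_, h⟩ = algebraMap kA (LaurentSeries kA) (H45.resA0 A q r)) :
    ∀ r : A₁, ∃ h : algebraMap A₁ F2 r ∈ P.O1,
      P.res1 ⟨_, h⟩ = algebraMap kA (LaurentSeries kA) (H45.resA0 A q r) := by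
  exact tower_hconst_ram (iota2 L (q := q)) (PO1 L hqL A hA Pb) (fun _ => rfl) (H45.resA0 A q) P
    (iota2_algebraMap L A) hc

/-- **(hOicc)** for a ramified top place. -/
theorem top_hOic_ram : ∀ y : F2, IsIntegral P.O1 y → y ∈ P.O1 := by
  exact H1.PlaceOverRam.hOic P

/-- **(hkerc)** for a ramified top place. -/
theorem top_hker_ram : ∀ (y : F2) (hy : y ∈ P.O1), P.res1 ⟨y, hy⟩ = 0 →
    ∃ z ∈ P.O1, y = τ * z := by
  exact tower_hker_ram (PO1 L hqL A hA Pb) P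

/-- **(hτpow)** for a ramified top place (`n = q - 1` in the application). -/
theorem top_hτpow_ram : ∃ v ∈ P.O1, τ ^ n = algebraMap A₁ F2 (((q : ℕ) : A₁)) * v := by
  exact tower_hτpow_ram (iota2 L (q := q)) (PO1 L hqL A hA Pb) (fun _ => rfl) P (hϖ0 L A)

/-- **(hinvc)** for a ramified top place. -/
theorem top_hinv_ram : ∀ (y : F2) (hy : y ∈ P.O1), P.res1 ⟨y, hy⟩ ≠ 0 → y⁻¹ ∈ P.O1 := by
  exact tower_hinv_ram (PO1 L hqL A hA Pb) P

end Ram

end Top

/-! ### The three places of `F2` (helper55's `PB`, `PC`, `PA`): data over `Pi` and over `P0`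

`PB : PlaceOver (q : PO1 Pi) θ₂ (Pres1 Pi) θbB`, `PC : PlaceOverRam (q : PO1 Pi) θ₂ τ (q-1)
(Pres1 Pi) θbC`, `PA : PlaceOver (q : PO1 P0) θ₂ ((qExpand kA q).comp (Pres1 P0)) θbA`; the
lemmas below are stated for an arbitrary generator `θ` and an arbitrary value `θb ∈ Fk(L)`. -/

section Concrete

variable (Pi : PlaceInf L hqL A hA) (P0 : PlaceZero L hqL A hA)

attribute [local instance] algBot

/-- the reduction datum of the places over `P0`: `t ↦ t ^ q` after the reduction of `P0`. -/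
abbrev iotaA : ↥(PO1 L hqL A hA P0) →+* LaurentSeries (IsLocalRing.ResidueField A) :=
  (qExpand (IsLocalRing.ResidueField A) q).comp (Pres1 L hqL A hA P0)

/-- `Pres1 Pi` has values in `Fk(L)`. -/
theorem Pres1_Pi_mem (a : ↥(PO1 L hqL A hA Pi)) :
    Pres1 L hqL A hA Pi a ∈ (inclk L A).fieldRange := hri L hqL A hA Pi a

/-- `iotaA` has values in `Fk(L)`. -/
theorem iotaA_mem (a : ↥(PO1 L hqL A hA P0)) :
    iotaA L hqL A hA P0 a ∈ (inclk L A).fieldRange :=
  qExpand_mem_fieldRange L A hA (hr0 L hqL A hA P0 a)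

/-- `iotaA` on the constants. -/
theorem iotaA_const (r : A₁) : ∃ h : algebraMap A₁ F1 r ∈ PO1 L hqL A hA P0,
    iotaA L hqL A hA P0 ⟨_, h⟩ = algebraMap kA (LaurentSeries kA) (H45.resA0 A q r) := by
  obtain ⟨h, hh⟩ := hconst0 L hqL A hA P0 r
  refine ⟨h, ?_⟩
  rw [iotaA, RingHom.comp_apply, hh, algebraMap_laurent_eq_C, qExpand_C]

/-- the candidate values `θb` of the three places lie in `Fk(L)`. -/
theorem thbB_mem : (resM L hqL A hA (jMV L hqL A hA) ^ q) ^ q ∈ (inclk L A).fieldRange :=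
  pow_mem (pow_mem (resM_mem_fieldRange L hqL A hA _) q) q

theorem thbA_mem : resM L hqL A hA (jMV L hqL A hA) ∈ (inclk L A).fieldRange :=
  resM_mem_fieldRange L hqL A hA _

section OverPi

variable {θ : ↥(modularFunctionFieldFullC (H45.unrCyclo q) (q * (q * L)))} {θb : LaurentSeries (IsLocalRing.ResidueField A)}
  (PB : @CA.H99.PlaceOver ↥(PO1 L hqL A hA Pi) _
    ↥(modularFunctionFieldFullC (H45.unrCyclo q) (q * (q * L))) _
    (algBot L hqL A hA Pi) (LaurentSeries (IsLocalRing.ResidueField A)) _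
    (((q : ℕ) : ↥(PO1 L hqL A hA Pi))) θ (Pres1 L hqL A hA Pi) θb)

/-- **(hra)** for `PB`. -/
theorem hr_PB (hθb : θb ∈ (inclk L A).fieldRange) :
    ∀ y : PB.O1, PB.res1 y ∈ (inclk L A).fieldRange :=
  top_hr L hqL A hA Pi PB (Pres1_Pi_mem L hqL A hA Pi) hθb

/-- **(hconsta)** for `PB`. -/
theorem hconst_PB : ∀ r : A₁, ∃ h : algebraMap A₁ F2 r ∈ PB.O1,
    PB.res1 ⟨_, h⟩ = algebraMap kA (LaurentSeries kA) (H45.resA0 A q r) :=
  top_hconst L hqL A hA Pi PB (hconsti L hqL A hA Pi)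

/-- **(hOica)** for `PB`. -/
theorem hOic_PB : ∀ y : F2, IsIntegral PB.O1 y → y ∈ PB.O1 := top_hOic L hqL A hA Pi PB

/-- **(hkera)** for `PB`. -/
theorem hker_PB : ∀ (y : F2) (hy : y ∈ PB.O1), PB.res1 ⟨y, hy⟩ = 0 →
    ∃ z ∈ PB.O1, y = algebraMap A₁ F2 (((q : ℕ) : A₁)) * z := top_hker L hqL A hA Pi PB

variable {τ : ↥(modularFunctionFieldFullC (H45.unrCyclo q) (q * (q * L)))} {n : ℕ}
  {θbC : LaurentSeries (IsLocalRing.ResidueField A)}
  (PC : @H6.PlaceOverRam ↥(PO1 L hqL A hA Pi) _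
    ↥(modularFunctionFieldFullC (H45.unrCyclo q) (q * (q * L))) _
    (algBot L hqL A hA Pi) (LaurentSeries (IsLocalRing.ResidueField A)) _
    (((q : ℕ) : ↥(PO1 L hqL A hA Pi))) θ τ n (Pres1 L hqL A hA Pi) θbC)

/-- **(hrc)** for `PC`. -/
theorem hr_PC (hθb : θbC ∈ (inclk L A).fieldRange) :
    ∀ y : PC.O1, PC.res1 y ∈ (inclk L A).fieldRange :=
  top_hr_ram L hqL A hA Pi PC (Pres1_Pi_mem L hqL A hA Pi) hθb

/-- **(hrc)** for `PC` when `θbC = Pres1 Pi w` (helper55's pin). -/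
theorem hr_PC' (w : ↥(PO1 L hqL A hA Pi))
    (PC' : @H6.PlaceOverRam ↥(PO1 L hqL A hA Pi) _
      ↥(modularFunctionFieldFullC (H45.unrCyclo q) (q * (q * L))) _
      (algBot L hqL A hA Pi) (LaurentSeries (IsLocalRing.ResidueField A)) _
      (((q : ℕ) : ↥(PO1 L hqL A hA Pi))) θ τ n (Pres1 L hqL A hA Pi) (Pres1 L hqL A hA Pi w)) :
    ∀ y : PC'.O1, PC'.res1 y ∈ (inclk L A).fieldRange :=
  top_hr_ram L hqL A hA Pi PC' (Pres1_Pi_mem L hqL A hA Pi) (Pres1_Pi_mem L hqL A hA Pi w)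

/-- **(hconstc)** for `PC`. -/
theorem hconst_PC : ∀ r : A₁, ∃ h : algebraMap A₁ F2 r ∈ PC.O1,
    PC.res1 ⟨_, h⟩ = algebraMap kA (LaurentSeries kA) (H45.resA0 A q r) :=
  top_hconst_ram L hqL A hA Pi PC (hconsti L hqL A hA Pi)

/-- **(hOicc)** for `PC`. -/
theorem hOic_PC : ∀ y : F2, IsIntegral PC.O1 y → y ∈ PC.O1 := top_hOic_ram L hqL A hA Pi PC

/-- **(hkerc)** for `PC`. -/
theorem hker_PC : ∀ (y : F2) (hy : y ∈ PC.O1), PC.res1 ⟨y, hy⟩ = 0 → ∃ z ∈ PC.O1, y = τ * z :=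
  top_hker_ram L hqL A hA Pi PC

/-- **(hτpow)** for `PC` (with `n = q - 1`). -/
theorem hτpow_PC : ∃ v ∈ PC.O1, τ ^ n = algebraMap A₁ F2 (((q : ℕ) : A₁)) * v :=
  top_hτpow_ram L hqL A hA Pi PC

/-- **(hinvc)** for `PC`. -/
theorem hinv_PC : ∀ (y : F2) (hy : y ∈ PC.O1), PC.res1 ⟨y, hy⟩ ≠ 0 → y⁻¹ ∈ PC.O1 :=
  top_hinv_ram L hqL A hA Pi PC

end OverPi

section OverP0

variable {θ : ↥(modularFunctionFieldFullC (H45.unrCyclo q) (q * (q * L)))} {θb : LaurentSeries (IsLocalRing.ResidueField A)}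
  (PA : @CA.H99.PlaceOver ↥(PO1 L hqL A hA P0) _
    ↥(modularFunctionFieldFullC (H45.unrCyclo q) (q * (q * L))) _
    (algBot L hqL A hA P0) (LaurentSeries (IsLocalRing.ResidueField A)) _
    (((q : ℕ) : ↥(PO1 L hqL A hA P0))) θ (iotaA L hqL A hA P0) θb)

/-- **(hrb)** for `PA`. -/
theorem hr_PA (hθb : θb ∈ (inclk L A).fieldRange) :
    ∀ y : PA.O1, PA.res1 y ∈ (inclk L A).fieldRange :=
  top_hr L hqL A hA P0 PA (iotaA_mem L hqL A hA P0) hθb

/-- **(hconstb)** for `PA`. -/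
theorem hconst_PA : ∀ r : A₁, ∃ h : algebraMap A₁ F2 r ∈ PA.O1,
    PA.res1 ⟨_, h⟩ = algebraMap kA (LaurentSeries kA) (H45.resA0 A q r) :=
  top_hconst L hqL A hA P0 PA (iotaA_const L hqL A hA P0)

/-- **(hOicb)** for `PA`. -/
theorem hOic_PA : ∀ y : F2, IsIntegral PA.O1 y → y ∈ PA.O1 := top_hOic L hqL A hA P0 PA

/-- **(hkerb)** for `PA`. -/
theorem hker_PA : ∀ (y : F2) (hy : y ∈ PA.O1), PA.res1 ⟨y, hy⟩ = 0 →
    ∃ z ∈ PA.O1, y = algebraMap A₁ F2 (((q : ℕ) : A₁)) * z := top_hker L hqL A hA P0 PA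

end OverP0

end Concrete

end Three

end Fermat.Agent.S36.H94
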