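/-
helper94: S36, row (E2-place), FINAL FORM: the place-side hypotheses of
`S36.H83.threeComponents_of_incl` for helper55's three places `PlaceB` (`(Oa, reda)`, the
`(F,F)` place), `PlaceC` (`(Oc, redc)`, the middle place, `τ = θ₂ - w`) and `PlaceA`
(`(Ob, redb)`, the `(V,V)` place) of `S36/H55_L0ThreeBase`, in the vocabulary
`QO1 / Qres1 / RO1 / Rres1` of that file and in the exact binder shapes of the glue:

`hra hrc hrb`, `hconsta hconstc hconstb`, `hOica hOicc hOicb`, `hkera hkerb`,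
`hkerc` + `hτpow` + `hinvc` (with `τ = tauC`), and (from `H94_L0ThreeWrap`) `hπϖ`, `hϖ0`,
with `R0 = A₁ = H45.A0 A q`, `k = kA`, `κ = kA((t))`, `π0 = H45.resA0 A q`, `ϖ = (q : A₁)`,
`incl = S34.H55.inclk L A`.
-/
import Fermat.Agent.S36.H55_L0ThreeBase
import Fermat.Agent.S36.H94_L0ThreeWrap

set_option autoImplicit false
set_option linter.unusedSectionVars false
set_option linter.style.haveILetI false
set_option synthInstance.maxHeartbeats 400000

noncomputable section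

namespace Fermat.Agent.S36.H94

open ModularCurve Polynomial IsLocalRing
open Fermat.Agent.S18 Fermat.Agent.S34.H92 Fermat.Agent.S34.H16 Fermat.Agent.S34.H55
open Fermat.Agent.S36

local notation "Qbar" => AlgebraicClosure ℚ

section PlaceSide

variable (L : ℕ) [NeZero L] {q : ℕ} [hq : Fact q.Prime] (hqL : ¬ q ∣ L)
  (A : ValuationSubring Qbar) (hA : A.LiesOverPrime q)

local notation "kA" => IsLocalRing.ResidueField A
local notation "A₁" => H45.A0 A q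
local notation "F2" => modularFunctionFieldFullC (H45.unrCyclo q) (q * (q * L))

variable (Pi : PlaceInf L hqL A hA) (P0 : PlaceZero L hqL A hA)

/-- the uniformiser `τ = θ₂ - w` of the middle place `C` (as in the type `S36.H55.PlaceC`). -/
abbrev tauC : ↥(modularFunctionFieldFullC (H45.unrCyclo q) (q * (q * L))) :=
  S36.H55.theta2 L (q := q) -
    @algebraMap ↥(PO1 L hqL A hA Pi) ↥(modularFunctionFieldFullC (H45.unrCyclo q) (q * (q * L)))
      _ _ (S36.H55.algPO1F2 L hqL A hA Pi) (S36.H55.wO L hqL A hA Pi)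

/-! ### The `(F,F)` place `B = (Oa, reda)` -/

section B

variable (PB : S36.H55.PlaceB L hqL A hA Pi)

theorem hra : ∀ y : S36.H55.QO1 L hqL A hA PB,
    S36.H55.Qres1 L hqL A hA PB y ∈ (inclk L A).fieldRange :=
  hr_PB L hqL A hA Pi PB (thbB_mem L hqL A hA)

theorem hconsta : ∀ r : A₁, ∃ h : algebraMap A₁ F2 r ∈ S36.H55.QO1 L hqL A hA PB,
    S36.H55.Qres1 L hqL A hA PB ⟨_, h⟩ =
      algebraMap kA (LaurentSeries kA) (H45.resA0 A q r) :=
  hconst_PB L hqL A hA Pi PB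

theorem hOica : ∀ y : F2, IsIntegral (S36.H55.QO1 L hqL A hA PB) y →
    y ∈ S36.H55.QO1 L hqL A hA PB :=
  hOic_PB L hqL A hA Pi PB

theorem hkera : ∀ (y : F2) (hy : y ∈ S36.H55.QO1 L hqL A hA PB),
    S36.H55.Qres1 L hqL A hA PB ⟨y, hy⟩ = 0 →
      ∃ z ∈ S36.H55.QO1 L hqL A hA PB, y = algebraMap A₁ F2 (((q : ℕ) : A₁)) * z :=
  hker_PB L hqL A hA Pi PB

end B

/-! ### The middle place `C = (Oc, redc)`, `τ = tauC` -/

section C

variable (PC : S36.H55.PlaceC L hqL A hA Pi)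

theorem hrc : ∀ y : S36.H55.RO1 L hqL A hA PC,
    S36.H55.Rres1 L hqL A hA PC y ∈ (inclk L A).fieldRange :=
  hr_PC L hqL A hA Pi PC (Pres1_Pi_mem L hqL A hA Pi _)

theorem hconstc : ∀ r : A₁, ∃ h : algebraMap A₁ F2 r ∈ S36.H55.RO1 L hqL A hA PC,
    S36.H55.Rres1 L hqL A hA PC ⟨_, h⟩ =
      algebraMap kA (LaurentSeries kA) (H45.resA0 A q r) :=
  hconst_PC L hqL A hA Pi PC

theorem hOicc : ∀ y : F2, IsIntegral (S36.H55.RO1 L hqL A hA PC) y →
    y ∈ S36.H55.RO1 L hqL A hA PC :=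
  hOic_PC L hqL A hA Pi PC

theorem hkerc : ∀ (y : F2) (hy : y ∈ S36.H55.RO1 L hqL A hA PC),
    S36.H55.Rres1 L hqL A hA PC ⟨y, hy⟩ = 0 →
      ∃ z ∈ S36.H55.RO1 L hqL A hA PC, y = tauC L hqL A hA Pi * z :=
  hker_PC L hqL A hA Pi PC

theorem hτpow : ∃ v ∈ S36.H55.RO1 L hqL A hA PC,
    tauC L hqL A hA Pi ^ (q - 1) = algebraMap A₁ F2 (((q : ℕ) : A₁)) * v :=
  hτpow_PC L hqL A hA Pi PC

theorem hinvc : ∀ (y : F2) (hy : y ∈ S36.H55.RO1 L hqL A hA PC),
    S36.H55.Rres1 L hqL A hA PC ⟨y, hy⟩ ≠ 0 → y⁻¹ ∈ S36.H55.RO1 L hqL A hA PC :=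
  hinv_PC L hqL A hA Pi PC

end C

/-! ### The `(V,V)` place `A = (Ob, redb)` -/

section A

variable (PA : S36.H55.PlaceA L hqL A hA P0)

theorem hrb : ∀ y : S36.H55.QO1 L hqL A hA PA,
    S36.H55.Qres1 L hqL A hA PA y ∈ (inclk L A).fieldRange :=
  hr_PA L hqL A hA P0 PA (thbA_mem L hqL A hA)

theorem hconstb : ∀ r : A₁, ∃ h : algebraMap A₁ F2 r ∈ S36.H55.QO1 L hqL A hA PA,
    S36.H55.Qres1 L hqL A hA PA ⟨_, h⟩ =
      algebraMap kA (LaurentSeries kA) (H45.resA0 A q r) :=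
  hconst_PA L hqL A hA P0 PA

theorem hOicb : ∀ y : F2, IsIntegral (S36.H55.QO1 L hqL A hA PA) y →
    y ∈ S36.H55.QO1 L hqL A hA PA :=
  hOic_PA L hqL A hA P0 PA

theorem hkerb : ∀ (y : F2) (hy : y ∈ S36.H55.QO1 L hqL A hA PA),
    S36.H55.Qres1 L hqL A hA PA ⟨y, hy⟩ = 0 →
      ∃ z ∈ S36.H55.QO1 L hqL A hA PA, y = algebraMap A₁ F2 (((q : ℕ) : A₁)) * z :=
  hker_PA L hqL A hA P0 PA

end A

end PlaceSide

end Fermat.Agent.S36.H94
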