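import Mathlib
import Fermat.Agent.S36.H67_ValBridge
import Fermat.Agent.S36.H94_L0ThreePlaceSide
import Fermat.Agent.S36.H16_TowerValAlpha
import Fermat.Agent.S36.H16_TowerValBeta

/-!
S36 / (E5) → (E6), row (r3), THE SEAM (helper16): **the `L₁`-level tower data `TowerValU` of `α` and
`β` for the valuation subrings `H56.valuationSubringAt (ker red)` of the CHART reductions** (the
`VL i`, `WFL`, `WVL` of helper46's `S36.H46.HVa_of_baseChangeE / HVb_of_baseChangeE`).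

* `chartB_le_of_place` : a chart `chartB R J` lies in every valuation ring containing the constants
  and the coordinate `J`;
* `toSubring_valuationSubringAt_ker_eq_of_place` : if the reduction `red : chartB R J →+* D` is
  induced by a bare place `(O1, res)` (`c (red b) = res b`, `c` injective) and `ker red` has height
  one, then `(valuationSubringAt (ker red)).toSubring = O1` (helper67's bridge);
* **`towerValU_alpha_charts`, `towerValU_beta_charts`** : for ANY chart coordinates `J₂ ∈ F₂`,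
  `J₁ ∈ F₁` lying in the place rings and ANY reductions `red₁ red₂ red₃` of `chartB A₁ J₂`,
  `red₁' red₂'` of `chartB A₁ J₁` induced by `PB PC PA`, `Pi P0` with kernels of height one.
-/

set_option autoImplicit false
set_option linter.unusedSectionVars false
set_option linter.style.haveILetI false
set_option synthInstance.maxHeartbeats 400000

noncomputable section

namespace Fermat.Agent.S36.H16

open ModularCurve Polynomial IsLocalRing Fermat.Agent.S28
open Fermat.Agent.S18 Fermat.Agent.S34.H92 Fermat.Agent.S34.H16 Fermat.Agent.S34.H55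
open Fermat.Agent.S35.H46 Fermat.Agent.S36.H46

local notation "Qbar" => AlgebraicClosure ℚ

section GenSeam

variable {R F κ : Type*} [CommRing R] [Field F] [Algebra R F] [Field κ]

/-- a subring `O1` of a field with `y ∈ O1 ∨ y⁻¹ ∈ O1` is integrally closed in it. -/
theorem mem_of_isIntegral_of_mem_or_inv_mem (O1 : Subring F)
    (hmi : ∀ y : F, y ∈ O1 ∨ y⁻¹ ∈ O1) {y : F} (hy : IsIntegral O1 y) : y ∈ O1 := by
  let W : ValuationSubring F := S36.H67.valuationSubringOfPlace O1 hmi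
  have hint : IsIntegral ↥W y := hy
  obtain ⟨z, hz⟩ := IsIntegrallyClosed.isIntegral_iff.mp hint
  rw [← hz]
  exact z.2

/-- **a chart lies in every valuation ring containing the constants and its coordinate.** -/
theorem chartB_le_of_place (O1 : Subring F) (hmi : ∀ y : F, y ∈ O1 ∨ y⁻¹ ∈ O1)
    (hconst : ∀ r : R, algebraMap R F r ∈ O1) {J : F} (hJ : J ∈ O1) {b : F}
    (hb : b ∈ S18.H40.chartB R J) : b ∈ O1 := by
  rw [S18.H40.mem_chartB] at hb
  let S : Subalgebra R F := { O1.toSubsemiring with algebraMap_mem' := hconst }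
  have hle : Algebra.adjoin R {J} ≤ S := Algebra.adjoin_le (by
    intro x hx
    rw [Set.mem_singleton_iff] at hx
    rw [hx]
    exact hJ)
  obtain ⟨p, hp, hpb⟩ := hb
  let f : ↥(Algebra.adjoin R {J}) →+* ↥O1 :=
    ((Algebra.adjoin R {J}).val : ↥(Algebra.adjoin R {J}) →+* F).codRestrict O1
      (fun a => hle a.2)
  apply mem_of_isIntegral_of_mem_or_inv_mem O1 hmi
  refine ⟨p.map f, hp.map _, ?_⟩
  rw [eval₂_map]
  exact hpb

variable (J : F) [IsFractionRing ↥(S18.H40.chartB R J) F] [IsNoetherianRing ↥(S18.H40.chartB R J)]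
  [IsIntegrallyClosed ↥(S18.H40.chartB R J)]

/-- **the seam**: the valuation subring of the height-one prime `ker red` of a chart is the ring of
the place inducing `red`. -/
theorem toSubring_valuationSubringAt_ker_eq_of_place
    (O1 : Subring F) (res : ↥O1 →+* κ)
    (inv_mem : ∀ (y : F) (hy : y ∈ O1), res ⟨y, hy⟩ ≠ 0 → y⁻¹ ∈ O1)
    (hmi : ∀ y : F, y ∈ O1 ∨ y⁻¹ ∈ O1)
    (hconst : ∀ r : R, algebraMap R F r ∈ O1) (hJ : J ∈ O1)
    {D : Type*} [CommRing D] (c : D →+* κ) (hc : Function.Injective c)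
    (red : ↥(S18.H40.chartB R J) →+* D)
    (hval : ∀ (b : ↥(S18.H40.chartB R J)) (h : (b : F) ∈ O1), c (red b) = res ⟨(b : F), h⟩)
    [hp : (RingHom.ker red).IsPrime] (h1 : (RingHom.ker red).height = 1) :
    (S34.H56.valuationSubringAt (K := F) (RingHom.ker red) h1).toSubring = O1 := by
  have hB : ∀ b : ↥(S18.H40.chartB R J), algebraMap ↥(S18.H40.chartB R J) F b ∈ O1 :=
    fun b => chartB_le_of_place O1 hmi hconst hJ b.2
  have key := S36.H67.valuationSubringAt_eq_of_res O1 res inv_mem hmi (RingHom.ker red) h1 hB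
    (fun b => by
      rw [RingHom.mem_ker, ← map_eq_zero_iff c hc]
      exact (hval b (hB b)) ▸ Iff.rfl)
  rw [key]
  rfl

end GenSeam

section L0

variable (L : ℕ) [NeZero L] {q : ℕ} [hq : Fact q.Prime] (hqL : ¬ q ∣ L)
  (A : ValuationSubring Qbar) (hA : A.LiesOverPrime q)

local notation "kA" => IsLocalRing.ResidueField A
local notation "A₁" => H45.A0 A q
local notation "L₁" => H45.unrCyclo q
local notation "F1" => modularFunctionFieldFullC (H45.unrCyclo q) (q * L)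
local notation "F2" => modularFunctionFieldFullC (H45.unrCyclo q) (q * (q * L))

variable (Pi : PlaceInf L hqL A hA) (P0 : PlaceZero L hqL A hA)

theorem mem_or_inv_mem_A (PA : H55.PlaceA L hqL A hA P0) (y : ↥F2) :
    y ∈ (resPlaceA L hqL A hA P0 PA).O1 ∨ y⁻¹ ∈ (resPlaceA L hqL A hA P0 PA).O1 :=
  letI := H55.algPO1F2 L hqL A hA P0
  PA.mem_or_inv_mem y

theorem mem_or_inv_mem_B (PB : H55.PlaceB L hqL A hA Pi) (y : ↥F2) :
    y ∈ (resPlaceB L hqL A hA Pi PB).O1 ∨ y⁻¹ ∈ (resPlaceB L hqL A hA Pi PB).O1 :=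
  letI := H55.algPO1F2 L hqL A hA Pi
  PB.mem_or_inv_mem y

theorem mem_or_inv_mem_C (PC : H55.PlaceC L hqL A hA Pi) (y : ↥F2) :
    y ∈ (resPlaceC L hqL A hA Pi PC).O1 ∨ y⁻¹ ∈ (resPlaceC L hqL A hA Pi PC).O1 :=
  letI := H55.algPO1F2 L hqL A hA Pi
  PC.mem_or_inv_mem y

/-- the `ResPlace` of a place of `F₁`. -/
def resPlaceBot {ι' : ↥(VM L hqL A hA) →+* LaurentSeries (IsLocalRing.ResidueField A)}
    {θb : LaurentSeries (IsLocalRing.ResidueField A)} (P : PlaceGen L hqL A hA ι' θb) :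
    ResPlace ↥F1 (LaurentSeries (IsLocalRing.ResidueField A)) :=
  ⟨PO1 L hqL A hA P, Pres1 L hqL A hA P, Pinv_mem L hqL A hA P⟩

section Charts

variable (D : ModularPolynomialData q)
  (hD : ∀ (k : Type) [Field k] (ζ : kˣ), IsPrimitiveRoot ζ q → RootsAt k q ζ D.Φ)
  (PA : H55.PlaceA L hqL A hA P0) (PB : H55.PlaceB L hqL A hA Pi)
  (PC : H55.PlaceC L hqL A hA Pi)
  -- the chart of level `q (q L)`
  (J₂ : ↥(modularFunctionFieldFullC (H45.unrCyclo q) (q * (q * L)))) [IsFractionRing ↥(S18.H40.chartB ↥(H45.A0 A q) J₂) ↥(modularFunctionFieldFullC (H45.unrCyclo q) (q * (q * L)))]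
  [IsNoetherianRing ↥(S18.H40.chartB ↥(H45.A0 A q) J₂)] [IsIntegrallyClosed ↥(S18.H40.chartB ↥(H45.A0 A q) J₂)]
  (hJB : J₂ ∈ H55.QO1 L hqL A hA PB) (hJC : J₂ ∈ H55.RO1 L hqL A hA PC)
  (hJA : J₂ ∈ H55.QO1 L hqL A hA PA)
  {D₂ : Type*} [CommRing D₂] (c₂ : D₂ →+* LaurentSeries (IsLocalRing.ResidueField A))
  (hc₂ : Function.Injective c₂)
  (red₁ red₂ red₃ : ↥(S18.H40.chartB ↥(H45.A0 A q) J₂) →+* D₂)
  (h₁ : ∀ (b : ↥(S18.H40.chartB ↥(H45.A0 A q) J₂)) (h : (b : ↥(modularFunctionFieldFullC (H45.unrCyclo q) (q * (q * L)))) ∈ H55.QO1 L hqL A hA PB),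
    c₂ (red₁ b) = H55.Qres1 L hqL A hA PB ⟨b, h⟩)
  (h₂ : ∀ (b : ↥(S18.H40.chartB ↥(H45.A0 A q) J₂)) (h : (b : ↥(modularFunctionFieldFullC (H45.unrCyclo q) (q * (q * L)))) ∈ H55.RO1 L hqL A hA PC),
    c₂ (red₂ b) = H55.Rres1 L hqL A hA PC ⟨b, h⟩)
  (h₃ : ∀ (b : ↥(S18.H40.chartB ↥(H45.A0 A q) J₂)) (h : (b : ↥(modularFunctionFieldFullC (H45.unrCyclo q) (q * (q * L)))) ∈ H55.QO1 L hqL A hA PA),
    c₂ (red₃ b) = H55.Qres1 L hqL A hA PA ⟨b, h⟩)
  [(RingHom.ker red₁).IsPrime] [(RingHom.ker red₂).IsPrime] [(RingHom.ker red₃).IsPrime]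
  (k₁ : (RingHom.ker red₁).height = 1) (k₂ : (RingHom.ker red₂).height = 1)
  (k₃ : (RingHom.ker red₃).height = 1)
  -- the chart of level `q L`
  (J₁ : ↥(modularFunctionFieldFullC (H45.unrCyclo q) (q * L))) [IsFractionRing ↥(S18.H40.chartB ↥(H45.A0 A q) J₁) ↥(modularFunctionFieldFullC (H45.unrCyclo q) (q * L))]
  [IsNoetherianRing ↥(S18.H40.chartB ↥(H45.A0 A q) J₁)] [IsIntegrallyClosed ↥(S18.H40.chartB ↥(H45.A0 A q) J₁)]
  (hJi : J₁ ∈ PO1 L hqL A hA Pi) (hJ0 : J₁ ∈ PO1 L hqL A hA P0)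
  {D₁ : Type*} [CommRing D₁] (c₁ : D₁ →+* LaurentSeries (IsLocalRing.ResidueField A))
  (hc₁ : Function.Injective c₁)
  (red₁' red₂' : ↥(S18.H40.chartB ↥(H45.A0 A q) J₁) →+* D₁)
  (h₁' : ∀ (b : ↥(S18.H40.chartB ↥(H45.A0 A q) J₁)) (h : (b : ↥(modularFunctionFieldFullC (H45.unrCyclo q) (q * L))) ∈ PO1 L hqL A hA Pi),
    c₁ (red₁' b) = Pres1 L hqL A hA Pi ⟨b, h⟩)
  (h₂' : ∀ (b : ↥(S18.H40.chartB ↥(H45.A0 A q) J₁)) (h : (b : ↥(modularFunctionFieldFullC (H45.unrCyclo q) (q * L))) ∈ PO1 L hqL A hA P0),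
    c₁ (red₂' b) = Pres1 L hqL A hA P0 ⟨b, h⟩)
  [(RingHom.ker red₁').IsPrime] [(RingHom.ker red₂').IsPrime]
  (k₁' : (RingHom.ker red₁').height = 1) (k₂' : (RingHom.ker red₂').height = 1)

include hJB hc₂ h₁ in
/-- the seam at `B`. -/
theorem toSubring_ker_eq_B :
    (S34.H56.valuationSubringAt (K := F2) (RingHom.ker red₁) k₁).toSubring =
      H55.QO1 L hqL A hA PB :=
  toSubring_valuationSubringAt_ker_eq_of_place (R := A₁) J₂
    (resPlaceB L hqL A hA Pi PB).O1 (resPlaceB L hqL A hA Pi PB).res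
    (resPlaceB L hqL A hA Pi PB).inv_mem (mem_or_inv_mem_B L hqL A hA Pi PB)
    (fun r => (H94.hconsta L hqL A hA Pi PB r).fst) hJB c₂ hc₂ red₁ h₁ k₁

include hJC hc₂ h₂ in
/-- the seam at `C`. -/
theorem toSubring_ker_eq_C :
    (S34.H56.valuationSubringAt (K := F2) (RingHom.ker red₂) k₂).toSubring =
      H55.RO1 L hqL A hA PC :=
  toSubring_valuationSubringAt_ker_eq_of_place (R := A₁) J₂
    (resPlaceC L hqL A hA Pi PC).O1 (resPlaceC L hqL A hA Pi PC).res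
    (resPlaceC L hqL A hA Pi PC).inv_mem (mem_or_inv_mem_C L hqL A hA Pi PC)
    (fun r => (H94.hconstc L hqL A hA Pi PC r).fst) hJC c₂ hc₂ red₂ h₂ k₂

include hJA hc₂ h₃ in
/-- the seam at `A`. -/
theorem toSubring_ker_eq_A :
    (S34.H56.valuationSubringAt (K := F2) (RingHom.ker red₃) k₃).toSubring =
      H55.QO1 L hqL A hA PA :=
  toSubring_valuationSubringAt_ker_eq_of_place (R := A₁) J₂
    (resPlaceA L hqL A hA P0 PA).O1 (resPlaceA L hqL A hA P0 PA).res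
    (resPlaceA L hqL A hA P0 PA).inv_mem (mem_or_inv_mem_A L hqL A hA P0 PA)
    (fun r => (H94.hconstb L hqL A hA P0 PA r).fst) hJA c₂ hc₂ red₃ h₃ k₃

include hJi hc₁ h₁' in
/-- the seam at `Pi`. -/
theorem toSubring_ker_eq_inf :
    (S34.H56.valuationSubringAt (K := F1) (RingHom.ker red₁') k₁').toSubring =
      PO1 L hqL A hA Pi :=
  toSubring_valuationSubringAt_ker_eq_of_place (R := A₁) J₁
    (PO1 L hqL A hA Pi) (Pres1 L hqL A hA Pi) (Pinv_mem L hqL A hA Pi)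
    (Pmem_or_inv_mem L hqL A hA Pi) (fun r => (hconsti L hqL A hA Pi r).fst) hJi c₁ hc₁ red₁' h₁'
    k₁'

include hJ0 hc₁ h₂' in
/-- the seam at `P0`. -/
theorem toSubring_ker_eq_zero :
    (S34.H56.valuationSubringAt (K := F1) (RingHom.ker red₂') k₂').toSubring =
      PO1 L hqL A hA P0 :=
  toSubring_valuationSubringAt_ker_eq_of_place (R := A₁) J₁
    (PO1 L hqL A hA P0) (Pres1 L hqL A hA P0) (Pinv_mem L hqL A hA P0)
    (Pmem_or_inv_mem L hqL A hA P0) (fun r => (hconst0 L hqL A hA P0 r).fst) hJ0 c₁ hc₁ red₂' h₂'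
    k₂'

include hD hJB hJC hJA hc₂ h₁ h₂ h₃ hJi hJ0 hc₁ h₁' h₂' in
/-- **`HL` of `S36.H46.HVb_of_baseChangeE`** (`β`-side) for the chart valuation subrings. -/
theorem towerValU_beta_charts :
    TowerValU (H18.betaK L₁ q (q * L) (q * (q * L)) dvd_rfl)
      (H18.normBetaK L₁ q (q * L) (q * (q * L)) dvd_rfl) q
      (S34.H56.valuationSubringAt (K := F2) (RingHom.ker red₃) k₃)
      (S34.H56.valuationSubringAt (K := F2) (RingHom.ker red₂) k₂)
      (S34.H56.valuationSubringAt (K := F2) (RingHom.ker red₁) k₁)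
      (S34.H56.valuationSubringAt (K := F1) (RingHom.ker red₂') k₂')
      (S34.H56.valuationSubringAt (K := F1) (RingHom.ker red₁') k₁') :=
  towerValU_beta_real L hqL A hA Pi P0 D hD PA PB PC _ _ _
    (toSubring_ker_eq_A L hqL A hA P0 PA J₂ hJA c₂ hc₂ red₃ h₃ k₃)
    (toSubring_ker_eq_C L hqL A hA Pi PC J₂ hJC c₂ hc₂ red₂ h₂ k₂)
    (toSubring_ker_eq_B L hqL A hA Pi PB J₂ hJB c₂ hc₂ red₁ h₁ k₁) _ _
    (toSubring_ker_eq_zero L hqL A hA P0 J₁ hJ0 c₁ hc₁ red₂' h₂' k₂')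
    (toSubring_ker_eq_inf L hqL A hA Pi J₁ hJi c₁ hc₁ red₁' h₁' k₁')

set_option maxHeartbeats 1600000 in
include hD hJB hJC hJA hc₂ h₁ h₂ h₃ hJi hJ0 hc₁ h₁' h₂' in
/-- **`HL` of `S36.H46.HVa_of_baseChangeE`** (`α`-side) for the chart valuation subrings. -/
theorem towerValU_alpha_charts :
    TowerValU (H18.alphaK L₁ (q * L) (q * (q * L)) (dvd_mul_left (q * L) q))
      (H18.normAlphaK L₁ (q * L) (q * (q * L)) (dvd_mul_left (q * L) q)) q
      (S34.H56.valuationSubringAt (K := F2) (RingHom.ker red₁) k₁)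
      (S34.H56.valuationSubringAt (K := F2) (RingHom.ker red₂) k₂)
      (S34.H56.valuationSubringAt (K := F2) (RingHom.ker red₃) k₃)
      (S34.H56.valuationSubringAt (K := F1) (RingHom.ker red₁') k₁')
      (S34.H56.valuationSubringAt (K := F1) (RingHom.ker red₂') k₂') := by
  have hθB : (H55.xbar L hqL A hA ^ q) ^ q =
      Pres1 L hqL A hA Pi (S36.H6.phiO L hqL A hA Pi X) ^ q := by
    rw [S36.H6.phiO_X, S36.H6.Pres1_vO]
  have key := towerValU_alpha_real L hqL A hA D hD Pi P0 hθB PC PB PA _ _ _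
    (toSubring_ker_eq_B L hqL A hA Pi PB J₂ hJB c₂ hc₂ red₁ h₁ k₁)
    (toSubring_ker_eq_C L hqL A hA Pi PC J₂ hJC c₂ hc₂ red₂ h₂ k₂)
    (toSubring_ker_eq_A L hqL A hA P0 PA J₂ hJA c₂ hc₂ red₃ h₃ k₃) _ _
    (toSubring_ker_eq_inf L hqL A hA Pi J₁ hJi c₁ hc₁ red₁' h₁' k₁')
    (toSubring_ker_eq_zero L hqL A hA P0 J₁ hJ0 c₁ hc₁ red₂' h₂' k₂')
  exact key

end Charts

end L0

end Fermat.Agent.S36.H16
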