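/-
helper83: S36, row (E2): the interface between the three places of level `q² L` and the local
analysis at the closed points of the special fibre, as ONE `Prop`-valued structure, together
with its consumer lemmas.

`ThreeComponents red₁ red₂ red₃ ιu ιv ιw rbar W q qB` : the special fibre of the chart `B` of
level `q² L` has three components `C₁ + (q - 1) C₂ + C₃`, each of them identified (via
`red_i : B → D`, kernel `P_i`) with the level-`L` special fibre ring `D`; the three degeneracy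
maps `ιu ιv ιw : BM → B` (`f ↦ f(z)`, `f(qz)`, `f(q² z)`) reduce to `(id, W, W²)` on the first
component `(F,F)`, to `(id, W, id)` on the middle one `(F,V)` and to `(W², W, id)` on the third
one `(V,V)`; `W` is the substitution `t ↦ t ^ q`, all of whose values are `q`-th powers; and
`q B = P₁ ∩ P₂^((q-1)) ∩ P₃`, the middle power being the SYMBOLIC one.

All consumer lemmas are in the spelling `∀ z ∈ n, ∃ t ∉ n, t * z ∈ Ideal.span S` of
`S34.H83.locGen'`, so that `S34.H83.maximalIdeal_le_span_image_of_locGen` & co. apply verbatim.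
-/
import Mathlib
import Fermat.Agent.S34.H83_LocGen

set_option autoImplicit false

namespace Fermat.Agent.S36.H83

open Fermat.Agent.S34.H83

/-! ### One branch: from a local generator of the vertical prime to local generators of `n` -/

section OneBranch

variable {B D : Type*} [CommRing B] [CommRing D] [IsDedekindDomain D]

/-- `n` is the preimage of its image, for a maximal ideal containing the kernel. -/
theorem map_isMaximal_of_ker_le {red : B →+* D} (hred : Function.Surjective red)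
    (hD : ¬ IsField D) (n : Ideal B) (hn : n.IsMaximal) (hker : RingHom.ker red ≤ n) :
    (Ideal.map red n).IsMaximal ∧ Ideal.map red n ≠ ⊥ ∧
      ∀ z : B, z ∈ n ↔ red z ∈ Ideal.map red n := by
  have hker' : ∀ z : B, red z = 0 → z ∈ n := fun z hz => hker ((RingHom.mem_ker).2 hz)
  have h1 : (Ideal.map red n).IsMaximal := by
    rcases Ideal.map_eq_top_or_isMaximal_of_surjective red hred hn with h | h
    · exfalso
      have : (1 : B) ∈ n := (mem_iff_map_mem hred n hker' 1).2 (by rw [h]; trivial)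
      exact hn.ne_top ((Ideal.eq_top_iff_one n).2 this)
    · exact h
  exact ⟨h1, Ring.ne_bot_of_isMaximal_of_not_isField h1 hD, mem_iff_map_mem hred n hker'⟩

/-- **The one-branch lemma.**  `red : B → D` onto a Dedekind domain, `n ⊇ ker red` maximal,
`x ∈ ker red` a local generator of `ker red` at `n`, `τ ∈ n` restricting to a uniformiser of the
branch at `n`.  Then `n B_n = (x, τ)`. -/
theorem locGen_of_localGen {red : B →+* D} (hred : Function.Surjective red) (hD : ¬ IsField D)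
    (n : Ideal B) (hn : n.IsMaximal) (hker : RingHom.ker red ≤ n) {x : B}
    (hx : ∀ z ∈ RingHom.ker red, ∃ t : B, t ∉ n ∧ t * z ∈ Ideal.span {x})
    {τ : B} (hτ : τ ∈ n) (hτ2 : red τ ∉ Ideal.map red n ^ 2) :
    ∀ z ∈ n, ∃ t : B, t ∉ n ∧ t * z ∈ Ideal.span {x, τ} := by
  obtain ⟨hm, -, hmem⟩ := map_isMaximal_of_ker_le hred hD n hn hker
  have hnprime : n.IsPrime := hn.isPrime
  intro z hz
  obtain ⟨tb, htb, htw⟩ := exists_mul_mem_span_of_not_mem_sq hm.isPrime ((hmem τ).1 hτ) hτ2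
    ((hmem z).1 hz)
  obtain ⟨t, rfl⟩ := hred tb
  obtain ⟨cb, hcb⟩ := Ideal.mem_span_singleton'.1 htw
  obtain ⟨c, rfl⟩ := hred cb
  have htn : t ∉ n := fun h => htb ((hmem t).1 h)
  have h1 : t * z - c * τ ∈ RingHom.ker red := by
    rw [RingHom.mem_ker, map_sub, map_mul, map_mul, hcb, sub_self]
  obtain ⟨t', ht'n, ht'⟩ := hx _ h1
  refine ⟨t' * t, fun h => ?_, ?_⟩
  · rcases hnprime.mem_or_mem h with h | h
    · exact ht'n h
    · exact htn h
  · have h3 : t' * t * z = t' * (t * z - c * τ) + t' * c * τ := by ring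
    rw [h3]
    refine add_mem ?_ ?_
    · exact Ideal.span_mono (by simp) ht'
    · exact Ideal.mul_mem_left _ _ (Ideal.subset_span (by simp))

/-- Existence of `τ` in the one-branch lemma. -/
theorem exists_uniformizer_lift {red : B →+* D} (hred : Function.Surjective red)
    (hD : ¬ IsField D) (n : Ideal B) (hn : n.IsMaximal) (hker : RingHom.ker red ≤ n) :
    ∃ τ ∈ n, red τ ∉ Ideal.map red n ^ 2 := by
  obtain ⟨hm, h0, hmem⟩ := map_isMaximal_of_ker_le hred hD n hn hker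
  obtain ⟨θ, hθ, hθ2⟩ := exists_mem_not_mem_sq hm.isPrime h0
  obtain ⟨τ, rfl⟩ := hred θ
  exact ⟨τ, (hmem τ).2 hθ, hθ2⟩

/-- **One branch, existential form**: a local generator `x` of `ker red` at `n` gives
`n B_n = (x, τ)`. -/
theorem exists_locGen_of_localGen {red : B →+* D} (hred : Function.Surjective red)
    (hD : ¬ IsField D) (n : Ideal B) (hn : n.IsMaximal) (hker : RingHom.ker red ≤ n) {x : B}
    (hx : ∀ z ∈ RingHom.ker red, ∃ t : B, t ∉ n ∧ t * z ∈ Ideal.span {x}) :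
    ∃ τ ∈ n, ∀ z ∈ n, ∃ t : B, t ∉ n ∧ t * z ∈ Ideal.span {x, τ} := by
  obtain ⟨τ, hτ, hτ2⟩ := exists_uniformizer_lift hred hD n hn hker
  exact ⟨τ, hτ, locGen_of_localGen hred hD n hn hker hx hτ hτ2⟩

end OneBranch

/-! ### The structure -/

/-- **The (M1) → (M2)–(M4), (E4), (E6) interface at level `q² L`.** -/
structure ThreeComponents {B D BM : Type*} [CommRing B] [CommRing D] [CommRing BM]
    (red₁ red₂ red₃ : B →+* D) (ιu ιv ιw : BM →+* B) (rbar : BM →+* D) (W : D →+* D)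
    (q : ℕ) (qB : B) : Prop where
  hroot : ∀ r : D, ∃ r' : D, r' ^ q = W r
  h1u : ∀ ψ, red₁ (ιu ψ) = rbar ψ
  h1v : ∀ ψ, red₁ (ιv ψ) = W (rbar ψ)
  h1w : ∀ ψ, red₁ (ιw ψ) = W (W (rbar ψ))
  h2u : ∀ ψ, red₂ (ιu ψ) = rbar ψ
  h2v : ∀ ψ, red₂ (ιv ψ) = W (rbar ψ)
  h2w : ∀ ψ, red₂ (ιw ψ) = rbar ψ
  h3u : ∀ ψ, red₃ (ιu ψ) = W (W (rbar ψ))
  h3v : ∀ ψ, red₃ (ιv ψ) = W (rbar ψ)
  h3w : ∀ ψ, red₃ (ιw ψ) = rbar ψ
  hrbar : Function.Surjective rbar
  hsat : ∀ z : B, red₁ z = 0 → red₃ z = 0 →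
    (∃ s : B, red₂ s ≠ 0 ∧ s * z ∈ RingHom.ker red₂ ^ (q - 1)) → z ∈ Ideal.span {qB}

namespace ThreeComponents

section Basic

variable {B D BM : Type*} [CommRing B] [CommRing D] [CommRing BM]
  {red₁ red₂ red₃ : B →+* D} {ιu ιv ιw : BM →+* B} {rbar : BM →+* D} {W : D →+* D}
  {q : ℕ} {qB : B}

theorem hred₁ (h : ThreeComponents red₁ red₂ red₃ ιu ιv ιw rbar W q qB) :
    Function.Surjective red₁ := fun d => by
  obtain ⟨ψ, rfl⟩ := h.hrbar d
  exact ⟨ιu ψ, h.h1u ψ⟩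

theorem hred₂ (h : ThreeComponents red₁ red₂ red₃ ιu ιv ιw rbar W q qB) :
    Function.Surjective red₂ := fun d => by
  obtain ⟨ψ, rfl⟩ := h.hrbar d
  exact ⟨ιu ψ, h.h2u ψ⟩

theorem hred₃ (h : ThreeComponents red₁ red₂ red₃ ιu ιv ιw rbar W q qB) :
    Function.Surjective red₃ := fun d => by
  obtain ⟨ψ, rfl⟩ := h.hrbar d
  exact ⟨ιw ψ, h.h3w ψ⟩

/-- `ιu ψ - ιw ψ` (the element `θ_ψ`) lies in the middle vertical prime. -/
theorem red₂_sub (h : ThreeComponents red₁ red₂ red₃ ιu ιv ιw rbar W q qB) (ψ : BM) :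
    red₂ (ιu ψ - ιw ψ) = 0 := by
  rw [map_sub, h.h2u, h.h2w, sub_self]

/-- The product `P₁ · P₂^(q-1) · P₃` lies in `(q)`. -/
theorem mul_mem_span (h : ThreeComponents red₁ red₂ red₃ ιu ιv ιw rbar W q qB)
    [Nontrivial D] {a b c : B} (ha : red₁ a = 0) (hb : b ∈ RingHom.ker red₂ ^ (q - 1))
    (hc : red₃ c = 0) : a * b * c ∈ Ideal.span {qB} := by
  refine h.hsat _ (by rw [map_mul, map_mul, ha, zero_mul, zero_mul])
    (by rw [map_mul, hc, mul_zero]) ⟨1, by rw [map_one]; exact one_ne_zero, ?_⟩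
  rw [one_mul, mul_comm a b, mul_assoc]
  exact Ideal.mul_mem_right _ _ hb

/-- **Exactly three**: a prime containing `q` contains one of the three vertical primes. -/
theorem ker_le_of_mem (h : ThreeComponents red₁ red₂ red₃ ιu ιv ιw rbar W q qB)
    [Nontrivial D] (P : Ideal B) [hP : P.IsPrime] (hqP : qB ∈ P) :
    RingHom.ker red₁ ≤ P ∨ RingHom.ker red₂ ≤ P ∨ RingHom.ker red₃ ≤ P := by
  by_contra hcon
  push Not at hcon
  obtain ⟨h1, h2, h3⟩ := hcon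
  obtain ⟨a, ha, haP⟩ := Set.not_subset.1 h1
  obtain ⟨b, hb, hbP⟩ := Set.not_subset.1 h2
  obtain ⟨c, hc, hcP⟩ := Set.not_subset.1 h3
  have hmem : a * b ^ (q - 1) * c ∈ P :=
    (Ideal.span_singleton_le_iff_mem P).2 hqP
      (h.mul_mem_span ((RingHom.mem_ker).1 ha) (Ideal.pow_mem_pow hb _) ((RingHom.mem_ker).1 hc))
  rcases hP.mem_or_mem hmem with h' | h'
  · rcases hP.mem_or_mem h' with h'' | h''
    · exact haP h''
    · exact hbP (hP.mem_of_pow_mem _ h'')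
  · exact hcP h'

end Basic

section Points

variable {B D BM : Type*} [CommRing B] [CommRing D] [IsDedekindDomain D] [CommRing BM]
  {red₁ red₂ red₃ : B →+* D} {ιu ιv ιw : BM →+* B} {rbar : BM →+* D} {W : D →+* D}
  {q : ℕ} {qB : B}

/-- At a point lying neither on `C₂` nor on `C₃`, `q` generates `P₁` locally. -/
theorem localGen_first (h : ThreeComponents red₁ red₂ red₃ ιu ιv ιw rbar W q qB)
    (n : Ideal B) (hn : n.IsMaximal)
    (h2 : ∃ s : B, red₂ s = 0 ∧ s ∉ n) (h3 : ∃ s : B, red₃ s = 0 ∧ s ∉ n) :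
    ∀ z ∈ RingHom.ker red₁, ∃ t : B, t ∉ n ∧ t * z ∈ Ideal.span {qB} := by
  obtain ⟨s₂, hs₂, hs₂n⟩ := h2
  obtain ⟨s₃, hs₃, hs₃n⟩ := h3
  have hnprime : n.IsPrime := hn.isPrime
  intro z hz
  refine ⟨s₂ ^ (q - 1) * s₃, fun hmem => ?_, ?_⟩
  · rcases hnprime.mem_or_mem hmem with h' | h'
    · exact hs₂n (hnprime.mem_of_pow_mem _ h')
    · exact hs₃n h'
  · have := h.mul_mem_span ((RingHom.mem_ker).1 hz)
      (Ideal.pow_mem_pow ((RingHom.mem_ker).2 hs₂) (q - 1)) hs₃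
    have e : s₂ ^ (q - 1) * s₃ * z = z * s₂ ^ (q - 1) * s₃ := by ring
    rw [e]
    exact this

/-- At a point lying neither on `C₁` nor on `C₂`, `q` generates `P₃` locally. -/
theorem localGen_third (h : ThreeComponents red₁ red₂ red₃ ιu ιv ιw rbar W q qB)
    (n : Ideal B) (hn : n.IsMaximal)
    (h1 : ∃ s : B, red₁ s = 0 ∧ s ∉ n) (h2 : ∃ s : B, red₂ s = 0 ∧ s ∉ n) :
    ∀ z ∈ RingHom.ker red₃, ∃ t : B, t ∉ n ∧ t * z ∈ Ideal.span {qB} := by
  obtain ⟨s₁, hs₁, hs₁n⟩ := h1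
  obtain ⟨s₂, hs₂, hs₂n⟩ := h2
  have hnprime : n.IsPrime := hn.isPrime
  intro z hz
  refine ⟨s₁ * s₂ ^ (q - 1), fun hmem => ?_, ?_⟩
  · rcases hnprime.mem_or_mem hmem with h' | h'
    · exact hs₁n h'
    · exact hs₂n (hnprime.mem_of_pow_mem _ h')
  · exact h.mul_mem_span hs₁ (Ideal.pow_mem_pow ((RingHom.mem_ker).2 hs₂) (q - 1))
      ((RingHom.mem_ker).1 hz)

/-- A maximal ideal containing `q` but neither `P₂` nor `P₃` contains `P₁`. -/
theorem ker_le_first (h : ThreeComponents red₁ red₂ red₃ ιu ιv ιw rbar W q qB)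
    (n : Ideal B) (hn : n.IsMaximal) (hqn : qB ∈ n)
    (h2 : ∃ s : B, red₂ s = 0 ∧ s ∉ n) (h3 : ∃ s : B, red₃ s = 0 ∧ s ∉ n) :
    RingHom.ker red₁ ≤ n := by
  have hnprime : n.IsPrime := hn.isPrime
  obtain ⟨s₂, hs₂, hs₂n⟩ := h2
  obtain ⟨s₃, hs₃, hs₃n⟩ := h3
  rcases h.ker_le_of_mem n hqn with h' | h' | h'
  · exact h'
  · exact absurd (h' ((RingHom.mem_ker).2 hs₂)) hs₂n
  · exact absurd (h' ((RingHom.mem_ker).2 hs₃)) hs₃n

theorem ker_le_third (h : ThreeComponents red₁ red₂ red₃ ιu ιv ιw rbar W q qB)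
    (n : Ideal B) (hn : n.IsMaximal) (hqn : qB ∈ n)
    (h1 : ∃ s : B, red₁ s = 0 ∧ s ∉ n) (h2 : ∃ s : B, red₂ s = 0 ∧ s ∉ n) :
    RingHom.ker red₃ ≤ n := by
  have hnprime : n.IsPrime := hn.isPrime
  obtain ⟨s₁, hs₁, hs₁n⟩ := h1
  obtain ⟨s₂, hs₂, hs₂n⟩ := h2
  rcases h.ker_le_of_mem n hqn with h' | h' | h'
  · exact absurd (h' ((RingHom.mem_ker).2 hs₁)) hs₁n
  · exact absurd (h' ((RingHom.mem_ker).2 hs₂)) hs₂n
  · exact h'

theorem ker_le_middle (h : ThreeComponents red₁ red₂ red₃ ιu ιv ιw rbar W q qB)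
    (n : Ideal B) (hn : n.IsMaximal) (hqn : qB ∈ n)
    (h1 : ∃ s : B, red₁ s = 0 ∧ s ∉ n) (h3 : ∃ s : B, red₃ s = 0 ∧ s ∉ n) :
    RingHom.ker red₂ ≤ n := by
  have hnprime : n.IsPrime := hn.isPrime
  obtain ⟨s₁, hs₁, hs₁n⟩ := h1
  obtain ⟨s₃, hs₃, hs₃n⟩ := h3
  rcases h.ker_le_of_mem n hqn with h' | h' | h'
  · exact absurd (h' ((RingHom.mem_ker).2 hs₁)) hs₁n
  · exact h'
  · exact absurd (h' ((RingHom.mem_ker).2 hs₃)) hs₃n

/-- **Points on `C₁` only** (ordinary points and cusps of the `(F,F)` component):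
`n B_n = (q, τ)`. -/
theorem locGen_first (h : ThreeComponents red₁ red₂ red₃ ιu ιv ιw rbar W q qB)
    (hD : ¬ IsField D) (n : Ideal B) (hn : n.IsMaximal) (hqn : qB ∈ n)
    (h2 : ∃ s : B, red₂ s = 0 ∧ s ∉ n) (h3 : ∃ s : B, red₃ s = 0 ∧ s ∉ n) :
    ∃ τ ∈ n, ∀ z ∈ n, ∃ t : B, t ∉ n ∧ t * z ∈ Ideal.span {qB, τ} :=
  exists_locGen_of_localGen h.hred₁ hD n hn (h.ker_le_first n hn hqn h2 h3)
    (h.localGen_first n hn h2 h3)

/-- **Points on `C₃` only**: `n B_n = (q, τ)`. -/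
theorem locGen_third (h : ThreeComponents red₁ red₂ red₃ ιu ιv ιw rbar W q qB)
    (hD : ¬ IsField D) (n : Ideal B) (hn : n.IsMaximal) (hqn : qB ∈ n)
    (h1 : ∃ s : B, red₁ s = 0 ∧ s ∉ n) (h2 : ∃ s : B, red₂ s = 0 ∧ s ∉ n) :
    ∃ τ ∈ n, ∀ z ∈ n, ∃ t : B, t ∉ n ∧ t * z ∈ Ideal.span {qB, τ} :=
  exists_locGen_of_localGen h.hred₃ hD n hn (h.ker_le_third n hn hqn h1 h2)
    (h.localGen_third n hn h1 h2)

/-- At a point lying neither on `C₁` nor on `C₃`, every element of `P₂^(q-1)` is locally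
divisible by `q` (so `θ^(q-1) / q` lies in the local ring for every `θ ∈ P₂`). -/
theorem localDvd_middle (h : ThreeComponents red₁ red₂ red₃ ιu ιv ιw rbar W q qB)
    (n : Ideal B) (hn : n.IsMaximal)
    (h1 : ∃ s : B, red₁ s = 0 ∧ s ∉ n) (h3 : ∃ s : B, red₃ s = 0 ∧ s ∉ n) :
    ∀ z ∈ RingHom.ker red₂ ^ (q - 1), ∃ t : B, t ∉ n ∧ t * z ∈ Ideal.span {qB} := by
  obtain ⟨s₁, hs₁, hs₁n⟩ := h1
  obtain ⟨s₃, hs₃, hs₃n⟩ := h3
  have hnprime : n.IsPrime := hn.isPrime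
  intro z hz
  refine ⟨s₁ * s₃, fun hmem => ?_, ?_⟩
  · rcases hnprime.mem_or_mem hmem with h' | h'
    · exact hs₁n h'
    · exact hs₃n h'
  · have := h.mul_mem_span hs₁ hz hs₃
    have e : s₁ * s₃ * z = s₁ * z * s₃ := by ring
    rw [e]
    exact this

/-- **The middle component, without normality or valuations.**  At a point lying neither on `C₁`
nor on `C₃`, an element `θ ∈ P₂` such that `θ^(q-1) / q` is a unit at `n` generates `P₂`
locally. -/
theorem localGen_middle [IsDomain B]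
    (h : ThreeComponents red₁ red₂ red₃ ιu ιv ιw rbar W q qB) (hq : 2 ≤ q)
    (n : Ideal B) (hn : n.IsMaximal)
    (h1 : ∃ s : B, red₁ s = 0 ∧ s ∉ n) (h3 : ∃ s : B, red₃ s = 0 ∧ s ∉ n)
    {θ : B} (hθ : red₂ θ = 0) (hθ0 : θ ≠ 0)
    (hE : ∃ e t : B, e ∉ n ∧ t ∉ n ∧ t * θ ^ (q - 1) = e * qB) :
    ∀ z ∈ RingHom.ker red₂, ∃ t : B, t ∉ n ∧ t * z ∈ Ideal.span {θ} := by
  obtain ⟨e, t, hen, htn, hE⟩ := hE
  have hnprime : n.IsPrime := hn.isPrime
  intro z hz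
  have hq' : q - 1 = (q - 2) + 1 := by omega
  have hmem : z * θ ^ (q - 2) ∈ RingHom.ker red₂ ^ (q - 1) := by
    rw [hq', pow_succ']
    exact Ideal.mul_mem_mul hz (Ideal.pow_mem_pow ((RingHom.mem_ker).2 hθ) _)
  obtain ⟨t', ht'n, ht'⟩ := h.localDvd_middle n hn h1 h3 _ hmem
  obtain ⟨c, hc⟩ := Ideal.mem_span_singleton'.1 ht'
  refine ⟨e * t', fun hmem' => ?_, ?_⟩
  · rcases hnprime.mem_or_mem hmem' with h' | h'
    · exact hen h'
    · exact ht'n h'
  · have key : θ ^ (q - 2) * (e * t' * z) = θ ^ (q - 2) * (c * t * θ) := by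
      have e1 : θ ^ (q - 2) * (e * t' * z) = e * (t' * (z * θ ^ (q - 2))) := by ring
      have e2 : θ ^ (q - 2) * (c * t * θ) = c * (t * θ ^ (q - 1)) := by
        rw [hq', pow_succ]; ring
      rw [e1, e2, ← hc, hE]; ring
    have := mul_left_cancel₀ (pow_ne_zero _ hθ0) key
    rw [this]
    exact Ideal.mul_mem_left _ _ (Ideal.mem_span_singleton_self θ)

/-- **Points on the middle component only** (ordinary points and cusps of the `(F,V)`
component): if `θ ∈ P₂` and `θ^(q-1) / q` is a unit at `n` then `n B_n = (θ, τ)`. -/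
theorem locGen_middle [IsDomain B]
    (h : ThreeComponents red₁ red₂ red₃ ιu ιv ιw rbar W q qB) (hq : 2 ≤ q)
    (hD : ¬ IsField D) (n : Ideal B) (hn : n.IsMaximal) (hqn : qB ∈ n)
    (h1 : ∃ s : B, red₁ s = 0 ∧ s ∉ n) (h3 : ∃ s : B, red₃ s = 0 ∧ s ∉ n)
    {θ : B} (hθ : red₂ θ = 0) (hθ0 : θ ≠ 0)
    (hE : ∃ e t : B, e ∉ n ∧ t ∉ n ∧ t * θ ^ (q - 1) = e * qB) :
    ∃ τ ∈ n, ∀ z ∈ n, ∃ t : B, t ∉ n ∧ t * z ∈ Ideal.span {θ, τ} :=
  exists_locGen_of_localGen h.hred₂ hD n hn (h.ker_le_middle n hn hqn h1 h3)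
    (h.localGen_middle hq n hn h1 h3 hθ hθ0 hE)

end Points

end ThreeComponents

end Fermat.Agent.S36.H83
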