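import Mathlib
import Fermat.Agent.S34.H3_VerticalPrimes
import Fermat.Agent.S36.H83_ThreeComponents

/-!
# S36, row (E2): the vertical primes of a chart with a `ThreeComponents` structure (helper40)

`B` a chart with `h : S36.H83.ThreeComponents red₁ red₂ red₃ ιu ιv ιw rbar W q qB`, `D` a domain,
`red_i qB = 0`.  Consumer-facing facts in the `S34.H3.Vert` vocabulary (minimal primes over
`qB`), in the shapes asked for by the criterion `S36.H67.kummer_descent_pow_rad` and its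
canonical-family wrapper:

* `vert_eq_ker` : every vertical prime is one of the three kernels `ker red_i`;
* `hmult_vert` : every vertical prime has multiplicity at most `q` in the special fibre:
  `∀ b ∈ P, ∃ s ∉ P, qB ∣ s * b ^ q`;
* `dvd_pow_of_forall_mem_vert` / `hpow_of_threeComponents` : `(rad (qB))^q ⊆ (qB)`;
* `exists_sep₂₁`, `exists_sep₃₁` (and the symmetric ones) : the kernels are pairwise incomparable as
  soon as `W ∘ W` (resp. `W ^ 4`) moves some element of `D`;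
* `ker_red₁_mem_minimalPrimes`, `hred_first` : the first component is a vertical prime along which
  the special fibre is reduced (`∀ b ∈ ker red₁, ∃ s ∉ ker red₁, qB ∣ s * b`); same for the third.
-/

set_option autoImplicit false
set_option linter.style.haveILetI false
set_option linter.unusedSectionVars false

namespace Fermat.Agent.S36.H40

open Fermat.Agent.S34.H3 Fermat.Agent.S36.H83

section Three

variable {B D BM : Type*} [CommRing B] [CommRing D] [IsDomain D] [CommRing BM]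
  {red₁ red₂ red₃ : B →+* D} {ιu ιv ιw : BM →+* B} {rbar : BM →+* D} {W : D →+* D}
  {q : ℕ} {qB : B}

/-- The kernel of a ring homomorphism into a domain killing `qB` is a prime through `qB`. -/
theorem ker_isPrime_of_domain (red : B →+* D) : (RingHom.ker red).IsPrime :=
  RingHom.ker_isPrime red

/-- **Every vertical prime is one of the three kernels.** -/
theorem vert_eq_ker (h : ThreeComponents red₁ red₂ red₃ ιu ιv ιw rbar W q qB)
    (hq₁ : red₁ qB = 0) (hq₂ : red₂ qB = 0) (hq₃ : red₃ qB = 0) (P : Vert qB) :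
    (P : Ideal B) = RingHom.ker red₁ ∨ (P : Ideal B) = RingHom.ker red₂ ∨
      (P : Ideal B) = RingHom.ker red₃ := by
  haveI := P.isPrime
  have hmin : ∀ (red : B →+* D), red qB = 0 → RingHom.ker red ≤ (P : Ideal B) →
      (P : Ideal B) = RingHom.ker red := by
    intro red hq hle
    refine le_antisymm (P.2.2 ⟨RingHom.ker_isPrime red, ?_⟩ hle) hle
    rw [Ideal.span_singleton_le_iff_mem]
    exact (RingHom.mem_ker).2 hq
  rcases h.ker_le_of_mem (P : Ideal B) P.mem with h' | h' | h'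
  · exact Or.inl (hmin red₁ hq₁ h')
  · exact Or.inr (Or.inl (hmin red₂ hq₂ h'))
  · exact Or.inr (Or.inr (hmin red₃ hq₃ h'))

/-- A kernel contained in a vertical prime is equal to it. -/
theorem ker_eq_of_le_vert {red : B →+* D} (hq : red qB = 0) (P : Vert qB)
    (hle : RingHom.ker red ≤ (P : Ideal B)) : (P : Ideal B) = RingHom.ker red := by
  refine le_antisymm (P.2.2 ⟨RingHom.ker_isPrime red, ?_⟩ hle) hle
  rw [Ideal.span_singleton_le_iff_mem]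
  exact (RingHom.mem_ker).2 hq

/-- Auxiliary: for a vertical prime `P` and a kernel `ker red` (through `qB`), there is `s ∉ P`
such that `s ^ n * b ^ n ∈ (ker red) ^ n` for every `b ∈ P` — either `ker red ⊆ P`, then
`ker red = P` and `s = 1` works, or some `s ∈ ker red` lies outside `P`. -/
theorem exists_notMem_vert_pow_mul_mem {red : B →+* D} (hq : red qB = 0) (P : Vert qB) :
    ∃ s : B, s ∉ (P : Ideal B) ∧
      ∀ b ∈ (P : Ideal B), ∀ n : ℕ, s ^ n * b ^ n ∈ RingHom.ker red ^ n := by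
  haveI := P.isPrime
  by_cases hle : RingHom.ker red ≤ (P : Ideal B)
  · have heq := ker_eq_of_le_vert hq P hle
    refine ⟨1, fun h1 => P.isPrime.ne_top ((Ideal.eq_top_iff_one _).2 h1), fun b hb n => ?_⟩
    rw [one_pow, one_mul, ← heq]
    exact Ideal.pow_mem_pow hb n
  · obtain ⟨s, hs, hsP⟩ := Set.not_subset.1 hle
    exact ⟨s, hsP, fun b _ n => Ideal.mul_mem_right _ _ (Ideal.pow_mem_pow hs n)⟩

/-- **Multiplicity at most `q` along every vertical prime.** -/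
theorem hmult_vert (h : ThreeComponents red₁ red₂ red₃ ιu ιv ιw rbar W q qB) (hq : 0 < q)
    (hq₁ : red₁ qB = 0) (hq₂ : red₂ qB = 0) (hq₃ : red₃ qB = 0) (P : Vert qB) :
    ∀ b ∈ (P : Ideal B), ∃ s : B, s ∉ (P : Ideal B) ∧ qB ∣ s * b ^ q := by
  haveI := P.isPrime
  obtain ⟨s₁, hs₁P, hs₁⟩ := exists_notMem_vert_pow_mul_mem hq₁ P
  obtain ⟨s₂, hs₂P, hs₂⟩ := exists_notMem_vert_pow_mul_mem hq₂ P
  obtain ⟨s₃, hs₃P, hs₃⟩ := exists_notMem_vert_pow_mul_mem hq₃ P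
  intro b hb
  refine ⟨s₁ * s₂ ^ (q - 1) * s₃, fun hmem => ?_, ?_⟩
  · rcases P.isPrime.mem_or_mem hmem with h' | h'
    · rcases P.isPrime.mem_or_mem h' with h'' | h''
      · exact hs₁P h''
      · exact hs₂P (P.isPrime.mem_of_pow_mem _ h'')
    · exact hs₃P h'
  · rw [← Ideal.mem_span_singleton]
    have hbq : b ^ q = b ^ (q - 1) * b := by rw [← pow_succ, Nat.sub_add_cancel hq]
    have k₁ : s₁ * b ∈ RingHom.ker red₁ := by simpa using hs₁ b hb 1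
    have k₃ : s₃ * b ∈ RingHom.ker red₃ := by simpa using hs₃ b hb 1
    have k₂ := hs₂ b hb (q - 1)
    have e₁ : s₁ * s₂ ^ (q - 1) * s₃ * b ^ q = (s₁ * b) * (s₂ ^ (q - 1) * s₃ * b ^ (q - 1)) := by
      rw [hbq]
      ring
    have e₃ : s₁ * s₂ ^ (q - 1) * s₃ * b ^ q = (s₃ * b) * (s₁ * s₂ ^ (q - 1) * b ^ (q - 1)) := by
      rw [hbq]
      ring
    have e₂ : s₁ * s₂ ^ (q - 1) * s₃ * b ^ q = (s₂ ^ (q - 1) * b ^ (q - 1)) * (s₁ * s₃ * b) := by
      rw [hbq]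
      ring
    refine h.hsat _ ?_ ?_ ⟨1, ?_, ?_⟩
    · rw [e₁, map_mul, (RingHom.mem_ker).1 k₁, zero_mul]
    · rw [e₃, map_mul, (RingHom.mem_ker).1 k₃, zero_mul]
    · rw [map_one]; exact one_ne_zero
    · rw [one_mul, e₂]
      exact Ideal.mul_mem_right _ _ k₂

/-- `(rad (qB)) ^ q ⊆ (qB)`: an element of all vertical primes has its `q`-th power divisible by
`qB`. -/
theorem dvd_pow_of_mem_kers (h : ThreeComponents red₁ red₂ red₃ ιu ιv ιw rbar W q qB)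
    (hq : 0 < q) {b : B} (hb₁ : red₁ b = 0) (hb₂ : red₂ b = 0) (hb₃ : red₃ b = 0) :
    qB ∣ b ^ q := by
  rw [← Ideal.mem_span_singleton]
  have hbq : b ^ q = b ^ (q - 1) * b := by rw [← pow_succ, Nat.sub_add_cancel hq]
  refine h.hsat _ ?_ ?_ ⟨1, ?_, ?_⟩
  · rw [map_pow, hb₁, zero_pow hq.ne']
  · rw [map_pow, hb₃, zero_pow hq.ne']
  · rw [map_one]; exact one_ne_zero
  · rw [one_mul, hbq]
    exact Ideal.mul_mem_right _ _ (Ideal.pow_mem_pow ((RingHom.mem_ker).2 hb₂) _)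

/-- The `hrad`-type statement of the non-reduced fibre: `qB ∣ b ^ n` for some `n` implies
`qB ∣ b ^ q`. -/
theorem hpow_of_threeComponents (h : ThreeComponents red₁ red₂ red₃ ιu ιv ιw rbar W q qB)
    (hq : 0 < q) (hq₁ : red₁ qB = 0) (hq₂ : red₂ qB = 0) (hq₃ : red₃ qB = 0) (b : B)
    (hb : ∃ n : ℕ, qB ∣ b ^ n) : qB ∣ b ^ q := by
  obtain ⟨n, c, hc⟩ := hb
  have key : ∀ red : B →+* D, red qB = 0 → red b = 0 := by
    intro red hqr
    have h0 : red b ^ n = 0 := by rw [← map_pow, hc, map_mul, hqr, zero_mul]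
    exact pow_eq_zero_iff (fun hn => by
      rw [hn, pow_zero] at h0
      exact one_ne_zero h0) |>.mp h0
  exact dvd_pow_of_mem_kers h hq (key red₁ hq₁) (key red₂ hq₂) (key red₃ hq₃)

/-! ### Separation of the three kernels -/

/-- `ker red₂ ⊄ ker red₁` as soon as `W ∘ W` moves some element. -/
theorem exists_sep₂₁ (h : ThreeComponents red₁ red₂ red₃ ιu ιv ιw rbar W q qB)
    (hW : ∃ d : D, W (W d) ≠ d) : ∃ s : B, red₂ s = 0 ∧ red₁ s ≠ 0 := by
  obtain ⟨d, hd⟩ := hW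
  obtain ⟨ψ, rfl⟩ := h.hrbar d
  refine ⟨ιu ψ - ιw ψ, h.red₂_sub ψ, ?_⟩
  rw [map_sub, h.h1u, h.h1w, sub_ne_zero]
  exact fun e => hd e.symm

/-- `ker red₂ ⊄ ker red₃` as soon as `W ∘ W` moves some element. -/
theorem exists_sep₂₃ (h : ThreeComponents red₁ red₂ red₃ ιu ιv ιw rbar W q qB)
    (hW : ∃ d : D, W (W d) ≠ d) : ∃ s : B, red₂ s = 0 ∧ red₃ s ≠ 0 := by
  obtain ⟨d, hd⟩ := hW
  obtain ⟨ψ, rfl⟩ := h.hrbar d
  refine ⟨ιu ψ - ιw ψ, h.red₂_sub ψ, ?_⟩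
  rw [map_sub, h.h3u, h.h3w, sub_ne_zero]
  exact hd

/-- `ker red₁ ⊄ ker red₂` as soon as `W ∘ W` moves some element. -/
theorem exists_sep₁₂ (h : ThreeComponents red₁ red₂ red₃ ιu ιv ιw rbar W q qB)
    (hW : ∃ d : D, W (W d) ≠ d) : ∃ s : B, red₁ s = 0 ∧ red₂ s ≠ 0 := by
  obtain ⟨d, hd⟩ := hW
  obtain ⟨ψ, rfl⟩ := h.hrbar d
  obtain ⟨ψ', hψ'⟩ := h.hrbar (W (W (rbar ψ)))
  refine ⟨ιw ψ - ιu ψ', ?_, ?_⟩
  · rw [map_sub, h.h1w, h.h1u, hψ', sub_self]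
  · rw [map_sub, h.h2w, h.h2u, hψ', sub_ne_zero]
    exact fun e => hd e.symm

/-- `ker red₃ ⊄ ker red₂` as soon as `W ∘ W` moves some element. -/
theorem exists_sep₃₂ (h : ThreeComponents red₁ red₂ red₃ ιu ιv ιw rbar W q qB)
    (hW : ∃ d : D, W (W d) ≠ d) : ∃ s : B, red₃ s = 0 ∧ red₂ s ≠ 0 := by
  obtain ⟨d, hd⟩ := hW
  obtain ⟨ψ, rfl⟩ := h.hrbar d
  obtain ⟨ψ', hψ'⟩ := h.hrbar (W (W (rbar ψ)))
  refine ⟨ιu ψ - ιw ψ', ?_, ?_⟩
  · rw [map_sub, h.h3u, h.h3w, hψ', sub_self]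
  · rw [map_sub, h.h2u, h.h2w, hψ', sub_ne_zero]
    exact fun e => hd e.symm

/-- `ker red₃ ⊄ ker red₁` as soon as `W ^ 4` moves some element. -/
theorem exists_sep₃₁ (h : ThreeComponents red₁ red₂ red₃ ιu ιv ιw rbar W q qB)
    (hW : ∃ d : D, W (W (W (W d))) ≠ d) : ∃ s : B, red₃ s = 0 ∧ red₁ s ≠ 0 := by
  obtain ⟨d, hd⟩ := hW
  obtain ⟨ψ', rfl⟩ := h.hrbar d
  obtain ⟨ψ, hψ⟩ := h.hrbar (W (W (rbar ψ')))
  refine ⟨ιw ψ - ιu ψ', ?_, ?_⟩
  · rw [map_sub, h.h3w, h.h3u, hψ, sub_self]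
  · rw [map_sub, h.h1w, h.h1u, hψ, sub_ne_zero]
    exact hd

/-- `ker red₁ ⊄ ker red₃` as soon as `W ^ 4` moves some element. -/
theorem exists_sep₁₃ (h : ThreeComponents red₁ red₂ red₃ ιu ιv ιw rbar W q qB)
    (hW : ∃ d : D, W (W (W (W d))) ≠ d) : ∃ s : B, red₁ s = 0 ∧ red₃ s ≠ 0 := by
  obtain ⟨d, hd⟩ := hW
  obtain ⟨ψ', rfl⟩ := h.hrbar d
  obtain ⟨ψ, hψ⟩ := h.hrbar (W (W (rbar ψ')))
  refine ⟨ιu ψ - ιw ψ', ?_, ?_⟩
  · rw [map_sub, h.h1u, h.h1w, hψ, sub_self]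
  · rw [map_sub, h.h3u, h.h3w, hψ, sub_ne_zero]
    exact hd

/-! ### The outer components are reduced vertical primes -/

/-- A kernel not containing the two other ones is a vertical prime. -/
theorem ker_mem_minimalPrimes_of_sep (h : ThreeComponents red₁ red₂ red₃ ιu ιv ιw rbar W q qB)
    (hq₁ : red₁ qB = 0)
    (h21 : ∃ s : B, red₂ s = 0 ∧ red₁ s ≠ 0) (h31 : ∃ s : B, red₃ s = 0 ∧ red₁ s ≠ 0) :
    RingHom.ker red₁ ∈ (Ideal.span {qB} : Ideal B).minimalPrimes := by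
  refine ⟨⟨RingHom.ker_isPrime red₁, ?_⟩, ?_⟩
  · rw [Ideal.span_singleton_le_iff_mem]
    exact (RingHom.mem_ker).2 hq₁
  · rintro Q ⟨hQ, hQq⟩ hQle
    haveI := hQ
    rcases h.ker_le_of_mem Q ((Ideal.span_singleton_le_iff_mem Q).1 hQq) with h' | h' | h'
    · exact h'
    · obtain ⟨s, hs, hs1⟩ := h21
      exact absurd ((RingHom.mem_ker).1 (hQle (h' ((RingHom.mem_ker).2 hs)))) hs1
    · obtain ⟨s, hs, hs1⟩ := h31
      exact absurd ((RingHom.mem_ker).1 (hQle (h' ((RingHom.mem_ker).2 hs)))) hs1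

/-- **The special fibre is reduced along the first component.** -/
theorem hred_first (h : ThreeComponents red₁ red₂ red₃ ιu ιv ιw rbar W q qB)
    (h21 : ∃ s : B, red₂ s = 0 ∧ red₁ s ≠ 0) (h31 : ∃ s : B, red₃ s = 0 ∧ red₁ s ≠ 0) :
    ∀ b ∈ RingHom.ker red₁, ∃ s : B, s ∉ RingHom.ker red₁ ∧ qB ∣ s * b := by
  obtain ⟨s₂, hs₂, hs₂1⟩ := h21
  obtain ⟨s₃, hs₃, hs₃1⟩ := h31
  intro b hb
  refine ⟨s₂ ^ (q - 1) * s₃, fun hmem => ?_, ?_⟩
  · rw [RingHom.mem_ker, map_mul, map_pow] at hmem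
    rcases mul_eq_zero.1 hmem with h' | h'
    · exact hs₂1 (pow_eq_zero_iff (fun hn => by
        rw [hn, pow_zero] at h'
        exact one_ne_zero h') |>.mp h')
    · exact hs₃1 h'
  · rw [← Ideal.mem_span_singleton]
    have := h.mul_mem_span ((RingHom.mem_ker).1 hb)
      (Ideal.pow_mem_pow ((RingHom.mem_ker).2 hs₂) (q - 1)) hs₃
    have e : s₂ ^ (q - 1) * s₃ * b = b * s₂ ^ (q - 1) * s₃ := by ring
    rw [e]
    exact this

/-- The third kernel is a vertical prime when it contains neither of the two other ones. -/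
theorem ker₃_mem_minimalPrimes_of_sep (h : ThreeComponents red₁ red₂ red₃ ιu ιv ιw rbar W q qB)
    (hq₃ : red₃ qB = 0)
    (h13 : ∃ s : B, red₁ s = 0 ∧ red₃ s ≠ 0) (h23 : ∃ s : B, red₂ s = 0 ∧ red₃ s ≠ 0) :
    RingHom.ker red₃ ∈ (Ideal.span {qB} : Ideal B).minimalPrimes := by
  refine ⟨⟨RingHom.ker_isPrime red₃, ?_⟩, ?_⟩
  · rw [Ideal.span_singleton_le_iff_mem]
    exact (RingHom.mem_ker).2 hq₃
  · rintro Q ⟨hQ, hQq⟩ hQle
    haveI := hQ
    rcases h.ker_le_of_mem Q ((Ideal.span_singleton_le_iff_mem Q).1 hQq) with h' | h' | h'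
    · obtain ⟨s, hs, hs3⟩ := h13
      exact absurd ((RingHom.mem_ker).1 (hQle (h' ((RingHom.mem_ker).2 hs)))) hs3
    · obtain ⟨s, hs, hs3⟩ := h23
      exact absurd ((RingHom.mem_ker).1 (hQle (h' ((RingHom.mem_ker).2 hs)))) hs3
    · exact h'

/-- The middle kernel is a vertical prime when it contains neither of the two other ones. -/
theorem ker₂_mem_minimalPrimes_of_sep (h : ThreeComponents red₁ red₂ red₃ ιu ιv ιw rbar W q qB)
    (hq₂ : red₂ qB = 0)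
    (h12 : ∃ s : B, red₁ s = 0 ∧ red₂ s ≠ 0) (h32 : ∃ s : B, red₃ s = 0 ∧ red₂ s ≠ 0) :
    RingHom.ker red₂ ∈ (Ideal.span {qB} : Ideal B).minimalPrimes := by
  refine ⟨⟨RingHom.ker_isPrime red₂, ?_⟩, ?_⟩
  · rw [Ideal.span_singleton_le_iff_mem]
    exact (RingHom.mem_ker).2 hq₂
  · rintro Q ⟨hQ, hQq⟩ hQle
    haveI := hQ
    rcases h.ker_le_of_mem Q ((Ideal.span_singleton_le_iff_mem Q).1 hQq) with h' | h' | h'
    · obtain ⟨s, hs, hs2⟩ := h12
      exact absurd ((RingHom.mem_ker).1 (hQle (h' ((RingHom.mem_ker).2 hs)))) hs2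
    · exact h'
    · obtain ⟨s, hs, hs2⟩ := h32
      exact absurd ((RingHom.mem_ker).1 (hQle (h' ((RingHom.mem_ker).2 hs)))) hs2

/-- **The special fibre is reduced along the third component.** -/
theorem hred_third (h : ThreeComponents red₁ red₂ red₃ ιu ιv ιw rbar W q qB)
    (h13 : ∃ s : B, red₁ s = 0 ∧ red₃ s ≠ 0) (h23 : ∃ s : B, red₂ s = 0 ∧ red₃ s ≠ 0) :
    ∀ b ∈ RingHom.ker red₃, ∃ s : B, s ∉ RingHom.ker red₃ ∧ qB ∣ s * b := by
  obtain ⟨s₁, hs₁, hs₁3⟩ := h13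
  obtain ⟨s₂, hs₂, hs₂3⟩ := h23
  intro b hb
  refine ⟨s₁ * s₂ ^ (q - 1), fun hmem => ?_, ?_⟩
  · rw [RingHom.mem_ker, map_mul, map_pow] at hmem
    rcases mul_eq_zero.1 hmem with h' | h'
    · exact hs₁3 h'
    · exact hs₂3 (pow_eq_zero_iff (fun hn => by
        rw [hn, pow_zero] at h'
        exact one_ne_zero h') |>.mp h')
  · rw [← Ideal.mem_span_singleton]
    exact h.mul_mem_span hs₁ (Ideal.pow_mem_pow ((RingHom.mem_ker).2 hs₂) (q - 1))
      ((RingHom.mem_ker).1 hb)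

/-- **Summary in the `Vert` vocabulary**: the inputs of the canonical-family criterion.  Every
vertical prime has multiplicity at most `q`; the three kernels are exactly the vertical primes;
the special fibre is reduced along the first one. -/
theorem vert_inputs (h : ThreeComponents red₁ red₂ red₃ ιu ιv ιw rbar W q qB) (hq : 0 < q)
    (hq₁ : red₁ qB = 0) (hq₂ : red₂ qB = 0) (hq₃ : red₃ qB = 0)
    (hW2 : ∃ d : D, W (W d) ≠ d) (hW4 : ∃ d : D, W (W (W (W d))) ≠ d) :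
    (∀ P : Vert qB, ∀ b ∈ (P : Ideal B), ∃ s : B, s ∉ (P : Ideal B) ∧ qB ∣ s * b ^ q) ∧
    (∃ P₀ : Vert qB, (P₀ : Ideal B) = RingHom.ker red₁ ∧
      ∀ b ∈ (P₀ : Ideal B), ∃ s : B, s ∉ (P₀ : Ideal B) ∧ qB ∣ s * b) ∧
    (∃ P₂ : Vert qB, (P₂ : Ideal B) = RingHom.ker red₂) ∧
    (∃ P₃ : Vert qB, (P₃ : Ideal B) = RingHom.ker red₃ ∧
      ∀ b ∈ (P₃ : Ideal B), ∃ s : B, s ∉ (P₃ : Ideal B) ∧ qB ∣ s * b) ∧
    (∀ P : Vert qB, (P : Ideal B) = RingHom.ker red₁ ∨ (P : Ideal B) = RingHom.ker red₂ ∨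
      (P : Ideal B) = RingHom.ker red₃) :=
  ⟨hmult_vert h hq hq₁ hq₂ hq₃,
    ⟨⟨_, ker_mem_minimalPrimes_of_sep h hq₁ (exists_sep₂₁ h hW2) (exists_sep₃₁ h hW4)⟩, rfl,
      hred_first h (exists_sep₂₁ h hW2) (exists_sep₃₁ h hW4)⟩,
    ⟨⟨_, ker₂_mem_minimalPrimes_of_sep h hq₂ (exists_sep₁₂ h hW2) (exists_sep₃₂ h hW2)⟩, rfl⟩,
    ⟨⟨_, ker₃_mem_minimalPrimes_of_sep h hq₃ (exists_sep₁₃ h hW4) (exists_sep₂₃ h hW2)⟩, rfl,
      hred_third h (exists_sep₁₃ h hW4) (exists_sep₂₃ h hW2)⟩,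
    vert_eq_ker h hq₁ hq₂ hq₃⟩

end Three

end Fermat.Agent.S36.H40
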