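import Mathlib
import Fermat.Agent.S34.H35_SatCoord

/-!
# S36 / (M1)(f), (E2) `hsat`: saturation for three places, abstract core (helper35)

Level-`q²` twin of `S34/H35_SatPlaces` + `S34/H35_SatCoord`.

`F₁ → L` (`φ`) a ring hom (the inclusion of the level-`qL` function field in the level-`q²L` one),
`S₀ Sᵢ ⊆ F₁` two subrings (the two S34 places of `F₁`), `θ ∈ L` a root of a monic `g ∈ F₁[X]` with
coefficients in `S₀ ∩ Sᵢ`, minimal.  `Va Vb Vc ⊆ L` three subrings (the three places of `L`) with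
`Va ⊆ S₀[θ]` and `Vb ∩ Vc ⊆ Sᵢ[θ]`.

* `coeff_modByMonic_mem` : `%ₘ` by a monic polynomial preserves "coefficients in a subring";
* `exists_coeff_mem_inf` : `S₀[θ] ∩ Sᵢ[θ] = (S₀ ∩ Sᵢ)[θ]`;
* `satAt_eval₂_of_coeff` : `S[θ]` is saturated at the chart coordinate `x` as soon as `S` and `θ`
  are;
* `satAt_of_mem_three`, `isIntegral_of_mem_three` : **(SAT36)**
  `z ∈ Va ∩ Vb ∩ Vc`, `q z` integral over `A₁[x]` ⟹ `z` integral over `A₁[x]`;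
* `exists_eq_mul_of_three` : **(hinf36)** `z` integral, `z ∈ q Va ∩ q Vb ∩ q Vc` ⟹ `z = q z'`,
  `z'` integral;
* `exists_eq_mul_of_res_three` : the same with residue maps (two unramified places with kernel
  `q V`, one ramified place with kernel `τ V`, `q = unit · τ ^ n`);
* `exists_mul_of_mem_ideal_pow` : `I ⊆ τ Vc ⟹ I ^ n ⊆ τ ^ n Vc` (to unfold the symbolic power in
  the field `hsat` of `S36.H83.ThreeComponents`).
-/

set_option autoImplicit false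
set_option linter.unusedSectionVars false
set_option linter.style.haveILetI false

noncomputable section

open Polynomial IntermediateField

namespace Fermat.Agent.S36.H35

open Fermat.Agent.S18 Fermat.Agent.S34 Fermat.Agent.S34.H35

/-! ## Polynomials with coefficients in a subring -/

section Coeff

variable {R : Type*} [CommRing R]

/-- `%ₘ` by a monic polynomial preserves "all coefficients in the subring `S`". -/
theorem coeff_modByMonic_mem (S : Subring R) {p g : R[X]} (hg : g.Monic)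
    (hp : ∀ i, p.coeff i ∈ S) (hgS : ∀ i, g.coeff i ∈ S) (i : ℕ) : (p %ₘ g).coeff i ∈ S := by
  have hrange : ∀ r : R, r ∈ S → r ∈ Set.range S.subtype := fun r hr => ⟨⟨r, hr⟩, rfl⟩
  have hpl : p ∈ lifts S.subtype := (lifts_iff_coeff_lifts p).2 fun n => hrange _ (hp n)
  have hgl : g ∈ lifts S.subtype := (lifts_iff_coeff_lifts g).2 fun n => hrange _ (hgS n)
  obtain ⟨P, hP⟩ := hpl
  obtain ⟨G, hG, -, hGm⟩ := lifts_and_natDegree_eq_and_monic hgl hg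
  have h : p %ₘ g = (P %ₘ G).map S.subtype := by
    rw [map_modByMonic _ hGm, hG]
    congr 1
    exact hP.symm
  rw [h, coeff_map]
  exact ((P %ₘ G).coeff i).2

variable {L : Type*} [CommRing L]

/-- **`S₀[θ] ∩ Sᵢ[θ] = (S₀ ∩ Sᵢ)[θ]`** for a root `θ` of a monic minimal `g` with coefficients in
`S₀ ∩ Sᵢ`. -/
theorem exists_coeff_mem_inf [Nontrivial R] (φ : R →+* L) (S₀ Sᵢ : Subring R) (θ : L) {g : R[X]}
    (hg : g.Monic) (hg₀ : ∀ i, g.coeff i ∈ S₀) (hgᵢ : ∀ i, g.coeff i ∈ Sᵢ)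
    (hθ : g.eval₂ φ θ = 0) (hmin : ∀ p : R[X], p.eval₂ φ θ = 0 → g ∣ p) {z : L}
    (h₀ : ∃ p : R[X], (∀ i, p.coeff i ∈ S₀) ∧ z = p.eval₂ φ θ)
    (hᵢ : ∃ p : R[X], (∀ i, p.coeff i ∈ Sᵢ) ∧ z = p.eval₂ φ θ) :
    ∃ p : R[X], (∀ i, p.coeff i ∈ S₀ ⊓ Sᵢ) ∧ z = p.eval₂ φ θ := by
  obtain ⟨p₀, hp₀, e₀⟩ := h₀
  obtain ⟨pᵢ, hpᵢ, eᵢ⟩ := hᵢ
  have hmod : ∀ p : R[X], (p %ₘ g).eval₂ φ θ = p.eval₂ φ θ := by
    intro p
    conv_rhs => rw [← modByMonic_add_div p g, eval₂_add, eval₂_mul, hθ, zero_mul, add_zero]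
  have hzero : (p₀ %ₘ g - pᵢ %ₘ g).eval₂ φ θ = 0 := by
    rw [eval₂_sub, hmod, hmod, ← e₀, ← eᵢ, sub_self]
  have hdvd := hmin _ hzero
  have hdeg : (p₀ %ₘ g - pᵢ %ₘ g).degree < g.degree :=
    lt_of_le_of_lt (degree_sub_le _ _)
      (max_lt (degree_modByMonic_lt _ hg) (degree_modByMonic_lt _ hg))
  have heq : p₀ %ₘ g = pᵢ %ₘ g := by
    by_contra hne
    exact hg.not_dvd_of_degree_lt (sub_ne_zero.mpr hne) hdeg hdvd
  refine ⟨p₀ %ₘ g, fun i => ⟨coeff_modByMonic_mem S₀ hg hp₀ hg₀ i, ?_⟩, ?_⟩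
  · rw [heq]
    exact coeff_modByMonic_mem Sᵢ hg hpᵢ hgᵢ i
  · rw [hmod, e₀]

end Coeff

/-! ## Saturation at a chart coordinate -/

section Chart

variable {A₁ : Type*} [CommRing A₁] [IsDomain A₁] {L : Type*} [Field L] [Algebra A₁ L]
variable {L₁ : Type*} [Field L₁] [Algebra A₁ L₁] [IsFractionRing A₁ L₁] [Algebra L₁ L]
  [IsScalarTower A₁ L₁ L] [IsIntegrallyClosed A₁]

/-- `S[θ]` is saturated at `x` as soon as `S` and `θ` are. -/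
theorem satAt_eval₂_of_coeff {q : A₁} (hq : Prime q) {x : L} (htr : Transcendental L₁ x)
    {F₁ : Type*} [CommRing F₁] (φ : F₁ →+* L) (S : Subring F₁)
    (hS : ∀ c ∈ S, SatAt q x (φ c)) {θ : L} (hθ : SatAt q x θ) (p : F₁[X])
    (hp : ∀ i, p.coeff i ∈ S) : SatAt q x (p.eval₂ φ θ) := by
  have htrA : Transcendental A₁ x := H40.transcendental_of_tower (K := L₁) x htr
  haveI := H26.ChartBase.isIntegrallyClosed x htrA
  have hπ := prime_algebraMap_adjoin hq htrA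
  rw [← mem_satRing_adjoin_iff htrA hπ, eval₂_eq_sum_range]
  refine Subring.sum_mem _ fun i _ => ?_
  exact Subring.mul_mem _ ((mem_satRing_adjoin_iff htrA hπ).2 (hS _ (hp i)))
    (Subring.pow_mem _ ((mem_satRing_adjoin_iff htrA hπ).2 hθ) i)

section ThreePlaces

variable {q : A₁} (hq : Prime q) {x : L} (htr : Transcendental L₁ x)
  [Algebra.IsAlgebraic L₁⟮x⟯ L]
  {F₁ : Type*} [CommRing F₁] [Nontrivial F₁] (φ : F₁ →+* L) (S₀ Sᵢ : Subring F₁) (θ : L)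
  {g : F₁[X]} (hg : g.Monic) (hg₀ : ∀ i, g.coeff i ∈ S₀) (hgᵢ : ∀ i, g.coeff i ∈ Sᵢ)
  (hθ0 : g.eval₂ φ θ = 0) (hmin : ∀ p : F₁[X], p.eval₂ φ θ = 0 → g ∣ p)
  (Va Vb Vc : Subring L)
  (ha : ∀ z : L, z ∈ Va → ∃ p : F₁[X], (∀ i, p.coeff i ∈ S₀) ∧ z = p.eval₂ φ θ)
  (hbc : ∀ z : L, z ∈ Vb → z ∈ Vc → ∃ p : F₁[X], (∀ i, p.coeff i ∈ Sᵢ) ∧ z = p.eval₂ φ θ)
  (hS : ∀ c : F₁, c ∈ S₀ → c ∈ Sᵢ → SatAt q x (φ c)) (hθ : SatAt q x θ)

include hq htr hg hg₀ hgᵢ hθ0 hmin ha hbc hS hθ in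
/-- `Va ∩ Vb ∩ Vc` is saturated at the coordinate `x`. -/
theorem satAt_of_mem_three {z : L} (h₁ : z ∈ Va) (h₂ : z ∈ Vb) (h₃ : z ∈ Vc) : SatAt q x z := by
  obtain ⟨p, hp, rfl⟩ := exists_coeff_mem_inf φ S₀ Sᵢ θ hg hg₀ hgᵢ hθ0 hmin (ha z h₁)
    (hbc z h₂ h₃)
  exact satAt_eval₂_of_coeff (L₁ := L₁) hq htr φ (S₀ ⊓ Sᵢ)
    (fun c hc => hS c hc.1 hc.2) hθ p hp

include hq htr hg hg₀ hgᵢ hθ0 hmin ha hbc hS hθ in
/-- **(SAT36)**. -/
theorem isIntegral_of_mem_three {z : L} (h₁ : z ∈ Va) (h₂ : z ∈ Vb) (h₃ : z ∈ Vc)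
    (h : IsIntegral (Algebra.adjoin A₁ {x}) (algebraMap A₁ L q * z)) :
    IsIntegral (Algebra.adjoin A₁ {x}) z :=
  (satAt_of_mem_three (L₁ := L₁) hq htr φ S₀ Sᵢ θ hg hg₀ hgᵢ hθ0 hmin Va Vb Vc ha hbc hS hθ
    h₁ h₂ h₃).isIntegral (L₁ := L₁) hq htr h

include hq htr hg hg₀ hgᵢ hθ0 hmin ha hbc hS hθ in
/-- **(hinf36)**, membership form: an integral element lying in `q Va ∩ q Vb ∩ q Vc` is `q` times
an integral element. -/
theorem exists_eq_mul_of_three (z : L) (hz : IsIntegral (Algebra.adjoin A₁ {x}) z)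
    (ea : ∃ y ∈ Va, z = algebraMap A₁ L q * y) (eb : ∃ y ∈ Vb, z = algebraMap A₁ L q * y)
    (ec : ∃ y ∈ Vc, z = algebraMap A₁ L q * y) :
    ∃ z' : L, IsIntegral (Algebra.adjoin A₁ {x}) z' ∧ z' ∈ Va ∧ z' ∈ Vb ∧ z' ∈ Vc ∧
      z = algebraMap A₁ L q * z' := by
  obtain ⟨y₁, hy₁, e₁⟩ := ea
  obtain ⟨y₂, hy₂, e₂⟩ := eb
  obtain ⟨y₃, hy₃, e₃⟩ := ec
  have hinj : Function.Injective (algebraMap A₁ L) := by
    rw [IsScalarTower.algebraMap_eq A₁ L₁ L]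
    exact (algebraMap L₁ L).injective.comp (IsFractionRing.injective A₁ L₁)
  have hqL : algebraMap A₁ L q ≠ 0 := (map_ne_zero_iff _ hinj).mpr hq.ne_zero
  have h12 : y₁ = y₂ := mul_left_cancel₀ hqL (e₁.symm.trans e₂)
  have h13 : y₁ = y₃ := mul_left_cancel₀ hqL (e₁.symm.trans e₃)
  subst h12
  subst h13
  exact ⟨y₁, isIntegral_of_mem_three (L₁ := L₁) hq htr φ S₀ Sᵢ θ hg hg₀ hgᵢ hθ0 hmin Va Vb Vc
    ha hbc hS hθ hy₁ hy₂ hy₃ (e₁ ▸ hz), hy₁, hy₂, hy₃, e₁⟩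

variable {κa κb κc : Type*} [CommRing κa] [CommRing κb] [CommRing κc]
  (resa : ↥Va →+* κa) (resb : ↥Vb →+* κb) (resc : ↥Vc →+* κc)

include hq htr hg hg₀ hgᵢ hθ0 hmin ha hbc hS hθ in
/-- **(hinf36)**, residue form: two unramified places `Va`, `Vb` (kernel of the residue map
`= q V`) and one ramified place `Vc` (kernel `= τ Vc`, `q = unit · τ ^ n`).  An integral `z` with
zero residue at `Va` and `Vb`, and with `s z ∈ τ ^ n Vc` for some `s ∈ Vc` of non-zero residue, is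
`q` times an integral element. -/
theorem exists_eq_mul_of_res_three
    (hkera : ∀ (y : L) (hy : y ∈ Va), resa ⟨y, hy⟩ = 0 → ∃ z ∈ Va, y = algebraMap A₁ L q * z)
    (hkerb : ∀ (y : L) (hy : y ∈ Vb), resb ⟨y, hy⟩ = 0 → ∃ z ∈ Vb, y = algebraMap A₁ L q * z)
    (τ : L) (n : ℕ) (hunif : ∃ u : L, u ∈ Vc ∧ u⁻¹ ∈ Vc ∧ algebraMap A₁ L q = u * τ ^ n)
    (hinvc : ∀ (y : L) (hy : y ∈ Vc), resc ⟨y, hy⟩ ≠ 0 → y⁻¹ ∈ Vc)
    (z : L) (hz : IsIntegral (Algebra.adjoin A₁ {x}) z) (h₁ : z ∈ Va) (h₂ : z ∈ Vb)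
    (e₁ : resa ⟨z, h₁⟩ = 0) (e₂ : resb ⟨z, h₂⟩ = 0)
    (e₃ : ∃ (s : L) (hs : s ∈ Vc), resc ⟨s, hs⟩ ≠ 0 ∧ ∃ w ∈ Vc, s * z = τ ^ n * w) :
    ∃ z' : L, IsIntegral (Algebra.adjoin A₁ {x}) z' ∧ z' ∈ Va ∧ z' ∈ Vb ∧ z' ∈ Vc ∧
      z = algebraMap A₁ L q * z' := by
  refine exists_eq_mul_of_three (L₁ := L₁) hq htr φ S₀ Sᵢ θ hg hg₀ hgᵢ hθ0 hmin Va Vb Vc ha hbc
    hS hθ z hz (hkera z h₁ e₁) (hkerb z h₂ e₂) ?_
  obtain ⟨s, hs, hres, w, hw, hsz⟩ := e₃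
  obtain ⟨u, hu, hu', hqu⟩ := hunif
  have hinj : Function.Injective (algebraMap A₁ L) := by
    rw [IsScalarTower.algebraMap_eq A₁ L₁ L]
    exact (algebraMap L₁ L).injective.comp (IsFractionRing.injective A₁ L₁)
  have hqL : algebraMap A₁ L q ≠ 0 := (map_ne_zero_iff _ hinj).mpr hq.ne_zero
  have hs0 : s ≠ 0 := by
    rintro rfl
    apply hres
    have : (⟨0, hs⟩ : ↥Vc) = 0 := rfl
    rw [this, map_zero]
  have hu0 : u ≠ 0 := by
    rintro rfl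
    rw [zero_mul] at hqu
    exact hqL hqu
  refine ⟨s⁻¹ * u⁻¹ * w, Subring.mul_mem _ (Subring.mul_mem _ (hinvc s hs hres) hu') hw, ?_⟩
  have : z = s⁻¹ * (s * z) := by rw [← mul_assoc, inv_mul_cancel₀ hs0, one_mul]
  rw [this, hsz, hqu]
  field_simp

end ThreePlaces

end Chart

/-! ## Unfolding an ideal power inside a valuation ring -/

section IdealPow

variable {B L : Type*} [CommRing B] [CommRing L]

/-- If every element of the ideal `I` of `B` is divisible by `τ` in the subring `Vc ⊇ B`, then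
every element of `I ^ n` is divisible by `τ ^ n` in `Vc`. -/
theorem exists_mul_of_mem_ideal_pow (incl : B →+* L) (Vc : Subring L) (hB : ∀ b : B, incl b ∈ Vc)
    (τ : L) (I : Ideal B) (hI : ∀ y ∈ I, ∃ w ∈ Vc, incl y = τ * w) (n : ℕ) :
    ∀ y ∈ I ^ n, ∃ w ∈ Vc, incl y = τ ^ n * w := by
  induction n with
  | zero =>
    intro y _
    exact ⟨incl y, hB y, by rw [pow_zero, one_mul]⟩
  | succ n ih =>
    intro y hy
    rw [pow_succ] at hy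
    refine Submodule.mul_induction_on hy ?_ ?_
    · intro a ha b hb
      obtain ⟨w₁, hw₁, e₁⟩ := ih a ha
      obtain ⟨w₂, hw₂, e₂⟩ := hI b hb
      refine ⟨w₁ * w₂, Subring.mul_mem _ hw₁ hw₂, ?_⟩
      rw [map_mul, e₁, e₂, pow_succ]
      ring
    · intro a b ⟨w₁, hw₁, e₁⟩ ⟨w₂, hw₂, e₂⟩
      refine ⟨w₁ + w₂, Subring.add_mem _ hw₁ hw₂, ?_⟩
      rw [map_add, e₁, e₂, mul_add]

end IdealPow

end Fermat.Agent.S36.H35
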