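/-
helper83: S36, row (E2): the chart coordinate `J₃ = j(z) · j(qz) · j(q²z)` of the function field
`FK = modularFunctionFieldFullC K N` (`q * q ∣ N`).  Twin of `S34.H95_CoordJ` (`J = j · j_q`).

With `J₃` all three degeneracy maps `f(z)`, `f(qz)`, `f(q²z)` send the level-`L` charts
`chartB R j^(±1)` into `chartB R J₃^(±1)`, and both level-`q` maps `α^*`, `β^*` send the S34 charts
`chartB R (j · j_q)^(±1)` of level `q L` into them.

* `J3K K N q hq2`            : `J₃ = jK * jdK q * jdK (q * q)`;
* `order_J3K`                : its `t`-order is `-(1 + q + q * q)`;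
* `transcendental_J3K(_inv)` , `finiteDimensional_J3K(_inv)`, `isSeparable_J3K(_inv)`.
-/
import Fermat.Agent.S34.H95_CoordJ

set_option autoImplicit false

noncomputable section

namespace Fermat.Agent.S36.H83

open ModularCurve HahnSeries IntermediateField Fermat.Agent.S28 Fermat.Agent.S18

section Coord

variable (K : Type) [Field K] (N : ℕ) [NeZero N] (q : ℕ) [NeZero q] (hq2 : q * q ∣ N)

/-- The chart coordinate `J₃ = j(z) · j(qz) · j(q²z)`. -/
def J3K : modularFunctionFieldFullC K N :=
  H16.jK K N * H99.jdK K N q (Dvd.dvd.trans (Dvd.intro q rfl) hq2) * H99.jdK K N (q * q) hq2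

@[simp]
theorem coe_J3K : ((J3K K N q hq2 : modularFunctionFieldFullC K N) : LaurentSeries K) =
    jqModC K * qExpand K q (jqModC K) * qExpand K (q * q) (jqModC K) := rfl

/-- `J₃ = J · j(q²z)` with `J = j · j_q` the S34 coordinate. -/
theorem J3K_eq_JK_mul :
    J3K K N q hq2 = S34.H95.JK K N q (Dvd.dvd.trans (Dvd.intro q rfl) hq2) *
      H99.jdK K N (q * q) hq2 := rfl

theorem order_J3K :
    ((J3K K N q hq2 : modularFunctionFieldFullC K N) : LaurentSeries K).order =
      -(1 + (q : ℤ) + (q : ℤ) * (q : ℤ)) := by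
  have h1 : jqModC K ≠ 0 := fun h => by
    have := H39.order_jqModC (R := K)
    rw [h, HahnSeries.order_zero] at this
    omega
  have h2 : qExpand K q (jqModC K) ≠ 0 := (H39.qExpand_eq_zero_iff q (jqModC K)).not.2 h1
  have h3 : qExpand K (q * q) (jqModC K) ≠ 0 :=
    (H39.qExpand_eq_zero_iff (q * q) (jqModC K)).not.2 h1
  rw [coe_J3K, H39.order_mul' (mul_ne_zero h1 h2) h3, H39.order_mul' h1 h2, H39.order_qExpand,
    H39.order_qExpand, H39.order_jqModC]
  push_cast
  ring

theorem J3K_ne_zero : J3K K N q hq2 ≠ 0 := by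
  intro h
  have := order_J3K K N q hq2
  rw [h] at this
  simp at this
  have h0 : (0 : ℤ) ≤ q := Int.natCast_nonneg q
  nlinarith

/-- `J₃` is transcendental over `K`. -/
theorem transcendental_J3K : Transcendental K (J3K K N q hq2) := by
  have hlt : ((J3K K N q hq2 : modularFunctionFieldFullC K N) : LaurentSeries K).order < 0 := by
    rw [order_J3K]
    have : (0 : ℤ) ≤ q := Int.natCast_nonneg q
    nlinarith
  have h : Transcendental K
      (algebraMap (modularFunctionFieldFullC K N) (LaurentSeries K) (J3K K N q hq2)) :=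
    H39.transcendental_of_order_neg hlt
  exact (transcendental_algebraMap_iff
    (algebraMap (modularFunctionFieldFullC K N) (LaurentSeries K)).injective).1 h

/-- `J₃⁻¹` is transcendental over `K`. -/
theorem transcendental_J3K_inv : Transcendental K (J3K K N q hq2)⁻¹ := by
  intro h
  exact transcendental_J3K K N q hq2 (by simpa using h.inv)

variable (hNK : ((N : ℕ) : K) ≠ 0)

include hNK in
/-- `FK / K(J₃)` is finite. -/
theorem finiteDimensional_J3K :
    FiniteDimensional K⟮J3K K N q hq2⟯ (modularFunctionFieldFullC K N) := by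
  haveI := H16.finiteDimensional_fullC_gen N K hNK
  exact CA.H95.finiteDimensional_adjoin_simple_of_transcendental (H16.jK K N)
    (transcendental_J3K K N q hq2)

include hNK in
/-- `FK / K(J₃⁻¹)` is finite. -/
theorem finiteDimensional_J3K_inv :
    FiniteDimensional K⟮(J3K K N q hq2)⁻¹⟯ (modularFunctionFieldFullC K N) := by
  haveI := H16.finiteDimensional_fullC_gen N K hNK
  exact CA.H95.finiteDimensional_adjoin_simple_of_transcendental (H16.jK K N)
    (transcendental_J3K_inv K N q hq2)

/-- `FK / K(J₃)` is separable in characteristic zero. -/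
theorem isSeparable_J3K [CharZero K] :
    Algebra.IsSeparable K⟮J3K K N q hq2⟯ (modularFunctionFieldFullC K N) := by
  haveI := finiteDimensional_J3K K N q hq2 (H99.natCast_ne_zero₀ N K)
  infer_instance

/-- `FK / K(J₃⁻¹)` is separable in characteristic zero. -/
theorem isSeparable_J3K_inv [CharZero K] :
    Algebra.IsSeparable K⟮(J3K K N q hq2)⁻¹⟯ (modularFunctionFieldFullC K N) := by
  haveI := finiteDimensional_J3K_inv K N q hq2 (H99.natCast_ne_zero₀ N K)
  infer_instance

end Coord

end Fermat.Agent.S36.H83
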