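/-
helper95 — S36 (E2-coord): integrality at the level-`q²` chart coordinate
`J₃ = j · j_q · j_{q²}` of `FK = modularFunctionFieldFullC K N` (`q * q ∣ N`).

* generic `(P1)`, `(P2)` : from `y` integral over `R[x]`:
  `y` integral over `R[x * y]`, `x⁻¹` integral over `R[(x * y)⁻¹]`;
* `j`, `j_q`, `j_{q²}` are integral over `R0[J₃]`; their inverses over `R0[J₃⁻¹]`;
* `R0[j]` and `R0[J₃]` have the same integral closure (`hIC` of `S34.H35.SatAt.change`).
-/
import Fermat.Agent.S34.H99_L0ChartIC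
import Fermat.Agent.S34.H95_ChartHint
import Fermat.Agent.S36.H83_CoordJ3

set_option autoImplicit false
set_option linter.unusedSectionVars false

noncomputable section

namespace Fermat.Agent.S36.H95

open Polynomial ModularCurve Fermat.Agent.S28 Fermat.Agent.S18

/-! ### Generic: the product coordinate, from integrality instead of an explicit relation -/

section Generic

variable {R F : Type*} [CommRing R] [Field F] [Algebra R F]

/-- **(P1)** `y` integral over `R[x]` ⟹ `y` integral over `R[x * y]`. -/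
theorem isIntegral_adjoin_mul_of_isIntegral {x y : F}
    (h : IsIntegral (Algebra.adjoin R {x}) y) : IsIntegral (Algebra.adjoin R {x * y}) y := by
  obtain ⟨P, hPm, hP⟩ := S34.H95.isIntegralElem_aeval_of_isIntegral_adjoin x h
  exact CA.H55.isIntegral_adjoin_mul P hPm x y hP

/-- **(P2)** `y` integral over `R[x]`, `x, y ≠ 0` ⟹ `x⁻¹` integral over `R[(x * y)⁻¹]`. -/
theorem isIntegral_adjoin_mul_inv_of_isIntegral {x y : F} (hx : x ≠ 0) (hy : y ≠ 0)
    (h : IsIntegral (Algebra.adjoin R {x}) y) :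
    IsIntegral (Algebra.adjoin R {(x * y)⁻¹}) x⁻¹ := by
  obtain ⟨P, hPm, hP⟩ := S34.H95.isIntegralElem_aeval_of_isIntegral_adjoin x h
  exact CA.H55.isIntegral_adjoin_mul_inv P hPm x y hx hy hP

/-- The generator is integral over its own `R[u]`. -/
theorem isIntegral_adjoin_self (u : F) : IsIntegral (Algebra.adjoin R {u}) u :=
  isIntegral_algebraMap (R := Algebra.adjoin R {u})
    (x := ⟨u, Algebra.self_mem_adjoin_singleton R u⟩)

/-- Three coordinates `a, b, c` with `b` integral over `R[a * b]`, `a` over `R[a * b]`,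
`c` over `R[b]`, `b` over `R[c]`, `a` over `R[b]`: all three are integral over `R[a * b * c]`. -/
theorem isIntegral_adjoin_mul_mul {a b c : F}
    (hab_a : IsIntegral (Algebra.adjoin R {a * b}) a)
    (hab_b : IsIntegral (Algebra.adjoin R {a * b}) b)
    (hb_c : IsIntegral (Algebra.adjoin R {b}) c)
    (hc_b : IsIntegral (Algebra.adjoin R {c}) b)
    (hb_a : IsIntegral (Algebra.adjoin R {b}) a) :
    IsIntegral (Algebra.adjoin R {a * b * c}) a ∧ IsIntegral (Algebra.adjoin R {a * b * c}) b ∧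
      IsIntegral (Algebra.adjoin R {a * b * c}) c := by
  -- `c` over `R[u]`, `u = a * b`
  have hu_c : IsIntegral (Algebra.adjoin R {a * b}) c := H55T.isIntegral_adjoin_trans hab_b hb_c
  have hJ_c : IsIntegral (Algebra.adjoin R {a * b * c}) c :=
    isIntegral_adjoin_mul_of_isIntegral hu_c
  -- `u` over `R[c]`
  have hc_a : IsIntegral (Algebra.adjoin R {c}) a := H55T.isIntegral_adjoin_trans hc_b hb_a
  have hc_u : IsIntegral (Algebra.adjoin R {c}) (a * b) := hc_a.mul hc_b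
  have hJ_u : IsIntegral (Algebra.adjoin R {a * b * c}) (a * b) := by
    have := isIntegral_adjoin_mul_of_isIntegral hc_u
    rwa [mul_comm c (a * b)] at this
  exact ⟨H55T.isIntegral_adjoin_trans hJ_u hab_a, H55T.isIntegral_adjoin_trans hJ_u hab_b, hJ_c⟩

/-- The same on the chart at infinity: `a⁻¹, b⁻¹, c⁻¹` are integral over `R[(a * b * c)⁻¹]`. -/
theorem isIntegral_adjoin_mul_mul_inv {a b c : F} (ha : a ≠ 0) (hb : b ≠ 0) (hc : c ≠ 0)
    (hab_a : IsIntegral (Algebra.adjoin R {(a * b)⁻¹}) a⁻¹)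
    (hab_b : IsIntegral (Algebra.adjoin R {(a * b)⁻¹}) b⁻¹)
    (hu_b : IsIntegral (Algebra.adjoin R {a * b}) b)
    (hb_c : IsIntegral (Algebra.adjoin R {b}) c)
    (hc_b : IsIntegral (Algebra.adjoin R {c}) b)
    (hb_a : IsIntegral (Algebra.adjoin R {b}) a) :
    IsIntegral (Algebra.adjoin R {(a * b * c)⁻¹}) a⁻¹ ∧
      IsIntegral (Algebra.adjoin R {(a * b * c)⁻¹}) b⁻¹ ∧
      IsIntegral (Algebra.adjoin R {(a * b * c)⁻¹}) c⁻¹ := by
  have hab : a * b ≠ 0 := mul_ne_zero ha hb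
  have hu_c : IsIntegral (Algebra.adjoin R {a * b}) c := H55T.isIntegral_adjoin_trans hu_b hb_c
  -- `u⁻¹` over `R[J⁻¹]`
  have hJ_u : IsIntegral (Algebra.adjoin R {(a * b * c)⁻¹}) (a * b)⁻¹ :=
    isIntegral_adjoin_mul_inv_of_isIntegral hab hc hu_c
  -- `c⁻¹` over `R[J⁻¹]`
  have hc_a : IsIntegral (Algebra.adjoin R {c}) a := H55T.isIntegral_adjoin_trans hc_b hb_a
  have hc_u : IsIntegral (Algebra.adjoin R {c}) (a * b) := hc_a.mul hc_b
  have hJ_c : IsIntegral (Algebra.adjoin R {(a * b * c)⁻¹}) c⁻¹ := by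
    have := isIntegral_adjoin_mul_inv_of_isIntegral hc hab hc_u
    rwa [mul_comm c (a * b)] at this
  exact ⟨H55T.isIntegral_adjoin_trans hJ_u hab_a, H55T.isIntegral_adjoin_trans hJ_u hab_b, hJ_c⟩

end Generic

/-! ### The function field: `a = j`, `b = j_q`, `c = j_{q²}` -/

section FunctionField

variable (K : Type) [Field K] (N : ℕ) [NeZero N] (q : ℕ) [NeZero q] (hq : q ∣ N)
  (hq2 : q * q ∣ N)

/-- The level-`q²` chart coordinate `J₃ = j · j_q · j_{q²}`, as an explicit product. -/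
def J3 : modularFunctionFieldFullC K N :=
  S18.H16.jK K N * S18.H99.jdK K N q hq * S18.H99.jdK K N (q * q) hq2

theorem J3_eq_JK_mul :
    J3 K N q hq hq2 = S34.H95.JK K N q hq * S18.H99.jdK K N (q * q) hq2 := rfl

theorem J3_ne_zero : J3 K N q hq hq2 ≠ 0 :=
  mul_ne_zero (mul_ne_zero (S34.H99.jK_ne_zero K N) (S34.H99.jdK_ne_zero K N q hq))
    (S34.H99.jdK_ne_zero K N (q * q) hq2)

/-- `Φ_q(j_q, j_{q²}) = 0`. -/
theorem rel_jdK_jdK2 (D : ModularPolynomialData q) :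
    D.Φ.eval₂ ((Polynomial.aeval (R := ℤ) (S18.H99.jdK K N q hq)).toRingHom)
      (S18.H99.jdK K N (q * q) hq2) = 0 :=
  S34.H16.relFK_aeval K N q D q (q * q) rfl hq hq2

/-- `Φ_q(j_{q²}, j_q) = 0`. -/
theorem rel_jdK2_jdK (D : ModularPolynomialData q)
    (hD : ∀ (k : Type) [Field k] (ζ : kˣ), IsPrimitiveRoot ζ q → RootsAt k q ζ D.Φ) :
    D.Φ.eval₂ ((Polynomial.aeval (R := ℤ) (S18.H99.jdK K N (q * q) hq2)).toRingHom)
      (S18.H99.jdK K N q hq) = 0 :=
  S34.H16.relFK_swap_aeval K N q D hD q (q * q) rfl hq hq2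

variable {R0 : Type*} [CommRing R0] [Algebra R0 (modularFunctionFieldFullC K N)]

/-- `j_{q²}` is integral over `R0[j_q]`. -/
theorem isIntegral_adjoin_jdK_jdK2 (D : ModularPolynomialData q) :
    IsIntegral (Algebra.adjoin R0 {S18.H99.jdK K N q hq}) (S18.H99.jdK K N (q * q) hq2) :=
  S34.H99.isIntegral_adjoin_of_int _ _
    (CA.H55.isIntegral_adjoin_of_monic _ _ D.Φ D.monic (rel_jdK_jdK2 K N q hq hq2 D))

/-- `j_q` is integral over `R0[j_{q²}]`. -/
theorem isIntegral_adjoin_jdK2_jdK (D : ModularPolynomialData q)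
    (hD : ∀ (k : Type) [Field k] (ζ : kˣ), IsPrimitiveRoot ζ q → RootsAt k q ζ D.Φ) :
    IsIntegral (Algebra.adjoin R0 {S18.H99.jdK K N (q * q) hq2}) (S18.H99.jdK K N q hq) :=
  S34.H99.isIntegral_adjoin_of_int _ _
    (CA.H55.isIntegral_adjoin_of_monic _ _ D.Φ D.monic (rel_jdK2_jdK K N q hq hq2 D hD))

/-- `j` is integral over `R0[j_q]`. -/
theorem isIntegral_adjoin_jdK_jK (D : ModularPolynomialData q)
    (hD : ∀ (k : Type) [Field k] (ζ : kˣ), IsPrimitiveRoot ζ q → RootsAt k q ζ D.Φ) :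
    IsIntegral (Algebra.adjoin R0 {S18.H99.jdK K N q hq}) (S18.H16.jK K N) :=
  S34.H99.isIntegral_adjoin_of_int _ _
    (CA.H55.isIntegral_adjoin_of_monic _ _ D.Φ D.monic (S34.H99.rel_jdK_jK K N q hq D hD))

/-- **`j`, `j_q`, `j_{q²}` are integral over `R0[J₃]`** (`huint`, `hvint`, `hwint` at the chart
`J₃ ≠ ∞`). -/
theorem isIntegral_adjoin_J3 (D : ModularPolynomialData q)
    (hD : ∀ (k : Type) [Field k] (ζ : kˣ), IsPrimitiveRoot ζ q → RootsAt k q ζ D.Φ) :
    IsIntegral (Algebra.adjoin R0 {J3 K N q hq hq2}) (S18.H16.jK K N) ∧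
      IsIntegral (Algebra.adjoin R0 {J3 K N q hq hq2}) (S18.H99.jdK K N q hq) ∧
      IsIntegral (Algebra.adjoin R0 {J3 K N q hq hq2}) (S18.H99.jdK K N (q * q) hq2) :=
  isIntegral_adjoin_mul_mul
    (S34.H99.isIntegral_adjoin_JK_jK K N q hq D hD)
    (S34.H99.isIntegral_adjoin_JK_jdK K N q hq D)
    (isIntegral_adjoin_jdK_jdK2 K N q hq hq2 D)
    (isIntegral_adjoin_jdK2_jdK K N q hq hq2 D hD)
    (isIntegral_adjoin_jdK_jK K N q hq D hD)

theorem isIntegral_adjoin_J3_jK (D : ModularPolynomialData q)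
    (hD : ∀ (k : Type) [Field k] (ζ : kˣ), IsPrimitiveRoot ζ q → RootsAt k q ζ D.Φ) :
    IsIntegral (Algebra.adjoin R0 {J3 K N q hq hq2}) (S18.H16.jK K N) :=
  (isIntegral_adjoin_J3 K N q hq hq2 D hD).1

theorem isIntegral_adjoin_J3_jdK (D : ModularPolynomialData q)
    (hD : ∀ (k : Type) [Field k] (ζ : kˣ), IsPrimitiveRoot ζ q → RootsAt k q ζ D.Φ) :
    IsIntegral (Algebra.adjoin R0 {J3 K N q hq hq2}) (S18.H99.jdK K N q hq) :=
  (isIntegral_adjoin_J3 K N q hq hq2 D hD).2.1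

theorem isIntegral_adjoin_J3_jdK2 (D : ModularPolynomialData q)
    (hD : ∀ (k : Type) [Field k] (ζ : kˣ), IsPrimitiveRoot ζ q → RootsAt k q ζ D.Φ) :
    IsIntegral (Algebra.adjoin R0 {J3 K N q hq hq2}) (S18.H99.jdK K N (q * q) hq2) :=
  (isIntegral_adjoin_J3 K N q hq hq2 D hD).2.2

/-- **`j⁻¹`, `j_q⁻¹`, `j_{q²}⁻¹` are integral over `R0[J₃⁻¹]`** (the chart `J₃ ≠ 0`). -/
theorem isIntegral_adjoin_J3_inv (D : ModularPolynomialData q)
    (hD : ∀ (k : Type) [Field k] (ζ : kˣ), IsPrimitiveRoot ζ q → RootsAt k q ζ D.Φ) :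
    IsIntegral (Algebra.adjoin R0 {(J3 K N q hq hq2)⁻¹}) (S18.H16.jK K N)⁻¹ ∧
      IsIntegral (Algebra.adjoin R0 {(J3 K N q hq hq2)⁻¹}) (S18.H99.jdK K N q hq)⁻¹ ∧
      IsIntegral (Algebra.adjoin R0 {(J3 K N q hq hq2)⁻¹}) (S18.H99.jdK K N (q * q) hq2)⁻¹ :=
  isIntegral_adjoin_mul_mul_inv (S34.H99.jK_ne_zero K N) (S34.H99.jdK_ne_zero K N q hq)
    (S34.H99.jdK_ne_zero K N (q * q) hq2)
    (S34.H99.isIntegral_adjoin_JK_inv_jK_inv K N q hq D)
    (S34.H99.isIntegral_adjoin_JK_inv_jdK_inv K N q hq D hD)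
    (S34.H99.isIntegral_adjoin_JK_jdK K N q hq D)
    (isIntegral_adjoin_jdK_jdK2 K N q hq hq2 D)
    (isIntegral_adjoin_jdK2_jdK K N q hq hq2 D hD)
    (isIntegral_adjoin_jdK_jK K N q hq D hD)

theorem isIntegral_adjoin_J3_inv_jK_inv (D : ModularPolynomialData q)
    (hD : ∀ (k : Type) [Field k] (ζ : kˣ), IsPrimitiveRoot ζ q → RootsAt k q ζ D.Φ) :
    IsIntegral (Algebra.adjoin R0 {(J3 K N q hq hq2)⁻¹}) (S18.H16.jK K N)⁻¹ :=
  (isIntegral_adjoin_J3_inv K N q hq hq2 D hD).1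

theorem isIntegral_adjoin_J3_inv_jdK_inv (D : ModularPolynomialData q)
    (hD : ∀ (k : Type) [Field k] (ζ : kˣ), IsPrimitiveRoot ζ q → RootsAt k q ζ D.Φ) :
    IsIntegral (Algebra.adjoin R0 {(J3 K N q hq hq2)⁻¹}) (S18.H99.jdK K N q hq)⁻¹ :=
  (isIntegral_adjoin_J3_inv K N q hq hq2 D hD).2.1

theorem isIntegral_adjoin_J3_inv_jdK2_inv (D : ModularPolynomialData q)
    (hD : ∀ (k : Type) [Field k] (ζ : kˣ), IsPrimitiveRoot ζ q → RootsAt k q ζ D.Φ) :
    IsIntegral (Algebra.adjoin R0 {(J3 K N q hq hq2)⁻¹}) (S18.H99.jdK K N (q * q) hq2)⁻¹ :=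
  (isIntegral_adjoin_J3_inv K N q hq hq2 D hD).2.2

/-- `J₃` is integral over `R0[j]`. -/
theorem isIntegral_adjoin_jK_J3 (D : ModularPolynomialData q) :
    IsIntegral (Algebra.adjoin R0 {S18.H16.jK K N}) (J3 K N q hq hq2) := by
  have hb : IsIntegral (Algebra.adjoin R0 {S18.H16.jK K N}) (S18.H99.jdK K N q hq) :=
    S34.H99.isIntegral_adjoin_jK_jdK K N q hq D
  have hc : IsIntegral (Algebra.adjoin R0 {S18.H16.jK K N}) (S18.H99.jdK K N (q * q) hq2) :=
    H55T.isIntegral_adjoin_trans hb (isIntegral_adjoin_jdK_jdK2 K N q hq hq2 D)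
  exact ((isIntegral_adjoin_self _).mul hb).mul hc

/-- **(hIC)** `R0[j]` and `R0[J₃]` have the same integral closure in `FK`: the hypothesis `hIC`
of `S34.H35.SatAt.change` with `x := jK`, `x' := J₃`. -/
theorem isIntegral_adjoin_jK_iff_J3 (D : ModularPolynomialData q)
    (hD : ∀ (k : Type) [Field k] (ζ : kˣ), IsPrimitiveRoot ζ q → RootsAt k q ζ D.Φ)
    (z : modularFunctionFieldFullC K N) :
    IsIntegral (Algebra.adjoin R0 {S18.H16.jK K N}) z ↔
      IsIntegral (Algebra.adjoin R0 {J3 K N q hq hq2}) z :=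
  ⟨fun h => H55T.isIntegral_adjoin_trans (isIntegral_adjoin_J3_jK K N q hq hq2 D hD) h,
   fun h => H55T.isIntegral_adjoin_trans (isIntegral_adjoin_jK_J3 K N q hq hq2 D) h⟩

/-- The same between the level-`q` coordinate `J = j · j_q` and `J₃`. -/
theorem isIntegral_adjoin_JK_iff_J3 (D : ModularPolynomialData q)
    (hD : ∀ (k : Type) [Field k] (ζ : kˣ), IsPrimitiveRoot ζ q → RootsAt k q ζ D.Φ)
    (z : modularFunctionFieldFullC K N) :
    IsIntegral (Algebra.adjoin R0 {S34.H95.JK K N q hq}) z ↔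
      IsIntegral (Algebra.adjoin R0 {J3 K N q hq hq2}) z :=
  (S34.H99.isIntegral_adjoin_jK_iff_JK K N q hq D hD z).symm.trans
    (isIntegral_adjoin_jK_iff_J3 K N q hq hq2 D hD z)

/-! ### The same statements at the pinned constant `S36.H83.J3K` -/

omit [Algebra R0 (modularFunctionFieldFullC K N)] in
/-- helper83's pinned coordinate is the explicit product (any proof of `q ∣ N`). -/
theorem J3K_eq_J3 : S36.H83.J3K K N q hq2 = J3 K N q hq hq2 := rfl

theorem isIntegral_adjoin_J3K (D : ModularPolynomialData q)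
    (hD : ∀ (k : Type) [Field k] (ζ : kˣ), IsPrimitiveRoot ζ q → RootsAt k q ζ D.Φ) :
    IsIntegral (Algebra.adjoin R0 {S36.H83.J3K K N q hq2}) (S18.H16.jK K N) ∧
      IsIntegral (Algebra.adjoin R0 {S36.H83.J3K K N q hq2}) (S18.H99.jdK K N q hq) ∧
      IsIntegral (Algebra.adjoin R0 {S36.H83.J3K K N q hq2}) (S18.H99.jdK K N (q * q) hq2) :=
  isIntegral_adjoin_J3 K N q hq hq2 D hD

theorem isIntegral_adjoin_J3K_inv (D : ModularPolynomialData q)
    (hD : ∀ (k : Type) [Field k] (ζ : kˣ), IsPrimitiveRoot ζ q → RootsAt k q ζ D.Φ) :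
    IsIntegral (Algebra.adjoin R0 {(S36.H83.J3K K N q hq2)⁻¹}) (S18.H16.jK K N)⁻¹ ∧
      IsIntegral (Algebra.adjoin R0 {(S36.H83.J3K K N q hq2)⁻¹}) (S18.H99.jdK K N q hq)⁻¹ ∧
      IsIntegral (Algebra.adjoin R0 {(S36.H83.J3K K N q hq2)⁻¹})
        (S18.H99.jdK K N (q * q) hq2)⁻¹ :=
  isIntegral_adjoin_J3_inv K N q hq hq2 D hD

/-- **(hIC)** at the pinned constant: `R0[j]` and `R0[J₃]` have the same integral closure. -/
theorem isIntegral_adjoin_jK_iff_J3K (D : ModularPolynomialData q)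
    (hD : ∀ (k : Type) [Field k] (ζ : kˣ), IsPrimitiveRoot ζ q → RootsAt k q ζ D.Φ)
    (z : modularFunctionFieldFullC K N) :
    IsIntegral (Algebra.adjoin R0 {S18.H16.jK K N}) z ↔
      IsIntegral (Algebra.adjoin R0 {S36.H83.J3K K N q hq2}) z :=
  isIntegral_adjoin_jK_iff_J3 K N q (Dvd.dvd.trans (Dvd.intro q rfl) hq2) hq2 D hD z

/-- `R0[J]` (`J = j · j_q`, the S34 coordinate) and `R0[J₃]` have the same integral closure. -/
theorem isIntegral_adjoin_JK_iff_J3K (D : ModularPolynomialData q)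
    (hD : ∀ (k : Type) [Field k] (ζ : kˣ), IsPrimitiveRoot ζ q → RootsAt k q ζ D.Φ)
    (z : modularFunctionFieldFullC K N) :
    IsIntegral (Algebra.adjoin R0 {S34.H95.JK K N q hq}) z ↔
      IsIntegral (Algebra.adjoin R0 {S36.H83.J3K K N q hq2}) z :=
  isIntegral_adjoin_JK_iff_J3 K N q hq hq2 D hD z

end FunctionField

end Fermat.Agent.S36.H95
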