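import Mathlib
import Fermat.Agent.S36.H35_Sat36Abs
import Fermat.Agent.S34.H35_SatInst
import Fermat.Agent.S34.H55_L0Base
import Fermat.Agent.S36.H95_CoordJ3Int

/-!
# S36 / (M1)(f), (E2) `hsat`: saturation for the three places of `F_{q²L}`, real types (helper35)

`A₁ = H45.A0 A q`, `L₁ = H45.unrCyclo q`, `F₀ = FullC L₁ L`, `F₁ = FullC L₁ (q L)`,
`F₂ = FullC L₁ (q (q L))`, `ι₂ = S34.H55.iotaMN (q L) : F₁ →+* F₂`, `V_L = H92.VM L` the level-`L`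
Gauss ring, `Pi`, `P0` ANY two places of `F₁` over `V_L` of the types `S34.H55.PlaceInf`,
`S34.H55.PlaceZero`.
-/

set_option autoImplicit false
set_option linter.unusedSectionVars false
set_option linter.style.haveILetI false
set_option synthInstance.maxHeartbeats 400000

noncomputable section

open Polynomial IntermediateField

namespace Fermat.Agent.S36.H35

open ModularCurve IsLocalRing Fermat.Agent.S28 Fermat.Agent.S18 Fermat.Agent.S34
  Fermat.Agent.S34.H35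

local notation "Qbar" => AlgebraicClosure ℚ

/-! ## Saturation of the level-`L` Gauss ring at the coordinate `j` of ANY level `N'`, `L ∣ N'` -/

section Level

variable (M : ℕ) [NeZero M] {ℓ : ℕ} [hℓ : Fact ℓ.Prime] (hℓM : ¬ ℓ ∣ M)
  (A : ValuationSubring Qbar) (hA : A.LiesOverPrime ℓ)

local notation "A₁" => H45.A0 A ℓ
local notation "L₁" => H45.unrCyclo ℓ
local notation "FM" => modularFunctionFieldFullC (H45.unrCyclo ℓ) M
local notation "V" => H92.VM M hℓM A hA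

/-- `j_d` (as an element of `F_{N'}`) is integral over `A₁[j]`. -/
theorem isIntegral_jdK_gen (N' : ℕ) [NeZero N'] (d : ℕ) [NeZero d] (hd : d ∣ N') :
    IsIntegral (Algebra.adjoin A₁ {S18.H16.jK L₁ N'}) (S18.H99.jdK L₁ N' d hd) := by
  obtain ⟨D, -, -⟩ := S18.H16.exists_modPoly_gen d
  have h0 := H16.relFK_aeval L₁ N' d D 1 d (one_mul d).symm (one_dvd _) hd
  rw [S18.H99.jdK_one] at h0
  exact CA.H55.isIntegral_adjoin_of_monic _ _
    (D.Φ.map (Polynomial.mapRingHom (Int.castRingHom A₁))) (D.monic.map _)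
    (by rw [eval₂_map_intCast]; exact h0)

include hA in
set_option maxHeartbeats 4000000 in
/-- **`hV` at the coordinate `j` of level `N'`**: every element of the level-`M` Gauss ring is
saturated at `j` in `F_{N'}`, for every `N'` divisible by `M`. -/
theorem satAt_jK_of_mem_VM_gen (N' : ℕ) [NeZero N'] (hMN : M ∣ N') (c : V) :
    letI := H16.degAlgebra L₁ M N' hMN
    SatAt (((ℓ : ℕ) : A₁)) (S18.H16.jK L₁ N')
      (algebraMap FM (modularFunctionFieldFullC L₁ N') (c : FM)) := by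
  letI := H16.degAlgebra L₁ M N' hMN
  haveI : IsScalarTower L₁ FM (modularFunctionFieldFullC L₁ N') :=
    H16.degAlgebra_isScalarTower L₁ M N' hMN
  obtain ⟨s, g, hs, -, hrepr⟩ := H92.exists_repr_VM M hℓM A hA (c : FM) c.2
  let ψ : FM →ₐ[A₁] (modularFunctionFieldFullC L₁ N') :=
    (IsScalarTower.toAlgHom L₁ FM (modularFunctionFieldFullC L₁ N')).restrictScalars A₁
  have hψ : ∀ y : FM, ψ y = algebraMap FM (modularFunctionFieldFullC L₁ N') y := fun y => rfl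
  have hψj : ψ (S18.H16.jK L₁ M) = S18.H16.jK L₁ N' :=
    H16.degAlgebra_algebraMap_jK L₁ M N' hMN
  have hψjM : ψ (S18.H16.jNK L₁ M) = S18.H99.jdK L₁ N' M hMN :=
    H16.degAlgebra_algebraMap_jNK L₁ M N' hMN
  have h1 := congrArg ψ hrepr
  rw [map_mul, ← Polynomial.aeval_algHom_apply, hψj] at h1
  have h2 : ψ (g.eval₂ ((Polynomial.aeval (S18.H16.jK L₁ M) : A₁[X] →ₐ[A₁] FM) : A₁[X] →+* FM)
      (S18.H16.jNK L₁ M)) =
      g.eval₂ ((Polynomial.aeval (S18.H16.jK L₁ N') :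
        A₁[X] →ₐ[A₁] (modularFunctionFieldFullC L₁ N')) :
          A₁[X] →+* (modularFunctionFieldFullC L₁ N'))
        (S18.H99.jdK L₁ N' M hMN) := by
    have := Polynomial.hom_eval₂ g
      ((Polynomial.aeval (S18.H16.jK L₁ M) : A₁[X] →ₐ[A₁] FM) : A₁[X] →+* FM)
      (ψ : FM →+* (modularFunctionFieldFullC L₁ N')) (S18.H16.jNK L₁ M)
    rw [RingHom.coe_coe, hψjM] at this
    rw [this]
    congr 1
    apply Polynomial.ringHom_ext
    · intro a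
      simp
    · simp [hψj]
  rw [h2] at h1
  have hs' : ¬ C (((ℓ : ℕ) : A₁)) ∣ s :=
    not_C_dvd_of_map_ne_zero (H45.resA0 A ℓ) (H45.resA0_natCast_eq_zero hℓ.out hA) hs
  exact satAt_of_eval₂ hs' (isIntegral_jdK_gen A N' M hMN) h1

end Level

/-! ## The real types -/

section Real

variable (L : ℕ) [NeZero L] {q : ℕ} [hq : Fact q.Prime] (hqL : ¬ q ∣ L)
  (A : ValuationSubring Qbar) (hA : A.LiesOverPrime q)

local notation "A₁" => H45.A0 A q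
local notation "L₁" => H45.unrCyclo q
local notation "F₀" => modularFunctionFieldFullC (H45.unrCyclo q) L
local notation "F₁" => modularFunctionFieldFullC (H45.unrCyclo q) (q * L)
local notation "F₂" => modularFunctionFieldFullC (H45.unrCyclo q) (q * (q * L))
local notation "V" => H92.VM L hqL A hA
local notation "ι₁" => (H55.iotaMN L (ℓ := q))
local notation "ι₂" => (H55.iotaMN (q * L) (ℓ := q))

theorem dvd_level₂ : L ∣ q * (q * L) := Dvd.intro_left (q * q) (by ring)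

/-- `ι₂ ∘ ι₁` is the degeneracy inclusion `F_L ⊆ F_{q²L}`. -/
theorem iota₂_iota₁ (y : F₀) :
    letI := H16.degAlgebra L₁ L (q * (q * L)) (dvd_level₂ L)
    ι₂ (ι₁ y) = algebraMap F₀ F₂ y := by
  letI := H16.degAlgebra L₁ L (q * (q * L)) (dvd_level₂ L)
  apply Subtype.ext
  rw [H55.coe_iotaMN, H55.coe_iotaMN, H16.degAlgebra_algebraMap_coe]

/-- `ι₂ j_{qL} = j_{qL}` (as an element of `F_{q²L}`). -/
theorem iota₂_jNK :
    ι₂ (S18.H16.jNK L₁ (q * L)) = S18.H99.jdK L₁ (q * (q * L)) (q * L) (H16.dvd_level (q * L)) :=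
  H16.degAlgebra_algebraMap_jNK L₁ (q * L) (q * (q * L)) (H16.dvd_level (q * L))

include hA in
set_option maxHeartbeats 4000000 in
/-- every element of `O_∞ ∩ O_0 ⊆ F_{qL}` is saturated at the coordinate `j` of `F_{q²L}`. -/
theorem satAt_jK_of_mem_places (Pi : H55.PlaceInf L hqL A hA) (P0 : H55.PlaceZero L hqL A hA)
    (c : F₁) (hci : c ∈ H55.PO1 L hqL A hA Pi) (hc0 : c ∈ H55.PO1 L hqL A hA P0) :
    SatAt (((q : ℕ) : A₁)) (S18.H16.jK L₁ (q * (q * L))) (ι₂ c) := by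
  letI := H16.degAlgebra L₁ L (q * L) (H16.dvd_level L)
  letI := H16.algebraVMFN L hqL A hA
  haveI := H92.isDiscreteValuationRing_VM L hqL A hA
  haveI hdvr : IsDiscreteValuationRing A₁ := H45.isDiscreteValuationRing_A0 hq.out hA
  have hqp : Prime (((q : ℕ) : A₁)) := H45.prime_natCast_A0 hq.out hA
  have htrj : Transcendental L₁ (S18.H16.jK L₁ (q * (q * L))) :=
    S18.H16.transcendental_jK L₁ (q * (q * L))
  obtain ⟨p, rfl⟩ := S34.H35.exists_eq_aeval_of_mem_places L hqL A hA Pi P0 c hci hc0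
  have htrA : Transcendental A₁ (S18.H16.jK L₁ (q * (q * L))) :=
    H40.transcendental_of_tower (K := L₁) _ htrj
  haveI := H26.ChartBase.isIntegrallyClosed _ htrA
  have hπ := prime_algebraMap_adjoin hqp htrA
  rw [← mem_satRing_adjoin_iff htrA hπ, aeval_def, eval₂_eq_sum_range, map_sum]
  refine Subring.sum_mem _ fun i _ => ?_
  rw [map_mul, map_pow]
  refine Subring.mul_mem _ ?_ (Subring.pow_mem _ ?_ i)
  · rw [mem_satRing_adjoin_iff htrA hπ]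
    have h := satAt_jK_of_mem_VM_gen L hqL A hA (q * (q * L)) (dvd_level₂ L) (p.coeff i)
    rw [← iota₂_iota₁] at h
    exact h
  · rw [mem_satRing_adjoin_iff htrA hπ, iota₂_jNK]
    exact SatAt.of_isIntegral hqp.not_isUnit (isIntegral_jdK_gen A _ _ _)

/-- `j_{q²L}` is integral over `A₁[j]`. -/
theorem isIntegral_jNK_level₂ :
    IsIntegral (Algebra.adjoin A₁ {S18.H16.jK L₁ (q * (q * L))})
      (S18.H16.jNK L₁ (q * (q * L))) := by
  have h := isIntegral_jdK_gen (ℓ := q) A (q * (q * L)) (q * (q * L)) dvd_rfl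
  rwa [S18.H99.jdK_self] at h

include hA in
set_option maxHeartbeats 4000000 in
/-- **`hS`, `hθ` at a chart coordinate `x` and at `x⁻¹`**, for any `x` such that `A₁[x]` and
`A₁[j]` have the same integral closure in `F_{q²L}`. -/
theorem satAt_coord (x : F₂) (htr : Transcendental L₁ x)
    (halg : Algebra.IsAlgebraic L₁⟮x⟯ F₂)
    (hIC : ∀ z : F₂, IsIntegral (Algebra.adjoin A₁ {S18.H16.jK L₁ (q * (q * L))}) z ↔
      IsIntegral (Algebra.adjoin A₁ {x}) z)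
    (Pi : H55.PlaceInf L hqL A hA) (P0 : H55.PlaceZero L hqL A hA) :
    (∀ c : F₁, c ∈ H55.PO1 L hqL A hA P0 → c ∈ H55.PO1 L hqL A hA Pi →
      SatAt (((q : ℕ) : A₁)) x (ι₂ c)) ∧
    SatAt (((q : ℕ) : A₁)) x (S18.H16.jNK L₁ (q * (q * L))) ∧
    (∀ c : F₁, c ∈ H55.PO1 L hqL A hA P0 → c ∈ H55.PO1 L hqL A hA Pi →
      SatAt (((q : ℕ) : A₁)) x⁻¹ (ι₂ c)) ∧
    SatAt (((q : ℕ) : A₁)) x⁻¹ (S18.H16.jNK L₁ (q * (q * L))) := by
  haveI := halg
  haveI hdvr : IsDiscreteValuationRing A₁ := H45.isDiscreteValuationRing_A0 hq.out hA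
  have hqp : Prime (((q : ℕ) : A₁)) := H45.prime_natCast_A0 hq.out hA
  have hNK : (((q * (q * L) : ℕ) : ℕ) : L₁) ≠ 0 := Nat.cast_ne_zero.2 (NeZero.ne _)
  haveI : FiniteDimensional L₁⟮S18.H16.jK L₁ (q * (q * L))⟯ F₂ :=
    S18.H16.finiteDimensional_fullC_gen (q * (q * L)) L₁ hNK
  have htrj : Transcendental L₁ (S18.H16.jK L₁ (q * (q * L))) :=
    S18.H16.transcendental_jK L₁ (q * (q * L))
  have hx0 : x ≠ 0 := by
    rintro rfl
    exact htr (isAlgebraic_zero)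
  have hS : ∀ c : F₁, c ∈ H55.PO1 L hqL A hA P0 → c ∈ H55.PO1 L hqL A hA Pi →
      SatAt (((q : ℕ) : A₁)) x (ι₂ c) := fun c hc0 hci =>
    (satAt_jK_of_mem_places L hqL A hA Pi P0 c hci hc0).change hqp htrj htr hIC
  have hθ : SatAt (((q : ℕ) : A₁)) x (S18.H16.jNK L₁ (q * (q * L))) :=
    (SatAt.of_isIntegral hqp.not_isUnit (isIntegral_jNK_level₂ L A)).change hqp htrj htr hIC
  exact ⟨hS, hθ, fun c hc0 hci => (hS c hc0 hci).inv hx0, hθ.inv hx0⟩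

include hA in
set_option maxHeartbeats 4000000 in
/-- **Core**: (SAT36) and (hinf36) at any chart coordinate `x` of `F_{q²L}` at which `O_∞ ∩ O_0`
and `θ₂ = j_{q²L}` are saturated, for ANY three subrings `Oa Oc Ob` of `F_{q²L}` with
`Oa ∩ Oc ⊆ O_∞[θ₂]`, `Ob ⊆ O_0[θ₂]` (`θ₂` a root of the monic minimal `g` with coefficients in
`O_∞ ∩ O_0`).  The first clause is `hsatF` of `S36.H83.threeComponents_of_incl`, verbatim. -/
theorem places36_chart_core (x : F₂) (htr : Transcendental L₁ x)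
    (halg : Algebra.IsAlgebraic L₁⟮x⟯ F₂)
    (Pi : H55.PlaceInf L hqL A hA) (P0 : H55.PlaceZero L hqL A hA)
    (hS : ∀ c : F₁, c ∈ H55.PO1 L hqL A hA P0 → c ∈ H55.PO1 L hqL A hA Pi →
      SatAt (((q : ℕ) : A₁)) x (ι₂ c))
    (hθ : SatAt (((q : ℕ) : A₁)) x (S18.H16.jNK L₁ (q * (q * L))))
    {g : F₁[X]} (hg : g.Monic) (hgi : ∀ i, g.coeff i ∈ H55.PO1 L hqL A hA Pi)
    (hg0 : ∀ i, g.coeff i ∈ H55.PO1 L hqL A hA P0)
    (hθ0 : g.eval₂ ι₂ (S18.H16.jNK L₁ (q * (q * L))) = 0)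
    (hmin : ∀ p : F₁[X], p.eval₂ ι₂ (S18.H16.jNK L₁ (q * (q * L))) = 0 → g ∣ p)
    (Oa Oc Ob : Subring F₂)
    (hac : ∀ z : F₂, z ∈ Oa → z ∈ Oc → ∃ p : F₁[X],
      (∀ i, p.coeff i ∈ H55.PO1 L hqL A hA Pi) ∧
      z = p.eval₂ ι₂ (S18.H16.jNK L₁ (q * (q * L))))
    (hb : ∀ z : F₂, z ∈ Ob → ∃ p : F₁[X], (∀ i, p.coeff i ∈ H55.PO1 L hqL A hA P0) ∧
      z = p.eval₂ ι₂ (S18.H16.jNK L₁ (q * (q * L)))) :
    (∀ z : F₂, z ∈ Oa → z ∈ Oc → z ∈ Ob →
      IsIntegral (Algebra.adjoin A₁ {x}) (algebraMap A₁ F₂ (((q : ℕ) : A₁)) * z) →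
      IsIntegral (Algebra.adjoin A₁ {x}) z) ∧
    (∀ z : F₂, IsIntegral (Algebra.adjoin A₁ {x}) z →
      (∃ y ∈ Oa, z = algebraMap A₁ F₂ (((q : ℕ) : A₁)) * y) →
      (∃ y ∈ Oc, z = algebraMap A₁ F₂ (((q : ℕ) : A₁)) * y) →
      (∃ y ∈ Ob, z = algebraMap A₁ F₂ (((q : ℕ) : A₁)) * y) →
      ∃ z' : F₂, IsIntegral (Algebra.adjoin A₁ {x}) z' ∧ z' ∈ Oa ∧ z' ∈ Oc ∧ z' ∈ Ob ∧
        z = algebraMap A₁ F₂ (((q : ℕ) : A₁)) * z') := by
  haveI := halg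
  haveI hdvr : IsDiscreteValuationRing A₁ := H45.isDiscreteValuationRing_A0 hq.out hA
  have hqp : Prime (((q : ℕ) : A₁)) := H45.prime_natCast_A0 hq.out hA
  refine ⟨fun z h₁ h₂ h₃ h => ?_, fun z hz ea ec eb => ?_⟩
  · exact isIntegral_of_mem_three hqp htr ι₂ (H55.PO1 L hqL A hA P0)
      (H55.PO1 L hqL A hA Pi) _ hg hg0 hgi hθ0 hmin Ob Oa Oc hb hac hS hθ h₃ h₁ h₂ h
  · obtain ⟨z', hz', h3, h1, h2, e⟩ := exists_eq_mul_of_three hqp htr ι₂
      (H55.PO1 L hqL A hA P0) (H55.PO1 L hqL A hA Pi) _ hg hg0 hgi hθ0 hmin Ob Oa Oc hb hac hS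
      hθ z hz eb ea ec
    exact ⟨z', hz', h1, h2, h3, e⟩

theorem sq_dvd_level₂ : q * q ∣ q * (q * L) := Dvd.intro L (by ring)

include hA in
set_option maxHeartbeats 4000000 in
/-- **`hsatF` of `S36.H83.threeComponents_of_incl` for chart 1** (`u := J₃`). -/
theorem hsatF_J3K (Pi : H55.PlaceInf L hqL A hA) (P0 : H55.PlaceZero L hqL A hA)
    {g : F₁[X]} (hg : g.Monic) (hgi : ∀ i, g.coeff i ∈ H55.PO1 L hqL A hA Pi)
    (hg0 : ∀ i, g.coeff i ∈ H55.PO1 L hqL A hA P0)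
    (hθ0 : g.eval₂ ι₂ (S18.H16.jNK L₁ (q * (q * L))) = 0)
    (hmin : ∀ p : F₁[X], p.eval₂ ι₂ (S18.H16.jNK L₁ (q * (q * L))) = 0 → g ∣ p)
    (Oa Oc Ob : Subring F₂)
    (hac : ∀ z : F₂, z ∈ Oa → z ∈ Oc → ∃ p : F₁[X],
      (∀ i, p.coeff i ∈ H55.PO1 L hqL A hA Pi) ∧
      z = p.eval₂ ι₂ (S18.H16.jNK L₁ (q * (q * L))))
    (hb : ∀ z : F₂, z ∈ Ob → ∃ p : F₁[X], (∀ i, p.coeff i ∈ H55.PO1 L hqL A hA P0) ∧
      z = p.eval₂ ι₂ (S18.H16.jNK L₁ (q * (q * L)))) :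
    ∀ z : F₂, z ∈ Oa → z ∈ Oc → z ∈ Ob →
      IsIntegral (Algebra.adjoin A₁ {S36.H83.J3K L₁ (q * (q * L)) q (sq_dvd_level₂ L)})
        (algebraMap A₁ F₂ (((q : ℕ) : A₁)) * z) →
      IsIntegral (Algebra.adjoin A₁ {S36.H83.J3K L₁ (q * (q * L)) q (sq_dvd_level₂ L)}) z := by
  obtain ⟨D, hD, -⟩ := S34.H6.exists_modPoly_kronecker q
  have hNK : (((q * (q * L) : ℕ) : ℕ) : L₁) ≠ 0 := Nat.cast_ne_zero.2 (NeZero.ne _)
  have htr := S36.H83.transcendental_J3K L₁ (q * (q * L)) q (sq_dvd_level₂ L)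
  haveI hfd := S36.H83.finiteDimensional_J3K L₁ (q * (q * L)) q (sq_dvd_level₂ L) hNK
  have halg : Algebra.IsAlgebraic
      L₁⟮S36.H83.J3K L₁ (q * (q * L)) q (sq_dvd_level₂ L)⟯ F₂ := inferInstance
  obtain ⟨hS, hθ, -, -⟩ := satAt_coord L hqL A hA _ htr halg
    (S36.H95.isIntegral_adjoin_jK_iff_J3K L₁ (q * (q * L)) q (sq_dvd_level₂ L) D hD) Pi P0
  exact (places36_chart_core L hqL A hA _ htr halg Pi P0 hS hθ hg hgi hg0 hθ0 hmin Oa Oc Ob
    hac hb).1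

include hA in
set_option maxHeartbeats 4000000 in
/-- **`hsatF` of `S36.H83.threeComponents_of_incl` for chart 2** (`u := J₃⁻¹`). -/
theorem hsatF_J3K_inv (Pi : H55.PlaceInf L hqL A hA) (P0 : H55.PlaceZero L hqL A hA)
    {g : F₁[X]} (hg : g.Monic) (hgi : ∀ i, g.coeff i ∈ H55.PO1 L hqL A hA Pi)
    (hg0 : ∀ i, g.coeff i ∈ H55.PO1 L hqL A hA P0)
    (hθ0 : g.eval₂ ι₂ (S18.H16.jNK L₁ (q * (q * L))) = 0)
    (hmin : ∀ p : F₁[X], p.eval₂ ι₂ (S18.H16.jNK L₁ (q * (q * L))) = 0 → g ∣ p)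
    (Oa Oc Ob : Subring F₂)
    (hac : ∀ z : F₂, z ∈ Oa → z ∈ Oc → ∃ p : F₁[X],
      (∀ i, p.coeff i ∈ H55.PO1 L hqL A hA Pi) ∧
      z = p.eval₂ ι₂ (S18.H16.jNK L₁ (q * (q * L))))
    (hb : ∀ z : F₂, z ∈ Ob → ∃ p : F₁[X], (∀ i, p.coeff i ∈ H55.PO1 L hqL A hA P0) ∧
      z = p.eval₂ ι₂ (S18.H16.jNK L₁ (q * (q * L)))) :
    ∀ z : F₂, z ∈ Oa → z ∈ Oc → z ∈ Ob →
      IsIntegral (Algebra.adjoin A₁ {(S36.H83.J3K L₁ (q * (q * L)) q (sq_dvd_level₂ L))⁻¹})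
        (algebraMap A₁ F₂ (((q : ℕ) : A₁)) * z) →
      IsIntegral (Algebra.adjoin A₁ {(S36.H83.J3K L₁ (q * (q * L)) q (sq_dvd_level₂ L))⁻¹})
        z := by
  obtain ⟨D, hD, -⟩ := S34.H6.exists_modPoly_kronecker q
  have hNK : (((q * (q * L) : ℕ) : ℕ) : L₁) ≠ 0 := Nat.cast_ne_zero.2 (NeZero.ne _)
  have htr := S36.H83.transcendental_J3K L₁ (q * (q * L)) q (sq_dvd_level₂ L)
  have htr' := S36.H83.transcendental_J3K_inv L₁ (q * (q * L)) q (sq_dvd_level₂ L)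
  haveI hfd := S36.H83.finiteDimensional_J3K L₁ (q * (q * L)) q (sq_dvd_level₂ L) hNK
  haveI hfd' := S36.H83.finiteDimensional_J3K_inv L₁ (q * (q * L)) q (sq_dvd_level₂ L) hNK
  have halg : Algebra.IsAlgebraic
      L₁⟮S36.H83.J3K L₁ (q * (q * L)) q (sq_dvd_level₂ L)⟯ F₂ := inferInstance
  have halg' : Algebra.IsAlgebraic
      L₁⟮(S36.H83.J3K L₁ (q * (q * L)) q (sq_dvd_level₂ L))⁻¹⟯ F₂ := inferInstance
  obtain ⟨-, -, hS, hθ⟩ := satAt_coord L hqL A hA _ htr halg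
    (S36.H95.isIntegral_adjoin_jK_iff_J3K L₁ (q * (q * L)) q (sq_dvd_level₂ L) D hD) Pi P0
  exact (places36_chart_core L hqL A hA _ htr' halg' Pi P0 hS hθ hg hgi hg0 hθ0 hmin Oa Oc Ob
    hac hb).1

/-! ## From `aeval` over a subring type to the coefficient form -/

/-- A polynomial over the subring type `S`, evaluated through ANY algebra structure `S → F₂`
compatible with `φ : F₁ → F₂`, in the coefficient form used above. -/
theorem exists_coeff_of_aeval {F₁' F₂' : Type*} [CommRing F₁'] [CommRing F₂'] (φ : F₁' →+* F₂')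
    (S : Subring F₁') [Algebra ↥S F₂'] (hφ : ∀ a : ↥S, algebraMap ↥S F₂' a = φ (a : F₁'))
    (θ : F₂') (p : (↥S)[X]) :
    ∃ p' : F₁'[X], (∀ i, p'.coeff i ∈ S) ∧ aeval θ p = p'.eval₂ φ θ := by
  refine ⟨p.map S.subtype, fun i => ?_, ?_⟩
  · rw [coeff_map]
    exact (p.coeff i).2
  · rw [eval₂_map, aeval_def]
    congr 1
    ext a
    exact hφ a

end Real

end Fermat.Agent.S36.H35
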