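import Mathlib
import Fermat.Agent.S36.H35_Sat36Inst
import Fermat.Agent.S36.H6_L0ThreePoly
import Fermat.Agent.S36.H16_NormRedPlaces

/-!
# S36 / (E2-sat): `hsatF` at the real three places, no hypothesis left (helper35)

`Pi : S34.H55.PlaceInf L hqL A hA`, `P0 : S34.H55.PlaceZero L hqL A hA` the two S34 places of
`F₁ = FullC L₁ (q L)`; `PC` (Eisenstein, `e = q - 1`), `PB` (unramified) over `O_i = PO1 Pi` and
`PA` (inert, `f = q`) over `O_0 = PO1 P0` ANY places of `F₂ = FullC L₁ (q (q L))` of the types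
produced by `S36.H6.three_places_over_inf` / `three_places_over_zero`.  Then

* `exists_g36` : the minimal polynomial `g ∈ F₁[X]` of `θ₂ = j_{q²L}`, coefficients in `O_i ∩ O_0`;
* `exists_coeff_inf` : `PB.O1 ∩ PC.O1 ⊆ O_i[θ₂]`;  `exists_coeff_zero` : `PA.O1 ⊆ O_0[θ₂]`;
* `hsatF_J3K_final`, `hsatF_J3K_inv_final` : `hsatF` of `S36.H83.threeComponents_of_incl` for the
  two charts `J₃`, `J₃⁻¹`, with `Oa := PB.O1`, `Oc := PC.O1`, `Ob := PA.O1`.
-/

set_option autoImplicit false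
set_option linter.unusedSectionVars false
set_option linter.style.haveILetI false
set_option synthInstance.maxHeartbeats 400000

noncomputable section

open Polynomial IntermediateField

namespace Fermat.Agent.S36.H35

open ModularCurve IsLocalRing Fermat.Agent.S28 Fermat.Agent.S18 Fermat.Agent.S34
  Fermat.Agent.S34.H35 Fermat.Agent.S34.H92 Fermat.Agent.S34.H16 Fermat.Agent.S34.H55

local notation "Qbar" => AlgebraicClosure ℚ

section Final

variable (L : ℕ) [NeZero L] {q : ℕ} [hq : Fact q.Prime] (hqL : ¬ q ∣ L)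
  (A : ValuationSubring Qbar) (hA : A.LiesOverPrime q)

local notation "kA" => IsLocalRing.ResidueField A
local notation "A₁" => H45.A0 A q
local notation "L₁" => H45.unrCyclo q
local notation "F₁" => modularFunctionFieldFullC (H45.unrCyclo q) (q * L)
local notation "F₂" => modularFunctionFieldFullC (H45.unrCyclo q) (q * (q * L))
local notation "ι₂" => (H55.iotaMN (q * L) (ℓ := q))
local notation "θ₂" => S18.H16.jNK (H45.unrCyclo q) (q * (q * L))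

variable {ι' : ↥(VM L hqL A hA) →+* LaurentSeries (IsLocalRing.ResidueField A)}
  {θb : LaurentSeries (IsLocalRing.ResidueField A)}

/-- `g0` over a bottom place, pushed to `F₁[X]`, does not depend on the place. -/
theorem map_g0_eq (D : ModularPolynomialData q) (P : PlaceGen L hqL A hA ι' θb) :
    (H6.g0 D (H6.phiO L hqL A hA P) (H6.wO L hqL A hA P)).map (PO1 L hqL A hA P).subtype =
      (D.Φ.map ((Polynomial.aeval (R := ℤ) (S18.H16.jNK L₁ (q * L))).toRingHom)) /ₘ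
        (X - C (H55.iotaMN L (ℓ := q) (S18.H16.jNK L₁ L))) := by
  unfold H6.g0
  rw [map_divByMonic _ (monic_X_sub_C _), Polynomial.map_map, Polynomial.map_sub,
    Polynomial.map_X, Polynomial.map_C]
  congr 2
  apply Polynomial.ringHom_ext
  · intro a
    simp
  · simp only [RingHom.comp_apply, H6.phiO_X]
    simp [H6.vO]

include hA in
set_option maxHeartbeats 4000000 in
/-- **The minimal polynomial of `θ₂ = j_{q²L}` over `F₁`**, with coefficients in `O_i ∩ O_0`. -/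
theorem exists_g36 (D : ModularPolynomialData q)
    (hD : ∀ (k : Type) [Field k] (ζ : kˣ), IsPrimitiveRoot ζ q → RootsAt k q ζ D.Φ)
    (Pi : PlaceInf L hqL A hA) (P0 : PlaceZero L hqL A hA) :
    ∃ g : F₁[X], g.Monic ∧ (∀ i, g.coeff i ∈ PO1 L hqL A hA Pi) ∧
      (∀ i, g.coeff i ∈ PO1 L hqL A hA P0) ∧ g.eval₂ ι₂ θ₂ = 0 ∧
      (∀ p : F₁[X], p.eval₂ ι₂ θ₂ = 0 → g ∣ p) ∧
      g = (H6.g0 D (H6.phiO L hqL A hA Pi) (H6.wO L hqL A hA Pi)).map
        (PO1 L hqL A hA Pi).subtype ∧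
      g = (H6.g0 D (H6.phiO L hqL A hA P0) (H6.wO L hqL A hA P0)).map
        (PO1 L hqL A hA P0).subtype := by
  letI := H6.algO1F2 L hqL A hA Pi
  haveI := H6.isDiscreteValuationRing_PO1 L hqL A hA Pi
  haveI := H6.isFractionRing_PO1 L hqL A hA Pi
  haveI := H6.charP_residueField_PO1 L hqL A hA Pi
  have hmon := H6.g0_monic L₁ L (q * L) (dvd_level L) q rfl D hD (H6.phiO L hqL A hA Pi)
    (H6.algebraMap_phiO_X L hqL A hA Pi) (H6.wO L hqL A hA Pi) (H6.algebraMap_wO L hqL A hA Pi)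
  have hdeg := H6.g0_natDegree L₁ L (q * L) (dvd_level L) q rfl D hD (H6.phiO L hqL A hA Pi)
    (H6.algebraMap_phiO_X L hqL A hA Pi) (H6.wO L hqL A hA Pi) (H6.algebraMap_wO L hqL A hA Pi)
  have hθ := H6.aeval_jNK_g0 L₁ L (q * L) (q * (q * L)) (dvd_level L) (dvd_level (q * L)) q rfl
    rfl D hD (H6.isScalarTower_O1F2 L hqL A hA Pi) (H6.phiO L hqL A hA Pi)
    (H6.algebraMap_phiO_X L hqL A hA Pi) (H6.wO L hqL A hA Pi) (H6.algebraMap_wO L hqL A hA Pi)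
  set g : F₁[X] := (H6.g0 D (H6.phiO L hqL A hA Pi) (H6.wO L hqL A hA Pi)).map
    (PO1 L hqL A hA Pi).subtype with hgdef
  have hgm : g.Monic := hmon.map _
  have hθg : g.eval₂ ι₂ θ₂ = 0 := by
    rw [hgdef, eval₂_map]
    exact hθ
  refine ⟨g, hgm, fun i => ?_, fun i => ?_, hθg, ?_, rfl, ?_⟩
  · rw [hgdef, coeff_map]
    exact Subtype.prop _
  · rw [hgdef, map_g0_eq L hqL A hA D Pi, ← map_g0_eq L hqL A hA D P0, coeff_map]
    exact Subtype.prop _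
  · letI := degAlgebra L₁ (q * L) (q * (q * L)) (dvd_level (q * L))
    have hNK := H6.natCast_level2_ne_zero (q := q) L
    have hgen := algebra_adjoin_jNK_over_eq_top L₁ (q * L) (q * (q * L)) (dvd_level (q * L)) q rfl
      hNK
    have hfin := H6.finrank_fullC_prime_dvd L₁ (q * L) (q * (q * L)) (dvd_level (q * L)) q hq.out
      (Dvd.intro L rfl) rfl hNK
    have hθ' : aeval θ₂ g = 0 := hθg
    have := CA.H99.dvd_of_aeval_eq_zero_of_finrank (O := F₁) (K := F₁) (L := F₂) hgm θ₂ hθ' hgen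
      (by rw [hfin, hgdef, hmon.natDegree_map, hdeg])
    intro p hp
    exact this p hp
  · rw [hgdef, map_g0_eq L hqL A hA D Pi, ← map_g0_eq L hqL A hA D P0]

include hA in
set_option maxHeartbeats 4000000 in
/-- **`PB.O1 ∩ PC.O1 ⊆ O_i[θ₂]`** (coefficient form), for ANY Eisenstein place `PC` and unramified
place `PB` of `F₂` over `O_i = PO1 Pi` of the types of `S36.H6.three_places_over_inf`. -/
theorem exists_coeff_inf (D : ModularPolynomialData q)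
    (hD : ∀ (k : Type) [Field k] (ζ : kˣ), IsPrimitiveRoot ζ q → RootsAt k q ζ D.Φ)
    (Pi : PlaceInf L hqL A hA) :
    letI := H6.algO1F2 L hqL A hA Pi
    ∀ {τ : F₂} {θB : LaurentSeries kA}
      (_ : θB = Pres1 L hqL A hA Pi (H6.phiO L hqL A hA Pi X ^ q))
      (PC : H6.PlaceOverRam (L := F₂) ((q : ℕ) : ↥(PO1 L hqL A hA Pi)) θ₂ τ (q - 1)
        (Pres1 L hqL A hA Pi) (Pres1 L hqL A hA Pi (H6.wO L hqL A hA Pi)))
      (PB : CA.H99.PlaceOver (L := F₂) ((q : ℕ) : ↥(PO1 L hqL A hA Pi)) θ₂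
        (Pres1 L hqL A hA Pi) θB)
      (z : F₂), z ∈ PB.O1 → z ∈ PC.O1 →
      ∃ p : F₁[X], (∀ i, p.coeff i ∈ PO1 L hqL A hA Pi) ∧ z = p.eval₂ ι₂ θ₂ := by
  letI := H6.algO1F2 L hqL A hA Pi
  haveI := H6.isDiscreteValuationRing_PO1 L hqL A hA Pi
  haveI := H6.isFractionRing_PO1 L hqL A hA Pi
  haveI := H6.charP_residueField_PO1 L hqL A hA Pi
  intro τ θB hθB PC PB z hB hC
  subst hθB
  -- `w^q ≡ v`
  obtain ⟨δ, hδ⟩ := H6.exists_eq_natCast_mul_of_Pres1_eq_zero L hqL A hA Pi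
    (H6.wO L hqL A hA Pi ^ q - H6.phiO L hqL A hA Pi X)
    (by rw [map_sub, map_pow, H6.Pres1_wO, H6.phiO_X, H6.Pres1_vO, sub_self])
  -- `w - v^q` is a unit
  have hunit : IsUnit (H6.wO L hqL A hA Pi - H6.phiO L hqL A hA Pi X ^ q) := by
    apply H6.isUnit_of_Pres1_ne_zero
    rw [map_sub, map_pow, H6.Pres1_wO, H6.phiO_X, H6.Pres1_vO, ← pow_mul, sub_ne_zero]
    refine (S34.H6.pow_ne_self_of_order q hq.out.two_le (RingHom.id _) _ ?_).symm
    rw [RingHom.id_apply, H6.order_resM_jMV, neg_ne_zero]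
    exact_mod_cast NeZero.ne L
  obtain ⟨R, hR⟩ := H6.exists_kronecker_lift q D hD (H6.phiO L hqL A hA Pi)
    (H6.maximalIdeal_PO1 L hqL A hA Pi)
  obtain ⟨r, hg0, -, -⟩ := H6.exists_shift_of_kronecker_zero q (D.Φ.map (H6.phiO L hqL A hA Pi)) R
    (H6.phiO L hqL A hA Pi X ^ q) (H6.phiO L hqL A hA Pi X) (H6.wO L hqL A hA Pi) δ hR
    (H6.eval_w_map_eq_zero L₁ L (q * L) (dvd_level L) q rfl D hD (H6.phiO L hqL A hA Pi)
      (H6.algebraMap_phiO_X L hqL A hA Pi) (H6.wO L hqL A hA Pi)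
      (H6.algebraMap_wO L hqL A hA Pi)) hδ
  have hg0' : H6.g0 D (H6.phiO L hqL A hA Pi) (H6.wO L hqL A hA Pi) =
      (X - C (H6.wO L hqL A hA Pi)) ^ (q - 1) * (X - C (H6.phiO L hqL A hA Pi X ^ q)) +
        C ((q : ℕ) : ↥(PO1 L hqL A hA Pi)) * r := hg0
  have hθ := H6.aeval_jNK_g0 L₁ L (q * L) (q * (q * L)) (dvd_level L) (dvd_level (q * L)) q rfl
    rfl D hD (H6.isScalarTower_O1F2 L hqL A hA Pi) (H6.phiO L hqL A hA Pi)
    (H6.algebraMap_phiO_X L hqL A hA Pi) (H6.wO L hqL A hA Pi) (H6.algebraMap_wO L hqL A hA Pi)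
  letI := degAlgebra L₁ (q * L) (q * (q * L)) (dvd_level (q * L))
  haveI := H6.isScalarTower_O1F2 L hqL A hA Pi
  have hgen := algebra_adjoin_jNK_over_eq_top L₁ (q * L) (q * (q * L)) (dvd_level (q * L)) q rfl
    (H6.natCast_level2_ne_zero (q := q) L)
  obtain ⟨p, hp⟩ := S36.H16.exists_eq_aeval_caseV (K := F₁) (H6.maximalIdeal_PO1 L hqL A hA Pi)
    hθ hgen (H6.wO L hqL A hA Pi) (H6.phiO L hqL A hA Pi X ^ q) (q - 1) r hg0' hunit
    (Pres1 L hqL A hA Pi) (H6.Pres1_natCast L hqL A hA Pi) PC PB hC hB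
  obtain ⟨p', hp', e⟩ := exists_coeff_of_aeval ι₂ (PO1 L hqL A hA Pi) (fun a => rfl) θ₂ p
  exact ⟨p', hp', hp.trans e⟩

include hA in
set_option maxHeartbeats 4000000 in
/-- **`PA.O1 ⊆ O_0[θ₂]`** (coefficient form), for ANY place `PA` of `F₂` over `O_0 = PO1 P0` of the
type of `S36.H6.three_places_over_zero`. -/
theorem exists_coeff_zero (D : ModularPolynomialData q)
    (hD : ∀ (k : Type) [Field k] (ζ : kˣ), IsPrimitiveRoot ζ q → RootsAt k q ζ D.Φ)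
    (P0 : PlaceZero L hqL A hA) :
    letI := H6.algO1F2 L hqL A hA P0
    ∀ {Fk : Type*} [Field Fk] {ιA : ↥(PO1 L hqL A hA P0) →+* Fk}
      (_ : ιA ((q : ℕ) : ↥(PO1 L hqL A hA P0)) = 0) {θbA : Fk}
      (_ : θbA ^ q = ιA (H6.phiO L hqL A hA P0 X))
      (PA : CA.H99.PlaceOver (L := F₂) ((q : ℕ) : ↥(PO1 L hqL A hA P0)) θ₂ ιA θbA)
      (z : F₂), z ∈ PA.O1 →
      ∃ p : F₁[X], (∀ i, p.coeff i ∈ PO1 L hqL A hA P0) ∧ z = p.eval₂ ι₂ θ₂ := by
  letI := H6.algO1F2 L hqL A hA P0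
  haveI := H6.isDiscreteValuationRing_PO1 L hqL A hA P0
  haveI := H6.isFractionRing_PO1 L hqL A hA P0
  haveI := H6.charP_residueField_PO1 L hqL A hA P0
  intro Fk _ ιA hιA θbA hθbA PA z hz
  -- `w ≡ v^q`
  obtain ⟨δ, hδ⟩ := H6.exists_eq_natCast_mul_of_Pres1_eq_zero L hqL A hA P0
    (H6.wO L hqL A hA P0 - H6.phiO L hqL A hA P0 X ^ q)
    (by rw [map_sub, map_pow, H6.Pres1_wO, H6.phiO_X, H6.Pres1_vO, iotaZero_apply,
      qExpand_resM_jMV, sub_self])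
  -- `v̄` is not a `q`-th power
  have hnp : ∀ b : ResidueField ↥(PO1 L hqL A hA P0),
      b ^ q ≠ residue ↥(PO1 L hqL A hA P0) (H6.phiO L hqL A hA P0 X) := by
    refine S34.H6.pow_ne_of_order q (H6.rhoO1 L hqL A hA P0) _ ?_
    rw [H6.rhoO1_residue, H6.phiO_X, H6.Pres1_vO, H6.order_resM_jMV, dvd_neg]
    exact_mod_cast hqL
  obtain ⟨R, hR⟩ := H6.exists_kronecker_lift q D hD (H6.phiO L hqL A hA P0)
    (H6.maximalIdeal_PO1 L hqL A hA P0)
  have hq0 : ∀ x : ↥(PO1 L hqL A hA P0), ((q : ℕ) : ↥(PO1 L hqL A hA P0)) * x = 0 → x = 0 := by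
    intro x hx
    rcases mul_eq_zero.1 hx with h0 | h0
    · exfalso
      have : maximalIdeal ↥(PO1 L hqL A hA P0) = ⊥ := by
        rw [H6.maximalIdeal_PO1 L hqL A hA P0, h0]; simp
      exact IsDiscreteValuationRing.not_a_field _ this
    · exact h0
  obtain ⟨r, hg0, -⟩ := H6.exists_shift_of_kronecker_infty q (D.Φ.map (H6.phiO L hqL A hA P0)) R
    (H6.phiO L hqL A hA P0 X ^ q) (H6.phiO L hqL A hA P0 X) (H6.wO L hqL A hA P0) δ hq0 hR
    (H6.eval_w_map_eq_zero L₁ L (q * L) (dvd_level L) q rfl D hD (H6.phiO L hqL A hA P0)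
      (H6.algebraMap_phiO_X L hqL A hA P0) (H6.wO L hqL A hA P0)
      (H6.algebraMap_wO L hqL A hA P0)) hδ
  have hg0' : H6.g0 D (H6.phiO L hqL A hA P0) (H6.wO L hqL A hA P0) =
      (X ^ q - C (H6.phiO L hqL A hA P0 X)) + C ((q : ℕ) : ↥(PO1 L hqL A hA P0)) * r := hg0
  have hθ := H6.aeval_jNK_g0 L₁ L (q * L) (q * (q * L)) (dvd_level L) (dvd_level (q * L)) q rfl
    rfl D hD (H6.isScalarTower_O1F2 L hqL A hA P0) (H6.phiO L hqL A hA P0)
    (H6.algebraMap_phiO_X L hqL A hA P0) (H6.wO L hqL A hA P0) (H6.algebraMap_wO L hqL A hA P0)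
  have hirr := S34.H6.irreducible_map_X_pow_sub_C (residue ↥(PO1 L hqL A hA P0)) q hq.out
    (H6.phiO L hqL A hA P0 X) hnp
  letI := degAlgebra L₁ (q * L) (q * (q * L)) (dvd_level (q * L))
  haveI := H6.isScalarTower_O1F2 L hqL A hA P0
  have hgen := algebra_adjoin_jNK_over_eq_top L₁ (q * L) (q * (q * L)) (dvd_level (q * L)) q rfl
    (H6.natCast_level2_ne_zero (q := q) L)
  obtain ⟨p, hp⟩ := S36.H16.exists_eq_aeval_caseF (K := F₁) q
    (H6.maximalIdeal_PO1 L hqL A hA P0) hθ hgen (H6.phiO L hqL A hA P0 X) r hg0' hirr ιA hιA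
    θbA hθbA PA hz
  obtain ⟨p', hp', e⟩ := exists_coeff_of_aeval ι₂ (PO1 L hqL A hA P0) (fun a => rfl) θ₂ p
  exact ⟨p', hp', hp.trans e⟩

include hA in
set_option maxHeartbeats 4000000 in
/-- **`hsatF` of `S36.H83.threeComponents_of_incl`, chart 1 (`u := J₃`), at the real places**:
`Oa := PB.O1`, `Oc := PC.O1`, `Ob := PA.O1`. -/
theorem hsatF_J3K_final (D : ModularPolynomialData q)
    (hD : ∀ (k : Type) [Field k] (ζ : kˣ), IsPrimitiveRoot ζ q → RootsAt k q ζ D.Φ)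
    (Pi : PlaceInf L hqL A hA) (P0 : PlaceZero L hqL A hA) :
    letI := H6.algO1F2 L hqL A hA Pi
    letI := H6.algO1F2 L hqL A hA P0
    ∀ {τ : F₂} {θB : LaurentSeries kA}
      (_ : θB = Pres1 L hqL A hA Pi (H6.phiO L hqL A hA Pi X ^ q))
      (PC : H6.PlaceOverRam (L := F₂) ((q : ℕ) : ↥(PO1 L hqL A hA Pi)) θ₂ τ (q - 1)
        (Pres1 L hqL A hA Pi) (Pres1 L hqL A hA Pi (H6.wO L hqL A hA Pi)))
      (PB : CA.H99.PlaceOver (L := F₂) ((q : ℕ) : ↥(PO1 L hqL A hA Pi)) θ₂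
        (Pres1 L hqL A hA Pi) θB)
      {Fk : Type*} [Field Fk] {ιA : ↥(PO1 L hqL A hA P0) →+* Fk}
      (_ : ιA ((q : ℕ) : ↥(PO1 L hqL A hA P0)) = 0) {θbA : Fk}
      (_ : θbA ^ q = ιA (H6.phiO L hqL A hA P0 X))
      (PA : CA.H99.PlaceOver (L := F₂) ((q : ℕ) : ↥(PO1 L hqL A hA P0)) θ₂ ιA θbA)
      (z : F₂), z ∈ PB.O1 → z ∈ PC.O1 → z ∈ PA.O1 →
      IsIntegral (Algebra.adjoin A₁ {S36.H83.J3K L₁ (q * (q * L)) q (sq_dvd_level₂ L)})
        (algebraMap A₁ F₂ (((q : ℕ) : A₁)) * z) →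
      IsIntegral (Algebra.adjoin A₁ {S36.H83.J3K L₁ (q * (q * L)) q (sq_dvd_level₂ L)}) z := by
  letI := H6.algO1F2 L hqL A hA Pi
  letI := H6.algO1F2 L hqL A hA P0
  intro τ θB hθB PC PB Fk _ ιA hιA θbA hθbA PA
  obtain ⟨g, hg, hgi, hg0, hθ0, hmin, -, -⟩ := exists_g36 L hqL A hA D hD Pi P0
  exact hsatF_J3K L hqL A hA Pi P0 hg hgi hg0 hθ0 hmin PB.O1 PC.O1 PA.O1
    (fun z h1 h2 => exists_coeff_inf L hqL A hA D hD Pi hθB PC PB z h1 h2)
    (fun z h => exists_coeff_zero L hqL A hA D hD P0 hιA hθbA PA z h)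

include hA in
set_option maxHeartbeats 4000000 in
/-- **`hsatF` of `S36.H83.threeComponents_of_incl`, chart 2 (`u := J₃⁻¹`), at the real places**. -/
theorem hsatF_J3K_inv_final (D : ModularPolynomialData q)
    (hD : ∀ (k : Type) [Field k] (ζ : kˣ), IsPrimitiveRoot ζ q → RootsAt k q ζ D.Φ)
    (Pi : PlaceInf L hqL A hA) (P0 : PlaceZero L hqL A hA) :
    letI := H6.algO1F2 L hqL A hA Pi
    letI := H6.algO1F2 L hqL A hA P0
    ∀ {τ : F₂} {θB : LaurentSeries kA}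
      (_ : θB = Pres1 L hqL A hA Pi (H6.phiO L hqL A hA Pi X ^ q))
      (PC : H6.PlaceOverRam (L := F₂) ((q : ℕ) : ↥(PO1 L hqL A hA Pi)) θ₂ τ (q - 1)
        (Pres1 L hqL A hA Pi) (Pres1 L hqL A hA Pi (H6.wO L hqL A hA Pi)))
      (PB : CA.H99.PlaceOver (L := F₂) ((q : ℕ) : ↥(PO1 L hqL A hA Pi)) θ₂
        (Pres1 L hqL A hA Pi) θB)
      {Fk : Type*} [Field Fk] {ιA : ↥(PO1 L hqL A hA P0) →+* Fk}
      (_ : ιA ((q : ℕ) : ↥(PO1 L hqL A hA P0)) = 0) {θbA : Fk}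
      (_ : θbA ^ q = ιA (H6.phiO L hqL A hA P0 X))
      (PA : CA.H99.PlaceOver (L := F₂) ((q : ℕ) : ↥(PO1 L hqL A hA P0)) θ₂ ιA θbA)
      (z : F₂), z ∈ PB.O1 → z ∈ PC.O1 → z ∈ PA.O1 →
      IsIntegral (Algebra.adjoin A₁ {(S36.H83.J3K L₁ (q * (q * L)) q (sq_dvd_level₂ L))⁻¹})
        (algebraMap A₁ F₂ (((q : ℕ) : A₁)) * z) →
      IsIntegral (Algebra.adjoin A₁ {(S36.H83.J3K L₁ (q * (q * L)) q (sq_dvd_level₂ L))⁻¹})
        z := by
  letI := H6.algO1F2 L hqL A hA Pi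
  letI := H6.algO1F2 L hqL A hA P0
  intro τ θB hθB PC PB Fk _ ιA hιA θbA hθbA PA
  obtain ⟨g, hg, hgi, hg0, hθ0, hmin, -, -⟩ := exists_g36 L hqL A hA D hD Pi P0
  exact hsatF_J3K_inv L hqL A hA Pi P0 hg hgi hg0 hθ0 hmin PB.O1 PC.O1 PA.O1
    (fun z h1 h2 => exists_coeff_inf L hqL A hA D hD Pi hθB PC PB z h1 h2)
    (fun z h => exists_coeff_zero L hqL A hA D hD P0 hιA hθbA PA z h)

/-- the literal residue data of `S36.H6.three_places_over_inf` satisfy the hypothesis `hθB`. -/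
theorem hθB_literal (Pi : PlaceInf L hqL A hA) :
    (resM L hqL A hA (jMV L hqL A hA) ^ q) ^ q =
      Pres1 L hqL A hA Pi (H6.phiO L hqL A hA Pi X ^ q) := by
  rw [map_pow, H6.phiO_X, H6.Pres1_vO]

/-- the literal residue data of `S36.H6.three_places_over_zero` satisfy `hιA`, `hθbA`. -/
theorem hθbA_literal (P0 : PlaceZero L hqL A hA) :
    ((qExpand kA q).comp (Pres1 L hqL A hA P0)) ((q : ℕ) : ↥(PO1 L hqL A hA P0)) = 0 ∧
    resM L hqL A hA (jMV L hqL A hA) ^ q =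
      ((qExpand kA q).comp (Pres1 L hqL A hA P0)) (H6.phiO L hqL A hA P0 X) := by
  refine ⟨by rw [RingHom.comp_apply, H6.Pres1_natCast, map_zero], ?_⟩
  rw [RingHom.comp_apply, H6.phiO_X, H6.Pres1_vO, qExpand_resM_jMV]

end Final

end Fermat.Agent.S36.H35
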