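import Mathlib
import Fermat.Agent.S36.H35_Sat36Final
import Fermat.Agent.S36.H55_L0ThreeBase

/-!
# S36 / (E2-sat): `hsatF` in helper55's `PlaceA / PlaceB / PlaceC` vocabulary (helper35)

`hsatF_J3K_three`, `hsatF_J3K_inv_three` : the hypothesis `hsatF` of
`S36.H83.threeComponents_of_incl` with `Oa := QO1 PB`, `Oc := RO1 PC`, `Ob := QO1 PA` for ANY
`PA : S36.H55.PlaceA .. P0`, `PB : S36.H55.PlaceB .. Pi`, `PC : S36.H55.PlaceC .. Pi`, at the chart
coordinates `u := J₃` and `u := J₃⁻¹`.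
-/

set_option autoImplicit false
set_option linter.unusedSectionVars false
set_option linter.style.haveILetI false
set_option synthInstance.maxHeartbeats 400000

noncomputable section

open Polynomial

namespace Fermat.Agent.S36.H35

open ModularCurve IsLocalRing Fermat.Agent.S28 Fermat.Agent.S18 Fermat.Agent.S34
  Fermat.Agent.S34.H92 Fermat.Agent.S34.H16 Fermat.Agent.S34.H55

local notation "Qbar" => AlgebraicClosure ℚ

section Three

variable (L : ℕ) [NeZero L] {q : ℕ} [hq : Fact q.Prime] (hqL : ¬ q ∣ L)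
  (A : ValuationSubring Qbar) (hA : A.LiesOverPrime q)

local notation "A₁" => H45.A0 A q
local notation "L₁" => H45.unrCyclo q
local notation "F₂" => modularFunctionFieldFullC (H45.unrCyclo q) (q * (q * L))

include hA in
set_option maxHeartbeats 4000000 in
/-- **`hsatF`, chart 1**, for helper55's three place types. -/
theorem hsatF_J3K_three (Pi : PlaceInf L hqL A hA) (P0 : PlaceZero L hqL A hA)
    (PA : S36.H55.PlaceA L hqL A hA P0) (PB : S36.H55.PlaceB L hqL A hA Pi)
    (PC : S36.H55.PlaceC L hqL A hA Pi) :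
    ∀ z : F₂, z ∈ S36.H55.QO1 L hqL A hA PB → z ∈ S36.H55.RO1 L hqL A hA PC →
      z ∈ S36.H55.QO1 L hqL A hA PA →
      IsIntegral (Algebra.adjoin A₁ {S36.H83.J3K L₁ (q * (q * L)) q (sq_dvd_level₂ L)})
        (algebraMap A₁ F₂ (((q : ℕ) : A₁)) * z) →
      IsIntegral (Algebra.adjoin A₁ {S36.H83.J3K L₁ (q * (q * L)) q (sq_dvd_level₂ L)}) z := by
  obtain ⟨D, hD, -⟩ := S34.H6.exists_modPoly_kronecker q
  exact hsatF_J3K_final L hqL A hA D hD Pi P0 (hθB_literal L hqL A hA Pi) PC PB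
    (hθbA_literal L hqL A hA P0).1 (hθbA_literal L hqL A hA P0).2 PA

include hA in
set_option maxHeartbeats 4000000 in
/-- **`hsatF`, chart 2**, for helper55's three place types. -/
theorem hsatF_J3K_inv_three (Pi : PlaceInf L hqL A hA) (P0 : PlaceZero L hqL A hA)
    (PA : S36.H55.PlaceA L hqL A hA P0) (PB : S36.H55.PlaceB L hqL A hA Pi)
    (PC : S36.H55.PlaceC L hqL A hA Pi) :
    ∀ z : F₂, z ∈ S36.H55.QO1 L hqL A hA PB → z ∈ S36.H55.RO1 L hqL A hA PC →
      z ∈ S36.H55.QO1 L hqL A hA PA →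
      IsIntegral (Algebra.adjoin A₁ {(S36.H83.J3K L₁ (q * (q * L)) q (sq_dvd_level₂ L))⁻¹})
        (algebraMap A₁ F₂ (((q : ℕ) : A₁)) * z) →
      IsIntegral (Algebra.adjoin A₁ {(S36.H83.J3K L₁ (q * (q * L)) q (sq_dvd_level₂ L))⁻¹})
        z := by
  obtain ⟨D, hD, -⟩ := S34.H6.exists_modPoly_kronecker q
  exact hsatF_J3K_inv_final L hqL A hA D hD Pi P0 (hθB_literal L hqL A hA Pi) PC PB
    (hθbA_literal L hqL A hA P0).1 (hθbA_literal L hqL A hA P0).2 PA

end Three

end Fermat.Agent.S36.H35
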