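import Fermat.Agent.S36.H83_ThreeComponentsGlue

/-!
# S36, row (E2-chart): the chart-side hypotheses of `threeComponents_of_incl` (helper40)

Abstract part.  In the vocabulary of `S36.H83.threeComponents_of_incl`: for the product
coordinate `u = ιu c * ιv c * ιw c` (`= J₃ = j(z) j(qz) j(q²z)` for `c = j`, and `= J₃⁻¹` for
`c = j⁻¹`), the chart-side hypotheses `hua huc hub hwa hwc hwb` follow from the nine transport
facts at `y = c`: the residues of `u` at the three places are the monomials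
`w ^ (1 + q + q²)`, `w ^ (2 + q)`, `w ^ (q² + q + 1)`.

* `mem_and_red_mul3` : membership and residue of a product of three elements of a subring.
* `hu_hw_first`, `hu_hw_middle`, `hu_hw_third` : the three pairs `(hu, hw)`.
* `hu_hw_of_transport` : all six at once.
-/

set_option autoImplicit false
set_option linter.unusedSectionVars false

namespace Fermat.Agent.S36.H40

open Polynomial Fermat.Agent.S18 Fermat.Agent.S34.H55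

section ChartSide

variable {R0 k F1 Fk κ F : Type*} [CommRing R0] [Field k] [Field F1] [Algebra R0 F1]
  [Field Fk] [Algebra k Fk] [Field κ] [Algebra k κ] [Field F]
  [Algebra R0 F] {ϖ : R0} {π0 : R0 →+* k} {x1 θ : F1} {xb θb : Fk}

/-- Membership and residue of a product of three elements. -/
theorem mem_and_red_mul3 (O : Subring F) (red : O →+* κ) {a b c : F} {α β γ : κ}
    (ha : ∃ h : a ∈ O, red ⟨a, h⟩ = α) (hb : ∃ h : b ∈ O, red ⟨b, h⟩ = β)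
    (hc : ∃ h : c ∈ O, red ⟨c, h⟩ = γ) :
    ∃ h : a * b * c ∈ O, red ⟨a * b * c, h⟩ = α * β * γ := by
  obtain ⟨ha, rfl⟩ := ha
  obtain ⟨hb, rfl⟩ := hb
  obtain ⟨hc, rfl⟩ := hc
  refine ⟨O.mul_mem (O.mul_mem ha hb) hc, ?_⟩
  rw [← map_mul, ← map_mul]
  rfl

/-- A monomial in `w` is integral over `k[w]`. -/
theorem isIntegral_pow_adjoin (w : Fk) (n : ℕ) : IsIntegral (Algebra.adjoin k {w}) (w ^ n) := by
  have h1 : w ∈ Algebra.adjoin k {w} := Algebra.self_mem_adjoin_singleton k w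
  have h2 : w ^ n ∈ Algebra.adjoin k {w} := Subalgebra.pow_mem _ h1 n
  exact isIntegral_algebraMap (R := ↥(Algebra.adjoin k {w})) (A := Fk) (x := ⟨w ^ n, h2⟩)

/-- **`(hua, hwa)`**: the product coordinate at the `(F,F)` place, residue `w ^ (1 + q + q²)`. -/
theorem hu_hw_first (M : H3.GaussModel ϖ π0 x1 θ xb θb) (ιu ιv ιw : F1 →+* F)
    (incl : Fk →ₐ[k] κ) (Oa : Subring F) (reda : Oa →+* κ) (Fr : Fk →ₐ[k] Fk) (q : ℕ)
    (Hau : ∀ (y : F1) (hy : y ∈ M.O1), ∃ h : ιu y ∈ Oa,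
      reda ⟨ιu y, h⟩ = incl (M.res1 ⟨y, hy⟩))
    (Hav : ∀ (y : F1) (hy : y ∈ M.O1), ∃ h : ιv y ∈ Oa,
      reda ⟨ιv y, h⟩ = incl (Fr (M.res1 ⟨y, hy⟩)))
    (Haw : ∀ (y : F1) (hy : y ∈ M.O1), ∃ h : ιw y ∈ Oa,
      reda ⟨ιw y, h⟩ = incl (Fr (Fr (M.res1 ⟨y, hy⟩))))
    {c : F1} {w : Fk} (hc : c ∈ M.O1) (hcw : M.res1 ⟨c, hc⟩ = w) (hFrw : Fr w = w ^ q) :
    ∃ hua : ιu c * ιv c * ιw c ∈ Oa, ∃ γ : Fk, IsIntegral (Algebra.adjoin k {w}) γ ∧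
      reda ⟨ιu c * ιv c * ιw c, hua⟩ = incl γ := by
  obtain ⟨hu, e⟩ := mem_and_red_mul3 Oa reda (Hau c hc) (Hav c hc) (Haw c hc)
  have hFr2 : Fr (Fr w) = w ^ (q * q) := by rw [hFrw, map_pow, hFrw, pow_mul]
  refine ⟨hu, w ^ (1 + q + q * q), isIntegral_pow_adjoin w _, ?_⟩
  rw [e, hcw, hFr2, hFrw, ← map_mul, ← map_mul]
  congr 1
  ring

/-- **`(huc, hwc)`**: the product coordinate at the middle place, residue `w ^ (2 + q)`. -/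
theorem hu_hw_middle (M : H3.GaussModel ϖ π0 x1 θ xb θb) (ιu ιv ιw : F1 →+* F)
    (incl : Fk →ₐ[k] κ) (Oc : Subring F) (redc : Oc →+* κ) (Fr : Fk →ₐ[k] Fk) (q : ℕ)
    (Hcu : ∀ (y : F1) (hy : y ∈ M.O1), ∃ h : ιu y ∈ Oc,
      redc ⟨ιu y, h⟩ = incl (M.res1 ⟨y, hy⟩))
    (Hcv : ∀ (y : F1) (hy : y ∈ M.O1), ∃ h : ιv y ∈ Oc,
      redc ⟨ιv y, h⟩ = incl (Fr (M.res1 ⟨y, hy⟩)))
    (Hcw : ∀ (y : F1) (hy : y ∈ M.O1), ∃ h : ιw y ∈ Oc,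
      redc ⟨ιw y, h⟩ = incl (M.res1 ⟨y, hy⟩))
    {c : F1} {w : Fk} (hc : c ∈ M.O1) (hcw : M.res1 ⟨c, hc⟩ = w) (hFrw : Fr w = w ^ q) :
    ∃ huc : ιu c * ιv c * ιw c ∈ Oc, ∃ γ : Fk, IsIntegral (Algebra.adjoin k {w}) γ ∧
      redc ⟨ιu c * ιv c * ιw c, huc⟩ = incl γ := by
  obtain ⟨hu, e⟩ := mem_and_red_mul3 Oc redc (Hcu c hc) (Hcv c hc) (Hcw c hc)
  refine ⟨hu, w ^ (2 + q), isIntegral_pow_adjoin w _, ?_⟩
  rw [e, hcw, hFrw, ← map_mul, ← map_mul]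
  congr 1
  ring

/-- **`(hub, hwb)`**: the product coordinate at the `(V,V)` place, residue `w ^ (q² + q + 1)`. -/
theorem hu_hw_third (M : H3.GaussModel ϖ π0 x1 θ xb θb) (ιu ιv ιw : F1 →+* F)
    (incl : Fk →ₐ[k] κ) (Ob : Subring F) (redb : Ob →+* κ) (Fr : Fk →ₐ[k] Fk) (q : ℕ)
    (Hbu : ∀ (y : F1) (hy : y ∈ M.O1), ∃ h : ιu y ∈ Ob,
      redb ⟨ιu y, h⟩ = incl (Fr (Fr (M.res1 ⟨y, hy⟩))))
    (Hbv : ∀ (y : F1) (hy : y ∈ M.O1), ∃ h : ιv y ∈ Ob,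
      redb ⟨ιv y, h⟩ = incl (Fr (M.res1 ⟨y, hy⟩)))
    (Hbw : ∀ (y : F1) (hy : y ∈ M.O1), ∃ h : ιw y ∈ Ob,
      redb ⟨ιw y, h⟩ = incl (M.res1 ⟨y, hy⟩))
    {c : F1} {w : Fk} (hc : c ∈ M.O1) (hcw : M.res1 ⟨c, hc⟩ = w) (hFrw : Fr w = w ^ q) :
    ∃ hub : ιu c * ιv c * ιw c ∈ Ob, ∃ γ : Fk, IsIntegral (Algebra.adjoin k {w}) γ ∧
      redb ⟨ιu c * ιv c * ιw c, hub⟩ = incl γ := by
  obtain ⟨hu, e⟩ := mem_and_red_mul3 Ob redb (Hbu c hc) (Hbv c hc) (Hbw c hc)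
  have hFr2 : Fr (Fr w) = w ^ (q * q) := by rw [hFrw, map_pow, hFrw, pow_mul]
  refine ⟨hu, w ^ (q * q + q + 1), isIntegral_pow_adjoin w _, ?_⟩
  rw [e, hcw, hFr2, hFrw, ← map_mul, ← map_mul]
  congr 1
  ring

end ChartSide

end Fermat.Agent.S36.H40
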