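/-
helper83: S36, row (E2), the (M1) → (E2) glue: **`S36.H83.ThreeComponents` from field-level facts**
(twin of `S34.H55.twoComponents_of_incl`).

Input (all at the level of the ambient fields): a level-`L` Gauss model `M` of `F1`, the three
degeneracy maps `ιu ιv ιw : F1 →+* F` (`f(z)`, `f(qz)`, `f(q²z)`), three subrings of `F` with
reductions into a common big field `κ ⊇ incl Fk`:
`(Oa, reda)` = the `(F,F)` place (`e = 1`), `(Oc, redc)` = the middle `(F,V)` place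
(`e = q - 1`, uniformiser `τ`), `(Ob, redb)` = the `(V,V)` place (`e = 1`); the nine transport
facts; chart coordinates `u : F`, `c : F1`, `w : Fk`; the lifting property (GR) at level `L`;
and the saturation **(SAT)** in field form:  an element of `Oa ∩ Oc ∩ Ob` whose `ϖ`-multiple is
integral over `R0[u]` is integral over `R0[u]`.

Output: ring homs `red₁ red₂ red₃ : chartB R0 u → integralClosure k[w] Fk` restricting the three
place reductions, and `ThreeComponents red₁ red₂ red₃ …`, plus the easy inclusions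
`red_i ϖ = 0`, `ϖ ∈ P₂^((q-1))` wanted by the base change layer.
-/
import Fermat.Agent.S34.H55_TwoComponentsIncl
import Fermat.Agent.S36.H83_ThreeComponents

set_option autoImplicit false
set_option linter.unusedSectionVars false

namespace Fermat.Agent.S36.H83

open Polynomial Fermat.Agent.S18 Fermat.Agent.S18.H55T Fermat.Agent.S34.H55

/-! ### Divisibility ideals -/

section DivIdeal

variable {F : Type*} [Field F]

/-- the ideal of the elements of `B` divisible by `t` in the bigger ring `O`. -/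
def divIdeal (B O : Subring F) (hle : B ≤ O) (t : F) : Ideal B where
  carrier := {b | ∃ z ∈ O, (b : F) = t * z}
  add_mem' := by
    rintro a b ⟨z, hz, e⟩ ⟨z', hz', e'⟩
    exact ⟨z + z', O.add_mem hz hz', by rw [Subring.coe_add, e, e', mul_add]⟩
  zero_mem' := ⟨0, O.zero_mem, by simp⟩
  smul_mem' := by
    rintro c b ⟨z, hz, e⟩
    refine ⟨(c : F) * z, O.mul_mem (hle c.2) hz, ?_⟩
    rw [smul_eq_mul, Subring.coe_mul, e]
    ring

theorem mem_divIdeal {B O : Subring F} {hle : B ≤ O} {t : F} {b : B} :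
    b ∈ divIdeal B O hle t ↔ ∃ z ∈ O, (b : F) = t * z := Iff.rfl

theorem divIdeal_mul_le (B O : Subring F) (hle : B ≤ O) (s t : F) :
    divIdeal B O hle s * divIdeal B O hle t ≤ divIdeal B O hle (s * t) := by
  rw [Ideal.mul_le]
  rintro a ⟨z, hz, e⟩ b ⟨z', hz', e'⟩
  refine ⟨z * z', O.mul_mem hz hz', ?_⟩
  rw [Subring.coe_mul, e, e']
  ring

theorem pow_le_divIdeal (B O : Subring F) (hle : B ≤ O) (t : F) (I : Ideal B)
    (hI : I ≤ divIdeal B O hle t) (n : ℕ) : I ^ n ≤ divIdeal B O hle (t ^ n) := by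
  induction n with
  | zero =>
    intro b _
    exact ⟨(b : F), hle b.2, by rw [pow_zero, one_mul]⟩
  | succ n ih =>
    rw [pow_succ, pow_succ]
    exact (Ideal.mul_mono ih hI).trans (divIdeal_mul_le B O hle _ _)

end DivIdeal

/-! ### `q ∈ P₂^((q-1))` from the unit statement of (M4) at ONE point of the middle component -/

section Hq2

variable {B D BM : Type*} [CommRing B] [CommRing D] [CommRing BM]
  {red₁ red₂ red₃ : B →+* D} {q : ℕ} {qB : B}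

/-- if `θ ∈ P₂` and `t * θ^(q-1) = e * q` with `e` outside ONE maximal ideal `n ⊇ P₂` (the unit
statement `hE` of `ThreeComponents.localGen_middle`), then `q ∈ P₂^((q-1))` (helper70's `hq2`). -/
theorem hq2_of_hE (n : Ideal B) (hker : RingHom.ker red₂ ≤ n) {θ : B} (hθ : red₂ θ = 0)
    (hE : ∃ e t : B, e ∉ n ∧ t ∉ n ∧ t * θ ^ (q - 1) = e * qB) :
    ∃ t : B, red₂ t ≠ 0 ∧ t * qB ∈ RingHom.ker red₂ ^ (q - 1) := by
  obtain ⟨e, t, hen, -, hE⟩ := hE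
  refine ⟨e, fun h0 => hen (hker ((RingHom.mem_ker).2 h0)), ?_⟩
  rw [← hE]
  exact Ideal.mul_mem_left _ _ (Ideal.pow_mem_pow ((RingHom.mem_ker).2 hθ) _)

end Hq2

/-! ### The glue -/

section OfIncl

variable {R0 k F1 Fk κ F : Type*} [CommRing R0] [Field k] [Field F1] [Algebra R0 F1]
  [Field Fk] [Algebra k Fk] [Field κ] [Algebra k κ] [Field F]
  [Algebra R0 F] {ϖ : R0} {π0 : R0 →+* k} {x1 θ : F1} {xb θb : Fk}

set_option maxHeartbeats 1600000 in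
/-- **The three-component glue for reductions with values in a common big field
`κ ⊇ incl Fk`.** -/
theorem threeComponents_of_incl (M : H3.GaussModel ϖ π0 x1 θ xb θb)
    (ιu ιv ιw : F1 →+* F)
    (hιu : ∀ r : R0, ιu (algebraMap R0 F1 r) = algebraMap R0 F r)
    (hιv : ∀ r : R0, ιv (algebraMap R0 F1 r) = algebraMap R0 F r)
    (hιw : ∀ r : R0, ιw (algebraMap R0 F1 r) = algebraMap R0 F r)
    (incl : Fk →ₐ[k] κ)
    (Oa : Subring F) (reda : Oa →+* κ) (Oc : Subring F) (redc : Oc →+* κ)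
    (Ob : Subring F) (redb : Ob →+* κ)
    (hra : ∀ y : Oa, reda y ∈ incl.fieldRange) (hrc : ∀ y : Oc, redc y ∈ incl.fieldRange)
    (hrb : ∀ y : Ob, redb y ∈ incl.fieldRange)
    (hconsta : ∀ r : R0, ∃ h : algebraMap R0 F r ∈ Oa, reda ⟨_, h⟩ = algebraMap k κ (π0 r))
    (hconstc : ∀ r : R0, ∃ h : algebraMap R0 F r ∈ Oc, redc ⟨_, h⟩ = algebraMap k κ (π0 r))
    (hconstb : ∀ r : R0, ∃ h : algebraMap R0 F r ∈ Ob, redb ⟨_, h⟩ = algebraMap k κ (π0 r))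
    (hOica : ∀ y : F, IsIntegral Oa y → y ∈ Oa) (hOicc : ∀ y : F, IsIntegral Oc y → y ∈ Oc)
    (hOicb : ∀ y : F, IsIntegral Ob y → y ∈ Ob)
    (Fr : Fk →ₐ[k] Fk) (q : ℕ) (hq : 0 < q)
    -- the nine transport facts
    (Hau : ∀ (y : F1) (hy : y ∈ M.O1), ∃ h : ιu y ∈ Oa,
      reda ⟨ιu y, h⟩ = incl (M.res1 ⟨y, hy⟩))
    (Hav : ∀ (y : F1) (hy : y ∈ M.O1), ∃ h : ιv y ∈ Oa,
      reda ⟨ιv y, h⟩ = incl (Fr (M.res1 ⟨y, hy⟩)))
    (Haw : ∀ (y : F1) (hy : y ∈ M.O1), ∃ h : ιw y ∈ Oa,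
      reda ⟨ιw y, h⟩ = incl (Fr (Fr (M.res1 ⟨y, hy⟩))))
    (Hcu : ∀ (y : F1) (hy : y ∈ M.O1), ∃ h : ιu y ∈ Oc,
      redc ⟨ιu y, h⟩ = incl (M.res1 ⟨y, hy⟩))
    (Hcv : ∀ (y : F1) (hy : y ∈ M.O1), ∃ h : ιv y ∈ Oc,
      redc ⟨ιv y, h⟩ = incl (Fr (M.res1 ⟨y, hy⟩)))
    (Hcw : ∀ (y : F1) (hy : y ∈ M.O1), ∃ h : ιw y ∈ Oc,
      redc ⟨ιw y, h⟩ = incl (M.res1 ⟨y, hy⟩))
    (Hbu : ∀ (y : F1) (hy : y ∈ M.O1), ∃ h : ιu y ∈ Ob,
      redb ⟨ιu y, h⟩ = incl (Fr (Fr (M.res1 ⟨y, hy⟩))))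
    (Hbv : ∀ (y : F1) (hy : y ∈ M.O1), ∃ h : ιv y ∈ Ob,
      redb ⟨ιv y, h⟩ = incl (Fr (M.res1 ⟨y, hy⟩)))
    (Hbw : ∀ (y : F1) (hy : y ∈ M.O1), ∃ h : ιw y ∈ Ob,
      redb ⟨ιw y, h⟩ = incl (M.res1 ⟨y, hy⟩))
    -- the charts
    {c : F1} {u : F} {w : Fk} (hc : c ∈ M.O1) (hcw : M.res1 ⟨c, hc⟩ = w)
    (hFrw : Fr w = w ^ q)
    (huint : IsIntegral (Algebra.adjoin R0 {u}) (ιu c))
    (hvint : IsIntegral (Algebra.adjoin R0 {u}) (ιv c))
    (hwint : IsIntegral (Algebra.adjoin R0 {u}) (ιw c))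
    (hua : u ∈ Oa) (huc : u ∈ Oc) (hub : u ∈ Ob)
    (hwa : ∃ γ : Fk, IsIntegral (Algebra.adjoin k {w}) γ ∧ reda ⟨u, hua⟩ = incl γ)
    (hwc : ∃ γ : Fk, IsIntegral (Algebra.adjoin k {w}) γ ∧ redc ⟨u, huc⟩ = incl γ)
    (hwb : ∃ γ : Fk, IsIntegral (Algebra.adjoin k {w}) γ ∧ redb ⟨u, hub⟩ = incl γ)
    (hGR : ∀ γ : Fk, IsIntegral (Algebra.adjoin k {w}) γ →
      ∃ (b : F1) (hbO : b ∈ M.O1), IsIntegral (Algebra.adjoin R0 {c}) b ∧ M.res1 ⟨b, hbO⟩ = γ)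
    (hFrpow : ∀ γ : Fk, ∃ γ' : Fk, γ' ^ q = Fr γ)
    -- the kernels of the three reductions
    (hπϖ : π0 ϖ = 0) (hϖ0 : algebraMap R0 F ϖ ≠ 0)
    (hkera : ∀ (y : F) (hy : y ∈ Oa), reda ⟨y, hy⟩ = 0 → ∃ z ∈ Oa, y = algebraMap R0 F ϖ * z)
    (hkerb : ∀ (y : F) (hy : y ∈ Ob), redb ⟨y, hy⟩ = 0 → ∃ z ∈ Ob, y = algebraMap R0 F ϖ * z)
    (τ : F)
    (hkerc : ∀ (y : F) (hy : y ∈ Oc), redc ⟨y, hy⟩ = 0 → ∃ z ∈ Oc, y = τ * z)
    (hτpow : ∃ v ∈ Oc, τ ^ (q - 1) = algebraMap R0 F ϖ * v)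
    (hinvc : ∀ (y : F) (hy : y ∈ Oc), redc ⟨y, hy⟩ ≠ 0 → y⁻¹ ∈ Oc)
    -- (SAT)
    (hsatF : ∀ z : F, z ∈ Oa → z ∈ Oc → z ∈ Ob →
      IsIntegral (Algebra.adjoin R0 {u}) (algebraMap R0 F ϖ * z) →
      IsIntegral (Algebra.adjoin R0 {u}) z) :
    ∃ red₁ red₂ red₃ : ↥(H40.chartB R0 u) →+* ↥(integralClosure (Algebra.adjoin k {w}) Fk),
      (∀ (b : ↥(H40.chartB R0 u)) (h : (b : F) ∈ Oa),
        incl ((red₁ b : ↥(integralClosure (Algebra.adjoin k {w}) Fk)) : Fk) = reda ⟨b, h⟩) ∧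
      (∀ (b : ↥(H40.chartB R0 u)) (h : (b : F) ∈ Oc),
        incl ((red₂ b : ↥(integralClosure (Algebra.adjoin k {w}) Fk)) : Fk) = redc ⟨b, h⟩) ∧
      (∀ (b : ↥(H40.chartB R0 u)) (h : (b : F) ∈ Ob),
        incl ((red₃ b : ↥(integralClosure (Algebra.adjoin k {w}) Fk)) : Fk) = redb ⟨b, h⟩) ∧
      red₁ (algebraMap R0 ↥(H40.chartB R0 u) ϖ) = 0 ∧
      red₂ (algebraMap R0 ↥(H40.chartB R0 u) ϖ) = 0 ∧
      red₃ (algebraMap R0 ↥(H40.chartB R0 u) ϖ) = 0 ∧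
      ThreeComponents red₁ red₂ red₃ (chartMap ιu hιu huint) (chartMap ιv hιv hvint)
        (chartMap ιw hιw hwint) (rbarB M hc hcw) (WR Fr q hFrw) q
        (algebraMap R0 ↥(H40.chartB R0 u) ϖ) := by
  set T : Fk ≃ₐ[k] ↥incl.fieldRange := incl.equivFieldRange with hT
  have hTsymm : ∀ (O : Subring F) (red : O →+* κ) (hr : ∀ y : O, red y ∈ incl.fieldRange)
      (y : O) (γ : Fk), red y = incl γ → T.symm (redR incl O red hr y) = γ := by
    intro O red hr y γ h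
    rw [(redR_eq_iff incl O red hr y γ).mpr h]
    exact T.symm_apply_apply γ
  have hca : ∀ r : R0, ∃ h : algebraMap R0 F r ∈ Oa,
      redR incl Oa reda hra ⟨_, h⟩ = algebraMap k ↥incl.fieldRange (π0 r) := by
    intro r
    obtain ⟨h, hh⟩ := hconsta r
    exact ⟨h, Subtype.ext hh⟩
  have hcc : ∀ r : R0, ∃ h : algebraMap R0 F r ∈ Oc,
      redR incl Oc redc hrc ⟨_, h⟩ = algebraMap k ↥incl.fieldRange (π0 r) := by
    intro r
    obtain ⟨h, hh⟩ := hconstc r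
    exact ⟨h, Subtype.ext hh⟩
  have hcb : ∀ r : R0, ∃ h : algebraMap R0 F r ∈ Ob,
      redR incl Ob redb hrb ⟨_, h⟩ = algebraMap k ↥incl.fieldRange (π0 r) := by
    intro r
    obtain ⟨h, hh⟩ := hconstb r
    exact ⟨h, Subtype.ext hh⟩
  have hwa' : IsIntegral (Algebra.adjoin k {w}) (T.symm (redR incl Oa reda hra ⟨u, hua⟩)) := by
    obtain ⟨γ, hγ, hh⟩ := hwa
    rw [hTsymm Oa reda hra ⟨u, hua⟩ γ hh]
    exact hγ
  have hwc' : IsIntegral (Algebra.adjoin k {w}) (T.symm (redR incl Oc redc hrc ⟨u, huc⟩)) := by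
    obtain ⟨γ, hγ, hh⟩ := hwc
    rw [hTsymm Oc redc hrc ⟨u, huc⟩ γ hh]
    exact hγ
  have hwb' : IsIntegral (Algebra.adjoin k {w}) (T.symm (redR incl Ob redb hrb ⟨u, hub⟩)) := by
    obtain ⟨γ, hγ, hh⟩ := hwb
    rw [hTsymm Ob redb hrb ⟨u, hub⟩ γ hh]
    exact hγ
  -- the three reductions on the chart
  set red₁ := redB (π0 := π0) T Oa (redR incl Oa reda hra) hca hOica hua hwa' with hred₁
  set red₂ := redB (π0 := π0) T Oc (redR incl Oc redc hrc) hcc hOicc huc hwc' with hred₂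
  set red₃ := redB (π0 := π0) T Ob (redR incl Ob redb hrb) hcb hOicb hub hwb' with hred₃
  -- the chart lies in the three place rings
  have hBa : ∀ b : ↥(H40.chartB R0 u), (b : F) ∈ Oa := fun b =>
    mem_of_isIntegral_adjoin_of_closed Oa hOica (fun r => (hconsta r).1) hua b.2
  have hBc : ∀ b : ↥(H40.chartB R0 u), (b : F) ∈ Oc := fun b =>
    mem_of_isIntegral_adjoin_of_closed Oc hOicc (fun r => (hconstc r).1) huc b.2
  have hBb : ∀ b : ↥(H40.chartB R0 u), (b : F) ∈ Ob := fun b =>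
    mem_of_isIntegral_adjoin_of_closed Ob hOicb (fun r => (hconstb r).1) hub b.2
  -- values of the chart reductions
  have hval₁ : ∀ (b : ↥(H40.chartB R0 u)) (h : (b : F) ∈ Oa),
      incl ((red₁ b : ↥(integralClosure (Algebra.adjoin k {w}) Fk)) : Fk) = reda ⟨b, h⟩ := by
    intro b h
    rw [hred₁, coe_redB _ _ _ _ _ _ _ _ h]
    have h1 : ((T (T.symm (redR incl Oa reda hra ⟨(b : F), h⟩)) : ↥incl.fieldRange) : κ) =
        incl (T.symm (redR incl Oa reda hra ⟨(b : F), h⟩)) :=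
      AlgHom.equivFieldRange_apply_coe incl _
    rw [← h1, T.apply_symm_apply, coe_redR]
  have hval₂ : ∀ (b : ↥(H40.chartB R0 u)) (h : (b : F) ∈ Oc),
      incl ((red₂ b : ↥(integralClosure (Algebra.adjoin k {w}) Fk)) : Fk) = redc ⟨b, h⟩ := by
    intro b h
    rw [hred₂, coe_redB _ _ _ _ _ _ _ _ h]
    have h1 : ((T (T.symm (redR incl Oc redc hrc ⟨(b : F), h⟩)) : ↥incl.fieldRange) : κ) =
        incl (T.symm (redR incl Oc redc hrc ⟨(b : F), h⟩)) :=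
      AlgHom.equivFieldRange_apply_coe incl _
    rw [← h1, T.apply_symm_apply, coe_redR]
  have hval₃ : ∀ (b : ↥(H40.chartB R0 u)) (h : (b : F) ∈ Ob),
      incl ((red₃ b : ↥(integralClosure (Algebra.adjoin k {w}) Fk)) : Fk) = redb ⟨b, h⟩ := by
    intro b h
    rw [hred₃, coe_redB _ _ _ _ _ _ _ _ h]
    have h1 : ((T (T.symm (redR incl Ob redb hrb ⟨(b : F), h⟩)) : ↥incl.fieldRange) : κ) =
        incl (T.symm (redR incl Ob redb hrb ⟨(b : F), h⟩)) :=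
      AlgHom.equivFieldRange_apply_coe incl _
    rw [← h1, T.apply_symm_apply, coe_redR]
  have hinj : Function.Injective incl := incl.toRingHom.injective
  -- equality in `integralClosure` through `incl`
  have hext : ∀ x y : ↥(integralClosure (Algebra.adjoin k {w}) Fk),
      incl (x : Fk) = incl (y : Fk) → x = y := fun x y h => Subtype.ext (hinj h)
  have hzero₁ : ∀ b : ↥(H40.chartB R0 u), red₁ b = 0 ↔ reda ⟨b, hBa b⟩ = 0 := by
    intro b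
    rw [← hval₁ b (hBa b)]
    constructor
    · intro h; rw [h]; simp
    · intro h
      apply hext
      rw [h]; simp
  have hzero₂ : ∀ b : ↥(H40.chartB R0 u), red₂ b = 0 ↔ redc ⟨b, hBc b⟩ = 0 := by
    intro b
    rw [← hval₂ b (hBc b)]
    constructor
    · intro h; rw [h]; simp
    · intro h
      apply hext
      rw [h]; simp
  have hzero₃ : ∀ b : ↥(H40.chartB R0 u), red₃ b = 0 ↔ redb ⟨b, hBb b⟩ = 0 := by
    intro b
    rw [← hval₃ b (hBb b)]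
    constructor
    · intro h; rw [h]; simp
    · intro h
      apply hext
      rw [h]; simp
  have hrbar : Function.Surjective (rbarB M hc hcw) := by
    rintro ⟨γ, hγ⟩
    obtain ⟨b, hbO, hb, hres⟩ := hGR γ hγ
    refine ⟨⟨b, hb⟩, Subtype.ext ?_⟩
    rw [coe_rbarB]
    exact hres
  -- the nine compatibilities
  have h1u : ∀ ψ, red₁ (chartMap ιu hιu huint ψ) = rbarB M hc hcw ψ := by
    intro ψ
    apply hext
    obtain ⟨h, hh⟩ := Hau (ψ : F1) (chart_le_O1 M hc ψ.2)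
    rw [hval₁ _ h, coe_rbarB]
    exact hh
  have h1v : ∀ ψ, red₁ (chartMap ιv hιv hvint ψ) = WR Fr q hFrw (rbarB M hc hcw ψ) := by
    intro ψ
    apply hext
    obtain ⟨h, hh⟩ := Hav (ψ : F1) (chart_le_O1 M hc ψ.2)
    rw [hval₁ _ h, coe_WR, coe_rbarB]
    exact hh
  have h1w : ∀ ψ, red₁ (chartMap ιw hιw hwint ψ) =
      WR Fr q hFrw (WR Fr q hFrw (rbarB M hc hcw ψ)) := by
    intro ψ
    apply hext
    obtain ⟨h, hh⟩ := Haw (ψ : F1) (chart_le_O1 M hc ψ.2)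
    rw [hval₁ _ h, coe_WR, coe_WR, coe_rbarB]
    exact hh
  have h2u : ∀ ψ, red₂ (chartMap ιu hιu huint ψ) = rbarB M hc hcw ψ := by
    intro ψ
    apply hext
    obtain ⟨h, hh⟩ := Hcu (ψ : F1) (chart_le_O1 M hc ψ.2)
    rw [hval₂ _ h, coe_rbarB]
    exact hh
  have h2v : ∀ ψ, red₂ (chartMap ιv hιv hvint ψ) = WR Fr q hFrw (rbarB M hc hcw ψ) := by
    intro ψ
    apply hext
    obtain ⟨h, hh⟩ := Hcv (ψ : F1) (chart_le_O1 M hc ψ.2)
    rw [hval₂ _ h, coe_WR, coe_rbarB]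
    exact hh
  have h2w : ∀ ψ, red₂ (chartMap ιw hιw hwint ψ) = rbarB M hc hcw ψ := by
    intro ψ
    apply hext
    obtain ⟨h, hh⟩ := Hcw (ψ : F1) (chart_le_O1 M hc ψ.2)
    rw [hval₂ _ h, coe_rbarB]
    exact hh
  have h3u : ∀ ψ, red₃ (chartMap ιu hιu huint ψ) =
      WR Fr q hFrw (WR Fr q hFrw (rbarB M hc hcw ψ)) := by
    intro ψ
    apply hext
    obtain ⟨h, hh⟩ := Hbu (ψ : F1) (chart_le_O1 M hc ψ.2)
    rw [hval₃ _ h, coe_WR, coe_WR, coe_rbarB]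
    exact hh
  have h3v : ∀ ψ, red₃ (chartMap ιv hιv hvint ψ) = WR Fr q hFrw (rbarB M hc hcw ψ) := by
    intro ψ
    apply hext
    obtain ⟨h, hh⟩ := Hbv (ψ : F1) (chart_le_O1 M hc ψ.2)
    rw [hval₃ _ h, coe_WR, coe_rbarB]
    exact hh
  have h3w : ∀ ψ, red₃ (chartMap ιw hιw hwint ψ) = rbarB M hc hcw ψ := by
    intro ψ
    apply hext
    obtain ⟨h, hh⟩ := Hbw (ψ : F1) (chart_le_O1 M hc ψ.2)
    rw [hval₃ _ h, coe_rbarB]
    exact hh
  -- the reductions kill `ϖ`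
  have hϖ₁ : red₁ (algebraMap R0 ↥(H40.chartB R0 u) ϖ) = 0 := by
    rw [hzero₁]
    obtain ⟨h, hh⟩ := hconsta ϖ
    have e : (⟨((algebraMap R0 ↥(H40.chartB R0 u) ϖ : ↥(H40.chartB R0 u)) : F), hBa _⟩ : Oa) =
        ⟨algebraMap R0 F ϖ, h⟩ := Subtype.ext rfl
    rw [e, hh, hπϖ, map_zero]
  have hϖ₂ : red₂ (algebraMap R0 ↥(H40.chartB R0 u) ϖ) = 0 := by
    rw [hzero₂]
    obtain ⟨h, hh⟩ := hconstc ϖ
    have e : (⟨((algebraMap R0 ↥(H40.chartB R0 u) ϖ : ↥(H40.chartB R0 u)) : F), hBc _⟩ : Oc) =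
        ⟨algebraMap R0 F ϖ, h⟩ := Subtype.ext rfl
    rw [e, hh, hπϖ, map_zero]
  have hϖ₃ : red₃ (algebraMap R0 ↥(H40.chartB R0 u) ϖ) = 0 := by
    rw [hzero₃]
    obtain ⟨h, hh⟩ := hconstb ϖ
    have e : (⟨((algebraMap R0 ↥(H40.chartB R0 u) ϖ : ↥(H40.chartB R0 u)) : F), hBb _⟩ : Ob) =
        ⟨algebraMap R0 F ϖ, h⟩ := Subtype.ext rfl
    rw [e, hh, hπϖ, map_zero]
  refine ⟨red₁, red₂, red₃, hval₁, hval₂, hval₃, hϖ₁, hϖ₂, hϖ₃,
    ⟨?_, h1u, h1v, h1w, h2u, h2v, h2w, h3u, h3v, h3w, hrbar, ?_⟩⟩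
  · -- hroot
    rintro ⟨γ, hγ⟩
    obtain ⟨γ', hγ'⟩ := hFrpow γ
    have hFrγ : IsIntegral (Algebra.adjoin k {w}) (Fr γ) :=
      (WR Fr q hFrw ⟨γ, hγ⟩).2
    have hγ'int : IsIntegral (Algebra.adjoin k {w}) γ' := by
      apply IsIntegral.of_pow hq
      rw [hγ']
      exact hFrγ
    exact ⟨⟨γ', hγ'int⟩, Subtype.ext (by
      rw [coe_WR]
      exact hγ')⟩
  · -- hsat
    intro z hz1 hz3 hz2
    obtain ⟨s, hs, hsz⟩ := hz2
    -- `z / ϖ` lies in `Oa` and `Ob`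
    obtain ⟨za, hza, eza⟩ := hkera (z : F) (hBa z) ((hzero₁ z).1 hz1)
    obtain ⟨zb, hzb, ezb⟩ := hkerb (z : F) (hBb z) ((hzero₃ z).1 hz3)
    have hzab : za = zb := mul_left_cancel₀ hϖ0 (eza.symm.trans ezb)
    subst hzab
    -- the middle place
    have hle : (H40.chartB R0 u).toSubring ≤ Oc := fun b hb => hBc ⟨b, hb⟩
    have hker_le : RingHom.ker red₂ ≤ divIdeal (H40.chartB R0 u).toSubring Oc hle τ := by
      intro b hb
      exact hkerc (b : F) (hBc b) ((hzero₂ b).1 ((RingHom.mem_ker).1 hb))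
    have hpow := pow_le_divIdeal (H40.chartB R0 u).toSubring Oc hle τ _ hker_le (q - 1) hsz
    obtain ⟨y, hy, ey⟩ := hpow
    obtain ⟨v, hv, ev⟩ := hτpow
    have hsinv : ((s : F))⁻¹ ∈ Oc := hinvc (s : F) (hBc s) (fun h0 => hs ((hzero₂ s).2 h0))
    have hs0 : (s : F) ≠ 0 := by
      intro h0
      apply hs
      have : s = 0 := Subtype.ext h0
      rw [this, map_zero]
    have hzc : za ∈ Oc := by
      have e1 : za = (s : F)⁻¹ * (v * y) := by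
        have e2 : (s : F) * (algebraMap R0 F ϖ * za) = algebraMap R0 F ϖ * (v * y) := by
          have e3 : (s : F) * (z : F) = τ ^ (q - 1) * y := ey
          rw [← eza, e3, ev]
          ring
        have e4 : algebraMap R0 F ϖ * ((s : F) * za) = algebraMap R0 F ϖ * (v * y) := by
          rw [← e2]; ring
        have e5 : (s : F) * za = v * y := mul_left_cancel₀ hϖ0 e4
        rw [← e5, ← mul_assoc, inv_mul_cancel₀ hs0, one_mul]
      rw [e1]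
      exact Oc.mul_mem hsinv (Oc.mul_mem hv hy)
    have hint : IsIntegral (Algebra.adjoin R0 {u}) za := by
      apply hsatF za hza hzc hzb
      rw [← eza]
      exact z.2
    rw [Ideal.mem_span_singleton']
    refine ⟨⟨za, hint⟩, Subtype.ext ?_⟩
    change za * algebraMap R0 F ϖ = (z : F)
    rw [eza, mul_comm]

end OfIncl

end Fermat.Agent.S36.H83
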