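/-
helper83: S36, row (E2), **pre-final layer of the `ThreeComponents` instance at the real types**.

`S36.H83.threeComponents_of_incl` specialised to
* the level-`L` Gauss model `S34.H55.Mod L hqL A hA` of `F₀ = FullC L₁ L`,
* the top field `F₂ = FullC L₁ (q * (q * L))`, the three degeneracy maps
  `eU = ι₂ ∘ ι₁` (`f(z)`), `eV = ι₂ ∘ V₁` (`f(qz)`), `eW = V₂ ∘ V₁` (`f(q²z)`),
* the pinned chart coordinates `u = J₃ = j · j_q · j_{q²}` (`S36.H83.J3K`), resp. `J₃⁻¹`,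
  `c = j` resp. `j⁻¹`, `w = j̄` resp. `j̄⁻¹`,
* the residue target `κ = kA((t))`, `incl = S34.H55.inclk L A`, `Fr = S34.H55.FrM L A hA`,

with every hypothesis that does NOT mention the three places discharged (Gauss model, linearity of
the degeneracy maps, integrality of `j, j_q, j_{q²}` over `A₁[J₃]` (helper95), the lifting (GR),
Frobenius roots, `res(q) = 0`, `q ≠ 0`).  What remains are exactly the place-side inputs of (M1):
three subrings with reductions, the nine transport facts, the kernels and (SAT).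
-/
import Fermat.Agent.S36.H83_ThreeComponentsGlue
import Fermat.Agent.S36.H95_CoordJ3Int
import Fermat.Agent.S34.H55_L0Final

set_option autoImplicit false
set_option linter.unusedSectionVars false
set_option linter.style.haveILetI false
set_option synthInstance.maxHeartbeats 400000

noncomputable section

namespace Fermat.Agent.S36.H83

open ModularCurve Polynomial IsLocalRing Fermat.Agent.S28
open Fermat.Agent.S18 Fermat.Agent.S34.H92 Fermat.Agent.S34.H16 Fermat.Agent.S34.H55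

local notation "Qbar" => AlgebraicClosure ℚ

section L0ThreePre

variable (L : ℕ) [NeZero L] {q : ℕ} [hq : Fact q.Prime] (hqL : ¬ q ∣ L)
  (A : ValuationSubring Qbar) (hA : A.LiesOverPrime q)

local notation "kA" => IsLocalRing.ResidueField A
local notation "A₁" => H45.A0 A q
local notation "L₁" => H45.unrCyclo q
local notation "F0" => modularFunctionFieldFullC (H45.unrCyclo q) L
local notation "F1" => modularFunctionFieldFullC (H45.unrCyclo q) (q * L)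
local notation "F2" => modularFunctionFieldFullC (H45.unrCyclo q) (q * (q * L))
local notation "FkL" => modularFunctionFieldFullC (IsLocalRing.ResidueField A) L

/-- `q² ∣ q (q L)`. -/
theorem hq2_dvd : q * q ∣ q * (q * L) := ⟨L, (mul_assoc q q L).symm⟩

/-- the pinned chart coordinate `J₃ = j · j_q · j_{q²}` of `F₂`. -/
abbrev J3N : F2 := S36.H83.J3K L₁ (q * (q * L)) q (hq2_dvd L)

/-- `f(z)`: the double level inclusion `F₀ → F₂`. -/
def eU : F0 →+* F2 := (iotaMN (q * L) (ℓ := q)).comp (iotaMN L (ℓ := q))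

/-- `f(qz)`: `ι₂ ∘ V₁ : F₀ → F₂`. -/
def eV : F0 →+* F2 := (iotaMN (q * L) (ℓ := q)).comp (VMN L (ℓ := q))

/-- `f(q²z)`: `V₂ ∘ V₁ : F₀ → F₂`. -/
def eW : F0 →+* F2 := (VMN (q * L) (ℓ := q)).comp (VMN L (ℓ := q))

theorem eU_apply (x : F0) : eU L (q := q) x = iotaMN (q * L) (ℓ := q) (iotaMN L (ℓ := q) x) := rfl
theorem eV_apply (x : F0) : eV L (q := q) x = iotaMN (q * L) (ℓ := q) (VMN L (ℓ := q) x) := rfl
theorem eW_apply (x : F0) : eW L (q := q) x = VMN (q * L) (ℓ := q) (VMN L (ℓ := q) x) := rfl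

theorem eU_algebraMap (r : A₁) : eU L (q := q) (algebraMap A₁ F0 r) = algebraMap A₁ F2 r := by
  rw [eU_apply, iotaMN_algebraMap L A r, iotaMN_algebraMap (q * L) A r]

theorem eV_algebraMap (r : A₁) : eV L (q := q) (algebraMap A₁ F0 r) = algebraMap A₁ F2 r := by
  rw [eV_apply, VMN_algebraMap L A r, iotaMN_algebraMap (q * L) A r]

theorem eW_algebraMap (r : A₁) : eW L (q := q) (algebraMap A₁ F0 r) = algebraMap A₁ F2 r := by
  rw [eW_apply, VMN_algebraMap L A r, VMN_algebraMap (q * L) A r]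

/-! ### The three coordinate functions -/

theorem coe_eU (x : F0) : ((eU L (q := q) x : F2) : LaurentSeries L₁) = x := by
  rw [eU_apply, coe_iotaMN, coe_iotaMN]

theorem coe_eV (x : F0) :
    ((eV L (q := q) x : F2) : LaurentSeries L₁) = qExpand L₁ q (x : LaurentSeries L₁) := by
  rw [eV_apply, coe_iotaMN, coe_VMN]

theorem coe_eW (x : F0) :
    ((eW L (q := q) x : F2) : LaurentSeries L₁) =
      qExpand L₁ q (qExpand L₁ q (x : LaurentSeries L₁)) := by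
  rw [eW_apply, coe_VMN, coe_VMN]

theorem eU_jK : eU L (q := q) (S18.H16.jK L₁ L) = S18.H16.jK L₁ (q * (q * L)) := by
  apply Subtype.ext
  rw [coe_eU, S18.H16.coe_jK, S18.H16.coe_jK]

theorem eV_jK : eV L (q := q) (S18.H16.jK L₁ L) =
    S18.H99.jdK L₁ (q * (q * L)) q (Dvd.intro (q * L) rfl) := by
  apply Subtype.ext
  rw [coe_eV, S18.H16.coe_jK, S18.H99.coe_jdK]

theorem eW_jK : eW L (q := q) (S18.H16.jK L₁ L) =
    S18.H99.jdK L₁ (q * (q * L)) (q * q) (hq2_dvd L) := by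
  apply Subtype.ext
  rw [coe_eW, S18.H16.coe_jK, S18.H99.coe_jdK, qExpand_qExpand]

/-- the chart coordinate is the product of the three coordinate functions (helper40's
`H40_ChartSide` normal form `u = ιu c * ιv c * ιw c`). -/
theorem J3N_eq_mul : J3N L (q := q) =
    eU L (q := q) (S18.H16.jK L₁ L) * eV L (q := q) (S18.H16.jK L₁ L) *
      eW L (q := q) (S18.H16.jK L₁ L) := by
  rw [eU_jK, eV_jK, eW_jK]
  rfl

theorem J3N_inv_eq_mul : (J3N L (q := q))⁻¹ =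
    eU L (q := q) (S18.H16.jK L₁ L)⁻¹ * eV L (q := q) (S18.H16.jK L₁ L)⁻¹ *
      eW L (q := q) (S18.H16.jK L₁ L)⁻¹ := by
  rw [map_inv₀, map_inv₀, map_inv₀, ← mul_inv, ← mul_inv, ← J3N_eq_mul]

/-! ### Integrality of the coordinate functions over the chart coordinate rings -/

theorem huint1 : IsIntegral (Algebra.adjoin A₁ {J3N L (q := q)}) (eU L (q := q) (S18.H16.jK L₁ L)) := by
  obtain ⟨D, hD⟩ := S28.H16.hasModPoly q
  rw [eU_jK]
  exact (S36.H95.isIntegral_adjoin_J3K L₁ (q * (q * L)) q (Dvd.intro (q * L) rfl)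
    (hq2_dvd L) D hD).1

theorem hvint1 : IsIntegral (Algebra.adjoin A₁ {J3N L (q := q)}) (eV L (q := q) (S18.H16.jK L₁ L)) := by
  obtain ⟨D, hD⟩ := S28.H16.hasModPoly q
  rw [eV_jK]
  exact (S36.H95.isIntegral_adjoin_J3K L₁ (q * (q * L)) q (Dvd.intro (q * L) rfl)
    (hq2_dvd L) D hD).2.1

theorem hwint1 : IsIntegral (Algebra.adjoin A₁ {J3N L (q := q)}) (eW L (q := q) (S18.H16.jK L₁ L)) := by
  obtain ⟨D, hD⟩ := S28.H16.hasModPoly q
  rw [eW_jK]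
  exact (S36.H95.isIntegral_adjoin_J3K L₁ (q * (q * L)) q (Dvd.intro (q * L) rfl)
    (hq2_dvd L) D hD).2.2

theorem huint2 : IsIntegral (Algebra.adjoin A₁ {(J3N L (q := q))⁻¹})
    (eU L (q := q) (S18.H16.jK L₁ L)⁻¹) := by
  obtain ⟨D, hD⟩ := S28.H16.hasModPoly q
  rw [map_inv₀, eU_jK]
  exact (S36.H95.isIntegral_adjoin_J3K_inv L₁ (q * (q * L)) q (Dvd.intro (q * L) rfl)
    (hq2_dvd L) D hD).1

theorem hvint2 : IsIntegral (Algebra.adjoin A₁ {(J3N L (q := q))⁻¹})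
    (eV L (q := q) (S18.H16.jK L₁ L)⁻¹) := by
  obtain ⟨D, hD⟩ := S28.H16.hasModPoly q
  rw [map_inv₀, eV_jK]
  exact (S36.H95.isIntegral_adjoin_J3K_inv L₁ (q * (q * L)) q (Dvd.intro (q * L) rfl)
    (hq2_dvd L) D hD).2.1

theorem hwint2 : IsIntegral (Algebra.adjoin A₁ {(J3N L (q := q))⁻¹})
    (eW L (q := q) (S18.H16.jK L₁ L)⁻¹) := by
  obtain ⟨D, hD⟩ := S28.H16.hasModPoly q
  rw [map_inv₀, eW_jK]
  exact (S36.H95.isIntegral_adjoin_J3K_inv L₁ (q * (q * L)) q (Dvd.intro (q * L) rfl)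
    (hq2_dvd L) D hD).2.2

/-! ### The glue at the real types, against abstract places -/

/-- the place-side hypotheses of `threeComponents_of_incl` at the real types, which do not depend
on the chart: ranges, constants, integral closedness, the nine transports, the kernels.
(All the data are EXPLICIT parameters: section variables are not picked up correctly by
`structure`.) -/
structure PlaceSide (Oa : Subring F2) (reda : Oa →+* LaurentSeries kA)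
    (Oc : Subring F2) (redc : Oc →+* LaurentSeries kA)
    (Ob : Subring F2) (redb : Ob →+* LaurentSeries kA) (τ : F2) : Prop where
  hra : ∀ y : Oa, reda y ∈ (inclk L A).fieldRange
  hrc : ∀ y : Oc, redc y ∈ (inclk L A).fieldRange
  hrb : ∀ y : Ob, redb y ∈ (inclk L A).fieldRange
  hconsta : ∀ r : A₁, ∃ h : algebraMap A₁ F2 r ∈ Oa,
    reda ⟨_, h⟩ = algebraMap kA (LaurentSeries kA) (H45.resA0 A q r)
  hconstc : ∀ r : A₁, ∃ h : algebraMap A₁ F2 r ∈ Oc,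
    redc ⟨_, h⟩ = algebraMap kA (LaurentSeries kA) (H45.resA0 A q r)
  hconstb : ∀ r : A₁, ∃ h : algebraMap A₁ F2 r ∈ Ob,
    redb ⟨_, h⟩ = algebraMap kA (LaurentSeries kA) (H45.resA0 A q r)
  hOica : ∀ y : F2, IsIntegral Oa y → y ∈ Oa
  hOicc : ∀ y : F2, IsIntegral Oc y → y ∈ Oc
  hOicb : ∀ y : F2, IsIntegral Ob y → y ∈ Ob
  Hau : ∀ (y : F0) (hy : y ∈ (Mod L hqL A hA).O1), ∃ h : eU L (q := q) y ∈ Oa,
    reda ⟨_, h⟩ = inclk L A ((Mod L hqL A hA).res1 ⟨y, hy⟩)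
  Hav : ∀ (y : F0) (hy : y ∈ (Mod L hqL A hA).O1), ∃ h : eV L (q := q) y ∈ Oa,
    reda ⟨_, h⟩ = inclk L A (FrM L A hA ((Mod L hqL A hA).res1 ⟨y, hy⟩))
  Haw : ∀ (y : F0) (hy : y ∈ (Mod L hqL A hA).O1), ∃ h : eW L (q := q) y ∈ Oa,
    reda ⟨_, h⟩ = inclk L A (FrM L A hA (FrM L A hA ((Mod L hqL A hA).res1 ⟨y, hy⟩)))
  Hcu : ∀ (y : F0) (hy : y ∈ (Mod L hqL A hA).O1), ∃ h : eU L (q := q) y ∈ Oc,
    redc ⟨_, h⟩ = inclk L A ((Mod L hqL A hA).res1 ⟨y, hy⟩)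
  Hcv : ∀ (y : F0) (hy : y ∈ (Mod L hqL A hA).O1), ∃ h : eV L (q := q) y ∈ Oc,
    redc ⟨_, h⟩ = inclk L A (FrM L A hA ((Mod L hqL A hA).res1 ⟨y, hy⟩))
  Hcw : ∀ (y : F0) (hy : y ∈ (Mod L hqL A hA).O1), ∃ h : eW L (q := q) y ∈ Oc,
    redc ⟨_, h⟩ = inclk L A ((Mod L hqL A hA).res1 ⟨y, hy⟩)
  Hbu : ∀ (y : F0) (hy : y ∈ (Mod L hqL A hA).O1), ∃ h : eU L (q := q) y ∈ Ob,
    redb ⟨_, h⟩ = inclk L A (FrM L A hA (FrM L A hA ((Mod L hqL A hA).res1 ⟨y, hy⟩)))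
  Hbv : ∀ (y : F0) (hy : y ∈ (Mod L hqL A hA).O1), ∃ h : eV L (q := q) y ∈ Ob,
    redb ⟨_, h⟩ = inclk L A (FrM L A hA ((Mod L hqL A hA).res1 ⟨y, hy⟩))
  Hbw : ∀ (y : F0) (hy : y ∈ (Mod L hqL A hA).O1), ∃ h : eW L (q := q) y ∈ Ob,
    redb ⟨_, h⟩ = inclk L A ((Mod L hqL A hA).res1 ⟨y, hy⟩)
  hkera : ∀ (y : F2) (hy : y ∈ Oa), reda ⟨y, hy⟩ = 0 →
    ∃ z ∈ Oa, y = algebraMap A₁ F2 ((q : ℕ) : A₁) * z
  hkerb : ∀ (y : F2) (hy : y ∈ Ob), redb ⟨y, hy⟩ = 0 →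
    ∃ z ∈ Ob, y = algebraMap A₁ F2 ((q : ℕ) : A₁) * z
  hkerc : ∀ (y : F2) (hy : y ∈ Oc), redc ⟨y, hy⟩ = 0 → ∃ z ∈ Oc, y = τ * z
  hτpow : ∃ v ∈ Oc, τ ^ (q - 1) = algebraMap A₁ F2 ((q : ℕ) : A₁) * v
  hinvc : ∀ (y : F2) (hy : y ∈ Oc), redc ⟨y, hy⟩ ≠ 0 → y⁻¹ ∈ Oc

theorem hϖ0_F2 : algebraMap A₁ F2 ((q : ℕ) : A₁) ≠ 0 := by
  rw [map_natCast]
  exact Nat.cast_ne_zero.2 hq.out.ne_zero

set_option maxHeartbeats 3200000 in
/-- **(E2), chart `J₃`, against abstract places.** -/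
theorem threeComponents_J3_of_places {Oa : Subring F2} {reda : Oa →+* LaurentSeries kA}
    {Oc : Subring F2} {redc : Oc →+* LaurentSeries kA}
    {Ob : Subring F2} {redb : Ob →+* LaurentSeries kA} {τ : F2}
    (P : PlaceSide L hqL A hA Oa reda Oc redc Ob redb τ)
    (hua : J3N L (q := q) ∈ Oa) (huc : J3N L (q := q) ∈ Oc) (hub : J3N L (q := q) ∈ Ob)
    (hwa : ∃ γ : FkL, IsIntegral (Algebra.adjoin kA {S18.H16.jK kA L}) γ ∧
      reda ⟨_, hua⟩ = inclk L A γ)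
    (hwc : ∃ γ : FkL, IsIntegral (Algebra.adjoin kA {S18.H16.jK kA L}) γ ∧
      redc ⟨_, huc⟩ = inclk L A γ)
    (hwb : ∃ γ : FkL, IsIntegral (Algebra.adjoin kA {S18.H16.jK kA L}) γ ∧
      redb ⟨_, hub⟩ = inclk L A γ)
    (hsatF : ∀ z : F2, z ∈ Oa → z ∈ Oc → z ∈ Ob →
      IsIntegral (Algebra.adjoin A₁ {J3N L (q := q)}) (algebraMap A₁ F2 ((q : ℕ) : A₁) * z) →
      IsIntegral (Algebra.adjoin A₁ {J3N L (q := q)}) z) :
    ∃ red₁ red₂ red₃ : ↥(H40.chartB A₁ (J3N L (q := q))) →+*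
        ↥(integralClosure (Algebra.adjoin kA {S18.H16.jK kA L}) FkL),
      (∀ (b : ↥(H40.chartB A₁ (J3N L (q := q)))) (h : (b : F2) ∈ Oa),
        inclk L A ((red₁ b : ↥(integralClosure (Algebra.adjoin kA {S18.H16.jK kA L}) FkL)) : FkL)
          = reda ⟨b, h⟩) ∧
      (∀ (b : ↥(H40.chartB A₁ (J3N L (q := q)))) (h : (b : F2) ∈ Oc),
        inclk L A ((red₂ b : ↥(integralClosure (Algebra.adjoin kA {S18.H16.jK kA L}) FkL)) : FkL)
          = redc ⟨b, h⟩) ∧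
      (∀ (b : ↥(H40.chartB A₁ (J3N L (q := q)))) (h : (b : F2) ∈ Ob),
        inclk L A ((red₃ b : ↥(integralClosure (Algebra.adjoin kA {S18.H16.jK kA L}) FkL)) : FkL)
          = redb ⟨b, h⟩) ∧
      red₁ (algebraMap A₁ ↥(H40.chartB A₁ (J3N L (q := q))) ((q : ℕ) : A₁)) = 0 ∧
      red₂ (algebraMap A₁ ↥(H40.chartB A₁ (J3N L (q := q))) ((q : ℕ) : A₁)) = 0 ∧
      red₃ (algebraMap A₁ ↥(H40.chartB A₁ (J3N L (q := q))) ((q : ℕ) : A₁)) = 0 ∧
      ThreeComponents red₁ red₂ red₃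
        (chartMap (eU L (q := q)) (eU_algebraMap L A) (huint1 L A))
        (chartMap (eV L (q := q)) (eV_algebraMap L A) (hvint1 L A))
        (chartMap (eW L (q := q)) (eW_algebraMap L A) (hwint1 L A))
        (rbarB (Mod L hqL A hA) (Mod L hqL A hA).x_mem (Mod L hqL A hA).res1_x)
        (WR (FrM L A hA) q (hFrx L A hA)) q
        (algebraMap A₁ ↥(H40.chartB A₁ (J3N L (q := q))) ((q : ℕ) : A₁)) := by
  have key := threeComponents_of_incl (Mod L hqL A hA) (eU L (q := q)) (eV L (q := q))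
    (eW L (q := q)) (eU_algebraMap L A) (eV_algebraMap L A) (eW_algebraMap L A) (inclk L A)
    Oa reda Oc redc Ob redb P.hra P.hrc P.hrb P.hconsta P.hconstc P.hconstb
    P.hOica P.hOicc P.hOicb (FrM L A hA) q hq.out.pos
    P.Hau P.Hav P.Haw P.Hcu P.Hcv P.Hcw P.Hbu P.Hbv P.Hbw
    (Mod L hqL A hA).x_mem (Mod L hqL A hA).res1_x (hFrx L A hA)
    (huint1 L A) (hvint1 L A) (hwint1 L A) hua huc hub hwa hwc hwb
    (hGRfin L hqL A hA) (S34.H55.hFrpow L A hA)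
    (H45.resA0_natCast_eq_zero hq.out hA) (hϖ0_F2 L A)
    P.hkera P.hkerb τ P.hkerc P.hτpow P.hinvc hsatF
  exact key

set_option maxHeartbeats 3200000 in
/-- **(E2), chart `J₃⁻¹`, against abstract places.** -/
theorem threeComponents_J3_inv_of_places {Oa : Subring F2} {reda : Oa →+* LaurentSeries kA}
    {Oc : Subring F2} {redc : Oc →+* LaurentSeries kA}
    {Ob : Subring F2} {redb : Ob →+* LaurentSeries kA} {τ : F2}
    (P : PlaceSide L hqL A hA Oa reda Oc redc Ob redb τ)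
    (hua : (J3N L (q := q))⁻¹ ∈ Oa) (huc : (J3N L (q := q))⁻¹ ∈ Oc)
    (hub : (J3N L (q := q))⁻¹ ∈ Ob)
    (hwa : ∃ γ : FkL, IsIntegral (Algebra.adjoin kA {(S18.H16.jK kA L)⁻¹}) γ ∧
      reda ⟨_, hua⟩ = inclk L A γ)
    (hwc : ∃ γ : FkL, IsIntegral (Algebra.adjoin kA {(S18.H16.jK kA L)⁻¹}) γ ∧
      redc ⟨_, huc⟩ = inclk L A γ)
    (hwb : ∃ γ : FkL, IsIntegral (Algebra.adjoin kA {(S18.H16.jK kA L)⁻¹}) γ ∧
      redb ⟨_, hub⟩ = inclk L A γ)
    (hsatF : ∀ z : F2, z ∈ Oa → z ∈ Oc → z ∈ Ob →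
      IsIntegral (Algebra.adjoin A₁ {(J3N L (q := q))⁻¹})
        (algebraMap A₁ F2 ((q : ℕ) : A₁) * z) →
      IsIntegral (Algebra.adjoin A₁ {(J3N L (q := q))⁻¹}) z) :
    ∃ red₁ red₂ red₃ : ↥(H40.chartB A₁ (J3N L (q := q))⁻¹) →+*
        ↥(integralClosure (Algebra.adjoin kA {(S18.H16.jK kA L)⁻¹}) FkL),
      (∀ (b : ↥(H40.chartB A₁ (J3N L (q := q))⁻¹)) (h : (b : F2) ∈ Oa),
        inclk L A
          ((red₁ b : ↥(integralClosure (Algebra.adjoin kA {(S18.H16.jK kA L)⁻¹}) FkL)) : FkL)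
          = reda ⟨b, h⟩) ∧
      (∀ (b : ↥(H40.chartB A₁ (J3N L (q := q))⁻¹)) (h : (b : F2) ∈ Oc),
        inclk L A
          ((red₂ b : ↥(integralClosure (Algebra.adjoin kA {(S18.H16.jK kA L)⁻¹}) FkL)) : FkL)
          = redc ⟨b, h⟩) ∧
      (∀ (b : ↥(H40.chartB A₁ (J3N L (q := q))⁻¹)) (h : (b : F2) ∈ Ob),
        inclk L A
          ((red₃ b : ↥(integralClosure (Algebra.adjoin kA {(S18.H16.jK kA L)⁻¹}) FkL)) : FkL)
          = redb ⟨b, h⟩) ∧
      red₁ (algebraMap A₁ ↥(H40.chartB A₁ (J3N L (q := q))⁻¹) ((q : ℕ) : A₁)) = 0 ∧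
      red₂ (algebraMap A₁ ↥(H40.chartB A₁ (J3N L (q := q))⁻¹) ((q : ℕ) : A₁)) = 0 ∧
      red₃ (algebraMap A₁ ↥(H40.chartB A₁ (J3N L (q := q))⁻¹) ((q : ℕ) : A₁)) = 0 ∧
      ThreeComponents red₁ red₂ red₃
        (chartMap (eU L (q := q)) (eU_algebraMap L A) (huint2 L A))
        (chartMap (eV L (q := q)) (eV_algebraMap L A) (hvint2 L A))
        (chartMap (eW L (q := q)) (eW_algebraMap L A) (hwint2 L A))
        (rbarB (Mod L hqL A hA) (hc2 L hqL A hA) (hcw2 L hqL A hA))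
        (WR (FrM L A hA) q (hFrx_inv L A hA)) q
        (algebraMap A₁ ↥(H40.chartB A₁ (J3N L (q := q))⁻¹) ((q : ℕ) : A₁)) := by
  have key := threeComponents_of_incl (Mod L hqL A hA) (eU L (q := q)) (eV L (q := q))
    (eW L (q := q)) (eU_algebraMap L A) (eV_algebraMap L A) (eW_algebraMap L A) (inclk L A)
    Oa reda Oc redc Ob redb P.hra P.hrc P.hrb P.hconsta P.hconstc P.hconstb
    P.hOica P.hOicc P.hOicb (FrM L A hA) q hq.out.pos
    P.Hau P.Hav P.Haw P.Hcu P.Hcv P.Hcw P.Hbu P.Hbv P.Hbw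
    (hc2 L hqL A hA) (hcw2 L hqL A hA) (hFrx_inv L A hA)
    (huint2 L A) (hvint2 L A) (hwint2 L A) hua huc hub hwa hwc hwb
    (hGRinf L hqL A hA) (S34.H55.hFrpow L A hA)
    (H45.resA0_natCast_eq_zero hq.out hA) (hϖ0_F2 L A)
    P.hkera P.hkerb τ P.hkerc P.hτpow P.hinvc hsatF
  exact key

end L0ThreePre

end Fermat.Agent.S36.H83
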