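/-
helper83: S36, row (E2): `ThreeComponents` at the real types from a `PlaceSide` package and (SAT)
alone — the chart-side inputs `hua huc hub hwa hwc hwb` of `threeComponents_J3(_inv)_of_places`
are discharged by helper40's `S36.H40.hu_hw_first / hu_hw_middle / hu_hw_third` (product coordinate)
and `J3N_eq_mul / J3N_inv_eq_mul`.
-/
import Fermat.Agent.S36.H83_L0ThreePre
import Fermat.Agent.S36.H40_ChartSide

set_option autoImplicit false
set_option linter.unusedSectionVars false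
set_option linter.style.haveILetI false
set_option synthInstance.maxHeartbeats 400000

noncomputable section

namespace Fermat.Agent.S36.H83

open ModularCurve Polynomial IsLocalRing Fermat.Agent.S28
open Fermat.Agent.S18 Fermat.Agent.S34.H92 Fermat.Agent.S34.H16 Fermat.Agent.S34.H55

local notation "Qbar" => AlgebraicClosure ℚ

section L0ThreeChart

variable (L : ℕ) [NeZero L] {q : ℕ} [hq : Fact q.Prime] (hqL : ¬ q ∣ L)
  (A : ValuationSubring Qbar) (hA : A.LiesOverPrime q)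

local notation "kA" => IsLocalRing.ResidueField A
local notation "A₁" => H45.A0 A q
local notation "L₁" => H45.unrCyclo q
local notation "F0" => modularFunctionFieldFullC (H45.unrCyclo q) L
local notation "F2" => modularFunctionFieldFullC (H45.unrCyclo q) (q * (q * L))
local notation "FkL" => modularFunctionFieldFullC (IsLocalRing.ResidueField A) L

/-- transfer of `(hu, hw)` along an equality of the coordinate. -/
theorem hu_hw_congr {O : Subring F2} {red : O →+* LaurentSeries kA} {u u' : F2} (e : u = u')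
    {w : FkL}
    (h : ∃ hu' : u' ∈ O, ∃ γ : FkL, IsIntegral (Algebra.adjoin kA {w}) γ ∧
      red ⟨u', hu'⟩ = inclk L A γ) :
    ∃ hu : u ∈ O, ∃ γ : FkL, IsIntegral (Algebra.adjoin kA {w}) γ ∧
      red ⟨u, hu⟩ = inclk L A γ := by
  subst e
  exact h

/-! ### Chart `J₃` -/

theorem hu_hw_a1 {Oa : Subring F2} {reda : Oa →+* LaurentSeries kA}
    {Oc : Subring F2} {redc : Oc →+* LaurentSeries kA}
    {Ob : Subring F2} {redb : Ob →+* LaurentSeries kA} {τ : F2}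
    (P : PlaceSide L hqL A hA Oa reda Oc redc Ob redb τ) :
    ∃ hua : J3N L (q := q) ∈ Oa, ∃ γ : FkL,
      IsIntegral (Algebra.adjoin kA {S18.H16.jK kA L}) γ ∧ reda ⟨_, hua⟩ = inclk L A γ :=
  hu_hw_congr L A (J3N_eq_mul L)
    (S36.H40.hu_hw_first (Mod L hqL A hA) (eU L (q := q)) (eV L (q := q)) (eW L (q := q))
      (inclk L A) Oa reda (FrM L A hA) q P.Hau P.Hav P.Haw
      (Mod L hqL A hA).x_mem (Mod L hqL A hA).res1_x (hFrx L A hA))

theorem hu_hw_c1 {Oa : Subring F2} {reda : Oa →+* LaurentSeries kA}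
    {Oc : Subring F2} {redc : Oc →+* LaurentSeries kA}
    {Ob : Subring F2} {redb : Ob →+* LaurentSeries kA} {τ : F2}
    (P : PlaceSide L hqL A hA Oa reda Oc redc Ob redb τ) :
    ∃ huc : J3N L (q := q) ∈ Oc, ∃ γ : FkL,
      IsIntegral (Algebra.adjoin kA {S18.H16.jK kA L}) γ ∧ redc ⟨_, huc⟩ = inclk L A γ :=
  hu_hw_congr L A (J3N_eq_mul L)
    (S36.H40.hu_hw_middle (Mod L hqL A hA) (eU L (q := q)) (eV L (q := q)) (eW L (q := q))
      (inclk L A) Oc redc (FrM L A hA) q P.Hcu P.Hcv P.Hcw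
      (Mod L hqL A hA).x_mem (Mod L hqL A hA).res1_x (hFrx L A hA))

theorem hu_hw_b1 {Oa : Subring F2} {reda : Oa →+* LaurentSeries kA}
    {Oc : Subring F2} {redc : Oc →+* LaurentSeries kA}
    {Ob : Subring F2} {redb : Ob →+* LaurentSeries kA} {τ : F2}
    (P : PlaceSide L hqL A hA Oa reda Oc redc Ob redb τ) :
    ∃ hub : J3N L (q := q) ∈ Ob, ∃ γ : FkL,
      IsIntegral (Algebra.adjoin kA {S18.H16.jK kA L}) γ ∧ redb ⟨_, hub⟩ = inclk L A γ :=
  hu_hw_congr L A (J3N_eq_mul L)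
    (S36.H40.hu_hw_third (Mod L hqL A hA) (eU L (q := q)) (eV L (q := q)) (eW L (q := q))
      (inclk L A) Ob redb (FrM L A hA) q P.Hbu P.Hbv P.Hbw
      (Mod L hqL A hA).x_mem (Mod L hqL A hA).res1_x (hFrx L A hA))

set_option maxHeartbeats 3200000 in
/-- **(E2), chart `J₃`, from the place-side package and (SAT).** -/
theorem threeComponents_J3_of_placeSide {Oa : Subring F2} {reda : Oa →+* LaurentSeries kA}
    {Oc : Subring F2} {redc : Oc →+* LaurentSeries kA}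
    {Ob : Subring F2} {redb : Ob →+* LaurentSeries kA} {τ : F2}
    (P : PlaceSide L hqL A hA Oa reda Oc redc Ob redb τ)
    (hsatF : ∀ z : F2, z ∈ Oa → z ∈ Oc → z ∈ Ob →
      IsIntegral (Algebra.adjoin A₁ {J3N L (q := q)}) (algebraMap A₁ F2 ((q : ℕ) : A₁) * z) →
      IsIntegral (Algebra.adjoin A₁ {J3N L (q := q)}) z) :
    ∃ red₁ red₂ red₃ : ↥(H40.chartB A₁ (J3N L (q := q))) →+*
        ↥(integralClosure (Algebra.adjoin kA {S18.H16.jK kA L}) FkL),
      (∀ (b : ↥(H40.chartB A₁ (J3N L (q := q)))) (h : (b : F2) ∈ Oa),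
        inclk L A ((red₁ b : ↥(integralClosure (Algebra.adjoin kA {S18.H16.jK kA L}) FkL)) : FkL)
          = reda ⟨b, h⟩) ∧
      (∀ (b : ↥(H40.chartB A₁ (J3N L (q := q)))) (h : (b : F2) ∈ Oc),
        inclk L A ((red₂ b : ↥(integralClosure (Algebra.adjoin kA {S18.H16.jK kA L}) FkL)) : FkL)
          = redc ⟨b, h⟩) ∧
      (∀ (b : ↥(H40.chartB A₁ (J3N L (q := q)))) (h : (b : F2) ∈ Ob),
        inclk L A ((red₃ b : ↥(integralClosure (Algebra.adjoin kA {S18.H16.jK kA L}) FkL)) : FkL)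
          = redb ⟨b, h⟩) ∧
      red₁ (algebraMap A₁ ↥(H40.chartB A₁ (J3N L (q := q))) ((q : ℕ) : A₁)) = 0 ∧
      red₂ (algebraMap A₁ ↥(H40.chartB A₁ (J3N L (q := q))) ((q : ℕ) : A₁)) = 0 ∧
      red₃ (algebraMap A₁ ↥(H40.chartB A₁ (J3N L (q := q))) ((q : ℕ) : A₁)) = 0 ∧
      ThreeComponents red₁ red₂ red₃
        (chartMap (eU L (q := q)) (eU_algebraMap L A) (huint1 L A))
        (chartMap (eV L (q := q)) (eV_algebraMap L A) (hvint1 L A))
        (chartMap (eW L (q := q)) (eW_algebraMap L A) (hwint1 L A))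
        (rbarB (Mod L hqL A hA) (Mod L hqL A hA).x_mem (Mod L hqL A hA).res1_x)
        (WR (FrM L A hA) q (hFrx L A hA)) q
        (algebraMap A₁ ↥(H40.chartB A₁ (J3N L (q := q))) ((q : ℕ) : A₁)) := by
  have key := threeComponents_J3_of_places L hqL A hA P
    (hu_hw_a1 L hqL A hA P).fst (hu_hw_c1 L hqL A hA P).fst (hu_hw_b1 L hqL A hA P).fst
    (hu_hw_a1 L hqL A hA P).snd (hu_hw_c1 L hqL A hA P).snd (hu_hw_b1 L hqL A hA P).snd hsatF
  exact key

/-! ### Chart `J₃⁻¹` -/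

theorem hu_hw_a2 {Oa : Subring F2} {reda : Oa →+* LaurentSeries kA}
    {Oc : Subring F2} {redc : Oc →+* LaurentSeries kA}
    {Ob : Subring F2} {redb : Ob →+* LaurentSeries kA} {τ : F2}
    (P : PlaceSide L hqL A hA Oa reda Oc redc Ob redb τ) :
    ∃ hua : (J3N L (q := q))⁻¹ ∈ Oa, ∃ γ : FkL,
      IsIntegral (Algebra.adjoin kA {(S18.H16.jK kA L)⁻¹}) γ ∧ reda ⟨_, hua⟩ = inclk L A γ :=
  hu_hw_congr L A (J3N_inv_eq_mul L)
    (S36.H40.hu_hw_first (Mod L hqL A hA) (eU L (q := q)) (eV L (q := q)) (eW L (q := q))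
      (inclk L A) Oa reda (FrM L A hA) q P.Hau P.Hav P.Haw
      (hc2 L hqL A hA) (hcw2 L hqL A hA) (hFrx_inv L A hA))

theorem hu_hw_c2 {Oa : Subring F2} {reda : Oa →+* LaurentSeries kA}
    {Oc : Subring F2} {redc : Oc →+* LaurentSeries kA}
    {Ob : Subring F2} {redb : Ob →+* LaurentSeries kA} {τ : F2}
    (P : PlaceSide L hqL A hA Oa reda Oc redc Ob redb τ) :
    ∃ huc : (J3N L (q := q))⁻¹ ∈ Oc, ∃ γ : FkL,
      IsIntegral (Algebra.adjoin kA {(S18.H16.jK kA L)⁻¹}) γ ∧ redc ⟨_, huc⟩ = inclk L A γ :=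
  hu_hw_congr L A (J3N_inv_eq_mul L)
    (S36.H40.hu_hw_middle (Mod L hqL A hA) (eU L (q := q)) (eV L (q := q)) (eW L (q := q))
      (inclk L A) Oc redc (FrM L A hA) q P.Hcu P.Hcv P.Hcw
      (hc2 L hqL A hA) (hcw2 L hqL A hA) (hFrx_inv L A hA))

theorem hu_hw_b2 {Oa : Subring F2} {reda : Oa →+* LaurentSeries kA}
    {Oc : Subring F2} {redc : Oc →+* LaurentSeries kA}
    {Ob : Subring F2} {redb : Ob →+* LaurentSeries kA} {τ : F2}
    (P : PlaceSide L hqL A hA Oa reda Oc redc Ob redb τ) :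
    ∃ hub : (J3N L (q := q))⁻¹ ∈ Ob, ∃ γ : FkL,
      IsIntegral (Algebra.adjoin kA {(S18.H16.jK kA L)⁻¹}) γ ∧ redb ⟨_, hub⟩ = inclk L A γ :=
  hu_hw_congr L A (J3N_inv_eq_mul L)
    (S36.H40.hu_hw_third (Mod L hqL A hA) (eU L (q := q)) (eV L (q := q)) (eW L (q := q))
      (inclk L A) Ob redb (FrM L A hA) q P.Hbu P.Hbv P.Hbw
      (hc2 L hqL A hA) (hcw2 L hqL A hA) (hFrx_inv L A hA))

set_option maxHeartbeats 3200000 in
/-- **(E2), chart `J₃⁻¹`, from the place-side package and (SAT).** -/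
theorem threeComponents_J3_inv_of_placeSide {Oa : Subring F2} {reda : Oa →+* LaurentSeries kA}
    {Oc : Subring F2} {redc : Oc →+* LaurentSeries kA}
    {Ob : Subring F2} {redb : Ob →+* LaurentSeries kA} {τ : F2}
    (P : PlaceSide L hqL A hA Oa reda Oc redc Ob redb τ)
    (hsatF : ∀ z : F2, z ∈ Oa → z ∈ Oc → z ∈ Ob →
      IsIntegral (Algebra.adjoin A₁ {(J3N L (q := q))⁻¹})
        (algebraMap A₁ F2 ((q : ℕ) : A₁) * z) →
      IsIntegral (Algebra.adjoin A₁ {(J3N L (q := q))⁻¹}) z) :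
    ∃ red₁ red₂ red₃ : ↥(H40.chartB A₁ (J3N L (q := q))⁻¹) →+*
        ↥(integralClosure (Algebra.adjoin kA {(S18.H16.jK kA L)⁻¹}) FkL),
      (∀ (b : ↥(H40.chartB A₁ (J3N L (q := q))⁻¹)) (h : (b : F2) ∈ Oa),
        inclk L A
          ((red₁ b : ↥(integralClosure (Algebra.adjoin kA {(S18.H16.jK kA L)⁻¹}) FkL)) : FkL)
          = reda ⟨b, h⟩) ∧
      (∀ (b : ↥(H40.chartB A₁ (J3N L (q := q))⁻¹)) (h : (b : F2) ∈ Oc),
        inclk L A
          ((red₂ b : ↥(integralClosure (Algebra.adjoin kA {(S18.H16.jK kA L)⁻¹}) FkL)) : FkL)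
          = redc ⟨b, h⟩) ∧
      (∀ (b : ↥(H40.chartB A₁ (J3N L (q := q))⁻¹)) (h : (b : F2) ∈ Ob),
        inclk L A
          ((red₃ b : ↥(integralClosure (Algebra.adjoin kA {(S18.H16.jK kA L)⁻¹}) FkL)) : FkL)
          = redb ⟨b, h⟩) ∧
      red₁ (algebraMap A₁ ↥(H40.chartB A₁ (J3N L (q := q))⁻¹) ((q : ℕ) : A₁)) = 0 ∧
      red₂ (algebraMap A₁ ↥(H40.chartB A₁ (J3N L (q := q))⁻¹) ((q : ℕ) : A₁)) = 0 ∧
      red₃ (algebraMap A₁ ↥(H40.chartB A₁ (J3N L (q := q))⁻¹) ((q : ℕ) : A₁)) = 0 ∧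
      ThreeComponents red₁ red₂ red₃
        (chartMap (eU L (q := q)) (eU_algebraMap L A) (huint2 L A))
        (chartMap (eV L (q := q)) (eV_algebraMap L A) (hvint2 L A))
        (chartMap (eW L (q := q)) (eW_algebraMap L A) (hwint2 L A))
        (rbarB (Mod L hqL A hA) (hc2 L hqL A hA) (hcw2 L hqL A hA))
        (WR (FrM L A hA) q (hFrx_inv L A hA)) q
        (algebraMap A₁ ↥(H40.chartB A₁ (J3N L (q := q))⁻¹) ((q : ℕ) : A₁)) := by
  have key := threeComponents_J3_inv_of_places L hqL A hA P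
    (hu_hw_a2 L hqL A hA P).fst (hu_hw_c2 L hqL A hA P).fst (hu_hw_b2 L hqL A hA P).fst
    (hu_hw_a2 L hqL A hA P).snd (hu_hw_c2 L hqL A hA P).snd (hu_hw_b2 L hqL A hA P).snd hsatF
  exact key

end L0ThreeChart

end Fermat.Agent.S36.H83
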