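/-
helper83: S36, row (E2), **the `ThreeComponents` instance at the real types** (twin of
`S34/H55_L0Final`).

For helper55's three places `PA` (over `P0`), `PB`, `PC` (over `Pi`) of
`F₂ = FullC L₁ (q * (q * L))`:

* `placeSide_of_places` : the place-side package `S36.H83.PlaceSide` for
  `(Oa, Oc, Ob) = (QO1 PB, RO1 PC, QO1 PA)`, from helper94's `S36.H94` wrap, helper55's six tower
  formulas and the three `e_u`-transports;
* `threeComponents_J3K`, `threeComponents_J3K_inv` : `ThreeComponents` for the two charts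
  `chartB A₁ J₃`, `chartB A₁ J₃⁻¹` (with helper35's `hsatF_J3K(_inv)_three`).
-/
import Fermat.Agent.S36.H83_L0ThreeChart
import Fermat.Agent.S36.H55_L0ThreeBase
import Fermat.Agent.S36.H94_L0ThreeWrap
import Fermat.Agent.S36.H35_Sat36Three

set_option autoImplicit false
set_option linter.unusedSectionVars false
set_option linter.style.haveILetI false
set_option synthInstance.maxHeartbeats 400000

noncomputable section

namespace Fermat.Agent.S36.H83

open ModularCurve Polynomial IsLocalRing Fermat.Agent.S28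
open Fermat.Agent.S18 Fermat.Agent.S34.H92 Fermat.Agent.S34.H16 Fermat.Agent.S34.H55

local notation "Qbar" => AlgebraicClosure ℚ

section L0ThreeFinal

variable (L : ℕ) [NeZero L] {q : ℕ} [hq : Fact q.Prime] (hqL : ¬ q ∣ L)
  (A : ValuationSubring Qbar) (hA : A.LiesOverPrime q)

local notation "kA" => IsLocalRing.ResidueField A
local notation "A₁" => H45.A0 A q
local notation "L₁" => H45.unrCyclo q
local notation "F0" => modularFunctionFieldFullC (H45.unrCyclo q) L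
local notation "F2" => modularFunctionFieldFullC (H45.unrCyclo q) (q * (q * L))
local notation "FkL" => modularFunctionFieldFullC (IsLocalRing.ResidueField A) L

/-- helper55's `e_w, e_v, e_u` are my `eU, eV, eW` (conjugated naming). -/
theorem eU_eq_H55_eW : eU L (q := q) = S36.H55.eW L (q := q) := rfl
theorem eV_eq_H55_eV : eV L (q := q) = S36.H55.eV L (q := q) := rfl
theorem eW_eq_H55_eU : eW L (q := q) = S36.H55.eU L (q := q) := rfl

/-- the uniformiser of the middle place: `τ = θ₂ - w`. -/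
abbrev tauC (Pi : PlaceInf L hqL A hA) : F2 :=
  S36.H55.theta2 L (q := q) -
    @algebraMap ↥(PO1 L hqL A hA Pi) F2 _ _ (S36.H55.algPO1F2 L hqL A hA Pi)
      (S36.H55.wO L hqL A hA Pi)

set_option maxHeartbeats 1600000 in
/-- **The place-side package at helper55's three places.** -/
theorem placeSide_of_places (Pi : PlaceInf L hqL A hA) (P0 : PlaceZero L hqL A hA)
    (PA : S36.H55.PlaceA L hqL A hA P0) (PB : S36.H55.PlaceB L hqL A hA Pi)
    (PC : S36.H55.PlaceC L hqL A hA Pi)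
    (resA_eU : ∀ (y : F0) (hy : y ∈ (Mod L hqL A hA).O1),
      ∃ h : S36.H55.eU L (q := q) y ∈ S36.H55.QO1 L hqL A hA PA,
        S36.H55.Qres1 L hqL A hA PA ⟨_, h⟩ = inclk L A ((Mod L hqL A hA).res1 ⟨y, hy⟩))
    (resB_eU : ∀ (y : F0) (hy : y ∈ (Mod L hqL A hA).O1),
      ∃ h : S36.H55.eU L (q := q) y ∈ S36.H55.QO1 L hqL A hA PB,
        S36.H55.Qres1 L hqL A hA PB ⟨_, h⟩ =
          inclk L A (FrM L A hA (FrM L A hA ((Mod L hqL A hA).res1 ⟨y, hy⟩))))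
    (resC_eU : ∀ (y : F0) (hy : y ∈ (Mod L hqL A hA).O1),
      ∃ h : S36.H55.eU L (q := q) y ∈ S36.H55.RO1 L hqL A hA PC,
        S36.H55.Rres1 L hqL A hA PC ⟨_, h⟩ = inclk L A ((Mod L hqL A hA).res1 ⟨y, hy⟩)) :
    PlaceSide L hqL A hA (S36.H55.QO1 L hqL A hA PB) (S36.H55.Qres1 L hqL A hA PB)
      (S36.H55.RO1 L hqL A hA PC) (S36.H55.Rres1 L hqL A hA PC)
      (S36.H55.QO1 L hqL A hA PA) (S36.H55.Qres1 L hqL A hA PA) (tauC L hqL A hA Pi) where
  hra := S36.H94.hr_PB L hqL A hA Pi PB (S36.H94.thbB_mem L hqL A hA)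
  hrc := S36.H94.hr_PC' L hqL A hA Pi (S36.H55.wO L hqL A hA Pi) PC
  hrb := S36.H94.hr_PA L hqL A hA P0 PA (S36.H94.thbA_mem L hqL A hA)
  hconsta := S36.H94.hconst_PB L hqL A hA Pi PB
  hconstc := S36.H94.hconst_PC L hqL A hA Pi PC
  hconstb := S36.H94.hconst_PA L hqL A hA P0 PA
  hOica := S36.H94.hOic_PB L hqL A hA Pi PB
  hOicc := S36.H94.hOic_PC L hqL A hA Pi PC
  hOicb := S36.H94.hOic_PA L hqL A hA P0 PA
  Hau := S36.H55.resB_eW L hqL A hA Pi PB
  Hav := S36.H55.resB_eV L hqL A hA Pi PB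
  Haw := resB_eU
  Hcu := S36.H55.resC_eW L hqL A hA Pi PC
  Hcv := S36.H55.resC_eV L hqL A hA Pi PC
  Hcw := resC_eU
  Hbu := S36.H55.resA_eW L hqL A hA P0 PA
  Hbv := S36.H55.resA_eV L hqL A hA P0 PA
  Hbw := resA_eU
  hkera := S36.H94.hker_PB L hqL A hA Pi PB
  hkerb := S36.H94.hker_PA L hqL A hA P0 PA
  hkerc := S36.H94.hker_PC L hqL A hA Pi PC
  hτpow := S36.H94.hτpow_PC L hqL A hA Pi PC
  hinvc := S36.H94.hinv_PC L hqL A hA Pi PC

set_option maxHeartbeats 3200000 in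
/-- **(E2) at the real types, chart `J₃`.** -/
theorem threeComponents_J3K (Pi : PlaceInf L hqL A hA) (P0 : PlaceZero L hqL A hA)
    (PA : S36.H55.PlaceA L hqL A hA P0) (PB : S36.H55.PlaceB L hqL A hA Pi)
    (PC : S36.H55.PlaceC L hqL A hA Pi)
    (resA_eU : ∀ (y : F0) (hy : y ∈ (Mod L hqL A hA).O1),
      ∃ h : S36.H55.eU L (q := q) y ∈ S36.H55.QO1 L hqL A hA PA,
        S36.H55.Qres1 L hqL A hA PA ⟨_, h⟩ = inclk L A ((Mod L hqL A hA).res1 ⟨y, hy⟩))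
    (resB_eU : ∀ (y : F0) (hy : y ∈ (Mod L hqL A hA).O1),
      ∃ h : S36.H55.eU L (q := q) y ∈ S36.H55.QO1 L hqL A hA PB,
        S36.H55.Qres1 L hqL A hA PB ⟨_, h⟩ =
          inclk L A (FrM L A hA (FrM L A hA ((Mod L hqL A hA).res1 ⟨y, hy⟩))))
    (resC_eU : ∀ (y : F0) (hy : y ∈ (Mod L hqL A hA).O1),
      ∃ h : S36.H55.eU L (q := q) y ∈ S36.H55.RO1 L hqL A hA PC,
        S36.H55.Rres1 L hqL A hA PC ⟨_, h⟩ = inclk L A ((Mod L hqL A hA).res1 ⟨y, hy⟩)) :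
    ∃ red₁ red₂ red₃ : ↥(H40.chartB A₁ (J3N L (q := q))) →+*
        ↥(integralClosure (Algebra.adjoin kA {S18.H16.jK kA L}) FkL),
      (∀ (b : ↥(H40.chartB A₁ (J3N L (q := q)))) (h : (b : F2) ∈ S36.H55.QO1 L hqL A hA PB),
        inclk L A ((red₁ b : ↥(integralClosure (Algebra.adjoin kA {S18.H16.jK kA L}) FkL)) : FkL)
          = S36.H55.Qres1 L hqL A hA PB ⟨b, h⟩) ∧
      (∀ (b : ↥(H40.chartB A₁ (J3N L (q := q)))) (h : (b : F2) ∈ S36.H55.RO1 L hqL A hA PC),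
        inclk L A ((red₂ b : ↥(integralClosure (Algebra.adjoin kA {S18.H16.jK kA L}) FkL)) : FkL)
          = S36.H55.Rres1 L hqL A hA PC ⟨b, h⟩) ∧
      (∀ (b : ↥(H40.chartB A₁ (J3N L (q := q)))) (h : (b : F2) ∈ S36.H55.QO1 L hqL A hA PA),
        inclk L A ((red₃ b : ↥(integralClosure (Algebra.adjoin kA {S18.H16.jK kA L}) FkL)) : FkL)
          = S36.H55.Qres1 L hqL A hA PA ⟨b, h⟩) ∧
      red₁ (algebraMap A₁ ↥(H40.chartB A₁ (J3N L (q := q))) ((q : ℕ) : A₁)) = 0 ∧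
      red₂ (algebraMap A₁ ↥(H40.chartB A₁ (J3N L (q := q))) ((q : ℕ) : A₁)) = 0 ∧
      red₃ (algebraMap A₁ ↥(H40.chartB A₁ (J3N L (q := q))) ((q : ℕ) : A₁)) = 0 ∧
      ThreeComponents red₁ red₂ red₃
        (chartMap (eU L (q := q)) (eU_algebraMap L A) (huint1 L A))
        (chartMap (eV L (q := q)) (eV_algebraMap L A) (hvint1 L A))
        (chartMap (eW L (q := q)) (eW_algebraMap L A) (hwint1 L A))
        (rbarB (Mod L hqL A hA) (Mod L hqL A hA).x_mem (Mod L hqL A hA).res1_x)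
        (WR (FrM L A hA) q (hFrx L A hA)) q
        (algebraMap A₁ ↥(H40.chartB A₁ (J3N L (q := q))) ((q : ℕ) : A₁)) := by
  have P := placeSide_of_places L hqL A hA Pi P0 PA PB PC resA_eU resB_eU resC_eU
  have hsat := S36.H35.hsatF_J3K_three L hqL A hA Pi P0 PA PB PC
  have key := threeComponents_J3_of_placeSide L hqL A hA P hsat
  exact key

set_option maxHeartbeats 3200000 in
/-- **(E2) at the real types, chart `J₃⁻¹`.** -/
theorem threeComponents_J3K_inv (Pi : PlaceInf L hqL A hA) (P0 : PlaceZero L hqL A hA)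
    (PA : S36.H55.PlaceA L hqL A hA P0) (PB : S36.H55.PlaceB L hqL A hA Pi)
    (PC : S36.H55.PlaceC L hqL A hA Pi)
    (resA_eU : ∀ (y : F0) (hy : y ∈ (Mod L hqL A hA).O1),
      ∃ h : S36.H55.eU L (q := q) y ∈ S36.H55.QO1 L hqL A hA PA,
        S36.H55.Qres1 L hqL A hA PA ⟨_, h⟩ = inclk L A ((Mod L hqL A hA).res1 ⟨y, hy⟩))
    (resB_eU : ∀ (y : F0) (hy : y ∈ (Mod L hqL A hA).O1),
      ∃ h : S36.H55.eU L (q := q) y ∈ S36.H55.QO1 L hqL A hA PB,
        S36.H55.Qres1 L hqL A hA PB ⟨_, h⟩ =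
          inclk L A (FrM L A hA (FrM L A hA ((Mod L hqL A hA).res1 ⟨y, hy⟩))))
    (resC_eU : ∀ (y : F0) (hy : y ∈ (Mod L hqL A hA).O1),
      ∃ h : S36.H55.eU L (q := q) y ∈ S36.H55.RO1 L hqL A hA PC,
        S36.H55.Rres1 L hqL A hA PC ⟨_, h⟩ = inclk L A ((Mod L hqL A hA).res1 ⟨y, hy⟩)) :
    ∃ red₁ red₂ red₃ : ↥(H40.chartB A₁ (J3N L (q := q))⁻¹) →+*
        ↥(integralClosure (Algebra.adjoin kA {(S18.H16.jK kA L)⁻¹}) FkL),
      (∀ (b : ↥(H40.chartB A₁ (J3N L (q := q))⁻¹)) (h : (b : F2) ∈ S36.H55.QO1 L hqL A hA PB),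
        inclk L A ((red₁ b : ↥(integralClosure (Algebra.adjoin kA {(S18.H16.jK kA L)⁻¹}) FkL)) : FkL)
          = S36.H55.Qres1 L hqL A hA PB ⟨b, h⟩) ∧
      (∀ (b : ↥(H40.chartB A₁ (J3N L (q := q))⁻¹)) (h : (b : F2) ∈ S36.H55.RO1 L hqL A hA PC),
        inclk L A ((red₂ b : ↥(integralClosure (Algebra.adjoin kA {(S18.H16.jK kA L)⁻¹}) FkL)) : FkL)
          = S36.H55.Rres1 L hqL A hA PC ⟨b, h⟩) ∧
      (∀ (b : ↥(H40.chartB A₁ (J3N L (q := q))⁻¹)) (h : (b : F2) ∈ S36.H55.QO1 L hqL A hA PA),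
        inclk L A ((red₃ b : ↥(integralClosure (Algebra.adjoin kA {(S18.H16.jK kA L)⁻¹}) FkL)) : FkL)
          = S36.H55.Qres1 L hqL A hA PA ⟨b, h⟩) ∧
      red₁ (algebraMap A₁ ↥(H40.chartB A₁ (J3N L (q := q))⁻¹) ((q : ℕ) : A₁)) = 0 ∧
      red₂ (algebraMap A₁ ↥(H40.chartB A₁ (J3N L (q := q))⁻¹) ((q : ℕ) : A₁)) = 0 ∧
      red₃ (algebraMap A₁ ↥(H40.chartB A₁ (J3N L (q := q))⁻¹) ((q : ℕ) : A₁)) = 0 ∧
      ThreeComponents red₁ red₂ red₃
        (chartMap (eU L (q := q)) (eU_algebraMap L A) (huint2 L A))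
        (chartMap (eV L (q := q)) (eV_algebraMap L A) (hvint2 L A))
        (chartMap (eW L (q := q)) (eW_algebraMap L A) (hwint2 L A))
        (rbarB (Mod L hqL A hA) (hc2 L hqL A hA) (hcw2 L hqL A hA))
        (WR (FrM L A hA) q (hFrx_inv L A hA)) q
        (algebraMap A₁ ↥(H40.chartB A₁ (J3N L (q := q))⁻¹) ((q : ℕ) : A₁)) := by
  have P := placeSide_of_places L hqL A hA Pi P0 PA PB PC resA_eU resB_eU resC_eU
  have hsat := S36.H35.hsatF_J3K_inv_three L hqL A hA Pi P0 PA PB PC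
  have key := threeComponents_J3_inv_of_placeSide L hqL A hA P hsat
  exact key

end L0ThreeFinal

end Fermat.Agent.S36.H83
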