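/-
helper95 — S36, row (E2-coord), file 2: the chart coordinate
`J₃ = j(z) · j(qz) · j(q²z) = S36.H83.J3K` at the concrete types
`A'' = H45.cutOver A E`, `E ⊇ K1 = unrCyclo ℓ`, `F_E = modularFunctionFieldFullC ↥E N`
(three-place twin of `S34/H95_CoordJInst.lean` + the `J`-part of `S34/H95_ChartBC.lean`):

* `baseChangeE_J3K(_inv)`, `inertiaActFullC_J3K(_inv)` : `J₃` comes from `F1` and is fixed by
  inertia;
* the chart rings `chartB (cutOver A E) J₃^(±1)` and `chartB (A0 A ℓ) J₃^(±1)` are noetherian,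
  integrally closed, with fraction field `F_E` resp. `F1`;
* `chartBC_J3K(_inv)` : the cast-free chart-to-chart base change `chartB A1 J₃^(±1) → chartB A'' J₃^(±1)`.

The residue characteristic `ℓ` of `A` and the level prime `q` of the coordinate are independent
variables here (S36 uses `ℓ := q`).
-/
import Fermat.Agent.S36.H83_CoordJ3
import Fermat.Agent.S34.H95_ChartBC

set_option autoImplicit false
set_option linter.unusedSectionVars false
set_option linter.style.haveILetI false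
set_option synthInstance.maxHeartbeats 400000

noncomputable section

namespace Fermat.Agent.S36.H95

open ModularCurve HahnSeries IntermediateField Fermat.Agent.S18 Fermat.Agent.S18.H45
open Fermat.Agent.S34 Fermat.Agent.S36.H83

local notation "Qbar" => AlgebraicClosure ℚ

variable {A : ValuationSubring Qbar} {ℓ : ℕ} (hℓ : ℓ.Prime) (hA : A.LiesOverPrime ℓ)
variable (E : IntermediateField (unrCyclo ℓ) Qbar) (N : ℕ) [NeZero N]
variable (q : ℕ) [NeZero q] (hq2 : q * q ∣ N)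

/-- The coordinate `J₃` over `E` is the base change of the coordinate `J₃` over `K1`. -/
theorem baseChangeE_J3K : baseChangeE E N (J3K (unrCyclo ℓ) N q hq2) = J3K ↥E N q hq2 := by
  unfold J3K baseChangeE
  rw [map_mul, map_mul, H99.fullCMap_jK, H99.fullCMap_jdK, H99.fullCMap_jdK]

theorem baseChangeE_J3K_inv :
    baseChangeE E N (J3K (unrCyclo ℓ) N q hq2)⁻¹ = (J3K ↥E N q hq2)⁻¹ := by
  rw [map_inv₀, baseChangeE_J3K]

/-- Inertia fixes the chart coordinate `J₃`. -/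
theorem inertiaActFullC_J3K [Normal (unrCyclo ℓ) E] (σ : Qbar ≃ₐ[ℚ] Qbar)
    (hσ : σ ∈ A.inertiaSubgroupIn ℚ) :
    inertiaActFullC hℓ hA E N σ hσ (J3K ↥E N q hq2) = J3K ↥E N q hq2 := by
  rw [← baseChangeE_J3K, inertiaActFullC_baseChangeE]

/-- Inertia fixes `J₃⁻¹`. -/
theorem inertiaActFullC_J3K_inv [Normal (unrCyclo ℓ) E] (σ : Qbar ≃ₐ[ℚ] Qbar)
    (hσ : σ ∈ A.inertiaSubgroupIn ℚ) :
    inertiaActFullC hℓ hA E N σ hσ (J3K ↥E N q hq2)⁻¹ = (J3K ↥E N q hq2)⁻¹ := by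
  rw [map_inv₀, inertiaActFullC_J3K]

/-! ### The two chart rings over `A'' = cutOver A E` -/

section Charts

variable [FiniteDimensional (unrCyclo ℓ) E]

include hℓ hA in
theorem isNoetherianRing_chartB_J3K :
    IsNoetherianRing ↥(H40.chartB (cutOver A E) (J3K ↥E N q hq2)) := by
  haveI := isDiscreteValuationRing_cutOver hℓ hA E
  haveI := finiteDimensional_J3K ↥E N q hq2 (H99.natCast_ne_zero₀ N ↥E)
  haveI := isSeparable_J3K ↥E N q hq2
  exact S34.H95.isNoetherianRing_chartB (K := ↥E) (J3K ↥E N q hq2)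
    (transcendental_J3K ↥E N q hq2)

include hℓ hA in
theorem isNoetherianRing_chartB_J3K_inv :
    IsNoetherianRing ↥(H40.chartB (cutOver A E) (J3K ↥E N q hq2)⁻¹) := by
  haveI := isDiscreteValuationRing_cutOver hℓ hA E
  haveI := finiteDimensional_J3K_inv ↥E N q hq2 (H99.natCast_ne_zero₀ N ↥E)
  haveI := isSeparable_J3K_inv ↥E N q hq2
  exact S34.H95.isNoetherianRing_chartB (K := ↥E) (J3K ↥E N q hq2)⁻¹
    (transcendental_J3K_inv ↥E N q hq2)

theorem isFractionRing_chartB_J3K :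
    IsFractionRing ↥(H40.chartB (cutOver A E) (J3K ↥E N q hq2))
      (modularFunctionFieldFullC ↥E N) := by
  haveI := finiteDimensional_J3K ↥E N q hq2 (H99.natCast_ne_zero₀ N ↥E)
  exact H3.isFractionRing_chartB (K := ↥E) (J3K ↥E N q hq2)

theorem isFractionRing_chartB_J3K_inv :
    IsFractionRing ↥(H40.chartB (cutOver A E) (J3K ↥E N q hq2)⁻¹)
      (modularFunctionFieldFullC ↥E N) := by
  haveI := finiteDimensional_J3K_inv ↥E N q hq2 (H99.natCast_ne_zero₀ N ↥E)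
  exact H3.isFractionRing_chartB (K := ↥E) (J3K ↥E N q hq2)⁻¹

theorem isIntegrallyClosed_chartB_J3K :
    IsIntegrallyClosed ↥(H40.chartB (cutOver A E) (J3K ↥E N q hq2)) := by
  haveI := finiteDimensional_J3K ↥E N q hq2 (H99.natCast_ne_zero₀ N ↥E)
  exact H3.isIntegrallyClosed_chartB (K := ↥E) (J3K ↥E N q hq2)

theorem isIntegrallyClosed_chartB_J3K_inv :
    IsIntegrallyClosed ↥(H40.chartB (cutOver A E) (J3K ↥E N q hq2)⁻¹) := by
  haveI := finiteDimensional_J3K_inv ↥E N q hq2 (H99.natCast_ne_zero₀ N ↥E)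
  exact H3.isIntegrallyClosed_chartB (K := ↥E) (J3K ↥E N q hq2)⁻¹

end Charts

/-! ### The two chart rings over `A1 = A0 A ℓ` (level `K1 = unrCyclo ℓ`) -/

section ChartsA0

include hℓ hA in
theorem isNoetherianRing_chartB_J3K_A0 :
    IsNoetherianRing ↥(H40.chartB (A0 A ℓ) (J3K (unrCyclo ℓ) N q hq2)) := by
  haveI := isDiscreteValuationRing_A0 hℓ hA
  haveI := finiteDimensional_J3K (unrCyclo ℓ) N q hq2 (H99.natCast_ne_zero₀ N (unrCyclo ℓ))
  haveI := isSeparable_J3K (unrCyclo ℓ) N q hq2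
  exact S34.H95.isNoetherianRing_chartB (K := unrCyclo ℓ) (J3K (unrCyclo ℓ) N q hq2)
    (transcendental_J3K (unrCyclo ℓ) N q hq2)

include hℓ hA in
theorem isNoetherianRing_chartB_J3K_inv_A0 :
    IsNoetherianRing ↥(H40.chartB (A0 A ℓ) (J3K (unrCyclo ℓ) N q hq2)⁻¹) := by
  haveI := isDiscreteValuationRing_A0 hℓ hA
  haveI := finiteDimensional_J3K_inv (unrCyclo ℓ) N q hq2 (H99.natCast_ne_zero₀ N (unrCyclo ℓ))
  haveI := isSeparable_J3K_inv (unrCyclo ℓ) N q hq2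
  exact S34.H95.isNoetherianRing_chartB (K := unrCyclo ℓ) (J3K (unrCyclo ℓ) N q hq2)⁻¹
    (transcendental_J3K_inv (unrCyclo ℓ) N q hq2)

theorem isFractionRing_chartB_J3K_A0 :
    IsFractionRing ↥(H40.chartB (A0 A ℓ) (J3K (unrCyclo ℓ) N q hq2))
      (modularFunctionFieldFullC (unrCyclo ℓ) N) := by
  haveI := finiteDimensional_J3K (unrCyclo ℓ) N q hq2 (H99.natCast_ne_zero₀ N (unrCyclo ℓ))
  exact H3.isFractionRing_chartB (K := unrCyclo ℓ) (J3K (unrCyclo ℓ) N q hq2)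

theorem isFractionRing_chartB_J3K_inv_A0 :
    IsFractionRing ↥(H40.chartB (A0 A ℓ) (J3K (unrCyclo ℓ) N q hq2)⁻¹)
      (modularFunctionFieldFullC (unrCyclo ℓ) N) := by
  haveI := finiteDimensional_J3K_inv (unrCyclo ℓ) N q hq2 (H99.natCast_ne_zero₀ N (unrCyclo ℓ))
  exact H3.isFractionRing_chartB (K := unrCyclo ℓ) (J3K (unrCyclo ℓ) N q hq2)⁻¹

theorem isIntegrallyClosed_chartB_J3K_A0 :
    IsIntegrallyClosed ↥(H40.chartB (A0 A ℓ) (J3K (unrCyclo ℓ) N q hq2)) := by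
  haveI := finiteDimensional_J3K (unrCyclo ℓ) N q hq2 (H99.natCast_ne_zero₀ N (unrCyclo ℓ))
  exact H3.isIntegrallyClosed_chartB (K := unrCyclo ℓ) (J3K (unrCyclo ℓ) N q hq2)

theorem isIntegrallyClosed_chartB_J3K_inv_A0 :
    IsIntegrallyClosed ↥(H40.chartB (A0 A ℓ) (J3K (unrCyclo ℓ) N q hq2)⁻¹) := by
  haveI := finiteDimensional_J3K_inv (unrCyclo ℓ) N q hq2 (H99.natCast_ne_zero₀ N (unrCyclo ℓ))
  exact H3.isIntegrallyClosed_chartB (K := unrCyclo ℓ) (J3K (unrCyclo ℓ) N q hq2)⁻¹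

end ChartsA0

/-! ### The cast-free chart-to-chart base change at `J₃^(±1)` -/

/-- `chartB A1 J₃ → chartB A'' J₃`. -/
def chartBC_J3K : ↥(H40.chartB (A0 A ℓ) (J3K (unrCyclo ℓ) N q hq2)) →+*
    ↥(H40.chartB (cutOver A E) (J3K ↥E N q hq2)) :=
  S34.H95.chartBC E N _ _ (baseChangeE_J3K E N q hq2)

/-- `chartB A1 J₃⁻¹ → chartB A'' J₃⁻¹`. -/
def chartBC_J3K_inv : ↥(H40.chartB (A0 A ℓ) (J3K (unrCyclo ℓ) N q hq2)⁻¹) →+*
    ↥(H40.chartB (cutOver A E) (J3K ↥E N q hq2)⁻¹) :=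
  S34.H95.chartBC E N _ _ (baseChangeE_J3K_inv E N q hq2)

@[simp] theorem coe_chartBC_J3K (b : ↥(H40.chartB (A0 A ℓ) (J3K (unrCyclo ℓ) N q hq2))) :
    ((chartBC_J3K (A := A) E N q hq2 b : ↥(H40.chartB (cutOver A E) (J3K ↥E N q hq2))) :
      modularFunctionFieldFullC ↥E N) = baseChangeE E N (b : modularFunctionFieldFullC _ N) :=
  rfl

@[simp] theorem coe_chartBC_J3K_inv
    (b : ↥(H40.chartB (A0 A ℓ) (J3K (unrCyclo ℓ) N q hq2)⁻¹)) :
    ((chartBC_J3K_inv (A := A) E N q hq2 b : ↥(H40.chartB (cutOver A E) (J3K ↥E N q hq2)⁻¹)) :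
      modularFunctionFieldFullC ↥E N) = baseChangeE E N (b : modularFunctionFieldFullC _ N) :=
  rfl

theorem chartBC_J3K_injective : Function.Injective (chartBC_J3K (A := A) E N q hq2) :=
  S34.H95.chartBC_injective E N _ _ (baseChangeE_J3K E N q hq2)

theorem chartBC_J3K_inv_injective : Function.Injective (chartBC_J3K_inv (A := A) E N q hq2) :=
  S34.H95.chartBC_injective E N _ _ (baseChangeE_J3K_inv E N q hq2)

end Fermat.Agent.S36.H95
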