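/-
helper83: S36, row (E2): **(hq2), `W² ≠ id`, `W⁴ ≠ id` at the real types, and the full input block
of the base change** (`S36.H70.exists_threeComponents_chartBC_unram`).

* `exists_WR2_ne`, `exists_WR4_ne` : on `D = integralClosure k[w] Fk`, `W = WR Fr q _`
  (`Fr w = w ^ q`, `w` transcendental, `2 ≤ q`) moves `w` under `W²` and `W⁴`
  (`hW2`, `hW4` of `S36.H40.vert_inputs` / `S36.H61.crit36_real`); real types:
  `hW2_jK`, `hW4_jK`, `hW2_jK_inv`, `hW4_jK_inv`;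
* `hq2_of_placeC` : for ANY chart coordinate `u` in the middle place `PC` and any reduction `red₂`
  of `chartB A₁ u` compatible with `PC` whose kernel has height one:
  `∃ t, red₂ t ≠ 0 ∧ t * q ∈ (ker red₂) ^ (q - 1)`   (from `PlaceOverRam.unif_eq`, no (M4));
* `threeComponents_J3K_full`, `threeComponents_J3K_inv_full` : `threeComponents_J3K(_inv)` with the
  clause (hq2) added.
-/
import Fermat.Agent.S36.H83_L0ThreeFinal
import Fermat.Agent.S36.H83_Hq2OfPlace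
import Fermat.Agent.S36.H40_VertOfThree
import Fermat.Agent.S36.H95_CoordJ3Inst

set_option autoImplicit false
set_option linter.unusedSectionVars false
set_option linter.style.haveILetI false
set_option synthInstance.maxHeartbeats 400000

noncomputable section

namespace Fermat.Agent.S36.H83

open ModularCurve Polynomial IsLocalRing Fermat.Agent.S28
open Fermat.Agent.S18 Fermat.Agent.S34.H92 Fermat.Agent.S34.H16 Fermat.Agent.S34.H55

local notation "Qbar" => AlgebraicClosure ℚ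

/-! ### Height one (local copy of `S34.H69.height_eq_one_of_mem_minimalPrimes`) -/

/-- A minimal prime over a nonzero principal ideal of a noetherian domain has height one. -/
theorem height_eq_one_of_minimal_over_span {B : Type*} [CommRing B] [IsDomain B]
    [IsNoetherianRing B] {x : B} (hx : x ≠ 0) {P : Ideal B}
    (hP : P ∈ (Ideal.span {x} : Ideal B).minimalPrimes) : P.height = 1 := by
  have hPp : P.IsPrime := hP.1.1
  refine le_antisymm
    (Ideal.height_le_one_of_isPrincipal_of_mem_minimalPrimes (Ideal.span {x}) P hP) ?_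
  rw [Order.one_le_iff_ne_zero, Ne, Ideal.height_eq_zero_iff_eq_bot]
  intro h
  apply hx
  have : x ∈ P := hP.1.2 (Ideal.mem_span_singleton_self x)
  rw [h] at this
  exact this

/-! ### `W² ≠ id`, `W⁴ ≠ id` -/

section WR

variable {k Fk : Type*} [Field k] [Field Fk] [Algebra k Fk]

theorem pow_ne_self_of_transcendental {w : Fk} (hw : Transcendental k w) {n : ℕ} (hn : 2 ≤ n) :
    w ^ n ≠ w := by
  intro h
  have h0 : aeval w ((X : k[X]) ^ n - X) = 0 := by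
    rw [map_sub, map_pow, aeval_X, h, sub_self]
  have h1 : ((X : k[X]) ^ n - X) = 0 := (transcendental_iff.1 hw) _ h0
  have h2 : ((X : k[X]) ^ n - X).coeff n = 1 := by
    rw [coeff_sub, coeff_X_pow, if_pos rfl, coeff_X, if_neg (by omega), sub_zero]
  rw [h1, coeff_zero] at h2
  exact zero_ne_one h2

/-- the coordinate `w` as an element of `D = integralClosure k[w] Fk`. -/
def coordD (w : Fk) : ↥(integralClosure (Algebra.adjoin k {w}) Fk) :=
  ⟨w, S36.H95.isIntegral_adjoin_self w⟩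

theorem coe_coordD (w : Fk) : ((coordD (k := k) w : ↥(integralClosure (Algebra.adjoin k {w}) Fk)) : Fk)
    = w := rfl

theorem exists_WR2_ne (Fr : Fk →ₐ[k] Fk) {w : Fk} (q : ℕ) (hFrw : Fr w = w ^ q) (hq : 2 ≤ q)
    (hw : Transcendental k w) :
    ∃ d : ↥(integralClosure (Algebra.adjoin k {w}) Fk), WR Fr q hFrw (WR Fr q hFrw d) ≠ d := by
  refine ⟨coordD w, fun h => ?_⟩
  have h1 := congrArg (fun x : ↥(integralClosure (Algebra.adjoin k {w}) Fk) => (x : Fk)) h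
  simp only [coe_WR, coe_coordD, hFrw, map_pow] at h1
  rw [← pow_mul] at h1
  exact pow_ne_self_of_transcendental hw (by nlinarith) h1

theorem exists_WR4_ne (Fr : Fk →ₐ[k] Fk) {w : Fk} (q : ℕ) (hFrw : Fr w = w ^ q) (hq : 2 ≤ q)
    (hw : Transcendental k w) :
    ∃ d : ↥(integralClosure (Algebra.adjoin k {w}) Fk),
      WR Fr q hFrw (WR Fr q hFrw (WR Fr q hFrw (WR Fr q hFrw d))) ≠ d := by
  refine ⟨coordD w, fun h => ?_⟩
  have h1 := congrArg (fun x : ↥(integralClosure (Algebra.adjoin k {w}) Fk) => (x : Fk)) h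
  simp only [coe_WR, coe_coordD, hFrw, map_pow] at h1
  rw [← pow_mul, ← pow_mul, ← pow_mul] at h1
  refine pow_ne_self_of_transcendental hw ?_ h1
  have : 4 ≤ q * q := by nlinarith
  nlinarith

end WR

section L0ThreeHq2

variable (L : ℕ) [NeZero L] {q : ℕ} [hq : Fact q.Prime] (hqL : ¬ q ∣ L)
  (A : ValuationSubring Qbar) (hA : A.LiesOverPrime q)

local notation "kA" => IsLocalRing.ResidueField A
local notation "A₁" => H45.A0 A q
local notation "L₁" => H45.unrCyclo q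
local notation "F0" => modularFunctionFieldFullC (H45.unrCyclo q) L
local notation "F2" => modularFunctionFieldFullC (H45.unrCyclo q) (q * (q * L))
local notation "FkL" => modularFunctionFieldFullC (IsLocalRing.ResidueField A) L

theorem transcendental_jK_inv_kA : Transcendental kA (S18.H16.jK kA L)⁻¹ := by
  intro h
  exact S18.H16.transcendental_jK kA L (by simpa using h.inv)

/-- **`hW2`, chart 1.** -/
theorem hW2_jK : ∃ d : ↥(integralClosure (Algebra.adjoin kA {S18.H16.jK kA L}) FkL),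
    WR (FrM L A hA) q (hFrx L A hA) (WR (FrM L A hA) q (hFrx L A hA) d) ≠ d :=
  exists_WR2_ne (FrM L A hA) q (hFrx L A hA) hq.out.two_le (S18.H16.transcendental_jK kA L)

/-- **`hW4`, chart 1.** -/
theorem hW4_jK : ∃ d : ↥(integralClosure (Algebra.adjoin kA {S18.H16.jK kA L}) FkL),
    WR (FrM L A hA) q (hFrx L A hA) (WR (FrM L A hA) q (hFrx L A hA)
      (WR (FrM L A hA) q (hFrx L A hA) (WR (FrM L A hA) q (hFrx L A hA) d))) ≠ d :=
  exists_WR4_ne (FrM L A hA) q (hFrx L A hA) hq.out.two_le (S18.H16.transcendental_jK kA L)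

/-- **`hW2`, chart 2.** -/
theorem hW2_jK_inv : ∃ d : ↥(integralClosure (Algebra.adjoin kA {(S18.H16.jK kA L)⁻¹}) FkL),
    WR (FrM L A hA) q (hFrx_inv L A hA) (WR (FrM L A hA) q (hFrx_inv L A hA) d) ≠ d :=
  exists_WR2_ne (FrM L A hA) q (hFrx_inv L A hA) hq.out.two_le (transcendental_jK_inv_kA L A)

/-- **`hW4`, chart 2.** -/
theorem hW4_jK_inv : ∃ d : ↥(integralClosure (Algebra.adjoin kA {(S18.H16.jK kA L)⁻¹}) FkL),
    WR (FrM L A hA) q (hFrx_inv L A hA) (WR (FrM L A hA) q (hFrx_inv L A hA)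
      (WR (FrM L A hA) q (hFrx_inv L A hA) (WR (FrM L A hA) q (hFrx_inv L A hA) d))) ≠ d :=
  exists_WR4_ne (FrM L A hA) q (hFrx_inv L A hA) hq.out.two_le (transcendental_jK_inv_kA L A)

/-! ### (hq2) from the middle place -/

set_option maxHeartbeats 1600000 in
/-- **(hq2)** for any chart coordinate `u ∈ PC` and any reduction compatible with `PC`. -/
theorem hq2_of_placeC (Pi : PlaceInf L hqL A hA) (PC : S36.H55.PlaceC L hqL A hA Pi)
    (u : F2) (hu : u ∈ S36.H55.RO1 L hqL A hA PC)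
    [IsNoetherianRing ↥(H40.chartB A₁ u)] [IsIntegrallyClosed ↥(H40.chartB A₁ u)]
    [IsFractionRing ↥(H40.chartB A₁ u) F2]
    {D : Type*} [CommRing D] [IsDomain D] (red₂ : ↥(H40.chartB A₁ u) →+* D)
    (hcompat : ∀ (b : ↥(H40.chartB A₁ u)) (h : (b : F2) ∈ S36.H55.RO1 L hqL A hA PC),
      red₂ b = 0 ↔ S36.H55.Rres1 L hqL A hA PC ⟨b, h⟩ = 0)
    (h1 : (RingHom.ker red₂).height = 1) :
    ∃ t : ↥(H40.chartB A₁ u), red₂ t ≠ 0 ∧
      t * algebraMap A₁ ↥(H40.chartB A₁ u) ((q : ℕ) : A₁) ∈ RingHom.ker red₂ ^ (q - 1) := by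
  have hBc : ∀ b : ↥(H40.chartB A₁ u), (b : F2) ∈ S36.H55.RO1 L hqL A hA PC := fun b =>
    S18.H55T.mem_of_isIntegral_adjoin_of_closed _ (S36.H94.hOic_PC L hqL A hA Pi PC)
      (fun r => (S36.H94.hconst_PC L hqL A hA Pi PC r).1) hu b.2
  have hq0 : ((q : ℕ) : F2) ≠ 0 := Nat.cast_ne_zero.2 hq.out.ne_zero
  have hϖ0 : @algebraMap ↥(PO1 L hqL A hA Pi) F2 _ _ (S36.H55.algPO1F2 L hqL A hA Pi)
      ((q : ℕ) : ↥(PO1 L hqL A hA Pi)) ≠ 0 := by
    rw [map_natCast]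
    exact hq0
  have hqB : algebraMap ↥(H40.chartB A₁ u) F2
      (algebraMap A₁ ↥(H40.chartB A₁ u) ((q : ℕ) : A₁)) =
      @algebraMap ↥(PO1 L hqL A hA Pi) F2 _ _ (S36.H55.algPO1F2 L hqL A hA Pi)
        ((q : ℕ) : ↥(PO1 L hqL A hA Pi)) := by
    rw [map_natCast, map_natCast, map_natCast]
  letI : Algebra ↥(PO1 L hqL A hA Pi) F2 := S36.H55.algPO1F2 L hqL A hA Pi
  have key := hq2_of_placeOverRam (L := F2) PC (Nat.sub_ne_zero_of_lt hq.out.one_lt) hϖ0
    red₂ h1 hBc (fun b => hcompat b (hBc b))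
    (algebraMap A₁ ↥(H40.chartB A₁ u) ((q : ℕ) : A₁)) hqB
  exact key

/-! ### (hq2) for the chart reductions, and the full input block of the base change -/

set_option maxHeartbeats 3200000 in
/-- **(hq2), chart `J₃`**: for ANY reductions `red₁ red₂ red₃` of the chart forming a `ThreeComponents`
package whose middle one restricts the reduction of the middle place `PC`. -/
theorem hq2_J3K (Pi : PlaceInf L hqL A hA) (P0 : PlaceZero L hqL A hA)
    (PA : S36.H55.PlaceA L hqL A hA P0) (PB : S36.H55.PlaceB L hqL A hA Pi)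
    (PC : S36.H55.PlaceC L hqL A hA Pi)
    (resA_eU : ∀ (y : F0) (hy : y ∈ (Mod L hqL A hA).O1),
      ∃ h : S36.H55.eU L (q := q) y ∈ S36.H55.QO1 L hqL A hA PA,
        S36.H55.Qres1 L hqL A hA PA ⟨_, h⟩ = inclk L A ((Mod L hqL A hA).res1 ⟨y, hy⟩))
    (resB_eU : ∀ (y : F0) (hy : y ∈ (Mod L hqL A hA).O1),
      ∃ h : S36.H55.eU L (q := q) y ∈ S36.H55.QO1 L hqL A hA PB,
        S36.H55.Qres1 L hqL A hA PB ⟨_, h⟩ =
          inclk L A (FrM L A hA (FrM L A hA ((Mod L hqL A hA).res1 ⟨y, hy⟩))))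
    (resC_eU : ∀ (y : F0) (hy : y ∈ (Mod L hqL A hA).O1),
      ∃ h : S36.H55.eU L (q := q) y ∈ S36.H55.RO1 L hqL A hA PC,
        S36.H55.Rres1 L hqL A hA PC ⟨_, h⟩ = inclk L A ((Mod L hqL A hA).res1 ⟨y, hy⟩))
    (red₁ red₂ red₃ : ↥(H40.chartB A₁ (J3N L (q := q))) →+*
        ↥(integralClosure (Algebra.adjoin kA {S18.H16.jK kA L}) FkL))
    (c2 : ∀ (b : ↥(H40.chartB A₁ (J3N L (q := q)))) (h : (b : F2) ∈ S36.H55.RO1 L hqL A hA PC),
        inclk L A ((red₂ b : ↥(integralClosure (Algebra.adjoin kA {S18.H16.jK kA L}) FkL)) : FkL)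
          = S36.H55.Rres1 L hqL A hA PC ⟨b, h⟩)
    (q2 : red₂ (algebraMap A₁ ↥(H40.chartB A₁ (J3N L (q := q))) ((q : ℕ) : A₁)) = 0)
    (TC : ThreeComponents red₁ red₂ red₃
        (chartMap (eU L (q := q)) (eU_algebraMap L A) (huint1 L A))
        (chartMap (eV L (q := q)) (eV_algebraMap L A) (hvint1 L A))
        (chartMap (eW L (q := q)) (eW_algebraMap L A) (hwint1 L A))
        (rbarB (Mod L hqL A hA) (Mod L hqL A hA).x_mem (Mod L hqL A hA).res1_x)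
        (WR (FrM L A hA) q (hFrx L A hA)) q
        (algebraMap A₁ ↥(H40.chartB A₁ (J3N L (q := q))) ((q : ℕ) : A₁))) :
    (∃ t : ↥(H40.chartB A₁ (J3N L (q := q))), red₂ t ≠ 0 ∧
        t * algebraMap A₁ ↥(H40.chartB A₁ (J3N L (q := q))) ((q : ℕ) : A₁) ∈
          RingHom.ker red₂ ^ (q - 1)) := by
  haveI := S36.H95.isNoetherianRing_chartB_J3K_A0 hq.out hA (q * (q * L)) q (hq2_dvd L)
  haveI := S36.H95.isIntegrallyClosed_chartB_J3K_A0 (A := A) (ℓ := q) (q * (q * L)) q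
    (hq2_dvd L)
  haveI := S36.H95.isFractionRing_chartB_J3K_A0 (A := A) (ℓ := q) (q * (q * L)) q
    (hq2_dvd L)
  have P := placeSide_of_places L hqL A hA Pi P0 PA PB PC resA_eU resB_eU resC_eU
  have hqB0 : algebraMap A₁ ↥(H40.chartB A₁ (J3N L (q := q))) ((q : ℕ) : A₁) ≠ 0 := by
    intro h0
    have := congrArg Subtype.val h0
    exact hϖ0_F2 L A this
  have h1 : (RingHom.ker red₂).height = 1 :=
    height_eq_one_of_minimal_over_span hqB0
      (S36.H40.ker₂_mem_minimalPrimes_of_sep TC q2 (S36.H40.exists_sep₁₂ TC (hW2_jK L A hA))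
        (S36.H40.exists_sep₃₂ TC (hW2_jK L A hA)))
  refine hq2_of_placeC L hqL A hA Pi PC _ (hu_hw_c1 L hqL A hA P).fst red₂ (fun b h => ?_) h1
  rw [← c2 b h]
  constructor
  · intro h0
    rw [h0]
    exact map_zero _
  · intro h0
    have h2 : ((red₂ b : ↥(integralClosure (Algebra.adjoin kA {S18.H16.jK kA L}) FkL)) : FkL) = 0 :=
      (map_eq_zero (inclk L A)).1 h0
    exact Subtype.ext h2

set_option maxHeartbeats 3200000 in
/-- **(E2) at the real types, chart `J₃`, with (hq2)**: the input block of helper70's base change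
`S36.H70.exists_threeComponents_chartBC_unram`. -/
theorem threeComponents_J3K_full (Pi : PlaceInf L hqL A hA) (P0 : PlaceZero L hqL A hA)
    (PA : S36.H55.PlaceA L hqL A hA P0) (PB : S36.H55.PlaceB L hqL A hA Pi)
    (PC : S36.H55.PlaceC L hqL A hA Pi)
    (resA_eU : ∀ (y : F0) (hy : y ∈ (Mod L hqL A hA).O1),
      ∃ h : S36.H55.eU L (q := q) y ∈ S36.H55.QO1 L hqL A hA PA,
        S36.H55.Qres1 L hqL A hA PA ⟨_, h⟩ = inclk L A ((Mod L hqL A hA).res1 ⟨y, hy⟩))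
    (resB_eU : ∀ (y : F0) (hy : y ∈ (Mod L hqL A hA).O1),
      ∃ h : S36.H55.eU L (q := q) y ∈ S36.H55.QO1 L hqL A hA PB,
        S36.H55.Qres1 L hqL A hA PB ⟨_, h⟩ =
          inclk L A (FrM L A hA (FrM L A hA ((Mod L hqL A hA).res1 ⟨y, hy⟩))))
    (resC_eU : ∀ (y : F0) (hy : y ∈ (Mod L hqL A hA).O1),
      ∃ h : S36.H55.eU L (q := q) y ∈ S36.H55.RO1 L hqL A hA PC,
        S36.H55.Rres1 L hqL A hA PC ⟨_, h⟩ = inclk L A ((Mod L hqL A hA).res1 ⟨y, hy⟩)) :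
    ∃ red₁ red₂ red₃ : ↥(H40.chartB A₁ (J3N L (q := q))) →+*
        ↥(integralClosure (Algebra.adjoin kA {S18.H16.jK kA L}) FkL),
      (∀ (b : ↥(H40.chartB A₁ (J3N L (q := q)))) (h : (b : F2) ∈ S36.H55.QO1 L hqL A hA PB),
        inclk L A ((red₁ b : ↥(integralClosure (Algebra.adjoin kA {S18.H16.jK kA L}) FkL)) : FkL)
          = S36.H55.Qres1 L hqL A hA PB ⟨b, h⟩) ∧
      (∀ (b : ↥(H40.chartB A₁ (J3N L (q := q)))) (h : (b : F2) ∈ S36.H55.RO1 L hqL A hA PC),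
        inclk L A ((red₂ b : ↥(integralClosure (Algebra.adjoin kA {S18.H16.jK kA L}) FkL)) : FkL)
          = S36.H55.Rres1 L hqL A hA PC ⟨b, h⟩) ∧
      (∀ (b : ↥(H40.chartB A₁ (J3N L (q := q)))) (h : (b : F2) ∈ S36.H55.QO1 L hqL A hA PA),
        inclk L A ((red₃ b : ↥(integralClosure (Algebra.adjoin kA {S18.H16.jK kA L}) FkL)) : FkL)
          = S36.H55.Qres1 L hqL A hA PA ⟨b, h⟩) ∧
      red₁ (algebraMap A₁ ↥(H40.chartB A₁ (J3N L (q := q))) ((q : ℕ) : A₁)) = 0 ∧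
      red₂ (algebraMap A₁ ↥(H40.chartB A₁ (J3N L (q := q))) ((q : ℕ) : A₁)) = 0 ∧
      red₃ (algebraMap A₁ ↥(H40.chartB A₁ (J3N L (q := q))) ((q : ℕ) : A₁)) = 0 ∧
      (∃ t : ↥(H40.chartB A₁ (J3N L (q := q))), red₂ t ≠ 0 ∧
        t * algebraMap A₁ ↥(H40.chartB A₁ (J3N L (q := q))) ((q : ℕ) : A₁) ∈
          RingHom.ker red₂ ^ (q - 1)) ∧
      ThreeComponents red₁ red₂ red₃
        (chartMap (eU L (q := q)) (eU_algebraMap L A) (huint1 L A))
        (chartMap (eV L (q := q)) (eV_algebraMap L A) (hvint1 L A))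
        (chartMap (eW L (q := q)) (eW_algebraMap L A) (hwint1 L A))
        (rbarB (Mod L hqL A hA) (Mod L hqL A hA).x_mem (Mod L hqL A hA).res1_x)
        (WR (FrM L A hA) q (hFrx L A hA)) q
        (algebraMap A₁ ↥(H40.chartB A₁ (J3N L (q := q))) ((q : ℕ) : A₁)) :=
  (threeComponents_J3K L hqL A hA Pi P0 PA PB PC resA_eU resB_eU resC_eU).elim
    fun red₁ h => h.elim fun red₂ h => h.elim fun red₃ h =>
      ⟨red₁, red₂, red₃, h.1, h.2.1, h.2.2.1, h.2.2.2.1, h.2.2.2.2.1, h.2.2.2.2.2.1,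
        hq2_J3K L hqL A hA Pi P0 PA PB PC resA_eU resB_eU resC_eU red₁ red₂ red₃
          h.2.1 h.2.2.2.2.1 h.2.2.2.2.2.2, h.2.2.2.2.2.2⟩

set_option maxHeartbeats 3200000 in
/-- **(hq2), chart `J₃⁻¹`**: for ANY reductions `red₁ red₂ red₃` of the chart forming a `ThreeComponents`
package whose middle one restricts the reduction of the middle place `PC`. -/
theorem hq2_J3K_inv (Pi : PlaceInf L hqL A hA) (P0 : PlaceZero L hqL A hA)
    (PA : S36.H55.PlaceA L hqL A hA P0) (PB : S36.H55.PlaceB L hqL A hA Pi)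
    (PC : S36.H55.PlaceC L hqL A hA Pi)
    (resA_eU : ∀ (y : F0) (hy : y ∈ (Mod L hqL A hA).O1),
      ∃ h : S36.H55.eU L (q := q) y ∈ S36.H55.QO1 L hqL A hA PA,
        S36.H55.Qres1 L hqL A hA PA ⟨_, h⟩ = inclk L A ((Mod L hqL A hA).res1 ⟨y, hy⟩))
    (resB_eU : ∀ (y : F0) (hy : y ∈ (Mod L hqL A hA).O1),
      ∃ h : S36.H55.eU L (q := q) y ∈ S36.H55.QO1 L hqL A hA PB,
        S36.H55.Qres1 L hqL A hA PB ⟨_, h⟩ =
          inclk L A (FrM L A hA (FrM L A hA ((Mod L hqL A hA).res1 ⟨y, hy⟩))))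
    (resC_eU : ∀ (y : F0) (hy : y ∈ (Mod L hqL A hA).O1),
      ∃ h : S36.H55.eU L (q := q) y ∈ S36.H55.RO1 L hqL A hA PC,
        S36.H55.Rres1 L hqL A hA PC ⟨_, h⟩ = inclk L A ((Mod L hqL A hA).res1 ⟨y, hy⟩))
    (red₁ red₂ red₃ : ↥(H40.chartB A₁ (J3N L (q := q))⁻¹) →+*
        ↥(integralClosure (Algebra.adjoin kA {(S18.H16.jK kA L)⁻¹}) FkL))
    (c2 : ∀ (b : ↥(H40.chartB A₁ (J3N L (q := q))⁻¹)) (h : (b : F2) ∈ S36.H55.RO1 L hqL A hA PC),
        inclk L A ((red₂ b : ↥(integralClosure (Algebra.adjoin kA {(S18.H16.jK kA L)⁻¹}) FkL)) : FkL)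
          = S36.H55.Rres1 L hqL A hA PC ⟨b, h⟩)
    (q2 : red₂ (algebraMap A₁ ↥(H40.chartB A₁ (J3N L (q := q))⁻¹) ((q : ℕ) : A₁)) = 0)
    (TC : ThreeComponents red₁ red₂ red₃
        (chartMap (eU L (q := q)) (eU_algebraMap L A) (huint2 L A))
        (chartMap (eV L (q := q)) (eV_algebraMap L A) (hvint2 L A))
        (chartMap (eW L (q := q)) (eW_algebraMap L A) (hwint2 L A))
        (rbarB (Mod L hqL A hA) (hc2 L hqL A hA) (hcw2 L hqL A hA))
        (WR (FrM L A hA) q (hFrx_inv L A hA)) q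
        (algebraMap A₁ ↥(H40.chartB A₁ (J3N L (q := q))⁻¹) ((q : ℕ) : A₁))) :
    (∃ t : ↥(H40.chartB A₁ (J3N L (q := q))⁻¹), red₂ t ≠ 0 ∧
        t * algebraMap A₁ ↥(H40.chartB A₁ (J3N L (q := q))⁻¹) ((q : ℕ) : A₁) ∈
          RingHom.ker red₂ ^ (q - 1)) := by
  haveI := S36.H95.isNoetherianRing_chartB_J3K_inv_A0 hq.out hA (q * (q * L)) q (hq2_dvd L)
  haveI := S36.H95.isIntegrallyClosed_chartB_J3K_inv_A0 (A := A) (ℓ := q) (q * (q * L)) q
    (hq2_dvd L)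
  haveI := S36.H95.isFractionRing_chartB_J3K_inv_A0 (A := A) (ℓ := q) (q * (q * L)) q
    (hq2_dvd L)
  have P := placeSide_of_places L hqL A hA Pi P0 PA PB PC resA_eU resB_eU resC_eU
  have hqB0 : algebraMap A₁ ↥(H40.chartB A₁ (J3N L (q := q))⁻¹) ((q : ℕ) : A₁) ≠ 0 := by
    intro h0
    have := congrArg Subtype.val h0
    exact hϖ0_F2 L A this
  have h1 : (RingHom.ker red₂).height = 1 :=
    height_eq_one_of_minimal_over_span hqB0
      (S36.H40.ker₂_mem_minimalPrimes_of_sep TC q2 (S36.H40.exists_sep₁₂ TC (hW2_jK_inv L A hA))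
        (S36.H40.exists_sep₃₂ TC (hW2_jK_inv L A hA)))
  refine hq2_of_placeC L hqL A hA Pi PC _ (hu_hw_c2 L hqL A hA P).fst red₂ (fun b h => ?_) h1
  rw [← c2 b h]
  constructor
  · intro h0
    rw [h0]
    exact map_zero _
  · intro h0
    have h2 : ((red₂ b : ↥(integralClosure (Algebra.adjoin kA {(S18.H16.jK kA L)⁻¹}) FkL)) : FkL) = 0 :=
      (map_eq_zero (inclk L A)).1 h0
    exact Subtype.ext h2

set_option maxHeartbeats 3200000 in
/-- **(E2) at the real types, chart `J₃⁻¹`, with (hq2)**: the input block of helper70's base change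
`S36.H70.exists_threeComponents_chartBC_unram`. -/
theorem threeComponents_J3K_inv_full (Pi : PlaceInf L hqL A hA) (P0 : PlaceZero L hqL A hA)
    (PA : S36.H55.PlaceA L hqL A hA P0) (PB : S36.H55.PlaceB L hqL A hA Pi)
    (PC : S36.H55.PlaceC L hqL A hA Pi)
    (resA_eU : ∀ (y : F0) (hy : y ∈ (Mod L hqL A hA).O1),
      ∃ h : S36.H55.eU L (q := q) y ∈ S36.H55.QO1 L hqL A hA PA,
        S36.H55.Qres1 L hqL A hA PA ⟨_, h⟩ = inclk L A ((Mod L hqL A hA).res1 ⟨y, hy⟩))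
    (resB_eU : ∀ (y : F0) (hy : y ∈ (Mod L hqL A hA).O1),
      ∃ h : S36.H55.eU L (q := q) y ∈ S36.H55.QO1 L hqL A hA PB,
        S36.H55.Qres1 L hqL A hA PB ⟨_, h⟩ =
          inclk L A (FrM L A hA (FrM L A hA ((Mod L hqL A hA).res1 ⟨y, hy⟩))))
    (resC_eU : ∀ (y : F0) (hy : y ∈ (Mod L hqL A hA).O1),
      ∃ h : S36.H55.eU L (q := q) y ∈ S36.H55.RO1 L hqL A hA PC,
        S36.H55.Rres1 L hqL A hA PC ⟨_, h⟩ = inclk L A ((Mod L hqL A hA).res1 ⟨y, hy⟩)) :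
    ∃ red₁ red₂ red₃ : ↥(H40.chartB A₁ (J3N L (q := q))⁻¹) →+*
        ↥(integralClosure (Algebra.adjoin kA {(S18.H16.jK kA L)⁻¹}) FkL),
      (∀ (b : ↥(H40.chartB A₁ (J3N L (q := q))⁻¹)) (h : (b : F2) ∈ S36.H55.QO1 L hqL A hA PB),
        inclk L A ((red₁ b : ↥(integralClosure (Algebra.adjoin kA {(S18.H16.jK kA L)⁻¹}) FkL)) : FkL)
          = S36.H55.Qres1 L hqL A hA PB ⟨b, h⟩) ∧
      (∀ (b : ↥(H40.chartB A₁ (J3N L (q := q))⁻¹)) (h : (b : F2) ∈ S36.H55.RO1 L hqL A hA PC),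
        inclk L A ((red₂ b : ↥(integralClosure (Algebra.adjoin kA {(S18.H16.jK kA L)⁻¹}) FkL)) : FkL)
          = S36.H55.Rres1 L hqL A hA PC ⟨b, h⟩) ∧
      (∀ (b : ↥(H40.chartB A₁ (J3N L (q := q))⁻¹)) (h : (b : F2) ∈ S36.H55.QO1 L hqL A hA PA),
        inclk L A ((red₃ b : ↥(integralClosure (Algebra.adjoin kA {(S18.H16.jK kA L)⁻¹}) FkL)) : FkL)
          = S36.H55.Qres1 L hqL A hA PA ⟨b, h⟩) ∧
      red₁ (algebraMap A₁ ↥(H40.chartB A₁ (J3N L (q := q))⁻¹) ((q : ℕ) : A₁)) = 0 ∧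
      red₂ (algebraMap A₁ ↥(H40.chartB A₁ (J3N L (q := q))⁻¹) ((q : ℕ) : A₁)) = 0 ∧
      red₃ (algebraMap A₁ ↥(H40.chartB A₁ (J3N L (q := q))⁻¹) ((q : ℕ) : A₁)) = 0 ∧
      (∃ t : ↥(H40.chartB A₁ (J3N L (q := q))⁻¹), red₂ t ≠ 0 ∧
        t * algebraMap A₁ ↥(H40.chartB A₁ (J3N L (q := q))⁻¹) ((q : ℕ) : A₁) ∈
          RingHom.ker red₂ ^ (q - 1)) ∧
      ThreeComponents red₁ red₂ red₃
        (chartMap (eU L (q := q)) (eU_algebraMap L A) (huint2 L A))
        (chartMap (eV L (q := q)) (eV_algebraMap L A) (hvint2 L A))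
        (chartMap (eW L (q := q)) (eW_algebraMap L A) (hwint2 L A))
        (rbarB (Mod L hqL A hA) (hc2 L hqL A hA) (hcw2 L hqL A hA))
        (WR (FrM L A hA) q (hFrx_inv L A hA)) q
        (algebraMap A₁ ↥(H40.chartB A₁ (J3N L (q := q))⁻¹) ((q : ℕ) : A₁)) :=
  (threeComponents_J3K_inv L hqL A hA Pi P0 PA PB PC resA_eU resB_eU resC_eU).elim
    fun red₁ h => h.elim fun red₂ h => h.elim fun red₃ h =>
      ⟨red₁, red₂, red₃, h.1, h.2.1, h.2.2.1, h.2.2.2.1, h.2.2.2.2.1, h.2.2.2.2.2.1,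
        hq2_J3K_inv L hqL A hA Pi P0 PA PB PC resA_eU resB_eU resC_eU red₁ red₂ red₃
          h.2.1 h.2.2.2.2.1 h.2.2.2.2.2.2, h.2.2.2.2.2.2⟩

end L0ThreeHq2

end Fermat.Agent.S36.H83
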