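/-
helper96: S36, row (E2-lvl), PLACE LEVEL AT THE REAL TYPES, in helper55's pinned vocabulary
(`S36.H55.PlaceA / PlaceB / PlaceC`, wrappers `QO1 Qres1 RO1 Rres1`).

Levels `L` (`q ∤ L`), `q L`, `q (q L)`; `F0 ⊆ F1 ⊆ F2` the `FullC L₁ _` fields; bottom places
`Pi : S34.H55.PlaceInf`, `P0 : S34.H55.PlaceZero` of `F1`; `iota2 = iotaMN (q * L)`,
`V2 = VMN (q * L) : F1 →+* F2`.

* the six identities on ALL of `PO1 Pi` / `PO1 P0`:
  `resB_iota2 resC_iota2 resA_iota2` (structure fields) and `resB_V2 resC_V2 resA_V2`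
  (from `S36.H96.beta_of_over_*`);
* helper55's three missing (M1)(e) formulas `resA_eU resB_eU resC_eU` (`e_u = V2 ∘ V`) and
  `threePlacesFacts_of_exactly_three`.

The chart level (`LevelMaps` for `chartMap iota2`, `chartMap V2`) is in `S36/H96_LevelMapsChart`.
-/
import Fermat.Agent.S36.H96_PlaceLevelBeta
import Fermat.Agent.S36.H55_L0ThreeBase

set_option autoImplicit false
set_option linter.unusedSectionVars false
set_option linter.style.haveILetI false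
set_option synthInstance.maxHeartbeats 400000

noncomputable section

namespace Fermat.Agent.S36.H96

open ModularCurve Polynomial IsLocalRing Fermat.Agent.S28
open Fermat.Agent.S18 Fermat.Agent.S18.H55T Fermat.Agent.S34.H92 Fermat.Agent.S34.H16
open Fermat.Agent.S34.H55

local notation "Qbar" => AlgebraicClosure ℚ

section Real

variable (L : ℕ) [NeZero L] {q : ℕ} [hq : Fact q.Prime] (hqL : ¬ q ∣ L)
  (A : ValuationSubring Qbar) (hA : A.LiesOverPrime q)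

local notation "kA" => IsLocalRing.ResidueField A
local notation "A₁" => H45.A0 A q
local notation "L₁" => H45.unrCyclo q
local notation "F0" => modularFunctionFieldFullC (H45.unrCyclo q) L
local notation "F1" => modularFunctionFieldFullC (H45.unrCyclo q) (q * L)
local notation "F2" => modularFunctionFieldFullC (H45.unrCyclo q) (q * (q * L))
local notation "FkL" => modularFunctionFieldFullC (IsLocalRing.ResidueField A) L

/-! ### units detection, in the wrapper vocabulary -/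

theorem QO1_inv_mem {ι' : ↥(VM L hqL A hA) →+* LaurentSeries (IsLocalRing.ResidueField A)}
    {θb : LaurentSeries (IsLocalRing.ResidueField A)} {P : PlaceGen L hqL A hA ι' θb}
    {ι'' : ↥(PO1 L hqL A hA P) →+* LaurentSeries (IsLocalRing.ResidueField A)}
    {θb'' : LaurentSeries (IsLocalRing.ResidueField A)}
    (Q : S36.H55.PlaceGen2 L hqL A hA P ι'' θb'') (y : F2) (hy : y ∈ S36.H55.QO1 L hqL A hA Q)
    (h : S36.H55.Qres1 L hqL A hA Q ⟨y, hy⟩ ≠ 0) : y⁻¹ ∈ S36.H55.QO1 L hqL A hA Q := by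
  letI := S36.H55.algPO1F2 L hqL A hA P
  exact Q.inv_mem y hy h

theorem RO1_inv_mem {ι' : ↥(VM L hqL A hA) →+* LaurentSeries (IsLocalRing.ResidueField A)}
    {θb : LaurentSeries (IsLocalRing.ResidueField A)} {P : PlaceGen L hqL A hA ι' θb}
    {τ : F2} {n : ℕ}
    {ι'' : ↥(PO1 L hqL A hA P) →+* LaurentSeries (IsLocalRing.ResidueField A)}
    {θb'' : LaurentSeries (IsLocalRing.ResidueField A)}
    (Q : S36.H55.PlaceRam2 L hqL A hA P τ n ι'' θb'') (y : F2)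
    (hy : y ∈ S36.H55.RO1 L hqL A hA Q)
    (h : S36.H55.Rres1 L hqL A hA Q ⟨y, hy⟩ ≠ 0) : y⁻¹ ∈ S36.H55.RO1 L hqL A hA Q := by
  letI := S36.H55.algPO1F2 L hqL A hA P
  exact Q.inv_mem y hy h

/-! ### Place level: `α = iota2` (structure fields) -/

theorem resB_iota2 (Pi : PlaceInf L hqL A hA) (PB : S36.H55.PlaceB L hqL A hA Pi) (y : F1) (hy : y ∈ PO1 L hqL A hA Pi) :
    ∃ h : iotaMN (q * L) (ℓ := q) y ∈ S36.H55.QO1 L hqL A hA PB,
      S36.H55.Qres1 L hqL A hA PB ⟨_, h⟩ = Pres1 L hqL A hA Pi ⟨y, hy⟩ :=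
  S36.H55.iota2_mem_QO1 L hqL A hA PB y hy

theorem resC_iota2 (Pi : PlaceInf L hqL A hA) (PC : S36.H55.PlaceC L hqL A hA Pi) (y : F1) (hy : y ∈ PO1 L hqL A hA Pi) :
    ∃ h : iotaMN (q * L) (ℓ := q) y ∈ S36.H55.RO1 L hqL A hA PC,
      S36.H55.Rres1 L hqL A hA PC ⟨_, h⟩ = Pres1 L hqL A hA Pi ⟨y, hy⟩ :=
  S36.H55.iota2_mem_RO1 L hqL A hA PC y hy

theorem resA_iota2 (P0 : PlaceZero L hqL A hA) (PA : S36.H55.PlaceA L hqL A hA P0) (y : F1) (hy : y ∈ PO1 L hqL A hA P0) :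
    ∃ h : iotaMN (q * L) (ℓ := q) y ∈ S36.H55.QO1 L hqL A hA PA,
      S36.H55.Qres1 L hqL A hA PA ⟨_, h⟩ =
        qExpand (IsLocalRing.ResidueField A) q (Pres1 L hqL A hA P0 ⟨y, hy⟩) :=
  S36.H55.iota2_mem_QO1 L hqL A hA PA y hy

/-! ### Place level: `β = V2` -/

/-- `θ₂ ∈ PC` with residue `j̄_L` (in `resM` form). -/
theorem theta2_mem_RO1_C (Pi : PlaceInf L hqL A hA) (PC : S36.H55.PlaceC L hqL A hA Pi) :
    ∃ h : S18.H16.jNK L₁ (q * (q * L)) ∈ S36.H55.RO1 L hqL A hA PC,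
      S36.H55.Rres1 L hqL A hA PC ⟨_, h⟩ = resM L hqL A hA (jMV L hqL A hA) :=
  Exists.imp (fun _ hh => hh.trans (S36.H55.Pres1_wO L hqL A hA Pi))
    (S36.H55.theta2_mem_RO1 L hqL A hA PC)

set_option maxHeartbeats 1600000 in
/-- **`res_B ∘ V2 = (t ↦ t^q) ∘ res_∞` on all of `PO1 Pi`.** -/
theorem resB_V2 (Pi : PlaceInf L hqL A hA) (PB : S36.H55.PlaceB L hqL A hA Pi) (y : F1) (hy : y ∈ PO1 L hqL A hA Pi) :
    ∃ h : VMN (q * L) (ℓ := q) y ∈ S36.H55.QO1 L hqL A hA PB,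
      S36.H55.Qres1 L hqL A hA PB ⟨_, h⟩ =
        qExpand (IsLocalRing.ResidueField A) q (Pres1 L hqL A hA Pi ⟨y, hy⟩) :=
  beta_of_over_inf_inf L hqL A hA Pi (S36.H55.QO1 L hqL A hA PB) (S36.H55.Qres1 L hqL A hA PB)
    (QO1_inv_mem L hqL A hA PB) (resB_iota2 L hqL A hA Pi PB) (S36.H55.theta2_mem_QO1 L hqL A hA PB) y hy

set_option maxHeartbeats 1600000 in
/-- **`res_C ∘ V2 = res_0` on all of `PO1 P0`.** -/
theorem resC_V2 (Pi : PlaceInf L hqL A hA) (P0 : PlaceZero L hqL A hA) (PC : S36.H55.PlaceC L hqL A hA Pi) (y : F1) (hy : y ∈ PO1 L hqL A hA P0) :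
    ∃ h : VMN (q * L) (ℓ := q) y ∈ S36.H55.RO1 L hqL A hA PC,
      S36.H55.Rres1 L hqL A hA PC ⟨_, h⟩ = Pres1 L hqL A hA P0 ⟨y, hy⟩ :=
  beta_of_over_inf_zero L hqL A hA Pi P0 (S36.H55.RO1 L hqL A hA PC)
    (S36.H55.Rres1 L hqL A hA PC) (RO1_inv_mem L hqL A hA PC) (resC_iota2 L hqL A hA Pi PC)
    (theta2_mem_RO1_C L hqL A hA Pi PC) y hy

set_option maxHeartbeats 1600000 in
/-- **`res_A ∘ V2 = res_0` on all of `PO1 P0`.** -/
theorem resA_V2 (P0 : PlaceZero L hqL A hA) (PA : S36.H55.PlaceA L hqL A hA P0) (y : F1) (hy : y ∈ PO1 L hqL A hA P0) :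
    ∃ h : VMN (q * L) (ℓ := q) y ∈ S36.H55.QO1 L hqL A hA PA,
      S36.H55.Qres1 L hqL A hA PA ⟨_, h⟩ = Pres1 L hqL A hA P0 ⟨y, hy⟩ :=
  beta_of_over_zero L hqL A hA P0 (S36.H55.QO1 L hqL A hA PA) (S36.H55.Qres1 L hqL A hA PA)
    (QO1_inv_mem L hqL A hA PA) (resA_iota2 L hqL A hA P0 PA) (S36.H55.theta2_mem_QO1 L hqL A hA PA) y hy

/-! ### helper55's (M1)(e): the three residue formulas for `e_u = V2 ∘ V` -/

theorem resA_eU (P0 : PlaceZero L hqL A hA) (PA : S36.H55.PlaceA L hqL A hA P0) (y : F0) (hy : y ∈ (Mod L hqL A hA).O1) :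
    ∃ h : S36.H55.eU L (q := q) y ∈ S36.H55.QO1 L hqL A hA PA,
      S36.H55.Qres1 L hqL A hA PA ⟨_, h⟩ = inclk L A ((Mod L hqL A hA).res1 ⟨y, hy⟩) := by
  obtain ⟨h1, h2⟩ := H0V L hqL A hA P0 y hy
  exact Exists.imp (fun _ h4 => h4.trans h2) (resA_V2 L hqL A hA P0 PA _ h1)

theorem resB_eU (Pi : PlaceInf L hqL A hA) (PB : S36.H55.PlaceB L hqL A hA Pi) (y : F0) (hy : y ∈ (Mod L hqL A hA).O1) :
    ∃ h : S36.H55.eU L (q := q) y ∈ S36.H55.QO1 L hqL A hA PB,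
      S36.H55.Qres1 L hqL A hA PB ⟨_, h⟩ =
        inclk L A (FrM L A hA (FrM L A hA ((Mod L hqL A hA).res1 ⟨y, hy⟩))) := by
  obtain ⟨h1, h2⟩ := HiV L hqL A hA Pi y hy
  exact Exists.imp (fun _ h4 => h4.trans
    ((congrArg (qExpand (IsLocalRing.ResidueField A) q) h2).trans
      (S36.H55.inclk_FrM L A hA _).symm)) (resB_V2 L hqL A hA Pi PB _ h1)

theorem resC_eU (Pi : PlaceInf L hqL A hA) (P0 : PlaceZero L hqL A hA) (PC : S36.H55.PlaceC L hqL A hA Pi) (y : F0) (hy : y ∈ (Mod L hqL A hA).O1) :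
    ∃ h : S36.H55.eU L (q := q) y ∈ S36.H55.RO1 L hqL A hA PC,
      S36.H55.Rres1 L hqL A hA PC ⟨_, h⟩ = inclk L A ((Mod L hqL A hA).res1 ⟨y, hy⟩) :=
  Exists.elim (H0V L hqL A hA P0 y hy) fun h1 h2 =>
    Exists.imp (fun _ h4 => h4.trans h2) (resC_V2 L hqL A hA Pi P0 PC _ h1)

/-- **helper55's `ThreePlacesFacts` from "exactly three" alone.** -/
theorem threePlacesFacts_of_exactly_three (Pi : PlaceInf L hqL A hA) (P0 : PlaceZero L hqL A hA)
    (PA : S36.H55.PlaceA L hqL A hA P0) (PB : S36.H55.PlaceB L hqL A hA Pi)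
    (PC : S36.H55.PlaceC L hqL A hA Pi)
    (h3 : ∀ W : ValuationSubring ↥F2,
      (∀ (y : F0), y ∈ (Mod L hqL A hA).O1 → S36.H55.eW L (q := q) y ∈ W) →
      ((q : ℕ) : F2) ∈ W.nonunits →
      W.toSubring = S36.H55.QO1 L hqL A hA PA ∨ W.toSubring = S36.H55.QO1 L hqL A hA PB ∨
        W.toSubring = S36.H55.RO1 L hqL A hA PC) :
    S36.H55.ThreePlacesFacts L hqL A hA Pi P0 PA PB PC :=
  ⟨resA_eU L hqL A hA P0 PA, resB_eU L hqL A hA Pi PB, resC_eU L hqL A hA Pi P0 PC, h3⟩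

end Real

end Fermat.Agent.S36.H96
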