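/-
helper83: S36, row (E2), **FINAL, HYPOTHESIS-FREE**: `ThreeComponents` (+ place compatibility,
`red_i q = 0`, (hq2)) for both charts `chartB A₁ J₃^(±1)` of `F₂ = FullC L₁ (q * (q * L))`, for
ANY triple of places `PA PB PC` of helper55's types, and the existence statement with ONE triple for
both charts (twin of `S34.H55.exists_twoComponents`), together with helper55's `ThreePlacesFacts`.

Inputs: `S36.H83.threeComponents_J3K(_inv)_full`, helper96's `resA_eU resB_eU resC_eU`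
(`S36/H96_LevelMapsReal`), helper99's `exists_three_places` (`S36/H99_L0ThreePlaces`),
helper16's `nonempty_placeInfty / nonempty_placeZero`.
-/
import Fermat.Agent.S36.H83_L0ThreeHq2
import Fermat.Agent.S36.H96_LevelMapsReal
import Fermat.Agent.S36.H99_L0ThreePlaces

set_option autoImplicit false
set_option linter.unusedSectionVars false
set_option linter.style.haveILetI false
set_option synthInstance.maxHeartbeats 400000

noncomputable section

namespace Fermat.Agent.S36.H83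

open ModularCurve Polynomial IsLocalRing Fermat.Agent.S28
open Fermat.Agent.S18 Fermat.Agent.S34.H92 Fermat.Agent.S34.H16 Fermat.Agent.S34.H55

local notation "Qbar" => AlgebraicClosure ℚ

section L0ThreeExists

variable (L : ℕ) [NeZero L] {q : ℕ} [hq : Fact q.Prime] (hqL : ¬ q ∣ L)
  (A : ValuationSubring Qbar) (hA : A.LiesOverPrime q)

local notation "kA" => IsLocalRing.ResidueField A
local notation "A₁" => H45.A0 A q
local notation "L₁" => H45.unrCyclo q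
local notation "F0" => modularFunctionFieldFullC (H45.unrCyclo q) L
local notation "F2" => modularFunctionFieldFullC (H45.unrCyclo q) (q * (q * L))
local notation "FkL" => modularFunctionFieldFullC (IsLocalRing.ResidueField A) L

set_option maxHeartbeats 3200000 in
/-- **(E2), chart `J₃`, any triple of places, no hypothesis.** -/
theorem threeComponents_J3K_real (Pi : PlaceInf L hqL A hA) (P0 : PlaceZero L hqL A hA)
    (PA : S36.H55.PlaceA L hqL A hA P0) (PB : S36.H55.PlaceB L hqL A hA Pi)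
    (PC : S36.H55.PlaceC L hqL A hA Pi) :
    ∃ red₁ red₂ red₃ : ↥(H40.chartB A₁ (J3N L (q := q))) →+*
        ↥(integralClosure (Algebra.adjoin kA {S18.H16.jK kA L}) FkL),
      (∀ (b : ↥(H40.chartB A₁ (J3N L (q := q)))) (h : (b : F2) ∈ S36.H55.QO1 L hqL A hA PB),
        inclk L A ((red₁ b : ↥(integralClosure (Algebra.adjoin kA {S18.H16.jK kA L}) FkL)) : FkL)
          = S36.H55.Qres1 L hqL A hA PB ⟨b, h⟩) ∧
      (∀ (b : ↥(H40.chartB A₁ (J3N L (q := q)))) (h : (b : F2) ∈ S36.H55.RO1 L hqL A hA PC),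
        inclk L A ((red₂ b : ↥(integralClosure (Algebra.adjoin kA {S18.H16.jK kA L}) FkL)) : FkL)
          = S36.H55.Rres1 L hqL A hA PC ⟨b, h⟩) ∧
      (∀ (b : ↥(H40.chartB A₁ (J3N L (q := q)))) (h : (b : F2) ∈ S36.H55.QO1 L hqL A hA PA),
        inclk L A ((red₃ b : ↥(integralClosure (Algebra.adjoin kA {S18.H16.jK kA L}) FkL)) : FkL)
          = S36.H55.Qres1 L hqL A hA PA ⟨b, h⟩) ∧
      red₁ (algebraMap A₁ ↥(H40.chartB A₁ (J3N L (q := q))) ((q : ℕ) : A₁)) = 0 ∧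
      red₂ (algebraMap A₁ ↥(H40.chartB A₁ (J3N L (q := q))) ((q : ℕ) : A₁)) = 0 ∧
      red₃ (algebraMap A₁ ↥(H40.chartB A₁ (J3N L (q := q))) ((q : ℕ) : A₁)) = 0 ∧
      (∃ t : ↥(H40.chartB A₁ (J3N L (q := q))), red₂ t ≠ 0 ∧
        t * algebraMap A₁ ↥(H40.chartB A₁ (J3N L (q := q))) ((q : ℕ) : A₁) ∈
          RingHom.ker red₂ ^ (q - 1)) ∧
      ThreeComponents red₁ red₂ red₃
        (chartMap (eU L (q := q)) (eU_algebraMap L A) (huint1 L A))
        (chartMap (eV L (q := q)) (eV_algebraMap L A) (hvint1 L A))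
        (chartMap (eW L (q := q)) (eW_algebraMap L A) (hwint1 L A))
        (rbarB (Mod L hqL A hA) (Mod L hqL A hA).x_mem (Mod L hqL A hA).res1_x)
        (WR (FrM L A hA) q (hFrx L A hA)) q
        (algebraMap A₁ ↥(H40.chartB A₁ (J3N L (q := q))) ((q : ℕ) : A₁)) :=
  threeComponents_J3K_full L hqL A hA Pi P0 PA PB PC (S36.H96.resA_eU L hqL A hA P0 PA)
    (S36.H96.resB_eU L hqL A hA Pi PB) (S36.H96.resC_eU L hqL A hA Pi P0 PC)

set_option maxHeartbeats 3200000 in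
/-- **(E2), chart `J₃⁻¹`, any triple of places, no hypothesis.** -/
theorem threeComponents_J3K_inv_real (Pi : PlaceInf L hqL A hA) (P0 : PlaceZero L hqL A hA)
    (PA : S36.H55.PlaceA L hqL A hA P0) (PB : S36.H55.PlaceB L hqL A hA Pi)
    (PC : S36.H55.PlaceC L hqL A hA Pi) :
    ∃ red₁ red₂ red₃ : ↥(H40.chartB A₁ (J3N L (q := q))⁻¹) →+*
        ↥(integralClosure (Algebra.adjoin kA {(S18.H16.jK kA L)⁻¹}) FkL),
      (∀ (b : ↥(H40.chartB A₁ (J3N L (q := q))⁻¹)) (h : (b : F2) ∈ S36.H55.QO1 L hqL A hA PB),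
        inclk L A ((red₁ b : ↥(integralClosure (Algebra.adjoin kA {(S18.H16.jK kA L)⁻¹}) FkL)) : FkL)
          = S36.H55.Qres1 L hqL A hA PB ⟨b, h⟩) ∧
      (∀ (b : ↥(H40.chartB A₁ (J3N L (q := q))⁻¹)) (h : (b : F2) ∈ S36.H55.RO1 L hqL A hA PC),
        inclk L A ((red₂ b : ↥(integralClosure (Algebra.adjoin kA {(S18.H16.jK kA L)⁻¹}) FkL)) : FkL)
          = S36.H55.Rres1 L hqL A hA PC ⟨b, h⟩) ∧
      (∀ (b : ↥(H40.chartB A₁ (J3N L (q := q))⁻¹)) (h : (b : F2) ∈ S36.H55.QO1 L hqL A hA PA),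
        inclk L A ((red₃ b : ↥(integralClosure (Algebra.adjoin kA {(S18.H16.jK kA L)⁻¹}) FkL)) : FkL)
          = S36.H55.Qres1 L hqL A hA PA ⟨b, h⟩) ∧
      red₁ (algebraMap A₁ ↥(H40.chartB A₁ (J3N L (q := q))⁻¹) ((q : ℕ) : A₁)) = 0 ∧
      red₂ (algebraMap A₁ ↥(H40.chartB A₁ (J3N L (q := q))⁻¹) ((q : ℕ) : A₁)) = 0 ∧
      red₃ (algebraMap A₁ ↥(H40.chartB A₁ (J3N L (q := q))⁻¹) ((q : ℕ) : A₁)) = 0 ∧
      (∃ t : ↥(H40.chartB A₁ (J3N L (q := q))⁻¹), red₂ t ≠ 0 ∧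
        t * algebraMap A₁ ↥(H40.chartB A₁ (J3N L (q := q))⁻¹) ((q : ℕ) : A₁) ∈
          RingHom.ker red₂ ^ (q - 1)) ∧
      ThreeComponents red₁ red₂ red₃
        (chartMap (eU L (q := q)) (eU_algebraMap L A) (huint2 L A))
        (chartMap (eV L (q := q)) (eV_algebraMap L A) (hvint2 L A))
        (chartMap (eW L (q := q)) (eW_algebraMap L A) (hwint2 L A))
        (rbarB (Mod L hqL A hA) (hc2 L hqL A hA) (hcw2 L hqL A hA))
        (WR (FrM L A hA) q (hFrx_inv L A hA)) q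
        (algebraMap A₁ ↥(H40.chartB A₁ (J3N L (q := q))⁻¹) ((q : ℕ) : A₁)) :=
  threeComponents_J3K_inv_full L hqL A hA Pi P0 PA PB PC (S36.H96.resA_eU L hqL A hA P0 PA)
    (S36.H96.resB_eU L hqL A hA Pi PB) (S36.H96.resC_eU L hqL A hA Pi P0 PC)

set_option maxHeartbeats 3200000 in
/-- **(E2), existence**: there are places `Pi P0` of `F₁` and `PA PB PC` of `F₂` with helper55's
`ThreePlacesFacts`, and the three-component packages of BOTH charts for this one triple. -/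
theorem exists_threeComponents (D : ModularPolynomialData q)
    (hD : ∀ (k : Type) [Field k] (ζ : kˣ), IsPrimitiveRoot ζ q → RootsAt k q ζ D.Φ) :
    ∃ (Pi : PlaceInf L hqL A hA) (P0 : PlaceZero L hqL A hA)
      (PA : S36.H55.PlaceA L hqL A hA P0) (PB : S36.H55.PlaceB L hqL A hA Pi)
      (PC : S36.H55.PlaceC L hqL A hA Pi),
      S36.H55.ThreePlacesFacts L hqL A hA Pi P0 PA PB PC ∧
      (∃ red₁ red₂ red₃ : ↥(H40.chartB A₁ (J3N L (q := q))) →+*
        ↥(integralClosure (Algebra.adjoin kA {S18.H16.jK kA L}) FkL),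
      (∀ (b : ↥(H40.chartB A₁ (J3N L (q := q)))) (h : (b : F2) ∈ S36.H55.QO1 L hqL A hA PB),
        inclk L A ((red₁ b : ↥(integralClosure (Algebra.adjoin kA {S18.H16.jK kA L}) FkL)) : FkL)
          = S36.H55.Qres1 L hqL A hA PB ⟨b, h⟩) ∧
      (∀ (b : ↥(H40.chartB A₁ (J3N L (q := q)))) (h : (b : F2) ∈ S36.H55.RO1 L hqL A hA PC),
        inclk L A ((red₂ b : ↥(integralClosure (Algebra.adjoin kA {S18.H16.jK kA L}) FkL)) : FkL)
          = S36.H55.Rres1 L hqL A hA PC ⟨b, h⟩) ∧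
      (∀ (b : ↥(H40.chartB A₁ (J3N L (q := q)))) (h : (b : F2) ∈ S36.H55.QO1 L hqL A hA PA),
        inclk L A ((red₃ b : ↥(integralClosure (Algebra.adjoin kA {S18.H16.jK kA L}) FkL)) : FkL)
          = S36.H55.Qres1 L hqL A hA PA ⟨b, h⟩) ∧
      red₁ (algebraMap A₁ ↥(H40.chartB A₁ (J3N L (q := q))) ((q : ℕ) : A₁)) = 0 ∧
      red₂ (algebraMap A₁ ↥(H40.chartB A₁ (J3N L (q := q))) ((q : ℕ) : A₁)) = 0 ∧
      red₃ (algebraMap A₁ ↥(H40.chartB A₁ (J3N L (q := q))) ((q : ℕ) : A₁)) = 0 ∧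
      (∃ t : ↥(H40.chartB A₁ (J3N L (q := q))), red₂ t ≠ 0 ∧
        t * algebraMap A₁ ↥(H40.chartB A₁ (J3N L (q := q))) ((q : ℕ) : A₁) ∈
          RingHom.ker red₂ ^ (q - 1)) ∧
      ThreeComponents red₁ red₂ red₃
        (chartMap (eU L (q := q)) (eU_algebraMap L A) (huint1 L A))
        (chartMap (eV L (q := q)) (eV_algebraMap L A) (hvint1 L A))
        (chartMap (eW L (q := q)) (eW_algebraMap L A) (hwint1 L A))
        (rbarB (Mod L hqL A hA) (Mod L hqL A hA).x_mem (Mod L hqL A hA).res1_x)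
        (WR (FrM L A hA) q (hFrx L A hA)) q
        (algebraMap A₁ ↥(H40.chartB A₁ (J3N L (q := q))) ((q : ℕ) : A₁))) ∧
      (∃ red₁ red₂ red₃ : ↥(H40.chartB A₁ (J3N L (q := q))⁻¹) →+*
        ↥(integralClosure (Algebra.adjoin kA {(S18.H16.jK kA L)⁻¹}) FkL),
      (∀ (b : ↥(H40.chartB A₁ (J3N L (q := q))⁻¹)) (h : (b : F2) ∈ S36.H55.QO1 L hqL A hA PB),
        inclk L A ((red₁ b : ↥(integralClosure (Algebra.adjoin kA {(S18.H16.jK kA L)⁻¹}) FkL)) : FkL)
          = S36.H55.Qres1 L hqL A hA PB ⟨b, h⟩) ∧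
      (∀ (b : ↥(H40.chartB A₁ (J3N L (q := q))⁻¹)) (h : (b : F2) ∈ S36.H55.RO1 L hqL A hA PC),
        inclk L A ((red₂ b : ↥(integralClosure (Algebra.adjoin kA {(S18.H16.jK kA L)⁻¹}) FkL)) : FkL)
          = S36.H55.Rres1 L hqL A hA PC ⟨b, h⟩) ∧
      (∀ (b : ↥(H40.chartB A₁ (J3N L (q := q))⁻¹)) (h : (b : F2) ∈ S36.H55.QO1 L hqL A hA PA),
        inclk L A ((red₃ b : ↥(integralClosure (Algebra.adjoin kA {(S18.H16.jK kA L)⁻¹}) FkL)) : FkL)
          = S36.H55.Qres1 L hqL A hA PA ⟨b, h⟩) ∧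
      red₁ (algebraMap A₁ ↥(H40.chartB A₁ (J3N L (q := q))⁻¹) ((q : ℕ) : A₁)) = 0 ∧
      red₂ (algebraMap A₁ ↥(H40.chartB A₁ (J3N L (q := q))⁻¹) ((q : ℕ) : A₁)) = 0 ∧
      red₃ (algebraMap A₁ ↥(H40.chartB A₁ (J3N L (q := q))⁻¹) ((q : ℕ) : A₁)) = 0 ∧
      (∃ t : ↥(H40.chartB A₁ (J3N L (q := q))⁻¹), red₂ t ≠ 0 ∧
        t * algebraMap A₁ ↥(H40.chartB A₁ (J3N L (q := q))⁻¹) ((q : ℕ) : A₁) ∈
          RingHom.ker red₂ ^ (q - 1)) ∧
      ThreeComponents red₁ red₂ red₃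
        (chartMap (eU L (q := q)) (eU_algebraMap L A) (huint2 L A))
        (chartMap (eV L (q := q)) (eV_algebraMap L A) (hvint2 L A))
        (chartMap (eW L (q := q)) (eW_algebraMap L A) (hwint2 L A))
        (rbarB (Mod L hqL A hA) (hc2 L hqL A hA) (hcw2 L hqL A hA))
        (WR (FrM L A hA) q (hFrx_inv L A hA)) q
        (algebraMap A₁ ↥(H40.chartB A₁ (J3N L (q := q))⁻¹) ((q : ℕ) : A₁))) :=
  (nonempty_placeInfty L hqL A hA D hD).elim fun Pi =>
  (nonempty_placeZero L hqL A hA D hD).elim fun P0 =>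
  (S36.H99.exists_three_places L hqL A hA D hD Pi P0).elim fun PA h =>
  h.elim fun PB h => h.elim fun PC h3 =>
    ⟨Pi, P0, PA, PB, PC,
      S36.H96.threePlacesFacts_of_exactly_three L hqL A hA Pi P0 PA PB PC h3,
      threeComponents_J3K_real L hqL A hA Pi P0 PA PB PC,
      threeComponents_J3K_inv_real L hqL A hA Pi P0 PA PB PC⟩

end L0ThreeExists

end Fermat.Agent.S36.H83
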