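import Mathlib
import Fermat.Agent.S36.H16_TowerValSeam
import Fermat.Agent.S36.H83_L0ThreeExists
import Fermat.Agent.S34.H99_L0ChartInst
import Fermat.Agent.S34.H95_CoordJInst
import Fermat.Agent.S36.H95_CoordJ3Inst

/-!
S36 / (E5) → (E6), row (r3) (helper16): **the two `L₁`-level tower data `HL` of helper46's
`S36.H46.HVa_of_baseChangeE / HVb_of_baseChangeE` at the REAL CHARTS** `chartB A₁ J₃` (level
`q (q L)`, helper83's `J3N L`) and `chartB A₁ J` (level `q L`, helper55's `JN L`), for ANY reductions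
satisfying the place-compatibility clauses of `S36.H83.threeComponents_J3K_real` and
`S34.H55.twoComponents_JK` (character for character), with kernels of height one.  The six chart
instances are discharged inside (helper95's `H95_CoordJ3Inst`, `S34.H95_CoordJInst`).

* `J3N_mem_B/_C/_A`, `JN_mem_inf/_zero` (+ the inverses, for chart 2) : the chart coordinates lie in
  the place rings;
* **`towerValU_alpha_J3N`, `towerValU_beta_J3N`.**
-/

set_option autoImplicit false
set_option linter.unusedSectionVars false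
set_option linter.style.haveILetI false
set_option synthInstance.maxHeartbeats 400000

noncomputable section

namespace Fermat.Agent.S36.H16

open ModularCurve Polynomial IsLocalRing Fermat.Agent.S28
open Fermat.Agent.S18 Fermat.Agent.S34.H92 Fermat.Agent.S34.H16 Fermat.Agent.S34.H55
open Fermat.Agent.S35.H46 Fermat.Agent.S36.H46

local notation "Qbar" => AlgebraicClosure ℚ

section L0

variable (L : ℕ) [NeZero L] {q : ℕ} [hq : Fact q.Prime] (hqL : ¬ q ∣ L)
  (A : ValuationSubring Qbar) (hA : A.LiesOverPrime q)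

local notation "kA" => IsLocalRing.ResidueField A
local notation "A₁" => H45.A0 A q
local notation "L₁" => H45.unrCyclo q
local notation "F1" => modularFunctionFieldFullC (H45.unrCyclo q) (q * L)
local notation "F2" => modularFunctionFieldFullC (H45.unrCyclo q) (q * (q * L))
local notation "FkL" => modularFunctionFieldFullC (IsLocalRing.ResidueField A) L

variable (Pi : PlaceInf L hqL A hA) (P0 : PlaceZero L hqL A hA)

/-! ### The chart coordinates lie in the place rings -/

section Mem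

variable (PA : H55.PlaceA L hqL A hA P0) (PB : H55.PlaceB L hqL A hA Pi)
  (PC : H55.PlaceC L hqL A hA Pi)

/-- helper83's place-side package for an arbitrary triple of places. -/
theorem placeSide_real :
    H83.PlaceSide L hqL A hA (H55.QO1 L hqL A hA PB) (H55.Qres1 L hqL A hA PB)
      (H55.RO1 L hqL A hA PC) (H55.Rres1 L hqL A hA PC)
      (H55.QO1 L hqL A hA PA) (H55.Qres1 L hqL A hA PA) (H83.tauC L hqL A hA Pi) :=
  H83.placeSide_of_places L hqL A hA Pi P0 PA PB PC (H96.resA_eU L hqL A hA P0 PA)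
    (H96.resB_eU L hqL A hA Pi PB) (H96.resC_eU L hqL A hA Pi P0 PC)

include P0 PA PC in
theorem J3N_mem_B : H83.J3N L (q := q) ∈ H55.QO1 L hqL A hA PB :=
  (H83.hu_hw_a1 L hqL A hA (placeSide_real L hqL A hA Pi P0 PA PB PC)).fst

include P0 PA PB in
theorem J3N_mem_C : H83.J3N L (q := q) ∈ H55.RO1 L hqL A hA PC :=
  (H83.hu_hw_c1 L hqL A hA (placeSide_real L hqL A hA Pi P0 PA PB PC)).fst

include Pi PB PC in
theorem J3N_mem_A : H83.J3N L (q := q) ∈ H55.QO1 L hqL A hA PA :=
  (H83.hu_hw_b1 L hqL A hA (placeSide_real L hqL A hA Pi P0 PA PB PC)).fst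

include P0 PA PC in
theorem J3N_inv_mem_B : (H83.J3N L (q := q))⁻¹ ∈ H55.QO1 L hqL A hA PB :=
  (H83.hu_hw_a2 L hqL A hA (placeSide_real L hqL A hA Pi P0 PA PB PC)).fst

include P0 PA PB in
theorem J3N_inv_mem_C : (H83.J3N L (q := q))⁻¹ ∈ H55.RO1 L hqL A hA PC :=
  (H83.hu_hw_c2 L hqL A hA (placeSide_real L hqL A hA Pi P0 PA PB PC)).fst

include Pi PB PC in
theorem J3N_inv_mem_A : (H83.J3N L (q := q))⁻¹ ∈ H55.QO1 L hqL A hA PA :=
  (H83.hu_hw_b2 L hqL A hA (placeSide_real L hqL A hA Pi P0 PA PB PC)).fst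

end Mem

theorem JN_mem_inf : JN L (ℓ := q) ∈ PO1 L hqL A hA Pi :=
  (S34.H99.hu_hw_JK_infty L hqL A hA Pi).fst

theorem JN_mem_zero : JN L (ℓ := q) ∈ PO1 L hqL A hA P0 :=
  (S34.H99.hu_hw_JK_zero L hqL A hA P0).fst

theorem JN_inv_mem_inf : (JN L (ℓ := q))⁻¹ ∈ PO1 L hqL A hA Pi :=
  (S34.H99.hu_hw_JK_inv_infty L hqL A hA Pi).fst

theorem JN_inv_mem_zero : (JN L (ℓ := q))⁻¹ ∈ PO1 L hqL A hA P0 :=
  (S34.H99.hu_hw_JK_inv_zero L hqL A hA P0).fst

/-! ### The tower data at the real charts -/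

/-- `D → kA((t))` for the target `D = (kA[j̄])^int ⊆ Fk(L)` of the chart reductions. -/
def cD : ↥(integralClosure (Algebra.adjoin kA {S18.H16.jK kA L}) FkL) →+*
    LaurentSeries (IsLocalRing.ResidueField A) :=
  ((inclk L A : FkL →ₐ[kA] LaurentSeries kA) : FkL →+* LaurentSeries kA).comp
    ((integralClosure (Algebra.adjoin kA {S18.H16.jK kA L}) FkL).val :
      ↥(integralClosure (Algebra.adjoin kA {S18.H16.jK kA L}) FkL) →+* FkL)

theorem cD_apply (d : ↥(integralClosure (Algebra.adjoin kA {S18.H16.jK kA L}) FkL)) :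
    cD L A d = inclk L A (d : FkL) := rfl

theorem cD_injective : Function.Injective (cD L A) := by
  intro x y h
  apply Subtype.ext
  exact (inclk L A).injective h

section Real

variable (D : ModularPolynomialData q)
  (hD : ∀ (k : Type) [Field k] (ζ : kˣ), IsPrimitiveRoot ζ q → RootsAt k q ζ D.Φ)
  (PA : H55.PlaceA L hqL A hA P0) (PB : H55.PlaceB L hqL A hA Pi)
  (PC : H55.PlaceC L hqL A hA Pi)
  (red₁ red₂ red₃ : ↥(S18.H40.chartB ↥(H45.A0 A q) (H83.J3N L (q := q))) →+*
    ↥(integralClosure (Algebra.adjoin (IsLocalRing.ResidueField A)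
      {S18.H16.jK (IsLocalRing.ResidueField A) L})
      (modularFunctionFieldFullC (IsLocalRing.ResidueField A) L)))
  (h₁ : ∀ (b : ↥(S18.H40.chartB ↥(H45.A0 A q) (H83.J3N L (q := q))))
    (h : (b : ↥(modularFunctionFieldFullC (H45.unrCyclo q) (q * (q * L)))) ∈
      H55.QO1 L hqL A hA PB),
    inclk L A ((red₁ b : ↥(integralClosure (Algebra.adjoin (IsLocalRing.ResidueField A)
      {S18.H16.jK (IsLocalRing.ResidueField A) L})
      (modularFunctionFieldFullC (IsLocalRing.ResidueField A) L))) :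
        ↥(modularFunctionFieldFullC (IsLocalRing.ResidueField A) L)) =
      H55.Qres1 L hqL A hA PB ⟨b, h⟩)
  (h₂ : ∀ (b : ↥(S18.H40.chartB ↥(H45.A0 A q) (H83.J3N L (q := q))))
    (h : (b : ↥(modularFunctionFieldFullC (H45.unrCyclo q) (q * (q * L)))) ∈
      H55.RO1 L hqL A hA PC),
    inclk L A ((red₂ b : ↥(integralClosure (Algebra.adjoin (IsLocalRing.ResidueField A)
      {S18.H16.jK (IsLocalRing.ResidueField A) L})
      (modularFunctionFieldFullC (IsLocalRing.ResidueField A) L))) :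
        ↥(modularFunctionFieldFullC (IsLocalRing.ResidueField A) L)) =
      H55.Rres1 L hqL A hA PC ⟨b, h⟩)
  (h₃ : ∀ (b : ↥(S18.H40.chartB ↥(H45.A0 A q) (H83.J3N L (q := q))))
    (h : (b : ↥(modularFunctionFieldFullC (H45.unrCyclo q) (q * (q * L)))) ∈
      H55.QO1 L hqL A hA PA),
    inclk L A ((red₃ b : ↥(integralClosure (Algebra.adjoin (IsLocalRing.ResidueField A)
      {S18.H16.jK (IsLocalRing.ResidueField A) L})
      (modularFunctionFieldFullC (IsLocalRing.ResidueField A) L))) :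
        ↥(modularFunctionFieldFullC (IsLocalRing.ResidueField A) L)) =
      H55.Qres1 L hqL A hA PA ⟨b, h⟩)
  (red₁' red₂' : ↥(S18.H40.chartB ↥(H45.A0 A q) (JN L (ℓ := q))) →+*
    ↥(integralClosure (Algebra.adjoin (IsLocalRing.ResidueField A)
      {S18.H16.jK (IsLocalRing.ResidueField A) L})
      (modularFunctionFieldFullC (IsLocalRing.ResidueField A) L)))
  (h₁' : ∀ (b : ↥(S18.H40.chartB ↥(H45.A0 A q) (JN L (ℓ := q))))
    (h : (b : ↥(modularFunctionFieldFullC (H45.unrCyclo q) (q * L))) ∈ PO1 L hqL A hA Pi),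
    inclk L A ((red₁' b : ↥(integralClosure (Algebra.adjoin (IsLocalRing.ResidueField A)
      {S18.H16.jK (IsLocalRing.ResidueField A) L})
      (modularFunctionFieldFullC (IsLocalRing.ResidueField A) L))) :
        ↥(modularFunctionFieldFullC (IsLocalRing.ResidueField A) L)) =
      Pres1 L hqL A hA Pi ⟨b, h⟩)
  (h₂' : ∀ (b : ↥(S18.H40.chartB ↥(H45.A0 A q) (JN L (ℓ := q))))
    (h : (b : ↥(modularFunctionFieldFullC (H45.unrCyclo q) (q * L))) ∈ PO1 L hqL A hA P0),
    inclk L A ((red₂' b : ↥(integralClosure (Algebra.adjoin (IsLocalRing.ResidueField A)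
      {S18.H16.jK (IsLocalRing.ResidueField A) L})
      (modularFunctionFieldFullC (IsLocalRing.ResidueField A) L))) :
        ↥(modularFunctionFieldFullC (IsLocalRing.ResidueField A) L)) =
      Pres1 L hqL A hA P0 ⟨b, h⟩)
  (k₁ : (RingHom.ker red₁).height = 1) (k₂ : (RingHom.ker red₂).height = 1)
  (k₃ : (RingHom.ker red₃).height = 1)
  (k₁' : (RingHom.ker red₁').height = 1) (k₂' : (RingHom.ker red₂').height = 1)

set_option maxHeartbeats 1600000 in
include hD h₁ h₂ h₃ h₁' h₂' in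
/-- **`HL` of `HVb_of_baseChangeE` at the real charts.** -/
theorem towerValU_beta_J3N :
    haveI := S36.H95.isNoetherianRing_chartB_J3K_A0 (A := A) hq.out hA (q * (q * L)) q
      (H83.hq2_dvd L)
    haveI := S36.H95.isIntegrallyClosed_chartB_J3K_A0 (A := A) (ℓ := q) (q * (q * L)) q
      (H83.hq2_dvd L)
    haveI := S36.H95.isFractionRing_chartB_J3K_A0 (A := A) (ℓ := q) (q * (q * L)) q
      (H83.hq2_dvd L)
    haveI := S34.H95.isNoetherianRing_chartB_JK_A0 (A := A) hq.out hA (q * L) q (Dvd.intro L rfl)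
    haveI := S34.H95.isIntegrallyClosed_chartB_JK_A0 (A := A) (ℓ := q) (q * L) q
      (Dvd.intro L rfl)
    haveI := S34.H95.isFractionRing_chartB_JK_A0 (A := A) (ℓ := q) (q * L) q (Dvd.intro L rfl)
    haveI := RingHom.ker_isPrime red₁
    haveI := RingHom.ker_isPrime red₂
    haveI := RingHom.ker_isPrime red₃
    haveI := RingHom.ker_isPrime red₁'
    haveI := RingHom.ker_isPrime red₂'
    TowerValU (H18.betaK L₁ q (q * L) (q * (q * L)) dvd_rfl)
      (H18.normBetaK L₁ q (q * L) (q * (q * L)) dvd_rfl) q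
      (S34.H56.valuationSubringAt (K := F2) (RingHom.ker red₃) k₃)
      (S34.H56.valuationSubringAt (K := F2) (RingHom.ker red₂) k₂)
      (S34.H56.valuationSubringAt (K := F2) (RingHom.ker red₁) k₁)
      (S34.H56.valuationSubringAt (K := F1) (RingHom.ker red₂') k₂')
      (S34.H56.valuationSubringAt (K := F1) (RingHom.ker red₁') k₁') := by
  haveI := S36.H95.isNoetherianRing_chartB_J3K_A0 (A := A) hq.out hA (q * (q * L)) q
    (H83.hq2_dvd L)
  haveI := S36.H95.isIntegrallyClosed_chartB_J3K_A0 (A := A) (ℓ := q) (q * (q * L)) q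
    (H83.hq2_dvd L)
  haveI := S36.H95.isFractionRing_chartB_J3K_A0 (A := A) (ℓ := q) (q * (q * L)) q
    (H83.hq2_dvd L)
  haveI := S34.H95.isNoetherianRing_chartB_JK_A0 (A := A) hq.out hA (q * L) q (Dvd.intro L rfl)
  haveI := S34.H95.isIntegrallyClosed_chartB_JK_A0 (A := A) (ℓ := q) (q * L) q
    (Dvd.intro L rfl)
  haveI := S34.H95.isFractionRing_chartB_JK_A0 (A := A) (ℓ := q) (q * L) q (Dvd.intro L rfl)
  haveI := RingHom.ker_isPrime red₁
  haveI := RingHom.ker_isPrime red₂
  haveI := RingHom.ker_isPrime red₃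
  haveI := RingHom.ker_isPrime red₁'
  haveI := RingHom.ker_isPrime red₂'
  have key := towerValU_beta_charts L hqL A hA Pi P0 D hD PA PB PC (H83.J3N L (q := q))
    (J3N_mem_B L hqL A hA Pi P0 PA PB PC) (J3N_mem_C L hqL A hA Pi P0 PA PB PC)
    (J3N_mem_A L hqL A hA Pi P0 PA PB PC) (cD L A) (cD_injective L A) red₁ red₂ red₃ h₁ h₂ h₃
    k₁ k₂ k₃ (JN L (ℓ := q)) (JN_mem_inf L hqL A hA Pi) (JN_mem_zero L hqL A hA P0)
    (cD L A) (cD_injective L A) red₁' red₂' h₁' h₂' k₁' k₂'
  exact key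

set_option maxHeartbeats 1600000 in
include hD h₁ h₂ h₃ h₁' h₂' in
/-- **`HL` of `HVa_of_baseChangeE` at the real charts.** -/
theorem towerValU_alpha_J3N :
    haveI := S36.H95.isNoetherianRing_chartB_J3K_A0 (A := A) hq.out hA (q * (q * L)) q
      (H83.hq2_dvd L)
    haveI := S36.H95.isIntegrallyClosed_chartB_J3K_A0 (A := A) (ℓ := q) (q * (q * L)) q
      (H83.hq2_dvd L)
    haveI := S36.H95.isFractionRing_chartB_J3K_A0 (A := A) (ℓ := q) (q * (q * L)) q
      (H83.hq2_dvd L)
    haveI := S34.H95.isNoetherianRing_chartB_JK_A0 (A := A) hq.out hA (q * L) q (Dvd.intro L rfl)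
    haveI := S34.H95.isIntegrallyClosed_chartB_JK_A0 (A := A) (ℓ := q) (q * L) q
      (Dvd.intro L rfl)
    haveI := S34.H95.isFractionRing_chartB_JK_A0 (A := A) (ℓ := q) (q * L) q (Dvd.intro L rfl)
    haveI := RingHom.ker_isPrime red₁
    haveI := RingHom.ker_isPrime red₂
    haveI := RingHom.ker_isPrime red₃
    haveI := RingHom.ker_isPrime red₁'
    haveI := RingHom.ker_isPrime red₂'
    TowerValU (H18.alphaK L₁ (q * L) (q * (q * L)) (dvd_mul_left (q * L) q))
      (H18.normAlphaK L₁ (q * L) (q * (q * L)) (dvd_mul_left (q * L) q)) q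
      (S34.H56.valuationSubringAt (K := F2) (RingHom.ker red₁) k₁)
      (S34.H56.valuationSubringAt (K := F2) (RingHom.ker red₂) k₂)
      (S34.H56.valuationSubringAt (K := F2) (RingHom.ker red₃) k₃)
      (S34.H56.valuationSubringAt (K := F1) (RingHom.ker red₁') k₁')
      (S34.H56.valuationSubringAt (K := F1) (RingHom.ker red₂') k₂') := by
  haveI := S36.H95.isNoetherianRing_chartB_J3K_A0 (A := A) hq.out hA (q * (q * L)) q
    (H83.hq2_dvd L)
  haveI := S36.H95.isIntegrallyClosed_chartB_J3K_A0 (A := A) (ℓ := q) (q * (q * L)) q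
    (H83.hq2_dvd L)
  haveI := S36.H95.isFractionRing_chartB_J3K_A0 (A := A) (ℓ := q) (q * (q * L)) q
    (H83.hq2_dvd L)
  haveI := S34.H95.isNoetherianRing_chartB_JK_A0 (A := A) hq.out hA (q * L) q (Dvd.intro L rfl)
  haveI := S34.H95.isIntegrallyClosed_chartB_JK_A0 (A := A) (ℓ := q) (q * L) q
    (Dvd.intro L rfl)
  haveI := S34.H95.isFractionRing_chartB_JK_A0 (A := A) (ℓ := q) (q * L) q (Dvd.intro L rfl)
  haveI := RingHom.ker_isPrime red₁
  haveI := RingHom.ker_isPrime red₂
  haveI := RingHom.ker_isPrime red₃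
  haveI := RingHom.ker_isPrime red₁'
  haveI := RingHom.ker_isPrime red₂'
  have key := towerValU_alpha_charts L hqL A hA Pi P0 D hD PA PB PC (H83.J3N L (q := q))
    (J3N_mem_B L hqL A hA Pi P0 PA PB PC) (J3N_mem_C L hqL A hA Pi P0 PA PB PC)
    (J3N_mem_A L hqL A hA Pi P0 PA PB PC) (cD L A) (cD_injective L A) red₁ red₂ red₃ h₁ h₂ h₃
    k₁ k₂ k₃ (JN L (ℓ := q)) (JN_mem_inf L hqL A hA Pi) (JN_mem_zero L hqL A hA P0)
    (cD L A) (cD_injective L A) red₁' red₂' h₁' h₂' k₁' k₂'
  exact key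

end Real

end L0

end Fermat.Agent.S36.H16
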