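import Mathlib
import Fermat.Agent.S36.H67_ValBridge
import Fermat.Agent.S36.H40_VertOfThree
import Fermat.Agent.S34.H3_VerticalSingle

/-!
# S36, row (E2), base-change layer (helper70): `q ∈ P₂^((q-1))` from the place side

`hq2_of_place` : for a noetherian integrally closed chart `B` (fraction field `F`) carrying a
`S36.H83.ThreeComponents` structure, and a bare ramified place `(O1, res1)` of `F` whose centre on
`B` is the middle kernel `P₂ = ker red₂`, with uniformiser `τ` and `qB = u τ ^ n` (`u` a unit of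
`O1`) — the fields of `S36.H6.PlaceOverRam` verbatim — one has `∃ t ∉ P₂, t * qB ∈ P₂ ^ n`.

This is the extra hypothesis `hq2` of the base change `S36.H70.exists_threeComponents_chartBC`; it
cannot come from (M4) on chart 1 (no cusps there, and (M4) at the `E`-level needs the `E`-level
`ThreeComponents` first).

Proof: `P₂` is a minimal prime over `qB` (helper40), hence of height one, hence `B_{P₂} = O1`
(helper67's bridge); write `τ = a / s`, `u = a' / s'` with `s, s' ∉ P₂`; then `a ∈ P₂` and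
`s' s ^ n qB = a' a ^ n ∈ P₂ ^ n`.
-/

set_option autoImplicit false
set_option linter.unusedSectionVars false
set_option linter.style.haveILetI false

namespace Fermat.Agent.S36.H70

open Fermat.Agent.S34 Fermat.Agent.S36.H83

section Generic

variable {B F D BM Fk : Type*} [CommRing B] [IsDomain B] [Field F] [Algebra B F]
  [IsFractionRing B F] [IsNoetherianRing B] [IsIntegrallyClosed B]
  [CommRing D] [IsDomain D] [CommRing BM] [Field Fk]
  {red₁ red₂ red₃ : B →+* D} {ιu ιv ιw : BM →+* B} {rbar : BM →+* D} {W : D →+* D}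
  {q : ℕ} {qB : B}

/-- The middle kernel has height one. -/
theorem height_ker₂_eq_one (h : ThreeComponents red₁ red₂ red₃ ιu ιv ιw rbar W q qB)
    (hq₂ : red₂ qB = 0) (hq0 : qB ≠ 0) (hW2 : ∃ d : D, W (W d) ≠ d) :
    (RingHom.ker red₂).height = 1 :=
  S34.H3.height_eq_one_of_mem_minimalPrimes hq0
    (S36.H40.ker₂_mem_minimalPrimes_of_sep h hq₂ (S36.H40.exists_sep₁₂ h hW2)
      (S36.H40.exists_sep₃₂ h hW2))

/-- **`qB ∈ P₂^((n))` from a ramified place centred at `P₂ = ker red₂`.** -/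
theorem hq2_of_place (h : ThreeComponents red₁ red₂ red₃ ιu ιv ιw rbar W q qB)
    (hq₂ : red₂ qB = 0) (hq0 : qB ≠ 0) (hW2 : ∃ d : D, W (W d) ≠ d)
    (O1 : Subring F) (res1 : O1 →+* Fk)
    (inv_mem : ∀ (y : F) (hy : y ∈ O1), res1 ⟨y, hy⟩ ≠ 0 → y⁻¹ ∈ O1)
    (mem_or_inv_mem : ∀ y : F, y ∈ O1 ∨ y⁻¹ ∈ O1)
    (hB : ∀ b : B, algebraMap B F b ∈ O1)
    (hred : ∀ b : B, red₂ b = 0 ↔ res1 ⟨algebraMap B F b, hB b⟩ = 0)
    (τ : F) (n : ℕ) (hτ : τ ∈ O1)
    (hker : ∀ (y : F) (hy : y ∈ O1), res1 ⟨y, hy⟩ = 0 ↔ ∃ z ∈ O1, y = τ * z)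
    (hunif : ∃ u : F, u ∈ O1 ∧ u⁻¹ ∈ O1 ∧ algebraMap B F qB = u * τ ^ n) :
    ∃ t : B, red₂ t ≠ 0 ∧ t * qB ∈ RingHom.ker red₂ ^ n := by
  haveI : (RingHom.ker red₂).IsPrime := RingHom.ker_isPrime red₂
  have h1 : (RingHom.ker red₂).height = 1 := height_ker₂_eq_one h hq₂ hq0 hW2
  have key : ∀ y : F, y ∈ O1 → H56.MemAt (RingHom.ker red₂) y := fun y hy =>
    (H56.mem_valuationSubringAt h1).1
      ((S36.H67.mem_valuationSubringAt_iff_of_res O1 res1 inv_mem mem_or_inv_mem
        (RingHom.ker red₂) h1 hB (fun b => RingHom.mem_ker.trans (hred b)) y).2 hy)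
  obtain ⟨a, s, hs, has⟩ := key τ hτ
  obtain ⟨u, hu, -, hun⟩ := hunif
  obtain ⟨a', s', hs', has'⟩ := key u hu
  have ha : a ∈ RingHom.ker red₂ := by
    rw [RingHom.mem_ker, hred a]
    exact (hker _ (hB a)).2 ⟨algebraMap B F s, hB s, has.symm⟩
  refine ⟨s' * s ^ n, ?_, ?_⟩
  · rw [map_mul, map_pow]
    exact mul_ne_zero (fun h0 => hs' (RingHom.mem_ker.2 h0))
      (pow_ne_zero _ fun h0 => hs (RingHom.mem_ker.2 h0))
  · have e : s' * s ^ n * qB = a' * a ^ n := by
      apply IsFractionRing.injective B F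
      rw [map_mul, map_mul, map_pow, map_mul, map_pow, hun, ← has, ← has']
      ring
    rw [e]
    exact Ideal.mul_mem_left _ _ (Ideal.pow_mem_pow ha n)

end Generic

end Fermat.Agent.S36.H70
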