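import Mathlib
import Fermat.Agent.S36.H95_CoordJ3Inst

/-!
# S36 (helper70): `q ≠ 0` in every `cutOver A E`-subalgebra of `FullC E N`

`algebraMap_natCast_ne_zero` : the binders `hπ₁ hπ₂ : algebraMap RR ↥B_i πq ≠ 0` of
`S36.H56.hE4_real_chartB` (and `hq0` of `S36.H61.vertFam_height`), for ANY subalgebra `B` of
`FullC ↥E N` over `cutOver A E` (in particular the charts `chartB (cutOver A E) J`, in the (S1),
(S2) and (S3) spellings alike) and any non-zero natural number.
-/

set_option autoImplicit false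
set_option linter.unusedSectionVars false
set_option synthInstance.maxHeartbeats 400000

namespace Fermat.Agent.S36.H70

open ModularCurve Fermat.Agent.S18 Fermat.Agent.S18.H45

local notation "Qbar" => AlgebraicClosure ℚ

variable {A : ValuationSubring Qbar} {ℓ : ℕ}
  (E : IntermediateField (unrCyclo ℓ) Qbar) (N : ℕ) [NeZero N]

/-- a non-zero natural number is non-zero in `FullC ↥E N`. -/
theorem natCast_fullC_ne_zero {n : ℕ} (hn : n ≠ 0) :
    ((n : ℕ) : ↥(modularFunctionFieldFullC ↥E N)) ≠ 0 := by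
  intro h
  have h1 : algebraMap ↥E ↥(modularFunctionFieldFullC ↥E N) ((n : ℕ) : ↥E) = 0 := by
    rw [map_natCast]
    exact h
  have h2 : ((n : ℕ) : ↥E) = 0 := (map_eq_zero _).1 h1
  exact hn (Nat.cast_eq_zero.1 h2)

/-- **`hπ`**: a non-zero natural number is non-zero in every `cutOver A E`-subalgebra of
`FullC ↥E N`. -/
theorem algebraMap_natCast_ne_zero
    (B : Subalgebra ↥(cutOver A E) ↥(modularFunctionFieldFullC ↥E N)) {n : ℕ} (hn : n ≠ 0) :
    algebraMap ↥(cutOver A E) ↥B ((n : ℕ) : ↥(cutOver A E)) ≠ 0 := by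
  intro h
  apply natCast_fullC_ne_zero E N hn
  have h1 := congrArg (fun b : ↥B => (b : ↥(modularFunctionFieldFullC ↥E N))) h
  simp only [map_natCast] at h1
  simpa using h1

/-- the same over `A₁ = A0 A ℓ`. -/
theorem algebraMap_natCast_ne_zero_A0
    (B : Subalgebra ↥(A0 A ℓ) ↥(modularFunctionFieldFullC ↥(unrCyclo ℓ) N)) {n : ℕ} (hn : n ≠ 0) :
    algebraMap ↥(A0 A ℓ) ↥B ((n : ℕ) : ↥(A0 A ℓ)) ≠ 0 := by
  intro h
  have h0 : ((n : ℕ) : ↥(modularFunctionFieldFullC ↥(unrCyclo ℓ) N)) ≠ 0 := by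
    intro h
    have h1 : algebraMap ↥(unrCyclo ℓ) ↥(modularFunctionFieldFullC ↥(unrCyclo ℓ) N)
        ((n : ℕ) : ↥(unrCyclo ℓ)) = 0 := by
      rw [map_natCast]
      exact h
    have h2 : ((n : ℕ) : ↥(unrCyclo ℓ)) = 0 := (map_eq_zero _).1 h1
    exact hn (Nat.cast_eq_zero.1 h2)
  apply h0
  have h1 := congrArg (fun b : ↥B => (b : ↥(modularFunctionFieldFullC ↥(unrCyclo ℓ) N))) h
  simp only [map_natCast] at h1
  simpa using h1

end Fermat.Agent.S36.H70
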