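import Mathlib
import Fermat.Agent.S36.H16_TowerValChartsJ3
import Fermat.Agent.S36.H70_Hq2Place
import Fermat.Agent.S36.H70_NatCastNeZero
import Fermat.Agent.S35.H84_TwoCompNe
import Fermat.Agent.S35.H55_L0Pkg

/-!
S36 / (E5) → (E6), row (r3)-inst, part (a) (helper16): **the five heights** `k_i` of
`S36.H16.towerValU_alpha_J3N / towerValU_beta_J3N`, i.e. `(RingHom.ker red_i).height = 1` on the
real `A₁`-charts `chartB A₁ (J3N L)` (level `q (q L)`, `i = 1, 2, 3`, from helper83's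
`ThreeComponents`) and `chartB A₁ (JN L)` (level `q L`, `red₁' red₂'`, from helper55's
`TwoComponents` + place clauses), and the resulting **binder-free `HL`**.

* generic: `height_ker₁_eq_one`, `height_ker₃_eq_one` (twins of helper70's `height_ker₂_eq_one`),
  `height_ker₁_eq_one_of_two`, `height_ker₂_eq_one_of_two`;
* real: `height_ker_J3N₁/₂/₃`, `height_ker_JN₁/₂`;
* `towerValU_alpha_J3N_of_components`, `towerValU_beta_J3N_of_components`.
-/

set_option autoImplicit false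
set_option linter.unusedSectionVars false
set_option linter.style.haveILetI false
set_option synthInstance.maxHeartbeats 400000

noncomputable section

namespace Fermat.Agent.S36.H16

open ModularCurve Polynomial IsLocalRing Fermat.Agent.S28
open Fermat.Agent.S18 Fermat.Agent.S34.H92 Fermat.Agent.S34.H16 Fermat.Agent.S34.H55
open Fermat.Agent.S35.H46 Fermat.Agent.S36.H46

local notation "Qbar" => AlgebraicClosure ℚ

/-! ### Generic heights -/

section GenericThree

variable {B D BM : Type*} [CommRing B] [IsDomain B] [IsNoetherianRing B]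
  [CommRing D] [IsDomain D] [CommRing BM]
  {red₁ red₂ red₃ : B →+* D} {ιu ιv ιw : BM →+* B} {rbar : BM →+* D} {W : D →+* D}
  {q : ℕ} {qB : B}

/-- The first kernel has height one. -/
theorem height_ker₁_eq_one (h : H83.ThreeComponents red₁ red₂ red₃ ιu ιv ιw rbar W q qB)
    (hq₁ : red₁ qB = 0) (hq0 : qB ≠ 0) (hW2 : ∃ d : D, W (W d) ≠ d)
    (hW4 : ∃ d : D, W (W (W (W d))) ≠ d) :
    (RingHom.ker red₁).height = 1 :=
  S34.H3.height_eq_one_of_mem_minimalPrimes hq0
    (S36.H40.ker_mem_minimalPrimes_of_sep h hq₁ (S36.H40.exists_sep₂₁ h hW2)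
      (S36.H40.exists_sep₃₁ h hW4))

/-- The middle kernel has height one (helper70's `height_ker₂_eq_one`, without the integral
closedness/fraction field). -/
theorem height_ker₂_eq_one' (h : H83.ThreeComponents red₁ red₂ red₃ ιu ιv ιw rbar W q qB)
    (hq₂ : red₂ qB = 0) (hq0 : qB ≠ 0) (hW2 : ∃ d : D, W (W d) ≠ d) :
    (RingHom.ker red₂).height = 1 :=
  S34.H3.height_eq_one_of_mem_minimalPrimes hq0
    (S36.H40.ker₂_mem_minimalPrimes_of_sep h hq₂ (S36.H40.exists_sep₁₂ h hW2)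
      (S36.H40.exists_sep₃₂ h hW2))

/-- The third kernel has height one. -/
theorem height_ker₃_eq_one (h : H83.ThreeComponents red₁ red₂ red₃ ιu ιv ιw rbar W q qB)
    (hq₃ : red₃ qB = 0) (hq0 : qB ≠ 0) (hW2 : ∃ d : D, W (W d) ≠ d)
    (hW4 : ∃ d : D, W (W (W (W d))) ≠ d) :
    (RingHom.ker red₃).height = 1 :=
  S34.H3.height_eq_one_of_mem_minimalPrimes hq0
    (S36.H40.ker₃_mem_minimalPrimes_of_sep h hq₃ (S36.H40.exists_sep₁₃ h hW4)
      (S36.H40.exists_sep₂₃ h hW2))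

end GenericThree

section GenericTwo

variable {B D BM : Type*} [CommRing B] [IsDomain B] [IsNoetherianRing B]
  [CommRing D] [IsDomain D] [CommRing BM]
  {red₁ red₂ : B →+* D} {ι V : BM →+* B} {rbar : BM →+* D} {W : D →+* D} {q : ℕ} {qB : B}

/-- The first kernel of a `TwoComponents` structure has height one. -/
theorem height_ker₁_eq_one_of_two (h : S34.H83.TwoComponents red₁ red₂ ι V rbar W q qB)
    (hq0 : qB ≠ 0) (hq₁ : red₁ qB = 0) (hq₂ : red₂ qB = 0)
    (hne₁ : ∃ z, red₁ z = 0 ∧ red₂ z ≠ 0) (hne₂ : ∃ z, red₂ z = 0 ∧ red₁ z ≠ 0) :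
    (RingHom.ker red₁).height = 1 :=
  S35.H84.height_vertTC h hq0 hq₁ hq₂ hne₁ hne₂ true

/-- The second kernel of a `TwoComponents` structure has height one. -/
theorem height_ker₂_eq_one_of_two (h : S34.H83.TwoComponents red₁ red₂ ι V rbar W q qB)
    (hq0 : qB ≠ 0) (hq₁ : red₁ qB = 0) (hq₂ : red₂ qB = 0)
    (hne₁ : ∃ z, red₁ z = 0 ∧ red₂ z ≠ 0) (hne₂ : ∃ z, red₂ z = 0 ∧ red₁ z ≠ 0) :
    (RingHom.ker red₂).height = 1 :=
  S35.H84.height_vertTC h hq0 hq₁ hq₂ hne₁ hne₂ false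

end GenericTwo

/-! ### The real charts -/

section Real

variable (L : ℕ) [NeZero L] {q : ℕ} [hq : Fact q.Prime] (hqL : ¬ q ∣ L)
  (A : ValuationSubring Qbar) (hA : A.LiesOverPrime q)

local notation "kA" => IsLocalRing.ResidueField A
local notation "A₁" => H45.A0 A q
local notation "L₁" => H45.unrCyclo q
local notation "F1" => modularFunctionFieldFullC (H45.unrCyclo q) (q * L)
local notation "F2" => modularFunctionFieldFullC (H45.unrCyclo q) (q * (q * L))
local notation "FkL" => modularFunctionFieldFullC (IsLocalRing.ResidueField A) L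

section Three

variable {BM : Type*} [CommRing BM]
  {red₁ red₂ red₃ : ↥(S18.H40.chartB ↥(H45.A0 A q) (H83.J3N L (q := q))) →+*
    ↥(integralClosure (Algebra.adjoin (IsLocalRing.ResidueField A)
      {S18.H16.jK (IsLocalRing.ResidueField A) L})
      (modularFunctionFieldFullC (IsLocalRing.ResidueField A) L))}
  {ιu ιv ιw : BM →+* ↥(S18.H40.chartB ↥(H45.A0 A q) (H83.J3N L (q := q)))}
  {rbar : BM →+* ↥(integralClosure (Algebra.adjoin (IsLocalRing.ResidueField A)
      {S18.H16.jK (IsLocalRing.ResidueField A) L})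
      (modularFunctionFieldFullC (IsLocalRing.ResidueField A) L))}

theorem algebraMap_q_ne_zero_J3N :
    algebraMap ↥(H45.A0 A q) ↥(S18.H40.chartB ↥(H45.A0 A q) (H83.J3N L (q := q)))
      ((q : ℕ) : ↥(H45.A0 A q)) ≠ 0 :=
  S36.H70.algebraMap_natCast_ne_zero_A0 (q * (q * L))
    (S18.H40.chartB ↥(H45.A0 A q) (H83.J3N L (q := q))) hq.out.ne_zero

/-- **`k₁`** : the first kernel of helper83's `ThreeComponents` on `chartB A₁ J₃` has height one. -/
theorem height_ker_J3N₁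
    (h : H83.ThreeComponents red₁ red₂ red₃ ιu ιv ιw rbar (WR (FrM L A hA) q (hFrx L A hA)) q
      (algebraMap ↥(H45.A0 A q) ↥(S18.H40.chartB ↥(H45.A0 A q) (H83.J3N L (q := q)))
        ((q : ℕ) : ↥(H45.A0 A q))))
    (hq₁ : red₁ (algebraMap ↥(H45.A0 A q) ↥(S18.H40.chartB ↥(H45.A0 A q) (H83.J3N L (q := q)))
        ((q : ℕ) : ↥(H45.A0 A q))) = 0) :
    (RingHom.ker red₁).height = 1 := by
  haveI := S36.H95.isNoetherianRing_chartB_J3K_A0 (A := A) hq.out hA (q * (q * L)) q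
    (H83.hq2_dvd L)
  exact height_ker₁_eq_one h hq₁ (algebraMap_q_ne_zero_J3N L A) (H83.hW2_jK L A hA)
    (H83.hW4_jK L A hA)

/-- **`k₂`**. -/
theorem height_ker_J3N₂
    (h : H83.ThreeComponents red₁ red₂ red₃ ιu ιv ιw rbar (WR (FrM L A hA) q (hFrx L A hA)) q
      (algebraMap ↥(H45.A0 A q) ↥(S18.H40.chartB ↥(H45.A0 A q) (H83.J3N L (q := q)))
        ((q : ℕ) : ↥(H45.A0 A q))))
    (hq₂ : red₂ (algebraMap ↥(H45.A0 A q) ↥(S18.H40.chartB ↥(H45.A0 A q) (H83.J3N L (q := q)))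
        ((q : ℕ) : ↥(H45.A0 A q))) = 0) :
    (RingHom.ker red₂).height = 1 := by
  haveI := S36.H95.isNoetherianRing_chartB_J3K_A0 (A := A) hq.out hA (q * (q * L)) q
    (H83.hq2_dvd L)
  exact height_ker₂_eq_one' h hq₂ (algebraMap_q_ne_zero_J3N L A) (H83.hW2_jK L A hA)

/-- **`k₃`**. -/
theorem height_ker_J3N₃
    (h : H83.ThreeComponents red₁ red₂ red₃ ιu ιv ιw rbar (WR (FrM L A hA) q (hFrx L A hA)) q
      (algebraMap ↥(H45.A0 A q) ↥(S18.H40.chartB ↥(H45.A0 A q) (H83.J3N L (q := q)))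
        ((q : ℕ) : ↥(H45.A0 A q))))
    (hq₃ : red₃ (algebraMap ↥(H45.A0 A q) ↥(S18.H40.chartB ↥(H45.A0 A q) (H83.J3N L (q := q)))
        ((q : ℕ) : ↥(H45.A0 A q))) = 0) :
    (RingHom.ker red₃).height = 1 := by
  haveI := S36.H95.isNoetherianRing_chartB_J3K_A0 (A := A) hq.out hA (q * (q * L)) q
    (H83.hq2_dvd L)
  exact height_ker₃_eq_one h hq₃ (algebraMap_q_ne_zero_J3N L A) (H83.hW2_jK L A hA)
    (H83.hW4_jK L A hA)

end Three

section Two

variable (Pi : PlaceInf L hqL A hA) (P0 : PlaceZero L hqL A hA)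
  (red₁' red₂' : ↥(S18.H40.chartB ↥(H45.A0 A q) (JN L (ℓ := q))) →+*
    ↥(integralClosure (Algebra.adjoin (IsLocalRing.ResidueField A)
      {S18.H16.jK (IsLocalRing.ResidueField A) L})
      (modularFunctionFieldFullC (IsLocalRing.ResidueField A) L)))
  (h₁' : ∀ (b : ↥(S18.H40.chartB ↥(H45.A0 A q) (JN L (ℓ := q))))
    (h : (b : ↥(modularFunctionFieldFullC (H45.unrCyclo q) (q * L))) ∈ PO1 L hqL A hA Pi),
    inclk L A ((red₁' b : ↥(integralClosure (Algebra.adjoin (IsLocalRing.ResidueField A)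
      {S18.H16.jK (IsLocalRing.ResidueField A) L})
      (modularFunctionFieldFullC (IsLocalRing.ResidueField A) L))) :
        ↥(modularFunctionFieldFullC (IsLocalRing.ResidueField A) L)) =
      Pres1 L hqL A hA Pi ⟨b, h⟩)
  (h₂' : ∀ (b : ↥(S18.H40.chartB ↥(H45.A0 A q) (JN L (ℓ := q))))
    (h : (b : ↥(modularFunctionFieldFullC (H45.unrCyclo q) (q * L))) ∈ PO1 L hqL A hA P0),
    inclk L A ((red₂' b : ↥(integralClosure (Algebra.adjoin (IsLocalRing.ResidueField A)
      {S18.H16.jK (IsLocalRing.ResidueField A) L})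
      (modularFunctionFieldFullC (IsLocalRing.ResidueField A) L))) :
        ↥(modularFunctionFieldFullC (IsLocalRing.ResidueField A) L)) =
      Pres1 L hqL A hA P0 ⟨b, h⟩)
  (hTC : S34.H83.TwoComponents red₁' red₂'
    (chartMap (iotaMN L (ℓ := q)) (iotaMN_algebraMap L A) (hιint1 L A))
    (chartMap (VMN L (ℓ := q)) (VMN_algebraMap L A) (hVint1 L A))
    (rbarB (Mod L hqL A hA) (Mod L hqL A hA).x_mem (Mod L hqL A hA).res1_x)
    (WR (FrM L A hA) q (hFrx L A hA)) q
    (algebraMap ↥(H45.A0 A q) ↥(S18.H40.chartB ↥(H45.A0 A q) (JN L (ℓ := q)))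
      ((q : ℕ) : ↥(H45.A0 A q))))

include h₁' h₂' hTC in
/-- helper55's side facts of the level-`q L` chart, for ANY reductions satisfying the two place
clauses of `S34.H55.twoComponents_JK` and its `TwoComponents` structure. -/
theorem l0ChartFacts_JN : S35.H55.L0ChartFacts L hqL A hA Pi P0 red₁' red₂' :=
  S35.H55.l0ChartFacts_of_compat L hqL A hA Pi P0 (JN_mem_inf L hqL A hA Pi)
    (JN_mem_zero L hqL A hA P0) (Mod L hqL A hA).x_mem (Mod L hqL A hA).res1_x (hFrx L A hA)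
    (S18.H16.transcendental_jK (IsLocalRing.ResidueField A) L) (hιint1 L A) (hVint1 L A)
    (S35.H55.JN_eq_mul L) red₁' red₂' h₁' h₂' hTC

theorem algebraMap_q_ne_zero_JN :
    algebraMap ↥(H45.A0 A q) ↥(S18.H40.chartB ↥(H45.A0 A q) (JN L (ℓ := q)))
      ((q : ℕ) : ↥(H45.A0 A q)) ≠ 0 :=
  S36.H70.algebraMap_natCast_ne_zero_A0 (q * L)
    (S18.H40.chartB ↥(H45.A0 A q) (JN L (ℓ := q))) hq.out.ne_zero

include h₁' h₂' hTC in
/-- **`k₁'`**. -/
theorem height_ker_JN₁ : (RingHom.ker red₁').height = 1 := by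
  haveI := S34.H95.isNoetherianRing_chartB_JK_A0 (A := A) hq.out hA (q * L) q (Dvd.intro L rfl)
  have F := l0ChartFacts_JN L hqL A hA Pi P0 red₁' red₂' h₁' h₂' hTC
  exact height_ker₁_eq_one_of_two hTC (algebraMap_q_ne_zero_JN L A) F.red₁_ell F.red₂_ell
    F.sep₁ F.sep₂

include h₁' h₂' hTC in
/-- **`k₂'`**. -/
theorem height_ker_JN₂ : (RingHom.ker red₂').height = 1 := by
  haveI := S34.H95.isNoetherianRing_chartB_JK_A0 (A := A) hq.out hA (q * L) q (Dvd.intro L rfl)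
  have F := l0ChartFacts_JN L hqL A hA Pi P0 red₁' red₂' h₁' h₂' hTC
  exact height_ker₂_eq_one_of_two hTC (algebraMap_q_ne_zero_JN L A) F.red₁_ell F.red₂_ell
    F.sep₁ F.sep₂

end Two

/-! ### The binder-free `HL` -/

section Final

variable (Pi : PlaceInf L hqL A hA) (P0 : PlaceZero L hqL A hA)
  (D : ModularPolynomialData q)
  (hD : ∀ (k : Type) [Field k] (ζ : kˣ), IsPrimitiveRoot ζ q → RootsAt k q ζ D.Φ)
  (PA : H55.PlaceA L hqL A hA P0) (PB : H55.PlaceB L hqL A hA Pi)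
  (PC : H55.PlaceC L hqL A hA Pi)
  {BM : Type*} [CommRing BM]
  (red₁ red₂ red₃ : ↥(S18.H40.chartB ↥(H45.A0 A q) (H83.J3N L (q := q))) →+*
    ↥(integralClosure (Algebra.adjoin (IsLocalRing.ResidueField A)
      {S18.H16.jK (IsLocalRing.ResidueField A) L})
      (modularFunctionFieldFullC (IsLocalRing.ResidueField A) L)))
  {ιu ιv ιw : BM →+* ↥(S18.H40.chartB ↥(H45.A0 A q) (H83.J3N L (q := q)))}
  {rbar : BM →+* ↥(integralClosure (Algebra.adjoin (IsLocalRing.ResidueField A)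
      {S18.H16.jK (IsLocalRing.ResidueField A) L})
      (modularFunctionFieldFullC (IsLocalRing.ResidueField A) L))}
  (hq₁ : red₁ (algebraMap ↥(H45.A0 A q) ↥(S18.H40.chartB ↥(H45.A0 A q) (H83.J3N L (q := q)))
      ((q : ℕ) : ↥(H45.A0 A q))) = 0)
  (hq₂ : red₂ (algebraMap ↥(H45.A0 A q) ↥(S18.H40.chartB ↥(H45.A0 A q) (H83.J3N L (q := q)))
      ((q : ℕ) : ↥(H45.A0 A q))) = 0)
  (hq₃ : red₃ (algebraMap ↥(H45.A0 A q) ↥(S18.H40.chartB ↥(H45.A0 A q) (H83.J3N L (q := q)))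
      ((q : ℕ) : ↥(H45.A0 A q))) = 0)
  (h₁ : ∀ (b : ↥(S18.H40.chartB ↥(H45.A0 A q) (H83.J3N L (q := q))))
    (h : (b : ↥(modularFunctionFieldFullC (H45.unrCyclo q) (q * (q * L)))) ∈
      H55.QO1 L hqL A hA PB),
    inclk L A ((red₁ b : ↥(integralClosure (Algebra.adjoin (IsLocalRing.ResidueField A)
      {S18.H16.jK (IsLocalRing.ResidueField A) L})
      (modularFunctionFieldFullC (IsLocalRing.ResidueField A) L))) :
        ↥(modularFunctionFieldFullC (IsLocalRing.ResidueField A) L)) =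
      H55.Qres1 L hqL A hA PB ⟨b, h⟩)
  (h₂ : ∀ (b : ↥(S18.H40.chartB ↥(H45.A0 A q) (H83.J3N L (q := q))))
    (h : (b : ↥(modularFunctionFieldFullC (H45.unrCyclo q) (q * (q * L)))) ∈
      H55.RO1 L hqL A hA PC),
    inclk L A ((red₂ b : ↥(integralClosure (Algebra.adjoin (IsLocalRing.ResidueField A)
      {S18.H16.jK (IsLocalRing.ResidueField A) L})
      (modularFunctionFieldFullC (IsLocalRing.ResidueField A) L))) :
        ↥(modularFunctionFieldFullC (IsLocalRing.ResidueField A) L)) =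
      H55.Rres1 L hqL A hA PC ⟨b, h⟩)
  (h₃ : ∀ (b : ↥(S18.H40.chartB ↥(H45.A0 A q) (H83.J3N L (q := q))))
    (h : (b : ↥(modularFunctionFieldFullC (H45.unrCyclo q) (q * (q * L)))) ∈
      H55.QO1 L hqL A hA PA),
    inclk L A ((red₃ b : ↥(integralClosure (Algebra.adjoin (IsLocalRing.ResidueField A)
      {S18.H16.jK (IsLocalRing.ResidueField A) L})
      (modularFunctionFieldFullC (IsLocalRing.ResidueField A) L))) :
        ↥(modularFunctionFieldFullC (IsLocalRing.ResidueField A) L)) =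
      H55.Qres1 L hqL A hA PA ⟨b, h⟩)
  (hTC3 : H83.ThreeComponents red₁ red₂ red₃ ιu ιv ιw rbar (WR (FrM L A hA) q (hFrx L A hA)) q
    (algebraMap ↥(H45.A0 A q) ↥(S18.H40.chartB ↥(H45.A0 A q) (H83.J3N L (q := q)))
      ((q : ℕ) : ↥(H45.A0 A q))))
  (red₁' red₂' : ↥(S18.H40.chartB ↥(H45.A0 A q) (JN L (ℓ := q))) →+*
    ↥(integralClosure (Algebra.adjoin (IsLocalRing.ResidueField A)
      {S18.H16.jK (IsLocalRing.ResidueField A) L})
      (modularFunctionFieldFullC (IsLocalRing.ResidueField A) L)))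
  (h₁' : ∀ (b : ↥(S18.H40.chartB ↥(H45.A0 A q) (JN L (ℓ := q))))
    (h : (b : ↥(modularFunctionFieldFullC (H45.unrCyclo q) (q * L))) ∈ PO1 L hqL A hA Pi),
    inclk L A ((red₁' b : ↥(integralClosure (Algebra.adjoin (IsLocalRing.ResidueField A)
      {S18.H16.jK (IsLocalRing.ResidueField A) L})
      (modularFunctionFieldFullC (IsLocalRing.ResidueField A) L))) :
        ↥(modularFunctionFieldFullC (IsLocalRing.ResidueField A) L)) =
      Pres1 L hqL A hA Pi ⟨b, h⟩)
  (h₂' : ∀ (b : ↥(S18.H40.chartB ↥(H45.A0 A q) (JN L (ℓ := q))))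
    (h : (b : ↥(modularFunctionFieldFullC (H45.unrCyclo q) (q * L))) ∈ PO1 L hqL A hA P0),
    inclk L A ((red₂' b : ↥(integralClosure (Algebra.adjoin (IsLocalRing.ResidueField A)
      {S18.H16.jK (IsLocalRing.ResidueField A) L})
      (modularFunctionFieldFullC (IsLocalRing.ResidueField A) L))) :
        ↥(modularFunctionFieldFullC (IsLocalRing.ResidueField A) L)) =
      Pres1 L hqL A hA P0 ⟨b, h⟩)
  (hTC2 : S34.H83.TwoComponents red₁' red₂'
    (chartMap (iotaMN L (ℓ := q)) (iotaMN_algebraMap L A) (hιint1 L A))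
    (chartMap (VMN L (ℓ := q)) (VMN_algebraMap L A) (hVint1 L A))
    (rbarB (Mod L hqL A hA) (Mod L hqL A hA).x_mem (Mod L hqL A hA).res1_x)
    (WR (FrM L A hA) q (hFrx L A hA)) q
    (algebraMap ↥(H45.A0 A q) ↥(S18.H40.chartB ↥(H45.A0 A q) (JN L (ℓ := q)))
      ((q : ℕ) : ↥(H45.A0 A q))))

set_option maxHeartbeats 1600000 in
include hD h₁ h₂ h₃ h₁' h₂' in
/-- **`HL` of `HVa_of_rows`, no binder left**: from helper83's `threeComponents_J3K_real` and
helper55's `twoComponents_JK` outputs alone. -/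
theorem towerValU_alpha_J3N_of_components :
    haveI := S36.H95.isNoetherianRing_chartB_J3K_A0 (A := A) hq.out hA (q * (q * L)) q
      (H83.hq2_dvd L)
    haveI := S36.H95.isIntegrallyClosed_chartB_J3K_A0 (A := A) (ℓ := q) (q * (q * L)) q
      (H83.hq2_dvd L)
    haveI := S36.H95.isFractionRing_chartB_J3K_A0 (A := A) (ℓ := q) (q * (q * L)) q
      (H83.hq2_dvd L)
    haveI := S34.H95.isNoetherianRing_chartB_JK_A0 (A := A) hq.out hA (q * L) q (Dvd.intro L rfl)
    haveI := S34.H95.isIntegrallyClosed_chartB_JK_A0 (A := A) (ℓ := q) (q * L) q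
      (Dvd.intro L rfl)
    haveI := S34.H95.isFractionRing_chartB_JK_A0 (A := A) (ℓ := q) (q * L) q (Dvd.intro L rfl)
    haveI := RingHom.ker_isPrime red₁
    haveI := RingHom.ker_isPrime red₂
    haveI := RingHom.ker_isPrime red₃
    haveI := RingHom.ker_isPrime red₁'
    haveI := RingHom.ker_isPrime red₂'
    TowerValU (H18.alphaK L₁ (q * L) (q * (q * L)) (dvd_mul_left (q * L) q))
      (H18.normAlphaK L₁ (q * L) (q * (q * L)) (dvd_mul_left (q * L) q)) q
      (S34.H56.valuationSubringAt (K := F2) (RingHom.ker red₁)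
        (height_ker_J3N₁ L A hA hTC3 hq₁))
      (S34.H56.valuationSubringAt (K := F2) (RingHom.ker red₂)
        (height_ker_J3N₂ L A hA hTC3 hq₂))
      (S34.H56.valuationSubringAt (K := F2) (RingHom.ker red₃)
        (height_ker_J3N₃ L A hA hTC3 hq₃))
      (S34.H56.valuationSubringAt (K := F1) (RingHom.ker red₁')
        (height_ker_JN₁ L hqL A hA Pi P0 red₁' red₂' h₁' h₂' hTC2))
      (S34.H56.valuationSubringAt (K := F1) (RingHom.ker red₂')
        (height_ker_JN₂ L hqL A hA Pi P0 red₁' red₂' h₁' h₂' hTC2)) :=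
  towerValU_alpha_J3N L hqL A hA Pi P0 D hD PA PB PC red₁ red₂ red₃ h₁ h₂ h₃ red₁' red₂' h₁' h₂'
    (height_ker_J3N₁ L A hA hTC3 hq₁) (height_ker_J3N₂ L A hA hTC3 hq₂)
    (height_ker_J3N₃ L A hA hTC3 hq₃)
    (height_ker_JN₁ L hqL A hA Pi P0 red₁' red₂' h₁' h₂' hTC2)
    (height_ker_JN₂ L hqL A hA Pi P0 red₁' red₂' h₁' h₂' hTC2)

set_option maxHeartbeats 1600000 in
include hD h₁ h₂ h₃ h₁' h₂' in
/-- **`HL` of `HVb_of_rows`, no binder left.** -/
theorem towerValU_beta_J3N_of_components :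
    haveI := S36.H95.isNoetherianRing_chartB_J3K_A0 (A := A) hq.out hA (q * (q * L)) q
      (H83.hq2_dvd L)
    haveI := S36.H95.isIntegrallyClosed_chartB_J3K_A0 (A := A) (ℓ := q) (q * (q * L)) q
      (H83.hq2_dvd L)
    haveI := S36.H95.isFractionRing_chartB_J3K_A0 (A := A) (ℓ := q) (q * (q * L)) q
      (H83.hq2_dvd L)
    haveI := S34.H95.isNoetherianRing_chartB_JK_A0 (A := A) hq.out hA (q * L) q (Dvd.intro L rfl)
    haveI := S34.H95.isIntegrallyClosed_chartB_JK_A0 (A := A) (ℓ := q) (q * L) q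
      (Dvd.intro L rfl)
    haveI := S34.H95.isFractionRing_chartB_JK_A0 (A := A) (ℓ := q) (q * L) q (Dvd.intro L rfl)
    haveI := RingHom.ker_isPrime red₁
    haveI := RingHom.ker_isPrime red₂
    haveI := RingHom.ker_isPrime red₃
    haveI := RingHom.ker_isPrime red₁'
    haveI := RingHom.ker_isPrime red₂'
    TowerValU (H18.betaK L₁ q (q * L) (q * (q * L)) dvd_rfl)
      (H18.normBetaK L₁ q (q * L) (q * (q * L)) dvd_rfl) q
      (S34.H56.valuationSubringAt (K := F2) (RingHom.ker red₃)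
        (height_ker_J3N₃ L A hA hTC3 hq₃))
      (S34.H56.valuationSubringAt (K := F2) (RingHom.ker red₂)
        (height_ker_J3N₂ L A hA hTC3 hq₂))
      (S34.H56.valuationSubringAt (K := F2) (RingHom.ker red₁)
        (height_ker_J3N₁ L A hA hTC3 hq₁))
      (S34.H56.valuationSubringAt (K := F1) (RingHom.ker red₂')
        (height_ker_JN₂ L hqL A hA Pi P0 red₁' red₂' h₁' h₂' hTC2))
      (S34.H56.valuationSubringAt (K := F1) (RingHom.ker red₁')
        (height_ker_JN₁ L hqL A hA Pi P0 red₁' red₂' h₁' h₂' hTC2)) :=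
  towerValU_beta_J3N L hqL A hA Pi P0 D hD PA PB PC red₁ red₂ red₃ h₁ h₂ h₃ red₁' red₂' h₁' h₂'
    (height_ker_J3N₁ L A hA hTC3 hq₁) (height_ker_J3N₂ L A hA hTC3 hq₂)
    (height_ker_J3N₃ L A hA hTC3 hq₃)
    (height_ker_JN₁ L hqL A hA Pi P0 red₁' red₂' h₁' h₂' hTC2)
    (height_ker_JN₂ L hqL A hA Pi P0 red₁' red₂' h₁' h₂' hTC2)

end Final

end Real

end Fermat.Agent.S36.H16
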