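/-
helper62 — S36: chart gluing at non-cuspidal points (generic; Mathlib + S34.H21/H56 vocabulary).

* `locSubringAlgebra`, `isLocalization_locSubring` : the subring `H21.locSubring n ⊆ F` IS the
  localisation of `B` at `n` (`IsLocalization.AtPrime ↥(locSubring n) n`).
* `mem_locSubring_of_isIntegral` : for `B` integrally closed, `locSubring n` is integrally closed
  in `F`.
* `exists_locSubring_eq` : two integrally closed charts `B₁ ∋ J`, `B₂ ∋ J⁻¹` of the same field,
  `B₁` integral over `R[J]`, `B₂` integral over `R[J⁻¹]`; a closed point `n₂` of `B₂` with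
  `J⁻¹ ∉ n₂` (and residue field `= R / 𝔪_R`) has the same local ring as a closed point `n₁` of `B₁`.
-/
import Mathlib
import Fermat.Agent.S34.H21_ModelHypCharts

set_option autoImplicit false

namespace Fermat.Agent.S36.H62

open Fermat.Agent.S34

section LocSubring

variable {B F : Type*} [CommRing B] [IsDomain B] [Field F] [Algebra B F] [IsFractionRing B F]

/-- The ring homomorphism `B → locSubring n`. -/
def toLocSubring (n : Ideal B) [n.IsPrime] : B →+* ↥(H21.locSubring (F := F) n) :=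
  (algebraMap B F).codRestrict (H21.locSubring (F := F) n)
    (H21.algebraMap_mem_locSubring (F := F) n)

/-- `locSubring n` as a `B`-algebra. -/
@[reducible] def locSubringAlgebra (n : Ideal B) [n.IsPrime] :
    Algebra B ↥(H21.locSubring (F := F) n) :=
  (toLocSubring (F := F) n).toAlgebra

theorem coe_toLocSubring (n : Ideal B) [n.IsPrime] (b : B) :
    ((toLocSubring (F := F) n b : ↥(H21.locSubring (F := F) n)) : F) = algebraMap B F b := rfl

/-- **`locSubring n` is the localisation of `B` at `n`.** -/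
theorem isLocalization_locSubring (n : Ideal B) [hn : n.IsPrime] :
    letI := locSubringAlgebra (F := F) n
    IsLocalization.AtPrime ↥(H21.locSubring (F := F) n) n := by
  let _ := locSubringAlgebra (F := F) n
  have hinj : Function.Injective (algebraMap B F) := IsFractionRing.injective B F
  have hcoe : ∀ b : B, ((algebraMap B ↥(H21.locSubring (F := F) n) b :
      ↥(H21.locSubring (F := F) n)) : F) = algebraMap B F b := fun b => rfl
  refine IsLocalization'.mk ⟨?_, ?_, ?_⟩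
  · rintro ⟨s, hs⟩
    have hs0 : algebraMap B F s ≠ 0 := by
      intro h0
      apply hs
      have : s = 0 := hinj (by rw [h0, map_zero])
      rw [this]; exact n.zero_mem
    have hmem : (algebraMap B F s)⁻¹ ∈ H21.locSubring (F := F) n :=
      ⟨1, s, hs, by rw [map_one, inv_mul_cancel₀ hs0]⟩
    refine IsUnit.of_mul_eq_one ⟨(algebraMap B F s)⁻¹, hmem⟩ ?_
    apply Subtype.ext
    show algebraMap B F s * (algebraMap B F s)⁻¹ = 1
    exact mul_inv_cancel₀ hs0
  · rintro ⟨x, a, s, hs, has⟩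
    refine ⟨(a, ⟨s, hs⟩), ?_⟩
    apply Subtype.ext
    show x * algebraMap B F s = algebraMap B F a
    exact has
  · intro x y hxy
    refine ⟨1, ?_⟩
    have : algebraMap B F x = algebraMap B F y := by
      have := congrArg (fun z : ↥(H21.locSubring (F := F) n) => (z : F)) hxy
      simpa [hcoe] using this
    rw [hinj this]

/-- For `B` integrally closed, `locSubring n` is integrally closed in `F`. -/
theorem mem_locSubring_of_isIntegral [IsIntegrallyClosed B] (n : Ideal B) [hn : n.IsPrime] {x : F}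
    (hx : IsIntegral ↥(H21.locSubring (F := F) n) x) : x ∈ H21.locSubring (F := F) n := by
  let _ := locSubringAlgebra (F := F) n
  have hloc : IsLocalization n.primeCompl ↥(H21.locSubring (F := F) n) :=
    isLocalization_locSubring (F := F) n
  have hst : IsScalarTower B ↥(H21.locSubring (F := F) n) F :=
    IsScalarTower.of_algebraMap_eq (fun b => rfl)
  have hic : IsIntegrallyClosed ↥(H21.locSubring (F := F) n) :=
    isIntegrallyClosed_of_isLocalization ↥(H21.locSubring (F := F) n) n.primeCompl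
      n.primeCompl_le_nonZeroDivisors
  have hfr : IsFractionRing ↥(H21.locSubring (F := F) n) F :=
    IsFractionRing.isFractionRing_of_isDomain_of_isLocalization n.primeCompl
      ↥(H21.locSubring (F := F) n) F
  obtain ⟨y, hy⟩ := IsIntegrallyClosed.isIntegral_iff.1 hx
  rw [← hy]
  exact y.2

end LocSubring

section UnitIn

variable {B F : Type*} [CommRing B] [IsDomain B] [Field F] [Algebra B F] [IsFractionRing B F]

theorem unitIn_mul {O : Subring F} {a b : F} (ha : H47.UnitIn O a) (hb : H47.UnitIn O b) :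
    H47.UnitIn O (a * b) :=
  ⟨O.mul_mem ha.1 hb.1, by rw [mul_inv]; exact O.mul_mem ha.2.1 hb.2.1, mul_ne_zero ha.2.2 hb.2.2⟩

/-- elements of `B ∖ n` are units of `B_n`. -/
theorem unitIn_algebraMap_of_not_mem (n : Ideal B) [hn : n.IsPrime] {a : B} (ha : a ∉ n) :
    H47.UnitIn (H21.locSubring (F := F) n) (algebraMap B F a) := by
  rw [H21.unitIn_locSubring_iff]
  exact ⟨a, 1, ha, (Ideal.ne_top_iff_one n).1 hn.ne_top, by rw [map_one, mul_one]⟩

/-- a fraction with numerator in `n` and denominator outside `n` is a non-unit of `B_n`. -/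
theorem not_unitIn_of_mul_eq (n : Ideal B) [hn : n.IsPrime] {x : F} {s a₀ : B} (hs : s ∉ n)
    (ha : a₀ ∈ n) (h : x * algebraMap B F s = algebraMap B F a₀) :
    ¬ H47.UnitIn (H21.locSubring (F := F) n) x := by
  rw [H21.unitIn_locSubring_iff]
  rintro ⟨a', s', ha', hs', h'⟩
  have hinj : Function.Injective (algebraMap B F) := IsFractionRing.injective B F
  have e : a' * s = a₀ * s' := by
    apply hinj
    rw [map_mul, map_mul, ← h', ← h]
    ring
  have hmem : a' * s ∈ n := by rw [e]; exact n.mul_mem_right _ ha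
  rcases hn.mem_or_mem hmem with h1 | h1
  · exact ha' h1
  · exact hs h1

/-- elements of `n` are non-units of `B_n`. -/
theorem not_unitIn_algebraMap_of_mem (n : Ideal B) [hn : n.IsPrime] {a : B} (ha : a ∈ n) :
    ¬ H47.UnitIn (H21.locSubring (F := F) n) (algebraMap B F a) :=
  not_unitIn_of_mul_eq n (s := 1) ((Ideal.ne_top_iff_one n).1 hn.ne_top) ha
    (by rw [map_one, mul_one])

end UnitIn

section Integral

variable {R F : Type*} [CommRing R] [Field F] [Algebra R F]

/-- `R[x] ⊆ O` for a subring `O ⊇ R ∪ {x}`. -/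
theorem adjoin_le_subring (O : Subring F) (hRO : ∀ r : R, algebraMap R F r ∈ O) {x : F}
    (hx : x ∈ O) : ∀ y ∈ Algebra.adjoin R {x}, y ∈ O := by
  let O' : Subalgebra R F :=
    { O.toSubsemiring with
      algebraMap_mem' := hRO }
  have hle : Algebra.adjoin R {x} ≤ O' := by
    refine Algebra.adjoin_le ?_
    intro y hy
    rw [Set.mem_singleton_iff] at hy
    subst hy
    exact hx
  exact fun y hy => hle hy

/-- integral over a subalgebra contained in `O` ⟹ integral over `O`. -/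
theorem isIntegral_subring_of_le (A : Subalgebra R F) (O : Subring F) (hAO : ∀ y ∈ A, y ∈ O)
    {z : F} (hz : IsIntegral ↥A z) : IsIntegral ↥O z := by
  let f : ↥A →+* ↥O := (A.val : ↥A →+* F).codRestrict O (fun y => hAO y y.2)
  obtain ⟨p, hp, hpx⟩ := hz
  refine ⟨p.map f, hp.map _, ?_⟩
  rw [Polynomial.eval₂_map]
  exact hpx

end Integral

section Glue

variable {R B₁ B₂ F : Type*} [CommRing R] [IsLocalRing R]
  [CommRing B₁] [IsDomain B₁] [CommRing B₂] [IsDomain B₂] [Field F]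
  [Algebra R B₁] [Algebra R B₂] [Algebra R F] [Algebra B₁ F] [Algebra B₂ F]
  [IsScalarTower R B₁ F] [IsScalarTower R B₂ F] [IsFractionRing B₁ F] [IsFractionRing B₂ F]
  [IsIntegrallyClosed B₁] [IsIntegrallyClosed B₂]

/-- **Chart gluing at a non-cuspidal closed point.**  `B₁ ∋ J₁ = J`, `B₂ ∋ J₂ = J⁻¹` integrally
closed charts of `F`, integral over `R[J]` resp. `R[J⁻¹]`; `n₂` a maximal ideal of `B₂` over the
closed point of `R`, with residue field `R / 𝔪_R`, and `J⁻¹ ∉ n₂`.  Then `(B₂)_{n₂} = (B₁)_{n₁}`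
for a maximal ideal `n₁` of `B₁` over the closed point of `R`, with `J ∉ n₁`. -/
theorem exists_locSubring_eq (J₁ : B₁) (J₂ : B₂)
    (hJ : algebraMap B₁ F J₁ * algebraMap B₂ F J₂ = 1)
    (hint₁ : ∀ b : B₁, IsIntegral (Algebra.adjoin R {algebraMap B₁ F J₁}) (algebraMap B₁ F b))
    (hint₂ : ∀ b : B₂, IsIntegral (Algebra.adjoin R {algebraMap B₂ F J₂}) (algebraMap B₂ F b))
    (n₂ : Ideal B₂) [hn₂ : n₂.IsMaximal] (hJn : J₂ ∉ n₂)
    (hR : ∀ r : R, r ∈ IsLocalRing.maximalIdeal R → algebraMap R B₂ r ∈ n₂)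
    (hres : ∀ b : B₂, ∃ c : R, b - algebraMap R B₂ c ∈ n₂) :
    ∃ (n₁ : Ideal B₁) (hn₁ : n₁.IsMaximal), J₁ ∉ n₁ ∧
      (∀ r : R, r ∈ IsLocalRing.maximalIdeal R → algebraMap R B₁ r ∈ n₁) ∧
      (∀ b : B₁, ∃ c : R, b - algebraMap R B₁ c ∈ n₁) ∧
      (haveI := hn₁.isPrime; H21.locSubring (F := F) n₁) = H21.locSubring (F := F) n₂ := by
  classical
  have hn₂p : n₂.IsPrime := hn₂.isPrime
  set O₂ : Subring F := H21.locSubring (F := F) n₂ with hO₂
  have hB₂O : ∀ b : B₂, algebraMap B₂ F b ∈ O₂ := H21.algebraMap_mem_locSubring (F := F) n₂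
  have hRO : ∀ r : R, algebraMap R F r ∈ O₂ := by
    intro r
    rw [IsScalarTower.algebraMap_apply R B₂ F]
    exact hB₂O _
  have hJ₂unit : H47.UnitIn O₂ (algebraMap B₂ F J₂) := unitIn_algebraMap_of_not_mem n₂ hJn
  have hJeq : algebraMap B₁ F J₁ = (algebraMap B₂ F J₂)⁻¹ := eq_inv_of_mul_eq_one_left hJ
  have hJ₂eq : algebraMap B₂ F J₂ = (algebraMap B₁ F J₁)⁻¹ := eq_inv_of_mul_eq_one_right hJ
  have hJunit : H47.UnitIn O₂ (algebraMap B₁ F J₁) := by
    refine ⟨?_, ?_, ?_⟩
    · rw [hJeq]; exact hJ₂unit.2.1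
    · rw [← hJ₂eq]; exact hJ₂unit.1
    · intro h0
      rw [h0, zero_mul] at hJ
      exact zero_ne_one hJ
  -- `B₁ ⊆ (B₂)_{n₂}`
  have hB₁O : ∀ b : B₁, algebraMap B₁ F b ∈ O₂ := by
    intro b
    refine mem_locSubring_of_isIntegral n₂ ?_
    exact isIntegral_subring_of_le _ O₂ (adjoin_le_subring O₂ hRO hJunit.1) (hint₁ b)
  -- the centre `n₁`
  let n₁ : Ideal B₁ :=
    { carrier := {b | ¬ H47.UnitIn O₂ (algebraMap B₁ F b)}
      zero_mem' := by
        show ¬ H47.UnitIn O₂ (algebraMap B₁ F 0)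
        rw [map_zero]
        exact fun h => h.2.2 rfl
      add_mem' := by
        intro a b ha hb
        show ¬ H47.UnitIn O₂ (algebraMap B₁ F (a + b))
        intro hab
        apply ha
        have hnb : ¬ H47.UnitIn O₂ (-(algebraMap B₁ F b)) := by
          intro h
          apply hb
          refine ⟨hB₁O b, ?_, fun h0 => h.2.2 (by rw [h0, neg_zero])⟩
          have := O₂.neg_mem h.2.1
          rwa [inv_neg, neg_neg] at this
        have := H21.locSubring_local n₂ hab (O₂.neg_mem (hB₁O b)) hnb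
        rw [map_add] at this
        simpa using this
      smul_mem' := by
        intro c b hb
        show ¬ H47.UnitIn O₂ (algebraMap B₁ F (c • b))
        rw [smul_eq_mul, map_mul]
        intro hcb
        apply hb
        have hb0 : algebraMap B₁ F b ≠ 0 := fun h0 => hcb.2.2 (by rw [h0, mul_zero])
        have hc0 : algebraMap B₁ F c ≠ 0 := fun h0 => hcb.2.2 (by rw [h0, zero_mul])
        refine ⟨hB₁O b, ?_, hb0⟩
        have e : (algebraMap B₁ F b)⁻¹ =
            algebraMap B₁ F c * (algebraMap B₁ F c * algebraMap B₁ F b)⁻¹ := by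
          rw [mul_inv]
          field_simp
        rw [e]
        exact O₂.mul_mem (hB₁O c) hcb.2.1 }
  have hn₁mem : ∀ b : B₁, b ∈ n₁ ↔ ¬ H47.UnitIn O₂ (algebraMap B₁ F b) := fun b => Iff.rfl
  -- `R → B₁ / n₁` is onto
  have hres₁ : ∀ b : B₁, ∃ c : R, b - algebraMap R B₁ c ∈ n₁ := by
    intro b
    obtain ⟨a, s, hs, has⟩ := hB₁O b
    obtain ⟨ca, hca⟩ := hres a
    obtain ⟨cs, hcs⟩ := hres s
    have hcsu : IsUnit cs := by
      by_contra hnu
      have h1 : algebraMap R B₂ cs ∈ n₂ := hR cs ((IsLocalRing.mem_maximalIdeal cs).2 hnu)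
      apply hs
      have : s = (s - algebraMap R B₂ cs) + algebraMap R B₂ cs := by ring
      rw [this]
      exact n₂.add_mem hcs h1
    obtain ⟨u, hu⟩ := hcsu.exists_right_inv
    refine ⟨ca * u, ?_⟩
    rw [hn₁mem]
    refine not_unitIn_of_mul_eq n₂ (s := s)
      (a₀ := (a - algebraMap R B₂ ca) - algebraMap R B₂ (ca * u) * (s - algebraMap R B₂ cs)) hs
      (n₂.sub_mem hca (n₂.mul_mem_left _ hcs)) ?_
    have e1 : algebraMap R B₂ (ca * u) * algebraMap R B₂ cs = algebraMap R B₂ ca := by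
      rw [← map_mul, mul_assoc, mul_comm u cs, hu, mul_one]
    have e2 : (a - algebraMap R B₂ ca) - algebraMap R B₂ (ca * u) * (s - algebraMap R B₂ cs) =
        a - algebraMap R B₂ (ca * u) * s := by
      rw [mul_sub, e1]; ring
    rw [e2, map_sub (algebraMap B₁ F), sub_mul, has, map_sub (algebraMap B₂ F),
      map_mul (algebraMap B₂ F), ← IsScalarTower.algebraMap_apply R B₁ F,
      ← IsScalarTower.algebraMap_apply R B₂ F]
  have hRn₁ : ∀ r : R, r ∈ IsLocalRing.maximalIdeal R → algebraMap R B₁ r ∈ n₁ := by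
    intro r hr
    rw [hn₁mem, ← IsScalarTower.algebraMap_apply R B₁ F, IsScalarTower.algebraMap_apply R B₂ F]
    exact not_unitIn_algebraMap_of_mem n₂ (hR r hr)
  have h1n₁ : (1 : B₁) ∉ n₁ := by
    rw [hn₁mem, not_not, map_one]
    exact ⟨O₂.one_mem, by rw [inv_one]; exact O₂.one_mem, one_ne_zero⟩
  have hn₁max : n₁.IsMaximal := by
    rw [Ideal.isMaximal_iff]
    refine ⟨h1n₁, ?_⟩
    intro I x hle hx hxI
    obtain ⟨c, hc⟩ := hres₁ x
    have hcI : algebraMap R B₁ c ∈ I := by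
      have : algebraMap R B₁ c = x - (x - algebraMap R B₁ c) := by ring
      rw [this]
      exact I.sub_mem hxI (hle hc)
    have hcu : IsUnit c := by
      by_contra hnu
      apply hx
      have h1 : algebraMap R B₁ c ∈ n₁ := hRn₁ c ((IsLocalRing.mem_maximalIdeal c).2 hnu)
      have : x = (x - algebraMap R B₁ c) + algebraMap R B₁ c := by ring
      rw [this]
      exact n₁.add_mem hc h1
    obtain ⟨u, hu⟩ := hcu.exists_right_inv
    have : (1 : B₁) = algebraMap R B₁ u * algebraMap R B₁ c := by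
      rw [← map_mul, mul_comm, hu, map_one]
    rw [this]
    exact I.mul_mem_left _ hcI
  have hn₁p : n₁.IsPrime := hn₁max.isPrime
  have hJ₁n₁ : J₁ ∉ n₁ := by
    rw [hn₁mem, not_not]
    exact hJunit
  refine ⟨n₁, hn₁max, hJ₁n₁, hRn₁, hres₁, ?_⟩
  -- `B₂ ⊆ (B₁)_{n₁}`
  set O₁ : Subring F := H21.locSubring (F := F) n₁ with hO₁
  have hB₁O₁ : ∀ b : B₁, algebraMap B₁ F b ∈ O₁ := H21.algebraMap_mem_locSubring (F := F) n₁
  have hRO₁ : ∀ r : R, algebraMap R F r ∈ O₁ := by
    intro r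
    rw [IsScalarTower.algebraMap_apply R B₁ F]
    exact hB₁O₁ _
  have hJ₂O₁ : algebraMap B₂ F J₂ ∈ O₁ := by
    rw [hJ₂eq]
    exact (unitIn_algebraMap_of_not_mem n₁ hJ₁n₁).2.1
  have hB₂O₁ : ∀ b : B₂, algebraMap B₂ F b ∈ O₁ := by
    intro b
    refine mem_locSubring_of_isIntegral n₁ ?_
    exact isIntegral_subring_of_le _ O₁ (adjoin_le_subring O₁ hRO₁ hJ₂O₁) (hint₂ b)
  ext x
  constructor
  · rintro ⟨a, s, hs, has⟩
    have hsu : H47.UnitIn O₂ (algebraMap B₁ F s) := by
      by_contra h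
      exact hs ((hn₁mem s).2 h)
    have e : x = algebraMap B₁ F a * (algebraMap B₁ F s)⁻¹ := by
      rw [← has, mul_assoc, mul_inv_cancel₀ hsu.2.2, mul_one]
    rw [e]
    exact O₂.mul_mem (hB₁O a) hsu.2.1
  · rintro ⟨a₂, s₂, hs₂, has₂⟩
    have hs₂u : H47.UnitIn O₂ (algebraMap B₂ F s₂) := unitIn_algebraMap_of_not_mem n₂ hs₂
    obtain ⟨a₁, t₁, ht₁, hat₁⟩ := hB₂O₁ s₂
    have ht₁u : H47.UnitIn O₂ (algebraMap B₁ F t₁) := by
      by_contra h
      exact ht₁ ((hn₁mem t₁).2 h)
    have ha₁u : H47.UnitIn O₂ (algebraMap B₁ F a₁) := by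
      rw [← hat₁]
      exact unitIn_mul hs₂u ht₁u
    have ha₁n₁ : a₁ ∉ n₁ := fun h => (hn₁mem a₁).1 h ha₁u
    have hinv : (algebraMap B₂ F s₂)⁻¹ ∈ O₁ := by
      refine ⟨t₁, a₁, ha₁n₁, ?_⟩
      rw [← hat₁, ← mul_assoc, inv_mul_cancel₀ hs₂u.2.2, one_mul]
    have e : x = algebraMap B₂ F a₂ * (algebraMap B₂ F s₂)⁻¹ := by
      rw [← has₂, mul_assoc, mul_inv_cancel₀ hs₂u.2.2, mul_one]
    rw [e]
    exact O₁.mul_mem (hB₂O₁ a₂) hinv

end Glue

section TwoCharts

variable {R F : Type*} [CommRing R] [IsDomain R] [IsDiscreteValuationRing R]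
  [Field F] [Algebra R F]
  (B₁ B₂ : Subalgebra R F) [IsFractionRing B₁ F] [IsFractionRing B₂ F]
  [IsIntegrallyClosed B₁] [IsIntegrallyClosed B₂] (π : R)

/-- **Two charts `B₁ ∋ J`, `B₂ ∋ J⁻¹`**: every closed point of the special fibre of chart 2 with
`J⁻¹ ∉ n₂` has the same local ring as a closed point of the special fibre of chart 1. -/
theorem exists_closedPt_ptO_eq (hπ : Irreducible π) (J₁ : B₁) (J₂ : B₂)
    (hJ : (J₁ : F) * (J₂ : F) = 1)
    (hint₁ : ∀ b : B₁, IsIntegral (Algebra.adjoin R {(J₁ : F)}) (b : F))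
    (hint₂ : ∀ b : B₂, IsIntegral (Algebra.adjoin R {(J₂ : F)}) (b : F))
    (n₂ : H21.ClosedPt B₂ π) (hJn : J₂ ∉ n₂.1)
    (hres : ∀ b : B₂, ∃ c : R, b - algebraMap R B₂ c ∈ n₂.1) :
    ∃ n₁ : H21.ClosedPt B₁ π, J₁ ∉ n₁.1 ∧
      (∀ b : B₁, ∃ c : R, b - algebraMap R B₁ c ∈ n₁.1) ∧
      H21.ptO B₁ B₂ π (Sum.inl n₁) = H21.ptO B₁ B₂ π (Sum.inr n₂) := by
  have hmax : IsLocalRing.maximalIdeal R = Ideal.span {π} := hπ.maximalIdeal_eq
  have hn₂max : n₂.1.IsMaximal := n₂.2.1
  have hR : ∀ r : R, r ∈ IsLocalRing.maximalIdeal R → algebraMap R B₂ r ∈ n₂.1 := by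
    intro r hr
    rw [hmax, Ideal.mem_span_singleton'] at hr
    obtain ⟨c, rfl⟩ := hr
    rw [map_mul]
    exact n₂.1.mul_mem_left _ n₂.2.2
  obtain ⟨n₁, hn₁max, hJ₁, hRn₁, hres₁, heq⟩ :=
    exists_locSubring_eq (R := R) (F := F) J₁ J₂ hJ hint₁ hint₂ n₂.1 hJn hR hres
  refine ⟨⟨n₁, hn₁max, hRn₁ π ?_⟩, hJ₁, hres₁, heq⟩
  rw [hmax]
  exact Ideal.mem_span_singleton_self π

end TwoCharts

end Fermat.Agent.S36.H62
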