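/-
S36 / row (E6), producers of two hypotheses of `S36.H85.radDatum_of_glue` (helper84, cut agreed
with helper85, board #3130), in the chart vocabulary of S34/S35 (`B` a noetherian integrally
closed domain, `F = Frac B`, `V k = H56.valuationSubringAt (P k)`, `O n = H21.locSubring n`):

* `incomparable_of_injective` : pairwise distinct height-one primes are pairwise incomparable;
* `exists_psi_approx` : `hΨ` - a global `Ψ ≠ 0` with `Ψ ≡ T k` at finitely many vertical
  valuations (`S35.H62.exists_simultaneous_approx`);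
* `exists_lambda_branch` : `hΛ` on ONE vertical branch `p ≤ n` with normal quotient: from
  `u / G ^ m ∈ (B_n)ˣ` and `u ≡ T ^ m` at `V_p` a unit `Λ` of `B_n` with `Λ G ≡ T` at `V_p`
  (`S35.H46.branch_root`);
* `exists_lambda_one_branch` : the same in the family form, at a closed point lying on exactly
  one vertical prime of the family.
-/
import Mathlib
import Fermat.Agent.S35.H62_Approx
import Fermat.Agent.S35.H46_FrobModelChart

set_option autoImplicit false
set_option linter.unusedSectionVars false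
set_option linter.style.haveILetI false

namespace Fermat.Agent.S36.H84

open Fermat.Agent.S34 Fermat.Agent.S34.H47 Fermat.Agent.S35

variable {B F : Type*} [CommRing B] [IsDomain B] [Field F] [Algebra B F] [IsFractionRing B F]
  [IsNoetherianRing B] [IsIntegrallyClosed B]

omit [IsDomain B] [IsNoetherianRing B] [IsIntegrallyClosed B] in
/-- pairwise distinct height-one primes are pairwise incomparable. -/
theorem incomparable_of_injective {κ : Type*} (P : κ → Ideal B) [hP : ∀ k, (P k).IsPrime]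
    (hh : ∀ k, (P k).height = 1) (hinj : Function.Injective P) :
    ∀ j k, P j ≤ P k → j = k := by
  intro j k hle
  apply hinj
  by_contra hne
  have hlt : P j < P k := lt_of_le_of_ne hle hne
  haveI : (P k).FiniteHeight := ⟨Or.inr (by rw [hh k]; exact ENat.one_ne_top)⟩
  have := Ideal.height_strict_mono_of_isPrime_of_isPrime hlt
  rw [hh j, hh k] at this
  exact lt_irrefl _ this

/-- **`hΨ`**: weak approximation of the `T k` at the vertical valuations. -/
theorem exists_psi_approx {κ : Type*} [Finite κ] (P : κ → Ideal B)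
    [hP : ∀ k, (P k).IsPrime] (hh : ∀ k, (P k).height = 1) (hinj : Function.Injective P)
    (T : κ → F)
    (hT : ∀ k, (H56.valuationSubringAt (K := F) (P k) (hh k)).valuation (T k) = 1) :
    ∃ Ψ : F, Ψ ≠ 0 ∧ ∀ k, OneU (H56.valuationSubringAt (K := F) (P k) (hh k)) (Ψ / T k) := by
  obtain ⟨Ψ, hΨ0, hΨ⟩ := H62.exists_simultaneous_approx P hh
    (incomparable_of_injective P hh hinj) T hT
  exact ⟨Ψ, hΨ0, fun k => (hΨ k).2⟩

/-- **`hΛ` on one normal vertical branch.** -/
theorem exists_lambda_branch {D : Type*} [CommRing D] [IsDomain D] [IsIntegrallyClosed D]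
    (red : B →+* D) (hsurj : Function.Surjective red) (p : Ideal B) [hp : p.IsPrime]
    (h1 : p.height = 1) (hker : ∀ b, red b = 0 ↔ b ∈ p) (n : Ideal B) [hn : n.IsPrime]
    (hpn : p ≤ n) {m : ℕ} (hm : 0 < m) {u G T : F} (hG0 : G ≠ 0) (hT0 : T ≠ 0)
    (hG : UnitIn (H21.locSubring (F := F) n) (u / G ^ m))
    (hT : OneU (H56.valuationSubringAt (K := F) p h1) (u / T ^ m)) :
    ∃ Λ : F, UnitIn (H21.locSubring (F := F) n) Λ ∧
      OneU (H56.valuationSubringAt (K := F) p h1) (Λ * G / T) := by
  have hu0 : u ≠ 0 := by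
    intro h0
    have := hT.ne_zero
    rw [h0, zero_div] at this
    exact this rfl
  have hGm : G ^ m ≠ 0 := pow_ne_zero m hG0
  have hTm : T ^ m ≠ 0 := pow_ne_zero m hT0
  have hx : OneU (H56.valuationSubringAt (K := F) p h1) ((T / G) ^ m / (u / G ^ m)) := by
    have h2 : (T / G) ^ m / (u / G ^ m) = (u / T ^ m)⁻¹ := by
      rw [div_pow]
      field_simp
    rw [h2]
    exact hT.inv
  obtain ⟨a, ha, hxa⟩ := H46.branch_root red hsurj p h1 hker n hpn hm hG hx
  refine ⟨a, ha, ?_⟩
  have ha0 : a ≠ 0 := ha.2.2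
  have h3 : a * G / T = (T / G / a)⁻¹ := by
    field_simp
  rw [h3]
  exact hxa.inv

/-- **`hΛ` at a closed point on exactly one vertical prime of the family.** -/
theorem exists_lambda_one_branch {κ : Type*} (P : κ → Ideal B) [hP : ∀ k, (P k).IsPrime]
    (hh : ∀ k, (P k).height = 1) (hbranch : ∀ k, IsIntegrallyClosed (B ⧸ P k))
    (n : Ideal B) [hn : n.IsPrime] (k₀ : κ) (hk₀ : P k₀ ≤ n)
    (hone : ∀ k, P k ≤ n → k = k₀) {m : ℕ} (hm : 0 < m) {u G : F} (T : κ → F)
    (hG0 : G ≠ 0) (hT0 : T k₀ ≠ 0)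
    (hG : UnitIn (H21.locSubring (F := F) n) (u / G ^ m))
    (hT : OneU (H56.valuationSubringAt (K := F) (P k₀) (hh k₀)) (u / T k₀ ^ m)) :
    ∃ Λ : F, UnitIn (H21.locSubring (F := F) n) Λ ∧
      ∀ k, P k ≤ n → OneU (H56.valuationSubringAt (K := F) (P k) (hh k)) (Λ * G / T k) := by
  haveI := hbranch k₀
  obtain ⟨Λ, hΛ, hΛT⟩ := exists_lambda_branch (Ideal.Quotient.mk (P k₀))
    Ideal.Quotient.mk_surjective (P k₀) (hh k₀) (fun _ => Ideal.Quotient.eq_zero_iff_mem) n hk₀ hm
    hG0 hT0 hG hT
  refine ⟨Λ, hΛ, fun k hk => ?_⟩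
  obtain rfl := hone k hk
  exact hΛT

end Fermat.Agent.S36.H84
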