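/-
S36 / row (E6), the hypothesis `hΛ` of `S36.H85.radDatum_of_glue` at a closed point lying on
SEVERAL vertical primes (the triple points), helper84.

Key observation (makes every transversality hypothesis unnecessary): in a local ring `O` in which
`m` is invertible, `y ≡ 1 mod 𝔪` and `y ^ m ≡ 1 mod I` force `y ≡ 1 mod I`
(`y ^ m - 1 = (y - 1) * ∑ y ^ i` and the sum is `≡ m`, a unit).  Hence branch lifts `a i` with
EQUAL residues at the closed point and `a i ^ m ≡ η mod P i` glue to ONE unit `Λ ≡ a i mod P i`,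
for ANY finite family of proper ideals `P i` (no regularity, no concurrent-lines hypothesis).

* `sub_one_mem_of_pow_sub_one_mem`, `sub_mem_of_pow_sub_pow_mem` : root uniqueness modulo `I`;
* `exists_unit_lift_of_pow` : the gluing, ideal form, any finite family;
* `isUnit_iff_unitIn`, `isLocalRing_of_unitIn` : a subring `O ⊆ F` with the `UnitIn`-local
  property is a local ring;
* `exists_unitIn_lift_of_pow` : the gluing for `O : Subring F` and valuation subrings `V i ⊇ O`;
* `exists_lambda_of_lifts` : chart vocabulary (`O n = H21.locSubring n`,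
  `V k = H56.valuationSubringAt (P k)`): from ONE lift per branch through `n` with equal residues;
* `lift_sub_not_unitIn` : two lifts on the same branch have the same residue;
* `exists_lambda_of_equal_values` : the same with the lifts produced by `exists_lambda_branch`.
-/
import Mathlib
import Fermat.Agent.S36.H84_LambdaOneBranch

set_option autoImplicit false
set_option linter.unusedSectionVars false
set_option linter.style.haveILetI false

namespace Fermat.Agent.S36.H84

open Fermat.Agent.S34 Fermat.Agent.S34.H47 Fermat.Agent.S35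

section Abstract

variable {O : Type*} [CommRing O] [IsLocalRing O]

/-- Root uniqueness: `y ≡ 1 mod 𝔪`, `y ^ m ≡ 1 mod I`, `m` invertible `⟹ y ≡ 1 mod I`. -/
theorem sub_one_mem_of_pow_sub_one_mem (I : Ideal O) (m : ℕ) (hm : IsUnit (m : O)) (y : O)
    (hy : y - 1 ∈ IsLocalRing.maximalIdeal O) (hpow : y ^ m - 1 ∈ I) : y - 1 ∈ I := by
  have hgeom : (∑ i ∈ Finset.range m, y ^ i) * (y - 1) = y ^ m - 1 := geom_sum_mul y m
  have hres : IsLocalRing.residue O y = 1 := by
    have := (IsLocalRing.residue_eq_zero_iff (y - 1)).2 hy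
    rwa [map_sub, map_one, sub_eq_zero] at this
  have hSu : IsUnit (∑ i ∈ Finset.range m, y ^ i) := by
    rw [← IsLocalRing.residue_ne_zero_iff_isUnit, map_sum]
    simp only [map_pow, hres, one_pow, Finset.sum_const, Finset.card_range, nsmul_eq_mul, mul_one]
    have h2 := (IsLocalRing.residue_ne_zero_iff_isUnit (m : O)).2 hm
    rwa [map_natCast] at h2
  obtain ⟨S', hS'⟩ := hSu
  have h3 : y - 1 = ↑S'⁻¹ * (y ^ m - 1) := by
    rw [← hgeom, ← hS', ← mul_assoc, Units.inv_mul, one_mul]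
  rw [h3]
  exact I.mul_mem_left _ hpow

/-- Root uniqueness, two-element form. -/
theorem sub_mem_of_pow_sub_pow_mem (I : Ideal O) (m : ℕ) (hm : IsUnit (m : O)) (a b : O)
    (hb : IsUnit b) (hab : a - b ∈ IsLocalRing.maximalIdeal O) (hpow : a ^ m - b ^ m ∈ I) :
    a - b ∈ I := by
  obtain ⟨b', rfl⟩ := hb
  have h1 : a * ↑b'⁻¹ - 1 = (a - ↑b') * ↑b'⁻¹ := by
    rw [sub_mul, Units.mul_inv]
  have h2 : (a * ↑b'⁻¹) ^ m - 1 = (a ^ m - (↑b' : O) ^ m) * (↑b'⁻¹ : O) ^ m := by
    rw [sub_mul, mul_pow, ← mul_pow (↑b' : O), Units.mul_inv, one_pow]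
  have h3 := sub_one_mem_of_pow_sub_one_mem I m hm (a * ↑b'⁻¹)
    (by rw [h1]; exact Ideal.mul_mem_right _ _ hab)
    (by rw [h2]; exact Ideal.mul_mem_right _ _ hpow)
  have h4 : a - ↑b' = (a * ↑b'⁻¹ - 1) * ↑b' := by
    rw [h1, mul_assoc, Units.inv_mul, mul_one]
  rw [h4]
  exact Ideal.mul_mem_right _ _ h3

/-- **Gluing branch lifts with equal residues.** -/
theorem exists_unit_lift_of_pow {ι : Type*} (s : Finset ι) (P : ι → Ideal O)
    (hP : ∀ i ∈ s, P i ≠ ⊤) (m : ℕ) (hm : IsUnit (m : O)) (a : ι → O) (η c : O)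
    (hc : IsUnit c) (hac : ∀ i ∈ s, a i - c ∈ IsLocalRing.maximalIdeal O)
    (hpow : ∀ i ∈ s, η - a i ^ m ∈ P i) :
    ∃ Λ : O, IsUnit Λ ∧ Λ - c ∈ IsLocalRing.maximalIdeal O ∧ ∀ i ∈ s, Λ - a i ∈ P i := by
  classical
  induction s using Finset.induction_on with
  | empty =>
    exact ⟨c, hc, by rw [sub_self]; exact Ideal.zero_mem _, fun i hi => by simp at hi⟩
  | insert j s hj ih =>
    obtain ⟨Λ₀, hΛ₀u, hΛ₀c, hΛ₀⟩ := ih (fun i hi => hP i (Finset.mem_insert_of_mem hi))
      (fun i hi => hac i (Finset.mem_insert_of_mem hi))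
      (fun i hi => hpow i (Finset.mem_insert_of_mem hi))
    have hjm := Finset.mem_insert_self j s
    -- `Λ₀ ^ m ≡ η` modulo the intersection of the old branches
    have hQ : Λ₀ ^ m - η ∈ s.inf P := by
      rw [Submodule.mem_finsetInf]
      intro i hi
      have h1 : Λ₀ ^ m - a i ^ m ∈ P i :=
        Ideal.mem_of_dvd _ (sub_dvd_pow_sub_pow Λ₀ (a i) m) (hΛ₀ i hi)
      have h2 := (P i).sub_mem h1 (hpow i (Finset.mem_insert_of_mem hi))
      have h3 : Λ₀ ^ m - a i ^ m - (η - a i ^ m) = Λ₀ ^ m - η := by ring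
      rwa [h3] at h2
    have hsum : Λ₀ ^ m - a j ^ m ∈ s.inf P ⊔ P j := by
      have h3 : Λ₀ ^ m - a j ^ m = (Λ₀ ^ m - η) + (η - a j ^ m) := by ring
      rw [h3]
      exact Submodule.add_mem_sup hQ (hpow j hjm)
    have haju : IsUnit (a j) := by
      rw [← IsLocalRing.notMem_maximalIdeal]
      intro hmem
      have h4 := (IsLocalRing.maximalIdeal O).sub_mem hmem (hac j hjm)
      rw [sub_sub_cancel] at h4
      exact (IsLocalRing.notMem_maximalIdeal.2 hc) h4
    have hdiff : Λ₀ - a j ∈ IsLocalRing.maximalIdeal O := by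
      have h4 := (IsLocalRing.maximalIdeal O).sub_mem hΛ₀c (hac j hjm)
      rwa [sub_sub_sub_cancel_right] at h4
    obtain ⟨w, hw, p, hp, hwp⟩ := Submodule.mem_sup.1
      (sub_mem_of_pow_sub_pow_mem (s.inf P ⊔ P j) m hm Λ₀ (a j) haju hdiff hsum)
    have hΛeq : Λ₀ - w = a j + p := by
      linear_combination -hwp
    have hΛc : Λ₀ - w - c ∈ IsLocalRing.maximalIdeal O := by
      have h5 : Λ₀ - w - c = (a j - c) + p := by rw [hΛeq]; ring
      rw [h5]
      exact (IsLocalRing.maximalIdeal O).add_mem (hac j hjm)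
        (IsLocalRing.le_maximalIdeal (hP j hjm) hp)
    refine ⟨Λ₀ - w, ?_, hΛc, ?_⟩
    · rw [← IsLocalRing.notMem_maximalIdeal]
      intro hmem
      have h6 := (IsLocalRing.maximalIdeal O).sub_mem hmem hΛc
      rw [sub_sub_cancel] at h6
      exact (IsLocalRing.notMem_maximalIdeal.2 hc) h6
    · intro i hi
      rcases Finset.mem_insert.1 hi with rfl | hi'
      · rw [hΛeq, add_sub_cancel_left]; exact hp
      · have h7 : Λ₀ - w - a i = (Λ₀ - a i) - w := by ring
        rw [h7]
        exact (P i).sub_mem (hΛ₀ i hi') ((Finset.inf_le hi' : s.inf P ≤ P i) hw)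

end Abstract

section SubringF

variable {F : Type*} [Field F]

theorem isUnit_iff_unitIn (O : Subring F) (x : O) : IsUnit x ↔ UnitIn O (x : F) := by
  constructor
  · rintro ⟨⟨x, y, hxy, hyx⟩, rfl⟩
    have h1 : (x : F) * (y : F) = 1 := by
      have := congrArg (Subtype.val) hxy
      simpa using this
    have hx0 : (x : F) ≠ 0 := left_ne_zero_of_mul_eq_one h1
    refine ⟨x.2, ?_, hx0⟩
    have h2 : (x : F)⁻¹ = (y : F) := by
      rw [← mul_one (x : F)⁻¹, ← h1, ← mul_assoc, inv_mul_cancel₀ hx0, one_mul]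
    rw [h2]
    exact y.2
  · rintro ⟨-, h2, h3⟩
    refine ⟨⟨x, ⟨(x : F)⁻¹, h2⟩, ?_, ?_⟩, rfl⟩
    · apply Subtype.ext
      simp [mul_inv_cancel₀ h3]
    · apply Subtype.ext
      simp [inv_mul_cancel₀ h3]

theorem unitIn_neg {O : Subring F} {a : F} (h : UnitIn O a) : UnitIn O (-a) :=
  ⟨O.neg_mem h.1, by rw [inv_neg]; exact O.neg_mem h.2.1, neg_ne_zero.2 h.2.2⟩

/-- A subring of a field with the `UnitIn`-local property is a local ring. -/
theorem isLocalRing_of_unitIn (O : Subring F)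
    (hloc : ∀ a b : F, UnitIn O a → b ∈ O → ¬ UnitIn O b → UnitIn O (a + b)) :
    IsLocalRing O := by
  refine IsLocalRing.of_nonunits_add ?_
  intro a b ha hb hab
  rw [mem_nonunits_iff, isUnit_iff_unitIn] at ha hb
  have hab' : UnitIn O ((a : F) + (b : F)) := by
    have := (isUnit_iff_unitIn O (a + b)).1 hab
    simpa using this
  have hna : ¬ UnitIn O (-(a : F)) := fun h => ha (by simpa using unitIn_neg h)
  have := hloc _ _ hab' (O.neg_mem a.2) hna
  rw [add_neg_cancel_comm] at this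
  exact hb this

/-- **Gluing, `Subring F` form**: `V i ⊇ O` valuation subrings, branch lifts `a i ∈ O` with the
same residue as `c` and `η ≡ a i ^ m` at `V i`. -/
theorem exists_unitIn_lift_of_pow (O : Subring F)
    (hloc : ∀ a b : F, UnitIn O a → b ∈ O → ¬ UnitIn O b → UnitIn O (a + b))
    {ι : Type*} [Finite ι] (V : ι → ValuationSubring F) (hOV : ∀ i, ∀ x ∈ O, x ∈ V i)
    (m : ℕ) (hm : UnitIn O (m : F)) (a : ι → F) (η c : F) (hη : η ∈ O) (hc : UnitIn O c)
    (ha : ∀ i, a i ∈ O) (hac : ∀ i, ¬ UnitIn O (a i - c))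
    (hpow : ∀ i, (V i).valuation (η - a i ^ m) < 1) :
    ∃ Λ : F, UnitIn O Λ ∧ ¬ UnitIn O (Λ - c) ∧ ∀ i, (V i).valuation (Λ - a i) < 1 := by
  classical
  haveI := isLocalRing_of_unitIn O hloc
  haveI := Fintype.ofFinite ι
  have hle : ∀ i, O ≤ (V i).toSubring := fun i x hx => hOV i x hx
  let P : ι → Ideal O := fun i =>
    Ideal.comap (Subring.inclusion (hle i)) (IsLocalRing.maximalIdeal (V i))
  have hmemP : ∀ i (x : O), x ∈ P i ↔ (V i).valuation (x : F) < 1 := by
    intro i x
    show Subring.inclusion (hle i) x ∈ IsLocalRing.maximalIdeal (V i) ↔ _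
    rw [ValuationSubring.valuation_lt_one_iff]
    rfl
  have hPtop : ∀ i ∈ (Finset.univ : Finset ι), P i ≠ ⊤ := by
    intro i _ htop
    have h1 : (1 : O) ∈ P i := by rw [htop]; trivial
    rw [hmemP] at h1
    simp at h1
  have hmem_max : ∀ x : O, x ∈ IsLocalRing.maximalIdeal O ↔ ¬ UnitIn O (x : F) := by
    intro x
    rw [IsLocalRing.mem_maximalIdeal, mem_nonunits_iff, isUnit_iff_unitIn]
  obtain ⟨Λ, hΛu, hΛc, hΛ⟩ := exists_unit_lift_of_pow (Finset.univ : Finset ι) P hPtop m
    ((isUnit_iff_unitIn O (m : O)).2 (by simpa using hm))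
    (fun i => (⟨a i, ha i⟩ : O)) ⟨η, hη⟩ ⟨c, hc.1⟩
    ((isUnit_iff_unitIn O _).2 hc)
    (fun i _ => by rw [hmem_max]; simpa using hac i)
    (fun i _ => by rw [hmemP]; simpa using hpow i)
  refine ⟨(Λ : F), (isUnit_iff_unitIn O Λ).1 hΛu, ?_, ?_⟩
  · have := (hmem_max _).1 hΛc
    simpa using this
  · intro i
    have := (hmemP i _).1 (hΛ i (Finset.mem_univ i))
    simpa using this

end SubringF

section Chart

variable {B F : Type*} [CommRing B] [IsDomain B] [Field F] [Algebra B F] [IsFractionRing B F]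
  [IsNoetherianRing B] [IsIntegrallyClosed B]

/-- `B_n ⊆ V_p` for `p ≤ n`. -/
theorem locSubring_le_valuationSubringAt (p : Ideal B) [hp : p.IsPrime] (h1 : p.height = 1)
    (n : Ideal B) [hn : n.IsPrime] (hpn : p ≤ n) (x : F)
    (hx : x ∈ H21.locSubring (F := F) n) : x ∈ H56.valuationSubringAt (K := F) p h1 := by
  obtain ⟨a, b, hb, hab⟩ := hx
  exact ⟨a, b, fun hbp => hb (hpn hbp), hab⟩

/-- units of `B_n` are units of `V_p` for `p ≤ n`. -/
theorem valuation_eq_one_of_unitIn (p : Ideal B) [hp : p.IsPrime] (h1 : p.height = 1)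
    (n : Ideal B) [hn : n.IsPrime] (hpn : p ≤ n) {a : F}
    (ha : UnitIn (H21.locSubring (F := F) n) a) :
    (H56.valuationSubringAt (K := F) p h1).valuation a = 1 := by
  have h2 := ((H56.valuationSubringAt (K := F) p h1).valuation_le_one_iff a).2
    (locSubring_le_valuationSubringAt p h1 n hpn a ha.1)
  have h3 := ((H56.valuationSubringAt (K := F) p h1).valuation_le_one_iff a⁻¹).2
    (locSubring_le_valuationSubringAt p h1 n hpn a⁻¹ ha.2.1)
  rw [map_inv₀] at h3
  have hv0 : (H56.valuationSubringAt (K := F) p h1).valuation a ≠ 0 :=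
    (Valuation.ne_zero_iff _).mpr ha.2.2
  exact le_antisymm h2 (by rwa [inv_le_one₀ (zero_lt_iff.mpr hv0)] at h3)

/-- **Two lifts on the same branch have the same residue at `n`.** -/
theorem lift_sub_not_unitIn (p : Ideal B) [hp : p.IsPrime] (h1 : p.height = 1)
    (n : Ideal B) [hn : n.IsPrime] (hpn : p ≤ n) {a a' x : F}
    (ha' : UnitIn (H21.locSubring (F := F) n) a')
    (hx : OneU (H56.valuationSubringAt (K := F) p h1) (a * x))
    (hx' : OneU (H56.valuationSubringAt (K := F) p h1) (a' * x)) :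
    ¬ UnitIn (H21.locSubring (F := F) n) (a - a') := by
  intro hu
  have hv := valuation_eq_one_of_unitIn p h1 n hpn hu
  have hx0 : x ≠ 0 := fun h0 => hx.ne_zero (by rw [h0, mul_zero])
  have hq : OneU (H56.valuationSubringAt (K := F) p h1) (a / a') := by
    have h2 : a / a' = a * x / (a' * x) := by
      field_simp
    rw [h2]
    exact hx.div hx'
  have hlt : (H56.valuationSubringAt (K := F) p h1).valuation (a - a') < 1 := by
    have h3 : a - a' = (a / a' - 1) * a' := by
      have := ha'.2.2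
      field_simp
    rw [h3, map_mul, valuation_eq_one_of_unitIn p h1 n hpn ha', mul_one]
    exact hq
  rw [hv] at hlt
  exact lt_irrefl _ hlt

/-- **`hΛ` from one lift per branch with equal residues** (`c` = the common residue). -/
theorem exists_lambda_of_lifts {κ : Type*} [Finite κ] (P : κ → Ideal B)
    [hP : ∀ k, (P k).IsPrime] (hh : ∀ k, (P k).height = 1) (n : Ideal B) [hn : n.IsPrime]
    {m : ℕ} (hmu : UnitIn (H21.locSubring (F := F) n) (m : F)) {u G : F} (T : κ → F)
    (hG0 : G ≠ 0) (hG : UnitIn (H21.locSubring (F := F) n) (u / G ^ m))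
    (hT : ∀ k, P k ≤ n → OneU (H56.valuationSubringAt (K := F) (P k) (hh k)) (u / T k ^ m))
    (c : F) (hc : UnitIn (H21.locSubring (F := F) n) c)
    (hlift : ∀ k, P k ≤ n → ∃ a : F, UnitIn (H21.locSubring (F := F) n) a ∧
      OneU (H56.valuationSubringAt (K := F) (P k) (hh k)) (a * G / T k) ∧
      ¬ UnitIn (H21.locSubring (F := F) n) (a - c)) :
    ∃ Λ : F, UnitIn (H21.locSubring (F := F) n) Λ ∧
      ¬ UnitIn (H21.locSubring (F := F) n) (Λ - c) ∧
      ∀ k, P k ≤ n → OneU (H56.valuationSubringAt (K := F) (P k) (hh k)) (Λ * G / T k) := by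
  classical
  choose! a ha using hlift
  have hpow : ∀ i : {k : κ // P k ≤ n},
      (H56.valuationSubringAt (K := F) (P i.1) (hh i.1)).valuation
        (u / G ^ m - a i.1 ^ m) < 1 := by
    rintro ⟨k, hk⟩
    obtain ⟨hau, haT, -⟩ := ha k hk
    have hva := valuation_eq_one_of_unitIn (P k) (hh k) n hk hau
    have hT0 : T k ≠ 0 := by
      intro h0
      have := haT.ne_zero
      rw [h0, div_zero] at this
      exact this rfl
    have hq : OneU (H56.valuationSubringAt (K := F) (P k) (hh k)) (u / G ^ m / a k ^ m) := by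
      have h5 : u / G ^ m / a k ^ m = u / T k ^ m / (a k * G / T k) ^ m := by
        have h7 := hau.2.2
        have h8 : a k ^ m ≠ 0 := pow_ne_zero m h7
        have h9 : G ^ m ≠ 0 := pow_ne_zero m hG0
        have h10 : T k ^ m ≠ 0 := pow_ne_zero m hT0
        rw [div_pow, mul_pow]
        field_simp
      rw [h5]
      exact (hT k hk).div (haT.pow m)
    have h6 : u / G ^ m - a k ^ m = (u / G ^ m / a k ^ m - 1) * a k ^ m := by
      have := hau.2.2
      field_simp
    show (H56.valuationSubringAt (K := F) (P k) (hh k)).valuation (u / G ^ m - a k ^ m) < 1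
    rw [h6, map_mul, map_pow, hva, one_pow, mul_one]
    exact hq
  obtain ⟨Λ, hΛu, hΛc, hΛ⟩ := exists_unitIn_lift_of_pow (H21.locSubring (F := F) n)
    (fun x y hx hy hyu => H21.locSubring_local n hx hy hyu)
    (ι := {k : κ // P k ≤ n})
    (fun i => H56.valuationSubringAt (K := F) (P i.1) (hh i.1))
    (fun i x hx => locSubring_le_valuationSubringAt (P i.1) (hh i.1) n i.2 x hx)
    m hmu (fun i => a i.1) (u / G ^ m) c hG.1 hc
    (fun i => (ha i.1 i.2).1.1) (fun i => (ha i.1 i.2).2.2) hpow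
  refine ⟨Λ, hΛu, hΛc, fun k hk => ?_⟩
  obtain ⟨hau, haT, -⟩ := ha k hk
  have hva := valuation_eq_one_of_unitIn (P k) (hh k) n hk hau
  have hT0 : T k ≠ 0 := by
    intro h0
    have := haT.ne_zero
    rw [h0, div_zero] at this
    exact this rfl
  have hq : OneU (H56.valuationSubringAt (K := F) (P k) (hh k)) (Λ / a k) := by
    have h3 : Λ / a k - 1 = (Λ - a k) * (a k)⁻¹ := by
      have := hau.2.2
      field_simp
    refine oneU_of_sub h3 ?_
    rw [map_mul, map_inv₀, hva, inv_one, mul_one]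
    exact hΛ ⟨k, hk⟩
  have h4 : Λ * G / T k = Λ / a k * (a k * G / T k) := by
    have := hau.2.2
    field_simp
  rw [h4]
  exact hq.mul haT

/-- **`hΛ` at a closed point on several vertical primes, from `(EQ)` equal values**: every
one-branch lift has the same residue as `c` at `n`; the lifts exist by `exists_lambda_branch`
because the branches `B ⧸ P k` are normal. -/
theorem exists_lambda_of_equal_values {κ : Type*} [Finite κ] (P : κ → Ideal B)
    [hP : ∀ k, (P k).IsPrime] (hh : ∀ k, (P k).height = 1)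
    (hbranch : ∀ k, IsIntegrallyClosed (B ⧸ P k)) (n : Ideal B) [hn : n.IsPrime]
    {m : ℕ} (hm : 0 < m) (hmu : UnitIn (H21.locSubring (F := F) n) (m : F)) {u G : F}
    (T : κ → F) (hG0 : G ≠ 0) (hT0 : ∀ k, P k ≤ n → T k ≠ 0)
    (hG : UnitIn (H21.locSubring (F := F) n) (u / G ^ m))
    (hT : ∀ k, P k ≤ n → OneU (H56.valuationSubringAt (K := F) (P k) (hh k)) (u / T k ^ m))
    (hEQ : ∃ c : F, UnitIn (H21.locSubring (F := F) n) c ∧ ∀ k, P k ≤ n → ∀ a : F,
      UnitIn (H21.locSubring (F := F) n) a →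
      OneU (H56.valuationSubringAt (K := F) (P k) (hh k)) (a * G / T k) →
      ¬ UnitIn (H21.locSubring (F := F) n) (a - c)) :
    ∃ Λ : F, UnitIn (H21.locSubring (F := F) n) Λ ∧
      ∀ k, P k ≤ n → OneU (H56.valuationSubringAt (K := F) (P k) (hh k)) (Λ * G / T k) := by
  obtain ⟨c, hc, hEQ⟩ := hEQ
  obtain ⟨Λ, hΛ, -, hΛT⟩ := exists_lambda_of_lifts P hh n hmu T hG0 hG hT c hc (fun k hk => by
    haveI := hbranch k
    obtain ⟨a, hau, haT⟩ := exists_lambda_branch (Ideal.Quotient.mk (P k))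
      Ideal.Quotient.mk_surjective (P k) (hh k) (fun _ => Ideal.Quotient.eq_zero_iff_mem) n hk hm
      hG0 (hT0 k hk) hG (hT k hk)
    exact ⟨a, hau, haT, hEQ k hk a hau haT⟩)
  exact ⟨Λ, hΛ, hΛT⟩

end Chart

end Fermat.Agent.S36.H84
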