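/-
helper18 — S36 row (E7), **generic chart-level adapters** between the landed one-call theorems of
the rows and the binders of `H18.geoFn36E_of_twoCharts`:

* `le_iff_locSubring_le` : for a height-one prime `p` and a prime `n` of a normal noetherian
  chart `B`: `p ≤ n ↔ B_n ⊆ V_p`;
* `incidence_of_ptO_eq` : the incidence transfer (OVL-a)(iii): two closed points with the same
  local ring see the same vertical primes (given `V_(P₁ i) = V_(P₂ i)`);
* `hoverlap_of_glue` : the `hoverlap` binder of `S36.H85.hpt_two_charts_of_first` (and, forgetting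
  the incidences, the `hovl` binder of `S36.H56.hE4_of_rows`) from helper62's
  `S36.H62.exists_closedPt_ptO_eq`;
* `isIntegrallyClosed_quotient_of_ker` : `hbranch` (`B ⧸ P` integrally closed) from `P = ker red`,
  `red` onto an integrally closed domain.
-/
import Mathlib
import Fermat.Agent.S36.H62_ChartGlue
import Fermat.Agent.S36.H84_LambdaTriple

set_option autoImplicit false
set_option linter.unusedSectionVars false
set_option linter.style.haveILetI false

namespace Fermat.Agent.S36.H18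

open Fermat.Agent.S34

section Chart

variable {B F : Type*} [CommRing B] [IsDomain B] [Field F] [Algebra B F] [IsFractionRing B F]
  [IsNoetherianRing B] [IsIntegrallyClosed B]

/-- `p ≤ n ↔ B_n ⊆ V_p`. -/
theorem le_iff_locSubring_le (p : Ideal B) [hp : p.IsPrime] (h1 : p.height = 1)
    (n : Ideal B) [hn : n.IsPrime] :
    p ≤ n ↔ ∀ x : F, x ∈ H21.locSubring (F := F) n → x ∈ H56.valuationSubringAt (K := F) p h1 := by
  constructor
  · intro hpn x hx
    exact S36.H84.locSubring_le_valuationSubringAt p h1 n hpn x hx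
  · intro h b hb
    by_contra hbn
    have hu := S36.H62.unitIn_algebraMap_of_not_mem (F := F) n hbn
    have hmem := h _ hu.2.1
    have hle := ((H56.valuationSubringAt (K := F) p h1).valuation_le_one_iff _).mpr hmem
    have hlt := (H56.algebraMap_mem_nonunits_iff (K := F) h1 b).mpr hb
    rw [map_inv₀] at hle
    have hv0 : (H56.valuationSubringAt (K := F) p h1).valuation (algebraMap B F b) ≠ 0 :=
      (Valuation.ne_zero_iff _).mpr hu.2.2
    have h3 : 1 ≤ (H56.valuationSubringAt (K := F) p h1).valuation (algebraMap B F b) :=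
      (inv_le_one₀ (zero_lt_iff.mpr hv0)).mp hle
    exact absurd hlt (not_lt.mpr h3)

end Chart

section TwoCharts

variable {R F : Type*} [CommRing R] [IsDomain R] [IsDiscreteValuationRing R]
  [Field F] [Algebra R F]
  (B₁ B₂ : Subalgebra R F) [IsFractionRing B₁ F] [IsFractionRing B₂ F]
  [IsNoetherianRing B₁] [IsNoetherianRing B₂] [IsIntegrallyClosed B₁] [IsIntegrallyClosed B₂]
  (π : R)

/-- **Incidence transfer**: closed points of the two charts with the same local ring lie on the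
same vertical components. -/
theorem incidence_of_ptO_eq {κ : Type*} (P₁ : κ → Ideal B₁) (P₂ : κ → Ideal B₂)
    [hP₁ : ∀ i, (P₁ i).IsPrime] [hP₂ : ∀ i, (P₂ i).IsPrime]
    (hh₁ : ∀ i, (P₁ i).height = 1) (hh₂ : ∀ i, (P₂ i).height = 1)
    (hVeq : ∀ i, H56.valuationSubringAt (K := F) (P₁ i) (hh₁ i) =
      H56.valuationSubringAt (K := F) (P₂ i) (hh₂ i))
    (n₁ : H21.ClosedPt B₁ π) (n₂ : H21.ClosedPt B₂ π)
    (hO : H21.ptO B₁ B₂ π (Sum.inl n₁) = H21.ptO B₁ B₂ π (Sum.inr n₂)) (i : κ) :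
    P₁ i ≤ n₁.1 ↔ P₂ i ≤ n₂.1 := by
  haveI := n₁.2.1.isPrime
  haveI := n₂.2.1.isPrime
  have hO' : H21.locSubring (F := F) n₁.1 = H21.locSubring (F := F) n₂.1 := hO
  rw [le_iff_locSubring_le (F := F) (P₁ i) (hh₁ i) n₁.1,
    le_iff_locSubring_le (F := F) (P₂ i) (hh₂ i) n₂.1, hO', hVeq i]

/-- **`hoverlap` of `S36.H85.hpt_two_charts_of_first`** from helper62's chart gluing. -/
theorem hoverlap_of_glue {κ : Type*} (P₁ : κ → Ideal B₁) (P₂ : κ → Ideal B₂)
    [hP₁ : ∀ i, (P₁ i).IsPrime] [hP₂ : ∀ i, (P₂ i).IsPrime]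
    (hh₁ : ∀ i, (P₁ i).height = 1) (hh₂ : ∀ i, (P₂ i).height = 1)
    (hVeq : ∀ i, H56.valuationSubringAt (K := F) (P₁ i) (hh₁ i) =
      H56.valuationSubringAt (K := F) (P₂ i) (hh₂ i))
    (hπ : Irreducible π) (J₁ : B₁) (J₂ : B₂) (hJ : (J₁ : F) * (J₂ : F) = 1)
    (hint₁ : ∀ b : B₁, IsIntegral (Algebra.adjoin R {(J₁ : F)}) (b : F))
    (hint₂ : ∀ b : B₂, IsIntegral (Algebra.adjoin R {(J₂ : F)}) (b : F))
    (hres : ∀ n : H21.ClosedPt B₂ π, ∀ b : B₂, ∃ c : R, b - algebraMap R B₂ c ∈ n.1)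
    (n : H21.ClosedPt B₂ π) (hJn : J₂ ∉ n.1) :
    ∃ n1 : H21.ClosedPt B₁ π,
      H21.ptO B₁ B₂ π (Sum.inl n1) = H21.ptO B₁ B₂ π (Sum.inr n) ∧
      ∀ i, P₁ i ≤ n1.1 ↔ P₂ i ≤ n.1 := by
  obtain ⟨n1, -, -, hO⟩ :=
    S36.H62.exists_closedPt_ptO_eq B₁ B₂ π hπ J₁ J₂ hJ hint₁ hint₂ n hJn (hres n)
  exact ⟨n1, hO, fun i => incidence_of_ptO_eq B₁ B₂ π P₁ P₂ hh₁ hh₂ hVeq n1 n hO i⟩

end TwoCharts

section Branch

variable {B D : Type*} [CommRing B] [CommRing D] [IsDomain D] [IsIntegrallyClosed D]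

/-- `B ⧸ ker red` is integrally closed when `red` is onto an integrally closed domain. -/
theorem isIntegrallyClosed_quotient_of_ker (red : B →+* D) (hred : Function.Surjective red)
    (P : Ideal B) (hP : P = RingHom.ker red) : IsIntegrallyClosed (B ⧸ P) := by
  subst hP
  exact IsIntegrallyClosed.of_equiv (RingHom.quotientKerEquivOfSurjective hred).symm

end Branch

end Fermat.Agent.S36.H18
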