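import Mathlib
import Fermat.Agent.S18.H95_PlaceExt
import Fermat.Agent.S18.H99_F1Basics
import Fermat.Agent.S24.H97_Finiteness
import Fermat.Agent.S24.H40_M123
import Fermat.Agent.S34.H65_DescOrd

/-!
# S36, row (D1c) (helper36): constant field extensions are unramified

Setting of `S18.H95` / `S34.H65`: `F / K` and `F' / K'` function fields, `K' / K` algebraic of
characteristic `0`, `F → F'` compatible with `K → K'`, and `F'` generated over `K'` by the image of
`F`.  Then every place `v` of `F' / K'` has a uniformiser coming from `F`: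
`∃ t : F, v.ord (algebraMap F F' t) = 1` (the hypothesis `hunif` of
`S34.H65.dvd_ord_of_dvd_ord_above` / `finite_support_of_above`).

* `dvd_ord_eval₂` : the core (hands-on Kummer–Dedekind in the unramified case): `O` a DVR mapping
  into `O_v`, `θ ∈ O_v` a root of `g : O[X]` whose reduction is squarefree; then the order of every
  `P(θ)`, `P : O[X]`, is a multiple of the order of the uniformiser of `O`.
* `exists_ord_eq_one_of_constExt` : the generic theorem.
* `exists_ord_toBar_eq_one` : the instance `F = modularFunctionFieldFullC L N`, `F' = FN N`.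
* `dvd_ord_of_dvd_ord_toBar`, `finite_support_toBar` : the consumers' forms.
-/

set_option autoImplicit false
set_option linter.unusedSectionVars false
set_option linter.style.haveILetI false
set_option synthInstance.maxHeartbeats 400000

noncomputable section

namespace Fermat.Agent.S36.H36

open AlgebraicCurve ModularCurve Polynomial IsLocalRing
open Fermat.Agent.S24 Fermat.Agent.S18

local notation "Qbar" => AlgebraicClosure ℚ

section Core

variable {K' F' : Type*} [Field K'] [Field F'] [Algebra K' F'] (v : Place K' F')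

/-- A nonzero element of `O_v` is a unit iff its order vanishes. -/
theorem isUnit_iff_ord_eq_zero (x : v.toValuationSubring) (hx : x ≠ 0) :
    IsUnit x ↔ v.ord (x : F') = 0 := by
  constructor
  · intro h
    obtain ⟨u, rfl⟩ := h
    exact v.ord_coe_unit u
  · intro h
    have hx' : (x : F') ≠ 0 := by simpa [ne_eq, ZeroMemClass.coe_eq_zero] using hx
    have hinv : (x : F')⁻¹ ∈ v.toValuationSubring := by
      rw [H24.PlaceLemmas.mem_iff_ord_nonneg v (inv_ne_zero hx'), v.ord_inv, h]
      simp
    refine isUnit_iff_exists_inv.mpr ⟨⟨(x : F')⁻¹, hinv⟩, ?_⟩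
    apply Subtype.ext
    simp [hx']

/-- A nonzero element of `O_v` lies in the maximal ideal iff its order is positive. -/
theorem mem_maximalIdeal_iff_ord_pos (x : v.toValuationSubring) (hx : x ≠ 0) :
    x ∈ maximalIdeal v.toValuationSubring ↔ 0 < v.ord (x : F') := by
  have hx' : (x : F') ≠ 0 := by simpa [ne_eq, ZeroMemClass.coe_eq_zero] using hx
  have hnn : 0 ≤ v.ord (x : F') := (H24.PlaceLemmas.mem_iff_ord_nonneg v hx').mp x.2
  rw [IsLocalRing.mem_maximalIdeal, mem_nonunits_iff, isUnit_iff_ord_eq_zero v x hx]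
  omega

end Core

section Kummer

variable {K' F' : Type*} [Field K'] [Field F'] [Algebra K' F'] (v : Place K' F')
variable {O : Type*} [CommRing O] [IsDomain O] [IsDiscreteValuationRing O]

/-- **Core (unramified Kummer–Dedekind, hands-on).**  `O` a DVR with uniformiser `ϖ`, `φ : O → F'`
with values in `O_v` and `0 < ord_v (φ ϖ)`; `θ ∈ O_v` a root of `g : O[X]` whose reduction modulo
`ϖ` is squarefree.  Then `ord_v (φ ϖ)` divides `ord_v (P(θ))` for every `P : O[X]` with
`P(θ) ≠ 0`. -/
theorem dvd_ord_eval₂ (φ : O →+* F') (hφ : ∀ a : O, φ a ∈ v.toValuationSubring)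
    {ϖ : O} (hϖ : Irreducible ϖ) (hϖ0 : φ ϖ ≠ 0) (he : 0 < v.ord (φ ϖ))
    (θ : F') (hθ : θ ∈ v.toValuationSubring) (g : O[X]) (hg : g.eval₂ φ θ = 0)
    (hsq : Squarefree (g.map (residue O))) :
    ∀ P : O[X], P.eval₂ φ θ ≠ 0 → v.ord (φ ϖ) ∣ v.ord (P.eval₂ φ θ) := by
  classical
  -- the evaluation map into `O_v`
  set Ov := v.toValuationSubring with hOv
  let φ' : O →+* Ov := φ.codRestrict Ov.toSubring hφ
  let θ' : Ov := ⟨θ, hθ⟩
  let ev : O[X] →+* Ov := Polynomial.eval₂RingHom φ' θ'
  have hev : ∀ P : O[X], ((ev P : Ov) : F') = P.eval₂ φ θ := by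
    intro P
    have hcomp : Ov.subtype.comp φ' = φ := by
      ext a
      rfl
    have h := Polynomial.hom_eval₂ P φ' Ov.subtype θ'
    rw [hcomp] at h
    exact h
  -- the prime `𝔮` of `O[X]`
  set 𝔮 : Ideal O[X] := (maximalIdeal Ov).comap ev with h𝔮
  haveI h𝔮prime : 𝔮.IsPrime := Ideal.comap_isPrime ev _
  have hmem𝔮 : ∀ P : O[X], P.eval₂ φ θ ≠ 0 → (P ∈ 𝔮 ↔ 0 < v.ord (P.eval₂ φ θ)) := by
    intro P hP
    have hne : ev P ≠ 0 := by
      intro h0
      apply hP
      rw [← hev, h0]
      rfl
    rw [h𝔮, Ideal.mem_comap, mem_maximalIdeal_iff_ord_pos v (ev P) hne, hev]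
  -- reduction modulo `ϖ`
  set πr : O[X] →+* (ResidueField O)[X] := Polynomial.mapRingHom (residue O) with hπr
  have hπsurj : Function.Surjective πr :=
    Polynomial.map_surjective (residue O) residue_surjective
  have hker : RingHom.ker πr = Ideal.span {(C ϖ : O[X])} := by
    rw [hπr, Polynomial.ker_mapRingHom, IsLocalRing.ker_residue, hϖ.maximalIdeal_eq,
      Ideal.map_span, Set.image_singleton]
  have hCϖ : (C ϖ : O[X]) ∈ 𝔮 := by
    have hne : (C ϖ : O[X]).eval₂ φ θ ≠ 0 := by rw [eval₂_C]; exact hϖ0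
    rw [hmem𝔮 _ hne, eval₂_C]
    exact he
  have hkerle : RingHom.ker πr ≤ 𝔮 := by
    rw [hker, Ideal.span_singleton_le_iff_mem]
    exact hCϖ
  set 𝔮b : Ideal (ResidueField O)[X] := 𝔮.map πr with h𝔮b
  haveI h𝔮bprime : 𝔮b.IsPrime := Ideal.map_isPrime_of_surjective hπsurj hkerle
  have hmem𝔮b : ∀ P : O[X], πr P ∈ 𝔮b → P ∈ 𝔮 := by
    intro P hP
    have h1 : P ∈ (𝔮.map πr).comap πr := hP
    rw [Ideal.comap_map_of_surjective πr hπsurj] at h1
    have h2 : 𝔮 ⊔ Ideal.comap πr ⊥ = 𝔮 := by
      rw [sup_eq_left]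
      exact hkerle
    rwa [h2] at h1
  -- `g ∈ 𝔮`
  have hg𝔮 : g ∈ 𝔮 := by
    rw [h𝔮, Ideal.mem_comap]
    have : ev g = 0 := by
      apply Subtype.ext
      rw [hev, hg]
      rfl
    rw [this]
    exact Ideal.zero_mem _
  -- the generator of `𝔮b`
  obtain ⟨hb, hhb⟩ : ∃ hb : (ResidueField O)[X], 𝔮b = Ideal.span {hb} :=
    ⟨_, (Ideal.span_singleton_generator 𝔮b).symm⟩
  have hgb : πr g ∈ 𝔮b := Ideal.mem_map_of_mem πr hg𝔮
  obtain ⟨mb, hmb⟩ : hb ∣ πr g := by
    rw [hhb] at hgb
    exact Ideal.mem_span_singleton.mp hgb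
  have hmb𝔮 : mb ∉ 𝔮b := by
    intro hcon
    rw [hhb] at hcon
    obtain ⟨c, hc⟩ := Ideal.mem_span_singleton.mp hcon
    have hdvd : hb * hb ∣ g.map (residue O) := by
      refine ⟨c, ?_⟩
      have : g.map (residue O) = πr g := rfl
      rw [this, hmb, hc]
      ring
    have hunit : IsUnit hb := hsq hb hdvd
    have htop : 𝔮b = ⊤ := by
      rw [hhb]
      exact Ideal.span_singleton_eq_top.mpr hunit
    exact h𝔮bprime.ne_top htop
  -- lifts
  obtain ⟨h, hh⟩ := hπsurj hb
  obtain ⟨m, hm⟩ := hπsurj mb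
  have hm𝔮 : m ∉ 𝔮 := by
    intro hcon
    apply hmb𝔮
    rw [← hm]
    exact Ideal.mem_map_of_mem πr hcon
  obtain ⟨r, hr⟩ : ∃ r : O[X], h * m = g + C ϖ * r := by
    have hk : h * m - g ∈ RingHom.ker πr := by
      rw [RingHom.mem_ker, map_sub, map_mul, hh, hm, hmb, sub_self]
    rw [hker] at hk
    obtain ⟨r, hr⟩ := Ideal.mem_span_singleton'.mp hk
    exact ⟨r, by rw [mul_comm (C ϖ) r, hr]; ring⟩
  -- the key step
  have hkey : ∀ P : O[X], P ∈ 𝔮 →
      ∃ P₃ : O[X], P.eval₂ φ θ * m.eval₂ φ θ = φ ϖ * P₃.eval₂ φ θ := by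
    intro P hP
    have hPb : πr P ∈ 𝔮b := Ideal.mem_map_of_mem πr hP
    rw [hhb] at hPb
    obtain ⟨Qb, hQb⟩ := Ideal.mem_span_singleton.mp hPb
    obtain ⟨Q, hQ⟩ := hπsurj Qb
    obtain ⟨P₂, hP₂⟩ : ∃ P₂ : O[X], P = h * Q + C ϖ * P₂ := by
      have hk : P - h * Q ∈ RingHom.ker πr := by
        rw [RingHom.mem_ker, map_sub, map_mul, hh, hQ, hQb, sub_self]
      rw [hker] at hk
      obtain ⟨P₂, hP₂⟩ := Ideal.mem_span_singleton'.mp hk
      exact ⟨P₂, by rw [mul_comm (C ϖ) P₂, hP₂]; ring⟩
    refine ⟨r * Q + P₂ * m, ?_⟩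
    have hid : P * m = g * Q + C ϖ * (r * Q + P₂ * m) := by
      rw [hP₂]
      have : (h * Q + C ϖ * P₂) * m = (h * m) * Q + C ϖ * (P₂ * m) := by ring
      rw [this, hr]
      ring
    have := congrArg (Polynomial.eval₂ φ θ) hid
    rw [eval₂_mul, eval₂_add, eval₂_mul, eval₂_mul, eval₂_C, hg, zero_mul, zero_add] at this
    exact this
  -- `m(θ)` is a unit of `O_v`
  have hmθ0 : m.eval₂ φ θ ≠ 0 := by
    intro h0
    apply hm𝔮
    rw [h𝔮, Ideal.mem_comap]
    have : ev m = 0 := by
      apply Subtype.ext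
      rw [hev, h0]
      rfl
    rw [this]
    exact Ideal.zero_mem _
  have hmθ : v.ord (m.eval₂ φ θ) = 0 := by
    have h1 : ¬ 0 < v.ord (m.eval₂ φ θ) := fun hpos => hm𝔮 ((hmem𝔮 m hmθ0).mpr hpos)
    have h2 : 0 ≤ v.ord (m.eval₂ φ θ) := by
      rw [← hev]
      exact (H24.PlaceLemmas.mem_iff_ord_nonneg v (by rw [hev]; exact hmθ0)).mp (ev m).2
    omega
  -- induction on the order
  have hind : ∀ n : ℕ, ∀ P : O[X], P.eval₂ φ θ ≠ 0 → v.ord (P.eval₂ φ θ) = n →
      v.ord (φ ϖ) ∣ v.ord (P.eval₂ φ θ) := by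
    intro n
    induction n using Nat.strong_induction_on with
    | _ n ih =>
      intro P hP hn
      by_cases hP𝔮 : P ∈ 𝔮
      · obtain ⟨P₃, hP₃⟩ := hkey P hP𝔮
        have hP₃0 : P₃.eval₂ φ θ ≠ 0 := by
          intro h0
          rw [h0, mul_zero] at hP₃
          exact (mul_ne_zero hP hmθ0) hP₃
        have hord : v.ord (P.eval₂ φ θ) = v.ord (φ ϖ) + v.ord (P₃.eval₂ φ θ) := by
          have h1 := congrArg v.ord hP₃
          rw [v.ord_mul hP hmθ0, v.ord_mul hϖ0 hP₃0, hmθ, add_zero] at h1
          exact h1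
        have hnn : 0 ≤ v.ord (P₃.eval₂ φ θ) := by
          rw [← hev]
          exact (H24.PlaceLemmas.mem_iff_ord_nonneg v (by rw [hev]; exact hP₃0)).mp (ev P₃).2
        obtain ⟨k, hk⟩ := Int.eq_ofNat_of_zero_le hnn
        have hlt : k < n := by
          have : (k : ℤ) < n := by rw [← hk, ← hn, hord]; omega
          exact_mod_cast this
        have h3 := ih k hlt P₃ hP₃0 hk
        rw [hord]
        exact dvd_add (dvd_refl _) h3
      · have h0 : ¬ 0 < v.ord (P.eval₂ φ θ) := fun hpos => hP𝔮 ((hmem𝔮 P hP).mpr hpos)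
        have hnn : 0 ≤ v.ord (P.eval₂ φ θ) := by rw [hn]; positivity
        have : v.ord (P.eval₂ φ θ) = 0 := by omega
        rw [this]
        exact dvd_zero _
  intro P hP
  have hnn : 0 ≤ v.ord (P.eval₂ φ θ) := by
    rw [← hev]
    exact (H24.PlaceLemmas.mem_iff_ord_nonneg v (by rw [hev]; exact hP)).mp (ev P).2
  obtain ⟨n, hn⟩ := Int.eq_ofNat_of_zero_le hnn
  exact hind n P hP hn

end Kummer

section Generic

variable {K F K' F' : Type*} [Field K] [Field F] [Algebra K F] [Field K'] [Field F']
  [Algebra K' F'] [Algebra K K'] [Algebra F F'] [Algebra K F'] [IsScalarTower K F F']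
  [IsScalarTower K K' F']

/-- Constants are algebraic over `F`. -/
theorem isAlgebraic_algebraMap_const [Algebra.IsAlgebraic K K'] (c : K') :
    IsAlgebraic F (algebraMap K' F' c) := by
  have h1 : IsAlgebraic K c := Algebra.IsAlgebraic.isAlgebraic c
  have h2 : IsAlgebraic K (algebraMap K' F' c) := h1.algebraMap
  exact h2.tower_top (L := F)

/-- `F'` is generated by the constants as an `F`-algebra. -/
theorem mem_adjoin_range_const [Algebra.IsAlgebraic K K']
    (hgen : IntermediateField.adjoin K' (Set.range (algebraMap F F')) = ⊤) (x : F') :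
    x ∈ Algebra.adjoin F (Set.range (algebraMap K' F')) := by
  classical
  set A₀ : Subalgebra F F' := Algebra.adjoin F (Set.range (algebraMap K' F')) with hA₀
  have hint : Algebra.IsIntegral F A₀ := by
    apply Algebra.IsIntegral.adjoin
    rintro _ ⟨c, rfl⟩
    exact (isAlgebraic_algebraMap_const (K := K) (F := F) c).isIntegral
  have hinv : ∀ y ∈ A₀, y⁻¹ ∈ A₀ := by
    intro y hy
    have hyint : IsIntegral F ((⟨y, hy⟩ : A₀) : F') :=
      (Algebra.IsIntegral.isIntegral (R := F) (⟨y, hy⟩ : A₀)).map A₀.val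
    exact A₀.inv_mem_of_algebraic (x := ⟨y, hy⟩) hyint.isAlgebraic
  let L : IntermediateField K' F' :=
    { carrier := A₀
      mul_mem' := fun ha hb => A₀.mul_mem ha hb
      one_mem' := A₀.one_mem
      add_mem' := fun ha hb => A₀.add_mem ha hb
      zero_mem' := A₀.zero_mem
      algebraMap_mem' := fun c => Algebra.subset_adjoin ⟨c, rfl⟩
      inv_mem' := hinv }
  have hle : IntermediateField.adjoin K' (Set.range (algebraMap F F')) ≤ L := by
    rw [IntermediateField.adjoin_le_iff]
    rintro _ ⟨f, rfl⟩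
    exact A₀.algebraMap_mem f
  have : x ∈ L := hle (by rw [hgen]; exact IntermediateField.mem_top)
  exact this

end Generic

section Generic2

variable {K F K' F' : Type*} [Field K] [Field F] [Algebra K F] [Field K'] [Field F']
  [Algebra K' F'] [Algebra K K'] [Algebra F F'] [Algebra K F'] [IsScalarTower K F F']
  [IsScalarTower K K' F']

/-- An element of `F[K']` involves only finitely many constants. -/
theorem exists_finset_of_mem_adjoin {x : F'}
    (hx : x ∈ Algebra.adjoin F (Set.range (algebraMap K' F'))) :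
    ∃ s : Finset K', x ∈ Algebra.adjoin F ((algebraMap K' F') '' (s : Set K')) := by
  classical
  induction hx using Algebra.adjoin_induction with
  | mem y hy =>
    obtain ⟨c, rfl⟩ := hy
    exact ⟨{c}, Algebra.subset_adjoin ⟨c, by simp, rfl⟩⟩
  | algebraMap r => exact ⟨∅, Subalgebra.algebraMap_mem _ r⟩
  | add y z _ _ hy hz =>
    obtain ⟨s₁, h₁⟩ := hy
    obtain ⟨s₂, h₂⟩ := hz
    refine ⟨s₁ ∪ s₂, add_mem ?_ ?_⟩
    · exact Algebra.adjoin_mono (Set.image_mono (by simp)) h₁
    · exact Algebra.adjoin_mono (Set.image_mono (by simp)) h₂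
  | mul y z _ _ hy hz =>
    obtain ⟨s₁, h₁⟩ := hy
    obtain ⟨s₂, h₂⟩ := hz
    refine ⟨s₁ ∪ s₂, mul_mem ?_ ?_⟩
    · exact Algebra.adjoin_mono (Set.image_mono (by simp)) h₁
    · exact Algebra.adjoin_mono (Set.image_mono (by simp)) h₂

/-- Finitely many constants are polynomials in one constant (primitive element theorem). -/
theorem exists_primitive_const [Algebra.IsAlgebraic K K'] [CharZero K] (s : Finset K') :
    ∃ θ₀ : K', ∀ c ∈ s, ∃ p : K[X], aeval θ₀ p = c := by
  classical
  set E : IntermediateField K K' := IntermediateField.adjoin K (s : Set K') with hE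
  haveI : FiniteDimensional K E :=
    IntermediateField.finiteDimensional_adjoin
      (fun x _ => (Algebra.IsAlgebraic.isAlgebraic x).isIntegral)
  obtain ⟨α, hα⟩ := Field.exists_primitive_element K E
  refine ⟨(α : K'), fun c hc => ?_⟩
  have hcE : c ∈ E := IntermediateField.subset_adjoin K _ hc
  have hαint : IsIntegral K α := Algebra.IsIntegral.isIntegral α
  have h1 : (⟨c, hcE⟩ : E) ∈ IntermediateField.adjoin K {α} := by
    rw [hα]; exact IntermediateField.mem_top
  have h2 : (⟨c, hcE⟩ : E) ∈ Algebra.adjoin K {α} := by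
    rw [← IntermediateField.adjoin_simple_toSubalgebra_of_isAlgebraic hαint.isAlgebraic]
    exact h1
  rw [Algebra.adjoin_singleton_eq_range_aeval] at h2
  obtain ⟨p, hp⟩ := h2
  refine ⟨p, ?_⟩
  have h3 : ((aeval α p : E) : K') = c := congrArg (fun y : E => (y : K')) hp
  rw [← h3]
  exact (Polynomial.aeval_algHom_apply E.val α p)

/-- Every element of `F'` is a polynomial over `F` in one constant. -/
theorem exists_aeval_const [Algebra.IsAlgebraic K K'] [CharZero K]
    (hgen : IntermediateField.adjoin K' (Set.range (algebraMap F F')) = ⊤) (x : F') :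
    ∃ (θ₀ : K') (P : F[X]), x = aeval (algebraMap K' F' θ₀) P := by
  classical
  obtain ⟨s, hs⟩ := exists_finset_of_mem_adjoin
    (mem_adjoin_range_const (K := K) hgen x)
  obtain ⟨θ₀, hθ₀⟩ := exists_primitive_const (K := K) s
  refine ⟨θ₀, ?_⟩
  have hle : Algebra.adjoin F ((algebraMap K' F') '' (s : Set K')) ≤
      Algebra.adjoin F {algebraMap K' F' θ₀} := by
    apply Algebra.adjoin_le
    rintro _ ⟨c, hc, rfl⟩
    obtain ⟨p, hp⟩ := hθ₀ c hc
    rw [← hp, ← Polynomial.aeval_algebraMap_apply, ← Polynomial.aeval_map_algebraMap F]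
    rw [SetLike.mem_coe, Algebra.adjoin_singleton_eq_range_aeval]
    exact ⟨_, rfl⟩
  have hx := hle hs
  rw [Algebra.adjoin_singleton_eq_range_aeval] at hx
  obtain ⟨P, hP⟩ := hx
  exact ⟨P, hP.symm⟩

end Generic2

section Main

variable {K F K' F' : Type*} [Field K] [Field F] [Algebra K F] [Field K'] [Field F']
  [Algebra K' F'] [Algebra K K'] [Algebra F F'] [Algebra K F'] [IsScalarTower K F F']
  [IsScalarTower K K' F']

/-- A place of `F' / K'` is nontrivial on `F` (the hypothesis `hnt` of `S18.H95.restrictPlace`). -/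
theorem exists_ord_algebraMap_ne_zero [Algebra.IsAlgebraic K K']
    (hgen : IntermediateField.adjoin K' (Set.range (algebraMap F F')) = ⊤) (v : Place K' F') :
    ∃ f : F, f ≠ 0 ∧ v.ord (algebraMap F F' f) ≠ 0 := by
  by_contra hcon
  simp only [not_exists, not_and, not_not] at hcon
  have hF : ∀ f : F, algebraMap F F' f ∈ v.toValuationSubring := by
    intro f
    rw [H24.PlaceLemmas.mem_iff]
    rcases eq_or_ne f 0 with rfl | hf
    · left; simp
    · right; rw [hcon f hf]
  let A : Subalgebra F F' :=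
    { v.toValuationSubring.toSubring.toSubsemiring with
      algebraMap_mem' := hF }
  have hle : Algebra.adjoin F (Set.range (algebraMap K' F')) ≤ A := by
    apply Algebra.adjoin_le
    rintro _ ⟨c, rfl⟩
    exact v.algebraMap_mem' c
  apply v.ne_top'
  refine SetLike.ext fun x => ⟨fun _ => ValuationSubring.mem_top x, fun _ => ?_⟩
  exact hle (mem_adjoin_range_const (K := K) hgen x)

/-- **Constant field extensions are unramified (generic form).**  `K' / K` algebraic of
characteristic `0`, `F' = K'(F)`: every place `v` of `F' / K'` has a uniformiser coming from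
`F`.  This is the hypothesis `hunif` of `S34.H65.dvd_ord_of_dvd_ord_above`,
`finite_support_of_above`, `exists_place_above_of_ord_ne_zero`, for every place at once. -/
theorem exists_ord_eq_one_of_constExt [Algebra.IsAlgebraic K K'] [CharZero K]
    (hgen : IntermediateField.adjoin K' (Set.range (algebraMap F F')) = ⊤) (v : Place K' F') :
    ∃ t : F, v.ord (algebraMap F F' t) = 1 := by
  classical
  have hnt := exists_ord_algebraMap_ne_zero (K := K) hgen v
  set w : Place K F := H95.restrictPlace (K := K) v hnt with hw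
  set e : ℕ := H95.ramIdx (K := K) v hnt with he
  have hepos : 0 < e := H95.ramIdx_pos (K := K) v hnt
  have hord : ∀ f : F, v.ord (algebraMap F F' f) = e * w.ord f :=
    H95.ord_algebraMap_eq (K := K) v hnt
  let φ : w.toValuationSubring →+* F' := (algebraMap F F').comp w.toValuationSubring.subtype
  have hφ : ∀ a : w.toValuationSubring, φ a ∈ v.toValuationSubring := fun a =>
    (H95.mem_restrictPlace_iff (K := K) v hnt (a : F)).mp a.2
  have hφord : ∀ a : w.toValuationSubring, v.ord (φ a) = e * w.ord (a : F) := fun a => hord a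
  obtain ⟨ϖ, hϖ⟩ := H24.PlaceLemmas.exists_irreducible w
  have hϖ1 : w.ord (ϖ : F) = 1 := w.ord_coe_irreducible hϖ
  have hϖe : v.ord (φ ϖ) = e := by rw [hφord, hϖ1, mul_one]
  have hϖ0 : φ ϖ ≠ 0 := by
    intro h0
    rw [h0, v.ord_zero] at hϖe
    omega
  -- a uniformiser of `v`, written as a polynomial in one constant
  obtain ⟨π, hπ⟩ := H24.PlaceLemmas.exists_irreducible v
  have hπ1 : v.ord (π : F') = 1 := v.ord_coe_irreducible hπ
  have hπ0 : (π : F') ≠ 0 := H24.PlaceLemmas.coe_ne_zero_of_irreducible v hπ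
  obtain ⟨θ₀, P, hP⟩ := exists_aeval_const (K := K) hgen (π : F')
  set θ : F' := algebraMap K' F' θ₀ with hθdef
  have hθ : θ ∈ v.toValuationSubring := v.algebraMap_mem' θ₀
  -- the minimal polynomial of the constant, over `O_w`
  have hint : IsIntegral K θ₀ := (Algebra.IsAlgebraic.isAlgebraic θ₀).isIntegral
  set g : (w.toValuationSubring)[X] :=
    (minpoly K θ₀).map (algebraMap K w.toValuationSubring) with hgdef
  have hcomp : φ.comp (algebraMap K w.toValuationSubring) = algebraMap K F' := by
    ext a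
    show algebraMap F F' (algebraMap K F a) = algebraMap K F' a
    exact (IsScalarTower.algebraMap_apply K F F' a).symm
  have hg : g.eval₂ φ θ = 0 := by
    rw [hgdef, Polynomial.eval₂_map, hcomp, ← Polynomial.aeval_def, hθdef,
      Polynomial.aeval_algebraMap_apply, minpoly.aeval, map_zero]
  have hsq : Squarefree (g.map (residue w.toValuationSubring)) := by
    rw [hgdef, Polynomial.map_map]
    exact ((minpoly.irreducible hint).separable.map).squarefree
  -- clear denominators
  obtain ⟨b, hbmem, hb⟩ := IsLocalization.integerNormalization_spec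
    (nonZeroDivisors w.toValuationSubring) P
  set P' : (w.toValuationSubring)[X] :=
    IsLocalization.integerNormalization (nonZeroDivisors w.toValuationSubring) P with hP'def
  have hb0 : b ≠ 0 := nonZeroDivisors.ne_zero hbmem
  have hφb0 : φ b ≠ 0 := by
    show algebraMap F F' (b : F) ≠ 0
    rw [_root_.map_ne_zero]
    simp [ne_eq, ZeroMemClass.coe_eq_zero, hb0]
  have hφcomp : φ = (algebraMap F F').comp (algebraMap w.toValuationSubring F) := rfl
  have hP'eval : P'.eval₂ φ θ = φ b * (π : F') := by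
    have h1 : P'.eval₂ φ θ =
        (P'.map (algebraMap w.toValuationSubring F)).eval₂ (algebraMap F F') θ := by
      rw [Polynomial.eval₂_map, ← hφcomp]
    rw [h1, hb, ← algebraMap_smul F b P, Polynomial.eval₂_smul,
      ← Polynomial.aeval_def, ← hP]
    rfl
  have hP'ne : P'.eval₂ φ θ ≠ 0 := by
    rw [hP'eval]
    exact mul_ne_zero hφb0 hπ0
  have hdvd := dvd_ord_eval₂ v φ hφ hϖ hϖ0 (by rw [hϖe]; exact_mod_cast hepos) θ hθ g hg hsq
    P' hP'ne
  rw [hϖe, hP'eval, v.ord_mul hφb0 hπ0, hπ1, hφord] at hdvd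
  have he1 : (e : ℤ) ∣ 1 := by
    have h2 : (e : ℤ) ∣ e * w.ord (b : F) := dvd_mul_right _ _
    exact (dvd_add_right h2).mp hdvd
  have he1' : e = 1 := by
    have : (e : ℤ) = 1 := Int.eq_one_of_dvd_one (by positivity) he1
    exact_mod_cast this
  refine ⟨(ϖ : F), ?_⟩
  have := hϖe
  rw [he1'] at this
  exact_mod_cast this

end Main

section Instance

variable (L : Type*) [Field L] [Algebra L Qbar] (N : ℕ) [NeZero N]
  [Algebra L (FN N)] [IsScalarTower L Qbar (FN N)] [Algebra.IsAlgebraic L Qbar]

/-- **(D1c), the instance.**  For every field `L` with `Qbar / L` algebraic (e.g. `L = ↥E0`,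
`E0` an intermediate field of `Qbar`), every place `v` of `FN N / Qbar` has a uniformiser coming
from `F_L = modularFunctionFieldFullC L N`: the constant field extension `F_L ⊗ Qbar = FN N` is
unramified at every place.  This is `hunif` of `S34.H65` (for all `v`, a fortiori for
`v ∈ S`). -/
theorem exists_ord_toBar_eq_one (v : Place Qbar (FN N)) :
    ∃ t : modularFunctionFieldFullC L N, v.ord (H99.toBar L N t) = 1 := by
  letI := H99.toBarAlgebra L N
  haveI := H99.isScalarTower_toBar L N
  haveI : CharZero L :=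
    (RingHom.charZero_iff (algebraMap L Qbar).injective).mpr inferInstance
  exact exists_ord_eq_one_of_constExt (K := L) (H99.adjoin_range_toBar_eq_top L N) v

/-- `hunif` in the exact spelling of `S34.H65` (with the local instance
`letI := H99.toBarAlgebra L N`). -/
theorem hunif_toBar (S : Finset (Place Qbar (FN N))) :
    letI := H99.toBarAlgebra L N
    ∀ v ∈ S, ∃ t : modularFunctionFieldFullC L N,
      v.ord (algebraMap (modularFunctionFieldFullC L N) (FN N) t) = 1 :=
  fun v _ => exists_ord_toBar_eq_one L N v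

/-- Every place `w` of `F_L / L` lies under a place `v` of `FN N / Qbar` with ramification index
one: `ord_v = ord_w` on `F_L`, and `O_w = O_v ∩ F_L`. -/
theorem exists_place_above_toBar (w : Place L (modularFunctionFieldFullC L N)) :
    ∃ v : Place Qbar (FN N),
      (∀ x : modularFunctionFieldFullC L N, v.ord (H99.toBar L N x) = w.ord x) ∧
      (∀ x : modularFunctionFieldFullC L N,
        x ∈ w.toValuationSubring ↔ H99.toBar L N x ∈ v.toValuationSubring) := by
  letI := H99.toBarAlgebra L N
  haveI := H99.isScalarTower_toBar L N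
  haveI := H40.finiteDimensional_FN N
  have ht := H40.transcendental_jBar N
  obtain ⟨v, e, he, hord, hmem⟩ :=
    H95.exists_place_extension (K := L) (F := modularFunctionFieldFullC L N) (jBar N) ht w
  obtain ⟨t, ht1⟩ := exists_ord_toBar_eq_one L N v
  have ht1' : v.ord (algebraMap (modularFunctionFieldFullC L N) (FN N) t) = 1 := ht1
  have he1 : ((e : ℕ) : ℤ) = 1 := by
    rw [hord] at ht1'
    exact Int.eq_one_of_mul_eq_one_right (by positivity) ht1'
  refine ⟨v, fun x => ?_, hmem⟩
  show v.ord (algebraMap (modularFunctionFieldFullC L N) (FN N) x) = w.ord x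
  rw [hord, he1, one_mul]

/-- **(D1c), consumer form 1.**  Divisibility of all orders descends from `FN N / Qbar` to
`F_L / L`. -/
theorem dvd_ord_of_dvd_ord_toBar (f : modularFunctionFieldFullC L N) (m : ℤ)
    (hm : ∀ v : Place Qbar (FN N), m ∣ v.ord (H99.toBar L N f))
    (w : Place L (modularFunctionFieldFullC L N)) : m ∣ w.ord f := by
  obtain ⟨v, hord, -⟩ := exists_place_above_toBar L N w
  rw [← hord f]
  exact hm v

/-- **(D1c), consumer form 2.**  The support of `f` on `F_L / L` is finite. -/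
theorem finite_support_toBar (f : modularFunctionFieldFullC L N) :
    {w : Place L (modularFunctionFieldFullC L N) | w.ord f ≠ 0}.Finite := by
  classical
  letI := H99.toBarAlgebra L N
  haveI := H99.isScalarTower_toBar L N
  haveI := H40.finiteDimensional_FN N
  have ht := H40.transcendental_jBar N
  have hfin := H97.finite_ord_ne_zero (K := Qbar) (jBar N) ht (H99.toBar L N f)
  refine S34.H65.finite_support_of_above (K := L) (jBar N) ht f hfin.toFinset ?_
    (hunif_toBar L N hfin.toFinset)
  intro v hv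
  rw [Set.Finite.mem_toFinset]
  exact hv

/-- The order of `f : F_L` at a place `v` of `FN N / Qbar` is the order at the place of
`F_L / L` below `v` (no ramification index): for every `v` there is `w` with `ord_v = ord_w` on
`F_L`. -/
theorem exists_place_below_toBar (v : Place Qbar (FN N)) :
    ∃ w : Place L (modularFunctionFieldFullC L N),
      (∀ x : modularFunctionFieldFullC L N, v.ord (H99.toBar L N x) = w.ord x) ∧
      (∀ x : modularFunctionFieldFullC L N,
        x ∈ w.toValuationSubring ↔ H99.toBar L N x ∈ v.toValuationSubring) := by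
  letI := H99.toBarAlgebra L N
  haveI := H99.isScalarTower_toBar L N
  haveI : CharZero L :=
    (RingHom.charZero_iff (algebraMap L Qbar).injective).mpr inferInstance
  have hgen := H99.adjoin_range_toBar_eq_top L N
  have hnt := exists_ord_algebraMap_ne_zero (K := L) hgen v
  obtain ⟨t, ht1⟩ := exists_ord_toBar_eq_one L N v
  have ht1' : v.ord (algebraMap (modularFunctionFieldFullC L N) (FN N) t) = 1 := ht1
  have he1 : ((H95.ramIdx (K := L) v hnt : ℕ) : ℤ) = 1 := by
    rw [H95.ord_algebraMap_eq (K := L) v hnt] at ht1'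
    exact Int.eq_one_of_mul_eq_one_right (by positivity) ht1'
  refine ⟨H95.restrictPlace (K := L) v hnt, fun x => ?_, fun x => ?_⟩
  · show v.ord (algebraMap (modularFunctionFieldFullC L N) (FN N) x) = _
    rw [H95.ord_algebraMap_eq (K := L) v hnt, he1, one_mul]
  · exact H95.mem_restrictPlace_iff (K := L) v hnt x

end Instance

end Fermat.Agent.S36.H36
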