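/-
S36 / base layer (helper45), row (D1b), part 1: relative conjugacy of places and inertia lifting.

* `exists_smul_eq_of_agree` : two valuation subrings of `Qbar` over the rational prime `ℓ` that
  induce the same ideal on the integers of an ARBITRARY intermediate field `F` of `Qbar / ℚ`
  (no finiteness) are conjugate under `Gal(Qbar / F)`  (profinite conjugacy, Mathlib).
* `exists_inertia_lift` : `E / K1` normal (`K1 = S18.H45.unrCyclo ℓ`), `τ ∈ Aut(E / K1)` stabilising
  `A ∩ E`  ==>  `τ` is the restriction of an element of the frozen inertia group of `A`.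
-/
import Mathlib
import Fermat.Agent.S14.H54_Places
import Fermat.Agent.S18.H45_InertiaBaseEnlarge

set_option autoImplicit false
set_option linter.unusedSectionVars false
set_option linter.style.haveILetI false

namespace Fermat.Agent.S36.H45

open Fermat.Agent.S54 Fermat.Agent.S14.H54 Fermat.Agent.S18.H45
open IsLocalRing
open scoped Pointwise

noncomputable section

local notation "Qbar" => AlgebraicClosure ℚ

attribute [local instance] isAlgebraic_Qbar isAlgClosure_Qbar isGalois_Qbar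

/-! ### integers of an intermediate field inside `Zbar` -/

section Rel

variable (F : IntermediateField ℚ Qbar)

/-- The algebraic integers lying in `F`, as a subalgebra of `Zbar`. -/
def intSub : Subalgebra ℤ Zbar where
  carrier := {b | (b : Qbar) ∈ F}
  mul_mem' := fun {a b} ha hb => by
    show ((a * b : Zbar) : Qbar) ∈ F
    push_cast
    exact F.mul_mem ha hb
  add_mem' := fun {a b} ha hb => by
    show ((a + b : Zbar) : Qbar) ∈ F
    push_cast
    exact F.add_mem ha hb
  algebraMap_mem' := fun n => by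
    show ((algebraMap ℤ Zbar n : Zbar) : Qbar) ∈ F
    have : ((algebraMap ℤ Zbar n : Zbar) : Qbar) = (n : Qbar) := by
      simp
    rw [this]
    exact intCast_mem F n

theorem mem_intSub {b : Zbar} : b ∈ intSub F ↔ (b : Qbar) ∈ F := Iff.rfl

theorem fixingSubgroup_isClosed' : IsClosed (F.fixingSubgroup : Set GQ) :=
  InfiniteGalois.fixingSubgroup_isClosed _

instance fixingSubgroup_compactSpace : CompactSpace (F.fixingSubgroup) :=
  isCompact_iff_compactSpace.mp (fixingSubgroup_isClosed' F).isCompact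

theorem smul_coe_intSub (σ : F.fixingSubgroup) (x : intSub F) :
    σ • (x : Zbar) = (x : Zbar) := by
  apply Subtype.ext
  exact (IntermediateField.mem_fixingSubgroup_iff F σ.1).mp σ.2 _ x.2

theorem smulCommClass_fixingSubgroup :
    SMulCommClass (F.fixingSubgroup) (intSub F) Zbar := by
  refine ⟨fun σ a b => ?_⟩
  show σ • ((a : Zbar) * b) = (a : Zbar) * σ • b
  rw [smul_mul', smul_coe_intSub]

theorem isInvariant_fixingSubgroup :
    Algebra.IsInvariant (intSub F) Zbar (F.fixingSubgroup) := by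
  refine ⟨fun b hb => ?_⟩
  have h1 : (b : Qbar) ∈ IntermediateField.fixedField (F.fixingSubgroup) := by
    rw [IntermediateField.mem_fixedField_iff]
    intro σ hσ
    exact congrArg Subtype.val (hb ⟨σ, hσ⟩)
  rw [InfiniteGalois.fixedField_fixingSubgroup] at h1
  exact ⟨⟨b, h1⟩, rfl⟩

theorem continuousSMul_fixingSubgroup [TopologicalSpace Zbar] [DiscreteTopology Zbar] :
    ContinuousSMul (F.fixingSubgroup) Zbar := by
  haveI := continuousSMul_Zbar
  infer_instance

/-- **Relative conjugacy of places.** Two places of `Qbar` over `ℓ` inducing the same prime on the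
integers of `F` are conjugate under `Gal(Qbar / F)`. -/
theorem exists_smul_eq_of_agree {A A' : ValuationSubring Qbar} {ℓ : ℕ} (hℓ : ℓ.Prime)
    (hA : A.LiesOverPrime ℓ)
    (h : ∀ b : Zbar, (b : Qbar) ∈ F → ((b : Qbar) ∈ A.nonunits ↔ (b : Qbar) ∈ A'.nonunits)) :
    ∃ τ ∈ F.fixingSubgroup, τ • A = A' := by
  classical
  haveI := smulCommClass_fixingSubgroup F
  haveI := isInvariant_fixingSubgroup F
  letI : TopologicalSpace Zbar := ⊥
  haveI : DiscreteTopology Zbar := ⟨rfl⟩
  haveI := continuousSMul_fixingSubgroup F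
  have hunder : (idealOf A).under (intSub F) = (idealOf A').under (intSub F) := by
    ext ⟨b, hb⟩
    rw [Ideal.under_def, Ideal.under_def, Ideal.mem_comap, Ideal.mem_comap]
    show (b : Zbar) ∈ idealOf A ↔ (b : Zbar) ∈ idealOf A'
    rw [mem_idealOf, mem_idealOf]
    exact h b hb
  obtain ⟨τ, hτ⟩ := Algebra.IsInvariant.exists_smul_of_under_eq_of_profinite
    (A := intSub F) (G := F.fixingSubgroup) (idealOf A) (idealOf A') hunder
  refine ⟨τ.1, τ.2, ?_⟩
  have hτA : (τ.1 • A).LiesOverPrime ℓ := (liesOverPrime_smul_iff τ.1 A ℓ).mpr hA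
  apply eq_of_idealOf_eq hℓ hτA
  rw [idealOf_smul]
  exact hτ.symm

end Rel

/-! ### inertia lifting over `K1 = ℚ(μ_m : ℓ ∤ m)` -/

section Lift

variable {A : ValuationSubring Qbar} {ℓ : ℕ} (hℓ : ℓ.Prime) (hA : A.LiesOverPrime ℓ)

include hℓ hA in
/-- Every element of `A` is congruent, modulo the nonunits of `A`, to an element of
`A1 = A ∩ K1`. -/
theorem exists_A0_sub_mem_nonunits {x : Qbar} (hx : x ∈ A) :
    ∃ a : A0 A ℓ, x - ((a : unrCyclo ℓ) : Qbar) ∈ A.nonunits := by
  obtain ⟨a, ha⟩ := resA0_surjective hℓ hA (residue A ⟨x, hx⟩)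
  refine ⟨a, ?_⟩
  have h1 : residue A (⟨x, hx⟩ - inclA0 A ℓ a) = 0 := by
    rw [map_sub, ← ha, resA0_apply, sub_self]
  rw [residue_eq_zero_iff] at h1
  exact (ValuationSubring.coe_mem_nonunits_iff (A := A)).mpr h1

include hℓ hA in
/-- If `σ` stabilises `A` and fixes `K1` pointwise, then `σ` lies in the frozen inertia group. -/
theorem mem_inertia_of_stabilises_of_fixes {σ : Qbar ≃ₐ[ℚ] Qbar}
    (hσA : σ • A = A) (hσK : ∀ a : unrCyclo ℓ, σ (a : Qbar) = a) :
    σ ∈ A.inertiaSubgroupIn ℚ := by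
  have hdec : σ ∈ A.decompositionSubgroup ℚ := hσA
  rw [mem_inertiaSubgroupIn_iff]
  refine ⟨hdec, fun x hx => ?_⟩
  obtain ⟨a, ha⟩ := exists_A0_sub_mem_nonunits hℓ hA hx
  have h1 : σ (x - ((a : unrCyclo ℓ) : Qbar)) ∈ A.nonunits :=
    (apply_mem_nonunits_iff hdec (x - ((a : unrCyclo ℓ) : Qbar))).mpr ha
  have h2 : σ x - x = σ (x - ((a : unrCyclo ℓ) : Qbar)) - (x - ((a : unrCyclo ℓ) : Qbar)) := by
    rw [map_sub, hσK]
    ring
  rw [h2]
  exact A.nonunits.sub_mem h1 ha

variable (E : IntermediateField (unrCyclo ℓ) Qbar)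

/-- An automorphism of `E` over `K1` which maps `A ∩ E` into itself in both directions also
preserves the nonunits. -/
theorem apply_mem_nonunits_iff_of_stabilises (τ : E ≃ₐ[unrCyclo ℓ] E)
    (hτ : ∀ z : E, ((τ z : E) : Qbar) ∈ A ↔ ((z : E) : Qbar) ∈ A) (z : E) :
    ((τ z : E) : Qbar) ∈ A.nonunits ↔ ((z : E) : Qbar) ∈ A.nonunits := by
  rw [ValuationSubring.mem_nonunits_iff_or, ValuationSubring.mem_nonunits_iff_or]
  have h1 : (((τ z : E) : Qbar))⁻¹ = ((τ z⁻¹ : E) : Qbar) := by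
    rw [map_inv₀]
    push_cast
    rfl
  have h2 : (((z : E) : Qbar))⁻¹ = ((z⁻¹ : E) : Qbar) := by
    push_cast
    rfl
  rw [h1, h2, hτ]
  have h3 : ((τ z : E) : Qbar) = 0 ↔ ((z : E) : Qbar) = 0 := by
    constructor
    · intro h
      have : τ z = 0 := by exact_mod_cast h
      have hz : z = 0 := by simpa using this
      rw [hz]; rfl
    · intro h
      have : z = 0 := by exact_mod_cast h
      rw [this, map_zero]; rfl
  rw [h3]

include hℓ hA in
/-- **Inertia lifting.** `E / K1` normal, `τ ∈ Aut(E / K1)` stabilising `A ∩ E`. Then `τ` is the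
restriction to `E` of an element of the frozen inertia group of `A`. -/
theorem exists_inertia_lift [Normal (unrCyclo ℓ) E] (τ : E ≃ₐ[unrCyclo ℓ] E)
    (hτ : ∀ z : E, ((τ z : E) : Qbar) ∈ A ↔ ((z : E) : Qbar) ∈ A) :
    ∃ σ : Qbar ≃ₐ[ℚ] Qbar, σ ∈ A.inertiaSubgroupIn ℚ ∧
      ∀ z : E, σ ((z : E) : Qbar) = ((τ z : E) : Qbar) := by
  haveI : Normal (unrCyclo ℓ) Qbar := IsAlgClosure.normal _ _
  let τ1 : Qbar ≃ₐ[unrCyclo ℓ] Qbar := τ.liftNormal Qbar
  have hτ1 : ∀ z : E, τ1 ((z : E) : Qbar) = ((τ z : E) : Qbar) :=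
    fun z => τ.liftNormal_commutes Qbar z
  let σ0 : GQ := τ1.restrictScalars ℚ
  have hσ0 : ∀ x : Qbar, σ0 x = τ1 x := fun _ => rfl
  have hσ0K : ∀ a : unrCyclo ℓ, σ0 (a : Qbar) = a := fun a => τ1.commutes a
  let A' : ValuationSubring Qbar := σ0⁻¹ • A
  have hnuA' : ∀ x : Qbar, x ∈ A'.nonunits ↔ σ0 x ∈ A.nonunits := by
    intro x
    rw [mem_nonunits_smul_iff, inv_inv]
  let F : IntermediateField ℚ Qbar := E.restrictScalars ℚ
  have hFmem : ∀ x : Qbar, x ∈ F ↔ x ∈ E := fun x => IntermediateField.mem_restrictScalars ℚ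
  obtain ⟨ρ, hρF, hρ⟩ := exists_smul_eq_of_agree F hℓ hA (A' := A') (fun b hb => by
    have hbE : (b : Qbar) ∈ E := (hFmem _).mp hb
    rw [hnuA', hσ0, hτ1 ⟨(b : Qbar), hbE⟩]
    exact (apply_mem_nonunits_iff_of_stabilises E τ hτ ⟨(b : Qbar), hbE⟩).symm)
  have hρfix : ∀ x : Qbar, x ∈ E → ρ x = x := fun x hx =>
    (IntermediateField.mem_fixingSubgroup_iff F ρ).mp hρF x ((hFmem x).mpr hx)
  refine ⟨σ0 * ρ, ?_, fun z => ?_⟩
  · apply mem_inertia_of_stabilises_of_fixes hℓ hA
    · rw [mul_smul, hρ]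
      show σ0 • (σ0⁻¹ • A) = A
      rw [smul_inv_smul]
    · intro a
      show σ0 (ρ (a : Qbar)) = a
      have haE : ((a : unrCyclo ℓ) : Qbar) ∈ E := (algebraMap (unrCyclo ℓ) E a).2
      rw [hρfix _ haE, hσ0K]
  · show σ0 (ρ ((z : E) : Qbar)) = _
    rw [hρfix _ z.2, hσ0, hτ1]

end Lift


end

end Fermat.Agent.S36.H45
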