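/-
S36 / base layer (helper45), row (D1b), part 2: the fixed field of inertia is unramified.

`K1 = S18.H45.unrCyclo ℓ`, `A` a valuation subring of `Qbar` over `ℓ`, `E0 / K1` finite inside `Qbar`
such that every element of `E0` is fixed by the frozen inertia group of `A`.  Then `ℓ` is a
uniformiser of `A ∩ E0`:

* `exists_unrCyclo_valuation_eq` : every `x ∈ E0`, `x ≠ 0`, has the `A`-valuation of an element of `K1`;
* `maximalIdeal_cutOver_eq_span_natCast_of_fixed` :
    `maximalIdeal (cutOver A E0) = span {ℓ}`  (+ `irreducible_natCast_cutOver_of_fixed`).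

Proof: classical ('the decomposition field is an immediate extension'), with the residue field of
`A ∩ K1` algebraically closed so that inertia = decomposition: trace from a finite Galois `E ⊇ E0`
of `ε * x`, where `ε` is close to `1` at `A` and close to `0` at the conjugate places.
-/
import Mathlib
import Fermat.Agent.S36.H45_RelConj
import Fermat.Agent.S05.H81_Galois

set_option autoImplicit false
set_option linter.unusedSectionVars false
set_option linter.style.haveILetI false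

namespace Fermat.Agent.S36.H45

open Fermat.Agent.S54 Fermat.Agent.S14.H54 Fermat.Agent.S18.H45
open IsLocalRing
open scoped Pointwise

noncomputable section

local notation "Qbar" => AlgebraicClosure ℚ

attribute [local instance] isAlgebraic_Qbar isAlgClosure_Qbar isGalois_Qbar

variable (A : ValuationSubring Qbar) {ℓ : ℕ} (hℓ : ℓ.Prime) (hA : A.LiesOverPrime ℓ)

variable (E : IntermediateField (unrCyclo ℓ) Qbar)

/-- `τ ∈ Aut(E / K1)` stabilises `A ∩ E`. -/
def Stab (τ : E ≃ₐ[unrCyclo ℓ] E) : Prop :=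
  ∀ z : E, ((τ z : E) : Qbar) ∈ A ↔ ((z : E) : Qbar) ∈ A

variable {A E}

theorem stab_one : Stab A E 1 := fun _ => Iff.rfl

theorem Stab.inv {τ : E ≃ₐ[unrCyclo ℓ] E} (h : Stab A E τ) : Stab A E τ⁻¹ := by
  intro z
  have h1 := h (τ⁻¹ z)
  have h2 : τ (τ⁻¹ z) = z := by
    change (τ * τ⁻¹) z = z
    rw [mul_inv_cancel]; rfl
  rw [h2] at h1
  exact h1.symm

/-- An automorphism of finite order mapping `A ∩ E` into itself stabilises it. -/
theorem stab_of_forall_mem [Finite (E ≃ₐ[unrCyclo ℓ] E)] {τ : E ≃ₐ[unrCyclo ℓ] E}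
    (h : ∀ z : E, ((z : E) : Qbar) ∈ A → ((τ z : E) : Qbar) ∈ A) : Stab A E τ := by
  intro z
  refine ⟨fun hz => ?_, h z⟩
  have hpow : ∀ n : ℕ, ∀ y : E, ((y : E) : Qbar) ∈ A → (((τ ^ n) y : E) : Qbar) ∈ A := by
    intro n
    induction n with
    | zero => intro y hy; simpa using hy
    | succ n ih =>
      intro y hy
      have : (τ ^ (n + 1)) y = τ ((τ ^ n) y) := by
        rw [pow_succ']; rfl
      rw [this]
      exact h _ (ih y hy)
  have hpos : 0 < orderOf τ := orderOf_pos τ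
  have h1 := hpow (orderOf τ - 1) (τ z) hz
  have h2 : (τ ^ (orderOf τ - 1)) (τ z) = z := by
    have : (τ ^ (orderOf τ - 1)) (τ z) = (τ ^ (orderOf τ - 1) * τ) z := rfl
    rw [this, ← pow_succ, Nat.sub_add_cancel hpos, pow_orderOf_eq_one]
    rfl
  rw [h2] at h1
  exact h1

theorem exists_mem_not_mem_of_not_stab [Finite (E ≃ₐ[unrCyclo ℓ] E)]
    {τ : E ≃ₐ[unrCyclo ℓ] E} (h : ¬ Stab A E τ) :
    ∃ z : E, ((z : E) : Qbar) ∈ A ∧ ((τ z : E) : Qbar) ∉ A := by
  by_contra hcon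
  push Not at hcon
  exact h (stab_of_forall_mem hcon)

/-- The separating element: small at `A`, large at the conjugate place. -/
theorem exists_sep [Finite (E ≃ₐ[unrCyclo ℓ] E)] {τ : E ≃ₐ[unrCyclo ℓ] E}
    (h : ¬ Stab A E τ) :
    ∃ t : E, A.valuation ((t : E) : Qbar) < 1 ∧ 1 < A.valuation ((τ t : E) : Qbar) := by
  obtain ⟨z, hz, hτz⟩ := exists_mem_not_mem_of_not_stab h
  have hinv : ¬ Stab A E τ⁻¹ := fun h' => h (by simpa using h'.inv)
  obtain ⟨z', hz', hτz'⟩ := exists_mem_not_mem_of_not_stab hinv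
  -- `y := τ⁻¹ z'` is not in `A`, `τ y = z' ∈ A`
  set y : E := τ⁻¹ z' with hy
  have hτy : τ y = z' := by
    change (τ * τ⁻¹) z' = z'
    rw [mul_inv_cancel]; rfl
  have hvy : 1 < A.valuation ((y : E) : Qbar) := by
    rw [← not_le, A.valuation_le_one_iff]; exact hτz'
  have hvz : A.valuation ((z : E) : Qbar) ≤ 1 := (A.valuation_le_one_iff _).mpr hz
  have hvτz : 1 < A.valuation ((τ z : E) : Qbar) := by
    rw [← not_le, A.valuation_le_one_iff]; exact hτz
  have hvz' : A.valuation ((z' : E) : Qbar) ≤ 1 := (A.valuation_le_one_iff _).mpr hz'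
  have hy0 : ((y : E) : Qbar) ≠ 0 := by
    intro h0
    rw [h0, map_zero] at hvy
    exact not_lt_of_ge zero_le_one hvy
  have hz'0 : ((z' : E) : Qbar) ≠ 0 := by
    intro h0
    have : z' = 0 := by exact_mod_cast h0
    rw [this, map_zero] at hy
    rw [hy] at hy0
    exact hy0 rfl
  refine ⟨y⁻¹ * z, ?_, ?_⟩
  · have e : (((y⁻¹ * z : E) : E) : Qbar) = (((y : E) : Qbar))⁻¹ * ((z : E) : Qbar) := by
      push_cast; rfl
    rw [e, map_mul, map_inv₀]
    have h1 : (A.valuation ((y : E) : Qbar))⁻¹ < 1 := inv_lt_one_of_one_lt₀ hvy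
    calc (A.valuation ((y : E) : Qbar))⁻¹ * A.valuation ((z : E) : Qbar)
        ≤ (A.valuation ((y : E) : Qbar))⁻¹ * 1 := by gcongr
      _ < 1 := by rw [mul_one]; exact h1
  · have e : (((τ (y⁻¹ * z) : E) : E) : Qbar)
        = (((z' : E) : Qbar))⁻¹ * ((τ z : E) : Qbar) := by
      rw [map_mul, map_inv₀, hτy]
      push_cast; rfl
    rw [e, map_mul, map_inv₀]
    have hv0 : A.valuation ((z' : E) : Qbar) ≠ 0 := (A.valuation.ne_zero_iff).mpr hz'0
    have h1 : 1 ≤ (A.valuation ((z' : E) : Qbar))⁻¹ := (one_le_inv₀ (zero_lt_iff.mpr hv0)).mpr hvz'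
    calc (1 : A.ValueGroup) < A.valuation ((τ z : E) : Qbar) := hvτz
      _ = 1 * A.valuation ((τ z : E) : Qbar) := (one_mul _).symm
      _ ≤ (A.valuation ((z' : E) : Qbar))⁻¹ * A.valuation ((τ z : E) : Qbar) := by gcongr

/-! ### consequences of inertia lifting -/

include hℓ hA in
theorem Stab.valuation_eq [Normal (unrCyclo ℓ) E] {τ : E ≃ₐ[unrCyclo ℓ] E} (h : Stab A E τ)
    (z : E) : A.valuation ((τ z : E) : Qbar) = A.valuation ((z : E) : Qbar) := by
  obtain ⟨σ, hσ, hστ⟩ := exists_inertia_lift hℓ hA E τ h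
  rw [← hστ]
  exact Fermat.Agent.S05.H81.valuation_map_eq_of_mem_inertiaSubgroupIn hσ _

include hℓ hA in
theorem Stab.apply_eq_of_fixed [Normal (unrCyclo ℓ) E] {τ : E ≃ₐ[unrCyclo ℓ] E}
    (h : Stab A E τ) {x : E}
    (hx : ∀ σ ∈ A.inertiaSubgroupIn ℚ, σ ((x : E) : Qbar) = ((x : E) : Qbar)) : τ x = x := by
  obtain ⟨σ, hσ, hστ⟩ := exists_inertia_lift hℓ hA E τ h
  apply Subtype.ext
  rw [← hστ]
  exact hx σ hσ

/-! ### generic constants of `A ∩ K1` -/

include hℓ hA in
/-- The residue field of `A` is infinite and is the residue field of `A ∩ K1`: there is a constant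
`a ∈ A ∩ K1` not congruent to any element of a given finite subset of `A`. -/
theorem exists_A0_avoid (T : Finset Qbar) (hT : ∀ s ∈ T, s ∈ A) :
    ∃ a : A0 A ℓ, ∀ s ∈ T, ((a : unrCyclo ℓ) : Qbar) - s ∉ A.nonunits := by
  classical
  let R : Finset (ResidueField A) := T.attach.image (fun s => residue A ⟨s.1, hT s.1 s.2⟩)
  obtain ⟨c, hc⟩ := Infinite.exists_notMem_finset R
  obtain ⟨a, ha⟩ := resA0_surjective hℓ hA c
  refine ⟨a, fun s hs hmem => hc ?_⟩
  have h1 : residue A (inclA0 A ℓ a - ⟨s, hT s hs⟩) = 0 := by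
    rw [residue_eq_zero_iff]
    exact (ValuationSubring.coe_mem_nonunits_iff (A := A)).mp hmem
  rw [map_sub, sub_eq_zero] at h1
  rw [← ha, resA0_apply, h1]
  exact Finset.mem_image.mpr ⟨⟨s, hs⟩, Finset.mem_attach _ _, rfl⟩

/-! ### the uniformiser of `A ∩ E` bounds all small values -/

include hℓ hA in
theorem exists_bound [FiniteDimensional (unrCyclo ℓ) E] :
    ∃ ϖ : E, A.valuation ((ϖ : E) : Qbar) < 1 ∧ ((ϖ : E) : Qbar) ≠ 0 ∧
      (∀ z : E, A.valuation ((z : E) : Qbar) < 1 →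
        A.valuation ((z : E) : Qbar) ≤ A.valuation ((ϖ : E) : Qbar)) ∧
      (∀ z : E, ((z : E) : Qbar) ≠ 0 →
        ∃ N : ℕ, A.valuation ((ϖ : E) : Qbar) ^ N < A.valuation ((z : E) : Qbar)) := by
  haveI := isDiscreteValuationRing_cutOver hℓ hA E
  obtain ⟨π, e, u, hπ, he, hu, hmax⟩ := exists_uniformizer_cutOver hℓ hA E
  have hπlt : A.valuation (((π : cutOver A E) : E) : Qbar) < 1 := by
    rw [← mem_maximalIdeal_cutOver_iff, hmax]
    exact Ideal.mem_span_singleton_self π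
  have hπ0 : (((π : cutOver A E) : E) : Qbar) ≠ 0 := by
    intro h0
    have : (π : cutOver A E) = 0 := by
      apply Subtype.ext
      exact_mod_cast h0
    exact hπ.ne_zero this
  have hunit : ∀ w : (cutOver A E)ˣ, A.valuation ((((w : cutOver A E)) : E) : Qbar) = 1 := by
    intro w
    have h1 : A.valuation ((((w : cutOver A E)) : E) : Qbar) ≤ 1 :=
      (A.valuation_le_one_iff _).mpr (mem_cutOver.mp (w : cutOver A E).2)
    have h2 : ¬ A.valuation ((((w : cutOver A E)) : E) : Qbar) < 1 := by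
      rw [← mem_maximalIdeal_cutOver_iff, mem_maximalIdeal, mem_nonunits_iff, not_not]
      exact w.isUnit
    exact le_antisymm h1 (not_lt.mp h2)
  refine ⟨(π : E), hπlt, hπ0, ?_, ?_⟩
  · intro z hz
    have hzA : ((z : E) : Qbar) ∈ A := (A.valuation_le_one_iff _).mp hz.le
    have hzm : (⟨z, hzA⟩ : cutOver A E) ∈ maximalIdeal (cutOver A E) := by
      rw [mem_maximalIdeal_cutOver_iff]; exact hz
    rw [hmax, Ideal.mem_span_singleton] at hzm
    obtain ⟨b, hb⟩ := hzm
    have hb' : ((z : E) : Qbar) = (((π : cutOver A E) : E) : Qbar) * (((b : cutOver A E) : E) : Qbar) := by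
      have := congrArg (fun t : cutOver A E => (((t : cutOver A E) : E) : Qbar)) hb
      simpa using this
    rw [hb', map_mul]
    have hb1 : A.valuation ((((b : cutOver A E)) : E) : Qbar) ≤ 1 :=
      (A.valuation_le_one_iff _).mpr (mem_cutOver.mp b.2)
    calc A.valuation (((π : cutOver A E) : E) : Qbar) * A.valuation ((((b : cutOver A E)) : E) : Qbar)
        ≤ A.valuation (((π : cutOver A E) : E) : Qbar) * 1 := by gcongr
      _ = _ := mul_one _
  · intro z hz0
    by_cases hz : ((z : E) : Qbar) ∈ A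
    · have hz0' : (⟨z, hz⟩ : cutOver A E) ≠ 0 := by
        intro h0
        apply hz0
        have := congrArg (fun t : cutOver A E => (((t : cutOver A E) : E) : Qbar)) h0
        simpa using this
      obtain ⟨n, w, hw⟩ := IsDiscreteValuationRing.eq_unit_mul_pow_irreducible hz0' hπ
      refine ⟨n + 1, ?_⟩
      have hz' : ((z : E) : Qbar)
          = (((w : cutOver A E) : E) : Qbar) * ((((π : cutOver A E) : E) : Qbar)) ^ n := by
        have := congrArg (fun t : cutOver A E => (((t : cutOver A E) : E) : Qbar)) hw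
        simpa using this
      rw [hz', map_mul, map_pow, hunit, one_mul, pow_succ]
      have hpos : 0 < A.valuation (((π : cutOver A E) : E) : Qbar) ^ n :=
        pow_pos (zero_lt_iff.mpr ((A.valuation.ne_zero_iff).mpr hπ0)) n
      calc A.valuation (((π : cutOver A E) : E) : Qbar) ^ n * A.valuation (((π : cutOver A E) : E) : Qbar)
          < A.valuation (((π : cutOver A E) : E) : Qbar) ^ n * 1 := by
            exact mul_lt_mul_of_pos_left hπlt hpos
        _ = _ := mul_one _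
    · refine ⟨0, ?_⟩
      rw [pow_zero, ← not_le, A.valuation_le_one_iff]
      exact hz

/-! ### one factor of the approximating element -/

include hℓ hA in
/-- For `t ∈ E`, `t ≠ 0`, `v t < 1`, and `N`, the element `f = a / (a + t ^ N)` (`a` a generic
constant) is `≡ 1` at `A` up to `v t ^ N`, integral at every conjugate place, and at the conjugate
place `σ` it is bounded by `(v (σ t))⁻¹ ^ N`. -/
theorem exists_factor [FiniteDimensional (unrCyclo ℓ) E] (t : E)
    (ht0 : t ≠ 0) (ht : A.valuation ((t : E) : Qbar) < 1) (N : ℕ) :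
    ∃ f : E, A.valuation (((f : E) : Qbar) - 1) ≤ A.valuation ((t : E) : Qbar) ^ N ∧
      (∀ σ : E ≃ₐ[unrCyclo ℓ] E, A.valuation ((σ f : E) : Qbar) ≤ 1) ∧
      (∀ σ : E ≃ₐ[unrCyclo ℓ] E,
        A.valuation ((σ f : E) : Qbar) ≤ (A.valuation ((σ t : E) : Qbar))⁻¹ ^ N) := by
  classical
  let T : Finset Qbar :=
    insert 0 (Finset.univ.image (fun σ : E ≃ₐ[unrCyclo ℓ] E => - (((σ (t ^ N) : E)) : Qbar))
      |>.filter (fun s => s ∈ A))
  have hT : ∀ s ∈ T, s ∈ A := by
    intro s hs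
    rcases Finset.mem_insert.mp hs with rfl | hs
    · exact A.zero_mem
    · exact (Finset.mem_filter.mp hs).2
  obtain ⟨a, ha⟩ := exists_A0_avoid hℓ hA T hT
  -- `a` is a unit of `A`
  have haA : ((a : unrCyclo ℓ) : Qbar) ∈ A := a.2
  have hva : A.valuation ((a : unrCyclo ℓ) : Qbar) = 1 := by
    have h1 := ha 0 (Finset.mem_insert_self _ _)
    rw [sub_zero, ValuationSubring.mem_nonunits_iff, not_lt] at h1
    exact le_antisymm ((A.valuation_le_one_iff _).mpr haA) h1
  let aE : E := algebraMap (unrCyclo ℓ) E (a : unrCyclo ℓ)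
  have haE : ((aE : E) : Qbar) = ((a : unrCyclo ℓ) : Qbar) := rfl
  -- the key computation at an arbitrary `σ`
  have key : ∀ σ : E ≃ₐ[unrCyclo ℓ] E,
      (((σ (t ^ N) : E) : Qbar) ∈ A →
        A.valuation (((a : unrCyclo ℓ) : Qbar) + ((σ (t ^ N) : E) : Qbar)) = 1) ∧
      (((σ (t ^ N) : E) : Qbar) ∉ A →
        A.valuation (((a : unrCyclo ℓ) : Qbar) + ((σ (t ^ N) : E) : Qbar))
          = A.valuation ((σ (t ^ N) : E) : Qbar)) := by
    intro σ
    constructor
    · intro hs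
      have hmem : - (((σ (t ^ N) : E)) : Qbar) ∈ T := by
        refine Finset.mem_insert_of_mem (Finset.mem_filter.mpr ⟨?_, A.neg_mem _ hs⟩)
        exact Finset.mem_image.mpr ⟨σ, Finset.mem_univ _, rfl⟩
      have h1 := ha _ hmem
      rw [sub_neg_eq_add, ValuationSubring.mem_nonunits_iff, not_lt] at h1
      exact le_antisymm ((A.valuation_le_one_iff _).mpr (A.add_mem _ _ haA hs)) h1
    · intro hs
      have h1 : 1 < A.valuation ((σ (t ^ N) : E) : Qbar) := by
        rw [← not_le, A.valuation_le_one_iff]; exact hs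
      rw [add_comm]
      exact Valuation.map_add_eq_of_lt_left _ (by rw [hva]; exact h1)
  have hden : ∀ σ : E ≃ₐ[unrCyclo ℓ] E,
      A.valuation (((a : unrCyclo ℓ) : Qbar) + ((σ (t ^ N) : E) : Qbar)) ≠ 0 := by
    intro σ
    by_cases hs : ((σ (t ^ N) : E) : Qbar) ∈ A
    · rw [(key σ).1 hs]; exact one_ne_zero
    · rw [(key σ).2 hs]
      intro h0
      apply hs
      rw [(A.valuation.zero_iff).mp h0]
      exact A.zero_mem
  -- the element
  refine ⟨aE / (aE + t ^ N), ?_, ?_, ?_⟩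
  · -- `f - 1 = - t^N / (a + t^N)`
    have hs : ((((1 : E ≃ₐ[unrCyclo ℓ] E) (t ^ N) : E)) : Qbar) ∈ A := by
      rw [← A.valuation_le_one_iff]
      show A.valuation (((t ^ N : E) : E) : Qbar) ≤ 1
      push_cast
      rw [map_pow]
      exact pow_le_one₀ zero_le ht.le
    have h1 := (key 1).1 hs
    have h1' : A.valuation (((a : unrCyclo ℓ) : Qbar) + (((t : E) : Qbar)) ^ N) = 1 := by
      have e : ((((1 : E ≃ₐ[unrCyclo ℓ] E) (t ^ N) : E)) : Qbar) = (((t : E) : Qbar)) ^ N := by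
        show (((t ^ N : E) : E) : Qbar) = _
        push_cast; rfl
      rw [e] at h1; exact h1
    have hne : ((a : unrCyclo ℓ) : Qbar) + (((t : E) : Qbar)) ^ N ≠ 0 := by
      intro h0
      rw [h0, map_zero] at h1'
      exact zero_ne_one h1'
    have e : (((aE / (aE + t ^ N) : E) : E) : Qbar) - 1
        = - ((((t : E) : Qbar)) ^ N) / (((a : unrCyclo ℓ) : Qbar) + (((t : E) : Qbar)) ^ N) := by
      have e1 : (((aE / (aE + t ^ N) : E) : E) : Qbar)
          = ((a : unrCyclo ℓ) : Qbar) / (((a : unrCyclo ℓ) : Qbar) + (((t : E) : Qbar)) ^ N) := by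
        push_cast; rfl
      rw [e1]
      field_simp
      ring
    rw [e, map_div₀, h1', div_one, Valuation.map_neg, map_pow]
  · intro σ
    have e : (((σ (aE / (aE + t ^ N)) : E) : E) : Qbar)
        = ((a : unrCyclo ℓ) : Qbar) / (((a : unrCyclo ℓ) : Qbar) + ((σ (t ^ N) : E) : Qbar)) := by
      rw [map_div₀, map_add, AlgEquiv.commutes]
      push_cast; rfl
    rw [e, map_div₀, hva]
    by_cases hs : ((σ (t ^ N) : E) : Qbar) ∈ A
    · rw [(key σ).1 hs, div_one]
    · rw [(key σ).2 hs, one_div]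
      have h1 : 1 < A.valuation ((σ (t ^ N) : E) : Qbar) := by
        rw [← not_le, A.valuation_le_one_iff]; exact hs
      exact (inv_lt_one_of_one_lt₀ h1).le
  · intro σ
    have e : (((σ (aE / (aE + t ^ N)) : E) : E) : Qbar)
        = ((a : unrCyclo ℓ) : Qbar) / (((a : unrCyclo ℓ) : Qbar) + ((σ (t ^ N) : E) : Qbar)) := by
      rw [map_div₀, map_add, AlgEquiv.commutes]
      push_cast; rfl
    have e2 : A.valuation ((σ (t ^ N) : E) : Qbar) = A.valuation ((σ t : E) : Qbar) ^ N := by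
      rw [map_pow]
      push_cast
      rw [map_pow]
    have hσt0 : A.valuation ((σ t : E) : Qbar) ≠ 0 := by
      rw [A.valuation.ne_zero_iff]
      intro h0
      have : σ t = 0 := by exact_mod_cast h0
      exact ht0 (by simpa using this)
    rw [e, map_div₀, hva, inv_pow, ← e2]
    by_cases hs : ((σ (t ^ N) : E) : Qbar) ∈ A
    · rw [(key σ).1 hs, div_one]
      have h1 : A.valuation ((σ (t ^ N) : E) : Qbar) ≤ 1 := (A.valuation_le_one_iff _).mpr hs
      have h0 : A.valuation ((σ (t ^ N) : E) : Qbar) ≠ 0 := by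
        rw [e2]; exact pow_ne_zero _ hσt0
      exact (one_le_inv₀ (zero_lt_iff.mpr h0)).mpr h1
    · rw [(key σ).2 hs, one_div]

/-! ### products of `1`-units, the approximating element -/

theorem valuation_prod_sub_one_le {ι : Type*} (S : Finset ι) (f : ι → Qbar) (η : A.ValueGroup)
    (hη : η ≤ 1) (h : ∀ i ∈ S, A.valuation (f i - 1) ≤ η) :
    A.valuation (∏ i ∈ S, f i - 1) ≤ η := by
  classical
  induction S using Finset.induction_on with
  | empty => simp
  | insert a S ha ih =>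
    rw [Finset.prod_insert ha]
    have h1 := h a (Finset.mem_insert_self _ _)
    have h2 := ih (fun i hi => h i (Finset.mem_insert_of_mem hi))
    have e : f a * ∏ i ∈ S, f i - 1 = f a * (∏ i ∈ S, f i - 1) + (f a - 1) := by ring
    rw [e]
    have hfa : A.valuation (f a) ≤ 1 := by
      have e2 : f a = (f a - 1) + 1 := by ring
      rw [e2]
      exact (A.valuation.map_add _ _).trans (max_le (h1.trans hη) (by simp))
    refine (A.valuation.map_add _ _).trans (max_le ?_ h1)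
    rw [map_mul]
    calc A.valuation (f a) * A.valuation (∏ i ∈ S, f i - 1) ≤ 1 * η := mul_le_mul' hfa h2
      _ = η := one_mul _

include hℓ hA in
/-- **Approximation.** For every `N` there is `ε ∈ E` which is `≡ 1` at `A` and `≡ 0` at every
conjugate place different from `A ∩ E`, both up to `v ϖ ^ N`. -/
theorem exists_approx [FiniteDimensional (unrCyclo ℓ) E] (ϖ : E)
    (hϖlt : A.valuation ((ϖ : E) : Qbar) < 1)
    (hϖle : ∀ z : E, A.valuation ((z : E) : Qbar) < 1 →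
        A.valuation ((z : E) : Qbar) ≤ A.valuation ((ϖ : E) : Qbar)) (N : ℕ) :
    ∃ ε : E, A.valuation (((ε : E) : Qbar) - 1) ≤ A.valuation ((ϖ : E) : Qbar) ^ N ∧
      ∀ σ : E ≃ₐ[unrCyclo ℓ] E, ¬ Stab A E σ →
        A.valuation ((σ ε : E) : Qbar) ≤ A.valuation ((ϖ : E) : Qbar) ^ N := by
  classical
  haveI : Finite (E ≃ₐ[unrCyclo ℓ] E) := inferInstance
  haveI : Fintype {τ : E ≃ₐ[unrCyclo ℓ] E // ¬ Stab A E τ} := Fintype.ofFinite _
  have hsep : ∀ τ : {τ : E ≃ₐ[unrCyclo ℓ] E // ¬ Stab A E τ},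
      ∃ t : E, A.valuation ((t : E) : Qbar) < 1 ∧ 1 < A.valuation ((τ.1 t : E) : Qbar) :=
    fun τ => exists_sep τ.2
  choose t ht using hsep
  have ht0 : ∀ τ, t τ ≠ 0 := by
    intro τ h0
    have h1 := (ht τ).2
    rw [h0, map_zero] at h1
    have : A.valuation (((0 : E) : E) : Qbar) = 0 := by simp
    rw [this] at h1
    exact not_lt_of_ge zero_le_one h1
  have hfac := fun τ => exists_factor hℓ hA (t τ) (ht0 τ) (ht τ).1 N
  choose f hf using hfac
  refine ⟨∏ τ, f τ, ?_, ?_⟩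
  · have e : (((∏ τ, f τ : E) : E) : Qbar) = ∏ τ, ((f τ : E) : Qbar) := by
      push_cast; rfl
    rw [e]
    apply valuation_prod_sub_one_le
    · exact pow_le_one₀ zero_le hϖlt.le
    · intro τ _
      exact (hf τ).1.trans (pow_le_pow_left₀ zero_le (hϖle _ (ht τ).1) N)
  · intro σ hσ
    have e : (((σ (∏ τ, f τ) : E) : E) : Qbar) = ∏ τ, ((σ (f τ) : E) : Qbar) := by
      rw [map_prod]
      push_cast; rfl
    rw [e, map_prod]
    have hmem : (⟨σ, hσ⟩ : {τ : E ≃ₐ[unrCyclo ℓ] E // ¬ Stab A E τ}) ∈ Finset.univ :=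
      Finset.mem_univ _
    rw [← Finset.mul_prod_erase _ _ hmem]
    have h1 : ∏ τ ∈ Finset.univ.erase (⟨σ, hσ⟩ : {τ : E ≃ₐ[unrCyclo ℓ] E // ¬ Stab A E τ}),
        A.valuation ((σ (f τ) : E) : Qbar) ≤ 1 :=
      Finset.prod_le_one' (fun τ _ => (hf τ).2.1 σ)
    have h2 : A.valuation ((σ (f ⟨σ, hσ⟩) : E) : Qbar)
        ≤ A.valuation ((ϖ : E) : Qbar) ^ N := by
      refine ((hf ⟨σ, hσ⟩).2.2 σ).trans (pow_le_pow_left₀ zero_le ?_ N)
      have h3 : 1 < A.valuation ((σ (t ⟨σ, hσ⟩) : E) : Qbar) := (ht ⟨σ, hσ⟩).2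
      have e3 : (A.valuation ((σ (t ⟨σ, hσ⟩) : E) : Qbar))⁻¹
          = A.valuation ((((σ (t ⟨σ, hσ⟩))⁻¹ : E) : E) : Qbar) := by
        rw [← map_inv₀]
        push_cast; rfl
      rw [e3]
      apply hϖle
      rw [← e3]
      exact inv_lt_one_of_one_lt₀ h3
    calc A.valuation ((σ (f ⟨σ, hσ⟩) : E) : Qbar) *
          ∏ τ ∈ Finset.univ.erase (⟨σ, hσ⟩ : {τ : E ≃ₐ[unrCyclo ℓ] E // ¬ Stab A E τ}),
            A.valuation ((σ (f τ) : E) : Qbar)
        ≤ A.valuation ((ϖ : E) : Qbar) ^ N * 1 := mul_le_mul' h2 h1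
      _ = _ := mul_one _

/-- Finitely many targets are beaten by one power of `v ϖ`. -/
theorem exists_pow_lt_finset (ϖ : E) (hϖlt : A.valuation ((ϖ : E) : Qbar) < 1)
    (harch : ∀ z : E, ((z : E) : Qbar) ≠ 0 →
        ∃ N : ℕ, A.valuation ((ϖ : E) : Qbar) ^ N < A.valuation ((z : E) : Qbar))
    (Z : Finset E) (hZ : ∀ z ∈ Z, ((z : E) : Qbar) ≠ 0) :
    ∃ N : ℕ, ∀ z ∈ Z, A.valuation ((ϖ : E) : Qbar) ^ N < A.valuation ((z : E) : Qbar) := by
  classical
  induction Z using Finset.induction_on with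
  | empty => exact ⟨0, fun z hz => absurd hz (Finset.notMem_empty z)⟩
  | insert a Z ha ih =>
    obtain ⟨N1, hN1⟩ := ih (fun z hz => hZ z (Finset.mem_insert_of_mem hz))
    obtain ⟨N2, hN2⟩ := harch a (hZ a (Finset.mem_insert_self _ _))
    refine ⟨max N1 N2, fun z hz => ?_⟩
    rcases Finset.mem_insert.mp hz with rfl | hz
    · exact lt_of_le_of_lt (pow_le_pow_of_le_one zero_le hϖlt.le (le_max_right _ _)) hN2
    · exact lt_of_le_of_lt (pow_le_pow_of_le_one zero_le hϖlt.le (le_max_left _ _)) (hN1 z hz)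

/-! ### the trace argument -/

include hℓ hA in
/-- **The fixed field of inertia is an immediate extension of `K1`** (Galois level): an element
`x ≠ 0` of a finite Galois `E / K1` fixed by the frozen inertia group of `A` has the `A`-valuation
of an element of `K1`. -/
theorem exists_unrCyclo_valuation_eq_of_mem [FiniteDimensional (unrCyclo ℓ) E]
    [IsGalois (unrCyclo ℓ) E] (x : E) (hx0 : x ≠ 0)
    (hx : ∀ σ ∈ A.inertiaSubgroupIn ℚ, σ ((x : E) : Qbar) = ((x : E) : Qbar)) :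
    ∃ b : unrCyclo ℓ, b ≠ 0 ∧
      A.valuation ((x : E) : Qbar) = A.valuation ((b : unrCyclo ℓ) : Qbar) := by
  classical
  obtain ⟨ϖ, hϖlt, hϖ0, hϖle, harch⟩ := exists_bound hℓ hA (E := E)
  have hxQ0 : ((x : E) : Qbar) ≠ 0 := by
    intro h0
    apply hx0
    exact_mod_cast h0
  have hvx0 : A.valuation ((x : E) : Qbar) ≠ 0 := (A.valuation.ne_zero_iff).mpr hxQ0
  have hσx0 : ∀ σ : E ≃ₐ[unrCyclo ℓ] E, ((σ x : E) : Qbar) ≠ 0 := by
    intro σ h0
    have : σ x = 0 := by exact_mod_cast h0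
    exact hx0 (by simpa using this)
  let D : Finset (E ≃ₐ[unrCyclo ℓ] E) := Finset.univ.filter (fun σ => Stab A E σ)
  let S : Finset (E ≃ₐ[unrCyclo ℓ] E) := Finset.univ.filter (fun σ => ¬ Stab A E σ)
  have h1D : (1 : E ≃ₐ[unrCyclo ℓ] E) ∈ D := Finset.mem_filter.mpr ⟨Finset.mem_univ _, stab_one⟩
  have hn : 0 < D.card := Finset.card_pos.mpr ⟨1, h1D⟩
  have hnQ0 : ((D.card : ℕ) : Qbar) ≠ 0 := Nat.cast_ne_zero.mpr hn.ne'
  have hvn0 : A.valuation ((D.card : ℕ) : Qbar) ≠ 0 := (A.valuation.ne_zero_iff).mpr hnQ0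
  -- the targets
  let Z : Finset E := insert ((D.card : ℕ) : E)
    (S.image (fun σ => ((D.card : ℕ) : E) * x / σ x))
  have hZ : ∀ z ∈ Z, ((z : E) : Qbar) ≠ 0 := by
    intro z hz
    rcases Finset.mem_insert.mp hz with rfl | hz
    · have : ((((D.card : ℕ) : E) : E) : Qbar) = ((D.card : ℕ) : Qbar) := by push_cast; rfl
      rw [this]; exact hnQ0
    · obtain ⟨σ, -, rfl⟩ := Finset.mem_image.mp hz
      have : (((((D.card : ℕ) : E) * x / σ x : E) : E) : Qbar)
          = ((D.card : ℕ) : Qbar) * ((x : E) : Qbar) / ((σ x : E) : Qbar) := by push_cast; rfl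
      rw [this]
      exact div_ne_zero (mul_ne_zero hnQ0 hxQ0) (hσx0 σ)
  obtain ⟨N, hN⟩ := exists_pow_lt_finset ϖ hϖlt harch Z hZ
  obtain ⟨ε, hε1, hε2⟩ := exists_approx hℓ hA ϖ hϖlt hϖle N
  -- the trace
  have htr : algebraMap (unrCyclo ℓ) E (Algebra.trace (unrCyclo ℓ) E (ε * x))
      = ∑ σ : E ≃ₐ[unrCyclo ℓ] E, σ (ε * x) := trace_eq_sum_automorphisms (ε * x)
  set a : unrCyclo ℓ := Algebra.trace (unrCyclo ℓ) E (ε * x) with ha
  have haQ : ((a : unrCyclo ℓ) : Qbar)
      = ∑ σ : E ≃ₐ[unrCyclo ℓ] E, ((σ ε : E) : Qbar) * ((σ x : E) : Qbar) := by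
    have h1 : ((a : unrCyclo ℓ) : Qbar) = (((algebraMap (unrCyclo ℓ) E a : E) : E) : Qbar) := rfl
    rw [h1, htr]
    push_cast
    refine Finset.sum_congr rfl (fun σ _ => ?_)
    rw [map_mul]
    push_cast; rfl
  -- split the sum
  have hsplit : ((a : unrCyclo ℓ) : Qbar)
      = ((D.card : ℕ) : Qbar) * ((x : E) : Qbar)
        + (∑ σ ∈ D, (((σ ε : E) : Qbar) - 1) * ((x : E) : Qbar)
          + ∑ σ ∈ S, ((σ ε : E) : Qbar) * ((σ x : E) : Qbar)) := by
    rw [haQ, ← Finset.sum_filter_add_sum_filter_not Finset.univ (fun σ => Stab A E σ)]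
    have hDsum : ∑ σ ∈ D, ((σ ε : E) : Qbar) * ((σ x : E) : Qbar)
        = ((D.card : ℕ) : Qbar) * ((x : E) : Qbar)
          + ∑ σ ∈ D, (((σ ε : E) : Qbar) - 1) * ((x : E) : Qbar) := by
      have h2 : ∀ σ ∈ D, ((σ ε : E) : Qbar) * ((σ x : E) : Qbar)
          = ((x : E) : Qbar) + (((σ ε : E) : Qbar) - 1) * ((x : E) : Qbar) := by
        intro σ hσ
        have hst : Stab A E σ := (Finset.mem_filter.mp hσ).2
        rw [hst.apply_eq_of_fixed hℓ hA hx]
        ring
      rw [Finset.sum_congr rfl h2, Finset.sum_add_distrib, Finset.sum_const, nsmul_eq_mul]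
    rw [hDsum, add_assoc]
  -- estimates
  have hmain : A.valuation (((D.card : ℕ) : Qbar) * ((x : E) : Qbar)) ≠ 0 := by
    rw [map_mul]; exact mul_ne_zero hvn0 hvx0
  have hNn : A.valuation ((ϖ : E) : Qbar) ^ N < A.valuation ((D.card : ℕ) : Qbar) := by
    have := hN _ (Finset.mem_insert_self _ _)
    have e : ((((D.card : ℕ) : E) : E) : Qbar) = ((D.card : ℕ) : Qbar) := by push_cast; rfl
    rwa [e] at this
  have hrestD : A.valuation (∑ σ ∈ D, (((σ ε : E) : Qbar) - 1) * ((x : E) : Qbar))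
      < A.valuation (((D.card : ℕ) : Qbar) * ((x : E) : Qbar)) := by
    apply Valuation.map_sum_lt _ hmain
    intro σ hσ
    have hst : Stab A E σ := (Finset.mem_filter.mp hσ).2
    have e : ((σ ε : E) : Qbar) - 1 = (((σ (ε - 1) : E)) : Qbar) := by
      rw [map_sub, map_one]
      push_cast; rfl
    rw [map_mul, map_mul, e, hst.valuation_eq hℓ hA]
    have e2 : ((((ε - 1 : E)) : E) : Qbar) = ((ε : E) : Qbar) - 1 := by push_cast; rfl
    rw [e2]
    exact mul_lt_mul_of_pos_right (lt_of_le_of_lt hε1 hNn) (zero_lt_iff.mpr hvx0)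
  have hrestS : A.valuation (∑ σ ∈ S, ((σ ε : E) : Qbar) * ((σ x : E) : Qbar))
      < A.valuation (((D.card : ℕ) : Qbar) * ((x : E) : Qbar)) := by
    apply Valuation.map_sum_lt _ hmain
    intro σ hσ
    have hst : ¬ Stab A E σ := (Finset.mem_filter.mp hσ).2
    have hvσx0 : A.valuation ((σ x : E) : Qbar) ≠ 0 := (A.valuation.ne_zero_iff).mpr (hσx0 σ)
    have h3 := hN _ (Finset.mem_insert_of_mem (Finset.mem_image.mpr ⟨σ, hσ, rfl⟩))
    have e : (((((D.card : ℕ) : E) * x / σ x : E) : E) : Qbar)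
        = ((D.card : ℕ) : Qbar) * ((x : E) : Qbar) / ((σ x : E) : Qbar) := by push_cast; rfl
    rw [e, map_div₀] at h3
    rw [map_mul]
    calc A.valuation ((σ ε : E) : Qbar) * A.valuation ((σ x : E) : Qbar)
        ≤ A.valuation ((ϖ : E) : Qbar) ^ N * A.valuation ((σ x : E) : Qbar) :=
          mul_le_mul' (hε2 σ hst) le_rfl
      _ < A.valuation (((D.card : ℕ) : Qbar) * ((x : E) : Qbar)) / A.valuation ((σ x : E) : Qbar)
            * A.valuation ((σ x : E) : Qbar) :=
          mul_lt_mul_of_pos_right h3 (zero_lt_iff.mpr hvσx0)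
      _ = A.valuation (((D.card : ℕ) : Qbar) * ((x : E) : Qbar)) :=
          div_mul_cancel₀ _ hvσx0
  have hva : A.valuation ((a : unrCyclo ℓ) : Qbar)
      = A.valuation (((D.card : ℕ) : Qbar) * ((x : E) : Qbar)) := by
    rw [hsplit]
    apply Valuation.map_add_eq_of_lt_left
    exact lt_of_le_of_lt (A.valuation.map_add _ _) (max_lt hrestD hrestS)
  -- conclusion
  refine ⟨a / ((D.card : ℕ) : unrCyclo ℓ), ?_, ?_⟩
  · intro h0
    have ha0 : a = 0 := by
      have hn0 : ((D.card : ℕ) : unrCyclo ℓ) ≠ 0 := Nat.cast_ne_zero.mpr hn.ne'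
      rcases div_eq_zero_iff.mp h0 with h | h
      · exact h
      · exact absurd h hn0
    rw [ha0] at hva
    have : A.valuation (((0 : unrCyclo ℓ) : unrCyclo ℓ) : Qbar) = 0 := by simp
    rw [this] at hva
    exact hmain hva.symm
  · have e : (((a / ((D.card : ℕ) : unrCyclo ℓ) : unrCyclo ℓ) : unrCyclo ℓ) : Qbar)
        = ((a : unrCyclo ℓ) : Qbar) / ((D.card : ℕ) : Qbar) := by push_cast; rfl
    rw [e, map_div₀, hva, map_mul, mul_comm, mul_div_assoc, div_self hvn0, mul_one]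

/-! ### the statements for a finite `E0 / K1` fixed by inertia -/

variable (E0 : IntermediateField (unrCyclo ℓ) Qbar)

include hℓ hA in
/-- **The fixed field of inertia is an immediate extension of `K1`.** -/
theorem exists_unrCyclo_valuation_eq [FiniteDimensional (unrCyclo ℓ) E0]
    (hfix : ∀ σ ∈ A.inertiaSubgroupIn ℚ, ∀ x : E0, σ ((x : E0) : Qbar) = ((x : E0) : Qbar))
    (x : E0) (hx0 : x ≠ 0) :
    ∃ b : unrCyclo ℓ, b ≠ 0 ∧
      A.valuation ((x : E0) : Qbar) = A.valuation ((b : unrCyclo ℓ) : Qbar) := by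
  obtain ⟨E, hle, hfin, hgal, -⟩ := exists_finite_galois_ge_of_le (ℓ := ℓ) E0 (∅ : Finset Qbar)
  haveI := hfin
  haveI := hgal
  have hx0' : (⟨((x : E0) : Qbar), hle x.2⟩ : E) ≠ 0 := by
    intro h0
    apply hx0
    have h1 : ((x : E0) : Qbar) = 0 := congrArg (fun t : E => ((t : E) : Qbar)) h0
    exact_mod_cast h1
  exact exists_unrCyclo_valuation_eq_of_mem hℓ hA (⟨((x : E0) : Qbar), hle x.2⟩ : E) hx0'
    (fun σ hσ => hfix σ hσ x)

include hℓ hA in
theorem valuation_le_natCast_of_lt_one {b : unrCyclo ℓ}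
    (hb : A.valuation ((b : unrCyclo ℓ) : Qbar) < 1) :
    A.valuation ((b : unrCyclo ℓ) : Qbar) ≤ A.valuation ((ℓ : ℕ) : Qbar) := by
  have hbA : ((b : unrCyclo ℓ) : Qbar) ∈ A := (A.valuation_le_one_iff _).mp hb.le
  let b' : A0 A ℓ := ⟨b, hbA⟩
  have h1 : resA0 A ℓ b' = 0 := by
    rw [resA0_apply, residue_eq_zero_iff]
    exact (A.valuation_lt_one_iff (inclA0 A ℓ b')).mpr hb
  obtain ⟨c, hc⟩ := (resA0_eq_zero_iff_dvd hℓ hA b').mp h1
  have e : ((b : unrCyclo ℓ) : Qbar)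
      = ((ℓ : ℕ) : Qbar) * (((c : A0 A ℓ) : unrCyclo ℓ) : Qbar) := by
    have := congrArg (fun t : A0 A ℓ => (((t : A0 A ℓ) : unrCyclo ℓ) : Qbar)) hc
    simpa using this
  rw [e, map_mul]
  calc A.valuation ((ℓ : ℕ) : Qbar) * A.valuation (((c : A0 A ℓ) : unrCyclo ℓ) : Qbar)
      ≤ A.valuation ((ℓ : ℕ) : Qbar) * 1 :=
        mul_le_mul' le_rfl ((A.valuation_le_one_iff _).mpr c.2)
    _ = _ := mul_one _

include hℓ hA in
/-- **(D1b)** If every element of the finite extension `E0 / K1` is fixed by the frozen inertia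
group of `A`, then `ℓ` generates the maximal ideal of `A ∩ E0`: the extension is unramified. -/
theorem maximalIdeal_cutOver_eq_span_natCast_of_fixed [FiniteDimensional (unrCyclo ℓ) E0]
    (hfix : ∀ σ ∈ A.inertiaSubgroupIn ℚ, ∀ x : E0, σ ((x : E0) : Qbar) = ((x : E0) : Qbar)) :
    maximalIdeal (cutOver A E0) = Ideal.span {((ℓ : ℕ) : cutOver A E0)} := by
  apply le_antisymm
  · intro x hx
    rw [Ideal.mem_span_singleton]
    by_cases hx0 : x = 0
    · rw [hx0]; exact dvd_zero _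
    have hxlt := (mem_maximalIdeal_cutOver_iff E0 x).mp hx
    have hxE0 : (x : E0) ≠ 0 := fun h => hx0 (Subtype.ext h)
    obtain ⟨b, hb0, hb⟩ := exists_unrCyclo_valuation_eq hℓ hA E0 hfix (x : E0) hxE0
    have hle : A.valuation (((x : E0)) : Qbar) ≤ A.valuation ((ℓ : ℕ) : Qbar) := by
      rw [hb]
      exact valuation_le_natCast_of_lt_one hℓ hA (hb ▸ hxlt)
    have hℓ0 : ((ℓ : ℕ) : Qbar) ≠ 0 := Nat.cast_ne_zero.mpr hℓ.ne_zero
    have hvℓ0 : A.valuation ((ℓ : ℕ) : Qbar) ≠ 0 := (A.valuation.ne_zero_iff).mpr hℓ0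
    have hy : ((((x : E0) / ((ℓ : ℕ) : E0) : E0) : E0) : Qbar) ∈ A := by
      rw [← A.valuation_le_one_iff]
      have e : ((((x : E0) / ((ℓ : ℕ) : E0) : E0) : E0) : Qbar)
          = ((x : E0) : Qbar) / ((ℓ : ℕ) : Qbar) := by push_cast; rfl
      rw [e, map_div₀]
      exact (div_le_one₀ (zero_lt_iff.mpr hvℓ0)).mpr hle
    refine ⟨⟨(x : E0) / ((ℓ : ℕ) : E0), hy⟩, ?_⟩
    apply Subtype.ext
    show (x : E0) = ((ℓ : ℕ) : E0) * ((x : E0) / ((ℓ : ℕ) : E0))
    have hℓE : ((ℓ : ℕ) : E0) ≠ 0 := Nat.cast_ne_zero.mpr hℓ.ne_zero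
    field_simp
  · rw [Ideal.span_singleton_le_iff_mem]
    exact natCast_mem_maximalIdeal_cutOver hℓ hA E0

include hℓ hA in
/-- `ℓ` is a uniformiser of `A ∩ E0`. -/
theorem irreducible_natCast_cutOver_of_fixed [FiniteDimensional (unrCyclo ℓ) E0]
    (hfix : ∀ σ ∈ A.inertiaSubgroupIn ℚ, ∀ x : E0, σ ((x : E0) : Qbar) = ((x : E0) : Qbar)) :
    Irreducible ((ℓ : ℕ) : cutOver A E0) := by
  haveI := isDiscreteValuationRing_cutOver hℓ hA E0
  rw [IsDiscreteValuationRing.irreducible_iff_uniformizer]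
  exact maximalIdeal_cutOver_eq_span_natCast_of_fixed hℓ hA E0 hfix

include hℓ hA in
theorem prime_natCast_cutOver_of_fixed [FiniteDimensional (unrCyclo ℓ) E0]
    (hfix : ∀ σ ∈ A.inertiaSubgroupIn ℚ, ∀ x : E0, σ ((x : E0) : Qbar) = ((x : E0) : Qbar)) :
    Prime ((ℓ : ℕ) : cutOver A E0) := by
  haveI := isDiscreteValuationRing_cutOver hℓ hA E0
  exact (irreducible_natCast_cutOver_of_fixed hℓ hA E0 hfix).prime

include hℓ hA in
/-- Every nonzero element of `A ∩ E0` is a unit times a power of `ℓ`. -/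
theorem exists_unit_mul_natCast_pow_of_fixed [FiniteDimensional (unrCyclo ℓ) E0]
    (hfix : ∀ σ ∈ A.inertiaSubgroupIn ℚ, ∀ x : E0, σ ((x : E0) : Qbar) = ((x : E0) : Qbar))
    {x : cutOver A E0} (hx : x ≠ 0) :
    ∃ (n : ℕ) (u : (cutOver A E0)ˣ), x = u * ((ℓ : ℕ) : cutOver A E0) ^ n := by
  haveI := isDiscreteValuationRing_cutOver hℓ hA E0
  exact IsDiscreteValuationRing.eq_unit_mul_pow_irreducible hx
    (irreducible_natCast_cutOver_of_fixed hℓ hA E0 hfix)

end

end Fermat.Agent.S36.H45
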