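/-
helper62 — S36 (E3), second seat: uniformisers at finitely many height-one primes of a noetherian
integrally closed domain, by prime avoidance, and elements with prescribed orders.
Vocabulary of `S34.H56_PrimeVal` (`valuationSubringAt`, `IsUnitAt`), binder block of
`S35.H62_Approx`.  Output shape = helper3's pinned `hord` / `hsep`.
-/
import Mathlib
import Fermat.Agent.S34.H56_PrimeVal

set_option autoImplicit false
set_option linter.unusedSectionVars false
set_option linter.style.haveILetI false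

namespace Fermat.Agent.S36.H62

open Fermat.Agent.CA.H42 Fermat.Agent.S34.H56 IsDiscreteValuationRing

variable {B K : Type*} [CommRing B] [IsDomain B] [Field K] [Algebra B K] [IsFractionRing B K]

/-- The symbolic square `p^(2) = B ∩ (p B_p)^2`. -/
def symbSq (p : Ideal B) [p.IsPrime] : Ideal B :=
  Ideal.comap (algebraMap B (Localization.AtPrime p))
    (IsLocalRing.maximalIdeal (Localization.AtPrime p) ^ 2)

section DVR

variable [IsNoetherianRing B] [IsIntegrallyClosed B]

/-- `τ ∈ p \ p^(2)` maps to an irreducible element (a uniformiser) of the DVR `B_p`. -/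
theorem irreducible_algebraMap_of_not_mem_symbSq (p : Ideal B) [hp : p.IsPrime]
    (h1 : p.height = 1) (τ : B) (hτp : τ ∈ p) (hτ2 : τ ∉ symbSq p) :
    Irreducible (algebraMap B (Localization.AtPrime p) τ) := by
  haveI : IsDiscreteValuationRing (Localization.AtPrime p) :=
    isDiscreteValuationRing_of_height_eq_one p h1 _
  set Bp := Localization.AtPrime p
  obtain ⟨ϖ, hϖ⟩ := IsDiscreteValuationRing.exists_irreducible Bp
  have hm : algebraMap B Bp τ ∈ IsLocalRing.maximalIdeal Bp :=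
    (IsLocalization.AtPrime.to_map_mem_maximal_iff Bp p τ).mpr hτp
  have hm2 : algebraMap B Bp τ ∉ IsLocalRing.maximalIdeal Bp ^ 2 := hτ2
  have h0 : algebraMap B Bp τ ≠ 0 := by
    intro h; rw [h] at hm2; exact hm2 (Ideal.zero_mem _)
  obtain ⟨n, u, hu⟩ := IsDiscreteValuationRing.eq_unit_mul_pow_irreducible h0 hϖ
  have hϖm : ϖ ∈ IsLocalRing.maximalIdeal Bp := by
    rw [IsLocalRing.mem_maximalIdeal]; exact hϖ.not_isUnit
  have hn1 : n = 1 := by
    rcases Nat.lt_or_ge n 1 with h | h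
    · -- `n = 0`: unit, contradiction
      have : n = 0 := by omega
      subst this
      rw [pow_zero, mul_one] at hu
      rw [hu, IsLocalRing.mem_maximalIdeal] at hm
      exact absurd u.isUnit hm
    · rcases Nat.lt_or_ge n 2 with h' | h'
      · omega
      · exfalso
        apply hm2
        rw [hu]
        refine Ideal.mul_mem_left _ _ ?_
        exact Ideal.pow_le_pow_right h' (Ideal.pow_mem_pow hϖm n)
  subst hn1
  rw [hu, pow_one]
  exact (irreducible_units_mul u).mpr hϖ

/-- `p` is not contained in its symbolic square. -/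
theorem not_le_symbSq (p : Ideal B) [hp : p.IsPrime] (h1 : p.height = 1) : ¬ p ≤ symbSq p := by
  haveI : IsDiscreteValuationRing (Localization.AtPrime p) :=
    isDiscreteValuationRing_of_height_eq_one p h1 _
  set Bp := Localization.AtPrime p
  intro hle
  obtain ⟨ϖ, hϖ⟩ := IsDiscreteValuationRing.exists_irreducible Bp
  obtain ⟨⟨t, s⟩, hts⟩ := IsLocalization.surj p.primeCompl ϖ
  have hsu : IsUnit (algebraMap B Bp s) := IsLocalization.map_units Bp s
  have htp : t ∈ p := by
    by_contra h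
    have hu : IsUnit (algebraMap B Bp t) := (IsLocalization.AtPrime.isUnit_to_map_iff Bp p t).mpr h
    rw [← hts] at hu
    exact hϖ.not_isUnit (isUnit_of_mul_isUnit_left hu)
  have h2 : algebraMap B Bp t ∈ IsLocalRing.maximalIdeal Bp ^ 2 := hle htp
  rw [hϖ.maximalIdeal_eq, Ideal.span_singleton_pow, Ideal.mem_span_singleton] at h2
  obtain ⟨c, hc⟩ := h2
  -- `ϖ * s = ϖ^2 * c` so `s = ϖ * c`, contradiction with `s` a unit
  have h3 : ϖ * algebraMap B Bp s = ϖ * (ϖ * c) := by rw [hts, hc]; ring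
  have h4 : algebraMap B Bp (s : B) = ϖ * c := mul_left_cancel₀ hϖ.ne_zero h3
  rw [h4] at hsu
  exact hϖ.not_isUnit (isUnit_of_mul_isUnit_left hsu)

/-- Decomposition in `B`: `a * s = c * τ ^ n` with `s, c ∉ p`, for a uniformiser `τ`. -/
theorem exists_mul_eq_mul_pow (p : Ideal B) [hp : p.IsPrime] (h1 : p.height = 1) (τ : B)
    (hτ : Irreducible (algebraMap B (Localization.AtPrime p) τ)) (a : B) (ha : a ≠ 0) :
    ∃ (n : ℕ) (s c : B), s ∉ p ∧ c ∉ p ∧ a * s = c * τ ^ n := by
  haveI : IsDiscreteValuationRing (Localization.AtPrime p) :=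
    isDiscreteValuationRing_of_height_eq_one p h1 _
  set Bp := Localization.AtPrime p
  have hinj : Function.Injective (algebraMap B Bp) :=
    IsLocalization.injective Bp p.primeCompl_le_nonZeroDivisors
  have ha' : algebraMap B Bp a ≠ 0 := fun h => ha (hinj (by rw [h, map_zero]))
  obtain ⟨n, u, hu⟩ := IsDiscreteValuationRing.eq_unit_mul_pow_irreducible ha' hτ
  obtain ⟨⟨c, s⟩, hcs⟩ := IsLocalization.surj p.primeCompl (u : Bp)
  have hcp : c ∉ p := by
    have hunit : IsUnit (algebraMap B Bp c) := by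
      rw [← hcs]; exact u.isUnit.mul (IsLocalization.map_units Bp s)
    exact (IsLocalization.AtPrime.isUnit_to_map_iff Bp p c).mp hunit
  refine ⟨n, s, c, s.2, hcp, hinj ?_⟩
  rw [map_mul, map_mul, map_pow, hu, ← hcs]; ring

/-- Field form: every nonzero `x : K` is a unit at `p` times an integral power of `τ`. -/
theorem exists_isUnitAt_mul_zpow (p : Ideal B) [hp : p.IsPrime] (h1 : p.height = 1) (τ : B)
    (hτ : Irreducible (algebraMap B (Localization.AtPrime p) τ)) (x : K) (hx : x ≠ 0) :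
    ∃ n : ℤ, IsUnitAt p (x * algebraMap B K τ ^ (-n)) := by
  have hτ0 : τ ≠ 0 := by
    rintro rfl; rw [map_zero] at hτ; exact hτ.ne_zero rfl
  have hne : ∀ b : B, b ≠ 0 → algebraMap B K b ≠ 0 := fun b hb h =>
    hb ((IsFractionRing.injective B K) (by rw [h, map_zero]))
  obtain ⟨a, b, hb, rfl⟩ := IsFractionRing.div_surjective (A := B) x
  have hb0 : b ≠ 0 := nonZeroDivisors.ne_zero hb
  have ha0 : a ≠ 0 := by
    rintro rfl; rw [map_zero, zero_div] at hx; exact hx rfl
  obtain ⟨na, sa, ca, hsa, hca, ea⟩ := exists_mul_eq_mul_pow p h1 τ hτ a ha0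
  obtain ⟨nb, sb, cb, hsb, hcb, eb⟩ := exists_mul_eq_mul_pow p h1 τ hτ b hb0
  refine ⟨(na : ℤ) - nb, ca * sb, sa * cb, ?_, ?_, ?_⟩
  · exact fun h => (hp.mem_or_mem h).elim hca hsb
  · exact fun h => (hp.mem_or_mem h).elim hsa hcb
  · have hτK := hne τ hτ0
    have hbK := hne b hb0
    have hsa0 : sa ≠ 0 := fun h => hsa (h ▸ p.zero_mem)
    have hsb0 : sb ≠ 0 := fun h => hsb (h ▸ p.zero_mem)
    have ea' : algebraMap B K a * algebraMap B K sa =
        algebraMap B K ca * algebraMap B K τ ^ na := by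
      rw [← map_mul, ea, map_mul, map_pow]
    have eb' : algebraMap B K b * algebraMap B K sb =
        algebraMap B K cb * algebraMap B K τ ^ nb := by
      rw [← map_mul, eb, map_mul, map_pow]
    rw [neg_sub, zpow_sub₀ hτK, zpow_natCast, zpow_natCast, map_mul, map_mul]
    have hτna : algebraMap B K τ ^ na ≠ 0 := pow_ne_zero _ hτK
    field_simp
    linear_combination (algebraMap B K τ ^ nb * algebraMap B K cb) * ea' -
      (algebraMap B K τ ^ na * algebraMap B K ca) * eb'

end DVR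

section Family

variable [IsNoetherianRing B] [IsIntegrallyClosed B]
variable {κ : Type*} [Finite κ] (P : κ → Ideal B) [hP : ∀ k, (P k).IsPrime]

/-- Prime avoidance: an element of `P k` outside `P k ^(2)` and outside every other `P j`. -/
theorem exists_mem_not_mem_symbSq_not_mem (hh : ∀ k, (P k).height = 1)
    (hinc : ∀ j k, P j ≤ P k → j = k) (k : κ) :
    ∃ τ : B, τ ∈ P k ∧ τ ∉ symbSq (P k) ∧ ∀ j, j ≠ k → τ ∉ P j := by
  classical
  cases nonempty_fintype κ
  let f : Option κ → Ideal B := fun o => o.elim (symbSq (P k)) P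
  let s : Finset (Option κ) := (Finset.univ.erase k).image some
  have hprime : ∀ i ∈ s, (f i).IsPrime := by
    intro i hi
    obtain ⟨j, -, rfl⟩ := Finset.mem_image.1 hi
    exact hP j
  have hnot : ¬ ((P k : Set B) ⊆ f none ∪ f none ∪ ⋃ i ∈ (↑s : Set (Option κ)), f i) := by
    rw [Ideal.subset_union_prime' hprime]
    rintro (h | h | ⟨i, hi, h⟩)
    · exact not_le_symbSq (P k) (hh k) h
    · exact not_le_symbSq (P k) (hh k) h
    · obtain ⟨j, hj, rfl⟩ := Finset.mem_image.1 hi
      have hjk : j ≠ k := (Finset.mem_erase.1 hj).1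
      exact hjk (hinc k j h).symm
  rw [Set.not_subset] at hnot
  obtain ⟨τ, hτk, hτn⟩ := hnot
  refine ⟨τ, hτk, ?_, ?_⟩
  · intro h2
    exact hτn (Or.inl (Or.inl h2))
  · intro j hjk hj
    apply hτn
    refine Or.inr ?_
    rw [Set.mem_iUnion₂]
    refine ⟨some j, ?_, hj⟩
    rw [Finset.mem_coe]
    exact Finset.mem_image.2 ⟨j, Finset.mem_erase.2 ⟨hjk, Finset.mem_univ j⟩, rfl⟩

/-- **Uniformisers at finitely many height-one primes** (helper3's pinned `hord`/`hsep`):
`t k ∈ K` with `t k` a uniformiser of `V k := valuationSubringAt (P k)` and a unit of every other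
`V j`. -/
theorem exists_uniformisers (hh : ∀ k, (P k).height = 1)
    (hinc : ∀ j k, P j ≤ P k → j = k) :
    ∃ t : κ → K, (∀ k, t k ≠ 0) ∧
      (∀ k (x : K), x ≠ 0 → ∃ n : ℤ,
        (valuationSubringAt (K := K) (P k) (hh k)).valuation (x * t k ^ (-n)) = 1) ∧
      (∀ j k, j ≠ k → (valuationSubringAt (K := K) (P k) (hh k)).valuation (t j) = 1) ∧
      (∀ k, ∃ τ : B, τ ∈ P k ∧ t k = algebraMap B K τ) := by
  classical
  choose τ hτk hτ2 hτj using exists_mem_not_mem_symbSq_not_mem P hh hinc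
  have hirr : ∀ k, Irreducible (algebraMap B (Localization.AtPrime (P k)) (τ k)) := fun k =>
    irreducible_algebraMap_of_not_mem_symbSq (P k) (hh k) (τ k) (hτk k) (hτ2 k)
  have hτ0 : ∀ k, τ k ≠ 0 := by
    intro k h0
    have := hirr k
    rw [h0, map_zero] at this
    exact this.ne_zero rfl
  refine ⟨fun k => algebraMap B K (τ k), ?_, ?_, ?_, ?_⟩
  · intro k h
    have h' : algebraMap B K (τ k) = 0 := h
    exact hτ0 k ((IsFractionRing.injective B K) (by rw [h', map_zero]))
  · intro k x hx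
    obtain ⟨n, hn⟩ := exists_isUnitAt_mul_zpow (K := K) (P k) (hh k) (τ k) (hirr k) x hx
    exact ⟨n, (valuation_eq_one_iff (hh k)).2 hn⟩
  · intro j k hjk
    rw [valuation_eq_one_iff (hh k)]
    refine ⟨τ j, 1, hτj j k hjk.symm, ?_, by rw [map_one, mul_one]⟩
    exact (Ideal.ne_top_iff_one _).1 (hP k).ne_top
  · intro k
    exact ⟨τ k, hτk k, rfl⟩

/-- **Prescribed orders.**  Given uniformisers `t` as in `exists_uniformisers` (only `hsep` is
used), `g := ∏ t k ^ b k` has order exactly `b k` at every `V k`. -/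
theorem valuation_prod_zpow_mul_zpow_neg {F : Type*} [Field F] {ι : Type*} [Fintype ι]
    [DecidableEq ι] (V : ι → ValuationSubring F) (t : ι → F) (ht0 : ∀ k, t k ≠ 0)
    (hsep : ∀ j k, j ≠ k → (V k).valuation (t j) = 1) (b : ι → ℤ) (k : ι) :
    (V k).valuation ((∏ j, t j ^ b j) * t k ^ (-(b k))) = 1 := by
  have hsplit : (∏ j, t j ^ b j) = t k ^ b k * ∏ j ∈ Finset.univ.erase k, t j ^ b j := by
    exact (Finset.mul_prod_erase Finset.univ (fun j => t j ^ b j) (Finset.mem_univ k)).symm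
  have hk0 : t k ^ b k ≠ 0 := zpow_ne_zero _ (ht0 k)
  have h1 : (∏ j, t j ^ b j) * t k ^ (-(b k)) = ∏ j ∈ Finset.univ.erase k, t j ^ b j := by
    rw [hsplit, zpow_neg]
    field_simp
  rw [h1, map_prod]
  refine Finset.prod_eq_one fun j hj => ?_
  have hjk : j ≠ k := (Finset.mem_erase.1 hj).1
  rw [map_zpow₀, hsep j k hjk, one_zpow]

/-- Existence form for a `Finite` index type: an element with prescribed orders `b k`
relative to the uniformisers `t k`. -/
theorem exists_prescribed_orders {F : Type*} [Field F] {ι : Type*} [Finite ι]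
    (V : ι → ValuationSubring F) (t : ι → F) (ht0 : ∀ k, t k ≠ 0)
    (hsep : ∀ j k, j ≠ k → (V k).valuation (t j) = 1) (b : ι → ℤ) :
    ∃ g : F, g ≠ 0 ∧ ∀ k, (V k).valuation (g * t k ^ (-(b k))) = 1 := by
  classical
  cases nonempty_fintype ι
  refine ⟨∏ j, t j ^ b j, ?_, fun k => valuation_prod_zpow_mul_zpow_neg V t ht0 hsep b k⟩
  exact Finset.prod_ne_zero_iff.2 fun j _ => zpow_ne_zero _ (ht0 j)

/-- **Absorption** (generic form of the end of (E3b)): if the orders `a k` of `f` satisfy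
`a k = e k * s + m * b k` where `e k` are the orders of a constant `c`, then
`f * c ^ (-s) * (g ^ m)⁻¹` is a unit at every `V k`, for `g := ∏ t k ^ b k`. -/
theorem exists_unit_of_orders {F : Type*} [Field F] {ι : Type*} [Finite ι]
    (V : ι → ValuationSubring F) (t : ι → F) (ht0 : ∀ k, t k ≠ 0)
    (hsep : ∀ j k, j ≠ k → (V k).valuation (t j) = 1)
    (f c : F) (a e b : ι → ℤ) (s : ℤ) (m : ℕ)
    (hf : ∀ k, (V k).valuation (f * t k ^ (-(a k))) = 1)
    (hc : ∀ k, (V k).valuation (c * t k ^ (-(e k))) = 1)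
    (hab : ∀ k, a k = e k * s + m * b k) :
    ∃ g : F, g ≠ 0 ∧ ∀ k, (V k).valuation (f * c ^ (-s) * (g ^ m)⁻¹) = 1 := by
  obtain ⟨g, hg0, hg⟩ := exists_prescribed_orders V t ht0 hsep b
  refine ⟨g, hg0, fun k => ?_⟩
  have hc0 : c ≠ 0 := by
    rintro rfl
    have := hc k
    rw [zero_mul, map_zero] at this
    exact zero_ne_one this
  have htk := ht0 k
  -- the target is `(f t^{-a}) * (c t^{-e})^{-s} * ((g t^{-b})^m)^{-1}`
  have key : f * c ^ (-s) * (g ^ m)⁻¹ =
      (f * t k ^ (-(a k))) * (c * t k ^ (-(e k))) ^ (-s) * ((g * t k ^ (-(b k))) ^ m)⁻¹ := by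
    rw [mul_zpow, mul_pow, ← zpow_mul, ← zpow_natCast (t k ^ (-(b k))) m, ← zpow_mul, hab k]
    have h1 : t k ^ (-(e k * s + (m : ℤ) * b k)) * t k ^ (-(e k) * -s) *
        (t k ^ (-(b k) * (m : ℤ)))⁻¹ = 1 := by
      rw [← zpow_neg, ← zpow_add₀ htk, ← zpow_add₀ htk]
      have : -(e k * s + (m : ℤ) * b k) + -(e k) * -s + -(-(b k) * (m : ℤ)) = 0 := by ring
      rw [this, zpow_zero]
    have hg0' : g ^ m ≠ 0 := pow_ne_zero _ hg0
    have hcs : c ^ (-s) ≠ 0 := zpow_ne_zero _ hc0
    calc f * c ^ (-s) * (g ^ m)⁻¹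
        = (f * c ^ (-s) * (g ^ m)⁻¹) * (t k ^ (-(e k * s + (m : ℤ) * b k)) * t k ^ (-(e k) * -s) *
            (t k ^ (-(b k) * (m : ℤ)))⁻¹) := by rw [h1, mul_one]
      _ = _ := by
        rw [mul_inv]
        ring
  rw [key, map_mul, map_mul, map_inv₀, map_pow, map_zpow₀, hf k, hc k, hg k]
  simp

end Family

end Fermat.Agent.S36.H62
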