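/-
helper56 — S36 row (E4), ABSTRACT CORE ("Step 2" of the engine): at a closed point `n` of a normal
noetherian chart `B` at which every height-one prime is principal, a function `f` whose order at
every height-one prime through `n` is divisible by `d` is a unit of `B_n` times a `d`-th power:

  `f = η · G ^ d`,  `η ∈ (B_n)ˣ`.

Everything is stated "in the field" (no `Localization` in the statements), in the vocabulary of
`S34.H56_Step3` (`IsUnitAt`, `MemAt`) = the carrier of `S34.H21.locSubring`.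

* `PrincipalAt n p`  : `p B_n = x B_n` in the `H83.locGen'` spelling (one generator) — the PINNED
  shape in which the rows (M2) (M3) (M4) (M4r2) end;
* `exists_isUnitAt_div_pow` / `exists_unitIn_div_pow` : the theorem, for an arbitrary `f` and an
  arbitrary exponent `d`;
* `principalAt_of_localization`, `principalAt_of_ufd` : bridges from statements about an abstract
  localisation `O` of `B` at `n` (all height-one primes of `O` principal / `O` a UFD).
-/
import Mathlib
import Fermat.Agent.S34.H56_Step3Chart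
import Fermat.Agent.S34.H56_LocalEq
import Fermat.Agent.S34.H21_ModelHypCharts
import Fermat.Agent.S36.H62_Uniformisers

set_option autoImplicit false
set_option linter.unusedSectionVars false
set_option linter.style.haveILetI false

namespace Fermat.Agent.S36.H56

open Fermat.Agent Fermat.Agent.CA.H42

variable {B K : Type*} [CommRing B] [IsDomain B] [Field K] [Algebra B K] [IsFractionRing B K]

/-- `p B_n = x B_n` for some `x ∈ p`, spelled in the chart (`H83.locGen'` shape with one
generator): every `z ∈ p` becomes a multiple of `x` after multiplication by some `t ∉ n`. -/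
def PrincipalAt (n p : Ideal B) : Prop :=
  ∃ x ∈ p, ∀ z ∈ p, ∃ t, t ∉ n ∧ t * z ∈ Ideal.span {x}

theorem principalAt_iff {n p : Ideal B} :
    PrincipalAt n p ↔ ∃ x ∈ p, ∀ z ∈ p, ∃ t, t ∉ n ∧ t * z ∈ Ideal.span {x} := Iff.rfl

omit [IsDomain B] in
/-- If the local generator `x` of `p` at `n` lies in a prime `p' ≤ n`, then `p ≤ p'`. -/
theorem le_of_localGen_mem {n p p' : Ideal B} [hp' : p'.IsPrime] (hp'n : p' ≤ n) {x : B}
    (hx : ∀ z ∈ p, ∃ t, t ∉ n ∧ t * z ∈ Ideal.span {x}) (hxp' : x ∈ p') : p ≤ p' := by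
  intro z hz
  obtain ⟨t, ht, htz⟩ := hx z hz
  have h1 : t * z ∈ p' := (Ideal.span_singleton_le_iff_mem (I := p')).mpr hxp' htz
  exact (hp'.mem_or_mem h1).resolve_left fun h => ht (hp'n h)

omit [IsDomain B] in
/-- A local generator at `n` of a height-one prime `p ≤ n` lies in no other height-one prime
`p' ≤ n`. -/
theorem localGen_not_mem {n p p' : Ideal B} [hp : p.IsPrime] [hp' : p'.IsPrime]
    (h1 : p.height = 1) (h1' : p'.height = 1) (hp'n : p' ≤ n) {x : B}
    (hx : ∀ z ∈ p, ∃ t, t ∉ n ∧ t * z ∈ Ideal.span {x}) (hne : p' ≠ p) : x ∉ p' := by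
  intro hxp'
  have hle : p ≤ p' := le_of_localGen_mem hp'n hx hxp'
  haveI : p.FiniteHeight := ⟨Or.inr (by rw [h1]; exact ENat.one_ne_top)⟩
  exact hne (Ideal.eq_of_le_of_height_le (I := p) hle (by rw [h1, h1'])).symm

section DVR

variable [IsNoetherianRing B] [IsIntegrallyClosed B]

/-- A local generator at `n` of a height-one prime `p ≤ n` is a uniformiser of the discrete
valuation ring `B_p`. -/
theorem irreducible_of_localGen {n p : Ideal B} [hp : p.IsPrime] (h1 : p.height = 1)
    (hpn : p ≤ n) {x : B} (hxp : x ∈ p)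
    (hx : ∀ z ∈ p, ∃ t, t ∉ n ∧ t * z ∈ Ideal.span {x}) :
    Irreducible (algebraMap B (Localization.AtPrime p) x) := by
  haveI : IsDiscreteValuationRing (Localization.AtPrime p) :=
    isDiscreteValuationRing_of_height_eq_one p h1 _
  set Bp := Localization.AtPrime p
  rw [IsDiscreteValuationRing.irreducible_iff_uniformizer]
  refine le_antisymm ?_ ?_
  · rw [← IsLocalization.AtPrime.map_eq_maximalIdeal p Bp, Ideal.map_le_iff_le_comap]
    intro z hz
    obtain ⟨t, ht, htz⟩ := hx z hz
    obtain ⟨c, hc⟩ := Ideal.mem_span_singleton.mp htz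
    have htp : t ∉ p := fun h => ht (hpn h)
    have hu : IsUnit (algebraMap B Bp t) :=
      (IsLocalization.AtPrime.isUnit_to_map_iff Bp p t).mpr htp
    obtain ⟨u, hu⟩ := hu
    rw [Ideal.mem_comap, Ideal.mem_span_singleton]
    refine ⟨algebraMap B Bp c * ↑u⁻¹, ?_⟩
    have e : algebraMap B Bp t * algebraMap B Bp z = algebraMap B Bp x * algebraMap B Bp c := by
      rw [← map_mul, ← map_mul, hc]
    calc algebraMap B Bp z = ↑u⁻¹ * (algebraMap B Bp t * algebraMap B Bp z) := by
          rw [← hu, ← mul_assoc, Units.inv_mul, one_mul]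
      _ = algebraMap B Bp x * (algebraMap B Bp c * ↑u⁻¹) := by rw [e]; ring
  · rw [Ideal.span_singleton_le_iff_mem]
    exact (IsLocalization.AtPrime.to_map_mem_maximal_iff Bp p x).mpr hxp

/-- `d ∣ ord_p f`, measured by a local generator `x` of `p` at `n`: from `f / g ^ d` a unit at `p`
to `f / (x ^ k) ^ d` a unit at `p` for some `k : ℤ`. -/
theorem exists_zpow_isUnitAt {n p : Ideal B} [hp : p.IsPrime] (h1 : p.height = 1)
    (hpn : p ≤ n) {x : B} (hxp : x ∈ p)
    (hx : ∀ z ∈ p, ∃ t, t ∉ n ∧ t * z ∈ Ideal.span {x}) (f : K) (d : ℕ) (g : K)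
    (hg : S34.H56.IsUnitAt p (f / g ^ d)) :
    ∃ k : ℤ, S34.H56.IsUnitAt p (f / (algebraMap B K x ^ k) ^ d) := by
  have hirr := irreducible_of_localGen h1 hpn hxp hx
  have hx0 : x ≠ 0 := by
    rintro rfl; rw [map_zero] at hirr; exact hirr.ne_zero rfl
  have hxK : algebraMap B K x ≠ 0 := fun h =>
    hx0 ((IsFractionRing.injective B K) (by rw [h, map_zero]))
  by_cases hg0 : g = 0
  · -- then `d = 0`
    have hd : d = 0 := by
      by_contra hd
      rw [hg0, zero_pow hd, div_zero] at hg
      exact hg.ne_zero rfl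
    refine ⟨0, ?_⟩
    rw [hd, pow_zero] at hg
    rwa [hd, pow_zero]
  · obtain ⟨k, hk⟩ := H62.exists_isUnitAt_mul_zpow (K := K) p h1 x hirr g hg0
    refine ⟨k, ?_⟩
    have h2 := hg.mul (hk.pow d)
    have e : f / g ^ d * (g * algebraMap B K x ^ (-k)) ^ d =
        f / (algebraMap B K x ^ k) ^ d := by
      rw [mul_pow, zpow_neg, inv_pow]
      have hgd : g ^ d ≠ 0 := pow_ne_zero _ hg0
      have hxd : (algebraMap B K x ^ k) ^ d ≠ 0 := pow_ne_zero _ (zpow_ne_zero _ hxK)
      field_simp
    rwa [e] at h2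

omit [IsIntegrallyClosed B] in
/-- **Finite support.**  A nonzero `f` is a unit at all but finitely many height-one primes. -/
theorem finite_setOf_not_isUnitAt (f : K) (hf : f ≠ 0) :
    {p : Ideal B | p.IsPrime ∧ p.height = 1 ∧ ¬ S34.H56.IsUnitAt p f}.Finite := by
  obtain ⟨a, b, hb, rfl⟩ := IsFractionRing.div_surjective (A := B) f
  have hb0 : b ≠ 0 := nonZeroDivisors.ne_zero hb
  have ha0 : a ≠ 0 := by
    rintro rfl; rw [map_zero, zero_div] at hf; exact hf rfl
  have hab0 : a * b ≠ 0 := mul_ne_zero ha0 hb0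
  refine (Ideal.finite_minimalPrimes_of_isNoetherianRing B (Ideal.span {a * b})).subset ?_
  rintro p ⟨hp, h1, hnu⟩
  haveI := hp
  have hmem : a * b ∈ p := by
    by_contra hmem
    have hap : a ∉ p := fun h => hmem (p.mul_mem_right b h)
    have hbp : b ∉ p := fun h => hmem (p.mul_mem_left a h)
    refine hnu ⟨a, b, hap, hbp, ?_⟩
    have hbK : algebraMap B K b ≠ 0 := fun h =>
      hb0 ((IsFractionRing.injective B K) (by rw [h, map_zero]))
    field_simp
  exact mem_minimalPrimes_span_of_height_eq_one hab0 h1 hmem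

/-- **(E4), abstract core.**  `n` a prime of the noetherian integrally closed domain `B` such that
every height-one prime `p ≤ n` is principal at `n`, and `f ≠ 0` with `d ∣ ord_p f` at every such
`p` (spelled: `f / g ^ d` is a unit at `p` for some `g`).  Then `f / G ^ d` is a unit of `B_n` for
some `G ≠ 0`. -/
theorem exists_isUnitAt_div_pow (n : Ideal B) [hn : n.IsPrime] (f : K) (hf : f ≠ 0) (d : ℕ)
    (hprinc : ∀ p : Ideal B, p.IsPrime → p.height = 1 → p ≤ n → PrincipalAt n p)
    (hord : ∀ p : Ideal B, p.IsPrime → p.height = 1 → p ≤ n →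
      ∃ g : K, S34.H56.IsUnitAt p (f / g ^ d)) :
    ∃ G : K, G ≠ 0 ∧ S34.H56.IsUnitAt n (f / G ^ d) := by
  classical
  -- the finite set of relevant primes
  set T : Set (Ideal B) :=
    {p | p.IsPrime ∧ p.height = 1 ∧ p ≤ n ∧ ¬ S34.H56.IsUnitAt p f} with hT
  have hTfin : T.Finite :=
    (finite_setOf_not_isUnitAt f hf).subset fun p hp => ⟨hp.1, hp.2.1, hp.2.2.2⟩
  -- local generators and orders
  have key : ∀ p : Ideal B, ∃ (x : B) (k : ℤ), p ∈ T →
      (x ∈ p ∧ (∀ z ∈ p, ∃ t, t ∉ n ∧ t * z ∈ Ideal.span {x}) ∧ x ≠ 0 ∧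
        S34.H56.IsUnitAt p (f / (algebraMap B K x ^ k) ^ d)) := by
    intro p
    by_cases hpT : p ∈ T
    · obtain ⟨hp, h1, hpn, -⟩ := hpT
      haveI := hp
      obtain ⟨x, hxp, hx⟩ := hprinc p hp h1 hpn
      obtain ⟨g, hg⟩ := hord p hp h1 hpn
      obtain ⟨k, hk⟩ := exists_zpow_isUnitAt h1 hpn hxp hx f d g hg
      have hx0 : x ≠ 0 := by
        have hirr := irreducible_of_localGen h1 hpn hxp hx
        rintro rfl; rw [map_zero] at hirr; exact hirr.ne_zero rfl
      exact ⟨x, k, fun _ => ⟨hxp, hx, hx0, hk⟩⟩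
    · exact ⟨0, 0, fun h => absurd h hpT⟩
  choose X k hXk using key
  set S : Finset (Ideal B) := hTfin.toFinset with hS
  have hmemS : ∀ p, p ∈ S ↔ p ∈ T := fun p => hTfin.mem_toFinset
  set G : K := ∏ j ∈ S, algebraMap B K (X j) ^ k j with hG
  have hG0 : G ≠ 0 := by
    rw [hG, Finset.prod_ne_zero_iff]
    intro j hj
    have hx0 := (hXk j ((hmemS j).mp hj)).2.2.1
    exact zpow_ne_zero _ fun h => hx0 ((IsFractionRing.injective B K) (by rw [h, map_zero]))
  refine ⟨G, hG0, ?_⟩
  refine S34.H56.isUnitAt_of_forall_height_one_le n _ (fun p' hp' h1' hp'n => ?_)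
    (div_ne_zero hf (pow_ne_zero _ hG0))
  haveI := hp'
  refine S34.H56.isUnitAt_div_localEq S id (fun i _ j _ h => h)
    (fun j => algebraMap B K (X j)) k f d p' ?_ ?_ ?_
  · -- other generators are units at `p'`
    intro j hj hne
    obtain ⟨hjp, hj1, -, -⟩ := (hmemS j).mp hj
    haveI := hjp
    have hx := (hXk j ((hmemS j).mp hj)).2.1
    exact S34.H56.isUnitAt_algebraMap (localGen_not_mem hj1 h1' hp'n hx hne) hp'.ne_top
  · intro j hj hpj
    have hpj' : p' = j := hpj
    subst hpj'
    exact (hXk p' ((hmemS p').mp hj)).2.2.2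
  · intro hall
    by_contra hnu
    have : p' ∈ S := (hmemS p').mpr ⟨hp', h1', hp'n, hnu⟩
    exact hall p' this rfl

/-- **(E4), abstract core, in the vocabulary of (E6)** (`hG0` + `hG` of
`H85.radDatum_of_towers`, pointwise). -/
theorem exists_unitIn_div_pow (n : Ideal B) [hn : n.IsPrime] (f : K) (hf : f ≠ 0) (d : ℕ)
    (hprinc : ∀ p : Ideal B, p.IsPrime → p.height = 1 → p ≤ n → PrincipalAt n p)
    (hord : ∀ p : Ideal B, p.IsPrime → p.height = 1 → p ≤ n →
      ∃ g : K, S34.H56.IsUnitAt p (f / g ^ d)) :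
    ∃ G : K, G ≠ 0 ∧ S34.H47.UnitIn (S34.H21.locSubring (F := K) n) (f / G ^ d) := by
  obtain ⟨G, hG0, hG⟩ := exists_isUnitAt_div_pow n f hf d hprinc hord
  exact ⟨G, hG0, S34.H21.unitIn_locSubring_iff.mpr hG⟩

end DVR

/-! ### Bridges from an abstract localisation `O` of `B` at `n` -/

section Bridges

/-- If every height-one prime of `O = B_n` is principal, then every height-one prime `p ≤ n` of
`B` is principal at `n`. -/
theorem principalAt_of_localization (n : Ideal B) [hn : n.IsPrime] (O : Type*) [CommRing O]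
    [Algebra B O] [IsLocalization.AtPrime O n]
    (hO : ∀ P : Ideal O, P.IsPrime → P.height = 1 → ∃ f, P = Ideal.span {f})
    (p : Ideal B) (hp : p.IsPrime) (h1 : p.height = 1) (hpn : p ≤ n) : PrincipalAt n p := by
  have hinj : Function.Injective (algebraMap B O) :=
    IsLocalization.injective O n.primeCompl_le_nonZeroDivisors
  have hdisj : Disjoint (n.primeCompl : Set B) (p : Set B) := by
    rw [Set.disjoint_left]
    intro a ha hap
    exact ha (hpn hap)
  set P : Ideal O := Ideal.map (algebraMap B O) p with hPdef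
  have hPprime : P.IsPrime := IsLocalization.isPrime_of_isPrime_disjoint n.primeCompl O p hp hdisj
  have hunder : P.under B = p :=
    IsLocalization.under_map_of_isPrime_disjoint n.primeCompl O hp hdisj
  have hP1 : P.height = 1 := by
    haveI := hPprime
    rw [← IsLocalization.height_under n.primeCompl P, hunder, h1]
  obtain ⟨f, hf⟩ := hO P hPprime hP1
  obtain ⟨⟨a, s⟩, has⟩ := IsLocalization.surj n.primeCompl f
  -- `f * s = a`
  have hap : a ∈ p := by
    rw [← hunder, Ideal.under_def, Ideal.mem_comap, ← has, hf]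
    exact Ideal.mul_mem_right _ _ (Ideal.mem_span_singleton_self f)
  refine ⟨a, hap, fun z hz => ?_⟩
  have hzP : algebraMap B O z ∈ P := Ideal.mem_map_of_mem _ hz
  rw [hf, Ideal.mem_span_singleton] at hzP
  obtain ⟨c, hc⟩ := hzP
  obtain ⟨⟨c0, s0⟩, hcs⟩ := IsLocalization.surj n.primeCompl c
  refine ⟨s * s0, fun h => (hn.mem_or_mem h).elim s.2 s0.2, ?_⟩
  rw [Ideal.mem_span_singleton]
  refine ⟨c0, hinj ?_⟩
  rw [map_mul, map_mul, map_mul, hc, ← has, ← hcs]
  ring

/-- The same from `O = B_n` a unique factorisation domain. -/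
theorem principalAt_of_ufd (n : Ideal B) [hn : n.IsPrime] (O : Type*) [CommRing O] [IsDomain O]
    [UniqueFactorizationMonoid O] [Algebra B O] [IsLocalization.AtPrime O n]
    (p : Ideal B) (hp : p.IsPrime) (h1 : p.height = 1) (hpn : p ≤ n) : PrincipalAt n p := by
  refine principalAt_of_localization n O (fun P hP hP1 => ?_) p hp h1 hpn
  haveI := hP
  have hPne : P ≠ ⊥ := by
    rintro rfl
    rw [Ideal.height_bot] at hP1
    exact zero_ne_one hP1
  obtain ⟨π, hπP, hπ⟩ := Ideal.IsPrime.exists_mem_prime_of_ne_bot hP hPne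
  refine ⟨π, ?_⟩
  have hle : Ideal.span {π} ≤ P := (Ideal.span_singleton_le_iff_mem (I := P)).mpr hπP
  haveI : (Ideal.span {π}).IsPrime := (Ideal.span_singleton_prime hπ.ne_zero).mpr hπ
  have hfin : (Ideal.span {π}).FiniteHeight := by
    refine ⟨Or.inr ?_⟩
    have := Ideal.height_mono hle
    rw [hP1] at this
    exact ne_top_of_le_ne_top ENat.one_ne_top this
  have hne : (Ideal.span {π}).height ≠ 0 := fun h0 => by
    have := Ideal.height_eq_zero_iff_eq_bot.mp h0
    rw [Ideal.span_singleton_eq_bot] at this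
    exact hπ.ne_zero this
  refine (Ideal.eq_of_le_of_height_le (I := Ideal.span {π}) hle ?_).symm
  rw [hP1]
  exact Order.one_le_iff_pos.mpr (pos_iff_ne_zero.mpr hne)

end Bridges

end Fermat.Agent.S36.H56
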