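/-
helper56 — S36 row (E4): ONE-CALL variants of `S36.H56.exists_unitIn_div_pow` for the exits used by
the producers:

* `hU : UniqueFactorizationMonoid (Localization.AtPrime n)` instead of `hprinc`
  (helper21's input shape (U) = the conclusion of `H62.ufd_localization_of_localGen`);
* the order hypothesis in helper21's spelling (D) (`∃ g, g ≠ 0 ∧ IsUnitAt p (f / g ^ d)`), or as
  `(valuationSubringAt p h1).valuation (f / g ^ d) = 1`;
* a family version over an index type of closed points (after `choose`).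
-/
import Mathlib
import Fermat.Agent.S36.H56_LocalPower

set_option autoImplicit false
set_option linter.unusedSectionVars false
set_option linter.style.haveILetI false

namespace Fermat.Agent.S36.H56

open Fermat.Agent

variable {B K : Type*} [CommRing B] [IsDomain B] [Field K] [Algebra B K] [IsFractionRing B K]
  [IsNoetherianRing B] [IsIntegrallyClosed B]

omit [IsNoetherianRing B] [IsIntegrallyClosed B] in
/-- (U) ⟹ (P): every height-one prime through `n` is principal at `n` when `B_n` is a UFD. -/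
theorem principalAt_of_ufd_localization (n : Ideal B) [hn : n.IsPrime]
    (hU : UniqueFactorizationMonoid (Localization.AtPrime n))
    (p : Ideal B) (hp : p.IsPrime) (h1 : p.height = 1) (hpn : p ≤ n) : PrincipalAt n p := by
  haveI : IsDomain (Localization.AtPrime n) :=
    IsLocalization.isDomain_localization n.primeCompl_le_nonZeroDivisors
  exact principalAt_of_ufd n (Localization.AtPrime n) p hp h1 hpn

/-- **(E4) from (U) + (D)** (helper21's pinned shapes, one call). -/
theorem exists_unitIn_div_pow_of_ufd (n : Ideal B) [hn : n.IsPrime] (f : K) (hf : f ≠ 0) (d : ℕ)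
    (hU : UniqueFactorizationMonoid (Localization.AtPrime n))
    (hord : ∀ p : Ideal B, p.IsPrime → p.height = 1 → p ≤ n →
      ∃ g : K, g ≠ 0 ∧ S34.H56.IsUnitAt p (f / g ^ d)) :
    ∃ G : K, G ≠ 0 ∧ S34.H47.UnitIn (S34.H21.locSubring (F := K) n) (f / G ^ d) :=
  exists_unitIn_div_pow n f hf d (principalAt_of_ufd_localization n hU)
    fun p hp h1 hpn => let ⟨g, _, hg⟩ := hord p hp h1 hpn; ⟨g, hg⟩

/-- **(E4) from (P) + (D)** with `g ≠ 0` in the order hypothesis. -/
theorem exists_unitIn_div_pow_of_principal (n : Ideal B) [hn : n.IsPrime] (f : K) (hf : f ≠ 0)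
    (d : ℕ)
    (hprinc : ∀ p : Ideal B, p.IsPrime → p.height = 1 → p ≤ n → PrincipalAt n p)
    (hord : ∀ p : Ideal B, p.IsPrime → p.height = 1 → p ≤ n →
      ∃ g : K, g ≠ 0 ∧ S34.H56.IsUnitAt p (f / g ^ d)) :
    ∃ G : K, G ≠ 0 ∧ S34.H47.UnitIn (S34.H21.locSubring (F := K) n) (f / G ^ d) :=
  exists_unitIn_div_pow n f hf d hprinc
    fun p hp h1 hpn => let ⟨g, _, hg⟩ := hord p hp h1 hpn; ⟨g, hg⟩

/-- **(E4), valuation spelling of the order hypothesis.** -/
theorem exists_unitIn_div_pow_of_valuation (n : Ideal B) [hn : n.IsPrime] (f : K) (hf : f ≠ 0)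
    (d : ℕ)
    (hprinc : ∀ p : Ideal B, p.IsPrime → p.height = 1 → p ≤ n → PrincipalAt n p)
    (hord : ∀ (p : Ideal B) [p.IsPrime] (h1 : p.height = 1), p ≤ n →
      ∃ g : K, (S34.H56.valuationSubringAt (K := K) p h1).valuation (f / g ^ d) = 1) :
    ∃ G : K, G ≠ 0 ∧ S34.H47.UnitIn (S34.H21.locSubring (F := K) n) (f / G ^ d) :=
  exists_unitIn_div_pow n f hf d hprinc fun p hp h1 hpn => by
    haveI := hp
    obtain ⟨g, hg⟩ := hord p h1 hpn
    exact ⟨g, (S34.H56.valuation_eq_one_iff h1).mp hg⟩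

/-- **(E4), family form**: one `G` per closed point of an indexed family (the `hG0` / `hG` pair of
`H85.radDatum_of_towers` after `choose`). -/
theorem exists_family_unitIn_div_pow {ν : Type*} (pt : ν → Ideal B) [hpt : ∀ i, (pt i).IsPrime]
    (f : K) (hf : f ≠ 0) (d : ℕ)
    (hprinc : ∀ i, ∀ p : Ideal B, p.IsPrime → p.height = 1 → p ≤ pt i → PrincipalAt (pt i) p)
    (hord : ∀ i, ∀ p : Ideal B, p.IsPrime → p.height = 1 → p ≤ pt i →
      ∃ g : K, S34.H56.IsUnitAt p (f / g ^ d)) :
    ∃ G : ν → K, (∀ i, G i ≠ 0) ∧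
      ∀ i, S34.H47.UnitIn (S34.H21.locSubring (F := K) (pt i)) (f / G i ^ d) := by
  choose G hG0 hG using fun i => exists_unitIn_div_pow (pt i) f hf d (hprinc i) (hord i)
  exact ⟨G, hG0, hG⟩

end Fermat.Agent.S36.H56
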