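/-
helper56 — S36 row (E4), two-chart wrapper: the `hG0` / `hG` pair of
`S36.H85.radDatum_of_towers` / `S36.H84.radDatum_of_towersU_two_charts` (index type
`ν := H21.ClosedPt B₁ π ⊕ H21.ClosedPt B₂ π`, local rings `O := H21.ptO B₁ B₂ π`) from the chartwise
inputs of Step 2:

* (P) every height-one prime through a closed point is principal there (`PrincipalAt`), or
  (U) the local ring of the chart at the closed point is a UFD;
* (D) at every height-one prime `p` through a closed point the order of `u` is divisible by `m`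
  (`∃ g, IsUnitAt p (u / g ^ m)`).
-/
import Mathlib
import Fermat.Agent.S36.H56_LocalPowerUFD

set_option autoImplicit false
set_option linter.unusedSectionVars false
set_option linter.style.haveILetI false

namespace Fermat.Agent.S36.H56

open Fermat.Agent

section TwoCharts

variable {R F : Type*} [CommRing R] [Field F] [Algebra R F]
  (B₁ B₂ : Subalgebra R F) [IsFractionRing B₁ F] [IsFractionRing B₂ F]
  [IsNoetherianRing B₁] [IsNoetherianRing B₂] [IsIntegrallyClosed B₁] [IsIntegrallyClosed B₂]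
  (π : R)

/-- **Step 2 on the two-chart model, (P) + (D) form**: the pair `hG0`, `hG` of
`H85.radDatum_of_towers` at `O := H21.ptO B₁ B₂ π`. -/
theorem exists_hG_two_charts (u : F) (hu : u ≠ 0) (m : ℕ)
    (hprinc₁ : ∀ n : S34.H21.ClosedPt B₁ π, ∀ p : Ideal B₁, p.IsPrime → p.height = 1 → p ≤ n.1 →
      PrincipalAt n.1 p)
    (hprinc₂ : ∀ n : S34.H21.ClosedPt B₂ π, ∀ p : Ideal B₂, p.IsPrime → p.height = 1 → p ≤ n.1 →
      PrincipalAt n.1 p)
    (hord₁ : ∀ n : S34.H21.ClosedPt B₁ π, ∀ p : Ideal B₁, p.IsPrime → p.height = 1 → p ≤ n.1 →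
      ∃ g : F, S34.H56.IsUnitAt p (u / g ^ m))
    (hord₂ : ∀ n : S34.H21.ClosedPt B₂ π, ∀ p : Ideal B₂, p.IsPrime → p.height = 1 → p ≤ n.1 →
      ∃ g : F, S34.H56.IsUnitAt p (u / g ^ m)) :
    ∃ G : S34.H21.ClosedPt B₁ π ⊕ S34.H21.ClosedPt B₂ π → F, (∀ n, G n ≠ 0) ∧
      ∀ n, S34.H47.UnitIn (S34.H21.ptO B₁ B₂ π n) (u / G n ^ m) := by
  have key : ∀ n : S34.H21.ClosedPt B₁ π ⊕ S34.H21.ClosedPt B₂ π,
      ∃ G : F, G ≠ 0 ∧ S34.H47.UnitIn (S34.H21.ptO B₁ B₂ π n) (u / G ^ m) := by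
    rintro (n | n)
    · haveI := n.2.1.isPrime
      exact exists_unitIn_div_pow n.1 u hu m (hprinc₁ n) (hord₁ n)
    · haveI := n.2.1.isPrime
      exact exists_unitIn_div_pow n.1 u hu m (hprinc₂ n) (hord₂ n)
  choose G hG0 hG using key
  exact ⟨G, hG0, hG⟩

/-- **Step 2 on the two-chart model, (U) + (D) form** (helper21's pinned input shapes). -/
theorem exists_hG_two_charts_of_ufd (u : F) (hu : u ≠ 0) (m : ℕ)
    (hU₁ : ∀ n : S34.H21.ClosedPt B₁ π,
      haveI := n.2.1.isPrime; UniqueFactorizationMonoid (Localization.AtPrime n.1))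
    (hU₂ : ∀ n : S34.H21.ClosedPt B₂ π,
      haveI := n.2.1.isPrime; UniqueFactorizationMonoid (Localization.AtPrime n.1))
    (hord₁ : ∀ n : S34.H21.ClosedPt B₁ π, ∀ p : Ideal B₁, p.IsPrime → p.height = 1 → p ≤ n.1 →
      ∃ g : F, g ≠ 0 ∧ S34.H56.IsUnitAt p (u / g ^ m))
    (hord₂ : ∀ n : S34.H21.ClosedPt B₂ π, ∀ p : Ideal B₂, p.IsPrime → p.height = 1 → p ≤ n.1 →
      ∃ g : F, g ≠ 0 ∧ S34.H56.IsUnitAt p (u / g ^ m)) :
    ∃ G : S34.H21.ClosedPt B₁ π ⊕ S34.H21.ClosedPt B₂ π → F, (∀ n, G n ≠ 0) ∧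
      ∀ n, S34.H47.UnitIn (S34.H21.ptO B₁ B₂ π n) (u / G n ^ m) := by
  refine exists_hG_two_charts B₁ B₂ π u hu m (fun n => ?_) (fun n => ?_)
    (fun n p hp h1 hpn => let ⟨g, _, hg⟩ := hord₁ n p hp h1 hpn; ⟨g, hg⟩)
    (fun n p hp h1 hpn => let ⟨g, _, hg⟩ := hord₂ n p hp h1 hpn; ⟨g, hg⟩)
  · haveI := n.2.1.isPrime
    exact principalAt_of_ufd_localization n.1 (hU₁ n)
  · haveI := n.2.1.isPrime
    exact principalAt_of_ufd_localization n.1 (hU₂ n)

/-- **Step 2 on the two-chart model, orders given at the height-one primes of each chart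
globally** (no reference to the closed point in the order hypothesis): this is the shape in which
the horizontal orders ((D1), from `m ∣ ord` at all places of the generic fibre) and the vertical
orders ((E3)) are produced. -/
theorem exists_hG_two_charts_of_global_ord (u : F) (hu : u ≠ 0) (m : ℕ)
    (hprinc₁ : ∀ n : S34.H21.ClosedPt B₁ π, ∀ p : Ideal B₁, p.IsPrime → p.height = 1 → p ≤ n.1 →
      PrincipalAt n.1 p)
    (hprinc₂ : ∀ n : S34.H21.ClosedPt B₂ π, ∀ p : Ideal B₂, p.IsPrime → p.height = 1 → p ≤ n.1 →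
      PrincipalAt n.1 p)
    (hord₁ : ∀ p : Ideal B₁, p.IsPrime → p.height = 1 → ∃ g : F, S34.H56.IsUnitAt p (u / g ^ m))
    (hord₂ : ∀ p : Ideal B₂, p.IsPrime → p.height = 1 → ∃ g : F, S34.H56.IsUnitAt p (u / g ^ m)) :
    ∃ G : S34.H21.ClosedPt B₁ π ⊕ S34.H21.ClosedPt B₂ π → F, (∀ n, G n ≠ 0) ∧
      ∀ n, S34.H47.UnitIn (S34.H21.ptO B₁ B₂ π n) (u / G n ^ m) :=
  exists_hG_two_charts B₁ B₂ π u hu m hprinc₁ hprinc₂
    (fun _ p hp h1 _ => hord₁ p hp h1) (fun _ p hp h1 _ => hord₂ p hp h1)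

end TwoCharts

end Fermat.Agent.S36.H56
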