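/-
helper61 — S36, (E7) third seat: the HORIZONTAL half of the order input `(D)` of row (E4)
(helper21 `S36/H21_StepTwo`, helper56 `S36/H56_LocalPower`), generic.

`R` a base ring with `k = R[1/π]` a field, `B` a chart (noetherian integrally closed domain,
fraction field `F`).  Every height-one prime `p` of `B` with `π ∉ p` is a place of `F/k`
(`S34.H3.placeOfHorizontalPrime`), so the divisibility `m ∣ ord_w u` at the places of `F/k`
(rows (D1)/(D1c)) gives `(D)` at the horizontal primes: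

* `exists_ord_eq_one` : every place has a function of order `1`;
* `exists_isUnitAt_div_pow_of_dvd_ord` : `m ∣ ord_p u ⇒ ∃ g ≠ 0, IsUnitAt p (u / g ^ m)`;
* `exists_isUnitAt_div_pow_of_places` : `(D)` at every height-one prime through a closed point `n`
  from "unit at the vertical primes through `n`" (row (E3)) and "`m ∣ ord_w u` at every place of
  `F/k`" (rows (D1)/(D1c)), in the exact shape of `(D)`/`hord`;
* the same for `u` replaced by `f ^ a * c * (g ^ m)⁻¹`-type modifications is immediate from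
  `dvd_ord_mul_pow` : divisibility of the orders is stable under the operations used by (E3).
-/
import Mathlib
import Fermat.Agent.S34.H3_PlaceChart

set_option autoImplicit false
set_option linter.unusedSectionVars false

namespace Fermat.Agent.S36.H61

open Fermat.Agent.S34 Fermat.Agent.S34.H56 AlgebraicCurve

section Place

variable {k F : Type*} [Field k] [Field F] [Algebra k F]

/-- Every place has a function of order `1`. -/
theorem exists_ord_eq_one (w : Place k F) : ∃ t : F, t ≠ 0 ∧ w.ord t = 1 := by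
  obtain ⟨ϖ, hϖ⟩ := IsDiscreteValuationRing.exists_irreducible w.toValuationSubring
  refine ⟨(ϖ : F), ?_, w.ord_coe_irreducible hϖ⟩
  simpa [ne_eq, ZeroMemClass.coe_eq_zero] using hϖ.ne_zero

/-- `m ∣ ord_w u ⇒ ∃ g ≠ 0, ord_w (u / g ^ m) = 0`. -/
theorem exists_ord_div_pow_eq_zero (w : Place k F) {u : F} (hu : u ≠ 0) {m : ℕ}
    (hdvd : (m : ℤ) ∣ w.ord u) : ∃ g : F, g ≠ 0 ∧ w.ord (u / g ^ m) = 0 := by
  obtain ⟨t, ht0, ht⟩ := exists_ord_eq_one w
  obtain ⟨a, ha⟩ := hdvd
  refine ⟨t ^ a, zpow_ne_zero a ht0, ?_⟩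
  have hg : (t ^ a) ^ m ≠ 0 := pow_ne_zero m (zpow_ne_zero a ht0)
  rw [div_eq_mul_inv, w.ord_mul hu (inv_ne_zero hg), w.ord_inv, ← zpow_natCast, w.ord_zpow,
    w.ord_zpow, ht, ha]
  ring

/-- Divisibility of the orders is stable under `u ↦ u ^ a * c * (g ^ m)⁻¹` when `ord_w c = 0`. -/
theorem dvd_ord_mul_pow (w : Place k F) {u c g : F} (hu : u ≠ 0) (hc : c ≠ 0) (hg : g ≠ 0)
    {m : ℕ} (a : ℕ) (hdvd : (m : ℤ) ∣ w.ord u) (hc0 : w.ord c = 0) :
    (m : ℤ) ∣ w.ord (u ^ a * c * (g ^ m)⁻¹) := by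
  have h1 : u ^ a ≠ 0 := pow_ne_zero a hu
  have h2 : (g ^ m)⁻¹ ≠ 0 := inv_ne_zero (pow_ne_zero m hg)
  rw [w.ord_mul (mul_ne_zero h1 hc) h2, w.ord_mul h1 hc, hc0, add_zero, w.ord_inv,
    ← zpow_natCast, ← zpow_natCast, w.ord_zpow, w.ord_zpow]
  exact dvd_add (Dvd.dvd.mul_left hdvd _) (dvd_neg.mpr (dvd_mul_right _ _))

end Place

section Chart

variable {R k B F : Type*} [CommRing R] [IsDomain R] [Field k] [Algebra R k]
  [CommRing B] [IsDomain B] [Field F] [Algebra B F] [IsFractionRing B F]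
  [Algebra R B] [Algebra k F] [Algebra R F] [IsScalarTower R B F] [IsScalarTower R k F]
  [IsNoetherianRing B] [IsIntegrallyClosed B]

/-- **`(D)` at a horizontal height-one prime** from the divisibility of the order at its place. -/
theorem exists_isUnitAt_div_pow_of_dvd_ord (π : R) [IsLocalization.Away π k] (p : Ideal B)
    [p.IsPrime] (h1 : p.height = 1) (hπp : algebraMap R B π ∉ p) {u : F} (hu : u ≠ 0) {m : ℕ}
    (hdvd : (m : ℤ) ∣ (H3.placeOfHorizontalPrime (k := k) π p h1 hπp).ord u) :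
    ∃ g : F, g ≠ 0 ∧ IsUnitAt p (u / g ^ m) := by
  obtain ⟨g, hg0, hg⟩ :=
    exists_ord_div_pow_eq_zero (H3.placeOfHorizontalPrime (k := k) π p h1 hπp) hu hdvd
  refine ⟨g, hg0, ?_⟩
  exact (H3.ord_placeOfHorizontalPrime_eq_zero_iff (k := k) π p h1 hπp
    (div_ne_zero hu (pow_ne_zero m hg0))).mp hg

/-- **The order input `(D)` of row (E4) at a closed point `n`**: `u` a unit at every vertical
height-one prime through `n` and `m ∣ ord_w u` at every place of `F/k` give, for every height-one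
prime `P ≤ n`, a function `g ≠ 0` with `u / g ^ m` a unit at `P`. -/
theorem exists_isUnitAt_div_pow_of_places (π : R) [IsLocalization.Away π k] (n : Ideal B)
    {u : F} (hu : u ≠ 0) {m : ℕ}
    (hvert : ∀ P : Ideal B, P.IsPrime → P.height = 1 → P ≤ n → algebraMap R B π ∈ P →
      IsUnitAt P u)
    (hhor : ∀ w : Place k F, (m : ℤ) ∣ w.ord u) :
    ∀ P : Ideal B, P.IsPrime → P.height = 1 → P ≤ n →
      ∃ g : F, g ≠ 0 ∧ IsUnitAt P (u / g ^ m) := by
  intro P hP h1 hPn
  by_cases hπP : algebraMap R B π ∈ P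
  · refine ⟨1, one_ne_zero, ?_⟩
    rw [one_pow, div_one]
    exact hvert P hP h1 hPn hπP
  · exact exists_isUnitAt_div_pow_of_dvd_ord (k := k) π P h1 hπP hu (hhor _)

end Chart

end Fermat.Agent.S36.H61
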