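/-
helper56 — S36 row (E4) → (E7) seam: the hypothesis `hE4` of helper69's two-chart skeleton
`S36.H69.geo36_two_charts`, VERBATIM, from

* `hprinc_i` : (P) at every closed point of both charts (rows (M2)(M3)(M4)(M4r2), e.g. through
  `S36.H56.principalAt_of_threeComponents`);
* `hvert_i`  : the vertical height-one primes of chart `i` are the three `P_i j`
  (e.g. `S36.H56.eq_ker_of_height_one`);
* `hhor`     : `m ∣ ord_w f` at every place of the generic fibre `F2 / K` (rows (D1)/(D1c)).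

The function to which Step 2 is applied is the ABSORBED one of row (E3),
`f ^ (q + 1) * qK ^ (-s) * (g ^ m)⁻¹`, a unit at the three vertical valuations.
-/
import Mathlib
import Fermat.Agent.S36.H56_StepTwoCharts
import Fermat.Agent.S36.H61_HorizontalOrd

set_option autoImplicit false
set_option linter.unusedSectionVars false
set_option linter.style.haveILetI false

namespace Fermat.Agent.S36.H56

open Fermat.Agent AlgebraicCurve

section Const

variable {K F : Type*} [Field K] [Field F] [Algebra K F]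

/-- A nonzero constant has order zero at every place. -/
theorem ord_algebraMap_eq_zero' (w : Place K F) {c : K} (hc : c ≠ 0) :
    w.ord (algebraMap K F c) = 0 := by
  have hmem : algebraMap K F c ∈ w.toValuationSubring := w.algebraMap_mem' c
  have hmem' : algebraMap K F c⁻¹ ∈ w.toValuationSubring := w.algebraMap_mem' c⁻¹
  have h1 : (⟨algebraMap K F c, hmem⟩ : w.toValuationSubring) * ⟨algebraMap K F c⁻¹, hmem'⟩ = 1 := by
    apply Subtype.ext
    show algebraMap K F c * algebraMap K F c⁻¹ = 1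
    rw [← map_mul, mul_inv_cancel₀ hc, map_one]
  have h2 : (⟨algebraMap K F c⁻¹, hmem'⟩ : w.toValuationSubring) * ⟨algebraMap K F c, hmem⟩ = 1 := by
    rw [mul_comm]; exact h1
  exact w.ord_coe_unit ⟨⟨algebraMap K F c, hmem⟩, ⟨algebraMap K F c⁻¹, hmem'⟩, h1, h2⟩

/-- The absorbed function of row (E3) keeps `m ∣ ord` at the places of the generic fibre. -/
theorem dvd_ord_absorbed (w : Place K F) {f g : F} (hf : f ≠ 0) (hg : g ≠ 0) {qK : K}
    (hqK : qK ≠ 0) {m : ℕ} (a : ℕ) (s : ℤ) (hdvd : (m : ℤ) ∣ w.ord f) :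
    (m : ℤ) ∣ w.ord (f ^ a * algebraMap K F qK ^ (-s) * (g ^ m)⁻¹) := by
  have hc : algebraMap K F qK ≠ 0 := (map_ne_zero _).2 hqK
  refine H61.dvd_ord_mul_pow w hf (zpow_ne_zero _ hc) hg a hdvd ?_
  rw [w.ord_zpow, ord_algebraMap_eq_zero' w hqK, mul_zero]

end Const

section TwoCharts

variable {R F2 : Type*} [CommRing R] [IsDomain R] [Field F2] [Algebra R F2]
  {B₁ B₂ : Subalgebra R F2} [IsFractionRing B₁ F2] [IsFractionRing B₂ F2]
  [IsNoetherianRing B₁] [IsNoetherianRing B₂] [IsIntegrallyClosed B₁] [IsIntegrallyClosed B₂]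
  {π : R} (P₁ : Fin 3 → Ideal B₁) (P₂ : Fin 3 → Ideal B₂)
  [hP₁ : ∀ i, (P₁ i).IsPrime] [hP₂ : ∀ i, (P₂ i).IsPrime]
  (hh₁ : ∀ i, (P₁ i).height = 1) (hh₂ : ∀ i, (P₂ i).height = 1)
  {K : Type*} [Field K] [Algebra K F2] [Algebra R K] [IsScalarTower R K F2]
  [IsLocalization.Away π K]

/-- **`hE4` of `S36.H69.geo36_two_charts`, verbatim.** -/
theorem hE4_two_charts {q m : ℕ}
    (hVeq : ∀ i, S34.H56.valuationSubringAt (K := F2) (P₁ i) (hh₁ i) =
      S34.H56.valuationSubringAt (K := F2) (P₂ i) (hh₂ i))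
    (hvert₁ : ∀ P : Ideal B₁, P.IsPrime → P.height = 1 → algebraMap R B₁ π ∈ P → ∃ i, P = P₁ i)
    (hvert₂ : ∀ P : Ideal B₂, P.IsPrime → P.height = 1 → algebraMap R B₂ π ∈ P → ∃ i, P = P₂ i)
    (hprinc₁ : ∀ n : S34.H21.ClosedPt B₁ π, ∀ p : Ideal B₁, p.IsPrime → p.height = 1 → p ≤ n.1 →
      PrincipalAt n.1 p)
    (hprinc₂ : ∀ n : S34.H21.ClosedPt B₂ π, ∀ p : Ideal B₂, p.IsPrime → p.height = 1 → p ≤ n.1 →
      PrincipalAt n.1 p)
    {f : F2} (hf : f ≠ 0) {qK : K} (hqK : qK ≠ 0)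
    (hhor : ∀ w : Place K F2, (m : ℤ) ∣ w.ord f) :
    ∀ (s : ℤ) (g : F2), g ≠ 0 →
      (∀ i, (S34.H56.valuationSubringAt (K := F2) (P₁ i) (hh₁ i)).valuation
        (f ^ (q + 1) * algebraMap K F2 qK ^ (-s) * (g ^ m)⁻¹) = 1) →
      ∃ G : S34.H21.ClosedPt B₁ π ⊕ S34.H21.ClosedPt B₂ π → F2, (∀ n, G n ≠ 0) ∧
        ∀ n, S34.H47.UnitIn (S34.H21.ptO B₁ B₂ π n)
          (f ^ (q + 1) * algebraMap K F2 qK ^ (-s) * (g ^ m)⁻¹ / G n ^ m) := by
  intro s g hg hval
  have hc : algebraMap K F2 qK ≠ 0 := (map_ne_zero _).2 hqK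
  have hu : f ^ (q + 1) * algebraMap K F2 qK ^ (-s) * (g ^ m)⁻¹ ≠ 0 :=
    mul_ne_zero (mul_ne_zero (pow_ne_zero _ hf) (zpow_ne_zero _ hc))
      (inv_ne_zero (pow_ne_zero _ hg))
  have hhor' : ∀ w : Place K F2,
      (m : ℤ) ∣ w.ord (f ^ (q + 1) * algebraMap K F2 qK ^ (-s) * (g ^ m)⁻¹) :=
    fun w => dvd_ord_absorbed w hf hg hqK (q + 1) s (hhor w)
  refine exists_hG_two_charts B₁ B₂ π _ hu m hprinc₁ hprinc₂ ?_ ?_
  · intro n p hp h1 hpn
    haveI := hp
    by_cases hπp : algebraMap R B₁ π ∈ p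
    · obtain ⟨i, rfl⟩ := hvert₁ p hp h1 hπp
      refine ⟨1, ?_⟩
      rw [one_pow, div_one]
      exact (S34.H56.valuation_eq_one_iff (hh₁ i)).mp (hval i)
    · obtain ⟨g', -, hg'⟩ :=
        H61.exists_isUnitAt_div_pow_of_dvd_ord (k := K) π p h1 hπp hu (hhor' _)
      exact ⟨g', hg'⟩
  · intro n p hp h1 hpn
    haveI := hp
    by_cases hπp : algebraMap R B₂ π ∈ p
    · obtain ⟨i, rfl⟩ := hvert₂ p hp h1 hπp
      refine ⟨1, ?_⟩
      rw [one_pow, div_one]
      have := hval i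
      rw [hVeq i] at this
      exact (S34.H56.valuation_eq_one_iff (hh₂ i)).mp this
    · obtain ⟨g', -, hg'⟩ :=
        H61.exists_isUnitAt_div_pow_of_dvd_ord (k := K) π p h1 hπp hu (hhor' _)
      exact ⟨g', hg'⟩

end TwoCharts

end Fermat.Agent.S36.H56
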