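/-
helper56 — S36 row (E4), overlap form: Step 2 on the two-chart model when the local analysis
((M2)(M3)(M4): "every height-one prime through `n` is principal at `n`") is available at ALL
closed points of chart 1 but only at the CUSPIDAL closed points of chart 2, the other closed
points of chart 2 having the same local ring as a closed point of chart 1
(`(OVL-a)`: `H21.ptO B₁ B₂ π (Sum.inl n₁) = H21.ptO B₁ B₂ π (Sum.inr n₂)`).

Only the OUTPUT of Step 2 is transported along the equality of local rings; no transfer of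
`UniqueFactorizationMonoid` / `PrincipalAt` is needed.
-/
import Mathlib
import Fermat.Agent.S36.H56_StepTwoGeo

set_option autoImplicit false
set_option linter.unusedSectionVars false
set_option linter.style.haveILetI false

namespace Fermat.Agent.S36.H56

open Fermat.Agent AlgebraicCurve

section Ovl

variable {R F : Type*} [CommRing R] [Field F] [Algebra R F]
  (B₁ B₂ : Subalgebra R F) [IsFractionRing B₁ F] [IsFractionRing B₂ F]
  [IsNoetherianRing B₁] [IsNoetherianRing B₂] [IsIntegrallyClosed B₁] [IsIntegrallyClosed B₂]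
  (π : R)

/-- **Step 2 on the two-chart model, overlap form.**  `C n₂` : "the closed point `n₂` of chart 2
is cuspidal"; at the other closed points of chart 2 the local ring is the local ring of a closed
point of chart 1 (`hovl`). -/
theorem exists_hG_two_charts_ovl (u : F) (hu : u ≠ 0) (m : ℕ)
    (C : S34.H21.ClosedPt B₂ π → Prop)
    (hovl : ∀ n₂ : S34.H21.ClosedPt B₂ π, ¬ C n₂ → ∃ n₁ : S34.H21.ClosedPt B₁ π,
      S34.H21.ptO B₁ B₂ π (Sum.inl n₁) = S34.H21.ptO B₁ B₂ π (Sum.inr n₂))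
    (hprinc₁ : ∀ n : S34.H21.ClosedPt B₁ π, ∀ p : Ideal B₁, p.IsPrime → p.height = 1 → p ≤ n.1 →
      PrincipalAt n.1 p)
    (hprinc₂ : ∀ n : S34.H21.ClosedPt B₂ π, C n → ∀ p : Ideal B₂, p.IsPrime → p.height = 1 →
      p ≤ n.1 → PrincipalAt n.1 p)
    (hord₁ : ∀ n : S34.H21.ClosedPt B₁ π, ∀ p : Ideal B₁, p.IsPrime → p.height = 1 → p ≤ n.1 →
      ∃ g : F, S34.H56.IsUnitAt p (u / g ^ m))
    (hord₂ : ∀ n : S34.H21.ClosedPt B₂ π, C n → ∀ p : Ideal B₂, p.IsPrime → p.height = 1 →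
      p ≤ n.1 → ∃ g : F, S34.H56.IsUnitAt p (u / g ^ m)) :
    ∃ G : S34.H21.ClosedPt B₁ π ⊕ S34.H21.ClosedPt B₂ π → F, (∀ n, G n ≠ 0) ∧
      ∀ n, S34.H47.UnitIn (S34.H21.ptO B₁ B₂ π n) (u / G n ^ m) := by
  have key₁ : ∀ n : S34.H21.ClosedPt B₁ π,
      ∃ G : F, G ≠ 0 ∧ S34.H47.UnitIn (S34.H21.ptO B₁ B₂ π (Sum.inl n)) (u / G ^ m) := by
    intro n
    haveI := n.2.1.isPrime
    exact exists_unitIn_div_pow n.1 u hu m (hprinc₁ n) (hord₁ n)
  have key : ∀ n : S34.H21.ClosedPt B₁ π ⊕ S34.H21.ClosedPt B₂ π,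
      ∃ G : F, G ≠ 0 ∧ S34.H47.UnitIn (S34.H21.ptO B₁ B₂ π n) (u / G ^ m) := by
    rintro (n | n)
    · exact key₁ n
    · by_cases hC : C n
      · haveI := n.2.1.isPrime
        exact exists_unitIn_div_pow n.1 u hu m (hprinc₂ n hC) (hord₂ n hC)
      · obtain ⟨n₁, h⟩ := hovl n hC
        rw [← h]
        exact key₁ n₁
  choose G hG0 hG using key
  exact ⟨G, hG0, hG⟩

end Ovl

section Geo

variable {R F2 : Type*} [CommRing R] [IsDomain R] [Field F2] [Algebra R F2]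
  {B₁ B₂ : Subalgebra R F2} [IsFractionRing B₁ F2] [IsFractionRing B₂ F2]
  [IsNoetherianRing B₁] [IsNoetherianRing B₂] [IsIntegrallyClosed B₁] [IsIntegrallyClosed B₂]
  {π : R} (P₁ : Fin 3 → Ideal B₁) (P₂ : Fin 3 → Ideal B₂)
  [hP₁ : ∀ i, (P₁ i).IsPrime] [hP₂ : ∀ i, (P₂ i).IsPrime]
  (hh₁ : ∀ i, (P₁ i).height = 1) (hh₂ : ∀ i, (P₂ i).height = 1)
  {K : Type*} [Field K] [Algebra K F2] [Algebra R K] [IsScalarTower R K F2]
  [IsLocalization.Away π K]

/-- **`hE4` of `S36.H69.geo36_two_charts`, verbatim, overlap form**: (P) is required at every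
closed point of chart 1 and only at the cuspidal closed points of chart 2. -/
theorem hE4_two_charts_ovl {q m : ℕ}
    (hVeq : ∀ i, S34.H56.valuationSubringAt (K := F2) (P₁ i) (hh₁ i) =
      S34.H56.valuationSubringAt (K := F2) (P₂ i) (hh₂ i))
    (hvert₁ : ∀ P : Ideal B₁, P.IsPrime → P.height = 1 → algebraMap R B₁ π ∈ P → ∃ i, P = P₁ i)
    (hvert₂ : ∀ P : Ideal B₂, P.IsPrime → P.height = 1 → algebraMap R B₂ π ∈ P → ∃ i, P = P₂ i)
    (C : S34.H21.ClosedPt B₂ π → Prop)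
    (hovl : ∀ n₂ : S34.H21.ClosedPt B₂ π, ¬ C n₂ → ∃ n₁ : S34.H21.ClosedPt B₁ π,
      S34.H21.ptO B₁ B₂ π (Sum.inl n₁) = S34.H21.ptO B₁ B₂ π (Sum.inr n₂))
    (hprinc₁ : ∀ n : S34.H21.ClosedPt B₁ π, ∀ p : Ideal B₁, p.IsPrime → p.height = 1 → p ≤ n.1 →
      PrincipalAt n.1 p)
    (hprinc₂ : ∀ n : S34.H21.ClosedPt B₂ π, C n → ∀ p : Ideal B₂, p.IsPrime → p.height = 1 →
      p ≤ n.1 → PrincipalAt n.1 p)
    {f : F2} (hf : f ≠ 0) {qK : K} (hqK : qK ≠ 0)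
    (hhor : ∀ w : Place K F2, (m : ℤ) ∣ w.ord f) :
    ∀ (s : ℤ) (g : F2), g ≠ 0 →
      (∀ i, (S34.H56.valuationSubringAt (K := F2) (P₁ i) (hh₁ i)).valuation
        (f ^ (q + 1) * algebraMap K F2 qK ^ (-s) * (g ^ m)⁻¹) = 1) →
      ∃ G : S34.H21.ClosedPt B₁ π ⊕ S34.H21.ClosedPt B₂ π → F2, (∀ n, G n ≠ 0) ∧
        ∀ n, S34.H47.UnitIn (S34.H21.ptO B₁ B₂ π n)
          (f ^ (q + 1) * algebraMap K F2 qK ^ (-s) * (g ^ m)⁻¹ / G n ^ m) := by
  intro s g hg hval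
  have hc : algebraMap K F2 qK ≠ 0 := (map_ne_zero _).2 hqK
  have hu : f ^ (q + 1) * algebraMap K F2 qK ^ (-s) * (g ^ m)⁻¹ ≠ 0 :=
    mul_ne_zero (mul_ne_zero (pow_ne_zero _ hf) (zpow_ne_zero _ hc))
      (inv_ne_zero (pow_ne_zero _ hg))
  have hhor' : ∀ w : Place K F2,
      (m : ℤ) ∣ w.ord (f ^ (q + 1) * algebraMap K F2 qK ^ (-s) * (g ^ m)⁻¹) :=
    fun w => dvd_ord_absorbed w hf hg hqK (q + 1) s (hhor w)
  refine exists_hG_two_charts_ovl B₁ B₂ π _ hu m C hovl hprinc₁ hprinc₂ ?_ ?_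
  · intro n p hp h1 hpn
    haveI := hp
    by_cases hπp : algebraMap R B₁ π ∈ p
    · obtain ⟨i, rfl⟩ := hvert₁ p hp h1 hπp
      refine ⟨1, ?_⟩
      rw [one_pow, div_one]
      exact (S34.H56.valuation_eq_one_iff (hh₁ i)).mp (hval i)
    · obtain ⟨g', -, hg'⟩ :=
        H61.exists_isUnitAt_div_pow_of_dvd_ord (k := K) π p h1 hπp hu (hhor' _)
      exact ⟨g', hg'⟩
  · intro n _ p hp h1 hpn
    haveI := hp
    by_cases hπp : algebraMap R B₂ π ∈ p
    · obtain ⟨i, rfl⟩ := hvert₂ p hp h1 hπp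
      refine ⟨1, ?_⟩
      rw [one_pow, div_one]
      have := hval i
      rw [hVeq i] at this
      exact (S34.H56.valuation_eq_one_iff (hh₂ i)).mp this
    · obtain ⟨g', -, hg'⟩ :=
        H61.exists_isUnitAt_div_pow_of_dvd_ord (k := K) π p h1 hπp hu (hhor' _)
      exact ⟨g', hg'⟩

end Geo

end Fermat.Agent.S36.H56
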