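/-
helper62 — S36 (G-ii), abstract core, Mathlib only.

Principal height-one primes at a "regular triple point":

* `exists_eq_span_singleton_of_quotient_principal` (helper78's Nakayama lemma in the
  generality it needs): `O` noetherian, `x` in the Jacobson radical, every ideal of
  `O ⧸ (x)` principal, `P` prime with `x ∉ P`  ⟹  `P = (f)`.
* `maximalIdeal_eq_span_pair`: `m = (x, y, θ)` and `y ∈ (x, θ) + m²`  ⟹  `m = (x, θ)`.
* `isPrincipalIdealRing_quotient_of_maximalIdeal_eq_span_pair`: `O` local noetherian,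
  `m = (x, θ)`, `(x)` prime  ⟹  `O ⧸ (x)` is a principal ideal ring.
* `exists_eq_span_singleton_of_triple`: the consumer corollary.
-/
import Mathlib

set_option autoImplicit false

namespace Fermat.Agent.S36.H62

open Ideal IsLocalRing

section Nakayama

variable {O : Type*} [CommRing O]

/-- **Nakayama principal-prime lemma.**  If every ideal of `O ⧸ (x)` is principal, `x` lies in
the Jacobson radical, and `P` is a finitely generated prime not containing `x`, then `P` is
principal.  (No domain, regularity or factoriality hypothesis.) -/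
theorem exists_eq_span_singleton_of_quotient_principal
    (x : O) (hx : x ∈ (⊥ : Ideal O).jacobson)
    [IsPrincipalIdealRing (O ⧸ Ideal.span {x})]
    (P : Ideal O) [hP : P.IsPrime] (hfg : P.FG) (hxP : x ∉ P) :
    ∃ f ∈ P, P = Ideal.span {f} := by
  classical
  set π := Ideal.Quotient.mk (Ideal.span ({x} : Set O)) with hπ
  have hsurj : Function.Surjective π := Ideal.Quotient.mk_surjective
  -- the image of `P` is principal
  obtain ⟨g, hg⟩ := (IsPrincipalIdealRing.principal (P.map π)).principal
  have hgmem : g ∈ P.map π := by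
    rw [hg]; exact Submodule.mem_span_singleton_self g
  obtain ⟨f, hfP, hfg'⟩ := (Ideal.mem_map_iff_of_surjective π hsurj).1 hgmem
  refine ⟨f, hfP, le_antisymm ?_ ?_⟩
  · -- `P ≤ (f) ⊔ (x) • P`, then Nakayama
    have hle : P ≤ Ideal.span {f} ⊔ Ideal.span ({x} : Set O) • P := by
      intro p hp
      have hpm : π p ∈ P.map π := Ideal.mem_map_of_mem π hp
      rw [hg] at hpm
      obtain ⟨a', ha'⟩ := Submodule.mem_span_singleton.1 hpm
      obtain ⟨a, rfl⟩ := hsurj a'
      -- `π (a * f) = π p`
      have h1 : π (p - a * f) = 0 := by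
        rw [map_sub, map_mul, hfg', ← ha', smul_eq_mul, sub_self]
      have h2 : p - a * f ∈ Ideal.span ({x} : Set O) := by
        rwa [hπ, Ideal.Quotient.eq_zero_iff_mem] at h1
      obtain ⟨b, hb⟩ := Ideal.mem_span_singleton'.1 h2
      -- `b * x = p - a f ∈ P`, so `b ∈ P`
      have hbx : b * x ∈ P := by
        rw [hb]; exact P.sub_mem hp (P.mul_mem_left a hfP)
      have hbP : b ∈ P := (hP.mem_or_mem hbx).resolve_right hxP
      have hp' : p = a * f + x * b := by
        have : p - a * f = x * b := by rw [← hb, mul_comm]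
        linear_combination this
      rw [hp']
      refine Submodule.add_mem_sup ?_ ?_
      · exact Ideal.mul_mem_left _ a (Ideal.subset_span rfl)
      · exact Submodule.smul_mem_smul (Ideal.subset_span rfl) hbP
    have hJ : Ideal.span ({x} : Set O) ≤ (⊥ : Ideal O).jacobson := by
      rw [Ideal.span_le]; intro z hz
      rw [Set.mem_singleton_iff] at hz; subst hz; exact hx
    exact Submodule.le_of_le_smul_of_le_jacobson_bot hfg hJ hle
  · rw [Ideal.span_le]; intro z hz
    rw [Set.mem_singleton_iff] at hz; subst hz; exact hfP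

end Nakayama

section Local

variable {O : Type*} [CommRing O] [IsLocalRing O]

/-- Two-generator step: if `m = (x, y, θ)` and `y ∈ (x, θ) + m²` then `m = (x, θ)`. -/
theorem maximalIdeal_eq_span_pair [IsNoetherianRing O] (x y θ : O)
    (hm : maximalIdeal O = Ideal.span {x, y, θ})
    (hy : y ∈ Ideal.span ({x, θ} : Set O) ⊔ maximalIdeal O * maximalIdeal O) :
    maximalIdeal O = Ideal.span {x, θ} := by
  have hxm : x ∈ maximalIdeal O := by rw [hm]; exact Ideal.subset_span (by simp)
  have hθm : θ ∈ maximalIdeal O := by rw [hm]; exact Ideal.subset_span (by simp)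
  refine le_antisymm ?_ ?_
  · have hle : maximalIdeal O ≤ Ideal.span ({x, θ} : Set O) ⊔ maximalIdeal O • maximalIdeal O := by
      conv_lhs => rw [hm]
      rw [Ideal.span_le]
      intro z hz
      simp only [Set.mem_insert_iff, Set.mem_singleton_iff] at hz
      rcases hz with rfl | rfl | rfl
      · exact Submodule.mem_sup_left (Ideal.subset_span (by simp))
      · simpa [smul_eq_mul] using hy
      · exact Submodule.mem_sup_left (Ideal.subset_span (by simp))
    exact Submodule.le_of_le_smul_of_le_jacobson_bot (IsNoetherian.noetherian _)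
      (IsLocalRing.maximalIdeal_le_jacobson ⊥) hle
  · rw [Ideal.span_le]
    intro z hz
    simp only [Set.mem_insert_iff, Set.mem_singleton_iff] at hz
    rcases hz with rfl | rfl
    · exact hxm
    · exact hθm

end Local

section Quotient

variable {O : Type*} [CommRing O] [IsLocalRing O] [IsNoetherianRing O]

omit [IsNoetherianRing O] in
theorem nontrivial_quotient_of_mem_maximalIdeal (x : O) (hx : x ∈ maximalIdeal O) :
    Nontrivial (O ⧸ Ideal.span ({x} : Set O)) := by
  rw [Ideal.Quotient.nontrivial_iff]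
  intro htop
  have h1 : (1 : O) ∈ Ideal.span ({x} : Set O) := by rw [htop]; exact Submodule.mem_top
  have hle : Ideal.span ({x} : Set O) ≤ maximalIdeal O := by
    rw [Ideal.span_le]; intro z hz
    rw [Set.mem_singleton_iff] at hz; subst hz; exact hx
  exact (Ideal.ne_top_iff_one _).1 (IsLocalRing.maximalIdeal.isMaximal O).ne_top (hle h1)

omit [IsNoetherianRing O] in
/-- If `m = (x, θ)` then the maximal ideal of `O ⧸ (x)` is generated by the class of `θ`. -/
theorem maximalIdeal_quotient_eq_span (x θ : O)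
    (hm : maximalIdeal O = Ideal.span {x, θ}) [IsLocalRing (O ⧸ Ideal.span ({x} : Set O))] :
    maximalIdeal (O ⧸ Ideal.span ({x} : Set O)) =
      Ideal.span {Ideal.Quotient.mk (Ideal.span ({x} : Set O)) θ} := by
  classical
  set I : Ideal O := Ideal.span ({x} : Set O) with hI
  set π := Ideal.Quotient.mk I with hπ
  have hsurj : Function.Surjective π := Ideal.Quotient.mk_surjective
  have hθm : θ ∈ maximalIdeal O := by rw [hm]; exact Ideal.subset_span (by simp)
  refine le_antisymm ?_ ?_
  · intro z hz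
    obtain ⟨a, rfl⟩ := hsurj z
    have ha : a ∈ maximalIdeal O := by
      rw [IsLocalRing.mem_maximalIdeal, mem_nonunits_iff]
      intro hu
      exact (IsLocalRing.mem_maximalIdeal _).1 hz (hu.map π)
    rw [hm, Ideal.mem_span_pair] at ha
    obtain ⟨r, s, rfl⟩ := ha
    have hx0 : π x = 0 := by
      rw [hπ, Ideal.Quotient.eq_zero_iff_mem]; exact Ideal.subset_span rfl
    rw [map_add, map_mul, map_mul, hx0, mul_zero, zero_add]
    exact Ideal.mul_mem_left _ _ (Ideal.subset_span rfl)
  · rw [Ideal.span_le]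
    intro z hz
    rw [Set.mem_singleton_iff] at hz; subst hz
    rw [SetLike.mem_coe, IsLocalRing.mem_maximalIdeal, mem_nonunits_iff]
    intro hu
    obtain ⟨w, hw⟩ := hu.exists_right_inv
    obtain ⟨b, rfl⟩ := hsurj w
    have h1 : π (θ * b - 1) = 0 := by rw [map_sub, map_mul, hw, map_one, sub_self]
    have h2 : θ * b - 1 ∈ I := by rwa [hπ, Ideal.Quotient.eq_zero_iff_mem] at h1
    have hIm : I ≤ maximalIdeal O := by
      rw [hI, Ideal.span_le]; intro z hz
      rw [Set.mem_singleton_iff] at hz; subst hz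
      rw [hm]; exact Ideal.subset_span (by simp)
    have h3 : θ * b - 1 ∈ maximalIdeal O := hIm h2
    have h4 : (1 : O) ∈ maximalIdeal O := by
      have : (1 : O) = θ * b - (θ * b - 1) := by ring
      rw [this]
      exact (maximalIdeal O).sub_mem ((maximalIdeal O).mul_mem_right b hθm) h3
    exact (Ideal.ne_top_iff_one _).1 (IsLocalRing.maximalIdeal.isMaximal O).ne_top h4

/-- If `m = (x, θ)` and `(x)` is prime, then `O ⧸ (x)` is a local noetherian domain whose maximal
ideal is generated by the class of `θ`; hence a principal ideal ring (a field or a DVR). -/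
theorem isPrincipalIdealRing_quotient_of_maximalIdeal_eq_span_pair (x θ : O)
    (hm : maximalIdeal O = Ideal.span {x, θ}) [hx : (Ideal.span ({x} : Set O)).IsPrime] :
    IsPrincipalIdealRing (O ⧸ Ideal.span ({x} : Set O)) := by
  classical
  have : IsDomain (O ⧸ Ideal.span ({x} : Set O)) := Ideal.Quotient.isDomain _
  have : IsLocalRing (O ⧸ Ideal.span ({x} : Set O)) :=
    IsLocalRing.of_surjective' (Ideal.Quotient.mk _) Ideal.Quotient.mk_surjective
  have hmax := maximalIdeal_quotient_eq_span x θ hm
  have hprin : (maximalIdeal (O ⧸ Ideal.span ({x} : Set O))).IsPrincipal :=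
    ⟨⟨Ideal.Quotient.mk _ θ, by rw [hmax]⟩⟩
  exact ((tfae_of_isNoetherianRing_of_isLocalRing_of_isDomain
    (O ⧸ Ideal.span ({x} : Set O))).out 0 4).2 hprin

/-- **Consumer corollary (G-ii).**  `O` local noetherian, `m = (x, y, θ)` with
`y ∈ (x, θ) + m²` (so `O` is regular of dimension `≤ 2` with parameters `x, θ`), `(x)` prime.
Then every prime `P` with `x ∉ P` is principal. -/
theorem exists_eq_span_singleton_of_triple (x y θ : O)
    (hm : maximalIdeal O = Ideal.span {x, y, θ})
    (hy : y ∈ Ideal.span ({x, θ} : Set O) ⊔ maximalIdeal O * maximalIdeal O)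
    [hx : (Ideal.span ({x} : Set O)).IsPrime]
    (P : Ideal O) [P.IsPrime] (hxP : x ∉ P) :
    ∃ f ∈ P, P = Ideal.span {f} := by
  have hm2 : maximalIdeal O = Ideal.span {x, θ} := maximalIdeal_eq_span_pair x y θ hm hy
  have := isPrincipalIdealRing_quotient_of_maximalIdeal_eq_span_pair x θ hm2
  have hxm : x ∈ maximalIdeal O := by rw [hm2]; exact Ideal.subset_span (by simp)
  have hxJ : x ∈ (⊥ : Ideal O).jacobson := IsLocalRing.maximalIdeal_le_jacobson ⊥ hxm
  exact exists_eq_span_singleton_of_quotient_principal x hxJ P (IsNoetherian.noetherian P) hxP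

/-- Variant with the pair of parameters given directly. -/
theorem exists_eq_span_singleton_of_pair (x θ : O)
    (hm : maximalIdeal O = Ideal.span {x, θ})
    [hx : (Ideal.span ({x} : Set O)).IsPrime]
    (P : Ideal O) [P.IsPrime] (hxP : x ∉ P) :
    ∃ f ∈ P, P = Ideal.span {f} := by
  have := isPrincipalIdealRing_quotient_of_maximalIdeal_eq_span_pair x θ hm
  have hxm : x ∈ maximalIdeal O := by rw [hm]; exact Ideal.subset_span (by simp)
  have hxJ : x ∈ (⊥ : Ideal O).jacobson := IsLocalRing.maximalIdeal_le_jacobson ⊥ hxm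
  exact exists_eq_span_singleton_of_quotient_principal x hxJ P (IsNoetherian.noetherian P) hxP

end Quotient

section Domain

variable {Q : Type*} [CommRing Q] [IsLocalRing Q] [IsNoetherianRing Q]

/-- In a noetherian local ring with principal maximal ideal `(t)`, every nonzero element is a
unit times a power of `t`. -/
theorem exists_unit_mul_pow_of_maximalIdeal_eq_span_singleton (t : Q)
    (hm : maximalIdeal Q = Ideal.span {t}) {z : Q} (hz : z ≠ 0) :
    ∃ (n : ℕ) (u : Q), IsUnit u ∧ z = u * t ^ n := by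
  classical
  -- Krull intersection: `z ∉ m ^ k` for some `k`
  have hK : (⨅ i : ℕ, maximalIdeal Q ^ i) = ⊥ :=
    Ideal.iInf_pow_eq_bot_of_isLocalRing _ (IsLocalRing.maximalIdeal.isMaximal Q).ne_top
  have hex : ∃ k : ℕ, z ∉ maximalIdeal Q ^ k := by
    by_contra hcon
    simp only [not_exists, not_not] at hcon
    have : z ∈ (⨅ i : ℕ, maximalIdeal Q ^ i) := by
      rw [Ideal.mem_iInf]; exact hcon
    rw [hK, Ideal.mem_bot] at this
    exact hz this
  -- least such `k`; it is positive
  have hk0 : Nat.find hex ≠ 0 := by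
    intro h0
    have := Nat.find_spec hex
    rw [h0, pow_zero, Ideal.one_eq_top] at this
    exact this Submodule.mem_top
  obtain ⟨n, hn⟩ := Nat.exists_eq_succ_of_ne_zero hk0
  have hmem : z ∈ maximalIdeal Q ^ n := by
    by_contra hnot
    have := Nat.find_min' hex hnot
    omega
  have hnot : z ∉ maximalIdeal Q ^ (n + 1) := by
    have := Nat.find_spec hex
    rwa [hn] at this
  rw [hm, Ideal.span_singleton_pow, Ideal.mem_span_singleton'] at hmem
  obtain ⟨a, ha⟩ := hmem
  refine ⟨n, a, ?_, ha.symm⟩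
  by_contra hau
  have ham : a ∈ maximalIdeal Q := (IsLocalRing.mem_maximalIdeal a).2 hau
  apply hnot
  have htn : t ^ n ∈ maximalIdeal Q ^ n := by
    rw [hm, Ideal.span_singleton_pow]; exact Ideal.subset_span rfl
  have : a * t ^ n ∈ maximalIdeal Q * maximalIdeal Q ^ n := Ideal.mul_mem_mul ham htn
  rwa [ha, ← pow_succ'] at this

/-- A noetherian local ring with principal maximal ideal `(t)`, `t` not nilpotent, is a domain. -/
theorem isDomain_of_maximalIdeal_eq_span_singleton (t : Q)
    (hm : maximalIdeal Q = Ideal.span {t}) (ht : ¬ IsNilpotent t) : IsDomain Q := by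
  have hnz : NoZeroDivisors Q := by
    refine ⟨fun {a b} hab => ?_⟩
    by_contra hcon
    rw [not_or] at hcon
    obtain ⟨n, u, hu, rfl⟩ := exists_unit_mul_pow_of_maximalIdeal_eq_span_singleton t hm hcon.1
    obtain ⟨n', u', hu', rfl⟩ := exists_unit_mul_pow_of_maximalIdeal_eq_span_singleton t hm hcon.2
    apply ht
    refine ⟨n + n', ?_⟩
    have h1 : (u * u') * t ^ (n + n') = 0 := by
      rw [pow_add]; linear_combination hab
    exact (hu.mul hu').mul_right_eq_zero.1 h1
  exact NoZeroDivisors.to_isDomain Q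

end Domain

section Prime

variable {O : Type*} [CommRing O] [IsLocalRing O] [IsNoetherianRing O]

/-- If `m = (x, θ)` and no power of `θ` lies in `(x)` (e.g. there is a prime containing `x`
but not `θ`), then `(x)` is a prime ideal (and `O ⧸ (x)` is a DVR or a field). -/
theorem span_singleton_isPrime_of_pair (x θ : O)
    (hm : maximalIdeal O = Ideal.span {x, θ})
    (hθ : ∀ n : ℕ, θ ^ n ∉ Ideal.span ({x} : Set O)) :
    (Ideal.span ({x} : Set O)).IsPrime := by
  have hxm : x ∈ maximalIdeal O := by rw [hm]; exact Ideal.subset_span (by simp)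
  have : Nontrivial (O ⧸ Ideal.span ({x} : Set O)) :=
    nontrivial_quotient_of_mem_maximalIdeal x hxm
  have : IsLocalRing (O ⧸ Ideal.span ({x} : Set O)) :=
    IsLocalRing.of_surjective' (Ideal.Quotient.mk _) Ideal.Quotient.mk_surjective
  have hmax := maximalIdeal_quotient_eq_span x θ hm
  have hnil : ¬ IsNilpotent (Ideal.Quotient.mk (Ideal.span ({x} : Set O)) θ) := by
    rintro ⟨n, hn⟩
    rw [← map_pow, Ideal.Quotient.eq_zero_iff_mem] at hn
    exact hθ n hn
  have hdom : IsDomain (O ⧸ Ideal.span ({x} : Set O)) :=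
    isDomain_of_maximalIdeal_eq_span_singleton _ hmax hnil
  exact (Ideal.Quotient.isDomain_iff_prime _).1 hdom

/-- Variant: a prime `P₁` containing `x` but not `θ` witnesses the hypothesis; moreover then
`P₁ = (x)`. -/
theorem eq_span_singleton_of_pair (x θ : O)
    (hm : maximalIdeal O = Ideal.span {x, θ})
    (P₁ : Ideal O) [hP₁ : P₁.IsPrime] (hx : x ∈ P₁) (hθ : θ ∉ P₁) :
    P₁ = Ideal.span ({x} : Set O) ∧ (Ideal.span ({x} : Set O)).IsPrime := by
  have hle : Ideal.span ({x} : Set O) ≤ P₁ := by
    rw [Ideal.span_le]; intro z hz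
    rw [Set.mem_singleton_iff] at hz; subst hz; exact hx
  have hpow : ∀ n : ℕ, θ ^ n ∉ Ideal.span ({x} : Set O) := fun n hn =>
    hθ (hP₁.mem_of_pow_mem n (hle hn))
  have hprime := span_singleton_isPrime_of_pair x θ hm hpow
  refine ⟨le_antisymm ?_ hle, hprime⟩
  -- every `p ∈ P₁` is `r x + s θ` with `s θ ∈ P₁`, so `s ∈ P₁`: `P₁ ≤ (x) + m • P₁`, Nakayama
  have hsub : P₁ ≤ Ideal.span ({x} : Set O) ⊔ maximalIdeal O • P₁ := by
    intro p hp
    have hpm : p ∈ maximalIdeal O := by
      have : P₁ ≤ maximalIdeal O := IsLocalRing.le_maximalIdeal hP₁.ne_top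
      exact this hp
    rw [hm, Ideal.mem_span_pair] at hpm
    obtain ⟨r, s, rfl⟩ := hpm
    have hsθ : s * θ ∈ P₁ := by
      have : s * θ = (r * x + s * θ) - r * x := by ring
      rw [this]; exact P₁.sub_mem hp (P₁.mul_mem_left r hx)
    have hs : s ∈ P₁ := (hP₁.mem_or_mem hsθ).resolve_right hθ
    refine Submodule.add_mem_sup (Ideal.mul_mem_left _ r (Ideal.subset_span rfl)) ?_
    have hθm : θ ∈ maximalIdeal O := by rw [hm]; exact Ideal.subset_span (by simp)
    rw [mul_comm]
    exact Submodule.smul_mem_smul hθm hs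
  exact Submodule.le_of_le_smul_of_le_jacobson_bot (IsNoetherian.noetherian P₁)
    (IsLocalRing.maximalIdeal_le_jacobson ⊥) hsub

/-- **Master corollary (G-ii) at a regular triple point.**  `O` local noetherian,
`m = (x, y, θ)` with `y ∈ (x, θ) + m²`; `P₁` a prime with `x ∈ P₁`, `θ ∉ P₁` (the branch cut out
by `x`).  Then `P₁ = (x)`, and every prime `P` not containing `x` is principal. -/
theorem principal_of_regular_triple (x y θ : O)
    (hm : maximalIdeal O = Ideal.span {x, y, θ})
    (hy : y ∈ Ideal.span ({x, θ} : Set O) ⊔ maximalIdeal O * maximalIdeal O)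
    (P₁ : Ideal O) [P₁.IsPrime] (hx : x ∈ P₁) (hθ : θ ∉ P₁) :
    P₁ = Ideal.span ({x} : Set O) ∧
      ∀ (P : Ideal O) [P.IsPrime], x ∉ P → ∃ f ∈ P, P = Ideal.span {f} := by
  have hm2 : maximalIdeal O = Ideal.span {x, θ} := maximalIdeal_eq_span_pair x y θ hm hy
  obtain ⟨h1, hprime⟩ := eq_span_singleton_of_pair x θ hm2 P₁ hx hθ
  refine ⟨h1, fun P _ hxP => ?_⟩
  exact exists_eq_span_singleton_of_pair x θ hm2 P hxP

end Prime

section UFD

variable {O : Type*} [CommRing O] [IsDomain O] [IsLocalRing O] [IsNoetherianRing O]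

/-- **Regular pair ⟹ UFD** (Kaplansky's criterion; no Auslander–Buchsbaum).  `O` a local
noetherian domain with `m = (x, θ)`, `x ≠ 0`, and a prime `P₁ ∋ x` with `θ ∉ P₁`.  Then `O` is a
unique factorisation domain; in particular it is integrally closed. -/
theorem uniqueFactorizationMonoid_of_pair (x θ : O)
    (hm : maximalIdeal O = Ideal.span {x, θ}) (hx0 : x ≠ 0)
    (P₁ : Ideal O) [P₁.IsPrime] (hx : x ∈ P₁) (hθ : θ ∉ P₁) :
    UniqueFactorizationMonoid O := by
  obtain ⟨-, hxprime⟩ := eq_span_singleton_of_pair x θ hm P₁ hx hθ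
  have hxp : Prime x := (Ideal.span_singleton_prime hx0).1 hxprime
  refine UniqueFactorizationMonoid.iff_exists_prime_mem_of_isPrime.2 fun I hI hIp => ?_
  by_cases hxI : x ∈ I
  · exact ⟨x, hxI, hxp⟩
  · obtain ⟨f, hfI, hIf⟩ := exists_eq_span_singleton_of_pair x θ hm I hxI
    have hf0 : f ≠ 0 := by
      rintro rfl
      apply hI
      rw [hIf, Ideal.span_singleton_eq_bot]
    refine ⟨f, hfI, (Ideal.span_singleton_prime hf0).1 ?_⟩
    rw [← hIf]; exact hIp

theorem isIntegrallyClosed_of_pair (x θ : O)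
    (hm : maximalIdeal O = Ideal.span {x, θ}) (hx0 : x ≠ 0)
    (P₁ : Ideal O) [P₁.IsPrime] (hx : x ∈ P₁) (hθ : θ ∉ P₁) :
    IsIntegrallyClosed O := by
  have := uniqueFactorizationMonoid_of_pair x θ hm hx0 P₁ hx hθ
  infer_instance

/-- Triple form: `m = (x, y, θ)` with `y ∈ (x, θ) + m²`. -/
theorem uniqueFactorizationMonoid_of_triple (x y θ : O)
    (hm : maximalIdeal O = Ideal.span {x, y, θ})
    (hy : y ∈ Ideal.span ({x, θ} : Set O) ⊔ maximalIdeal O * maximalIdeal O) (hx0 : x ≠ 0)
    (P₁ : Ideal O) [P₁.IsPrime] (hx : x ∈ P₁) (hθ : θ ∉ P₁) :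
    UniqueFactorizationMonoid O :=
  uniqueFactorizationMonoid_of_pair x θ (maximalIdeal_eq_span_pair x y θ hm hy) hx0 P₁ hx hθ

end UFD

section Monogenic

/-- If `θ` is a root of `Ψ`, then `θ` divides the constant coefficient of `Ψ` (in any algebra). -/
theorem dvd_algebraMap_coeff_zero_of_aeval_eq_zero {R S : Type*} [CommRing R] [CommRing S]
    [Algebra R S] (Ψ : Polynomial R) (θ : S) (h : Polynomial.aeval θ Ψ = 0) :
    θ ∣ algebraMap R S (Ψ.coeff 0) := by
  have h1 := congrArg (Polynomial.aeval θ) (Polynomial.X_mul_divX_add Ψ)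
  rw [map_add, map_mul, Polynomial.aeval_X, Polynomial.aeval_C, h] at h1
  refine ⟨-(Polynomial.aeval θ Ψ.divX), ?_⟩
  linear_combination h1

/-- (P1)/(II) in one line: `O` local with `m = (x, y, θ)`, `θ` a root of a polynomial `Ψ` over a
subring-like base `R → O` whose constant coefficient is `y` times a unit.  Then `m = (x, θ)`. -/
theorem maximalIdeal_eq_span_pair_of_root {R O : Type*} [CommRing R] [CommRing O] [IsLocalRing O]
    [IsNoetherianRing O] [Algebra R O] (x y θ : O)
    (hm : maximalIdeal O = Ideal.span {x, y, θ})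
    (Ψ : Polynomial R) (hroot : Polynomial.aeval θ Ψ = 0)
    (u : O) (hu : IsUnit u) (hΨ0 : algebraMap R O (Ψ.coeff 0) = y * u) :
    maximalIdeal O = Ideal.span {x, θ} := by
  refine maximalIdeal_eq_span_pair x y θ hm (Submodule.mem_sup_left ?_)
  obtain ⟨c, hc⟩ := dvd_algebraMap_coeff_zero_of_aeval_eq_zero Ψ θ hroot
  obtain ⟨v, rfl⟩ := hu
  have hy : y = θ * (c * ((v⁻¹ : Oˣ) : O)) := by
    have h1 : y * (v : O) = θ * c := by rw [← hΨ0, hc]
    calc y = y * (v : O) * ((v⁻¹ : Oˣ) : O) := by
            rw [mul_assoc, Units.mul_inv, mul_one]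
      _ = θ * (c * ((v⁻¹ : Oˣ) : O)) := by rw [h1, mul_assoc]
  rw [hy]
  exact Ideal.mul_mem_right _ _ (Ideal.subset_span (by simp))

end Monogenic

end Fermat.Agent.S36.H62
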