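/-
helper62 — S36 (M3), Note 2 (B), abstract consumer core (Mathlib + CA.H42_Hartogs).

`O` a noetherian integrally closed domain, `Q` a height-one prime, `x ∈ Q` a local generator of
`Q` at `Q` (`e = 1`) such that `Q` is the ONLY height-one prime containing `x`
("`div x = Q` exactly").  Then `Q = (x)` (Hartogs).  If moreover `x` lies in the Jacobson radical
and `O ⧸ Q` is a principal ideal ring (a DVR: localisation of the Dedekind component ring), then
EVERY height-one prime of `O` is principal (Nakayama lemma of `H62_RegularPrincipal`).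
No regularity, no coordinates, no parity of `q`.
-/
import Mathlib
import Fermat.Agent.CA.H42_Hartogs
import Fermat.Agent.S36.H62_RegularPrincipal

set_option autoImplicit false

namespace Fermat.Agent.S36.H62

open Fermat.Agent.CA.H42

variable {O : Type*} [CommRing O] [IsDomain O] [IsNoetherianRing O] [IsIntegrallyClosed O]

/-- **`div x = Q` ⟹ `Q = (x)`** in a noetherian normal domain. -/
theorem eq_span_singleton_of_unique_heightOne (K : Type*) [Field K] [Algebra O K]
    [IsFractionRing O K] (x : O) (hx0 : x ≠ 0)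
    (Q : Ideal O) [Q.IsPrime] (hxQ : x ∈ Q)
    (hunif : ∀ z ∈ Q, ∃ c, c ∉ Q ∧ x ∣ c * z)
    (honly : ∀ P : Ideal O, P.IsPrime → P.height = 1 → x ∈ P → P = Q) :
    Q = Ideal.span {x} := by
  have hinj := IsFractionRing.injective O K
  have hxK : algebraMap O K x ≠ 0 := fun h => hx0 (hinj (by rw [h, map_zero]))
  refine le_antisymm ?_ ?_
  · intro z hz
    -- `z / x ∈ O` by Hartogs
    have hmem : algebraMap O K z / algebraMap O K x ∈ Set.range (algebraMap O K) := by
      refine mem_range_of_forall_height_one _ fun p hp hp1 => ?_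
      by_cases hxp : x ∈ p
      · -- `p = Q`
        have hpQ : p = Q := honly p hp hp1 hxp
        obtain ⟨c, hc, d, hd⟩ := hunif z hz
        refine ⟨d, c, by rwa [hpQ], ?_⟩
        have : algebraMap O K c * algebraMap O K z = algebraMap O K x * algebraMap O K d := by
          rw [← map_mul, ← map_mul, hd]
        field_simp
        linear_combination this
      · refine ⟨z, x, hxp, ?_⟩
        field_simp
    obtain ⟨y, hy⟩ := hmem
    rw [Ideal.mem_span_singleton]
    refine ⟨y, hinj ?_⟩
    rw [map_mul, hy]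
    field_simp
  · rw [Ideal.span_le]; intro z hz
    rw [Set.mem_singleton_iff] at hz; subst hz; exact hxQ

/-- **(M3) / Note 2 (B), abstract.**  Under the hypotheses above, with `x` in the Jacobson
radical and `O ⧸ Q` a principal ideal ring, every height-one prime of `O` is principal. -/
theorem heightOne_principal_of_unique_heightOne (K : Type*) [Field K] [Algebra O K]
    [IsFractionRing O K] (x : O) (hx0 : x ≠ 0)
    (hxJ : x ∈ (⊥ : Ideal O).jacobson)
    (Q : Ideal O) [hQ : Q.IsPrime] (hxQ : x ∈ Q)
    (hunif : ∀ z ∈ Q, ∃ c, c ∉ Q ∧ x ∣ c * z)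
    (honly : ∀ P : Ideal O, P.IsPrime → P.height = 1 → x ∈ P → P = Q)
    [hpir : IsPrincipalIdealRing (O ⧸ Q)]
    (P : Ideal O) [hP : P.IsPrime] (hP1 : P.height = 1) :
    ∃ f ∈ P, P = Ideal.span {f} := by
  have hQx : Q = Ideal.span {x} := eq_span_singleton_of_unique_heightOne K x hx0 Q hxQ hunif honly
  by_cases hxP : x ∈ P
  · have hPQ : P = Q := honly P hP hP1 hxP
    exact ⟨x, hxP, by rw [hPQ, hQx]⟩
  · subst hQx
    exact exists_eq_span_singleton_of_quotient_principal x hxJ P (IsNoetherian.noetherian P) hxP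

/-- Variant for ALL primes not containing `x` (any height), plus `Q = (x)`. -/
theorem principal_of_unique_heightOne (K : Type*) [Field K] [Algebra O K]
    [IsFractionRing O K] (x : O) (hx0 : x ≠ 0)
    (hxJ : x ∈ (⊥ : Ideal O).jacobson)
    (Q : Ideal O) [hQ : Q.IsPrime] (hxQ : x ∈ Q)
    (hunif : ∀ z ∈ Q, ∃ c, c ∉ Q ∧ x ∣ c * z)
    (honly : ∀ P : Ideal O, P.IsPrime → P.height = 1 → x ∈ P → P = Q)
    [hpir : IsPrincipalIdealRing (O ⧸ Q)] :
    Q = Ideal.span {x} ∧
      ∀ (P : Ideal O) [P.IsPrime], x ∉ P → ∃ f ∈ P, P = Ideal.span {f} := by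
  have hQx : Q = Ideal.span {x} := eq_span_singleton_of_unique_heightOne K x hx0 Q hxQ hunif honly
  refine ⟨hQx, fun P _ hxP => ?_⟩
  subst hQx
  exact exists_eq_span_singleton_of_quotient_principal x hxJ P (IsNoetherian.noetherian P) hxP

end Fermat.Agent.S36.H62
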