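/-
helper62 — S36 (M3), Note 2 (B), chart level ("`B` with `n`" vocabulary; Mathlib + landed files).

PART 1 (generic, chart level).  `B` a noetherian integrally closed domain, `n` a prime, `Q ≤ n` a
prime, `x ∈ Q` a uniformiser at `Q` (`e = 1`) such that `Q` is the only height-one prime `≤ n`
containing `x`.  Then `x` generates `Q` locally at `n`
(`∀ z ∈ Q, ∃ t ∉ n, t * z ∈ span {x}` = the `hx` of `S36.H83.exists_locGen_of_localGen`).

PART 2 (`ThreeComponents` vocabulary).  At a closed point `n` on `C₁` (resp. `C₃`) of the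
level-`q²` chart, an element `x` with `red₁ x = 0`, `red₂ x ≠ 0`, `red₃ x ≠ 0` which divides `q`
locally at `n` generates `P₁ = ker red₁` locally at `n`; hence `n B_n = (x, τ)`.

PART 3 (generic bridge to (E4)).  If `n B_n = (x, τ)` in the `locGen` spelling, `Q ≤ n` is a
prime with `x ∈ Q`, `τ ∉ Q`, then `B_n` is a UFD and every height-one prime `P ≤ n` is locally
principal at `n`.
-/
import Mathlib
import Fermat.Agent.S36.H62_PrincipalOfDivisor
import Fermat.Agent.S36.H83_ThreeComponents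

set_option autoImplicit false

namespace Fermat.Agent.S36.H62

open IsLocalRing

/-! ### Localisation at a prime: dictionary -/

section Dictionary

variable {B : Type*} [CommRing B] [IsDomain B]

/-- `z ∈ span S` locally at `n`  ⟸  membership of the image in the localisation. -/
theorem exists_mul_mem_span_of_algebraMap_mem (n : Ideal B) [n.IsPrime] (S : Set B) {z : B}
    (hz : algebraMap B (Localization.AtPrime n) z ∈
      Ideal.span ((algebraMap B (Localization.AtPrime n)) '' S)) :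
    ∃ t : B, t ∉ n ∧ t * z ∈ Ideal.span S := by
  rw [← Ideal.map_span] at hz
  obtain ⟨⟨⟨a, ha⟩, ⟨s, hs⟩⟩, h⟩ :=
    (IsLocalization.mem_map_algebraMap_iff n.primeCompl (Localization.AtPrime n)).1 hz
  have hinj : Function.Injective (algebraMap B (Localization.AtPrime n)) :=
    IsLocalization.injective _ n.primeCompl_le_nonZeroDivisors
  refine ⟨s, hs, ?_⟩
  have : s * z = a := hinj (by rw [map_mul, mul_comm]; exact h)
  rw [this]; exact ha

omit [IsDomain B] in
/-- membership of the image in the localisation  ⟸  `z ∈ span S` locally at `n`. -/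
theorem algebraMap_mem_span_of_exists_mul_mem (n : Ideal B) [n.IsPrime] (S : Set B) {z : B}
    (hz : ∃ t : B, t ∉ n ∧ t * z ∈ Ideal.span S) :
    algebraMap B (Localization.AtPrime n) z ∈
      Ideal.span ((algebraMap B (Localization.AtPrime n)) '' S) := by
  obtain ⟨t, ht, htz⟩ := hz
  rw [← Ideal.map_span]
  have h1 : algebraMap B (Localization.AtPrime n) (t * z) ∈
      Ideal.map (algebraMap B (Localization.AtPrime n)) (Ideal.span S) :=
    Ideal.mem_map_of_mem _ htz
  have hu : IsUnit (algebraMap B (Localization.AtPrime n) t) :=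
    IsLocalization.map_units (Localization.AtPrime n) (⟨t, ht⟩ : n.primeCompl)
  rw [map_mul] at h1
  exact (Ideal.unit_mul_mem_iff_mem _ hu).1 h1

end Dictionary

/-! ### Part 1: `div x = Q` near `n`  ⟹  `x` generates `Q` locally at `n` -/

section Part1

variable {B : Type*} [CommRing B] [IsDomain B] [IsNoetherianRing B] [IsIntegrallyClosed B]

/-- **(M3) core, chart level (Note 2 (B)).**  `Q ≤ n` primes of the noetherian normal domain
`B`; `x ∈ Q` is a uniformiser at `Q` (`hunif`, i.e. `e = 1`) and `Q` is the only height-one prime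
through `n` containing `x` (`honly`).  Then `x` generates `Q` locally at `n`. -/
theorem localGen_of_unique_heightOne (n : Ideal B) [hn : n.IsPrime] (Q : Ideal B) [hQ : Q.IsPrime]
    (hQn : Q ≤ n) {x : B} (hx0 : x ≠ 0) (hxQ : x ∈ Q)
    (hunif : ∀ z ∈ Q, ∃ c : B, c ∉ Q ∧ c * z ∈ Ideal.span {x})
    (honly : ∀ P : Ideal B, P.IsPrime → P.height = 1 → P ≤ n → x ∈ P → P = Q) :
    ∀ z ∈ Q, ∃ t : B, t ∉ n ∧ t * z ∈ Ideal.span {x} := by
  classical
  have hinj : Function.Injective (algebraMap B (Localization.AtPrime n)) :=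
    IsLocalization.injective _ n.primeCompl_le_nonZeroDivisors
  have : IsIntegrallyClosed (Localization.AtPrime n) :=
    isIntegrallyClosed_of_isLocalization (Localization.AtPrime n) n.primeCompl
      n.primeCompl_le_nonZeroDivisors
  have hdisjQ : Disjoint (n.primeCompl : Set B) (Q : Set B) := by
    rw [Set.disjoint_left]
    intro a ha haQ
    exact ha (hQn haQ)
  set Q' : Ideal (Localization.AtPrime n) := Ideal.map (algebraMap B (Localization.AtPrime n)) Q
    with hQ'
  have hQ'prime : Q'.IsPrime :=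
    IsLocalization.isPrime_of_isPrime_disjoint n.primeCompl (Localization.AtPrime n) Q hQ hdisjQ
  have hQ'under : Q'.under B = Q :=
    IsLocalization.under_map_of_isPrime_disjoint n.primeCompl (Localization.AtPrime n) hQ hdisjQ
  have hmemQ' : ∀ b : B, algebraMap B (Localization.AtPrime n) b ∈ Q' ↔ b ∈ Q := by
    intro b
    rw [← hQ'under]
    exact Iff.rfl
  have hx0' : algebraMap B (Localization.AtPrime n) x ≠ 0 := fun h =>
    hx0 (hinj (by rw [h, map_zero]))
  -- the hypotheses of the abstract lemma, in the localisation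
  have hunif' : ∀ z' ∈ Q', ∃ c', c' ∉ Q' ∧ algebraMap B (Localization.AtPrime n) x ∣ c' * z' := by
    intro z' hz'
    obtain ⟨⟨⟨a, ha⟩, ⟨s, hs⟩⟩, h⟩ :=
      (IsLocalization.mem_map_algebraMap_iff n.primeCompl (Localization.AtPrime n)).1 hz'
    obtain ⟨c, hc, hcz⟩ := hunif a ha
    obtain ⟨d, hd⟩ := Ideal.mem_span_singleton'.1 hcz
    have hsu : IsUnit (algebraMap B (Localization.AtPrime n) s) :=
      IsLocalization.map_units (Localization.AtPrime n) (⟨s, hs⟩ : n.primeCompl)
    refine ⟨algebraMap B _ c * algebraMap B _ s, fun hmem => ?_, algebraMap B _ d, ?_⟩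
    · rcases hQ'prime.mem_or_mem hmem with h1 | h1
      · exact hc ((hmemQ' c).1 h1)
      · exact hQ'prime.ne_top (Ideal.eq_top_of_isUnit_mem _ h1 hsu)
    · have h2 : z' * algebraMap B (Localization.AtPrime n) s =
          algebraMap B (Localization.AtPrime n) a := h
      calc algebraMap B (Localization.AtPrime n) c * algebraMap B _ s * z'
          = algebraMap B _ c * (z' * algebraMap B _ s) := by ring
        _ = algebraMap B _ (c * a) := by rw [h2, map_mul]
        _ = algebraMap B _ x * algebraMap B _ d := by rw [← hd, map_mul, mul_comm]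
  have honly' : ∀ P' : Ideal (Localization.AtPrime n), P'.IsPrime → P'.height = 1 →
      algebraMap B (Localization.AtPrime n) x ∈ P' → P' = Q' := by
    intro P' hP' hP'1 hxP'
    have hPprime : (P'.under B).IsPrime := Ideal.IsPrime.under B P'
    have hPh : (P'.under B).height = 1 := by
      rw [IsLocalization.height_under n.primeCompl P']; exact hP'1
    have hPn : P'.under B ≤ n := by
      have hdisj : Disjoint (n.primeCompl : Set B) (P'.under B : Set B) :=
        (IsLocalization.disjoint_under_iff n.primeCompl (Localization.AtPrime n) P').2 hP'.ne_top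
      intro b hb
      by_contra hbn
      exact Set.disjoint_left.1 hdisj hbn hb
    have hPQ : P'.under B = Q := honly _ hPprime hPh hPn hxP'
    rw [hQ', ← hPQ]
    exact (IsLocalization.map_under n.primeCompl (Localization.AtPrime n) P').symm
  have hmain : Q' = Ideal.span {algebraMap B (Localization.AtPrime n) x} :=
    eq_span_singleton_of_unique_heightOne (FractionRing B)
      (algebraMap B (Localization.AtPrime n) x) hx0' Q' ((hmemQ' x).2 hxQ) hunif' honly'
  intro z hz
  have hz' : algebraMap B (Localization.AtPrime n) z ∈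
      Ideal.span ((algebraMap B (Localization.AtPrime n)) '' {x}) := by
    rw [Set.image_singleton, ← hmain]
    exact (hmemQ' z).2 hz
  exact exists_mul_mem_span_of_algebraMap_mem n {x} hz'

end Part1

/-! ### Part 2: the `ThreeComponents` vocabulary -/

section HeightOne

variable {B : Type*} [CommRing B] [IsDomain B] [IsNoetherianRing B]

/-- A nonzero prime inside a height-one prime equals it. -/
theorem eq_of_le_of_height_eq_one (Q P : Ideal B) [hQ : Q.IsPrime] [hP : P.IsPrime]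
    (hQ0 : Q ≠ ⊥) (hQP : Q ≤ P) (hP1 : P.height = 1) : Q = P := by
  by_contra hne
  have hlt : Q < P := lt_of_le_of_ne hQP hne
  have h1 : Q.height < P.height := Ideal.height_strict_mono_of_isPrime_of_isPrime hlt
  have hbot : (⊥ : Ideal B) < Q := bot_lt_iff_ne_bot.2 hQ0
  have : (⊥ : Ideal B).IsPrime := Ideal.isPrime_bot
  have h0 : (⊥ : Ideal B).height < Q.height := Ideal.height_strict_mono_of_isPrime_of_isPrime hbot
  rw [hP1] at h1
  have h2 : Q.height = 0 := by
    have := Order.lt_one_iff.1 h1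
    exact this
  rw [h2] at h0
  exact not_lt_bot h0

end HeightOne

section Part2

open Fermat.Agent.S36.H83

/-- **(M3), ideal-theoretic core.**  `Q, Q₂, Q₃` primes of the noetherian normal domain `B` with
`Q · Q₂^m · Q₃ ⊆ (qB)`; `n ⊇ Q` a prime; `x ∈ Q`, `x ∉ Q₂`, `x ∉ Q₃`, `x` divides `qB` locally at
`n`.  Then `x` generates `Q` locally at `n`. -/
theorem localGen_of_three_primes {B : Type*} [CommRing B] [IsDomain B] [IsNoetherianRing B]
    [IsIntegrallyClosed B] (Q Q₂ Q₃ : Ideal B) [hQ1 : Q.IsPrime] [hQ2 : Q₂.IsPrime]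
    [hQ3 : Q₃.IsPrime] (m : ℕ) (qB : B)
    (hmul : ∀ a ∈ Q, ∀ b ∈ Q₂, ∀ c ∈ Q₃, a * b ^ m * c ∈ Ideal.span {qB})
    (n : Ideal B) [hn : n.IsPrime] (hker : Q ≤ n)
    {x : B} (hx1 : x ∈ Q) (hx2 : x ∉ Q₂) (hx3 : x ∉ Q₃)
    (hq : ∃ t : B, t ∉ n ∧ t * qB ∈ Ideal.span {x})
    (h21 : ∃ b : B, b ∈ Q₂ ∧ b ∉ Q) (h31 : ∃ c : B, c ∈ Q₃ ∧ c ∉ Q) :
    ∀ z ∈ Q, ∃ t : B, t ∉ n ∧ t * z ∈ Ideal.span {x} := by
  classical
  obtain ⟨t, htn, htq⟩ := hq
  obtain ⟨b, hb2, hb1⟩ := h21
  obtain ⟨c, hc3, hc1⟩ := h31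
  have hx0 : x ≠ 0 := fun h0 => hx2 (by rw [h0]; exact Q₂.zero_mem)
  have hb0 : b ≠ 0 := fun h0 => hb1 (by rw [h0]; exact Q.zero_mem)
  have hc0 : c ≠ 0 := fun h0 => hc1 (by rw [h0]; exact Q.zero_mem)
  have htQ : t ∉ Q := fun hmem => htn (hker hmem)
  have hne : ∀ (I : Ideal B) (y : B), y ∈ I → y ≠ 0 → I ≠ ⊥ := by
    intro I y hy hy0 h0
    rw [h0] at hy
    exact hy0 ((Ideal.mem_bot).1 hy)
  refine localGen_of_unique_heightOne n Q hker hx0 hx1 ?_ ?_
  · -- `x` is a uniformiser at `Q`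
    intro z hz
    refine ⟨t * (b ^ m * c), fun hmem => ?_, ?_⟩
    · rcases hQ1.mem_or_mem hmem with h' | h'
      · exact htQ h'
      · rcases hQ1.mem_or_mem h' with h'' | h''
        · exact hb1 (hQ1.mem_of_pow_mem _ h'')
        · exact hc1 h''
    · have h1 : z * b ^ m * c ∈ Ideal.span {qB} := hmul z hz b hb2 c hc3
      obtain ⟨w, hw⟩ := Ideal.mem_span_singleton'.1 h1
      have e : t * (b ^ m * c) * z = w * (t * qB) := by
        rw [← mul_assoc w, mul_comm w t, mul_assoc t w, hw]; ring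
      rw [e]
      exact Ideal.mul_mem_left _ _ htq
  · -- `Q` is the only height-one prime through `n` containing `x`
    intro P hP hP1 hPn hxP
    have hqP : qB ∈ P := by
      have h1 : t * qB ∈ P := (Ideal.span_singleton_le_iff_mem P).2 hxP htq
      rcases hP.mem_or_mem h1 with h' | h'
      · exact absurd (hPn h') htn
      · exact h'
    have h3 : Q ≤ P ∨ Q₂ ≤ P ∨ Q₃ ≤ P := by
      by_contra hcon
      push Not at hcon
      obtain ⟨h1, h2, h3⟩ := hcon
      obtain ⟨a', ha', haP⟩ := Set.not_subset.1 h1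
      obtain ⟨b', hb', hbP⟩ := Set.not_subset.1 h2
      obtain ⟨c', hc', hcP⟩ := Set.not_subset.1 h3
      have hmem : a' * b' ^ m * c' ∈ P :=
        (Ideal.span_singleton_le_iff_mem P).2 hqP (hmul a' ha' b' hb' c' hc')
      rcases hP.mem_or_mem hmem with h' | h'
      · rcases hP.mem_or_mem h' with h'' | h''
        · exact haP h''
        · exact hbP (hP.mem_of_pow_mem _ h'')
      · exact hcP h'
    rcases h3 with h' | h' | h'
    · exact (eq_of_le_of_height_eq_one Q P (hne Q x hx1 hx0) h' hP1).symm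
    · exfalso
      have hP2 : Q₂ = P := eq_of_le_of_height_eq_one Q₂ P (hne Q₂ b hb2 hb0) h' hP1
      rw [← hP2] at hxP
      exact hx2 hxP
    · exfalso
      have hP3 : Q₃ = P := eq_of_le_of_height_eq_one Q₃ P (hne Q₃ c hc3 hc0) h' hP1
      rw [← hP3] at hxP
      exact hx3 hxP

variable {B D BM : Type*} [CommRing B] [IsDomain B] [IsNoetherianRing B] [IsIntegrallyClosed B]
  [CommRing D] [IsDedekindDomain D] [CommRing BM]
  {red₁ red₂ red₃ : B →+* D} {ιu ιv ιw : BM →+* B} {rbar : BM →+* D} {W : D →+* D}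
  {q : ℕ} {qB : B}

/-- **(M3), first component.**  `n` a closed point on `C₁` of the (normal, noetherian) chart `B`
of level `q²`; `x` vanishes on `C₁`, not on `C₂`, `C₃`, and divides `q` locally at `n`
(`x := ` the image of the level-`q` local generator of `P_∞`, `x y = q · unit` by thickness one).
Then `x` generates `P₁ = ker red₁` locally at `n`. -/
theorem localGen_first_of_dvd (h : ThreeComponents red₁ red₂ red₃ ιu ιv ιw rbar W q qB)
    (n : Ideal B) (hn : n.IsMaximal) (hker : RingHom.ker red₁ ≤ n)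
    {x : B} (hx1 : red₁ x = 0) (hx2 : red₂ x ≠ 0) (hx3 : red₃ x ≠ 0)
    (hq : ∃ t : B, t ∉ n ∧ t * qB ∈ Ideal.span {x})
    (h21 : ∃ b : B, red₂ b = 0 ∧ red₁ b ≠ 0) (h31 : ∃ c : B, red₃ c = 0 ∧ red₁ c ≠ 0) :
    ∀ z ∈ RingHom.ker red₁, ∃ t : B, t ∉ n ∧ t * z ∈ Ideal.span {x} := by
  have hnprime : n.IsPrime := hn.isPrime
  have hQ1 : (RingHom.ker red₁).IsPrime := RingHom.ker_isPrime red₁
  have hQ2 : (RingHom.ker red₂).IsPrime := RingHom.ker_isPrime red₂
  have hQ3 : (RingHom.ker red₃).IsPrime := RingHom.ker_isPrime red₃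
  obtain ⟨b, hb2, hb1⟩ := h21
  obtain ⟨c, hc3, hc1⟩ := h31
  refine localGen_of_three_primes (RingHom.ker red₁) (RingHom.ker red₂) (RingHom.ker red₃)
    (q - 1) qB ?_ n hker ((RingHom.mem_ker).2 hx1) (fun hm => hx2 ((RingHom.mem_ker).1 hm))
    (fun hm => hx3 ((RingHom.mem_ker).1 hm)) hq
    ⟨b, (RingHom.mem_ker).2 hb2, fun hm => hb1 ((RingHom.mem_ker).1 hm)⟩
    ⟨c, (RingHom.mem_ker).2 hc3, fun hm => hc1 ((RingHom.mem_ker).1 hm)⟩
  intro a' ha' b' hb' c' hc'
  exact h.mul_mem_span ((RingHom.mem_ker).1 ha') (Ideal.pow_mem_pow hb' (q - 1))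
    ((RingHom.mem_ker).1 hc')

/-- **(M3), third component** (mirror image: `x` comes from the level-`q` chart of `K(u,v)`). -/
theorem localGen_third_of_dvd (h : ThreeComponents red₁ red₂ red₃ ιu ιv ιw rbar W q qB)
    (n : Ideal B) (hn : n.IsMaximal) (hker : RingHom.ker red₃ ≤ n)
    {x : B} (hx3 : red₃ x = 0) (hx2 : red₂ x ≠ 0) (hx1 : red₁ x ≠ 0)
    (hq : ∃ t : B, t ∉ n ∧ t * qB ∈ Ideal.span {x})
    (h23 : ∃ b : B, red₂ b = 0 ∧ red₃ b ≠ 0) (h13 : ∃ c : B, red₁ c = 0 ∧ red₃ c ≠ 0) :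
    ∀ z ∈ RingHom.ker red₃, ∃ t : B, t ∉ n ∧ t * z ∈ Ideal.span {x} := by
  have hnprime : n.IsPrime := hn.isPrime
  have hQ1 : (RingHom.ker red₁).IsPrime := RingHom.ker_isPrime red₁
  have hQ2 : (RingHom.ker red₂).IsPrime := RingHom.ker_isPrime red₂
  have hQ3 : (RingHom.ker red₃).IsPrime := RingHom.ker_isPrime red₃
  obtain ⟨b, hb2, hb3⟩ := h23
  obtain ⟨c, hc1, hc3⟩ := h13
  refine localGen_of_three_primes (RingHom.ker red₃) (RingHom.ker red₂) (RingHom.ker red₁)
    (q - 1) qB ?_ n hker ((RingHom.mem_ker).2 hx3) (fun hm => hx2 ((RingHom.mem_ker).1 hm))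
    (fun hm => hx1 ((RingHom.mem_ker).1 hm)) hq
    ⟨b, (RingHom.mem_ker).2 hb2, fun hm => hb3 ((RingHom.mem_ker).1 hm)⟩
    ⟨c, (RingHom.mem_ker).2 hc1, fun hm => hc3 ((RingHom.mem_ker).1 hm)⟩
  intro a' ha' b' hb' c' hc'
  have := h.mul_mem_span ((RingHom.mem_ker).1 hc') (Ideal.pow_mem_pow hb' (q - 1))
    ((RingHom.mem_ker).1 ha')
  have e : a' * b' ^ (q - 1) * c' = c' * b' ^ (q - 1) * a' := by ring
  rw [e]; exact this

/-- **(M3) ⟹ `n B_n = (x, τ)`** at a closed point of `C₁` (any point: crossing or not). -/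
theorem locGen_first_of_dvd (h : ThreeComponents red₁ red₂ red₃ ιu ιv ιw rbar W q qB)
    (hD : ¬ IsField D) (n : Ideal B) (hn : n.IsMaximal) (hker : RingHom.ker red₁ ≤ n)
    {x : B} (hx1 : red₁ x = 0) (hx2 : red₂ x ≠ 0) (hx3 : red₃ x ≠ 0)
    (hq : ∃ t : B, t ∉ n ∧ t * qB ∈ Ideal.span {x})
    (h21 : ∃ b : B, red₂ b = 0 ∧ red₁ b ≠ 0) (h31 : ∃ c : B, red₃ c = 0 ∧ red₁ c ≠ 0) :
    ∃ τ ∈ n, red₁ τ ∉ Ideal.map red₁ n ^ 2 ∧
      ∀ z ∈ n, ∃ t : B, t ∉ n ∧ t * z ∈ Ideal.span {x, τ} := by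
  obtain ⟨τ, hτ, hτ2⟩ := exists_uniformizer_lift h.hred₁ hD n hn hker
  exact ⟨τ, hτ, hτ2, locGen_of_localGen h.hred₁ hD n hn hker
    (localGen_first_of_dvd h n hn hker hx1 hx2 hx3 hq h21 h31) hτ hτ2⟩

/-- **(M3) ⟹ `n B_n = (x, τ)`** at a closed point of `C₃`. -/
theorem locGen_third_of_dvd (h : ThreeComponents red₁ red₂ red₃ ιu ιv ιw rbar W q qB)
    (hD : ¬ IsField D) (n : Ideal B) (hn : n.IsMaximal) (hker : RingHom.ker red₃ ≤ n)
    {x : B} (hx3 : red₃ x = 0) (hx2 : red₂ x ≠ 0) (hx1 : red₁ x ≠ 0)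
    (hq : ∃ t : B, t ∉ n ∧ t * qB ∈ Ideal.span {x})
    (h23 : ∃ b : B, red₂ b = 0 ∧ red₃ b ≠ 0) (h13 : ∃ c : B, red₁ c = 0 ∧ red₃ c ≠ 0) :
    ∃ τ ∈ n, red₃ τ ∉ Ideal.map red₃ n ^ 2 ∧
      ∀ z ∈ n, ∃ t : B, t ∉ n ∧ t * z ∈ Ideal.span {x, τ} := by
  obtain ⟨τ, hτ, hτ2⟩ := exists_uniformizer_lift h.hred₃ hD n hn hker
  exact ⟨τ, hτ, hτ2, locGen_of_localGen h.hred₃ hD n hn hker
    (localGen_third_of_dvd h n hn hker hx3 hx2 hx1 hq h23 h13) hτ hτ2⟩

end Part2

/-! ### Part 3: from `n B_n = (x, τ)` to "every height-one prime through `n` is principal" -/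

section Part3

variable {B : Type*} [CommRing B] [IsDomain B] [IsNoetherianRing B]

omit [IsDomain B] [IsNoetherianRing B] in
/-- The `locGen` spelling of `n B_n = (x, τ)`, read in `Localization.AtPrime n`. -/
theorem maximalIdeal_localization_eq_span_pair (n : Ideal B) [hn : n.IsPrime] {x τ : B}
    (hxn : x ∈ n) (hτn : τ ∈ n)
    (hloc : ∀ z ∈ n, ∃ t : B, t ∉ n ∧ t * z ∈ Ideal.span {x, τ}) :
    maximalIdeal (Localization.AtPrime n) =
      Ideal.span {algebraMap B (Localization.AtPrime n) x,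
        algebraMap B (Localization.AtPrime n) τ} := by
  rw [← Localization.AtPrime.map_eq_maximalIdeal]
  refine le_antisymm ?_ ?_
  · rw [Ideal.map_le_iff_le_comap]
    intro z hz
    have := algebraMap_mem_span_of_exists_mul_mem n {x, τ} (hloc z hz)
    rw [Set.image_pair] at this
    exact this
  · rw [Ideal.span_le]
    intro y hy
    rcases hy with rfl | hy
    · exact Ideal.mem_map_of_mem _ hxn
    · rw [Set.mem_singleton_iff] at hy; subst hy
      exact Ideal.mem_map_of_mem _ hτn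

/-- **Regular pair ⟹ `B_n` is a UFD.**  `n B_n = (x, τ)` and a prime `Q ≤ n` with `x ∈ Q`,
`τ ∉ Q` (a vertical prime through `n`). -/
theorem ufd_localization_of_locGen_pair (n : Ideal B) [hn : n.IsPrime] (Q : Ideal B)
    [hQ : Q.IsPrime] (hQn : Q ≤ n) {x τ : B} (hx0 : x ≠ 0) (hxQ : x ∈ Q) (hτn : τ ∈ n)
    (hτQ : τ ∉ Q)
    (hloc : ∀ z ∈ n, ∃ t : B, t ∉ n ∧ t * z ∈ Ideal.span {x, τ}) :
    UniqueFactorizationMonoid (Localization.AtPrime n) := by
  have hinj : Function.Injective (algebraMap B (Localization.AtPrime n)) :=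
    IsLocalization.injective _ n.primeCompl_le_nonZeroDivisors
  have hdisjQ : Disjoint (n.primeCompl : Set B) (Q : Set B) := by
    rw [Set.disjoint_left]
    intro a ha haQ
    exact ha (hQn haQ)
  have hQ'prime : (Ideal.map (algebraMap B (Localization.AtPrime n)) Q).IsPrime :=
    IsLocalization.isPrime_of_isPrime_disjoint n.primeCompl (Localization.AtPrime n) Q hQ hdisjQ
  have hQ'under : (Ideal.map (algebraMap B (Localization.AtPrime n)) Q).under B = Q :=
    IsLocalization.under_map_of_isPrime_disjoint n.primeCompl (Localization.AtPrime n) hQ hdisjQ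
  have hm := maximalIdeal_localization_eq_span_pair n (hQn hxQ) hτn hloc
  refine uniqueFactorizationMonoid_of_pair _ _ hm
    (fun h => hx0 (hinj (by rw [h, map_zero])))
    (Ideal.map (algebraMap B (Localization.AtPrime n)) Q) (Ideal.mem_map_of_mem _ hxQ) ?_
  intro hmem
  apply hτQ
  rw [← hQ'under]
  exact hmem

/-- **Bridge to (E4).**  If `n B_n = (x, τ)` with a vertical prime `Q ∋ x`, `τ ∉ Q`, then every
height-one prime `P ≤ n` is generated by one element locally at `n`. -/
theorem heightOne_localGen_of_locGen_pair (n : Ideal B) [hn : n.IsPrime] (Q : Ideal B)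
    [hQ : Q.IsPrime] (hQn : Q ≤ n) {x τ : B} (hx0 : x ≠ 0) (hxQ : x ∈ Q) (hτn : τ ∈ n)
    (hτQ : τ ∉ Q)
    (hloc : ∀ z ∈ n, ∃ t : B, t ∉ n ∧ t * z ∈ Ideal.span {x, τ})
    (P : Ideal B) [hP : P.IsPrime] (hPn : P ≤ n) (hP1 : P.height = 1) :
    ∃ f ∈ P, ∀ z ∈ P, ∃ t : B, t ∉ n ∧ t * z ∈ Ideal.span {f} := by
  classical
  have hufd := ufd_localization_of_locGen_pair n Q hQn hx0 hxQ hτn hτQ hloc
  have hdisjP : Disjoint (n.primeCompl : Set B) (P : Set B) := by
    rw [Set.disjoint_left]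
    intro a ha haP
    exact ha (hPn haP)
  set P' : Ideal (Localization.AtPrime n) := Ideal.map (algebraMap B (Localization.AtPrime n)) P
    with hP'
  have hP'prime : P'.IsPrime :=
    IsLocalization.isPrime_of_isPrime_disjoint n.primeCompl (Localization.AtPrime n) P hP hdisjP
  have hP'under : P'.under B = P :=
    IsLocalization.under_map_of_isPrime_disjoint n.primeCompl (Localization.AtPrime n) hP hdisjP
  have hP'1 : P'.height = 1 := by
    rw [← IsLocalization.height_under n.primeCompl P', hP'under]; exact hP1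
  have hP'0 : P' ≠ ⊥ := by
    intro h0
    rw [h0, Ideal.height_bot] at hP'1
    exact zero_ne_one hP'1
  obtain ⟨p, hpP', hp⟩ := Ideal.IsPrime.exists_mem_prime_of_ne_bot hP'prime hP'0
  have hspan : Ideal.span {p} = P' := by
    have hsp : (Ideal.span {p} : Ideal (Localization.AtPrime n)).IsPrime :=
      (Ideal.span_singleton_prime hp.ne_zero).2 hp
    refine eq_of_le_of_height_eq_one _ P' ?_ ((Ideal.span_singleton_le_iff_mem P').2 hpP') hP'1
    intro h0
    exact hp.ne_zero ((Ideal.span_singleton_eq_bot).1 h0)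
  obtain ⟨f, s, rfl⟩ := IsLocalization.exists_mk'_eq n.primeCompl p
  have hsu : IsUnit (algebraMap B (Localization.AtPrime n) s) :=
    IsLocalization.map_units (Localization.AtPrime n) s
  have hf : algebraMap B (Localization.AtPrime n) f =
      IsLocalization.mk' (Localization.AtPrime n) f s * algebraMap B (Localization.AtPrime n) s :=
    (IsLocalization.mk'_spec (Localization.AtPrime n) f s).symm
  have hspan' : Ideal.span {algebraMap B (Localization.AtPrime n) f} = P' := by
    rw [← hspan, hf]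
    exact Ideal.span_singleton_mul_right_unit hsu _
  refine ⟨f, ?_, fun z hz => ?_⟩
  · rw [← hP'under]
    show algebraMap B (Localization.AtPrime n) f ∈ P'
    rw [← hspan']
    exact Ideal.mem_span_singleton_self _
  · refine exists_mul_mem_span_of_algebraMap_mem n {f} ?_
    rw [Set.image_singleton, hspan']
    exact Ideal.mem_map_of_mem _ hz

end Part3

/-! ### Part 4: the single exit towards (E4) -/

section Part4

open Fermat.Agent.S36.H83

variable {B D : Type*} [CommRing B] [IsDomain B] [IsNoetherianRing B]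
  [CommRing D] [IsDedekindDomain D]

/-- **One branch ⟹ all height-one primes through `n` are locally principal.**
`red : B → D` onto a Dedekind domain, `n ⊇ ker red` a closed point, `x ≠ 0` a local generator of
`ker red` at `n` (the output of (M2), (M3), (M4), (M4r2) for SOME branch through `n`).  Then `B_n`
is regular of dimension two, hence a UFD, and every height-one prime `P ≤ n` is generated by one
element locally at `n`. -/
theorem heightOne_localGen_of_localGen {red : B →+* D} (hred : Function.Surjective red)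
    (hD : ¬ IsField D) (n : Ideal B) (hn : n.IsMaximal) (hker : RingHom.ker red ≤ n) {x : B}
    (hx0 : x ≠ 0) (hxk : red x = 0)
    (hx : ∀ z ∈ RingHom.ker red, ∃ t : B, t ∉ n ∧ t * z ∈ Ideal.span {x})
    (P : Ideal B) [hP : P.IsPrime] (hPn : P ≤ n) (hP1 : P.height = 1) :
    ∃ f ∈ P, ∀ z ∈ P, ∃ t : B, t ∉ n ∧ t * z ∈ Ideal.span {f} := by
  have hnprime : n.IsPrime := hn.isPrime
  have hQ : (RingHom.ker red).IsPrime := RingHom.ker_isPrime red
  obtain ⟨τ, hτ, hτ2⟩ := exists_uniformizer_lift hred hD n hn hker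
  have hloc := locGen_of_localGen hred hD n hn hker hx hτ hτ2
  have hτQ : τ ∉ RingHom.ker red := by
    intro hmem
    apply hτ2
    rw [(RingHom.mem_ker).1 hmem]
    exact Ideal.zero_mem _
  exact heightOne_localGen_of_locGen_pair n (RingHom.ker red) hker hx0 ((RingHom.mem_ker).2 hxk)
    hτ hτQ hloc P hPn hP1

/-- Same hypotheses: `B_n` is a UFD. -/
theorem ufd_localization_of_localGen {red : B →+* D} (hred : Function.Surjective red)
    (hD : ¬ IsField D) (n : Ideal B) (hn : n.IsMaximal) (hker : RingHom.ker red ≤ n) {x : B}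
    (hx0 : x ≠ 0) (hxk : red x = 0)
    (hx : ∀ z ∈ RingHom.ker red, ∃ t : B, t ∉ n ∧ t * z ∈ Ideal.span {x}) :
    haveI := hn.isPrime
    UniqueFactorizationMonoid (Localization.AtPrime n) := by
  have hnprime : n.IsPrime := hn.isPrime
  have hQ : (RingHom.ker red).IsPrime := RingHom.ker_isPrime red
  obtain ⟨τ, hτ, hτ2⟩ := exists_uniformizer_lift hred hD n hn hker
  have hloc := locGen_of_localGen hred hD n hn hker hx hτ hτ2
  have hτQ : τ ∉ RingHom.ker red := by
    intro hmem
    apply hτ2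
    rw [(RingHom.mem_ker).1 hmem]
    exact Ideal.zero_mem _
  exact ufd_localization_of_locGen_pair n (RingHom.ker red) hker hx0 ((RingHom.mem_ker).2 hxk)
    hτ hτQ hloc

end Part4

section Part5

open Fermat.Agent.S36.H83

variable {B D BM : Type*} [CommRing B] [IsDomain B] [IsNoetherianRing B] [IsIntegrallyClosed B]
  [CommRing D] [IsDedekindDomain D] [CommRing BM]
  {red₁ red₂ red₃ : B →+* D} {ιu ιv ιw : BM →+* B} {rbar : BM →+* D} {W : D →+* D}
  {q : ℕ} {qB : B}

/-- **(M3), final form, first component**: at a closed point `n` of `C₁` where `x` (vanishing on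
`C₁` only) divides `q` locally, every height-one prime through `n` is locally principal. -/
theorem heightOne_localGen_first_of_dvd
    (h : ThreeComponents red₁ red₂ red₃ ιu ιv ιw rbar W q qB)
    (hD : ¬ IsField D) (n : Ideal B) (hn : n.IsMaximal) (hker : RingHom.ker red₁ ≤ n)
    {x : B} (hx1 : red₁ x = 0) (hx2 : red₂ x ≠ 0) (hx3 : red₃ x ≠ 0)
    (hq : ∃ t : B, t ∉ n ∧ t * qB ∈ Ideal.span {x})
    (h21 : ∃ b : B, red₂ b = 0 ∧ red₁ b ≠ 0) (h31 : ∃ c : B, red₃ c = 0 ∧ red₁ c ≠ 0)
    (P : Ideal B) [hP : P.IsPrime] (hPn : P ≤ n) (hP1 : P.height = 1) :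
    ∃ f ∈ P, ∀ z ∈ P, ∃ t : B, t ∉ n ∧ t * z ∈ Ideal.span {f} :=
  heightOne_localGen_of_localGen h.hred₁ hD n hn hker
    (fun h0 => hx2 (by rw [h0, map_zero])) hx1
    (localGen_first_of_dvd h n hn hker hx1 hx2 hx3 hq h21 h31) P hPn hP1

/-- **(M3), final form, third component.** -/
theorem heightOne_localGen_third_of_dvd
    (h : ThreeComponents red₁ red₂ red₃ ιu ιv ιw rbar W q qB)
    (hD : ¬ IsField D) (n : Ideal B) (hn : n.IsMaximal) (hker : RingHom.ker red₃ ≤ n)
    {x : B} (hx3 : red₃ x = 0) (hx2 : red₂ x ≠ 0) (hx1 : red₁ x ≠ 0)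
    (hq : ∃ t : B, t ∉ n ∧ t * qB ∈ Ideal.span {x})
    (h23 : ∃ b : B, red₂ b = 0 ∧ red₃ b ≠ 0) (h13 : ∃ c : B, red₁ c = 0 ∧ red₃ c ≠ 0)
    (P : Ideal B) [hP : P.IsPrime] (hPn : P ≤ n) (hP1 : P.height = 1) :
    ∃ f ∈ P, ∀ z ∈ P, ∃ t : B, t ∉ n ∧ t * z ∈ Ideal.span {f} :=
  heightOne_localGen_of_localGen h.hred₃ hD n hn hker
    (fun h0 => hx2 (by rw [h0, map_zero])) hx3
    (localGen_third_of_dvd h n hn hker hx3 hx2 hx1 hq h23 h13) P hPn hP1

end Part5

end Fermat.Agent.S36.H62
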