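/-
helper62 — S36 (M3): the seam between the level-`q` regularity statement (M2) and the level-`q²`
statement (M3), in Lean terms.

`B₁` = a chart of level `q L` with its two reductions `r₁ r₂ : B₁ → D` (S34 `TwoComponents`),
`B` = the chart of level `q² L` with `ThreeComponents`, `φ : B₁ → B` one of the two degeneracy
chart maps.  Along `φ = φ_β` (`f(z) ↦ f(q z)`, image generated by `ιv`, `ιw`) the first component
`C₁` is ALONE over the first component of level `q`; along `φ = φ_α` (`f(z) ↦ f(z)`, image generated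
by `ιu`, `ιv`) the third component `C₃` is ALONE over the second component of level `q`.
A local generator `x₁` of the level-`q` vertical prime at `n₁ = φ⁻¹(n)` ((M2)'s output) is mapped
to a local generator of `P₁` (resp. `P₃`) at `n`.
-/
import Mathlib
import Fermat.Agent.S36.H62_M3Chart

set_option autoImplicit false

namespace Fermat.Agent.S36.H62

open Fermat.Agent.S36.H83

variable {B₁ B D BM : Type*} [CommRing B₁] [CommRing B] [IsDomain B] [IsNoetherianRing B]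
  [IsIntegrallyClosed B] [CommRing D] [IsDedekindDomain D] [CommRing BM]
  {red₁ red₂ red₃ : B →+* D} {ιu ιv ιw : BM →+* B} {rbar : BM →+* D} {W : D →+* D}
  {q : ℕ} {qB : B}

/-- **(M2) ⟹ (M3), first component.**  `φ : B₁ → B` with `r₁ z = 0 → red₁ (φ z) = 0`,
`red₂ ∘ φ = r₂ = red₃ ∘ φ` on the element `x₁`; `x₁` a local generator of `ker r₁` at
`n₁ = φ⁻¹ n`, not vanishing on the second component; `q₁ ∈ ker r₁` with `φ q₁ = qB`. -/
theorem localGen_first_of_levelq (h : ThreeComponents red₁ red₂ red₃ ιu ιv ιw rbar W q qB)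
    (n : Ideal B) (hn : n.IsMaximal) (hker : RingHom.ker red₁ ≤ n)
    (φ : B₁ →+* B) (r₁ r₂ : B₁ →+* D)
    {x₁ q₁ : B₁} (hφq : φ q₁ = qB) (hq₁ : r₁ q₁ = 0)
    (hx₂ : r₂ x₁ ≠ 0)
    (hc1 : red₁ (φ x₁) = 0) (hc2 : red₂ (φ x₁) = r₂ x₁) (hc3 : red₃ (φ x₁) = r₂ x₁)
    (hgen : ∀ z ∈ RingHom.ker r₁, ∃ t : B₁, t ∉ n.comap φ ∧ t * z ∈ Ideal.span {x₁})
    (h21 : ∃ b : B, red₂ b = 0 ∧ red₁ b ≠ 0) (h31 : ∃ c : B, red₃ c = 0 ∧ red₁ c ≠ 0) :
    ∀ z ∈ RingHom.ker red₁, ∃ t : B, t ∉ n ∧ t * z ∈ Ideal.span {φ x₁} := by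
  refine localGen_first_of_dvd h n hn hker hc1 (by rw [hc2]; exact hx₂) (by rw [hc3]; exact hx₂)
    ?_ h21 h31
  obtain ⟨t, ht, htq⟩ := hgen q₁ ((RingHom.mem_ker).2 hq₁)
  obtain ⟨d, hd⟩ := Ideal.mem_span_singleton'.1 htq
  refine ⟨φ t, fun hmem => ht (Ideal.mem_comap.2 hmem), ?_⟩
  rw [← hφq, ← map_mul, ← hd, map_mul]
  exact Ideal.mul_mem_left _ _ (Ideal.mem_span_singleton_self _)

/-- **(M2) ⟹ (M3), third component** (mirror image: `φ = φ_α`, `x₁` a local generator of the SECOND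
level-`q` vertical prime `ker r₂` at `n₁ = φ⁻¹ n`, not vanishing on the first one). -/
theorem localGen_third_of_levelq (h : ThreeComponents red₁ red₂ red₃ ιu ιv ιw rbar W q qB)
    (n : Ideal B) (hn : n.IsMaximal) (hker : RingHom.ker red₃ ≤ n)
    (φ : B₁ →+* B) (r₁ r₂ : B₁ →+* D)
    {x₁ q₁ : B₁} (hφq : φ q₁ = qB) (hq₁ : r₂ q₁ = 0)
    (hx₁ : r₁ x₁ ≠ 0)
    (hc3 : red₃ (φ x₁) = 0) (hc2 : red₂ (φ x₁) = r₁ x₁) (hc1 : red₁ (φ x₁) = r₁ x₁)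
    (hgen : ∀ z ∈ RingHom.ker r₂, ∃ t : B₁, t ∉ n.comap φ ∧ t * z ∈ Ideal.span {x₁})
    (h23 : ∃ b : B, red₂ b = 0 ∧ red₃ b ≠ 0) (h13 : ∃ c : B, red₁ c = 0 ∧ red₃ c ≠ 0) :
    ∀ z ∈ RingHom.ker red₃, ∃ t : B, t ∉ n ∧ t * z ∈ Ideal.span {φ x₁} := by
  refine localGen_third_of_dvd h n hn hker hc3 (by rw [hc2]; exact hx₁) (by rw [hc1]; exact hx₁)
    ?_ h23 h13
  obtain ⟨t, ht, htq⟩ := hgen q₁ ((RingHom.mem_ker).2 hq₁)
  obtain ⟨d, hd⟩ := Ideal.mem_span_singleton'.1 htq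
  refine ⟨φ t, fun hmem => ht (Ideal.mem_comap.2 hmem), ?_⟩
  rw [← hφq, ← map_mul, ← hd, map_mul]
  exact Ideal.mul_mem_left _ _ (Ideal.mem_span_singleton_self _)

omit [IsDomain B] [IsNoetherianRing B] [IsIntegrallyClosed B] [IsDedekindDomain D] in
/-- The elements `b`, `c` of `h21`, `h31` from the structure: `ιu ψ - ιw ψ ∈ P₂ ∖ P₁` as soon as
`rbar ψ ≠ W (W (rbar ψ))`. -/
theorem exists_mem_second_not_first (h : ThreeComponents red₁ red₂ red₃ ιu ιv ιw rbar W q qB)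
    {ψ : BM} (hψ : rbar ψ ≠ W (W (rbar ψ))) :
    (∃ b : B, red₂ b = 0 ∧ red₁ b ≠ 0) ∧ (∃ b : B, red₂ b = 0 ∧ red₃ b ≠ 0) := by
  refine ⟨⟨ιu ψ - ιw ψ, h.red₂_sub ψ, ?_⟩, ⟨ιu ψ - ιw ψ, h.red₂_sub ψ, ?_⟩⟩
  · rw [map_sub, h.h1u, h.h1w]
    exact sub_ne_zero.2 hψ
  · rw [map_sub, h.h3u, h.h3w]
    exact sub_ne_zero.2 (Ne.symm hψ)

end Fermat.Agent.S36.H62
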