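/-
helper83: S36, row (E2): the two level-`q` charts inside the level-`q²` chart.

`α β : B' →+* B` are the chart maps induced by the two degeneracy maps
`X₀(q² L) → X₀(q L)` (`(u, v, w) ↦ (u, v)` and `(u, v, w) ↦ (v, w)`), `red₁' red₂' : B' →+* D` the two
reductions of the landed `S34.H83.TwoComponents` at level `(L, q)`.  On the three components of
level `q²`:

* `C₁ = (F,F)` : `red₁ ∘ α = red₁'`,     `red₁ ∘ β = W ∘ red₁'`;
* `C₂ = (F,V)` : `red₂ ∘ α = red₁'`,     `red₂ ∘ β = red₂'`;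
* `C₃ = (V,V)` : `red₃ ∘ α = W ∘ red₂'`, `red₃ ∘ β = red₂'`.

Consequences: the incidence table of vertical primes (`α⁻¹ P₁ = α⁻¹ P₂ = P₁'`, `α⁻¹ P₃ = P₂'`,
`β⁻¹ P₁ = P₁'`, `β⁻¹ P₂ = β⁻¹ P₃ = P₂'`), and the image of a closed point of the special fibre is
a closed point of the special fibre lying on the corresponding component.
-/
import Mathlib

set_option autoImplicit false

namespace Fermat.Agent.S36.H83

/-- **The level maps `α, β` on the three components.** -/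
structure LevelMaps {B' B D : Type*} [CommRing B'] [CommRing B] [CommRing D]
    (red₁ red₂ red₃ : B →+* D) (red₁' red₂' : B' →+* D) (α β : B' →+* B) (W : D →+* D) :
    Prop where
  h1α : ∀ z, red₁ (α z) = red₁' z
  h1β : ∀ z, red₁ (β z) = W (red₁' z)
  h2α : ∀ z, red₂ (α z) = red₁' z
  h2β : ∀ z, red₂ (β z) = red₂' z
  h3α : ∀ z, red₃ (α z) = W (red₂' z)
  h3β : ∀ z, red₃ (β z) = red₂' z

namespace LevelMaps

variable {B' B D : Type*} [CommRing B'] [CommRing B] [CommRing D]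
  {red₁ red₂ red₃ : B →+* D} {red₁' red₂' : B' →+* D} {α β : B' →+* B} {W : D →+* D}

/-! ### The incidence table -/

theorem comap_α_ker₁ (h : LevelMaps red₁ red₂ red₃ red₁' red₂' α β W) :
    Ideal.comap α (RingHom.ker red₁) = RingHom.ker red₁' := by
  ext z
  rw [Ideal.mem_comap, RingHom.mem_ker, RingHom.mem_ker, h.h1α]

theorem comap_α_ker₂ (h : LevelMaps red₁ red₂ red₃ red₁' red₂' α β W) :
    Ideal.comap α (RingHom.ker red₂) = RingHom.ker red₁' := by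
  ext z
  rw [Ideal.mem_comap, RingHom.mem_ker, RingHom.mem_ker, h.h2α]

theorem comap_α_ker₃ (h : LevelMaps red₁ red₂ red₃ red₁' red₂' α β W)
    (hW : Function.Injective W) :
    Ideal.comap α (RingHom.ker red₃) = RingHom.ker red₂' := by
  ext z
  rw [Ideal.mem_comap, RingHom.mem_ker, RingHom.mem_ker, h.h3α, map_eq_zero_iff W hW]

theorem comap_β_ker₁ (h : LevelMaps red₁ red₂ red₃ red₁' red₂' α β W)
    (hW : Function.Injective W) :
    Ideal.comap β (RingHom.ker red₁) = RingHom.ker red₁' := by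
  ext z
  rw [Ideal.mem_comap, RingHom.mem_ker, RingHom.mem_ker, h.h1β, map_eq_zero_iff W hW]

theorem comap_β_ker₂ (h : LevelMaps red₁ red₂ red₃ red₁' red₂' α β W) :
    Ideal.comap β (RingHom.ker red₂) = RingHom.ker red₂' := by
  ext z
  rw [Ideal.mem_comap, RingHom.mem_ker, RingHom.mem_ker, h.h2β]

theorem comap_β_ker₃ (h : LevelMaps red₁ red₂ red₃ red₁' red₂' α β W) :
    Ideal.comap β (RingHom.ker red₃) = RingHom.ker red₂' := by
  ext z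
  rw [Ideal.mem_comap, RingHom.mem_ker, RingHom.mem_ker, h.h3β]

/-! ### Points: a point of `C_i` maps to the point with the same (resp. Frobenius-twisted)
coordinate on the corresponding level-`q` component -/

/-- if `n = red₁⁻¹ 𝔞` then `α⁻¹ n = red₁'⁻¹ 𝔞`. -/
theorem comap_α_of_first (h : LevelMaps red₁ red₂ red₃ red₁' red₂' α β W)
    (n : Ideal B) (𝔞 : Ideal D) (hn : ∀ z : B, z ∈ n ↔ red₁ z ∈ 𝔞) (z : B') :
    z ∈ Ideal.comap α n ↔ red₁' z ∈ 𝔞 := by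
  rw [Ideal.mem_comap, hn, h.h1α]

/-- if `n = red₂⁻¹ 𝔞` then `α⁻¹ n = red₁'⁻¹ 𝔞`. -/
theorem comap_α_of_middle (h : LevelMaps red₁ red₂ red₃ red₁' red₂' α β W)
    (n : Ideal B) (𝔞 : Ideal D) (hn : ∀ z : B, z ∈ n ↔ red₂ z ∈ 𝔞) (z : B') :
    z ∈ Ideal.comap α n ↔ red₁' z ∈ 𝔞 := by
  rw [Ideal.mem_comap, hn, h.h2α]

/-- if `n = red₃⁻¹ 𝔞` then `α⁻¹ n = red₂'⁻¹ (W⁻¹ 𝔞)`. -/
theorem comap_α_of_third (h : LevelMaps red₁ red₂ red₃ red₁' red₂' α β W)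
    (n : Ideal B) (𝔞 : Ideal D) (hn : ∀ z : B, z ∈ n ↔ red₃ z ∈ 𝔞) (z : B') :
    z ∈ Ideal.comap α n ↔ red₂' z ∈ Ideal.comap W 𝔞 := by
  rw [Ideal.mem_comap, hn, h.h3α, Ideal.mem_comap]

/-- if `n = red₁⁻¹ 𝔞` then `β⁻¹ n = red₁'⁻¹ (W⁻¹ 𝔞)`. -/
theorem comap_β_of_first (h : LevelMaps red₁ red₂ red₃ red₁' red₂' α β W)
    (n : Ideal B) (𝔞 : Ideal D) (hn : ∀ z : B, z ∈ n ↔ red₁ z ∈ 𝔞) (z : B') :
    z ∈ Ideal.comap β n ↔ red₁' z ∈ Ideal.comap W 𝔞 := by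
  rw [Ideal.mem_comap, hn, h.h1β, Ideal.mem_comap]

/-- if `n = red₂⁻¹ 𝔞` then `β⁻¹ n = red₂'⁻¹ 𝔞`. -/
theorem comap_β_of_middle (h : LevelMaps red₁ red₂ red₃ red₁' red₂' α β W)
    (n : Ideal B) (𝔞 : Ideal D) (hn : ∀ z : B, z ∈ n ↔ red₂ z ∈ 𝔞) (z : B') :
    z ∈ Ideal.comap β n ↔ red₂' z ∈ 𝔞 := by
  rw [Ideal.mem_comap, hn, h.h2β]

/-- if `n = red₃⁻¹ 𝔞` then `β⁻¹ n = red₂'⁻¹ 𝔞`. -/
theorem comap_β_of_third (h : LevelMaps red₁ red₂ red₃ red₁' red₂' α β W)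
    (n : Ideal B) (𝔞 : Ideal D) (hn : ∀ z : B, z ∈ n ↔ red₃ z ∈ 𝔞) (z : B') :
    z ∈ Ideal.comap β n ↔ red₂' z ∈ 𝔞 := by
  rw [Ideal.mem_comap, hn, h.h3β]

/-! ### The kernels of the level-`q` reductions pull back into the kernels at level `q²` -/

theorem α_mem_ker₁₂ (h : LevelMaps red₁ red₂ red₃ red₁' red₂' α β W) {z : B'}
    (hz : red₁' z = 0) : red₁ (α z) = 0 ∧ red₂ (α z) = 0 := by
  rw [h.h1α, h.h2α]
  exact ⟨hz, hz⟩

theorem α_mem_ker₃ (h : LevelMaps red₁ red₂ red₃ red₁' red₂' α β W) {z : B'}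
    (hz : red₂' z = 0) : red₃ (α z) = 0 := by
  rw [h.h3α, hz, map_zero]

theorem β_mem_ker₁ (h : LevelMaps red₁ red₂ red₃ red₁' red₂' α β W) {z : B'}
    (hz : red₁' z = 0) : red₁ (β z) = 0 := by
  rw [h.h1β, hz, map_zero]

theorem β_mem_ker₂₃ (h : LevelMaps red₁ red₂ red₃ red₁' red₂' α β W) {z : B'}
    (hz : red₂' z = 0) : red₂ (β z) = 0 ∧ red₃ (β z) = 0 := by
  rw [h.h2β, h.h3β]
  exact ⟨hz, hz⟩

end LevelMaps

end Fermat.Agent.S36.H83
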