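/-
helper62 — S36: ASSEMBLY of (M2) + (M3) + (M4)/(M4a)/(M4r2) at ONE chart of level `q² L`:
"at EVERY closed point `n` of the special fibre, every height-one prime through `n` is locally
principal" (= `hprinc` of (E4), helper56's `PrincipalAt`), and `B_n` is a UFD (= helper21's (U)).

Inputs (all in the "`B` with `n`" vocabulary):
* `h  : H83.ThreeComponents …`       (E2) at level `q²`;
* `hL : H83.LevelMaps …`             (E2-lvl): the two chart maps `α β : B' → B` from level `q`;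
* `RegularCrossings red₁' red₂'`     = the output of (M2) at level `q`: at every crossing point
  `n'` of `B'` both vertical primes are locally principal;
* `MiddleUnit red₁ red₂ red₃ q qB`   = the output of (M4)/(M4r2): at every closed point on `C₂`
  only there is `θ ∈ P₂` with `θ^(q-1)/q` a unit at `n` (helper83's `hE`).
-/
import Mathlib
import Fermat.Agent.S36.H62_M3FromLevelQ
import Fermat.Agent.S36.H83_LevelMaps
import Fermat.Agent.S36.H40_VertOfThree

set_option autoImplicit false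

namespace Fermat.Agent.S36.H62

open Fermat.Agent.S36.H83

/-- **Output shape of (M2)**: at every crossing point `n'` of the level-`q` chart `B'`, each of the
two vertical primes is generated, locally at `n'`, by one element not vanishing on the other
component. -/
def RegularCrossings {B' D : Type*} [CommRing B'] [CommRing D] (red₁' red₂' : B' →+* D) : Prop :=
  ∀ n' : Ideal B', n'.IsMaximal → RingHom.ker red₁' ≤ n' → RingHom.ker red₂' ≤ n' →
    (∃ x₁ : B', red₁' x₁ = 0 ∧ red₂' x₁ ≠ 0 ∧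
      ∀ z ∈ RingHom.ker red₁', ∃ t : B', t ∉ n' ∧ t * z ∈ Ideal.span {x₁}) ∧
    (∃ y₁ : B', red₂' y₁ = 0 ∧ red₁' y₁ ≠ 0 ∧
      ∀ z ∈ RingHom.ker red₂', ∃ t : B', t ∉ n' ∧ t * z ∈ Ideal.span {y₁})

/-- **Output shape of (M4) + (M4r2)**: at every closed point lying on the middle component only,
some `θ ∈ P₂` has `θ^(q-1) / q` a unit at `n`. -/
def MiddleUnit {B D : Type*} [CommRing B] [CommRing D] (red₁ red₂ red₃ : B →+* D) (q : ℕ)
    (qB : B) : Prop :=
  ∀ n : Ideal B, n.IsMaximal → RingHom.ker red₂ ≤ n →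
    (∃ s : B, red₁ s = 0 ∧ s ∉ n) → (∃ s : B, red₃ s = 0 ∧ s ∉ n) →
    ∃ θ : B, red₂ θ = 0 ∧ θ ≠ 0 ∧ ∃ e t : B, e ∉ n ∧ t ∉ n ∧ t * θ ^ (q - 1) = e * qB

variable {B' B D BM : Type*} [CommRing B'] [CommRing B] [IsDomain B] [IsNoetherianRing B]
  [IsIntegrallyClosed B] [CommRing D] [IsDedekindDomain D] [CommRing BM]
  {red₁ red₂ red₃ : B →+* D} {ιu ιv ιw : BM →+* B} {rbar : BM →+* D} {W : D →+* D}
  {q : ℕ} {qB : B} {red₁' red₂' : B' →+* D} {α β : B' →+* B}

/-- **Every closed point of the special fibre has a branch with a local generator.** -/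
theorem exists_branch_localGen (h : ThreeComponents red₁ red₂ red₃ ιu ιv ιw rbar W q qB)
    (hL : LevelMaps red₁ red₂ red₃ red₁' red₂' α β W) (hq : 2 ≤ q)
    (hqB0 : qB ≠ 0) (hq1 : red₁ qB = 0) (hq3 : red₃ qB = 0)
    {q₁ : B'} (hαq : α q₁ = qB) (hβq : β q₁ = qB) (hq₁1 : red₁' q₁ = 0) (hq₁2 : red₂' q₁ = 0)
    (hα : α.IsIntegral) (hβ : β.IsIntegral)
    (hW2 : ∃ d : D, W (W d) ≠ d) (hW4 : ∃ d : D, W (W (W (W d))) ≠ d)
    (hM2 : RegularCrossings red₁' red₂') (hM4 : MiddleUnit red₁ red₂ red₃ q qB)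
    (n : Ideal B) (hn : n.IsMaximal) (hqn : qB ∈ n) :
    ∃ (red : B →+* D) (x : B), Function.Surjective red ∧ RingHom.ker red ≤ n ∧ x ≠ 0 ∧
      red x = 0 ∧ ∀ z ∈ RingHom.ker red, ∃ t : B, t ∉ n ∧ t * z ∈ Ideal.span {x} := by
  classical
  have hnprime : n.IsPrime := hn.isPrime
  have h21 := H40.exists_sep₂₁ h hW2
  have h23 := H40.exists_sep₂₃ h hW2
  have h31 := H40.exists_sep₃₁ h hW4
  have h13 := H40.exists_sep₁₃ h hW4
  -- `¬ (ker red ≤ n)` gives a witness
  have hwit : ∀ red : B →+* D, ¬ RingHom.ker red ≤ n → ∃ s : B, red s = 0 ∧ s ∉ n := by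
    intro red hnot
    obtain ⟨s, hs, hsn⟩ := Set.not_subset.1 hnot
    exact ⟨s, (RingHom.mem_ker).1 hs, hsn⟩
  by_cases hk1 : RingHom.ker red₁ ≤ n
  · by_cases hk23 : RingHom.ker red₂ ≤ n ∨ RingHom.ker red₃ ≤ n
    · -- crossing point on `C₁`: use `β`
      have hn'max : (n.comap β).IsMaximal :=
        Ideal.isMaximal_comap_of_isIntegral_of_isMaximal' β hβ n
      have hk1' : RingHom.ker red₁' ≤ n.comap β := by
        intro z hz
        exact Ideal.mem_comap.2 (hk1 ((RingHom.mem_ker).2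
          (hL.β_mem_ker₁ ((RingHom.mem_ker).1 hz))))
      have hk2' : RingHom.ker red₂' ≤ n.comap β := by
        intro z hz
        obtain ⟨e2, e3⟩ := hL.β_mem_ker₂₃ ((RingHom.mem_ker).1 hz)
        rcases hk23 with hk | hk
        · exact Ideal.mem_comap.2 (hk ((RingHom.mem_ker).2 e2))
        · exact Ideal.mem_comap.2 (hk ((RingHom.mem_ker).2 e3))
      obtain ⟨⟨x₁, hx1, hx2, hgen⟩, -⟩ := hM2 _ hn'max hk1' hk2'
      have hc1 : red₁ (β x₁) = 0 := by rw [hL.h1β, hx1, map_zero]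
      refine ⟨red₁, β x₁, h.hred₁, hk1, ?_, hc1, ?_⟩
      · intro h0
        apply hx2
        rw [← hL.h2β, h0, map_zero]
      · exact localGen_first_of_levelq h n hn hk1 β red₁' red₂' hβq hq₁1 hx2 hc1
          (hL.h2β x₁) (hL.h3β x₁) hgen h21 h31
    · -- `C₁` only
      push Not at hk23
      obtain ⟨hk2, hk3⟩ := hk23
      exact ⟨red₁, qB, h.hred₁, hk1, hqB0, hq1,
        h.localGen_first n hn (hwit red₂ hk2) (hwit red₃ hk3)⟩
  · by_cases hk3 : RingHom.ker red₃ ≤ n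
    · by_cases hk2 : RingHom.ker red₂ ≤ n
      · -- crossing point on `C₃` (and `C₂`): use `α`
        have hn'max : (n.comap α).IsMaximal :=
          Ideal.isMaximal_comap_of_isIntegral_of_isMaximal' α hα n
        have hk1' : RingHom.ker red₁' ≤ n.comap α := by
          intro z hz
          obtain ⟨-, e2⟩ := hL.α_mem_ker₁₂ ((RingHom.mem_ker).1 hz)
          exact Ideal.mem_comap.2 (hk2 ((RingHom.mem_ker).2 e2))
        have hk2' : RingHom.ker red₂' ≤ n.comap α := by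
          intro z hz
          exact Ideal.mem_comap.2 (hk3 ((RingHom.mem_ker).2
            (hL.α_mem_ker₃ ((RingHom.mem_ker).1 hz))))
        obtain ⟨-, ⟨y₁, hy2, hy1, hgen⟩⟩ := hM2 _ hn'max hk1' hk2'
        have hc3 : red₃ (α y₁) = 0 := by rw [hL.h3α, hy2, map_zero]
        refine ⟨red₃, α y₁, h.hred₃, hk3, ?_, hc3, ?_⟩
        · intro h0
          apply hy1
          rw [← hL.h2α, h0, map_zero]
        · exact localGen_third_of_levelq h n hn hk3 α red₁' red₂' hαq hq₁2 hy1 hc3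
            (hL.h2α y₁) (hL.h1α y₁) hgen h23 h13
      · -- `C₃` only
        exact ⟨red₃, qB, h.hred₃, hk3, hqB0, hq3,
          h.localGen_third n hn (hwit red₁ hk1) (hwit red₂ hk2)⟩
    · -- `C₂` only
      have w1 := hwit red₁ hk1
      have w3 := hwit red₃ hk3
      have hk2 : RingHom.ker red₂ ≤ n := h.ker_le_middle n hn hqn w1 w3
      obtain ⟨θ, hθ, hθ0, hE⟩ := hM4 n hn hk2 w1 w3
      exact ⟨red₂, θ, h.hred₂, hk2, hθ0, hθ, h.localGen_middle hq n hn w1 w3 hθ hθ0 hE⟩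

/-- **`hprinc` of (E4) at every closed point of the special fibre of a level-`q²` chart.** -/
theorem heightOne_localGen_all (h : ThreeComponents red₁ red₂ red₃ ιu ιv ιw rbar W q qB)
    (hL : LevelMaps red₁ red₂ red₃ red₁' red₂' α β W) (hD : ¬ IsField D) (hq : 2 ≤ q)
    (hqB0 : qB ≠ 0) (hq1 : red₁ qB = 0) (hq3 : red₃ qB = 0)
    {q₁ : B'} (hαq : α q₁ = qB) (hβq : β q₁ = qB) (hq₁1 : red₁' q₁ = 0) (hq₁2 : red₂' q₁ = 0)
    (hα : α.IsIntegral) (hβ : β.IsIntegral)
    (hW2 : ∃ d : D, W (W d) ≠ d) (hW4 : ∃ d : D, W (W (W (W d))) ≠ d)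
    (hM2 : RegularCrossings red₁' red₂') (hM4 : MiddleUnit red₁ red₂ red₃ q qB)
    (n : Ideal B) (hn : n.IsMaximal) (hqn : qB ∈ n)
    (P : Ideal B) [hP : P.IsPrime] (hPn : P ≤ n) (hP1 : P.height = 1) :
    ∃ f ∈ P, ∀ z ∈ P, ∃ t : B, t ∉ n ∧ t * z ∈ Ideal.span {f} := by
  obtain ⟨red, x, hred, hker, hx0, hxk, hx⟩ := exists_branch_localGen h hL hq hqB0 hq1 hq3
    hαq hβq hq₁1 hq₁2 hα hβ hW2 hW4 hM2 hM4 n hn hqn
  exact heightOne_localGen_of_localGen hred hD n hn hker hx0 hxk hx P hPn hP1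

/-- **(U) of (E4) at every closed point of the special fibre of a level-`q²` chart.** -/
theorem ufd_localization_all (h : ThreeComponents red₁ red₂ red₃ ιu ιv ιw rbar W q qB)
    (hL : LevelMaps red₁ red₂ red₃ red₁' red₂' α β W) (hD : ¬ IsField D) (hq : 2 ≤ q)
    (hqB0 : qB ≠ 0) (hq1 : red₁ qB = 0) (hq3 : red₃ qB = 0)
    {q₁ : B'} (hαq : α q₁ = qB) (hβq : β q₁ = qB) (hq₁1 : red₁' q₁ = 0) (hq₁2 : red₂' q₁ = 0)
    (hα : α.IsIntegral) (hβ : β.IsIntegral)
    (hW2 : ∃ d : D, W (W d) ≠ d) (hW4 : ∃ d : D, W (W (W (W d))) ≠ d)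
    (hM2 : RegularCrossings red₁' red₂') (hM4 : MiddleUnit red₁ red₂ red₃ q qB)
    (n : Ideal B) (hn : n.IsMaximal) (hqn : qB ∈ n) :
    haveI := hn.isPrime
    UniqueFactorizationMonoid (Localization.AtPrime n) := by
  obtain ⟨red, x, hred, hker, hx0, hxk, hx⟩ := exists_branch_localGen h hL hq hqB0 hq1 hq3
    hαq hβq hq₁1 hq₁2 hα hβ hW2 hW4 hM2 hM4 n hn hqn
  exact ufd_localization_of_localGen hred hD n hn hker hx0 hxk hx

end Fermat.Agent.S36.H62
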