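/-
helper56 — S36 row (E4)/(r4): `hE4` of `S36.H69.geo36_two_charts(_const/_ex/_final)` in ONE CALL
from the outputs of the rows, in their landed shapes:

chart 1 (`J`):   (E2) `H83.ThreeComponents`, (E2-lvl) `H83.LevelMaps` + integrality of `α β`,
                 (M2) `H62.RegularCrossings`, (M4) `H62.MiddleUnit`
                 — through helper62's `H62.heightOne_localGen_all`;
chart 2 (`J⁻¹`): (E2) `H83.ThreeComponents`, (OVL-a) the non-cuspidal closed points have the local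
                 ring of a chart-1 point, (OVL-b) at most one vertical component through a
                 cuspidal point, (M4r2) the middle cusps
                 — through `S36.H56.principalAt_of_threeComponents`;
orders:          (E3) is the hypothesis of `hE4` itself, (D1)/(D1c) `m ∣ ord_w f` at the places
                 of the generic fibre.
-/
import Mathlib
import Fermat.Agent.S36.H56_StepTwoOvl
import Fermat.Agent.S36.H56_StepTwoThree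
import Fermat.Agent.S36.H62_PrincipalAll

set_option autoImplicit false
set_option linter.unusedSectionVars false
set_option linter.style.haveILetI false

namespace Fermat.Agent.S36.H56

open Fermat.Agent AlgebraicCurve Fermat.Agent.S36.H83

section Cusp

variable {B D BM : Type*} [CommRing B] [IsDomain B] [IsNoetherianRing B]
  [CommRing D] [IsDedekindDomain D] [CommRing BM]
  {red₁ red₂ red₃ : B →+* D} {ιu ιv ιw : BM →+* B} {rbar : BM →+* D} {W : D →+* D}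
  {q : ℕ} {qB : B}

/-- **(P) at a closed point through which at most one vertical component passes** (cuspidal
points, by (OVL-b)): only the middle-component input (M4r2) is needed. -/
theorem principalAt_of_threeComponents_of_unique
    (h : ThreeComponents red₁ red₂ red₃ ιu ιv ιw rbar W q qB) (hD : ¬ IsField D) (hq : 2 ≤ q)
    (hqB : qB ≠ 0) (hq1 : red₁ qB = 0) (hq3 : red₃ qB = 0)
    (P : Fin 3 → Ideal B) (hP0 : P 0 = RingHom.ker red₁) (hP1 : P 1 = RingHom.ker red₂)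
    (hP2 : P 2 = RingHom.ker red₃)
    (n : Ideal B) (hn : n.IsMaximal) (hqn : qB ∈ n)
    (huniq : ∃ i₀ : Fin 3, ∀ i, P i ≤ n → i = i₀)
    (h2 : RingHom.ker red₂ ≤ n →
      ∃ θ : B, red₂ θ = 0 ∧ θ ≠ 0 ∧ ∃ e t : B, e ∉ n ∧ t ∉ n ∧ t * θ ^ (q - 1) = e * qB) :
    ∀ p : Ideal B, p.IsPrime → p.height = 1 → p ≤ n → PrincipalAt n p := by
  obtain ⟨i₀, hi₀⟩ := huniq
  refine principalAt_of_threeComponents h hD hq hqB hq1 hq3 n hn hqn (fun c1 c23 => ?_)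
    (fun c3 c2 _ => ?_) (fun c2 _ _ => h2 c2)
  · exfalso
    have e0 : (0 : Fin 3) = i₀ := hi₀ 0 (hP0 ▸ c1)
    rcases c23 with c | c
    · have e1 : (1 : Fin 3) = i₀ := hi₀ 1 (hP1 ▸ c)
      exact absurd (e0.trans e1.symm) (by decide)
    · have e2 : (2 : Fin 3) = i₀ := hi₀ 2 (hP2 ▸ c)
      exact absurd (e0.trans e2.symm) (by decide)
  · exfalso
    have e1 : (1 : Fin 3) = i₀ := hi₀ 1 (hP1 ▸ c2)
    have e2 : (2 : Fin 3) = i₀ := hi₀ 2 (hP2 ▸ c3)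
    exact absurd (e1.trans e2.symm) (by decide)

end Cusp

section Rows

variable {R F2 : Type*} [CommRing R] [IsDomain R] [Field F2] [Algebra R F2]
  {B₁ B₂ : Subalgebra R F2} [IsFractionRing B₁ F2] [IsFractionRing B₂ F2]
  [IsNoetherianRing B₁] [IsNoetherianRing B₂] [IsIntegrallyClosed B₁] [IsIntegrallyClosed B₂]
  {π : R} (P₁ : Fin 3 → Ideal B₁) (P₂ : Fin 3 → Ideal B₂)
  [hP₁ : ∀ i, (P₁ i).IsPrime] [hP₂ : ∀ i, (P₂ i).IsPrime]
  (hh₁ : ∀ i, (P₁ i).height = 1) (hh₂ : ∀ i, (P₂ i).height = 1)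
  {K : Type*} [Field K] [Algebra K F2] [Algebra R K] [IsScalarTower R K F2]
  [IsLocalization.Away π K]

/-- **(r4): `hE4` of the (E7) skeleton from the row outputs, one call.** -/
theorem hE4_of_rows {q m : ℕ}
    (hVeq : ∀ i, S34.H56.valuationSubringAt (K := F2) (P₁ i) (hh₁ i) =
      S34.H56.valuationSubringAt (K := F2) (P₂ i) (hh₂ i))
    -- chart 1
    {D₁ BM₁ B₁' : Type*} [CommRing D₁] [IsDedekindDomain D₁] [CommRing BM₁] [CommRing B₁']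
    {red₁ red₂ red₃ : B₁ →+* D₁} {ιu ιv ιw : BM₁ →+* B₁} {rbar : BM₁ →+* D₁} {W : D₁ →+* D₁}
    {red₁' red₂' : B₁' →+* D₁} {α β : B₁' →+* B₁}
    (h₁ : ThreeComponents red₁ red₂ red₃ ιu ιv ιw rbar W q (algebraMap R B₁ π))
    (hL : LevelMaps red₁ red₂ red₃ red₁' red₂' α β W) (hD₁ : ¬ IsField D₁) (hq : 2 ≤ q)
    (hπ₁ : algebraMap R B₁ π ≠ 0) (hq1 : red₁ (algebraMap R B₁ π) = 0)
    (hq2 : red₂ (algebraMap R B₁ π) = 0) (hq3 : red₃ (algebraMap R B₁ π) = 0)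
    {q₁ : B₁'} (hαq : α q₁ = algebraMap R B₁ π) (hβq : β q₁ = algebraMap R B₁ π)
    (hq₁1 : red₁' q₁ = 0) (hq₁2 : red₂' q₁ = 0)
    (hα : α.IsIntegral) (hβ : β.IsIntegral)
    (hW2 : ∃ d : D₁, W (W d) ≠ d) (hW4 : ∃ d : D₁, W (W (W (W d))) ≠ d)
    (hM2 : H62.RegularCrossings red₁' red₂')
    (hM4 : H62.MiddleUnit red₁ red₂ red₃ q (algebraMap R B₁ π))
    (hP₁0 : P₁ 0 = RingHom.ker red₁) (hP₁1 : P₁ 1 = RingHom.ker red₂)
    (hP₁2 : P₁ 2 = RingHom.ker red₃)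
    -- chart 2
    {D₂ BM₂ : Type*} [CommRing D₂] [IsDedekindDomain D₂] [CommRing BM₂]
    {ρ₁ ρ₂ ρ₃ : B₂ →+* D₂} {κu κv κw : BM₂ →+* B₂} {rbar₂ : BM₂ →+* D₂} {W₂ : D₂ →+* D₂}
    (h₂ : ThreeComponents ρ₁ ρ₂ ρ₃ κu κv κw rbar₂ W₂ q (algebraMap R B₂ π))
    (hD₂ : ¬ IsField D₂)
    (hπ₂ : algebraMap R B₂ π ≠ 0) (hr1 : ρ₁ (algebraMap R B₂ π) = 0)
    (hr2 : ρ₂ (algebraMap R B₂ π) = 0) (hr3 : ρ₃ (algebraMap R B₂ π) = 0)
    (hP₂0 : P₂ 0 = RingHom.ker ρ₁) (hP₂1 : P₂ 1 = RingHom.ker ρ₂)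
    (hP₂2 : P₂ 2 = RingHom.ker ρ₃)
    (C : S34.H21.ClosedPt B₂ π → Prop)
    (hovl : ∀ n₂ : S34.H21.ClosedPt B₂ π, ¬ C n₂ → ∃ n₁ : S34.H21.ClosedPt B₁ π,
      S34.H21.ptO B₁ B₂ π (Sum.inl n₁) = S34.H21.ptO B₁ B₂ π (Sum.inr n₂))
    (hcusp : ∀ n₂ : S34.H21.ClosedPt B₂ π, C n₂ → ∃ i₀ : Fin 3, ∀ i, P₂ i ≤ n₂.1 → i = i₀)
    (hM4r2 : ∀ n₂ : S34.H21.ClosedPt B₂ π, C n₂ → RingHom.ker ρ₂ ≤ n₂.1 →
      ∃ θ : B₂, ρ₂ θ = 0 ∧ θ ≠ 0 ∧
        ∃ e t : B₂, e ∉ n₂.1 ∧ t ∉ n₂.1 ∧ t * θ ^ (q - 1) = e * algebraMap R B₂ π)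
    -- the function
    {f : F2} (hf : f ≠ 0) {qK : K} (hqK : qK ≠ 0)
    (hhor : ∀ w : Place K F2, (m : ℤ) ∣ w.ord f) :
    ∀ (s : ℤ) (g : F2), g ≠ 0 →
      (∀ i, (S34.H56.valuationSubringAt (K := F2) (P₁ i) (hh₁ i)).valuation
        (f ^ (q + 1) * algebraMap K F2 qK ^ (-s) * (g ^ m)⁻¹) = 1) →
      ∃ G : S34.H21.ClosedPt B₁ π ⊕ S34.H21.ClosedPt B₂ π → F2, (∀ n, G n ≠ 0) ∧
        ∀ n, S34.H47.UnitIn (S34.H21.ptO B₁ B₂ π n)
          (f ^ (q + 1) * algebraMap K F2 qK ^ (-s) * (g ^ m)⁻¹ / G n ^ m) := by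
  refine hE4_two_charts_ovl P₁ P₂ hh₁ hh₂ hVeq ?_ ?_ C hovl ?_ ?_ hf hqK hhor
  · intro P hP h1 hπP
    haveI := hP
    rcases eq_ker_of_height_one h₁ hπ₁ hq1 hq2 hq3 P h1 hπP with e | e | e
    · exact ⟨0, e.trans hP₁0.symm⟩
    · exact ⟨1, e.trans hP₁1.symm⟩
    · exact ⟨2, e.trans hP₁2.symm⟩
  · intro P hP h1 hπP
    haveI := hP
    rcases eq_ker_of_height_one h₂ hπ₂ hr1 hr2 hr3 P h1 hπP with e | e | e
    · exact ⟨0, e.trans hP₂0.symm⟩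
    · exact ⟨1, e.trans hP₂1.symm⟩
    · exact ⟨2, e.trans hP₂2.symm⟩
  · intro n p hp h1 hpn
    haveI := hp
    exact H62.heightOne_localGen_all h₁ hL hD₁ hq hπ₁ hq1 hq3 hαq hβq hq₁1 hq₁2 hα hβ hW2 hW4
      hM2 hM4 n.1 n.2.1 n.2.2 p hpn h1
  · intro n hC
    exact principalAt_of_threeComponents_of_unique h₂ hD₂ hq hπ₂ hr1 hr3 P₂ hP₂0 hP₂1 hP₂2
      n.1 n.2.1 n.2.2 (hcusp n hC) (hM4r2 n hC)

end Rows

end Fermat.Agent.S36.H56
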