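/-
helper18 — S36 row (E7), real-types wiring, part (r4): **the `hE4` binder of
`H18.geoFn36E_of_twoCharts` from the row outputs**, i.e. helper56's `S36.H56.hE4_of_rows` at
`R := ↥(cutOver A E0)`, `π := (q : R)`, `K := ↥E0`, `F₂ := F_K(N)`, charts
`B₁ B₂ : Subalgebra R F₂`, with

* the horizontal hypothesis over `Qbar` turned into the one over `E0` by helper36's (D1c)
  `S36.H36.dvd_ord_of_dvd_ord_toBar`;
* the instance `IsLocalization.Away π K` from `S18.H45.isLocalization_away_cutOver`;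
* the cuspidal predicate `C n₂ := Jinv ∈ n₂.1` and `hovl` from helper62's chart gluing
  (`H18.hoverlap_of_glue`).
-/
import Mathlib
import Fermat.Agent.S36.H18_Geo36Adapters
import Fermat.Agent.S36.H56_StepTwoRows
import Fermat.Agent.S36.H36_ConstExtUnram
import Fermat.Agent.S36.H45_UnramifiedFixed
import Fermat.Agent.S18.H45_CutOverPoint

set_option autoImplicit false
set_option linter.unusedSectionVars false
set_option linter.style.haveILetI false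
set_option synthInstance.maxHeartbeats 400000

noncomputable section

namespace Fermat.Agent.S36.H18

open ModularCurve AlgebraicCurve IntermediateField
open Fermat.Agent.S18 Fermat.Agent.S18.H45 Fermat.Agent.S34
open Fermat.Agent.S36.H83

local notation "Qbar" => AlgebraicClosure ℚ

section Real

variable (q : ℕ) [NeZero q] (hq : q.Prime)
  {A : ValuationSubring Qbar} (hA : A.LiesOverPrime q)
  (E0 : IntermediateField (unrCyclo q) Qbar) [FiniteDimensional (unrCyclo q) E0]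
  (hfix : ∀ σ ∈ A.inertiaSubgroupIn ℚ, ∀ x : E0, σ ((x : E0) : Qbar) = ((x : E0) : Qbar))
  (N : ℕ) [NeZero N]

set_option quotPrecheck false
local notation "F₂" => ↥(modularFunctionFieldFullC ↥E0 N)
local notation "RR" => ↥(cutOver A E0)
local notation "πq" => (((q : ℕ) : ↥(cutOver A E0)))

set_option maxHeartbeats 3200000 in
include hq hA hfix in
/-- **(r4) at the real types.** -/
theorem hE4_real {m : ℕ}
    {B₁ B₂ : Subalgebra RR F₂} [IsFractionRing B₁ F₂] [IsFractionRing B₂ F₂]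
    [IsNoetherianRing B₁] [IsNoetherianRing B₂] [IsIntegrallyClosed B₁] [IsIntegrallyClosed B₂]
    (P₁ : Fin 3 → Ideal B₁) (P₂ : Fin 3 → Ideal B₂)
    [hP₁ : ∀ i, (P₁ i).IsPrime] [hP₂ : ∀ i, (P₂ i).IsPrime]
    (hh₁ : ∀ i, (P₁ i).height = 1) (hh₂ : ∀ i, (P₂ i).height = 1)
    (hVeq : ∀ i, H56.valuationSubringAt (K := F₂) (P₁ i) (hh₁ i) =
      H56.valuationSubringAt (K := F₂) (P₂ i) (hh₂ i))
    -- chart 1: (E2) + (E2-lvl) + (M2)/(M3) + (M4)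
    {D₁ BM₁ B₁' : Type*} [CommRing D₁] [IsDedekindDomain D₁] [CommRing BM₁] [CommRing B₁']
    {red₁ red₂ red₃ : B₁ →+* D₁} {ιu ιv ιw : BM₁ →+* B₁} {rbar : BM₁ →+* D₁} {W : D₁ →+* D₁}
    {red₁' red₂' : B₁' →+* D₁} {α β : B₁' →+* B₁}
    (h₁ : ThreeComponents red₁ red₂ red₃ ιu ιv ιw rbar W q (algebraMap RR B₁ πq))
    (hL : LevelMaps red₁ red₂ red₃ red₁' red₂' α β W) (hD₁ : ¬ IsField D₁)
    (hq1 : red₁ (algebraMap RR B₁ πq) = 0)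
    (hq2 : red₂ (algebraMap RR B₁ πq) = 0) (hq3 : red₃ (algebraMap RR B₁ πq) = 0)
    {q₁ : B₁'} (hαq : α q₁ = algebraMap RR B₁ πq) (hβq : β q₁ = algebraMap RR B₁ πq)
    (hq₁1 : red₁' q₁ = 0) (hq₁2 : red₂' q₁ = 0)
    (hα : α.IsIntegral) (hβ : β.IsIntegral)
    (hW2 : ∃ d : D₁, W (W d) ≠ d) (hW4 : ∃ d : D₁, W (W (W (W d))) ≠ d)
    (hM2 : S36.H62.RegularCrossings red₁' red₂')
    (hM4 : S36.H62.MiddleUnit red₁ red₂ red₃ q (algebraMap RR B₁ πq))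
    (hP₁0 : P₁ 0 = RingHom.ker red₁) (hP₁1 : P₁ 1 = RingHom.ker red₂)
    (hP₁2 : P₁ 2 = RingHom.ker red₃)
    -- chart 2: (E2) + cusps
    {D₂ BM₂ : Type*} [CommRing D₂] [IsDedekindDomain D₂] [CommRing BM₂]
    {ρ₁ ρ₂ ρ₃ : B₂ →+* D₂} {κu κv κw : BM₂ →+* B₂} {rbar₂ : BM₂ →+* D₂} {W₂ : D₂ →+* D₂}
    (h₂ : ThreeComponents ρ₁ ρ₂ ρ₃ κu κv κw rbar₂ W₂ q (algebraMap RR B₂ πq))
    (hD₂ : ¬ IsField D₂)
    (hr1 : ρ₁ (algebraMap RR B₂ πq) = 0)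
    (hr2 : ρ₂ (algebraMap RR B₂ πq) = 0) (hr3 : ρ₃ (algebraMap RR B₂ πq) = 0)
    (hP₂0 : P₂ 0 = RingHom.ker ρ₁) (hP₂1 : P₂ 1 = RingHom.ker ρ₂)
    (hP₂2 : P₂ 2 = RingHom.ker ρ₃)
    -- the two coordinates and the overlap
    (J₁ : B₁) (J₂ : B₂) (hJ : (J₁ : F₂) * (J₂ : F₂) = 1)
    (hint₁ : ∀ b : B₁, IsIntegral (Algebra.adjoin RR {(J₁ : F₂)}) (b : F₂))
    (hint₂ : ∀ b : B₂, IsIntegral (Algebra.adjoin RR {(J₂ : F₂)}) (b : F₂))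
    (hres : ∀ n : H21.ClosedPt B₂ πq, ∀ b : B₂, ∃ c : RR, b - algebraMap RR B₂ c ∈ n.1)
    (hcusp : ∀ n₂ : H21.ClosedPt B₂ πq, J₂ ∈ n₂.1 → ∃ i₀ : Fin 3, ∀ i, P₂ i ≤ n₂.1 → i = i₀)
    (hM4r2 : ∀ n₂ : H21.ClosedPt B₂ πq, J₂ ∈ n₂.1 → RingHom.ker ρ₂ ≤ n₂.1 →
      ∃ θ : B₂, ρ₂ θ = 0 ∧ θ ≠ 0 ∧
        ∃ e t : B₂, e ∉ n₂.1 ∧ t ∉ n₂.1 ∧ t * θ ^ (q - 1) = e * algebraMap RR B₂ πq) :
    ∀ f : F₂, f ≠ 0 →
      (∀ v : Place Qbar (S24.FN N), ((m : ℕ) : ℤ) ∣ v.ord (H99.toBar ↥E0 N f)) →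
      ∀ (s : ℤ) (g : F₂), g ≠ 0 →
      (∀ i, (H56.valuationSubringAt (K := F₂) (P₁ i) (hh₁ i)).valuation
        (f ^ (q + 1) * algebraMap ↥E0 F₂ ((q : ℕ) : ↥E0) ^ (-s) * (g ^ m)⁻¹) = 1) →
      ∃ G : H21.ClosedPt B₁ πq ⊕ H21.ClosedPt B₂ πq → F₂, (∀ n, G n ≠ 0) ∧
        ∀ n, H47.UnitIn (H21.ptO B₁ B₂ πq n)
          (f ^ (q + 1) * algebraMap ↥E0 F₂ ((q : ℕ) : ↥E0) ^ (-s) * (g ^ m)⁻¹ / G n ^ m) := by
  intro f hf hdiv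
  haveI := isDiscreteValuationRing_cutOver hq hA E0
  have hπ : Irreducible πq := S36.H45.irreducible_natCast_cutOver_of_fixed hq hA E0 hfix
  haveI : IsLocalization.Away πq ↥E0 := isLocalization_away_cutOver hq hA E0 hπ
  have hπ₁ : algebraMap RR B₁ πq ≠ 0 := by
    intro h0
    have h1 : algebraMap B₁ F₂ (algebraMap RR B₁ πq) = 0 := by rw [h0, map_zero]
    rw [← IsScalarTower.algebraMap_apply RR B₁ F₂] at h1
    have h2 : algebraMap RR F₂ πq = algebraMap ↥E0 F₂ ((q : ℕ) : ↥E0) := by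
      rw [IsScalarTower.algebraMap_apply RR ↥E0 F₂]
      rfl
    rw [h2] at h1
    exact (Nat.cast_ne_zero.mpr hq.ne_zero : ((q : ℕ) : ↥E0) ≠ 0)
      ((map_eq_zero _).mp h1)
  have hπ₂ : algebraMap RR B₂ πq ≠ 0 := by
    intro h0
    have h1 : algebraMap B₂ F₂ (algebraMap RR B₂ πq) = 0 := by rw [h0, map_zero]
    rw [← IsScalarTower.algebraMap_apply RR B₂ F₂] at h1
    have h2 : algebraMap RR F₂ πq = algebraMap ↥E0 F₂ ((q : ℕ) : ↥E0) := by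
      rw [IsScalarTower.algebraMap_apply RR ↥E0 F₂]
      rfl
    rw [h2] at h1
    exact (Nat.cast_ne_zero.mpr hq.ne_zero : ((q : ℕ) : ↥E0) ≠ 0)
      ((map_eq_zero _).mp h1)
  have hqK : (((q : ℕ) : ↥E0)) ≠ 0 := Nat.cast_ne_zero.mpr hq.ne_zero
  have hhor : ∀ w : Place ↥E0 F₂, ((m : ℕ) : ℤ) ∣ w.ord f := fun w =>
    S36.H36.dvd_ord_of_dvd_ord_toBar ↥E0 N f (m : ℤ) hdiv w
  have hovl : ∀ n₂ : H21.ClosedPt B₂ πq, ¬ (J₂ ∈ n₂.1) → ∃ n₁ : H21.ClosedPt B₁ πq,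
      H21.ptO B₁ B₂ πq (Sum.inl n₁) = H21.ptO B₁ B₂ πq (Sum.inr n₂) := by
    intro n₂ hn₂
    obtain ⟨n₁, hO, -⟩ := hoverlap_of_glue B₁ B₂ πq P₁ P₂ hh₁ hh₂ hVeq hπ J₁ J₂ hJ hint₁ hint₂
      hres n₂ hn₂
    exact ⟨n₁, hO⟩
  have key := S36.H56.hE4_of_rows (R := RR) (F2 := F₂) (B₁ := B₁) (B₂ := B₂) (π := πq)
    P₁ P₂ hh₁ hh₂ (K := ↥E0) (q := q) (m := m) hVeq h₁ hL hD₁ hq.two_le hπ₁ hq1 hq2 hq3
    hαq hβq hq₁1 hq₁2 hα hβ hW2 hW4 hM2 hM4 hP₁0 hP₁1 hP₁2 h₂ hD₂ hπ₂ hr1 hr2 hr3 hP₂0 hP₂1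
    hP₂2 (fun n₂ => J₂ ∈ n₂.1) hovl hcusp hM4r2 hf (qK := ((q : ℕ) : ↥E0)) hqK hhor
  exact key

end Real

end Fermat.Agent.S36.H18
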