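/-
S36 (Carayol), seam (E3) → (E5)/(E6) (helper46): **normalisation of the constant in
`N u = c * h ^ m`**.

`K` the constant field with its valuation subring `A` (uniformiser `π`, `m`-th roots in the residue
field: `hroot`), `F1` a function field over `K` with valuation subrings `W i` extending `A`, `π`
still a uniformiser at `W i₀`.  If `y = c * h ^ m` is a unit at `W i₀` (`y = N u`, `u` a unit at all
places above), then `y = c' * h' ^ m` with `c'` a constant which is a `1`-unit at EVERY `W i`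
(the hypotheses `OneU WF ca`, `OneU WV ca` of helper85's `H85.radDatum_of_towers` /
`H46.radDatum_of_towersU`).
-/
import Mathlib
import Fermat.Agent.S34.H47_KummerInduct

set_option autoImplicit false
set_option linter.unusedSectionVars false

namespace Fermat.Agent.S36.H46

open Fermat.Agent.S34.H47

section NormConst

variable {K F1 : Type*} [Field K] [Field F1] [Algebra K F1]

/-- a power of an element of valuation `< 1` has valuation `1` only for the exponent `0`. -/
theorem zpow_eq_zero_of_valuation_eq_one {F : Type*} [Field F] (W : ValuationSubring F) {π : F}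
    (hπ : W.valuation π < 1) (hπ0 : π ≠ 0) {n : ℤ} (h : W.valuation (π ^ n) = 1) : n = 0 := by
  rw [map_zpow₀] at h
  have hv0 : W.valuation π ≠ 0 := (Valuation.ne_zero_iff _).mpr hπ0
  have hpos : 0 < W.valuation π := zero_lt_iff.mpr hv0
  by_contra hn
  rcases lt_or_gt_of_ne hn with hneg | hpos'
  · -- `n < 0`: `v π ^ n > 1`
    have h1 : (W.valuation π) ^ (-n) < 1 := by
      lift -n to ℕ using (by omega) with k hk
      rw [zpow_natCast]
      have hk0 : k ≠ 0 := by
        rintro rfl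
        simp at hk
        omega
      exact pow_lt_one₀ (le_of_lt hpos) hπ hk0
    rw [zpow_neg, h, inv_one] at h1
    exact lt_irrefl _ h1
  · have h1 : (W.valuation π) ^ n < 1 := by
      lift n to ℕ using (by omega) with k hk
      rw [zpow_natCast]
      have hk0 : k ≠ 0 := by
        rintro rfl
        simp at hpos'
      exact pow_lt_one₀ (le_of_lt hpos) hπ hk0
    rw [h] at h1
    exact lt_irrefl _ h1

/-- **NORMCONST.** -/
theorem exists_const_oneU_mul_pow {ι : Type*} (A : ValuationSubring K)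
    (W : ι → ValuationSubring F1)
    (hWlt : ∀ i (x : K), A.valuation x < 1 → (W i).valuation (algebraMap K F1 x) < 1)
    {π : K} (hπ0 : π ≠ 0) (hπlt : A.valuation π < 1)
    (hπ : ∀ c : K, c ≠ 0 → ∃ n : ℤ, A.valuation (c * π ^ (-n)) = 1)
    (i₀ : ι)
    (hπW : ∀ x : F1, x ≠ 0 → ∃ n : ℤ, (W i₀).valuation (x * (algebraMap K F1 π) ^ (-n)) = 1)
    (hAW : ∀ x : K, A.valuation x = 1 → (W i₀).valuation (algebraMap K F1 x) = 1)
    (m : ℕ)
    (hroot : ∀ c : K, A.valuation c = 1 →
      ∃ c1 : K, A.valuation c1 = 1 ∧ A.valuation (c / c1 ^ m - 1) < 1)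
    {y : F1} (hy : (W i₀).valuation y = 1) {c : K} {h : F1} (hc : c ≠ 0) (hh : h ≠ 0)
    (hyc : y = algebraMap K F1 c * h ^ m) :
    ∃ (c' : K) (h' : F1), c' ≠ 0 ∧ h' ≠ 0 ∧ y = algebraMap K F1 c' * h' ^ m ∧
      ∀ i, OneU (W i) (algebraMap K F1 c') := by
  set πF : F1 := algebraMap K F1 π with hπF
  have hπF0 : πF ≠ 0 := by
    rw [hπF]
    exact (map_ne_zero _).mpr hπ0
  have hπFlt : (W i₀).valuation πF < 1 := hWlt i₀ π hπlt
  obtain ⟨n, hn⟩ := hπ c hc
  obtain ⟨k, hk⟩ := hπW h hh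
  set c0 : K := c * π ^ (-n) with hc0
  set h0 : F1 := h * πF ^ (-k) with hh0
  have hc00 : c0 ≠ 0 := mul_ne_zero hc (zpow_ne_zero _ hπ0)
  have hh00 : h0 ≠ 0 := mul_ne_zero hh (zpow_ne_zero _ hπF0)
  -- `y = c0 * h0 ^ m * πF ^ (n + m k)`
  have hpow : πF ^ (-n) * πF ^ (-((m : ℤ) * k)) * πF ^ (n + (m : ℤ) * k) = 1 := by
    rw [← zpow_add₀ hπF0, ← zpow_add₀ hπF0]
    have h1 : -n + -((m : ℤ) * k) + (n + (m : ℤ) * k) = 0 := by ring
    rw [h1, zpow_zero]
  have hh0m : h0 ^ m = h ^ m * πF ^ (-((m : ℤ) * k)) := by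
    rw [hh0, mul_pow, ← zpow_natCast (πF ^ (-k)) m, ← zpow_mul]
    congr 2
    ring
  have hc0F : algebraMap K F1 c0 = algebraMap K F1 c * πF ^ (-n) := by
    rw [hc0, map_mul, map_zpow₀]
  have e1 : y = algebraMap K F1 c0 * h0 ^ m * πF ^ (n + (m : ℤ) * k) := by
    rw [hc0F, hh0m, hyc]
    linear_combination (-(algebraMap K F1 c * h ^ m)) * hpow
  clear_value c0 h0
  have hv : (W i₀).valuation (πF ^ (n + (m : ℤ) * k)) = 1 := by
    have h1 := congrArg (W i₀).valuation e1
    rw [hy, map_mul, map_mul, map_pow, hAW c0 hn, hk, one_pow, one_mul, one_mul] at h1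
    exact h1.symm
  have hz : n + (m : ℤ) * k = 0 := zpow_eq_zero_of_valuation_eq_one (W i₀) hπFlt hπF0 hv
  rw [hz, zpow_zero, mul_one] at e1
  obtain ⟨c1, hc1, hc1'⟩ := hroot c0 hn
  have hc10 : c1 ≠ 0 := by
    rintro rfl
    rw [map_zero] at hc1
    exact zero_ne_one hc1
  have hc1m : c1 ^ m ≠ 0 := pow_ne_zero m hc10
  refine ⟨c0 / c1 ^ m, algebraMap K F1 c1 * h0, div_ne_zero hc00 hc1m,
    mul_ne_zero ((map_ne_zero _).mpr hc10) hh00, ?_, fun i => ?_⟩
  · rw [e1, map_div₀, map_pow, mul_pow]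
    have : (algebraMap K F1 c1) ^ m ≠ 0 := pow_ne_zero m ((map_ne_zero _).mpr hc10)
    field_simp
  · unfold OneU
    have := hWlt i _ hc1'
    rwa [map_sub, map_one] at this

end NormConst

end Fermat.Agent.S36.H46
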