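/-
helper18 — S36 row (E7), **real-types constants block**: everything the skeleton
`S36.H69.geo36_of_radicalDatum` asks about the CONSTANT field at the real types
(`K = ↥E0`, `R = cutOver A E0 ⊆ K`, uniformiser `q`, `F1 = F_K(N1)`, `F2 = F_K(N2)`,
`N2 = q * N1`, `q ∣ N1`, `a = alphaK`, `b = betaK`, `Na = normAlphaK`, `Nb = normBetaK`).

* `alphaK_algebraMap`, `betaK_algebraMap` : both degeneracy maps fix the constants (`hab`);
* `normAlphaK_algebraMap`, `normBetaK_algebraMap` : `N (c) = c ^ q` (`hNaK`, `hNbK`, `d := q`);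
* `OneUR` : the normalised constants `U` (= `1`-units of `R = cutOver A E0`);
* `oneU_algebraMap_of_liesOver` : `hUF`, `hUV` from "`W` lies over `R`";
* `exists_zeta_E0` : a primitive `m`-th root of unity in `E0`, integral (`hζ`, `hζF`, `hζV`);
* `normConst_real` : helper46's NORMCONST at the real constants (`hconstα`, `hconstβ` from the
  fact that the norm is a unit at a valuation of `F1` over `R` at which `q` is a uniformiser).
-/
import Mathlib
import Fermat.Agent.S36.H18_Geo36Base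
import Fermat.Agent.S36.H16_RelDegQ
import Fermat.Agent.S36.H46_NormConst
import Fermat.Agent.S36.H45_UnramifiedFixed
import Fermat.Agent.S34.H47_BaseRing

set_option autoImplicit false
set_option linter.unusedSectionVars false
set_option linter.style.haveILetI false
set_option synthInstance.maxHeartbeats 400000

noncomputable section

namespace Fermat.Agent.S36.H18

open ModularCurve AlgebraicCurve IntermediateField
open Fermat.Agent.S18 Fermat.Agent.S34 Fermat.Agent.S34.H47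

local notation "Qbar" => AlgebraicClosure ℚ

section Maps

variable (K : Type) [Field K] (q N1 N2 : ℕ) [NeZero q] [NeZero N1] [NeZero N2]
  (hN : N1 ∣ N2) (hqN : q * N1 ∣ N2)

/-- `α` fixes the constants. -/
theorem alphaK_algebraMap (c : K) :
    alphaK K N1 N2 hN (algebraMap K (modularFunctionFieldFullC K N1) c) =
      algebraMap K (modularFunctionFieldFullC K N2) c := by
  letI := H16.degAlgebra K N1 N2 hN
  haveI := H16.degAlgebra_isScalarTower K N1 N2 hN
  exact (IsScalarTower.algebraMap_apply K (modularFunctionFieldFullC K N1)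
    (modularFunctionFieldFullC K N2) c).symm

/-- `β = V_q` fixes the constants. -/
theorem betaK_algebraMap (c : K) :
    betaK K q N1 N2 hqN (algebraMap K (modularFunctionFieldFullC K N1) c) =
      algebraMap K (modularFunctionFieldFullC K N2) c := by
  letI := S35.H16.vAlgebra K q N1 N2 hqN
  haveI := S35.H16.vAlgebra_isScalarTower K q N1 N2 hqN
  exact (IsScalarTower.algebraMap_apply K (modularFunctionFieldFullC K N1)
    (modularFunctionFieldFullC K N2) c).symm

/-- `N_α (c) = c ^ q` for constants (`N2 = q * N1`, `q ∣ N1`). -/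
theorem normAlphaK_algebraMap (hq : q.Prime) (hqN1 : q ∣ N1) (hN2 : N2 = q * N1)
    (hNK : ((N2 : ℕ) : K) ≠ 0) (c : K) :
    normAlphaK K N1 N2 hN (algebraMap K (modularFunctionFieldFullC K N2) c) =
      algebraMap K (modularFunctionFieldFullC K N1) c ^ q := by
  by_cases hc : c = 0
  · rw [hc, map_zero, map_zero, map_zero, zero_pow hq.ne_zero]
  letI := H16.degAlgebra K N1 N2 hN
  haveI := H16.degAlgebra_isScalarTower K N1 N2 hN
  have hc2 : algebraMap K (modularFunctionFieldFullC K N2) c ≠ 0 :=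
    (map_ne_zero _).mpr hc
  rw [normAlphaK_apply K N1 N2 hN hc2,
    IsScalarTower.algebraMap_apply K (modularFunctionFieldFullC K N1)
      (modularFunctionFieldFullC K N2) c, Algebra.norm_algebraMap,
    S36.H16.finrank_fullC_prime_dvd K N1 N2 hN q hq hqN1 hN2 hNK]

/-- `N_β (c) = c ^ q` for constants (`N2 = q * N1`, `q ∣ N1`). -/
theorem normBetaK_algebraMap (hq : q.Prime) (hqN1 : q ∣ N1) (hN2 : N2 = q * N1)
    (hNK : ((N2 : ℕ) : K) ≠ 0) (c : K) :
    normBetaK K q N1 N2 hqN (algebraMap K (modularFunctionFieldFullC K N2) c) =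
      algebraMap K (modularFunctionFieldFullC K N1) c ^ q := by
  by_cases hc : c = 0
  · rw [hc, map_zero, map_zero, map_zero, zero_pow hq.ne_zero]
  letI := S35.H16.vAlgebra K q N1 N2 hqN
  haveI := S35.H16.vAlgebra_isScalarTower K q N1 N2 hqN
  have hc2 : algebraMap K (modularFunctionFieldFullC K N2) c ≠ 0 :=
    (map_ne_zero _).mpr hc
  rw [normBetaK_apply K q N1 N2 hqN hc2,
    IsScalarTower.algebraMap_apply K (modularFunctionFieldFullC K N1)
      (modularFunctionFieldFullC K N2) c, Algebra.norm_algebraMap]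
  have h := S36.H16.finrank_vSub_dvd K N1 N2 q hq hqN1 hN2 hNK
  rw [h]

end Maps

/-! ### The base ring `R = cutOver A E0` as a valuation subring of `K = ↥E0` -/

section CutOver

open Fermat.Agent.S18.H45 IsLocalRing

variable {A : ValuationSubring Qbar} {q : ℕ} (hq : q.Prime) (hA : A.LiesOverPrime q)
  (E0 : IntermediateField (unrCyclo q) Qbar) [FiniteDimensional (unrCyclo q) E0]
  (hfix : ∀ σ ∈ A.inertiaSubgroupIn ℚ, ∀ x : E0, σ ((x : E0) : Qbar) = ((x : E0) : Qbar))

include hq hA in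
/-- `v(q) < 1`. -/
theorem valuation_cutOver_natCast_lt_one :
    (cutOver A E0).valuation (((q : ℕ) : ↥E0)) < 1 := by
  have h := natCast_mem_maximalIdeal_cutOver hq hA E0
  have h2 := ((cutOver A E0).valuation_lt_one_iff ((q : ℕ) : cutOver A E0)).mp h
  simpa using h2

include hq hA hfix in
/-- an element of valuation `< 1` is `q` times an integer. -/
theorem exists_eq_natCast_mul_of_valuation_lt_one {x : ↥E0}
    (hx : (cutOver A E0).valuation x < 1) :
    ∃ r : ↥E0, (cutOver A E0).valuation r ≤ 1 ∧ x = ((q : ℕ) : ↥E0) * r := by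
  have hxR : x ∈ cutOver A E0 := ((cutOver A E0).valuation_le_one_iff x).mp hx.le
  have hmem : (⟨x, hxR⟩ : cutOver A E0) ∈ maximalIdeal (cutOver A E0) :=
    ((cutOver A E0).valuation_lt_one_iff ⟨x, hxR⟩).mpr hx
  rw [S36.H45.maximalIdeal_cutOver_eq_span_natCast_of_fixed hq hA E0 hfix,
    Ideal.mem_span_singleton] at hmem
  obtain ⟨r, hr⟩ := hmem
  refine ⟨(r : ↥E0), ((cutOver A E0).valuation_le_one_iff _).mpr r.2, ?_⟩
  have := congrArg (fun t : cutOver A E0 => (t : ↥E0)) hr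
  simpa using this

include hq hA hfix in
/-- every nonzero constant is a unit times an integral power of `q`. -/
theorem exists_zpow_valuation_eq_one {c : ↥E0} (hc : c ≠ 0) :
    ∃ n : ℤ, (cutOver A E0).valuation (c * (((q : ℕ) : ↥E0)) ^ (-n)) = 1 := by
  have hq0 : (((q : ℕ) : ↥E0)) ≠ 0 := Nat.cast_ne_zero.mpr hq.ne_zero
  have key : ∀ x : ↥E0, x ≠ 0 → x ∈ cutOver A E0 →
      ∃ n : ℕ, (cutOver A E0).valuation (x * ((((q : ℕ) : ↥E0)) ^ n)⁻¹) = 1 := by
    intro x hx0 hxR
    have hx0' : (⟨x, hxR⟩ : cutOver A E0) ≠ 0 := fun h => hx0 (congrArg Subtype.val h)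
    obtain ⟨n, u, hu⟩ := S36.H45.exists_unit_mul_natCast_pow_of_fixed hq hA E0 hfix hx0'
    refine ⟨n, ?_⟩
    have h1 : x = ((u : cutOver A E0) : ↥E0) * (((q : ℕ) : ↥E0)) ^ n := by
      have := congrArg (fun t : cutOver A E0 => (t : ↥E0)) hu
      simpa using this
    have h2 : x * ((((q : ℕ) : ↥E0)) ^ n)⁻¹ = ((u : cutOver A E0) : ↥E0) := by
      rw [h1, mul_assoc, mul_inv_cancel₀ (pow_ne_zero n hq0), mul_one]
    rw [h2]
    exact (cutOver A E0).valuation_unit u
  rcases (cutOver A E0).mem_or_inv_mem c with h | h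
  · obtain ⟨n, hn⟩ := key c hc h
    refine ⟨(n : ℤ), ?_⟩
    rw [zpow_neg, zpow_natCast]
    exact hn
  · obtain ⟨n, hn⟩ := key c⁻¹ (inv_ne_zero hc) h
    refine ⟨-(n : ℤ), ?_⟩
    rw [neg_neg, zpow_natCast]
    have h3 : c * (((q : ℕ) : ↥E0)) ^ n = (c⁻¹ * ((((q : ℕ) : ↥E0)) ^ n)⁻¹)⁻¹ := by
      rw [mul_inv, inv_inv, inv_inv]
    rw [h3, map_inv₀, hn, inv_one]

include hq hA in
/-- `m`-th roots modulo the maximal ideal (the residue field is algebraically closed). -/
theorem exists_root_valuation_lt_one {m : ℕ} (hm : 0 < m) {c : ↥E0}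
    (hc : (cutOver A E0).valuation c = 1) :
    ∃ c1 : ↥E0, (cutOver A E0).valuation c1 = 1 ∧
      (cutOver A E0).valuation (c / c1 ^ m - 1) < 1 := by
  haveI := isDiscreteValuationRing_cutOver hq hA E0
  haveI := isAlgClosed_residueField_cutOver hq hA E0
  have hcR : c ∈ cutOver A E0 := ((cutOver A E0).valuation_le_one_iff c).mp hc.le
  have hcu : IsUnit (⟨c, hcR⟩ : cutOver A E0) :=
    ((cutOver A E0).valuation_eq_one_iff ⟨c, hcR⟩).mpr hc
  obtain ⟨π, hπ⟩ := IsDiscreteValuationRing.exists_irreducible (cutOver A E0)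
  have hmax : maximalIdeal (cutOver A E0) = Ideal.span {π} :=
    (IsDiscreteValuationRing.irreducible_iff_uniformizer π).mp hπ
  obtain ⟨γ, hγ, hdvd⟩ := H47.exists_root_mod hmax hm ⟨c, hcR⟩ hcu
  have hγ1 : (cutOver A E0).valuation (γ : ↥E0) = 1 :=
    ((cutOver A E0).valuation_eq_one_iff γ).mp hγ
  have hγ0 : (γ : ↥E0) ≠ 0 := by
    intro h0
    rw [h0, map_zero] at hγ1
    exact zero_ne_one hγ1
  refine ⟨(γ : ↥E0)⁻¹, by rw [map_inv₀, hγ1, inv_one], ?_⟩
  have hmem : γ ^ m * ⟨c, hcR⟩ - 1 ∈ maximalIdeal (cutOver A E0) := by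
    rw [hmax, Ideal.mem_span_singleton]
    exact hdvd
  have hlt := ((cutOver A E0).valuation_lt_one_iff _).mp hmem
  have e : c / ((γ : ↥E0)⁻¹) ^ m - 1 = ((γ ^ m * ⟨c, hcR⟩ - 1 : cutOver A E0) : ↥E0) := by
    push_cast
    rw [inv_pow, div_inv_eq_mul, mul_comm]
  rw [e]
  exact hlt

/-- The normalised constants: `1`-units of `R = cutOver A E0`. -/
abbrev OneUR (c : ↥E0) : Prop := OneU (cutOver A E0) c

variable {F1 : Type*} [Field F1] [Algebra ↥E0 F1]

include hq hA hfix in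
/-- a valuation of `F1` over `R` sends the maximal ideal into the maximal ideal. -/
theorem valuation_algebraMap_lt_one_of_liesOver (W : ValuationSubring F1)
    (hWint : ∀ x : ↥E0, (cutOver A E0).valuation x ≤ 1 → W.valuation (algebraMap ↥E0 F1 x) ≤ 1)
    (hWq : W.valuation (algebraMap ↥E0 F1 ((q : ℕ) : ↥E0)) < 1)
    {x : ↥E0} (hx : (cutOver A E0).valuation x < 1) :
    W.valuation (algebraMap ↥E0 F1 x) < 1 := by
  obtain ⟨r, hr, rfl⟩ := exists_eq_natCast_mul_of_valuation_lt_one hq hA E0 hfix hx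
  rw [map_mul, map_mul]
  calc W.valuation (algebraMap ↥E0 F1 ((q : ℕ) : ↥E0)) * W.valuation (algebraMap ↥E0 F1 r)
      ≤ W.valuation (algebraMap ↥E0 F1 ((q : ℕ) : ↥E0)) * 1 := mul_le_mul' le_rfl (hWint r hr)
    _ < 1 := by rw [mul_one]; exact hWq

/-- a valuation of `F1` over `R` sends units to units. -/
theorem valuation_algebraMap_eq_one_of_liesOver (W : ValuationSubring F1)
    (hWint : ∀ x : ↥E0, (cutOver A E0).valuation x ≤ 1 → W.valuation (algebraMap ↥E0 F1 x) ≤ 1)
    {x : ↥E0} (hx : (cutOver A E0).valuation x = 1) :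
    W.valuation (algebraMap ↥E0 F1 x) = 1 := by
  have hx0 : x ≠ 0 := by
    intro h0
    rw [h0, map_zero] at hx
    exact zero_ne_one hx
  have h1 := hWint x hx.le
  have h2 := hWint x⁻¹ (by rw [map_inv₀, hx, inv_one])
  rw [map_inv₀, map_inv₀] at h2
  have hv0 : W.valuation (algebraMap ↥E0 F1 x) ≠ 0 :=
    (Valuation.ne_zero_iff _).mpr ((map_ne_zero _).mpr hx0)
  have h3 : 1 ≤ W.valuation (algebraMap ↥E0 F1 x) := by
    have := (inv_le_one₀ (zero_lt_iff.mpr hv0)).mp h2
    exact this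
  exact le_antisymm h1 h3

include hq hA hfix in
/-- `hUF`, `hUV` of the skeleton: a `1`-unit of `R` is a `1`-unit at every valuation over `R`. -/
theorem oneU_algebraMap_of_liesOver (W : ValuationSubring F1)
    (hWint : ∀ x : ↥E0, (cutOver A E0).valuation x ≤ 1 → W.valuation (algebraMap ↥E0 F1 x) ≤ 1)
    (hWq : W.valuation (algebraMap ↥E0 F1 ((q : ℕ) : ↥E0)) < 1)
    {c : ↥E0} (hc : OneUR (A := A) E0 c) : OneU W (algebraMap ↥E0 F1 c) := by
  have h := valuation_algebraMap_lt_one_of_liesOver hq hA E0 hfix W hWint hWq hc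
  unfold OneU
  rwa [map_sub, map_one] at h

include hq hA hfix in
/-- **NORMCONST at the real constants** (`hconstα`, `hconstβ` of the skeleton): if
`y = c * h ^ m` is a unit at a valuation `W` of `F1` over `R` at which `q` is still a uniformiser,
the constant can be normalised to a `1`-unit of `R`. -/
theorem normConst_real (W : ValuationSubring F1)
    (hWint : ∀ x : ↥E0, (cutOver A E0).valuation x ≤ 1 → W.valuation (algebraMap ↥E0 F1 x) ≤ 1)
    (hWq : W.valuation (algebraMap ↥E0 F1 ((q : ℕ) : ↥E0)) < 1)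
    (hπW : ∀ x : F1, x ≠ 0 →
      ∃ n : ℤ, W.valuation (x * (algebraMap ↥E0 F1 ((q : ℕ) : ↥E0)) ^ (-n)) = 1)
    {m : ℕ} (hm : 0 < m) {y : F1} (hy : W.valuation y = 1) {c : ↥E0} {h : F1} (hc : c ≠ 0)
    (hh : h ≠ 0) (hyc : y = algebraMap ↥E0 F1 c * h ^ m) :
    ∃ (c' : ↥E0) (h' : F1), OneUR (A := A) E0 c' ∧ y = algebraMap ↥E0 F1 c' * h' ^ m := by
  set π : ↥E0 := ((q : ℕ) : ↥E0) with hπdef
  have hπ0 : π ≠ 0 := Nat.cast_ne_zero.mpr hq.ne_zero
  set πF : F1 := algebraMap ↥E0 F1 π with hπF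
  have hπF0 : πF ≠ 0 := (map_ne_zero _).mpr hπ0
  obtain ⟨n, hn⟩ := exists_zpow_valuation_eq_one hq hA E0 hfix hc
  obtain ⟨k, hk⟩ := hπW h hh
  set c0 : ↥E0 := c * π ^ (-n) with hc0
  set h0 : F1 := h * πF ^ (-k) with hh0
  have hc00 : c0 ≠ 0 := mul_ne_zero hc (zpow_ne_zero _ hπ0)
  have hpow : πF ^ (-n) * πF ^ (-((m : ℤ) * k)) * πF ^ (n + (m : ℤ) * k) = 1 := by
    rw [← zpow_add₀ hπF0, ← zpow_add₀ hπF0]
    have h1 : -n + -((m : ℤ) * k) + (n + (m : ℤ) * k) = 0 := by ring
    rw [h1, zpow_zero]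
  have hh0m : h0 ^ m = h ^ m * πF ^ (-((m : ℤ) * k)) := by
    rw [hh0, mul_pow, ← zpow_natCast (πF ^ (-k)) m, ← zpow_mul]
    congr 2
    ring
  have hc0F : algebraMap ↥E0 F1 c0 = algebraMap ↥E0 F1 c * πF ^ (-n) := by
    rw [hc0, map_mul, map_zpow₀]
  have e1 : y = algebraMap ↥E0 F1 c0 * h0 ^ m * πF ^ (n + (m : ℤ) * k) := by
    rw [hc0F, hh0m, hyc]
    linear_combination (-(algebraMap ↥E0 F1 c * h ^ m)) * hpow
  clear_value c0 h0
  have hv : W.valuation (πF ^ (n + (m : ℤ) * k)) = 1 := by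
    have h1 := congrArg W.valuation e1
    rw [hy, map_mul, map_mul, map_pow,
      valuation_algebraMap_eq_one_of_liesOver (A := A) E0 W hWint hn, hk, one_pow, one_mul,
      one_mul] at h1
    exact h1.symm
  have hz : n + (m : ℤ) * k = 0 :=
    S36.H46.zpow_eq_zero_of_valuation_eq_one W hWq hπF0 hv
  rw [hz, zpow_zero, mul_one] at e1
  obtain ⟨c1, hc1, hc1'⟩ := exists_root_valuation_lt_one hq hA E0 hm hn
  have hc10 : c1 ≠ 0 := by
    rintro rfl
    rw [map_zero] at hc1
    exact zero_ne_one hc1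
  refine ⟨c0 / c1 ^ m, algebraMap ↥E0 F1 c1 * h0, hc1', ?_⟩
  rw [e1, map_div₀, map_pow, mul_pow]
  have : (algebraMap ↥E0 F1 c1) ^ m ≠ 0 := pow_ne_zero m ((map_ne_zero _).mpr hc10)
  field_simp

include hq hA in
/-- a primitive `m`-th root of unity in `E0` (`q ∤ m`), integral over `R`. -/
theorem exists_zeta_E0 {m : ℕ} (hm0 : m ≠ 0) (hm : ¬ q ∣ m) :
    ∃ ζ : ↥E0, IsPrimitiveRoot ζ m ∧ (cutOver A E0).valuation ζ ≤ 1 := by
  obtain ⟨ζ, hζ⟩ := H47.exists_isPrimitiveRoot_cutOver (A := A) E0 hm0 hm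
  refine ⟨(ζ : ↥E0), ?_, ((cutOver A E0).valuation_le_one_iff _).mpr ζ.2⟩
  exact hζ.map_of_injective (f := (cutOver A E0).subtype) Subtype.val_injective

end CutOver

end Fermat.Agent.S36.H18
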