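/-
helper69 -- S36 (Carayol), row (E7a): **the generic skeleton of the geometric core**,
`geo36_of_radicalDatum` (the S36 twin of `S35/H69_GeoSkeleton`).

Abstract setting (no modular curves): a constant field `K`, two function fields `F1` (level
`q M₀`) and `F2` (level `q² M₀`), the two degeneracy maps `a b : F1 →+* F2` with their norms
`Na Nb : F2 →*₀ F1`, the three vertical valuation rings `V 0, V 1, V 2` of `F2`
(`V 0 = C_a`, `V 1` = the middle component (`e = q - 1`), `V 2 = C_b`), the two vertical valuation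
rings `WF WV` of `F1`, local rings `O n` of the closed points of a model of `F2` and the incidence
relation `Thr n i` (`V i` passes through `n`).

The theorem chains the landed engine bricks

* (E3) `S36.H3.exists_unit_at_verticals(_of_norms)`  -> hypothesis `hE3` (its OUTPUT, verbatim);
* (E4) `u = η_n G_n ^ m` at every closed point        -> hypothesis `hE4`;
* (E5) `S36.H46.exists_hG_three`                      -> hypothesis `hE5` (its OUTPUT, verbatim);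
* the normalisation of the constants of the two norm identities (helper46 "NORMCONST")
                                                      -> hypotheses `hconstα hconstβ`;
* (E6) `S36.H46.radDatum_of_towersU` (CONSUMED here, with its own hypotheses
  `HVa HVb hζ hζF hζV hab hOV happrox hbr hpt` passed through verbatim);
* (E1) the radical Kummer criterion                   -> hypothesis `crit`
  (= the conclusion of `S36.H67.kummer_descent_pow_rad`, verbatim);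

into the function-level statement `f ^ ((q+1)(q-1)(q²-1)) = c * w ^ m`, which is the body of
`S36.H18.GeoFn36E`.
-/
import Mathlib
import Fermat.Agent.S36.H46_TowerValU

set_option autoImplicit false

namespace Fermat.Agent.S36.H69

open Fermat.Agent.S34.H47 Fermat.Agent.S36.H85 Fermat.Agent.S36.H46

section Skeleton

variable {K F1 F2 : Type*} [Field K] [Field F1] [Field F2] [Algebra K F1] [Algebra K F2]

/-- Norm of `f ^ (q+1) * qF ^ (-s) * (g ^ m)⁻¹` when `N f = c * h ^ m`. -/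
theorem norm_step1 {Na : F2 →*₀ F1} {d : ℕ}
    (hNaK : ∀ c : K, Na (algebraMap K F2 c) = algebraMap K F1 c ^ d)
    {q m : ℕ} {qK : K} (hqK : qK ≠ 0) {f g : F2} (hg : g ≠ 0) (s : ℤ)
    {c : K} {h : F1} (hc : c ≠ 0) (hh : h ≠ 0) (hN : Na f = algebraMap K F1 c * h ^ m) :
    ∃ (c' : K) (h' : F1), c' ≠ 0 ∧ h' ≠ 0 ∧
      Na (f ^ (q + 1) * algebraMap K F2 qK ^ (-s) * (g ^ m)⁻¹) = algebraMap K F1 c' * h' ^ m := by
  have hNg : Na g ≠ 0 := (map_ne_zero Na).mpr hg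
  refine ⟨c ^ (q + 1) * (qK ^ d) ^ (-s), h ^ (q + 1) * (Na g)⁻¹,
    mul_ne_zero (pow_ne_zero _ hc) (zpow_ne_zero _ (pow_ne_zero _ hqK)),
    mul_ne_zero (pow_ne_zero _ hh) (inv_ne_zero hNg), ?_⟩
  rw [map_mul, map_mul, map_pow, map_zpow₀, map_inv₀, map_pow, hN, hNaK, map_mul, map_pow,
    map_zpow₀, map_pow]
  rw [mul_pow, mul_pow, inv_pow, ← pow_mul, ← pow_mul, mul_comm m (q + 1)]
  ring

omit [Algebra K F2] in
/-- Norm of `u ^ e` when `N u = c * h ^ m`. -/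
theorem norm_pow_step {Na : F2 →*₀ F1} {m : ℕ} {u : F2} (e : ℕ)
    {c : K} {h : F1} (hc : c ≠ 0) (hh : h ≠ 0) (hN : Na u = algebraMap K F1 c * h ^ m) :
    ∃ (c' : K) (h' : F1), c' ≠ 0 ∧ h' ≠ 0 ∧ Na (u ^ e) = algebraMap K F1 c' * h' ^ m := by
  refine ⟨c ^ e, h ^ e, pow_ne_zero _ hc, pow_ne_zero _ hh, ?_⟩
  rw [map_pow, hN, mul_pow, map_pow, ← pow_mul, ← pow_mul, mul_comm m e]

variable {ν : Type*} {k : Type*} [Field k]
  {a b : F1 →+* F2} {Na Nb : F2 →*₀ F1} {q m : ℕ}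
  {V : Fin 3 → ValuationSubring F2} {WF WV : ValuationSubring F1}
  {O : ν → Subring F2} {Thr : ν → Fin 3 → Prop}

/-- **(E7a) The generic skeleton of the geometric core of S36.**  See the header.

`U : K → Prop` = "normalised constants" (e.g. the `1`-units of the DVR `R ⊆ K`): the two norm
identities of `u` are renormalised (`hconstα hconstβ`) so that their constants satisfy `U`; `U`
constants are `1`-units at `WF`, `WV` (`hUF hUV`) and units of the local rings below the triple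
points (inside `hpt`). -/
theorem geo36_of_radicalDatum (hq : 0 < q) (hm : 0 < m)
    -- constants: the uniformiser `qK` and norms of constants
    {qK : K} (hqK : qK ≠ 0) {d : ℕ}
    (hNaK : ∀ c : K, Na (algebraMap K F2 c) = algebraMap K F1 c ^ d)
    (hNbK : ∀ c : K, Nb (algebraMap K F2 c) = algebraMap K F1 c ^ d)
    -- normalised constants
    (U : K → Prop)
    (hUF : ∀ c, U c → OneU WF (algebraMap K F1 c))
    (hUV : ∀ c, U c → OneU WV (algebraMap K F1 c))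
    -- (E6) the global tower data and the lifting hypotheses of `S36.H46.radDatum_of_towersU`
    (HVa : TowerValU a Na q (V 0) (V 1) (V 2) WF WV)
    (HVb : TowerValU b Nb q (V 2) (V 1) (V 0) WV WF)
    {ζ : F1} (hζ : IsPrimitiveRoot ζ m) (hζF : WF.valuation ζ ≤ 1) (hζV : WV.valuation ζ ≤ 1)
    (hab : a ζ = b ζ)
    (hOV : ∀ n i, Thr n i → ∀ x : F2, UnitIn (O n) x → (V i).valuation x = 1)
    (happrox : ∀ T' : Fin 3 → F2, (∀ i, (V i).valuation (T' i) = 1) →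
      ∃ Ψ : F2, Ψ ≠ 0 ∧ ∀ i, OneU (V i) (Ψ / T' i))
    (hbr : ∀ n i, Thr n i → ∀ u' G' T' : F2, G' ≠ 0 → T' ≠ 0 → UnitIn (O n) (u' / G' ^ m) →
      OneU (V i) (u' / T' ^ m) → ∃ Λ : F2, UnitIn (O n) Λ ∧ OneU (V i) (Λ * G' / T'))
    (hpt : ∀ ca cb : K, U ca → U cb → ∀ n, (∃ i₀, ∀ i, Thr n i → i = i₀) ∨
      ((∀ i, Thr n i) ∧
        TripleLoc a b Na Nb q m V WF WV ζ (algebraMap K F1 ca) (algebraMap K F1 cb) k (O n) ∧
        TripleLift m V (O n)))
    -- (E1) the radical Kummer criterion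
    (crit : ∀ u : F2, u ≠ 0 → RadDatum O V Thr u m →
      ∃ (c : K) (g : F2), u = algebraMap K F2 c * g ^ m)
    -- the function and its two norm identities
    {f : F2} (hf : f ≠ 0)
    (hNα : ∃ (c : K) (h : F1), c ≠ 0 ∧ h ≠ 0 ∧ Na f = algebraMap K F1 c * h ^ m)
    (hNβ : ∃ (c : K) (h : F1), c ≠ 0 ∧ h ≠ 0 ∧ Nb f = algebraMap K F1 c * h ^ m)
    -- (E3) step 1: the output of `S36.H3.exists_unit_at_verticals_of_norms`
    (hE3 : ∃ (s : ℤ) (g : F2), g ≠ 0 ∧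
      ∀ i, (V i).valuation (f ^ (q + 1) * algebraMap K F2 qK ^ (-s) * (g ^ m)⁻¹) = 1)
    -- (E4) step 2: local equations at every closed point, for every such `s`, `g`
    (hE4 : ∀ (s : ℤ) (g : F2), g ≠ 0 →
      (∀ i, (V i).valuation (f ^ (q + 1) * algebraMap K F2 qK ^ (-s) * (g ^ m)⁻¹) = 1) →
      ∃ G : ν → F2, (∀ n, G n ≠ 0) ∧
        ∀ n, UnitIn (O n) (f ^ (q + 1) * algebraMap K F2 qK ^ (-s) * (g ^ m)⁻¹ / G n ^ m))
    -- (E5) step 3: the output of `S36.H46.exists_hG_three`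
    (hE5 : ∀ u : F2, (∀ i, (V i).valuation u = 1) →
      (∃ (c : K) (h : F1), c ≠ 0 ∧ h ≠ 0 ∧ Na u = algebraMap K F1 c * h ^ m) →
      (∃ (c : K) (h : F1), c ≠ 0 ∧ h ≠ 0 ∧ Nb u = algebraMap K F1 c * h ^ m) →
      ∃ G : F2, G ≠ 0 ∧ (∀ j, (V j).valuation G = 1) ∧
        ∀ j, OneU (V j) (u ^ (q - 1) / G ^ m))
    -- normalisation of the constants (helper46 NORMCONST)
    (hconstα : ∀ (u : F2) (c : K) (h : F1), (∀ i, (V i).valuation u = 1) → c ≠ 0 → h ≠ 0 →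
      Na u = algebraMap K F1 c * h ^ m →
      ∃ (c1 : K) (h1 : F1), U c1 ∧ Na u = algebraMap K F1 c1 * h1 ^ m)
    (hconstβ : ∀ (u : F2) (c : K) (h : F1), (∀ i, (V i).valuation u = 1) → c ≠ 0 → h ≠ 0 →
      Nb u = algebraMap K F1 c * h ^ m →
      ∃ (c1 : K) (h1 : F1), U c1 ∧ Nb u = algebraMap K F1 c1 * h1 ^ m) :
    ∃ (c : K) (w : F2), c ≠ 0 ∧ w ≠ 0 ∧
      f ^ ((q + 1) * (q - 1) * (q ^ 2 - 1)) = algebraMap K F2 c * w ^ m := by
  classical
  obtain ⟨s, g, hg0, hu1⟩ := hE3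
  obtain ⟨cα, hα, hcα, hhα, hNα⟩ := hNα
  obtain ⟨cβ, hβ, hcβ, hhβ, hNβ⟩ := hNβ
  set qF : F2 := algebraMap K F2 qK with hqF
  have hqF0 : qF ≠ 0 := by
    rw [hqF]
    exact (map_ne_zero (algebraMap K F2)).mpr hqK
  set u1 : F2 := f ^ (q + 1) * qF ^ (-s) * (g ^ m)⁻¹ with hu1def
  have hu10 : u1 ≠ 0 :=
    mul_ne_zero (mul_ne_zero (pow_ne_zero _ hf) (zpow_ne_zero _ hqF0))
      (inv_ne_zero (pow_ne_zero _ hg0))
  -- norms of `u1`
  have hN1α := norm_step1 (q := q) hNaK hqK hg0 s hcα hhα hNα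
  have hN1β := norm_step1 (q := q) hNbK hqK hg0 s hcβ hhβ hNβ
  -- (E5): the common root `G5` of `u1 ^ (q-1)` at the three verticals
  obtain ⟨G5, hG50, hG5V, hG5⟩ := hE5 u1 hu1 hN1α hN1β
  -- (E4): the local equations of `u1`
  obtain ⟨G4, hG40, hG4⟩ := hE4 s g hg0 hu1
  -- `u2 := u1 ^ (q-1)`
  set u2 : F2 := u1 ^ (q - 1) with hu2def
  have hu20 : u2 ≠ 0 := pow_ne_zero _ hu10
  have hu2 : ∀ i, (V i).valuation u2 = 1 := fun i => by
    rw [hu2def, map_pow, hu1 i, one_pow]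
  obtain ⟨c2α, h2α, hc2α, hh2α, hN2α⟩ := hN1α
  obtain ⟨c2β, h2β, hc2β, hh2β, hN2β⟩ := hN1β
  obtain ⟨c3α, h3α, hc3α, hh3α, hN3α⟩ := norm_pow_step (q - 1) hc2α hh2α hN2α
  obtain ⟨c3β, h3β, hc3β, hh3β, hN3β⟩ := norm_pow_step (q - 1) hc2β hh2β hN2β
  obtain ⟨ca, ha, hUca, hNa⟩ := hconstα u2 c3α h3α hu2 hc3α hh3α hN3α
  obtain ⟨cb, hb, hUcb, hNb⟩ := hconstβ u2 c3β h3β hu2 hc3β hh3β hN3β
  -- local equations of `u2`
  have hG2 : ∀ n, UnitIn (O n) (u2 / (G4 n ^ (q - 1)) ^ m) := fun n => by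
    have e : u2 / (G4 n ^ (q - 1)) ^ m = (u1 / G4 n ^ m) ^ (q - 1) := by
      rw [hu2def, div_pow, ← pow_mul, ← pow_mul, mul_comm]
    rw [e]
    exact H85.UnitIn.pow (hG4 n) (q - 1)
  -- (E6)
  obtain ⟨Ψ, hΨ0, hrad⟩ := radDatum_of_towersU (k := k) (O := O) (Thr := Thr) hq hm HVa HVb
    hζ hζF hζV hab hu2 (T := fun _ => G5) hG5 hNa hNb
    (hUF ca hUca) (hUV ca hUca) (hUF cb hUcb) (hUV cb hUcb)
    (G := fun n => G4 n ^ (q - 1)) (fun n => pow_ne_zero _ (hG40 n)) hG2 hOV happrox hbr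
    (hpt ca cb hUca hUcb)
  -- (E1)
  have hu30 : u2 ^ (q ^ 2 - 1) / Ψ ^ m ≠ 0 :=
    div_ne_zero (pow_ne_zero _ hu20) (pow_ne_zero _ hΨ0)
  obtain ⟨c, w, hcw⟩ := crit _ hu30 hrad
  have hc0 : c ≠ 0 := by
    rintro rfl
    rw [map_zero, zero_mul] at hcw
    exact hu30 hcw
  have hw0 : w ≠ 0 := by
    rintro rfl
    rw [zero_pow hm.ne', mul_zero] at hcw
    exact hu30 hcw
  -- assembly
  set e2 : ℕ := (q - 1) * (q ^ 2 - 1) with he2
  refine ⟨c * (qK ^ s) ^ e2, w * Ψ * g ^ e2,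
    mul_ne_zero hc0 (pow_ne_zero _ (zpow_ne_zero _ hqK)),
    mul_ne_zero (mul_ne_zero hw0 hΨ0) (pow_ne_zero _ hg0), ?_⟩
  have h1 : u2 ^ (q ^ 2 - 1) = algebraMap K F2 c * w ^ m * Ψ ^ m := by
    rw [← hcw, div_mul_cancel₀ _ (pow_ne_zero _ hΨ0)]
  have h2 : f ^ (q + 1) = u1 * qF ^ s * g ^ m := by
    rw [hu1def, zpow_neg]
    field_simp
  have h3 : f ^ ((q + 1) * (q - 1) * (q ^ 2 - 1)) = u2 ^ (q ^ 2 - 1) * (qF ^ s) ^ e2 *
      (g ^ e2) ^ m := by
    rw [mul_assoc, pow_mul, h2, mul_pow, mul_pow, he2, pow_mul u1, ← hu2def, ← pow_mul g,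
      ← pow_mul g, mul_comm m]
  rw [h3, h1, map_mul, map_pow, map_zpow₀, mul_pow, mul_pow, ← hqF]
  ring

end Skeleton

end Fermat.Agent.S36.H69
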