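/-
S36 / row (E6) -> (E7) seam, helper84: producers, in the exact shapes consumed by
`S36.H85.radDatum_of_towers`, of its three "local lifting" hypotheses

* `happrox` (weak approximation at the vertical valuations)    <- `exists_psi_approx`,
* `hbr`     (lifting on one branch)                              <- `exists_lambda_branch`,
* `TripleLift m V O` (common lift at a point on all branches)    <- `exists_unitIn_lift_of_pow`,

first for an abstract local subring `O ⊆ F` (`tripleLift_of_local`), then for ONE chart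
(`O = H21.locSubring n`, `V i = H56.valuationSubringAt (P i)`), then for the two-chart model
(`O = H21.ptO B₁ B₂ π`, `Thr = H21.primeThr P₁ P₂`).  Also `unitIn_natCast_of_coprime`
(`m` prime to a natural number `q ∈ n` is a unit of `B_n`).
-/
import Mathlib
import Fermat.Agent.S34.H21_ModelHypCharts
import Fermat.Agent.S36.H84_LambdaTriple
import Fermat.Agent.S36.H85_GlueWire

set_option autoImplicit false
set_option linter.unusedSectionVars false
set_option linter.style.haveILetI false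

namespace Fermat.Agent.S36.H84

open Fermat.Agent.S34 Fermat.Agent.S34.H47 Fermat.Agent.S35

section AbstractLift

variable {F : Type*} [Field F]

/-- units of `O ⊆ V` have valuation one. -/
theorem valuation_eq_one_of_unitIn_le {O : Subring F} {V : ValuationSubring F}
    (hOV : ∀ x ∈ O, x ∈ V) {a : F} (ha : UnitIn O a) : V.valuation a = 1 := by
  have h2 := (V.valuation_le_one_iff a).2 (hOV a ha.1)
  have h3 := (V.valuation_le_one_iff a⁻¹).2 (hOV a⁻¹ ha.2.1)
  rw [map_inv₀] at h3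
  have hv0 : V.valuation a ≠ 0 := (Valuation.ne_zero_iff _).mpr ha.2.2
  exact le_antisymm h2 (by rwa [inv_le_one₀ (zero_lt_iff.mpr hv0)] at h3)

/-- **`hΛ` from one lift per branch with equal residues, abstract form.** -/
theorem exists_lambda_of_lifts_abs (O : Subring F)
    (hloc : ∀ a b : F, UnitIn O a → b ∈ O → ¬ UnitIn O b → UnitIn O (a + b))
    {ι : Type*} [Finite ι] (V : ι → ValuationSubring F) (hOV : ∀ i, ∀ x ∈ O, x ∈ V i)
    {m : ℕ} (hmu : UnitIn O (m : F)) {u G : F} (T : ι → F) (hG0 : G ≠ 0)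
    (hG : UnitIn O (u / G ^ m)) (hT : ∀ i, OneU (V i) (u / T i ^ m))
    (c : F) (hc : UnitIn O c)
    (hlift : ∀ i, ∃ a : F, UnitIn O a ∧ OneU (V i) (a * G / T i) ∧ ¬ UnitIn O (a - c)) :
    ∃ Λ : F, UnitIn O Λ ∧ ¬ UnitIn O (Λ - c) ∧ ∀ i, OneU (V i) (Λ * G / T i) := by
  classical
  choose a ha using hlift
  have hT0 : ∀ i, T i ≠ 0 := fun i => by
    intro h0
    have := (ha i).2.1.ne_zero
    rw [h0, div_zero] at this
    exact this rfl
  have hpow : ∀ i, (V i).valuation (u / G ^ m - a i ^ m) < 1 := by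
    intro i
    obtain ⟨hau, haT, -⟩ := ha i
    have hva := valuation_eq_one_of_unitIn_le (hOV i) hau
    have hq : OneU (V i) (u / G ^ m / a i ^ m) := by
      have h5 : u / G ^ m / a i ^ m = u / T i ^ m / (a i * G / T i) ^ m := by
        have h7 := hau.2.2
        have h8 : a i ^ m ≠ 0 := pow_ne_zero m h7
        have h9 : G ^ m ≠ 0 := pow_ne_zero m hG0
        have h10 : T i ^ m ≠ 0 := pow_ne_zero m (hT0 i)
        rw [div_pow, mul_pow]
        field_simp
      rw [h5]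
      exact (hT i).div (haT.pow m)
    have h6 : u / G ^ m - a i ^ m = (u / G ^ m / a i ^ m - 1) * a i ^ m := by
      have := hau.2.2
      field_simp
    rw [h6, map_mul, map_pow, hva, one_pow, mul_one]
    exact hq
  obtain ⟨Λ, hΛu, hΛc, hΛ⟩ := exists_unitIn_lift_of_pow O hloc V hOV m hmu a (u / G ^ m) c hG.1 hc
    (fun i => (ha i).1.1) (fun i => (ha i).2.2) hpow
  refine ⟨Λ, hΛu, hΛc, fun i => ?_⟩
  obtain ⟨hau, haT, -⟩ := ha i
  have hva := valuation_eq_one_of_unitIn_le (hOV i) hau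
  have hq : OneU (V i) (Λ / a i) := by
    have h3 : Λ / a i - 1 = (Λ - a i) * (a i)⁻¹ := by
      have := hau.2.2
      field_simp
    refine oneU_of_sub h3 ?_
    rw [map_mul, map_inv₀, hva, inv_one, mul_one]
    exact hΛ i
  have h4 : Λ * G / T i = Λ / a i * (a i * G / T i) := by
    have := hau.2.2
    have := hT0 i
    field_simp
  rw [h4]
  exact hq.mul haT

/-- **`TripleLift` for a local subring** with `m` invertible, contained in the three valuation
rings, on whose branches one-branch lifts exist. -/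
theorem tripleLift_of_local (O : Subring F)
    (hloc : ∀ a b : F, UnitIn O a → b ∈ O → ¬ UnitIn O b → UnitIn O (a + b))
    (V : Fin 3 → ValuationSubring F) (hOV : ∀ i, ∀ x ∈ O, x ∈ V i)
    {m : ℕ} (hmu : UnitIn O (m : F))
    (hbr : ∀ i, ∀ u' G' T' : F, G' ≠ 0 → T' ≠ 0 → UnitIn O (u' / G' ^ m) →
      OneU (V i) (u' / T' ^ m) → ∃ Λ : F, UnitIn O Λ ∧ OneU (V i) (Λ * G' / T')) :
    H85.TripleLift m V O := by
  intro u G T hG0 hT0 hG hT hEQ
  obtain ⟨c, hc, hEQ⟩ := hEQ
  obtain ⟨Λ, hΛ, -, hΛT⟩ := exists_lambda_of_lifts_abs O hloc V hOV hmu T hG0 hG hT c hc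
    (fun i => by
      obtain ⟨a, hau, haT⟩ := hbr i u G (T i) hG0 (hT0 i) hG (hT i)
      exact ⟨a, hau, haT, hEQ i a hau haT⟩)
  exact ⟨Λ, hΛ, hΛT⟩

end AbstractLift

section OneChart

variable {B F : Type*} [CommRing B] [IsDomain B] [Field F] [Algebra B F] [IsFractionRing B F]
  [IsNoetherianRing B] [IsIntegrallyClosed B]

omit [IsNoetherianRing B] [IsIntegrallyClosed B] in
/-- a natural number prime to some `q ∈ n` is a unit of `B_n`. -/
theorem unitIn_natCast_of_coprime (n : Ideal B) [hn : n.IsPrime] {m q : ℕ}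
    (hq : (q : B) ∈ n) (hmq : Nat.Coprime m q) :
    UnitIn (H21.locSubring (F := F) n) (m : F) := by
  have hm : (m : B) ∉ n := by
    intro hmn
    have h3 : ((Nat.gcd m q : ℤ) : B) ∈ n := by
      rw [Nat.gcd_eq_gcd_ab m q]
      push_cast
      exact n.add_mem (n.mul_mem_right _ hmn) (n.mul_mem_right _ hq)
    rw [hmq] at h3
    simp only [Nat.cast_one, Int.cast_one] at h3
    exact hn.ne_top ((Ideal.eq_top_iff_one n).2 h3)
  rw [H21.unitIn_locSubring_iff]
  have := H56.isUnitAt_algebraMap (K := F) hm hn.ne_top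
  simpa using this

/-- **`hbr` for one chart.** -/
theorem hbr_locSubring (p : Ideal B) [hp : p.IsPrime] (h1 : p.height = 1)
    (hbranch : IsIntegrallyClosed (B ⧸ p)) (n : Ideal B) [hn : n.IsPrime] (hpn : p ≤ n)
    {m : ℕ} (hm : 0 < m) (u' G' T' : F) (hG0 : G' ≠ 0) (hT0 : T' ≠ 0)
    (hG : UnitIn (H21.locSubring (F := F) n) (u' / G' ^ m))
    (hT : OneU (H56.valuationSubringAt (K := F) p h1) (u' / T' ^ m)) :
    ∃ Λ : F, UnitIn (H21.locSubring (F := F) n) Λ ∧
      OneU (H56.valuationSubringAt (K := F) p h1) (Λ * G' / T') :=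
  exists_lambda_branch (Ideal.Quotient.mk p) Ideal.Quotient.mk_surjective p h1
    (fun _ => Ideal.Quotient.eq_zero_iff_mem) n hpn hm hG0 hT0 hG hT

/-- **`TripleLift` for one chart**: a closed point `n` lying on the three vertical primes. -/
theorem tripleLift_locSubring (P : Fin 3 → Ideal B) [hP : ∀ i, (P i).IsPrime]
    (hh : ∀ i, (P i).height = 1) (hbranch : ∀ i, IsIntegrallyClosed (B ⧸ P i))
    (n : Ideal B) [hn : n.IsPrime] (hall : ∀ i, P i ≤ n) {m : ℕ} (hm : 0 < m)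
    (hmu : UnitIn (H21.locSubring (F := F) n) (m : F)) :
    H85.TripleLift m (fun i => H56.valuationSubringAt (K := F) (P i) (hh i))
      (H21.locSubring (F := F) n) :=
  tripleLift_of_local (H21.locSubring (F := F) n)
    (fun _ _ hx hy hyu => H21.locSubring_local n hx hy hyu)
    (fun i => H56.valuationSubringAt (K := F) (P i) (hh i))
    (fun i x hx => locSubring_le_valuationSubringAt (P i) (hh i) n (hall i) x hx) hmu
    (fun i u' G' T' hG0 hT0 hG hT =>
      hbr_locSubring (P i) (hh i) (hbranch i) n (hall i) hm u' G' T' hG0 hT0 hG hT)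

/-- **`happrox` for one chart.** -/
theorem happrox_chart (P : Fin 3 → Ideal B) [hP : ∀ i, (P i).IsPrime]
    (hh : ∀ i, (P i).height = 1) (hinj : Function.Injective P) :
    ∀ T' : Fin 3 → F,
      (∀ i, (H56.valuationSubringAt (K := F) (P i) (hh i)).valuation (T' i) = 1) →
      ∃ Ψ : F, Ψ ≠ 0 ∧ ∀ i, OneU (H56.valuationSubringAt (K := F) (P i) (hh i)) (Ψ / T' i) :=
  fun T' hT' => exists_psi_approx P hh hinj T' hT'

end OneChart

section TwoCharts

variable {R F : Type*} [CommRing R] [IsDomain R] [IsDiscreteValuationRing R]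
  [Field F] [Algebra R F]
  {B₁ B₂ : Subalgebra R F} [IsFractionRing B₁ F] [IsFractionRing B₂ F]
  [IsNoetherianRing B₁] [IsNoetherianRing B₂] [IsIntegrallyClosed B₁] [IsIntegrallyClosed B₂]
  {π : R} (P₁ : Fin 3 → Ideal B₁) (P₂ : Fin 3 → Ideal B₂)
  [hP₁ : ∀ i, (P₁ i).IsPrime] [hP₂ : ∀ i, (P₂ i).IsPrime]
  (hh₁ : ∀ i, (P₁ i).height = 1) (hh₂ : ∀ i, (P₂ i).height = 1)

/-- **`hbr` for the two-chart model** (`V i` read in chart 1; `hVeq` = both charts give the same
vertical valuation rings). -/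
theorem hbr_two_charts
    (hVeq : ∀ i, H56.valuationSubringAt (K := F) (P₁ i) (hh₁ i) =
      H56.valuationSubringAt (K := F) (P₂ i) (hh₂ i))
    (hbranch₁ : ∀ i, IsIntegrallyClosed (B₁ ⧸ P₁ i))
    (hbranch₂ : ∀ i, IsIntegrallyClosed (B₂ ⧸ P₂ i)) {m : ℕ} (hm : 0 < m) :
    ∀ (n : H21.ClosedPt B₁ π ⊕ H21.ClosedPt B₂ π) (i : Fin 3),
      H21.primeThr (π := π) P₁ P₂ n i → ∀ u' G' T' : F, G' ≠ 0 → T' ≠ 0 →
      UnitIn (H21.ptO B₁ B₂ π n) (u' / G' ^ m) →
      OneU (H56.valuationSubringAt (K := F) (P₁ i) (hh₁ i)) (u' / T' ^ m) →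
      ∃ Λ : F, UnitIn (H21.ptO B₁ B₂ π n) Λ ∧
        OneU (H56.valuationSubringAt (K := F) (P₁ i) (hh₁ i)) (Λ * G' / T') := by
  rintro (n | n) i hthr u' G' T' hG0 hT0 hG hT
  · haveI := n.2.1.isPrime
    exact hbr_locSubring (P₁ i) (hh₁ i) (hbranch₁ i) n.1 hthr hm u' G' T' hG0 hT0 hG hT
  · haveI := n.2.1.isPrime
    rw [hVeq i] at hT ⊢
    exact hbr_locSubring (P₂ i) (hh₂ i) (hbranch₂ i) n.1 hthr hm u' G' T' hG0 hT0 hG hT

/-- **`TripleLift` for the two-chart model** at a closed point on all three vertical primes. -/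
theorem tripleLift_two_charts
    (hVeq : ∀ i, H56.valuationSubringAt (K := F) (P₁ i) (hh₁ i) =
      H56.valuationSubringAt (K := F) (P₂ i) (hh₂ i))
    (hbranch₁ : ∀ i, IsIntegrallyClosed (B₁ ⧸ P₁ i))
    (hbranch₂ : ∀ i, IsIntegrallyClosed (B₂ ⧸ P₂ i)) {m : ℕ} (hm : 0 < m)
    (n : H21.ClosedPt B₁ π ⊕ H21.ClosedPt B₂ π)
    (hall : ∀ i, H21.primeThr (π := π) P₁ P₂ n i)
    (hmu : UnitIn (H21.ptO B₁ B₂ π n) (m : F)) :
    H85.TripleLift m (fun i => H56.valuationSubringAt (K := F) (P₁ i) (hh₁ i))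
      (H21.ptO B₁ B₂ π n) := by
  rcases n with n | n
  · haveI := n.2.1.isPrime
    exact tripleLift_locSubring P₁ hh₁ hbranch₁ n.1 hall hm hmu
  · haveI := n.2.1.isPrime
    have hfun : (fun i => H56.valuationSubringAt (K := F) (P₁ i) (hh₁ i)) =
        fun i => H56.valuationSubringAt (K := F) (P₂ i) (hh₂ i) := funext hVeq
    rw [hfun]
    exact tripleLift_locSubring P₂ hh₂ hbranch₂ n.1 hall hm hmu

/-- `m` prime to a natural number `q` with `(q : R) ∈ (π)` is a unit at every closed point of the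
two-chart model. -/
theorem unitIn_natCast_ptO (n : H21.ClosedPt B₁ π ⊕ H21.ClosedPt B₂ π) {m q : ℕ}
    (hq : π ∣ (q : R)) (hmq : Nat.Coprime m q) : UnitIn (H21.ptO B₁ B₂ π n) (m : F) := by
  obtain ⟨r, hr⟩ := hq
  rcases n with n | n
  · haveI := n.2.1.isPrime
    refine unitIn_natCast_of_coprime n.1 (q := q) ?_ hmq
    have h1 : (q : B₁) = algebraMap R B₁ π * algebraMap R B₁ r := by
      rw [← map_mul, ← hr, map_natCast]
    rw [h1]
    exact n.1.mul_mem_right _ n.2.2
  · haveI := n.2.1.isPrime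
    refine unitIn_natCast_of_coprime n.1 (q := q) ?_ hmq
    have h1 : (q : B₂) = algebraMap R B₂ π * algebraMap R B₂ r := by
      rw [← map_mul, ← hr, map_natCast]
    rw [h1]
    exact n.1.mul_mem_right _ n.2.2

/-- **Step 4 for the two-chart model**: `S36.H85.radDatum_of_towers` with its three lifting
hypotheses discharged.  What remains: the two global tower data (row (E5)), the two norm
identities, the local equations `u = η_n G_n ^ m` (row (E4)), and at every closed point: at most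
one vertical prime through it, or all three and the local tower data `TripleLoc`. -/
theorem radDatum_of_towers_two_charts {F1 : Type*} [Field F1] {k : Type*} [Field k]
    {a b : F1 →+* F} {Na Nb : F →*₀ F1} {q m : ℕ}
    {WF WV : ValuationSubring F1} (hq : 0 < q) (hm : 0 < m)
    (hqπ : π ∣ (q : R)) (hmq : Nat.Coprime m q)
    (hinj : Function.Injective P₁)
    (hVeq : ∀ i, H56.valuationSubringAt (K := F) (P₁ i) (hh₁ i) =
      H56.valuationSubringAt (K := F) (P₂ i) (hh₂ i))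
    (hbranch₁ : ∀ i, IsIntegrallyClosed (B₁ ⧸ P₁ i))
    (hbranch₂ : ∀ i, IsIntegrallyClosed (B₂ ⧸ P₂ i))
    (HVa : H85.TowerVal a Na q (H56.valuationSubringAt (K := F) (P₁ 0) (hh₁ 0))
      (H56.valuationSubringAt (K := F) (P₁ 1) (hh₁ 1))
      (H56.valuationSubringAt (K := F) (P₁ 2) (hh₁ 2)) WF WV)
    (HVb : H85.TowerVal b Nb q (H56.valuationSubringAt (K := F) (P₁ 2) (hh₁ 2))
      (H56.valuationSubringAt (K := F) (P₁ 1) (hh₁ 1))
      (H56.valuationSubringAt (K := F) (P₁ 0) (hh₁ 0)) WV WF)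
    {ζ : F1} (hζ : IsPrimitiveRoot ζ m) (hζF : WF.valuation ζ ≤ 1) (hζV : WV.valuation ζ ≤ 1)
    (hab : a ζ = b ζ)
    {u : F} (hu : ∀ i, (H56.valuationSubringAt (K := F) (P₁ i) (hh₁ i)).valuation u = 1)
    {T : Fin 3 → F}
    (hT : ∀ i, OneU (H56.valuationSubringAt (K := F) (P₁ i) (hh₁ i)) (u / T i ^ m))
    {ca ha cb hb : F1} (hNa : Na u = ca * ha ^ m) (hNb : Nb u = cb * hb ^ m)
    (hcaF : OneU WF ca) (hcaV : OneU WV ca) (hcbF : OneU WF cb) (hcbV : OneU WV cb)
    {G : H21.ClosedPt B₁ π ⊕ H21.ClosedPt B₂ π → F} (hG0 : ∀ n, G n ≠ 0)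
    (hG : ∀ n, UnitIn (H21.ptO B₁ B₂ π n) (u / G n ^ m))
    (hpt : ∀ n, (∃ i₀, ∀ i, H21.primeThr (π := π) P₁ P₂ n i → i = i₀) ∨
      ((∀ i, H21.primeThr (π := π) P₁ P₂ n i) ∧
        H85.TripleLoc a b Na Nb q m (fun i => H56.valuationSubringAt (K := F) (P₁ i) (hh₁ i))
          WF WV ζ ca cb k (H21.ptO B₁ B₂ π n))) :
    ∃ Ψ : F, Ψ ≠ 0 ∧ H85.RadDatum (H21.ptO B₁ B₂ π)
      (fun i => H56.valuationSubringAt (K := F) (P₁ i) (hh₁ i))
      (H21.primeThr (π := π) P₁ P₂) (u ^ (q ^ 2 - 1) / Ψ ^ m) m :=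
  H85.radDatum_of_towers (k := k) hq hm HVa HVb hζ hζF hζV hab hu hT hNa hNb hcaF hcaV hcbF hcbV
    hG0 hG (happrox_chart P₁ hh₁ hinj)
    (hbr_two_charts P₁ P₂ hh₁ hh₂ hVeq hbranch₁ hbranch₂ hm)
    (fun n => (hpt n).imp id fun ⟨hall, hloc⟩ =>
      ⟨hall, hloc, tripleLift_two_charts P₁ P₂ hh₁ hh₂ hVeq hbranch₁ hbranch₂ hm n hall
        (unitIn_natCast_ptO n hqπ hmq)⟩)

end TwoCharts

end Fermat.Agent.S36.H84
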