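/-
helper69 -- S36 (Carayol), row (E7a'): **the two-chart form of the skeleton**
`S36.H69.geo36_of_radicalDatum`.

`R` a DVR, `F2` a field with `[Algebra R F2]`, two charts `B₁ B₂ : Subalgebra R F2` (noetherian,
integrally closed, fraction field `F2`), three vertical primes `P₁ P₂ : Fin 3 → Ideal B_i` of
height one (the same three valuation rings in both charts: `hVeq`),
`O := H21.ptO B₁ B₂ π`, `V i := H56.valuationSubringAt (P₁ i) (hh₁ i)`, `Thr := H21.primeThr P₁ P₂`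
= the vocabulary of `S34.H69.kummer_descent_pow` / `S36.H67.kummer_descent_pow_rad` and of
helper18's integration map (#3297).

Compared with the abstract skeleton, the lifting hypotheses `hOV happrox hbr` and the `TripleLift`
half of `hpt` are DISCHARGED by helper84's landed two-chart adapters
(`S36.H84.hOV_two_charts`, `happrox_chart`, `hbr_two_charts`, `tripleLift_two_charts`,
`unitIn_natCast_ptO`); the new inputs are `hqπ hmq hinj hVeq hbranch₁ hbranch₂`.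
-/
import Mathlib
import Fermat.Agent.S36.H69_Geo36Skeleton
import Fermat.Agent.S36.H84_TowerAdaptersU

set_option autoImplicit false
set_option linter.unusedSectionVars false

namespace Fermat.Agent.S36.H69

open Fermat.Agent.S34 Fermat.Agent.S34.H47 Fermat.Agent.S35 Fermat.Agent.S36.H85
  Fermat.Agent.S36.H46

section TwoCharts

variable {R F2 : Type*} [CommRing R] [IsDomain R] [IsDiscreteValuationRing R]
  [Field F2] [Algebra R F2]
  {B₁ B₂ : Subalgebra R F2} [IsFractionRing B₁ F2] [IsFractionRing B₂ F2]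
  [IsNoetherianRing B₁] [IsNoetherianRing B₂] [IsIntegrallyClosed B₁] [IsIntegrallyClosed B₂]
  {π : R} (P₁ : Fin 3 → Ideal B₁) (P₂ : Fin 3 → Ideal B₂)
  [hP₁ : ∀ i, (P₁ i).IsPrime] [hP₂ : ∀ i, (P₂ i).IsPrime]
  (hh₁ : ∀ i, (P₁ i).height = 1) (hh₂ : ∀ i, (P₂ i).height = 1)
  {K F1 : Type*} [Field K] [Field F1] [Algebra K F1] [Algebra K F2]
  {k : Type*} [Field k]
  {a b : F1 →+* F2} {Na Nb : F2 →*₀ F1} {q m : ℕ}
  {WF WV : ValuationSubring F1}

/-- **(E7a') The skeleton of the geometric core of S36 for a two-chart model.** -/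
theorem geo36_two_charts (hq : 0 < q) (hm : 0 < m)
    -- the two-chart model
    (hqπ : π ∣ (q : R)) (hmq : Nat.Coprime m q) (hinj : Function.Injective P₁)
    (hVeq : ∀ i, H56.valuationSubringAt (K := F2) (P₁ i) (hh₁ i) =
      H56.valuationSubringAt (K := F2) (P₂ i) (hh₂ i))
    (hbranch₁ : ∀ i, IsIntegrallyClosed (B₁ ⧸ P₁ i))
    (hbranch₂ : ∀ i, IsIntegrallyClosed (B₂ ⧸ P₂ i))
    -- constants
    {qK : K} (hqK : qK ≠ 0) {d : ℕ}
    (hNaK : ∀ c : K, Na (algebraMap K F2 c) = algebraMap K F1 c ^ d)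
    (hNbK : ∀ c : K, Nb (algebraMap K F2 c) = algebraMap K F1 c ^ d)
    (U : K → Prop)
    (hUF : ∀ c, U c → OneU WF (algebraMap K F1 c))
    (hUV : ∀ c, U c → OneU WV (algebraMap K F1 c))
    -- (E5)/(E6) global tower data
    (HVa : TowerValU a Na q (H56.valuationSubringAt (K := F2) (P₁ 0) (hh₁ 0))
      (H56.valuationSubringAt (K := F2) (P₁ 1) (hh₁ 1))
      (H56.valuationSubringAt (K := F2) (P₁ 2) (hh₁ 2)) WF WV)
    (HVb : TowerValU b Nb q (H56.valuationSubringAt (K := F2) (P₁ 2) (hh₁ 2))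
      (H56.valuationSubringAt (K := F2) (P₁ 1) (hh₁ 1))
      (H56.valuationSubringAt (K := F2) (P₁ 0) (hh₁ 0)) WV WF)
    {ζ : F1} (hζ : IsPrimitiveRoot ζ m) (hζF : WF.valuation ζ ≤ 1) (hζV : WV.valuation ζ ≤ 1)
    (hab : a ζ = b ζ)
    -- (E6) point classification + local tower data at the triple points
    (hpt : ∀ ca cb : K, U ca → U cb → ∀ n,
      (∃ i₀, ∀ i, H21.primeThr (π := π) P₁ P₂ n i → i = i₀) ∨
      ((∀ i, H21.primeThr (π := π) P₁ P₂ n i) ∧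
        TripleLoc a b Na Nb q m (fun i => H56.valuationSubringAt (K := F2) (P₁ i) (hh₁ i))
          WF WV ζ (algebraMap K F1 ca) (algebraMap K F1 cb) k (H21.ptO B₁ B₂ π n)))
    -- (E1) the radical Kummer criterion
    (crit : ∀ u : F2, u ≠ 0 →
      RadDatum (H21.ptO B₁ B₂ π) (fun i => H56.valuationSubringAt (K := F2) (P₁ i) (hh₁ i))
        (H21.primeThr (π := π) P₁ P₂) u m →
      ∃ (c : K) (g : F2), u = algebraMap K F2 c * g ^ m)
    -- the function and its two norm identities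
    {f : F2} (hf : f ≠ 0)
    (hNα : ∃ (c : K) (h : F1), c ≠ 0 ∧ h ≠ 0 ∧ Na f = algebraMap K F1 c * h ^ m)
    (hNβ : ∃ (c : K) (h : F1), c ≠ 0 ∧ h ≠ 0 ∧ Nb f = algebraMap K F1 c * h ^ m)
    -- (E3)
    (hE3 : ∃ (s : ℤ) (g : F2), g ≠ 0 ∧
      ∀ i, (H56.valuationSubringAt (K := F2) (P₁ i) (hh₁ i)).valuation
        (f ^ (q + 1) * algebraMap K F2 qK ^ (-s) * (g ^ m)⁻¹) = 1)
    -- (E4)
    (hE4 : ∀ (s : ℤ) (g : F2), g ≠ 0 →
      (∀ i, (H56.valuationSubringAt (K := F2) (P₁ i) (hh₁ i)).valuation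
        (f ^ (q + 1) * algebraMap K F2 qK ^ (-s) * (g ^ m)⁻¹) = 1) →
      ∃ G : H21.ClosedPt B₁ π ⊕ H21.ClosedPt B₂ π → F2, (∀ n, G n ≠ 0) ∧
        ∀ n, UnitIn (H21.ptO B₁ B₂ π n)
          (f ^ (q + 1) * algebraMap K F2 qK ^ (-s) * (g ^ m)⁻¹ / G n ^ m))
    -- (E5)
    (hE5 : ∀ u : F2,
      (∀ i, (H56.valuationSubringAt (K := F2) (P₁ i) (hh₁ i)).valuation u = 1) →
      (∃ (c : K) (h : F1), c ≠ 0 ∧ h ≠ 0 ∧ Na u = algebraMap K F1 c * h ^ m) →
      (∃ (c : K) (h : F1), c ≠ 0 ∧ h ≠ 0 ∧ Nb u = algebraMap K F1 c * h ^ m) →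
      ∃ G : F2, G ≠ 0 ∧
        (∀ j, (H56.valuationSubringAt (K := F2) (P₁ j) (hh₁ j)).valuation G = 1) ∧
        ∀ j, OneU (H56.valuationSubringAt (K := F2) (P₁ j) (hh₁ j)) (u ^ (q - 1) / G ^ m))
    -- NORMCONST
    (hconstα : ∀ (u : F2) (c : K) (h : F1),
      (∀ i, (H56.valuationSubringAt (K := F2) (P₁ i) (hh₁ i)).valuation u = 1) → c ≠ 0 → h ≠ 0 →
      Na u = algebraMap K F1 c * h ^ m →
      ∃ (c1 : K) (h1 : F1), U c1 ∧ Na u = algebraMap K F1 c1 * h1 ^ m)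
    (hconstβ : ∀ (u : F2) (c : K) (h : F1),
      (∀ i, (H56.valuationSubringAt (K := F2) (P₁ i) (hh₁ i)).valuation u = 1) → c ≠ 0 → h ≠ 0 →
      Nb u = algebraMap K F1 c * h ^ m →
      ∃ (c1 : K) (h1 : F1), U c1 ∧ Nb u = algebraMap K F1 c1 * h1 ^ m) :
    ∃ (c : K) (w : F2), c ≠ 0 ∧ w ≠ 0 ∧
      f ^ ((q + 1) * (q - 1) * (q ^ 2 - 1)) = algebraMap K F2 c * w ^ m :=
  geo36_of_radicalDatum (k := k) (O := H21.ptO B₁ B₂ π)
    (V := fun i => H56.valuationSubringAt (K := F2) (P₁ i) (hh₁ i))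
    (Thr := H21.primeThr (π := π) P₁ P₂) hq hm hqK hNaK hNbK U hUF hUV HVa HVb hζ hζF hζV hab
    (H84.hOV_two_charts P₁ P₂ hh₁ hh₂ hVeq) (H84.happrox_chart P₁ hh₁ hinj)
    (H84.hbr_two_charts P₁ P₂ hh₁ hh₂ hVeq hbranch₁ hbranch₂ hm)
    (fun ca cb hca hcb n => (hpt ca cb hca hcb n).imp id fun ⟨hall, hloc⟩ =>
      ⟨hall, hloc, H84.tripleLift_two_charts P₁ P₂ hh₁ hh₂ hVeq hbranch₁ hbranch₂ hm n hall
        (H84.unitIn_natCast_ptO n hqπ hmq)⟩)
    crit hf hNα hNβ hE3 hE4 hE5 hconstα hconstβ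

end TwoCharts

end Fermat.Agent.S36.H69
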