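/-
helper69 -- S36 (Carayol), row (E7a''): **the skeleton with the constants normalised**
(`hconstα hconstβ` of `S36.H69.geo36_of_radicalDatum` discharged by helper46's landed NORMCONST
`S36.H46.exists_const_oneU_mul_pow`).

* `valuation_eq_one_of_map` : "lies over" in valuation form, from the `OneU` form `haVs` of
  `TowerValU` (`OneU Ws x → OneU Vs (a x)`): `Vs.valuation (a x) = 1 → Ws.valuation x = 1`;
* `valuation_norm_eq_one_of_towerValU` : the norm of a unit at `Vs`, `Vm` is a unit at `Ws`;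
* `hconst_of_normConst` : the hypothesis `hconstα` of the skeleton from NORMCONST, with
  `U c := A.valuation c = 1 ∧ OneU WF (algebraMap K F1 c) ∧ OneU WV (algebraMap K F1 c)`;
* `geo36_of_radicalDatum_const`, `geo36_two_charts_const` : the two skeletons with
  `U hUF hUV hconstα hconstβ` replaced by the NORMCONST inputs
  (`A`, `hWFlt hWVlt`, `π`, `hπ0 hπlt hπ`, `hπWF`, `hAWF`, `hroot`).
-/
import Mathlib
import Fermat.Agent.S36.H69_Geo36TwoCharts
import Fermat.Agent.S36.H46_NormConst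

set_option autoImplicit false
set_option linter.unusedSectionVars false

namespace Fermat.Agent.S36.H69

open Fermat.Agent.S34 Fermat.Agent.S34.H47 Fermat.Agent.S35 Fermat.Agent.S36.H85
  Fermat.Agent.S36.H46

section LiesOver

variable {F1 F2 : Type*} [Field F1] [Field F2]

/-- "Lies over", valuation form, from the `OneU` form. -/
theorem valuation_eq_one_of_map {a : F1 →+* F2} {Vs : ValuationSubring F2}
    {Ws : ValuationSubring F1} (haVs : ∀ x, OneU Ws x → OneU Vs (a x)) {x : F1}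
    (hx : Vs.valuation (a x) = 1) : Ws.valuation x = 1 := by
  have key : ∀ y : F1, Ws.valuation y < 1 → Vs.valuation (a y) < 1 := by
    intro y hy
    have h1 : OneU Ws (1 + y) := by
      unfold OneU
      rwa [add_sub_cancel_left]
    have h2 := haVs _ h1
    unfold OneU at h2
    rwa [map_add, map_one, add_sub_cancel_left] at h2
  have hx0 : x ≠ 0 := by
    rintro rfl
    rw [map_zero, map_zero] at hx
    exact zero_ne_one hx
  rcases lt_trichotomy (Ws.valuation x) 1 with h | h | h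
  · have := key x h
    rw [hx] at this
    exact absurd this (lt_irrefl _)
  · exact h
  · have h1 : Ws.valuation x⁻¹ < 1 := by
      rw [map_inv₀]
      exact inv_lt_one_of_one_lt₀ h
    have h2 := key _ h1
    rw [map_inv₀, map_inv₀, hx, inv_one] at h2
    exact absurd h2 (lt_irrefl _)

variable {a : F1 →+* F2} {Na : F2 →*₀ F1} {q : ℕ}
  {Vs Vm Vi : ValuationSubring F2} {Ws Wi : ValuationSubring F1}

/-- The norm of a unit at `Vs` and `Vm` is a unit at `Ws`. -/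
theorem valuation_norm_eq_one_of_towerValU (H : TowerValU a Na q Vs Vm Vi Ws Wi) {u : F2}
    (hs : Vs.valuation u = 1) (hm : Vm.valuation u = 1) : Ws.valuation (Na u) = 1 := by
  obtain ⟨x1, hx1⟩ := H.hls u hs
  obtain ⟨x2, hx2⟩ := H.hlm u hm
  have h1 : Vs.valuation (a x1) = 1 := by
    have := hx1.valuation_eq_one
    rw [map_div₀, hs] at this
    have h0 : Vs.valuation (a x1) ≠ 0 := by
      intro h0
      rw [h0, div_zero] at this
      exact zero_ne_one this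
    rw [one_div, inv_eq_one] at this
    exact this
  have h2 : Vm.valuation (a x2) = 1 := by
    have := hx2.valuation_eq_one
    rw [map_div₀, hm] at this
    rw [one_div, inv_eq_one] at this
    exact this
  have w1 : Ws.valuation x1 = 1 := valuation_eq_one_of_map H.haVs h1
  have w2 : Ws.valuation x2 = 1 := valuation_eq_one_of_map H.haVm h2
  have h3 := (H.hNs u x1 x2 hs hm hx1 hx2).valuation_eq_one
  rw [map_div₀, map_mul, map_pow, w1, w2, one_pow, one_mul, div_one] at h3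
  exact h3

end LiesOver

section Const

variable {K F1 F2 : Type*} [Field K] [Field F1] [Field F2] [Algebra K F1] [Algebra K F2]

/-- The normalised constants: units of `A` which are `1`-units at `WF` and `WV`. -/
def NormalisedConst (A : ValuationSubring K) (WF WV : ValuationSubring F1) (c : K) : Prop :=
  A.valuation c = 1 ∧ OneU WF (algebraMap K F1 c) ∧ OneU WV (algebraMap K F1 c)

/-- **The hypothesis `hconstα` of the skeleton, from NORMCONST.**  `Ws` = the valuation ring of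
`F1` below `Vs`, `Vm` (for `α`: `Ws = WF`; for `β`: `Ws = WV`), where `π` is still a
uniformiser. -/
theorem hconst_of_normConst {a : F1 →+* F2} {Na : F2 →*₀ F1} {q m : ℕ}
    {Vs Vm Vi : ValuationSubring F2} {Ws Wi : ValuationSubring F1}
    (H : TowerValU a Na q Vs Vm Vi Ws Wi)
    (A : ValuationSubring K)
    (hWslt : ∀ x : K, A.valuation x < 1 → Ws.valuation (algebraMap K F1 x) < 1)
    (hWilt : ∀ x : K, A.valuation x < 1 → Wi.valuation (algebraMap K F1 x) < 1)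
    {π : K} (hπ0 : π ≠ 0) (hπlt : A.valuation π < 1)
    (hπ : ∀ c : K, c ≠ 0 → ∃ n : ℤ, A.valuation (c * π ^ (-n)) = 1)
    (hπW : ∀ x : F1, x ≠ 0 → ∃ n : ℤ, Ws.valuation (x * (algebraMap K F1 π) ^ (-n)) = 1)
    (hAW : ∀ x : K, A.valuation x = 1 → Ws.valuation (algebraMap K F1 x) = 1)
    (hroot : ∀ c : K, A.valuation c = 1 →
      ∃ c1 : K, A.valuation c1 = 1 ∧ A.valuation (c / c1 ^ m - 1) < 1)
    (u : F2) (c : K) (h : F1) (hs : Vs.valuation u = 1) (hm : Vm.valuation u = 1)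
    (hc : c ≠ 0) (hh : h ≠ 0) (hN : Na u = algebraMap K F1 c * h ^ m) :
    ∃ (c1 : K) (h1 : F1), (A.valuation c1 = 1 ∧ OneU Ws (algebraMap K F1 c1) ∧
      OneU Wi (algebraMap K F1 c1)) ∧ Na u = algebraMap K F1 c1 * h1 ^ m := by
  have hy : Ws.valuation (Na u) = 1 := valuation_norm_eq_one_of_towerValU H hs hm
  obtain ⟨c', h', hc', -, hyc, hone⟩ := exists_const_oneU_mul_pow (ι := Bool) A
    (fun i => if i then Ws else Wi)
    (by
      intro i x hx
      cases i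
      · simpa using hWilt x hx
      · simpa using hWslt x hx)
    hπ0 hπlt hπ true (by simpa using hπW) (by simpa using hAW) m hroot (by simpa using hy) hc hh hN
  have h1 : OneU Ws (algebraMap K F1 c') := by simpa using hone true
  have h2 : OneU Wi (algebraMap K F1 c') := by simpa using hone false
  refine ⟨c', h', ⟨?_, h1, h2⟩, hyc⟩
  -- `c'` is a unit of `A`
  have hv := h1.valuation_eq_one
  rcases lt_trichotomy (A.valuation c') 1 with h | h | h
  · have := hWslt c' h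
    rw [hv] at this
    exact absurd this (lt_irrefl _)
  · exact h
  · have h3 : A.valuation c'⁻¹ < 1 := by
      rw [map_inv₀]
      exact inv_lt_one_of_one_lt₀ h
    have h4 := hWslt _ h3
    rw [map_inv₀, map_inv₀, hv, inv_one] at h4
    exact absurd h4 (lt_irrefl _)

variable {ν : Type*} {k : Type*} [Field k]
  {a b : F1 →+* F2} {Na Nb : F2 →*₀ F1} {q m : ℕ}
  {V : Fin 3 → ValuationSubring F2} {WF WV : ValuationSubring F1}
  {O : ν → Subring F2} {Thr : ν → Fin 3 → Prop}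

/-- **(E7a'') The abstract skeleton with the constants normalised by NORMCONST.**
`A` = the valuation ring of the constant field `K` (`= R`), `π` its uniformiser, still a
uniformiser at `WF` and at `WV` (`hπWF hπWV`: the special fibre of the level-`q M₀` model is
reduced), `hroot`: `m`-th roots in the residue field of `A`. -/
theorem geo36_of_radicalDatum_const (hq : 0 < q) (hm : 0 < m)
    {qK : K} (hqK : qK ≠ 0) {d : ℕ}
    (hNaK : ∀ c : K, Na (algebraMap K F2 c) = algebraMap K F1 c ^ d)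
    (hNbK : ∀ c : K, Nb (algebraMap K F2 c) = algebraMap K F1 c ^ d)
    -- NORMCONST inputs
    (A : ValuationSubring K)
    (hWFlt : ∀ x : K, A.valuation x < 1 → WF.valuation (algebraMap K F1 x) < 1)
    (hWVlt : ∀ x : K, A.valuation x < 1 → WV.valuation (algebraMap K F1 x) < 1)
    {π : K} (hπ0 : π ≠ 0) (hπlt : A.valuation π < 1)
    (hπ : ∀ c : K, c ≠ 0 → ∃ n : ℤ, A.valuation (c * π ^ (-n)) = 1)
    (hπWF : ∀ x : F1, x ≠ 0 → ∃ n : ℤ, WF.valuation (x * (algebraMap K F1 π) ^ (-n)) = 1)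
    (hπWV : ∀ x : F1, x ≠ 0 → ∃ n : ℤ, WV.valuation (x * (algebraMap K F1 π) ^ (-n)) = 1)
    (hAWF : ∀ x : K, A.valuation x = 1 → WF.valuation (algebraMap K F1 x) = 1)
    (hAWV : ∀ x : K, A.valuation x = 1 → WV.valuation (algebraMap K F1 x) = 1)
    (hroot : ∀ c : K, A.valuation c = 1 →
      ∃ c1 : K, A.valuation c1 = 1 ∧ A.valuation (c / c1 ^ m - 1) < 1)
    -- (E6)
    (HVa : TowerValU a Na q (V 0) (V 1) (V 2) WF WV)
    (HVb : TowerValU b Nb q (V 2) (V 1) (V 0) WV WF)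
    {ζ : F1} (hζ : IsPrimitiveRoot ζ m) (hζF : WF.valuation ζ ≤ 1) (hζV : WV.valuation ζ ≤ 1)
    (hab : a ζ = b ζ)
    (hOV : ∀ n i, Thr n i → ∀ x : F2, UnitIn (O n) x → (V i).valuation x = 1)
    (happrox : ∀ T' : Fin 3 → F2, (∀ i, (V i).valuation (T' i) = 1) →
      ∃ Ψ : F2, Ψ ≠ 0 ∧ ∀ i, OneU (V i) (Ψ / T' i))
    (hbr : ∀ n i, Thr n i → ∀ u' G' T' : F2, G' ≠ 0 → T' ≠ 0 → UnitIn (O n) (u' / G' ^ m) →
      OneU (V i) (u' / T' ^ m) → ∃ Λ : F2, UnitIn (O n) Λ ∧ OneU (V i) (Λ * G' / T'))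
    (hpt : ∀ ca cb : K, NormalisedConst A WF WV ca → NormalisedConst A WF WV cb → ∀ n,
      (∃ i₀, ∀ i, Thr n i → i = i₀) ∨
      ((∀ i, Thr n i) ∧
        TripleLoc a b Na Nb q m V WF WV ζ (algebraMap K F1 ca) (algebraMap K F1 cb) k (O n) ∧
        TripleLift m V (O n)))
    (crit : ∀ u : F2, u ≠ 0 → RadDatum O V Thr u m →
      ∃ (c : K) (g : F2), u = algebraMap K F2 c * g ^ m)
    {f : F2} (hf : f ≠ 0)
    (hNα : ∃ (c : K) (h : F1), c ≠ 0 ∧ h ≠ 0 ∧ Na f = algebraMap K F1 c * h ^ m)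
    (hNβ : ∃ (c : K) (h : F1), c ≠ 0 ∧ h ≠ 0 ∧ Nb f = algebraMap K F1 c * h ^ m)
    (hE3 : ∃ (s : ℤ) (g : F2), g ≠ 0 ∧
      ∀ i, (V i).valuation (f ^ (q + 1) * algebraMap K F2 qK ^ (-s) * (g ^ m)⁻¹) = 1)
    (hE4 : ∀ (s : ℤ) (g : F2), g ≠ 0 →
      (∀ i, (V i).valuation (f ^ (q + 1) * algebraMap K F2 qK ^ (-s) * (g ^ m)⁻¹) = 1) →
      ∃ G : ν → F2, (∀ n, G n ≠ 0) ∧
        ∀ n, UnitIn (O n) (f ^ (q + 1) * algebraMap K F2 qK ^ (-s) * (g ^ m)⁻¹ / G n ^ m))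
    (hE5 : ∀ u : F2, (∀ i, (V i).valuation u = 1) →
      (∃ (c : K) (h : F1), c ≠ 0 ∧ h ≠ 0 ∧ Na u = algebraMap K F1 c * h ^ m) →
      (∃ (c : K) (h : F1), c ≠ 0 ∧ h ≠ 0 ∧ Nb u = algebraMap K F1 c * h ^ m) →
      ∃ G : F2, G ≠ 0 ∧ (∀ j, (V j).valuation G = 1) ∧
        ∀ j, OneU (V j) (u ^ (q - 1) / G ^ m)) :
    ∃ (c : K) (w : F2), c ≠ 0 ∧ w ≠ 0 ∧
      f ^ ((q + 1) * (q - 1) * (q ^ 2 - 1)) = algebraMap K F2 c * w ^ m :=
  geo36_of_radicalDatum (k := k) hq hm hqK hNaK hNbK (NormalisedConst A WF WV)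
    (fun _ h => h.2.1) (fun _ h => h.2.2) HVa HVb hζ hζF hζV hab hOV happrox hbr hpt crit hf
    hNα hNβ hE3 hE4 hE5
    (fun u c h hu hc hh hN =>
      hconst_of_normConst HVa A hWFlt hWVlt hπ0 hπlt hπ hπWF hAWF hroot u c h (hu 0) (hu 1)
        hc hh hN)
    (fun u c h hu hc hh hN => by
      obtain ⟨c1, h1, ⟨hA, hV, hF⟩, hN1⟩ :=
        hconst_of_normConst HVb A hWVlt hWFlt hπ0 hπlt hπ hπWV hAWV hroot u c h (hu 2) (hu 1)
          hc hh hN
      exact ⟨c1, h1, ⟨hA, hF, hV⟩, hN1⟩)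

end Const

section TwoChartsConst

variable {R F2 : Type*} [CommRing R] [IsDomain R] [IsDiscreteValuationRing R]
  [Field F2] [Algebra R F2]
  {B₁ B₂ : Subalgebra R F2} [IsFractionRing B₁ F2] [IsFractionRing B₂ F2]
  [IsNoetherianRing B₁] [IsNoetherianRing B₂] [IsIntegrallyClosed B₁] [IsIntegrallyClosed B₂]
  {π : R} (P₁ : Fin 3 → Ideal B₁) (P₂ : Fin 3 → Ideal B₂)
  [hP₁ : ∀ i, (P₁ i).IsPrime] [hP₂ : ∀ i, (P₂ i).IsPrime]
  (hh₁ : ∀ i, (P₁ i).height = 1) (hh₂ : ∀ i, (P₂ i).height = 1)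
  {K F1 : Type*} [Field K] [Field F1] [Algebra K F1] [Algebra K F2]
  {k : Type*} [Field k]
  {a b : F1 →+* F2} {Na Nb : F2 →*₀ F1} {q m : ℕ}
  {WF WV : ValuationSubring F1}

/-- **(E7a'') The two-chart skeleton with the constants normalised by NORMCONST.** -/
theorem geo36_two_charts_const (hq : 0 < q) (hm : 0 < m)
    -- the two-chart model
    (hqπ : π ∣ (q : R)) (hmq : Nat.Coprime m q) (hinj : Function.Injective P₁)
    (hVeq : ∀ i, H56.valuationSubringAt (K := F2) (P₁ i) (hh₁ i) =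
      H56.valuationSubringAt (K := F2) (P₂ i) (hh₂ i))
    (hbranch₁ : ∀ i, IsIntegrallyClosed (B₁ ⧸ P₁ i))
    (hbranch₂ : ∀ i, IsIntegrallyClosed (B₂ ⧸ P₂ i))
    -- constants
    {qK : K} (hqK : qK ≠ 0) {d : ℕ}
    (hNaK : ∀ c : K, Na (algebraMap K F2 c) = algebraMap K F1 c ^ d)
    (hNbK : ∀ c : K, Nb (algebraMap K F2 c) = algebraMap K F1 c ^ d)
    -- NORMCONST inputs
    (A : ValuationSubring K)
    (hWFlt : ∀ x : K, A.valuation x < 1 → WF.valuation (algebraMap K F1 x) < 1)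
    (hWVlt : ∀ x : K, A.valuation x < 1 → WV.valuation (algebraMap K F1 x) < 1)
    {πK : K} (hπ0 : πK ≠ 0) (hπlt : A.valuation πK < 1)
    (hπ : ∀ c : K, c ≠ 0 → ∃ n : ℤ, A.valuation (c * πK ^ (-n)) = 1)
    (hπWF : ∀ x : F1, x ≠ 0 → ∃ n : ℤ, WF.valuation (x * (algebraMap K F1 πK) ^ (-n)) = 1)
    (hπWV : ∀ x : F1, x ≠ 0 → ∃ n : ℤ, WV.valuation (x * (algebraMap K F1 πK) ^ (-n)) = 1)
    (hAWF : ∀ x : K, A.valuation x = 1 → WF.valuation (algebraMap K F1 x) = 1)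
    (hAWV : ∀ x : K, A.valuation x = 1 → WV.valuation (algebraMap K F1 x) = 1)
    (hroot : ∀ c : K, A.valuation c = 1 →
      ∃ c1 : K, A.valuation c1 = 1 ∧ A.valuation (c / c1 ^ m - 1) < 1)
    -- (E5)/(E6) global tower data
    (HVa : TowerValU a Na q (H56.valuationSubringAt (K := F2) (P₁ 0) (hh₁ 0))
      (H56.valuationSubringAt (K := F2) (P₁ 1) (hh₁ 1))
      (H56.valuationSubringAt (K := F2) (P₁ 2) (hh₁ 2)) WF WV)
    (HVb : TowerValU b Nb q (H56.valuationSubringAt (K := F2) (P₁ 2) (hh₁ 2))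
      (H56.valuationSubringAt (K := F2) (P₁ 1) (hh₁ 1))
      (H56.valuationSubringAt (K := F2) (P₁ 0) (hh₁ 0)) WV WF)
    {ζ : F1} (hζ : IsPrimitiveRoot ζ m) (hζF : WF.valuation ζ ≤ 1) (hζV : WV.valuation ζ ≤ 1)
    (hab : a ζ = b ζ)
    -- (E6) point classification + local tower data at the triple points
    (hpt : ∀ ca cb : K, NormalisedConst A WF WV ca → NormalisedConst A WF WV cb → ∀ n,
      (∃ i₀, ∀ i, H21.primeThr (π := π) P₁ P₂ n i → i = i₀) ∨
      ((∀ i, H21.primeThr (π := π) P₁ P₂ n i) ∧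
        TripleLoc a b Na Nb q m (fun i => H56.valuationSubringAt (K := F2) (P₁ i) (hh₁ i))
          WF WV ζ (algebraMap K F1 ca) (algebraMap K F1 cb) k (H21.ptO B₁ B₂ π n)))
    -- (E1) the radical Kummer criterion
    (crit : ∀ u : F2, u ≠ 0 →
      RadDatum (H21.ptO B₁ B₂ π) (fun i => H56.valuationSubringAt (K := F2) (P₁ i) (hh₁ i))
        (H21.primeThr (π := π) P₁ P₂) u m →
      ∃ (c : K) (g : F2), u = algebraMap K F2 c * g ^ m)
    -- the function and its two norm identities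
    {f : F2} (hf : f ≠ 0)
    (hNα : ∃ (c : K) (h : F1), c ≠ 0 ∧ h ≠ 0 ∧ Na f = algebraMap K F1 c * h ^ m)
    (hNβ : ∃ (c : K) (h : F1), c ≠ 0 ∧ h ≠ 0 ∧ Nb f = algebraMap K F1 c * h ^ m)
    -- (E3)
    (hE3 : ∃ (s : ℤ) (g : F2), g ≠ 0 ∧
      ∀ i, (H56.valuationSubringAt (K := F2) (P₁ i) (hh₁ i)).valuation
        (f ^ (q + 1) * algebraMap K F2 qK ^ (-s) * (g ^ m)⁻¹) = 1)
    -- (E4)
    (hE4 : ∀ (s : ℤ) (g : F2), g ≠ 0 →
      (∀ i, (H56.valuationSubringAt (K := F2) (P₁ i) (hh₁ i)).valuation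
        (f ^ (q + 1) * algebraMap K F2 qK ^ (-s) * (g ^ m)⁻¹) = 1) →
      ∃ G : H21.ClosedPt B₁ π ⊕ H21.ClosedPt B₂ π → F2, (∀ n, G n ≠ 0) ∧
        ∀ n, UnitIn (H21.ptO B₁ B₂ π n)
          (f ^ (q + 1) * algebraMap K F2 qK ^ (-s) * (g ^ m)⁻¹ / G n ^ m))
    -- (E5)
    (hE5 : ∀ u : F2,
      (∀ i, (H56.valuationSubringAt (K := F2) (P₁ i) (hh₁ i)).valuation u = 1) →
      (∃ (c : K) (h : F1), c ≠ 0 ∧ h ≠ 0 ∧ Na u = algebraMap K F1 c * h ^ m) →
      (∃ (c : K) (h : F1), c ≠ 0 ∧ h ≠ 0 ∧ Nb u = algebraMap K F1 c * h ^ m) →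
      ∃ G : F2, G ≠ 0 ∧
        (∀ j, (H56.valuationSubringAt (K := F2) (P₁ j) (hh₁ j)).valuation G = 1) ∧
        ∀ j, OneU (H56.valuationSubringAt (K := F2) (P₁ j) (hh₁ j)) (u ^ (q - 1) / G ^ m)) :
    ∃ (c : K) (w : F2), c ≠ 0 ∧ w ≠ 0 ∧
      f ^ ((q + 1) * (q - 1) * (q ^ 2 - 1)) = algebraMap K F2 c * w ^ m :=
  geo36_of_radicalDatum_const (k := k) (O := H21.ptO B₁ B₂ π)
    (V := fun i => H56.valuationSubringAt (K := F2) (P₁ i) (hh₁ i))
    (Thr := H21.primeThr (π := π) P₁ P₂) hq hm hqK hNaK hNbK A hWFlt hWVlt hπ0 hπlt hπ hπWF hπWV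
    hAWF hAWV hroot HVa HVb hζ hζF hζV hab
    (H84.hOV_two_charts P₁ P₂ hh₁ hh₂ hVeq) (H84.happrox_chart P₁ hh₁ hinj)
    (H84.hbr_two_charts P₁ P₂ hh₁ hh₂ hVeq hbranch₁ hbranch₂ hm)
    (fun ca cb hca hcb n => (hpt ca cb hca hcb n).imp id fun ⟨hall, hloc⟩ =>
      ⟨hall, hloc, H84.tripleLift_two_charts P₁ P₂ hh₁ hh₂ hVeq hbranch₁ hbranch₂ hm n hall
        (H84.unitIn_natCast_ptO n hqπ hmq)⟩)
    crit hf hNα hNβ hE3 hE4 hE5

end TwoChartsConst

end Fermat.Agent.S36.H69
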