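/-
S36, row (E6), sub-row (E6-norm) (helper47): **norms of units at a closed point with a unique
point below/above are units** - the field `hNunit` of `S36.H85.TowerLoc` /
`S36.H85.towerLoc_of_restrict`.

Situation: `B'` the chart of level `q`, `B` the chart of level `q²`, `φ : B' → B` one of the two
degeneracy maps (integral), `n'` a closed point (maximal ideal) of `B'` and `n` the ONLY maximal
ideal of `B` lying over `n'` (at the real types: the degeneracy maps are bijective on
supersingular points).  Then for every unit `e` of `O_n = B_n ⊆ F2` the norm `N_{F2/F1} e` is a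
unit of `O'_{n'} = B'_{n'} ⊆ F1` (`B'` integrally closed).

* `exists_mul_eq_map_of_unique` (pure commutative algebra, no fields, no normality): every
  `s ∉ n` divides in `B` the image of some `c ∈ B' ∖ n'` (Nakayama on a finite subalgebra).
* `exists_eq_norm_of_isIntegral`: norms of elements of `B` lie in `B'` (`B'` integrally closed).
* `norm_not_mem_of_unique`: `s ∉ n ⟹ N s ∉ n'`.
* `isUnitAt_norm_of_unique` / `unitIn_norm_locSubring`: the statement above, in the
  `H56.IsUnitAt` / `H47.UnitIn (H21.locSubring _)` vocabulary.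
* `unitIn_norm_locSubring_ringHom`: the same for a ring homomorphism `a : F1 →+* F2` and any
  `Na : F2 →*₀ F1` agreeing with the norm of `a.toAlgebra` (shape of `TowerLoc.hNunit`).
-/
import Mathlib
import Fermat.Agent.S34.H21_ModelHypCharts

set_option autoImplicit false
set_option linter.unusedSectionVars false
set_option linter.style.haveILetI false

namespace Fermat.Agent.S36.H47

open Fermat.Agent.S34

section Key

variable {B' B : Type*} [CommRing B'] [CommRing B]

/-- **Avoiding the unique point above.**  `φ : B' → B` integral, `n'` a maximal ideal of `B'`,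
`n` an ideal of `B` which is the ONLY maximal ideal of `B` over `n'`.  Then every `s ∉ n` divides
(in `B`) the image of an element of `B'` outside `n'`. -/
theorem exists_mul_eq_map_of_unique (φ : B' →+* B) (hint : ∀ b : B, φ.IsIntegralElem b)
    (n' : Ideal B') [hn' : n'.IsMaximal] (n : Ideal B)
    (huniq : ∀ P : Ideal B, P.IsMaximal → P.comap φ = n' → P = n)
    {s : B} (hs : s ∉ n) : ∃ (t : B) (c : B'), c ∉ n' ∧ s * t = φ c := by
  classical
  let _ : Algebra B' B := φ.toAlgebra
  -- Step 1: `s B + n' B = B`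
  have htop : Ideal.span {s} ⊔ Ideal.map φ n' = ⊤ := by
    by_contra hne
    obtain ⟨P, hP, hle⟩ := Ideal.exists_le_maximal _ hne
    have h1 : n' ≤ P.comap φ := by
      rw [← Ideal.map_le_iff_le_comap]
      exact le_trans le_sup_right hle
    have h2 : P.comap φ ≠ ⊤ := Ideal.comap_ne_top φ hP.ne_top
    have h3 : P.comap φ = n' := (hn'.eq_of_le h2 h1).symm
    have h4 : P = n := huniq P hP h3
    apply hs
    rw [← h4]
    exact hle (Ideal.mem_sup_left (Ideal.subset_span rfl))
  have h1 : (1 : B) ∈ Ideal.span {s} ⊔ Ideal.map φ n' := by rw [htop]; trivial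
  obtain ⟨t₀, x, hx, hsum⟩ := Ideal.mem_span_singleton_sup.1 h1
  -- Step 2: write `x = ∑ aᵢ • bᵢ` with `aᵢ ∈ n'`
  have hx' : x ∈ n' • (⊤ : Submodule B' B) := by
    rw [Ideal.smul_top_eq_map]
    exact hx
  have hspan : (⊤ : Submodule B' B) = Submodule.span B' (Set.range (id : B → B)) := by
    rw [Set.range_id, Submodule.span_univ]
  rw [hspan, Submodule.mem_ideal_smul_span_iff_exists_sum] at hx'
  obtain ⟨c, hc, hcx⟩ := hx'
  -- Step 3: the finite subalgebra
  set S : Finset B := insert s (insert t₀ c.support) with hS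
  set A : Subalgebra B' B := Algebra.adjoin B' (S : Set B) with hA
  have hAfg : (Subalgebra.toSubmodule A).FG :=
    fg_adjoin_of_finite S.finite_toSet fun b _ => hint b
  have hbA : ∀ b ∈ c.support, b ∈ A := by
    intro b hb
    apply Algebra.subset_adjoin
    simp only [hS, Finset.coe_insert, Set.mem_insert_iff, Finset.mem_coe]
    exact Or.inr (Or.inr hb)
  -- Step 4: Nakayama on the image of `A` in `B ⧸ (s)`
  set I : Ideal B := Ideal.span {s} with hI
  set π : B →ₗ[B'] B ⧸ I := (Ideal.Quotient.mkₐ B' I).toLinearMap with hπ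
  set N : Submodule B' (B ⧸ I) := Submodule.map π (Subalgebra.toSubmodule A) with hN
  have hNfg : N.FG := hAfg.map π
  have hle : N ≤ n' • N := by
    rintro _ ⟨a, ha, rfl⟩
    have ha' : a ∈ A := ha
    have e1 : a = s * (a * t₀) + c.sum fun b r => r • (b * a) := by
      have : c.sum (fun b r => r • (b * a)) = x * a := by
        rw [← hcx, Finsupp.sum, Finsupp.sum, Finset.sum_mul]
        refine Finset.sum_congr rfl fun b _ => ?_
        simp only [id, Algebra.smul_def]
        ring
      rw [this]
      calc a = a * 1 := (mul_one a).symm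
        _ = a * (t₀ * s + x) := by rw [hsum]
        _ = s * (a * t₀) + x * a := by ring
    have e2 : π a = c.sum fun b r => r • π (b * a) := by
      conv_lhs => rw [e1]
      rw [map_add, map_finsuppSum]
      have : π (s * (a * t₀)) = 0 := by
        show (Ideal.Quotient.mk I) (s * (a * t₀)) = 0
        rw [Ideal.Quotient.eq_zero_iff_mem]
        exact Ideal.mul_mem_right _ _ (Ideal.subset_span rfl)
      rw [this, zero_add]
      refine Finsupp.sum_congr fun b _ => ?_
      rw [map_smul]
    rw [e2]
    refine Submodule.sum_mem _ fun b hb => ?_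
    refine Submodule.smul_mem_smul (hc b) ?_
    exact ⟨b * a, A.mul_mem (hbA b hb) ha', rfl⟩
  obtain ⟨r, hr1, hr0⟩ :=
    Submodule.exists_sub_one_mem_and_smul_eq_zero_of_fg_of_le_smul n' N hNfg hle
  have h1N : π 1 ∈ N := ⟨1, A.one_mem, rfl⟩
  have h0 := hr0 _ h1N
  have hrs : φ r ∈ I := by
    rw [← map_smul, Algebra.smul_def, mul_one] at h0
    have : (Ideal.Quotient.mk I) (algebraMap B' B r) = 0 := h0
    rw [Ideal.Quotient.eq_zero_iff_mem] at this
    exact this
  obtain ⟨t, ht⟩ := Ideal.mem_span_singleton'.1 hrs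
  refine ⟨t, r, fun hrn => ?_, by rw [← ht, mul_comm]⟩
  have : (1 : B') ∈ n' := by
    have := n'.sub_mem hrn hr1
    simpa using this
  exact hn'.ne_top ((Ideal.eq_top_iff_one _).2 this)

end Key

section Norm

variable {B' B F1 F2 : Type*} [CommRing B'] [IsDomain B'] [CommRing B] [IsDomain B]
  [Field F1] [Field F2] [Algebra B' F1] [IsFractionRing B' F1] [Algebra B F2] [IsFractionRing B F2]
  [IsIntegrallyClosed B'] [Algebra F1 F2]

/-- The norm of (the image in `F2` of) an element of `B` integral over `B'` lies in `B'`. -/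
theorem exists_eq_norm_of_isIntegral (φ : B' →+* B)
    (hφ : ∀ b' : B', algebraMap B F2 (φ b') = algebraMap F1 F2 (algebraMap B' F1 b'))
    {b : B} (hb : φ.IsIntegralElem b) :
    ∃ c : B', algebraMap B' F1 c = Algebra.norm F1 (algebraMap B F2 b) := by
  let _ : Algebra B' F2 := ((algebraMap F1 F2).comp (algebraMap B' F1)).toAlgebra
  haveI : IsScalarTower B' F1 F2 := IsScalarTower.of_algebraMap_eq fun _ => rfl
  have h1 : IsIntegral B' (algebraMap B F2 b) := by
    obtain ⟨p, hp, hpb⟩ := hb
    refine ⟨p, hp, ?_⟩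
    have h2 := congrArg (algebraMap B F2) hpb
    rw [map_zero, Polynomial.hom_eval₂] at h2
    have h3 : (algebraMap B F2).comp φ = algebraMap B' F2 := by
      ext b'
      exact hφ b'
    rw [h3] at h2
    exact h2
  exact IsIntegrallyClosed.isIntegral_iff.1 (Algebra.isIntegral_norm F1 h1)

variable [FiniteDimensional F1 F2]

/-- **`s ∉ n ⟹ N s ∉ n'`** when `n` is the only maximal ideal over `n'`. -/
theorem norm_not_mem_of_unique (φ : B' →+* B)
    (hφ : ∀ b' : B', algebraMap B F2 (φ b') = algebraMap F1 F2 (algebraMap B' F1 b'))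
    (hint : ∀ b : B, φ.IsIntegralElem b)
    (n' : Ideal B') [hn' : n'.IsMaximal] (n : Ideal B)
    (huniq : ∀ P : Ideal B, P.IsMaximal → P.comap φ = n' → P = n)
    {s : B} (hs : s ∉ n) {c : B'}
    (hc : algebraMap B' F1 c = Algebra.norm F1 (algebraMap B F2 s)) : c ∉ n' := by
  obtain ⟨t, r, hr, hst⟩ := exists_mul_eq_map_of_unique φ hint n' n huniq hs
  obtain ⟨ct, hct⟩ := exists_eq_norm_of_isIntegral (F1 := F1) (F2 := F2) φ hφ (hint t)
  have hprod : c * ct = r ^ Module.finrank F1 F2 := by
    apply IsFractionRing.injective B' F1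
    rw [map_mul, hc, hct, ← map_mul, ← map_mul, hst, hφ, Algebra.norm_algebraMap, map_pow]
  intro hcn
  have : r ^ Module.finrank F1 F2 ∈ n' := by
    rw [← hprod]
    exact n'.mul_mem_right _ hcn
  exact hr (hn'.isPrime.mem_of_pow_mem _ this)

/-- **Norms of units at the unique point above are units below** (`H56.IsUnitAt` form). -/
theorem isUnitAt_norm_of_unique (φ : B' →+* B)
    (hφ : ∀ b' : B', algebraMap B F2 (φ b') = algebraMap F1 F2 (algebraMap B' F1 b'))
    (hint : ∀ b : B, φ.IsIntegralElem b)
    (n' : Ideal B') [hn' : n'.IsMaximal] (n : Ideal B)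
    (huniq : ∀ P : Ideal B, P.IsMaximal → P.comap φ = n' → P = n)
    {e : F2} (he : H56.IsUnitAt n e) : H56.IsUnitAt n' (Algebra.norm F1 e) := by
  obtain ⟨a, b, ha, hb, hab⟩ := he
  obtain ⟨ca, hca⟩ := exists_eq_norm_of_isIntegral (F1 := F1) (F2 := F2) φ hφ (hint a)
  obtain ⟨cb, hcb⟩ := exists_eq_norm_of_isIntegral (F1 := F1) (F2 := F2) φ hφ (hint b)
  refine ⟨ca, cb, norm_not_mem_of_unique φ hφ hint n' n huniq ha hca,
    norm_not_mem_of_unique φ hφ hint n' n huniq hb hcb, ?_⟩
  rw [hca, hcb, ← map_mul, hab]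

/-- **Norms of units at the unique point above are units below**, in the vocabulary of
`S36.H85.TowerLoc.hNunit`: `UnitIn (locSubring n) e → UnitIn (locSubring n') (N e)`. -/
theorem unitIn_norm_locSubring (φ : B' →+* B)
    (hφ : ∀ b' : B', algebraMap B F2 (φ b') = algebraMap F1 F2 (algebraMap B' F1 b'))
    (hint : ∀ b : B, φ.IsIntegralElem b)
    (n' : Ideal B') [hn' : n'.IsMaximal] (n : Ideal B) [n.IsPrime]
    (huniq : ∀ P : Ideal B, P.IsMaximal → P.comap φ = n' → P = n)
    {e : F2} (he : H47.UnitIn (H21.locSubring (F := F2) n) e) :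
    H47.UnitIn (H21.locSubring (F := F1) n') (Algebra.norm F1 e) := by
  rw [H21.unitIn_locSubring_iff] at he ⊢
  exact isUnitAt_norm_of_unique φ hφ hint n' n huniq he

end Norm

section RingHomForm

variable {B' B F1 F2 : Type*} [CommRing B'] [IsDomain B'] [CommRing B] [IsDomain B]
  [Field F1] [Field F2] [Algebra B' F1] [IsFractionRing B' F1] [Algebra B F2] [IsFractionRing B F2]
  [IsIntegrallyClosed B']

/-- The same for a ring homomorphism `a : F1 →+* F2` (no `Algebra F1 F2` instance in scope) and
any `Na : F2 →*₀ F1` which agrees with the norm of `a.toAlgebra`: verbatim the field `hNunit` of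
`S36.H85.TowerLoc` / the argument `hNunit` of `S36.H85.towerLoc_of_restrict`, with
`O := H21.locSubring n`, `O' := H21.locSubring n'`. -/
theorem unitIn_norm_locSubring_ringHom (a : F1 →+* F2) (Na : F2 →*₀ F1)
    (hfd : letI := a.toAlgebra; FiniteDimensional F1 F2)
    (hNa : ∀ x : F2, Na x = (letI := a.toAlgebra; Algebra.norm F1 x))
    (φ : B' →+* B) (hφ : ∀ b' : B', algebraMap B F2 (φ b') = a (algebraMap B' F1 b'))
    (hint : ∀ b : B, φ.IsIntegralElem b)
    (n' : Ideal B') [hn' : n'.IsMaximal] (n : Ideal B) [n.IsPrime]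
    (huniq : ∀ P : Ideal B, P.IsMaximal → P.comap φ = n' → P = n) :
    ∀ e : F2, H47.UnitIn (H21.locSubring (F := F2) n) e →
      H47.UnitIn (H21.locSubring (F := F1) n') (Na e) := by
  intro e he
  letI : Algebra F1 F2 := a.toAlgebra
  haveI : FiniteDimensional F1 F2 := hfd
  rw [hNa e]
  exact unitIn_norm_locSubring φ hφ hint n' n huniq he

end RingHomForm

end Fermat.Agent.S36.H47
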