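/-
helper71: S36, seam (E2) → (E6), item (4a) of helper47's review: **there is exactly one closed
point of the level `q² L` chart above a node of the level `q L` chart**.

Setting (the `α` case; the `β` case is the same lemma with the roles of the components `1` and
`3` and of `1'` and `2'` exchanged): `φ : B' → B` the chart-level degeneracy map,
`red₁ red₂ red₃ : B → D` the three reductions of level `q² L`, `red₁' red₂' : B' → D` the two
reductions of level `q L`, compatible as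

  `red₁ ∘ φ = red₁'`, `red₂ ∘ φ = red₁'`, `red₃ ∘ φ = W ∘ red₂'`

(`W` the relative Frobenius of the special fibre ring `D`).  `n'` is a closed point of `B'` lying
on the second component, at which that component is cut out by ONE equation `y'`
(thickness one / regularity of the level `q L` model at the node), `y'` not vanishing on the
first component.  Then any two maximal ideals of `B` above `n'` are equal.

The proof uses neither going-down nor normality of `B'`: Krull's principal ideal theorem in the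
noetherian domain `B` gives a height one prime `Q ⊆ n` containing `φ y'`; it contains `q`, hence
is one of the three vertical primes, and it cannot be the first or the second one.  So every
point above `n'` lies on the third component, where it is determined by its image in `D`; and
`D^q ⊆ W(D)` shows that this image is determined by `n'`.
-/
import Mathlib

set_option autoImplicit false

namespace Fermat.Agent.S36.H71

section Height

variable {B : Type*} [CommRing B] [IsDomain B] [IsNoetherianRing B]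

/-- A non-zero prime contained in a prime of height at most one is equal to it. -/
theorem eq_of_le_of_height_le_one {P Q : Ideal B} [P.IsPrime] [Q.IsPrime] (hP : P ≠ ⊥)
    (hPQ : P ≤ Q) (hQ : Q.height ≤ 1) : P = Q := by
  by_contra hne
  have hlt : P < Q := lt_of_le_of_ne hPQ hne
  have h1 : P.height < Q.height := Ideal.height_strict_mono_of_isPrime_of_isPrime hlt
  have h2 : P.height = 0 := by
    have h3 : P.height < 1 := lt_of_lt_of_le h1 hQ
    exact Order.lt_one_iff.1 h3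
  exact hP (Ideal.height_eq_zero_iff_eq_bot.1 h2)

end Height

section Unique

variable {B' B D : Type*} [CommRing B'] [CommRing B] [IsDomain B] [IsNoetherianRing B]
  [CommRing D] [IsDomain D]

/-- **Every closed point above the node lies on the third component.** -/
theorem ker_le_of_comap_eq (φ : B' →+* B) (red₁ red₂ red₃ : B →+* D) (red₁' red₂' : B' →+* D)
    (qB : B) (qB' : B') (hqφ : φ qB' = qB)
    (h3 : ∀ P : Ideal B, P.IsPrime → qB ∈ P →
      RingHom.ker red₁ ≤ P ∨ RingHom.ker red₂ ≤ P ∨ RingHom.ker red₃ ≤ P)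
    (hk1 : RingHom.ker red₁ ≠ ⊥) (hk2 : RingHom.ker red₂ ≠ ⊥)
    (c1 : ∀ b, red₁ (φ b) = red₁' b) (c2 : ∀ b, red₂ (φ b) = red₁' b)
    (n' : Ideal B') (hker' : RingHom.ker red₂' ≤ n') (hq' : red₂' qB' = 0)
    (y' : B') (hy1 : red₁' y' ≠ 0) (hy2 : red₂' y' = 0)
    (hy' : ∀ z, red₂' z = 0 → ∃ t, t ∉ n' ∧ t * z ∈ Ideal.span {y'})
    (n : Ideal B) (hn : n.IsMaximal) (hnn' : n.comap φ = n') :
    RingHom.ker red₃ ≤ n := by
  have hnp : n.IsPrime := hn.isPrime
  have hy'n : φ y' ∈ n := by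
    have : y' ∈ n.comap φ := by
      rw [hnn']
      exact hker' ((RingHom.mem_ker).2 hy2)
    exact this
  have hle : Ideal.span {φ y'} ≤ n := (Ideal.span_singleton_le_iff_mem n).2 hy'n
  obtain ⟨Q, hQmin, hQn⟩ := Ideal.exists_minimalPrimes_le hle
  have hQp : Q.IsPrime := hQmin.1.1
  have hyQ : φ y' ∈ Q := hQmin.1.2 (Ideal.subset_span rfl)
  have : (Ideal.span {φ y'}).IsPrincipal := ⟨⟨φ y', rfl⟩⟩
  have hQh : Q.height ≤ 1 :=
    Ideal.height_le_one_of_isPrincipal_of_mem_minimalPrimes (Ideal.span {φ y'}) Q hQmin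
  -- `q ∈ Q`
  have hqQ : qB ∈ Q := by
    obtain ⟨t, htn', ht⟩ := hy' qB' hq'
    obtain ⟨a, ha⟩ := Ideal.mem_span_singleton'.1 ht
    have h1 : φ t * qB = φ a * φ y' := by
      rw [← hqφ, ← map_mul, ← map_mul, ha]
    have h2 : φ t * qB ∈ Q := by
      rw [h1]
      exact Ideal.mul_mem_left _ _ hyQ
    rcases hQp.mem_or_mem h2 with h | h
    · exfalso
      apply htn'
      rw [← hnn']
      exact hQn h
    · exact h
  rcases h3 Q hQp hqQ with h | h | h
  · exfalso
    have : (RingHom.ker red₁).IsPrime := RingHom.ker_isPrime red₁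
    have hEq : RingHom.ker red₁ = Q := eq_of_le_of_height_le_one hk1 h hQh
    have : φ y' ∈ RingHom.ker red₁ := by rw [hEq]; exact hyQ
    rw [RingHom.mem_ker, c1] at this
    exact hy1 this
  · exfalso
    have : (RingHom.ker red₂).IsPrime := RingHom.ker_isPrime red₂
    have hEq : RingHom.ker red₂ = Q := eq_of_le_of_height_le_one hk2 h hQh
    have : φ y' ∈ RingHom.ker red₂ := by rw [hEq]; exact hyQ
    rw [RingHom.mem_ker, c2] at this
    exact hy1 this
  · exact h.trans hQn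

omit [IsDomain B] [IsNoetherianRing B] [IsDomain D] in
/-- A prime ideal above `n'` containing `ker red₃` is described by `n'` alone:
`z ∈ n ↔ ∃ b' ∈ n', red₃ z ^ q = W (red₂' b')`. -/
theorem mem_iff_of_ker_le (φ : B' →+* B) (red₃ : B →+* D) (red₂' : B' →+* D) (W : D →+* D)
    (q : ℕ) (hq : 0 < q) (c3 : ∀ b, red₃ (φ b) = W (red₂' b))
    (hred₂' : Function.Surjective red₂') (hW : ∀ r : D, ∃ r₂ : D, W r₂ = r ^ q)
    (n' : Ideal B') (n : Ideal B) (hn : n.IsPrime) (hnn' : n.comap φ = n')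
    (hk : RingHom.ker red₃ ≤ n) (z : B) :
    z ∈ n ↔ ∃ b' ∈ n', red₃ z ^ q = W (red₂' b') := by
  constructor
  · intro hz
    obtain ⟨r₂, hr₂⟩ := hW (red₃ z)
    obtain ⟨b', rfl⟩ := hred₂' r₂
    refine ⟨b', ?_, hr₂.symm⟩
    rw [← hnn']
    show φ b' ∈ n
    have h1 : φ b' - z ^ q ∈ RingHom.ker red₃ := by
      rw [RingHom.mem_ker, map_sub, c3, hr₂, map_pow, sub_self]
    have h2 : φ b' = (φ b' - z ^ q) + z ^ q := by ring
    rw [h2]
    exact add_mem (hk h1) (Ideal.pow_mem_of_mem n hz q hq)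
  · rintro ⟨b', hb', hb⟩
    have hb'n : φ b' ∈ n := by
      have : b' ∈ n.comap φ := by rw [hnn']; exact hb'
      exact this
    have h1 : z ^ q - φ b' ∈ RingHom.ker red₃ := by
      rw [RingHom.mem_ker, map_sub, c3, map_pow, hb, sub_self]
    have h2 : z ^ q = (z ^ q - φ b') + φ b' := by ring
    have h3 : z ^ q ∈ n := by
      rw [h2]
      exact add_mem (hk h1) hb'n
    exact hn.mem_of_pow_mem q h3

/-- **Uniqueness of the closed point above a node** (`α` case: the component of `B` lying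
purely inseparably over the second component of `B'` is the third one). -/
theorem eq_of_comap_eq (φ : B' →+* B) (red₁ red₂ red₃ : B →+* D) (red₁' red₂' : B' →+* D)
    (W : D →+* D) (q : ℕ) (hq : 0 < q) (qB : B) (qB' : B') (hqφ : φ qB' = qB)
    (h3 : ∀ P : Ideal B, P.IsPrime → qB ∈ P →
      RingHom.ker red₁ ≤ P ∨ RingHom.ker red₂ ≤ P ∨ RingHom.ker red₃ ≤ P)
    (hk1 : RingHom.ker red₁ ≠ ⊥) (hk2 : RingHom.ker red₂ ≠ ⊥)
    (c1 : ∀ b, red₁ (φ b) = red₁' b) (c2 : ∀ b, red₂ (φ b) = red₁' b)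
    (c3 : ∀ b, red₃ (φ b) = W (red₂' b))
    (hred₂' : Function.Surjective red₂') (hW : ∀ r : D, ∃ r₂ : D, W r₂ = r ^ q)
    (n' : Ideal B') (hker' : RingHom.ker red₂' ≤ n') (hq' : red₂' qB' = 0)
    (y' : B') (hy1 : red₁' y' ≠ 0) (hy2 : red₂' y' = 0)
    (hy' : ∀ z, red₂' z = 0 → ∃ t, t ∉ n' ∧ t * z ∈ Ideal.span {y'})
    (n₁ n₂ : Ideal B) (hn₁ : n₁.IsMaximal) (hn₂ : n₂.IsMaximal)
    (h₁ : n₁.comap φ = n') (h₂ : n₂.comap φ = n') : n₁ = n₂ := by
  have hk₁ := ker_le_of_comap_eq φ red₁ red₂ red₃ red₁' red₂' qB qB' hqφ h3 hk1 hk2 c1 c2 n' hker'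
    hq' y' hy1 hy2 hy' n₁ hn₁ h₁
  have hk₂ := ker_le_of_comap_eq φ red₁ red₂ red₃ red₁' red₂' qB qB' hqφ h3 hk1 hk2 c1 c2 n' hker'
    hq' y' hy1 hy2 hy' n₂ hn₂ h₂
  ext z
  rw [mem_iff_of_ker_le φ red₃ red₂' W q hq c3 hred₂' hW n' n₁ hn₁.isPrime h₁ hk₁ z,
    mem_iff_of_ker_le φ red₃ red₂' W q hq c3 hred₂' hW n' n₂ hn₂.isPrime h₂ hk₂ z]


omit [IsDomain B] [IsNoetherianRing B] in
/-- The hypothesis `red₁' y' ≠ 0` of `eq_of_comap_eq` from: the two vertical primes of `B'` are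
different (`s` vanishes on the second component, not on the first) and `n'` is a node. -/
theorem red_ne_zero_of_localGen (red₁' red₂' : B' →+* D) (n' : Ideal B')
    (hker₁' : RingHom.ker red₁' ≤ n') (y' : B')
    (hy' : ∀ z, red₂' z = 0 → ∃ t, t ∉ n' ∧ t * z ∈ Ideal.span {y'})
    (s : B') (hs2 : red₂' s = 0) (hs1 : red₁' s ≠ 0) : red₁' y' ≠ 0 := by
  intro h0
  obtain ⟨t, htn', ht⟩ := hy' s hs2
  obtain ⟨a, ha⟩ := Ideal.mem_span_singleton'.1 ht
  have h1 : red₁' t * red₁' s = 0 := by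
    rw [← map_mul, ← ha, map_mul, h0, mul_zero]
  rcases mul_eq_zero.1 h1 with h | h
  · exact htn' (hker₁' ((RingHom.mem_ker).2 h))
  · exact hs1 h

/-- **Uniqueness of the closed point above a node**, `β` case (`red₁ ∘ φ = W ∘ red₁'`,
`red₂ ∘ φ = red₂'`, `red₃ ∘ φ = red₂'`): the same lemma with the components `1 ↔ 3` and
`1' ↔ 2'` exchanged; `x'` a local equation at `n'` of the FIRST vertical prime of `B'`. -/
theorem eq_of_comap_eq_beta (φ : B' →+* B) (red₁ red₂ red₃ : B →+* D) (red₁' red₂' : B' →+* D)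
    (W : D →+* D) (q : ℕ) (hq : 0 < q) (qB : B) (qB' : B') (hqφ : φ qB' = qB)
    (h3 : ∀ P : Ideal B, P.IsPrime → qB ∈ P →
      RingHom.ker red₁ ≤ P ∨ RingHom.ker red₂ ≤ P ∨ RingHom.ker red₃ ≤ P)
    (hk2 : RingHom.ker red₂ ≠ ⊥) (hk3 : RingHom.ker red₃ ≠ ⊥)
    (c1 : ∀ b, red₁ (φ b) = W (red₁' b)) (c2 : ∀ b, red₂ (φ b) = red₂' b)
    (c3 : ∀ b, red₃ (φ b) = red₂' b)
    (hred₁' : Function.Surjective red₁') (hW : ∀ r : D, ∃ r₂ : D, W r₂ = r ^ q)
    (n' : Ideal B') (hker' : RingHom.ker red₁' ≤ n') (hq' : red₁' qB' = 0)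
    (x' : B') (hx2 : red₂' x' ≠ 0) (hx1 : red₁' x' = 0)
    (hx' : ∀ z, red₁' z = 0 → ∃ t, t ∉ n' ∧ t * z ∈ Ideal.span {x'})
    (n₁ n₂ : Ideal B) (hn₁ : n₁.IsMaximal) (hn₂ : n₂.IsMaximal)
    (h₁ : n₁.comap φ = n') (h₂ : n₂.comap φ = n') : n₁ = n₂ :=
  eq_of_comap_eq φ red₃ red₂ red₁ red₂' red₁' W q hq qB qB' hqφ
    (fun P hP hqP => by
      rcases h3 P hP hqP with h | h | h
      · exact Or.inr (Or.inr h)
      · exact Or.inr (Or.inl h)
      · exact Or.inl h)
    hk3 hk2 c3 c2 c1 hred₁' hW n' hker' hq' x' hx2 hx1 hx' n₁ n₂ hn₁ hn₂ h₁ h₂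

omit [IsDomain B] [IsNoetherianRing B] [IsDomain D] in
/-- `ker red ≠ ⊥` from `red qB = 0`, `qB ≠ 0`. -/
theorem ker_ne_bot_of_map_eq_zero (red : B →+* D) {qB : B} (hq0 : qB ≠ 0) (hq : red qB = 0) :
    RingHom.ker red ≠ ⊥ := by
  intro h
  have : qB ∈ RingHom.ker red := (RingHom.mem_ker).2 hq
  rw [h, Ideal.mem_bot] at this
  exact hq0 this

end Unique

end Fermat.Agent.S36.H71
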