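/-
helper71: S36, seam (E2) → (E6), item (4a): **uniqueness of the closed point of the level `q² L`
chart above a node of the level `q L` chart, WITHOUT any input from (M2)** (no thickness-one /
principality hypothesis at the node).

Same setting as `S36.H71.eq_of_comap_eq`, but the step `ker red₃ ≤ n` is obtained from the
GOING-DOWN theorem (Mathlib, Stacks 00H8: `B'` an integrally closed domain, `B` a domain integral
over `φ(B')`) instead of Krull's principal ideal theorem: there is a prime `Q ⊆ n` of `B` lying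
over the second vertical prime `ker red₂'` of `B'`; it contains `q`, hence one of the three
vertical primes of `B`; the first two lie over `ker red₁' ⊄ ker red₂'`, so `Q ⊇ ker red₃`.

Since `S36.H47.unitIn_norm_locSubring_ringHom` (`TowerLoc.hNunit`) needs `[IsIntegrallyClosed B']`
and the integrality of `B` over `φ(B')` anyway, `hNunit_alpha_gd` / `hNunit_beta_gd` have strictly
fewer hypotheses than `hNunit_alpha` / `hNunit_beta`: the local equation `y'` of the vertical prime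
at the node is replaced by ANY `s` vanishing on one component of level `q L` and not on the other
(`S35.H84.exists_red₁_eq_zero_red₂_ne_zero` / `exists_red₂_eq_zero_red₁_ne_zero`).
-/
import Mathlib
import Fermat.Agent.S36.H47_NormUnit
import Fermat.Agent.S36.H71_UniqueAbove

set_option autoImplicit false
set_option linter.unusedSectionVars false
set_option linter.style.haveILetI false

namespace Fermat.Agent.S36.H71

open Fermat.Agent.S34

section GoingDown

variable {B' B D : Type*} [CommRing B'] [IsDomain B'] [IsIntegrallyClosed B'] [CommRing B]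
  [IsDomain B] [CommRing D] [IsDomain D]

/-- **Every closed point above a point of the second component lies on the third component**
(going-down form). -/
theorem ker_le_of_comap_eq_gd (φ : B' →+* B) (hφ : Function.Injective φ)
    (hint : ∀ b : B, φ.IsIntegralElem b)
    (red₁ red₂ red₃ : B →+* D) (red₁' red₂' : B' →+* D)
    (qB : B) (qB' : B') (hqφ : φ qB' = qB)
    (h3 : ∀ P : Ideal B, P.IsPrime → qB ∈ P →
      RingHom.ker red₁ ≤ P ∨ RingHom.ker red₂ ≤ P ∨ RingHom.ker red₃ ≤ P)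
    (c1 : ∀ b, red₁ (φ b) = red₁' b) (c2 : ∀ b, red₂ (φ b) = red₁' b)
    (n' : Ideal B') (hker' : RingHom.ker red₂' ≤ n') (hq' : red₂' qB' = 0)
    (s : B') (hs1 : red₁' s = 0) (hs2 : red₂' s ≠ 0)
    (n : Ideal B) (hn : n.IsPrime) (hnn' : n.comap φ = n') :
    RingHom.ker red₃ ≤ n := by
  letI : Algebra B' B := φ.toAlgebra
  haveI : FaithfulSMul B' B := (faithfulSMul_iff_algebraMap_injective B' B).2 hφ
  haveI : Algebra.IsIntegral B' B := ⟨fun b => hint b⟩
  haveI hp : (RingHom.ker red₂').IsPrime := RingHom.ker_isPrime red₂'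
  haveI hn'p : n'.IsPrime := by
    rw [← hnn']
    exact Ideal.comap_isPrime φ n
  haveI : n.LiesOver n' := ⟨hnn'.symm⟩
  obtain ⟨Q, hQn, hQp, hQlo⟩ :=
    Ideal.exists_ideal_le_liesOver_of_le (p := RingHom.ker red₂') (q := n') n hker'
  have hQc : ∀ b' : B', φ b' ∈ Q ↔ red₂' b' = 0 := by
    intro b'
    have h1 : RingHom.ker red₂' = Q.comap φ := hQlo.over
    have h2 : b' ∈ RingHom.ker red₂' ↔ b' ∈ Q.comap φ := by rw [← h1]
    rw [RingHom.mem_ker, Ideal.mem_comap] at h2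
    exact h2.symm
  have hqQ : qB ∈ Q := by
    rw [← hqφ]
    exact (hQc qB').2 hq'
  rcases h3 Q hQp hqQ with h | h | h
  · exfalso
    have : φ s ∈ RingHom.ker red₁ := by rw [RingHom.mem_ker, c1, hs1]
    exact hs2 ((hQc s).1 (h this))
  · exfalso
    have : φ s ∈ RingHom.ker red₂ := by rw [RingHom.mem_ker, c2, hs1]
    exact hs2 ((hQc s).1 (h this))
  · exact h.trans hQn

/-- **Uniqueness of the closed point above a point of the second component**, `α` tower,
going-down form: no hypothesis from (M2). -/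
theorem eq_of_comap_eq_gd (φ : B' →+* B) (hφ : Function.Injective φ)
    (hint : ∀ b : B, φ.IsIntegralElem b)
    (red₁ red₂ red₃ : B →+* D) (red₁' red₂' : B' →+* D)
    (W : D →+* D) (q : ℕ) (hq : 0 < q) (qB : B) (qB' : B') (hqφ : φ qB' = qB)
    (h3 : ∀ P : Ideal B, P.IsPrime → qB ∈ P →
      RingHom.ker red₁ ≤ P ∨ RingHom.ker red₂ ≤ P ∨ RingHom.ker red₃ ≤ P)
    (c1 : ∀ b, red₁ (φ b) = red₁' b) (c2 : ∀ b, red₂ (φ b) = red₁' b)
    (c3 : ∀ b, red₃ (φ b) = W (red₂' b))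
    (hred₂' : Function.Surjective red₂') (hW : ∀ r : D, ∃ r₂ : D, W r₂ = r ^ q)
    (n' : Ideal B') (hker' : RingHom.ker red₂' ≤ n') (hq' : red₂' qB' = 0)
    (s : B') (hs1 : red₁' s = 0) (hs2 : red₂' s ≠ 0)
    (n₁ n₂ : Ideal B) (hn₁ : n₁.IsPrime) (hn₂ : n₂.IsPrime)
    (h₁ : n₁.comap φ = n') (h₂ : n₂.comap φ = n') : n₁ = n₂ := by
  have hk₁ := ker_le_of_comap_eq_gd φ hφ hint red₁ red₂ red₃ red₁' red₂' qB qB' hqφ h3 c1 c2 n'
    hker' hq' s hs1 hs2 n₁ hn₁ h₁
  have hk₂ := ker_le_of_comap_eq_gd φ hφ hint red₁ red₂ red₃ red₁' red₂' qB qB' hqφ h3 c1 c2 n'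
    hker' hq' s hs1 hs2 n₂ hn₂ h₂
  ext z
  rw [mem_iff_of_ker_le φ red₃ red₂' W q hq c3 hred₂' hW n' n₁ hn₁ h₁ hk₁ z,
    mem_iff_of_ker_le φ red₃ red₂' W q hq c3 hred₂' hW n' n₂ hn₂ h₂ hk₂ z]

/-- `β` tower (`red₁ ∘ φ = W ∘ red₁'`, `red₂ ∘ φ = red₂'`, `red₃ ∘ φ = red₂'`), going-down
form. -/
theorem eq_of_comap_eq_beta_gd (φ : B' →+* B) (hφ : Function.Injective φ)
    (hint : ∀ b : B, φ.IsIntegralElem b)
    (red₁ red₂ red₃ : B →+* D) (red₁' red₂' : B' →+* D)
    (W : D →+* D) (q : ℕ) (hq : 0 < q) (qB : B) (qB' : B') (hqφ : φ qB' = qB)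
    (h3 : ∀ P : Ideal B, P.IsPrime → qB ∈ P →
      RingHom.ker red₁ ≤ P ∨ RingHom.ker red₂ ≤ P ∨ RingHom.ker red₃ ≤ P)
    (c1 : ∀ b, red₁ (φ b) = W (red₁' b)) (c2 : ∀ b, red₂ (φ b) = red₂' b)
    (c3 : ∀ b, red₃ (φ b) = red₂' b)
    (hred₁' : Function.Surjective red₁') (hW : ∀ r : D, ∃ r₂ : D, W r₂ = r ^ q)
    (n' : Ideal B') (hker' : RingHom.ker red₁' ≤ n') (hq' : red₁' qB' = 0)
    (s : B') (hs2 : red₂' s = 0) (hs1 : red₁' s ≠ 0)
    (n₁ n₂ : Ideal B) (hn₁ : n₁.IsPrime) (hn₂ : n₂.IsPrime)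
    (h₁ : n₁.comap φ = n') (h₂ : n₂.comap φ = n') : n₁ = n₂ :=
  eq_of_comap_eq_gd φ hφ hint red₃ red₂ red₁ red₂' red₁' W q hq qB qB' hqφ
    (fun P hP hqP => by
      rcases h3 P hP hqP with h | h | h
      · exact Or.inr (Or.inr h)
      · exact Or.inr (Or.inl h)
      · exact Or.inl h)
    c3 c2 c1 hred₁' hW n' hker' hq' s hs2 hs1 n₁ n₂ hn₁ hn₂ h₁ h₂

end GoingDown

section NormUnit

variable {B' B F1 F2 D : Type*} [CommRing B'] [IsDomain B'] [CommRing B] [IsDomain B]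
  [Field F1] [Field F2] [Algebra B' F1] [IsFractionRing B' F1]
  [Algebra B F2] [IsFractionRing B F2] [IsIntegrallyClosed B'] [CommRing D] [IsDomain D]

omit [IsDomain B'] [IsDomain B] [IsIntegrallyClosed B'] in
/-- the chart map is injective, being the restriction of a field homomorphism. -/
theorem injective_of_field_compat (a : F1 →+* F2) (φ : B' →+* B)
    (hφ : ∀ b' : B', algebraMap B F2 (φ b') = a (algebraMap B' F1 b')) :
    Function.Injective φ := by
  intro x y hxy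
  have h1 : a (algebraMap B' F1 x) = a (algebraMap B' F1 y) := by rw [← hφ, ← hφ, hxy]
  exact IsFractionRing.injective B' F1 (a.injective h1)

/-- **`TowerLoc.hNunit`, `α` tower, in one call and with NO input from (M2).** -/
theorem hNunit_alpha_gd (a : F1 →+* F2) (Na : F2 →*₀ F1)
    (hfd : letI := a.toAlgebra; FiniteDimensional F1 F2)
    (hNa : ∀ x : F2, Na x = (letI := a.toAlgebra; Algebra.norm F1 x))
    (φ : B' →+* B) (hφ : ∀ b' : B', algebraMap B F2 (φ b') = a (algebraMap B' F1 b'))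
    (hint : ∀ b : B, φ.IsIntegralElem b)
    (red₁ red₂ red₃ : B →+* D) (red₁' red₂' : B' →+* D)
    (W : D →+* D) (q : ℕ) (hq : 0 < q) (qB : B) (qB' : B') (hqφ : φ qB' = qB)
    (h3 : ∀ P : Ideal B, P.IsPrime → qB ∈ P →
      RingHom.ker red₁ ≤ P ∨ RingHom.ker red₂ ≤ P ∨ RingHom.ker red₃ ≤ P)
    (c1 : ∀ b, red₁ (φ b) = red₁' b) (c2 : ∀ b, red₂ (φ b) = red₁' b)
    (c3 : ∀ b, red₃ (φ b) = W (red₂' b))
    (hred₂' : Function.Surjective red₂') (hW : ∀ r : D, ∃ r₂ : D, W r₂ = r ^ q)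
    (n : Ideal B) [hn : n.IsPrime] (n' : Ideal B') [hn' : n'.IsMaximal]
    (hnn' : n.comap φ = n') (hker' : RingHom.ker red₂' ≤ n')
    (hq' : red₂' qB' = 0) (s : B') (hs1 : red₁' s = 0) (hs2 : red₂' s ≠ 0) :
    ∀ e : F2, H47.UnitIn (H21.locSubring (F := F2) n) e →
      H47.UnitIn (H21.locSubring (F := F1) n') (Na e) :=
  S36.H47.unitIn_norm_locSubring_ringHom a Na hfd hNa φ hφ hint n' n
    (fun P hP hPn => eq_of_comap_eq_gd φ (injective_of_field_compat a φ hφ) hint red₁ red₂ red₃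
      red₁' red₂' W q hq qB qB' hqφ h3 c1 c2 c3 hred₂' hW n' hker' hq' s hs1 hs2 P n hP.isPrime hn
      hPn hnn')

/-- **`TowerLoc.hNunit`, `β` tower, in one call and with NO input from (M2).** -/
theorem hNunit_beta_gd (a : F1 →+* F2) (Na : F2 →*₀ F1)
    (hfd : letI := a.toAlgebra; FiniteDimensional F1 F2)
    (hNa : ∀ x : F2, Na x = (letI := a.toAlgebra; Algebra.norm F1 x))
    (φ : B' →+* B) (hφ : ∀ b' : B', algebraMap B F2 (φ b') = a (algebraMap B' F1 b'))
    (hint : ∀ b : B, φ.IsIntegralElem b)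
    (red₁ red₂ red₃ : B →+* D) (red₁' red₂' : B' →+* D)
    (W : D →+* D) (q : ℕ) (hq : 0 < q) (qB : B) (qB' : B') (hqφ : φ qB' = qB)
    (h3 : ∀ P : Ideal B, P.IsPrime → qB ∈ P →
      RingHom.ker red₁ ≤ P ∨ RingHom.ker red₂ ≤ P ∨ RingHom.ker red₃ ≤ P)
    (c1 : ∀ b, red₁ (φ b) = W (red₁' b)) (c2 : ∀ b, red₂ (φ b) = red₂' b)
    (c3 : ∀ b, red₃ (φ b) = red₂' b)
    (hred₁' : Function.Surjective red₁') (hW : ∀ r : D, ∃ r₂ : D, W r₂ = r ^ q)
    (n : Ideal B) [hn : n.IsPrime] (n' : Ideal B') [hn' : n'.IsMaximal]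
    (hnn' : n.comap φ = n') (hker' : RingHom.ker red₁' ≤ n')
    (hq' : red₁' qB' = 0) (s : B') (hs2 : red₂' s = 0) (hs1 : red₁' s ≠ 0) :
    ∀ e : F2, H47.UnitIn (H21.locSubring (F := F2) n) e →
      H47.UnitIn (H21.locSubring (F := F1) n') (Na e) :=
  S36.H47.unitIn_norm_locSubring_ringHom a Na hfd hNa φ hφ hint n' n
    (fun P hP hPn => eq_of_comap_eq_beta_gd φ (injective_of_field_compat a φ hφ) hint red₁ red₂
      red₃ red₁' red₂' W q hq qB qB' hqφ h3 c1 c2 c3 hred₁' hW n' hker' hq' s hs2 hs1 P n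
      hP.isPrime hn hPn hnn')

end NormUnit

end Fermat.Agent.S36.H71
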