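/-
S36 / (E2) -> (E6) seam, helper84: **`S36.H85.TowerLoc` and `S36.H85.TripleLoc` from chart data.**

One tower: a field map `a : F1 →+* F2` (level `q L` → level `q² L`) restricting to a chart map
`φ : B' →+* B`; a closed point `n ⊆ B` on the three vertical primes `Ps, Pm, Pi` and the point
`n' = φ⁻¹ n ⊆ B'` below it on `P's, P'i`.  Local rings `O = H21.locSubring n`,
`O' = H21.locSubring n'`; rational evaluations `ev, ev'` into `k = R ⧸ (π)` (`H84_EvRational`).

* `map_mem_locSubring`, `map_not_unitIn` : `a O' ⊆ O`, and `a` is local;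
* `exists_branch_lift` : if `B ^ N ⊆ φ B' + P` then every unit `e` of `O` has `e ^ N ≡ a e'` along
  `V_P` for a unit `e'` of `O'` (`N = 1`: same branch ring, `f = 1`; `N = q`: inseparable branch);
* `towerLoc_of_charts` : `H85.TowerLoc`, with `hNunit` (norms of units are units) as a hypothesis;
* `tripleLoc_of_charts` : `H85.TripleLoc` for the two towers, `k = R ⧸ (π)`, evaluations
  constructed from rationality of the three points (`hres`).
-/
import Mathlib
import Fermat.Agent.S36.H84_EvRational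
import Fermat.Agent.S36.H85_GlueWire

set_option autoImplicit false
set_option linter.unusedSectionVars false
set_option linter.style.haveILetI false

namespace Fermat.Agent.S36.H84

open Fermat.Agent.S34 Fermat.Agent.S34.H47

section ChartMap

variable {B' F1 B F2 : Type*}
  [CommRing B'] [IsDomain B'] [Field F1] [Algebra B' F1] [IsFractionRing B' F1]
  [CommRing B] [IsDomain B] [Field F2] [Algebra B F2] [IsFractionRing B F2]
  (a : F1 →+* F2) (φ : B' →+* B)
  (hφ : ∀ b', algebraMap B F2 (φ b') = a (algebraMap B' F1 b'))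
  (n : Ideal B) [hn : n.IsPrime] (n' : Ideal B') [hn' : n'.IsPrime]
  (hnn' : ∀ b', b' ∈ n' ↔ φ b' ∈ n)

include hφ hnn' in
/-- `a (B'_{n'}) ⊆ B_n`. -/
theorem map_mem_locSubring (x : F1) (hx : x ∈ H21.locSubring (F := F1) n') :
    a x ∈ H21.locSubring (F := F2) n := by
  obtain ⟨b, s, hs, hbs⟩ := hx
  refine ⟨φ b, φ s, fun h => hs ((hnn' s).2 h), ?_⟩
  rw [hφ, hφ, ← map_mul, hbs]

include hφ hnn' in
/-- `a` maps non-units of `B'_{n'}` to non-units of `B_n`. -/
theorem map_not_unitIn (x : F1) (hx : x ∈ H21.locSubring (F := F1) n')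
    (hxu : ¬ UnitIn (H21.locSubring (F := F1) n') x) :
    ¬ UnitIn (H21.locSubring (F := F2) n) (a x) := by
  obtain ⟨b, s, hs, hbs⟩ := hx
  have hb : b ∈ n' := by
    by_contra hb
    exact hxu (H21.unitIn_locSubring_iff.2 ⟨b, s, hb, hs, hbs⟩)
  intro hu
  obtain ⟨c, d, hc, hd, hcd⟩ := H21.unitIn_locSubring_iff.1 hu
  have h1 : algebraMap B F2 (φ b * d) = algebraMap B F2 (c * φ s) := by
    rw [map_mul, map_mul, hφ, hφ, ← hbs, ← hcd, map_mul]
    ring
  have h2 : φ b * d = c * φ s := IsFractionRing.injective B F2 h1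
  have h3 : c * φ s ∈ n := h2 ▸ n.mul_mem_right _ ((hnn' b).1 hb)
  exact (hn.mem_or_mem h3).elim hc (fun h => hs ((hnn' s).2 h))

variable [IsNoetherianRing B] [IsIntegrallyClosed B]

omit [IsDomain B'] [IsFractionRing B' F1] in
/-- `x ≡ y mod P`, `y ∉ P` gives a `1`-unit `x / y` of `V_P`. -/
theorem oneU_div_algebraMap (P : Ideal B) [hP : P.IsPrime] (h1 : P.height = 1) {x y : B}
    (hy : y ∉ P) (hxy : x - y ∈ P) :
    OneU (H56.valuationSubringAt (K := F2) P h1) (algebraMap B F2 x / algebraMap B F2 y) := by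
  have hy0 : algebraMap B F2 y ≠ 0 := by
    intro h0
    apply hy
    have : y = 0 := IsFractionRing.injective B F2 (by rw [h0, map_zero])
    rw [this]; exact P.zero_mem
  have hvy : (H56.valuationSubringAt (K := F2) P h1).valuation (algebraMap B F2 y) = 1 := by
    have hle := ((H56.valuationSubringAt (K := F2) P h1).valuation_le_one_iff _).2
      (H56.algebraMap_mem_valuationSubringAt h1 y)
    refine le_antisymm hle (not_lt.1 fun hlt => hy ?_)
    exact (H56.algebraMap_mem_nonunits_iff h1 y).1 hlt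
  have h3 : algebraMap B F2 x / algebraMap B F2 y - 1 =
      algebraMap B F2 (x - y) * (algebraMap B F2 y)⁻¹ := by
    rw [map_sub]
    field_simp
  refine oneU_of_sub h3 ?_
  rw [map_mul, map_inv₀, hvy, inv_one, mul_one]
  exact (H56.algebraMap_mem_nonunits_iff h1 (x - y)).2 hxy

include hφ hnn' in
/-- **Branch lifting**: if `B ^ N ⊆ φ B' + P` (`P ≤ n` a vertical prime, `0 < N`) then every unit
`e` of `B_n` satisfies `e ^ N ≡ a e'` along `V_P` for some unit `e'` of `B'_{n'}`. -/
theorem exists_branch_lift (P : Ideal B) [hP : P.IsPrime] (h1 : P.height = 1) (hPn : P ≤ n)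
    (N : ℕ) (hlift : ∀ b : B, ∃ b' : B', φ b' - b ^ N ∈ P) (e : F2)
    (he : UnitIn (H21.locSubring (F := F2) n) e) :
    ∃ e' : F1, UnitIn (H21.locSubring (F := F1) n') e' ∧
      OneU (H56.valuationSubringAt (K := F2) P h1) (e ^ N / a e') := by
  obtain ⟨b, s, hb, hs, hbs⟩ := H21.unitIn_locSubring_iff.1 he
  obtain ⟨b', hb'⟩ := hlift b
  obtain ⟨s', hs'⟩ := hlift s
  have hφb : φ b' ∉ n := by
    intro h
    have h2 : b ^ N ∈ n := by
      have := n.sub_mem h (hPn hb')
      rwa [sub_sub_cancel] at this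
    exact hb (hn.mem_of_pow_mem N h2)
  have hφs : φ s' ∉ n := by
    intro h
    have h2 : s ^ N ∈ n := by
      have := n.sub_mem h (hPn hs')
      rwa [sub_sub_cancel] at this
    exact hs (hn.mem_of_pow_mem N h2)
  have hb'n : b' ∉ n' := fun h => hφb ((hnn' b').1 h)
  have hs'n : s' ∉ n' := fun h => hφs ((hnn' s').1 h)
  have hs'0 : algebraMap B' F1 s' ≠ 0 := by
    intro h0
    apply hs'n
    have : s' = 0 := IsFractionRing.injective B' F1 (by rw [h0, map_zero])
    rw [this]; exact n'.zero_mem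
  have hs0 : algebraMap B F2 s ≠ 0 := by
    intro h0
    apply hs
    have : s = 0 := IsFractionRing.injective B F2 (by rw [h0, map_zero])
    rw [this]; exact n.zero_mem
  refine ⟨algebraMap B' F1 b' / algebraMap B' F1 s', ?_, ?_⟩
  · rw [H21.unitIn_locSubring_iff]
    exact ⟨b', s', hb'n, hs'n, by field_simp⟩
  · have hbN : b ^ N ∉ P := fun h => hb (hPn h |> hn.mem_of_pow_mem N)
    have hsN : s ^ N ∉ P := fun h => hs (hPn h |> hn.mem_of_pow_mem N)
    have hφbP : φ b' ∉ P := fun h => hφb (hPn h)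
    have hφsP : φ s' ∉ P := fun h => hφs (hPn h)
    have e1 := oneU_div_algebraMap (F2 := F2) P h1 hφbP
      (by have := P.neg_mem hb'; rwa [neg_sub] at this : b ^ N - φ b' ∈ P)
    have e2 := oneU_div_algebraMap (F2 := F2) P h1 hsN hs'
    have hφb0 : algebraMap B F2 (φ b') ≠ 0 := e1.ne_zero ∘ fun h0 => by rw [h0, div_zero]
    have hsN0 : algebraMap B F2 (s ^ N) ≠ 0 := by
      rw [map_pow]; exact pow_ne_zero N hs0
    have hφs0 : algebraMap B F2 (φ s') ≠ 0 := by
      intro h0
      have := e2.ne_zero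
      rw [h0, zero_div] at this
      exact this rfl
    have hE : e = algebraMap B F2 b / algebraMap B F2 s := by
      rw [← hbs]; field_simp
    have h4 : e ^ N / a (algebraMap B' F1 b' / algebraMap B' F1 s') =
        (algebraMap B F2 (b ^ N) / algebraMap B F2 (φ b')) *
          (algebraMap B F2 (φ s') / algebraMap B F2 (s ^ N)) := by
      rw [map_div₀, ← hφ, ← hφ, hE, div_pow, map_pow, map_pow]
      have : algebraMap B F2 s ^ N ≠ 0 := pow_ne_zero N hs0
      field_simp
    rw [h4]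
    exact e1.mul e2

end ChartMap

section EvGeneral

variable {F : Type*} [Field F] {k : Type*} [Field k] {O : Subring F}

/-- `ev x = 1` for a `1`-unit `x ∈ O` of a valuation ring containing `O` (any residue field). -/
theorem ev_oneU' (ev : O →+* k) (hev0 : ∀ x : O, ev x = 0 ↔ ¬ UnitIn O (x : F))
    {V : ValuationSubring F} (hOV : ∀ x ∈ O, x ∈ V) (x : F) (hx : x ∈ O)
    (h : OneU V x) : ev ⟨x, hx⟩ = 1 := by
  have h1 : ev (⟨x, hx⟩ - 1) = 0 := by
    rw [hev0]
    intro hu
    have hv : V.valuation (x - 1) = 1 := valuation_eq_one_of_unitIn_le hOV hu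
    have hlt : V.valuation (x - 1) < 1 := h
    rw [hv] at hlt
    exact lt_irrefl _ hlt
  rw [map_sub, sub_eq_zero, map_one] at h1
  exact h1

end EvGeneral

section Tower

variable {B' F1 B F2 : Type*}
  [CommRing B'] [IsDomain B'] [Field F1] [Algebra B' F1] [IsFractionRing B' F1]
  [IsNoetherianRing B'] [IsIntegrallyClosed B']
  [CommRing B] [IsDomain B] [Field F2] [Algebra B F2] [IsFractionRing B F2]
  [IsNoetherianRing B] [IsIntegrallyClosed B]

/-- **`TowerLoc` from chart data** (one tower), any residue field `k` and evaluations `ev, ev'`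
with kernel the non-units, compatible along `a`.  `Vs Vm Vi Ws Wi` are arbitrary names for the
chart valuation rings (`hVs ..`), so that the same statement serves both charts of the model. -/
theorem towerLoc_of_charts (a : F1 →+* F2) (Na : F2 →*₀ F1) (φ : B' →+* B)
    (hφ : ∀ b', algebraMap B F2 (φ b') = a (algebraMap B' F1 b'))
    (n : Ideal B) [hn : n.IsPrime] (n' : Ideal B') [hn' : n'.IsPrime]
    (hnn' : ∀ b', b' ∈ n' ↔ φ b' ∈ n)
    (Ps Pm Pi : Ideal B) [Ps.IsPrime] [Pm.IsPrime] [Pi.IsPrime]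
    (hs : Ps.height = 1) (hm1 : Pm.height = 1) (hi : Pi.height = 1)
    (hPs : Ps ≤ n) (hPm : Pm ≤ n) (hPi : Pi ≤ n)
    (P's P'i : Ideal B') [P's.IsPrime] [P'i.IsPrime]
    (hs' : P's.height = 1) (hi' : P'i.height = 1) (hP's : P's ≤ n') (hP'i : P'i ≤ n')
    {Vs Vm Vi : ValuationSubring F2} {Ws Wi : ValuationSubring F1}
    (hVs : Vs = H56.valuationSubringAt (K := F2) Ps hs)
    (hVm : Vm = H56.valuationSubringAt (K := F2) Pm hm1)
    (hVi : Vi = H56.valuationSubringAt (K := F2) Pi hi)
    (hWs : Ws = H56.valuationSubringAt (K := F1) P's hs')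
    (hWi : Wi = H56.valuationSubringAt (K := F1) P'i hi')
    {q m : ℕ} (hm : 0 < m)
    (hls : ∀ b : B, ∃ b' : B', φ b' - b ∈ Ps) (hlm : ∀ b : B, ∃ b' : B', φ b' - b ∈ Pm)
    (hli : ∀ b : B, ∃ b' : B', φ b' - b ^ q ∈ Pi)
    (hNunit : ∀ e, UnitIn (H21.locSubring (F := F2) n) e →
      UnitIn (H21.locSubring (F := F1) n') (Na e))
    {k : Type*} [Field k]
    (ev : H21.locSubring (F := F2) n →+* k) (ev' : H21.locSubring (F := F1) n' →+* k)
    (hev0 : ∀ x : H21.locSubring (F := F2) n,
      ev x = 0 ↔ ¬ UnitIn (H21.locSubring (F := F2) n) (x : F2))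
    (hev0' : ∀ x : H21.locSubring (F := F1) n',
      ev' x = 0 ↔ ¬ UnitIn (H21.locSubring (F := F1) n') (x : F1))
    (hev : ∀ (x : F1) (hx : x ∈ H21.locSubring (F := F1) n')
      (hx2 : a x ∈ H21.locSubring (F := F2) n), ev ⟨a x, hx2⟩ = ev' ⟨x, hx⟩) :
    H85.TowerLoc a Na q m Vs Vm Vi Ws Wi (H21.locSubring (F := F2) n)
      (H21.locSubring (F := F1) n') ev ev' := by
  subst hVs hVm hVi hWs hWi
  refine
    { haO := map_mem_locSubring a φ hφ n n' hnn'
      hev := hev
      hNunit := hNunit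
      hroot' := ?_
      hbs := ?_
      hbm := ?_
      hbi := exists_branch_lift a φ hφ n n' hnn' Pi hi hPi q hli
      hevs := ev_oneU' ev hev0 (fun x hx => locSubring_le_valuationSubringAt Ps hs n hPs x hx)
      hevm := ev_oneU' ev hev0 (fun x hx => locSubring_le_valuationSubringAt Pm hm1 n hPm x hx)
      hevi := ev_oneU' ev hev0 (fun x hx => locSubring_le_valuationSubringAt Pi hi n hPi x hx)
      hev's := ev_oneU' ev' hev0'
        (fun x hx => locSubring_le_valuationSubringAt P's hs' n' hP's x hx)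
      hev'i := ev_oneU' ev' hev0'
        (fun x hx => locSubring_le_valuationSubringAt P'i hi' n' hP'i x hx) }
  · intro x hx0 hxm
    refine ⟨H21.locSubring_root_closed n' hm hxm.1, ?_, hx0⟩
    refine H21.locSubring_root_closed n' hm ?_
    rw [inv_pow]
    exact hxm.2.1
  · intro e he
    have := exists_branch_lift a φ hφ n n' hnn' Ps hs hPs 1
      (fun b => by simpa using hls b) e he
    simpa using this
  · intro e he
    have := exists_branch_lift a φ hφ n n' hnn' Pm hm1 hPm 1
      (fun b => by simpa using hlm b) e he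
    simpa using this

end Tower

section Rational

variable {R B F : Type*} [CommRing R] [CommRing B] [IsDomain B] [Field F] [Algebra B F]
  [IsFractionRing B F] [Algebra R B] [Algebra R F] [IsScalarTower R B F]

/-- `R` maps into `B_n`. -/
theorem algebraMap_base_mem_locSubring (n : Ideal B) [hn : n.IsPrime] (c : R) :
    algebraMap R F c ∈ H21.locSubring (F := F) n := by
  rw [IsScalarTower.algebraMap_apply R B F]
  exact H21.algebraMap_mem_locSubring n _

/-- elements of `n` are non-units of `B_n`. -/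
theorem not_unitIn_algebraMap_of_mem (n : Ideal B) [hn : n.IsPrime] {b : B} (hb : b ∈ n) :
    ¬ UnitIn (H21.locSubring (F := F) n) (algebraMap B F b) := by
  intro hu
  obtain ⟨c, d, hc, hd, hcd⟩ := H21.unitIn_locSubring_iff.1 hu
  have h2 : b * d = c := IsFractionRing.injective B F (by rw [map_mul, hcd])
  exact hc (h2 ▸ n.mul_mem_right _ hb)

/-- **`hres` for the local ring from `hres` for the chart**: if every `b : B` is congruent modulo
`n` to an element of `R` and `π ∈ n` generates a maximal ideal of `R`, then every `x ∈ B_n` is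
congruent modulo the non-units to an element of `R`. -/
theorem hres_locSubring (n : Ideal B) [hn : n.IsPrime] (π : R)
    [hπ : (Ideal.span {π}).IsMaximal] (hπn : algebraMap R B π ∈ n)
    (hresB : ∀ b : B, ∃ c : R, b - algebraMap R B c ∈ n) (x : F)
    (hx : x ∈ H21.locSubring (F := F) n) :
    ∃ c : R, ¬ UnitIn (H21.locSubring (F := F) n) (x - algebraMap R F c) := by
  obtain ⟨b, s, hs, hbs⟩ := hx
  obtain ⟨cb, hcb⟩ := hresB b
  obtain ⟨cs, hcs⟩ := hresB s
  -- `cs ∉ (π)`
  have hcsπ : cs ∉ Ideal.span {π} := by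
    intro h
    obtain ⟨r, rfl⟩ := Ideal.mem_span_singleton'.1 h
    apply hs
    have h1 : algebraMap R B (r * π) ∈ n := by
      rw [map_mul]; exact n.mul_mem_left _ hπn
    have := n.add_mem hcs h1
    rwa [sub_add_cancel] at this
  -- invert `cs` modulo `π`
  obtain ⟨t, ht⟩ := hπ.exists_inv hcsπ
  obtain ⟨i, hi, hti⟩ := ht
  -- `c := cb * t`
  refine ⟨cb * t, ?_⟩
  have hs0 : algebraMap B F s ≠ 0 := by
    intro h0
    apply hs
    have : s = 0 := IsFractionRing.injective B F (by rw [h0, map_zero])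
    rw [this]; exact n.zero_mem
  have hi_n : algebraMap R B i ∈ n := by
    obtain ⟨r, rfl⟩ := Ideal.mem_span_singleton'.1 hi
    rw [map_mul]; exact n.mul_mem_left _ hπn
  -- `b - (cb t) s ∈ n`
  have hkey : b - algebraMap R B (cb * t) * s ∈ n := by
    have h1 : algebraMap R B (t * cs) - 1 ∈ n := by
      have : t * cs = 1 - i := by rw [← hti]; ring
      rw [this, map_sub, map_one, sub_sub_cancel_left]
      exact n.neg_mem hi_n
    have h2 : b - algebraMap R B (cb * t) * s =
        (b - algebraMap R B cb) - algebraMap R B cb * (algebraMap R B (t * cs) - 1)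
          - algebraMap R B (cb * t) * (s - algebraMap R B cs) := by
      simp only [map_mul]; ring
    rw [h2]
    exact n.sub_mem (n.sub_mem hcb (n.mul_mem_left _ h1)) (n.mul_mem_left _ hcs)
  intro hu
  have hmul : UnitIn (H21.locSubring (F := F) n)
      ((x - algebraMap R F (cb * t)) * algebraMap B F s) := by
    rw [H21.unitIn_locSubring_iff] at hu ⊢
    exact hu.mul (H56.isUnitAt_algebraMap hs hn.ne_top)
  have h3 : (x - algebraMap R F (cb * t)) * algebraMap B F s =
      algebraMap B F (b - algebraMap R B (cb * t) * s) := by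
    rw [sub_mul, hbs, IsScalarTower.algebraMap_apply R B F (cb * t), map_sub (algebraMap B F),
      map_mul (algebraMap B F)]
  rw [h3] at hmul
  exact not_unitIn_algebraMap_of_mem n hkey hmul

end Rational

section Triple

variable {R B' F1 B F2 : Type*} [CommRing R]
  [CommRing B'] [IsDomain B'] [Field F1] [Algebra B' F1] [IsFractionRing B' F1]
  [IsNoetherianRing B'] [IsIntegrallyClosed B']
  [CommRing B] [IsDomain B] [Field F2] [Algebra B F2] [IsFractionRing B F2]
  [IsNoetherianRing B] [IsIntegrallyClosed B]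
  [Algebra R F1] [Algebra R F2]

/-- **`TripleLoc` from chart data**: the closed point `n` of the level-`q²` chart `B` on the three
vertical primes `P 0, P 1, P 2`; the two degeneracy maps `a, b` with chart maps `φa, φb : B' → B`;
the points `na = φa⁻¹ n`, `nb = φb⁻¹ n` of the level-`q` chart `B'`, both on `P'F, P'V`.
Tower `a = (V 0, V 1, V 2 | WF, WV)`, tower `b = (V 2, V 1, V 0 | WV, WF)`.  Residue field
`k = R ⧸ (π)`; the three points are `k`-rational (`hresn hresa hresb`). -/
theorem tripleLoc_of_charts (a b : F1 →+* F2) (Na Nb : F2 →*₀ F1) (φa φb : B' →+* B)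
    (hφa : ∀ x', algebraMap B F2 (φa x') = a (algebraMap B' F1 x'))
    (hφb : ∀ x', algebraMap B F2 (φb x') = b (algebraMap B' F1 x'))
    (haR : ∀ c : R, a (algebraMap R F1 c) = algebraMap R F2 c)
    (hbR : ∀ c : R, b (algebraMap R F1 c) = algebraMap R F2 c)
    (n : Ideal B) [hn : n.IsPrime] (na nb : Ideal B') [hna' : na.IsPrime] [hnb' : nb.IsPrime]
    (hna : ∀ x', x' ∈ na ↔ φa x' ∈ n) (hnb : ∀ x', x' ∈ nb ↔ φb x' ∈ n)
    (P : Fin 3 → Ideal B) [hP : ∀ i, (P i).IsPrime] (hh : ∀ i, (P i).height = 1)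
    (hPn : ∀ i, P i ≤ n)
    (P'F P'V : Ideal B') [P'F.IsPrime] [P'V.IsPrime] (hF : P'F.height = 1) (hV : P'V.height = 1)
    (hFa : P'F ≤ na) (hVa : P'V ≤ na) (hFb : P'F ≤ nb) (hVb : P'V ≤ nb)
    {V : Fin 3 → ValuationSubring F2} {WF WV : ValuationSubring F1}
    (hVeq : ∀ i, V i = H56.valuationSubringAt (K := F2) (P i) (hh i))
    (hWF : WF = H56.valuationSubringAt (K := F1) P'F hF)
    (hWV : WV = H56.valuationSubringAt (K := F1) P'V hV)
    {q m : ℕ} (hm : 0 < m)
    (hlsa : ∀ x : B, ∃ x' : B', φa x' - x ∈ P 0) (hlma : ∀ x : B, ∃ x' : B', φa x' - x ∈ P 1)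
    (hlia : ∀ x : B, ∃ x' : B', φa x' - x ^ q ∈ P 2)
    (hlsb : ∀ x : B, ∃ x' : B', φb x' - x ∈ P 2) (hlmb : ∀ x : B, ∃ x' : B', φb x' - x ∈ P 1)
    (hlib : ∀ x : B, ∃ x' : B', φb x' - x ^ q ∈ P 0)
    (hNa : ∀ e, UnitIn (H21.locSubring (F := F2) n) e →
      UnitIn (H21.locSubring (F := F1) na) (Na e))
    (hNb : ∀ e, UnitIn (H21.locSubring (F := F2) n) e →
      UnitIn (H21.locSubring (F := F1) nb) (Nb e))
    (π : R) [hπ : (Ideal.span {π}).IsMaximal]
    (hROn : ∀ c : R, algebraMap R F2 c ∈ H21.locSubring (F := F2) n)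
    (hROa : ∀ c : R, algebraMap R F1 c ∈ H21.locSubring (F := F1) na)
    (hROb : ∀ c : R, algebraMap R F1 c ∈ H21.locSubring (F := F1) nb)
    (hπn : ¬ UnitIn (H21.locSubring (F := F2) n) (algebraMap R F2 π))
    (hresn : ∀ x ∈ H21.locSubring (F := F2) n, ∃ c : R,
      ¬ UnitIn (H21.locSubring (F := F2) n) (x - algebraMap R F2 c))
    (hresa : ∀ x ∈ H21.locSubring (F := F1) na, ∃ c : R,
      ¬ UnitIn (H21.locSubring (F := F1) na) (x - algebraMap R F1 c))
    (hresb : ∀ x ∈ H21.locSubring (F := F1) nb, ∃ c : R,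
      ¬ UnitIn (H21.locSubring (F := F1) nb) (x - algebraMap R F1 c))
    {ζ ca cb : F1} (hζa : UnitIn (H21.locSubring (F := F1) na) ζ)
    (hζb : UnitIn (H21.locSubring (F := F1) nb) ζ)
    (hca : UnitIn (H21.locSubring (F := F1) na) ca)
    (hcb : UnitIn (H21.locSubring (F := F1) nb) cb) :
    letI : Field (R ⧸ Ideal.span {π}) := Ideal.Quotient.field _
    H85.TripleLoc a b Na Nb q m V WF WV ζ ca cb (R ⧸ Ideal.span {π})
      (H21.locSubring (F := F2) n) := by
  letI : Field (R ⧸ Ideal.span {π}) := Ideal.Quotient.field _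
  have hloc := fun (p : Ideal B) [p.IsPrime] (x y : F2)
    (hx : UnitIn (H21.locSubring (F := F2) p) x) (hy : y ∈ H21.locSubring (F := F2) p)
    (hyu : ¬ UnitIn (H21.locSubring (F := F2) p) y) => H21.locSubring_local p hx hy hyu
  have hloc' := fun (p : Ideal B') [p.IsPrime] (x y : F1)
    (hx : UnitIn (H21.locSubring (F := F1) p) x) (hy : y ∈ H21.locSubring (F := F1) p)
    (hyu : ¬ UnitIn (H21.locSubring (F := F1) p) y) => H21.locSubring_local p hx hy hyu
  -- `π` is a non-unit below
  have hπa : ¬ UnitIn (H21.locSubring (F := F1) na) (algebraMap R F1 π) := by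
    intro hu
    apply hπn
    rw [← haR]
    refine ⟨map_mem_locSubring a φa hφa n na hna _ hu.1, ?_, (map_ne_zero a).2 hu.2.2⟩
    rw [← map_inv₀]
    exact map_mem_locSubring a φa hφa n na hna _ hu.2.1
  have hπb : ¬ UnitIn (H21.locSubring (F := F1) nb) (algebraMap R F1 π) := by
    intro hu
    apply hπn
    rw [← hbR]
    refine ⟨map_mem_locSubring b φb hφb n nb hnb _ hu.1, ?_, (map_ne_zero b).2 hu.2.2⟩
    rw [← map_inv₀]
    exact map_mem_locSubring b φb hφb n nb hnb _ hu.2.1
  obtain ⟨ev, hev0, hevc⟩ := exists_ev (H21.locSubring (F := F2) n) (hloc n) hROn π hπn hresn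
  obtain ⟨eva, heva0, hevac⟩ := exists_ev (H21.locSubring (F := F1) na) (hloc' na) hROa π hπa
    hresa
  obtain ⟨evb, hevb0, hevbc⟩ := exists_ev (H21.locSubring (F := F1) nb) (hloc' nb) hROb π hπb
    hresb
  refine ⟨H21.locSubring (F := F1) na, H21.locSubring (F := F1) nb, ev, eva, evb, ?_, ?_,
    hζa, hζb, hca, hcb⟩
  · exact towerLoc_of_charts a Na φa hφa n na hna (P 0) (P 1) (P 2) (hh 0) (hh 1) (hh 2)
      (hPn 0) (hPn 1) (hPn 2) P'F P'V hF hV hFa hVa (hVeq 0) (hVeq 1) (hVeq 2) hWF hWV hm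
      hlsa hlma hlia hNa ev eva hev0 heva0
      (ev_comp a haR hROa hROn (map_not_unitIn a φa hφa n na hna) hresa ev eva hev0 hevc
        heva0 hevac)
  · exact towerLoc_of_charts b Nb φb hφb n nb hnb (P 2) (P 1) (P 0) (hh 2) (hh 1) (hh 0)
      (hPn 2) (hPn 1) (hPn 0) P'V P'F hV hF hVb hFb (hVeq 2) (hVeq 1) (hVeq 0) hWV hWF hm
      hlsb hlmb hlib hNb ev evb hev0 hevb0
      (ev_comp b hbR hROb hROn (map_not_unitIn b φb hφb n nb hnb) hresb ev evb hev0 hevc
        hevb0 hevbc)

end Triple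

end Fermat.Agent.S36.H84
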