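/-
S36, row (r5) = (E6)-real (helper85): **classification of the closed points of the level `q² L`
chart**: a closed point lying on two of the three components lies on all three, and it is then
the only closed point above its images (nodes) in the level `q L` chart under `α` and `β`.

Inputs: helper83's `LevelMaps` (the two chart maps `α β : B' →+* B` on the three components),
"exactly three" (`ThreeComponents.ker_le_of_mem`), integrality of `B` over `α B'`, `β B'`,
helper71's uniqueness of the point above a node (`S36.H71.eq_of_comap_eq(_beta)`), and the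
(M2) output at the nodes of level `q L`: both vertical primes are locally principal.
-/
import Mathlib
import Fermat.Agent.S36.H83_LevelMaps
import Fermat.Agent.S36.H71_UniqueAbove

set_option autoImplicit false
set_option linter.unusedSectionVars false
set_option linter.style.haveILetI false

namespace Fermat.Agent.S36.H85

open Fermat.Agent.S36

section LyingOver

variable {B' B : Type*} [CommRing B'] [CommRing B]

/-- lying over for an integral ring homomorphism, through a given ideal. -/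
theorem exists_maximal_over (φ : B' →+* B) (hint : φ.IsIntegral) (I : Ideal B)
    (n' : Ideal B') [hn' : n'.IsMaximal] (hI : I.comap φ ≤ n') :
    ∃ Q : Ideal B, I ≤ Q ∧ Q.IsMaximal ∧ Q.comap φ = n' := by
  letI : Algebra B' B := φ.toAlgebra
  haveI : Algebra.IsIntegral B' B := ⟨hint⟩
  obtain ⟨Q, hIQ, hQp, hQ⟩ := Ideal.exists_ideal_over_prime_of_isIntegral n' I hI
  refine ⟨Q, hIQ, ?_, hQ⟩
  haveI := hQp
  apply Ideal.isMaximal_of_isIntegral_of_isMaximal_comap (R := B') Q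
  rw [hQ]
  exact hn'

end LyingOver

section Class

variable {B' B D : Type*} [CommRing B'] [CommRing B] [IsDomain B] [IsNoetherianRing B]
  [CommRing D] [IsDomain D]

/-- **(M2) output at a node `n'` of level `q L`**: both vertical primes are locally principal,
with generators not vanishing on the other component. -/
def NodeGen (red₁' red₂' : B' →+* D) (n' : Ideal B') : Prop :=
  (∃ y' : B', red₁' y' ≠ 0 ∧ red₂' y' = 0 ∧
    ∀ z, red₂' z = 0 → ∃ t, t ∉ n' ∧ t * z ∈ Ideal.span {y'}) ∧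
  (∃ x' : B', red₂' x' ≠ 0 ∧ red₁' x' = 0 ∧
    ∀ z, red₁' z = 0 → ∃ t, t ∉ n' ∧ t * z ∈ Ideal.span {x'})

variable {red₁ red₂ red₃ : B →+* D} {red₁' red₂' : B' →+* D} {α β : B' →+* B} {W : D →+* D}

/-- the image under `α` of a closed point on `C₁` or `C₂`, and on `C₃`, is a node. -/
theorem node_comap_α (h : H83.LevelMaps red₁ red₂ red₃ red₁' red₂' α β W) (n : Ideal B)
    (h12 : RingHom.ker red₁ ≤ n ∨ RingHom.ker red₂ ≤ n) (h3 : RingHom.ker red₃ ≤ n) :
    RingHom.ker red₁' ≤ n.comap α ∧ RingHom.ker red₂' ≤ n.comap α := by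
  refine ⟨fun z hz => ?_, fun z hz => ?_⟩
  · rw [RingHom.mem_ker] at hz
    rcases h12 with h1 | h2
    · exact h1 ((RingHom.mem_ker).2 (h.α_mem_ker₁₂ hz).1)
    · exact h2 ((RingHom.mem_ker).2 (h.α_mem_ker₁₂ hz).2)
  · rw [RingHom.mem_ker] at hz
    exact h3 ((RingHom.mem_ker).2 (h.α_mem_ker₃ hz))

/-- the image under `β` of a closed point on `C₁`, and on `C₂` or `C₃`, is a node. -/
theorem node_comap_β (h : H83.LevelMaps red₁ red₂ red₃ red₁' red₂' α β W) (n : Ideal B)
    (h1 : RingHom.ker red₁ ≤ n) (h23 : RingHom.ker red₂ ≤ n ∨ RingHom.ker red₃ ≤ n) :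
    RingHom.ker red₁' ≤ n.comap β ∧ RingHom.ker red₂' ≤ n.comap β := by
  refine ⟨fun z hz => ?_, fun z hz => ?_⟩
  · rw [RingHom.mem_ker] at hz
    exact h1 ((RingHom.mem_ker).2 (h.β_mem_ker₁ hz))
  · rw [RingHom.mem_ker] at hz
    rcases h23 with h2 | h3
    · exact h2 ((RingHom.mem_ker).2 (h.β_mem_ker₂₃ hz).1)
    · exact h3 ((RingHom.mem_ker).2 (h.β_mem_ker₂₃ hz).2)

/-- **Uniqueness above the node, `α`**: a closed point `n` whose image under `α` is a node is
the only closed point above it. -/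
theorem unique_over_α (h : H83.LevelMaps red₁ red₂ red₃ red₁' red₂' α β W)
    {q : ℕ} (hq : 0 < q) {qB : B} {qB' : B'} (hqα : α qB' = qB)
    (hthree : ∀ P : Ideal B, P.IsPrime → qB ∈ P →
      RingHom.ker red₁ ≤ P ∨ RingHom.ker red₂ ≤ P ∨ RingHom.ker red₃ ≤ P)
    (hk1 : RingHom.ker red₁ ≠ ⊥) (hk2 : RingHom.ker red₂ ≠ ⊥)
    (hred₂' : Function.Surjective red₂') (hW : ∀ r : D, ∃ r₂ : D, W r₂ = r ^ q)
    (hq2' : red₂' qB' = 0)
    (n : Ideal B) (hn : n.IsMaximal) (hnode : RingHom.ker red₂' ≤ n.comap α)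
    (hgen : NodeGen red₁' red₂' (n.comap α))
    (P : Ideal B) (hP : P.IsMaximal) (hPn : P.comap α = n.comap α) : P = n := by
  obtain ⟨⟨y', hy1, hy2, hy'⟩, -⟩ := hgen
  exact H71.eq_of_comap_eq α red₁ red₂ red₃ red₁' red₂' W q hq qB qB' hqα hthree hk1 hk2
    h.h1α h.h2α h.h3α hred₂' hW (n.comap α) hnode hq2' y' hy1 hy2 hy' P n hP hn hPn rfl

/-- **Uniqueness above the node, `β`.** -/
theorem unique_over_β (h : H83.LevelMaps red₁ red₂ red₃ red₁' red₂' α β W)
    {q : ℕ} (hq : 0 < q) {qB : B} {qB' : B'} (hqβ : β qB' = qB)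
    (hthree : ∀ P : Ideal B, P.IsPrime → qB ∈ P →
      RingHom.ker red₁ ≤ P ∨ RingHom.ker red₂ ≤ P ∨ RingHom.ker red₃ ≤ P)
    (hk2 : RingHom.ker red₂ ≠ ⊥) (hk3 : RingHom.ker red₃ ≠ ⊥)
    (hred₁' : Function.Surjective red₁') (hW : ∀ r : D, ∃ r₂ : D, W r₂ = r ^ q)
    (hq1' : red₁' qB' = 0)
    (n : Ideal B) (hn : n.IsMaximal) (hnode : RingHom.ker red₁' ≤ n.comap β)
    (hgen : NodeGen red₁' red₂' (n.comap β))
    (P : Ideal B) (hP : P.IsMaximal) (hPn : P.comap β = n.comap β) : P = n := by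
  obtain ⟨-, ⟨x', hx2, hx1, hx'⟩⟩ := hgen
  exact H71.eq_of_comap_eq_beta β red₁ red₂ red₃ red₁' red₂' W q hq qB qB' hqβ hthree hk2 hk3
    h.h1β h.h2β h.h3β hred₁' hW (n.comap β) hnode hq1' x' hx2 hx1 hx' P n hP hn hPn rfl

/-- **Two components through a closed point ⟹ all three.** -/
theorem ker_le_all_of_two (h : H83.LevelMaps red₁ red₂ red₃ red₁' red₂' α β W)
    {q : ℕ} (hq : 0 < q) {qB : B} {qB' : B'} (hqα : α qB' = qB) (hqβ : β qB' = qB)
    (hthree : ∀ P : Ideal B, P.IsPrime → qB ∈ P →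
      RingHom.ker red₁ ≤ P ∨ RingHom.ker red₂ ≤ P ∨ RingHom.ker red₃ ≤ P)
    (hk1 : RingHom.ker red₁ ≠ ⊥) (hk2 : RingHom.ker red₂ ≠ ⊥) (hk3 : RingHom.ker red₃ ≠ ⊥)
    (hred₁' : Function.Surjective red₁') (hred₂' : Function.Surjective red₂')
    (hW : ∀ r : D, ∃ r₂ : D, W r₂ = r ^ q)
    (hq1' : red₁' qB' = 0) (hq2' : red₂' qB' = 0)
    (hintα : α.IsIntegral) (hintβ : β.IsIntegral)
    (hgen : ∀ n' : Ideal B', n'.IsMaximal → RingHom.ker red₁' ≤ n' → RingHom.ker red₂' ≤ n' →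
      NodeGen red₁' red₂' n')
    (n : Ideal B) (hn : n.IsMaximal)
    (htwo : (RingHom.ker red₁ ≤ n ∧ RingHom.ker red₂ ≤ n) ∨
      (RingHom.ker red₁ ≤ n ∧ RingHom.ker red₃ ≤ n) ∨
      (RingHom.ker red₂ ≤ n ∧ RingHom.ker red₃ ≤ n)) :
    RingHom.ker red₁ ≤ n ∧ RingHom.ker red₂ ≤ n ∧ RingHom.ker red₃ ≤ n := by
  rcases htwo with ⟨h1, h2⟩ | ⟨h1, h3⟩ | ⟨h2, h3⟩
  · -- use `β`: the third component has a point above the node `β⁻¹ n`
    refine ⟨h1, h2, ?_⟩
    obtain ⟨hn1, hn2⟩ := node_comap_β h n h1 (Or.inl h2)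
    haveI hmax : (n.comap β).IsMaximal :=
      Ideal.isMaximal_comap_of_isIntegral_of_isMaximal' β hintβ n
    obtain ⟨Q, hIQ, hQmax, hQ⟩ := exists_maximal_over β hintβ (RingHom.ker red₃) (n.comap β)
      (by rw [h.comap_β_ker₃]; exact hn2)
    have := unique_over_β h hq hqβ hthree hk2 hk3 hred₁' hW hq1' n hn hn1
      (hgen _ hmax hn1 hn2) Q hQmax hQ
    rw [← this]
    exact hIQ
  · -- use `α`: the middle component has a point above the node `α⁻¹ n`
    refine ⟨h1, ?_, h3⟩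
    obtain ⟨hn1, hn2⟩ := node_comap_α h n (Or.inl h1) h3
    haveI hmax : (n.comap α).IsMaximal :=
      Ideal.isMaximal_comap_of_isIntegral_of_isMaximal' α hintα n
    obtain ⟨Q, hIQ, hQmax, hQ⟩ := exists_maximal_over α hintα (RingHom.ker red₂) (n.comap α)
      (by rw [h.comap_α_ker₂]; exact hn1)
    have := unique_over_α h hq hqα hthree hk1 hk2 hred₂' hW hq2' n hn hn2
      (hgen _ hmax hn1 hn2) Q hQmax hQ
    rw [← this]
    exact hIQ
  · -- use `α`: the first component has a point above the node `α⁻¹ n`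
    refine ⟨?_, h2, h3⟩
    obtain ⟨hn1, hn2⟩ := node_comap_α h n (Or.inr h2) h3
    haveI hmax : (n.comap α).IsMaximal :=
      Ideal.isMaximal_comap_of_isIntegral_of_isMaximal' α hintα n
    obtain ⟨Q, hIQ, hQmax, hQ⟩ := exists_maximal_over α hintα (RingHom.ker red₁) (n.comap α)
      (by rw [h.comap_α_ker₁]; exact hn1)
    have := unique_over_α h hq hqα hthree hk1 hk2 hred₂' hW hq2' n hn hn2
      (hgen _ hmax hn1 hn2) Q hQmax hQ
    rw [← this]
    exact hIQ

end Class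

end Fermat.Agent.S36.H85
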