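/-
S36, row (E6) (helper85): a producer of `TowerLoc` with the residue map below DEFINED as
`ev' := ev ∘ a` (so that the fields `hev`, `hev's`, `hev'i` are automatic): only nine facts are
left for the real types.
-/
import Mathlib
import Fermat.Agent.S36.H85_GlueValues

set_option autoImplicit false

namespace Fermat.Agent.S36.H85

open Fermat.Agent.S34.H47

section Mk

variable {F1 F2 : Type*} [Field F1] [Field F2] {k : Type*} [Field k]

/-- the restriction `O' →+* O` of `a : F1 →+* F2`. -/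
def restrictHom (a : F1 →+* F2) (O' : Subring F1) (O : Subring F2) (h : ∀ x ∈ O', a x ∈ O) :
    O' →+* O :=
  (a.comp O'.subtype).codRestrict O (fun x => h x x.2)

theorem restrictHom_apply (a : F1 →+* F2) (O' : Subring F1) (O : Subring F2)
    (h : ∀ x ∈ O', a x ∈ O) (x : F1) (hx : x ∈ O') :
    restrictHom a O' O h ⟨x, hx⟩ = ⟨a x, h x hx⟩ := rfl

/-- **`TowerLoc` with `ev' := ev ∘ a`.** -/
theorem towerLoc_of_restrict {a : F1 →+* F2} {Na : F2 →*₀ F1} {q m : ℕ}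
    {Vs Vm Vi : ValuationSubring F2} {Ws Wi : ValuationSubring F1}
    {O : Subring F2} {O' : Subring F1} (ev : O →+* k)
    (haO : ∀ x ∈ O', a x ∈ O)
    (haVs : ∀ x, OneU Ws x → OneU Vs (a x)) (haVi : ∀ x, OneU Wi x → OneU Vi (a x))
    (hNunit : ∀ e, UnitIn O e → UnitIn O' (Na e))
    (hroot' : ∀ x : F1, x ≠ 0 → UnitIn O' (x ^ m) → UnitIn O' x)
    (hbs : ∀ e, UnitIn O e → ∃ e', UnitIn O' e' ∧ OneU Vs (e / a e'))
    (hbm : ∀ e, UnitIn O e → ∃ e', UnitIn O' e' ∧ OneU Vm (e / a e'))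
    (hbi : ∀ e, UnitIn O e → ∃ e', UnitIn O' e' ∧ OneU Vi (e ^ q / a e'))
    (hevs : ∀ (x : F2) (hx : x ∈ O), OneU Vs x → ev ⟨x, hx⟩ = 1)
    (hevm : ∀ (x : F2) (hx : x ∈ O), OneU Vm x → ev ⟨x, hx⟩ = 1)
    (hevi : ∀ (x : F2) (hx : x ∈ O), OneU Vi x → ev ⟨x, hx⟩ = 1) :
    TowerLoc a Na q m Vs Vm Vi Ws Wi O O' ev (ev.comp (restrictHom a O' O haO)) where
  haO := haO
  hev := fun _ _ _ => rfl
  hNunit := hNunit
  hroot' := hroot'
  hbs := hbs
  hbm := hbm
  hbi := hbi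
  hevs := hevs
  hevm := hevm
  hevi := hevi
  hev's := fun x hx h => hevs (a x) (haO x hx) (haVs x h)
  hev'i := fun x hx h => hevi (a x) (haO x hx) (haVi x h)

end Mk

end Fermat.Agent.S36.H85
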