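/-
S36, row (E6) (helper85): chart-level producers of the fields of `TowerLoc`
(`H21.locSubring` / `H56.valuationSubringAt` vocabulary).

`φ : B' →+* B` a chart of the degeneracy map (level `q` chart `B'`, level `q²` chart `B`),
`a : F1 →+* F2` the induced map of fraction fields, `n` a prime of `B`, `n' := n.comap φ`.

* `exists_residue_map` : a residue map `ev : O →+* k` killing the non-units of a local `O`;
* `ev_eq_one_of_oneU` : `hevs/hevm/hevi` (`p ≤ n`);
* `map_mem_locSubring` / `unitIn_map_locSubring` : `haO`;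
* `unitIn_of_pow_locSubring` : `hroot'`;
* `exists_unit_below_of_compat` : `hbs/hbm/hbi` from the compatibility
  `∀ y : B, ∃ y' : B', y ^ r - φ y' ∈ p` (`r = 1` resp. `r = q`);
* `towerLoc_of_chart` : the assembly (`hNunit` = row (4a) stays a hypothesis).
-/
import Mathlib
import Fermat.Agent.S36.H84_LambdaTriple
import Fermat.Agent.S36.H85_TowerLocMk

set_option autoImplicit false
set_option linter.unusedSectionVars false

namespace Fermat.Agent.S36.H85

open Fermat.Agent.S34 Fermat.Agent.S34.H47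

section Residue

universe u

variable {F : Type u} [Field F]

/-- A residue map of a `UnitIn`-local subring of a field. -/
theorem exists_residue_map (O : Subring F)
    (hloc : ∀ a b : F, UnitIn O a → b ∈ O → ¬ UnitIn O b → UnitIn O (a + b)) :
    ∃ (k : Type u) (_ : Field k) (ev : O →+* k),
      ∀ (x : F) (hx : x ∈ O), ¬ UnitIn O x → ev ⟨x, hx⟩ = 0 := by
  have hlocal := H84.isLocalRing_of_unitIn O hloc
  refine ⟨IsLocalRing.ResidueField O, inferInstance, IsLocalRing.residue O, fun x hx hxu => ?_⟩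
  rw [IsLocalRing.residue_eq_zero_iff, IsLocalRing.mem_maximalIdeal, mem_nonunits_iff,
    H84.isUnit_iff_unitIn]
  exact hxu

end Residue

section Chart

variable {B F : Type*} [CommRing B] [IsDomain B] [Field F] [Algebra B F] [IsFractionRing B F]
  [IsNoetherianRing B] [IsIntegrallyClosed B] {k : Type*} [Field k]

/-- **`hevs/hevm/hevi`**: a `1`-unit of `V_p` lying in `B_n` (`p ≤ n`) has value `1` at `n`. -/
theorem ev_eq_one_of_oneU (p : Ideal B) [hp : p.IsPrime] (h1 : p.height = 1)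
    (n : Ideal B) [hn : n.IsPrime] (hpn : p ≤ n) (ev : H21.locSubring (F := F) n →+* k)
    (hker : ∀ (x : F) (hx : x ∈ H21.locSubring (F := F) n),
      ¬ UnitIn (H21.locSubring (F := F) n) x → ev ⟨x, hx⟩ = 0)
    (x : F) (hx : x ∈ H21.locSubring (F := F) n)
    (h : OneU (H56.valuationSubringAt (K := F) p h1) x) : ev ⟨x, hx⟩ = 1 := by
  have hx1 : x - 1 ∈ H21.locSubring (F := F) n :=
    (H21.locSubring (F := F) n).sub_mem hx (H21.locSubring (F := F) n).one_mem
  have hnu : ¬ UnitIn (H21.locSubring (F := F) n) (x - 1) := by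
    intro hu
    have hv := H84.valuation_eq_one_of_unitIn p h1 n hpn hu
    have hlt : (H56.valuationSubringAt (K := F) p h1).valuation (x - 1) < 1 := h
    rw [hv] at hlt
    exact lt_irrefl _ hlt
  have h0 := hker (x - 1) hx1 hnu
  have h2 : ev ⟨x, hx⟩ - 1 = 0 := by
    rw [← h0, ← map_one ev, ← map_sub]
    rfl
  exact sub_eq_zero.mp h2

end Chart

section TwoCharts

variable {B' F1 : Type*} [CommRing B'] [IsDomain B'] [Field F1] [Algebra B' F1]
  [IsFractionRing B' F1]
  {B F2 : Type*} [CommRing B] [IsDomain B] [Field F2] [Algebra B F2] [IsFractionRing B F2]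

/-- **`haO`** : `a` maps `B'_{n'}` into `B_n` for `n' = n.comap φ`. -/
theorem map_mem_locSubring (φ : B' →+* B) (a : F1 →+* F2)
    (ha : ∀ x, a (algebraMap B' F1 x) = algebraMap B F2 (φ x))
    (n : Ideal B) [hn : n.IsPrime] (n' : Ideal B') [hn' : n'.IsPrime]
    (hnn : ∀ x, x ∈ n' ↔ φ x ∈ n) (x : F1) (hx : x ∈ H21.locSubring (F := F1) n') :
    a x ∈ H21.locSubring (F := F2) n := by
  obtain ⟨c, s, hs, hcs⟩ := hx
  refine ⟨φ c, φ s, fun h => hs ((hnn s).2 h), ?_⟩
  rw [← ha, ← ha, ← map_mul, hcs]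

/-- `a` maps units of `B'_{n'}` to units of `B_n`. -/
theorem unitIn_map_locSubring (φ : B' →+* B) (a : F1 →+* F2)
    (ha : ∀ x, a (algebraMap B' F1 x) = algebraMap B F2 (φ x))
    (n : Ideal B) [hn : n.IsPrime] (n' : Ideal B') [hn' : n'.IsPrime]
    (hnn : ∀ x, x ∈ n' ↔ φ x ∈ n) {x : F1} (hx : UnitIn (H21.locSubring (F := F1) n') x) :
    UnitIn (H21.locSubring (F := F2) n) (a x) := by
  refine ⟨map_mem_locSubring φ a ha n n' hnn x hx.1, ?_, (map_ne_zero a).mpr hx.2.2⟩
  rw [← map_inv₀]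
  exact map_mem_locSubring φ a ha n n' hnn _ hx.2.1

/-- **`hroot'`** : `B'_{n'}` is `m`-root closed on units (`B'` integrally closed). -/
theorem unitIn_of_pow_locSubring [IsIntegrallyClosed B'] (n' : Ideal B') [hn' : n'.IsPrime]
    {m : ℕ} (hm : 0 < m) (x : F1) (hx0 : x ≠ 0)
    (hx : UnitIn (H21.locSubring (F := F1) n') (x ^ m)) :
    UnitIn (H21.locSubring (F := F1) n') x := by
  refine ⟨H21.locSubring_root_closed n' hm hx.1, ?_, hx0⟩
  apply H21.locSubring_root_closed n' hm
  rw [inv_pow]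
  exact hx.2.1

variable [IsNoetherianRing B] [IsIntegrallyClosed B]

/-- **`hbs/hbm/hbi`** : if every `y ^ r` (`y ∈ B`) is congruent modulo `p` to an element of
`φ B'`, every unit `e` of `B_n` (`p ≤ n`) has `e ^ r ≡ a e'` at `V_p` for a unit `e'` of
`B'_{n'}`. -/
theorem exists_unit_below_of_compat (φ : B' →+* B) (a : F1 →+* F2)
    (ha : ∀ x, a (algebraMap B' F1 x) = algebraMap B F2 (φ x))
    (p : Ideal B) [hp : p.IsPrime] (h1 : p.height = 1)
    (n : Ideal B) [hn : n.IsPrime] (hpn : p ≤ n) (n' : Ideal B') [hn' : n'.IsPrime]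
    (hnn : ∀ x, x ∈ n' ↔ φ x ∈ n) (r : ℕ)
    (hC : ∀ y : B, ∃ y' : B', y ^ r - φ y' ∈ p)
    (e : F2) (he : UnitIn (H21.locSubring (F := F2) n) e) :
    ∃ e' : F1, UnitIn (H21.locSubring (F := F1) n') e' ∧
      OneU (H56.valuationSubringAt (K := F2) p h1) (e ^ r / a e') := by
  rw [H21.unitIn_locSubring_iff] at he
  obtain ⟨y, s, hy, hs, hys⟩ := he
  obtain ⟨y', hy'⟩ := hC y
  obtain ⟨s', hs'⟩ := hC s
  -- `φ y' ∉ n`, `φ s' ∉ n`
  have hyr : y ^ r ∉ n := fun h => hy (hn.mem_of_pow_mem r h)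
  have hsr : s ^ r ∉ n := fun h => hs (hn.mem_of_pow_mem r h)
  have hφy : φ y' ∉ n := by
    intro h
    apply hyr
    have := n.add_mem (hpn hy') h
    rwa [sub_add_cancel] at this
  have hφs : φ s' ∉ n := by
    intro h
    apply hsr
    have := n.add_mem (hpn hs') h
    rwa [sub_add_cancel] at this
  have hy'n : y' ∉ n' := fun h => hφy ((hnn y').1 h)
  have hs'n : s' ∉ n' := fun h => hφs ((hnn s').1 h)
  have hinj1 := IsFractionRing.injective B' F1
  have hinj2 := IsFractionRing.injective B F2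
  have hs'0 : algebraMap B' F1 s' ≠ 0 := by
    intro h
    apply hs'n
    have : s' = 0 := hinj1 (by rw [h, map_zero])
    rw [this]; exact n'.zero_mem
  have hy'0 : algebraMap B' F1 y' ≠ 0 := by
    intro h
    apply hy'n
    have : y' = 0 := hinj1 (by rw [h, map_zero])
    rw [this]; exact n'.zero_mem
  have hs0 : algebraMap B F2 s ≠ 0 := by
    intro h
    apply hs
    have : s = 0 := hinj2 (by rw [h, map_zero])
    rw [this]; exact n.zero_mem
  have hφy0 : algebraMap B F2 (φ y') ≠ 0 := by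
    intro h
    apply hφy
    have : φ y' = 0 := hinj2 (by rw [h, map_zero])
    rw [this]; exact n.zero_mem
  have hφs0 : algebraMap B F2 (φ s') ≠ 0 := by
    intro h
    apply hφs
    have : φ s' = 0 := hinj2 (by rw [h, map_zero])
    rw [this]; exact n.zero_mem
  refine ⟨algebraMap B' F1 y' / algebraMap B' F1 s', ?_, ?_⟩
  · rw [H21.unitIn_locSubring_iff]
    refine ⟨y', s', hy'n, hs'n, ?_⟩
    field_simp
  · -- `e ^ r / a e' - 1 = (y^r φ s' - s^r φ y') / (s^r φ y')`
    have hex : e = algebraMap B F2 y / algebraMap B F2 s := by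
      rw [eq_div_iff hs0]; exact hys
    have hnum : y ^ r * φ s' - s ^ r * φ y' ∈ p := by
      have h2 : y ^ r * φ s' - s ^ r * φ y'
          = (y ^ r - φ y') * φ s' - (s ^ r - φ s') * φ y' := by ring
      rw [h2]
      exact p.sub_mem (p.mul_mem_right _ hy') (p.mul_mem_right _ hs')
    have hden : s ^ r * φ y' ∉ p := fun h =>
      (hn.mem_or_mem (hpn h)).elim hsr hφy
    have hsr0 : algebraMap B F2 s ^ r ≠ 0 := pow_ne_zero r hs0
    have hsub : e ^ r / a (algebraMap B' F1 y' / algebraMap B' F1 s') - 1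
        = algebraMap B F2 (y ^ r * φ s' - s ^ r * φ y') / algebraMap B F2 (s ^ r * φ y') := by
      rw [map_div₀, ha, ha, hex]
      simp only [map_sub, map_mul, map_pow, _root_.div_pow]
      field_simp
    refine oneU_of_sub hsub ?_
    rw [map_div₀]
    have hv1 : (H56.valuationSubringAt (K := F2) p h1).valuation
        (algebraMap B F2 (s ^ r * φ y')) = 1 := by
      rw [H56.valuation_eq_one_iff]
      exact H56.isUnitAt_algebraMap hden hp.ne_top
    rw [hv1, div_one]
    exact (H56.algebraMap_mem_nonunits_iff h1 _).2 hnum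

/-- **`TowerLoc` at the chart level**: only `hNunit` (row (4a)), the three compatibilities
`hCs hCm hCi` (row (4b)) and the two `lies over` facts are left. -/
theorem towerLoc_of_chart [IsIntegrallyClosed B'] {k : Type*} [Field k]
    (φ : B' →+* B) (a : F1 →+* F2)
    (ha : ∀ x, a (algebraMap B' F1 x) = algebraMap B F2 (φ x))
    {Na : F2 →*₀ F1} {q m : ℕ} (hm : 0 < m)
    (Ps Pm Pi : Ideal B) [hPs : Ps.IsPrime] [hPm : Pm.IsPrime] [hPi : Pi.IsPrime]
    (hs : Ps.height = 1) (hmid : Pm.height = 1) (hi : Pi.height = 1)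
    {Ws Wi : ValuationSubring F1}
    (haVs : ∀ x, OneU Ws x → OneU (H56.valuationSubringAt (K := F2) Ps hs) (a x))
    (haVi : ∀ x, OneU Wi x → OneU (H56.valuationSubringAt (K := F2) Pi hi) (a x))
    (n : Ideal B) [hn : n.IsPrime] (hsn : Ps ≤ n) (hmn : Pm ≤ n) (hin : Pi ≤ n)
    (n' : Ideal B') [hn' : n'.IsPrime] (hnn : ∀ x, x ∈ n' ↔ φ x ∈ n)
    (hNunit : ∀ e, UnitIn (H21.locSubring (F := F2) n) e →
      UnitIn (H21.locSubring (F := F1) n') (Na e))
    (hCs : ∀ y : B, ∃ y' : B', y - φ y' ∈ Ps) (hCm : ∀ y : B, ∃ y' : B', y - φ y' ∈ Pm)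
    (hCi : ∀ y : B, ∃ y' : B', y ^ q - φ y' ∈ Pi)
    (ev : H21.locSubring (F := F2) n →+* k)
    (hker : ∀ (x : F2) (hx : x ∈ H21.locSubring (F := F2) n),
      ¬ UnitIn (H21.locSubring (F := F2) n) x → ev ⟨x, hx⟩ = 0) :
    TowerLoc a Na q m (H56.valuationSubringAt (K := F2) Ps hs)
      (H56.valuationSubringAt (K := F2) Pm hmid) (H56.valuationSubringAt (K := F2) Pi hi) Ws Wi
      (H21.locSubring (F := F2) n) (H21.locSubring (F := F1) n') ev
      (ev.comp (restrictHom a (H21.locSubring (F := F1) n') (H21.locSubring (F := F2) n)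
        (map_mem_locSubring φ a ha n n' hnn))) := by
  refine towerLoc_of_restrict ev (map_mem_locSubring φ a ha n n' hnn) haVs haVi hNunit
    (fun x hx0 hx => unitIn_of_pow_locSubring n' hm x hx0 hx) ?_ ?_ ?_
    (ev_eq_one_of_oneU Ps hs n hsn ev hker) (ev_eq_one_of_oneU Pm hmid n hmn ev hker)
    (ev_eq_one_of_oneU Pi hi n hin ev hker)
  · intro e he
    obtain ⟨e', he', h⟩ := exists_unit_below_of_compat φ a ha Ps hs n hsn n' hnn 1
      (fun y => by simpa using hCs y) e he
    exact ⟨e', he', by simpa using h⟩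
  · intro e he
    obtain ⟨e', he', h⟩ := exists_unit_below_of_compat φ a ha Pm hmid n hmn n' hnn 1
      (fun y => by simpa using hCm y) e he
    exact ⟨e', he', by simpa using h⟩
  · intro e he
    exact exists_unit_below_of_compat φ a ha Pi hi n hin n' hnn q hCi e he

end TwoCharts

end Fermat.Agent.S36.H85
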