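/-
S36, row (E6) (helper85): `∃ k, TripleLoc .. k (B_n)` at the chart level, from the two
`towerLoc_of_chart` (tower `α` through `φa : B'a →+* B`, tower `β` through `φb : B'b →+* B`)
and the residue map of the local ring `B_n`.
-/
import Mathlib
import Fermat.Agent.S36.H85_TowerCompat
import Fermat.Agent.S36.H85_GlueWire

set_option autoImplicit false
set_option linter.unusedSectionVars false

namespace Fermat.Agent.S36.H85

open Fermat.Agent.S34 Fermat.Agent.S34.H47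

section TripleChart

universe u1 u2 u3 u4 u5

variable {B'a : Type u1} {B'b : Type u2} {F1 : Type u3} [CommRing B'a] [IsDomain B'a]
  [CommRing B'b] [IsDomain B'b] [Field F1] [Algebra B'a F1] [IsFractionRing B'a F1]
  [Algebra B'b F1] [IsFractionRing B'b F1] [IsIntegrallyClosed B'a] [IsIntegrallyClosed B'b]
  {B : Type u4} {F2 : Type u5} [CommRing B] [IsDomain B] [Field F2] [Algebra B F2]
  [IsFractionRing B F2] [IsNoetherianRing B] [IsIntegrallyClosed B]

/-- **`TripleLoc` at a triple point of a chart.** -/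
theorem exists_tripleLoc_of_charts
    (φa : B'a →+* B) (φb : B'b →+* B) (a b : F1 →+* F2)
    (haa : ∀ x, a (algebraMap B'a F1 x) = algebraMap B F2 (φa x))
    (hbb : ∀ x, b (algebraMap B'b F1 x) = algebraMap B F2 (φb x))
    {Na Nb : F2 →*₀ F1} {q m : ℕ} (hm : 0 < m)
    (P : Fin 3 → Ideal B) [hP : ∀ i, (P i).IsPrime] (hh : ∀ i, (P i).height = 1)
    {WF WV : ValuationSubring F1}
    (haF : ∀ x, OneU WF x → OneU (H56.valuationSubringAt (K := F2) (P 0) (hh 0)) (a x))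
    (haV : ∀ x, OneU WV x → OneU (H56.valuationSubringAt (K := F2) (P 2) (hh 2)) (a x))
    (hbV : ∀ x, OneU WV x → OneU (H56.valuationSubringAt (K := F2) (P 2) (hh 2)) (b x))
    (hbF : ∀ x, OneU WF x → OneU (H56.valuationSubringAt (K := F2) (P 0) (hh 0)) (b x))
    (n : Ideal B) [hn : n.IsPrime] (hall : ∀ i, P i ≤ n)
    (na : Ideal B'a) [hna : na.IsPrime] (hnna : ∀ x, x ∈ na ↔ φa x ∈ n)
    (nb : Ideal B'b) [hnb : nb.IsPrime] (hnnb : ∀ x, x ∈ nb ↔ φb x ∈ n)
    (hNa : ∀ e, UnitIn (H21.locSubring (F := F2) n) e →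
      UnitIn (H21.locSubring (F := F1) na) (Na e))
    (hNb : ∀ e, UnitIn (H21.locSubring (F := F2) n) e →
      UnitIn (H21.locSubring (F := F1) nb) (Nb e))
    (hCa0 : ∀ y : B, ∃ y' : B'a, y - φa y' ∈ P 0) (hCa1 : ∀ y : B, ∃ y' : B'a, y - φa y' ∈ P 1)
    (hCa2 : ∀ y : B, ∃ y' : B'a, y ^ q - φa y' ∈ P 2)
    (hCb2 : ∀ y : B, ∃ y' : B'b, y - φb y' ∈ P 2) (hCb1 : ∀ y : B, ∃ y' : B'b, y - φb y' ∈ P 1)
    (hCb0 : ∀ y : B, ∃ y' : B'b, y ^ q - φb y' ∈ P 0)
    {ζ ca cb : F1} (hζa : UnitIn (H21.locSubring (F := F1) na) ζ)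
    (hζb : UnitIn (H21.locSubring (F := F1) nb) ζ)
    (hca : UnitIn (H21.locSubring (F := F1) na) ca)
    (hcb : UnitIn (H21.locSubring (F := F1) nb) cb) :
    ∃ (k : Type u5) (_ : Field k), TripleLoc a b Na Nb q m
      (fun i => H56.valuationSubringAt (K := F2) (P i) (hh i)) WF WV ζ ca cb k
      (H21.locSubring (F := F2) n) := by
  obtain ⟨k, hk, ev, hker⟩ := exists_residue_map (H21.locSubring (F := F2) n)
    (fun x y hx hy hyu => H21.locSubring_local n hx hy hyu)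
  refine ⟨k, hk, H21.locSubring (F := F1) na, H21.locSubring (F := F1) nb, ev, _, _,
    towerLoc_of_chart φa a haa hm (P 0) (P 1) (P 2) (hh 0) (hh 1) (hh 2) haF haV n (hall 0)
      (hall 1) (hall 2) na hnna hNa hCa0 hCa1 hCa2 ev hker,
    towerLoc_of_chart φb b hbb hm (P 2) (P 1) (P 0) (hh 2) (hh 1) (hh 0) hbV hbF n (hall 2)
      (hall 1) (hall 0) nb hnnb hNb hCb2 hCb1 hCb0 ev hker, hζa, hζb, hca, hcb⟩

end TripleChart

end Fermat.Agent.S36.H85
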