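/-
S36, row (r5) = (E6)-real (helper85): **`TripleLoc` at a triple point of a level `q² L` chart
from helper83's `LevelMaps`** (+ helper71's uniqueness above a node, helper47's norm-of-units
lemma, the (M2) output `NodeGen` at the two nodes below).
-/
import Mathlib
import Fermat.Agent.S36.H47_NormUnit
import Fermat.Agent.S36.H85_PointClass
import Fermat.Agent.S36.H85_TripleLocChart

set_option autoImplicit false
set_option linter.unusedSectionVars false
set_option linter.style.haveILetI false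

namespace Fermat.Agent.S36.H85

open Fermat.Agent.S34 Fermat.Agent.S34.H47 Fermat.Agent.S36

section Level

universe u1 u3 u4 u5 u6

variable {B' : Type u1} {F1 : Type u3} [CommRing B'] [IsDomain B'] [Field F1] [Algebra B' F1]
  [IsFractionRing B' F1] [IsIntegrallyClosed B']
  {B : Type u4} {F2 : Type u5} [CommRing B] [IsDomain B] [Field F2] [Algebra B F2]
  [IsFractionRing B F2] [IsNoetherianRing B] [IsIntegrallyClosed B]
  {D : Type u6} [CommRing D] [IsDomain D]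
  {red₁ red₂ red₃ : B →+* D} {red₁' red₂' : B' →+* D} {α β : B' →+* B} {W : D →+* D}

/-- the six lifting facts `hC*` of `exists_tripleLoc_of_charts` from `LevelMaps`. -/
theorem compat_of_levelMaps (h : H83.LevelMaps red₁ red₂ red₃ red₁' red₂' α β W) {q : ℕ}
    (hred₁' : Function.Surjective red₁') (hred₂' : Function.Surjective red₂')
    (hW : ∀ r : D, ∃ r₂ : D, W r₂ = r ^ q) :
    (∀ y : B, ∃ y' : B', y - α y' ∈ RingHom.ker red₁) ∧
    (∀ y : B, ∃ y' : B', y - α y' ∈ RingHom.ker red₂) ∧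
    (∀ y : B, ∃ y' : B', y ^ q - α y' ∈ RingHom.ker red₃) ∧
    (∀ y : B, ∃ y' : B', y - β y' ∈ RingHom.ker red₃) ∧
    (∀ y : B, ∃ y' : B', y - β y' ∈ RingHom.ker red₂) ∧
    (∀ y : B, ∃ y' : B', y ^ q - β y' ∈ RingHom.ker red₁) := by
  refine ⟨fun y => ?_, fun y => ?_, fun y => ?_, fun y => ?_, fun y => ?_, fun y => ?_⟩
  · obtain ⟨y', hy'⟩ := hred₁' (red₁ y)
    exact ⟨y', by rw [RingHom.mem_ker, map_sub, h.h1α, hy', sub_self]⟩
  · obtain ⟨y', hy'⟩ := hred₁' (red₂ y)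
    exact ⟨y', by rw [RingHom.mem_ker, map_sub, h.h2α, hy', sub_self]⟩
  · obtain ⟨r₂, hr₂⟩ := hW (red₃ y)
    obtain ⟨y', hy'⟩ := hred₂' r₂
    exact ⟨y', by rw [RingHom.mem_ker, map_sub, map_pow, h.h3α, hy', hr₂, sub_self]⟩
  · obtain ⟨y', hy'⟩ := hred₂' (red₃ y)
    exact ⟨y', by rw [RingHom.mem_ker, map_sub, h.h3β, hy', sub_self]⟩
  · obtain ⟨y', hy'⟩ := hred₂' (red₂ y)
    exact ⟨y', by rw [RingHom.mem_ker, map_sub, h.h2β, hy', sub_self]⟩
  · obtain ⟨r₂, hr₂⟩ := hW (red₁ y)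
    obtain ⟨y', hy'⟩ := hred₁' r₂
    exact ⟨y', by rw [RingHom.mem_ker, map_sub, map_pow, h.h1β, hy', hr₂, sub_self]⟩

/-- **`TripleLoc` at a closed point on all three components** (chart level, `LevelMaps`). -/
theorem exists_tripleLoc_of_levelMaps
    (h : H83.LevelMaps red₁ red₂ red₃ red₁' red₂' α β W) {q m : ℕ} (hq : 0 < q) (hm : 0 < m)
    {qB : B} {qB' : B'} (hqα : α qB' = qB) (hqβ : β qB' = qB)
    (hthree : ∀ P : Ideal B, P.IsPrime → qB ∈ P →
      RingHom.ker red₁ ≤ P ∨ RingHom.ker red₂ ≤ P ∨ RingHom.ker red₃ ≤ P)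
    (hk1 : RingHom.ker red₁ ≠ ⊥) (hk2 : RingHom.ker red₂ ≠ ⊥) (hk3 : RingHom.ker red₃ ≠ ⊥)
    (hred₁' : Function.Surjective red₁') (hred₂' : Function.Surjective red₂')
    (hW : ∀ r : D, ∃ r₂ : D, W r₂ = r ^ q)
    (hq1' : red₁' qB' = 0) (hq2' : red₂' qB' = 0)
    (hintα : α.IsIntegral) (hintβ : β.IsIntegral)
    (a b : F1 →+* F2)
    (haα : ∀ x, a (algebraMap B' F1 x) = algebraMap B F2 (α x))
    (hbβ : ∀ x, b (algebraMap B' F1 x) = algebraMap B F2 (β x))
    (Na Nb : F2 →*₀ F1)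
    (hfda : letI := a.toAlgebra; FiniteDimensional F1 F2)
    (hNa : ∀ x : F2, Na x = (letI := a.toAlgebra; Algebra.norm F1 x))
    (hfdb : letI := b.toAlgebra; FiniteDimensional F1 F2)
    (hNb : ∀ x : F2, Nb x = (letI := b.toAlgebra; Algebra.norm F1 x))
    (P : Fin 3 → Ideal B) [hP : ∀ i, (P i).IsPrime] (hh : ∀ i, (P i).height = 1)
    (hP0 : P 0 = RingHom.ker red₁) (hP1 : P 1 = RingHom.ker red₂) (hP2 : P 2 = RingHom.ker red₃)
    {WF WV : ValuationSubring F1}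
    (haF : ∀ x, OneU WF x → OneU (H56.valuationSubringAt (K := F2) (P 0) (hh 0)) (a x))
    (haV : ∀ x, OneU WV x → OneU (H56.valuationSubringAt (K := F2) (P 2) (hh 2)) (a x))
    (hbV : ∀ x, OneU WV x → OneU (H56.valuationSubringAt (K := F2) (P 2) (hh 2)) (b x))
    (hbF : ∀ x, OneU WF x → OneU (H56.valuationSubringAt (K := F2) (P 0) (hh 0)) (b x))
    (n : Ideal B) [hn : n.IsMaximal] (hall : ∀ i, P i ≤ n)
    (hgena : NodeGen red₁' red₂' (n.comap α)) (hgenb : NodeGen red₁' red₂' (n.comap β))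
    {ζ ca cb : F1} (hζa : UnitIn (H21.locSubring (F := F1) (n.comap α)) ζ)
    (hζb : UnitIn (H21.locSubring (F := F1) (n.comap β)) ζ)
    (hca : UnitIn (H21.locSubring (F := F1) (n.comap α)) ca)
    (hcb : UnitIn (H21.locSubring (F := F1) (n.comap β)) cb) :
    ∃ (k : Type u5) (_ : Field k), TripleLoc a b Na Nb q m
      (fun i => H56.valuationSubringAt (K := F2) (P i) (hh i)) WF WV ζ ca cb k
      (H21.locSubring (F := F2) n) := by
  have h1n : RingHom.ker red₁ ≤ n := hP0 ▸ hall 0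
  have h2n : RingHom.ker red₂ ≤ n := hP1 ▸ hall 1
  have h3n : RingHom.ker red₃ ≤ n := hP2 ▸ hall 2
  obtain ⟨-, hnodeα⟩ := node_comap_α h n (Or.inl h1n) h3n
  obtain ⟨hnodeβ, -⟩ := node_comap_β h n h1n (Or.inl h2n)
  haveI hmaxα : (n.comap α).IsMaximal :=
    Ideal.isMaximal_comap_of_isIntegral_of_isMaximal' α hintα n
  haveI hmaxβ : (n.comap β).IsMaximal :=
    Ideal.isMaximal_comap_of_isIntegral_of_isMaximal' β hintβ n
  have huα : ∀ Q : Ideal B, Q.IsMaximal → Q.comap α = n.comap α → Q = n := fun Q hQ hQn =>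
    unique_over_α h hq hqα hthree hk1 hk2 hred₂' hW hq2' n hn hnodeα hgena Q hQ hQn
  have huβ : ∀ Q : Ideal B, Q.IsMaximal → Q.comap β = n.comap β → Q = n := fun Q hQ hQn =>
    unique_over_β h hq hqβ hthree hk2 hk3 hred₁' hW hq1' n hn hnodeβ hgenb Q hQ hQn
  have hNua := H47.unitIn_norm_locSubring_ringHom a Na hfda hNa α (fun b' => (haα b').symm)
    hintα (n.comap α) n huα
  have hNub := H47.unitIn_norm_locSubring_ringHom b Nb hfdb hNb β (fun b' => (hbβ b').symm)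
    hintβ (n.comap β) n huβ
  obtain ⟨c1, c2, c3, c4, c5, c6⟩ := compat_of_levelMaps h hred₁' hred₂' hW
  exact exists_tripleLoc_of_charts α β a b haα hbβ hm P hh haF haV hbV hbF n hall
    (n.comap α) (fun _ => Iff.rfl) (n.comap β) (fun _ => Iff.rfl) hNua hNub
    (by rw [hP0]; exact c1) (by rw [hP1]; exact c2) (by rw [hP2]; exact c3)
    (by rw [hP2]; exact c4) (by rw [hP1]; exact c5) (by rw [hP0]; exact c6)
    hζa hζb hca hcb

end Level

end Fermat.Agent.S36.H85
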