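/-
S36, row (r5) = (E6)-real (helper85): **`hpt` at a closed point of a level `q² L` chart**:
either at most one of the three vertical primes passes through the point, or all three do and we
have the local tower data `TripleLoc` (classification `ker_le_all_of_two` +
`exists_tripleLoc_of_levelMaps`).
-/
import Mathlib
import Fermat.Agent.S36.H85_TripleLocLevel

set_option autoImplicit false
set_option linter.unusedSectionVars false
set_option linter.style.haveILetI false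

namespace Fermat.Agent.S36.H85

open Fermat.Agent.S34 Fermat.Agent.S34.H47 Fermat.Agent.S36

section Hpt

universe u1 u3 u4 u5 u6

variable {B' : Type u1} {F1 : Type u3} [CommRing B'] [IsDomain B'] [Field F1] [Algebra B' F1]
  [IsFractionRing B' F1] [IsIntegrallyClosed B']
  {B : Type u4} {F2 : Type u5} [CommRing B] [IsDomain B] [Field F2] [Algebra B F2]
  [IsFractionRing B F2] [IsNoetherianRing B] [IsIntegrallyClosed B]
  {D : Type u6} [CommRing D] [IsDomain D]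
  {red₁ red₂ red₃ : B →+* D} {red₁' red₂' : B' →+* D} {α β : B' →+* B} {W : D →+* D}

omit [IsDomain B] [IsNoetherianRing B] [IsIntegrallyClosed B] in
theorem two_cases (P : Fin 3 → Ideal B) (n : Ideal B) {i j : Fin 3} (hij : i ≠ j)
    (hi : P i ≤ n) (hj : P j ≤ n) :
    (P 0 ≤ n ∧ P 1 ≤ n) ∨ (P 0 ≤ n ∧ P 2 ≤ n) ∨ (P 1 ≤ n ∧ P 2 ≤ n) := by
  fin_cases i <;> fin_cases j
  · exact absurd rfl hij
  · exact Or.inl ⟨hi, hj⟩
  · exact Or.inr (Or.inl ⟨hi, hj⟩)
  · exact Or.inl ⟨hj, hi⟩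
  · exact absurd rfl hij
  · exact Or.inr (Or.inr ⟨hi, hj⟩)
  · exact Or.inr (Or.inl ⟨hj, hi⟩)
  · exact Or.inr (Or.inr ⟨hj, hi⟩)
  · exact absurd rfl hij

/-- **`hpt` at a closed point of one chart.** -/
theorem hpt_of_levelMaps
    (h : H83.LevelMaps red₁ red₂ red₃ red₁' red₂' α β W) {q m : ℕ} (hq : 0 < q) (hm : 0 < m)
    {qB : B} {qB' : B'} (hqα : α qB' = qB) (hqβ : β qB' = qB)
    (hthree : ∀ P : Ideal B, P.IsPrime → qB ∈ P →
      RingHom.ker red₁ ≤ P ∨ RingHom.ker red₂ ≤ P ∨ RingHom.ker red₃ ≤ P)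
    (hk1 : RingHom.ker red₁ ≠ ⊥) (hk2 : RingHom.ker red₂ ≠ ⊥) (hk3 : RingHom.ker red₃ ≠ ⊥)
    (hred₁' : Function.Surjective red₁') (hred₂' : Function.Surjective red₂')
    (hW : ∀ r : D, ∃ r₂ : D, W r₂ = r ^ q)
    (hq1' : red₁' qB' = 0) (hq2' : red₂' qB' = 0)
    (hintα : α.IsIntegral) (hintβ : β.IsIntegral)
    (hgen : ∀ n' : Ideal B', n'.IsMaximal → RingHom.ker red₁' ≤ n' → RingHom.ker red₂' ≤ n' →
      NodeGen red₁' red₂' n')
    (a b : F1 →+* F2)
    (haα : ∀ x, a (algebraMap B' F1 x) = algebraMap B F2 (α x))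
    (hbβ : ∀ x, b (algebraMap B' F1 x) = algebraMap B F2 (β x))
    (Na Nb : F2 →*₀ F1)
    (hfda : letI := a.toAlgebra; FiniteDimensional F1 F2)
    (hNa : ∀ x : F2, Na x = (letI := a.toAlgebra; Algebra.norm F1 x))
    (hfdb : letI := b.toAlgebra; FiniteDimensional F1 F2)
    (hNb : ∀ x : F2, Nb x = (letI := b.toAlgebra; Algebra.norm F1 x))
    (P : Fin 3 → Ideal B) [hP : ∀ i, (P i).IsPrime] (hh : ∀ i, (P i).height = 1)
    (hP0 : P 0 = RingHom.ker red₁) (hP1 : P 1 = RingHom.ker red₂) (hP2 : P 2 = RingHom.ker red₃)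
    {WF WV : ValuationSubring F1}
    (haF : ∀ x, OneU WF x → OneU (H56.valuationSubringAt (K := F2) (P 0) (hh 0)) (a x))
    (haV : ∀ x, OneU WV x → OneU (H56.valuationSubringAt (K := F2) (P 2) (hh 2)) (a x))
    (hbV : ∀ x, OneU WV x → OneU (H56.valuationSubringAt (K := F2) (P 2) (hh 2)) (b x))
    (hbF : ∀ x, OneU WF x → OneU (H56.valuationSubringAt (K := F2) (P 0) (hh 0)) (b x))
    {ζ ca cb : F1}
    (hζ : ∀ (n' : Ideal B') [n'.IsPrime], UnitIn (H21.locSubring (F := F1) n') ζ)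
    (hca : ∀ (n' : Ideal B') [n'.IsPrime], UnitIn (H21.locSubring (F := F1) n') ca)
    (hcb : ∀ (n' : Ideal B') [n'.IsPrime], UnitIn (H21.locSubring (F := F1) n') cb)
    (n : Ideal B) [hn : n.IsMaximal] :
    (∃ i₀, ∀ i, P i ≤ n → i = i₀) ∨
      ((∀ i, P i ≤ n) ∧ ∃ (k : Type u5) (_ : Field k), TripleLoc a b Na Nb q m
        (fun i => H56.valuationSubringAt (K := F2) (P i) (hh i)) WF WV ζ ca cb k
        (H21.locSubring (F := F2) n)) := by
  by_cases hall : ∀ i, P i ≤ n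
  · right
    refine ⟨hall, ?_⟩
    have h1n : RingHom.ker red₁ ≤ n := hP0 ▸ hall 0
    have h2n : RingHom.ker red₂ ≤ n := hP1 ▸ hall 1
    have h3n : RingHom.ker red₃ ≤ n := hP2 ▸ hall 2
    obtain ⟨hα1, hα2⟩ := node_comap_α h n (Or.inl h1n) h3n
    obtain ⟨hβ1, hβ2⟩ := node_comap_β h n h1n (Or.inl h2n)
    have hmaxα : (n.comap α).IsMaximal :=
      Ideal.isMaximal_comap_of_isIntegral_of_isMaximal' α hintα n
    have hmaxβ : (n.comap β).IsMaximal :=
      Ideal.isMaximal_comap_of_isIntegral_of_isMaximal' β hintβ n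
    exact exists_tripleLoc_of_levelMaps h hq hm hqα hqβ hthree hk1 hk2 hk3 hred₁' hred₂' hW
      hq1' hq2' hintα hintβ a b haα hbβ Na Nb hfda hNa hfdb hNb P hh hP0 hP1 hP2 haF haV hbV hbF
      n hall (hgen _ hmaxα hα1 hα2) (hgen _ hmaxβ hβ1 hβ2) (hζ _) (hζ _) (hca _) (hcb _)
  · left
    have key : ∀ i j, i ≠ j → P i ≤ n → P j ≤ n → False := by
      intro i j hij hi hj
      apply hall
      have htwo := two_cases P n hij hi hj
      rw [hP0, hP1, hP2] at htwo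
      obtain ⟨c1, c2, c3⟩ := ker_le_all_of_two h hq hqα hqβ hthree hk1 hk2 hk3 hred₁' hred₂' hW
        hq1' hq2' hintα hintβ hgen n hn htwo
      intro i
      fin_cases i
      · exact hP0 ▸ c1
      · exact hP1 ▸ c2
      · exact hP2 ▸ c3
    by_cases hex : ∃ i, P i ≤ n
    · obtain ⟨i₀, hi₀⟩ := hex
      exact ⟨i₀, fun i hi => by_contra fun hne => key i i₀ hne hi hi₀⟩
    · exact ⟨0, fun i hi => absurd ⟨i, hi⟩ hex⟩

end Hpt

end Fermat.Agent.S36.H85
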