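/-
S36, row (r5) = (E6)-real (helper85): **`hpt` at a closed point of a level `q² L` chart, with NO
input from (M2)** (helper71's going-down uniqueness), in the FIXED residue field
`k = R ⧸ (π)` of helper84's `tripleLoc_of_charts` = the `hpt` shape of helper69's
`geo36_two_charts_const`.

* `unique_over_α_gd`, `unique_over_β_gd` : the closed point is the only prime above its image;
* `ker_le_all_of_two_gd` : two components through a closed point ⟹ all three;
* `hpt_of_levelMaps_fixed` : at most one vertical prime through `n`, or all three and `TripleLoc`.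
-/
import Mathlib
import Fermat.Agent.S36.H83_LevelMaps
import Fermat.Agent.S36.H71_UniqueAboveGD
import Fermat.Agent.S36.H84_TripleLocCharts
import Fermat.Agent.S36.H85_HptChart

set_option autoImplicit false
set_option linter.unusedSectionVars false
set_option linter.style.haveILetI false

namespace Fermat.Agent.S36.H85

open Fermat.Agent.S34 Fermat.Agent.S34.H47 Fermat.Agent.S36

section ClassGD

variable {B' B D : Type*} [CommRing B'] [IsDomain B'] [IsIntegrallyClosed B'] [CommRing B]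
  [IsDomain B] [IsNoetherianRing B] [CommRing D] [IsDomain D]
  {red₁ red₂ red₃ : B →+* D} {red₁' red₂' : B' →+* D} {α β : B' →+* B} {W : D →+* D}

/-- **Uniqueness above a point of `C₂'`, tower `α`** (going-down form). -/
theorem unique_over_α_gd (h : H83.LevelMaps red₁ red₂ red₃ red₁' red₂' α β W)
    (hαinj : Function.Injective α) (hintα : α.IsIntegral)
    {q : ℕ} (hq : 0 < q) {qB : B} {qB' : B'} (hqα : α qB' = qB)
    (hthree : ∀ P : Ideal B, P.IsPrime → qB ∈ P →
      RingHom.ker red₁ ≤ P ∨ RingHom.ker red₂ ≤ P ∨ RingHom.ker red₃ ≤ P)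
    (hred₂' : Function.Surjective red₂') (hW : ∀ r : D, ∃ r₂ : D, W r₂ = r ^ q)
    (hq2' : red₂' qB' = 0) {s₁ : B'} (hs11 : red₁' s₁ = 0) (hs12 : red₂' s₁ ≠ 0)
    (n : Ideal B) (hn : n.IsPrime) (hnode : RingHom.ker red₂' ≤ n.comap α)
    (P : Ideal B) (hP : P.IsPrime) (hPn : P.comap α = n.comap α) : P = n :=
  H71.eq_of_comap_eq_gd α hαinj hintα red₁ red₂ red₃ red₁' red₂' W q hq qB qB' hqα hthree
    h.h1α h.h2α h.h3α hred₂' hW (n.comap α) hnode hq2' s₁ hs11 hs12 P n hP hn hPn rfl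

/-- **Uniqueness above a point of `C₁'`, tower `β`** (going-down form). -/
theorem unique_over_β_gd (h : H83.LevelMaps red₁ red₂ red₃ red₁' red₂' α β W)
    (hβinj : Function.Injective β) (hintβ : β.IsIntegral)
    {q : ℕ} (hq : 0 < q) {qB : B} {qB' : B'} (hqβ : β qB' = qB)
    (hthree : ∀ P : Ideal B, P.IsPrime → qB ∈ P →
      RingHom.ker red₁ ≤ P ∨ RingHom.ker red₂ ≤ P ∨ RingHom.ker red₃ ≤ P)
    (hred₁' : Function.Surjective red₁') (hW : ∀ r : D, ∃ r₂ : D, W r₂ = r ^ q)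
    (hq1' : red₁' qB' = 0) {s₂ : B'} (hs22 : red₂' s₂ = 0) (hs21 : red₁' s₂ ≠ 0)
    (n : Ideal B) (hn : n.IsPrime) (hnode : RingHom.ker red₁' ≤ n.comap β)
    (P : Ideal B) (hP : P.IsPrime) (hPn : P.comap β = n.comap β) : P = n :=
  H71.eq_of_comap_eq_beta_gd β hβinj hintβ red₁ red₂ red₃ red₁' red₂' W q hq qB qB' hqβ hthree
    h.h1β h.h2β h.h3β hred₁' hW (n.comap β) hnode hq1' s₂ hs22 hs21 P n hP hn hPn rfl

/-- **Two components through a closed point ⟹ all three** (no (M2) input). -/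
theorem ker_le_all_of_two_gd (h : H83.LevelMaps red₁ red₂ red₃ red₁' red₂' α β W)
    (hαinj : Function.Injective α) (hβinj : Function.Injective β)
    (hintα : α.IsIntegral) (hintβ : β.IsIntegral)
    {q : ℕ} (hq : 0 < q) {qB : B} {qB' : B'} (hqα : α qB' = qB) (hqβ : β qB' = qB)
    (hthree : ∀ P : Ideal B, P.IsPrime → qB ∈ P →
      RingHom.ker red₁ ≤ P ∨ RingHom.ker red₂ ≤ P ∨ RingHom.ker red₃ ≤ P)
    (hred₁' : Function.Surjective red₁') (hred₂' : Function.Surjective red₂')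
    (hW : ∀ r : D, ∃ r₂ : D, W r₂ = r ^ q)
    (hq1' : red₁' qB' = 0) (hq2' : red₂' qB' = 0)
    {s₁ : B'} (hs11 : red₁' s₁ = 0) (hs12 : red₂' s₁ ≠ 0)
    {s₂ : B'} (hs22 : red₂' s₂ = 0) (hs21 : red₁' s₂ ≠ 0)
    (n : Ideal B) (hn : n.IsMaximal)
    (htwo : (RingHom.ker red₁ ≤ n ∧ RingHom.ker red₂ ≤ n) ∨
      (RingHom.ker red₁ ≤ n ∧ RingHom.ker red₃ ≤ n) ∨
      (RingHom.ker red₂ ≤ n ∧ RingHom.ker red₃ ≤ n)) :
    RingHom.ker red₁ ≤ n ∧ RingHom.ker red₂ ≤ n ∧ RingHom.ker red₃ ≤ n := by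
  rcases htwo with ⟨h1, h2⟩ | ⟨h1, h3⟩ | ⟨h2, h3⟩
  · refine ⟨h1, h2, ?_⟩
    obtain ⟨hn1, hn2⟩ := node_comap_β h n h1 (Or.inl h2)
    haveI hmax : (n.comap β).IsMaximal :=
      Ideal.isMaximal_comap_of_isIntegral_of_isMaximal' β hintβ n
    obtain ⟨Q, hIQ, hQmax, hQ⟩ := exists_maximal_over β hintβ (RingHom.ker red₃) (n.comap β)
      (by rw [h.comap_β_ker₃]; exact hn2)
    have := unique_over_β_gd h hβinj hintβ hq hqβ hthree hred₁' hW hq1' hs22 hs21 n hn.isPrime
      hn1 Q hQmax.isPrime hQ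
    rw [← this]
    exact hIQ
  · refine ⟨h1, ?_, h3⟩
    obtain ⟨hn1, hn2⟩ := node_comap_α h n (Or.inl h1) h3
    haveI hmax : (n.comap α).IsMaximal :=
      Ideal.isMaximal_comap_of_isIntegral_of_isMaximal' α hintα n
    obtain ⟨Q, hIQ, hQmax, hQ⟩ := exists_maximal_over α hintα (RingHom.ker red₂) (n.comap α)
      (by rw [h.comap_α_ker₂]; exact hn1)
    have := unique_over_α_gd h hαinj hintα hq hqα hthree hred₂' hW hq2' hs11 hs12 n hn.isPrime
      hn2 Q hQmax.isPrime hQ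
    rw [← this]
    exact hIQ
  · refine ⟨?_, h2, h3⟩
    obtain ⟨hn1, hn2⟩ := node_comap_α h n (Or.inr h2) h3
    haveI hmax : (n.comap α).IsMaximal :=
      Ideal.isMaximal_comap_of_isIntegral_of_isMaximal' α hintα n
    obtain ⟨Q, hIQ, hQmax, hQ⟩ := exists_maximal_over α hintα (RingHom.ker red₁) (n.comap α)
      (by rw [h.comap_α_ker₁]; exact hn1)
    have := unique_over_α_gd h hαinj hintα hq hqα hthree hred₂' hW hq2' hs11 hs12 n hn.isPrime
      hn2 Q hQmax.isPrime hQ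
    rw [← this]
    exact hIQ

end ClassGD

section HptFixed

variable {R B' F1 B F2 D : Type*} [CommRing R]
  [CommRing B'] [IsDomain B'] [Field F1] [Algebra B' F1] [IsFractionRing B' F1]
  [IsNoetherianRing B'] [IsIntegrallyClosed B']
  [CommRing B] [IsDomain B] [Field F2] [Algebra B F2] [IsFractionRing B F2]
  [IsNoetherianRing B] [IsIntegrallyClosed B]
  [Algebra R F1] [Algebra R F2] [Algebra R B'] [Algebra R B]
  [IsScalarTower R B' F1] [IsScalarTower R B F2]
  [CommRing D] [IsDomain D]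
  {red₁ red₂ red₃ : B →+* D} {red₁' red₂' : B' →+* D} {α β : B' →+* B} {W : D →+* D}

/-- **`hpt` at a closed point of one chart, fixed residue field `R ⧸ (π)`, no (M2) input.** -/
theorem hpt_of_levelMaps_fixed
    (h : H83.LevelMaps red₁ red₂ red₃ red₁' red₂' α β W) {q m : ℕ} (hq : 0 < q) (hm : 0 < m)
    {qB : B} {qB' : B'} (hqα : α qB' = qB) (hqβ : β qB' = qB)
    (hthree : ∀ P : Ideal B, P.IsPrime → qB ∈ P →
      RingHom.ker red₁ ≤ P ∨ RingHom.ker red₂ ≤ P ∨ RingHom.ker red₃ ≤ P)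
    (hred₁' : Function.Surjective red₁') (hred₂' : Function.Surjective red₂')
    (hW : ∀ r : D, ∃ r₂ : D, W r₂ = r ^ q)
    (hq1' : red₁' qB' = 0) (hq2' : red₂' qB' = 0)
    (hintα : α.IsIntegral) (hintβ : β.IsIntegral)
    {s₁ : B'} (hs11 : red₁' s₁ = 0) (hs12 : red₂' s₁ ≠ 0)
    {s₂ : B'} (hs22 : red₂' s₂ = 0) (hs21 : red₁' s₂ ≠ 0)
    (a b : F1 →+* F2)
    (haα : ∀ x, algebraMap B F2 (α x) = a (algebraMap B' F1 x))
    (hbβ : ∀ x, algebraMap B F2 (β x) = b (algebraMap B' F1 x))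
    (hαR : ∀ c : R, α (algebraMap R B' c) = algebraMap R B c)
    (hβR : ∀ c : R, β (algebraMap R B' c) = algebraMap R B c)
    (Na Nb : F2 →*₀ F1)
    (hfda : letI := a.toAlgebra; FiniteDimensional F1 F2)
    (hNa : ∀ x : F2, Na x = (letI := a.toAlgebra; Algebra.norm F1 x))
    (hfdb : letI := b.toAlgebra; FiniteDimensional F1 F2)
    (hNb : ∀ x : F2, Nb x = (letI := b.toAlgebra; Algebra.norm F1 x))
    (P : Fin 3 → Ideal B) [hP : ∀ i, (P i).IsPrime] (hh : ∀ i, (P i).height = 1)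
    (hP0 : P 0 = RingHom.ker red₁) (hP1 : P 1 = RingHom.ker red₂) (hP2 : P 2 = RingHom.ker red₃)
    (P'F P'V : Ideal B') [hP'F : P'F.IsPrime] [hP'V : P'V.IsPrime]
    (hF : P'F.height = 1) (hV : P'V.height = 1)
    (hP'F1 : P'F = RingHom.ker red₁') (hP'V2 : P'V = RingHom.ker red₂')
    {V : Fin 3 → ValuationSubring F2} {WF WV : ValuationSubring F1}
    (hVeq : ∀ i, V i = H56.valuationSubringAt (K := F2) (P i) (hh i))
    (hWF : WF = H56.valuationSubringAt (K := F1) P'F hF)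
    (hWV : WV = H56.valuationSubringAt (K := F1) P'V hV)
    (π : R) [hπ : (Ideal.span {π}).IsMaximal]
    {ζ ca cb : F1}
    (hζ : ∀ (n' : Ideal B') [n'.IsPrime], UnitIn (H21.locSubring (F := F1) n') ζ)
    (hca : ∀ (n' : Ideal B') [n'.IsPrime], UnitIn (H21.locSubring (F := F1) n') ca)
    (hcb : ∀ (n' : Ideal B') [n'.IsPrime], UnitIn (H21.locSubring (F := F1) n') cb)
    (n : Ideal B) [hn : n.IsMaximal] (hπn : algebraMap R B π ∈ n)
    (hresB : ∀ b : B, ∃ c : R, b - algebraMap R B c ∈ n) :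
    letI : Field (R ⧸ Ideal.span {π}) := Ideal.Quotient.field _
    (∃ i₀, ∀ i, P i ≤ n → i = i₀) ∨
      ((∀ i, P i ≤ n) ∧ TripleLoc a b Na Nb q m V WF WV ζ ca cb (R ⧸ Ideal.span {π})
        (H21.locSubring (F := F2) n)) := by
  letI : Field (R ⧸ Ideal.span {π}) := Ideal.Quotient.field _
  have hαinj : Function.Injective α := H71.injective_of_field_compat a α haα
  have hβinj : Function.Injective β := H71.injective_of_field_compat b β hbβ
  by_cases hall : ∀ i, P i ≤ n
  · right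
    refine ⟨hall, ?_⟩
    have h1n : RingHom.ker red₁ ≤ n := hP0 ▸ hall 0
    have h2n : RingHom.ker red₂ ≤ n := hP1 ▸ hall 1
    have h3n : RingHom.ker red₃ ≤ n := hP2 ▸ hall 2
    obtain ⟨hα1, hα2⟩ := node_comap_α h n (Or.inl h1n) h3n
    obtain ⟨hβ1, hβ2⟩ := node_comap_β h n h1n (Or.inl h2n)
    haveI hmaxα : (n.comap α).IsMaximal :=
      Ideal.isMaximal_comap_of_isIntegral_of_isMaximal' α hintα n
    haveI hmaxβ : (n.comap β).IsMaximal :=
      Ideal.isMaximal_comap_of_isIntegral_of_isMaximal' β hintβ n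
    -- norms of units
    have hNua := H71.hNunit_alpha_gd a Na hfda hNa α haα hintα red₁ red₂ red₃ red₁' red₂' W q hq
      qB qB' hqα hthree h.h1α h.h2α h.h3α hred₂' hW n (n.comap α) rfl hα2 hq2' s₁ hs11 hs12
    have hNub := H71.hNunit_beta_gd b Nb hfdb hNb β hbβ hintβ red₁ red₂ red₃ red₁' red₂' W q hq
      qB qB' hqβ hthree h.h1β h.h2β h.h3β hred₁' hW n (n.comap β) rfl hβ1 hq1' s₂ hs22 hs21
    obtain ⟨c1, c2, c3, c4, c5, c6⟩ := compat_of_levelMaps h hred₁' hred₂' hW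
    -- `R`-linearity of `a`, `b`
    have haR : ∀ c : R, a (algebraMap R F1 c) = algebraMap R F2 c := fun c => by
      rw [IsScalarTower.algebraMap_apply R B' F1, ← haα, hαR,
        ← IsScalarTower.algebraMap_apply R B F2]
    have hbR : ∀ c : R, b (algebraMap R F1 c) = algebraMap R F2 c := fun c => by
      rw [IsScalarTower.algebraMap_apply R B' F1, ← hbβ, hβR,
        ← IsScalarTower.algebraMap_apply R B F2]
    -- rationality below
    have hπa : algebraMap R B' π ∈ n.comap α := by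
      rw [Ideal.mem_comap, hαR]; exact hπn
    have hπb : algebraMap R B' π ∈ n.comap β := by
      rw [Ideal.mem_comap, hβR]; exact hπn
    have hresa : ∀ b' : B', ∃ c : R, b' - algebraMap R B' c ∈ n.comap α := fun b' => by
      obtain ⟨c, hc⟩ := hresB (α b')
      exact ⟨c, by rw [Ideal.mem_comap, map_sub, hαR]; exact hc⟩
    have hresb : ∀ b' : B', ∃ c : R, b' - algebraMap R B' c ∈ n.comap β := fun b' => by
      obtain ⟨c, hc⟩ := hresB (β b')
      exact ⟨c, by rw [Ideal.mem_comap, map_sub, hβR]; exact hc⟩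
    have hπnu : ¬ UnitIn (H21.locSubring (F := F2) n) (algebraMap R F2 π) := by
      rw [IsScalarTower.algebraMap_apply R B F2]
      exact H84.not_unitIn_algebraMap_of_mem n hπn
    exact H84.tripleLoc_of_charts a b Na Nb α β haα hbβ haR hbR n (n.comap α) (n.comap β)
      (fun _ => Iff.rfl) (fun _ => Iff.rfl) P hh hall P'F P'V hF hV
      (hP'F1 ▸ hα1) (hP'V2 ▸ hα2) (hP'F1 ▸ hβ1) (hP'V2 ▸ hβ2) hVeq hWF hWV hm
      (fun x => by
        obtain ⟨x', hx'⟩ := c1 x
        exact ⟨x', by rw [hP0]; have := (RingHom.ker red₁).neg_mem hx'; rwa [neg_sub] at this⟩)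
      (fun x => by
        obtain ⟨x', hx'⟩ := c2 x
        exact ⟨x', by rw [hP1]; have := (RingHom.ker red₂).neg_mem hx'; rwa [neg_sub] at this⟩)
      (fun x => by
        obtain ⟨x', hx'⟩ := c3 x
        exact ⟨x', by rw [hP2]; have := (RingHom.ker red₃).neg_mem hx'; rwa [neg_sub] at this⟩)
      (fun x => by
        obtain ⟨x', hx'⟩ := c4 x
        exact ⟨x', by rw [hP2]; have := (RingHom.ker red₃).neg_mem hx'; rwa [neg_sub] at this⟩)
      (fun x => by
        obtain ⟨x', hx'⟩ := c5 x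
        exact ⟨x', by rw [hP1]; have := (RingHom.ker red₂).neg_mem hx'; rwa [neg_sub] at this⟩)
      (fun x => by
        obtain ⟨x', hx'⟩ := c6 x
        exact ⟨x', by rw [hP0]; have := (RingHom.ker red₁).neg_mem hx'; rwa [neg_sub] at this⟩)
      hNua hNub π
      (H84.algebraMap_base_mem_locSubring n) (H84.algebraMap_base_mem_locSubring (n.comap α))
      (H84.algebraMap_base_mem_locSubring (n.comap β)) hπnu
      (H84.hres_locSubring n π hπn hresB) (H84.hres_locSubring (n.comap α) π hπa hresa)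
      (H84.hres_locSubring (n.comap β) π hπb hresb) (hζ _) (hζ _) (hca _) (hcb _)
  · left
    have key : ∀ i j, i ≠ j → P i ≤ n → P j ≤ n → False := by
      intro i j hij hi hj
      apply hall
      have htwo := two_cases P n hij hi hj
      rw [hP0, hP1, hP2] at htwo
      obtain ⟨c1, c2, c3⟩ := ker_le_all_of_two_gd h hαinj hβinj hintα hintβ hq hqα hqβ hthree
        hred₁' hred₂' hW hq1' hq2' hs11 hs12 hs22 hs21 n hn htwo
      intro i
      fin_cases i
      · exact hP0 ▸ c1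
      · exact hP1 ▸ c2
      · exact hP2 ▸ c3
    by_cases hex : ∃ i, P i ≤ n
    · obtain ⟨i₀, hi₀⟩ := hex
      exact ⟨i₀, fun i hi => by_contra fun hne => key i i₀ hne hi hi₀⟩
    · exact ⟨0, fun i hi => absurd ⟨i, hi⟩ hex⟩

end HptFixed

end Fermat.Agent.S36.H85
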