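/-
S36, row (r5) (helper85): **`hpt` for the two-chart model from `hpt` on chart 1 alone**
(helper71's seam warning #3456: the chart maps are integral on chart 1 only).

A closed point `n` of chart 2 either lies at infinity (`Jinv ∈ n`: at most one vertical prime
through it, `H85.exists_unique_branch_of_cusp`), or it is also a closed point `n1` of chart 1 with
the same local ring and the same incidences (helper71's `H71_OverlapPoint`), and `hpt` at `n1`
transfers.  `Q` = the property of the local ring required at the triple points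
(`TripleLoc .. k O`, or `∃ k, TripleLoc .. k O`, with or without `TripleLift`).
-/
import Mathlib
import Fermat.Agent.S34.H21_ModelHypCharts

set_option autoImplicit false
set_option linter.unusedSectionVars false
set_option linter.style.haveILetI false

namespace Fermat.Agent.S36.H85

open Fermat.Agent.S34

section TwoCharts

variable {R F : Type*} [CommRing R] [IsDomain R] [IsDiscreteValuationRing R]
  [Field F] [Algebra R F]
  {B₁ B₂ : Subalgebra R F} [IsFractionRing B₁ F] [IsFractionRing B₂ F]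
  {π : R} {κ : Type*} (P₁ : κ → Ideal B₁) (P₂ : κ → Ideal B₂)

/-- **`hpt` on both charts from `hpt` on chart 1.** -/
theorem hpt_two_charts_of_first (Q : Subring F → Prop) (Jinv : B₂)
    (h1 : ∀ n1 : H21.ClosedPt B₁ π, (∃ i₀, ∀ i, P₁ i ≤ n1.1 → i = i₀) ∨
      ((∀ i, P₁ i ≤ n1.1) ∧ Q (H21.ptO B₁ B₂ π (Sum.inl n1))))
    (hcusp : ∀ n : H21.ClosedPt B₂ π, Jinv ∈ n.1 → ∃ i₀, ∀ i, P₂ i ≤ n.1 → i = i₀)
    (hoverlap : ∀ n : H21.ClosedPt B₂ π, Jinv ∉ n.1 → ∃ n1 : H21.ClosedPt B₁ π,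
      H21.ptO B₁ B₂ π (Sum.inl n1) = H21.ptO B₁ B₂ π (Sum.inr n) ∧
      ∀ i, P₁ i ≤ n1.1 ↔ P₂ i ≤ n.1) :
    ∀ n, (∃ i₀, ∀ i, H21.primeThr (π := π) P₁ P₂ n i → i = i₀) ∨
      ((∀ i, H21.primeThr (π := π) P₁ P₂ n i) ∧ Q (H21.ptO B₁ B₂ π n)) := by
  rintro (n | n)
  · exact h1 n
  · by_cases hJ : Jinv ∈ n.1
    · exact Or.inl (hcusp n hJ)
    · obtain ⟨n1, hO, hinc⟩ := hoverlap n hJ
      rcases h1 n1 with ⟨i₀, hi₀⟩ | ⟨hall, hQ⟩
      · exact Or.inl ⟨i₀, fun i hi => hi₀ i ((hinc i).2 hi)⟩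
      · refine Or.inr ⟨fun i => (hinc i).1 (hall i), ?_⟩
        rw [← hO]
        exact hQ

end TwoCharts

end Fermat.Agent.S36.H85
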