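/-
helper18 — S36 row (E7), real-types wiring, part (r5): **the `hpt` binder of
`H18.geoFn36E_of_twoCharts` from the row outputs**: helper85's
`S36.H85.hpt_two_charts_of_first` with

* chart 1: `S36.H85.hpt_of_levelMaps_fixed` (LevelMaps + integrality of the two chart maps on
  chart 1, no (M2) input), residue field `R ⧸ (q)`;
* the points at infinity of chart 2: the hypothesis `hcusp` ((OVL-b));
* the other points of chart 2: `H18.hoverlap_of_glue` ((OVL-a), helper62);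
* the constants `ζ`, `ca`, `cb`: units of `R = cutOver A E0`, hence of every local ring of the
  level-`q L` chart.
-/
import Mathlib
import Fermat.Agent.S36.H18_Geo36Adapters
import Fermat.Agent.S36.H18_Geo36Consts
import Fermat.Agent.S36.H85_HptFixed
import Fermat.Agent.S36.H85_HptTwoCharts
import Fermat.Agent.S36.H69_Geo36Const

set_option autoImplicit false
set_option linter.unusedSectionVars false
set_option linter.style.haveILetI false
set_option synthInstance.maxHeartbeats 400000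

noncomputable section

namespace Fermat.Agent.S36.H18

open ModularCurve AlgebraicCurve IntermediateField
open Fermat.Agent.S18 Fermat.Agent.S18.H45 Fermat.Agent.S34 Fermat.Agent.S34.H47
open Fermat.Agent.S36.H83 Fermat.Agent.S36.H85 Fermat.Agent.S36.H69

local notation "Qbar" => AlgebraicClosure ℚ

section Units

variable {q : ℕ} {A : ValuationSubring Qbar}
  (E0 : IntermediateField (unrCyclo q) Qbar)
  {F1 B' : Type*} [Field F1] [Algebra ↥E0 F1] [CommRing B'] [IsDomain B'] [Algebra B' F1]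
  [IsFractionRing B' F1] [Algebra ↥(cutOver A E0) B'] [Algebra ↥(cutOver A E0) F1]
  [IsScalarTower ↥(cutOver A E0) B' F1] [IsScalarTower ↥(cutOver A E0) ↥E0 F1]

/-- A unit of `R = cutOver A E0` is a unit of every local ring of an `R`-chart. -/
theorem unitIn_locSubring_of_valuation_eq_one (n' : Ideal B') [hn' : n'.IsPrime] {c : ↥E0}
    (hc : (cutOver A E0).valuation c = 1) :
    UnitIn (H21.locSubring (F := F1) n') (algebraMap ↥E0 F1 c) := by
  have hc0 : c ≠ 0 := by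
    rintro rfl
    rw [map_zero] at hc
    exact zero_ne_one hc
  have key : ∀ x : ↥E0, (cutOver A E0).valuation x ≤ 1 →
      algebraMap ↥E0 F1 x ∈ H21.locSubring (F := F1) n' := by
    intro x hx
    have hxR : x ∈ cutOver A E0 := ((cutOver A E0).valuation_le_one_iff x).mp hx
    have e : algebraMap ↥E0 F1 x =
        algebraMap B' F1 (algebraMap ↥(cutOver A E0) B' ⟨x, hxR⟩) := by
      rw [← IsScalarTower.algebraMap_apply ↥(cutOver A E0) B' F1,
        IsScalarTower.algebraMap_apply ↥(cutOver A E0) ↥E0 F1]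
      rfl
    rw [e]
    exact H21.algebraMap_mem_locSubring (F := F1) n' _
  refine ⟨key c hc.le, ?_, (map_ne_zero _).mpr hc0⟩
  rw [← map_inv₀]
  exact key c⁻¹ (by rw [map_inv₀, hc, inv_one])

end Units

section Real

variable (L q : ℕ) [NeZero L] [NeZero q] (hq : q.Prime)
  {A : ValuationSubring Qbar} (hA : A.LiesOverPrime q)
  (E0 : IntermediateField (unrCyclo q) Qbar) [FiniteDimensional (unrCyclo q) E0]
  (hfix : ∀ σ ∈ A.inertiaSubgroupIn ℚ, ∀ x : E0, σ ((x : E0) : Qbar) = ((x : E0) : Qbar))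

set_option quotPrecheck false
local notation "F₁" => ↥(modularFunctionFieldFullC ↥E0 (q * L))
local notation "F₂" => ↥(modularFunctionFieldFullC ↥E0 (q * (q * L)))
local notation "RR" => ↥(cutOver A E0)
local notation "aα" => alphaK ↥E0 (q * L) (q * (q * L)) (dvd_mul_left (q * L) q)
local notation "bβ" => betaK ↥E0 q (q * L) (q * (q * L)) dvd_rfl
local notation "Nα" => normAlphaK ↥E0 (q * L) (q * (q * L)) (dvd_mul_left (q * L) q)
local notation "Nβ" => normBetaK ↥E0 q (q * L) (q * (q * L)) dvd_rfl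
local notation "πq" => (((q : ℕ) : ↥(cutOver A E0)))

set_option maxHeartbeats 6400000 in
include hq hA hfix in
/-- **(r5) at the real types.** -/
theorem hpt_real {m : ℕ} (hm : 0 < m)
    {B₁ B₂ : Subalgebra RR F₂} [IsFractionRing B₁ F₂] [IsFractionRing B₂ F₂]
    [IsNoetherianRing B₁] [IsNoetherianRing B₂] [IsIntegrallyClosed B₁] [IsIntegrallyClosed B₂]
    (P₁ : Fin 3 → Ideal B₁) (P₂ : Fin 3 → Ideal B₂)
    [hP₁ : ∀ i, (P₁ i).IsPrime] [hP₂ : ∀ i, (P₂ i).IsPrime]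
    (hh₁ : ∀ i, (P₁ i).height = 1) (hh₂ : ∀ i, (P₂ i).height = 1)
    (hVeq : ∀ i, H56.valuationSubringAt (K := F₂) (P₁ i) (hh₁ i) =
      H56.valuationSubringAt (K := F₂) (P₂ i) (hh₂ i))
    -- the level-`q L` chart below chart 1
    {B' : Type} [CommRing B'] [IsDomain B'] [Algebra B' F₁] [IsFractionRing B' F₁]
    [IsNoetherianRing B'] [IsIntegrallyClosed B'] [Algebra RR B'] [IsScalarTower RR B' F₁]
    -- chart 1: (E2) + (E2-lvl) + (E2-int)
    {D : Type*} [CommRing D] [IsDomain D]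
    {red₁ red₂ red₃ : B₁ →+* D} {red₁' red₂' : B' →+* D} {α β : B' →+* B₁} {W : D →+* D}
    (hL : LevelMaps red₁ red₂ red₃ red₁' red₂' α β W)
    {qB' : B'} (hqα : α qB' = algebraMap RR B₁ πq) (hqβ : β qB' = algebraMap RR B₁ πq)
    (hthree : ∀ P : Ideal B₁, P.IsPrime → algebraMap RR B₁ πq ∈ P →
      RingHom.ker red₁ ≤ P ∨ RingHom.ker red₂ ≤ P ∨ RingHom.ker red₃ ≤ P)
    (hred₁' : Function.Surjective red₁') (hred₂' : Function.Surjective red₂')
    (hW : ∀ r : D, ∃ r₂ : D, W r₂ = r ^ q)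
    (hq1' : red₁' qB' = 0) (hq2' : red₂' qB' = 0)
    (hintα : α.IsIntegral) (hintβ : β.IsIntegral)
    {s₁ : B'} (hs11 : red₁' s₁ = 0) (hs12 : red₂' s₁ ≠ 0)
    {s₂ : B'} (hs22 : red₂' s₂ = 0) (hs21 : red₁' s₂ ≠ 0)
    (haα : ∀ x, algebraMap B₁ F₂ (α x) = aα (algebraMap B' F₁ x))
    (hbβ : ∀ x, algebraMap B₁ F₂ (β x) = bβ (algebraMap B' F₁ x))
    (hαR : ∀ c : RR, α (algebraMap RR B' c) = algebraMap RR B₁ c)
    (hβR : ∀ c : RR, β (algebraMap RR B' c) = algebraMap RR B₁ c)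
    (hP0 : P₁ 0 = RingHom.ker red₁) (hP1 : P₁ 1 = RingHom.ker red₂)
    (hP2 : P₁ 2 = RingHom.ker red₃)
    (P'F P'V : Ideal B') [hP'F : P'F.IsPrime] [hP'V : P'V.IsPrime]
    (hF : P'F.height = 1) (hV : P'V.height = 1)
    (hP'F1 : P'F = RingHom.ker red₁') (hP'V2 : P'V = RingHom.ker red₂')
    (hresB₁ : ∀ n : H21.ClosedPt B₁ πq, ∀ b : B₁, ∃ c : RR, b - algebraMap RR B₁ c ∈ n.1)
    -- the two coordinates, the overlap and the cusps of chart 2
    (J₁ : B₁) (J₂ : B₂) (hJ : (J₁ : F₂) * (J₂ : F₂) = 1)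
    (hint₁ : ∀ b : B₁, IsIntegral (Algebra.adjoin RR {(J₁ : F₂)}) (b : F₂))
    (hint₂ : ∀ b : B₂, IsIntegral (Algebra.adjoin RR {(J₂ : F₂)}) (b : F₂))
    (hresB₂ : ∀ n : H21.ClosedPt B₂ πq, ∀ b : B₂, ∃ c : RR, b - algebraMap RR B₂ c ∈ n.1)
    (hcusp : ∀ n₂ : H21.ClosedPt B₂ πq, J₂ ∈ n₂.1 →
      ∃ i₀ : Fin 3, ∀ i, P₂ i ≤ n₂.1 → i = i₀) :
    ∀ ζ : ↥E0, IsPrimitiveRoot ζ m → (cutOver A E0).valuation ζ = 1 →
      ∀ ca cb : ↥E0,
        NormalisedConst (cutOver A E0) (H56.valuationSubringAt (K := F₁) P'F hF)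
          (H56.valuationSubringAt (K := F₁) P'V hV) ca →
        NormalisedConst (cutOver A E0) (H56.valuationSubringAt (K := F₁) P'F hF)
          (H56.valuationSubringAt (K := F₁) P'V hV) cb → ∀ n,
      (∃ i₀, ∀ i, H21.primeThr (π := πq) P₁ P₂ n i → i = i₀) ∨
      ((∀ i, H21.primeThr (π := πq) P₁ P₂ n i) ∧ ∃ (κ : Type) (_ : Field κ),
        TripleLoc aα bβ Nα Nβ q m
          (fun i => H56.valuationSubringAt (K := F₂) (P₁ i) (hh₁ i))
          (H56.valuationSubringAt (K := F₁) P'F hF) (H56.valuationSubringAt (K := F₁) P'V hV)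
          (algebraMap ↥E0 F₁ ζ) (algebraMap ↥E0 F₁ ca) (algebraMap ↥E0 F₁ cb) κ
          (H21.ptO B₁ B₂ πq n)) := by
  intro ζ _ hζ1 ca cb hca hcb
  haveI := isDiscreteValuationRing_cutOver hq hA E0
  have hπ : Irreducible πq := S36.H45.irreducible_natCast_cutOver_of_fixed hq hA E0 hfix
  have hmaxeq := S36.H45.maximalIdeal_cutOver_eq_span_natCast_of_fixed hq hA E0 hfix
  haveI hmax : (Ideal.span {πq}).IsMaximal := by
    rw [← hmaxeq]
    exact IsLocalRing.maximalIdeal.isMaximal _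
  have hNK : (((q * (q * L) : ℕ) : ℕ) : ↥E0) ≠ 0 :=
    Nat.cast_ne_zero.mpr (NeZero.ne (q * (q * L)))
  have hqN1 : q ∣ q * L := dvd_mul_right q L
  -- the two norms
  have hfda : (letI := (aα).toAlgebra; FiniteDimensional F₁ F₂) :=
    S36.H16.finiteDimensional_fullC_prime_dvd ↥E0 (q * L) (q * (q * L))
      (dvd_mul_left (q * L) q) q hq hqN1 rfl hNK
  have hNa : ∀ x : F₂, Nα x = (letI := (aα).toAlgebra; Algebra.norm F₁ x) := by
    intro x
    letI := H16.degAlgebra ↥E0 (q * L) (q * (q * L)) (dvd_mul_left (q * L) q)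
    haveI := S36.H16.finiteDimensional_fullC_prime_dvd ↥E0 (q * L) (q * (q * L))
      (dvd_mul_left (q * L) q) q hq hqN1 rfl hNK
    exact normZ_eq_norm x
  have hfdb : (letI := (bβ).toAlgebra; FiniteDimensional F₁ F₂) :=
    S36.H16.finiteDimensional_vSub_dvd ↥E0 (q * L) (q * (q * L)) q hq hqN1 rfl hNK
  have hNb : ∀ x : F₂, Nβ x = (letI := (bβ).toAlgebra; Algebra.norm F₁ x) := by
    intro x
    letI := S35.H16.vAlgebra ↥E0 q (q * L) (q * (q * L)) dvd_rfl
    haveI := S36.H16.finiteDimensional_vSub_dvd ↥E0 (q * L) (q * (q * L)) q hq hqN1 rfl hNK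
    exact normZ_eq_norm x
  -- chart 1
  have h1 : ∀ n1 : H21.ClosedPt B₁ πq, (∃ i₀, ∀ i, P₁ i ≤ n1.1 → i = i₀) ∨
      ((∀ i, P₁ i ≤ n1.1) ∧ (fun O : Subring F₂ => ∃ (κ : Type) (_ : Field κ),
        TripleLoc aα bβ Nα Nβ q m
          (fun i => H56.valuationSubringAt (K := F₂) (P₁ i) (hh₁ i))
          (H56.valuationSubringAt (K := F₁) P'F hF) (H56.valuationSubringAt (K := F₁) P'V hV)
          (algebraMap ↥E0 F₁ ζ) (algebraMap ↥E0 F₁ ca) (algebraMap ↥E0 F₁ cb) κ O)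
        (H21.ptO B₁ B₂ πq (Sum.inl n1))) := by
    intro n1
    haveI := n1.2.1
    have k := hpt_of_levelMaps_fixed (R := RR) (B' := B') (F1 := F₁) (B := ↥B₁) (F2 := F₂)
      hL hq.pos hm hqα hqβ hthree hred₁' hred₂' hW hq1' hq2' hintα hintβ hs11 hs12 hs22 hs21
      aα bβ haα hbβ hαR hβR Nα Nβ hfda hNa hfdb hNb P₁ hh₁ hP0 hP1 hP2 P'F P'V hF hV hP'F1
      hP'V2 (V := fun i => H56.valuationSubringAt (K := F₂) (P₁ i) (hh₁ i))
      (WF := H56.valuationSubringAt (K := F₁) P'F hF)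
      (WV := H56.valuationSubringAt (K := F₁) P'V hV) (fun _ => rfl) rfl rfl πq
      (ζ := algebraMap ↥E0 F₁ ζ) (ca := algebraMap ↥E0 F₁ ca) (cb := algebraMap ↥E0 F₁ cb)
      (fun n' _ => unitIn_locSubring_of_valuation_eq_one (A := A) E0 n' hζ1)
      (fun n' _ => unitIn_locSubring_of_valuation_eq_one (A := A) E0 n' hca.1)
      (fun n' _ => unitIn_locSubring_of_valuation_eq_one (A := A) E0 n' hcb.1)
      n1.1 n1.2.2 (hresB₁ n1)
    rcases k with k | ⟨k1, k2⟩
    · exact Or.inl k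
    · exact Or.inr ⟨k1, RR ⧸ Ideal.span {πq}, Ideal.Quotient.field _, k2⟩
  have key := hpt_two_charts_of_first (π := πq) P₁ P₂
    (fun O : Subring F₂ => ∃ (κ : Type) (_ : Field κ),
        TripleLoc aα bβ Nα Nβ q m
          (fun i => H56.valuationSubringAt (K := F₂) (P₁ i) (hh₁ i))
          (H56.valuationSubringAt (K := F₁) P'F hF) (H56.valuationSubringAt (K := F₁) P'V hV)
          (algebraMap ↥E0 F₁ ζ) (algebraMap ↥E0 F₁ ca) (algebraMap ↥E0 F₁ cb) κ O)
    J₂ h1 hcusp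
    (fun n hn => hoverlap_of_glue B₁ B₂ πq P₁ P₂ hh₁ hh₂ hVeq hπ J₁ J₂ hJ hint₁ hint₂ hresB₂ n hn)
  exact key

end Real

end Fermat.Agent.S36.H18
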