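/-
helper18 — S36 row (E7), **the skeleton at the real types**.

`geoFn36E_of_radicalDatum` : helper69's generic skeleton `S36.H69.geo36_of_radicalDatum`
instantiated at

* `K := ↥E0` (`E0 / unrCyclo q` finite, pointwise fixed by the inertia group of `A`),
  `R := cutOver A E0` (a valuation subring of `K`), uniformiser `q`;
* `F1 := F_K(q L)`, `F2 := F_K(q (q L))`, `a := alphaK`, `b := betaK`, `Na := normAlphaK`,
  `Nb := normBetaK`, `m := p ^ k`, `d := q`;
* `U := OneUR E0` (the `1`-units of `R`),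

with the whole CONSTANTS block discharged (`hNaK hNbK hUF hUV hζ hζF hζV hab hconstα hconstβ`,
from `H18_Geo36Consts`) and the conclusion in the form `H18.GeoFn36E` consumed by
`H18.ifGeo36_of_model`.  What remains as hypotheses is exactly the model-side output of the rows
(E1) `crit`, (E3) `hE3`, (E4) `hE4`, (E5) `hE5`, (E6) `HVa HVb hOV happrox hbr hpt`, plus the
"lies over `R`, `q` is a uniformiser" facts for the two vertical valuations `WF`, `WV` of `F1`.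
-/
import Mathlib
import Fermat.Agent.S36.H18_Geo36Consts
import Fermat.Agent.S36.H18_Geo36Seam
import Fermat.Agent.S36.H69_Geo36Skeleton

set_option autoImplicit false
set_option linter.unusedSectionVars false
set_option linter.style.haveILetI false
set_option synthInstance.maxHeartbeats 400000

noncomputable section

namespace Fermat.Agent.S36.H18

open ModularCurve AlgebraicCurve IntermediateField
open Fermat.Agent.S18 Fermat.Agent.S18.H45 Fermat.Agent.S34 Fermat.Agent.S34.H47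
open Fermat.Agent.S36.H85 Fermat.Agent.S36.H46

local notation "Qbar" => AlgebraicClosure ℚ

section Generic

variable {F1 F2 : Type*} [Field F1] [Field F2]

/-- If `1`-units below go to `1`-units above, an element below whose image is a unit above is a
unit. -/
theorem valuation_eq_one_of_map_eq_one {a : F1 →+* F2} {Vs : ValuationSubring F2}
    {Ws : ValuationSubring F1} (haVs : ∀ x, OneU Ws x → OneU Vs (a x)) {x : F1}
    (hx : Vs.valuation (a x) = 1) : Ws.valuation x = 1 := by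
  have key : ∀ y : F1, Ws.valuation y < 1 → Vs.valuation (a y) < 1 := by
    intro y hy
    have h1 : OneU Ws (1 + y) := by
      unfold OneU
      rwa [add_sub_cancel_left]
    have h2 := haVs _ h1
    unfold OneU at h2
    rwa [map_add, map_one, add_sub_cancel_left] at h2
  by_contra hne
  rcases lt_or_gt_of_ne hne with h | h
  · have := key x h
    rw [hx] at this
    exact lt_irrefl _ this
  · have hx0 : x ≠ 0 := by
      rintro rfl
      rw [map_zero] at h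
      exact not_lt_zero h
    have hv0 : Ws.valuation x ≠ 0 := (Valuation.ne_zero_iff _).mpr hx0
    have h1 : Ws.valuation x⁻¹ < 1 := by
      rw [map_inv₀]
      exact inv_lt_one_of_one_lt₀ h
    have := key x⁻¹ h1
    rw [map_inv₀, map_inv₀, hx, inv_one] at this
    exact lt_irrefl _ this

/-- The norm of a unit at `Vs`, `Vm` is a unit at `Ws`. -/
theorem TowerValU.valuation_norm_eq_one {a : F1 →+* F2} {Na : F2 →*₀ F1} {q : ℕ}
    {Vs Vm Vi : ValuationSubring F2} {Ws Wi : ValuationSubring F1}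
    (H : TowerValU a Na q Vs Vm Vi Ws Wi) {u : F2} (hs : Vs.valuation u = 1)
    (hm : Vm.valuation u = 1) : Ws.valuation (Na u) = 1 := by
  obtain ⟨x1, hx1⟩ := H.hls u hs
  obtain ⟨x2, hx2⟩ := H.hlm u hm
  have h1 : Vs.valuation (a x1) = 1 := by
    have := hx1.valuation_eq_one
    rw [map_div₀, hs] at this
    have h0 : Vs.valuation (a x1) ≠ 0 := by
      intro h0
      rw [h0, div_zero] at this
      exact zero_ne_one this
    field_simp at this
    exact this.symm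
  have h2 : Vm.valuation (a x2) = 1 := by
    have := hx2.valuation_eq_one
    rw [map_div₀, hm] at this
    have h0 : Vm.valuation (a x2) ≠ 0 := by
      intro h0
      rw [h0, div_zero] at this
      exact zero_ne_one this
    field_simp at this
    exact this.symm
  have w1 : Ws.valuation x1 = 1 := valuation_eq_one_of_map_eq_one H.haVs h1
  have w2 : Ws.valuation x2 = 1 := valuation_eq_one_of_map_eq_one H.haVm h2
  have h3 := (H.hNs u x1 x2 hs hm hx1 hx2).valuation_eq_one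
  rw [map_div₀, map_mul, map_pow, w1, w2, one_pow, one_mul, div_one] at h3
  exact h3

end Generic

section Real

variable (L q : ℕ) [NeZero L] [NeZero q] (hq : q.Prime)
  {A : ValuationSubring Qbar} (hA : A.LiesOverPrime q)
  (E0 : IntermediateField (unrCyclo q) Qbar) [FiniteDimensional (unrCyclo q) E0]
  (hfix : ∀ σ ∈ A.inertiaSubgroupIn ℚ, ∀ x : E0, σ ((x : E0) : Qbar) = ((x : E0) : Qbar))

set_option quotPrecheck false
local notation "F₁" => ↥(modularFunctionFieldFullC ↥E0 (q * L))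
local notation "F₂" => ↥(modularFunctionFieldFullC ↥E0 (q * (q * L)))
local notation "aα" => alphaK ↥E0 (q * L) (q * (q * L)) (dvd_mul_left (q * L) q)
local notation "bβ" => betaK ↥E0 q (q * L) (q * (q * L)) dvd_rfl
local notation "Nα" => normAlphaK ↥E0 (q * L) (q * (q * L)) (dvd_mul_left (q * L) q)
local notation "Nβ" => normBetaK ↥E0 q (q * L) (q * (q * L)) dvd_rfl

set_option maxHeartbeats 3200000 in
include hq hA hfix in
/-- **The skeleton at the real types.**  `V 0 = C_a`, `V 1` = the middle component, `V 2 = C_b`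
(vertical valuations of `F₂`), `WF`, `WV` the two vertical valuations of `F₁`, `O n` the local
rings of the closed points of the model of `F₂`, `Thr n i` the incidence relation. -/
theorem geoFn36E_of_radicalDatum {p : ℕ} (hp : p.Prime) (hpq : p ≠ q) (k : ℕ)
    {ν : Type*} {κ : Type*} [Field κ]
    (V : Fin 3 → ValuationSubring F₂) (WF WV : ValuationSubring F₁)
    (O : ν → Subring F₂) (Thr : ν → Fin 3 → Prop)
    -- `WF`, `WV` lie over `R = cutOver A E0` and `q` is a uniformiser there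
    (hWFint : ∀ x : ↥E0, (cutOver A E0).valuation x ≤ 1 →
      WF.valuation (algebraMap ↥E0 F₁ x) ≤ 1)
    (hWFq : WF.valuation (algebraMap ↥E0 F₁ ((q : ℕ) : ↥E0)) < 1)
    (hWFπ : ∀ x : F₁, x ≠ 0 →
      ∃ n : ℤ, WF.valuation (x * (algebraMap ↥E0 F₁ ((q : ℕ) : ↥E0)) ^ (-n)) = 1)
    (hWVint : ∀ x : ↥E0, (cutOver A E0).valuation x ≤ 1 →
      WV.valuation (algebraMap ↥E0 F₁ x) ≤ 1)
    (hWVq : WV.valuation (algebraMap ↥E0 F₁ ((q : ℕ) : ↥E0)) < 1)
    (hWVπ : ∀ x : F₁, x ≠ 0 →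
      ∃ n : ℤ, WV.valuation (x * (algebraMap ↥E0 F₁ ((q : ℕ) : ↥E0)) ^ (-n)) = 1)
    -- (E6) the two towers
    (HVa : TowerValU aα Nα q (V 0) (V 1) (V 2) WF WV)
    (HVb : TowerValU bβ Nβ q (V 2) (V 1) (V 0) WV WF)
    (hOV : ∀ n i, Thr n i → ∀ x : F₂, UnitIn (O n) x → (V i).valuation x = 1)
    (happrox : ∀ T' : Fin 3 → F₂, (∀ i, (V i).valuation (T' i) = 1) →
      ∃ Ψ : F₂, Ψ ≠ 0 ∧ ∀ i, OneU (V i) (Ψ / T' i))
    (hbr : ∀ n i, Thr n i → ∀ u' G' T' : F₂, G' ≠ 0 → T' ≠ 0 →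
      UnitIn (O n) (u' / G' ^ (p ^ k)) → OneU (V i) (u' / T' ^ (p ^ k)) →
      ∃ Λ : F₂, UnitIn (O n) Λ ∧ OneU (V i) (Λ * G' / T'))
    (hpt : ∀ ζ : ↥E0, IsPrimitiveRoot ζ (p ^ k) → (cutOver A E0).valuation ζ ≤ 1 →
      ∀ ca cb : ↥E0, OneUR (A := A) E0 ca → OneUR (A := A) E0 cb →
      ∀ n, (∃ i₀, ∀ i, Thr n i → i = i₀) ∨
        ((∀ i, Thr n i) ∧
          TripleLoc aα bβ Nα Nβ q (p ^ k) V WF WV (algebraMap ↥E0 F₁ ζ)
            (algebraMap ↥E0 F₁ ca) (algebraMap ↥E0 F₁ cb) κ (O n) ∧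
          TripleLift (p ^ k) V (O n)))
    -- (E1) the radical Kummer criterion
    (crit : ∀ u : F₂, u ≠ 0 → RadDatum O V Thr u (p ^ k) →
      ∃ (c : ↥E0) (g : F₂), u = algebraMap ↥E0 F₂ c * g ^ (p ^ k))
    -- (E3)
    (hE3 : ∀ f : F₂, f ≠ 0 →
      (∃ (c : ↥E0) (h : F₁), c ≠ 0 ∧ h ≠ 0 ∧ Nα f = algebraMap ↥E0 F₁ c * h ^ (p ^ k)) →
      (∃ (c : ↥E0) (h : F₁), c ≠ 0 ∧ h ≠ 0 ∧ Nβ f = algebraMap ↥E0 F₁ c * h ^ (p ^ k)) →
      ∃ (s : ℤ) (g : F₂), g ≠ 0 ∧
        ∀ i, (V i).valuation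
          (f ^ (q + 1) * algebraMap ↥E0 F₂ ((q : ℕ) : ↥E0) ^ (-s) * (g ^ (p ^ k))⁻¹) = 1)
    -- (E4)
    (hE4 : ∀ f : F₂, f ≠ 0 →
      (∀ v : Place Qbar (S24.FN (q * (q * L))),
        ((p ^ k : ℕ) : ℤ) ∣ v.ord (H99.toBar ↥E0 (q * (q * L)) f)) →
      ∀ (s : ℤ) (g : F₂), g ≠ 0 →
      (∀ i, (V i).valuation
        (f ^ (q + 1) * algebraMap ↥E0 F₂ ((q : ℕ) : ↥E0) ^ (-s) * (g ^ (p ^ k))⁻¹) = 1) →
      ∃ G : ν → F₂, (∀ n, G n ≠ 0) ∧
        ∀ n, UnitIn (O n)
          (f ^ (q + 1) * algebraMap ↥E0 F₂ ((q : ℕ) : ↥E0) ^ (-s) * (g ^ (p ^ k))⁻¹ /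
            G n ^ (p ^ k)))
    -- (E5)
    (hE5 : ∀ u : F₂, (∀ i, (V i).valuation u = 1) →
      (∃ (c : ↥E0) (h : F₁), c ≠ 0 ∧ h ≠ 0 ∧ Nα u = algebraMap ↥E0 F₁ c * h ^ (p ^ k)) →
      (∃ (c : ↥E0) (h : F₁), c ≠ 0 ∧ h ≠ 0 ∧ Nβ u = algebraMap ↥E0 F₁ c * h ^ (p ^ k)) →
      ∃ G : F₂, G ≠ 0 ∧ (∀ j, (V j).valuation G = 1) ∧
        ∀ j, OneU (V j) (u ^ (q - 1) / G ^ (p ^ k))) :
    GeoFn36E q (q * L) (q * (q * L)) (dvd_mul_left (q * L) q) dvd_rfl E0 (p ^ k)
      ((q + 1) * (q - 1) * (q ^ 2 - 1)) := by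
  rw [geoFn36E_iff]
  intro f hf hdiv hNα hNβ
  have hm : 0 < p ^ k := pow_pos hp.pos k
  have hnd : ¬ q ∣ p ^ k := fun h =>
    hpq ((Nat.prime_dvd_prime_iff_eq hq hp).mp (hq.dvd_of_dvd_pow h)).symm
  obtain ⟨ζ, hζ, hζR⟩ := exists_zeta_E0 hq hA E0 hm.ne' hnd
  have hqK : (((q : ℕ) : ↥E0)) ≠ 0 := Nat.cast_ne_zero.mpr hq.ne_zero
  have hNK : (((q * (q * L) : ℕ) : ℕ) : ↥E0) ≠ 0 :=
    Nat.cast_ne_zero.mpr (NeZero.ne (q * (q * L)))
  have hqN1 : q ∣ q * L := dvd_mul_right q L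
  have hζF1 : IsPrimitiveRoot (algebraMap ↥E0 F₁ ζ) (p ^ k) :=
    hζ.map_of_injective (algebraMap ↥E0 F₁).injective
  have key := S36.H69.geo36_of_radicalDatum (K := ↥E0) (F1 := F₁) (F2 := F₂) (k := κ)
    (a := aα) (b := bβ) (Na := Nα) (Nb := Nβ) (q := q) (m := p ^ k) (V := V) (WF := WF)
    (WV := WV) (O := O) (Thr := Thr) hq.pos hm (qK := ((q : ℕ) : ↥E0)) hqK (d := q)
    (normAlphaK_algebraMap ↥E0 q (q * L) (q * (q * L)) (dvd_mul_left (q * L) q) hq hqN1 rfl hNK)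
    (normBetaK_algebraMap ↥E0 q (q * L) (q * (q * L)) dvd_rfl hq hqN1 rfl hNK)
    (OneUR (A := A) E0)
    (fun c hc => oneU_algebraMap_of_liesOver hq hA E0 hfix WF hWFint hWFq hc)
    (fun c hc => oneU_algebraMap_of_liesOver hq hA E0 hfix WV hWVint hWVq hc)
    HVa HVb hζF1 (hWFint ζ hζR) (hWVint ζ hζR)
    ((alphaK_algebraMap ↥E0 (q * L) (q * (q * L)) (dvd_mul_left (q * L) q) ζ).trans
      (betaK_algebraMap ↥E0 q (q * L) (q * (q * L)) dvd_rfl ζ).symm)
    hOV happrox hbr (hpt ζ hζ hζR) crit hf hNα hNβ (hE3 f hf hNα hNβ) (hE4 f hf hdiv) hE5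
    (fun u c h hu hc hh hN =>
      normConst_real hq hA E0 hfix WF hWFint hWFq hWFπ hm
        (TowerValU.valuation_norm_eq_one HVa (hu 0) (hu 1)) hc hh hN)
    (fun u c h hu hc hh hN =>
      normConst_real hq hA E0 hfix WV hWVint hWVq hWVπ hm
        (TowerValU.valuation_norm_eq_one HVb (hu 2) (hu 1)) hc hh hN)
  exact key

end Real

end Fermat.Agent.S36.H18
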