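/-
S36 (Carayol), row (E5) (helper46): **Step 3 entirely at the valuation level**: the hypothesis
`hE5` of helper69's skeleton `S36.H69.geo36_of_radicalDatum` FOLLOWS from the other hypotheses of
the skeleton (`HVa HVb : TowerValU ..`, `happrox`, `hconstα hconstβ`, `hUF hUV`) and
`gcd (q, m) = 1`.  No residue maps, no `ResPlace`, no comparison of the `α`-side and `β`-side
reductions: the real-type debt of (E5) is exactly the two `TowerValU` (helper16's
`S36.H16.towerValU_of_placeOver`).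

* `pow_oneU_insep` : at the purely inseparable place `Vi` of a tower: `N u = c hᵐ`, `c ≡ 1`
  ⟹ `u ≡ Gᵐ` at `Vi`   [`u^q ≡ a(h)ᵐ` by `hli hNi haVi`, `u^m` trivially, Bézout];
* `pow_oneU_mid` : at the middle place `Vm`: if `u ≡ G₀ᵐ` at `Vs` then `u^(q-1) ≡ Gᵐ` at `Vm`
  [`hls hlm hNs haVm`];
* `hE5_of_towerValU` : `hE5` VERBATIM.
-/
import Mathlib
import Fermat.Agent.S36.H46_TowerValU

set_option autoImplicit false
set_option linter.unusedSectionVars false

namespace Fermat.Agent.S36.H46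

open Fermat.Agent.S34.H47 Fermat.Agent.S36.H85

section OneUZ

variable {F : Type*} [Field F] {A : ValuationSubring F}

theorem oneU_zpow {x : F} (hx : OneU A x) (n : ℤ) : OneU A (x ^ n) := by
  cases n with
  | ofNat k =>
    rw [Int.ofNat_eq_natCast, zpow_natCast]
    exact hx.pow k
  | negSucc k =>
    rw [zpow_negSucc]
    exact (hx.pow (k + 1)).inv

theorem valuation_zpow_eq_one {x : F} (hx : A.valuation x = 1) (n : ℤ) :
    A.valuation (x ^ n) = 1 := by
  rw [map_zpow₀, hx, one_zpow]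

/-- `u ^ q ≡ g ^ m`, `gcd (q, m) = 1` ⟹ `u ≡ G ^ m`. -/
theorem exists_root_of_pow_of_coprime {q m : ℕ} (hqm : Nat.Coprime q m) {u g : F}
    (hu : A.valuation u = 1) (hg : A.valuation g = 1) (h : OneU A (u ^ q / g ^ m)) :
    ∃ G : F, A.valuation G = 1 ∧ OneU A (u / G ^ m) := by
  have hu0 : u ≠ 0 := by
    rintro rfl
    rw [map_zero] at hu
    exact zero_ne_one hu
  have hg0 : g ≠ 0 := by
    rintro rfl
    rw [map_zero] at hg
    exact zero_ne_one hg
  have hbez : (q : ℤ) * Nat.gcdA q m + (m : ℤ) * Nat.gcdB q m = 1 := by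
    have := Nat.gcd_eq_gcd_ab q m
    rw [hqm] at this
    rw [← this]
    simp
  set a : ℤ := Nat.gcdA q m
  set b : ℤ := Nat.gcdB q m
  refine ⟨g ^ a * u ^ b, ?_, ?_⟩
  · rw [map_mul, valuation_zpow_eq_one hg, valuation_zpow_eq_one hu, one_mul]
  · have e : u / (g ^ a * u ^ b) ^ m = (u ^ q / g ^ m) ^ a := by
      have h1 : u = u ^ ((q : ℤ) * a + (m : ℤ) * b) := by rw [hbez, zpow_one]
      rw [div_zpow, mul_pow, ← zpow_natCast (g ^ a) m, ← zpow_natCast (u ^ b) m, ← zpow_mul,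
        ← zpow_mul, ← zpow_natCast u q, ← zpow_natCast g m, ← zpow_mul, ← zpow_mul]
      have h2 : u ^ ((q : ℤ) * a) = u / u ^ (b * (m : ℤ)) := by
        rw [eq_div_iff (zpow_ne_zero _ hu0), ← zpow_add₀ hu0, mul_comm b]
        exact h1.symm
      rw [h2, mul_comm a (m : ℤ)]
      have h3 : g ^ ((m : ℤ) * a) ≠ 0 := zpow_ne_zero _ hg0
      have h4 : u ^ (b * (m : ℤ)) ≠ 0 := zpow_ne_zero _ hu0
      field_simp
    rw [e]
    exact oneU_zpow h a

end OneUZ

section Tower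

variable {F1 F2 : Type*} [Field F1] [Field F2]
  {a : F1 →+* F2} {Na : F2 →*₀ F1} {q m : ℕ}
  {Vs Vm Vi : ValuationSubring F2} {Ws Wi : ValuationSubring F1}

/-- **At the purely inseparable place.** -/
theorem pow_oneU_insep (H : TowerValU a Na q Vs Vm Vi Ws Wi) (hm : 0 < m)
    (hqm : Nat.Coprime q m) {u : F2} (hui : Vi.valuation u = 1) {c h : F1}
    (hN : Na u = c * h ^ m) (hci : OneU Wi c) :
    ∃ G : F2, Vi.valuation G = 1 ∧ OneU Vi (u / G ^ m) := by
  obtain ⟨x3, h3⟩ := H.hli u hui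
  have h5 := H.hNi u x3 hui h3
  rw [hN] at h5
  have hc0 : c ≠ 0 := hci.ne_zero
  have hx30 : x3 ≠ 0 := by
    rintro rfl
    have := h5.ne_zero
    rw [div_zero] at this
    exact this rfl
  have hh0 : h ≠ 0 := by
    rintro rfl
    have := h5.ne_zero
    rw [zero_pow hm.ne', mul_zero, zero_div] at this
    exact this rfl
  have h6 : OneU Wi (h ^ m / x3) := by
    have e : h ^ m / x3 = c * h ^ m / x3 * c⁻¹ := by field_simp
    rw [e]
    exact h5.mul hci.inv
  have h7 := H.haVi _ h6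
  rw [map_div₀, map_pow] at h7
  have hax3 : a x3 ≠ 0 := (map_ne_zero a).mpr hx30
  have hah : a h ≠ 0 := (map_ne_zero a).mpr hh0
  have h8 : OneU Vi (u ^ q / a h ^ m) := by
    have e : u ^ q / a h ^ m = (u ^ q / a x3) * (a h ^ m / a x3)⁻¹ := by
      have : a h ^ m ≠ 0 := pow_ne_zero m hah
      field_simp
    rw [e]
    exact h3.mul h7.inv
  have hg : Vi.valuation (a h) = 1 := by
    apply valuation_eq_one_of_pow hm
    have := h8.valuation_eq_one
    rw [map_div₀, map_pow, hui, one_pow] at this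
    rw [one_div, inv_eq_one] at this
    exact this
  exact exists_root_of_pow_of_coprime hqm hui hg h8

/-- **At the middle place**, given a root at the simple place `Vs`. -/
theorem pow_oneU_mid (H : TowerValU a Na q Vs Vm Vi Ws Wi) (hm : 0 < m)
    {u : F2} (hus : Vs.valuation u = 1) (hum : Vm.valuation u = 1) {c h : F1}
    (hN : Na u = c * h ^ m) (hcs : OneU Ws c) {G0 : F2} (hG0 : Vs.valuation G0 = 1)
    (h0 : OneU Vs (u / G0 ^ m)) :
    ∃ G : F2, Vm.valuation G = 1 ∧ OneU Vm (u ^ (q - 1) / G ^ m) := by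
  obtain ⟨g0, hg0⟩ := H.hls G0 hG0
  obtain ⟨x2, hx2⟩ := H.hlm u hum
  have h1 : OneU Vs (u / a (g0 ^ m)) := by
    rw [map_pow]
    exact oneU_trans_div h0 (oneU_div_pow hg0 m)
  have h3 := H.hNs u (g0 ^ m) x2 hus hum h1 hx2
  rw [hN] at h3
  have hc0 : c ≠ 0 := hcs.ne_zero
  have hg00 : g0 ≠ 0 := by
    rintro rfl
    have := hg0.ne_zero
    rw [map_zero, div_zero] at this
    exact this rfl
  have hx20 : x2 ≠ 0 := by
    rintro rfl
    have := hx2.ne_zero
    rw [map_zero, div_zero] at this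
    exact this rfl
  have hh0 : h ≠ 0 := by
    rintro rfl
    have := h3.ne_zero
    rw [zero_pow hm.ne', mul_zero, zero_div] at this
    exact this rfl
  have h4 : OneU Ws ((h / g0) ^ m / x2 ^ (q - 1)) := by
    have e : (h / g0) ^ m / x2 ^ (q - 1) = c * h ^ m / (g0 ^ m * x2 ^ (q - 1)) * c⁻¹ := by
      rw [div_pow]
      have : g0 ^ m ≠ 0 := pow_ne_zero m hg00
      have : x2 ^ (q - 1) ≠ 0 := pow_ne_zero _ hx20
      field_simp
    rw [e]
    exact h3.mul hcs.inv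
  have h5 := H.haVm _ h4
  rw [map_div₀, map_pow, map_pow] at h5
  have hax2 : a x2 ≠ 0 := (map_ne_zero a).mpr hx20
  have hG : a (h / g0) ≠ 0 := (map_ne_zero a).mpr (div_ne_zero hh0 hg00)
  have h6 : OneU Vm (u ^ (q - 1) / a (h / g0) ^ m) := by
    have e : u ^ (q - 1) / a (h / g0) ^ m
        = (u ^ (q - 1) / a x2 ^ (q - 1)) * (a (h / g0) ^ m / a x2 ^ (q - 1))⁻¹ := by
      have : a (h / g0) ^ m ≠ 0 := pow_ne_zero m hG
      have : a x2 ^ (q - 1) ≠ 0 := pow_ne_zero _ hax2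
      field_simp
    rw [e]
    exact (oneU_div_pow hx2 (q - 1)).mul h5.inv
  refine ⟨a (h / g0), ?_, h6⟩
  apply valuation_eq_one_of_pow hm
  have := h6.valuation_eq_one
  rw [map_div₀, map_pow, hum, one_pow] at this
  rw [one_div, inv_eq_one] at this
  exact this

end Tower

section Skeleton

variable {K F1 F2 : Type*} [Field K] [Field F1] [Field F2] [Algebra K F1]
  {a b : F1 →+* F2} {Na Nb : F2 →*₀ F1} {q m : ℕ}
  {V : Fin 3 → ValuationSubring F2} {WF WV : ValuationSubring F1}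

/-- **`hE5` of `S36.H69.geo36_of_radicalDatum`, VERBATIM, from the other hypotheses of the
skeleton.** -/
theorem hE5_of_towerValU (hm : 0 < m) (hqm : Nat.Coprime q m)
    (HVa : TowerValU a Na q (V 0) (V 1) (V 2) WF WV)
    (HVb : TowerValU b Nb q (V 2) (V 1) (V 0) WV WF)
    (U : K → Prop) (hUF : ∀ c, U c → OneU WF (algebraMap K F1 c))
    (hUV : ∀ c, U c → OneU WV (algebraMap K F1 c))
    (happrox : ∀ T' : Fin 3 → F2, (∀ i, (V i).valuation (T' i) = 1) →
      ∃ Ψ : F2, Ψ ≠ 0 ∧ ∀ i, OneU (V i) (Ψ / T' i))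
    (hconstα : ∀ (u : F2) (c : K) (h : F1), (∀ i, (V i).valuation u = 1) → c ≠ 0 → h ≠ 0 →
      Na u = algebraMap K F1 c * h ^ m →
      ∃ (c1 : K) (h1 : F1), U c1 ∧ Na u = algebraMap K F1 c1 * h1 ^ m)
    (hconstβ : ∀ (u : F2) (c : K) (h : F1), (∀ i, (V i).valuation u = 1) → c ≠ 0 → h ≠ 0 →
      Nb u = algebraMap K F1 c * h ^ m →
      ∃ (c1 : K) (h1 : F1), U c1 ∧ Nb u = algebraMap K F1 c1 * h1 ^ m) :
    ∀ u : F2, (∀ i, (V i).valuation u = 1) →
      (∃ (c : K) (h : F1), c ≠ 0 ∧ h ≠ 0 ∧ Na u = algebraMap K F1 c * h ^ m) →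
      (∃ (c : K) (h : F1), c ≠ 0 ∧ h ≠ 0 ∧ Nb u = algebraMap K F1 c * h ^ m) →
      ∃ G : F2, G ≠ 0 ∧ (∀ j, (V j).valuation G = 1) ∧
        ∀ j, OneU (V j) (u ^ (q - 1) / G ^ m) := by
  rintro u hu ⟨c, h, hc, hh, hN⟩ ⟨c', h', hc', hh', hN'⟩
  obtain ⟨ca, ha, hUa, hNa⟩ := hconstα u c h hu hc hh hN
  obtain ⟨cb, hb, hUb, hNb⟩ := hconstβ u c' h' hu hc' hh' hN'
  -- the three roots
  obtain ⟨G2, hG2v, hG2⟩ := pow_oneU_insep HVa hm hqm (hu 2) hNa (hUV ca hUa)
  obtain ⟨G0, hG0v, hG0⟩ := pow_oneU_insep HVb hm hqm (hu 0) hNb (hUF cb hUb)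
  obtain ⟨G1, hG1v, hG1⟩ := pow_oneU_mid HVa hm (hu 0) (hu 1) hNa (hUF ca hUa) hG0v hG0
  -- merge
  set T' : Fin 3 → F2 := ![G0 ^ (q - 1), G1, G2 ^ (q - 1)] with hT'
  have hT'v : ∀ i, (V i).valuation (T' i) = 1 := by
    intro i
    fin_cases i
    · show (V 0).valuation (G0 ^ (q - 1)) = 1
      rw [map_pow, hG0v, one_pow]
    · exact hG1v
    · show (V 2).valuation (G2 ^ (q - 1)) = 1
      rw [map_pow, hG2v, one_pow]
  have hT'u : ∀ i, OneU (V i) (u ^ (q - 1) / T' i ^ m) := by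
    intro i
    fin_cases i
    · show OneU (V 0) (u ^ (q - 1) / (G0 ^ (q - 1)) ^ m)
      have e : u ^ (q - 1) / (G0 ^ (q - 1)) ^ m = (u / G0 ^ m) ^ (q - 1) := by
        rw [div_pow, ← pow_mul, ← pow_mul, mul_comm]
      rw [e]
      exact hG0.pow _
    · exact hG1
    · show OneU (V 2) (u ^ (q - 1) / (G2 ^ (q - 1)) ^ m)
      have e : u ^ (q - 1) / (G2 ^ (q - 1)) ^ m = (u / G2 ^ m) ^ (q - 1) := by
        rw [div_pow, ← pow_mul, ← pow_mul, mul_comm]
      rw [e]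
      exact hG2.pow _
  obtain ⟨Ψ, hΨ0, hΨ⟩ := happrox T' hT'v
  refine ⟨Ψ, hΨ0, fun j => ?_, fun j => ?_⟩
  · have := (hΨ j).valuation_eq_one
    rw [map_div₀, hT'v j, div_one] at this
    exact this
  · have hT0 : T' j ≠ 0 := by
      intro h0
      have := hT'v j
      rw [h0, map_zero] at this
      exact zero_ne_one this
    have e : u ^ (q - 1) / Ψ ^ m = (u ^ (q - 1) / T' j ^ m) * ((Ψ / T' j) ^ m)⁻¹ := by
      rw [div_pow]
      have : T' j ^ m ≠ 0 := pow_ne_zero m hT0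
      have : Ψ ^ m ≠ 0 := pow_ne_zero m hΨ0
      field_simp
    rw [e]
    exact (hT'u j).mul ((hΨ j).pow m).inv

end Skeleton

end Fermat.Agent.S36.H46
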