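/-
S36, row (E6) (helper85), abstract part 6: the final wiring of Step 4 **parametrised by the two
gluing relations** (so that it does not depend on the exact spelling of the norm formulas of row
(E5): `TowerVal` (all `x`) or helper46's `TowerValU` (units only) both produce `GlueRelsAt`).

* `GlueRelsAt V O k z q js ji js' ji' G T` : at the triple point with local ring `O` there is a
  residue map `ev : O →+* k` killing the `1`-units of the three branches, `z` is a unit of `O`,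
  and EVERY triple of branch values `av i` (`T i / G ≡ av i` at `V i`) satisfies the two relations
  `R1 : A₀ A₁^(q-1) Z^js = A₂^q Z^ji`, `R2 : A₂ A₁^(q-1) Z^js' = A₀^q Z^ji'`.
* `glueRelsAt_of_towers` : `TowerVal` (twice) + `TripleLoc` + the global lifts ⇒ `GlueRelsAt`.
* `radDatum_of_relations` : the radical local datum of `u ^ (q² - 1) / Ψ ^ m`.
-/
import Mathlib
import Fermat.Agent.S36.H85_GlueWire

set_option autoImplicit false

namespace Fermat.Agent.S36.H85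

open Fermat.Agent.S34.H47

section Rel

variable {F1 F2 : Type*} [Field F1] [Field F2]

/-- **The two gluing relations at a triple point**, for all triples of branch values. -/
def GlueRelsAt (V : Fin 3 → ValuationSubring F2) (O : Subring F2) (k : Type*) [Field k]
    (z : F2) (q js ji js' ji' : ℕ) (G : F2) (T : Fin 3 → F2) : Prop :=
  ∃ (ev : O →+* k) (hz : UnitIn O z),
    (∀ i (x : F2) (hx : x ∈ O), OneU (V i) x → ev ⟨x, hx⟩ = 1) ∧
    ∀ (av : Fin 3 → F2) (hav : ∀ i, UnitIn O (av i)), (∀ i, OneU (V i) (T i / G / av i)) →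
      (ev ⟨av 0, (hav 0).1⟩ * ev ⟨av 1, (hav 1).1⟩ ^ (q - 1) * ev ⟨z, hz.1⟩ ^ js
        = ev ⟨av 2, (hav 2).1⟩ ^ q * ev ⟨z, hz.1⟩ ^ ji) ∧
      (ev ⟨av 2, (hav 2).1⟩ * ev ⟨av 1, (hav 1).1⟩ ^ (q - 1) * ev ⟨z, hz.1⟩ ^ js'
        = ev ⟨av 0, (hav 0).1⟩ ^ q * ev ⟨z, hz.1⟩ ^ ji')

variable {k : Type*} [Field k]
  {a b : F1 →+* F2} {Na Nb : F2 →*₀ F1} {q m : ℕ}
  {V : Fin 3 → ValuationSubring F2} {WF WV : ValuationSubring F1}

/-- `TowerVal` (twice) + `TripleLoc` + the global lifts give the two relations. -/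
theorem glueRelsAt_of_towers
    (HVa : TowerVal a Na q (V 0) (V 1) (V 2) WF WV)
    (HVb : TowerVal b Nb q (V 2) (V 1) (V 0) WV WF)
    {ζ ca cb : F1} (hab : a ζ = b ζ)
    {O : Subring F2} (HL : TripleLoc a b Na Nb q m V WF WV ζ ca cb k O)
    {u : F2} {T : Fin 3 → F2}
    {ha hb : F1} (hNa : Na u = ca * ha ^ m) (hNb : Nb u = cb * hb ^ m)
    {ts tm ti : F1} {js ji : ℕ}
    (hts : OneU (V 0) (T 0 / a ts)) (htm : OneU (V 1) (T 1 / a tm))
    (hti : OneU (V 2) (T 2 ^ q / a ti))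
    (hjs : OneU WF (ha / (ts * tm ^ (q - 1)) / ζ ^ js)) (hji : OneU WV (ha / ti / ζ ^ ji))
    {ts' tm' ti' : F1} {js' ji' : ℕ}
    (hts' : OneU (V 2) (T 2 / b ts')) (htm' : OneU (V 1) (T 1 / b tm'))
    (hti' : OneU (V 0) (T 0 ^ q / b ti'))
    (hjs' : OneU WV (hb / (ts' * tm' ^ (q - 1)) / ζ ^ js')) (hji' : OneU WF (hb / ti' / ζ ^ ji'))
    {G : F2} (hG0 : G ≠ 0) (hG : UnitIn O (u / G ^ m)) :
    GlueRelsAt V O k (a ζ) q js ji js' ji' G T := by
  obtain ⟨O'a, O'b, ev, eva, evb, HLa, HLb, hζa, hζb, hca, hcb⟩ := HL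
  have hzO : UnitIn O (a ζ) := by
    refine ⟨HLa.haO ζ hζa.1, ?_, (map_ne_zero a).mpr hζa.2.2⟩
    rw [← map_inv₀]
    exact HLa.haO _ hζa.2.1
  refine ⟨ev, hzO, ?_, fun av hav hμ => ?_⟩
  · intro i x hx h
    fin_cases i
    · exact HLa.hevs x hx h
    · exact HLa.hevm x hx h
    · exact HLa.hevi x hx h
  · have R1 := glue_rel HVa HLa hζa hNa hca hts htm hti hjs hji hG0 hG (hav 0) (hav 1) (hav 2)
      (hμ 0) (hμ 1) (hμ 2)
    have R2 := glue_rel HVb HLb hζb hNb hcb hts' htm' hti' hjs' hji' hG0 hG (hav 2) (hav 1)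
      (hav 0) (hμ 2) (hμ 1) (hμ 0)
    have e1 : eva ⟨ζ, hζa.1⟩ = ev ⟨a ζ, hzO.1⟩ := (HLa.hev ζ hζa.1 hzO.1).symm
    have e2 : evb ⟨ζ, hζb.1⟩ = ev ⟨a ζ, hzO.1⟩ := by
      have hbz : b ζ ∈ O := by rw [← hab]; exact hzO.1
      rw [← HLb.hev ζ hζb.1 hbz]
      exact ev_congr ev hab.symm _ _
    rw [e1] at R1
    rw [e2] at R2
    exact ⟨R1, R2⟩

/-- **`Λ` at a triple point** from the two relations, for the renormalised data. -/
theorem exists_lambda_of_relations (hq : 0 < q) (hm : 0 < m)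
    {O : Subring F2} {z : F2} (hzm : z ^ m = 1) {js ji js' ji' : ℕ}
    {u G : F2} {T : Fin 3 → F2} (hrel : GlueRelsAt V O k z q js ji js' ji' G T)
    (hlift : TripleLift m V O)
    (hT : ∀ i, OneU (V i) (u / T i ^ m)) (hG0 : G ≠ 0) (hG : UnitIn O (u / G ^ m))
    {av : Fin 3 → F2} (hav : ∀ i, UnitIn O (av i)) (hμ : ∀ i, OneU (V i) (T i / G / av i)) :
    ∃ Λ, UnitIn O Λ ∧ ∀ i, OneU (V i)
      (Λ * G ^ (q ^ 2 - 1) / (T i ^ (q ^ 2 - 1) * z ^ renormExp q m js ji js' ji' i)) := by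
  obtain ⟨ev, hzO, hev1, hR⟩ := hrel
  obtain ⟨R1, R2⟩ := hR av hav hμ
  set N := q ^ 2 - 1 with hN
  set e := renormExp q m js ji js' ji' with he
  have hEQ := triple_EQ hev1 hq hm (T := T) hG0 hzO hzm hav hμ R1 R2
  have hT0 : ∀ i, T i ≠ 0 := fun i => by
    intro h0
    have := (hμ i).ne_zero
    rw [h0, zero_div, zero_div] at this
    exact this rfl
  have hz0 : z ≠ 0 := hzO.2.2
  refine hlift (u ^ N) (G ^ N) (fun i => T i ^ N * z ^ e i) (pow_ne_zero N hG0)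
    (fun i => mul_ne_zero (pow_ne_zero N (hT0 i)) (pow_ne_zero _ hz0)) ?_ (fun i => ?_) hEQ
  · have e3 : u ^ N / (G ^ N) ^ m = (u / G ^ m) ^ N := by
      rw [_root_.div_pow, ← pow_mul, ← pow_mul, mul_comm]
    rw [e3]
    exact UnitIn.pow hG N
  · have e3 : u ^ N / (T i ^ N * z ^ e i) ^ m = (u / T i ^ m) ^ N := by
      rw [mul_pow, ← pow_mul z, mul_comm (e i) m, pow_mul z, hzm, one_pow, mul_one,
        _root_.div_pow, ← pow_mul, ← pow_mul, mul_comm]
    rw [e3]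
    exact (hT i).pow N

/-- **Step 4 from the relations: the radical local datum of `u ^ (q² - 1) / Ψ ^ m`.** -/
theorem radDatum_of_relations {ν : Type*} (hq : 0 < q) (hm : 0 < m)
    {O : ν → Subring F2} {Thr : ν → Fin 3 → Prop}
    {z : F2} (hzm : z ^ m = 1)
    {u : F2} (hu : ∀ i, (V i).valuation u = 1)
    {T : Fin 3 → F2} (hT : ∀ i, OneU (V i) (u / T i ^ m))
    {G : ν → F2} (hG0 : ∀ n, G n ≠ 0) (hG : ∀ n, UnitIn (O n) (u / G n ^ m))
    (happrox : ∀ T' : Fin 3 → F2, (∀ i, (V i).valuation (T' i) = 1) →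
      ∃ Ψ : F2, Ψ ≠ 0 ∧ ∀ i, OneU (V i) (Ψ / T' i))
    (hbr : ∀ n i, Thr n i → ∀ u' G' T' : F2, G' ≠ 0 → T' ≠ 0 → UnitIn (O n) (u' / G' ^ m) →
      OneU (V i) (u' / T' ^ m) → ∃ Λ : F2, UnitIn (O n) Λ ∧ OneU (V i) (Λ * G' / T'))
    (js ji js' ji' : ℕ)
    (hpt : ∀ n, (∃ i₀, ∀ i, Thr n i → i = i₀) ∨
      ((∀ i, Thr n i) ∧ GlueRelsAt V (O n) k z q js ji js' ji' (G n) T ∧
        TripleLift m V (O n))) :
    ∃ Ψ : F2, Ψ ≠ 0 ∧ RadDatum O V Thr (u ^ (q ^ 2 - 1) / Ψ ^ m) m := by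
  set N := q ^ 2 - 1 with hN
  set e := renormExp q m js ji js' ji' with he
  have hz0 : z ≠ 0 := by
    intro h0
    rw [h0, zero_pow hm.ne'] at hzm
    exact zero_ne_one hzm
  have hT0 : ∀ i, T i ≠ 0 := fun i => by
    intro h0
    have h1 := (hT i).valuation_eq_one
    rw [h0, zero_pow hm.ne', div_zero, map_zero] at h1
    exact zero_ne_one h1
  -- valuations of the `T i` and of `z`
  have hvT : ∀ i, (V i).valuation (T i) = 1 := fun i => by
    apply valuation_eq_one_of_pow hm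
    have := (hT i).valuation_eq_one
    rw [map_div₀, hu i] at this
    have h2 : (V i).valuation (T i ^ m) ≠ 0 := by
      intro h0; rw [h0, div_zero] at this; exact zero_ne_one this
    field_simp at this
    exact this.symm
  have hvz : ∀ i, (V i).valuation z = 1 := fun i => by
    apply valuation_eq_one_of_pow hm
    rw [hzm, map_one]
  -- the renormalised residues
  set T' : Fin 3 → F2 := fun i => T i ^ N * z ^ e i with hT'
  have hvT' : ∀ i, (V i).valuation (T' i) = 1 := fun i => by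
    show (V i).valuation (T i ^ N * z ^ e i) = 1
    rw [map_mul, map_pow, map_pow, hvT i, hvz i, one_pow, one_pow, one_mul]
  have hT'0 : ∀ i, T' i ≠ 0 := fun i =>
    mul_ne_zero (pow_ne_zero N (hT0 i)) (pow_ne_zero _ hz0)
  have hT'u : ∀ i, OneU (V i) (u ^ N / T' i ^ m) := fun i => by
    have e3 : u ^ N / T' i ^ m = (u / T i ^ m) ^ N := by
      show u ^ N / (T i ^ N * z ^ e i) ^ m = _
      rw [mul_pow, ← pow_mul z, mul_comm (e i) m, pow_mul z, hzm, one_pow, mul_one,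
        _root_.div_pow, ← pow_mul, ← pow_mul, mul_comm]
    rw [e3]
    exact (hT i).pow N
  have hG' : ∀ n, UnitIn (O n) (u ^ N / (G n ^ N) ^ m) := fun n => by
    have e3 : u ^ N / (G n ^ N) ^ m = (u / G n ^ m) ^ N := by
      rw [_root_.div_pow, ← pow_mul, ← pow_mul, mul_comm]
    rw [e3]
    exact UnitIn.pow (hG n) N
  obtain ⟨Ψ, hΨ0, hΨ⟩ := happrox T' hvT'
  refine ⟨Ψ, hΨ0, radDatum_of_glue T' hT'u Ψ hΨ0 hΨ (fun n => G n ^ N)
    (fun n => pow_ne_zero N (hG0 n)) hG' (fun n => ?_)⟩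
  rcases hpt n with ⟨i₀, hone⟩ | ⟨hall, hrel, hlift⟩
  · by_cases hthr : Thr n i₀
    · obtain ⟨Λ, hΛ, hΛT⟩ := hbr n i₀ hthr (u ^ N) (G n ^ N) (T' i₀) (pow_ne_zero N (hG0 n))
        (hT'0 i₀) (hG' n) (hT'u i₀)
      refine ⟨Λ, hΛ, fun i hi => ?_⟩
      obtain rfl := hone i hi
      exact hΛT
    · refine ⟨1, UnitIn.one, fun i hi => ?_⟩
      exact absurd (hone i hi ▸ hi) hthr
  · have hval : ∀ i, ∃ av : F2, UnitIn (O n) av ∧ OneU (V i) (T i / G n / av) := fun i => by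
      obtain ⟨Λ, hΛ, hΛT⟩ := hbr n i (hall i) u (G n) (T i) (hG0 n) (hT0 i) (hG n) (hT i)
      refine ⟨Λ, hΛ, ?_⟩
      have hΛ0 : Λ ≠ 0 := hΛ.2.2
      have hGn := hG0 n
      have hTi := hT0 i
      have e3 : T i / G n / Λ = (Λ * G n / T i)⁻¹ := by
        field_simp
      rw [e3]
      exact hΛT.inv
    choose av hav hμ using hval
    obtain ⟨Λ, hΛ, hΛT⟩ := exists_lambda_of_relations hq hm hzm hrel hlift hT (hG0 n) (hG n)
      hav hμ
    exact ⟨Λ, hΛ, fun i _ => hΛT i⟩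

end Rel

end Fermat.Agent.S36.H85
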