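/-
S36, row (E6) (helper85): `radDatum_of_relations` with the residue field of each triple point
EXISTENTIALLY quantified (so that the instance may take `k := ResidueField (O n)`, depending
on `n`; see `exists_residue_map` in `H85_TowerCompat`).
-/
import Mathlib
import Fermat.Agent.S36.H85_GlueRel

set_option autoImplicit false

namespace Fermat.Agent.S36.H85

open Fermat.Agent.S34.H47

section RelEx

universe w

variable {F2 : Type*} [Field F2] {q m : ℕ} {V : Fin 3 → ValuationSubring F2}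

/-- **Step 4 from the relations, residue fields depending on the point.** -/
theorem radDatum_of_relations_ex {ν : Type*} (hq : 0 < q) (hm : 0 < m)
    {O : ν → Subring F2} {Thr : ν → Fin 3 → Prop}
    {z : F2} (hzm : z ^ m = 1)
    {u : F2} (hu : ∀ i, (V i).valuation u = 1)
    {T : Fin 3 → F2} (hT : ∀ i, OneU (V i) (u / T i ^ m))
    {G : ν → F2} (hG0 : ∀ n, G n ≠ 0) (hG : ∀ n, UnitIn (O n) (u / G n ^ m))
    (happrox : ∀ T' : Fin 3 → F2, (∀ i, (V i).valuation (T' i) = 1) →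
      ∃ Ψ : F2, Ψ ≠ 0 ∧ ∀ i, OneU (V i) (Ψ / T' i))
    (hbr : ∀ n i, Thr n i → ∀ u' G' T' : F2, G' ≠ 0 → T' ≠ 0 → UnitIn (O n) (u' / G' ^ m) →
      OneU (V i) (u' / T' ^ m) → ∃ Λ : F2, UnitIn (O n) Λ ∧ OneU (V i) (Λ * G' / T'))
    (js ji js' ji' : ℕ)
    (hpt : ∀ n, (∃ i₀, ∀ i, Thr n i → i = i₀) ∨
      ((∀ i, Thr n i) ∧
        (∃ (k : Type w) (_ : Field k), GlueRelsAt V (O n) k z q js ji js' ji' (G n) T) ∧
        TripleLift m V (O n))) :
    ∃ Ψ : F2, Ψ ≠ 0 ∧ RadDatum O V Thr (u ^ (q ^ 2 - 1) / Ψ ^ m) m := by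
  set N := q ^ 2 - 1 with hN
  set e := renormExp q m js ji js' ji' with he
  have hz0 : z ≠ 0 := by
    intro h0
    rw [h0, zero_pow hm.ne'] at hzm
    exact zero_ne_one hzm
  have hT0 : ∀ i, T i ≠ 0 := fun i => by
    intro h0
    have h1 := (hT i).valuation_eq_one
    rw [h0, zero_pow hm.ne', div_zero, map_zero] at h1
    exact zero_ne_one h1
  have hvT : ∀ i, (V i).valuation (T i) = 1 := fun i => by
    apply valuation_eq_one_of_pow hm
    have := (hT i).valuation_eq_one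
    rw [map_div₀, hu i] at this
    have h2 : (V i).valuation (T i ^ m) ≠ 0 := by
      intro h0; rw [h0, div_zero] at this; exact zero_ne_one this
    field_simp at this
    exact this.symm
  have hvz : ∀ i, (V i).valuation z = 1 := fun i => by
    apply valuation_eq_one_of_pow hm
    rw [hzm, map_one]
  set T' : Fin 3 → F2 := fun i => T i ^ N * z ^ e i with hT'
  have hvT' : ∀ i, (V i).valuation (T' i) = 1 := fun i => by
    show (V i).valuation (T i ^ N * z ^ e i) = 1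
    rw [map_mul, map_pow, map_pow, hvT i, hvz i, one_pow, one_pow, one_mul]
  have hT'0 : ∀ i, T' i ≠ 0 := fun i =>
    mul_ne_zero (pow_ne_zero N (hT0 i)) (pow_ne_zero _ hz0)
  have hT'u : ∀ i, OneU (V i) (u ^ N / T' i ^ m) := fun i => by
    have e3 : u ^ N / T' i ^ m = (u / T i ^ m) ^ N := by
      show u ^ N / (T i ^ N * z ^ e i) ^ m = _
      rw [mul_pow, ← pow_mul z, mul_comm (e i) m, pow_mul z, hzm, one_pow, mul_one,
        _root_.div_pow, ← pow_mul, ← pow_mul, mul_comm]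
    rw [e3]
    exact (hT i).pow N
  have hG' : ∀ n, UnitIn (O n) (u ^ N / (G n ^ N) ^ m) := fun n => by
    have e3 : u ^ N / (G n ^ N) ^ m = (u / G n ^ m) ^ N := by
      rw [_root_.div_pow, ← pow_mul, ← pow_mul, mul_comm]
    rw [e3]
    exact UnitIn.pow (hG n) N
  obtain ⟨Ψ, hΨ0, hΨ⟩ := happrox T' hvT'
  refine ⟨Ψ, hΨ0, radDatum_of_glue T' hT'u Ψ hΨ0 hΨ (fun n => G n ^ N)
    (fun n => pow_ne_zero N (hG0 n)) hG' (fun n => ?_)⟩
  rcases hpt n with ⟨i₀, hone⟩ | ⟨hall, ⟨k, hk, hrel⟩, hlift⟩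
  · by_cases hthr : Thr n i₀
    · obtain ⟨Λ, hΛ, hΛT⟩ := hbr n i₀ hthr (u ^ N) (G n ^ N) (T' i₀) (pow_ne_zero N (hG0 n))
        (hT'0 i₀) (hG' n) (hT'u i₀)
      refine ⟨Λ, hΛ, fun i hi => ?_⟩
      obtain rfl := hone i hi
      exact hΛT
    · refine ⟨1, UnitIn.one, fun i hi => ?_⟩
      exact absurd (hone i hi ▸ hi) hthr
  · have hval : ∀ i, ∃ av : F2, UnitIn (O n) av ∧ OneU (V i) (T i / G n / av) := fun i => by
      obtain ⟨Λ, hΛ, hΛT⟩ := hbr n i (hall i) u (G n) (T i) (hG0 n) (hT0 i) (hG n) (hT i)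
      refine ⟨Λ, hΛ, ?_⟩
      have hΛ0 : Λ ≠ 0 := hΛ.2.2
      have hGn := hG0 n
      have hTi := hT0 i
      have e3 : T i / G n / Λ = (Λ * G n / T i)⁻¹ := by
        field_simp
      rw [e3]
      exact hΛT.inv
    choose av hav hμ using hval
    obtain ⟨Λ, hΛ, hΛT⟩ := exists_lambda_of_relations hq hm hzm hrel hlift hT (hG0 n) (hG n)
      hav hμ
    exact ⟨Λ, hΛ, fun i _ => hΛT i⟩

end RelEx

end Fermat.Agent.S36.H85
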