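/-
S36, row (E6) (helper85): the consumer theorem of Step 4 with
  * helper46's `TowerValU` (norm formulas for units only), and
  * the residue field of each triple point EXISTENTIALLY quantified
    (`∃ k, TripleLoc .. k (O n)`; the instance takes `k := ResidueField (O n)` via
    `exists_residue_map` + `towerLoc_of_chart`).
-/
import Mathlib
import Fermat.Agent.S36.H46_TowerValU
import Fermat.Agent.S36.H85_GlueRelEx

set_option autoImplicit false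

namespace Fermat.Agent.S36.H85

open Fermat.Agent.S34.H47 Fermat.Agent.S36.H46

section WireU

universe w

variable {F1 F2 : Type*} [Field F1] [Field F2]
  {a b : F1 →+* F2} {Na Nb : F2 →*₀ F1} {q m : ℕ}
  {V : Fin 3 → ValuationSubring F2} {WF WV : ValuationSubring F1}

/-- `TowerValU` (twice) + `TripleLoc` + the global lifts give the two relations. -/
theorem glueRelsAt_of_towersU {k : Type*} [Field k]
    (HVa : TowerValU a Na q (V 0) (V 1) (V 2) WF WV)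
    (HVb : TowerValU b Nb q (V 2) (V 1) (V 0) WV WF)
    {ζ ca cb : F1} (hab : a ζ = b ζ)
    {O : Subring F2} (HL : TripleLoc a b Na Nb q m V WF WV ζ ca cb k O)
    {u : F2} {T : Fin 3 → F2}
    {ha hb : F1} (hNa : Na u = ca * ha ^ m) (hNb : Nb u = cb * hb ^ m)
    {ts tm ti : F1} {js ji : ℕ}
    (hts : OneU (V 0) (T 0 / a ts)) (htm : OneU (V 1) (T 1 / a tm))
    (hti : OneU (V 2) (T 2 ^ q / a ti))
    (hjs : OneU WF (ha / (ts * tm ^ (q - 1)) / ζ ^ js)) (hji : OneU WV (ha / ti / ζ ^ ji))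
    {ts' tm' ti' : F1} {js' ji' : ℕ}
    (hts' : OneU (V 2) (T 2 / b ts')) (htm' : OneU (V 1) (T 1 / b tm'))
    (hti' : OneU (V 0) (T 0 ^ q / b ti'))
    (hjs' : OneU WV (hb / (ts' * tm' ^ (q - 1)) / ζ ^ js')) (hji' : OneU WF (hb / ti' / ζ ^ ji'))
    {G : F2} (hG0 : G ≠ 0) (hG : UnitIn O (u / G ^ m)) (hGV : ∀ i, (V i).valuation G = 1) :
    GlueRelsAt V O k (a ζ) q js ji js' ji' G T := by
  obtain ⟨O'a, O'b, ev, eva, evb, HLa, HLb, hζa, hζb, hca, hcb⟩ := HL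
  have hzO : UnitIn O (a ζ) := by
    refine ⟨HLa.haO ζ hζa.1, ?_, (map_ne_zero a).mpr hζa.2.2⟩
    rw [← map_inv₀]
    exact HLa.haO _ hζa.2.1
  refine ⟨ev, hzO, ?_, fun av hav hμ => ?_⟩
  · intro i x hx h
    fin_cases i
    · exact HLa.hevs x hx h
    · exact HLa.hevm x hx h
    · exact HLa.hevi x hx h
  · have R1 := glue_relU HVa HLa hζa hNa hca hts htm hti hjs hji hG0 hG (hGV 0) (hGV 1) (hGV 2)
      (hav 0) (hav 1) (hav 2) (hμ 0) (hμ 1) (hμ 2)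
    have R2 := glue_relU HVb HLb hζb hNb hcb hts' htm' hti' hjs' hji' hG0 hG (hGV 2) (hGV 1)
      (hGV 0) (hav 2) (hav 1) (hav 0) (hμ 2) (hμ 1) (hμ 0)
    have e1 : eva ⟨ζ, hζa.1⟩ = ev ⟨a ζ, hzO.1⟩ := (HLa.hev ζ hζa.1 hzO.1).symm
    have e2 : evb ⟨ζ, hζb.1⟩ = ev ⟨a ζ, hzO.1⟩ := by
      have hbz : b ζ ∈ O := by rw [← hab]; exact hzO.1
      rw [← HLb.hev ζ hζb.1 hbz]
      exact ev_congr ev hab.symm _ _
    rw [e1] at R1
    rw [e2] at R2
    exact ⟨R1, R2⟩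

/-- **Step 4 complete (`TowerValU`, residue fields depending on the point).** -/
theorem radDatum_of_towersU_ex {ν : Type*} (hq : 0 < q) (hm : 0 < m)
    (HVa : TowerValU a Na q (V 0) (V 1) (V 2) WF WV)
    (HVb : TowerValU b Nb q (V 2) (V 1) (V 0) WV WF)
    {O : ν → Subring F2} {Thr : ν → Fin 3 → Prop}
    {ζ : F1} (hζ : IsPrimitiveRoot ζ m) (hζF : WF.valuation ζ ≤ 1) (hζV : WV.valuation ζ ≤ 1)
    (hab : a ζ = b ζ)
    {u : F2} (hu : ∀ i, (V i).valuation u = 1)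
    {T : Fin 3 → F2} (hT : ∀ i, OneU (V i) (u / T i ^ m))
    {ca ha cb hb : F1} (hNa : Na u = ca * ha ^ m) (hNb : Nb u = cb * hb ^ m)
    (hcaF : OneU WF ca) (hcaV : OneU WV ca) (hcbF : OneU WF cb) (hcbV : OneU WV cb)
    {G : ν → F2} (hG0 : ∀ n, G n ≠ 0) (hG : ∀ n, UnitIn (O n) (u / G n ^ m))
    (hOV : ∀ n i, Thr n i → ∀ x : F2, UnitIn (O n) x → (V i).valuation x = 1)
    (happrox : ∀ T' : Fin 3 → F2, (∀ i, (V i).valuation (T' i) = 1) →
      ∃ Ψ : F2, Ψ ≠ 0 ∧ ∀ i, OneU (V i) (Ψ / T' i))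
    (hbr : ∀ n i, Thr n i → ∀ u' G' T' : F2, G' ≠ 0 → T' ≠ 0 → UnitIn (O n) (u' / G' ^ m) →
      OneU (V i) (u' / T' ^ m) → ∃ Λ : F2, UnitIn (O n) Λ ∧ OneU (V i) (Λ * G' / T'))
    (hpt : ∀ n, (∃ i₀, ∀ i, Thr n i → i = i₀) ∨
      ((∀ i, Thr n i) ∧
        (∃ (k : Type w) (_ : Field k), TripleLoc a b Na Nb q m V WF WV ζ ca cb k (O n)) ∧
        TripleLift m V (O n))) :
    ∃ Ψ : F2, Ψ ≠ 0 ∧ RadDatum O V Thr (u ^ (q ^ 2 - 1) / Ψ ^ m) m := by
  obtain ⟨ts, tm, ti, js, ji, hts, htm, hti, hjs, hji⟩ :=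
    HVa.exists_global hm hζ hζF hζV (hT 0) (hT 1) (hT 2) (hu 0) (hu 1) (hu 2) hNa hcaF hcaV
  obtain ⟨ts', tm', ti', js', ji', hts', htm', hti', hjs', hji'⟩ :=
    HVb.exists_global hm hζ hζV hζF (hT 2) (hT 1) (hT 0) (hu 2) (hu 1) (hu 0) hNb hcbV hcbF
  have hζm : ζ ^ m = 1 := hζ.pow_eq_one
  have hzm : a ζ ^ m = 1 := by rw [← map_pow, hζm, map_one]
  refine radDatum_of_relations_ex.{w} hq hm hzm hu hT hG0 hG happrox hbr js ji js' ji'
    (fun n => ?_)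
  rcases hpt n with hone | ⟨hall, ⟨k, hk, hloc⟩, hlift⟩
  · exact Or.inl hone
  · refine Or.inr ⟨hall, ⟨k, hk, ?_⟩, hlift⟩
    have hGV : ∀ i, (V i).valuation (G n) = 1 := fun i => by
      apply valuation_eq_one_of_pow hm
      have h1 := hOV n i (hall i) _ (hG n)
      rw [map_div₀, hu i] at h1
      rw [one_div, inv_eq_one] at h1
      exact h1
    exact glueRelsAt_of_towersU HVa HVb hab hloc hNa hNb hts htm hti hjs hji hts' htm' hti'
      hjs' hji' (hG0 n) (hG n) hGV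

end WireU

end Fermat.Agent.S36.H85
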