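/-
S36, row (r5) = (E6)-real (helper85): the two-chart consumer theorem of Step 4 with the residue
field of each triple point existentially quantified (twin of helper84's
`S36.H84.radDatum_of_towersU_two_charts`, whose `hpt` fixes one `k` for all points).
`hpt` is produced chart by chart by `H85.hpt_of_levelMaps`.
-/
import Mathlib
import Fermat.Agent.S36.H84_TowerAdaptersU
import Fermat.Agent.S36.H85_TowersUEx

set_option autoImplicit false
set_option linter.unusedSectionVars false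
set_option linter.style.haveILetI false

namespace Fermat.Agent.S36.H85

open Fermat.Agent.S34 Fermat.Agent.S34.H47 Fermat.Agent.S35 Fermat.Agent.S36

section TwoChartsEx

universe w

variable {R F : Type*} [CommRing R] [IsDomain R] [IsDiscreteValuationRing R]
  [Field F] [Algebra R F]
  {B₁ B₂ : Subalgebra R F} [IsFractionRing B₁ F] [IsFractionRing B₂ F]
  [IsNoetherianRing B₁] [IsNoetherianRing B₂] [IsIntegrallyClosed B₁] [IsIntegrallyClosed B₂]
  {π : R} (P₁ : Fin 3 → Ideal B₁) (P₂ : Fin 3 → Ideal B₂)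
  [hP₁ : ∀ i, (P₁ i).IsPrime] [hP₂ : ∀ i, (P₂ i).IsPrime]
  (hh₁ : ∀ i, (P₁ i).height = 1) (hh₂ : ∀ i, (P₂ i).height = 1)

/-- **Step 4 for the two-chart model** (`TowerValU`, residue fields depending on the point). -/
theorem radDatum_of_towersU_ex_two_charts {F1 : Type*} [Field F1]
    {a b : F1 →+* F} {Na Nb : F →*₀ F1} {q m : ℕ}
    {WF WV : ValuationSubring F1} (hq : 0 < q) (hm : 0 < m)
    (hqπ : π ∣ (q : R)) (hmq : Nat.Coprime m q)
    (hinj : Function.Injective P₁)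
    (hVeq : ∀ i, H56.valuationSubringAt (K := F) (P₁ i) (hh₁ i) =
      H56.valuationSubringAt (K := F) (P₂ i) (hh₂ i))
    (hbranch₁ : ∀ i, IsIntegrallyClosed (B₁ ⧸ P₁ i))
    (hbranch₂ : ∀ i, IsIntegrallyClosed (B₂ ⧸ P₂ i))
    (HVa : H46.TowerValU a Na q (H56.valuationSubringAt (K := F) (P₁ 0) (hh₁ 0))
      (H56.valuationSubringAt (K := F) (P₁ 1) (hh₁ 1))
      (H56.valuationSubringAt (K := F) (P₁ 2) (hh₁ 2)) WF WV)
    (HVb : H46.TowerValU b Nb q (H56.valuationSubringAt (K := F) (P₁ 2) (hh₁ 2))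
      (H56.valuationSubringAt (K := F) (P₁ 1) (hh₁ 1))
      (H56.valuationSubringAt (K := F) (P₁ 0) (hh₁ 0)) WV WF)
    {ζ : F1} (hζ : IsPrimitiveRoot ζ m) (hζF : WF.valuation ζ ≤ 1) (hζV : WV.valuation ζ ≤ 1)
    (hab : a ζ = b ζ)
    {u : F} (hu : ∀ i, (H56.valuationSubringAt (K := F) (P₁ i) (hh₁ i)).valuation u = 1)
    {T : Fin 3 → F}
    (hT : ∀ i, OneU (H56.valuationSubringAt (K := F) (P₁ i) (hh₁ i)) (u / T i ^ m))
    {ca ha cb hb : F1} (hNa : Na u = ca * ha ^ m) (hNb : Nb u = cb * hb ^ m)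
    (hcaF : OneU WF ca) (hcaV : OneU WV ca) (hcbF : OneU WF cb) (hcbV : OneU WV cb)
    {G : H21.ClosedPt B₁ π ⊕ H21.ClosedPt B₂ π → F} (hG0 : ∀ n, G n ≠ 0)
    (hG : ∀ n, UnitIn (H21.ptO B₁ B₂ π n) (u / G n ^ m))
    (hpt : ∀ n, (∃ i₀, ∀ i, H21.primeThr (π := π) P₁ P₂ n i → i = i₀) ∨
      ((∀ i, H21.primeThr (π := π) P₁ P₂ n i) ∧ ∃ (k : Type w) (_ : Field k),
        TripleLoc a b Na Nb q m (fun i => H56.valuationSubringAt (K := F) (P₁ i) (hh₁ i))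
          WF WV ζ ca cb k (H21.ptO B₁ B₂ π n))) :
    ∃ Ψ : F, Ψ ≠ 0 ∧ RadDatum (H21.ptO B₁ B₂ π)
      (fun i => H56.valuationSubringAt (K := F) (P₁ i) (hh₁ i))
      (H21.primeThr (π := π) P₁ P₂) (u ^ (q ^ 2 - 1) / Ψ ^ m) m :=
  radDatum_of_towersU_ex.{w} hq hm HVa HVb hζ hζF hζV hab hu hT hNa hNb hcaF hcaV hcbF hcbV
    hG0 hG (H84.hOV_two_charts P₁ P₂ hh₁ hh₂ hVeq) (H84.happrox_chart P₁ hh₁ hinj)
    (H84.hbr_two_charts P₁ P₂ hh₁ hh₂ hVeq hbranch₁ hbranch₂ hm)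
    (fun n => (hpt n).imp id fun ⟨hall, hloc⟩ =>
      ⟨hall, hloc, H84.tripleLift_two_charts P₁ P₂ hh₁ hh₂ hVeq hbranch₁ hbranch₂ hm n hall
        (H84.unitIn_natCast_ptO n hqπ hmq)⟩)

end TwoChartsEx

end Fermat.Agent.S36.H85
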