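/-
helper69 -- S36 (Carayol), row (E7a): **the skeleton with the (E6) step abstracted**, and its
instances with helper85's `_ex` consumers (residue field of each triple point EXISTENTIALLY
quantified: `S36.H85.radDatum_of_towersU_ex`, `S36.H85.radDatum_of_towersU_ex_two_charts`, whose
`hpt` is produced chart by chart by `S36.H85.hpt_of_levelMaps`).

* `geo36_core` : the chain (E3) → (E5) → (E4) → NORMCONST → **(E6) as a hypothesis `hE6`** → (E1);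
* `geo36_of_radicalDatum_ex` : abstract form, `hE6 := H85.radDatum_of_towersU_ex`;
* `geo36_two_charts_ex` : two-chart form, `hE6 := H85.radDatum_of_towersU_ex_two_charts`,
  constants normalised by NORMCONST (`S36.H69.hconst_of_normConst`).
-/
import Mathlib
import Fermat.Agent.S36.H69_Geo36Const
import Fermat.Agent.S36.H85_TwoChartsEx

set_option autoImplicit false
set_option linter.unusedSectionVars false
set_option linter.unusedVariables false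

namespace Fermat.Agent.S36.H69

open Fermat.Agent.S34 Fermat.Agent.S34.H47 Fermat.Agent.S35 Fermat.Agent.S36.H85
  Fermat.Agent.S36.H46

section Core

variable {K F1 F2 : Type*} [Field K] [Field F1] [Field F2] [Algebra K F1] [Algebra K F2]
  {ν : Type*} {Na Nb : F2 →*₀ F1} {q m : ℕ}
  {V : Fin 3 → ValuationSubring F2}
  {O : ν → Subring F2} {Thr : ν → Fin 3 → Prop}

/-- **The chain with the (E6) step as a hypothesis.** -/
theorem geo36_core (hm : 0 < m)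
    {qK : K} (hqK : qK ≠ 0) {d : ℕ}
    (hNaK : ∀ c : K, Na (algebraMap K F2 c) = algebraMap K F1 c ^ d)
    (hNbK : ∀ c : K, Nb (algebraMap K F2 c) = algebraMap K F1 c ^ d)
    (U : K → Prop)
    -- (E6), all of it
    (hE6 : ∀ (u G5 : F2) (ca cb : K) (ha hb : F1) (G : ν → F2),
      (∀ i, (V i).valuation u = 1) → (∀ i, OneU (V i) (u / G5 ^ m)) →
      Na u = algebraMap K F1 ca * ha ^ m → Nb u = algebraMap K F1 cb * hb ^ m → U ca → U cb →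
      (∀ n, G n ≠ 0) → (∀ n, UnitIn (O n) (u / G n ^ m)) →
      ∃ Ψ : F2, Ψ ≠ 0 ∧ RadDatum O V Thr (u ^ (q ^ 2 - 1) / Ψ ^ m) m)
    -- (E1)
    (crit : ∀ u : F2, u ≠ 0 → RadDatum O V Thr u m →
      ∃ (c : K) (g : F2), u = algebraMap K F2 c * g ^ m)
    {f : F2} (hf : f ≠ 0)
    (hNα : ∃ (c : K) (h : F1), c ≠ 0 ∧ h ≠ 0 ∧ Na f = algebraMap K F1 c * h ^ m)
    (hNβ : ∃ (c : K) (h : F1), c ≠ 0 ∧ h ≠ 0 ∧ Nb f = algebraMap K F1 c * h ^ m)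
    (hE3 : ∃ (s : ℤ) (g : F2), g ≠ 0 ∧
      ∀ i, (V i).valuation (f ^ (q + 1) * algebraMap K F2 qK ^ (-s) * (g ^ m)⁻¹) = 1)
    (hE4 : ∀ (s : ℤ) (g : F2), g ≠ 0 →
      (∀ i, (V i).valuation (f ^ (q + 1) * algebraMap K F2 qK ^ (-s) * (g ^ m)⁻¹) = 1) →
      ∃ G : ν → F2, (∀ n, G n ≠ 0) ∧
        ∀ n, UnitIn (O n) (f ^ (q + 1) * algebraMap K F2 qK ^ (-s) * (g ^ m)⁻¹ / G n ^ m))
    (hE5 : ∀ u : F2, (∀ i, (V i).valuation u = 1) →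
      (∃ (c : K) (h : F1), c ≠ 0 ∧ h ≠ 0 ∧ Na u = algebraMap K F1 c * h ^ m) →
      (∃ (c : K) (h : F1), c ≠ 0 ∧ h ≠ 0 ∧ Nb u = algebraMap K F1 c * h ^ m) →
      ∃ G : F2, G ≠ 0 ∧ (∀ j, (V j).valuation G = 1) ∧
        ∀ j, OneU (V j) (u ^ (q - 1) / G ^ m))
    (hconstα : ∀ (u : F2) (c : K) (h : F1), (∀ i, (V i).valuation u = 1) → c ≠ 0 → h ≠ 0 →
      Na u = algebraMap K F1 c * h ^ m →
      ∃ (c1 : K) (h1 : F1), U c1 ∧ Na u = algebraMap K F1 c1 * h1 ^ m)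
    (hconstβ : ∀ (u : F2) (c : K) (h : F1), (∀ i, (V i).valuation u = 1) → c ≠ 0 → h ≠ 0 →
      Nb u = algebraMap K F1 c * h ^ m →
      ∃ (c1 : K) (h1 : F1), U c1 ∧ Nb u = algebraMap K F1 c1 * h1 ^ m) :
    ∃ (c : K) (w : F2), c ≠ 0 ∧ w ≠ 0 ∧
      f ^ ((q + 1) * (q - 1) * (q ^ 2 - 1)) = algebraMap K F2 c * w ^ m := by
  classical
  obtain ⟨s, g, hg0, hu1⟩ := hE3
  obtain ⟨cα, hα, hcα, hhα, hNα⟩ := hNα
  obtain ⟨cβ, hβ, hcβ, hhβ, hNβ⟩ := hNβ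
  set qF : F2 := algebraMap K F2 qK with hqF
  have hqF0 : qF ≠ 0 := by
    rw [hqF]
    exact (map_ne_zero (algebraMap K F2)).mpr hqK
  set u1 : F2 := f ^ (q + 1) * qF ^ (-s) * (g ^ m)⁻¹ with hu1def
  have hu10 : u1 ≠ 0 :=
    mul_ne_zero (mul_ne_zero (pow_ne_zero _ hf) (zpow_ne_zero _ hqF0))
      (inv_ne_zero (pow_ne_zero _ hg0))
  have hN1α := norm_step1 (q := q) hNaK hqK hg0 s hcα hhα hNα
  have hN1β := norm_step1 (q := q) hNbK hqK hg0 s hcβ hhβ hNβ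
  obtain ⟨G5, hG50, hG5V, hG5⟩ := hE5 u1 hu1 hN1α hN1β
  obtain ⟨G4, hG40, hG4⟩ := hE4 s g hg0 hu1
  set u2 : F2 := u1 ^ (q - 1) with hu2def
  have hu20 : u2 ≠ 0 := pow_ne_zero _ hu10
  have hu2 : ∀ i, (V i).valuation u2 = 1 := fun i => by
    rw [hu2def, map_pow, hu1 i, one_pow]
  obtain ⟨c2α, h2α, hc2α, hh2α, hN2α⟩ := hN1α
  obtain ⟨c2β, h2β, hc2β, hh2β, hN2β⟩ := hN1β
  obtain ⟨c3α, h3α, hc3α, hh3α, hN3α⟩ := norm_pow_step (q - 1) hc2α hh2α hN2α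
  obtain ⟨c3β, h3β, hc3β, hh3β, hN3β⟩ := norm_pow_step (q - 1) hc2β hh2β hN2β
  obtain ⟨ca, ha, hUca, hNa⟩ := hconstα u2 c3α h3α hu2 hc3α hh3α hN3α
  obtain ⟨cb, hb, hUcb, hNb⟩ := hconstβ u2 c3β h3β hu2 hc3β hh3β hN3β
  have hG2 : ∀ n, UnitIn (O n) (u2 / (G4 n ^ (q - 1)) ^ m) := fun n => by
    have e : u2 / (G4 n ^ (q - 1)) ^ m = (u1 / G4 n ^ m) ^ (q - 1) := by
      rw [hu2def, div_pow, ← pow_mul, ← pow_mul, mul_comm]
    rw [e]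
    exact H85.UnitIn.pow (hG4 n) (q - 1)
  -- (E6)
  obtain ⟨Ψ, hΨ0, hrad⟩ := hE6 u2 G5 ca cb ha hb (fun n => G4 n ^ (q - 1)) hu2 hG5 hNa hNb
    hUca hUcb (fun n => pow_ne_zero _ (hG40 n)) hG2
  -- (E1)
  have hu30 : u2 ^ (q ^ 2 - 1) / Ψ ^ m ≠ 0 :=
    div_ne_zero (pow_ne_zero _ hu20) (pow_ne_zero _ hΨ0)
  obtain ⟨c, w, hcw⟩ := crit _ hu30 hrad
  have hc0 : c ≠ 0 := by
    rintro rfl
    rw [map_zero, zero_mul] at hcw
    exact hu30 hcw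
  have hw0 : w ≠ 0 := by
    rintro rfl
    rw [zero_pow hm.ne', mul_zero] at hcw
    exact hu30 hcw
  set e2 : ℕ := (q - 1) * (q ^ 2 - 1) with he2
  refine ⟨c * (qK ^ s) ^ e2, w * Ψ * g ^ e2,
    mul_ne_zero hc0 (pow_ne_zero _ (zpow_ne_zero _ hqK)),
    mul_ne_zero (mul_ne_zero hw0 hΨ0) (pow_ne_zero _ hg0), ?_⟩
  have h1 : u2 ^ (q ^ 2 - 1) = algebraMap K F2 c * w ^ m * Ψ ^ m := by
    rw [← hcw, div_mul_cancel₀ _ (pow_ne_zero _ hΨ0)]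
  have h2 : f ^ (q + 1) = u1 * qF ^ s * g ^ m := by
    rw [hu1def, zpow_neg]
    field_simp
  have h3 : f ^ ((q + 1) * (q - 1) * (q ^ 2 - 1)) = u2 ^ (q ^ 2 - 1) * (qF ^ s) ^ e2 *
      (g ^ e2) ^ m := by
    rw [mul_assoc, pow_mul, h2, mul_pow, mul_pow, he2, pow_mul u1, ← hu2def, ← pow_mul g,
      ← pow_mul g, mul_comm m]
  rw [h3, h1, map_mul, map_pow, map_zpow₀, mul_pow, mul_pow, ← hqF]
  ring

end Core

section Ex

universe w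

variable {K F1 F2 : Type*} [Field K] [Field F1] [Field F2] [Algebra K F1] [Algebra K F2]
  {ν : Type*} {a b : F1 →+* F2} {Na Nb : F2 →*₀ F1} {q m : ℕ}
  {V : Fin 3 → ValuationSubring F2} {WF WV : ValuationSubring F1}
  {O : ν → Subring F2} {Thr : ν → Fin 3 → Prop}

/-- **(E7a), `_ex` form of the abstract skeleton**: as `geo36_of_radicalDatum`, with the residue
field of each triple point existentially quantified in `hpt`. -/
theorem geo36_of_radicalDatum_ex (hq : 0 < q) (hm : 0 < m)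
    {qK : K} (hqK : qK ≠ 0) {d : ℕ}
    (hNaK : ∀ c : K, Na (algebraMap K F2 c) = algebraMap K F1 c ^ d)
    (hNbK : ∀ c : K, Nb (algebraMap K F2 c) = algebraMap K F1 c ^ d)
    (U : K → Prop)
    (hUF : ∀ c, U c → OneU WF (algebraMap K F1 c))
    (hUV : ∀ c, U c → OneU WV (algebraMap K F1 c))
    (HVa : TowerValU a Na q (V 0) (V 1) (V 2) WF WV)
    (HVb : TowerValU b Nb q (V 2) (V 1) (V 0) WV WF)
    {ζ : F1} (hζ : IsPrimitiveRoot ζ m) (hζF : WF.valuation ζ ≤ 1) (hζV : WV.valuation ζ ≤ 1)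
    (hab : a ζ = b ζ)
    (hOV : ∀ n i, Thr n i → ∀ x : F2, UnitIn (O n) x → (V i).valuation x = 1)
    (happrox : ∀ T' : Fin 3 → F2, (∀ i, (V i).valuation (T' i) = 1) →
      ∃ Ψ : F2, Ψ ≠ 0 ∧ ∀ i, OneU (V i) (Ψ / T' i))
    (hbr : ∀ n i, Thr n i → ∀ u' G' T' : F2, G' ≠ 0 → T' ≠ 0 → UnitIn (O n) (u' / G' ^ m) →
      OneU (V i) (u' / T' ^ m) → ∃ Λ : F2, UnitIn (O n) Λ ∧ OneU (V i) (Λ * G' / T'))
    (hpt : ∀ ca cb : K, U ca → U cb → ∀ n, (∃ i₀, ∀ i, Thr n i → i = i₀) ∨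
      ((∀ i, Thr n i) ∧
        (∃ (k : Type w) (_ : Field k), TripleLoc a b Na Nb q m V WF WV ζ
          (algebraMap K F1 ca) (algebraMap K F1 cb) k (O n)) ∧
        TripleLift m V (O n)))
    (crit : ∀ u : F2, u ≠ 0 → RadDatum O V Thr u m →
      ∃ (c : K) (g : F2), u = algebraMap K F2 c * g ^ m)
    {f : F2} (hf : f ≠ 0)
    (hNα : ∃ (c : K) (h : F1), c ≠ 0 ∧ h ≠ 0 ∧ Na f = algebraMap K F1 c * h ^ m)
    (hNβ : ∃ (c : K) (h : F1), c ≠ 0 ∧ h ≠ 0 ∧ Nb f = algebraMap K F1 c * h ^ m)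
    (hE3 : ∃ (s : ℤ) (g : F2), g ≠ 0 ∧
      ∀ i, (V i).valuation (f ^ (q + 1) * algebraMap K F2 qK ^ (-s) * (g ^ m)⁻¹) = 1)
    (hE4 : ∀ (s : ℤ) (g : F2), g ≠ 0 →
      (∀ i, (V i).valuation (f ^ (q + 1) * algebraMap K F2 qK ^ (-s) * (g ^ m)⁻¹) = 1) →
      ∃ G : ν → F2, (∀ n, G n ≠ 0) ∧
        ∀ n, UnitIn (O n) (f ^ (q + 1) * algebraMap K F2 qK ^ (-s) * (g ^ m)⁻¹ / G n ^ m))
    (hE5 : ∀ u : F2, (∀ i, (V i).valuation u = 1) →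
      (∃ (c : K) (h : F1), c ≠ 0 ∧ h ≠ 0 ∧ Na u = algebraMap K F1 c * h ^ m) →
      (∃ (c : K) (h : F1), c ≠ 0 ∧ h ≠ 0 ∧ Nb u = algebraMap K F1 c * h ^ m) →
      ∃ G : F2, G ≠ 0 ∧ (∀ j, (V j).valuation G = 1) ∧
        ∀ j, OneU (V j) (u ^ (q - 1) / G ^ m))
    (hconstα : ∀ (u : F2) (c : K) (h : F1), (∀ i, (V i).valuation u = 1) → c ≠ 0 → h ≠ 0 →
      Na u = algebraMap K F1 c * h ^ m →
      ∃ (c1 : K) (h1 : F1), U c1 ∧ Na u = algebraMap K F1 c1 * h1 ^ m)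
    (hconstβ : ∀ (u : F2) (c : K) (h : F1), (∀ i, (V i).valuation u = 1) → c ≠ 0 → h ≠ 0 →
      Nb u = algebraMap K F1 c * h ^ m →
      ∃ (c1 : K) (h1 : F1), U c1 ∧ Nb u = algebraMap K F1 c1 * h1 ^ m) :
    ∃ (c : K) (w : F2), c ≠ 0 ∧ w ≠ 0 ∧
      f ^ ((q + 1) * (q - 1) * (q ^ 2 - 1)) = algebraMap K F2 c * w ^ m :=
  geo36_core hm hqK hNaK hNbK U
    (fun u G5 ca cb ha hb G hu hG5 hNa hNb hUca hUcb hG0 hG =>
      radDatum_of_towersU_ex.{w} (O := O) (Thr := Thr) hq hm HVa HVb hζ hζF hζV hab hu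
        (T := fun _ => G5) hG5 hNa hNb (hUF ca hUca) (hUV ca hUca) (hUF cb hUcb) (hUV cb hUcb)
        hG0 hG hOV happrox hbr (hpt ca cb hUca hUcb))
    crit hf hNα hNβ hE3 hE4 hE5 hconstα hconstβ

end Ex

section TwoChartsEx

universe w

variable {R F2 : Type*} [CommRing R] [IsDomain R] [IsDiscreteValuationRing R]
  [Field F2] [Algebra R F2]
  {B₁ B₂ : Subalgebra R F2} [IsFractionRing B₁ F2] [IsFractionRing B₂ F2]
  [IsNoetherianRing B₁] [IsNoetherianRing B₂] [IsIntegrallyClosed B₁] [IsIntegrallyClosed B₂]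
  {π : R} (P₁ : Fin 3 → Ideal B₁) (P₂ : Fin 3 → Ideal B₂)
  [hP₁ : ∀ i, (P₁ i).IsPrime] [hP₂ : ∀ i, (P₂ i).IsPrime]
  (hh₁ : ∀ i, (P₁ i).height = 1) (hh₂ : ∀ i, (P₂ i).height = 1)
  {K F1 : Type*} [Field K] [Field F1] [Algebra K F1] [Algebra K F2]
  {a b : F1 →+* F2} {Na Nb : F2 →*₀ F1} {q m : ℕ}
  {WF WV : ValuationSubring F1}

/-- **(E7a) The two-chart skeleton, `_ex` form, constants normalised by NORMCONST.**
`hpt` = the output of `S36.H85.hpt_of_levelMaps` on each chart (for all normalised constants). -/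
theorem geo36_two_charts_ex (hq : 0 < q) (hm : 0 < m)
    -- the two-chart model
    (hqπ : π ∣ (q : R)) (hmq : Nat.Coprime m q) (hinj : Function.Injective P₁)
    (hVeq : ∀ i, H56.valuationSubringAt (K := F2) (P₁ i) (hh₁ i) =
      H56.valuationSubringAt (K := F2) (P₂ i) (hh₂ i))
    (hbranch₁ : ∀ i, IsIntegrallyClosed (B₁ ⧸ P₁ i))
    (hbranch₂ : ∀ i, IsIntegrallyClosed (B₂ ⧸ P₂ i))
    -- constants
    {qK : K} (hqK : qK ≠ 0) {d : ℕ}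
    (hNaK : ∀ c : K, Na (algebraMap K F2 c) = algebraMap K F1 c ^ d)
    (hNbK : ∀ c : K, Nb (algebraMap K F2 c) = algebraMap K F1 c ^ d)
    -- NORMCONST inputs
    (A : ValuationSubring K)
    (hWFlt : ∀ x : K, A.valuation x < 1 → WF.valuation (algebraMap K F1 x) < 1)
    (hWVlt : ∀ x : K, A.valuation x < 1 → WV.valuation (algebraMap K F1 x) < 1)
    {πK : K} (hπ0 : πK ≠ 0) (hπlt : A.valuation πK < 1)
    (hπ : ∀ c : K, c ≠ 0 → ∃ n : ℤ, A.valuation (c * πK ^ (-n)) = 1)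
    (hπWF : ∀ x : F1, x ≠ 0 → ∃ n : ℤ, WF.valuation (x * (algebraMap K F1 πK) ^ (-n)) = 1)
    (hπWV : ∀ x : F1, x ≠ 0 → ∃ n : ℤ, WV.valuation (x * (algebraMap K F1 πK) ^ (-n)) = 1)
    (hAWF : ∀ x : K, A.valuation x = 1 → WF.valuation (algebraMap K F1 x) = 1)
    (hAWV : ∀ x : K, A.valuation x = 1 → WV.valuation (algebraMap K F1 x) = 1)
    (hroot : ∀ c : K, A.valuation c = 1 →
      ∃ c1 : K, A.valuation c1 = 1 ∧ A.valuation (c / c1 ^ m - 1) < 1)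
    -- (E5)/(E6) global tower data
    (HVa : TowerValU a Na q (H56.valuationSubringAt (K := F2) (P₁ 0) (hh₁ 0))
      (H56.valuationSubringAt (K := F2) (P₁ 1) (hh₁ 1))
      (H56.valuationSubringAt (K := F2) (P₁ 2) (hh₁ 2)) WF WV)
    (HVb : TowerValU b Nb q (H56.valuationSubringAt (K := F2) (P₁ 2) (hh₁ 2))
      (H56.valuationSubringAt (K := F2) (P₁ 1) (hh₁ 1))
      (H56.valuationSubringAt (K := F2) (P₁ 0) (hh₁ 0)) WV WF)
    {ζ : F1} (hζ : IsPrimitiveRoot ζ m) (hζF : WF.valuation ζ ≤ 1) (hζV : WV.valuation ζ ≤ 1)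
    (hab : a ζ = b ζ)
    -- (E6) point classification + local tower data at the triple points
    (hpt : ∀ ca cb : K, NormalisedConst A WF WV ca → NormalisedConst A WF WV cb → ∀ n,
      (∃ i₀, ∀ i, H21.primeThr (π := π) P₁ P₂ n i → i = i₀) ∨
      ((∀ i, H21.primeThr (π := π) P₁ P₂ n i) ∧ ∃ (k : Type w) (_ : Field k),
        TripleLoc a b Na Nb q m (fun i => H56.valuationSubringAt (K := F2) (P₁ i) (hh₁ i))
          WF WV ζ (algebraMap K F1 ca) (algebraMap K F1 cb) k (H21.ptO B₁ B₂ π n)))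
    -- (E1) the radical Kummer criterion
    (crit : ∀ u : F2, u ≠ 0 →
      RadDatum (H21.ptO B₁ B₂ π) (fun i => H56.valuationSubringAt (K := F2) (P₁ i) (hh₁ i))
        (H21.primeThr (π := π) P₁ P₂) u m →
      ∃ (c : K) (g : F2), u = algebraMap K F2 c * g ^ m)
    -- the function and its two norm identities
    {f : F2} (hf : f ≠ 0)
    (hNα : ∃ (c : K) (h : F1), c ≠ 0 ∧ h ≠ 0 ∧ Na f = algebraMap K F1 c * h ^ m)
    (hNβ : ∃ (c : K) (h : F1), c ≠ 0 ∧ h ≠ 0 ∧ Nb f = algebraMap K F1 c * h ^ m)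
    -- (E3)
    (hE3 : ∃ (s : ℤ) (g : F2), g ≠ 0 ∧
      ∀ i, (H56.valuationSubringAt (K := F2) (P₁ i) (hh₁ i)).valuation
        (f ^ (q + 1) * algebraMap K F2 qK ^ (-s) * (g ^ m)⁻¹) = 1)
    -- (E4)
    (hE4 : ∀ (s : ℤ) (g : F2), g ≠ 0 →
      (∀ i, (H56.valuationSubringAt (K := F2) (P₁ i) (hh₁ i)).valuation
        (f ^ (q + 1) * algebraMap K F2 qK ^ (-s) * (g ^ m)⁻¹) = 1) →
      ∃ G : H21.ClosedPt B₁ π ⊕ H21.ClosedPt B₂ π → F2, (∀ n, G n ≠ 0) ∧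
        ∀ n, UnitIn (H21.ptO B₁ B₂ π n)
          (f ^ (q + 1) * algebraMap K F2 qK ^ (-s) * (g ^ m)⁻¹ / G n ^ m))
    -- (E5)
    (hE5 : ∀ u : F2,
      (∀ i, (H56.valuationSubringAt (K := F2) (P₁ i) (hh₁ i)).valuation u = 1) →
      (∃ (c : K) (h : F1), c ≠ 0 ∧ h ≠ 0 ∧ Na u = algebraMap K F1 c * h ^ m) →
      (∃ (c : K) (h : F1), c ≠ 0 ∧ h ≠ 0 ∧ Nb u = algebraMap K F1 c * h ^ m) →
      ∃ G : F2, G ≠ 0 ∧
        (∀ j, (H56.valuationSubringAt (K := F2) (P₁ j) (hh₁ j)).valuation G = 1) ∧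
        ∀ j, OneU (H56.valuationSubringAt (K := F2) (P₁ j) (hh₁ j)) (u ^ (q - 1) / G ^ m)) :
    ∃ (c : K) (w : F2), c ≠ 0 ∧ w ≠ 0 ∧
      f ^ ((q + 1) * (q - 1) * (q ^ 2 - 1)) = algebraMap K F2 c * w ^ m :=
  geo36_core (O := H21.ptO B₁ B₂ π)
    (V := fun i => H56.valuationSubringAt (K := F2) (P₁ i) (hh₁ i))
    (Thr := H21.primeThr (π := π) P₁ P₂) hm hqK hNaK hNbK (NormalisedConst A WF WV)
    (fun u G5 ca cb ha hb G hu hG5 hNa hNb hUca hUcb hG0 hG =>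
      radDatum_of_towersU_ex_two_charts.{w} P₁ P₂ hh₁ hh₂ hq hm hqπ hmq hinj hVeq hbranch₁
        hbranch₂ HVa HVb hζ hζF hζV hab hu (T := fun _ => G5) hG5 hNa hNb
        hUca.2.1 hUca.2.2 hUcb.2.1 hUcb.2.2 hG0 hG (hpt ca cb hUca hUcb))
    crit hf hNα hNβ hE3 hE4 hE5
    (fun u c h hu hc hh hN =>
      hconst_of_normConst HVa A hWFlt hWVlt hπ0 hπlt hπ hπWF hAWF hroot u c h (hu 0) (hu 1)
        hc hh hN)
    (fun u c h hu hc hh hN => by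
      obtain ⟨c1, h1, ⟨hA, hV, hF⟩, hN1⟩ :=
        hconst_of_normConst HVb A hWVlt hWFlt hπ0 hπlt hπ hπWV hAWV hroot u c h (hu 2) (hu 1)
          hc hh hN
      exact ⟨c1, h1, ⟨hA, hF, hV⟩, hN1⟩)

end TwoChartsEx

end Fermat.Agent.S36.H69
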