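/-
helper18 — S36 row (E7), **the two-chart skeleton at the real types**.

`geoFn36E_of_twoCharts` : helper69's `S36.H69.geo36_two_charts_final` instantiated at

* `K := ↥E0`, `R := ↥(cutOver A E0)` (`A := cutOver A E0` as a valuation subring of `K`),
  `π := (q : R)`, `πK = qK := (q : K)`, `d := q`, `m := p ^ k`;
* `F₁ := F_K(q L)`, `F₂ := F_K(q (q L))`, `a := alphaK`, `b := betaK`, `Na := normAlphaK`,
  `Nb := normBetaK`;
* two charts `B₁ B₂ : Subalgebra R F₂` (in the application `chartB R J₃`, `chartB R J₃⁻¹`), the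
  three vertical primes `P₁ P₂ : Fin 3 → Ideal` on each, `V i := valuationSubringAt (P₁ i)`,
  `O := H21.ptO B₁ B₂ π`, `Thr := H21.primeThr P₁ P₂`,

with the constants block discharged, and the conclusion in the form `H18.GeoFn36E` consumed by
`H18.ifGeo36_of_model`.  Remaining hypotheses = the real-types outputs of the rows:
(E2) `hinj hVeq hbranch₁ hbranch₂`; (M1)/(W) the six facts on `WF`, `WV`; (E5)/(E6) `HVa HVb`;
(r5) `hpt`; (r1) `crit`; (r2) `hE3`; (r4) `hE4`.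
-/
import Mathlib
import Fermat.Agent.S36.H18_Geo36Core
import Fermat.Agent.S36.H69_Geo36Final

set_option autoImplicit false
set_option linter.unusedSectionVars false
set_option linter.style.haveILetI false
set_option synthInstance.maxHeartbeats 400000

noncomputable section

namespace Fermat.Agent.S36.H18

open ModularCurve AlgebraicCurve IntermediateField
open Fermat.Agent.S18 Fermat.Agent.S18.H45 Fermat.Agent.S34 Fermat.Agent.S34.H47
open Fermat.Agent.S36.H85 Fermat.Agent.S36.H46 Fermat.Agent.S36.H69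

local notation "Qbar" => AlgebraicClosure ℚ

section Real

variable (L q : ℕ) [NeZero L] [NeZero q] (hq : q.Prime)
  {A : ValuationSubring Qbar} (hA : A.LiesOverPrime q)
  (E0 : IntermediateField (unrCyclo q) Qbar) [FiniteDimensional (unrCyclo q) E0]
  (hfix : ∀ σ ∈ A.inertiaSubgroupIn ℚ, ∀ x : E0, σ ((x : E0) : Qbar) = ((x : E0) : Qbar))

set_option quotPrecheck false
local notation "F₁" => ↥(modularFunctionFieldFullC ↥E0 (q * L))
local notation "F₂" => ↥(modularFunctionFieldFullC ↥E0 (q * (q * L)))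
local notation "RR" => ↥(cutOver A E0)
local notation "aα" => alphaK ↥E0 (q * L) (q * (q * L)) (dvd_mul_left (q * L) q)
local notation "bβ" => betaK ↥E0 q (q * L) (q * (q * L)) dvd_rfl
local notation "Nα" => normAlphaK ↥E0 (q * L) (q * (q * L)) (dvd_mul_left (q * L) q)
local notation "Nβ" => normBetaK ↥E0 q (q * L) (q * (q * L)) dvd_rfl
local notation "πq" => (((q : ℕ) : ↥(cutOver A E0)))

set_option maxHeartbeats 6400000 in
include hq hA hfix in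
/-- **The two-chart skeleton at the real types.** -/
theorem geoFn36E_of_twoCharts {p : ℕ} (hp : p.Prime) (hpq : p ≠ q) (k : ℕ)
    {B₁ B₂ : Subalgebra RR F₂} [IsFractionRing B₁ F₂] [IsFractionRing B₂ F₂]
    [IsNoetherianRing B₁] [IsNoetherianRing B₂] [IsIntegrallyClosed B₁] [IsIntegrallyClosed B₂]
    (P₁ : Fin 3 → Ideal B₁) (P₂ : Fin 3 → Ideal B₂)
    [hP₁ : ∀ i, (P₁ i).IsPrime] [hP₂ : ∀ i, (P₂ i).IsPrime]
    (hh₁ : ∀ i, (P₁ i).height = 1) (hh₂ : ∀ i, (P₂ i).height = 1)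
    (WF WV : ValuationSubring F₁)
    -- (E2) the two-chart model
    (hinj : Function.Injective P₁)
    (hVeq : ∀ i, H56.valuationSubringAt (K := F₂) (P₁ i) (hh₁ i) =
      H56.valuationSubringAt (K := F₂) (P₂ i) (hh₂ i))
    (hbranch₁ : ∀ i, IsIntegrallyClosed (B₁ ⧸ P₁ i))
    (hbranch₂ : ∀ i, IsIntegrallyClosed (B₂ ⧸ P₂ i))
    -- (W) `WF`, `WV` lie over `R = cutOver A E0` and `q` is a uniformiser there
    (hWFint : ∀ x : ↥E0, (cutOver A E0).valuation x ≤ 1 →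
      WF.valuation (algebraMap ↥E0 F₁ x) ≤ 1)
    (hWFq : WF.valuation (algebraMap ↥E0 F₁ ((q : ℕ) : ↥E0)) < 1)
    (hWFπ : ∀ x : F₁, x ≠ 0 →
      ∃ n : ℤ, WF.valuation (x * (algebraMap ↥E0 F₁ ((q : ℕ) : ↥E0)) ^ (-n)) = 1)
    (hWVint : ∀ x : ↥E0, (cutOver A E0).valuation x ≤ 1 →
      WV.valuation (algebraMap ↥E0 F₁ x) ≤ 1)
    (hWVq : WV.valuation (algebraMap ↥E0 F₁ ((q : ℕ) : ↥E0)) < 1)
    (hWVπ : ∀ x : F₁, x ≠ 0 →
      ∃ n : ℤ, WV.valuation (x * (algebraMap ↥E0 F₁ ((q : ℕ) : ↥E0)) ^ (-n)) = 1)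
    -- (E5)/(E6) the two towers
    (HVa : TowerValU aα Nα q (H56.valuationSubringAt (K := F₂) (P₁ 0) (hh₁ 0))
      (H56.valuationSubringAt (K := F₂) (P₁ 1) (hh₁ 1))
      (H56.valuationSubringAt (K := F₂) (P₁ 2) (hh₁ 2)) WF WV)
    (HVb : TowerValU bβ Nβ q (H56.valuationSubringAt (K := F₂) (P₁ 2) (hh₁ 2))
      (H56.valuationSubringAt (K := F₂) (P₁ 1) (hh₁ 1))
      (H56.valuationSubringAt (K := F₂) (P₁ 0) (hh₁ 0)) WV WF)
    -- (r5) point classification + local tower data at the triple points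
    (hpt : ∀ ζ : ↥E0, IsPrimitiveRoot ζ (p ^ k) → (cutOver A E0).valuation ζ = 1 →
      ∀ ca cb : ↥E0, NormalisedConst (cutOver A E0) WF WV ca →
        NormalisedConst (cutOver A E0) WF WV cb → ∀ n,
      (∃ i₀, ∀ i, H21.primeThr (π := πq) P₁ P₂ n i → i = i₀) ∨
      ((∀ i, H21.primeThr (π := πq) P₁ P₂ n i) ∧ ∃ (κ : Type) (_ : Field κ),
        TripleLoc aα bβ Nα Nβ q (p ^ k)
          (fun i => H56.valuationSubringAt (K := F₂) (P₁ i) (hh₁ i))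
          WF WV (algebraMap ↥E0 F₁ ζ) (algebraMap ↥E0 F₁ ca) (algebraMap ↥E0 F₁ cb) κ
          (H21.ptO B₁ B₂ πq n)))
    -- (r1) the radical Kummer criterion
    (crit : ∀ u : F₂, u ≠ 0 →
      RadDatum (H21.ptO B₁ B₂ πq)
        (fun i => H56.valuationSubringAt (K := F₂) (P₁ i) (hh₁ i))
        (H21.primeThr (π := πq) P₁ P₂) u (p ^ k) →
      ∃ (c : ↥E0) (g : F₂), u = algebraMap ↥E0 F₂ c * g ^ (p ^ k))
    -- (r2) = (E3)
    (hE3 : ∀ f : F₂, f ≠ 0 →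
      (∃ (c : ↥E0) (h : F₁), c ≠ 0 ∧ h ≠ 0 ∧ Nα f = algebraMap ↥E0 F₁ c * h ^ (p ^ k)) →
      (∃ (c : ↥E0) (h : F₁), c ≠ 0 ∧ h ≠ 0 ∧ Nβ f = algebraMap ↥E0 F₁ c * h ^ (p ^ k)) →
      ∃ (s : ℤ) (g : F₂), g ≠ 0 ∧
        ∀ i, (H56.valuationSubringAt (K := F₂) (P₁ i) (hh₁ i)).valuation
          (f ^ (q + 1) * algebraMap ↥E0 F₂ ((q : ℕ) : ↥E0) ^ (-s) * (g ^ (p ^ k))⁻¹) = 1)
    -- (r4) = (E4)
    (hE4 : ∀ f : F₂, f ≠ 0 →
      (∀ v : Place Qbar (S24.FN (q * (q * L))),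
        ((p ^ k : ℕ) : ℤ) ∣ v.ord (H99.toBar ↥E0 (q * (q * L)) f)) →
      ∀ (s : ℤ) (g : F₂), g ≠ 0 →
      (∀ i, (H56.valuationSubringAt (K := F₂) (P₁ i) (hh₁ i)).valuation
        (f ^ (q + 1) * algebraMap ↥E0 F₂ ((q : ℕ) : ↥E0) ^ (-s) * (g ^ (p ^ k))⁻¹) = 1) →
      ∃ G : H21.ClosedPt B₁ πq ⊕ H21.ClosedPt B₂ πq → F₂, (∀ n, G n ≠ 0) ∧
        ∀ n, UnitIn (H21.ptO B₁ B₂ πq n)
          (f ^ (q + 1) * algebraMap ↥E0 F₂ ((q : ℕ) : ↥E0) ^ (-s) * (g ^ (p ^ k))⁻¹ /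
            G n ^ (p ^ k))) :
    GeoFn36E q (q * L) (q * (q * L)) (dvd_mul_left (q * L) q) dvd_rfl E0 (p ^ k)
      ((q + 1) * (q - 1) * (q ^ 2 - 1)) := by
  rw [geoFn36E_iff]
  intro f hf hdiv hNα hNβ
  haveI := isDiscreteValuationRing_cutOver hq hA E0
  have hm : 0 < p ^ k := pow_pos hp.pos k
  have hnd : ¬ q ∣ p ^ k := fun h =>
    hpq ((Nat.prime_dvd_prime_iff_eq hq hp).mp (hq.dvd_of_dvd_pow h)).symm
  have hmq : Nat.Coprime (p ^ k) q :=
    Nat.Coprime.pow_left k ((Nat.coprime_primes hp hq).mpr hpq)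
  obtain ⟨ζ, hζ, hζR⟩ := exists_zeta_E0 hq hA E0 hm.ne' hnd
  have hζ1 : (cutOver A E0).valuation ζ = 1 := by
    have h1 : (cutOver A E0).valuation ζ ^ (p ^ k) = 1 := by
      rw [← map_pow, hζ.pow_eq_one, map_one]
    rcases lt_trichotomy ((cutOver A E0).valuation ζ) 1 with h | h | h
    · exact absurd h1 (ne_of_lt (pow_lt_one₀ zero_le h hm.ne'))
    · exact h
    · exact absurd h1 (ne_of_gt (one_lt_pow₀ h hm.ne'))
  have hqK : (((q : ℕ) : ↥E0)) ≠ 0 := Nat.cast_ne_zero.mpr hq.ne_zero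
  have hNK : (((q * (q * L) : ℕ) : ℕ) : ↥E0) ≠ 0 :=
    Nat.cast_ne_zero.mpr (NeZero.ne (q * (q * L)))
  have hqN1 : q ∣ q * L := dvd_mul_right q L
  have hζF1 : IsPrimitiveRoot (algebraMap ↥E0 F₁ ζ) (p ^ k) :=
    hζ.map_of_injective (algebraMap ↥E0 F₁).injective
  have key := S36.H69.geo36_two_charts_final.{0} (R := RR) (F2 := F₂) (B₁ := B₁) (B₂ := B₂)
    (π := πq) P₁ P₂ hh₁ hh₂ (K := ↥E0) (F1 := F₁)
    (a := aα) (b := bβ) (Na := Nα) (Nb := Nβ) (q := q) (m := p ^ k) (WF := WF) (WV := WV)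
    hq.pos hm (dvd_refl _) hmq hinj hVeq hbranch₁ hbranch₂
    (qK := ((q : ℕ) : ↥E0)) hqK (d := q)
    (normAlphaK_algebraMap ↥E0 q (q * L) (q * (q * L)) (dvd_mul_left (q * L) q) hq hqN1 rfl hNK)
    (normBetaK_algebraMap ↥E0 q (q * L) (q * (q * L)) dvd_rfl hq hqN1 rfl hNK)
    (cutOver A E0)
    (fun x hx => valuation_algebraMap_lt_one_of_liesOver hq hA E0 hfix WF hWFint hWFq hx)
    (fun x hx => valuation_algebraMap_lt_one_of_liesOver hq hA E0 hfix WV hWVint hWVq hx)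
    (πK := ((q : ℕ) : ↥E0)) hqK (valuation_cutOver_natCast_lt_one hq hA E0)
    (fun c hc => exists_zpow_valuation_eq_one hq hA E0 hfix hc)
    hWFπ hWVπ
    (fun x hx => valuation_algebraMap_eq_one_of_liesOver (A := A) E0 WF hWFint hx)
    (fun x hx => valuation_algebraMap_eq_one_of_liesOver (A := A) E0 WV hWVint hx)
    (fun c hc => exists_root_valuation_lt_one hq hA E0 hm hc)
    HVa HVb hζF1 (hWFint ζ hζR) (hWVint ζ hζR)
    ((alphaK_algebraMap ↥E0 (q * L) (q * (q * L)) (dvd_mul_left (q * L) q) ζ).trans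
      (betaK_algebraMap ↥E0 q (q * L) (q * (q * L)) dvd_rfl ζ).symm)
    (hpt ζ hζ hζ1) crit hf hNα hNβ (hE3 f hf hNα hNβ) (hE4 f hf hdiv)
  exact key

end Real

end Fermat.Agent.S36.H18
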