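import Fermat.Agent.S34.H69_KummerDescent
import Fermat.Agent.CA.H69_LocField

/-!
# S36 (G-i): the Kummer criterion for a NON-REDUCED special fibre (helper67)

`S34.H69.kummer_descent` assumes that the special fibre is reduced (`P B_P = π B_P` at every
vertical prime `P`).  The ONLY place where this is used is the gluing lemma `S34.H3.exists_glue`
(to kill the discrepancy at the vertical primes that do not pass through a closed point `n`, by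
an element `r₀ ∈ P \ n`).  Replacing `r₀` by `r₀ ^ N` one only needs

  `hmult : ∀ i, ∃ N, ∀ b ∈ P i, ∃ s ∉ P i, π ∣ s * b ^ N`     (`P^N B_P ⊆ π B_P`),

which holds for every vertical prime of a normal noetherian chart (`B_P` is a DVR).
STEP 5 (`S34.H83.no_split_special_fibre'`) never used reducedness.

* `exists_glue_mult`, `exists_chart_idempotent_mult`, `two_chart_idempotents_mult`:
  the gluing half of STEP 4 with `hmult`.
* `kummer_descent_mult`: `S34.H69.kummer_descent` with `hmult`.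
* `inPiB_pow_sub_one`: the `p`-th power trick.  If `x ≡ 1` modulo `P B_P` (`CA.H69.InMaxB`), `π ∣ p` and
  `P^p B_P ⊆ π B_P`, then `x ^ p ≡ 1` modulo `π B_P`.  So a local datum modulo the RADICAL of the
  special fibre becomes, after raising to the power `p` (= the residue characteristic, prime to
  the Kummer degree `l`), a local datum modulo `π`.
-/

set_option autoImplicit false

open Polynomial IntermediateField Fermat.Agent.S18 Fermat.Agent.S34 Fermat.Agent.CA.H69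

namespace Fermat.Agent.S36.H67

universe v

/-! ## (G1) gluing with multiplicities -/

section Glue

variable {B : Type*} [CommRing B] {L : Type*} [Field L] [Algebra B L]

/-- `P^N B_P ⊆ π B_P` at `b`: then `b ^ N • C_P ⊆ π C_P`. -/
theorem locDvd_pow_smul_of_locMem {C : Subalgebra B L} {π : B} {P : Ideal B} [P.IsPrime]
    {b : B} {N : ℕ} (hmult : ∃ s, s ∉ P ∧ π ∣ s * b ^ N) {y : L} (hy : H3.LocMem C P y) :
    H3.LocDvd C π P ((b ^ N) • y) := by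
  obtain ⟨s, hs, d, hd⟩ := hmult
  obtain ⟨t, ht, hty⟩ := hy
  refine ⟨s * t, fun h => (Ideal.IsPrime.mem_or_mem ‹_› h).elim hs ht,
    d • (t • y), C.smul_mem hty d, ?_⟩
  rw [smul_smul, smul_smul, smul_smul]
  congr 1
  calc s * t * b ^ N = (s * b ^ N) * t := by ring
    _ = π * d * t := by rw [hd]

/-- `S34.H3.exists_glue` with the reducedness hypothesis replaced by `hmult`. -/
theorem exists_glue_mult {ι : Type*} [Finite ι] (P : ι → Ideal B) (hP : ∀ i, (P i).IsPrime)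
    (C : Subalgebra B L) (π : B) (hπP : ∀ i, π ∈ P i)
    (hmult : ∀ i, ∃ N : ℕ, ∀ b ∈ P i, ∃ s, s ∉ P i ∧ π ∣ s * b ^ N)
    (g : L)
    (hloc : ∀ n : Ideal B, n.IsMaximal → π ∈ n → ∃ e : L, H3.LocMem C n e ∧
      ∀ i, P i ≤ n → H3.LocDvd C π (P i) (e - g)) :
    ∃ e ∈ C, ∀ i, H3.LocDvd C π (P i) (e - g) := by
  classical
  cases nonempty_fintype ι
  choose N hN using hmult
  have hPne : ∀ i, P i ≠ ⊤ := fun i => (hP i).ne_top
  -- `g` is integral at every vertical prime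
  have hgen : ∀ i, H3.LocMem C (P i) g := by
    intro i
    have := hP i
    obtain ⟨n, hn, hPn⟩ := Ideal.exists_le_maximal (P i) (hPne i)
    obtain ⟨e, he, hd⟩ := hloc n hn (hPn (hπP i))
    have h1 : H3.LocMem C (P i) e := he.mono hPn
    have h2 : H3.LocMem C (P i) (e - g) := (hd i hPn).locMem
    have : g = e - (e - g) := by ring
    rw [this]
    exact h1.sub h2
  -- the ideal of denominators
  let I : Ideal B :=
    { carrier := {r | ∃ c ∈ C, ∀ i, H3.LocDvd C π (P i) (r • g - c)}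
      zero_mem' := ⟨0, C.zero_mem, fun i => by
        rw [zero_smul, sub_zero]; exact H3.LocDvd.zero (hPne i)⟩
      add_mem' := by
        rintro r₁ r₂ ⟨c₁, hc₁, h₁⟩ ⟨c₂, hc₂, h₂⟩
        refine ⟨c₁ + c₂, C.add_mem hc₁ hc₂, fun i => ?_⟩
        have := hP i
        have : (r₁ + r₂) • g - (c₁ + c₂) = (r₁ • g - c₁) + (r₂ • g - c₂) := by
          rw [add_smul]; ring
        rw [this]
        exact (h₁ i).add (h₂ i)
      smul_mem' := by
        rintro b r ⟨c, hc, h⟩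
        refine ⟨b • c, C.smul_mem hc b, fun i => ?_⟩
        have : (b • r) • g - b • c = b • (r • g - c) := by
          rw [smul_sub, smul_assoc]
        rw [this]
        exact (h i).smul b }
  have hI : I = ⊤ := by
    by_contra hne
    obtain ⟨n, hn, hIn⟩ := Ideal.exists_le_maximal I hne
    have := hn.isPrime
    by_cases hπn : π ∈ n
    · obtain ⟨e, ⟨r, hr, hre⟩, hd⟩ := hloc n hn hπn
      -- choose `t i ∈ P i \ n` when `P i` is not contained in `n`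
      have hex : ∀ i, ∃ t : B, t ∉ n ∧ (¬ P i ≤ n → t ∈ P i) := by
        intro i
        by_cases h : P i ≤ n
        · exact ⟨1, fun h1 => hn.ne_top ((Ideal.eq_top_iff_one n).2 h1), fun h' => (h' h).elim⟩
        · obtain ⟨t, htP, htn⟩ := Set.not_subset.1 h
          exact ⟨t, htn, fun _ => htP⟩
      choose t htn htP using hex
      set r₀ : B := ∏ i, t i ^ N i with hr₀
      have hr₀n : r₀ ∉ n := by
        rw [hr₀, Ideal.IsPrime.prod_mem_iff]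
        rintro ⟨i, -, hi⟩
        exact htn i (Ideal.IsPrime.mem_of_pow_mem ‹_› _ hi)
      have hr₀eq : ∀ i, r₀ = t i ^ N i * ∏ k ∈ (Finset.univ.erase i), t k ^ N k := by
        intro i
        rw [hr₀]
        exact (Finset.mul_prod_erase Finset.univ (fun k => t k ^ N k) (Finset.mem_univ i)).symm
      have hmem : r₀ * r ∈ I := by
        refine ⟨(r₀ * r) • e, ?_, fun i => ?_⟩
        · rw [mul_smul]; exact C.smul_mem hre r₀
        · have := hP i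
          by_cases hi : P i ≤ n
          · have : (r₀ * r) • g - (r₀ * r) • e = -((r₀ * r) • (e - g)) := by
              rw [smul_sub]; ring
            rw [this]
            exact ((hd i hi).smul _).neg
          · have hy : H3.LocMem C (P i) (r • g - r • e) :=
              ((hgen i).smul r).sub (H3.LocMem.of_mem (hPne i) hre)
            have h1 : H3.LocDvd C π (P i) ((t i ^ N i) • (r • g - r • e)) :=
              locDvd_pow_smul_of_locMem (hN i (t i) (htP i hi)) hy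
            have : (r₀ * r) • g - (r₀ * r) • e
                = (∏ k ∈ (Finset.univ.erase i), t k ^ N k) • ((t i ^ N i) • (r • g - r • e)) := by
              rw [smul_smul, mul_comm _ (t i ^ N i), ← hr₀eq i, smul_sub, mul_smul, mul_smul]
            rw [this]
            exact h1.smul _
      exact (Ideal.IsPrime.mem_or_mem ‹_› (hIn hmem)).elim hr₀n hr
    · apply hπn
      apply hIn
      refine ⟨0, C.zero_mem, fun i => ?_⟩
      rw [sub_zero]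
      obtain ⟨s, hs, hsg⟩ := hgen i
      exact ⟨s, hs, s • g, hsg, smul_comm s π g⟩
  have h1 : (1 : B) ∈ I := by rw [hI]; trivial
  obtain ⟨c, hc, h⟩ := h1
  refine ⟨c, hc, fun i => ?_⟩
  have : c - g = -((1 : B) • g - c) := by rw [one_smul]; ring
  rw [this]
  exact (h i).neg

end Glue

/-! ## One chart, packaged -/

section Chart

variable {B : Type*} [CommRing B] [IsDomain B] [IsIntegrallyClosed B]
  (K : Type*) [Field K] [Algebra B K] [IsFractionRing B K]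
  {L : Type*} [Field L] [Algebra K L] [Algebra B L] [IsScalarTower B K L]

include K in
theorem exists_chart_idempotent_mult' {ι : Type*} [Finite ι] (P : ι → Ideal B)
    (hP : ∀ i, (P i).IsPrime) (π : B) (hπ : π ≠ 0) (hπP : ∀ i, π ∈ P i)
    (hmult : ∀ i, ∃ N : ℕ, ∀ b ∈ P i, ∃ s, s ∉ P i ∧ π ∣ s * b ^ N)
    (hsatB : ∀ b : B, (∀ i, ∃ s, s ∉ P i ∧ π ∣ s * b) → π ∣ b)
    (g : L)
    (hloc : ∀ n : Ideal B, n.IsMaximal → π ∈ n → ∃ e : L, H3.LocMem (integralClosure B L) n e ∧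
      ∀ i, P i ≤ n → H3.LocDvd (integralClosure B L) π (P i) (e - g))
    (hg2 : ∀ i, H3.LocDvd (integralClosure B L) π (P i) (g ^ 2 - g)) :
    ∃ e : L, IsIntegral B e ∧ (∀ i, H3.LocDvd (integralClosure B L) π (P i) (e - g)) ∧
      ∃ a : L, IsIntegral B a ∧ e ^ 2 - e = π • a := by
  obtain ⟨e, he, heg⟩ := exists_glue_mult P hP (integralClosure B L) π hπP hmult g hloc
  have hsatC : ∀ x ∈ integralClosure B L,
      (∀ i, H3.LocDvd (integralClosure B L) π (P i) x) → ∃ c ∈ integralClosure B L, x = π • c :=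
    fun x hx hd => H3.sat_lift K P hP π hπ hsatB hx hd
  refine ⟨e, he, heg, ?_⟩
  obtain ⟨a, ha, h⟩ := H3.glue_idempotent P hP (integralClosure B L) π hsatC hg2 he heg
  exact ⟨a, ha, h⟩

include K in
theorem exists_chart_idempotent_mult {ι : Type*} [Finite ι] (P : ι → Ideal B)
    (hP : ∀ i, (P i).IsPrime) (π : B) (hπ : π ≠ 0) (hπP : ∀ i, π ∈ P i)
    (hmult : ∀ i, ∃ N : ℕ, ∀ b ∈ P i, ∃ s, s ∉ P i ∧ π ∣ s * b ^ N)
    (hsatB : ∀ b : B, (∀ i, ∃ s, s ∉ P i ∧ π ∣ s * b) → π ∣ b)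
    (g : L)
    (hloc : ∀ n : Ideal B, n.IsMaximal → π ∈ n → ∃ e : L, H3.LocMem (integralClosure B L) n e ∧
      ∀ i, P i ≤ n → H3.LocDvd (integralClosure B L) π (P i) (e - g))
    (hg2 : ∀ i, H3.LocDvd (integralClosure B L) π (P i) (g ^ 2 - g))
    (hg : ∃ i, ¬ H3.LocDvd (integralClosure B L) π (P i) g)
    (hg1 : ∃ i, ¬ H3.LocDvd (integralClosure B L) π (P i) (g - 1)) :
    ∃ e : L, IsIntegral B e ∧ (∀ i, H3.LocDvd (integralClosure B L) π (P i) (e - g)) ∧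
      (∃ a : L, IsIntegral B a ∧ e ^ 2 - e = π • a) ∧
      (¬ ∃ a : L, IsIntegral B a ∧ e = π • a) ∧ ¬ ∃ a : L, IsIntegral B a ∧ e - 1 = π • a := by
  obtain ⟨e, he, heg, hi⟩ := exists_chart_idempotent_mult' K P hP π hπ hπP hmult hsatB g hloc hg2
  refine ⟨e, he, heg, hi, ?_, ?_⟩
  · rintro ⟨a, ha, h⟩
    exact H3.glue_not_dvd P hP (integralClosure B L) π hg heg ⟨a, ha, h⟩
  · rintro ⟨a, ha, h⟩
    exact H3.glue_sub_one_not_dvd P hP (integralClosure B L) π hg1 heg ⟨a, ha, h⟩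

end Chart

/-! ## Two charts -/

section TwoChartsSub

variable {R : Type*} [CommRing R] (π : R) {F0 L : Type*} [Field F0] [Field L]
  [Algebra R F0] [Algebra F0 L] [Algebra R L] [IsScalarTower R F0 L]

/-- `S34.H3.two_chart_idempotents` with the reducedness hypothesis replaced by `hmult`. -/
theorem two_chart_idempotents_mult
    (B₁ B₂ B₁₂ : Subalgebra R F0) (h₁ : B₁ ≤ B₁₂) (h₂ : B₂ ≤ B₁₂)
    [IsIntegrallyClosed ↥B₁] [IsFractionRing ↥B₁ F0]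
    [IsIntegrallyClosed ↥B₂] [IsFractionRing ↥B₂ F0]
    [IsIntegrallyClosed ↥B₁₂] [IsFractionRing ↥B₁₂ F0]
    (hπ : algebraMap R F0 π ≠ 0)
    {ι₁ ι₂ ι₁₂ : Type*} [Finite ι₁] [Finite ι₂]
    (P₁ : ι₁ → Ideal ↥B₁) (P₂ : ι₂ → Ideal ↥B₂) (P₁₂ : ι₁₂ → Ideal ↥B₁₂)
    (hP₁ : ∀ i, (P₁ i).IsPrime) (hP₂ : ∀ i, (P₂ i).IsPrime) (hP₁₂ : ∀ k, (P₁₂ k).IsPrime)
    (hπP₁ : ∀ i, algebraMap R ↥B₁ π ∈ P₁ i) (hπP₂ : ∀ i, algebraMap R ↥B₂ π ∈ P₂ i)
    (hcomp₁ : ∀ k, ∃ i, ∀ s : ↥B₁, s ∉ P₁ i → Subalgebra.inclusion h₁ s ∉ P₁₂ k)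
    (hcomp₂ : ∀ k, ∃ i, ∀ s : ↥B₂, s ∉ P₂ i → Subalgebra.inclusion h₂ s ∉ P₁₂ k)
    (hmult₁ : ∀ i, ∃ N : ℕ, ∀ b ∈ P₁ i, ∃ s, s ∉ P₁ i ∧ algebraMap R ↥B₁ π ∣ s * b ^ N)
    (hmult₂ : ∀ i, ∃ N : ℕ, ∀ b ∈ P₂ i, ∃ s, s ∉ P₂ i ∧ algebraMap R ↥B₂ π ∣ s * b ^ N)
    (hsat₁ : ∀ b : ↥B₁, (∀ i, ∃ s, s ∉ P₁ i ∧ algebraMap R ↥B₁ π ∣ s * b) →
      algebraMap R ↥B₁ π ∣ b)
    (hsat₂ : ∀ b : ↥B₂, (∀ i, ∃ s, s ∉ P₂ i ∧ algebraMap R ↥B₂ π ∣ s * b) →
      algebraMap R ↥B₂ π ∣ b)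
    (hsat₁₂ : ∀ b : ↥B₁₂, (∀ k, ∃ s, s ∉ P₁₂ k ∧ algebraMap R ↥B₁₂ π ∣ s * b) →
      algebraMap R ↥B₁₂ π ∣ b)
    (g : L)
    (hloc₁ : ∀ n : Ideal ↥B₁, n.IsMaximal → algebraMap R ↥B₁ π ∈ n → ∃ e : L,
      H3.LocMem (integralClosure ↥B₁ L) n e ∧
      ∀ i, P₁ i ≤ n → H3.LocDvd (integralClosure ↥B₁ L) (algebraMap R ↥B₁ π) (P₁ i) (e - g))
    (hloc₂ : ∀ n : Ideal ↥B₂, n.IsMaximal → algebraMap R ↥B₂ π ∈ n → ∃ e : L,
      H3.LocMem (integralClosure ↥B₂ L) n e ∧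
      ∀ i, P₂ i ≤ n → H3.LocDvd (integralClosure ↥B₂ L) (algebraMap R ↥B₂ π) (P₂ i) (e - g))
    (hg2₁ : ∀ i, H3.LocDvd (integralClosure ↥B₁ L) (algebraMap R ↥B₁ π) (P₁ i) (g ^ 2 - g))
    (hg2₂ : ∀ i, H3.LocDvd (integralClosure ↥B₂ L) (algebraMap R ↥B₂ π) (P₂ i) (g ^ 2 - g))
    (hg : ∃ i, ¬ H3.LocDvd (integralClosure ↥B₁ L) (algebraMap R ↥B₁ π) (P₁ i) g)
    (hg1 : ∃ i, ¬ H3.LocDvd (integralClosure ↥B₁ L) (algebraMap R ↥B₁ π) (P₁ i) (g - 1)) :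
    ∃ e₁ e₂ : L, IsIntegral ↥B₁ e₁ ∧ IsIntegral ↥B₂ e₂ ∧
      (∃ a : L, IsIntegral ↥B₁ a ∧ e₁ ^ 2 - e₁ = π • a) ∧
      (∃ a : L, IsIntegral ↥B₂ a ∧ e₂ ^ 2 - e₂ = π • a) ∧
      (∃ y : L, IsIntegral ↥B₁₂ y ∧ e₁ - e₂ = π • y) ∧
      (¬ ∃ a : L, IsIntegral ↥B₁ a ∧ e₁ = π • a) ∧
      ¬ ∃ a : L, IsIntegral ↥B₁ a ∧ e₁ - 1 = π • a := by
  have hinj : ∀ B : Subalgebra R F0, algebraMap R ↥B π ≠ 0 := fun B h => hπ (by
    have := congrArg (algebraMap ↥B F0) h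
    rwa [map_zero, ← IsScalarTower.algebraMap_apply] at this)
  have hsm : ∀ (B : Subalgebra R F0) (a : L), (algebraMap R ↥B π) • a = π • a :=
    fun B a => algebraMap_smul ↥B π a
  obtain ⟨e₁, he₁, heg₁, ⟨a₁, ha₁, hi₁⟩, hn₁, hn₁'⟩ :=
    exists_chart_idempotent_mult F0 P₁ hP₁ (algebraMap R ↥B₁ π) (hinj B₁) hπP₁ hmult₁ hsat₁ g hloc₁
      hg2₁ hg hg1
  obtain ⟨e₂, he₂, heg₂, ⟨a₂, ha₂, hi₂⟩⟩ :=
    exists_chart_idempotent_mult' F0 P₂ hP₂ (algebraMap R ↥B₂ π) (hinj B₂) hπP₂ hmult₂ hsat₂ g hloc₂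
      hg2₂
  refine ⟨e₁, e₂, he₁, he₂, ⟨a₁, ha₁, by rw [hi₁, hsm]⟩, ⟨a₂, ha₂, by rw [hi₂, hsm]⟩, ?_, ?_, ?_⟩
  · have hsat : ∀ x ∈ integralClosure ↥B₁₂ L,
        (∀ k, H3.LocDvd (integralClosure ↥B₁₂ L) (algebraMap R ↥B₁₂ π) (P₁₂ k) x) →
        ∃ c ∈ integralClosure ↥B₁₂ L, x = (algebraMap R ↥B₁₂ π) • c :=
      fun x hx hd => H3.sat_lift F0 P₁₂ hP₁₂ _ (hinj B₁₂) hsat₁₂ hx hd
    obtain ⟨y, hy, h⟩ := H3.glue_two_charts (L := L) (Subalgebra.inclusion h₁).toRingHom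
      (Subalgebra.inclusion h₂).toRingHom (fun b => rfl) (fun b => rfl) P₁ P₂ P₁₂ hP₁₂
      hcomp₁ hcomp₂ (integralClosure ↥B₁ L) (integralClosure ↥B₂ L) (integralClosure ↥B₁₂ L)
      (fun x hx => H3.isIntegral_of_le h₁ hx) (fun x hx => H3.isIntegral_of_le h₂ hx)
      (algebraMap R ↥B₁ π) (algebraMap R ↥B₂ π) (algebraMap R ↥B₁₂ π) rfl rfl hsat
      he₁ he₂ heg₁ heg₂
    exact ⟨y, hy, by rw [h, hsm]⟩
  · rintro ⟨a, ha, h⟩
    exact hn₁ ⟨a, ha, by rw [h, hsm]⟩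
  · rintro ⟨a, ha, h⟩
    exact hn₁' ⟨a, ha, by rw [h, hsm]⟩

end TwoChartsSub

/-! ## The criterion -/

/-- **`S34.H69.kummer_descent` for a possibly NON-REDUCED special fibre**: the reducedness
hypothesis is replaced by `hmult` (`P^N B_P ⊆ π B_P`). -/
theorem kummer_descent_mult
    {R : Type*} [CommRing R] [IsDomain R] [IsNoetherianRing R] [IsIntegrallyClosed R]
    {K : Type*} [Field K] [Algebra R K] [IsFractionRing R K]
    {F : Type v} [Field F] [Algebra R F] [Algebra K F] [IsScalarTower R K F]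
    (J : F) (htr : Transcendental K J) [FiniteDimensional K⟮J⟯ F] [Algebra.IsSeparable K⟮J⟯ F]
    (hcl : ∀ z : F, IsAlgebraic K z → z ∈ (algebraMap K F).range)
    (π : R) (hπ : Prime π)
    {l : ℕ} (hl : l.Prime) {rl w : R} (hrl : algebraMap R F rl * (l : F) = 1)
    (hw : IsPrimitiveRoot (algebraMap R F w) l)
    {ι₁ ι₂ ι₁₂ : Type*} [Finite ι₁] [Finite ι₂] [Nonempty ι₁]
    (P₁ : ι₁ → Ideal ↥(H40.chartB R J)) (P₂ : ι₂ → Ideal ↥(H40.chartB R J⁻¹))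
    (P₁₂ : ι₁₂ → Ideal ↥(H83.chart12 R J))
    (hP₁ : ∀ i, (P₁ i).IsPrime) (hP₂ : ∀ i, (P₂ i).IsPrime) (hP₁₂ : ∀ k, (P₁₂ k).IsPrime)
    (hπP₁ : ∀ i, algebraMap R ↥(H40.chartB R J) π ∈ P₁ i)
    (hπP₂ : ∀ i, algebraMap R ↥(H40.chartB R J⁻¹) π ∈ P₂ i)
    (hcomp₁ : ∀ k, ∃ i, ∀ s : ↥(H40.chartB R J), s ∉ P₁ i →
      Subalgebra.inclusion (H83.chartB_le_chart12 (R := R) J) s ∉ P₁₂ k)
    (hcomp₂ : ∀ k, ∃ i, ∀ s : ↥(H40.chartB R J⁻¹), s ∉ P₂ i →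
      Subalgebra.inclusion (H83.chartB_inv_le_chart12 (R := R) J) s ∉ P₁₂ k)
    (hmult₁ : ∀ i, ∃ N : ℕ, ∀ b ∈ P₁ i, ∃ s, s ∉ P₁ i ∧
      algebraMap R ↥(H40.chartB R J) π ∣ s * b ^ N)
    (hmult₂ : ∀ i, ∃ N : ℕ, ∀ b ∈ P₂ i, ∃ s, s ∉ P₂ i ∧
      algebraMap R ↥(H40.chartB R J⁻¹) π ∣ s * b ^ N)
    (hsat₁ : ∀ b : ↥(H40.chartB R J),
      (∀ i, ∃ s, s ∉ P₁ i ∧ algebraMap R ↥(H40.chartB R J) π ∣ s * b) →
      algebraMap R ↥(H40.chartB R J) π ∣ b)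
    (hsat₂ : ∀ b : ↥(H40.chartB R J⁻¹),
      (∀ i, ∃ s, s ∉ P₂ i ∧ algebraMap R ↥(H40.chartB R J⁻¹) π ∣ s * b) →
      algebraMap R ↥(H40.chartB R J⁻¹) π ∣ b)
    (hsat₁₂ : ∀ b : ↥(H83.chart12 R J),
      (∀ k, ∃ s, s ∉ P₁₂ k ∧ algebraMap R ↥(H83.chart12 R J) π ∣ s * b) →
      algebraMap R ↥(H83.chart12 R J) π ∣ b)
    (u : F)
    (hu₁ : ∀ i, InPiB (K := F) (algebraMap R ↥(H40.chartB R J) π) (P₁ i) (u - 1))
    (hu₂ : ∀ i, InPiB (K := F) (algebraMap R ↥(H40.chartB R J⁻¹) π) (P₂ i) (u - 1))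
    (hloc₁ : ∀ n : Ideal ↥(H40.chartB R J), n.IsMaximal →
      algebraMap R ↥(H40.chartB R J) π ∈ n → ∃ ψ : F, ψ ≠ 0 ∧
        (∃ a s : ↥(H40.chartB R J), s ∉ n ∧
          u * algebraMap ↥(H40.chartB R J) F s = ψ ^ l * algebraMap ↥(H40.chartB R J) F a) ∧
        ∀ i, P₁ i ≤ n → InPiB (K := F) (algebraMap R ↥(H40.chartB R J) π) (P₁ i) (ψ - 1))
    (hloc₂ : ∀ n : Ideal ↥(H40.chartB R J⁻¹), n.IsMaximal →
      algebraMap R ↥(H40.chartB R J⁻¹) π ∈ n → ∃ ψ : F, ψ ≠ 0 ∧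
        (∃ a s : ↥(H40.chartB R J⁻¹), s ∉ n ∧
          u * algebraMap ↥(H40.chartB R J⁻¹) F s = ψ ^ l * algebraMap ↥(H40.chartB R J⁻¹) F a) ∧
        ∀ i, P₂ i ≤ n → InPiB (K := F) (algebraMap R ↥(H40.chartB R J⁻¹) π) (P₂ i) (ψ - 1)) :
    ∃ (c : K) (g : F), u = algebraMap K F c * g ^ l := by
  by_contra hne
  push Not at hne
  have hu0 : u ≠ 0 := fun h0 => hne 0 0 (by rw [h0, map_zero, zero_mul])
  have hpow : ∀ b : F, b ^ l ≠ u := fun b hb => hne 1 b (by rw [map_one, one_mul, hb])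
  have hl0 : (l : F) ≠ 0 := right_ne_zero_of_mul_eq_one hrl
  obtain ⟨L, _, _, pb, hdim, hgen⟩ := exists_cover hl hpow
  -- algebra structures on the cover
  let _ : Algebra R L := ((algebraMap F L).comp (algebraMap R F)).toAlgebra
  let _ : Algebra K L := ((algebraMap F L).comp (algebraMap K F)).toAlgebra
  have : IsScalarTower R F L := IsScalarTower.of_algebraMap_eq fun _ => rfl
  have : IsScalarTower K F L := IsScalarTower.of_algebraMap_eq fun _ => rfl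
  have : IsScalarTower R K L := IsScalarTower.of_algebraMap_eq fun r => by
    change algebraMap F L (algebraMap R F r) = algebraMap F L (algebraMap K F (algebraMap R K r))
    rw [← IsScalarTower.algebraMap_apply R K F]
  have : FiniteDimensional F L := pb.finite
  have : Algebra.IsSeparable F L := isSeparable_of_kummer pb hdim hgen hl0 hu0
  have : FiniteDimensional K⟮algebraMap F L J⟯ L := finiteDimensional_adjoin_map J
  have : Algebra.IsSeparable K⟮algebraMap F L J⟯ L := isSeparable_adjoin_map J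
  have htr' : Transcendental K (algebraMap F L J) := transcendental_algebraMap J htr
  have hconst : ∀ z : L, IsIntegral R z → ∃ r : R, algebraMap R L r = z :=
    exists_algebraMap_eq_of_isIntegral pb hdim hgen (K₀ := K) (A := R) hl hl0 hw hcl hne
  -- the base charts
  have hfdinv : FiniteDimensional K⟮J⁻¹⟯ F := by
    have e : K⟮J⁻¹⟯ = K⟮J⟯ := by
      apply le_antisymm
      · rw [IntermediateField.adjoin_simple_le_iff]
        exact inv_mem (IntermediateField.mem_adjoin_simple_self K J)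
      · rw [IntermediateField.adjoin_simple_le_iff]
        have := inv_mem (IntermediateField.mem_adjoin_simple_self K J⁻¹)
        rwa [inv_inv] at this
    rw [e]
    infer_instance
  have := H3.isFractionRing_chartB (R := R) (K := K) J
  have := H3.isIntegrallyClosed_chartB (R := R) (K := K) J
  have := H3.isFractionRing_chartB (R := R) (K := K) J⁻¹
  have := H3.isIntegrallyClosed_chartB (R := R) (K := K) J⁻¹
  have := H69.isFractionRing_chart12 (R := R) (K := K) J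
  have := H69.isIntegrallyClosed_chart12 (R := R) (K := K) J
  have hπF : algebraMap R F π ≠ 0 := by
    rw [IsScalarTower.algebraMap_apply R K F]
    intro h0
    have h1 : algebraMap R K π = 0 := (algebraMap K F).injective (by rw [h0, map_zero])
    exact hπ.ne_zero ((IsFractionRing.injective R K) (by rw [h1, map_zero]))
  have hrl₁ : algebraMap ↥(H40.chartB R J) F (algebraMap R ↥(H40.chartB R J) rl) * (l : F) = 1 := by
    rw [← IsScalarTower.algebraMap_apply R ↥(H40.chartB R J) F]; exact hrl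
  have hrl₂ : algebraMap ↥(H40.chartB R J⁻¹) F (algebraMap R ↥(H40.chartB R J⁻¹) rl) * (l : F)
      = 1 := by
    rw [← IsScalarTower.algebraMap_apply R ↥(H40.chartB R J⁻¹) F]; exact hrl
  have hw₁ : IsPrimitiveRoot
      (algebraMap ↥(H40.chartB R J) F (algebraMap R ↥(H40.chartB R J) w)) l := by
    rw [← IsScalarTower.algebraMap_apply R ↥(H40.chartB R J) F]; exact hw
  obtain ⟨i₀⟩ := ‹Nonempty ι₁›
  obtain ⟨e₁, e₂, he₁, he₂, ⟨a₁, ha₁, hi₁⟩, ⟨a₂, ha₂, hi₂⟩, ⟨y, hy, h₁₂⟩, hn, hn'⟩ :=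
    two_chart_idempotents_mult (L := L) π (H40.chartB R J) (H40.chartB R J⁻¹) (H83.chart12 R J)
      (H83.chartB_le_chart12 (R := R) J) (H83.chartB_inv_le_chart12 (R := R) J) hπF P₁ P₂ P₁₂ hP₁ hP₂ hP₁₂
      hπP₁ hπP₂ hcomp₁ hcomp₂ hmult₁ hmult₂ hsat₁ hsat₂ hsat₁₂ (gGen pb l)
      (fun n hn hπn => by
        have := hn.isPrime
        obtain ⟨ψ, hψ, hε, hψ1⟩ := hloc₁ n hn hπn
        refine ⟨eLoc pb l ψ, eLoc_inLocC pb hdim hgen hrl₁ n hψ hε, fun i hi => ?_⟩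
        have := hP₁ i
        exact eLoc_sub_gGen_inPiC pb hdim hgen hrl₁ (P₁ i) (hπP₁ i) (hu₁ i) (hψ1 i hi))
      (fun n hn hπn => by
        have := hn.isPrime
        obtain ⟨ψ, hψ, hε, hψ1⟩ := hloc₂ n hn hπn
        refine ⟨eLoc pb l ψ, eLoc_inLocC pb hdim hgen hrl₂ n hψ hε, fun i hi => ?_⟩
        have := hP₂ i
        exact eLoc_sub_gGen_inPiC pb hdim hgen hrl₂ (P₂ i) (hπP₂ i) (hu₂ i) (hψ1 i hi))
      (fun i => by
        have := hP₁ i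
        exact gGen_sq_sub_inPiC pb hdim hgen hrl₁ (P₁ i) (hπP₁ i) (hu₁ i))
      (fun i => by
        have := hP₂ i
        exact gGen_sq_sub_inPiC pb hdim hgen hrl₂ (P₂ i) (hπP₂ i) (hu₂ i))
      ⟨i₀, by
        have := hP₁ i₀
        exact not_inPiC_gGen pb hdim hgen hrl₁ hw₁ (P₁ i₀) (hπP₁ i₀) (hu₁ i₀)⟩
      ⟨i₀, by
        have := hP₁ i₀
        exact not_inPiC_gGen_sub_one pb hdim hgen hrl₁ hw₁ (P₁ i₀) (hπP₁ i₀) hl.one_lt (hu₁ i₀)⟩
  -- bridge to the chart rings of the cover and conclude with STEP 5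
  have h₁ : e₁ ∈ H40.chartB R (algebraMap F L J) := (H3.isIntegral_chartB_iff J e₁).mp he₁
  have h₂ : e₂ ∈ H40.chartB R (algebraMap F L J)⁻¹ := by
    rw [← map_inv₀]
    exact (H3.isIntegral_chartB_iff J⁻¹ e₂).mp he₂
  have hi₁' : ∃ a ∈ H40.chartB R (algebraMap F L J), e₁ ^ 2 - e₁ = π • a :=
    ⟨a₁, (H3.isIntegral_chartB_iff J a₁).mp ha₁, hi₁⟩
  have hi₂' : ∃ a ∈ H40.chartB R (algebraMap F L J)⁻¹, e₂ ^ 2 - e₂ = π • a := by
    refine ⟨a₂, ?_, hi₂⟩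
    rw [← map_inv₀]
    exact (H3.isIntegral_chartB_iff J⁻¹ a₂).mp ha₂
  have h₁₂' : ∃ y ∈ H83.chart12 R (algebraMap F L J), e₁ - e₂ = π • y :=
    ⟨y, (H69.isIntegral_chart12_iff J y).mp hy, h₁₂⟩
  rcases H83.no_split_special_fibre' (algebraMap F L J) htr' π hπ hconst h₁ h₂ hi₁' hi₂' h₁₂'
    with ⟨a, ha, h⟩ | ⟨a, ha, h⟩
  · exact hn ⟨a, (H3.isIntegral_chartB_iff J a).mpr ha, h⟩
  · exact hn' ⟨a, (H3.isIntegral_chartB_iff J a).mpr ha, h⟩


/-! ## The `p`-th power trick and the criterion modulo the radical of the special fibre -/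

section PowTrick

variable {B : Type*} [CommRing B] {K : Type*} [Field K] [Algebra B K]

/-- **The `p`-th power trick.**  If `x ≡ 1` modulo `P B_P`, `π ∣ p` and `P^p B_P ⊆ π B_P`, then
`x ^ p ≡ 1` modulo `π B_P`. -/
theorem inPiB_pow_sub_one {π : B} (P : Ideal B) [P.IsPrime] {p : ℕ} (hp : p.Prime)
    (hπp : π ∣ (p : B)) (hmult : ∀ b ∈ P, ∃ s, s ∉ P ∧ π ∣ s * b ^ p)
    {x : K} (hx : InMaxB P (x - 1)) : InPiB (K := K) π P (x ^ p - 1) := by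
  obtain ⟨b, hb, s, hs, hsx'⟩ := hx
  have hsx : algebraMap B K s * (x - 1) = algebraMap B K b := by rw [mul_comm]; exact hsx' 
  obtain ⟨s', hs', d, hd⟩ := hmult b hb
  obtain ⟨r, hr⟩ := exists_add_pow_prime_eq hp s b
  obtain ⟨e, he⟩ := hπp
  have h1 : algebraMap B K s * x = algebraMap B K (s + b) := by
    rw [map_add, ← hsx]; ring
  have h2 : algebraMap B K (s ^ p) * (x ^ p - 1) = algebraMap B K ((s + b) ^ p - s ^ p) := by
    rw [map_sub, map_pow, map_pow, ← h1]; ring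
  refine ⟨s' * s ^ p, fun h => (Ideal.IsPrime.mem_or_mem ‹_› h).elim hs'
    (fun h' => hs (Ideal.IsPrime.mem_of_pow_mem ‹_› _ h')), d + e * (s' * s * b * r), ?_⟩
  rw [map_mul, mul_assoc, h2, ← map_mul, ← map_mul]
  congr 1
  rw [hr]
  have : s' * (s ^ p + b ^ p + (p : B) * s * b * r - s ^ p) = s' * b ^ p + (p : B) * (s' * s * b * r) := by
    ring
  rw [this, hd, he]
  ring

end PowTrick

section Bezout

variable {K F : Type*} [Field K] [Field F] [Algebra K F]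

/-- If `u ^ p = c g ^ l` with `p`, `l` coprime then `u = c' g' ^ l`. -/
theorem exists_eq_mul_pow_of_pow_eq {u : F} {p l : ℕ} (hpl : Nat.Coprime p l)
    (h : ∃ (c : K) (g : F), u ^ p = algebraMap K F c * g ^ l) :
    ∃ (c : K) (g : F), u = algebraMap K F c * g ^ l := by
  obtain ⟨c, g, hcg⟩ := h
  by_cases hu : u = 0
  · exact ⟨0, 1, by rw [hu, map_zero, zero_mul]⟩
  have hbez : (p : ℤ) * Nat.gcdA p l + (l : ℤ) * Nat.gcdB p l = 1 := by
    have := Nat.gcd_eq_gcd_ab p l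
    rw [hpl.gcd_eq_one] at this
    exact_mod_cast this.symm
  refine ⟨c ^ (Nat.gcdA p l), g ^ (Nat.gcdA p l) * u ^ (Nat.gcdB p l), ?_⟩
  have h1 : u = (u ^ p) ^ (Nat.gcdA p l) * (u ^ (Nat.gcdB p l)) ^ l := by
    rw [← zpow_natCast u p, ← zpow_mul, ← zpow_natCast (u ^ Nat.gcdB p l) l, ← zpow_mul,
      ← zpow_add₀ hu, mul_comm (Nat.gcdB p l) (l : ℤ), hbez, zpow_one]
  rw [map_zpow₀, mul_pow]
  conv_lhs => rw [h1, hcg, mul_zpow]
  rw [← zpow_natCast (g ^ Nat.gcdA p l) l, ← zpow_mul, ← zpow_natCast g l, ← zpow_mul,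
    mul_comm (Nat.gcdA p l) (l : ℤ)]
  ring

end Bezout

/-- **The Kummer criterion modulo the RADICAL of a possibly non-reduced special fibre.**
`p` = the residue characteristic (`π ∣ p`, `p ≠ l`), every vertical prime has multiplicity at most
`p` (`P^p B_P ⊆ π B_P`), and the local datum (`u ≡ 1`, `ψ_n ≡ 1`) is only required modulo the
vertical primes themselves (`CA.H69.InMaxB`), not modulo `π`.  Proof: apply `kummer_descent_mult` to
`u ^ p`, `ψ_n ^ p` and descend the exponent (`p`, `l` coprime). -/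
theorem kummer_descent_rad
    {R : Type*} [CommRing R] [IsDomain R] [IsNoetherianRing R] [IsIntegrallyClosed R]
    {K : Type*} [Field K] [Algebra R K] [IsFractionRing R K]
    {F : Type v} [Field F] [Algebra R F] [Algebra K F] [IsScalarTower R K F]
    (J : F) (htr : Transcendental K J) [FiniteDimensional K⟮J⟯ F] [Algebra.IsSeparable K⟮J⟯ F]
    (hcl : ∀ z : F, IsAlgebraic K z → z ∈ (algebraMap K F).range)
    (π : R) (hπ : Prime π)
    {l : ℕ} (hl : l.Prime) {rl w : R} (hrl : algebraMap R F rl * (l : F) = 1)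
    (hw : IsPrimitiveRoot (algebraMap R F w) l)
    {p : ℕ} (hp : p.Prime) (hpl : p ≠ l) (hπp : π ∣ (p : R))
    {ι₁ ι₂ ι₁₂ : Type*} [Finite ι₁] [Finite ι₂] [Nonempty ι₁]
    (P₁ : ι₁ → Ideal ↥(H40.chartB R J)) (P₂ : ι₂ → Ideal ↥(H40.chartB R J⁻¹))
    (P₁₂ : ι₁₂ → Ideal ↥(H83.chart12 R J))
    (hP₁ : ∀ i, (P₁ i).IsPrime) (hP₂ : ∀ i, (P₂ i).IsPrime) (hP₁₂ : ∀ k, (P₁₂ k).IsPrime)
    (hπP₁ : ∀ i, algebraMap R ↥(H40.chartB R J) π ∈ P₁ i)
    (hπP₂ : ∀ i, algebraMap R ↥(H40.chartB R J⁻¹) π ∈ P₂ i)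
    (hcomp₁ : ∀ k, ∃ i, ∀ s : ↥(H40.chartB R J), s ∉ P₁ i →
      Subalgebra.inclusion (H83.chartB_le_chart12 (R := R) J) s ∉ P₁₂ k)
    (hcomp₂ : ∀ k, ∃ i, ∀ s : ↥(H40.chartB R J⁻¹), s ∉ P₂ i →
      Subalgebra.inclusion (H83.chartB_inv_le_chart12 (R := R) J) s ∉ P₁₂ k)
    (hmult₁ : ∀ i, ∀ b ∈ P₁ i, ∃ s, s ∉ P₁ i ∧ algebraMap R ↥(H40.chartB R J) π ∣ s * b ^ p)
    (hmult₂ : ∀ i, ∀ b ∈ P₂ i, ∃ s, s ∉ P₂ i ∧ algebraMap R ↥(H40.chartB R J⁻¹) π ∣ s * b ^ p)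
    (hsat₁ : ∀ b : ↥(H40.chartB R J),
      (∀ i, ∃ s, s ∉ P₁ i ∧ algebraMap R ↥(H40.chartB R J) π ∣ s * b) →
      algebraMap R ↥(H40.chartB R J) π ∣ b)
    (hsat₂ : ∀ b : ↥(H40.chartB R J⁻¹),
      (∀ i, ∃ s, s ∉ P₂ i ∧ algebraMap R ↥(H40.chartB R J⁻¹) π ∣ s * b) →
      algebraMap R ↥(H40.chartB R J⁻¹) π ∣ b)
    (hsat₁₂ : ∀ b : ↥(H83.chart12 R J),
      (∀ k, ∃ s, s ∉ P₁₂ k ∧ algebraMap R ↥(H83.chart12 R J) π ∣ s * b) →
      algebraMap R ↥(H83.chart12 R J) π ∣ b)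
    (u : F)
    (hu₁ : ∀ i, InMaxB (K := F) (P₁ i) (u - 1))
    (hu₂ : ∀ i, InMaxB (K := F) (P₂ i) (u - 1))
    (hloc₁ : ∀ n : Ideal ↥(H40.chartB R J), n.IsMaximal →
      algebraMap R ↥(H40.chartB R J) π ∈ n → ∃ ψ : F, ψ ≠ 0 ∧
        (∃ a s : ↥(H40.chartB R J), s ∉ n ∧
          u * algebraMap ↥(H40.chartB R J) F s = ψ ^ l * algebraMap ↥(H40.chartB R J) F a) ∧
        ∀ i, P₁ i ≤ n → InMaxB (K := F) (P₁ i) (ψ - 1))
    (hloc₂ : ∀ n : Ideal ↥(H40.chartB R J⁻¹), n.IsMaximal →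
      algebraMap R ↥(H40.chartB R J⁻¹) π ∈ n → ∃ ψ : F, ψ ≠ 0 ∧
        (∃ a s : ↥(H40.chartB R J⁻¹), s ∉ n ∧
          u * algebraMap ↥(H40.chartB R J⁻¹) F s = ψ ^ l * algebraMap ↥(H40.chartB R J⁻¹) F a) ∧
        ∀ i, P₂ i ≤ n → InMaxB (K := F) (P₂ i) (ψ - 1)) :
    ∃ (c : K) (g : F), u = algebraMap K F c * g ^ l := by
  have hcop : Nat.Coprime p l := (Nat.coprime_primes hp hl).2 hpl
  apply exists_eq_mul_pow_of_pow_eq hcop
  have hπp₁ : algebraMap R ↥(H40.chartB R J) π ∣ ((p : ℕ) : ↥(H40.chartB R J)) := by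
    obtain ⟨e, he⟩ := hπp
    exact ⟨algebraMap R _ e, by rw [← map_mul, ← he, map_natCast]⟩
  have hπp₂ : algebraMap R ↥(H40.chartB R J⁻¹) π ∣ ((p : ℕ) : ↥(H40.chartB R J⁻¹)) := by
    obtain ⟨e, he⟩ := hπp
    exact ⟨algebraMap R _ e, by rw [← map_mul, ← he, map_natCast]⟩
  refine kummer_descent_mult J htr hcl π hπ hl hrl hw P₁ P₂ P₁₂ hP₁ hP₂ hP₁₂ hπP₁ hπP₂
    hcomp₁ hcomp₂ (fun i => ⟨p, hmult₁ i⟩) (fun i => ⟨p, hmult₂ i⟩) hsat₁ hsat₂ hsat₁₂ (u ^ p)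
    (fun i => by
      have := hP₁ i
      exact inPiB_pow_sub_one (P₁ i) hp hπp₁ (hmult₁ i) (hu₁ i))
    (fun i => by
      have := hP₂ i
      exact inPiB_pow_sub_one (P₂ i) hp hπp₂ (hmult₂ i) (hu₂ i))
    (fun n hn hπn => ?_) (fun n hn hπn => ?_)
  · obtain ⟨ψ, hψ, ⟨a, s, hs, hus⟩, hψ1⟩ := hloc₁ n hn hπn
    have := hn.isPrime
    refine ⟨ψ ^ p, pow_ne_zero _ hψ,
      ⟨a ^ p, s ^ p, fun h => hs (Ideal.IsPrime.mem_of_pow_mem ‹_› _ h), ?_⟩, fun i hi => ?_⟩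
    · rw [map_pow, map_pow, ← mul_pow, hus, mul_pow, ← pow_mul, ← pow_mul, mul_comm p l]
    · have := hP₁ i
      exact inPiB_pow_sub_one (P₁ i) hp hπp₁ (hmult₁ i) (hψ1 i hi)
  · obtain ⟨ψ, hψ, ⟨a, s, hs, hus⟩, hψ1⟩ := hloc₂ n hn hπn
    have := hn.isPrime
    refine ⟨ψ ^ p, pow_ne_zero _ hψ,
      ⟨a ^ p, s ^ p, fun h => hs (Ideal.IsPrime.mem_of_pow_mem ‹_› _ h), ?_⟩, fun i hi => ?_⟩
    · rw [map_pow, map_pow, ← mul_pow, hus, mul_pow, ← pow_mul, ← pow_mul, mul_comm p l]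
    · have := hP₂ i
      exact inPiB_pow_sub_one (P₂ i) hp hπp₂ (hmult₂ i) (hψ1 i hi)

end Fermat.Agent.S36.H67
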