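import Fermat.Agent.S34.H69_KummerPow
import Fermat.Agent.S36.H67_KummerInductRad

/-!
# S36 (E1): the standing hypotheses `ModelHypW` for a two-chart model with a possibly
NON-REDUCED special fibre (helper67)

Twin of `S34/H21_ModelHypCharts` with the reducedness `hred` (`P B_P = π B_P` at every vertical
prime) replaced by finite multiplicity `hmult` (`P ^ N B_P ⊆ π B_P`), and `hred` kept at ONE
vertical prime `k₀` only.

* `le_of_le_of_inv_not_mem_mult` : `B_P` (height one) is a maximal subring among those in which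
  `π` is not invertible, from `hmult`;
* `valuationSubringAt_eq_mult`  : chart 1 and chart 2 give the same vertical valuation ring;
* `modelHypW_of_charts`, `modelHypW_of_chart_primes` : `ModelHypW` for the two-chart model;
* `inPiB_of_forall_le_mult`     : local saturation (twin of `CA.H69.inPiB_of_forall_le`);
* `hmultV_of_chart_primes`, `hsatO_of_chart_primes` : the two extra hypotheses of
  `exists_pow_of_radDatum`.
-/

set_option autoImplicit false
set_option linter.unusedSectionVars false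
set_option linter.style.haveILetI false

open Fermat.Agent.S34 Fermat.Agent.CA.H69

namespace Fermat.Agent.S36.H67

section OneChartMult

variable {B F : Type*} [CommRing B] [IsDomain B] [Field F] [Algebra B F] [IsFractionRing B F]
  [IsNoetherianRing B] [IsIntegrallyClosed B]

/-- `B_p` (`p` of height one) is maximal among the subrings of `F` in which `ϖ` is not invertible,
as soon as `p ^ N B_p ⊆ ϖ B_p`. -/
theorem le_of_le_of_inv_not_mem_mult (p : Ideal B) [hp : p.IsPrime] (h1 : p.height = 1) {ϖ : B}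
    {N : ℕ} (hmult : ∀ b ∈ p, ∃ s, s ∉ p ∧ ϖ ∣ s * b ^ N)
    {W : Subring F} (hVW : ∀ x ∈ H56.valuationSubringAt (K := F) p h1, x ∈ W)
    (hϖW : (algebraMap B F ϖ)⁻¹ ∉ W) {x : F} (hx : x ∈ W) :
    x ∈ H56.valuationSubringAt (K := F) p h1 := by
  by_contra hxV
  have hx0 : x ≠ 0 := fun h => hxV (h ▸ (H56.valuationSubringAt (K := F) p h1).zero_mem)
  have hlt : (H56.valuationSubringAt (K := F) p h1).valuation x⁻¹ < 1 := by
    have h2 : 1 < (H56.valuationSubringAt (K := F) p h1).valuation x := by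
      by_contra hle
      exact hxV (((H56.valuationSubringAt (K := F) p h1).valuation_le_one_iff x).mp
        (not_lt.mp hle))
    rw [map_inv₀]
    exact inv_lt_one_of_one_lt₀ h2
  obtain ⟨a, ha, s, hs, has⟩ := H69.inMaxB_of_valuation_lt_one h1 hlt
  obtain ⟨s', hs', c, hc⟩ := hmult a ha
  apply hϖW
  have hs0 : algebraMap B F s ≠ 0 := algebraMap_ne_zero_of_notMem p hs
  have hs'0 : algebraMap B F s' ≠ 0 := algebraMap_ne_zero_of_notMem p hs'
  have hϖ0 : algebraMap B F ϖ ≠ 0 := by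
    intro h
    apply hϖW
    rw [h, inv_zero]
    exact W.zero_mem
  have hss : s' * s ^ N ∉ p := fun h =>
    (hp.mem_or_mem h).elim hs' (fun h' => hs (hp.mem_of_pow_mem N h'))
  have hssF : algebraMap B F (s' * s ^ N) ≠ 0 := algebraMap_ne_zero_of_notMem p hss
  have key : (algebraMap B F ϖ)⁻¹ =
      x ^ N * (algebraMap B F c / algebraMap B F (s' * s ^ N)) := by
    have h3 : algebraMap B F s' * algebraMap B F a ^ N =
        algebraMap B F ϖ * algebraMap B F c := by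
      rw [← map_pow, ← map_mul, hc, map_mul]
    rw [← has, mul_pow, inv_pow] at h3
    have hxN : x ^ N ≠ 0 := pow_ne_zero _ hx0
    rw [map_mul, map_pow]
    rw [map_mul, map_pow] at hssF
    field_simp
    field_simp at h3
    linear_combination h3
  rw [key]
  refine W.mul_mem (W.pow_mem hx N) (hVW _ ?_)
  refine ⟨c, s' * s ^ N, hss, ?_⟩
  rw [div_mul_cancel₀ _ hssF]

end OneChartMult

section TwoChartsW

variable {R K0 F : Type*} [CommRing R] [IsDomain R] [IsDiscreteValuationRing R]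
  [Field K0] [Algebra R K0] [IsFractionRing R K0]
  [Field F] [Algebra R F] [Algebra K0 F] [IsScalarTower R K0 F]

variable {B₁ B₂ : Subalgebra R F} [IsFractionRing B₁ F] [IsFractionRing B₂ F]
  {κ : Type*} {V : κ → ValuationSubring F} {π : R}

/-- **The bridge (a) with ONE reduced component.**  `H21.modelHyp_of_charts` with `hVdvr`
asked at one `k₀` only. -/
theorem modelHypW_of_charts [IsIntegrallyClosed B₁] [IsIntegrallyClosed B₂]
    (hBV₁ : ∀ k (b : B₁), algebraMap B₁ F b ∈ V k)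
    (hBV₂ : ∀ k (b : B₂), algebraMap B₂ F b ∈ V k)
    (hπ : Irreducible π)
    (hπV : ∀ k, (V k).valuation (algebraMap R F π) < 1)
    (hVdvr₀ : ∃ k₀, ∀ (x : F), x ≠ 0 →
      ∃ e : ℤ, (V k₀).valuation (x * algebraMap R F π ^ (-e)) = 1)
    {l : ℕ} (hl : 0 < l) (hlu : IsUnit ((l : ℕ) : R)) {ζ : R} (hζ : IsPrimitiveRoot ζ l)
    (hroot : ∀ r : R, IsUnit r → ∃ γ : R, IsUnit γ ∧ π ∣ γ ^ l * r - 1)
    (hcentre₁ : ∀ n : H21.ClosedPt B₁ π, ∃ k, H21.centre (V k) (hBV₁ k) ≤ n.1)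
    (hcentre₂ : ∀ n : H21.ClosedPt B₂ π, ∃ k, H21.centre (V k) (hBV₂ k) ≤ n.1)
    (hconn : ∀ c : κ → ℕ,
      (∀ n k k', H21.ptThr B₁ B₂ V π hBV₁ hBV₂ n k → H21.ptThr B₁ B₂ V π hBV₁ hBV₂ n k' →
        c k = c k') →
      ∀ k k', c k = c k')
    [hκ : Nonempty κ] :
    ModelHypW K0 (H21.ptO B₁ B₂ π) V (H21.ptThr B₁ B₂ V π hBV₁ hBV₂) π l ζ where
  hRO := by
    rintro (n | n) r
    · haveI := n.2.1.isPrime
      have : algebraMap R F r = algebraMap B₁ F (algebraMap R B₁ r) := rfl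
      rw [this]
      exact H21.algebraMap_mem_locSubring n.1 _
    · haveI := n.2.1.isPrime
      have : algebraMap R F r = algebraMap B₂ F (algebraMap R B₂ r) := rfl
      rw [this]
      exact H21.algebraMap_mem_locSubring n.1 _
  hOV := by
    rintro (n | n) k hnk x hx
    · haveI := n.2.1.isPrime
      exact H21.locSubring_le (hBV₁ k) hnk hx
    · haveI := n.2.1.isPrime
      exact H21.locSubring_le (hBV₂ k) hnk hx
  hOroot := by
    rintro (n | n) x hx
    · haveI := n.2.1.isPrime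
      exact H21.locSubring_root_closed n.1 hl hx
    · haveI := n.2.1.isPrime
      exact H21.locSubring_root_closed n.1 hl hx
  hOloc := by
    rintro (n | n) a b ha hb hbu
    · haveI := n.2.1.isPrime
      exact H21.locSubring_local n.1 ha hb hbu
    · haveI := n.2.1.isPrime
      exact H21.locSubring_local n.1 ha hb hbu
  hπV := hπV
  hπ0 := fun h => hπ.ne_zero (H21.algebraMap_injective_of_tower K0 (by rw [h, map_zero]))
  hVdvr₀ := hVdvr₀
  hRdvr := fun c hc => H21.exists_unit_mul_zpow hπ hc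
  hroot := hroot
  hl := hl
  hlu := hlu
  hζ := hζ.map_of_injective (H21.algebraMap_injective_of_tower K0)
  hζu := by
    intro i j hi hj hij
    have hmem : ∀ i, ζ ^ i ∈ Polynomial.nthRootsFinset l (1 : R) := by
      intro i
      rw [Polynomial.mem_nthRootsFinset hl, ← pow_mul, mul_comm, pow_mul, hζ.pow_eq_one, one_pow]
    refine CA.H21.diff_of_isPrimitiveRoot hl hζ hlu _ (hmem i) _ (hmem j) ?_
    intro h
    exact hij (hζ.pow_inj hi hj h)
  hcentre := by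
    rintro (n | n)
    · exact hcentre₁ n
    · exact hcentre₂ n
  hVthr := by
    intro k
    obtain ⟨M, hM, hle⟩ := Ideal.exists_le_maximal _ (H21.centre_ne_top (V k) (hBV₁ k))
    refine ⟨Sum.inl ⟨M, hM, hle ?_⟩, hle⟩
    rw [H21.mem_centre]
    exact hπV k
  hconn := hconn
  hκ := hκ

end TwoChartsW

section ChartPrimesW

variable {R K0 F : Type*} [CommRing R] [IsDomain R] [IsDiscreteValuationRing R]
  [Field K0] [Algebra R K0] [IsFractionRing R K0]
  [Field F] [Algebra R F] [Algebra K0 F] [IsScalarTower R K0 F]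
  {B₁ B₂ B₁₂ : Subalgebra R F} [IsFractionRing B₁ F] [IsFractionRing B₂ F] [IsFractionRing B₁₂ F]
  [IsNoetherianRing B₁] [IsNoetherianRing B₂] [IsIntegrallyClosed B₁] [IsIntegrallyClosed B₂]
  {κ : Type*} {π : R}

variable (K0) in
include K0 in
/-- `H21.valuationSubringAt_eq` without reducedness: the vertical primes `p₁ ⊆ B₁`, `p₂ ⊆ B₂`
below one vertical prime `p₁₂` of the overlap chart have the same valuation ring, as soon as they
have finite multiplicity in the special fibre. -/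
theorem valuationSubringAt_eq_mult (hπ : Irreducible π) (h₁ : B₁ ≤ B₁₂) (h₂ : B₂ ≤ B₁₂)
    (p₁ : Ideal B₁) (p₂ : Ideal B₂) (p₁₂ : Ideal B₁₂) [p₁.IsPrime] [p₂.IsPrime] [p₁₂.IsPrime]
    (hh₁ : p₁.height = 1) (hh₂ : p₂.height = 1)
    (hπ₁₂ : algebraMap R B₁₂ π ∈ p₁₂)
    (hcomp₁ : ∀ s : B₁, s ∉ p₁ → Subalgebra.inclusion h₁ s ∉ p₁₂)
    (hcomp₂ : ∀ s : B₂, s ∉ p₂ → Subalgebra.inclusion h₂ s ∉ p₁₂)
    {N₁ N₂ : ℕ}
    (hmult₁ : ∀ b ∈ p₁, ∃ s, s ∉ p₁ ∧ algebraMap R B₁ π ∣ s * b ^ N₁)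
    (hmult₂ : ∀ b ∈ p₂, ∃ s, s ∉ p₂ ∧ algebraMap R B₂ π ∣ s * b ^ N₂) :
    H56.valuationSubringAt (K := F) p₁ hh₁ = H56.valuationSubringAt (K := F) p₂ hh₂ := by
  have hπF : algebraMap R F π ≠ 0 := fun h =>
    hπ.ne_zero (H21.algebraMap_injective_of_tower K0 (by rw [h, map_zero]))
  -- `π⁻¹ ∉ (B₁₂)_{p₁₂}`
  have hW : (algebraMap R F π)⁻¹ ∉ H21.locSubring (F := F) p₁₂ := by
    rintro ⟨a, s, hs, has⟩
    apply hs
    have : s = algebraMap R B₁₂ π * a := by
      apply Subtype.ext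
      have h' : (algebraMap R F π)⁻¹ * (s : F) = (a : F) := has
      show (s : F) = algebraMap R F π * (a : F)
      rw [← h', ← mul_assoc, mul_inv_cancel₀ hπF, one_mul]
    rw [this]
    exact p₁₂.mul_mem_right _ hπ₁₂
  have hle₁ : ∀ x ∈ H56.valuationSubringAt (K := F) p₁ hh₁, x ∈ H21.locSubring (F := F) p₁₂ := by
    rintro x ⟨a, s, hs, has⟩
    exact ⟨Subalgebra.inclusion h₁ a, Subalgebra.inclusion h₁ s, hcomp₁ s hs, has⟩
  have hle₂ : ∀ x ∈ H56.valuationSubringAt (K := F) p₂ hh₂, x ∈ H21.locSubring (F := F) p₁₂ := by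
    rintro x ⟨a, s, hs, has⟩
    exact ⟨Subalgebra.inclusion h₂ a, Subalgebra.inclusion h₂ s, hcomp₂ s hs, has⟩
  apply SetLike.ext
  intro x
  constructor
  · intro hx
    exact le_of_le_of_inv_not_mem_mult p₂ hh₂ hmult₂ hle₂ hW (hle₁ x hx)
  · intro hx
    exact le_of_le_of_inv_not_mem_mult p₁ hh₁ hmult₁ hle₁ hW (hle₂ x hx)

variable {P₁ : κ → Ideal B₁} {P₂ : κ → Ideal B₂} {P₁₂ : κ → Ideal B₁₂}

/-- **The bridge (a), binder block of `kummer_descent_rad`.**  `H21.modelHyp_of_chart_primes`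
with `hred` replaced by finite multiplicity `hmult`, and `hred` kept at ONE vertical prime `k₀`. -/
theorem modelHypW_of_chart_primes [hP₁ : ∀ k, (P₁ k).IsPrime] [hP₂ : ∀ k, (P₂ k).IsPrime]
    [hP₁₂ : ∀ k, (P₁₂ k).IsPrime] (hπ : Irreducible π) (h₁ : B₁ ≤ B₁₂) (h₂ : B₂ ≤ B₁₂)
    (hh₁ : ∀ k, (P₁ k).height = 1) (hh₂ : ∀ k, (P₂ k).height = 1)
    (hπ₁ : ∀ k, algebraMap R B₁ π ∈ P₁ k) (hπ₂ : ∀ k, algebraMap R B₂ π ∈ P₂ k)
    (hπ₁₂ : ∀ k, algebraMap R B₁₂ π ∈ P₁₂ k)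
    (hcomp₁ : ∀ k (s : B₁), s ∉ P₁ k → Subalgebra.inclusion h₁ s ∉ P₁₂ k)
    (hcomp₂ : ∀ k (s : B₂), s ∉ P₂ k → Subalgebra.inclusion h₂ s ∉ P₁₂ k)
    (hmult₁ : ∀ k, ∃ N : ℕ, ∀ b ∈ P₁ k, ∃ s, s ∉ P₁ k ∧ algebraMap R B₁ π ∣ s * b ^ N)
    (hmult₂ : ∀ k, ∃ N : ℕ, ∀ b ∈ P₂ k, ∃ s, s ∉ P₂ k ∧ algebraMap R B₂ π ∣ s * b ^ N)
    (k₀ : κ) (hred₀ : ∀ b ∈ P₁ k₀, ∃ s, s ∉ P₁ k₀ ∧ algebraMap R B₁ π ∣ s * b)
    (hall₁ : ∀ n : Ideal B₁, n.IsMaximal → algebraMap R B₁ π ∈ n → ∃ k, P₁ k ≤ n)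
    (hall₂ : ∀ n : Ideal B₂, n.IsMaximal → algebraMap R B₂ π ∈ n → ∃ k, P₂ k ≤ n)
    {l : ℕ} (hl : 0 < l) (hlu : IsUnit ((l : ℕ) : R)) {ζ : R} (hζ : IsPrimitiveRoot ζ l)
    (hroot : ∀ r : R, IsUnit r → ∃ γ : R, IsUnit γ ∧ π ∣ γ ^ l * r - 1)
    (hconn : ∀ c : κ → ℕ,
      (∀ n : Ideal B₁, n.IsMaximal → ∀ k k', P₁ k ≤ n → P₁ k' ≤ n → c k = c k') →
      (∀ n : Ideal B₂, n.IsMaximal → ∀ k k', P₂ k ≤ n → P₂ k' ≤ n → c k = c k') →
      ∀ k k', c k = c k') :
    ModelHypW K0 (H21.ptO B₁ B₂ π) (fun k => H56.valuationSubringAt (K := F) (P₁ k) (hh₁ k))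
      (H21.primeThr (π := π) P₁ P₂) π l ζ := by
  set V : κ → ValuationSubring F := fun k => H56.valuationSubringAt (K := F) (P₁ k) (hh₁ k) with hV
  have hVeq : ∀ k, V k = H56.valuationSubringAt (K := F) (P₂ k) (hh₂ k) := fun k => by
    obtain ⟨N₁, hN₁⟩ := hmult₁ k
    obtain ⟨N₂, hN₂⟩ := hmult₂ k
    exact valuationSubringAt_eq_mult K0 hπ h₁ h₂ (P₁ k) (P₂ k) (P₁₂ k) (hh₁ k) (hh₂ k)
      (hπ₁₂ k) (hcomp₁ k) (hcomp₂ k) hN₁ hN₂
  have hBV₁ : ∀ k (b : B₁), algebraMap B₁ F b ∈ V k := fun k b =>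
    H56.algebraMap_mem_valuationSubringAt (hh₁ k) b
  have hBV₂ : ∀ k (b : B₂), algebraMap B₂ F b ∈ V k := fun k b => by
    rw [hVeq k]; exact H56.algebraMap_mem_valuationSubringAt (hh₂ k) b
  have hc₁ : ∀ k, H21.centre (V k) (hBV₁ k) = P₁ k := fun k =>
    Ideal.ext fun b => H56.algebraMap_mem_nonunits_iff (hh₁ k) b
  have hc₂ : ∀ k, H21.centre (V k) (hBV₂ k) = P₂ k := fun k =>
    Ideal.ext fun b => (H21.valuation_lt_one_congr (hVeq k) _).trans
      (H56.algebraMap_mem_nonunits_iff (hh₂ k) b)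
  have hThr : H21.ptThr B₁ B₂ V π hBV₁ hBV₂ = H21.primeThr (π := π) P₁ P₂ := by
    funext n k
    rcases n with n | n
    · show (H21.centre (V k) (hBV₁ k) ≤ n.1) = (P₁ k ≤ n.1)
      rw [hc₁ k]
    · show (H21.centre (V k) (hBV₂ k) ≤ n.1) = (P₂ k ≤ n.1)
      rw [hc₂ k]
  have hκ : Nonempty κ := ⟨k₀⟩
  rw [← hThr]
  refine modelHypW_of_charts hBV₁ hBV₂ hπ ?_ ⟨k₀, ?_⟩ hl hlu hζ hroot ?_ ?_ ?_
  · intro k
    exact (H56.algebraMap_mem_nonunits_iff (hh₁ k) (algebraMap R B₁ π)).2 (hπ₁ k)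
  · intro x hx
    exact H21.exists_zpow_valuation_eq_one (F := F) (P₁ k₀) (hh₁ k₀) (hπ₁ k₀) hred₀ hx
  · intro n
    obtain ⟨k, hk⟩ := hall₁ n.1 n.2.1 n.2.2
    exact ⟨k, by rw [hc₁ k]; exact hk⟩
  · intro n
    obtain ⟨k, hk⟩ := hall₂ n.1 n.2.1 n.2.2
    exact ⟨k, by rw [hc₂ k]; exact hk⟩
  · intro c hc
    rw [hThr] at hc
    refine hconn c ?_ ?_
    · intro n hn k k' hk hk'
      exact hc (Sum.inl ⟨n, hn, hk (hπ₁ k)⟩) k k' hk hk'
    · intro n hn k k' hk hk'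
      exact hc (Sum.inr ⟨n, hn, hk (hπ₂ k)⟩) k k' hk hk'

end ChartPrimesW

/-! ### Local saturation and the multiplicity bound in valuation form -/

section SatMult

variable {K : Type*} [Field K] {B : Type*} [CommRing B] [IsDomain B] [Algebra B K]
  [IsFractionRing B K]
variable {ι : Type*} [Finite ι] (Pv : ι → Ideal B) (hPv : ∀ i, (Pv i).IsPrime) {π : B}

include hPv in
/-- (SAT) at a prime `n`, possibly non-reduced special fibre: an element of `B_n` which is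
divisible by `π` at every vertical prime through `n` is divisible by `π` in `B_n`.
Twin of `CA.H69.inPiB_of_forall_le` with `hred` replaced by `hmult`. -/
theorem inPiB_of_forall_le_mult
    (hmult : ∀ i, ∃ N : ℕ, ∀ b ∈ Pv i, ∃ s, s ∉ Pv i ∧ π ∣ s * b ^ N)
    (hsat : ∀ b : B, (∀ i, ∃ s, s ∉ Pv i ∧ π ∣ s * b) → π ∣ b)
    (n : Ideal B) [n.IsPrime] {x : K} (hx : x ∈ locB (K := K) n)
    (h : ∀ i, Pv i ≤ n → InPiB π (Pv i) x) : InPiB π n x := by
  classical
  cases nonempty_fintype ι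
  choose N hN using hmult
  obtain ⟨a, s, hs, hxa⟩ := (mem_locB_iff n).mp hx
  have hs0 := algebraMap_ne_zero_of_notMem (K := K) n hs
  -- for the primes not through `n` choose `d i ∈ Pv i`, `d i ∉ n`
  have hd : ∀ i, ∃ d : B, d ∉ n ∧ (¬ Pv i ≤ n → d ∈ Pv i) := by
    intro i
    by_cases hle : Pv i ≤ n
    · exact ⟨1, Ideal.IsPrime.one_notMem ‹_›, fun h => absurd hle h⟩
    · obtain ⟨d, hdP, hdn⟩ := Set.not_subset.mp hle
      exact ⟨d, hdn, fun _ => hdP⟩
  choose d hdn hdP using hd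
  set D : B := ∏ i, d i ^ N i with hD
  have hDn : D ∉ n := by
    intro hmem
    obtain ⟨i, _, hi⟩ := (Ideal.IsPrime.prod_mem_iff (p := n)).mp hmem
    exact hdn i (Ideal.IsPrime.mem_of_pow_mem ‹_› _ hi)
  have hdvd : π ∣ D * a := by
    apply hsat
    intro i
    have := hPv i
    by_cases hle : Pv i ≤ n
    · -- `a` itself is divisible at `Pv i`
      obtain ⟨s', hs', b, hb⟩ := h i hle
      refine ⟨s', hs', ?_⟩
      have heq : s' * a = π * (b * s) := by
        apply IsFractionRing.injective B K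
        rw [map_mul, map_mul, map_mul, ← hxa, ← mul_assoc (algebraMap B K π), ← hb]
        ring
      exact Dvd.dvd.mul_left ⟨b * s, heq⟩ D |>.trans (by
        rw [show D * (s' * a) = s' * (D * a) by ring])
    · obtain ⟨s', hs', hdv⟩ := hN i (d i) (hdP i hle)
      refine ⟨s', hs', ?_⟩
      have hdD : d i ^ N i ∣ D := Finset.dvd_prod_of_mem (fun i => d i ^ N i) (Finset.mem_univ i)
      obtain ⟨e, he⟩ := hdD
      rw [he]
      have : s' * (d i ^ N i * e * a) = (s' * d i ^ N i) * (e * a) := by ring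
      rw [this]
      exact Dvd.dvd.mul_right hdv _
  obtain ⟨c, hc⟩ := hdvd
  refine ⟨D * s, fun hm => (Ideal.IsPrime.mem_or_mem ‹_› hm).elim hDn hs, c, ?_⟩
  rw [← map_mul, ← hc, map_mul, map_mul, ← hxa]
  ring

end SatMult

section ValMult

variable {B F : Type*} [CommRing B] [IsDomain B] [Field F] [Algebra B F] [IsFractionRing B F]
  [IsNoetherianRing B] [IsIntegrallyClosed B]

/-- `p ^ N B_p ⊆ ϖ B_p` in valuation form. -/
theorem valuation_pow_le_of_mult (p : Ideal B) [hp : p.IsPrime] (h1 : p.height = 1) {ϖ : B}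
    {N : ℕ} (hmult : ∀ b ∈ p, ∃ s, s ∉ p ∧ ϖ ∣ s * b ^ N) {x : F}
    (hx : (H56.valuationSubringAt (K := F) p h1).valuation x < 1) :
    (H56.valuationSubringAt (K := F) p h1).valuation (x ^ N) ≤
      (H56.valuationSubringAt (K := F) p h1).valuation (algebraMap B F ϖ) := by
  obtain ⟨a, ha, s, hs, has⟩ := H69.inMaxB_of_valuation_lt_one h1 hx
  obtain ⟨s', hs', c, hc⟩ := hmult a ha
  have hs0 : algebraMap B F s ≠ 0 := algebraMap_ne_zero_of_notMem p hs
  have hs'0 : algebraMap B F s' ≠ 0 := algebraMap_ne_zero_of_notMem p hs'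
  have hss : s' * s ^ N ∉ p := fun h =>
    (hp.mem_or_mem h).elim hs' (fun h' => hs (hp.mem_of_pow_mem N h'))
  have hssF : algebraMap B F (s' * s ^ N) ≠ 0 := algebraMap_ne_zero_of_notMem p hss
  have key : x ^ N = algebraMap B F ϖ * (algebraMap B F c / algebraMap B F (s' * s ^ N)) := by
    have h3 : algebraMap B F s' * algebraMap B F a ^ N =
        algebraMap B F ϖ * algebraMap B F c := by
      rw [← map_pow, ← map_mul, hc, map_mul]
    rw [← has, mul_pow] at h3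
    rw [map_mul, map_pow]
    rw [map_mul, map_pow] at hssF
    field_simp
    linear_combination h3
  rw [key, map_mul]
  have hle : (H56.valuationSubringAt (K := F) p h1).valuation
      (algebraMap B F c / algebraMap B F (s' * s ^ N)) ≤ 1 := by
    rw [(H56.valuationSubringAt (K := F) p h1).valuation_le_one_iff]
    exact ⟨c, s' * s ^ N, hss, by rw [div_mul_cancel₀ _ hssF]⟩
  calc (H56.valuationSubringAt (K := F) p h1).valuation (algebraMap B F ϖ) *
        (H56.valuationSubringAt (K := F) p h1).valuation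
          (algebraMap B F c / algebraMap B F (s' * s ^ N))
      ≤ (H56.valuationSubringAt (K := F) p h1).valuation (algebraMap B F ϖ) * 1 := by
        gcongr
    _ = _ := mul_one _

/-- `v_p(x) ≤ v_p(ϖ)` means `x ∈ ϖ B_p`. -/
theorem inPiB_of_valuation_le (p : Ideal B) [hp : p.IsPrime] (h1 : p.height = 1) {ϖ : B}
    (hϖ0 : algebraMap B F ϖ ≠ 0) {x : F}
    (hx : (H56.valuationSubringAt (K := F) p h1).valuation x ≤
      (H56.valuationSubringAt (K := F) p h1).valuation (algebraMap B F ϖ)) :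
    InPiB (K := F) ϖ p x := by
  have h2 : (H56.valuationSubringAt (K := F) p h1).valuation (x / algebraMap B F ϖ) ≤ 1 := by
    rw [map_div₀]
    exact div_le_one_of_le₀ hx zero_le
  obtain ⟨a, s, hs, has⟩ := (H56.mem_valuationSubringAt h1).mp
    (((H56.valuationSubringAt (K := F) p h1).valuation_le_one_iff _).mp h2)
  refine ⟨s, hs, a, ?_⟩
  rw [← has]
  field_simp

end ValMult

section ChartPrimesSat

variable {R F : Type*} [CommRing R] [IsDomain R] [IsDiscreteValuationRing R] [Field F] [Algebra R F]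
  {B₁ B₂ : Subalgebra R F} [IsFractionRing B₁ F] [IsFractionRing B₂ F]
  [IsNoetherianRing B₁] [IsNoetherianRing B₂] [IsIntegrallyClosed B₁] [IsIntegrallyClosed B₂]
  {κ : Type*} {π : R} {P₁ : κ → Ideal B₁} {P₂ : κ → Ideal B₂}

theorem valuation_le_congr {V V' : ValuationSubring F} (h : V = V') (x y : F) :
    V.valuation x ≤ V.valuation y ↔ V'.valuation x ≤ V'.valuation y := by
  subst h; rfl

/-- `hmultV` of `exists_pow_of_radDatum` for the two-chart model: multiplicity at most `p`. -/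
theorem hmultV_of_chart_primes [hP₁ : ∀ k, (P₁ k).IsPrime] (hh₁ : ∀ k, (P₁ k).height = 1)
    {p : ℕ} (hmult₁ : ∀ k, ∀ b ∈ P₁ k, ∃ s, s ∉ P₁ k ∧ algebraMap R B₁ π ∣ s * b ^ p) :
    ∀ k (x : F), (H56.valuationSubringAt (K := F) (P₁ k) (hh₁ k)).valuation x < 1 →
      (H56.valuationSubringAt (K := F) (P₁ k) (hh₁ k)).valuation (x ^ p) ≤
        (H56.valuationSubringAt (K := F) (P₁ k) (hh₁ k)).valuation (algebraMap R F π) :=
  fun k _ hx => valuation_pow_le_of_mult (P₁ k) (hh₁ k) (hmult₁ k) hx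

/-- `hsatO` of `exists_pow_of_radDatum` for the two-chart model: an element of the local ring at
a closed point which is divisible by `π` at every vertical valuation through the point is
divisible by `π` in the local ring. -/
theorem hsatO_of_chart_primes [Finite κ] [hP₁ : ∀ k, (P₁ k).IsPrime] [hP₂ : ∀ k, (P₂ k).IsPrime]
    (hh₁ : ∀ k, (P₁ k).height = 1) (hh₂ : ∀ k, (P₂ k).height = 1)
    (hVeq : ∀ k, H56.valuationSubringAt (K := F) (P₁ k) (hh₁ k)
      = H56.valuationSubringAt (K := F) (P₂ k) (hh₂ k))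
    (hπ0 : algebraMap R F π ≠ 0)
    (hmult₁ : ∀ k, ∃ N : ℕ, ∀ b ∈ P₁ k, ∃ s, s ∉ P₁ k ∧ algebraMap R B₁ π ∣ s * b ^ N)
    (hmult₂ : ∀ k, ∃ N : ℕ, ∀ b ∈ P₂ k, ∃ s, s ∉ P₂ k ∧ algebraMap R B₂ π ∣ s * b ^ N)
    (hsat₁ : ∀ b : B₁, (∀ k, ∃ s, s ∉ P₁ k ∧ algebraMap R B₁ π ∣ s * b) → algebraMap R B₁ π ∣ b)
    (hsat₂ : ∀ b : B₂, (∀ k, ∃ s, s ∉ P₂ k ∧ algebraMap R B₂ π ∣ s * b) → algebraMap R B₂ π ∣ b) :
    ∀ n (x : F), x ∈ H21.ptO B₁ B₂ π n →
      (∀ k, H21.primeThr (π := π) P₁ P₂ n k →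
        (H56.valuationSubringAt (K := F) (P₁ k) (hh₁ k)).valuation x ≤
          (H56.valuationSubringAt (K := F) (P₁ k) (hh₁ k)).valuation (algebraMap R F π)) →
      H47.PiIn π (H21.ptO B₁ B₂ π n) x := by
  rintro (n | n) x hx h
  · haveI := n.2.1.isPrime
    have hx' : x ∈ locB (K := F) n.1 := (mem_locB_iff n.1).mpr hx
    obtain ⟨s, hs, b, hb⟩ := inPiB_of_forall_le_mult P₁ hP₁ hmult₁ hsat₁ n.1 hx'
      (fun k hk => inPiB_of_valuation_le (P₁ k) (hh₁ k) hπ0 (h k hk))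
    refine (H21.piIn_locSubring_iff n.1 π).mpr ⟨b, s, hs, ?_⟩
    rw [mul_comm]
    exact hb
  · haveI := n.2.1.isPrime
    have hx' : x ∈ locB (K := F) n.1 := (mem_locB_iff n.1).mpr hx
    obtain ⟨s, hs, b, hb⟩ := inPiB_of_forall_le_mult P₂ hP₂ hmult₂ hsat₂ n.1 hx'
      (fun k hk => inPiB_of_valuation_le (P₂ k) (hh₂ k) hπ0
        ((valuation_le_congr (hVeq k) _ _).mp (h k hk)))
    refine (H21.piIn_locSubring_iff n.1 π).mpr ⟨b, s, hs, ?_⟩
    rw [mul_comm]
    exact hb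

end ChartPrimesSat

end Fermat.Agent.S36.H67
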