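import Fermat.Agent.S34.H69_KummerPow
import Fermat.Agent.S36.H67_ModelHypChartsW

/-!
# S36 (E1): the criterion for radical data at level `l ^ k`, two-chart model with a possibly
NON-REDUCED special fibre (helper67)

Twin of `S34/H69_KummerInduction` + `S34/H69_KummerPow`:

* `hK_of_charts_rad` : the Kummer step `hK` of the induction from `kummer_descent_rad`
  (multiplicities at most `p`, `π ∣ p`, `p ≠ l`);
* `kummer_descent_pow_rad` : a function `u ≠ 0` with a RADICAL local datum for `l ^ k`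
  (`RadDatum (H21.ptO ..) (V) (H21.primeThr ..) u (l ^ k)`: `u = ε_n ψ_n ^ (l ^ k)` with `ε_n` a unit
  at the closed point `n`, `ε_n ≡ 1` and `ψ_n ≡ 1` modulo the vertical primes through `n`) is a
  constant times an `l ^ k`-th power.  Hypotheses on the model: `hmult` (multiplicity at most
  `p` at every vertical prime), `hred` at ONE vertical prime `k₀`, `hsat`, `hall`, `hconn`.
-/

set_option autoImplicit false

open Polynomial IntermediateField Fermat.Agent.S18 Fermat.Agent.S34 Fermat.Agent.CA.H69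

namespace Fermat.Agent.S36.H67

universe v

/-- **(b)**: the Kummer step `hK` of `exists_pow_of_radDatum`, from `kummer_descent_rad`. -/
theorem hK_of_charts_rad
    {R : Type*} [CommRing R] [IsDomain R] [IsNoetherianRing R] [IsIntegrallyClosed R]
    {K : Type*} [Field K] [Algebra R K] [IsFractionRing R K]
    {F : Type v} [Field F] [Algebra R F] [Algebra K F] [IsScalarTower R K F]
    (J : F) (htr : Transcendental K J) [FiniteDimensional K⟮J⟯ F] [Algebra.IsSeparable K⟮J⟯ F]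
    (hcl : ∀ z : F, IsAlgebraic K z → z ∈ (algebraMap K F).range)
    (π : R) (hπ : Prime π)
    {l : ℕ} (hl : l.Prime) {rl w : R} (hrl : algebraMap R F rl * (l : F) = 1)
    (hw : IsPrimitiveRoot (algebraMap R F w) l)
    {p : ℕ} (hp : p.Prime) (hpl : p ≠ l) (hπp : π ∣ (p : R))
    {ι : Type*} [Finite ι] [Nonempty ι]
    (P₁ : ι → Ideal ↥(H40.chartB R J)) (P₂ : ι → Ideal ↥(H40.chartB R J⁻¹))
    (P₁₂ : ι → Ideal ↥(H83.chart12 R J))
    (hP₁ : ∀ i, (P₁ i).IsPrime) (hP₂ : ∀ i, (P₂ i).IsPrime) (hP₁₂ : ∀ k, (P₁₂ k).IsPrime)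
    (hπP₁ : ∀ i, algebraMap R ↥(H40.chartB R J) π ∈ P₁ i)
    (hπP₂ : ∀ i, algebraMap R ↥(H40.chartB R J⁻¹) π ∈ P₂ i)
    (hcomp₁ : ∀ k, ∀ s : ↥(H40.chartB R J), s ∉ P₁ k →
      Subalgebra.inclusion (H83.chartB_le_chart12 (R := R) J) s ∉ P₁₂ k)
    (hcomp₂ : ∀ k, ∀ s : ↥(H40.chartB R J⁻¹), s ∉ P₂ k →
      Subalgebra.inclusion (H83.chartB_inv_le_chart12 (R := R) J) s ∉ P₁₂ k)
    (hmult₁ : ∀ i, ∀ b ∈ P₁ i, ∃ s, s ∉ P₁ i ∧ algebraMap R ↥(H40.chartB R J) π ∣ s * b ^ p)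
    (hmult₂ : ∀ i, ∀ b ∈ P₂ i, ∃ s, s ∉ P₂ i ∧ algebraMap R ↥(H40.chartB R J⁻¹) π ∣ s * b ^ p)
    (hsat₁ : ∀ b : ↥(H40.chartB R J),
      (∀ i, ∃ s, s ∉ P₁ i ∧ algebraMap R ↥(H40.chartB R J) π ∣ s * b) →
      algebraMap R ↥(H40.chartB R J) π ∣ b)
    (hsat₂ : ∀ b : ↥(H40.chartB R J⁻¹),
      (∀ i, ∃ s, s ∉ P₂ i ∧ algebraMap R ↥(H40.chartB R J⁻¹) π ∣ s * b) →
      algebraMap R ↥(H40.chartB R J⁻¹) π ∣ b)
    (hsat₁₂ : ∀ b : ↥(H83.chart12 R J),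
      (∀ k, ∃ s, s ∉ P₁₂ k ∧ algebraMap R ↥(H83.chart12 R J) π ∣ s * b) →
      algebraMap R ↥(H83.chart12 R J) π ∣ b)
    {ν κ : Type*} (O : ν → Subring F) (V : κ → ValuationSubring F) (Thr : ν → κ → Prop)
    (pt₁ : ∀ n : Ideal ↥(H40.chartB R J), n.IsMaximal →
      algebraMap R ↥(H40.chartB R J) π ∈ n → ν)
    (pt₂ : ∀ n : Ideal ↥(H40.chartB R J⁻¹), n.IsMaximal →
      algebraMap R ↥(H40.chartB R J⁻¹) π ∈ n → ν)
    (vert : ι → κ)
    (hO₁ : ∀ n hn hπn (x : F), x ∈ O (pt₁ n hn hπn) → ∃ a s : ↥(H40.chartB R J), s ∉ n ∧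
      x * algebraMap ↥(H40.chartB R J) F s = algebraMap ↥(H40.chartB R J) F a)
    (hO₂ : ∀ n hn hπn (x : F), x ∈ O (pt₂ n hn hπn) → ∃ a s : ↥(H40.chartB R J⁻¹), s ∉ n ∧
      x * algebraMap ↥(H40.chartB R J⁻¹) F s = algebraMap ↥(H40.chartB R J⁻¹) F a)
    (hThr₁ : ∀ n hn hπn k, P₁ k ≤ n → Thr (pt₁ n hn hπn) (vert k))
    (hThr₂ : ∀ n hn hπn k, P₂ k ≤ n → Thr (pt₂ n hn hπn) (vert k))
    (hV₁ : ∀ k (x : F), H47.OneU (V (vert k)) x → InMaxB (K := F) (P₁ k) (x - 1))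
    (hV₂ : ∀ k (x : F), H47.OneU (V (vert k)) x → InMaxB (K := F) (P₂ k) (x - 1)) :
    ∀ u : F, u ≠ 0 → H47.LocalDatum O V Thr π u l →
      ∃ (c : K) (g : F), u = algebraMap K F c * g ^ l := by
  intro u _ hD
  have hfdinv : FiniteDimensional K⟮J⁻¹⟯ F := by
    have e : K⟮J⁻¹⟯ = K⟮J⟯ := by
      apply le_antisymm
      · rw [IntermediateField.adjoin_simple_le_iff]
        exact inv_mem (IntermediateField.mem_adjoin_simple_self K J)
      · rw [IntermediateField.adjoin_simple_le_iff]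
        have := inv_mem (IntermediateField.mem_adjoin_simple_self K J⁻¹)
        rwa [inv_inv] at this
    rw [e]
    infer_instance
  have := H3.isFractionRing_chartB (R := R) (K := K) J
  have := H3.isFractionRing_chartB (R := R) (K := K) J⁻¹
  -- the chart-form datum at a maximal ideal, generic in the chart
  have key : ∀ {B : Type v} [CommRing B] [IsDomain B] [Algebra B F] [IsFractionRing B F]
      [Algebra R B] [IsScalarTower R B F] (Pv : ι → Ideal B) (_ : ∀ i, (Pv i).IsPrime)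
      (_ : ∀ i, algebraMap R B π ∈ Pv i)
      (pt : ∀ n : Ideal B, n.IsMaximal → algebraMap R B π ∈ n → ν)
      (_ : ∀ n hn hπn (x : F), x ∈ O (pt n hn hπn) → ∃ a s : B, s ∉ n ∧
        x * algebraMap B F s = algebraMap B F a)
      (_ : ∀ n hn hπn k, Pv k ≤ n → Thr (pt n hn hπn) (vert k))
      (_ : ∀ k (x : F), H47.OneU (V (vert k)) x → InMaxB (K := F) (Pv k) (x - 1)),
      (∀ i, InMaxB (K := F) (Pv i) (u - 1)) ∧
      ∀ n : Ideal B, n.IsMaximal → algebraMap R B π ∈ n → ∃ ψ : F, ψ ≠ 0 ∧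
        (∃ a s : B, s ∉ n ∧ u * algebraMap B F s = ψ ^ l * algebraMap B F a) ∧
        ∀ i, Pv i ≤ n → InMaxB (K := F) (Pv i) (ψ - 1) := by
    intro B _ _ _ _ _ _ Pv hPv hπPv pt hO hThr hV
    have hloc : ∀ n : Ideal B, n.IsMaximal → algebraMap R B π ∈ n → ∃ ψ : F, ψ ≠ 0 ∧
        ((∃ a s : B, s ∉ n ∧ u * algebraMap B F s = ψ ^ l * algebraMap B F a) ∧
          ∀ i, Pv i ≤ n → InPiB (K := F) (algebraMap R B π) (Pv i) (u / ψ ^ l - 1)) ∧
        ∀ i, Pv i ≤ n → InMaxB (K := F) (Pv i) (ψ - 1) := by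
      intro n hn hπn
      have := hn.isPrime
      obtain ⟨ψ, hψ0, hε, hψ⟩ := hD (pt n hn hπn)
      obtain ⟨h1, h2⟩ := H69.chart_datum_of_piIn π n (O (pt n hn hπn)) (hO n hn hπn) hψ0 hε
      refine ⟨ψ, hψ0, ⟨h1, fun i hi => ?_⟩, fun i hi => hV i ψ (hψ _ (hThr n hn hπn i hi))⟩
      have := hPv i
      exact h2.mono (Pv i) hi
    refine ⟨fun i => ?_, fun n hn hπn => ?_⟩
    · have := hPv i
      obtain ⟨n, hn, hle⟩ := Ideal.exists_le_maximal (Pv i) (Ideal.IsPrime.ne_top ‹_›)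
      have := hn.isPrime
      obtain ⟨ψ, hψ0, ⟨_, hu1⟩, hψ1⟩ := hloc n hn (hle (hπPv i))
      -- `u - 1 = (u / ψ^l - 1) ψ^l + (ψ - 1) (1 + ψ + ... + ψ^(l-1))`
      have hψm : InMaxB (K := F) (Pv i) (ψ - 1) := hψ1 i hle
      have hψmem : ψ ∈ locB (K := F) (Pv i) := by
        have : ψ = (ψ - 1) + 1 := by ring
        rw [this]
        exact add_mem (hψm.mem_locB (Pv i)) (one_mem _)
      have h3 : InMaxB (K := F) (Pv i) (ψ ^ l - 1) := by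
        have : ψ ^ l - 1 = (ψ - 1) * ∑ j ∈ Finset.range l, ψ ^ j := by
          rw [mul_comm, geom_sum_mul]
        rw [this]
        exact hψm.mul_right (Pv i) (sum_mem fun j _ => pow_mem hψmem j)
      have heq : u - 1 = (u / ψ ^ l - 1) * ψ ^ l + (ψ ^ l - 1) := by
        have : ψ ^ l ≠ 0 := pow_ne_zero _ hψ0
        field_simp
        ring
      rw [heq]
      exact (((hu1 i hle).inMaxB (Pv i) (hπPv i)).mul_right (Pv i)
        (Subalgebra.pow_mem _ hψmem l)).add (Pv i) h3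
    · obtain ⟨ψ, hψ0, ⟨h1, _⟩, hψ1⟩ := hloc n hn hπn
      exact ⟨ψ, hψ0, h1, hψ1⟩
  obtain ⟨hu₁, hloc₁⟩ := key P₁ hP₁ hπP₁ pt₁ hO₁ hThr₁ hV₁
  obtain ⟨hu₂, hloc₂⟩ := key P₂ hP₂ hπP₂ pt₂ hO₂ hThr₂ hV₂
  exact kummer_descent_rad J htr hcl π hπ hl hrl hw hp hpl hπp P₁ P₂ P₁₂ hP₁ hP₂ hP₁₂ hπP₁ hπP₂
    (fun k => ⟨k, hcomp₁ k⟩) (fun k => ⟨k, hcomp₂ k⟩) hmult₁ hmult₂ hsat₁ hsat₂ hsat₁₂ u
    hu₁ hu₂ hloc₁ hloc₂

/-- **L8 for radical data, composed.**  In the binder block of `S34.H69.kummer_descent_pow` over a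
DVR `R` (uniformiser `π`, residue characteristic `p ≠ l`), with the vertical primes `P₁ k`, `P₂ k`,
`P₁₂ k` of height one, of multiplicity at most `p` in the special fibre (`hmult`), ONE of them
reduced (`hred₀`), and the connectedness `hconn`: a function `u ≠ 0` with a RADICAL local datum
for `l ^ k` is a constant times an `l ^ k`-th power. -/
theorem kummer_descent_pow_rad
    {R : Type*} [CommRing R] [IsDomain R] [IsDiscreteValuationRing R]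
    {K : Type*} [Field K] [Algebra R K] [IsFractionRing R K]
    {F : Type v} [Field F] [Algebra R F] [Algebra K F] [IsScalarTower R K F]
    (J : F) (htr : Transcendental K J) [FiniteDimensional K⟮J⟯ F] [Algebra.IsSeparable K⟮J⟯ F]
    [IsFractionRing ↥(H40.chartB R J) F] [IsFractionRing ↥(H40.chartB R J⁻¹) F]
    [IsNoetherianRing ↥(H40.chartB R J)] [IsIntegrallyClosed ↥(H40.chartB R J)]
    (hcl : ∀ z : F, IsAlgebraic K z → z ∈ (algebraMap K F).range)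
    (π : R) (hπ : Irreducible π)
    {l : ℕ} (hl : l.Prime) (hlu : IsUnit ((l : ℕ) : R)) {ζ : R} (hζ : IsPrimitiveRoot ζ l)
    (hroot : ∀ r : R, IsUnit r → ∃ γ : R, IsUnit γ ∧ π ∣ γ ^ l * r - 1)
    {p : ℕ} (hp : p.Prime) (hpl : p ≠ l) (hπp : π ∣ ((p : ℕ) : R))
    {ι : Type*} [Finite ι]
    (P₁ : ι → Ideal ↥(H40.chartB R J)) (P₂ : ι → Ideal ↥(H40.chartB R J⁻¹))
    (P₁₂ : ι → Ideal ↥(H83.chart12 R J))
    [hP₁ : ∀ i, (P₁ i).IsPrime] [hP₂ : ∀ i, (P₂ i).IsPrime] [hP₁₂ : ∀ k, (P₁₂ k).IsPrime]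
    (hh₁ : ∀ k, (P₁ k).height = 1) (hh₂ : ∀ k, (P₂ k).height = 1)
    (hπP₁ : ∀ i, algebraMap R ↥(H40.chartB R J) π ∈ P₁ i)
    (hπP₂ : ∀ i, algebraMap R ↥(H40.chartB R J⁻¹) π ∈ P₂ i)
    (hπP₁₂ : ∀ i, algebraMap R ↥(H83.chart12 R J) π ∈ P₁₂ i)
    (hcomp₁ : ∀ k, ∀ s : ↥(H40.chartB R J), s ∉ P₁ k →
      Subalgebra.inclusion (H83.chartB_le_chart12 (R := R) J) s ∉ P₁₂ k)
    (hcomp₂ : ∀ k, ∀ s : ↥(H40.chartB R J⁻¹), s ∉ P₂ k →
      Subalgebra.inclusion (H83.chartB_inv_le_chart12 (R := R) J) s ∉ P₁₂ k)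
    (hmult₁ : ∀ i, ∀ b ∈ P₁ i, ∃ s, s ∉ P₁ i ∧ algebraMap R ↥(H40.chartB R J) π ∣ s * b ^ p)
    (hmult₂ : ∀ i, ∀ b ∈ P₂ i, ∃ s, s ∉ P₂ i ∧ algebraMap R ↥(H40.chartB R J⁻¹) π ∣ s * b ^ p)
    (k₀ : ι)
    (hred₀ : ∀ b ∈ P₁ k₀, ∃ s, s ∉ P₁ k₀ ∧ algebraMap R ↥(H40.chartB R J) π ∣ s * b)
    (hsat₁ : ∀ b : ↥(H40.chartB R J),
      (∀ i, ∃ s, s ∉ P₁ i ∧ algebraMap R ↥(H40.chartB R J) π ∣ s * b) →
      algebraMap R ↥(H40.chartB R J) π ∣ b)
    (hsat₂ : ∀ b : ↥(H40.chartB R J⁻¹),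
      (∀ i, ∃ s, s ∉ P₂ i ∧ algebraMap R ↥(H40.chartB R J⁻¹) π ∣ s * b) →
      algebraMap R ↥(H40.chartB R J⁻¹) π ∣ b)
    (hsat₁₂ : ∀ b : ↥(H83.chart12 R J),
      (∀ k, ∃ s, s ∉ P₁₂ k ∧ algebraMap R ↥(H83.chart12 R J) π ∣ s * b) →
      algebraMap R ↥(H83.chart12 R J) π ∣ b)
    (hall₁ : ∀ n : Ideal ↥(H40.chartB R J), n.IsMaximal →
      algebraMap R ↥(H40.chartB R J) π ∈ n → ∃ k, P₁ k ≤ n)
    (hall₂ : ∀ n : Ideal ↥(H40.chartB R J⁻¹), n.IsMaximal →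
      algebraMap R ↥(H40.chartB R J⁻¹) π ∈ n → ∃ k, P₂ k ≤ n)
    (hconn : ∀ c : ι → ℕ,
      (∀ n : Ideal ↥(H40.chartB R J), n.IsMaximal → ∀ k k', P₁ k ≤ n → P₁ k' ≤ n → c k = c k') →
      (∀ n : Ideal ↥(H40.chartB R J⁻¹), n.IsMaximal → ∀ k k', P₂ k ≤ n → P₂ k' ≤ n →
        c k = c k') →
      ∀ k k', c k = c k') :
    ∀ (k : ℕ) (u : F), u ≠ 0 →
      RadDatum (H21.ptO (H40.chartB R J) (H40.chartB R J⁻¹) π)
        (fun k => H56.valuationSubringAt (K := F) (P₁ k) (hh₁ k))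
        (H21.primeThr (π := π) P₁ P₂) u (l ^ k) →
      ∃ (c : K) (g : F), u = algebraMap K F c * g ^ (l ^ k) := by
  have hne : Nonempty ι := ⟨k₀⟩
  have hfdinv : FiniteDimensional K⟮J⁻¹⟯ F := by
    have e : K⟮J⁻¹⟯ = K⟮J⟯ := by
      apply le_antisymm
      · rw [IntermediateField.adjoin_simple_le_iff]
        exact inv_mem (IntermediateField.mem_adjoin_simple_self K J)
      · rw [IntermediateField.adjoin_simple_le_iff]
        have := inv_mem (IntermediateField.mem_adjoin_simple_self K J⁻¹)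
        rwa [inv_inv] at this
    rw [e]
    infer_instance
  have hsepinv : Algebra.IsSeparable K⟮J⁻¹⟯ F := by
    have e : K⟮J⁻¹⟯ = K⟮J⟯ := by
      apply le_antisymm
      · rw [IntermediateField.adjoin_simple_le_iff]
        exact inv_mem (IntermediateField.mem_adjoin_simple_self K J)
      · rw [IntermediateField.adjoin_simple_le_iff]
        have := inv_mem (IntermediateField.mem_adjoin_simple_self K J⁻¹)
        rwa [inv_inv] at this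
    rw [e]
    infer_instance
  have htrinv : Transcendental K J⁻¹ := by
    intro halg
    exact htr (by simpa using halg.inv)
  have hN₂ : IsNoetherianRing ↥(H40.chartB R J⁻¹) :=
    H69.isNoetherianRing_chartB_of_finite (K := K) J⁻¹ htrinv
  have hI₂ : IsIntegrallyClosed ↥(H40.chartB R J⁻¹) :=
    H3.isIntegrallyClosed_chartB (R := R) (K := K) J⁻¹
  have hF₁₂ : IsFractionRing ↥(H83.chart12 R J) F := H69.isFractionRing_chart12 (R := R) (K := K) J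
  have hinj : Function.Injective (algebraMap R F) :=
    H21.algebraMap_injective_of_tower (R := R) K (F := F)
  have hπ0 : algebraMap R F π ≠ 0 := fun h => hπ.ne_zero (hinj (by rw [h, map_zero]))
  have hπp' : Prime π := hπ.prime
  obtain ⟨vl, hvl⟩ := hlu
  have hrl : algebraMap R F ((vl⁻¹ : Rˣ) : R) * (l : F) = 1 := by
    have : (l : F) = algebraMap R F ((l : ℕ) : R) := (map_natCast (algebraMap R F) l).symm
    rw [this, ← hvl, ← map_mul, Units.inv_mul, map_one]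
  have hw : IsPrimitiveRoot (algebraMap R F ζ) l := hζ.map_of_injective hinj
  have hM₁ : ∀ k, ∃ N : ℕ, ∀ b ∈ P₁ k, ∃ s, s ∉ P₁ k ∧
      algebraMap R ↥(H40.chartB R J) π ∣ s * b ^ N := fun k => ⟨p, hmult₁ k⟩
  have hM₂ : ∀ k, ∃ N : ℕ, ∀ b ∈ P₂ k, ∃ s, s ∉ P₂ k ∧
      algebraMap R ↥(H40.chartB R J⁻¹) π ∣ s * b ^ N := fun k => ⟨p, hmult₂ k⟩
  have H : ModelHypW K (H21.ptO (H40.chartB R J) (H40.chartB R J⁻¹) π)
      (fun k => H56.valuationSubringAt (K := F) (P₁ k) (hh₁ k))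
      (H21.primeThr (π := π) P₁ P₂) π l ζ :=
    modelHypW_of_chart_primes (B₁₂ := H83.chart12 R J) (P₁₂ := P₁₂) hπ
      (H83.chartB_le_chart12 (R := R) J) (H83.chartB_inv_le_chart12 (R := R) J)
      hh₁ hh₂ hπP₁ hπP₂ hπP₁₂ hcomp₁ hcomp₂ hM₁ hM₂ k₀ hred₀ hall₁ hall₂ hl.pos ⟨vl, hvl⟩ hζ hroot
      hconn
  have hVeq : ∀ k, H56.valuationSubringAt (K := F) (P₁ k) (hh₁ k)
      = H56.valuationSubringAt (K := F) (P₂ k) (hh₂ k) := fun k =>
    valuationSubringAt_eq_mult K hπ (H83.chartB_le_chart12 (R := R) J)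
      (H83.chartB_inv_le_chart12 (R := R) J) (P₁ k) (P₂ k) (P₁₂ k) (hh₁ k) (hh₂ k)
      (hπP₁₂ k) (hcomp₁ k) (hcomp₂ k) (hmult₁ k) (hmult₂ k)
  have hcop : Nat.Coprime p l := (Nat.coprime_primes hp hl).2 hpl
  refine exists_pow_of_radDatum H hp hcop hπp
    (hsatO_of_chart_primes hh₁ hh₂ hVeq hπ0 hM₁ hM₂ hsat₁ hsat₂)
    (hmultV_of_chart_primes hh₁ hmult₁)
    (hK_of_charts_rad J htr hcl π hπp' hl hrl hw hp hpl hπp P₁ P₂ P₁₂ hP₁ hP₂ hP₁₂ hπP₁ hπP₂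
      hcomp₁ hcomp₂ hmult₁ hmult₂ hsat₁ hsat₂ hsat₁₂ _ _ _
      (fun n hn hπn => Sum.inl ⟨n, hn, hπn⟩) (fun n hn hπn => Sum.inr ⟨n, hn, hπn⟩) id
      ?_ ?_ ?_ ?_ ?_ ?_)
  · intro n hn hπn x hx
    exact hx
  · intro n hn hπn x hx
    exact hx
  · intro n hn hπn k hk
    exact hk
  · intro n hn hπn k hk
    exact hk
  · intro k x hx
    exact H69.inMaxB_of_valuation_lt_one (hh₁ k) hx
  · intro k x hx
    have hx' : (H56.valuationSubringAt (K := F) (P₂ k) (hh₂ k)).valuation (x - 1) < 1 :=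
      (H21.valuation_lt_one_congr (hVeq k) _).mp hx
    exact H69.inMaxB_of_valuation_lt_one (hh₂ k) hx'

end Fermat.Agent.S36.H67
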