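import Fermat.Agent.S34.H83_Connected
import Fermat.Agent.S36.H67_KummerPowRad

/-!
# S36 (E1): connectedness of a possibly NON-REDUCED special fibre (helper67)

Twin of `S34/H83_Connected` with the reducedness `hred` replaced by finite multiplicity `hmult`:
the CRT element of a colouring is only idempotent modulo the RADICAL of `(π)`; it is lifted to an
idempotent modulo `π` (`exists_idem_lift`), and at a vertical prime `P` an idempotent modulo `π`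
lying in `P` is divisible by `π` in `B_P` (multiply by `1 - e ∉ P`).

* `exists_idem_lift`, `exists_idem_of_colouring_mult`;
* `colouring_const_mult`, `hconn_of_no_split_mult`;
* `kummer_descent_pow_rad_conn` : `kummer_descent_pow_rad` with `hconn` discharged.
-/

set_option autoImplicit false

open Polynomial IntermediateField Fermat.Agent.S18 Fermat.Agent.S34 Fermat.Agent.CA.H69

namespace Fermat.Agent.S36.H67

universe v

section IdemLift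

variable {B : Type*} [CommRing B]

/-- Idempotent lifting modulo `π` along the nilpotent `e (e - 1)`. -/
theorem exists_idem_lift (π e : B) (N : ℕ) (h : π ∣ (e * (e - 1)) ^ N) :
    ∃ e' : B, π ∣ e' * (e' - 1) ∧ e' - e ∈ Ideal.span {π, e * (e - 1)} := by
  set x : B := e * (e - 1) with hx
  have hle : (Ideal.span {π} : Ideal B) ≤ Ideal.span {π, x} :=
    Ideal.span_mono (by simp)
  set f : B ⧸ (Ideal.span {π} : Ideal B) →+* B ⧸ (Ideal.span {π, x} : Ideal B) :=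
    Ideal.Quotient.factor hle with hf
  have hker : ∀ y ∈ RingHom.ker f, IsNilpotent y := by
    intro y hy
    obtain ⟨b, rfl⟩ := Ideal.Quotient.mk_surjective y
    rw [RingHom.mem_ker, hf, Ideal.Quotient.factor_mk, Ideal.Quotient.eq_zero_iff_mem,
      Ideal.mem_span_pair] at hy
    obtain ⟨u, v, huv⟩ := hy
    refine ⟨N, ?_⟩
    rw [← map_pow, Ideal.Quotient.eq_zero_iff_mem, Ideal.mem_span_singleton]
    -- `b = u π + v x`, so `b ^ N ≡ v^N x^N ≡ 0 mod π`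
    have h1 : π ∣ b ^ N - (v * x) ^ N := by
      have h2 : b - v * x ∣ b ^ N - (v * x) ^ N := sub_dvd_pow_sub_pow b (v * x) N
      refine Dvd.dvd.trans ?_ h2
      exact ⟨u, by rw [← huv]; ring⟩
    have h3 : π ∣ (v * x) ^ N := by
      rw [mul_pow]
      exact Dvd.dvd.mul_left h _
    have := dvd_add h1 h3
    rwa [sub_add_cancel] at this
  have hidem : IsIdempotentElem (Ideal.Quotient.mk (Ideal.span {π, x} : Ideal B) e) := by
    rw [IsIdempotentElem, ← map_mul, ← sub_eq_zero, ← map_sub, Ideal.Quotient.eq_zero_iff_mem]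
    have : e * e - e = x := by rw [hx]; ring
    rw [this]
    exact Ideal.subset_span (by simp)
  obtain ⟨e'', he'', hfe⟩ := exists_isIdempotentElem_eq_of_ker_isNilpotent f hker _
    ⟨Ideal.Quotient.mk _ e, by rw [hf, Ideal.Quotient.factor_mk]⟩ hidem
  obtain ⟨e', rfl⟩ := Ideal.Quotient.mk_surjective e''
  refine ⟨e', ?_, ?_⟩
  · rw [← Ideal.mem_span_singleton, ← Ideal.Quotient.eq_zero_iff_mem, map_mul, map_sub, map_one,
      mul_sub, mul_one, he''.eq, sub_self]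
  · rw [hf, Ideal.Quotient.factor_mk] at hfe
    exact (Ideal.Quotient.eq).mp hfe

end IdemLift

section CRTMult

variable {B : Type*} [CommRing B] {ι : Type*} [Finite ι]

/-- `H83.exists_idem_of_colouring` + idempotent lifting: the idempotent modulo `π` of a
2-colouring of the vertical primes, possibly non-reduced special fibre. -/
theorem exists_idem_of_colouring_mult (P : ι → Ideal B) (hP : ∀ i, (P i).IsPrime) (π : B)
    (hπP : ∀ i, π ∈ P i)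
    (hmult : ∀ i, ∃ N : ℕ, ∀ b ∈ P i, ∃ s, s ∉ P i ∧ π ∣ s * b ^ N)
    (hsat : ∀ b : B, (∀ i, ∃ s, s ∉ P i ∧ π ∣ s * b) → π ∣ b)
    (c : ι → Prop)
    (hloc : ∀ n : Ideal B, n.IsMaximal → ∀ i i', P i ≤ n → P i' ≤ n → (c i ↔ c i')) :
    ∃ e : B, π ∣ e * (e - 1) ∧ (∀ i, c i → e - 1 ∈ P i) ∧ (∀ i, ¬ c i → e ∈ P i) ∧
      (∀ i, c i → ∃ s, s ∉ P i ∧ π ∣ s * (e - 1)) ∧ (∀ i, ¬ c i → ∃ s, s ∉ P i ∧ π ∣ s * e) := by
  classical
  cases nonempty_fintype ι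
  obtain ⟨e₀, hT, hF⟩ := H83.exists_idem_of_colouring P c hloc
  choose N hN using hmult
  set x : B := e₀ * (e₀ - 1) with hx
  have hxP : ∀ i, x ∈ P i := by
    intro i
    by_cases hc : c i
    · exact Ideal.mul_mem_left _ _ (hT i hc)
    · exact Ideal.mul_mem_right _ _ (hF i hc)
  set M : ℕ := ∑ i, N i with hM
  have hdvd : π ∣ x ^ M := by
    apply hsat
    intro i
    obtain ⟨s, hs, hd⟩ := hN i x (hxP i)
    refine ⟨s, hs, ?_⟩
    have hle : N i ≤ M := Finset.single_le_sum (f := N) (fun _ _ => Nat.zero_le _)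
      (Finset.mem_univ i)
    obtain ⟨k, hk⟩ := Nat.exists_eq_add_of_le hle
    rw [hk, pow_add, ← mul_assoc]
    exact Dvd.dvd.mul_right hd _
  obtain ⟨e, hidem, hcong⟩ := exists_idem_lift π e₀ M hdvd
  have hsub : ∀ i, e - e₀ ∈ P i := by
    intro i
    have hle : (Ideal.span {π, x} : Ideal B) ≤ P i := by
      rw [Ideal.span_le]
      rintro y (rfl | rfl)
      · exact hπP i
      · exact hxP i
    exact hle hcong
  have heT : ∀ i, c i → e - 1 ∈ P i := by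
    intro i hc
    have : e - 1 = (e - e₀) + (e₀ - 1) := by ring
    rw [this]
    exact (P i).add_mem (hsub i) (hT i hc)
  have heF : ∀ i, ¬ c i → e ∈ P i := by
    intro i hc
    have : e = (e - e₀) + e₀ := by ring
    rw [this]
    exact (P i).add_mem (hsub i) (hF i hc)
  refine ⟨e, hidem, heT, heF, fun i hc => ⟨e, fun he => ?_, hidem⟩, fun i hc => ⟨e - 1, fun he => ?_, ?_⟩⟩
  · have h1 : (1 : B) ∈ P i := by
      have := (P i).sub_mem he (heT i hc)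
      simpa using this
    exact (hP i).ne_top ((Ideal.eq_top_iff_one _).2 h1)
  · have h1 : (1 : B) ∈ P i := by
      have := (P i).sub_mem (heF i hc) he
      simpa using this
    exact (hP i).ne_top ((Ideal.eq_top_iff_one _).2 h1)
  · rw [mul_comm]
    exact hidem

end CRTMult

/-! ### Connectedness of the special fibre -/

section ConnectedMult

variable {R : Type*} [CommRing R] [IsDomain R] [IsNoetherianRing R] [IsIntegrallyClosed R]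
  {K : Type*} [Field K] [Algebra R K] [IsFractionRing R K]
  {F : Type*} [Field F] [Algebra R F] [Algebra K F] [IsScalarTower R K F]

/-- **Connectedness of the special fibre, colouring form**, possibly non-reduced special fibre.
Twin of `S34.H83.colouring_const` with `hred` replaced by `hmult`. -/
theorem colouring_const_mult (J : F) (htr : Transcendental K J)
    [FiniteDimensional K⟮J⟯ F] [Algebra.IsSeparable K⟮J⟯ F]
    (hcl : ∀ z : F, IsAlgebraic K z → z ∈ (algebraMap K F).range)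
    (π : R) (hπ : Prime π)
    {ι₁ ι₂ ι₁₂ : Type*} [Finite ι₁] [Finite ι₂]
    (P₁ : ι₁ → Ideal ↥(H40.chartB R J)) (P₂ : ι₂ → Ideal ↥(H40.chartB R J⁻¹))
    (P₁₂ : ι₁₂ → Ideal ↥(H83.chart12 R J))
    (hP₁ : ∀ i, (P₁ i).IsPrime) (hP₂ : ∀ i, (P₂ i).IsPrime) (hP₁₂ : ∀ k, (P₁₂ k).IsPrime)
    (hπP₁ : ∀ i, algebraMap R ↥(H40.chartB R J) π ∈ P₁ i)
    (hπP₂ : ∀ i, algebraMap R ↥(H40.chartB R J⁻¹) π ∈ P₂ i)
    (hmult₁ : ∀ i, ∃ N : ℕ, ∀ b ∈ P₁ i, ∃ s, s ∉ P₁ i ∧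
      algebraMap R ↥(H40.chartB R J) π ∣ s * b ^ N)
    (hmult₂ : ∀ i, ∃ N : ℕ, ∀ b ∈ P₂ i, ∃ s, s ∉ P₂ i ∧
      algebraMap R ↥(H40.chartB R J⁻¹) π ∣ s * b ^ N)
    (hsat₁ : ∀ b : ↥(H40.chartB R J),
      (∀ i, ∃ s, s ∉ P₁ i ∧ algebraMap R ↥(H40.chartB R J) π ∣ s * b) →
      algebraMap R ↥(H40.chartB R J) π ∣ b)
    (hsat₂ : ∀ b : ↥(H40.chartB R J⁻¹),
      (∀ i, ∃ s, s ∉ P₂ i ∧ algebraMap R ↥(H40.chartB R J⁻¹) π ∣ s * b) →
      algebraMap R ↥(H40.chartB R J⁻¹) π ∣ b)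
    (hsat₁₂ : ∀ b : ↥(H83.chart12 R J),
      (∀ k, ∃ s, s ∉ P₁₂ k ∧ algebraMap R ↥(H83.chart12 R J) π ∣ s * b) →
      algebraMap R ↥(H83.chart12 R J) π ∣ b)
    (c₁ : ι₁ → Prop) (c₂ : ι₂ → Prop)
    (hloc₁ : ∀ n : Ideal ↥(H40.chartB R J), n.IsMaximal → ∀ i i', P₁ i ≤ n → P₁ i' ≤ n →
      (c₁ i ↔ c₁ i'))
    (hloc₂ : ∀ n : Ideal ↥(H40.chartB R J⁻¹), n.IsMaximal → ∀ i i', P₂ i ≤ n → P₂ i' ≤ n →
      (c₂ i ↔ c₂ i'))
    (hlink : ∀ k : ι₁₂, ∃ i i',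
      (∀ s : ↥(H40.chartB R J), s ∉ P₁ i →
        Subalgebra.inclusion (H83.chartB_le_chart12 (R := R) J) s ∉ P₁₂ k) ∧
      (∀ s : ↥(H40.chartB R J⁻¹), s ∉ P₂ i' →
        Subalgebra.inclusion (H83.chartB_inv_le_chart12 (R := R) J) s ∉ P₁₂ k) ∧
      (c₁ i ↔ c₂ i')) :
    (∀ i, c₁ i) ∨ (∀ i, ¬ c₁ i) := by
  classical
  -- the two idempotents modulo `π`
  obtain ⟨e₁, hidem₁, he₁T, he₁F, hd₁T, hd₁F⟩ :=
    exists_idem_of_colouring_mult P₁ hP₁ _ hπP₁ hmult₁ hsat₁ c₁ hloc₁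
  obtain ⟨e₂, hidem₂, he₂T, he₂F, hd₂T, hd₂F⟩ :=
    exists_idem_of_colouring_mult P₂ hP₂ _ hπP₂ hmult₂ hsat₂ c₂ hloc₂
  -- compatibility on the overlap
  have hcompat : algebraMap R ↥(H83.chart12 R J) π ∣
      Subalgebra.inclusion (H83.chartB_le_chart12 (R := R) J) e₁
        - Subalgebra.inclusion (H83.chartB_inv_le_chart12 (R := R) J) e₂ := by
    refine hsat₁₂ _ fun k => ?_
    obtain ⟨i, i', ho₁, ho₂, hcc⟩ := hlink k
    by_cases hc : c₁ i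
    · obtain ⟨s₁, hs₁, d₁, hd₁⟩ := hd₁T i hc
      obtain ⟨s₂, hs₂, d₂, hd₂⟩ := hd₂T i' (hcc.1 hc)
      exact H83.overlap_congr _ _ π (P₁₂ k) (hP₁₂ k) 1 (ho₁ s₁ hs₁) (ho₂ s₂ hs₂)
        (by rw [map_one]; exact hd₁) (by rw [map_one]; exact hd₂)
    · have hc' : ¬ c₂ i' := fun h => hc (hcc.2 h)
      obtain ⟨s₁, hs₁, d₁, hd₁⟩ := hd₁F i hc
      obtain ⟨s₂, hs₂, d₂, hd₂⟩ := hd₂F i' hc'
      exact H83.overlap_congr _ _ π (P₁₂ k) (hP₁₂ k) 0 (ho₁ s₁ hs₁) (ho₂ s₂ hs₂)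
        (by rw [map_zero, sub_zero]; exact hd₁) (by rw [map_zero, sub_zero]; exact hd₂)
  -- translate to `F` and apply STEP 5 to `F` itself
  have hi₁ : ∃ a ∈ H40.chartB R J, (e₁ : F) ^ 2 - e₁ = π • a := by
    obtain ⟨a, ha, h⟩ := H83.coe_eq_smul_of_dvd π hidem₁
    refine ⟨a, ha, ?_⟩
    rw [← h, Subalgebra.coe_mul, Subalgebra.coe_sub, Subalgebra.coe_one]
    ring
  have hi₂ : ∃ a ∈ H40.chartB R J⁻¹, (e₂ : F) ^ 2 - e₂ = π • a := by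
    obtain ⟨a, ha, h⟩ := H83.coe_eq_smul_of_dvd π hidem₂
    refine ⟨a, ha, ?_⟩
    rw [← h, Subalgebra.coe_mul, Subalgebra.coe_sub, Subalgebra.coe_one]
    ring
  have h₁₂ : ∃ y ∈ H83.chart12 R J, (e₁ : F) - e₂ = π • y := by
    obtain ⟨a, ha, h⟩ := H83.coe_eq_smul_of_dvd π hcompat
    refine ⟨a, ha, ?_⟩
    rw [← h, Subalgebra.coe_sub, Subalgebra.coe_inclusion, Subalgebra.coe_inclusion]
  rcases H83.no_split_special_fibre' J htr π hπ (H83.hconst_of_hcl hcl) e₁.2 e₂.2 hi₁ hi₂ h₁₂ with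
    ⟨a, ha, h⟩ | ⟨a, ha, h⟩
  · -- `e₁ ≡ 0`: every component has colour `false`
    right
    intro i hc
    have hmem : e₁ ∈ P₁ i :=
      Ideal.mem_of_dvd _ (H83.dvd_of_coe_eq_smul π ha h) (hπP₁ i)
    have h1 : (1 : ↥(H40.chartB R J)) ∈ P₁ i := by
      have := sub_mem hmem (he₁T i hc)
      simpa using this
    exact (hP₁ i).ne_top ((Ideal.eq_top_iff_one _).2 h1)
  · -- `e₁ ≡ 1`: every component has colour `true`
    left
    intro i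
    by_contra hc
    have hmem : e₁ - 1 ∈ P₁ i :=
      Ideal.mem_of_dvd _ (H83.dvd_of_coe_eq_smul π ha
        (by rw [Subalgebra.coe_sub, Subalgebra.coe_one]; exact h)) (hπP₁ i)
    have h1 : (1 : ↥(H40.chartB R J)) ∈ P₁ i := by
      have := sub_mem (he₁F i hc) hmem
      simpa using this
    exact (hP₁ i).ne_top ((Ideal.eq_top_iff_one _).2 h1)

/-- **Connectedness of the special fibre**, one index type, `ℕ`-valued colourings, possibly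
non-reduced special fibre: verbatim the field `hconn` of `ModelHypW` for `Thr n k := P_i k ≤ n`. -/
theorem hconn_of_no_split_mult (J : F) (htr : Transcendental K J)
    [FiniteDimensional K⟮J⟯ F] [Algebra.IsSeparable K⟮J⟯ F]
    (hcl : ∀ z : F, IsAlgebraic K z → z ∈ (algebraMap K F).range)
    (π : R) (hπ : Prime π)
    {ι : Type*} [Finite ι]
    (P₁ : ι → Ideal ↥(H40.chartB R J)) (P₂ : ι → Ideal ↥(H40.chartB R J⁻¹))
    (P₁₂ : ι → Ideal ↥(H83.chart12 R J))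
    (hP₁ : ∀ i, (P₁ i).IsPrime) (hP₂ : ∀ i, (P₂ i).IsPrime) (hP₁₂ : ∀ k, (P₁₂ k).IsPrime)
    (hπP₁ : ∀ i, algebraMap R ↥(H40.chartB R J) π ∈ P₁ i)
    (hπP₂ : ∀ i, algebraMap R ↥(H40.chartB R J⁻¹) π ∈ P₂ i)
    (hcomp₁ : ∀ k, ∀ s : ↥(H40.chartB R J), s ∉ P₁ k →
      Subalgebra.inclusion (H83.chartB_le_chart12 (R := R) J) s ∉ P₁₂ k)
    (hcomp₂ : ∀ k, ∀ s : ↥(H40.chartB R J⁻¹), s ∉ P₂ k →
      Subalgebra.inclusion (H83.chartB_inv_le_chart12 (R := R) J) s ∉ P₁₂ k)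
    (hmult₁ : ∀ i, ∃ N : ℕ, ∀ b ∈ P₁ i, ∃ s, s ∉ P₁ i ∧
      algebraMap R ↥(H40.chartB R J) π ∣ s * b ^ N)
    (hmult₂ : ∀ i, ∃ N : ℕ, ∀ b ∈ P₂ i, ∃ s, s ∉ P₂ i ∧
      algebraMap R ↥(H40.chartB R J⁻¹) π ∣ s * b ^ N)
    (hsat₁ : ∀ b : ↥(H40.chartB R J),
      (∀ i, ∃ s, s ∉ P₁ i ∧ algebraMap R ↥(H40.chartB R J) π ∣ s * b) →
      algebraMap R ↥(H40.chartB R J) π ∣ b)
    (hsat₂ : ∀ b : ↥(H40.chartB R J⁻¹),
      (∀ i, ∃ s, s ∉ P₂ i ∧ algebraMap R ↥(H40.chartB R J⁻¹) π ∣ s * b) →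
      algebraMap R ↥(H40.chartB R J⁻¹) π ∣ b)
    (hsat₁₂ : ∀ b : ↥(H83.chart12 R J),
      (∀ k, ∃ s, s ∉ P₁₂ k ∧ algebraMap R ↥(H83.chart12 R J) π ∣ s * b) →
      algebraMap R ↥(H83.chart12 R J) π ∣ b)
    (c : ι → ℕ)
    (h₁ : ∀ n : Ideal ↥(H40.chartB R J), n.IsMaximal → ∀ k k', P₁ k ≤ n → P₁ k' ≤ n →
      c k = c k')
    (h₂ : ∀ n : Ideal ↥(H40.chartB R J⁻¹), n.IsMaximal → ∀ k k', P₂ k ≤ n → P₂ k' ≤ n →
      c k = c k') :
    ∀ k k', c k = c k' := by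
  intro k₀ k'
  have key := colouring_const_mult J htr hcl π hπ P₁ P₂ P₁₂ hP₁ hP₂ hP₁₂ hπP₁ hπP₂ hmult₁ hmult₂
    hsat₁ hsat₂ hsat₁₂ (fun k => c k = c k₀) (fun k => c k = c k₀)
    (fun n hn i i' hi hi' => by rw [h₁ n hn i i' hi hi'])
    (fun n hn i i' hi hi' => by rw [h₂ n hn i i' hi hi'])
    (fun k => ⟨k, k, hcomp₁ k, hcomp₂ k, Iff.rfl⟩)
  rcases key with h | h
  · exact (h k').symm
  · exact absurd rfl (h k₀)

end ConnectedMult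

/-- **L8 for radical data, composed, connectedness included.**  `kummer_descent_pow_rad` with its
hypothesis `hconn` supplied by `hconn_of_no_split_mult`. -/
theorem kummer_descent_pow_rad_conn
    {R : Type*} [CommRing R] [IsDomain R] [IsDiscreteValuationRing R]
    {K : Type*} [Field K] [Algebra R K] [IsFractionRing R K]
    {F : Type v} [Field F] [Algebra R F] [Algebra K F] [IsScalarTower R K F]
    (J : F) (htr : Transcendental K J) [FiniteDimensional K⟮J⟯ F] [Algebra.IsSeparable K⟮J⟯ F]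
    [IsFractionRing ↥(H40.chartB R J) F] [IsFractionRing ↥(H40.chartB R J⁻¹) F]
    [IsNoetherianRing ↥(H40.chartB R J)] [IsIntegrallyClosed ↥(H40.chartB R J)]
    (hcl : ∀ z : F, IsAlgebraic K z → z ∈ (algebraMap K F).range)
    (π : R) (hπ : Irreducible π)
    {l : ℕ} (hl : l.Prime) (hlu : IsUnit ((l : ℕ) : R)) {ζ : R} (hζ : IsPrimitiveRoot ζ l)
    (hroot : ∀ r : R, IsUnit r → ∃ γ : R, IsUnit γ ∧ π ∣ γ ^ l * r - 1)
    {p : ℕ} (hp : p.Prime) (hpl : p ≠ l) (hπp : π ∣ ((p : ℕ) : R))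
    {ι : Type*} [Finite ι]
    (P₁ : ι → Ideal ↥(H40.chartB R J)) (P₂ : ι → Ideal ↥(H40.chartB R J⁻¹))
    (P₁₂ : ι → Ideal ↥(H83.chart12 R J))
    [hP₁ : ∀ i, (P₁ i).IsPrime] [hP₂ : ∀ i, (P₂ i).IsPrime] [hP₁₂ : ∀ k, (P₁₂ k).IsPrime]
    (hh₁ : ∀ k, (P₁ k).height = 1) (hh₂ : ∀ k, (P₂ k).height = 1)
    (hπP₁ : ∀ i, algebraMap R ↥(H40.chartB R J) π ∈ P₁ i)
    (hπP₂ : ∀ i, algebraMap R ↥(H40.chartB R J⁻¹) π ∈ P₂ i)
    (hπP₁₂ : ∀ i, algebraMap R ↥(H83.chart12 R J) π ∈ P₁₂ i)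
    (hcomp₁ : ∀ k, ∀ s : ↥(H40.chartB R J), s ∉ P₁ k →
      Subalgebra.inclusion (H83.chartB_le_chart12 (R := R) J) s ∉ P₁₂ k)
    (hcomp₂ : ∀ k, ∀ s : ↥(H40.chartB R J⁻¹), s ∉ P₂ k →
      Subalgebra.inclusion (H83.chartB_inv_le_chart12 (R := R) J) s ∉ P₁₂ k)
    (hmult₁ : ∀ i, ∀ b ∈ P₁ i, ∃ s, s ∉ P₁ i ∧ algebraMap R ↥(H40.chartB R J) π ∣ s * b ^ p)
    (hmult₂ : ∀ i, ∀ b ∈ P₂ i, ∃ s, s ∉ P₂ i ∧ algebraMap R ↥(H40.chartB R J⁻¹) π ∣ s * b ^ p)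
    (k₀ : ι)
    (hred₀ : ∀ b ∈ P₁ k₀, ∃ s, s ∉ P₁ k₀ ∧ algebraMap R ↥(H40.chartB R J) π ∣ s * b)
    (hsat₁ : ∀ b : ↥(H40.chartB R J),
      (∀ i, ∃ s, s ∉ P₁ i ∧ algebraMap R ↥(H40.chartB R J) π ∣ s * b) →
      algebraMap R ↥(H40.chartB R J) π ∣ b)
    (hsat₂ : ∀ b : ↥(H40.chartB R J⁻¹),
      (∀ i, ∃ s, s ∉ P₂ i ∧ algebraMap R ↥(H40.chartB R J⁻¹) π ∣ s * b) →
      algebraMap R ↥(H40.chartB R J⁻¹) π ∣ b)
    (hsat₁₂ : ∀ b : ↥(H83.chart12 R J),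
      (∀ k, ∃ s, s ∉ P₁₂ k ∧ algebraMap R ↥(H83.chart12 R J) π ∣ s * b) →
      algebraMap R ↥(H83.chart12 R J) π ∣ b)
    (hall₁ : ∀ n : Ideal ↥(H40.chartB R J), n.IsMaximal →
      algebraMap R ↥(H40.chartB R J) π ∈ n → ∃ k, P₁ k ≤ n)
    (hall₂ : ∀ n : Ideal ↥(H40.chartB R J⁻¹), n.IsMaximal →
      algebraMap R ↥(H40.chartB R J⁻¹) π ∈ n → ∃ k, P₂ k ≤ n) :
    ∀ (k : ℕ) (u : F), u ≠ 0 →
      RadDatum (H21.ptO (H40.chartB R J) (H40.chartB R J⁻¹) π)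
        (fun k => H56.valuationSubringAt (K := F) (P₁ k) (hh₁ k))
        (H21.primeThr (π := π) P₁ P₂) u (l ^ k) →
      ∃ (c : K) (g : F), u = algebraMap K F c * g ^ (l ^ k) :=
  kummer_descent_pow_rad J htr hcl π hπ hl hlu hζ hroot hp hpl hπp P₁ P₂ P₁₂ hh₁ hh₂ hπP₁ hπP₂
    hπP₁₂ hcomp₁ hcomp₂ hmult₁ hmult₂ k₀ hred₀ hsat₁ hsat₂ hsat₁₂ hall₁ hall₂
    (hconn_of_no_split_mult J htr hcl π hπ.prime P₁ P₂ P₁₂ hP₁ hP₂ hP₁₂ hπP₁ hπP₂ hcomp₁ hcomp₂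
      (fun i => ⟨p, hmult₁ i⟩) (fun i => ⟨p, hmult₂ i⟩) hsat₁ hsat₂ hsat₁₂)

end Fermat.Agent.S36.H67
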