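import Fermat.Agent.S34.H3_VerticalSingle
import Fermat.Agent.CA.H42_Hartogs
import Fermat.Agent.S36.H67_ConnectedMult

/-!
# S36 (E1): the criterion for radical data with the canonical single-index vertical family
(helper67)

Twin of `S34/H3_VerticalSingle` for a possibly NON-REDUCED special fibre.  Index type: the
vertical primes of the overlap chart `B₁₂ = chart12 R J`; `P₁ k`, `P₂ k` are the contractions to
the two charts (`H3.VertIdx`, `H3.vertP₁`, `H3.vertP₂`).

* `vert_hsat_of_normal` : `(SAT)` for the canonical family of vertical primes of a noetherian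
  NORMAL domain (no reducedness: Hartogs, `CA.H42.mem_range_of_forall_height_one`);
* `kummer_descent_pow_of_mult` : if every vertical prime of both charts has multiplicity at most
  `p` in the special fibre (`hmult₁`, `hmult₂`), ONE vertical prime is reduced (`hred₀`) and
  `J^{±1}` vanishes identically on no vertical component, then a function with a RADICAL local
  datum at level `l ^ k` is a constant times an `l ^ k`-th power.
-/

set_option autoImplicit false

open Polynomial IntermediateField Fermat.Agent.S18 Fermat.Agent.S34 Fermat.Agent.CA.H69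

namespace Fermat.Agent.S36.H67

universe v

section Normal

set_option linter.unusedSectionVars false

variable {B : Type*} [CommRing B] [IsDomain B] [IsNoetherianRing B] [IsIntegrallyClosed B]

/-- A height-one prime through `π ≠ 0` is a minimal prime over `(π)`. -/
theorem mem_minimalPrimes_of_height_eq_one {π : B} (hπ0 : π ≠ 0) {p : Ideal B} [hp : p.IsPrime]
    (h1 : p.height = 1) (hπp : π ∈ p) : p ∈ (Ideal.span {π} : Ideal B).minimalPrimes := by
  refine ⟨⟨hp, (Ideal.span_singleton_le_iff_mem p).2 hπp⟩, ?_⟩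
  rintro q ⟨hq, hπq⟩ hqp
  by_contra hnle
  have hlt : q < p := lt_of_le_of_ne hqp (fun h => hnle (h ▸ le_refl _))
  have h2 : q.height < p.height := Ideal.height_strict_mono_of_isPrime_of_isPrime hlt
  rw [h1] at h2
  have h3 : q.height = 0 := Order.lt_one_iff.mp h2
  rw [Ideal.height_eq_zero_iff, IsDomain.minimalPrimes_eq_singleton_bot,
    Set.mem_singleton_iff] at h3
  have : π ∈ q := (Ideal.span_singleton_le_iff_mem q).1 hπq
  rw [h3] at this
  exact hπ0 this

/-- **`(SAT)` for the canonical family of vertical primes of a normal noetherian domain**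
(no reducedness): `π B = ⋂_P (π B_P ∩ B)`. -/
theorem vert_hsat_of_normal {π : B} (hπ0 : π ≠ 0) :
    ∀ b : B, (∀ P : H3.Vert π, ∃ s, s ∉ (P : Ideal B) ∧ π ∣ s * b) → π ∣ b := by
  intro b hb
  have hinj := IsFractionRing.injective B (FractionRing B)
  have hπK : algebraMap B (FractionRing B) π ≠ 0 := fun h => hπ0 (hinj (by rw [h, map_zero]))
  have hx : algebraMap B (FractionRing B) b / algebraMap B (FractionRing B) π ∈
      Set.range (algebraMap B (FractionRing B)) := by
    apply CA.H42.mem_range_of_forall_height_one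
    intro p hp h1
    by_cases hπp : π ∈ p
    · obtain ⟨s, hs, c, hc⟩ := hb ⟨p, mem_minimalPrimes_of_height_eq_one hπ0 h1 hπp⟩
      refine ⟨c, s, hs, ?_⟩
      rw [div_mul_eq_mul_div, ← map_mul, mul_comm b s, hc, map_mul, mul_comm,
        mul_div_assoc, div_self hπK, mul_one]
    · exact ⟨b, π, hπp, by rw [div_mul_cancel₀ _ hπK]⟩
  obtain ⟨c, hc⟩ := hx
  refine ⟨c, hinj ?_⟩
  rw [map_mul, hc, mul_div_cancel₀ _ hπK]

end Normal

section Main

variable {R : Type*} [CommRing R] [IsDomain R] [IsDiscreteValuationRing R]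
  {K : Type*} [Field K] [Algebra R K] [IsFractionRing R K]
  {F : Type v} [Field F] [Algebra R F] [Algebra K F] [IsScalarTower R K F]

variable (J : F) (htr : Transcendental K J) [FiniteDimensional K⟮J⟯ F]
  [Algebra.IsSeparable K⟮J⟯ F] (π : R) (hπ : Irreducible π)

include htr hπ in
/-- **L8 for radical data with the canonical vertical family.**  `R` a DVR with uniformiser `π`,
residue characteristic `p ≠ l`; every vertical prime of the two charts has multiplicity at most
`p` in the special fibre (`hmult₁`, `hmult₂`), ONE vertical prime `k₀` is reduced (`hred₀`), and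
`J^{±1}` vanishes identically on no vertical component (`hJ₁`, `hJ₂`).  Then a function with a
RADICAL local datum at level `l ^ k` (for the closed points of the two charts and the vertical
valuations `B_{P₁ k}`) is a constant times an `l ^ k`-th power. -/
theorem kummer_descent_pow_of_mult
    (hcl : ∀ z : F, IsAlgebraic K z → z ∈ (algebraMap K F).range)
    {l : ℕ} (hl : l.Prime) (hlu : IsUnit ((l : ℕ) : R)) {ζ : R} (hζ : IsPrimitiveRoot ζ l)
    (hroot : ∀ r : R, IsUnit r → ∃ γ : R, IsUnit γ ∧ π ∣ γ ^ l * r - 1)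
    {p : ℕ} (hp : p.Prime) (hpl : p ≠ l) (hπp : π ∣ ((p : ℕ) : R))
    (hmult₁ : ∀ P : H3.Vert (algebraMap R ↥(H40.chartB R J) π),
      ∀ b ∈ (P : Ideal ↥(H40.chartB R J)), ∃ s, s ∉ (P : Ideal ↥(H40.chartB R J)) ∧
        algebraMap R ↥(H40.chartB R J) π ∣ s * b ^ p)
    (hmult₂ : ∀ P : H3.Vert (algebraMap R ↥(H40.chartB R J⁻¹) π),
      ∀ b ∈ (P : Ideal ↥(H40.chartB R J⁻¹)), ∃ s, s ∉ (P : Ideal ↥(H40.chartB R J⁻¹)) ∧
        algebraMap R ↥(H40.chartB R J⁻¹) π ∣ s * b ^ p)
    (k₀ : H3.VertIdx J π)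
    (hred₀ : ∀ b ∈ H3.vertP₁ J π k₀, ∃ s, s ∉ H3.vertP₁ J π k₀ ∧
      algebraMap R ↥(H40.chartB R J) π ∣ s * b)
    (hJ₁ : ∀ P : H3.Vert (algebraMap R ↥(H40.chartB R J) π),
      (⟨J, H40.self_mem_chartB J⟩ : ↥(H40.chartB R J)) ∉ (P : Ideal ↥(H40.chartB R J)))
    (hJ₂ : ∀ P : H3.Vert (algebraMap R ↥(H40.chartB R J⁻¹) π),
      (⟨J⁻¹, H40.self_mem_chartB J⁻¹⟩ : ↥(H40.chartB R J⁻¹)) ∉
        (P : Ideal ↥(H40.chartB R J⁻¹)))
    [IsFractionRing ↥(H40.chartB R J) F] [IsFractionRing ↥(H40.chartB R J⁻¹) F]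
    [hN₁ : IsNoetherianRing ↥(H40.chartB R J)] [IsIntegrallyClosed ↥(H40.chartB R J)]
    (hh₁ : ∀ k : H3.VertIdx J π, (H3.vertP₁ J π k).height = 1) :
    ∀ (k : ℕ) (u : F), u ≠ 0 →
      RadDatum (H21.ptO (H40.chartB R J) (H40.chartB R J⁻¹) π)
        (fun k : H3.VertIdx J π => H56.valuationSubringAt (K := F) (H3.vertP₁ J π k) (hh₁ k))
        (H21.primeThr (π := π) (H3.vertP₁ J π) (H3.vertP₂ J π)) u (l ^ k) →
      ∃ (c : K) (g : F), u = algebraMap K F c * g ^ (l ^ k) := by
  have hJ0 : J ≠ 0 := fun h => htr (h ▸ isAlgebraic_zero)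
  have htr' : Transcendental K J⁻¹ := fun h => htr (by simpa using h.inv)
  have e : K⟮J⁻¹⟯ = K⟮J⟯ := by
    apply le_antisymm
    · rw [IntermediateField.adjoin_simple_le_iff]
      exact inv_mem (IntermediateField.mem_adjoin_simple_self K J)
    · rw [IntermediateField.adjoin_simple_le_iff]
      have := inv_mem (IntermediateField.mem_adjoin_simple_self K J⁻¹)
      rwa [inv_inv] at this
  have hfdinv : FiniteDimensional K⟮J⁻¹⟯ F := by rw [e]; infer_instance
  have hsepinv : Algebra.IsSeparable K⟮J⁻¹⟯ F := by rw [e]; infer_instance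
  have hN₂ := H3.isNoetherianRing_chartB' (R := R) (K := K) J⁻¹ htr'
  have hI₂ := H3.isIntegrallyClosed_chartB (R := R) (K := K) J⁻¹
  have hI₁₂ := H69.isIntegrallyClosed_chart12 (R := R) (K := K) J
  have hloc12 := H3.isLocalization_chart12 (R := R) J hJ0
  have hloc12' := H3.isLocalization_chart12_inv (R := R) J hJ0
  -- the chart `B₁₂` is noetherian, hence the index type is finite
  have hN₁₂ : IsNoetherianRing ↥(H83.chart12 R J) := by
    let _ : Algebra ↥(H40.chartB R J) ↥(H83.chart12 R J) := H3.chart12Algebra (R := R) J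
    have : IsLocalization (Submonoid.powers (⟨J, H40.self_mem_chartB J⟩ : ↥(H40.chartB R J)))
        ↥(H83.chart12 R J) := hloc12
    exact IsLocalization.isNoetherianRing
      (Submonoid.powers (⟨J, H40.self_mem_chartB J⟩ : ↥(H40.chartB R J))) _ hN₁
  have hinj : Function.Injective (algebraMap R F) :=
    H21.algebraMap_injective_of_tower (R := R) K (F := F)
  have hπ0 : ∀ B : Subalgebra R F, algebraMap R ↥B π ≠ 0 := fun B h => by
    apply hπ.ne_zero
    apply hinj
    rw [map_zero]
    exact congrArg (fun x : ↥B => (x : F)) h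
  have hmin₁ := fun k : H3.VertIdx J π =>
    H3.vertComap_mem_minimalPrimes (H83.chartB_le_chart12 (R := R) J) _ hloc12 π k
  have hmin₂ := fun k : H3.VertIdx J π =>
    H3.vertComap_mem_minimalPrimes (H83.chartB_inv_le_chart12 (R := R) J) _ hloc12' π k
  exact kummer_descent_pow_rad_conn J htr hcl π hπ hl hlu hζ hroot hp hpl hπp
    (H3.vertP₁ J π) (H3.vertP₂ J π) (fun k : H3.VertIdx J π => (k : Ideal ↥(H83.chart12 R J)))
    (hP₁₂ := fun k => k.isPrime)
    hh₁ (H3.height_vertP₂ J htr π hπ)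
    (fun k => H3.algebraMap_mem_vertComap _ π k) (fun k => H3.algebraMap_mem_vertComap _ π k)
    (fun k => k.mem)
    (fun k s hs h => hs ((H3.mem_vertComap _ π k s).2 h))
    (fun k s hs h => hs ((H3.mem_vertComap _ π k s).2 h))
    (fun k => hmult₁ ⟨_, hmin₁ k⟩) (fun k => hmult₂ ⟨_, hmin₂ k⟩)
    k₀ hred₀
    (fun b hb => vert_hsat_of_normal (hπ0 _) b fun P => by
      obtain ⟨k, hk⟩ :=
        H3.exists_vertComap_eq (H83.chartB_le_chart12 (R := R) J) _ hloc12 π P (hJ₁ P)
      obtain ⟨s, hs, hd⟩ := hb k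
      exact ⟨s, fun h => hs ((SetLike.ext_iff.1 hk s).2 h), hd⟩)
    (fun b hb => vert_hsat_of_normal (hπ0 _) b fun P => by
      obtain ⟨k, hk⟩ :=
        H3.exists_vertComap_eq (H83.chartB_inv_le_chart12 (R := R) J) _ hloc12' π P (hJ₂ P)
      obtain ⟨s, hs, hd⟩ := hb k
      exact ⟨s, fun h => hs ((SetLike.ext_iff.1 hk s).2 h), hd⟩)
    (vert_hsat_of_normal (hπ0 _))
    (fun n hn hπn => by
      have := hn.isPrime
      obtain ⟨P, hP⟩ := H3.exists_vert_le n hπn
      obtain ⟨k, hk⟩ :=
        H3.exists_vertComap_eq (H83.chartB_le_chart12 (R := R) J) _ hloc12 π P (hJ₁ P)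
      exact ⟨k, fun x hx => hP ((SetLike.ext_iff.1 hk x).1 hx)⟩)
    (fun n hn hπn => by
      have := hn.isPrime
      obtain ⟨P, hP⟩ := H3.exists_vert_le n hπn
      obtain ⟨k, hk⟩ :=
        H3.exists_vertComap_eq (H83.chartB_inv_le_chart12 (R := R) J) _ hloc12' π P (hJ₂ P)
      exact ⟨k, fun x hx => hP ((SetLike.ext_iff.1 hk x).1 hx)⟩)

end Main

end Fermat.Agent.S36.H67
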