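import Fermat.Agent.S35.H18_VertDict
import Fermat.Agent.S36.H67_VerticalSingleMult

/-!
# S36 (E1): dictionary between the canonical vertical index and an arbitrary enumeration of the
vertical primes of the two charts; the criterion for radical data in family form (helper67)

General-index twin of `S35/H18_VertDict` (which treats `Bool`):

* `exists_equiv_of_enum` : if `p : ι → Ideal B` enumerates injectively the minimal primes over
  `π` of `B` and none contains `u`, the vertical primes of `C = B[1/u]` are indexed by `ι`;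
* `exists_vertIdx_equiv_fam` : both charts with the same `e : H3.VertIdx J π ≃ ι`, given
  `V_{p i} = V_{p' i}`;
* `kummer_descent_pow_of_mult_fam` : `kummer_descent_pow_of_mult` restated for the families
  `p : ι → Ideal (chartB R J)`, `p' : ι → Ideal (chartB R J⁻¹)` (e.g. `ι = Fin 3`, the kernels of
  the three reductions on each chart).
-/

set_option autoImplicit false
set_option linter.unusedSectionVars false
set_option linter.style.haveILetI false

open Polynomial IntermediateField Fermat.Agent.S18 Fermat.Agent.S34 Fermat.Agent.CA.H69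

namespace Fermat.Agent.S36.H67

universe v

section OneChartDict

variable {R : Type*} [CommRing R] {F : Type*} [Field F] [Algebra R F]
variable {B C : Subalgebra R F} (hBC : B ≤ C) (u : ↥B)
  (hloc : @IsLocalization.Away ↥B _ u ↥C _ (Subalgebra.inclusion hBC).toRingHom.toAlgebra)
  (π : R)

include hloc in
/-- If `p : ι → Ideal B` enumerates injectively the minimal primes over `π` and `u ∉ p i`,
then the vertical primes of `C = B[1/u]` are indexed by `ι`: `k ∩ B = p (e k)`. -/
theorem exists_equiv_of_enum {ι : Type*} (p : ι → Ideal ↥B)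
    (hp : ∀ i, p i ∈ (Ideal.span {algebraMap R ↥B π} : Ideal ↥B).minimalPrimes)
    (hinj : Function.Injective p)
    (hall : ∀ P ∈ (Ideal.span {algebraMap R ↥B π} : Ideal ↥B).minimalPrimes, ∃ i, P = p i)
    (hu : ∀ i, u ∉ p i) :
    ∃ e : H3.Vert (algebraMap R ↥C π) ≃ ι, ∀ k, H3.vertComap hBC π k = p (e k) := by
  classical
  have hci := S35.H18.vertComap_injective hBC u hloc π
  have hmem := fun k => H3.vertComap_mem_minimalPrimes hBC u hloc π k
  choose f hf using fun k => hall _ (hmem k)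
  have hbij : Function.Bijective f := by
    constructor
    · intro k k' h
      apply hci
      show H3.vertComap hBC π k = H3.vertComap hBC π k'
      rw [hf k, hf k', h]
    · intro i
      obtain ⟨k, hk⟩ := H3.exists_vertComap_eq hBC u hloc π ⟨p i, hp i⟩ (hu i)
      refine ⟨k, hinj ?_⟩
      rw [← hf k]
      exact hk
  exact ⟨Equiv.ofBijective f hbij, fun k => hf k⟩

end OneChartDict

section TwoChartsDict

variable {R : Type*} [CommRing R] {F : Type v} [Field F] [Algebra R F]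

/-- **Both charts, one index.**  `p` enumerates injectively the vertical primes of the first chart
(none containing `J`), every vertical prime of the second chart is some `p' i`, the valuation
rings of the canonical families agree (`hVeq`) and `V_{p i} = V_{p' i}`: then
`H3.VertIdx J π ≃ ι` compatibly with both charts. -/
theorem exists_vertIdx_equiv_fam (J : F) (hJ0 : J ≠ 0) (π : R)
    [IsFractionRing ↥(H40.chartB R J) F] [IsFractionRing ↥(H40.chartB R J⁻¹) F]
    [IsNoetherianRing ↥(H40.chartB R J)] [IsIntegrallyClosed ↥(H40.chartB R J)]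
    [IsNoetherianRing ↥(H40.chartB R J⁻¹)] [IsIntegrallyClosed ↥(H40.chartB R J⁻¹)]
    (hh₁ : ∀ k : H3.VertIdx J π, (H3.vertP₁ J π k).height = 1)
    (hh₂ : ∀ k : H3.VertIdx J π, (H3.vertP₂ J π k).height = 1)
    (hVeq : ∀ k : H3.VertIdx J π,
      H56.valuationSubringAt (K := F) (H3.vertP₁ J π k) (hh₁ k) =
        H56.valuationSubringAt (K := F) (H3.vertP₂ J π k) (hh₂ k))
    {ι : Type*} (p : ι → Ideal ↥(H40.chartB R J)) [hpP : ∀ i, (p i).IsPrime]
    (hp : ∀ i, p i ∈ (Ideal.span {algebraMap R ↥(H40.chartB R J) π}).minimalPrimes)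
    (hinj : Function.Injective p)
    (hall : ∀ P ∈ (Ideal.span {algebraMap R ↥(H40.chartB R J) π}).minimalPrimes, ∃ i, P = p i)
    (hJp : ∀ i, (⟨J, H40.self_mem_chartB J⟩ : ↥(H40.chartB R J)) ∉ p i)
    (p' : ι → Ideal ↥(H40.chartB R J⁻¹)) [hpP' : ∀ i, (p' i).IsPrime]
    (hall' : ∀ P ∈ (Ideal.span {algebraMap R ↥(H40.chartB R J⁻¹) π}).minimalPrimes,
      ∃ i, P = p' i)
    (hph : ∀ i, (p i).height = 1) (hph' : ∀ i, (p' i).height = 1)
    (hV : ∀ i, H56.valuationSubringAt (K := F) (p i) (hph i) =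
      H56.valuationSubringAt (K := F) (p' i) (hph' i)) :
    ∃ e : H3.VertIdx J π ≃ ι, (∀ k, H3.vertP₁ J π k = p (e k)) ∧
      ∀ k, H3.vertP₂ J π k = p' (e k) := by
  obtain ⟨e, he⟩ := exists_equiv_of_enum (H83.chartB_le_chart12 (R := R) J) _
    (H3.isLocalization_chart12 (R := R) J hJ0) π p hp hinj hall hJp
  refine ⟨e, he, fun k => ?_⟩
  obtain ⟨j, hj⟩ := hall' _ (H3.vertComap_mem_minimalPrimes
    (H83.chartB_inv_le_chart12 (R := R) J) _ (H3.isLocalization_chart12_inv (R := R) J hJ0) π k)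
  have h1 : H3.vertP₁ J π k = p (e k) := he k
  have h2 : H3.vertP₂ J π k = p' j := hj
  have hVj : H56.valuationSubringAt (K := F) (p j) (hph j) =
      H56.valuationSubringAt (K := F) (p (e k)) (hph (e k)) := by
    rw [hV j, ← S35.H18.valuationSubringAt_congr (K := F) h2 (hh₂ k) (hph' j), ← hVeq k,
      S35.H18.valuationSubringAt_congr (K := F) h1 (hh₁ k) (hph (e k))]
  have hje : j = e k := hinj (S35.H18.eq_of_valuationSubringAt_eq (hph j) (hph (e k)) hVj)
  show H3.vertP₂ J π k = p' (e k)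
  rw [h2, hje]

end TwoChartsDict

section Fam

variable {R : Type*} [CommRing R] [IsDomain R] [IsDiscreteValuationRing R]
  {K : Type*} [Field K] [Algebra R K] [IsFractionRing R K]
  {F : Type v} [Field F] [Algebra R F] [Algebra K F] [IsScalarTower R K F]

variable (J : F) (htr : Transcendental K J) [FiniteDimensional K⟮J⟯ F]
  [Algebra.IsSeparable K⟮J⟯ F] (π : R) (hπ : Irreducible π)

include htr hπ in
/-- **The criterion for radical data, family form.**  `p : ι → Ideal (chartB R J)` enumerates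
injectively the vertical primes of the first chart, `p' : ι → Ideal (chartB R J⁻¹)` those of the
second chart, `V_{p i} = V_{p' i}` (the same component), no `p i` contains `J`, no `p' i` contains
`J⁻¹`; every component has multiplicity at most `p` (the residue characteristic, `≠ l`) and the
component `i₀` is reduced.  Then a function with a RADICAL local datum at level `l ^ k` for the
closed points of the two charts and the vertical valuations `V_{p i}` is a constant times an
`l ^ k`-th power. -/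
theorem kummer_descent_pow_of_mult_fam
    (hcl : ∀ z : F, IsAlgebraic K z → z ∈ (algebraMap K F).range)
    {l : ℕ} (hl : l.Prime) (hlu : IsUnit ((l : ℕ) : R)) {ζ : R} (hζ : IsPrimitiveRoot ζ l)
    (hroot : ∀ r : R, IsUnit r → ∃ γ : R, IsUnit γ ∧ π ∣ γ ^ l * r - 1)
    {q : ℕ} (hq : q.Prime) (hql : q ≠ l) (hπq : π ∣ ((q : ℕ) : R))
    [IsFractionRing ↥(H40.chartB R J) F] [IsFractionRing ↥(H40.chartB R J⁻¹) F]
    [hN₁ : IsNoetherianRing ↥(H40.chartB R J)] [IsIntegrallyClosed ↥(H40.chartB R J)]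
    [hN₂ : IsNoetherianRing ↥(H40.chartB R J⁻¹)] [hI₂ : IsIntegrallyClosed ↥(H40.chartB R J⁻¹)]
    {ι : Type*} (p : ι → Ideal ↥(H40.chartB R J)) (p' : ι → Ideal ↥(H40.chartB R J⁻¹))
    [hpP : ∀ i, (p i).IsPrime] [hpP' : ∀ i, (p' i).IsPrime]
    (hp : ∀ i, p i ∈ (Ideal.span {algebraMap R ↥(H40.chartB R J) π}).minimalPrimes)
    (hinj : Function.Injective p)
    (hall : ∀ P ∈ (Ideal.span {algebraMap R ↥(H40.chartB R J) π}).minimalPrimes, ∃ i, P = p i)
    (hJp : ∀ i, (⟨J, H40.self_mem_chartB J⟩ : ↥(H40.chartB R J)) ∉ p i)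
    (hall' : ∀ P ∈ (Ideal.span {algebraMap R ↥(H40.chartB R J⁻¹) π}).minimalPrimes,
      ∃ i, P = p' i)
    (hJp' : ∀ i, (⟨J⁻¹, H40.self_mem_chartB J⁻¹⟩ : ↥(H40.chartB R J⁻¹)) ∉ p' i)
    (hph : ∀ i, (p i).height = 1) (hph' : ∀ i, (p' i).height = 1)
    (hV : ∀ i, H56.valuationSubringAt (K := F) (p i) (hph i) =
      H56.valuationSubringAt (K := F) (p' i) (hph' i))
    (hmult : ∀ i, ∀ b ∈ p i, ∃ s, s ∉ p i ∧ algebraMap R ↥(H40.chartB R J) π ∣ s * b ^ q)
    (hmult' : ∀ i, ∀ b ∈ p' i, ∃ s, s ∉ p' i ∧ algebraMap R ↥(H40.chartB R J⁻¹) π ∣ s * b ^ q)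
    (i₀ : ι)
    (hred₀ : ∀ b ∈ p i₀, ∃ s, s ∉ p i₀ ∧ algebraMap R ↥(H40.chartB R J) π ∣ s * b) :
    ∀ (k : ℕ) (u : F), u ≠ 0 →
      RadDatum (H21.ptO (H40.chartB R J) (H40.chartB R J⁻¹) π)
        (fun i => H56.valuationSubringAt (K := F) (p i) (hph i))
        (H21.primeThr (π := π) p p') u (l ^ k) →
      ∃ (c : K) (g : F), u = algebraMap K F c * g ^ (l ^ k) := by
  intro k u hu0 hD
  have hJ0 : J ≠ 0 := fun h => htr (h ▸ isAlgebraic_zero)
  have htr' : Transcendental K J⁻¹ := fun h => htr (by simpa using h.inv)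
  have e0 : K⟮J⁻¹⟯ = K⟮J⟯ := by
    apply le_antisymm
    · rw [IntermediateField.adjoin_simple_le_iff]
      exact inv_mem (IntermediateField.mem_adjoin_simple_self K J)
    · rw [IntermediateField.adjoin_simple_le_iff]
      have := inv_mem (IntermediateField.mem_adjoin_simple_self K J⁻¹)
      rwa [inv_inv] at this
  have hfdinv : FiniteDimensional K⟮J⁻¹⟯ F := by rw [e0]; infer_instance
  have hsepinv : Algebra.IsSeparable K⟮J⁻¹⟯ F := by rw [e0]; infer_instance
  have hF₁₂ : IsFractionRing ↥(H83.chart12 R J) F := H69.isFractionRing_chart12 (R := R) (K := K) J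
  have hloc12 := H3.isLocalization_chart12 (R := R) J hJ0
  have hloc12' := H3.isLocalization_chart12_inv (R := R) J hJ0
  have hh₁ := H3.height_vertP₁ (R := R) (K := K) J htr π hπ
  have hh₂ := H3.height_vertP₂ (R := R) (K := K) J htr π hπ
  -- `hmult` at every vertical prime of the two charts
  have hM₁ : ∀ P : H3.Vert (algebraMap R ↥(H40.chartB R J) π),
      ∀ b ∈ (P : Ideal ↥(H40.chartB R J)), ∃ s, s ∉ (P : Ideal ↥(H40.chartB R J)) ∧
        algebraMap R ↥(H40.chartB R J) π ∣ s * b ^ q := by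
    rintro ⟨P, hP⟩
    obtain ⟨i, rfl⟩ := hall P hP
    exact hmult i
  have hM₂ : ∀ P : H3.Vert (algebraMap R ↥(H40.chartB R J⁻¹) π),
      ∀ b ∈ (P : Ideal ↥(H40.chartB R J⁻¹)), ∃ s, s ∉ (P : Ideal ↥(H40.chartB R J⁻¹)) ∧
        algebraMap R ↥(H40.chartB R J⁻¹) π ∣ s * b ^ q := by
    rintro ⟨P, hP⟩
    obtain ⟨i, rfl⟩ := hall' P hP
    exact hmult' i
  have hJ₁ : ∀ P : H3.Vert (algebraMap R ↥(H40.chartB R J) π),
      (⟨J, H40.self_mem_chartB J⟩ : ↥(H40.chartB R J)) ∉ (P : Ideal ↥(H40.chartB R J)) := by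
    rintro ⟨P, hP⟩
    obtain ⟨i, rfl⟩ := hall P hP
    exact hJp i
  have hJ₂ : ∀ P : H3.Vert (algebraMap R ↥(H40.chartB R J⁻¹) π),
      (⟨J⁻¹, H40.self_mem_chartB J⁻¹⟩ : ↥(H40.chartB R J⁻¹)) ∉
        (P : Ideal ↥(H40.chartB R J⁻¹)) := by
    rintro ⟨P, hP⟩
    obtain ⟨i, rfl⟩ := hall' P hP
    exact hJp' i
  have hmin₁ := fun k : H3.VertIdx J π =>
    H3.vertComap_mem_minimalPrimes (H83.chartB_le_chart12 (R := R) J) _ hloc12 π k
  have hmin₂ := fun k : H3.VertIdx J π =>
    H3.vertComap_mem_minimalPrimes (H83.chartB_inv_le_chart12 (R := R) J) _ hloc12' π k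
  -- the canonical families have the same valuation rings
  have hVeq : ∀ k : H3.VertIdx J π,
      H56.valuationSubringAt (K := F) (H3.vertP₁ J π k) (hh₁ k) =
        H56.valuationSubringAt (K := F) (H3.vertP₂ J π k) (hh₂ k) := fun k => by
    haveI := k.isPrime
    exact valuationSubringAt_eq_mult K hπ (H83.chartB_le_chart12 (R := R) J)
      (H83.chartB_inv_le_chart12 (R := R) J) (H3.vertP₁ J π k) (H3.vertP₂ J π k)
      (k : Ideal ↥(H83.chart12 R J)) (hh₁ k) (hh₂ k) k.mem
      (fun s hs h => hs ((H3.mem_vertComap _ π k s).2 h))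
      (fun s hs h => hs ((H3.mem_vertComap _ π k s).2 h))
      (hM₁ ⟨_, hmin₁ k⟩) (hM₂ ⟨_, hmin₂ k⟩)
  obtain ⟨e, he₁, he₂⟩ := exists_vertIdx_equiv_fam (R := R) J hJ0 π hh₁ hh₂ hVeq p hp hinj hall hJp
    p' hall' hph hph' hV
  have hk₀ : H3.vertP₁ J π (e.symm i₀) = p i₀ := by rw [he₁, Equiv.apply_symm_apply]
  refine kummer_descent_pow_of_mult J htr π hπ hcl hl hlu hζ hroot hq hql hπq hM₁ hM₂
    (e.symm i₀) (by rw [hk₀]; exact hred₀) hJ₁ hJ₂ hh₁ k u hu0 ?_
  -- transport the datum along `e`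
  intro n
  obtain ⟨ψ, hψ0, hU, h1, h2⟩ := hD n
  have hThr : ∀ k : H3.VertIdx J π,
      H21.primeThr (π := π) (H3.vertP₁ J π) (H3.vertP₂ J π) n k →
        H21.primeThr (π := π) p p' n (e k) := by
    intro k hk
    rcases n with n | n
    · show p (e k) ≤ n.1
      rw [← he₁ k]; exact hk
    · show p' (e k) ≤ n.1
      rw [← he₂ k]; exact hk
  have hVk : ∀ k : H3.VertIdx J π,
      H56.valuationSubringAt (K := F) (H3.vertP₁ J π k) (hh₁ k) =
        H56.valuationSubringAt (K := F) (p (e k)) (hph (e k)) := fun k =>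
    S35.H18.valuationSubringAt_congr (K := F) (he₁ k) (hh₁ k) (hph (e k))
  refine ⟨ψ, hψ0, hU, fun k hk => ?_, fun k hk => ?_⟩
  · exact (H21.valuation_lt_one_congr (hVk k) _).mpr (h1 (e k) (hThr k hk))
  · exact (H21.valuation_lt_one_congr (hVk k) _).mpr (h2 (e k) (hThr k hk))

end Fam

end Fermat.Agent.S36.H67
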