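/-
helper61 — S36 row (E7)/(r1), part 1 (generic two-chart model): **`crit36` from two
`ThreeComponents` packages, no overlap block, no connectedness hypothesis.**

`S36.H67.kummer_descent_pow_of_mult_fam` (helper67: the criterion for a labelled family of vertical
primes) with its vertical-prime hypotheses discharged by helper40's adapter
`S36.H40_VertOfThree` from helper83's structure `S36.H83.ThreeComponents` on each of the two
charts `B₁ = chartB R J`, `B₂ = chartB R J⁻¹`, and `hJ` discharged by going-down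
(`S34.H3.hJ₁_of_transcendental`).

What is left as hypotheses: the constants (`hcl hl hlu hζ hroot`, `π ∣ q`), the two packages with
`red_i (π) = 0`, `W² ≠ id`, `W⁴ ≠ id` on each chart (separation of the three components), and the
identification of the labellings of the two charts `hV : V_{P₁ i} = V_{P₂ i}`.

* `vertFam_*` : the facts about a family `P : Fin 3 → Ideal B` with `P 0 = ker red₁`,
  `P 1 = ker red₂`, `P 2 = ker red₃`;
* `crit36_of_threeComponents` : the criterion.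
-/
import Mathlib
import Fermat.Agent.S36.H67_VertDict
import Fermat.Agent.S36.H40_VertOfThree
import Fermat.Agent.S34.H3_VertPkgFinal

set_option autoImplicit false
set_option linter.unusedSectionVars false
set_option linter.style.haveILetI false

open Polynomial IntermediateField Fermat.Agent.S18 Fermat.Agent.CA.H69

namespace Fermat.Agent.S36.H61

universe v

section OneChart

variable {B D BM : Type*} [CommRing B] [CommRing D] [IsDomain D] [CommRing BM]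
  {red₁ red₂ red₃ : B →+* D} {ιu ιv ιw : BM →+* B} {rbar : BM →+* D} {W : D →+* D}
  {q : ℕ} {qB : B}
  (P : Fin 3 → Ideal B) (e0 : P 0 = RingHom.ker red₁) (e1 : P 1 = RingHom.ker red₂)
  (e2 : P 2 = RingHom.ker red₃)

include e0 e1 e2 in
/-- The three labelled primes are prime. -/
theorem vertFam_isPrime (i : Fin 3) : (P i).IsPrime := by
  fin_cases i
  · show (P 0).IsPrime
    rw [e0]; exact RingHom.ker_isPrime red₁
  · show (P 1).IsPrime
    rw [e1]; exact RingHom.ker_isPrime red₂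
  · show (P 2).IsPrime
    rw [e2]; exact RingHom.ker_isPrime red₃

include e0 e1 e2 in
/-- The three labelled primes are vertical primes (minimal over `(q)`). -/
theorem vertFam_mem_minimalPrimes
    (h : S36.H83.ThreeComponents red₁ red₂ red₃ ιu ιv ιw rbar W q qB)
    (hq₁ : red₁ qB = 0) (hq₂ : red₂ qB = 0) (hq₃ : red₃ qB = 0)
    (hW2 : ∃ d : D, W (W d) ≠ d) (hW4 : ∃ d : D, W (W (W (W d))) ≠ d) (i : Fin 3) :
    P i ∈ (Ideal.span {qB} : Ideal B).minimalPrimes := by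
  fin_cases i
  · show P 0 ∈ _
    rw [e0]
    exact S36.H40.ker_mem_minimalPrimes_of_sep h hq₁ (S36.H40.exists_sep₂₁ h hW2)
      (S36.H40.exists_sep₃₁ h hW4)
  · show P 1 ∈ _
    rw [e1]
    exact S36.H40.ker₂_mem_minimalPrimes_of_sep h hq₂ (S36.H40.exists_sep₁₂ h hW2)
      (S36.H40.exists_sep₃₂ h hW2)
  · show P 2 ∈ _
    rw [e2]
    exact S36.H40.ker₃_mem_minimalPrimes_of_sep h hq₃ (S36.H40.exists_sep₁₃ h hW4)
      (S36.H40.exists_sep₂₃ h hW2)

include e0 e1 e2 in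
/-- The labelling is injective. -/
theorem vertFam_injective
    (h : S36.H83.ThreeComponents red₁ red₂ red₃ ιu ιv ιw rbar W q qB)
    (hW2 : ∃ d : D, W (W d) ≠ d) (hW4 : ∃ d : D, W (W (W (W d))) ≠ d) :
    Function.Injective P := by
  obtain ⟨s21, hs21, hs21'⟩ := S36.H40.exists_sep₂₁ h hW2
  obtain ⟨s23, hs23, hs23'⟩ := S36.H40.exists_sep₂₃ h hW2
  obtain ⟨s13, hs13, hs13'⟩ := S36.H40.exists_sep₁₃ h hW4
  have h01 : P 0 ≠ P 1 := by
    rw [e0, e1]
    intro e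
    exact hs21' ((RingHom.mem_ker).1 (e ▸ (RingHom.mem_ker).2 hs21))
  have h12 : P 1 ≠ P 2 := by
    rw [e1, e2]
    intro e
    exact hs23' ((RingHom.mem_ker).1 (e ▸ (RingHom.mem_ker).2 hs23))
  have h02 : P 0 ≠ P 2 := by
    rw [e0, e2]
    intro e
    exact hs13' ((RingHom.mem_ker).1 (e ▸ (RingHom.mem_ker).2 hs13))
  intro i j hij
  fin_cases i <;> fin_cases j <;> first
    | rfl
    | exact absurd hij h01 | exact absurd hij.symm h01
    | exact absurd hij h12 | exact absurd hij.symm h12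
    | exact absurd hij h02 | exact absurd hij.symm h02

include e0 e1 e2 in
/-- Every vertical prime is one of the three labelled ones. -/
theorem vertFam_exists_eq
    (h : S36.H83.ThreeComponents red₁ red₂ red₃ ιu ιv ιw rbar W q qB)
    (hq₁ : red₁ qB = 0) (hq₂ : red₂ qB = 0) (hq₃ : red₃ qB = 0) :
    ∀ Q ∈ (Ideal.span {qB} : Ideal B).minimalPrimes, ∃ i, Q = P i := by
  intro Q hQ
  rcases S36.H40.vert_eq_ker h hq₁ hq₂ hq₃ ⟨Q, hQ⟩ with h' | h' | h'
  · exact ⟨0, by rw [e0]; exact h'⟩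
  · exact ⟨1, by rw [e1]; exact h'⟩
  · exact ⟨2, by rw [e2]; exact h'⟩

include e0 e1 e2 in
/-- `hmult`: the multiplicities are at most `q`. -/
theorem vertFam_hmult
    (h : S36.H83.ThreeComponents red₁ red₂ red₃ ιu ιv ιw rbar W q qB) (hq : 0 < q)
    (hq₁ : red₁ qB = 0) (hq₂ : red₂ qB = 0) (hq₃ : red₃ qB = 0)
    (hW2 : ∃ d : D, W (W d) ≠ d) (hW4 : ∃ d : D, W (W (W (W d))) ≠ d) :
    ∀ i, ∀ b ∈ P i, ∃ s, s ∉ P i ∧ qB ∣ s * b ^ q := fun i =>
  S36.H40.hmult_vert h hq hq₁ hq₂ hq₃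
    ⟨P i, vertFam_mem_minimalPrimes P e0 e1 e2 h hq₁ hq₂ hq₃ hW2 hW4 i⟩

include e0 in
/-- `hred₀`: the special fibre is reduced along the component `0`. -/
theorem vertFam_hred_zero
    (h : S36.H83.ThreeComponents red₁ red₂ red₃ ιu ιv ιw rbar W q qB)
    (hW2 : ∃ d : D, W (W d) ≠ d) (hW4 : ∃ d : D, W (W (W (W d))) ≠ d) :
    ∀ b ∈ P 0, ∃ s, s ∉ P 0 ∧ qB ∣ s * b := by
  rw [e0]
  exact S36.H40.hred_first h (S36.H40.exists_sep₂₁ h hW2) (S36.H40.exists_sep₃₁ h hW4)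

include e0 e1 e2 in
/-- `hh`: the three labelled primes have height one. -/
theorem vertFam_height [IsDomain B] [IsNoetherianRing B]
    (h : S36.H83.ThreeComponents red₁ red₂ red₃ ιu ιv ιw rbar W q qB)
    (hq₁ : red₁ qB = 0) (hq₂ : red₂ qB = 0) (hq₃ : red₃ qB = 0)
    (hW2 : ∃ d : D, W (W d) ≠ d) (hW4 : ∃ d : D, W (W (W (W d))) ≠ d) (hq0 : qB ≠ 0)
    (i : Fin 3) : (P i).height = 1 :=
  S34.H3.height_eq_one_of_mem_minimalPrimes hq0
    (vertFam_mem_minimalPrimes P e0 e1 e2 h hq₁ hq₂ hq₃ hW2 hW4 i)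

end OneChart

section Main

variable {R : Type*} [CommRing R] [IsDomain R] [IsDiscreteValuationRing R]
  {K : Type*} [Field K] [Algebra R K] [IsFractionRing R K]
  {F : Type v} [Field F] [Algebra R F] [Algebra K F] [IsScalarTower R K F]

variable (J : F) (htr : Transcendental K J) [FiniteDimensional K⟮J⟯ F]
  [Algebra.IsSeparable K⟮J⟯ F] (π : R) (hπ : Irreducible π)

include htr hπ in
/-- **`crit36` at the chart level from two `ThreeComponents` packages** (charts `J`, `J⁻¹`):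
no overlap block, no connectedness hypothesis, no heights, no `hJ`. -/
theorem crit36_of_threeComponents
    (hcl : ∀ z : F, IsAlgebraic K z → z ∈ (algebraMap K F).range)
    {l : ℕ} (hl : l.Prime) (hlu : IsUnit ((l : ℕ) : R)) {ζ : R} (hζ : IsPrimitiveRoot ζ l)
    (hroot : ∀ r : R, IsUnit r → ∃ γ : R, IsUnit γ ∧ π ∣ γ ^ l * r - 1)
    {q : ℕ} (hq : q.Prime) (hql : q ≠ l) (hπq : π ∣ ((q : ℕ) : R))
    [IsFractionRing ↥(H40.chartB R J) F] [IsFractionRing ↥(H40.chartB R J⁻¹) F]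
    [IsNoetherianRing ↥(H40.chartB R J)] [IsIntegrallyClosed ↥(H40.chartB R J)]
    [IsNoetherianRing ↥(H40.chartB R J⁻¹)] [IsIntegrallyClosed ↥(H40.chartB R J⁻¹)]
    {D BM : Type*} [CommRing D] [IsDomain D] [CommRing BM]
    {r₁ r₂ r₃ : ↥(H40.chartB R J) →+* D} {ιu ιv ιw : BM →+* ↥(H40.chartB R J)} {rbar : BM →+* D}
    {W : D →+* D}
    (h1 : S36.H83.ThreeComponents r₁ r₂ r₃ ιu ιv ιw rbar W q (algebraMap R ↥(H40.chartB R J) π))
    (hq₁ : r₁ (algebraMap R ↥(H40.chartB R J) π) = 0)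
    (hq₂ : r₂ (algebraMap R ↥(H40.chartB R J) π) = 0)
    (hq₃ : r₃ (algebraMap R ↥(H40.chartB R J) π) = 0)
    (hW2 : ∃ d : D, W (W d) ≠ d) (hW4 : ∃ d : D, W (W (W (W d))) ≠ d)
    {D' BM' : Type*} [CommRing D'] [IsDomain D'] [CommRing BM']
    {s₁ s₂ s₃ : ↥(H40.chartB R J⁻¹) →+* D'} {κu κv κw : BM' →+* ↥(H40.chartB R J⁻¹)}
    {sbar : BM' →+* D'} {W' : D' →+* D'}
    (h2 : S36.H83.ThreeComponents s₁ s₂ s₃ κu κv κw sbar W' q
      (algebraMap R ↥(H40.chartB R J⁻¹) π))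
    (hq₁' : s₁ (algebraMap R ↥(H40.chartB R J⁻¹) π) = 0)
    (hq₂' : s₂ (algebraMap R ↥(H40.chartB R J⁻¹) π) = 0)
    (hq₃' : s₃ (algebraMap R ↥(H40.chartB R J⁻¹) π) = 0)
    (hW2' : ∃ d : D', W' (W' d) ≠ d) (hW4' : ∃ d : D', W' (W' (W' (W' d))) ≠ d)
    (P₁ : Fin 3 → Ideal ↥(H40.chartB R J)) (P₂ : Fin 3 → Ideal ↥(H40.chartB R J⁻¹))
    (e10 : P₁ 0 = RingHom.ker r₁) (e11 : P₁ 1 = RingHom.ker r₂) (e12 : P₁ 2 = RingHom.ker r₃)
    (e20 : P₂ 0 = RingHom.ker s₁) (e21 : P₂ 1 = RingHom.ker s₂) (e22 : P₂ 2 = RingHom.ker s₃)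
    [hP₁ : ∀ i, (P₁ i).IsPrime] [hP₂ : ∀ i, (P₂ i).IsPrime]
    (hh₁ : ∀ i, (P₁ i).height = 1) (hh₂ : ∀ i, (P₂ i).height = 1)
    (hV : ∀ i, S34.H56.valuationSubringAt (K := F) (P₁ i) (hh₁ i) =
      S34.H56.valuationSubringAt (K := F) (P₂ i) (hh₂ i)) :
    ∀ (k : ℕ) (u : F), u ≠ 0 →
      S36.H67.RadDatum (S34.H21.ptO (H40.chartB R J) (H40.chartB R J⁻¹) π)
        (fun i => S34.H56.valuationSubringAt (K := F) (P₁ i) (hh₁ i))
        (S34.H21.primeThr (π := π) P₁ P₂) u (l ^ k) →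
      ∃ (c : K) (g : F), u = algebraMap K F c * g ^ (l ^ k) := by
  have hmin₁ := vertFam_mem_minimalPrimes P₁ e10 e11 e12 h1 hq₁ hq₂ hq₃ hW2 hW4
  have hmin₂ := vertFam_mem_minimalPrimes P₂ e20 e21 e22 h2 hq₁' hq₂' hq₃' hW2' hW4'
  exact S36.H67.kummer_descent_pow_of_mult_fam (K := K) J htr π hπ hcl hl hlu hζ hroot hq hql hπq
    P₁ P₂ hmin₁ (vertFam_injective P₁ e10 e11 e12 h1 hW2 hW4)
    (vertFam_exists_eq P₁ e10 e11 e12 h1 hq₁ hq₂ hq₃)
    (fun i => S34.H3.hJ₁_of_transcendental (K := K) J htr π hπ ⟨P₁ i, hmin₁ i⟩)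
    (vertFam_exists_eq P₂ e20 e21 e22 h2 hq₁' hq₂' hq₃')
    (fun i => S34.H3.hJ₂_of_transcendental (K := K) J htr π hπ ⟨P₂ i, hmin₂ i⟩)
    hh₁ hh₂ hV
    (vertFam_hmult P₁ e10 e11 e12 h1 hq.pos hq₁ hq₂ hq₃ hW2 hW4)
    (vertFam_hmult P₂ e20 e21 e22 h2 hq.pos hq₁' hq₂' hq₃' hW2' hW4')
    0 (vertFam_hred_zero P₁ e10 h1 hW2 hW4)

end Main

end Fermat.Agent.S36.H61
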