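/-
helper62 — S36 (OVL-a), incidence transfer across the chart gluing (generic; Mathlib +
S34.H21/H56 vocabulary + `S36.H62_ChartGlue`).

* `le_iff_locSubring_le` : for primes `P`, `n` of a domain `B` : `P ≤ n ↔ B_n ⊆ B_P`
  (as subrings of the fraction field).
* `le_iff_le_of_locSubring_eq` : two charts `B₁`, `B₂` of the same field, primes `P₁, n₁` of `B₁`,
  `P₂, n₂` of `B₂` with `(B₁)_{n₁} = (B₂)_{n₂}` and `(B₁)_{P₁} = (B₂)_{P₂}` :
  `P₁ ≤ n₁ ↔ P₂ ≤ n₂`.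
* `le_iff_le_of_valuationSubringAt_eq` : the same, the second hypothesis in the form
  `H56.valuationSubringAt P₁ h₁ = H56.valuationSubringAt P₂ h₂` (the `hVeq` of `(E7)`).
* `exists_closedPt_ptO_eq_and_inc` / `hoverlap_two_charts` : the `hoverlap` hypothesis of
  `S36.H85.hpt_two_charts_of_first`, verbatim.
-/
import Mathlib
import Fermat.Agent.S36.H62_ChartGlue
import Fermat.Agent.S34.H56_PrimeVal

set_option autoImplicit false

namespace Fermat.Agent.S36.H62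

open Fermat.Agent.S34

section OneChart

variable {B F : Type*} [CommRing B] [IsDomain B] [Field F] [Algebra B F] [IsFractionRing B F]

omit [IsDomain B] in
/-- `P ≤ n ↔ B_n ⊆ B_P`, for primes of a domain, inside the fraction field. -/
theorem le_iff_locSubring_le (P n : Ideal B) [hP : P.IsPrime] [hn : n.IsPrime] :
    P ≤ n ↔ H21.locSubring (F := F) n ≤ H21.locSubring (F := F) P := by
  constructor
  · rintro hPn x ⟨a, s, hs, has⟩
    exact ⟨a, s, fun hsP => hs (hPn hsP), has⟩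
  · intro hle z hz
    by_contra hzn
    have hz0 : algebraMap B F z ≠ 0 := by
      intro h0
      have : z = 0 := (IsFractionRing.injective B F) (by rw [h0, map_zero])
      exact hzn (this ▸ n.zero_mem)
    have hmem : (algebraMap B F z)⁻¹ ∈ H21.locSubring (F := F) n :=
      ⟨1, z, hzn, by rw [map_one, inv_mul_cancel₀ hz0]⟩
    obtain ⟨a, s, hs, has⟩ := hle hmem
    have hsz : s = a * z := by
      apply IsFractionRing.injective B F
      rw [map_mul, ← has, mul_comm _ (algebraMap B F s), mul_assoc, inv_mul_cancel₀ hz0, mul_one]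
    exact hs (hsz ▸ P.mul_mem_left a hz)

end OneChart

section TwoCharts

variable {B₁ B₂ F : Type*} [CommRing B₁] [IsDomain B₁] [CommRing B₂] [IsDomain B₂] [Field F]
  [Algebra B₁ F] [Algebra B₂ F] [IsFractionRing B₁ F] [IsFractionRing B₂ F]

omit [IsDomain B₁] [IsDomain B₂] in
/-- Incidence is read off the local rings: same local rings at the points and at the primes
give the same incidence. -/
theorem le_iff_le_of_locSubring_eq (P₁ n₁ : Ideal B₁) (P₂ n₂ : Ideal B₂)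
    [P₁.IsPrime] [n₁.IsPrime] [P₂.IsPrime] [n₂.IsPrime]
    (hn : H21.locSubring (F := F) n₁ = H21.locSubring (F := F) n₂)
    (hP : H21.locSubring (F := F) P₁ = H21.locSubring (F := F) P₂) :
    P₁ ≤ n₁ ↔ P₂ ≤ n₂ := by
  rw [le_iff_locSubring_le (F := F) P₁ n₁, le_iff_locSubring_le (F := F) P₂ n₂, hn, hP]

variable [IsNoetherianRing B₁] [IsNoetherianRing B₂] [IsIntegrallyClosed B₁]
  [IsIntegrallyClosed B₂]

/-- The valuation ring of a height-one prime is its local ring. -/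
theorem valuationSubringAt_toSubring (P : Ideal B₁) [P.IsPrime] (h : P.height = 1) :
    (H56.valuationSubringAt (K := F) P h).toSubring = H21.locSubring (F := F) P :=
  Subring.ext fun _ => Iff.rfl

/-- **(OVL-a)(iii)**: incidence transfer, `hVeq` form. -/
theorem le_iff_le_of_valuationSubringAt_eq (P₁ n₁ : Ideal B₁) (P₂ n₂ : Ideal B₂)
    [P₁.IsPrime] [n₁.IsPrime] [P₂.IsPrime] [n₂.IsPrime]
    (h₁ : P₁.height = 1) (h₂ : P₂.height = 1)
    (hn : H21.locSubring (F := F) n₁ = H21.locSubring (F := F) n₂)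
    (hV : H56.valuationSubringAt (K := F) P₁ h₁ = H56.valuationSubringAt (K := F) P₂ h₂) :
    P₁ ≤ n₁ ↔ P₂ ≤ n₂ := by
  refine le_iff_le_of_locSubring_eq (F := F) P₁ n₁ P₂ n₂ hn ?_
  rw [← valuationSubringAt_toSubring (F := F) P₁ h₁, hV]
  exact Subring.ext fun _ => Iff.rfl

end TwoCharts

section Overlap

variable {R F : Type*} [CommRing R] [IsDomain R] [IsDiscreteValuationRing R]
  [Field F] [Algebra R F]
  (B₁ B₂ : Subalgebra R F) [IsFractionRing B₁ F] [IsFractionRing B₂ F]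
  [IsNoetherianRing B₁] [IsNoetherianRing B₂] [IsIntegrallyClosed B₁] [IsIntegrallyClosed B₂]
  (π : R)

/-- **(OVL-a), all shapes at once**: a closed point `n₂` of chart 2 with `J⁻¹ ∉ n₂` is a closed
point `n₁` of chart 1 with the same local ring and the same incidences with any pair of
height-one primes having the same valuation ring. -/
theorem exists_closedPt_ptO_eq_and_inc (hπ : Irreducible π) (J₁ : B₁) (J₂ : B₂)
    (hJ : (J₁ : F) * (J₂ : F) = 1)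
    (hint₁ : ∀ b : B₁, IsIntegral (Algebra.adjoin R {(J₁ : F)}) (b : F))
    (hint₂ : ∀ b : B₂, IsIntegral (Algebra.adjoin R {(J₂ : F)}) (b : F))
    (n₂ : H21.ClosedPt B₂ π) (hJn : J₂ ∉ n₂.1)
    (hres : ∀ b : B₂, ∃ c : R, b - algebraMap R B₂ c ∈ n₂.1) :
    ∃ n₁ : H21.ClosedPt B₁ π, J₁ ∉ n₁.1 ∧
      (∀ b : B₁, ∃ c : R, b - algebraMap R B₁ c ∈ n₁.1) ∧
      H21.ptO B₁ B₂ π (Sum.inl n₁) = H21.ptO B₁ B₂ π (Sum.inr n₂) ∧
      ∀ (P₁ : Ideal B₁) (P₂ : Ideal B₂) [P₁.IsPrime] [P₂.IsPrime]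
        (h₁ : P₁.height = 1) (h₂ : P₂.height = 1),
        H56.valuationSubringAt (K := F) P₁ h₁ = H56.valuationSubringAt (K := F) P₂ h₂ →
        (P₁ ≤ n₁.1 ↔ P₂ ≤ n₂.1) := by
  obtain ⟨n₁, hJ₁, hres₁, hO⟩ :=
    exists_closedPt_ptO_eq B₁ B₂ π hπ J₁ J₂ hJ hint₁ hint₂ n₂ hJn hres
  refine ⟨n₁, hJ₁, hres₁, hO, ?_⟩
  intro P₁ P₂ _ _ h₁ h₂ hV
  have := n₁.2.1.isPrime
  have := n₂.2.1.isPrime
  exact le_iff_le_of_valuationSubringAt_eq (F := F) P₁ n₁.1 P₂ n₂.1 h₁ h₂ hO hV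

/-- **The `hoverlap` hypothesis of `S36.H85.hpt_two_charts_of_first`, verbatim**, for a family of
pairs of height-one primes with the same valuation rings (`hVeq` of `(E7)`). -/
theorem hoverlap_two_charts {κ : Type*} (P₁ : κ → Ideal B₁) (P₂ : κ → Ideal B₂)
    [hP₁ : ∀ i, (P₁ i).IsPrime] [hP₂ : ∀ i, (P₂ i).IsPrime]
    (hh₁ : ∀ i, (P₁ i).height = 1) (hh₂ : ∀ i, (P₂ i).height = 1)
    (hVeq : ∀ i, H56.valuationSubringAt (K := F) (P₁ i) (hh₁ i) =
      H56.valuationSubringAt (K := F) (P₂ i) (hh₂ i))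
    (hπ : Irreducible π) (J₁ : B₁) (J₂ : B₂)
    (hJ : (J₁ : F) * (J₂ : F) = 1)
    (hint₁ : ∀ b : B₁, IsIntegral (Algebra.adjoin R {(J₁ : F)}) (b : F))
    (hint₂ : ∀ b : B₂, IsIntegral (Algebra.adjoin R {(J₂ : F)}) (b : F))
    (hres : ∀ n : H21.ClosedPt B₂ π, ∀ b : B₂, ∃ c : R, b - algebraMap R B₂ c ∈ n.1) :
    ∀ n : H21.ClosedPt B₂ π, J₂ ∉ n.1 → ∃ n1 : H21.ClosedPt B₁ π,
      H21.ptO B₁ B₂ π (Sum.inl n1) = H21.ptO B₁ B₂ π (Sum.inr n) ∧
      ∀ i, P₁ i ≤ n1.1 ↔ P₂ i ≤ n.1 := by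
  intro n hJn
  obtain ⟨n1, -, -, hO, hinc⟩ :=
    exists_closedPt_ptO_eq_and_inc B₁ B₂ π hπ J₁ J₂ hJ hint₁ hint₂ n hJn (hres n)
  exact ⟨n1, hO, fun i => hinc (P₁ i) (P₂ i) (hh₁ i) (hh₂ i) (hVeq i)⟩

omit [IsNoetherianRing B₁] [IsNoetherianRing B₂] in
/-- The `hovl` hypothesis of `S36.H56.exists_hG_two_charts_ovl` / `hE4_two_charts_ovl`, verbatim,
with `C n₂ := J⁻¹ ∈ n₂`. -/
theorem hovl_two_charts (hπ : Irreducible π) (J₁ : B₁) (J₂ : B₂)
    (hJ : (J₁ : F) * (J₂ : F) = 1)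
    (hint₁ : ∀ b : B₁, IsIntegral (Algebra.adjoin R {(J₁ : F)}) (b : F))
    (hint₂ : ∀ b : B₂, IsIntegral (Algebra.adjoin R {(J₂ : F)}) (b : F))
    (hres : ∀ n : H21.ClosedPt B₂ π, ∀ b : B₂, ∃ c : R, b - algebraMap R B₂ c ∈ n.1) :
    ∀ n₂ : H21.ClosedPt B₂ π, ¬ (J₂ ∈ n₂.1) → ∃ n₁ : H21.ClosedPt B₁ π,
      H21.ptO B₁ B₂ π (Sum.inl n₁) = H21.ptO B₁ B₂ π (Sum.inr n₂) := by
  intro n₂ hJn
  obtain ⟨n₁, -, -, hO⟩ := exists_closedPt_ptO_eq B₁ B₂ π hπ J₁ J₂ hJ hint₁ hint₂ n₂ hJn (hres n₂)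
  exact ⟨n₁, hO⟩

end Overlap

end Fermat.Agent.S36.H62
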