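/-
helper62 — S36 (OVL-a) at the `chartB` level: the inputs `hJ hint₁ hint₂ hres` of
`S36.H62.hovl_two_charts` / `hoverlap_two_charts` are discharged for the pair of charts
`B₁ = H40.chartB R J`, `B₂ = H40.chartB R J⁻¹` (integral closures of `R[J]`, `R[J⁻¹]` in `F`) over
a discrete valuation ring `R` with algebraically closed residue field.  What is left: the
instance block (`IsFractionRing`, `IsIntegrallyClosed`, `Algebra.FiniteType` of chart 2), `J ≠ 0`
and `Irreducible π`.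
-/
import Mathlib
import Fermat.Agent.S36.H62_ChartGlueInc
import Fermat.Agent.S34.H83_L1Inst

set_option autoImplicit false

namespace Fermat.Agent.S36.H62

open Fermat.Agent.S18 Fermat.Agent.S34 IsLocalRing

section ChartB

variable {R : Type*} [CommRing R] [IsDomain R] [IsDiscreteValuationRing R]
  {F : Type*} [Field F] [Algebra R F]

/-- Rationality of the closed points of the special fibre of a finite-type chart over a DVR with
algebraically closed residue field. -/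
theorem hres_closedPt (B : Subalgebra R F) [Algebra.FiniteType R B] [IsAlgClosed (ResidueField R)]
    {π : R} (hπ : Irreducible π) (n : H21.ClosedPt B π) (b : B) :
    ∃ c : R, b - algebraMap R B c ∈ n.1 := by
  have hn : n.1.IsMaximal := n.2.1
  refine H83.hres_of_residue (residue R) residue_surjective n.1 (fun a ha => ?_) b
  have ha' : a ∈ maximalIdeal R := (residue_eq_zero_iff a).mp ha
  rw [hπ.maximalIdeal_eq, Ideal.mem_span_singleton] at ha'
  obtain ⟨c, rfl⟩ := ha'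
  rw [map_mul]
  exact n.1.mul_mem_right _ n.2.2

variable (J : F) [IsFractionRing ↥(H40.chartB R J) F] [IsFractionRing ↥(H40.chartB R J⁻¹) F]
  [IsIntegrallyClosed ↥(H40.chartB R J)] [IsIntegrallyClosed ↥(H40.chartB R J⁻¹)]
  [Algebra.FiniteType R ↥(H40.chartB R J⁻¹)] [IsAlgClosed (ResidueField R)]

/-- **(OVL-a)(i) for the charts `chartB R J`, `chartB R J⁻¹`** : the `hovl` hypothesis of
`S36.H56.exists_hG_two_charts_ovl` / `hE4_two_charts_ovl` / `hE4_of_rows` with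
`C n₂ := J⁻¹ ∈ n₂`. -/
theorem hovl_chartB (hJ0 : J ≠ 0) (π : R) (hπ : Irreducible π) :
    ∀ n₂ : H21.ClosedPt (H40.chartB R J⁻¹) π,
      ¬ ((⟨J⁻¹, H40.self_mem_chartB J⁻¹⟩ : ↥(H40.chartB R J⁻¹)) ∈ n₂.1) →
      ∃ n₁ : H21.ClosedPt (H40.chartB R J) π,
        H21.ptO (H40.chartB R J) (H40.chartB R J⁻¹) π (Sum.inl n₁) =
          H21.ptO (H40.chartB R J) (H40.chartB R J⁻¹) π (Sum.inr n₂) :=
  hovl_two_charts (H40.chartB R J) (H40.chartB R J⁻¹) π hπ
    ⟨J, H40.self_mem_chartB J⟩ ⟨J⁻¹, H40.self_mem_chartB J⁻¹⟩ (mul_inv_cancel₀ hJ0)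
    (fun b => H40.mem_chartB.1 b.2) (fun b => H40.mem_chartB.1 b.2)
    (fun n b => hres_closedPt (H40.chartB R J⁻¹) hπ n b)

variable [IsNoetherianRing ↥(H40.chartB R J)] [IsNoetherianRing ↥(H40.chartB R J⁻¹)]

/-- **(OVL-a)(iii) for the charts `chartB R J`, `chartB R J⁻¹`** : the `hoverlap` hypothesis of
`S36.H85.hpt_two_charts_of_first` with `Jinv := ⟨J⁻¹, _⟩`. -/
theorem hoverlap_chartB (hJ0 : J ≠ 0) (π : R) (hπ : Irreducible π) {κ : Type*}
    (P₁ : κ → Ideal ↥(H40.chartB R J)) (P₂ : κ → Ideal ↥(H40.chartB R J⁻¹))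
    [hP₁ : ∀ i, (P₁ i).IsPrime] [hP₂ : ∀ i, (P₂ i).IsPrime]
    (hh₁ : ∀ i, (P₁ i).height = 1) (hh₂ : ∀ i, (P₂ i).height = 1)
    (hVeq : ∀ i, H56.valuationSubringAt (K := F) (P₁ i) (hh₁ i) =
      H56.valuationSubringAt (K := F) (P₂ i) (hh₂ i)) :
    ∀ n : H21.ClosedPt (H40.chartB R J⁻¹) π,
      (⟨J⁻¹, H40.self_mem_chartB J⁻¹⟩ : ↥(H40.chartB R J⁻¹)) ∉ n.1 →
      ∃ n1 : H21.ClosedPt (H40.chartB R J) π,
        H21.ptO (H40.chartB R J) (H40.chartB R J⁻¹) π (Sum.inl n1) =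
          H21.ptO (H40.chartB R J) (H40.chartB R J⁻¹) π (Sum.inr n) ∧
        ∀ i, P₁ i ≤ n1.1 ↔ P₂ i ≤ n.1 :=
  hoverlap_two_charts (H40.chartB R J) (H40.chartB R J⁻¹) π P₁ P₂ hh₁ hh₂ hVeq hπ
    ⟨J, H40.self_mem_chartB J⟩ ⟨J⁻¹, H40.self_mem_chartB J⁻¹⟩ (mul_inv_cancel₀ hJ0)
    (fun b => H40.mem_chartB.1 b.2) (fun b => H40.mem_chartB.1 b.2)
    (fun n b => hres_closedPt (H40.chartB R J⁻¹) hπ n b)

end ChartB

end Fermat.Agent.S36.H62
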