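/-
helper69 -- S36 (Carayol), row (E7), model block: **the branches are normal** (`hbranch₁`,
`hbranch₂` of `S36.H69.geo36_two_charts_final` / `S36.H18.geoFn36E_of_twoCharts`).

* `isIntegrallyClosed_quotient_ker` : a surjection `red : B → D` onto an integrally closed domain
  makes `B ⧸ ker red` integrally closed;
* `hbranch_of_threeComponents` : for a labelled family `P : Fin 3 → Ideal B` with
  `P 0 = ker red₁`, `P 1 = ker red₂`, `P 2 = ker red₃` of a `S36.H83.ThreeComponents` package with
  `D` integrally closed (e.g. Dedekind): `∀ i, IsIntegrallyClosed (B ⧸ P i)`.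
-/
import Mathlib
import Fermat.Agent.S36.H83_ThreeComponents

set_option autoImplicit false

namespace Fermat.Agent.S36.H69

section Branch

variable {B D : Type*} [CommRing B] [CommRing D] [IsIntegrallyClosed D]

/-- A surjection onto an integrally closed domain has an integrally closed coimage. -/
theorem isIntegrallyClosed_quotient_ker (red : B →+* D) (hred : Function.Surjective red) :
    IsIntegrallyClosed (B ⧸ RingHom.ker red) :=
  IsIntegrallyClosed.of_equiv (RingHom.quotientKerEquivOfSurjective hred).symm

/-- The same for an ideal known to be the kernel. -/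
theorem isIntegrallyClosed_quotient_of_eq_ker (P : Ideal B) (red : B →+* D)
    (hred : Function.Surjective red) (hP : P = RingHom.ker red) :
    IsIntegrallyClosed (B ⧸ P) := by
  subst hP
  exact isIntegrallyClosed_quotient_ker red hred

variable {BM : Type*} [CommRing BM]
  {red₁ red₂ red₃ : B →+* D} {ιu ιv ιw : BM →+* B} {rbar : BM →+* D} {W : D →+* D}
  {q : ℕ} {qB : B}

/-- **`hbranch`**: the three vertical branches of a `ThreeComponents` chart are normal. -/
theorem hbranch_of_threeComponents
    (h : S36.H83.ThreeComponents red₁ red₂ red₃ ιu ιv ιw rbar W q qB)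
    (P : Fin 3 → Ideal B) (e0 : P 0 = RingHom.ker red₁) (e1 : P 1 = RingHom.ker red₂)
    (e2 : P 2 = RingHom.ker red₃) : ∀ i, IsIntegrallyClosed (B ⧸ P i) := by
  intro i
  fin_cases i
  · exact isIntegrallyClosed_quotient_of_eq_ker (P 0) red₁ h.hred₁ e0
  · exact isIntegrallyClosed_quotient_of_eq_ker (P 1) red₂ h.hred₂ e1
  · exact isIntegrallyClosed_quotient_of_eq_ker (P 2) red₃ h.hred₃ e2

end Branch

end Fermat.Agent.S36.H69
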