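/-
helper69 -- S36 (Carayol), row (E7), block (W): **the six facts about the two vertical valuation
rings `WF`, `WV` of the level-`qL` model** consumed by the NORMCONST step of the skeleton
(`hWFint hWFq hWFπ` of `S36.H18.geoFn36E_of_radicalDatum`; `hWFlt hAWF hπWF` of
`S36.H69.geo36_two_charts_final`), at the CHART level:

`B` a noetherian integrally closed chart over `R` (`K ⊇ R` the constant field, `A` the valuation
ring of `K` cut out by `R`), `p` a height-one prime containing the uniformiser `π` of `R`, REDUCED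
in the special fibre (`hred : ∀ b ∈ p, ∃ s ∉ p, π ∣ s * b`, the `hred` of `S34.H21`/`S34.H69`; from
`TwoComponents.mul_mem_span`-type facts at level `qL`), `W := H56.valuationSubringAt p`:

* `irreducible_algebraMap_of_hred` : `π` is a uniformiser of the DVR `B_p`;
* `wfacts_of_hred` : `W` contains `A`, `π` is a non-unit of `W`, every `x ≠ 0` has an order at
  `W` with respect to `π`;  + the strict/unit forms `hWlt`, `hAW` used by `S36.H69`.
-/
import Mathlib
import Fermat.Agent.S36.H62_Uniformisers

set_option autoImplicit false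
set_option linter.unusedSectionVars false
set_option linter.style.haveILetI false

namespace Fermat.Agent.S36.H69

open Fermat.Agent.CA.H42 Fermat.Agent.S34 Fermat.Agent.S34.H56

section Reduced

variable {B F : Type*} [CommRing B] [IsDomain B] [Field F] [Algebra B F] [IsFractionRing B F]
  [IsNoetherianRing B] [IsIntegrallyClosed B]

/-- A generator of `p B_p` (in the `hred` form) is a uniformiser of the DVR `B_p`. -/
theorem irreducible_algebraMap_of_hred (p : Ideal B) [hp : p.IsPrime] (h1 : p.height = 1)
    (τ : B) (hτp : τ ∈ p) (hred : ∀ b ∈ p, ∃ s, s ∉ p ∧ τ ∣ s * b) :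
    Irreducible (algebraMap B (Localization.AtPrime p) τ) := by
  haveI : IsDiscreteValuationRing (Localization.AtPrime p) :=
    isDiscreteValuationRing_of_height_eq_one p h1 _
  set Bp := Localization.AtPrime p
  rw [IsDiscreteValuationRing.irreducible_iff_uniformizer]
  apply le_antisymm
  · intro y hy
    obtain ⟨⟨t, s⟩, hts⟩ := IsLocalization.surj p.primeCompl y
    have hsu : IsUnit (algebraMap B Bp s) := IsLocalization.map_units Bp s
    have htp : t ∈ p := by
      by_contra h
      have hu : IsUnit (algebraMap B Bp t) :=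
        (IsLocalization.AtPrime.isUnit_to_map_iff Bp p t).mpr h
      rw [← hts] at hu
      exact (IsLocalRing.mem_maximalIdeal y).mp hy (isUnit_of_mul_isUnit_left hu)
    obtain ⟨s', hs', c, hc⟩ := hred t htp
    have hs'u : IsUnit (algebraMap B Bp s') :=
      (IsLocalization.AtPrime.isUnit_to_map_iff Bp p s').mpr hs'
    obtain ⟨us, hus⟩ := hsu
    obtain ⟨us', hus'⟩ := hs'u
    rw [Ideal.mem_span_singleton]
    refine ⟨algebraMap B Bp c * ((us⁻¹ : Bpˣ) : Bp) * ((us'⁻¹ : Bpˣ) : Bp), ?_⟩
    have e1 : algebraMap B Bp s' * algebraMap B Bp t = algebraMap B Bp τ * algebraMap B Bp c := by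
      rw [← map_mul, hc, map_mul]
    have e2 : y = algebraMap B Bp t * ((us⁻¹ : Bpˣ) : Bp) := by
      rw [← hts, ← hus, mul_assoc, Units.mul_inv, mul_one]
    have e3 : algebraMap B Bp t = algebraMap B Bp τ * algebraMap B Bp c * ((us'⁻¹ : Bpˣ) : Bp) := by
      rw [← e1, ← hus', mul_comm ((us' : Bpˣ) : Bp), mul_assoc, Units.mul_inv, mul_one]
    rw [e2, e3]
    ring
  · rw [Ideal.span_singleton_le_iff_mem]
    exact (IsLocalization.AtPrime.to_map_mem_maximal_iff Bp p τ).mpr hτp

/-- Every `x ≠ 0` has an order at `V_p` with respect to a generator `τ` of `p B_p`. -/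
theorem exists_zpow_valuation_eq_one_of_hred (p : Ideal B) [hp : p.IsPrime] (h1 : p.height = 1)
    (τ : B) (hτp : τ ∈ p) (hred : ∀ b ∈ p, ∃ s, s ∉ p ∧ τ ∣ s * b) (x : F) (hx : x ≠ 0) :
    ∃ n : ℤ, (valuationSubringAt (K := F) p h1).valuation (x * algebraMap B F τ ^ (-n)) = 1 := by
  obtain ⟨n, hn⟩ := S36.H62.exists_isUnitAt_mul_zpow (K := F) p h1 τ
    (irreducible_algebraMap_of_hred p h1 τ hτp hred) x hx
  exact ⟨n, (valuation_eq_one_iff h1).mpr hn⟩

end Reduced

section WFacts

variable {R K B F : Type*} [CommRing R] [Field K] [Algebra R K]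
  [CommRing B] [IsDomain B] [Field F] [Algebra B F] [IsFractionRing B F]
  [IsNoetherianRing B] [IsIntegrallyClosed B]
  [Algebra R B] [Algebra R F] [Algebra K F] [IsScalarTower R B F] [IsScalarTower R K F]

/-- **Block (W) at the chart level.**  `A` = the valuation ring of the constant field cut out by
`R` (`hAR`); `p` a reduced vertical height-one prime of the chart `B`. -/
theorem wfacts_of_hred (A : ValuationSubring K) (hAR : ∀ x ∈ A, ∃ r : R, algebraMap R K r = x)
    (π : R) (p : Ideal B) [hp : p.IsPrime] (h1 : p.height = 1) (hπp : algebraMap R B π ∈ p)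
    (hred : ∀ b ∈ p, ∃ s, s ∉ p ∧ algebraMap R B π ∣ s * b) :
    (∀ x : K, A.valuation x ≤ 1 →
      (valuationSubringAt (K := F) p h1).valuation (algebraMap K F x) ≤ 1) ∧
    (valuationSubringAt (K := F) p h1).valuation (algebraMap K F (algebraMap R K π)) < 1 ∧
    (∀ x : F, x ≠ 0 → ∃ n : ℤ, (valuationSubringAt (K := F) p h1).valuation
      (x * algebraMap K F (algebraMap R K π) ^ (-n)) = 1) := by
  have e : algebraMap K F (algebraMap R K π) = algebraMap B F (algebraMap R B π) := by
    rw [← IsScalarTower.algebraMap_apply R K F, ← IsScalarTower.algebraMap_apply R B F]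
  refine ⟨fun x hx => ?_, ?_, fun x hx => ?_⟩
  · obtain ⟨r, rfl⟩ := hAR x ((A.valuation_le_one_iff x).mp hx)
    rw [← IsScalarTower.algebraMap_apply R K F, IsScalarTower.algebraMap_apply R B F]
    exact ((valuationSubringAt (K := F) p h1).valuation_le_one_iff _).mpr
      (algebraMap_mem_valuationSubringAt h1 _)
  · rw [e]
    exact (algebraMap_mem_nonunits_iff h1 _).mpr hπp
  · rw [e]
    exact exists_zpow_valuation_eq_one_of_hred p h1 _ hπp hred x hx

/-- The strict form `hWlt` (elements of the maximal ideal of `A` are non-units of `W`), given that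
the maximal ideal of `A` is generated by `π`. -/
theorem hWlt_of_hred (A : ValuationSubring K) (hAR : ∀ x ∈ A, ∃ r : R, algebraMap R K r = x)
    (π : R) (hAπ : ∀ x : K, A.valuation x < 1 → ∃ y ∈ A, x = algebraMap R K π * y)
    (p : Ideal B) [hp : p.IsPrime] (h1 : p.height = 1) (hπp : algebraMap R B π ∈ p)
    (hred : ∀ b ∈ p, ∃ s, s ∉ p ∧ algebraMap R B π ∣ s * b) (x : K) (hx : A.valuation x < 1) :
    (valuationSubringAt (K := F) p h1).valuation (algebraMap K F x) < 1 := by
  obtain ⟨hint, hq, -⟩ := wfacts_of_hred (F := F) A hAR π p h1 hπp hred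
  obtain ⟨y, hy, rfl⟩ := hAπ x hx
  rw [map_mul, map_mul]
  calc (valuationSubringAt (K := F) p h1).valuation (algebraMap K F (algebraMap R K π)) *
        (valuationSubringAt (K := F) p h1).valuation (algebraMap K F y)
      ≤ (valuationSubringAt (K := F) p h1).valuation (algebraMap K F (algebraMap R K π)) * 1 :=
        mul_le_mul' le_rfl (hint y ((A.valuation_le_one_iff y).mpr hy))
    _ < 1 := by rw [mul_one]; exact hq

/-- The unit form `hAW` (units of `A` are units of `W`). -/
theorem hAW_of_hred (A : ValuationSubring K) (hAR : ∀ x ∈ A, ∃ r : R, algebraMap R K r = x)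
    (π : R) (p : Ideal B) [hp : p.IsPrime] (h1 : p.height = 1) (hπp : algebraMap R B π ∈ p)
    (hred : ∀ b ∈ p, ∃ s, s ∉ p ∧ algebraMap R B π ∣ s * b) (x : K) (hx : A.valuation x = 1) :
    (valuationSubringAt (K := F) p h1).valuation (algebraMap K F x) = 1 := by
  obtain ⟨hint, -, -⟩ := wfacts_of_hred (F := F) A hAR π p h1 hπp hred
  have hx0 : x ≠ 0 := by
    rintro rfl
    rw [map_zero] at hx
    exact zero_ne_one hx
  have h1' := hint x hx.le
  have h2' := hint x⁻¹ (by rw [map_inv₀, hx, inv_one])
  rw [map_inv₀, map_inv₀] at h2'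
  have hv0 : (valuationSubringAt (K := F) p h1).valuation (algebraMap K F x) ≠ 0 :=
    (Valuation.ne_zero_iff _).mpr ((map_ne_zero _).mpr hx0)
  have h3 : 1 ≤ (valuationSubringAt (K := F) p h1).valuation (algebraMap K F x) := by
    rwa [inv_le_one₀ (zero_lt_iff.mpr hv0)] at h2'
  exact le_antisymm h1' h3

end WFacts

end Fermat.Agent.S36.H69
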