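/-
helper18 — S36 row (E7), **the real-types master theorem in the rows vocabulary**.

`geoFn36E_of_rows` : `H18.geoFn36E_of_twoCharts` at the pair of charts
`B₁ = chartB R J`, `B₂ = chartB R J'` (`R = cutOver A E0`, `J : F_{E0}(q (q L))` ANY coordinate,
`J' = J⁻¹` in ANY spelling; in the application `J = baseChangeE E0 _ J₃ = J3K ↥E0 _ q _`,
`J' = baseChangeE E0 _ J₃⁻¹`), with

* `hinj`, heights, primality: `S36.H61.vertFam_*`;
* `hbranch₁ hbranch₂`: `S36.H69.hbranch_of_threeComponents`;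
* the six (W) facts: `S36.H69.wfacts_of_hred` at the two vertical primes of the level-`q L`
  chart `B'` (from its `S34.H83.TwoComponents` package);
* `hpt`: `H18.hpt_real` (r5);
* `crit`: `S36.H61.crit36_of_threeComponents` (r1);
* `hE4`: `H18.hE4_real` (r4);
* the overlap inputs `J₁ J₂ hJ hint₁ hint₂ hres₁ hres₂`: definition of `chartB` +
  `S36.H62.hres_closedPt`.

What remains = the row outputs at the E-level: the two `ThreeComponents` packages, the level-`q L`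
`TwoComponents` package, `LevelMaps` + integrality on chart 1, (M2) (M4) (M4r2), `hcusp`, `hVeq`,
the two `TowerValU`, and `hE3`.
-/
import Mathlib
import Fermat.Agent.S36.H18_Geo36TwoCharts
import Fermat.Agent.S36.H18_Geo36RealE4
import Fermat.Agent.S36.H18_Geo36RealPt
import Fermat.Agent.S36.H61_Crit36Three
import Fermat.Agent.S36.H69_BranchNormal
import Fermat.Agent.S36.H69_WFacts
import Fermat.Agent.S36.H62_ChartGlueInst
import Fermat.Agent.S35.H84_TwoCompNe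
import Fermat.Agent.S34.H47_BaseRing
import Fermat.Agent.CA.H92_LaurentConst
import Fermat.Agent.S18.H45_CutOverPoint

set_option autoImplicit false
set_option linter.unusedSectionVars false
set_option linter.style.haveILetI false
set_option synthInstance.maxHeartbeats 400000

noncomputable section

namespace Fermat.Agent.S36.H18

open ModularCurve AlgebraicCurve IntermediateField IsLocalRing
open Fermat.Agent.S18 Fermat.Agent.S18.H45 Fermat.Agent.S34 Fermat.Agent.S34.H47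
open Fermat.Agent.S36.H83 Fermat.Agent.S36.H85 Fermat.Agent.S36.H46 Fermat.Agent.S36.H69
open Fermat.Agent.S34.H83 Fermat.Agent.S35.H84

local notation "Qbar" => AlgebraicClosure ℚ

section Real

variable (L q : ℕ) [NeZero L] [NeZero q] (hq : q.Prime)
  {A : ValuationSubring Qbar} (hA : A.LiesOverPrime q)
  (E0 : IntermediateField (unrCyclo q) Qbar) [FiniteDimensional (unrCyclo q) E0]
  (hfix : ∀ σ ∈ A.inertiaSubgroupIn ℚ, ∀ x : E0, σ ((x : E0) : Qbar) = ((x : E0) : Qbar))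

set_option quotPrecheck false
local notation "F₁" => ↥(modularFunctionFieldFullC ↥E0 (q * L))
local notation "F₂" => ↥(modularFunctionFieldFullC ↥E0 (q * (q * L)))
local notation "RR" => ↥(cutOver A E0)
local notation "aα" => alphaK ↥E0 (q * L) (q * (q * L)) (dvd_mul_left (q * L) q)
local notation "bβ" => betaK ↥E0 q (q * L) (q * (q * L)) dvd_rfl
local notation "Nα" => normAlphaK ↥E0 (q * L) (q * (q * L)) (dvd_mul_left (q * L) q)
local notation "Nβ" => normBetaK ↥E0 q (q * L) (q * (q * L)) dvd_rfl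
local notation "πq" => (((q : ℕ) : ↥(cutOver A E0)))

set_option maxHeartbeats 6400000 in
include hq hA hfix in
/-- **The real-types master theorem of (E7), rows vocabulary.** -/
theorem geoFn36E_of_rows {p : ℕ} (hp : p.Prime) (hpq : p ≠ q) (k : ℕ)
    (J J' : F₂) (hJ' : J' = J⁻¹) (htr : Transcendental ↥E0 J) [FiniteDimensional ↥E0⟮J⟯ F₂]
    [Algebra.IsSeparable ↥E0⟮J⟯ F₂]
    [IsFractionRing ↥(H40.chartB RR J) F₂] [IsFractionRing ↥(H40.chartB RR J') F₂]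
    [IsNoetherianRing ↥(H40.chartB RR J)] [IsNoetherianRing ↥(H40.chartB RR J')]
    [IsIntegrallyClosed ↥(H40.chartB RR J)] [IsIntegrallyClosed ↥(H40.chartB RR J')]
    -- the level-`q L` chart below chart 1
    {B' : Type} [CommRing B'] [IsDomain B'] [Algebra B' F₁] [IsFractionRing B' F₁]
    [IsNoetherianRing B'] [IsIntegrallyClosed B'] [Algebra RR B'] [IsScalarTower RR B' F₁]
    -- chart 1: (E2) three components, level-`q L` two components, level maps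
    {D BM BM' : Type*} [CommRing D] [IsDedekindDomain D] [CommRing BM] [CommRing BM']
    (hD : ¬ IsField D)
    {red₁ red₂ red₃ : ↥(H40.chartB RR J) →+* D} {ιu ιv ιw : BM →+* ↥(H40.chartB RR J)}
    {rbar : BM →+* D} {W : D →+* D}
    (h₁ : ThreeComponents red₁ red₂ red₃ ιu ιv ιw rbar W q
      (algebraMap RR ↥(H40.chartB RR J) πq))
    (hq1 : red₁ (algebraMap RR ↥(H40.chartB RR J) πq) = 0)
    (hq2 : red₂ (algebraMap RR ↥(H40.chartB RR J) πq) = 0)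
    (hq3 : red₃ (algebraMap RR ↥(H40.chartB RR J) πq) = 0)
    (hW2 : ∃ d : D, W (W d) ≠ d) (hW4 : ∃ d : D, W (W (W (W d))) ≠ d)
    (hWq : ∀ r : D, ∃ r₂ : D, W r₂ = r ^ q)
    {red₁' red₂' : B' →+* D} {ι' V' : BM' →+* B'} {rbar' : BM' →+* D}
    (h' : TwoComponents red₁' red₂' ι' V' rbar' W q (algebraMap RR B' πq))
    (hq1' : red₁' (algebraMap RR B' πq) = 0) (hq2' : red₂' (algebraMap RR B' πq) = 0)
    {α β : B' →+* ↥(H40.chartB RR J)}
    (hL : LevelMaps red₁ red₂ red₃ red₁' red₂' α β W)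
    (hintα : α.IsIntegral) (hintβ : β.IsIntegral)
    (haα : ∀ x, algebraMap ↥(H40.chartB RR J) F₂ (α x) = aα (algebraMap B' F₁ x))
    (hbβ : ∀ x, algebraMap ↥(H40.chartB RR J) F₂ (β x) = bβ (algebraMap B' F₁ x))
    (hαR : ∀ c : RR, α (algebraMap RR B' c) = algebraMap RR ↥(H40.chartB RR J) c)
    (hβR : ∀ c : RR, β (algebraMap RR B' c) = algebraMap RR ↥(H40.chartB RR J) c)
    -- (M2), (M4) on chart 1
    (hM2 : S36.H62.RegularCrossings red₁' red₂')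
    (hM4 : S36.H62.MiddleUnit red₁ red₂ red₃ q (algebraMap RR ↥(H40.chartB RR J) πq))
    -- chart 2: (E2) three components, cusps
    {D₂ BM₂ : Type*} [CommRing D₂] [IsDedekindDomain D₂] [CommRing BM₂] (hD₂ : ¬ IsField D₂)
    {ρ₁ ρ₂ ρ₃ : ↥(H40.chartB RR J') →+* D₂} {κu κv κw : BM₂ →+* ↥(H40.chartB RR J')}
    {rbar₂ : BM₂ →+* D₂} {W₂ : D₂ →+* D₂}
    (h₂ : ThreeComponents ρ₁ ρ₂ ρ₃ κu κv κw rbar₂ W₂ q
      (algebraMap RR ↥(H40.chartB RR J') πq))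
    (hr1 : ρ₁ (algebraMap RR ↥(H40.chartB RR J') πq) = 0)
    (hr2 : ρ₂ (algebraMap RR ↥(H40.chartB RR J') πq) = 0)
    (hr3 : ρ₃ (algebraMap RR ↥(H40.chartB RR J') πq) = 0)
    (hW2' : ∃ d : D₂, W₂ (W₂ d) ≠ d) (hW4' : ∃ d : D₂, W₂ (W₂ (W₂ (W₂ d))) ≠ d)
    -- the three labelled vertical primes on each chart
    (P₁ : Fin 3 → Ideal ↥(H40.chartB RR J)) (P₂ : Fin 3 → Ideal ↥(H40.chartB RR J'))
    (e10 : P₁ 0 = RingHom.ker red₁) (e11 : P₁ 1 = RingHom.ker red₂)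
    (e12 : P₁ 2 = RingHom.ker red₃)
    (e20 : P₂ 0 = RingHom.ker ρ₁) (e21 : P₂ 1 = RingHom.ker ρ₂) (e22 : P₂ 2 = RingHom.ker ρ₃)
    [hP₁ : ∀ i, (P₁ i).IsPrime] [hP₂ : ∀ i, (P₂ i).IsPrime]
    (hh₁ : ∀ i, (P₁ i).height = 1) (hh₂ : ∀ i, (P₂ i).height = 1)
    (hVeq : ∀ i, H56.valuationSubringAt (K := F₂) (P₁ i) (hh₁ i) =
      H56.valuationSubringAt (K := F₂) (P₂ i) (hh₂ i))
    -- the two vertical primes of the level-`q L` chart
    (P'F P'V : Ideal B') [hP'F : P'F.IsPrime] [hP'V : P'V.IsPrime]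
    (hF : P'F.height = 1) (hV : P'V.height = 1)
    (hP'F1 : P'F = RingHom.ker red₁') (hP'V2 : P'V = RingHom.ker red₂')
    -- (OVL-b) cusps of chart 2, (M4r2) middle cusps of chart 2
    (hcusp : ∀ n₂ : H21.ClosedPt (H40.chartB RR J') πq,
      (⟨J', H40.self_mem_chartB J'⟩ : ↥(H40.chartB RR J')) ∈ n₂.1 →
      ∃ i₀ : Fin 3, ∀ i, P₂ i ≤ n₂.1 → i = i₀)
    (hM4r2 : ∀ n₂ : H21.ClosedPt (H40.chartB RR J') πq,
      (⟨J', H40.self_mem_chartB J'⟩ : ↥(H40.chartB RR J')) ∈ n₂.1 →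
      RingHom.ker ρ₂ ≤ n₂.1 →
      ∃ θ : ↥(H40.chartB RR J'), ρ₂ θ = 0 ∧ θ ≠ 0 ∧
        ∃ e t : ↥(H40.chartB RR J'), e ∉ n₂.1 ∧ t ∉ n₂.1 ∧
          t * θ ^ (q - 1) = e * algebraMap RR ↥(H40.chartB RR J') πq)
    -- (E5)/(E6) the two towers
    (HVa : TowerValU aα Nα q (H56.valuationSubringAt (K := F₂) (P₁ 0) (hh₁ 0))
      (H56.valuationSubringAt (K := F₂) (P₁ 1) (hh₁ 1))
      (H56.valuationSubringAt (K := F₂) (P₁ 2) (hh₁ 2))
      (H56.valuationSubringAt (K := F₁) P'F hF) (H56.valuationSubringAt (K := F₁) P'V hV))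
    (HVb : TowerValU bβ Nβ q (H56.valuationSubringAt (K := F₂) (P₁ 2) (hh₁ 2))
      (H56.valuationSubringAt (K := F₂) (P₁ 1) (hh₁ 1))
      (H56.valuationSubringAt (K := F₂) (P₁ 0) (hh₁ 0))
      (H56.valuationSubringAt (K := F₁) P'V hV) (H56.valuationSubringAt (K := F₁) P'F hF))
    -- (r2) = (E3)
    (hE3 : ∀ f : F₂, f ≠ 0 →
      (∃ (c : ↥E0) (h : F₁), c ≠ 0 ∧ h ≠ 0 ∧ Nα f = algebraMap ↥E0 F₁ c * h ^ (p ^ k)) →
      (∃ (c : ↥E0) (h : F₁), c ≠ 0 ∧ h ≠ 0 ∧ Nβ f = algebraMap ↥E0 F₁ c * h ^ (p ^ k)) →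
      ∃ (s : ℤ) (g : F₂), g ≠ 0 ∧
        ∀ i, (H56.valuationSubringAt (K := F₂) (P₁ i) (hh₁ i)).valuation
          (f ^ (q + 1) * algebraMap ↥E0 F₂ ((q : ℕ) : ↥E0) ^ (-s) * (g ^ (p ^ k))⁻¹) = 1) :
    GeoFn36E q (q * L) (q * (q * L)) (dvd_mul_left (q * L) q) dvd_rfl E0 (p ^ k)
      ((q + 1) * (q - 1) * (q ^ 2 - 1)) := by
  subst hJ'
  haveI := isDiscreteValuationRing_cutOver hq hA E0
  haveI := isAlgClosed_residueField_cutOver hq hA E0
  have hπ : Irreducible πq := S36.H45.irreducible_natCast_cutOver_of_fixed hq hA E0 hfix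
  have hun := S36.H45.maximalIdeal_cutOver_eq_span_natCast_of_fixed hq hA E0 hfix
  haveI : Algebra.FiniteType RR ↥(H40.chartB RR J) :=
    S34.H83.finiteType_chartB (R := RR) (K := ↥E0) J htr
  have htr' : Transcendental ↥E0 J⁻¹ := fun h => htr (by simpa using h.inv)
  have hJ0 : J ≠ 0 := fun h0 => htr (h0 ▸ isAlgebraic_zero)
  -- the level-`q L` facts
  have hπ0' : algebraMap RR B' πq ≠ 0 := by
    intro h0
    have h1 : algebraMap B' F₁ (algebraMap RR B' πq) = 0 := by rw [h0, map_zero]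
    rw [← IsScalarTower.algebraMap_apply RR B' F₁] at h1
    have h2 : algebraMap RR F₁ πq = algebraMap ↥E0 F₁ ((q : ℕ) : ↥E0) := by
      rw [IsScalarTower.algebraMap_apply RR ↥E0 F₁]
      rfl
    rw [h2] at h1
    exact (Nat.cast_ne_zero.mpr hq.ne_zero : ((q : ℕ) : ↥E0) ≠ 0) ((map_eq_zero _).mp h1)
  have hne₁ := exists_red₁_eq_zero_red₂_ne_zero h' hq.two_le hD
  have hne₂ := exists_red₂_eq_zero_red₁_ne_zero h' hq.two_le hD
  obtain ⟨s₁, hs11, hs12⟩ := hne₁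
  obtain ⟨s₂, hs22, hs21⟩ := hne₂
  have hAR : ∀ x ∈ cutOver A E0, ∃ r : RR, algebraMap RR ↥E0 r = x := fun x hx => ⟨⟨x, hx⟩, rfl⟩
  have hπF : algebraMap RR B' πq ∈ P'F := by rw [hP'F1]; exact (RingHom.mem_ker).mpr hq1'
  have hπV : algebraMap RR B' πq ∈ P'V := by rw [hP'V2]; exact (RingHom.mem_ker).mpr hq2'
  have hredF : ∀ b ∈ P'F, ∃ s, s ∉ P'F ∧ algebraMap RR B' πq ∣ s * b := by
    rw [hP'F1]; exact hred_ker_red₁ h' ⟨s₂, hs22, hs21⟩
  have hredV : ∀ b ∈ P'V, ∃ s, s ∉ P'V ∧ algebraMap RR B' πq ∣ s * b := by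
    rw [hP'V2]; exact hred_ker_red₂ h' ⟨s₁, hs11, hs12⟩
  obtain ⟨hWFint, hWFq, hWFπ⟩ := wfacts_of_hred (K := ↥E0) (F := F₁) (cutOver A E0) hAR πq
    P'F hF hπF hredF
  obtain ⟨hWVint, hWVq, hWVπ⟩ := wfacts_of_hred (K := ↥E0) (F := F₁) (cutOver A E0) hAR πq
    P'V hV hπV hredV
  -- the overlap data
  have hres₁ : ∀ n : H21.ClosedPt (H40.chartB RR J) πq, ∀ b : ↥(H40.chartB RR J),
      ∃ c : RR, b - algebraMap RR ↥(H40.chartB RR J) c ∈ n.1 :=
    fun n b => S36.H62.hres_closedPt (H40.chartB RR J) hπ n b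
  have eJ : (↥E0)⟮J⁻¹⟯ = (↥E0)⟮J⟯ := by
    apply le_antisymm
    · rw [IntermediateField.adjoin_simple_le_iff]
      exact inv_mem (IntermediateField.mem_adjoin_simple_self ↥E0 J)
    · rw [IntermediateField.adjoin_simple_le_iff]
      have := inv_mem (IntermediateField.mem_adjoin_simple_self ↥E0 J⁻¹)
      rwa [inv_inv] at this
  haveI hfdinv : FiniteDimensional (↥E0)⟮J⁻¹⟯ F₂ := by rw [eJ]; infer_instance
  haveI hsepinv : Algebra.IsSeparable (↥E0)⟮J⁻¹⟯ F₂ := by rw [eJ]; infer_instance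
  haveI : Algebra.FiniteType RR ↥(H40.chartB RR J⁻¹) :=
    S34.H83.finiteType_chartB (R := RR) (K := ↥E0) J⁻¹ htr'
  have hres₂ : ∀ n : H21.ClosedPt (H40.chartB RR J⁻¹) πq, ∀ b : ↥(H40.chartB RR J⁻¹),
      ∃ c : RR, b - algebraMap RR ↥(H40.chartB RR J⁻¹) c ∈ n.1 :=
    fun n b => S36.H62.hres_closedPt (H40.chartB RR J⁻¹) hπ n b
  have hJJ : (((⟨J, H40.self_mem_chartB J⟩ : ↥(H40.chartB RR J)) : F₂)) *
      (((⟨J⁻¹, H40.self_mem_chartB J⁻¹⟩ : ↥(H40.chartB RR J⁻¹)) : F₂)) = 1 :=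
    mul_inv_cancel₀ hJ0
  -- (r1) the radical Kummer criterion
  have hnd : ¬ q ∣ p := fun h => hpq ((Nat.prime_dvd_prime_iff_eq hq hp).mp h).symm
  obtain ⟨ζ, hζ⟩ := S34.H47.exists_isPrimitiveRoot_cutOver (A := A) E0 hp.ne_zero hnd
  have hlu := S34.H47.isUnit_natCast_cutOver hq hA E0 hnd
  have hcl : ∀ z : F₂, IsAlgebraic ↥E0 z → z ∈ (algebraMap ↥E0 F₂).range := fun z hz =>
    Fermat.Agent.CA.H92.mem_range_of_isAlgebraic_intermediateField
      (modularFunctionFieldFullC ↥E0 (q * (q * L))) z hz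
  have crit := S36.H61.crit36_of_threeComponents (R := RR) (K := ↥E0) J htr πq hπ hcl hp hlu hζ
    (fun r hr => S34.H47.exists_root_mod hun hp.pos r hr) hq hpq.symm (dvd_refl _)
    h₁ hq1 hq2 hq3 hW2 hW4 h₂ hr1 hr2 hr3 hW2' hW4' P₁ P₂ e10 e11 e12 e20 e21 e22
    hh₁ hh₂ hVeq k
  -- (r5)
  have hpt := hpt_real L q hq hA E0 hfix (m := p ^ k) (pow_pos hp.pos k)
    (B₁ := H40.chartB RR J) (B₂ := H40.chartB RR J⁻¹) P₁ P₂ hh₁ hh₂ hVeq (B' := B')
    hL (qB' := algebraMap RR B' πq) (hαR πq) (hβR πq)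
    (fun P hP hqP => haveI := hP; h₁.ker_le_of_mem P hqP) h'.hred₁ h'.hred₂ hWq hq1' hq2'
    hintα hintβ hs11 hs12 hs22 hs21 haα hbβ hαR hβR e10 e11 e12 P'F P'V hF hV hP'F1 hP'V2
    hres₁ ⟨J, H40.self_mem_chartB J⟩ ⟨J⁻¹, H40.self_mem_chartB J⁻¹⟩ hJJ
    (fun b => H40.mem_chartB.1 b.2) (fun b => H40.mem_chartB.1 b.2) hres₂ hcusp
  -- (r4)
  have hE4 := hE4_real q hq hA E0 hfix (q * (q * L)) (m := p ^ k)
    (B₁ := H40.chartB RR J) (B₂ := H40.chartB RR J⁻¹) P₁ P₂ hh₁ hh₂ hVeq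
    h₁ hL hD hq1 hq2 hq3 (q₁ := algebraMap RR B' πq) (hαR πq) (hβR πq) hq1' hq2'
    hintα hintβ hW2 hW4 hM2 hM4 e10 e11 e12 h₂ hD₂ hr1 hr2 hr3 e20 e21 e22
    ⟨J, H40.self_mem_chartB J⟩ ⟨J⁻¹, H40.self_mem_chartB J⁻¹⟩ hJJ
    (fun b => H40.mem_chartB.1 b.2) (fun b => H40.mem_chartB.1 b.2) hres₂ hcusp hM4r2
  have key := geoFn36E_of_twoCharts L q hq hA E0 hfix hp hpq k
    (B₁ := H40.chartB RR J) (B₂ := H40.chartB RR J⁻¹) P₁ P₂ hh₁ hh₂
    (H56.valuationSubringAt (K := F₁) P'F hF) (H56.valuationSubringAt (K := F₁) P'V hV)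
    (S36.H61.vertFam_injective P₁ e10 e11 e12 h₁ hW2 hW4) hVeq
    (hbranch_of_threeComponents h₁ P₁ e10 e11 e12)
    (hbranch_of_threeComponents h₂ P₂ e20 e21 e22)
    hWFint hWFq hWFπ hWVint hWVq hWVπ HVa HVb hpt crit hE3 hE4
  exact key

end Real

end Fermat.Agent.S36.H18
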