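/-
helper35: S36, (r4)-inst binders `[IsDedekindDomain D₁] [IsDedekindDomain D₂] hD₁ hD₂` of
helper56's `H56.hE4_real_chartB` (and of every consumer of the `ThreeComponents` packages) at the
REAL branch rings of level `L`:

* chart 1: `D₁ = integralClosure kA[j̄] ⊂ F_k(L)`;
* chart 2: `D₂ = integralClosure kA[j̄⁻¹] ⊂ F_k(L)`.

Both are Dedekind domains (hence domains, integrally closed), not fields, of characteristic `q`
(`(q : D_i) = 0`).  One-liners on top of `S18.H97` / `S34.H83`, collected under stable names.
-/
import Fermat.Agent.S36.H35_MidCuspFacts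
import Fermat.Agent.S18.H97_FibreInst

set_option autoImplicit false
set_option linter.unusedSectionVars false
set_option linter.style.haveILetI false
set_option synthInstance.maxHeartbeats 400000

noncomputable section

namespace Fermat.Agent.S36.H35BR

open ModularCurve Polynomial IsLocalRing Fermat.Agent.S28
open Fermat.Agent.S18 Fermat.Agent.S34.H92 Fermat.Agent.S34.H16 Fermat.Agent.S34.H55

local notation "Qbar" => AlgebraicClosure ℚ

section Real

variable (L : ℕ) [NeZero L] {q : ℕ} [hq : Fact q.Prime] (hqL : ¬ q ∣ L)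
  (A : ValuationSubring Qbar) (hA : A.LiesOverPrime q)

local notation "kA" => IsLocalRing.ResidueField A
local notation "FkL" => modularFunctionFieldFullC (IsLocalRing.ResidueField A) L

include hqL hA in
/-- **`[IsDedekindDomain D₁]`**, chart 1. -/
theorem isDedekindDomain_D1 :
    IsDedekindDomain ↥(integralClosure (Algebra.adjoin kA {S18.H16.jK kA L}) FkL) := by
  haveI := S18.H16.isAlgClosed_k A
  haveI := S18.H16.finiteDimensional_Fk L hqL A hA
  haveI := S18.H16.isSeparable_Fk L hqL A hA
  exact S18.H97.isDedekindDomain_intRing_of_isSeparable (S18.H16.jK kA L)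
    (S18.H16.transcendental_jk L A)

include hqL hA in
/-- **`[IsDedekindDomain D₂]`**, chart 2. -/
theorem isDedekindDomain_D2 :
    IsDedekindDomain ↥(integralClosure (Algebra.adjoin kA {(S18.H16.jK kA L)⁻¹}) FkL) := by
  haveI := S18.H16.finiteDimensional_Fk L hqL A hA
  haveI := S18.H16.isSeparable_Fk L hqL A hA
  haveI := S18.H97.finiteDimensional_adjoin_inv (k := kA) (S18.H16.jK kA L)
  haveI := S18.H97.isSeparable_adjoin_inv (k := kA) (S18.H16.jK kA L)
  exact S18.H97.isDedekindDomain_intRing_of_isSeparable (S18.H16.jK kA L)⁻¹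
    (S18.H97.transcendental_inv (S18.H16.transcendental_jk L A))

/-- **`hD₁`**: the branch ring of chart 1 is not a field. -/
theorem not_isField_D1 :
    ¬ IsField ↥(integralClosure (Algebra.adjoin kA {S18.H16.jK kA L}) FkL) :=
  S34.H83.not_isField_integralClosure_adjoin _ (S18.H16.transcendental_jK kA L)

/-- **`hD₂`**: the branch ring of chart 2 is not a field. -/
theorem not_isField_D2 :
    ¬ IsField ↥(integralClosure (Algebra.adjoin kA {(S18.H16.jK kA L)⁻¹}) FkL) :=
  S36.H35MC.not_isField_D L A

include hA in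
/-- `(q : D₁) = 0`. -/
theorem natCast_D1_eq_zero :
    ((q : ℕ) : ↥(integralClosure (Algebra.adjoin kA {S18.H16.jK kA L}) FkL)) = 0 :=
  S35.H55.natCast_branch_eq_zero L A hA _

include hA in
/-- `(q : D₂) = 0`. -/
theorem natCast_D2_eq_zero :
    ((q : ℕ) : ↥(integralClosure (Algebra.adjoin kA {(S18.H16.jK kA L)⁻¹}) FkL)) = 0 :=
  S35.H55.natCast_branch_eq_zero L A hA _

end Real

end Fermat.Agent.S36.H35BR
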