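/-
helper3 — S36: the Frobenius-type substitution `S34.H55.WR Fr q hFrw` on the integral closure of
`k[w]` (the `W` of `S36.H83.ThreeComponents` / `LevelMaps` at the real types) is injective:
the `hWinj` binder of `S36.H3.hE3_of_levelMaps` / `hW` of `S36.H47.incidence_table_of_levelMaps`.
-/
import Mathlib
import Fermat.Agent.S34.H55_TwoComponentsGlue

set_option autoImplicit false

namespace Fermat.Agent.S36.H3

open Fermat.Agent.S34.H55

theorem WR_injective {k Fk : Type*} [Field k] [Field Fk] [Algebra k Fk] (Fr : Fk →ₐ[k] Fk)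
    {w : Fk} (q : ℕ) (hFrw : Fr w = w ^ q) : Function.Injective (WR Fr q hFrw) := by
  intro a b h
  apply Subtype.ext
  apply (Fr : Fk →+* Fk).injective
  have h' := congrArg (fun z : ↥(integralClosure (Algebra.adjoin k {w}) Fk) => (z : Fk)) h
  simp only [coe_WR] at h'
  exact h'

end Fermat.Agent.S36.H3
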