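/-
helper3 — S36 row (E3)/(r2)-inst: **the orders of `q` at the three vertical primes of a level-`q²`
chart are `(1, q - 1, 1)`**, at the chart level, from EXACTLY the outputs of (E2):

* `h : S36.H83.ThreeComponents red₁ red₂ red₃ … q qB` (its `hsat` : `P₁ ∩ P₂^((q-1)) ∩ P₃ ⊆ (q)`
  gives the upper bounds, evaluated at `τ₀ τ₁^(q-1) τ₂`);
* `red_i qB = 0` (lower bounds `1`);
* `∃ s, red₂ s ≠ 0 ∧ s * qB ∈ ker red₂ ^ (q - 1)` (`q ∈ P₂^((q-1))`: lower bound `q - 1` at the
  middle component; an output of `S36.H70.exists_threeComponents_chartBC_unram`),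
* `qK` = any spelling of the image of `qB` in the fraction field (`hqK : qK = algebraMap B K qB`),

relative to uniformisers `t` as produced by `S36.H62.exists_uniformisers`.  The output is in the
shape of the binders `hq0 hq1 hq2 hqV` of `S36.H3.hE3_real`.
-/
import Mathlib
import Fermat.Agent.CA.H3_HasOrd
import Fermat.Agent.S36.H62_Uniformisers
import Fermat.Agent.S36.H83_ThreeComponents

set_option autoImplicit false
set_option linter.unusedSectionVars false
set_option linter.style.haveILetI false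

namespace Fermat.Agent.S36.H3

open Fermat.Agent.CA.H3 Fermat.Agent.S34.H56 Fermat.Agent.S36.H83

section Ord

variable {F : Type*} [Field F] {V : ValuationSubring F} {t x y : F} {n k : ℤ}

/-- orders are antitone in the valuation. -/
theorem hasOrd_le_of_valuation_le (ht : t ≠ 0) (htV : V.valuation t < 1) (hx : HasOrd V t x n)
    (hy : HasOrd V t y k) (hle : V.valuation x ≤ V.valuation y) : k ≤ n := by
  have ht' : 0 < V.valuation t := zero_lt_iff.2 ((Valuation.ne_zero_iff _).2 ht)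
  rw [hx.valuation_eq ht, hy.valuation_eq ht] at hle
  exact (zpow_le_zpow_iff_right_of_lt_one₀ ht' htV).1 hle

/-- the valuation is antitone in the order. -/
theorem valuation_le_of_hasOrd_le (ht : t ≠ 0) (htV : V.valuation t < 1) (hx : HasOrd V t x n)
    (hy : HasOrd V t y k) (hle : k ≤ n) : V.valuation x ≤ V.valuation y := by
  have ht' : 0 < V.valuation t := zero_lt_iff.2 ((Valuation.ne_zero_iff _).2 ht)
  rw [hx.valuation_eq ht, hy.valuation_eq ht]
  exact (zpow_le_zpow_iff_right_of_lt_one₀ ht' htV).2 hle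

/-- a non-unit has positive order. -/
theorem one_le_of_hasOrd_of_valuation_lt_one (ht : t ≠ 0) (htV : V.valuation t < 1)
    (hx : HasOrd V t x n) (hlt : V.valuation x < 1) : 1 ≤ n := by
  have h0 : (0 : ℤ) ≤ n := by
    refine hasOrd_le_of_valuation_le ht htV hx (HasOrd.of_unit (t := t) (map_one _)) ?_
    rw [map_one]
    exact hlt.le
  rcases h0.lt_or_eq with h | h
  · omega
  · exfalso
    have := (hx.congr h.symm).unit_of_zero
    exact absurd this hlt.ne

end Ord

section Pow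

variable {B K : Type*} [CommRing B] [Field K] [Algebra B K]

/-- elements of `p ^ n` have valuation at most `c ^ n`, if those of `p` have valuation at most
`c`. -/
theorem valuation_le_pow_of_mem_pow (V : ValuationSubring K)
    (hB : ∀ b : B, V.valuation (algebraMap B K b) ≤ 1) (p : Ideal B) (c : V.ValueGroup)
    (hp : ∀ y ∈ p, V.valuation (algebraMap B K y) ≤ c) (n : ℕ) :
    ∀ x ∈ p ^ n, V.valuation (algebraMap B K x) ≤ c ^ n := by
  induction n with
  | zero =>
    intro x _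
    rw [pow_zero]
    exact hB x
  | succ n ih =>
    intro x hx
    rw [pow_succ] at hx
    refine Submodule.mul_induction_on hx (fun a ha b hb => ?_) (fun a b ha hb => ?_)
    · rw [map_mul, map_mul, pow_succ]
      exact mul_le_mul' (ih a ha) (hp b hb)
    · rw [map_add]
      exact (V.valuation.map_add_le ha hb)

end Pow

section Chart

variable {B K : Type*} [CommRing B] [IsDomain B] [Field K] [Algebra B K] [IsFractionRing B K]
  [IsNoetherianRing B] [IsIntegrallyClosed B]
  {D BM : Type*} [CommRing D] [Nontrivial D] [CommRing BM]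
  {red₁ red₂ red₃ : B →+* D} {ιu ιv ιw : BM →+* B} {rbar : BM →+* D} {W : D →+* D}
  {q : ℕ} {qB : B}

/-- **The orders of `q` at the three vertical primes are `(1, q - 1, 1)`** (binders
`hq0 hq1 hq2 hqV` of `S36.H3.hE3_real`), relative to any uniformisers `t` of the shape produced by
`S36.H62.exists_uniformisers`. -/
theorem qOrders_of_threeComponents
    (h : ThreeComponents red₁ red₂ red₃ ιu ιv ιw rbar W q qB) (hq : 1 ≤ q) (hqB0 : qB ≠ 0)
    (hq1 : red₁ qB = 0) (hq2 : red₂ qB = 0) (hq3 : red₃ qB = 0)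
    (hqm : ∃ s : B, red₂ s ≠ 0 ∧ s * qB ∈ RingHom.ker red₂ ^ (q - 1))
    (P : Fin 3 → Ideal B) [hP : ∀ i, (P i).IsPrime] (hh : ∀ i, (P i).height = 1)
    (hP0 : P 0 = RingHom.ker red₁) (hP1 : P 1 = RingHom.ker red₂) (hP2 : P 2 = RingHom.ker red₃)
    (t : Fin 3 → K) (ht0 : ∀ i, t i ≠ 0)
    (hord : ∀ i (x : K), x ≠ 0 → ∃ n : ℤ,
      (valuationSubringAt (K := K) (P i) (hh i)).valuation (x * t i ^ (-n)) = 1)
    (hsep : ∀ i j, i ≠ j → (valuationSubringAt (K := K) (P j) (hh j)).valuation (t i) = 1)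
    (hτ : ∀ i, ∃ τ : B, τ ∈ P i ∧ t i = algebraMap B K τ)
    {qK : K} (hqK : qK = algebraMap B K qB) :
    (valuationSubringAt (K := K) (P 0) (hh 0)).valuation (qK * t 0 ^ (-(1 : ℤ))) = 1 ∧
      (valuationSubringAt (K := K) (P 1) (hh 1)).valuation
        (qK * t 1 ^ (-((q : ℤ) - 1))) = 1 ∧
      (valuationSubringAt (K := K) (P 2) (hh 2)).valuation (qK * t 2 ^ (-(1 : ℤ))) = 1 ∧
      ∀ i, (valuationSubringAt (K := K) (P i) (hh i)).valuation qK < 1 := by
  classical
  have hqK0 : qK ≠ 0 := fun h0 =>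
    hqB0 ((IsFractionRing.injective B K) (by rw [← hqK, h0, map_zero]))
  choose τ hτP hτt using hτ
  -- `t i` is a non-unit of `V i`
  have htV : ∀ i, (valuationSubringAt (K := K) (P i) (hh i)).valuation (t i) < 1 := fun i => by
    rw [hτt i]
    exact (algebraMap_mem_nonunits_iff (hh i) (τ i)).2 (hτP i)
  -- `q` lies in the three primes
  have hqP : ∀ i, qB ∈ P i := by
    intro i
    fin_cases i
    · change qB ∈ P 0
      rw [hP0]; exact (RingHom.mem_ker).2 hq1
    · change qB ∈ P 1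
      rw [hP1]; exact (RingHom.mem_ker).2 hq2
    · change qB ∈ P 2
      rw [hP2]; exact (RingHom.mem_ker).2 hq3
  have hqV : ∀ i, (valuationSubringAt (K := K) (P i) (hh i)).valuation qK < 1 := fun i => by
    rw [hqK]
    exact (algebraMap_mem_nonunits_iff (hh i) qB).2 (hqP i)
  have hBle : ∀ i (b : B),
      (valuationSubringAt (K := K) (P i) (hh i)).valuation (algebraMap B K b) ≤ 1 := fun i b =>
    ((valuationSubringAt (K := K) (P i) (hh i)).valuation_le_one_iff _).2
      (algebraMap_mem_valuationSubringAt (hh i) b)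
  -- the test element `z = τ₀ τ₁^(q-1) τ₂ ∈ (q)`
  have hz : τ 0 * τ 1 ^ (q - 1) * τ 2 ∈ Ideal.span {qB} := by
    refine h.mul_mem_span ?_ (Ideal.pow_mem_pow ?_ _) ?_
    · exact (RingHom.mem_ker).1 (hP0 ▸ hτP 0)
    · exact hP1 ▸ hτP 1
    · exact (RingHom.mem_ker).1 (hP2 ▸ hτP 2)
  obtain ⟨c, hc⟩ := Ideal.mem_span_singleton'.1 hz
  have hzK : t 0 * t 1 ^ (q - 1) * t 2 = algebraMap B K c * qK := by
    rw [hτt 0, hτt 1, hτt 2, hqK, ← map_pow, ← map_mul, ← map_mul, ← map_mul, hc]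
  have hzle : ∀ i, (valuationSubringAt (K := K) (P i) (hh i)).valuation
      (t 0 * t 1 ^ (q - 1) * t 2) ≤ (valuationSubringAt (K := K) (P i) (hh i)).valuation qK := by
    intro i
    rw [hzK, map_mul]
    exact mul_le_of_le_one_left' (hBle i c)
  -- orders of `q`
  obtain ⟨n₀, hn₀⟩ := hord 0 qK hqK0
  obtain ⟨n₁, hn₁⟩ := hord 1 qK hqK0
  obtain ⟨n₂, hn₂⟩ := hord 2 qK hqK0
  have hn₀' : HasOrd (valuationSubringAt (K := K) (P 0) (hh 0)) (t 0) qK n₀ := hn₀
  have hn₁' : HasOrd (valuationSubringAt (K := K) (P 1) (hh 1)) (t 1) qK n₁ := hn₁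
  have hn₂' : HasOrd (valuationSubringAt (K := K) (P 2) (hh 2)) (t 2) qK n₂ := hn₂
  -- orders of `z`
  have hz0 : HasOrd (valuationSubringAt (K := K) (P 0) (hh 0)) (t 0)
      (t 0 * t 1 ^ (q - 1) * t 2) 1 := by
    have h1 : (valuationSubringAt (K := K) (P 0) (hh 0)).valuation (t 1 ^ (q - 1) * t 2) = 1 := by
      rw [map_mul, map_pow, hsep 1 0 (by decide), hsep 2 0 (by decide), one_pow, one_mul]
    have := (HasOrd.self (V := valuationSubringAt (K := K) (P 0) (hh 0)) (ht0 0)).mul_unit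
      (ht0 0) h1
    rwa [← mul_assoc] at this
  have hz2 : HasOrd (valuationSubringAt (K := K) (P 2) (hh 2)) (t 2)
      (t 0 * t 1 ^ (q - 1) * t 2) 1 := by
    have h1 : (valuationSubringAt (K := K) (P 2) (hh 2)).valuation (t 0 * t 1 ^ (q - 1)) = 1 := by
      rw [map_mul, map_pow, hsep 1 2 (by decide), hsep 0 2 (by decide), one_pow, one_mul]
    have := (HasOrd.self (V := valuationSubringAt (K := K) (P 2) (hh 2)) (ht0 2)).mul_unit
      (ht0 2) h1
    rwa [mul_comm] at this
  have hpow1 : HasOrd (valuationSubringAt (K := K) (P 1) (hh 1)) (t 1) (t 1 ^ (q - 1))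
      ((q : ℤ) - 1) := by
    have := (HasOrd.self (V := valuationSubringAt (K := K) (P 1) (hh 1)) (ht0 1)).pow (ht0 1)
      (q - 1)
    refine this.congr ?_
    rw [mul_one, Nat.cast_sub hq, Nat.cast_one]
  have hz1 : HasOrd (valuationSubringAt (K := K) (P 1) (hh 1)) (t 1)
      (t 0 * t 1 ^ (q - 1) * t 2) ((q : ℤ) - 1) := by
    have h1 : (valuationSubringAt (K := K) (P 1) (hh 1)).valuation (t 0 * t 2) = 1 := by
      rw [map_mul, hsep 0 1 (by decide), hsep 2 1 (by decide), one_mul]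
    have := hpow1.mul_unit (ht0 1) h1
    have e : t 1 ^ (q - 1) * (t 0 * t 2) = t 0 * t 1 ^ (q - 1) * t 2 := by ring
    rwa [e] at this
  -- upper bounds
  have hu0 : n₀ ≤ 1 := hasOrd_le_of_valuation_le (ht0 0) (htV 0) hz0 hn₀' (hzle 0)
  have hu1 : n₁ ≤ (q : ℤ) - 1 := hasOrd_le_of_valuation_le (ht0 1) (htV 1) hz1 hn₁' (hzle 1)
  have hu2 : n₂ ≤ 1 := hasOrd_le_of_valuation_le (ht0 2) (htV 2) hz2 hn₂' (hzle 2)
  -- lower bounds
  have hl0 : 1 ≤ n₀ := one_le_of_hasOrd_of_valuation_lt_one (ht0 0) (htV 0) hn₀' (hqV 0)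
  have hl2 : 1 ≤ n₂ := one_le_of_hasOrd_of_valuation_lt_one (ht0 2) (htV 2) hn₂' (hqV 2)
  have hl1 : (q : ℤ) - 1 ≤ n₁ := by
    obtain ⟨s, hs, hsq⟩ := hqm
    have hsP : s ∉ P 1 := fun hmem => hs ((RingHom.mem_ker).1 (hP1 ▸ hmem))
    have hsV : (valuationSubringAt (K := K) (P 1) (hh 1)).valuation (algebraMap B K s) = 1 := by
      refine le_antisymm (hBle 1 s) (not_lt.1 fun hlt => hsP ?_)
      exact (algebraMap_mem_nonunits_iff (hh 1) s).1 hlt
    have hple : ∀ y ∈ P 1, (valuationSubringAt (K := K) (P 1) (hh 1)).valuation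
        (algebraMap B K y) ≤ (valuationSubringAt (K := K) (P 1) (hh 1)).valuation (t 1) := by
      intro y hy
      by_cases hy0 : algebraMap B K y = 0
      · rw [hy0, map_zero]; exact zero_le
      · obtain ⟨k, hk⟩ := hord 1 _ hy0
        have hk' : HasOrd (valuationSubringAt (K := K) (P 1) (hh 1)) (t 1)
          (algebraMap B K y) k := hk
        have hk1 : 1 ≤ k := one_le_of_hasOrd_of_valuation_lt_one (ht0 1) (htV 1) hk'
          ((algebraMap_mem_nonunits_iff (hh 1) y).2 hy)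
        exact valuation_le_of_hasOrd_le (ht0 1) (htV 1) hk' (HasOrd.self (ht0 1)) hk1
    have hle := valuation_le_pow_of_mem_pow (valuationSubringAt (K := K) (P 1) (hh 1)) (hBle 1)
      (P 1) _ hple (q - 1) (s * qB) (hP1 ▸ hsq)
    rw [← map_pow] at hle
    have hsq' : HasOrd (valuationSubringAt (K := K) (P 1) (hh 1)) (t 1)
        (algebraMap B K (s * qB)) n₁ := by
      rw [map_mul, mul_comm, ← hqK]
      exact hn₁'.mul_unit (ht0 1) hsV
    exact hasOrd_le_of_valuation_le (ht0 1) (htV 1) hsq' hpow1 hle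
  have e0 : n₀ = 1 := le_antisymm hu0 hl0
  have e1 : n₁ = (q : ℤ) - 1 := le_antisymm hu1 hl1
  have e2 : n₂ = 1 := le_antisymm hu2 hl2
  subst e0 e1 e2
  exact ⟨hn₀, hn₁, hn₂, hqV⟩

end Chart

end Fermat.Agent.S36.H3
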