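/-
helper18 — S36, seam (E5-bc) (asked by helper46, board #3501 (iv)): **the two norms commute with
every coefficientwise base change** `S18.H99.fullCMap φ` (in particular with
`S18.H45.baseChangeE E`), at the levels `N1 ∣ N2 = q * N1`, `q ∣ N1`:

* `fullCMap_normAlphaK` : `fullCMap φ N1 (normAlphaK K N1 N2 hN x) = normAlphaK K' N1 N2 hN (fullCMap φ N2 x)`;
* `fullCMap_normBetaK`  : the same along `β = V_q`;
* `fullCMap_alphaK`, `fullCMap_betaK` : the two degeneracy maps commute with `fullCMap φ`;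
* `baseChangeE_normAlphaK`, `baseChangeE_normBetaK`, `baseChangeE_alphaK`, `baseChangeE_betaK` :
  the case `φ = algebraMap (unrCyclo ℓ) ↥E`.

(= the `E0 ← K₁` twin of `H18.toBar_norm_alpha36/_beta36`, via `S29.H19.norm_baseChange`.)
-/
import Mathlib
import Fermat.Agent.S36.H18_Geo36Base
import Fermat.Agent.S36.H16_RelDegQ
import Fermat.Agent.S35.H85_BaseChangeV
import Fermat.Agent.S29.H19_NormBaseChange

set_option autoImplicit false
set_option linter.unusedSectionVars false
set_option linter.style.haveILetI false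
set_option synthInstance.maxHeartbeats 400000

noncomputable section

namespace Fermat.Agent.S36.H18

open ModularCurve AlgebraicCurve IntermediateField
open Fermat.Agent.S18 Fermat.Agent.S34

local notation "Qbar" => AlgebraicClosure ℚ

section FullCMap

variable {K K' : Type} [Field K] [Field K'] (φ : K →+* K')
  (q N1 N2 : ℕ) [NeZero q] [NeZero N1] [NeZero N2] (hN : N1 ∣ N2) (hqN : q * N1 ∣ N2)

/-- `α` commutes with the coefficientwise base change. -/
theorem fullCMap_alphaK (x : modularFunctionFieldFullC K N1) :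
    H99.fullCMap φ N2 (alphaK K N1 N2 hN x) = alphaK K' N1 N2 hN (H99.fullCMap φ N1 x) :=
  S35.H85.fullCMap_degAlgebra φ N1 N2 hN x

/-- `β = V_q` commutes with the coefficientwise base change. -/
theorem fullCMap_betaK (x : modularFunctionFieldFullC K N1) :
    H99.fullCMap φ N2 (betaK K q N1 N2 hqN x) = betaK K' q N1 N2 hqN (H99.fullCMap φ N1 x) :=
  S35.H85.fullCMap_vAlgebra φ N1 N2 q hqN x

/-- `F_{K'}(N2)` is generated, as a field, by any subfield containing the constants and the image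
of `F_K(N2)`. -/
theorem closure_fullCMap_eq_top (hNK' : ((N2 : ℕ) : K') ≠ 0)
    (S : Set (modularFunctionFieldFullC K' N2))
    (hS : ∀ c : K', algebraMap K' (modularFunctionFieldFullC K' N2) c ∈ S) :
    Subfield.closure (S ∪ Set.range (H99.fullCMap φ N2)) = ⊤ := by
  rw [eq_top_iff]
  intro z _
  have hz : z ∈ IntermediateField.adjoin K' {S18.H16.jK K' N2, S18.H16.jNK K' N2} := by
    rw [S18.H16.adjoin_pair_eq_top_gen N2 K' hNK']
    trivial
  have hz' : z ∈ Subfield.closure
      (Set.range (algebraMap K' (modularFunctionFieldFullC K' N2)) ∪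
        {S18.H16.jK K' N2, S18.H16.jNK K' N2}) := hz
  refine Subfield.closure_mono ?_ hz'
  rintro _ (⟨c, rfl⟩ | h)
  · left
    exact hS c
  · right
    rcases h with rfl | h
    · exact ⟨S18.H16.jK K N2, H99.fullCMap_jK φ N2⟩
    · rw [Set.mem_singleton_iff] at h
      rw [h]
      exact ⟨S18.H16.jNK K N2, H99.fullCMap_jNK φ N2⟩

/-- **The norm along `α` commutes with the coefficientwise base change.** -/
theorem fullCMap_normAlphaK (hq : q.Prime) (hqN1 : q ∣ N1) (hN2 : N2 = q * N1)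
    (hNK : ((N2 : ℕ) : K) ≠ 0) (hNK' : ((N2 : ℕ) : K') ≠ 0)
    (x : modularFunctionFieldFullC K N2) :
    H99.fullCMap φ N1 (normAlphaK K N1 N2 hN x) =
      normAlphaK K' N1 N2 hN (H99.fullCMap φ N2 x) := by
  by_cases hx : x = 0
  · rw [hx, map_zero, map_zero, map_zero, map_zero]
  have hx' : H99.fullCMap φ N2 x ≠ 0 := (map_ne_zero _).mpr hx
  rw [normAlphaK_apply K N1 N2 hN hx, normAlphaK_apply K' N1 N2 hN hx']
  letI a1 := H16.degAlgebra K N1 N2 hN
  letI a2 := H16.degAlgebra K' N1 N2 hN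
  haveI := S36.H16.finiteDimensional_fullC_prime_dvd K N1 N2 hN q hq hqN1 hN2 hNK
  have hdeg : Module.finrank (modularFunctionFieldFullC K' N1) (modularFunctionFieldFullC K' N2) =
      Module.finrank (modularFunctionFieldFullC K N1) (modularFunctionFieldFullC K N2) := by
    rw [S36.H16.finrank_fullC_prime_dvd K' N1 N2 hN q hq hqN1 hN2 hNK',
      S36.H16.finrank_fullC_prime_dvd K N1 N2 hN q hq hqN1 hN2 hNK]
  haveI := H16.degAlgebra_isScalarTower K' N1 N2 hN
  have hgen := closure_fullCMap_eq_top φ N2 hNK'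
    (Set.range (algebraMap (modularFunctionFieldFullC K' N1) (modularFunctionFieldFullC K' N2)))
    (fun c => ⟨algebraMap K' (modularFunctionFieldFullC K' N1) c,
      (IsScalarTower.algebraMap_apply K' (modularFunctionFieldFullC K' N1)
        (modularFunctionFieldFullC K' N2) c).symm⟩)
  exact ((Fermat.Agent.S29.H19.norm_baseChange (H99.fullCMap φ N1) (H99.fullCMap φ N2)
    (S35.H85.fullCMap_degAlgebra φ N1 N2 hN) hdeg hgen x).1).symm

/-- **The norm along `β = V_q` commutes with the coefficientwise base change.** -/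
theorem fullCMap_normBetaK (hq : q.Prime) (hqN1 : q ∣ N1) (hN2 : N2 = q * N1)
    (hNK : ((N2 : ℕ) : K) ≠ 0) (hNK' : ((N2 : ℕ) : K') ≠ 0)
    (x : modularFunctionFieldFullC K N2) :
    H99.fullCMap φ N1 (normBetaK K q N1 N2 hqN x) =
      normBetaK K' q N1 N2 hqN (H99.fullCMap φ N2 x) := by
  by_cases hx : x = 0
  · rw [hx, map_zero, map_zero, map_zero, map_zero]
  have hx' : H99.fullCMap φ N2 x ≠ 0 := (map_ne_zero _).mpr hx
  rw [normBetaK_apply K q N1 N2 hqN hx, normBetaK_apply K' q N1 N2 hqN hx']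
  letI a1 := S35.H16.vAlgebra K q N1 N2 hqN
  letI a2 := S35.H16.vAlgebra K' q N1 N2 hqN
  haveI := S36.H16.finiteDimensional_vSub_dvd K N1 N2 q hq hqN1 hN2 hNK
  have hdeg : Module.finrank (modularFunctionFieldFullC K' N1) (modularFunctionFieldFullC K' N2) =
      Module.finrank (modularFunctionFieldFullC K N1) (modularFunctionFieldFullC K N2) := by
    have h1 := S36.H16.finrank_vSub_dvd K' N1 N2 q hq hqN1 hN2 hNK'
    have h2 := S36.H16.finrank_vSub_dvd K N1 N2 q hq hqN1 hN2 hNK
    rw [h1, h2]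
  haveI := S35.H16.vAlgebra_isScalarTower K' q N1 N2 hqN
  have hgen := closure_fullCMap_eq_top φ N2 hNK'
    (Set.range (algebraMap (modularFunctionFieldFullC K' N1) (modularFunctionFieldFullC K' N2)))
    (fun c => ⟨algebraMap K' (modularFunctionFieldFullC K' N1) c,
      (IsScalarTower.algebraMap_apply K' (modularFunctionFieldFullC K' N1)
        (modularFunctionFieldFullC K' N2) c).symm⟩)
  exact ((Fermat.Agent.S29.H19.norm_baseChange (H99.fullCMap φ N1) (H99.fullCMap φ N2)
    (S35.H85.fullCMap_vAlgebra φ N1 N2 q hqN) hdeg hgen x).1).symm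

end FullCMap

section BaseChangeE

variable {ℓ : ℕ} (E : IntermediateField (H45.unrCyclo ℓ) Qbar)
  (q N1 N2 : ℕ) [NeZero q] [NeZero N1] [NeZero N2] (hN : N1 ∣ N2) (hqN : q * N1 ∣ N2)

theorem baseChangeE_alphaK (x : modularFunctionFieldFullC (H45.unrCyclo ℓ) N1) :
    H45.baseChangeE E N2 (alphaK (H45.unrCyclo ℓ) N1 N2 hN x) =
      alphaK ↥E N1 N2 hN (H45.baseChangeE E N1 x) :=
  fullCMap_alphaK _ N1 N2 hN x

theorem baseChangeE_betaK (x : modularFunctionFieldFullC (H45.unrCyclo ℓ) N1) :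
    H45.baseChangeE E N2 (betaK (H45.unrCyclo ℓ) q N1 N2 hqN x) =
      betaK ↥E q N1 N2 hqN (H45.baseChangeE E N1 x) :=
  fullCMap_betaK _ q N1 N2 hqN x

theorem baseChangeE_normAlphaK (hq : q.Prime) (hqN1 : q ∣ N1) (hN2 : N2 = q * N1)
    (x : modularFunctionFieldFullC (H45.unrCyclo ℓ) N2) :
    H45.baseChangeE E N1 (normAlphaK (H45.unrCyclo ℓ) N1 N2 hN x) =
      normAlphaK ↥E N1 N2 hN (H45.baseChangeE E N2 x) :=
  fullCMap_normAlphaK _ q N1 N2 hN hq hqN1 hN2
    (Nat.cast_ne_zero.mpr (NeZero.ne N2)) (Nat.cast_ne_zero.mpr (NeZero.ne N2)) x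

theorem baseChangeE_normBetaK (hq : q.Prime) (hqN1 : q ∣ N1) (hN2 : N2 = q * N1)
    (x : modularFunctionFieldFullC (H45.unrCyclo ℓ) N2) :
    H45.baseChangeE E N1 (normBetaK (H45.unrCyclo ℓ) q N1 N2 hqN x) =
      normBetaK ↥E q N1 N2 hqN (H45.baseChangeE E N2 x) :=
  fullCMap_normBetaK _ q N1 N2 hqN hq hqN1 hN2
    (Nat.cast_ne_zero.mpr (NeZero.ne N2)) (Nat.cast_ne_zero.mpr (NeZero.ne N2)) x

end BaseChangeE

end Fermat.Agent.S36.H18
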