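/-
helper46 -- S36 (Carayol), row (E5), step (E5-bc): **base change of the tower datum `TowerValU`
from the level of the constant field `L₁ = unrCyclo q` (where the (M1) places live) to the level
of a finite unramified extension `E₀` (where the skeleton `S36.H18.geoFn36E_of_radicalDatum`
lives).**  Everything here is generic (fields, valuation subrings, ring homs).

* `Dominates bc V VE` : the valuation ring `VE` of the big field dominates `V` along `bc`;
  `DenseIn bc V VE` : every unit of `VE` is `bc (unit of V)` times a `1`-unit (= the residue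
  extension is trivial);
* `towerValU_baseChange` : `TowerValU a Na q Vs Vm Vi Ws Wi` (small fields `F1 F2`) ⟹
  `TowerValU aE NaE q VsE VmE ViE WsE WiE` (big fields `E1 E2`), from: the commuting square
  `aE ∘ bc₁ = bc₂ ∘ a`, norm compatibility `NaE ∘ bc₂ = bc₁ ∘ Na`, dominance of the five valuation
  rings, density at the three upper ones, lying-over at the big level (as `Dominates aE …`), weak
  approximation for `(Vs, Vm)` at the small level, and "the norm of a `1`-unit is a `1`-unit" at
  the big level (`hN1s`, `hN1i`);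
* `oneU_norm_of_oneU` : the last input, generically: from "exactly these places above" + the
  `e`-data inequalities, by helper93's `CA.H93.exists_norm_one_add_eq` and helper3's
  `CA.H3.isIntegral_of_forall_valuation_le_one`;
* `dominates_of_chart`, `denseIn_of_chart` : the chart-level producers (`V = valuationSubringAt P`,
  `VE = valuationSubringAt Q`, `ψ : B →+* C` over `bc` with `ψ⁻¹ Q = P`, and the decomposition
  `C = ψ B + π C`, `π ∈ Q`).
-/
import Mathlib
import Fermat.Agent.S36.H46_TowerValU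
import Fermat.Agent.CA.H93_NormOneUnit
import Fermat.Agent.CA.H3_NormOrd
import Fermat.Agent.S34.H56_PrimeVal

set_option autoImplicit false
set_option linter.unusedSectionVars false

namespace Fermat.Agent.S36.H46

open Fermat.Agent.S34 Fermat.Agent.S34.H47 Fermat.Agent.S36.H85

section Dom

variable {F E : Type*} [Field F] [Field E]

/-- `VE` dominates `V` along `bc`. -/
structure Dominates (bc : F →+* E) (V : ValuationSubring F) (VE : ValuationSubring E) :
    Prop where
  le_one : ∀ x, V.valuation x ≤ 1 → VE.valuation (bc x) ≤ 1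
  lt_one : ∀ x, V.valuation x < 1 → VE.valuation (bc x) < 1

/-- every unit of `VE` is `bc` of a unit of `V` times a `1`-unit. -/
def DenseIn (bc : F →+* E) (V : ValuationSubring F) (VE : ValuationSubring E) : Prop :=
  ∀ y : E, VE.valuation y = 1 → ∃ x : F, V.valuation x = 1 ∧ OneU VE (y / bc x)

variable {bc : F →+* E} {V : ValuationSubring F} {VE : ValuationSubring E}

theorem valuation_inv_le_one_of_not_lt {A : ValuationSubring F} {x : F}
    (h : ¬ A.valuation x < 1) : A.valuation x⁻¹ ≤ 1 := by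
  have h1 : 1 ≤ A.valuation x := not_lt.1 h
  have hx0 : A.valuation x ≠ 0 := fun h0 => by
    rw [h0] at h1
    exact not_le.2 zero_lt_one h1
  rw [map_inv₀]
  exact inv_le_one_of_one_le₀ h1

theorem Dominates.eq_one (d : Dominates bc V VE) {x : F} (hx : V.valuation x = 1) :
    VE.valuation (bc x) = 1 := by
  refine le_antisymm (d.le_one x hx.le) ?_
  have h1 : VE.valuation (bc x⁻¹) ≤ 1 := d.le_one _ (by rw [map_inv₀, hx, inv_one])
  rw [map_inv₀, map_inv₀] at h1
  by_contra hlt
  have hlt' : VE.valuation (bc x) < 1 := not_le.1 hlt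
  have hx0 : x ≠ 0 := fun h0 => by
    rw [h0, map_zero] at hx
    exact zero_ne_one hx
  have hv0 : VE.valuation (bc x) ≠ 0 := (map_ne_zero _).2 ((map_ne_zero bc).2 hx0)
  have h2 : 1 < (VE.valuation (bc x))⁻¹ := (one_lt_inv₀ (zero_lt_iff.2 hv0)).2 hlt'
  exact not_le.2 h2 h1

theorem Dominates.oneU (d : Dominates bc V VE) {x : F} (hx : OneU V x) : OneU VE (bc x) := by
  have := d.lt_one _ hx
  unfold OneU
  rwa [map_sub, map_one] at this

/-- dominance gives `comap = V` (valuation rings are maximal for domination). -/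
theorem Dominates.le_one_iff (d : Dominates bc V VE) (x : F) :
    VE.valuation (bc x) ≤ 1 ↔ V.valuation x ≤ 1 := by
  refine ⟨fun h => ?_, d.le_one x⟩
  by_contra hgt
  have hgt' : 1 < V.valuation x := not_le.1 hgt
  have hx0 : V.valuation x ≠ 0 := fun h0 => by
    rw [h0] at hgt'
    exact not_lt.2 zero_le_one hgt'
  have h1 : V.valuation x⁻¹ < 1 := by
    rw [map_inv₀]
    exact inv_lt_one_of_one_lt₀ hgt'
  have h2 := d.lt_one _ h1
  rw [map_inv₀, map_inv₀] at h2
  have hv0 : VE.valuation (bc x) ≠ 0 := by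
    intro h0
    rw [h0, inv_zero] at h2
    have hx00 : x ≠ 0 := fun hx => hx0 (by rw [hx, map_zero])
    exact (map_ne_zero _).2 ((map_ne_zero bc).2 hx00) h0
  have h3 : 1 < VE.valuation (bc x) := (inv_lt_one₀ (zero_lt_iff.2 hv0)).1 h2
  exact not_le.2 h3 h

theorem Dominates.lt_one_iff (d : Dominates bc V VE) (x : F) :
    VE.valuation (bc x) < 1 ↔ V.valuation x < 1 := by
  refine ⟨fun h => ?_, d.lt_one x⟩
  by_contra hge
  have h1 : V.valuation x⁻¹ ≤ 1 := valuation_inv_le_one_of_not_lt hge
  have h2 := d.le_one _ h1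
  rw [map_inv₀, map_inv₀] at h2
  by_cases hv0 : VE.valuation (bc x) = 0
  · have hx0 : x = 0 := by
      by_contra hx
      exact (map_ne_zero _).2 ((map_ne_zero bc).2 hx) hv0
    rw [hx0, map_zero] at hge
    exact hge zero_lt_one
  · have h3 : 1 ≤ VE.valuation (bc x) := (inv_le_one₀ (zero_lt_iff.2 hv0)).1 h2
    exact not_lt.2 h3 h

theorem Dominates.oneU_iff (d : Dominates bc V VE) (x : F) : OneU VE (bc x) ↔ OneU V x := by
  unfold OneU
  have e : bc x - 1 = bc (x - 1) := by rw [map_sub, map_one]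
  rw [e]
  exact d.lt_one_iff (x - 1)

end Dom

section Transfer

variable {F1 F2 E1 E2 : Type*} [Field F1] [Field F2] [Field E1] [Field E2]
  {a : F1 →+* F2} {Na : F2 →*₀ F1} {q : ℕ}
  {Vs Vm Vi : ValuationSubring F2} {Ws Wi : ValuationSubring F1}
  {aE : E1 →+* E2} {NaE : E2 →*₀ E1}
  {VsE VmE ViE : ValuationSubring E2} {WsE WiE : ValuationSubring E1}

/-- **(E5-bc) Base change of the tower datum.** -/
theorem towerValU_baseChange (H : TowerValU a Na q Vs Vm Vi Ws Wi)
    (bc₁ : F1 →+* E1) (bc₂ : F2 →+* E2)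
    (hsq : ∀ x, aE (bc₁ x) = bc₂ (a x))
    (hN : ∀ x, NaE (bc₂ x) = bc₁ (Na x))
    -- the big valuation rings dominate the small ones
    (dVs : Dominates bc₂ Vs VsE) (dVm : Dominates bc₂ Vm VmE) (dVi : Dominates bc₂ Vi ViE)
    (dWs : Dominates bc₁ Ws WsE) (dWi : Dominates bc₁ Wi WiE)
    -- trivial residue extensions upstairs
    (hdVs : DenseIn bc₂ Vs VsE) (hdVm : DenseIn bc₂ Vm VmE) (hdVi : DenseIn bc₂ Vi ViE)
    -- lying-over at the big level
    (dsE : Dominates aE WsE VsE) (dmE : Dominates aE WsE VmE) (diE : Dominates aE WiE ViE)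
    -- weak approximation for `(Vs, Vm)` at the small level
    (happ : ∀ xs xm : F2, Vs.valuation xs = 1 → Vm.valuation xm = 1 →
      ∃ x : F2, OneU Vs (x / xs) ∧ OneU Vm (x / xm))
    -- the norm of a `1`-unit is a `1`-unit, at the big level
    (hN1s : ∀ ε : E2, OneU VsE ε → OneU VmE ε → OneU WsE (NaE ε))
    (hN1i : ∀ ε : E2, OneU ViE ε → OneU WiE (NaE ε)) :
    TowerValU aE NaE q VsE VmE ViE WsE WiE where
  haVs := fun x hx => dsE.oneU hx
  haVm := fun x hx => dmE.oneU hx
  haVi := fun x hx => diE.oneU hx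
  hls := by
    intro y hy
    obtain ⟨x, hx, hyx⟩ := hdVs y hy
    obtain ⟨x1, hx1⟩ := H.hls x hx
    refine ⟨bc₁ x1, ?_⟩
    rw [hsq]
    have h2 := dVs.oneU hx1
    rw [map_div₀] at h2
    exact oneU_trans_div hyx h2
  hlm := by
    intro y hy
    obtain ⟨x, hx, hyx⟩ := hdVm y hy
    obtain ⟨x2, hx2⟩ := H.hlm x hx
    refine ⟨bc₁ x2, ?_⟩
    rw [hsq]
    have h2 := dVm.oneU hx2
    rw [map_div₀] at h2
    exact oneU_trans_div hyx h2
  hli := by
    intro y hy
    obtain ⟨x, hx, hyx⟩ := hdVi y hy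
    obtain ⟨x3, hx3⟩ := H.hli x hx
    refine ⟨bc₁ x3, ?_⟩
    rw [hsq]
    have h2 := dVi.oneU hx3
    rw [map_div₀, map_pow] at h2
    exact oneU_trans_div (oneU_div_pow hyx q) h2
  hNs := by
    intro y y1 y2 hys hym h1 h2
    -- approximate `y` by `bc₂ x`
    obtain ⟨xs, hxs, hyxs⟩ := hdVs y hys
    obtain ⟨xm, hxm, hyxm⟩ := hdVm y hym
    obtain ⟨x, hxxs, hxxm⟩ := happ xs xm hxs hxm
    have hxs1 : Vs.valuation x = 1 := by
      have := hxxs.valuation_eq_one
      rwa [map_div₀, hxs, div_one] at this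
    have hxm1 : Vm.valuation x = 1 := by
      have := hxxm.valuation_eq_one
      rwa [map_div₀, hxm, div_one] at this
    have hx0 : x ≠ 0 := fun h0 => by
      rw [h0, map_zero] at hxs1
      exact zero_ne_one hxs1
    have hbx0 : bc₂ x ≠ 0 := (map_ne_zero bc₂).2 hx0
    -- `ε = y / bc₂ x` is a `1`-unit at both places
    have hεs : OneU VsE (y / bc₂ x) := by
      have h3 := dVs.oneU (oneU_symm_div hxxs)
      rw [map_div₀] at h3
      exact oneU_trans_div hyxs h3
    have hεm : OneU VmE (y / bc₂ x) := by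
      have h3 := dVm.oneU (oneU_symm_div hxxm)
      rw [map_div₀] at h3
      exact oneU_trans_div hyxm h3
    -- the small-level facts for `x`
    obtain ⟨x1, hx1⟩ := H.hls x hxs1
    obtain ⟨x2, hx2⟩ := H.hlm x hxm1
    have hNx := H.hNs x x1 x2 hxs1 hxm1 hx1 hx2
    have hNxE := dWs.oneU hNx
    rw [map_div₀, map_mul, map_pow, ← hN] at hNxE
    have hNε := hN1s _ hεs hεm
    -- compare `y1` with `bc₁ x1`, `y2` with `bc₁ x2`
    have hx1E : OneU VsE (bc₂ x / aE (bc₁ x1)) := by
      have := dVs.oneU hx1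
      rwa [map_div₀, ← hsq] at this
    have hx2E : OneU VmE (bc₂ x / aE (bc₁ x2)) := by
      have := dVm.oneU hx2
      rwa [map_div₀, ← hsq] at this
    have hy1 : OneU WsE (bc₁ x1 / y1) := by
      rw [← dsE.oneU_iff, map_div₀]
      -- `aE (bc₁ x1) / aE y1 = (y / aE y1) / ((y / bc₂ x) * (bc₂ x / aE (bc₁ x1)))`
      have h3 : OneU VsE (y / aE (bc₁ x1)) := oneU_trans_div hεs hx1E
      exact oneU_trans_div (oneU_symm_div h3) h1
    have hy2 : OneU WsE (bc₁ x2 / y2) := by
      rw [← dmE.oneU_iff, map_div₀]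
      have h3 : OneU VmE (y / aE (bc₁ x2)) := oneU_trans_div hεm hx2E
      exact oneU_trans_div (oneU_symm_div h3) h2
    -- assemble
    have hy10 : y1 ≠ 0 := by
      intro h0
      have := hy1.ne_zero
      rw [h0, div_zero] at this
      exact this rfl
    have hy20 : y2 ≠ 0 := by
      intro h0
      have := hy2.ne_zero
      rw [h0, div_zero] at this
      exact this rfl
    have hb10 : bc₁ x1 ≠ 0 := by
      intro h0
      have := hy1.ne_zero
      rw [h0, zero_div] at this
      exact this rfl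
    have hb20 : bc₁ x2 ≠ 0 := by
      intro h0
      have := hy2.ne_zero
      rw [h0, zero_div] at this
      exact this rfl
    have hyeq : y = bc₂ x * (y / bc₂ x) := by field_simp
    have e : NaE y / (y1 * y2 ^ (q - 1)) =
        NaE (bc₂ x) / (bc₁ x1 * bc₁ x2 ^ (q - 1)) * NaE (y / bc₂ x) *
          (bc₁ x1 / y1 * (bc₁ x2 / y2) ^ (q - 1)) := by
      conv_lhs => rw [hyeq, map_mul]
      rw [div_pow]
      have hp2 : y2 ^ (q - 1) ≠ 0 := pow_ne_zero _ hy20
      have hp2' : bc₁ x2 ^ (q - 1) ≠ 0 := pow_ne_zero _ hb20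
      field_simp
    rw [e]
    exact (hNxE.mul hNε).mul (hy1.mul (hy2.pow _))
  hNi := by
    intro y y3 hyi h3
    obtain ⟨x, hx, hyx⟩ := hdVi y hyi
    have hx0 : x ≠ 0 := fun h0 => by
      rw [h0, map_zero] at hx
      exact zero_ne_one hx
    have hbx0 : bc₂ x ≠ 0 := (map_ne_zero bc₂).2 hx0
    obtain ⟨x3, hx3⟩ := H.hli x hx
    have hNx := H.hNi x x3 hx hx3
    have hNxE := dWi.oneU hNx
    rw [map_div₀, ← hN] at hNxE
    have hNε := hN1i _ hyx
    have hx3E : OneU ViE (bc₂ x ^ q / aE (bc₁ x3)) := by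
      have := dVi.oneU hx3
      rwa [map_div₀, map_pow, ← hsq] at this
    have hy3 : OneU WiE (bc₁ x3 / y3) := by
      rw [← diE.oneU_iff, map_div₀]
      have h4 : OneU ViE (y ^ q / aE (bc₁ x3)) := oneU_trans_div (oneU_div_pow hyx q) hx3E
      exact oneU_trans_div (oneU_symm_div h4) h3
    have hy30 : y3 ≠ 0 := by
      intro h0
      have := hy3.ne_zero
      rw [h0, div_zero] at this
      exact this rfl
    have hb30 : bc₁ x3 ≠ 0 := by
      intro h0
      have := hy3.ne_zero
      rw [h0, zero_div] at this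
      exact this rfl
    have hyeq : y = bc₂ x * (y / bc₂ x) := by field_simp
    have e : NaE y / y3 = NaE (bc₂ x) / bc₁ x3 * NaE (y / bc₂ x) * (bc₁ x3 / y3) := by
      conv_lhs => rw [hyeq, map_mul]
      field_simp
    rw [e]
    exact (hNxE.mul hNε).mul hy3

end Transfer

section NormOneU

variable {O K L : Type*} [CommRing O] [IsDomain O] [IsDiscreteValuationRing O]
  [Field K] [Algebra O K] [IsFractionRing O K] [Field L] [Algebra K L] [Algebra O L]
  [IsScalarTower O K L] [FiniteDimensional K L] [Algebra.IsSeparable K L]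

/-- **The norm of a `1`-unit is a `1`-unit** (input `hN1s` / `hN1i` of `towerValU_baseChange`):
`V i` = exactly the places of `L` above the DVR `O`, `W0` the valuation ring of `O` in `K`,
`v(z) ^ n ≤ v(ϖ)` on the maximal ideal of every `V i` (`n ≥ max e_i`). -/
theorem oneU_norm_of_oneU {ϖ : O} (hϖ : Irreducible ϖ) {ι : Type*} (V : ι → ValuationSubring L)
    (hall : ∀ W : ValuationSubring L, (∀ c : O, algebraMap O L c ∈ W) →
      algebraMap O L ϖ ∈ W.nonunits → ∃ i, W = V i)
    (W0 : ValuationSubring K) (hW0 : ∀ c : O, W0.valuation (algebraMap O K c) ≤ 1)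
    (hW0ϖ : W0.valuation (algebraMap O K ϖ) < 1)
    (n : ℕ) (hn : ∀ i, ∀ z : L, (V i).valuation z < 1 →
      (V i).valuation z ^ n ≤ (V i).valuation (algebraMap O L ϖ))
    {ε : L} (hε : ∀ i, OneU (V i) ε) :
    OneU W0 (Algebra.norm K ε) := by
  set z : L := ε - 1 with hz
  have hzV : ∀ i, (V i).valuation z < 1 := fun i => hε i
  have hzint : IsIntegral O z :=
    CA.H3.isIntegral_of_forall_valuation_le_one K hϖ V hall z (fun i => (hzV i).le)
  have hϖL0 : algebraMap O L ϖ ≠ 0 := by
    rw [IsScalarTower.algebraMap_apply O K L]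
    exact (map_ne_zero _).2
      ((map_ne_zero_iff _ (IsFractionRing.injective O K)).2 hϖ.ne_zero)
  set y : L := z ^ n / algebraMap O L ϖ with hy
  have hyV : ∀ i, (V i).valuation y ≤ 1 := fun i => by
    have hv0 : (V i).valuation (algebraMap O L ϖ) ≠ 0 := (map_ne_zero _).2 hϖL0
    rw [hy, map_div₀, map_pow, div_le_one₀ (zero_lt_iff.2 hv0)]
    exact hn i z (hzV i)
  have hyint : IsIntegral O y :=
    CA.H3.isIntegral_of_forall_valuation_le_one K hϖ V hall y hyV
  have hzy : z ^ n = algebraMap O L ϖ * y := by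
    rw [hy]
    field_simp
  obtain ⟨m, hm⟩ := CA.H93.exists_norm_one_add_eq (K := K) ϖ hϖ z y hzint hyint n hzy
  have e : (1 : L) + z = ε := by
    rw [hz]
    ring
  rw [e] at hm
  unfold OneU
  rw [← hm, map_add, map_one, add_sub_cancel_left, map_mul, map_mul]
  exact mul_lt_one_of_lt_of_le hW0ϖ (hW0 m)

end NormOneU

section Chart

variable {B C F E : Type*} [CommRing B] [IsDomain B] [Field F] [Algebra B F] [IsFractionRing B F]
  [IsNoetherianRing B] [IsIntegrallyClosed B]
  [CommRing C] [IsDomain C] [Field E] [Algebra C E] [IsFractionRing C E]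
  [IsNoetherianRing C] [IsIntegrallyClosed C]

theorem valuation_algebraMap_eq_one_of_notMem {p : Ideal B} [hp : p.IsPrime] (h1 : p.height = 1)
    {b : B} (hb : b ∉ p) :
    (H56.valuationSubringAt (K := F) p h1).valuation (algebraMap B F b) = 1 :=
  (H56.valuation_eq_one_iff h1).2 (H56.isUnitAt_algebraMap hb hp.ne_top)

variable (ψ : B →+* C) (bc : F →+* E)
  (hψ : ∀ b, algebraMap C E (ψ b) = bc (algebraMap B F b))
  (P : Ideal B) [hPp : P.IsPrime] (hP : P.height = 1)
  (Q : Ideal C) [hQp : Q.IsPrime] (hQ : Q.height = 1)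
  (hPQ : ∀ b, ψ b ∈ Q ↔ b ∈ P)

include hψ hPQ in
/-- **Chart-level producer of `Dominates`**: `ψ : B → C` over `bc` with `ψ⁻¹ Q = P`. -/
theorem dominates_of_chart :
    Dominates bc (H56.valuationSubringAt (K := F) P hP) (H56.valuationSubringAt (K := E) Q hQ) := by
  have key : ∀ x : F, (H56.valuationSubringAt (K := F) P hP).valuation x ≤ 1 →
      ∃ a b : B, b ∉ P ∧ x * algebraMap B F b = algebraMap B F a ∧
        bc x * algebraMap C E (ψ b) = algebraMap C E (ψ a) := by
    intro x hx
    obtain ⟨a, b, hb, hab⟩ := (H56.mem_valuationSubringAt hP).1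
      (((H56.valuationSubringAt (K := F) P hP).valuation_le_one_iff x).1 hx)
    refine ⟨a, b, hb, hab, ?_⟩
    rw [hψ, hψ, ← map_mul, hab]
  constructor
  · intro x hx
    obtain ⟨a, b, hb, -, hab'⟩ := key x hx
    exact ((H56.valuationSubringAt (K := E) Q hQ).valuation_le_one_iff _).2
      ((H56.mem_valuationSubringAt hQ).2 ⟨ψ a, ψ b, fun h => hb ((hPQ b).1 h), hab'⟩)
  · intro x hx
    obtain ⟨a, b, hb, hab, hab'⟩ := key x hx.le
    have hb1 := valuation_algebraMap_eq_one_of_notMem (F := F) hP hb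
    have hψb1 := valuation_algebraMap_eq_one_of_notMem (F := E) hQ
      (fun h => hb ((hPQ b).1 h))
    have ha : a ∈ P := by
      rw [← H56.algebraMap_mem_nonunits_iff (K := F) hP, ← hab, map_mul, hb1, mul_one]
      exact hx
    have hψa : ψ a ∈ Q := (hPQ a).2 ha
    have h2 := (H56.algebraMap_mem_nonunits_iff (K := E) hQ (ψ a)).2 hψa
    rw [← hab', map_mul, hψb1, mul_one] at h2
    exact h2

include hψ hPQ in
/-- **Chart-level producer of `DenseIn`**: moreover `C = ψ B + π C` with `π ∈ Q`. -/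
theorem denseIn_of_chart (π : C) (hπ : π ∈ Q)
    (hdec : ∀ z : C, ∃ (b : B) (z' : C), z = ψ b + π * z') :
    DenseIn bc (H56.valuationSubringAt (K := F) P hP) (H56.valuationSubringAt (K := E) Q hQ) := by
  intro y hy
  obtain ⟨c, d, hc, hd, hcd⟩ := (H56.valuation_eq_one_iff hQ).1 hy
  obtain ⟨b1, c', hc'⟩ := hdec c
  obtain ⟨b2, d', hd'⟩ := hdec d
  have hψb1 : ψ b1 ∉ Q := fun h => hc (by rw [hc']; exact Q.add_mem h (Q.mul_mem_right _ hπ))
  have hψb2 : ψ b2 ∉ Q := fun h => hd (by rw [hd']; exact Q.add_mem h (Q.mul_mem_right _ hπ))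
  have hb1 : b1 ∉ P := fun h => hψb1 ((hPQ b1).2 h)
  have hb2 : b2 ∉ P := fun h => hψb2 ((hPQ b2).2 h)
  have hb20 : algebraMap B F b2 ≠ 0 := by
    intro h0
    have : b2 = 0 := (IsFractionRing.injective B F) (by rw [h0, map_zero])
    exact hb2 (this ▸ P.zero_mem)
  have hd0 : algebraMap C E d ≠ 0 := by
    intro h0
    have : d = 0 := (IsFractionRing.injective C E) (by rw [h0, map_zero])
    exact hd (this ▸ Q.zero_mem)
  have hψb10 : algebraMap C E (ψ b1) ≠ 0 := by
    intro h0
    have : ψ b1 = 0 := (IsFractionRing.injective C E) (by rw [h0, map_zero])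
    exact hψb1 (this ▸ Q.zero_mem)
  have hψb20 : algebraMap C E (ψ b2) ≠ 0 := by
    intro h0
    have : ψ b2 = 0 := (IsFractionRing.injective C E) (by rw [h0, map_zero])
    exact hψb2 (this ▸ Q.zero_mem)
  refine ⟨algebraMap B F b1 / algebraMap B F b2, ?_, ?_⟩
  · rw [map_div₀, valuation_algebraMap_eq_one_of_notMem (F := F) hP hb1,
      valuation_algebraMap_eq_one_of_notMem (F := F) hP hb2, div_one]
  · set VE := H56.valuationSubringAt (K := E) Q hQ with hVE
    have hyeq : y = algebraMap C E c / algebraMap C E d := by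
      rw [← hcd]
      field_simp
    have e : y / bc (algebraMap B F b1 / algebraMap B F b2) - 1 =
        algebraMap C E π * algebraMap C E (c' * ψ b2 - d' * ψ b1) /
          (algebraMap C E d * algebraMap C E (ψ b1)) := by
      rw [map_div₀, ← hψ, ← hψ, hyeq]
      have h1 : algebraMap C E c = algebraMap C E (ψ b1) + algebraMap C E π * algebraMap C E c' := by
        rw [← map_mul, ← map_add, ← hc']
      have h2 : algebraMap C E d = algebraMap C E (ψ b2) + algebraMap C E π * algebraMap C E d' := by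
        rw [← map_mul, ← map_add, ← hd']
      rw [map_sub, map_mul, map_mul]
      field_simp
      rw [h1, h2]
      ring
    unfold OneU
    rw [e, map_div₀, map_mul, map_mul, valuation_algebraMap_eq_one_of_notMem (F := E) hQ hd,
      valuation_algebraMap_eq_one_of_notMem (F := E) hQ hψb1, mul_one, div_one]
    exact mul_lt_one_of_lt_of_le ((H56.algebraMap_mem_nonunits_iff (K := E) hQ π).2 hπ)
      ((VE.valuation_le_one_iff _).2 (H56.algebraMap_mem_valuationSubringAt hQ _))

end Chart

/-- `happ` of `towerValU_baseChange` from a three-place approximation (the shape of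
`S36.H84.happrox_chart`). -/
theorem happ_of_happrox {F2 : Type*} [Field F2] {V : Fin 3 → ValuationSubring F2}
    (happrox : ∀ T' : Fin 3 → F2, (∀ i, (V i).valuation (T' i) = 1) →
      ∃ Ψ : F2, Ψ ≠ 0 ∧ ∀ i, OneU (V i) (Ψ / T' i)) (i j : Fin 3) (hij : i ≠ j) :
    ∀ xs xm : F2, (V i).valuation xs = 1 → (V j).valuation xm = 1 →
      ∃ x : F2, OneU (V i) (x / xs) ∧ OneU (V j) (x / xm) := by
  intro xs xm hxs hxm
  obtain ⟨Ψ, -, hΨ⟩ := happrox (fun l => if l = i then xs else if l = j then xm else 1) (by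
    intro l
    by_cases hli : l = i
    · simp only [if_pos hli]
      rw [hli]
      exact hxs
    · by_cases hlj : l = j
      · simp only [if_neg hli, if_pos hlj]
        rw [hlj]
        exact hxm
      · simp only [if_neg hli, if_neg hlj]
        exact map_one _)
  refine ⟨Ψ, ?_, ?_⟩
  · have := hΨ i
    simpa using this
  · have := hΨ j
    simpa [hij.symm] using this

end Fermat.Agent.S36.H46
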