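/-
helper46 -- S36 (Carayol), row (E5-bc): **the norm of a `1`-unit is a `1`-unit**, in the
valuation-subring spelling of helper3's `(E3)` files (`CA.H3_NormOrdVS`,
`S36.H3.hE3_real`): the DVR below is a valuation subring `W₀` of `K` with a uniformiser `π : K`
(`hπW₀`, `hord₀` = the `hWFq`, `hWFπ` shape), the places above are valuation subrings of `L` with
the "exactly these" clause (`hα₀`, `hα₁`, `hβ₀`, `hβ₁` shape) and the multiplicities are given by
uniformisers `t` upstairs (`hord`, `hq0`, `hq1`, `hq2` shape).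

These are the inputs `hN1s`, `hN1i` of `S36.H46.towerValU_baseChange`.
-/
import Mathlib
import Fermat.Agent.S36.H46_TowerValBC
import Fermat.Agent.CA.H3_NormOrdVS

set_option autoImplicit false
set_option linter.unusedSectionVars false

namespace Fermat.Agent.S36.H46

open Fermat.Agent.S34.H47 Fermat.Agent.CA.H3

section VS

variable {K L : Type*} [Field K] [Field L] [Algebra K L] [FiniteDimensional K L]
  [Algebra.IsSeparable K L]

/-- **Norm of a `1`-unit, valuation-subring form** (any family of places above). -/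
theorem oneU_norm_of_oneU_vs (W₀ : ValuationSubring K) (π : K) (hπ0 : π ≠ 0)
    (hπW₀ : W₀.valuation π < 1) (hord₀ : ∀ x : K, x ≠ 0 → ∃ n : ℤ, HasOrd W₀ π x n)
    {ι : Type*} (V : ι → ValuationSubring L)
    (hall : ∀ W : ValuationSubring L, (∀ c ∈ W₀, algebraMap K L c ∈ W) →
      algebraMap K L π ∈ W.nonunits → ∃ i, W = V i)
    (n : ℕ) (hn : ∀ i, ∀ z : L, (V i).valuation z < 1 →
      (V i).valuation z ^ n ≤ (V i).valuation (algebraMap K L π))
    {ε : L} (hε : ∀ i, OneU (V i) ε) :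
    OneU W₀ (Algebra.norm K ε) := by
  have := isDiscreteValuationRing_of_hasOrd W₀ π hπ0 hπW₀ hord₀
  exact oneU_norm_of_oneU (O := W₀) (K := K) (L := L)
    (irreducible_uniformiser_of_hasOrd W₀ π hπ0 hπW₀ hord₀) V
    (fun W h1 h2 => hall W (fun c hc => h1 ⟨c, hc⟩) h2) W₀
    (fun c => (W₀.valuation_le_one_iff _).2 c.2) hπW₀ n hn hε

end VS

section EData

variable {L : Type*} [Field L]

/-- **The `e`-data inequality** from a uniformiser upstairs: if every non-zero element has an order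
w.r.t. `t` at `V`, and `ϖ` has order `e ≥ 1` and is a non-unit, then `v(z) ^ n ≤ v(ϖ)` on the
maximal ideal of `V`, for every `n ≥ e`. -/
theorem pow_le_of_hasOrd (V : ValuationSubring L) (t : L) (ht0 : t ≠ 0)
    (hord : ∀ x : L, x ≠ 0 → ∃ n : ℤ, V.valuation (x * t ^ (-n)) = 1)
    {ϖ : L} (hϖV : V.valuation ϖ < 1) {e : ℕ} (he : 1 ≤ e)
    (hϖ : V.valuation (ϖ * t ^ (-(e : ℤ))) = 1) {n : ℕ} (hen : e ≤ n)
    (z : L) (hz : V.valuation z < 1) : V.valuation z ^ n ≤ V.valuation ϖ := by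
  have hvt0 : V.valuation t ≠ 0 := (Valuation.ne_zero_iff _).2 ht0
  have hϖe : V.valuation ϖ = V.valuation t ^ e := by
    have h : HasOrd V t ϖ (e : ℤ) := hϖ
    have := h.valuation_eq ht0
    rwa [zpow_natCast] at this
  -- `t` is a non-unit
  have htV : V.valuation t < 1 := by
    by_contra hge
    have h1 : 1 ≤ V.valuation t := not_lt.1 hge
    have h2 : 1 ≤ V.valuation t ^ e := one_le_pow_of_one_le' h1 e
    rw [← hϖe] at h2
    exact not_le.2 hϖV h2
  by_cases hz0 : z = 0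
  · have hn0 : n ≠ 0 := by omega
    rw [hz0, map_zero, zero_pow hn0]
    exact zero_le
  · obtain ⟨k, hk⟩ := hord z hz0
    have hzk : V.valuation z = V.valuation t ^ k := by
      have h : HasOrd V t z k := hk
      exact h.valuation_eq ht0
    -- `k ≥ 1`
    have hk1 : 1 ≤ k := by
      by_contra hlt
      rw [not_le] at hlt
      obtain ⟨r, hr⟩ : ∃ r : ℕ, k = -(r : ℤ) := ⟨(-k).toNat, by omega⟩
      rw [hr, zpow_neg, zpow_natCast] at hzk
      have h1 : V.valuation t ^ r ≤ 1 := pow_le_one' htV.le r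
      have h2 : 1 ≤ (V.valuation t ^ r)⁻¹ :=
        (one_le_inv₀ (zero_lt_iff.2 (pow_ne_zero _ hvt0))).2 h1
      rw [← hzk] at h2
      exact not_le.2 hz h2
    obtain ⟨r, rfl⟩ : ∃ r : ℕ, k = (r : ℤ) := ⟨k.toNat, by omega⟩
    have hr1 : 1 ≤ r := by exact_mod_cast hk1
    rw [zpow_natCast] at hzk
    rw [hzk, hϖe, ← pow_mul]
    exact pow_le_pow_right_of_le_one' htV.le (by nlinarith)

end EData

section Pair

variable {K L : Type*} [Field K] [Field L] [Algebra K L] [FiniteDimensional K L]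
  [Algebra.IsSeparable K L]

/-- **`hN1s`** (two places `V₁` (`e = 1`), `V₂` (`e = e₂ ≥ 1`) above `W₀`), in the spelling of
`CA.H3.dvd_of_norm_eq_const_mul_pow_vs` / `S36.H3.hE3_real`. -/
theorem oneU_norm_of_oneU_pair (W₀ : ValuationSubring K) (π : K) (hπ0 : π ≠ 0)
    (hπW₀ : W₀.valuation π < 1)
    (hord₀ : ∀ x : K, x ≠ 0 → ∃ n : ℤ, W₀.valuation (x * π ^ (-n)) = 1)
    (V₁ V₂ : ValuationSubring L)
    (hπV₁ : V₁.valuation (algebraMap K L π) < 1) (hπV₂ : V₂.valuation (algebraMap K L π) < 1)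
    (hall₀ : ∀ W : ValuationSubring L, (∀ c ∈ W₀, algebraMap K L c ∈ W) →
      algebraMap K L π ∈ W.nonunits → W = V₁ ∨ W = V₂)
    (t₁ t₂ : L) (ht₁ : t₁ ≠ 0) (ht₂ : t₂ ≠ 0)
    (hord₁ : ∀ x : L, x ≠ 0 → ∃ n : ℤ, V₁.valuation (x * t₁ ^ (-n)) = 1)
    (hord₂ : ∀ x : L, x ≠ 0 → ∃ n : ℤ, V₂.valuation (x * t₂ ^ (-n)) = 1)
    (he₁ : V₁.valuation (algebraMap K L π * t₁ ^ (-(1 : ℤ))) = 1)
    {e₂ : ℕ} (he₂1 : 1 ≤ e₂)
    (he₂ : V₂.valuation (algebraMap K L π * t₂ ^ (-(e₂ : ℤ))) = 1)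
    {ε : L} (h₁ : OneU V₁ ε) (h₂ : OneU V₂ ε) : OneU W₀ (Algebra.norm K ε) := by
  refine oneU_norm_of_oneU_vs W₀ π hπ0 hπW₀ hord₀ (fun b : Bool => if b then V₁ else V₂) ?_ e₂ ?_
    (fun b => ?_)
  · intro W h1 h2
    rcases hall₀ W h1 h2 with h | h
    · exact ⟨true, by simp [h]⟩
    · exact ⟨false, by simp [h]⟩
  · intro b z hz
    cases b
    · exact pow_le_of_hasOrd V₂ t₂ ht₂ hord₂ hπV₂ he₂1 he₂ le_rfl z hz
    · exact pow_le_of_hasOrd V₁ t₁ ht₁ hord₁ hπV₁ le_rfl (by exact_mod_cast he₁) he₂1 z hz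
  · cases b
    · simpa using h₂
    · simpa using h₁

/-- **`hN1i`** (one place `V₃` (`e = 1`) above `W₁`). -/
theorem oneU_norm_of_oneU_single (W₁ : ValuationSubring K) (π : K) (hπ0 : π ≠ 0)
    (hπW₁ : W₁.valuation π < 1)
    (hord₁ : ∀ x : K, x ≠ 0 → ∃ n : ℤ, W₁.valuation (x * π ^ (-n)) = 1)
    (V₃ : ValuationSubring L) (hπV₃ : V₃.valuation (algebraMap K L π) < 1)
    (hall₁ : ∀ W : ValuationSubring L, (∀ c ∈ W₁, algebraMap K L c ∈ W) →
      algebraMap K L π ∈ W.nonunits → W = V₃)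
    (t₃ : L) (ht₃ : t₃ ≠ 0)
    (hord₃ : ∀ x : L, x ≠ 0 → ∃ n : ℤ, V₃.valuation (x * t₃ ^ (-n)) = 1)
    (he₃ : V₃.valuation (algebraMap K L π * t₃ ^ (-(1 : ℤ))) = 1)
    {ε : L} (h₃ : OneU V₃ ε) : OneU W₁ (Algebra.norm K ε) := by
  refine oneU_norm_of_oneU_vs W₁ π hπ0 hπW₁ hord₁ (fun _ : Unit => V₃) ?_ 1 ?_ (fun _ => h₃)
  · intro W h1 h2
    exact ⟨(), hall₁ W h1 h2⟩
  · intro _ z hz
    exact pow_le_of_hasOrd V₃ t₃ ht₃ hord₃ hπV₃ le_rfl (by exact_mod_cast he₃) le_rfl z hz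

end Pair

section DomUnif

variable {K L : Type*} [Field K] [Field L]

/-- **Lying-over as `Dominates`** from membership + a common uniformiser (the `hWF0`, `hWFq`,
`hWFπ`, `hqV` shape of `S36.H3.hE3_real`). -/
theorem dominates_of_uniformiser (a : K →+* L) (W : ValuationSubring K) (V : ValuationSubring L)
    (π : K) (hπ0 : π ≠ 0) (hπW : W.valuation π < 1)
    (hord : ∀ x : K, x ≠ 0 → ∃ n : ℤ, W.valuation (x * π ^ (-n)) = 1)
    (hWV : ∀ c ∈ W, a c ∈ V) (hπV : V.valuation (a π) < 1) : Dominates a W V := by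
  refine ⟨fun x hx => (V.valuation_le_one_iff _).2 (hWV x ((W.valuation_le_one_iff _).1 hx)),
    fun x hx => ?_⟩
  by_cases hx0 : x = 0
  · rw [hx0, map_zero, map_zero]
    exact zero_lt_one
  obtain ⟨n, hn⟩ := hord x hx0
  have hvπ0 : W.valuation π ≠ 0 := (Valuation.ne_zero_iff _).2 hπ0
  have hxn : W.valuation x = W.valuation π ^ n := by
    have h : HasOrd W π x n := hn
    exact h.valuation_eq hπ0
  have hn1 : 1 ≤ n := by
    by_contra hlt
    rw [not_le] at hlt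
    obtain ⟨r, hr⟩ : ∃ r : ℕ, n = -(r : ℤ) := ⟨(-n).toNat, by omega⟩
    rw [hr, zpow_neg, zpow_natCast] at hxn
    have h1 : W.valuation π ^ r ≤ 1 := pow_le_one' hπW.le r
    have h2 : 1 ≤ (W.valuation π ^ r)⁻¹ :=
      (one_le_inv₀ (zero_lt_iff.2 (pow_ne_zero _ hvπ0))).2 h1
    rw [← hxn] at h2
    exact not_le.2 hx h2
  obtain ⟨r, rfl⟩ : ∃ r : ℕ, n = (r : ℤ) := ⟨n.toNat, by omega⟩
  have hr1 : r ≠ 0 := by
    rintro rfl
    norm_num at hn1
  have hu : x * π ^ (-(r : ℤ)) ∈ W := (W.valuation_le_one_iff _).1 hn.le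
  have hx' : x = x * π ^ (-(r : ℤ)) * π ^ r := by
    rw [zpow_neg, zpow_natCast, mul_assoc, inv_mul_cancel₀ (pow_ne_zero _ hπ0), mul_one]
  rw [hx', map_mul, map_mul, map_pow, map_pow, mul_comm]
  exact mul_lt_one_of_lt_of_le (pow_lt_one' hπV hr1) ((V.valuation_le_one_iff _).2 (hWV _ hu))

end DomUnif

end Fermat.Agent.S36.H46
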