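/-
helper46 -- S36 (Carayol), row (E5-bc) at the REAL FUNCTION FIELDS: **the two tower data
`HVa`, `HVb` of `S36.H18.geoFn36E_of_radicalDatum` over the big constant field `K'` (= `↥E0`)
from the two tower data over the small constant field `K` (= `unrCyclo q`, where the (M1) places
live).**

`φ : K →+* K'`, `bc N := H99.fullCMap φ N : F_K(N) →+* F_{K'}(N)` (for `K = unrCyclo ℓ`, `K' = ↥E`
this is `H45.baseChangeE E N`, cf. `S36.H18.baseChangeE_normAlphaK`).  Inputs: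

* small level: `TowerValU (alphaK K ..) (normAlphaK K ..) q (VL 0) (VL 1) (VL 2) WFL WVL`
  (helper16's (E5) output) and weak approximation at `VL` (`S36.H84.happrox_chart`);
* the base change of the five vertical valuation rings: `Dominates`, `DenseIn`
  (`S36.H46.dominates_of_chart`, `denseIn_of_chart` from helper70's chart base change);
* big level, in the spelling of `S36.H3.hE3_real` (the SAME binders): `(W)` facts `hWFq hWFπ hWVq
  hWVπ`, uniformisers `t ht0 hord hq0 hq1 hq2 hqV`, incidence table `hWF0 hWF1 hα₀ hα₁` (+ the one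
  membership `hWV2α : ∀ c ∈ WV, aα c ∈ V 2` which `hE3_real` does not need), resp. the `β` half.

The commuting squares `aE ∘ bc₁ = bc₂ ∘ a`, `NaE ∘ bc₂ = bc₁ ∘ Na` are helper18's
`S36.H18.fullCMap_alphaK / _normAlphaK / _betaK / _normBetaK`; "the norm of a `1`-unit is a
`1`-unit" is `S36.H46.oneU_norm_of_oneU_pair / _single` (helper93's `CA.H93` brick).
-/
import Mathlib
import Fermat.Agent.S36.H46_NormOneUVS
import Fermat.Agent.S36.H18_NormBC

set_option autoImplicit false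
set_option linter.unusedSectionVars false
set_option linter.style.haveILetI false
set_option synthInstance.maxHeartbeats 400000
set_option maxHeartbeats 3200000

noncomputable section

namespace Fermat.Agent.S36.H46

open ModularCurve IntermediateField
open Fermat.Agent.CA.H3 Fermat.Agent.S18 Fermat.Agent.S34 Fermat.Agent.S34.H47
  Fermat.Agent.S36.H18

section Generic

variable (K K' : Type) [Field K] [Field K'] [CharZero K] [CharZero K'] (φ : K →+* K')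
  (q N1 N2 : ℕ) [NeZero q] [NeZero N1] [NeZero N2]
  (hN : N1 ∣ N2) (hqN : q * N1 ∣ N2)

set_option quotPrecheck false
local notation "F₁" => ↥(modularFunctionFieldFullC K N1)
local notation "F₂" => ↥(modularFunctionFieldFullC K N2)
local notation "E₁" => ↥(modularFunctionFieldFullC K' N1)
local notation "E₂" => ↥(modularFunctionFieldFullC K' N2)
local notation "bc₁" => H99.fullCMap φ N1
local notation "bc₂" => H99.fullCMap φ N2
local notation "aα" => alphaK K' N1 N2 hN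
local notation "bβ" => betaK K' q N1 N2 hqN
local notation "Nα" => normAlphaK K' N1 N2 hN
local notation "Nβ" => normBetaK K' q N1 N2 hqN
local notation "q₁" => algebraMap K' E₁ ((q : ℕ) : K')
local notation "q₂" => algebraMap K' E₂ ((q : ℕ) : K')

/-- **(E5-bc), `α` side.** -/
theorem towerValU_alpha_of_baseChange (hq : q.Prime) (hqN1 : q ∣ N1) (hN2 : N2 = q * N1)
    (hNK : ((N2 : ℕ) : K) ≠ 0) (hNK' : ((N2 : ℕ) : K') ≠ 0)
    -- the small level
    (VL : Fin 3 → ValuationSubring F₂) (WFL WVL : ValuationSubring F₁)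
    (HL : TowerValU (alphaK K N1 N2 hN) (normAlphaK K N1 N2 hN) q (VL 0) (VL 1) (VL 2) WFL WVL)
    (happrox : ∀ T' : Fin 3 → F₂, (∀ i, (VL i).valuation (T' i) = 1) →
      ∃ Ψ : F₂, Ψ ≠ 0 ∧ ∀ i, OneU (VL i) (Ψ / T' i))
    -- the big level and the base change of the five valuation rings
    (V : Fin 3 → ValuationSubring E₂) (WF WV : ValuationSubring E₁)
    (dV : ∀ i, Dominates bc₂ (VL i) (V i)) (hdV : ∀ i, DenseIn bc₂ (VL i) (V i))
    (dWF : Dominates bc₁ WFL WF) (dWV : Dominates bc₁ WVL WV)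
    -- (W)
    (hWFq : WF.valuation q₁ < 1)
    (hWFπ : ∀ x : E₁, x ≠ 0 → ∃ n : ℤ, WF.valuation (x * q₁ ^ (-n)) = 1)
    (hWVq : WV.valuation q₁ < 1)
    (hWVπ : ∀ x : E₁, x ≠ 0 → ∃ n : ℤ, WV.valuation (x * q₁ ^ (-n)) = 1)
    -- uniformisers upstairs, multiplicities `(1, q - 1, 1)`
    (t : Fin 3 → E₂) (ht0 : ∀ i, t i ≠ 0)
    (hord : ∀ i (x : E₂), x ≠ 0 → ∃ n : ℤ, (V i).valuation (x * t i ^ (-n)) = 1)
    (hq0 : (V 0).valuation (q₂ * t 0 ^ (-(1 : ℤ))) = 1)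
    (hq1 : (V 1).valuation (q₂ * t 1 ^ (-((q : ℤ) - 1))) = 1)
    (hq2 : (V 2).valuation (q₂ * t 2 ^ (-(1 : ℤ))) = 1)
    (hqV : ∀ i, (V i).valuation q₂ < 1)
    -- the incidence table along `α`
    (hWF0 : ∀ c ∈ WF, aα c ∈ V 0) (hWF1 : ∀ c ∈ WF, aα c ∈ V 1)
    (hWV2α : ∀ c ∈ WV, aα c ∈ V 2)
    (hα₀ : ∀ W' : ValuationSubring E₂, (∀ c ∈ WF, aα c ∈ W') → q₂ ∈ W'.nonunits →
      W' = V 0 ∨ W' = V 1)
    (hα₁ : ∀ W' : ValuationSubring E₂, (∀ c ∈ WV, aα c ∈ W') → q₂ ∈ W'.nonunits → W' = V 2) :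
    TowerValU aα Nα q (V 0) (V 1) (V 2) WF WV := by
  have hq₁0 : q₁ ≠ 0 := (map_ne_zero _).mpr (Nat.cast_ne_zero.mpr hq.ne_zero)
  have haq : aα q₁ = q₂ := by
    letI := H16.degAlgebra K' N1 N2 hN
    haveI := H16.degAlgebra_isScalarTower K' N1 N2 hN
    exact (IsScalarTower.algebraMap_apply K' E₁ E₂ _).symm
  have hq1' : 1 ≤ q - 1 := by have := hq.two_le; omega
  have hcast : ((q - 1 : ℕ) : ℤ) = (q : ℤ) - 1 := by
    rw [Nat.cast_sub hq.one_le, Nat.cast_one]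
  refine towerValU_baseChange HL bc₁ bc₂
    (fun x => (fullCMap_alphaK φ N1 N2 hN x).symm)
    (fun x => (fullCMap_normAlphaK φ q N1 N2 hN hq hqN1 hN2 hNK hNK' x).symm)
    (dV 0) (dV 1) (dV 2) dWF dWV (hdV 0) (hdV 1) (hdV 2)
    (dominates_of_uniformiser aα WF (V 0) q₁ hq₁0 hWFq hWFπ hWF0 (by rw [haq]; exact hqV 0))
    (dominates_of_uniformiser aα WF (V 1) q₁ hq₁0 hWFq hWFπ hWF1 (by rw [haq]; exact hqV 1))
    (dominates_of_uniformiser aα WV (V 2) q₁ hq₁0 hWVq hWVπ hWV2α (by rw [haq]; exact hqV 2))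
    (happ_of_happrox happrox 0 1 (by decide)) ?_ ?_
  · intro ε h0 h1
    letI := H16.degAlgebra K' N1 N2 hN
    haveI := H16.degAlgebra_isScalarTower K' N1 N2 hN
    haveI : FiniteDimensional E₁ E₂ :=
      S36.H16.finiteDimensional_fullC_prime_dvd K' N1 N2 hN q hq hqN1 hN2 hNK'
    haveI : CharZero E₁ := charZero_of_injective_algebraMap (algebraMap K' E₁).injective
    have hq12 : algebraMap E₁ E₂ q₁ = q₂ :=
      (IsScalarTower.algebraMap_apply K' E₁ E₂ _).symm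
    rw [normAlphaK_apply K' N1 N2 hN h0.ne_zero]
    exact oneU_norm_of_oneU_pair (K := E₁) (L := E₂) WF q₁ hq₁0 hWFq hWFπ (V 0) (V 1)
      (by rw [hq12]; exact hqV 0) (by rw [hq12]; exact hqV 1)
      (by rw [hq12]; exact hα₀) (t 0) (t 1) (ht0 0) (ht0 1) (hord 0) (hord 1)
      (by rw [hq12]; exact hq0) hq1' (by rw [hq12, hcast]; exact hq1) h0 h1
  · intro ε h2
    letI := H16.degAlgebra K' N1 N2 hN
    haveI := H16.degAlgebra_isScalarTower K' N1 N2 hN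
    haveI : FiniteDimensional E₁ E₂ :=
      S36.H16.finiteDimensional_fullC_prime_dvd K' N1 N2 hN q hq hqN1 hN2 hNK'
    haveI : CharZero E₁ := charZero_of_injective_algebraMap (algebraMap K' E₁).injective
    have hq12 : algebraMap E₁ E₂ q₁ = q₂ :=
      (IsScalarTower.algebraMap_apply K' E₁ E₂ _).symm
    rw [normAlphaK_apply K' N1 N2 hN h2.ne_zero]
    exact oneU_norm_of_oneU_single (K := E₁) (L := E₂) WV q₁ hq₁0 hWVq hWVπ (V 2)
      (by rw [hq12]; exact hqV 2) (by rw [hq12]; exact hα₁) (t 2) (ht0 2) (hord 2)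
      (by rw [hq12]; exact hq2) h2

/-- **(E5-bc), `β` side.** -/
theorem towerValU_beta_of_baseChange (hq : q.Prime) (hqN1 : q ∣ N1) (hN2 : N2 = q * N1)
    (hNK : ((N2 : ℕ) : K) ≠ 0) (hNK' : ((N2 : ℕ) : K') ≠ 0)
    -- the small level
    (VL : Fin 3 → ValuationSubring F₂) (WFL WVL : ValuationSubring F₁)
    (HL : TowerValU (betaK K q N1 N2 hqN) (normBetaK K q N1 N2 hqN) q (VL 2) (VL 1) (VL 0)
      WVL WFL)
    (happrox : ∀ T' : Fin 3 → F₂, (∀ i, (VL i).valuation (T' i) = 1) →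
      ∃ Ψ : F₂, Ψ ≠ 0 ∧ ∀ i, OneU (VL i) (Ψ / T' i))
    -- the big level and the base change of the five valuation rings
    (V : Fin 3 → ValuationSubring E₂) (WF WV : ValuationSubring E₁)
    (dV : ∀ i, Dominates bc₂ (VL i) (V i)) (hdV : ∀ i, DenseIn bc₂ (VL i) (V i))
    (dWF : Dominates bc₁ WFL WF) (dWV : Dominates bc₁ WVL WV)
    -- (W)
    (hWFq : WF.valuation q₁ < 1)
    (hWFπ : ∀ x : E₁, x ≠ 0 → ∃ n : ℤ, WF.valuation (x * q₁ ^ (-n)) = 1)
    (hWVq : WV.valuation q₁ < 1)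
    (hWVπ : ∀ x : E₁, x ≠ 0 → ∃ n : ℤ, WV.valuation (x * q₁ ^ (-n)) = 1)
    -- uniformisers upstairs, multiplicities `(1, q - 1, 1)`
    (t : Fin 3 → E₂) (ht0 : ∀ i, t i ≠ 0)
    (hord : ∀ i (x : E₂), x ≠ 0 → ∃ n : ℤ, (V i).valuation (x * t i ^ (-n)) = 1)
    (hq0 : (V 0).valuation (q₂ * t 0 ^ (-(1 : ℤ))) = 1)
    (hq1 : (V 1).valuation (q₂ * t 1 ^ (-((q : ℤ) - 1))) = 1)
    (hq2 : (V 2).valuation (q₂ * t 2 ^ (-(1 : ℤ))) = 1)
    (hqV : ∀ i, (V i).valuation q₂ < 1)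
    -- the incidence table along `β`
    (hWV2 : ∀ c ∈ WV, bβ c ∈ V 2) (hWV1 : ∀ c ∈ WV, bβ c ∈ V 1)
    (hWF0β : ∀ c ∈ WF, bβ c ∈ V 0)
    (hβ₀ : ∀ W' : ValuationSubring E₂, (∀ c ∈ WV, bβ c ∈ W') → q₂ ∈ W'.nonunits →
      W' = V 2 ∨ W' = V 1)
    (hβ₁ : ∀ W' : ValuationSubring E₂, (∀ c ∈ WF, bβ c ∈ W') → q₂ ∈ W'.nonunits → W' = V 0) :
    TowerValU bβ Nβ q (V 2) (V 1) (V 0) WV WF := by
  have hq₁0 : q₁ ≠ 0 := (map_ne_zero _).mpr (Nat.cast_ne_zero.mpr hq.ne_zero)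
  have hbq : bβ q₁ = q₂ := by
    letI := S35.H16.vAlgebra K' q N1 N2 hqN
    haveI := S35.H16.vAlgebra_isScalarTower K' q N1 N2 hqN
    exact (IsScalarTower.algebraMap_apply K' E₁ E₂ _).symm
  have hq1' : 1 ≤ q - 1 := by have := hq.two_le; omega
  have hcast : ((q - 1 : ℕ) : ℤ) = (q : ℤ) - 1 := by
    rw [Nat.cast_sub hq.one_le, Nat.cast_one]
  refine towerValU_baseChange HL bc₁ bc₂
    (fun x => (fullCMap_betaK φ q N1 N2 hqN x).symm)
    (fun x => (fullCMap_normBetaK φ q N1 N2 hqN hq hqN1 hN2 hNK hNK' x).symm)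
    (dV 2) (dV 1) (dV 0) dWV dWF (hdV 2) (hdV 1) (hdV 0)
    (dominates_of_uniformiser bβ WV (V 2) q₁ hq₁0 hWVq hWVπ hWV2 (by rw [hbq]; exact hqV 2))
    (dominates_of_uniformiser bβ WV (V 1) q₁ hq₁0 hWVq hWVπ hWV1 (by rw [hbq]; exact hqV 1))
    (dominates_of_uniformiser bβ WF (V 0) q₁ hq₁0 hWFq hWFπ hWF0β (by rw [hbq]; exact hqV 0))
    (happ_of_happrox happrox 2 1 (by decide)) ?_ ?_
  · intro ε h2 h1
    letI := S35.H16.vAlgebra K' q N1 N2 hqN
    haveI := S35.H16.vAlgebra_isScalarTower K' q N1 N2 hqN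
    haveI : FiniteDimensional E₁ E₂ :=
      S36.H16.finiteDimensional_vSub_dvd K' N1 N2 q hq hqN1 hN2 hNK'
    haveI : CharZero E₁ := charZero_of_injective_algebraMap (algebraMap K' E₁).injective
    have hq12 : algebraMap E₁ E₂ q₁ = q₂ :=
      (IsScalarTower.algebraMap_apply K' E₁ E₂ _).symm
    rw [normBetaK_apply K' q N1 N2 hqN h2.ne_zero]
    exact oneU_norm_of_oneU_pair (K := E₁) (L := E₂) WV q₁ hq₁0 hWVq hWVπ (V 2) (V 1)
      (by rw [hq12]; exact hqV 2) (by rw [hq12]; exact hqV 1)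
      (by rw [hq12]; exact hβ₀) (t 2) (t 1) (ht0 2) (ht0 1) (hord 2) (hord 1)
      (by rw [hq12]; exact hq2) hq1' (by rw [hq12, hcast]; exact hq1) h2 h1
  · intro ε h0
    letI := S35.H16.vAlgebra K' q N1 N2 hqN
    haveI := S35.H16.vAlgebra_isScalarTower K' q N1 N2 hqN
    haveI : FiniteDimensional E₁ E₂ :=
      S36.H16.finiteDimensional_vSub_dvd K' N1 N2 q hq hqN1 hN2 hNK'
    haveI : CharZero E₁ := charZero_of_injective_algebraMap (algebraMap K' E₁).injective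
    have hq12 : algebraMap E₁ E₂ q₁ = q₂ :=
      (IsScalarTower.algebraMap_apply K' E₁ E₂ _).symm
    rw [normBetaK_apply K' q N1 N2 hqN h0.ne_zero]
    exact oneU_norm_of_oneU_single (K := E₁) (L := E₂) WF q₁ hq₁0 hWFq hWFπ (V 0)
      (by rw [hq12]; exact hqV 0) (by rw [hq12]; exact hβ₁) (t 0) (ht0 0) (hord 0)
      (by rw [hq12]; exact hq0) h0

end Generic

end Fermat.Agent.S36.H46
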