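/-
helper46 -- S36 (Carayol), row (E5-bc): **`HVa`, `HVb` of `S36.H18.geoFn36E_of_radicalDatum`**
at `K' = ↥E0`, levels `(q * L, q * (q * L))`, from the `unrCyclo q`-level tower data, with the base
change spelled `H45.baseChangeE E0 N` (the spelling of `S36.H46.dominates_chartE`,
`denseIn_chartE`).  Specialisation of `S36.H46.towerValU_alpha_of_baseChange` /
`towerValU_beta_of_baseChange`; the big-level binders are those of `S36.H3.hE3_real`.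
-/
import Mathlib
import Fermat.Agent.S36.H46_TowerValE0

set_option autoImplicit false
set_option linter.unusedSectionVars false
set_option linter.style.haveILetI false
set_option synthInstance.maxHeartbeats 400000
set_option maxHeartbeats 3200000

noncomputable section

namespace Fermat.Agent.S36.H46

open ModularCurve IntermediateField
open Fermat.Agent.S18 Fermat.Agent.S18.H45 Fermat.Agent.S34 Fermat.Agent.S34.H47
  Fermat.Agent.S36.H18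

local notation "Qbar" => AlgebraicClosure ℚ

variable (L q : ℕ) [NeZero L] [NeZero q] (hq : q.Prime)
  (E0 : IntermediateField (unrCyclo q) Qbar)

set_option quotPrecheck false
local notation "F₁L" => ↥(modularFunctionFieldFullC ↥(unrCyclo q) (q * L))
local notation "F₂L" => ↥(modularFunctionFieldFullC ↥(unrCyclo q) (q * (q * L)))
local notation "F₁" => ↥(modularFunctionFieldFullC ↥E0 (q * L))
local notation "F₂" => ↥(modularFunctionFieldFullC ↥E0 (q * (q * L)))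
local notation "aα" => alphaK ↥E0 (q * L) (q * (q * L)) (dvd_mul_left (q * L) q)
local notation "bβ" => betaK ↥E0 q (q * L) (q * (q * L)) dvd_rfl
local notation "Nα" => normAlphaK ↥E0 (q * L) (q * (q * L)) (dvd_mul_left (q * L) q)
local notation "Nβ" => normBetaK ↥E0 q (q * L) (q * (q * L)) dvd_rfl
local notation "q₁" => algebraMap ↥E0 F₁ ((q : ℕ) : ↥E0)
local notation "q₂" => algebraMap ↥E0 F₂ ((q : ℕ) : ↥E0)

include hq in
/-- **`HVa` at the real types.** -/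
theorem HVa_of_baseChangeE
    (VL : Fin 3 → ValuationSubring F₂L) (WFL WVL : ValuationSubring F₁L)
    (HL : TowerValU (alphaK ↥(unrCyclo q) (q * L) (q * (q * L)) (dvd_mul_left (q * L) q))
      (normAlphaK ↥(unrCyclo q) (q * L) (q * (q * L)) (dvd_mul_left (q * L) q)) q
      (VL 0) (VL 1) (VL 2) WFL WVL)
    (happrox : ∀ T' : Fin 3 → F₂L, (∀ i, (VL i).valuation (T' i) = 1) →
      ∃ Ψ : F₂L, Ψ ≠ 0 ∧ ∀ i, OneU (VL i) (Ψ / T' i))
    (V : Fin 3 → ValuationSubring F₂) (WF WV : ValuationSubring F₁)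
    (dV : ∀ i, Dominates (baseChangeE E0 (q * (q * L))) (VL i) (V i))
    (hdV : ∀ i, DenseIn (baseChangeE E0 (q * (q * L))) (VL i) (V i))
    (dWF : Dominates (baseChangeE E0 (q * L)) WFL WF)
    (dWV : Dominates (baseChangeE E0 (q * L)) WVL WV)
    (hWFq : WF.valuation q₁ < 1)
    (hWFπ : ∀ x : F₁, x ≠ 0 → ∃ n : ℤ, WF.valuation (x * q₁ ^ (-n)) = 1)
    (hWVq : WV.valuation q₁ < 1)
    (hWVπ : ∀ x : F₁, x ≠ 0 → ∃ n : ℤ, WV.valuation (x * q₁ ^ (-n)) = 1)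
    (t : Fin 3 → F₂) (ht0 : ∀ i, t i ≠ 0)
    (hord : ∀ i (x : F₂), x ≠ 0 → ∃ n : ℤ, (V i).valuation (x * t i ^ (-n)) = 1)
    (hq0 : (V 0).valuation (q₂ * t 0 ^ (-(1 : ℤ))) = 1)
    (hq1 : (V 1).valuation (q₂ * t 1 ^ (-((q : ℤ) - 1))) = 1)
    (hq2 : (V 2).valuation (q₂ * t 2 ^ (-(1 : ℤ))) = 1)
    (hqV : ∀ i, (V i).valuation q₂ < 1)
    (hWF0 : ∀ c ∈ WF, aα c ∈ V 0) (hWF1 : ∀ c ∈ WF, aα c ∈ V 1)
    (hWV2α : ∀ c ∈ WV, aα c ∈ V 2)
    (hα₀ : ∀ W' : ValuationSubring F₂, (∀ c ∈ WF, aα c ∈ W') → q₂ ∈ W'.nonunits →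
      W' = V 0 ∨ W' = V 1)
    (hα₁ : ∀ W' : ValuationSubring F₂, (∀ c ∈ WV, aα c ∈ W') → q₂ ∈ W'.nonunits → W' = V 2) :
    TowerValU aα Nα q (V 0) (V 1) (V 2) WF WV :=
  towerValU_alpha_of_baseChange ↥(unrCyclo q) ↥E0 (algebraMap ↥(unrCyclo q) ↥E0) q (q * L)
    (q * (q * L)) (dvd_mul_left (q * L) q) hq (dvd_mul_right q L) rfl
    (Nat.cast_ne_zero.mpr (NeZero.ne (q * (q * L))))
    (Nat.cast_ne_zero.mpr (NeZero.ne (q * (q * L)))) VL WFL WVL HL happrox V WF WV dV hdV dWF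
    dWV hWFq hWFπ hWVq hWVπ t ht0 hord hq0 hq1 hq2 hqV hWF0 hWF1 hWV2α hα₀ hα₁

include hq in
/-- **`HVb` at the real types.** -/
theorem HVb_of_baseChangeE
    (VL : Fin 3 → ValuationSubring F₂L) (WFL WVL : ValuationSubring F₁L)
    (HL : TowerValU (betaK ↥(unrCyclo q) q (q * L) (q * (q * L)) dvd_rfl)
      (normBetaK ↥(unrCyclo q) q (q * L) (q * (q * L)) dvd_rfl) q
      (VL 2) (VL 1) (VL 0) WVL WFL)
    (happrox : ∀ T' : Fin 3 → F₂L, (∀ i, (VL i).valuation (T' i) = 1) →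
      ∃ Ψ : F₂L, Ψ ≠ 0 ∧ ∀ i, OneU (VL i) (Ψ / T' i))
    (V : Fin 3 → ValuationSubring F₂) (WF WV : ValuationSubring F₁)
    (dV : ∀ i, Dominates (baseChangeE E0 (q * (q * L))) (VL i) (V i))
    (hdV : ∀ i, DenseIn (baseChangeE E0 (q * (q * L))) (VL i) (V i))
    (dWF : Dominates (baseChangeE E0 (q * L)) WFL WF)
    (dWV : Dominates (baseChangeE E0 (q * L)) WVL WV)
    (hWFq : WF.valuation q₁ < 1)
    (hWFπ : ∀ x : F₁, x ≠ 0 → ∃ n : ℤ, WF.valuation (x * q₁ ^ (-n)) = 1)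
    (hWVq : WV.valuation q₁ < 1)
    (hWVπ : ∀ x : F₁, x ≠ 0 → ∃ n : ℤ, WV.valuation (x * q₁ ^ (-n)) = 1)
    (t : Fin 3 → F₂) (ht0 : ∀ i, t i ≠ 0)
    (hord : ∀ i (x : F₂), x ≠ 0 → ∃ n : ℤ, (V i).valuation (x * t i ^ (-n)) = 1)
    (hq0 : (V 0).valuation (q₂ * t 0 ^ (-(1 : ℤ))) = 1)
    (hq1 : (V 1).valuation (q₂ * t 1 ^ (-((q : ℤ) - 1))) = 1)
    (hq2 : (V 2).valuation (q₂ * t 2 ^ (-(1 : ℤ))) = 1)
    (hqV : ∀ i, (V i).valuation q₂ < 1)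
    (hWV2 : ∀ c ∈ WV, bβ c ∈ V 2) (hWV1 : ∀ c ∈ WV, bβ c ∈ V 1)
    (hWF0β : ∀ c ∈ WF, bβ c ∈ V 0)
    (hβ₀ : ∀ W' : ValuationSubring F₂, (∀ c ∈ WV, bβ c ∈ W') → q₂ ∈ W'.nonunits →
      W' = V 2 ∨ W' = V 1)
    (hβ₁ : ∀ W' : ValuationSubring F₂, (∀ c ∈ WF, bβ c ∈ W') → q₂ ∈ W'.nonunits → W' = V 0) :
    TowerValU bβ Nβ q (V 2) (V 1) (V 0) WV WF :=
  towerValU_beta_of_baseChange ↥(unrCyclo q) ↥E0 (algebraMap ↥(unrCyclo q) ↥E0) q (q * L)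
    (q * (q * L)) dvd_rfl hq (dvd_mul_right q L) rfl
    (Nat.cast_ne_zero.mpr (NeZero.ne (q * (q * L))))
    (Nat.cast_ne_zero.mpr (NeZero.ne (q * (q * L)))) VL WFL WVL HL happrox V WF WV dV hdV dWF
    dWV hWFq hWFπ hWVq hWVπ t ht0 hord hq0 hq1 hq2 hqV hWV2 hWV1 hWF0β hβ₀ hβ₁

end Fermat.Agent.S36.H46
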