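/-
helper46 -- S36 (Carayol), row (E5-bc)/(r3): **`HVa`, `HVb` of `S36.H18.geoFn36E_of_twoCharts`
VERBATIM, from the rows** (helper3's `S36.H3.hE3_of_rows` vocabulary, chart 1 only):

* (E7) context: `B₁ : Subalgebra (cutOver A E0) F₂`, `P₁ : Fin 3 → Ideal B₁`, `hh₁`, `hinj`,
  `WF WV` and the four `(W)` facts `hWFq hWFπ hWVq hWVπ` -- the SAME binders as in
  `geoFn36E_of_twoCharts`;
* (E2) `h₁ : H83.ThreeComponents red₁ red₂ red₃ … q (algebraMap R B₁ q)`, `red_i q = 0`, `hqm`,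
  `P₁ i = ker red_i` (the outputs of helper70's base change);
* (r3)(i) the `L₁`-level tower datum `HL` (helper16) + weak approximation at the `L₁`-level;
* (E5-bc) the eight `Dominates` / `DenseIn` facts (`S36.H46.dominates_chartE` / `_chartBC`);
* (E3-inc) the incidence facts (helper47), for `V i := valuationSubringAt (P₁ i)`.

Internally: uniformisers by `S36.H62.exists_uniformisers`, the orders `(1, q-1, 1)` of `q` by
`S36.H3.qOrders_of_threeComponents`, then `S36.H46.HVa_of_baseChangeE` / `HVb_of_baseChangeE`.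
-/
import Mathlib
import Fermat.Agent.S36.H46_TowerValE0Real
import Fermat.Agent.S36.H3_QOrders

set_option autoImplicit false
set_option linter.unusedSectionVars false
set_option linter.style.haveILetI false
set_option synthInstance.maxHeartbeats 400000
set_option maxHeartbeats 3200000

noncomputable section

namespace Fermat.Agent.S36.H46

open ModularCurve IntermediateField
open Fermat.Agent.S18 Fermat.Agent.S18.H45 Fermat.Agent.S34 Fermat.Agent.S34.H47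
  Fermat.Agent.S36.H18 Fermat.Agent.S36.H83

local notation "Qbar" => AlgebraicClosure ℚ

section Rows

variable (L q : ℕ) [NeZero L] [NeZero q] (hq : q.Prime)
  {A : ValuationSubring Qbar}
  (E0 : IntermediateField (unrCyclo q) Qbar)

set_option quotPrecheck false
local notation "F₁L" => ↥(modularFunctionFieldFullC ↥(unrCyclo q) (q * L))
local notation "F₂L" => ↥(modularFunctionFieldFullC ↥(unrCyclo q) (q * (q * L)))
local notation "F₁" => ↥(modularFunctionFieldFullC ↥E0 (q * L))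
local notation "F₂" => ↥(modularFunctionFieldFullC ↥E0 (q * (q * L)))
local notation "RR" => ↥(cutOver A E0)
local notation "aα" => alphaK ↥E0 (q * L) (q * (q * L)) (dvd_mul_left (q * L) q)
local notation "bβ" => betaK ↥E0 q (q * L) (q * (q * L)) dvd_rfl
local notation "Nα" => normAlphaK ↥E0 (q * L) (q * (q * L)) (dvd_mul_left (q * L) q)
local notation "Nβ" => normBetaK ↥E0 q (q * L) (q * (q * L)) dvd_rfl
local notation "πq" => (((q : ℕ) : ↥(cutOver A E0)))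
local notation "q₁" => algebraMap ↥E0 F₁ ((q : ℕ) : ↥E0)
local notation "q₂" => algebraMap ↥E0 F₂ ((q : ℕ) : ↥E0)

/-- helper85's elaboration shortcuts (#3632): local, reducible, equal to what the search finds. -/
local instance (priority := 10000) shortcutAlgE46 (N : ℕ) [NeZero N] :
    Algebra ↥E0 ↥(modularFunctionFieldFullC ↥E0 N) :=
  SubalgebraClass.toAlgebra (modularFunctionFieldFullC ↥E0 N)

local instance (priority := 10000) shortcutAlg46 (N : ℕ) [NeZero N] :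
    Algebra ↥(cutOver A E0) ↥(modularFunctionFieldFullC ↥E0 N) :=
  Algebra.ofSubsemiring (cutOver A E0)

local instance (priority := 10000) shortcutTower46 (N : ℕ) [NeZero N] :
    IsScalarTower ↥(cutOver A E0) ↥E0 ↥(modularFunctionFieldFullC ↥E0 N) :=
  IsScalarTower.of_algebraMap_eq (fun _ => rfl)

/-- the uniformisers and the orders of `q`, from the rows (common part). -/
theorem exists_qOrders_of_rows
    {B₁ : Subalgebra RR F₂} [IsFractionRing B₁ F₂] [IsNoetherianRing B₁] [IsIntegrallyClosed B₁]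
    (hq : q.Prime)
    (P₁ : Fin 3 → Ideal B₁) [hP₁ : ∀ i, (P₁ i).IsPrime] (hh₁ : ∀ i, (P₁ i).height = 1)
    (hinj : Function.Injective P₁)
    {D₁ BM₁ : Type*} [CommRing D₁] [Nontrivial D₁] [CommRing BM₁]
    {red₁ red₂ red₃ : B₁ →+* D₁} {ιu ιv ιw : BM₁ →+* B₁} {rbar : BM₁ →+* D₁} {W : D₁ →+* D₁}
    (h₁ : ThreeComponents red₁ red₂ red₃ ιu ιv ιw rbar W q (algebraMap RR B₁ πq))
    (hq1 : red₁ (algebraMap RR B₁ πq) = 0) (hq2 : red₂ (algebraMap RR B₁ πq) = 0)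
    (hq3 : red₃ (algebraMap RR B₁ πq) = 0)
    (hqm : ∃ s : B₁, red₂ s ≠ 0 ∧ s * algebraMap RR B₁ πq ∈ RingHom.ker red₂ ^ (q - 1))
    (hP₁0 : P₁ 0 = RingHom.ker red₁) (hP₁1 : P₁ 1 = RingHom.ker red₂)
    (hP₁2 : P₁ 2 = RingHom.ker red₃) :
    ∃ t : Fin 3 → F₂, (∀ i, t i ≠ 0) ∧
      (∀ i (x : F₂), x ≠ 0 → ∃ n : ℤ,
        (H56.valuationSubringAt (K := F₂) (P₁ i) (hh₁ i)).valuation (x * t i ^ (-n)) = 1) ∧
      (H56.valuationSubringAt (K := F₂) (P₁ 0) (hh₁ 0)).valuation (q₂ * t 0 ^ (-(1 : ℤ))) = 1 ∧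
      (H56.valuationSubringAt (K := F₂) (P₁ 1) (hh₁ 1)).valuation
        (q₂ * t 1 ^ (-((q : ℤ) - 1))) = 1 ∧
      (H56.valuationSubringAt (K := F₂) (P₁ 2) (hh₁ 2)).valuation (q₂ * t 2 ^ (-(1 : ℤ))) = 1 ∧
      ∀ i, (H56.valuationSubringAt (K := F₂) (P₁ i) (hh₁ i)).valuation q₂ < 1 := by
  classical
  have hinc : ∀ j k, P₁ j ≤ P₁ k → j = k := by
    intro j k hjk
    haveI : (P₁ j).FiniteHeight := ⟨Or.inr (by rw [hh₁ j]; exact ENat.one_ne_top)⟩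
    exact hinj (Ideal.eq_of_le_of_height_le _ hjk (by rw [hh₁ j, hh₁ k]))
  obtain ⟨t, ht0, hord, hsep, hτ⟩ := S36.H62.exists_uniformisers (K := F₂) P₁ hh₁ hinc
  have e : algebraMap B₁ F₂ (algebraMap RR B₁ πq) = q₂ := by
    rw [map_natCast, map_natCast, map_natCast]
  have hq₂0 : q₂ ≠ 0 := by
    rw [map_natCast]
    have : CharZero F₂ := charZero_of_injective_algebraMap (algebraMap ↥E0 F₂).injective
    exact Nat.cast_ne_zero.2 hq.ne_zero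
  have hπ0 : algebraMap RR B₁ πq ≠ 0 := by
    intro h0
    apply hq₂0
    rw [← e, h0, map_zero]
  have hQ := S36.H3.qOrders_of_threeComponents (K := F₂) h₁
    hq.one_lt.le hπ0 hq1 hq2 hq3 hqm P₁ hh₁ hP₁0 hP₁1 hP₁2 t ht0 hord hsep hτ (qK := q₂) e.symm
  exact ⟨t, ht0, hord, hQ.1, hQ.2.1, hQ.2.2.1, hQ.2.2.2⟩

/-- **`HVa` of `S36.H18.geoFn36E_of_twoCharts` from the rows, one call.** -/
theorem HVa_of_rows
    {B₁ : Subalgebra RR F₂} [IsFractionRing B₁ F₂] [IsNoetherianRing B₁] [IsIntegrallyClosed B₁]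
    (hq : q.Prime)
    (P₁ : Fin 3 → Ideal B₁) [hP₁ : ∀ i, (P₁ i).IsPrime] (hh₁ : ∀ i, (P₁ i).height = 1)
    (WF WV : ValuationSubring F₁)
    (hinj : Function.Injective P₁)
    (hWFq : WF.valuation q₁ < 1)
    (hWFπ : ∀ x : F₁, x ≠ 0 → ∃ n : ℤ, WF.valuation (x * q₁ ^ (-n)) = 1)
    (hWVq : WV.valuation q₁ < 1)
    (hWVπ : ∀ x : F₁, x ≠ 0 → ∃ n : ℤ, WV.valuation (x * q₁ ^ (-n)) = 1)
    -- (E2) chart 1
    {D₁ BM₁ : Type*} [CommRing D₁] [Nontrivial D₁] [CommRing BM₁]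
    {red₁ red₂ red₃ : B₁ →+* D₁} {ιu ιv ιw : BM₁ →+* B₁} {rbar : BM₁ →+* D₁} {W : D₁ →+* D₁}
    (h₁ : ThreeComponents red₁ red₂ red₃ ιu ιv ιw rbar W q (algebraMap RR B₁ πq))
    (hq1 : red₁ (algebraMap RR B₁ πq) = 0) (hq2 : red₂ (algebraMap RR B₁ πq) = 0)
    (hq3 : red₃ (algebraMap RR B₁ πq) = 0)
    (hqm : ∃ s : B₁, red₂ s ≠ 0 ∧ s * algebraMap RR B₁ πq ∈ RingHom.ker red₂ ^ (q - 1))
    (hP₁0 : P₁ 0 = RingHom.ker red₁) (hP₁1 : P₁ 1 = RingHom.ker red₂)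
    (hP₁2 : P₁ 2 = RingHom.ker red₃)
    -- (r3)(i) the `L₁`-level tower
    (VL : Fin 3 → ValuationSubring F₂L) (WFL WVL : ValuationSubring F₁L)
    (HL : TowerValU (alphaK ↥(unrCyclo q) (q * L) (q * (q * L)) (dvd_mul_left (q * L) q))
      (normAlphaK ↥(unrCyclo q) (q * L) (q * (q * L)) (dvd_mul_left (q * L) q)) q
      (VL 0) (VL 1) (VL 2) WFL WVL)
    (happrox : ∀ T' : Fin 3 → F₂L, (∀ i, (VL i).valuation (T' i) = 1) →
      ∃ Ψ : F₂L, Ψ ≠ 0 ∧ ∀ i, OneU (VL i) (Ψ / T' i))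
    -- (E5-bc) base change of the five valuation rings
    (dV : ∀ i, Dominates (baseChangeE E0 (q * (q * L))) (VL i)
      (H56.valuationSubringAt (K := F₂) (P₁ i) (hh₁ i)))
    (hdV : ∀ i, DenseIn (baseChangeE E0 (q * (q * L))) (VL i)
      (H56.valuationSubringAt (K := F₂) (P₁ i) (hh₁ i)))
    (dWF : Dominates (baseChangeE E0 (q * L)) WFL WF)
    (dWV : Dominates (baseChangeE E0 (q * L)) WVL WV)
    -- (E3-inc) the incidence facts, `α`-side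
    (hWF0 : ∀ c ∈ WF, aα c ∈ H56.valuationSubringAt (K := F₂) (P₁ 0) (hh₁ 0))
    (hWF1 : ∀ c ∈ WF, aα c ∈ H56.valuationSubringAt (K := F₂) (P₁ 1) (hh₁ 1))
    (hWV2α : ∀ c ∈ WV, aα c ∈ H56.valuationSubringAt (K := F₂) (P₁ 2) (hh₁ 2))
    (hα₀ : ∀ W' : ValuationSubring F₂, (∀ c ∈ WF, aα c ∈ W') → q₂ ∈ W'.nonunits →
      W' = H56.valuationSubringAt (K := F₂) (P₁ 0) (hh₁ 0) ∨
        W' = H56.valuationSubringAt (K := F₂) (P₁ 1) (hh₁ 1))
    (hα₁ : ∀ W' : ValuationSubring F₂, (∀ c ∈ WV, aα c ∈ W') → q₂ ∈ W'.nonunits →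
      W' = H56.valuationSubringAt (K := F₂) (P₁ 2) (hh₁ 2)) :
    TowerValU aα Nα q (H56.valuationSubringAt (K := F₂) (P₁ 0) (hh₁ 0))
      (H56.valuationSubringAt (K := F₂) (P₁ 1) (hh₁ 1))
      (H56.valuationSubringAt (K := F₂) (P₁ 2) (hh₁ 2)) WF WV := by
  obtain ⟨t, ht0, hord, hq0', hq1', hq2', hqV'⟩ := exists_qOrders_of_rows L q E0 hq P₁ hh₁ hinj
    h₁ hq1 hq2 hq3 hqm hP₁0 hP₁1 hP₁2
  exact HVa_of_baseChangeE L q hq E0 VL WFL WVL HL happrox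
    (fun i => H56.valuationSubringAt (K := F₂) (P₁ i) (hh₁ i)) WF WV dV hdV dWF dWV
    hWFq hWFπ hWVq hWVπ t ht0 hord hq0' hq1' hq2' hqV' hWF0 hWF1 hWV2α hα₀ hα₁

/-- **`HVb` of `S36.H18.geoFn36E_of_twoCharts` from the rows, one call.** -/
theorem HVb_of_rows
    {B₁ : Subalgebra RR F₂} [IsFractionRing B₁ F₂] [IsNoetherianRing B₁] [IsIntegrallyClosed B₁]
    (hq : q.Prime)
    (P₁ : Fin 3 → Ideal B₁) [hP₁ : ∀ i, (P₁ i).IsPrime] (hh₁ : ∀ i, (P₁ i).height = 1)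
    (WF WV : ValuationSubring F₁)
    (hinj : Function.Injective P₁)
    (hWFq : WF.valuation q₁ < 1)
    (hWFπ : ∀ x : F₁, x ≠ 0 → ∃ n : ℤ, WF.valuation (x * q₁ ^ (-n)) = 1)
    (hWVq : WV.valuation q₁ < 1)
    (hWVπ : ∀ x : F₁, x ≠ 0 → ∃ n : ℤ, WV.valuation (x * q₁ ^ (-n)) = 1)
    -- (E2) chart 1
    {D₁ BM₁ : Type*} [CommRing D₁] [Nontrivial D₁] [CommRing BM₁]
    {red₁ red₂ red₃ : B₁ →+* D₁} {ιu ιv ιw : BM₁ →+* B₁} {rbar : BM₁ →+* D₁} {W : D₁ →+* D₁}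
    (h₁ : ThreeComponents red₁ red₂ red₃ ιu ιv ιw rbar W q (algebraMap RR B₁ πq))
    (hq1 : red₁ (algebraMap RR B₁ πq) = 0) (hq2 : red₂ (algebraMap RR B₁ πq) = 0)
    (hq3 : red₃ (algebraMap RR B₁ πq) = 0)
    (hqm : ∃ s : B₁, red₂ s ≠ 0 ∧ s * algebraMap RR B₁ πq ∈ RingHom.ker red₂ ^ (q - 1))
    (hP₁0 : P₁ 0 = RingHom.ker red₁) (hP₁1 : P₁ 1 = RingHom.ker red₂)
    (hP₁2 : P₁ 2 = RingHom.ker red₃)
    -- (r3)(i) the `L₁`-level tower
    (VL : Fin 3 → ValuationSubring F₂L) (WFL WVL : ValuationSubring F₁L)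
    (HL : TowerValU (betaK ↥(unrCyclo q) q (q * L) (q * (q * L)) dvd_rfl)
      (normBetaK ↥(unrCyclo q) q (q * L) (q * (q * L)) dvd_rfl) q
      (VL 2) (VL 1) (VL 0) WVL WFL)
    (happrox : ∀ T' : Fin 3 → F₂L, (∀ i, (VL i).valuation (T' i) = 1) →
      ∃ Ψ : F₂L, Ψ ≠ 0 ∧ ∀ i, OneU (VL i) (Ψ / T' i))
    -- (E5-bc) base change of the five valuation rings
    (dV : ∀ i, Dominates (baseChangeE E0 (q * (q * L))) (VL i)
      (H56.valuationSubringAt (K := F₂) (P₁ i) (hh₁ i)))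
    (hdV : ∀ i, DenseIn (baseChangeE E0 (q * (q * L))) (VL i)
      (H56.valuationSubringAt (K := F₂) (P₁ i) (hh₁ i)))
    (dWF : Dominates (baseChangeE E0 (q * L)) WFL WF)
    (dWV : Dominates (baseChangeE E0 (q * L)) WVL WV)
    -- (E3-inc) the incidence facts, `β`-side
    (hWV2 : ∀ c ∈ WV, bβ c ∈ H56.valuationSubringAt (K := F₂) (P₁ 2) (hh₁ 2))
    (hWV1 : ∀ c ∈ WV, bβ c ∈ H56.valuationSubringAt (K := F₂) (P₁ 1) (hh₁ 1))
    (hWF0β : ∀ c ∈ WF, bβ c ∈ H56.valuationSubringAt (K := F₂) (P₁ 0) (hh₁ 0))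
    (hβ₀ : ∀ W' : ValuationSubring F₂, (∀ c ∈ WV, bβ c ∈ W') → q₂ ∈ W'.nonunits →
      W' = H56.valuationSubringAt (K := F₂) (P₁ 2) (hh₁ 2) ∨
        W' = H56.valuationSubringAt (K := F₂) (P₁ 1) (hh₁ 1))
    (hβ₁ : ∀ W' : ValuationSubring F₂, (∀ c ∈ WF, bβ c ∈ W') → q₂ ∈ W'.nonunits →
      W' = H56.valuationSubringAt (K := F₂) (P₁ 0) (hh₁ 0)) :
    TowerValU bβ Nβ q (H56.valuationSubringAt (K := F₂) (P₁ 2) (hh₁ 2))
      (H56.valuationSubringAt (K := F₂) (P₁ 1) (hh₁ 1))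
      (H56.valuationSubringAt (K := F₂) (P₁ 0) (hh₁ 0)) WV WF := by
  obtain ⟨t, ht0, hord, hq0', hq1', hq2', hqV'⟩ := exists_qOrders_of_rows L q E0 hq P₁ hh₁ hinj
    h₁ hq1 hq2 hq3 hqm hP₁0 hP₁1 hP₁2
  exact HVb_of_baseChangeE L q hq E0 VL WFL WVL HL happrox
    (fun i => H56.valuationSubringAt (K := F₂) (P₁ i) (hh₁ i)) WF WV dV hdV dWF dWV
    hWFq hWFπ hWVq hWVπ t ht0 hord hq0' hq1' hq2' hqV' hWV2 hWV1 hWF0β hβ₀ hβ₁

end Rows

end Fermat.Agent.S36.H46
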