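/-
S36, row (E3), sub-row (E3-inc) (helper47): **the incidence table of `S36.H3.hE3_real` at the
chart / valuation level** (no `PlaceOver` structures, so it applies verbatim over
`R = cutOver A E0`, `K = ↥E0`).

Situation: `B'` the chart of level `q L`, `B` the (first) chart of level `q² L`, both noetherian
integrally closed domains with fraction fields `F1`, `F2`; `φ : B' →+* B` one of the two degeneracy
maps, `a : F1 →+* F2` the corresponding field map; `B` is integral over `φ(B')` (chart 1).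

* `map_mem_iff_of_uniformiser`, `map_mem_nonunits_iff_of_uniformiser` (valuation level, Mathlib
  only): if `π₁` is a uniformiser of `W ⊆ F1`, `W' ⊆ F2` contains `a(W)` and `a π₁` is a non-unit
  of `W'`, then `W'` lies over `W` (`a⁻¹ W' = W`, `a⁻¹ 𝔪_{W'} = 𝔪_W`).
* `map_mem_valuationSubringAt` : `φ⁻¹ P ≤ Q ⟹ a (V_Q) ⊆ V_P`.
* `exists_eq_valuationSubringAt_of_le` : every valuation subring `W'` of `F2` containing `a(V_Q)`
  in which `q` is a non-unit is `V_{P i}` for one of the vertical primes `P i` of `B`, and that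
  `P i` lies over `Q`.
* `incidence_table` : the EIGHT hypotheses `hWF0 hWF1 hWV2 hWV1 hα₀ hα₁ hβ₀ hβ₁` of
  `S36.H3.hE3_real` / `hE3_of_incidence`, in helper3's spelling, from the comap table of the
  vertical primes; `incidence_table_of_levelMaps` : the same from `S36.H83.LevelMaps`.
* `incidence_extra(_of_levelMaps)` : the two remaining memberships `aα (WV) ⊆ V 2`,
  `bβ (WF) ⊆ V 0` (needed by `TowerValU.haVi`, rows (E5)/(r3)).
-/
import Mathlib
import Fermat.Agent.S34.H56_PrimeVal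
import Fermat.Agent.S36.H83_LevelMaps

set_option autoImplicit false
set_option linter.unusedSectionVars false
set_option linter.style.haveILetI false

namespace Fermat.Agent.S36.H47

open Fermat.Agent.S34

section ValLevel

variable {F1 F2 : Type*} [Field F1] [Field F2]

/-- A ring homomorphism of fields mapping `W` into `W'` maps units of `W` to units of `W'`. -/
theorem valuation_map_eq_one (W : ValuationSubring F1) (a : F1 →+* F2) (W' : ValuationSubring F2)
    (hW' : ∀ c ∈ W, a c ∈ W') {u : F1} (hu : W.valuation u = 1) : W'.valuation (a u) = 1 := by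
  have hu0 : u ≠ 0 := by
    rintro rfl
    rw [map_zero] at hu
    exact zero_ne_one hu
  have h1 : a u ∈ W' := hW' u ((W.valuation_le_one_iff u).1 hu.le)
  have h2 : a u⁻¹ ∈ W' :=
    hW' u⁻¹ ((W.valuation_le_one_iff _).1 (by rw [map_inv₀, hu, inv_one]))
  have h1' := (W'.valuation_le_one_iff _).2 h1
  have h2' := (W'.valuation_le_one_iff _).2 h2
  rw [map_inv₀, map_inv₀] at h2'
  have hne : W'.valuation (a u) ≠ 0 := (Valuation.ne_zero_iff _).2 ((map_ne_zero a).2 hu0)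
  exact le_antisymm h1' ((inv_le_one₀ (zero_lt_iff.2 hne)).1 h2')

/-- If `π₁` is a uniformiser of `W` and `a π₁` is a non-unit of `W' ⊇ a(W)`, then `a` maps
non-units of `W` to non-units of `W'`. -/
theorem map_mem_nonunits_of_uniformiser (W : ValuationSubring F1) (π₁ : F1)
    (hπlt : W.valuation π₁ < 1)
    (hπ : ∀ x : F1, x ≠ 0 → ∃ n : ℤ, W.valuation (x * π₁ ^ (-n)) = 1)
    (a : F1 →+* F2) (W' : ValuationSubring F2) (hW' : ∀ c ∈ W, a c ∈ W')
    (hq : a π₁ ∈ W'.nonunits) {y : F1} (hy : y ∈ W.nonunits) : a y ∈ W'.nonunits := by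
  rw [ValuationSubring.mem_nonunits_iff] at hy hq ⊢
  rcases eq_or_ne y 0 with rfl | hy0
  · rw [map_zero, map_zero]
    exact zero_lt_one
  obtain ⟨n, hn⟩ := hπ y hy0
  have hn1 : 1 ≤ n := by
    by_contra hlt
    have h0 : 0 ≤ -n := by omega
    obtain ⟨m, hm⟩ := Int.eq_ofNat_of_zero_le h0
    rw [hm, zpow_natCast, map_mul, map_pow] at hn
    have hle : W.valuation y * W.valuation π₁ ^ m ≤ W.valuation y :=
      mul_le_of_le_one_right' (pow_le_one' hπlt.le m)
    exact absurd hn (ne_of_lt (lt_of_le_of_lt hle hy))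
  obtain ⟨m, hm⟩ : ∃ m : ℕ, n = (m : ℤ) + 1 := ⟨(n - 1).toNat, by omega⟩
  have hπ0 : π₁ ≠ 0 := by
    rintro rfl
    rw [zero_zpow _ (by omega), mul_zero, map_zero] at hn
    exact zero_ne_one hn
  have hy' : y = (y * π₁ ^ (-n)) * π₁ ^ (m + 1) := by
    have : π₁ ^ (-n) * π₁ ^ (m + 1) = 1 := by
      rw [← zpow_natCast π₁ (m + 1), ← zpow_add₀ hπ0, hm]
      simp
    rw [mul_assoc, this, mul_one]
  rw [hy', map_mul, map_pow, map_mul, map_pow, valuation_map_eq_one W a W' hW' hn, one_mul]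
  exact pow_lt_one' hq (Nat.succ_ne_zero m)

/-- **`W'` lies over `W`** (membership form). -/
theorem map_mem_iff_of_uniformiser (W : ValuationSubring F1) (π₁ : F1)
    (hπlt : W.valuation π₁ < 1)
    (hπ : ∀ x : F1, x ≠ 0 → ∃ n : ℤ, W.valuation (x * π₁ ^ (-n)) = 1)
    (a : F1 →+* F2) (W' : ValuationSubring F2) (hW' : ∀ c ∈ W, a c ∈ W')
    (hq : a π₁ ∈ W'.nonunits) (c : F1) : a c ∈ W' ↔ c ∈ W := by
  refine ⟨fun hac => ?_, hW' c⟩
  by_contra hc
  have hinv : c⁻¹ ∈ W.nonunits := by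
    rw [ValuationSubring.mem_nonunits_iff_or, inv_inv]
    exact Or.inr hc
  have h := map_mem_nonunits_of_uniformiser W π₁ hπlt hπ a W' hW' hq hinv
  rw [ValuationSubring.mem_nonunits_iff_or, map_inv₀, inv_inv] at h
  rcases h with h | h
  · rw [inv_eq_zero, map_eq_zero] at h
    exact hc (h ▸ W.zero_mem)
  · exact h hac

/-- **`W'` lies over `W`** (maximal ideal form). -/
theorem map_mem_nonunits_iff_of_uniformiser (W : ValuationSubring F1) (π₁ : F1)
    (hπlt : W.valuation π₁ < 1)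
    (hπ : ∀ x : F1, x ≠ 0 → ∃ n : ℤ, W.valuation (x * π₁ ^ (-n)) = 1)
    (a : F1 →+* F2) (W' : ValuationSubring F2) (hW' : ∀ c ∈ W, a c ∈ W')
    (hq : a π₁ ∈ W'.nonunits) (c : F1) : a c ∈ W'.nonunits ↔ c ∈ W.nonunits := by
  refine ⟨fun hac => ?_, map_mem_nonunits_of_uniformiser W π₁ hπlt hπ a W' hW' hq⟩
  have hac' := (W'.mem_nonunits_iff).1 hac
  have hcW : c ∈ W :=
    (map_mem_iff_of_uniformiser W π₁ hπlt hπ a W' hW' hq c).1
      ((W'.valuation_le_one_iff _).1 hac'.le)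
  rw [ValuationSubring.mem_nonunits_iff]
  rcases lt_or_eq_of_le ((W.valuation_le_one_iff c).2 hcW) with h | h
  · exact h
  · exact absurd (valuation_map_eq_one W a W' hW' h) (ne_of_lt hac')

end ValLevel

section ChartLevel

variable {B' B F1 F2 : Type*} [CommRing B'] [IsDomain B'] [CommRing B] [IsDomain B]
  [Field F1] [Field F2] [Algebra B' F1] [IsFractionRing B' F1] [Algebra B F2] [IsFractionRing B F2]
  [IsNoetherianRing B'] [IsIntegrallyClosed B'] [IsNoetherianRing B] [IsIntegrallyClosed B]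

/-- **`a` maps `V_Q` into `V_P` when `φ⁻¹ P ⊆ Q`.** -/
theorem map_mem_valuationSubringAt (φ : B' →+* B) (a : F1 →+* F2)
    (hφa : ∀ z, algebraMap B F2 (φ z) = a (algebraMap B' F1 z))
    (Q : Ideal B') [Q.IsPrime] (hQ : Q.height = 1) (P : Ideal B) [P.IsPrime] (hP : P.height = 1)
    (hPQ : P.comap φ ≤ Q) {c : F1} (hc : c ∈ H56.valuationSubringAt (K := F1) Q hQ) :
    a c ∈ H56.valuationSubringAt (K := F2) P hP := by
  obtain ⟨x, s, hs, hxs⟩ := hc
  refine ⟨φ x, φ s, fun h => hs (hPQ h), ?_⟩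
  rw [hφa, hφa, ← map_mul, hxs]

/-- **Exactly these places above `V_Q`.**  Every valuation subring `W'` of `F2` containing
`a (V_Q)` in which `q` is a non-unit is the valuation subring of one of the vertical primes `P i` of
`B`, and that prime lies over `Q`. -/
theorem exists_eq_valuationSubringAt_of_le (φ : B' →+* B) (a : F1 →+* F2)
    (hφa : ∀ z, algebraMap B F2 (φ z) = a (algebraMap B' F1 z))
    (hint : ∀ b : B, φ.IsIntegralElem b)
    (Q : Ideal B') [hQp : Q.IsPrime] (hQ : Q.height = 1) (qB' : B')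
    (hWq : (H56.valuationSubringAt (K := F1) Q hQ).valuation (algebraMap B' F1 qB') < 1)
    (hWπ : ∀ x : F1, x ≠ 0 → ∃ n : ℤ,
      (H56.valuationSubringAt (K := F1) Q hQ).valuation (x * algebraMap B' F1 qB' ^ (-n)) = 1)
    {ι : Type*} (P : ι → Ideal B) [hPp : ∀ i, (P i).IsPrime] (hP : ∀ i, (P i).height = 1)
    (hqP : ∀ i, φ qB' ∈ P i)
    (hexact : ∀ P' : Ideal B, P'.IsPrime → φ qB' ∈ P' → ∃ i, P i ≤ P')
    (W' : ValuationSubring F2)
    (hW' : ∀ c ∈ H56.valuationSubringAt (K := F1) Q hQ, a c ∈ W')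
    (hq : a (algebraMap B' F1 qB') ∈ W'.nonunits) :
    ∃ i, (P i).comap φ = Q ∧ W' = H56.valuationSubringAt (K := F2) (P i) (hP i) := by
  classical
  set WQ := H56.valuationSubringAt (K := F1) Q hQ with hWQ
  -- Step 0: `qB' ≠ 0`
  have hq0 : qB' ≠ 0 := by
    rintro rfl
    have hQbot : Q ≠ ⊥ := by
      rintro rfl
      rw [Ideal.height_bot] at hQ
      exact zero_ne_one hQ
    obtain ⟨b, hbQ, hb0⟩ := Submodule.exists_mem_ne_zero_of_ne_bot hQbot
    have hb0' : algebraMap B' F1 b ≠ 0 :=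
      (map_ne_zero_iff _ (IsFractionRing.injective B' F1)).2 hb0
    have hblt : WQ.valuation (algebraMap B' F1 b) < 1 :=
      (H56.algebraMap_mem_nonunits_iff hQ b).2 hbQ
    obtain ⟨n, hn⟩ := hWπ _ hb0'
    rw [map_zero] at hn
    rcases eq_or_ne n 0 with rfl | hn0
    · rw [neg_zero, zpow_zero, mul_one] at hn
      exact absurd hn (ne_of_lt hblt)
    · rw [zero_zpow _ (neg_ne_zero.2 hn0), mul_zero, map_zero] at hn
      exact zero_ne_one hn
  -- Step 1: `B ⊆ W'`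
  have hB'W' : ∀ z : B', a (algebraMap B' F1 z) ∈ W' := fun z =>
    hW' _ (H56.algebraMap_mem_valuationSubringAt hQ z)
  have hInt : W'.valuation.Integers W' :=
    { hom_inj := Subtype.val_injective
      map_le_one := fun x => (W'.valuation_le_one_iff _).2 x.2
      exists_of_le_one := fun {x} hx => ⟨⟨x, (W'.valuation_le_one_iff x).1 hx⟩, rfl⟩ }
  have hBW' : ∀ b : B, algebraMap B F2 b ∈ W' := by
    intro b
    obtain ⟨p, hpm, hp⟩ := hint b
    let ψ : B' →+* W' := (a.comp (algebraMap B' F1)).codRestrict W'.toSubring hB'W'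
    have hcomp : (algebraMap W' F2).comp ψ = (algebraMap B F2).comp φ := by
      ext z
      exact (hφa z).symm
    have hintb : IsIntegral W' (algebraMap B F2 b) := by
      refine ⟨p.map ψ, hpm.map ψ, ?_⟩
      rw [Polynomial.eval₂_map, hcomp, ← Polynomial.hom_eval₂, hp, map_zero]
    have := hInt.mem_of_integral hintb
    rw [Valuation.mem_integer_iff] at this
    exact (W'.valuation_le_one_iff _).1 this
  -- Step 2: the centre of `W'` on `B`
  let ιB : B →+* W' := (algebraMap B F2).codRestrict W'.toSubring hBW'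
  set P' : Ideal B := (IsLocalRing.maximalIdeal W').comap ιB with hP'
  haveI hP'p : P'.IsPrime := Ideal.comap_isPrime ιB _
  have hmemP' : ∀ b : B, b ∈ P' ↔ algebraMap B F2 b ∈ W'.nonunits := by
    intro b
    rw [hP', Ideal.mem_comap, ValuationSubring.valuation_lt_one_iff,
      ValuationSubring.mem_nonunits_iff]
    rfl
  -- Step 3: `q ∈ P'`
  have hqP' : φ qB' ∈ P' := by
    rw [hmemP', hφa]
    exact hq
  -- Step 4: `φ⁻¹ P' = Q`
  have hcomapP' : P'.comap φ = Q := by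
    ext z
    rw [Ideal.mem_comap, hmemP', hφa,
      map_mem_nonunits_iff_of_uniformiser WQ _ hWq hWπ a W' hW' hq,
      ValuationSubring.mem_nonunits_iff]
    exact H56.algebraMap_mem_nonunits_iff hQ z
  -- Step 5: `P' = P i`
  obtain ⟨i, hi⟩ := hexact P' hP'p hqP'
  have hPi : P i = P' := by
    by_contra hne
    have hlt : P i < P' := lt_of_le_of_ne hi hne
    obtain ⟨x, hxP', hxPi⟩ := SetLike.exists_of_lt hlt
    letI : Algebra B' B := φ.toAlgebra
    have hcl : (P i).comap φ < P'.comap φ :=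
      Ideal.comap_lt_comap_of_integral_mem_sdiff hi ⟨hxP', hxPi⟩ (hint x)
    rw [hcomapP'] at hcl
    haveI : ((P i).comap φ).IsPrime := Ideal.comap_isPrime φ (P i)
    haveI : Q.FiniteHeight := Ideal.finiteHeight_of_isNoetherianRing Q
    have hh := Ideal.height_strict_mono_of_isPrime_of_isPrime hcl
    rw [hQ, Order.lt_one_iff, Ideal.height_eq_zero_iff,
      IsDomain.minimalPrimes_eq_singleton_bot, Set.mem_singleton_iff] at hh
    have : qB' ∈ (P i).comap φ := hqP i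
    rw [hh, Ideal.mem_bot] at this
    exact hq0 this
  refine ⟨i, by rw [hPi, hcomapP'], ?_⟩
  -- Step 6: `W' = V_{P i}`
  have hunit : ∀ s : B, s ∉ P i → W'.valuation (algebraMap B F2 s) = 1 := by
    intro s hs
    rw [hPi, hmemP', ValuationSubring.mem_nonunits_iff] at hs
    exact le_antisymm ((W'.valuation_le_one_iff _).2 (hBW' s)) (not_lt.1 hs)
  have hge : ∀ x : F2, x ∈ H56.valuationSubringAt (K := F2) (P i) (hP i) → x ∈ W' := by
    rintro x ⟨x₀, s, hs, hxs⟩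
    rw [← W'.valuation_le_one_iff]
    have h1 := congrArg W'.valuation hxs
    rw [map_mul, hunit s hs, mul_one] at h1
    rw [h1]
    exact (W'.valuation_le_one_iff _).2 (hBW' x₀)
  apply SetLike.ext
  intro x
  refine ⟨fun hx => ?_, hge x⟩
  rcases eq_or_ne x 0 with rfl | hx0
  · exact zero_mem _
  rcases (H56.valuationSubringAt (K := F2) (P i) (hP i)).mem_or_inv_mem x with h | h
  · exact h
  · obtain ⟨x₀, s, hs, hxs⟩ := h
    by_cases hx₀ : x₀ ∈ P i
    · exfalso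
      have hx₀' : W'.valuation (algebraMap B F2 x₀) < 1 := by
        rw [hPi, hmemP', ValuationSubring.mem_nonunits_iff] at hx₀
        exact hx₀
      have h1 := congrArg W'.valuation hxs
      rw [map_mul, hunit s hs, mul_one, map_inv₀] at h1
      have hx1 : W'.valuation x ≤ 1 := (W'.valuation_le_one_iff _).2 hx
      have hvx : W'.valuation x ≠ 0 := (Valuation.ne_zero_iff _).2 hx0
      have : 1 ≤ (W'.valuation x)⁻¹ := (one_le_inv₀ (zero_lt_iff.2 hvx)).2 hx1
      rw [h1] at this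
      exact absurd hx₀' (not_lt.2 this)
    · refine ⟨s, x₀, hx₀, ?_⟩
      rw [← hxs]
      field_simp

end ChartLevel

section Table

variable {B' B F1 F2 : Type*} [CommRing B'] [IsDomain B'] [CommRing B] [IsDomain B]
  [Field F1] [Field F2] [Algebra B' F1] [IsFractionRing B' F1] [Algebra B F2] [IsFractionRing B F2]
  [IsNoetherianRing B'] [IsIntegrallyClosed B'] [IsNoetherianRing B] [IsIntegrallyClosed B]

/-- **The incidence table of `S36.H3.hE3_real`** from the comap table of the three vertical primes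
`P 0, P 1, P 2` of `B` over the two vertical primes `QF, QV` of `B'`:
`α⁻¹ P 0 = α⁻¹ P 1 = QF`, `α⁻¹ P 2 = QV`, `β⁻¹ P 0 = QF`, `β⁻¹ P 1 = β⁻¹ P 2 = QV`. -/
theorem incidence_table (α β : B' →+* B) (aα bβ : F1 →+* F2)
    (hα : ∀ z, algebraMap B F2 (α z) = aα (algebraMap B' F1 z))
    (hβ : ∀ z, algebraMap B F2 (β z) = bβ (algebraMap B' F1 z))
    (hintα : ∀ b : B, α.IsIntegralElem b) (hintβ : ∀ b : B, β.IsIntegralElem b)
    (QF QV : Ideal B') [QF.IsPrime] [QV.IsPrime] (hhF : QF.height = 1) (hhV : QV.height = 1)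
    (hFV : QF ≠ QV)
    (P : Fin 3 → Ideal B) [∀ i, (P i).IsPrime] (hh : ∀ i, (P i).height = 1)
    (qB' : B') (qB : B) (hαq : α qB' = qB) (hβq : β qB' = qB)
    (hqP : ∀ i, qB ∈ P i)
    (hexact : ∀ P' : Ideal B, P'.IsPrime → qB ∈ P' → ∃ i, P i ≤ P')
    (hα0 : (P 0).comap α = QF) (hα1 : (P 1).comap α = QF) (hα2 : (P 2).comap α = QV)
    (hβ0 : (P 0).comap β = QF) (hβ1 : (P 1).comap β = QV) (hβ2 : (P 2).comap β = QV)
    (V : Fin 3 → ValuationSubring F2) (WF WV : ValuationSubring F1)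
    (hV : ∀ i, V i = H56.valuationSubringAt (K := F2) (P i) (hh i))
    (hWF : WF = H56.valuationSubringAt (K := F1) QF hhF)
    (hWV : WV = H56.valuationSubringAt (K := F1) QV hhV)
    (q₁ : F1) (q₂ : F2) (hqF1 : algebraMap B' F1 qB' = q₁) (hαq₂ : aα q₁ = q₂)
    (hβq₂ : bβ q₁ = q₂)
    (hWFq : WF.valuation q₁ < 1)
    (hWFπ : ∀ x : F1, x ≠ 0 → ∃ n : ℤ, WF.valuation (x * q₁ ^ (-n)) = 1)
    (hWVq : WV.valuation q₁ < 1)
    (hWVπ : ∀ x : F1, x ≠ 0 → ∃ n : ℤ, WV.valuation (x * q₁ ^ (-n)) = 1) :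
    (∀ c ∈ WF, aα c ∈ V 0) ∧ (∀ c ∈ WF, aα c ∈ V 1) ∧
    (∀ c ∈ WV, bβ c ∈ V 2) ∧ (∀ c ∈ WV, bβ c ∈ V 1) ∧
    (∀ W' : ValuationSubring F2, (∀ c ∈ WF, aα c ∈ W') → q₂ ∈ W'.nonunits →
      W' = V 0 ∨ W' = V 1) ∧
    (∀ W' : ValuationSubring F2, (∀ c ∈ WV, aα c ∈ W') → q₂ ∈ W'.nonunits → W' = V 2) ∧
    (∀ W' : ValuationSubring F2, (∀ c ∈ WV, bβ c ∈ W') → q₂ ∈ W'.nonunits →
      W' = V 2 ∨ W' = V 1) ∧
    (∀ W' : ValuationSubring F2, (∀ c ∈ WF, bβ c ∈ W') → q₂ ∈ W'.nonunits → W' = V 0) := by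
  subst hWF hWV hqF1
  have hcases : ∀ i : Fin 3, i = 0 ∨ i = 1 ∨ i = 2 := by
    intro i
    fin_cases i
    · exact Or.inl rfl
    · exact Or.inr (Or.inl rfl)
    · exact Or.inr (Or.inr rfl)
  have hqPα : ∀ i, α qB' ∈ P i := fun i => hαq ▸ hqP i
  have hqPβ : ∀ i, β qB' ∈ P i := fun i => hβq ▸ hqP i
  have hexα : ∀ P' : Ideal B, P'.IsPrime → α qB' ∈ P' → ∃ i, P i ≤ P' := by
    rw [hαq]
    exact hexact
  have hexβ : ∀ P' : Ideal B, P'.IsPrime → β qB' ∈ P' → ∃ i, P i ≤ P' := by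
    rw [hβq]
    exact hexact
  refine ⟨fun c hc => ?_, fun c hc => ?_, fun c hc => ?_, fun c hc => ?_,
    fun W' hW' hq => ?_, fun W' hW' hq => ?_, fun W' hW' hq => ?_, fun W' hW' hq => ?_⟩
  · rw [hV 0]
    exact map_mem_valuationSubringAt α aα hα QF hhF (P 0) (hh 0) hα0.le hc
  · rw [hV 1]
    exact map_mem_valuationSubringAt α aα hα QF hhF (P 1) (hh 1) hα1.le hc
  · rw [hV 2]
    exact map_mem_valuationSubringAt β bβ hβ QV hhV (P 2) (hh 2) hβ2.le hc
  · rw [hV 1]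
    exact map_mem_valuationSubringAt β bβ hβ QV hhV (P 1) (hh 1) hβ1.le hc
  · rw [← hαq₂] at hq
    obtain ⟨i, hi, hWi⟩ := exists_eq_valuationSubringAt_of_le α aα hα hintα QF hhF qB' hWFq hWFπ
      P hh hqPα hexα W' hW' hq
    rcases hcases i with rfl | rfl | rfl
    · exact Or.inl (hWi.trans (hV 0).symm)
    · exact Or.inr (hWi.trans (hV 1).symm)
    · exact absurd (hi.symm.trans hα2) hFV
  · rw [← hαq₂] at hq
    obtain ⟨i, hi, hWi⟩ := exists_eq_valuationSubringAt_of_le α aα hα hintα QV hhV qB' hWVq hWVπ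
      P hh hqPα hexα W' hW' hq
    rcases hcases i with rfl | rfl | rfl
    · exact absurd (hα0.symm.trans hi) hFV
    · exact absurd (hα1.symm.trans hi) hFV
    · exact hWi.trans (hV 2).symm
  · rw [← hβq₂] at hq
    obtain ⟨i, hi, hWi⟩ := exists_eq_valuationSubringAt_of_le β bβ hβ hintβ QV hhV qB' hWVq hWVπ
      P hh hqPβ hexβ W' hW' hq
    rcases hcases i with rfl | rfl | rfl
    · exact absurd (hβ0.symm.trans hi) hFV
    · exact Or.inr (hWi.trans (hV 1).symm)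
    · exact Or.inl (hWi.trans (hV 2).symm)
  · rw [← hβq₂] at hq
    obtain ⟨i, hi, hWi⟩ := exists_eq_valuationSubringAt_of_le β bβ hβ hintβ QF hhF qB' hWFq hWFπ
      P hh hqPβ hexβ W' hW' hq
    rcases hcases i with rfl | rfl | rfl
    · exact hWi.trans (hV 0).symm
    · exact absurd (hi.symm.trans hβ1) hFV
    · exact absurd (hi.symm.trans hβ2) hFV

/-- **The incidence table from `S36.H83.LevelMaps`** (family vocabulary of `S36.H61.vertFam_*`:
`P 0 = ker red₁`, `P 1 = ker red₂`, `P 2 = ker red₃`; `QF = ker red₁'`, `QV = ker red₂'`). -/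
theorem incidence_table_of_levelMaps {D : Type*} [CommRing D]
    {red₁ red₂ red₃ : B →+* D} {red₁' red₂' : B' →+* D} {α β : B' →+* B} {W : D →+* D}
    (h : H83.LevelMaps red₁ red₂ red₃ red₁' red₂' α β W) (hW : Function.Injective W)
    (aα bβ : F1 →+* F2)
    (hα : ∀ z, algebraMap B F2 (α z) = aα (algebraMap B' F1 z))
    (hβ : ∀ z, algebraMap B F2 (β z) = bβ (algebraMap B' F1 z))
    (hintα : ∀ b : B, α.IsIntegralElem b) (hintβ : ∀ b : B, β.IsIntegralElem b)
    (QF QV : Ideal B') (eF : QF = RingHom.ker red₁') (eV : QV = RingHom.ker red₂')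
    [QF.IsPrime] [QV.IsPrime] (hhF : QF.height = 1) (hhV : QV.height = 1)
    (s : B') (hs1 : red₁' s = 0) (hs2 : red₂' s ≠ 0)
    (P : Fin 3 → Ideal B) (e0 : P 0 = RingHom.ker red₁) (e1 : P 1 = RingHom.ker red₂)
    (e2 : P 2 = RingHom.ker red₃) [∀ i, (P i).IsPrime] (hh : ∀ i, (P i).height = 1)
    (qB' : B') (qB : B) (hαq : α qB' = qB) (hβq : β qB' = qB)
    (hq₁ : red₁ qB = 0) (hq₂ : red₂ qB = 0) (hq₃ : red₃ qB = 0)
    (h3 : ∀ P' : Ideal B, P'.IsPrime → qB ∈ P' →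
      RingHom.ker red₁ ≤ P' ∨ RingHom.ker red₂ ≤ P' ∨ RingHom.ker red₃ ≤ P')
    (V : Fin 3 → ValuationSubring F2) (WF WV : ValuationSubring F1)
    (hV : ∀ i, V i = H56.valuationSubringAt (K := F2) (P i) (hh i))
    (hWF : WF = H56.valuationSubringAt (K := F1) QF hhF)
    (hWV : WV = H56.valuationSubringAt (K := F1) QV hhV)
    (q₁ : F1) (q₂ : F2) (hqF1 : algebraMap B' F1 qB' = q₁) (hαq₂ : aα q₁ = q₂)
    (hβq₂ : bβ q₁ = q₂)
    (hWFq : WF.valuation q₁ < 1)
    (hWFπ : ∀ x : F1, x ≠ 0 → ∃ n : ℤ, WF.valuation (x * q₁ ^ (-n)) = 1)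
    (hWVq : WV.valuation q₁ < 1)
    (hWVπ : ∀ x : F1, x ≠ 0 → ∃ n : ℤ, WV.valuation (x * q₁ ^ (-n)) = 1) :
    (∀ c ∈ WF, aα c ∈ V 0) ∧ (∀ c ∈ WF, aα c ∈ V 1) ∧
    (∀ c ∈ WV, bβ c ∈ V 2) ∧ (∀ c ∈ WV, bβ c ∈ V 1) ∧
    (∀ W' : ValuationSubring F2, (∀ c ∈ WF, aα c ∈ W') → q₂ ∈ W'.nonunits →
      W' = V 0 ∨ W' = V 1) ∧
    (∀ W' : ValuationSubring F2, (∀ c ∈ WV, aα c ∈ W') → q₂ ∈ W'.nonunits → W' = V 2) ∧
    (∀ W' : ValuationSubring F2, (∀ c ∈ WV, bβ c ∈ W') → q₂ ∈ W'.nonunits →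
      W' = V 2 ∨ W' = V 1) ∧
    (∀ W' : ValuationSubring F2, (∀ c ∈ WF, bβ c ∈ W') → q₂ ∈ W'.nonunits → W' = V 0) := by
  have hFV : QF ≠ QV := by
    rw [eF, eV]
    intro e
    exact hs2 ((RingHom.mem_ker).1 (e ▸ (RingHom.mem_ker).2 hs1))
  have hqP : ∀ i, qB ∈ P i := by
    intro i
    fin_cases i
    · show qB ∈ P 0
      rw [e0]; exact (RingHom.mem_ker).2 hq₁
    · show qB ∈ P 1
      rw [e1]; exact (RingHom.mem_ker).2 hq₂
    · show qB ∈ P 2
      rw [e2]; exact (RingHom.mem_ker).2 hq₃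
  have hexact : ∀ P' : Ideal B, P'.IsPrime → qB ∈ P' → ∃ i, P i ≤ P' := by
    intro P' hP' hqP'
    rcases h3 P' hP' hqP' with h' | h' | h'
    · exact ⟨0, e0 ▸ h'⟩
    · exact ⟨1, e1 ▸ h'⟩
    · exact ⟨2, e2 ▸ h'⟩
  exact incidence_table α β aα bβ hα hβ hintα hintβ QF QV hhF hhV hFV P hh qB' qB hαq hβq hqP
    hexact (by rw [e0, eF]; exact h.comap_α_ker₁) (by rw [e1, eF]; exact h.comap_α_ker₂)
    (by rw [e2, eV]; exact h.comap_α_ker₃ hW) (by rw [e0, eF]; exact h.comap_β_ker₁ hW)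
    (by rw [e1, eV]; exact h.comap_β_ker₂) (by rw [e2, eV]; exact h.comap_β_ker₃)
    V WF WV hV hWF hWV q₁ q₂ hqF1 hαq₂ hβq₂ hWFq hWFπ hWVq hWVπ

/-- **The two remaining memberships of the comap table** (lying-over of the inseparable places:
`TowerValU.haVi` of rows (E5)/(r3); not needed by `hE3_real`): `aα (WV) ⊆ V 2`, `bβ (WF) ⊆ V 0`. -/
theorem incidence_extra (α β : B' →+* B) (aα bβ : F1 →+* F2)
    (hα : ∀ z, algebraMap B F2 (α z) = aα (algebraMap B' F1 z))
    (hβ : ∀ z, algebraMap B F2 (β z) = bβ (algebraMap B' F1 z))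
    (QF QV : Ideal B') [QF.IsPrime] [QV.IsPrime] (hhF : QF.height = 1) (hhV : QV.height = 1)
    (P : Fin 3 → Ideal B) [∀ i, (P i).IsPrime] (hh : ∀ i, (P i).height = 1)
    (hα2 : (P 2).comap α = QV) (hβ0 : (P 0).comap β = QF)
    (V : Fin 3 → ValuationSubring F2) (WF WV : ValuationSubring F1)
    (hV : ∀ i, V i = H56.valuationSubringAt (K := F2) (P i) (hh i))
    (hWF : WF = H56.valuationSubringAt (K := F1) QF hhF)
    (hWV : WV = H56.valuationSubringAt (K := F1) QV hhV) :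
    (∀ c ∈ WV, aα c ∈ V 2) ∧ (∀ c ∈ WF, bβ c ∈ V 0) := by
  subst hWF hWV
  refine ⟨fun c hc => ?_, fun c hc => ?_⟩
  · rw [hV 2]
    exact map_mem_valuationSubringAt α aα hα QV hhV (P 2) (hh 2) hα2.le hc
  · rw [hV 0]
    exact map_mem_valuationSubringAt β bβ hβ QF hhF (P 0) (hh 0) hβ0.le hc

/-- `incidence_extra` from `S36.H83.LevelMaps`. -/
theorem incidence_extra_of_levelMaps {D : Type*} [CommRing D]
    {red₁ red₂ red₃ : B →+* D} {red₁' red₂' : B' →+* D} {α β : B' →+* B} {W : D →+* D}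
    (h : H83.LevelMaps red₁ red₂ red₃ red₁' red₂' α β W) (hW : Function.Injective W)
    (aα bβ : F1 →+* F2)
    (hα : ∀ z, algebraMap B F2 (α z) = aα (algebraMap B' F1 z))
    (hβ : ∀ z, algebraMap B F2 (β z) = bβ (algebraMap B' F1 z))
    (QF QV : Ideal B') (eF : QF = RingHom.ker red₁') (eV : QV = RingHom.ker red₂')
    [QF.IsPrime] [QV.IsPrime] (hhF : QF.height = 1) (hhV : QV.height = 1)
    (P : Fin 3 → Ideal B) (e0 : P 0 = RingHom.ker red₁) (e2 : P 2 = RingHom.ker red₃)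
    [∀ i, (P i).IsPrime] (hh : ∀ i, (P i).height = 1)
    (V : Fin 3 → ValuationSubring F2) (WF WV : ValuationSubring F1)
    (hV : ∀ i, V i = H56.valuationSubringAt (K := F2) (P i) (hh i))
    (hWF : WF = H56.valuationSubringAt (K := F1) QF hhF)
    (hWV : WV = H56.valuationSubringAt (K := F1) QV hhV) :
    (∀ c ∈ WV, aα c ∈ V 2) ∧ (∀ c ∈ WF, bβ c ∈ V 0) :=
  incidence_extra α β aα bβ hα hβ QF QV hhF hhV P hh
    (by rw [e2, eV]; exact h.comap_α_ker₃ hW) (by rw [e0, eF]; exact h.comap_β_ker₁ hW)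
    V WF WV hV hWF hWV

end Table

end Fermat.Agent.S36.H47
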