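/-
helper46 -- S36 (Carayol), row (E5-bc)/(r3): **`HVa ∧ HVb` of `S36.H18.geoFn36E_of_rows` /
`geoFn36E_of_twoCharts` from (E2) + (E2-lvl)** -- the twin of helper3's
`S36.H3.hE3_of_levelMaps(_fast)` (same binder block): the incidence facts are produced inside by
helper47's `S36.H47.incidence_table_of_levelMaps` / `incidence_extra_of_levelMaps`, the
uniformisers and `q`-orders by `S36.H46.exists_qOrders_of_rows`.

Extra inputs (the `L₁ = unrCyclo q` level, where the (M1) places live):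
`VL WFL WVL`, helper16's two towers `HLa HLb`, weak approximation `happrox` at the `L₁`-level and
the eight `Dominates` / `DenseIn` facts of the chart base change.
-/
import Mathlib
import Fermat.Agent.S36.H46_TowerValRows
import Fermat.Agent.S36.H47_IncidenceTable
import Fermat.Agent.S36.H18_Geo36Consts

set_option autoImplicit false
set_option linter.unusedSectionVars false
set_option linter.style.haveILetI false
set_option synthInstance.maxHeartbeats 400000
set_option maxHeartbeats 3200000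

noncomputable section

namespace Fermat.Agent.S36.H46

open ModularCurve IntermediateField
open Fermat.Agent.S18 Fermat.Agent.S18.H45 Fermat.Agent.S34 Fermat.Agent.S34.H47
  Fermat.Agent.S36.H18 Fermat.Agent.S36.H83

local notation "Qbar" => AlgebraicClosure ℚ

section LevelMaps

variable (L q : ℕ) [NeZero L] [NeZero q] (hq : q.Prime)
  {A : ValuationSubring Qbar}
  (E0 : IntermediateField (unrCyclo q) Qbar)

set_option quotPrecheck false
local notation "F₁L" => ↥(modularFunctionFieldFullC ↥(unrCyclo q) (q * L))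
local notation "F₂L" => ↥(modularFunctionFieldFullC ↥(unrCyclo q) (q * (q * L)))
local notation "F₁" => ↥(modularFunctionFieldFullC ↥E0 (q * L))
local notation "F₂" => ↥(modularFunctionFieldFullC ↥E0 (q * (q * L)))
local notation "RR" => ↥(cutOver A E0)
local notation "aα" => alphaK ↥E0 (q * L) (q * (q * L)) (dvd_mul_left (q * L) q)
local notation "bβ" => betaK ↥E0 q (q * L) (q * (q * L)) dvd_rfl
local notation "Nα" => normAlphaK ↥E0 (q * L) (q * (q * L)) (dvd_mul_left (q * L) q)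
local notation "Nβ" => normBetaK ↥E0 q (q * L) (q * (q * L)) dvd_rfl
local notation "πq" => (((q : ℕ) : ↥(cutOver A E0)))
local notation "q₁" => algebraMap ↥E0 F₁ ((q : ℕ) : ↥E0)
local notation "q₂" => algebraMap ↥E0 F₂ ((q : ℕ) : ↥E0)

/-- helper85's elaboration shortcuts (#3632): local, reducible, equal to what the search finds. -/
local instance (priority := 10000) shortcutAlgE46b (N : ℕ) [NeZero N] :
    Algebra ↥E0 ↥(modularFunctionFieldFullC ↥E0 N) :=
  SubalgebraClass.toAlgebra (modularFunctionFieldFullC ↥E0 N)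

local instance (priority := 10000) shortcutAlg46b (N : ℕ) [NeZero N] :
    Algebra ↥(cutOver A E0) ↥(modularFunctionFieldFullC ↥E0 N) :=
  Algebra.ofSubsemiring (cutOver A E0)

local instance (priority := 10000) shortcutTower46b (N : ℕ) [NeZero N] :
    IsScalarTower ↥(cutOver A E0) ↥E0 ↥(modularFunctionFieldFullC ↥E0 N) :=
  IsScalarTower.of_algebraMap_eq (fun _ => rfl)

set_option maxHeartbeats 6400000 in
/-- **(r3)-inst: `HVa ∧ HVb` from (E2) + (E2-lvl) + the `L₁`-level towers, one call.** -/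
theorem HVab_of_levelMaps
    {B₁ : Subalgebra RR F₂} [IsFractionRing B₁ F₂] [IsNoetherianRing B₁] [IsIntegrallyClosed B₁]
    {B' : Type*} [CommRing B'] [IsDomain B'] [IsNoetherianRing B'] [IsIntegrallyClosed B']
    [Algebra B' F₁] [IsFractionRing B' F₁]
    (hq : q.Prime)
    (P₁ : Fin 3 → Ideal B₁) [hP₁ : ∀ i, (P₁ i).IsPrime] (hh₁ : ∀ i, (P₁ i).height = 1)
    (WF WV : ValuationSubring F₁)
    (hinj : Function.Injective P₁)
    -- (W) `q` is a uniformiser at `WF`, `WV`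
    (hWFq : WF.valuation q₁ < 1)
    (hWFπ : ∀ x : F₁, x ≠ 0 → ∃ n : ℤ, WF.valuation (x * q₁ ^ (-n)) = 1)
    (hWVq : WV.valuation q₁ < 1)
    (hWVπ : ∀ x : F₁, x ≠ 0 → ∃ n : ℤ, WV.valuation (x * q₁ ^ (-n)) = 1)
    -- (E2) chart 1
    {D₁ BM₁ : Type*} [CommRing D₁] [Nontrivial D₁] [CommRing BM₁]
    {red₁ red₂ red₃ : B₁ →+* D₁} {ιu ιv ιw : BM₁ →+* B₁} {rbar : BM₁ →+* D₁} {W : D₁ →+* D₁}
    (h₁ : ThreeComponents red₁ red₂ red₃ ιu ιv ιw rbar W q (algebraMap RR B₁ πq))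
    (hq1 : red₁ (algebraMap RR B₁ πq) = 0) (hq2 : red₂ (algebraMap RR B₁ πq) = 0)
    (hq3 : red₃ (algebraMap RR B₁ πq) = 0)
    (hqm : ∃ s : B₁, red₂ s ≠ 0 ∧ s * algebraMap RR B₁ πq ∈ RingHom.ker red₂ ^ (q - 1))
    (hP₁0 : P₁ 0 = RingHom.ker red₁) (hP₁1 : P₁ 1 = RingHom.ker red₂)
    (hP₁2 : P₁ 2 = RingHom.ker red₃)
    -- (E2-lvl) the level maps
    {red₁' red₂' : B' →+* D₁} {α β : B' →+* B₁}
    (hL : LevelMaps red₁ red₂ red₃ red₁' red₂' α β W) (hWinj : Function.Injective W)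
    (haα : ∀ z, algebraMap B₁ F₂ (α z) = aα (algebraMap B' F₁ z))
    (hbβ : ∀ z, algebraMap B₁ F₂ (β z) = bβ (algebraMap B' F₁ z))
    (hintα : α.IsIntegral) (hintβ : β.IsIntegral)
    (P'F P'V : Ideal B') [hP'F : P'F.IsPrime] [hP'V : P'V.IsPrime]
    (hF : P'F.height = 1) (hV : P'V.height = 1)
    (hP'F1 : P'F = RingHom.ker red₁') (hP'V2 : P'V = RingHom.ker red₂')
    (hWF : WF = H56.valuationSubringAt (K := F₁) P'F hF)
    (hWV : WV = H56.valuationSubringAt (K := F₁) P'V hV)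
    {s₁ : B'} (hs11 : red₁' s₁ = 0) (hs12 : red₂' s₁ ≠ 0)
    (qB' : B') (hqB' : algebraMap B' F₁ qB' = q₁)
    (hαq : α qB' = algebraMap RR B₁ πq) (hβq : β qB' = algebraMap RR B₁ πq)
    -- (r3)(i) the `L₁`-level towers
    (VL : Fin 3 → ValuationSubring F₂L) (WFL WVL : ValuationSubring F₁L)
    (HLa : TowerValU (alphaK ↥(unrCyclo q) (q * L) (q * (q * L)) (dvd_mul_left (q * L) q))
      (normAlphaK ↥(unrCyclo q) (q * L) (q * (q * L)) (dvd_mul_left (q * L) q)) q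
      (VL 0) (VL 1) (VL 2) WFL WVL)
    (HLb : TowerValU (betaK ↥(unrCyclo q) q (q * L) (q * (q * L)) dvd_rfl)
      (normBetaK ↥(unrCyclo q) q (q * L) (q * (q * L)) dvd_rfl) q
      (VL 2) (VL 1) (VL 0) WVL WFL)
    (happrox : ∀ T' : Fin 3 → F₂L, (∀ i, (VL i).valuation (T' i) = 1) →
      ∃ Ψ : F₂L, Ψ ≠ 0 ∧ ∀ i, OneU (VL i) (Ψ / T' i))
    -- (E5-bc) base change of the five valuation rings
    (dV : ∀ i, Dominates (baseChangeE E0 (q * (q * L))) (VL i)
      (H56.valuationSubringAt (K := F₂) (P₁ i) (hh₁ i)))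
    (hdV : ∀ i, DenseIn (baseChangeE E0 (q * (q * L))) (VL i)
      (H56.valuationSubringAt (K := F₂) (P₁ i) (hh₁ i)))
    (dWF : Dominates (baseChangeE E0 (q * L)) WFL WF)
    (dWV : Dominates (baseChangeE E0 (q * L)) WVL WV) :
    TowerValU aα Nα q (H56.valuationSubringAt (K := F₂) (P₁ 0) (hh₁ 0))
      (H56.valuationSubringAt (K := F₂) (P₁ 1) (hh₁ 1))
      (H56.valuationSubringAt (K := F₂) (P₁ 2) (hh₁ 2)) WF WV ∧
    TowerValU bβ Nβ q (H56.valuationSubringAt (K := F₂) (P₁ 2) (hh₁ 2))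
      (H56.valuationSubringAt (K := F₂) (P₁ 1) (hh₁ 1))
      (H56.valuationSubringAt (K := F₂) (P₁ 0) (hh₁ 0)) WV WF := by
  classical
  -- the incidence table
  have hT := S36.H47.incidence_table_of_levelMaps (F1 := F₁) (F2 := F₂) hL hWinj aα bβ haα hbβ
      hintα hintβ P'F P'V hP'F1 hP'V2 hF hV s₁ hs11 hs12 P₁ hP₁0 hP₁1 hP₁2 hh₁
      qB' (algebraMap RR B₁ πq) hαq hβq hq1 hq2 hq3
      (fun P' hP' hqP' => by
        haveI := hP'
        exact h₁.ker_le_of_mem P' hqP')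
      (fun i => H56.valuationSubringAt (K := F₂) (P₁ i) (hh₁ i)) WF WV (fun _ => rfl) hWF hWV
      q₁ q₂ hqB'
      (alphaK_algebraMap ↥E0 (q * L) (q * (q * L)) (dvd_mul_left (q * L) q) _)
      (betaK_algebraMap ↥E0 q (q * L) (q * (q * L)) dvd_rfl _)
      hWFq hWFπ hWVq hWVπ
  have hX := S36.H47.incidence_extra_of_levelMaps (F1 := F₁) (F2 := F₂) hL hWinj aα bβ haα hbβ
      P'F P'V hP'F1 hP'V2 hF hV P₁ hP₁0 hP₁2 hh₁
      (fun i => H56.valuationSubringAt (K := F₂) (P₁ i) (hh₁ i)) WF WV (fun _ => rfl) hWF hWV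
  exact ⟨HVa_of_rows L q E0 hq P₁ hh₁ WF WV hinj hWFq hWFπ hWVq hWVπ h₁ hq1 hq2 hq3 hqm
      hP₁0 hP₁1 hP₁2 VL WFL WVL HLa happrox dV hdV dWF dWV
      hT.1 hT.2.1 hX.1 hT.2.2.2.2.1 hT.2.2.2.2.2.1,
    HVb_of_rows L q E0 hq P₁ hh₁ WF WV hinj hWFq hWFπ hWVq hWVπ h₁ hq1 hq2 hq3 hqm
      hP₁0 hP₁1 hP₁2 VL WFL WVL HLb happrox dV hdV dWF dWV
      hT.2.2.1 hT.2.2.2.1 hX.2 hT.2.2.2.2.2.2.1 hT.2.2.2.2.2.2.2⟩

end LevelMaps

end Fermat.Agent.S36.H46
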