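/-
helper46 -- S36 (Carayol), row (r3)-inst (Ruling 9): **`HVa ∧ HVb` of `S36.H18.geoFn36E_of_rows`
in the (S2) consumer form**, from

* the E-level rows on `B₁ = chartB R J₂`, `B' = chartB R J₁` (`R = cutOver A E0`), in the binder
  vocabulary of `S36.H18.geoFn36E_of_rows`;
* the `A₁`-level charts `chartB A₁ J₂L`, `chartB A₁ J₁L` with `baseChangeE J₂L = J₂`,
  `baseChangeE J₁L = J₁`, and `A₁`-level reductions `r_i`, `r_j'` with
  `red_i ∘ chartBC = r_i`, `red_j' ∘ chartBC = r_j'` (the clauses of helper70's base change);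
* helper16's two `L₁`-level towers in the `valuationSubringAt (ker r_i)` form
  (`S36.H16.towerValU_alpha_J3N` / `towerValU_beta_J3N`).

Inside: the (W) facts (`S36.H69.wfacts_of_hred`), the eight `Dominates`/`DenseIn`
(`S36.H46.dominates_chartBC` / `denseIn_chartBC`), weak approximation at the `A₁`-chart
(`S36.H84.happrox_chart`), then `S36.H46.HVab_of_levelMaps`.
-/
import Mathlib
import Fermat.Agent.S36.H46_TowerValLevelMaps
import Fermat.Agent.S36.H46_DominatesBC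
import Fermat.Agent.S36.H69_WFacts
import Fermat.Agent.S35.H84_TwoCompNe
import Fermat.Agent.S36.H84_TowerAdapters

set_option autoImplicit false
set_option linter.unusedSectionVars false
set_option linter.style.haveILetI false
set_option synthInstance.maxHeartbeats 400000
set_option maxHeartbeats 6400000

noncomputable section

namespace Fermat.Agent.S36.H46

open ModularCurve IntermediateField IsLocalRing
open Fermat.Agent.S18 Fermat.Agent.S18.H45 Fermat.Agent.S34 Fermat.Agent.S34.H47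
  Fermat.Agent.S36.H18 Fermat.Agent.S36.H83 Fermat.Agent.S34.H83 Fermat.Agent.S35.H84
  Fermat.Agent.S36.H69 Fermat.Agent.S35.H70

local notation "Qbar" => AlgebraicClosure ℚ

section Gen

variable (L q : ℕ) [NeZero L] [NeZero q] (hq : q.Prime)
  {A : ValuationSubring Qbar} (hA : A.LiesOverPrime q)
  (E0 : IntermediateField (unrCyclo q) Qbar)

set_option quotPrecheck false
local notation "F₁L" => ↥(modularFunctionFieldFullC ↥(unrCyclo q) (q * L))
local notation "F₂L" => ↥(modularFunctionFieldFullC ↥(unrCyclo q) (q * (q * L)))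
local notation "F₁" => ↥(modularFunctionFieldFullC ↥E0 (q * L))
local notation "F₂" => ↥(modularFunctionFieldFullC ↥E0 (q * (q * L)))
local notation "RR" => ↥(cutOver A E0)
local notation "A₁" => ↥(H45.A0 A q)
local notation "aα" => alphaK ↥E0 (q * L) (q * (q * L)) (dvd_mul_left (q * L) q)
local notation "bβ" => betaK ↥E0 q (q * L) (q * (q * L)) dvd_rfl
local notation "Nα" => normAlphaK ↥E0 (q * L) (q * (q * L)) (dvd_mul_left (q * L) q)
local notation "Nβ" => normBetaK ↥E0 q (q * L) (q * (q * L)) dvd_rfl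
local notation "πq" => (((q : ℕ) : ↥(cutOver A E0)))
local notation "q₁" => algebraMap ↥E0 F₁ ((q : ℕ) : ↥E0)
local notation "q₂" => algebraMap ↥E0 F₂ ((q : ℕ) : ↥E0)

/-- helper85's elaboration shortcuts (#3632): local, reducible, equal to what the search finds. -/
local instance (priority := 10000) shortcutAlgE46c (N : ℕ) [NeZero N] :
    Algebra ↥E0 ↥(modularFunctionFieldFullC ↥E0 N) :=
  SubalgebraClass.toAlgebra (modularFunctionFieldFullC ↥E0 N)

local instance (priority := 10000) shortcutAlg46c (N : ℕ) [NeZero N] :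
    Algebra ↥(cutOver A E0) ↥(modularFunctionFieldFullC ↥E0 N) :=
  Algebra.ofSubsemiring (cutOver A E0)

local instance (priority := 10000) shortcutTower46c (N : ℕ) [NeZero N] :
    IsScalarTower ↥(cutOver A E0) ↥E0 ↥(modularFunctionFieldFullC ↥E0 N) :=
  IsScalarTower.of_algebraMap_eq (fun _ => rfl)

include hq hA in
/-- **(r3)-inst, (S2) consumer form: `HVa ∧ HVb` of `geoFn36E_of_rows`.** -/
theorem HVab_of_chartBC
    -- the four charts
    (J₂L : F₂L) (J₂ : F₂) (hJ₂ : baseChangeE E0 (q * (q * L)) J₂L = J₂)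
    (J₁L : F₁L) (J₁ : F₁) (hJ₁ : baseChangeE E0 (q * L) J₁L = J₁)
    [IsFractionRing ↥(H40.chartB A₁ J₂L) F₂L] [IsNoetherianRing ↥(H40.chartB A₁ J₂L)]
    [IsIntegrallyClosed ↥(H40.chartB A₁ J₂L)]
    [IsFractionRing ↥(H40.chartB RR J₂) F₂] [IsNoetherianRing ↥(H40.chartB RR J₂)]
    [IsIntegrallyClosed ↥(H40.chartB RR J₂)]
    [IsFractionRing ↥(H40.chartB A₁ J₁L) F₁L] [IsNoetherianRing ↥(H40.chartB A₁ J₁L)]
    [IsIntegrallyClosed ↥(H40.chartB A₁ J₁L)]
    [IsFractionRing ↥(H40.chartB RR J₁) F₁] [IsNoetherianRing ↥(H40.chartB RR J₁)]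
    [IsIntegrallyClosed ↥(H40.chartB RR J₁)]
    (hunr : maximalIdeal RR = Ideal.span {πq})
    (g₂ : GenBy (A := A) E0 (q * (q * L)) J₂L)
    -- E-level rows (vocabulary of `geoFn36E_of_rows`)
    {D BM BM' : Type*} [CommRing D] [IsDedekindDomain D] [CommRing BM] [CommRing BM']
    (hD : ¬ IsField D)
    {red₁ red₂ red₃ : ↥(H40.chartB RR J₂) →+* D} {ιu ιv ιw : BM →+* ↥(H40.chartB RR J₂)}
    {rbar : BM →+* D} {W : D →+* D}
    (h₁ : ThreeComponents red₁ red₂ red₃ ιu ιv ιw rbar W q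
      (algebraMap RR ↥(H40.chartB RR J₂) πq))
    (hq1 : red₁ (algebraMap RR ↥(H40.chartB RR J₂) πq) = 0)
    (hq2 : red₂ (algebraMap RR ↥(H40.chartB RR J₂) πq) = 0)
    (hq3 : red₃ (algebraMap RR ↥(H40.chartB RR J₂) πq) = 0)
    (hqm : ∃ s : ↥(H40.chartB RR J₂), red₂ s ≠ 0 ∧
      s * algebraMap RR ↥(H40.chartB RR J₂) πq ∈ RingHom.ker red₂ ^ (q - 1))
    {red₁' red₂' : ↥(H40.chartB RR J₁) →+* D} {ι' V' : BM' →+* ↥(H40.chartB RR J₁)}
    {rbar' : BM' →+* D}
    (h' : TwoComponents red₁' red₂' ι' V' rbar' W q (algebraMap RR ↥(H40.chartB RR J₁) πq))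
    (hq1' : red₁' (algebraMap RR ↥(H40.chartB RR J₁) πq) = 0)
    (hq2' : red₂' (algebraMap RR ↥(H40.chartB RR J₁) πq) = 0)
    {α β : ↥(H40.chartB RR J₁) →+* ↥(H40.chartB RR J₂)}
    (hL : LevelMaps red₁ red₂ red₃ red₁' red₂' α β W) (hWinj : Function.Injective W)
    (hintα : α.IsIntegral) (hintβ : β.IsIntegral)
    (haα : ∀ x, algebraMap ↥(H40.chartB RR J₂) F₂ (α x) =
      aα (algebraMap ↥(H40.chartB RR J₁) F₁ x))
    (hbβ : ∀ x, algebraMap ↥(H40.chartB RR J₂) F₂ (β x) =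
      bβ (algebraMap ↥(H40.chartB RR J₁) F₁ x))
    (hαR : ∀ c : RR, α (algebraMap RR ↥(H40.chartB RR J₁) c) =
      algebraMap RR ↥(H40.chartB RR J₂) c)
    (hβR : ∀ c : RR, β (algebraMap RR ↥(H40.chartB RR J₁) c) =
      algebraMap RR ↥(H40.chartB RR J₂) c)
    (P₁ : Fin 3 → Ideal ↥(H40.chartB RR J₂))
    (e10 : P₁ 0 = RingHom.ker red₁) (e11 : P₁ 1 = RingHom.ker red₂)
    (e12 : P₁ 2 = RingHom.ker red₃)
    [hP₁ : ∀ i, (P₁ i).IsPrime] (hh₁ : ∀ i, (P₁ i).height = 1)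
    (hinj : Function.Injective P₁)
    (P'F P'V : Ideal ↥(H40.chartB RR J₁)) [hP'F : P'F.IsPrime] [hP'V : P'V.IsPrime]
    (hF : P'F.height = 1) (hV : P'V.height = 1)
    (hP'F1 : P'F = RingHom.ker red₁') (hP'V2 : P'V = RingHom.ker red₂')
    -- the `A₁`-level reductions, compatible along `chartBC`
    {r₁ r₂ r₃ : ↥(H40.chartB A₁ J₂L) →+* D}
    (hc1 : ∀ b, red₁ (S34.H95.chartBC (A := A) E0 (q * (q * L)) J₂L J₂ hJ₂ b) = r₁ b)
    (hc2 : ∀ b, red₂ (S34.H95.chartBC (A := A) E0 (q * (q * L)) J₂L J₂ hJ₂ b) = r₂ b)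
    (hc3 : ∀ b, red₃ (S34.H95.chartBC (A := A) E0 (q * (q * L)) J₂L J₂ hJ₂ b) = r₃ b)
    {r₁' r₂' : ↥(H40.chartB A₁ J₁L) →+* D}
    (hc1' : ∀ b, red₁' (S34.H95.chartBC (A := A) E0 (q * L) J₁L J₁ hJ₁ b) = r₁' b)
    (hc2' : ∀ b, red₂' (S34.H95.chartBC (A := A) E0 (q * L) J₁L J₁ hJ₁ b) = r₂' b)
    [hk₁ : (RingHom.ker r₁).IsPrime] [hk₂ : (RingHom.ker r₂).IsPrime]
    [hk₃ : (RingHom.ker r₃).IsPrime]
    [hk₁' : (RingHom.ker r₁').IsPrime] [hk₂' : (RingHom.ker r₂').IsPrime]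
    (k₁ : (RingHom.ker r₁).height = 1) (k₂ : (RingHom.ker r₂).height = 1)
    (k₃ : (RingHom.ker r₃).height = 1)
    (k₁' : (RingHom.ker r₁').height = 1) (k₂' : (RingHom.ker r₂').height = 1)
    -- helper16's towers at the `L₁`-level
    (HLa : TowerValU (alphaK ↥(unrCyclo q) (q * L) (q * (q * L)) (dvd_mul_left (q * L) q))
      (normAlphaK ↥(unrCyclo q) (q * L) (q * (q * L)) (dvd_mul_left (q * L) q)) q
      (H56.valuationSubringAt (K := F₂L) (RingHom.ker r₁) k₁)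
      (H56.valuationSubringAt (K := F₂L) (RingHom.ker r₂) k₂)
      (H56.valuationSubringAt (K := F₂L) (RingHom.ker r₃) k₃)
      (H56.valuationSubringAt (K := F₁L) (RingHom.ker r₁') k₁')
      (H56.valuationSubringAt (K := F₁L) (RingHom.ker r₂') k₂'))
    (HLb : TowerValU (betaK ↥(unrCyclo q) q (q * L) (q * (q * L)) dvd_rfl)
      (normBetaK ↥(unrCyclo q) q (q * L) (q * (q * L)) dvd_rfl) q
      (H56.valuationSubringAt (K := F₂L) (RingHom.ker r₃) k₃)
      (H56.valuationSubringAt (K := F₂L) (RingHom.ker r₂) k₂)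
      (H56.valuationSubringAt (K := F₂L) (RingHom.ker r₁) k₁)
      (H56.valuationSubringAt (K := F₁L) (RingHom.ker r₂') k₂')
      (H56.valuationSubringAt (K := F₁L) (RingHom.ker r₁') k₁')) :
    TowerValU aα Nα q (H56.valuationSubringAt (K := F₂) (P₁ 0) (hh₁ 0))
      (H56.valuationSubringAt (K := F₂) (P₁ 1) (hh₁ 1))
      (H56.valuationSubringAt (K := F₂) (P₁ 2) (hh₁ 2))
      (H56.valuationSubringAt (K := F₁) P'F hF) (H56.valuationSubringAt (K := F₁) P'V hV) ∧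
    TowerValU bβ Nβ q (H56.valuationSubringAt (K := F₂) (P₁ 2) (hh₁ 2))
      (H56.valuationSubringAt (K := F₂) (P₁ 1) (hh₁ 1))
      (H56.valuationSubringAt (K := F₂) (P₁ 0) (hh₁ 0))
      (H56.valuationSubringAt (K := F₁) P'V hV) (H56.valuationSubringAt (K := F₁) P'F hF) := by
  classical
  -- the (W) facts at the two vertical primes of the level-`q L` chart
  obtain ⟨s₁, hs11, hs12⟩ := exists_red₁_eq_zero_red₂_ne_zero h' hq.two_le hD
  obtain ⟨s₂, hs22, hs21⟩ := exists_red₂_eq_zero_red₁_ne_zero h' hq.two_le hD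
  have hAR : ∀ x ∈ cutOver A E0, ∃ r : RR, algebraMap RR ↥E0 r = x := fun x hx => ⟨⟨x, hx⟩, rfl⟩
  have hπF : algebraMap RR ↥(H40.chartB RR J₁) πq ∈ P'F := by
    rw [hP'F1]; exact (RingHom.mem_ker).mpr hq1'
  have hπV : algebraMap RR ↥(H40.chartB RR J₁) πq ∈ P'V := by
    rw [hP'V2]; exact (RingHom.mem_ker).mpr hq2'
  have hredF : ∀ b ∈ P'F, ∃ s, s ∉ P'F ∧ algebraMap RR ↥(H40.chartB RR J₁) πq ∣ s * b := by
    rw [hP'F1]; exact hred_ker_red₁ h' ⟨s₂, hs22, hs21⟩
  have hredV : ∀ b ∈ P'V, ∃ s, s ∉ P'V ∧ algebraMap RR ↥(H40.chartB RR J₁) πq ∣ s * b := by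
    rw [hP'V2]; exact hred_ker_red₂ h' ⟨s₁, hs11, hs12⟩
  have hWFall := wfacts_of_hred (K := ↥E0) (F := F₁) (cutOver A E0) hAR πq P'F hF hπF hredF
  have hWVall := wfacts_of_hred (K := ↥E0) (F := F₁) (cutOver A E0) hAR πq P'V hV hπV hredV
  -- the `A₁`-level family
  let rL : Fin 3 → (↥(H40.chartB A₁ J₂L) →+* D) := ![r₁, r₂, r₃]
  let redF : Fin 3 → (↥(H40.chartB RR J₂) →+* D) := ![red₁, red₂, red₃]
  have hcF : ∀ i b, redF i (S34.H95.chartBC (A := A) E0 (q * (q * L)) J₂L J₂ hJ₂ b) = rL i b := by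
    intro i
    fin_cases i
    · exact hc1
    · exact hc2
    · exact hc3
  have hqF : ∀ i, redF i (algebraMap RR ↥(H40.chartB RR J₂) πq) = 0 := by
    intro i
    fin_cases i
    · exact hq1
    · exact hq2
    · exact hq3
  have eF : ∀ i, P₁ i = RingHom.ker (redF i) := by
    intro i
    fin_cases i
    · exact e10
    · exact e11
    · exact e12
  let PL : Fin 3 → Ideal ↥(H40.chartB A₁ J₂L) := fun i => RingHom.ker (rL i)
  haveI hPLp : ∀ i, (PL i).IsPrime := by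
    intro i
    fin_cases i
    · exact hk₁
    · exact hk₂
    · exact hk₃
  have hhL : ∀ i, (PL i).height = 1 := by
    intro i
    fin_cases i
    · exact k₁
    · exact k₂
    · exact k₃
  -- injectivity downstairs from injectivity upstairs (decomposition `C = chartBC B + π C`)
  have hle : ∀ i j, PL i = PL j → P₁ i ≤ P₁ j := by
    intro i j hij z hz
    rw [eF i, RingHom.mem_ker] at hz
    rw [eF j, RingHom.mem_ker]
    obtain ⟨b, z', rfl⟩ := exists_eq_chartBC_add_mul hq hA E0 (q * (q * L)) J₂L J₂ hJ₂ πq hunr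
      g₂ z
    rw [map_add, map_mul, hqF i, zero_mul, add_zero, hcF i] at hz
    have hb : b ∈ PL j := hij ▸ (RingHom.mem_ker).2 hz
    rw [map_add, map_mul, hqF j, zero_mul, add_zero, hcF j]
    exact (RingHom.mem_ker).1 hb
  have hinjL : Function.Injective PL := by
    intro i j hij
    haveI : (P₁ i).FiniteHeight := ⟨Or.inr (by rw [hh₁ i]; exact ENat.one_ne_top)⟩
    exact hinj (Ideal.eq_of_le_of_height_le _ (hle i j hij) (by rw [hh₁ i, hh₁ j]))
  have happrox := S36.H84.happrox_chart (F := F₂L) PL hhL hinjL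
  -- the eight `Dominates` / `DenseIn`
  have dV : ∀ i, Dominates (baseChangeE E0 (q * (q * L)))
      (H56.valuationSubringAt (K := F₂L) (PL i) (hhL i))
      (H56.valuationSubringAt (K := F₂) (P₁ i) (hh₁ i)) := fun i =>
    dominates_chartBC E0 (q * (q * L)) J₂L J₂ hJ₂ (rL i) (redF i) (hcF i) (PL i) (hhL i) rfl
      (P₁ i) (hh₁ i) (eF i)
  have hdV : ∀ i, DenseIn (baseChangeE E0 (q * (q * L)))
      (H56.valuationSubringAt (K := F₂L) (PL i) (hhL i))
      (H56.valuationSubringAt (K := F₂) (P₁ i) (hh₁ i)) := fun i =>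
    denseIn_chartBC hq hA E0 (q * (q * L)) J₂L J₂ hJ₂ (rL i) (redF i) (hcF i) (PL i) (hhL i) rfl
      (P₁ i) (hh₁ i) (eF i) πq hunr g₂ (hqF i)
  have dWF : Dominates (baseChangeE E0 (q * L))
      (H56.valuationSubringAt (K := F₁L) (RingHom.ker r₁') k₁')
      (H56.valuationSubringAt (K := F₁) P'F hF) :=
    dominates_chartBC E0 (q * L) J₁L J₁ hJ₁ r₁' red₁' hc1' (RingHom.ker r₁') k₁' rfl P'F hF hP'F1
  have dWV : Dominates (baseChangeE E0 (q * L))
      (H56.valuationSubringAt (K := F₁L) (RingHom.ker r₂') k₂')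
      (H56.valuationSubringAt (K := F₁) P'V hV) :=
    dominates_chartBC E0 (q * L) J₁L J₁ hJ₁ r₂' red₂' hc2' (RingHom.ker r₂') k₂' rfl P'V hV hP'V2
  -- `q` in the level-`q L` chart
  have hqB' : algebraMap ↥(H40.chartB RR J₁) F₁ (algebraMap RR ↥(H40.chartB RR J₁) πq) = q₁ := by
    rw [map_natCast, map_natCast, map_natCast]
  exact HVab_of_levelMaps L q E0 hq P₁ hh₁
    (H56.valuationSubringAt (K := F₁) P'F hF) (H56.valuationSubringAt (K := F₁) P'V hV) hinj
    hWFall.2.1 hWFall.2.2 hWVall.2.1 hWVall.2.2 h₁ hq1 hq2 hq3 hqm e10 e11 e12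
    hL hWinj haα hbβ hintα hintβ P'F P'V hF hV hP'F1 hP'V2 rfl rfl hs11 hs12
    (algebraMap RR ↥(H40.chartB RR J₁) πq) hqB' (hαR πq) (hβR πq)
    (fun i => H56.valuationSubringAt (K := F₂L) (PL i) (hhL i))
    (H56.valuationSubringAt (K := F₁L) (RingHom.ker r₁') k₁')
    (H56.valuationSubringAt (K := F₁L) (RingHom.ker r₂') k₂')
    HLa HLb happrox dV hdV dWF dWV

end Gen

end Fermat.Agent.S36.H46
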