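import Mathlib
import Fermat.Agent.S34.H40_BaseChangeAut
import Fermat.Agent.CA.H40_BaseChangeUnram

/-!
# S36, row (E2): the chart over the unramified base is generated by the base chart (helper40)

At the concrete types `A₁ = A0 A ℓ`, `K₁ = unrCyclo ℓ`, `A₂ = cutOver A E`, `F₁ = fullC K₁ N`,
`F₂ = fullC ↥E N`, `bc = H45.baseChangeE E N`, `B = chartB A₁ J`, `B'' = chartB A₂ (bc J)`:
when `ℓ` is a uniformiser of `A₂ = cutOver A E` (the base `E / K₁` is *unramified*, e.g. `E` fixed
by inertia), `B'' = B · A₂` inside `F₂` **without any reducedness hypothesis on `B / ℓ B`**.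
This is the form needed at level `ℓ² M`, where the special fibre has a component of multiplicity
`ℓ - 1`.

* `mem_chartB_cutOver_iff_genRing_of_unram` / `mem_chartB_cutOver_iff_of_unram`.
* `exists_inertiaAct_chartB_of_unram` : the coefficientwise inertia action restricts to `B''` and
  is trivial modulo `ℓ`.
-/

set_option autoImplicit false
set_option linter.unusedSectionVars false
set_option linter.style.haveILetI false
set_option synthInstance.maxHeartbeats 400000
set_option maxHeartbeats 4000000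
set_option warn.classDefReducibility false

namespace Fermat.Agent.S36.H40

open IsLocalRing ModularCurve HahnSeries IntermediateField Polynomial
open Fermat.Agent.S18 Fermat.Agent.S34 Fermat.Agent.S34.H40

noncomputable section Concrete

local notation "Qbar" => AlgebraicClosure ℚ

variable {A : ValuationSubring Qbar} {ℓ : ℕ} (hℓ : ℓ.Prime) (hA : A.LiesOverPrime ℓ)
variable (E : IntermediateField (H45.unrCyclo ℓ) Qbar) (N : ℕ) [NeZero N]

local notation "K1" => H45.unrCyclo ℓ
local notation "A1" => H45.A0 A ℓ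
local notation "A2" => H45.cutOver A E
local notation "F1" => modularFunctionFieldFullC (H45.unrCyclo ℓ) N
set_option quotPrecheck false in
local notation "F2" => modularFunctionFieldFullC (↥E) N

attribute [local instance] algF1 algK1 towerK1F1 towerK1E towerA1A2 towerA1F1 towerBF1 towerA1B

variable (J : modularFunctionFieldFullC (H45.unrCyclo ℓ) N)

include hℓ hA in
/-- **(a)'' `genRing` form, unramified base.**  `B'' = B · A₂` inside `F₂`, no reducedness. -/
theorem mem_chartB_cutOver_iff_genRing_of_unram [FiniteDimensional K1 E]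
    [FiniteDimensional K1⟮J⟯ F1] [IsNoetherianRing ↥(S18.H40.chartB A1 J)]
    (hunr : maximalIdeal A2 = Ideal.span {((ℓ : ℕ) : A2)}) (z : F2) :
    z ∈ S18.H40.chartB A2 (H45.baseChangeE E N J) ↔
      z ∈ CA.H79.genRing A2 ↥(S18.H40.chartB A1 J) F2 := by
  haveI := H45.isDiscreteValuationRing_A0 hℓ hA
  haveI := H45.isDiscreteValuationRing_cutOver hℓ hA E
  haveI : IsIntegrallyClosed ↥(S18.H40.chartB A1 J) := H3.isIntegrallyClosed_chartB (K := K1) J
  haveI : IsFractionRing ↥(S18.H40.chartB A1 J) F1 := H3.isFractionRing_chartB (K := K1) J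
  have hπeq : algebraMap A1 A2 ((ℓ : ℕ) : A1) = ((ℓ : ℕ) : A2) := map_natCast _ _
  have hunr' : maximalIdeal A2 = Ideal.span {algebraMap A1 A2 ((ℓ : ℕ) : A1)} := by
    rw [hπeq]; exact hunr
  have hπirr : Irreducible (algebraMap A1 A2 ((ℓ : ℕ) : A1)) :=
    (IsDiscreteValuationRing.irreducible_iff_uniformizer _).mpr hunr'
  obtain ⟨α, hαint, hαtop⟩ := H79.exists_primitive_cutOver hℓ hA E
  rw [S18.H40.mem_chartB]
  refine CA.H40.isIntegral_iff_mem_genRing_unram (A₁ := A1) (A₂ := A2)
    (B := ↥(S18.H40.chartB A1 J)) (K₁ := K1) (F₁ := F1) (E := F2) ((ℓ : ℕ) : A1) α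
    (h1_cutOver hℓ hA E hunr') (h2_cutOver hℓ hA E hunr')
    (H79.dvd_natCast_pow_A0 hℓ hA) (H79.dvd_pow_of_irreducible_cutOver hℓ hA E hπirr)
    (H45.natCast_ne_zero_A0 hℓ.ne_zero) (algebraMap_A2_injective E N) hαint
    (htop_cutOver E N α hαtop) (hsep_cutOver E N α) (hcl_F1 N) (hA₂α_cutOver E N α hαtop)
    ↥(Algebra.adjoin A2 {H45.baseChangeE E N J}) ?hC ?hCB ?hCA₂ z
  case hC =>
    rintro ⟨c, hc⟩
    show c ∈ CA.H79.genRing A2 ↥(S18.H40.chartB A1 J) F2
    induction hc using Algebra.adjoin_induction with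
    | mem x hx =>
      rw [Set.mem_singleton_iff] at hx
      subst hx
      exact CA.H79.algebraMap_mem_genRing' (A₂ := A2) (E := F2)
        (⟨J, S18.H40.self_mem_chartB J⟩ : ↥(S18.H40.chartB A1 J))
    | algebraMap r => exact CA.H79.algebraMap_mem_genRing r
    | add x y _ _ hx hy => exact Subalgebra.add_mem _ hx hy
    | mul x y _ _ hx hy => exact Subalgebra.mul_mem _ hx hy
  case hCB =>
    intro b
    exact isIntegral_map_of_mem_chartB (A₁ := A1) (A₂ := A2) (F₁ := F1) (F₂ := F2) J b.2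
  case hCA₂ =>
    intro a
    exact isIntegral_algebraMap (R := ↥(Algebra.adjoin A2 {H45.baseChangeE E N J})) (A := F2)
      (x := ⟨algebraMap A2 F2 a, Subalgebra.algebraMap_mem _ a⟩)

include hℓ hA in
/-- **(a)'', instance-free form, unramified base.**  `B'' = chartB A₂ (bc J)` is the subring of
`F₂` generated by `bc (chartB A₁ J)` and `A₂`. -/
theorem mem_chartB_cutOver_iff_of_unram [FiniteDimensional K1 E] [FiniteDimensional K1⟮J⟯ F1]
    [IsNoetherianRing ↥(S18.H40.chartB A1 J)]
    (hunr : maximalIdeal A2 = Ideal.span {((ℓ : ℕ) : A2)}) (z : F2) :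
    z ∈ S18.H40.chartB A2 (H45.baseChangeE E N J) ↔
      z ∈ Subring.closure
        (Set.range (fun b : ↥(S18.H40.chartB A1 J) => H45.baseChangeE E N (b : F1)) ∪
          Set.range (algebraMap A2 F2)) := by
  rw [mem_chartB_cutOver_iff_genRing_of_unram hℓ hA E N J hunr z, ← Subalgebra.mem_toSubring,
    CA.H79.genRing, Algebra.adjoin_eq_ring_closure]
  rfl

include hℓ hA in
/-- **(c), unramified base.**  The coefficientwise inertia action on `F₂` restricts to an
automorphism of `B'' = chartB A₂ (bc J)` which is trivial modulo `ℓ`. -/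
theorem exists_inertiaAct_chartB_of_unram [FiniteDimensional K1 E] [Normal K1 E]
    [FiniteDimensional K1⟮J⟯ F1] [IsNoetherianRing ↥(S18.H40.chartB A1 J)]
    (hunr : maximalIdeal A2 = Ideal.span {((ℓ : ℕ) : A2)})
    (σ : Qbar ≃ₐ[ℚ] Qbar) (hσ : σ ∈ A.inertiaSubgroupIn ℚ) :
    ∃ sS : ↥(S18.H40.chartB A2 (H45.baseChangeE E N J)) ≃+*
        ↥(S18.H40.chartB A2 (H45.baseChangeE E N J)),
      (∀ x : ↥(S18.H40.chartB A2 (H45.baseChangeE E N J)),
        H45.inertiaActFullC hℓ hA E N σ hσ (x : F2) = (sS x : F2)) ∧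
      ∀ x : ↥(S18.H40.chartB A2 (H45.baseChangeE E N J)),
        sS x - x ∈ Ideal.span
          {algebraMap A2 ↥(S18.H40.chartB A2 (H45.baseChangeE E N J)) ((ℓ : ℕ) : A2)} := by
  refine CA.H79.exists_ringEquiv_of_eq_genRing (A₂ := A2) (B := ↥(S18.H40.chartB A1 J))
    (E := F2) (S18.H40.chartB A2 (H45.baseChangeE E N J))
    (mem_chartB_cutOver_iff_genRing_of_unram hℓ hA E N J hunr)
    (H45.inertiaActFullC hℓ hA E N σ hσ) (H45.inertiaActCutOver hℓ hA E σ hσ)
    ((ℓ : ℕ) : A2) ?hB ?hA ?hπ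
  case hB =>
    intro b
    exact H45.inertiaActFullC_baseChangeE hℓ hA E N σ hσ (b : F1)
  case hA =>
    intro a
    exact H45.inertiaActFullC_algebraMap hℓ hA E N σ hσ (a : ↥E)
  case hπ =>
    intro a
    rw [← Ideal.mem_span_singleton, ← hunr]
    exact H45.inertiaActCutOver_sub_mem hℓ hA E σ hσ a

end Concrete

end Fermat.Agent.S36.H40
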