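import Mathlib
import Fermat.Agent.S36.H40_GenByUnram
import Fermat.Agent.S35.H70_TwoComponentsBCInst

/-!
# S36, row (E2), base-change layer (helper70): (a)'' in the `GenBy` form consumed by `S35.H70.redE`

helper40's `S36.H40.mem_chartB_cutOver_iff_of_unram` (the chart over an UNRAMIFIED `cutOver A E` is
generated by the base chart and the constants, no reducedness of the special fibre) restated as
`S35.H70.GenBy`, so that `S35.H70.redE`, `redE_chartMapE`, `redE_algebraMap`, `redE_pi_mul`,
`redE_surjective`, `mapE` apply verbatim at level `ℓ² L` with `π := ℓ`.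
-/

set_option autoImplicit false
set_option linter.unusedSectionVars false
set_option linter.style.haveILetI false
set_option synthInstance.maxHeartbeats 400000
set_option maxHeartbeats 4000000
set_option warn.classDefReducibility false

namespace Fermat.Agent.S36.H70

open IsLocalRing ModularCurve HahnSeries IntermediateField Polynomial
open Fermat.Agent.S18 Fermat.Agent.S34 Fermat.Agent.S34.H40

noncomputable section Concrete

local notation "Qbar" => AlgebraicClosure ℚ

variable {A : ValuationSubring Qbar} {ℓ : ℕ} (hℓ : ℓ.Prime) (hA : A.LiesOverPrime ℓ)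
variable (E : IntermediateField (H45.unrCyclo ℓ) Qbar) (N : ℕ) [NeZero N]

local notation "K1" => H45.unrCyclo ℓ
local notation "A1" => H45.A0 A ℓ
local notation "A2" => H45.cutOver A E
local notation "F1" => modularFunctionFieldFullC (H45.unrCyclo ℓ) N

variable (J : modularFunctionFieldFullC (H45.unrCyclo ℓ) N)

include hℓ hA in
/-- **(a)'' in the form consumed by `S35.H70.redE`**, for every chart coordinate `J`, over an
unramified `E` (`hunr` = helper45's `maximalIdeal_cutOver_eq_span_natCast_of_fixed`). -/
theorem genBy_of_unram [FiniteDimensional K1 E] [FiniteDimensional K1⟮J⟯ F1]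
    [IsNoetherianRing ↥(S18.H40.chartB A1 J)]
    (hunr : maximalIdeal A2 = Ideal.span {((ℓ : ℕ) : A2)}) :
    S35.H70.GenBy (A := A) E N J :=
  fun z => S36.H40.mem_chartB_cutOver_iff_of_unram hℓ hA E N J hunr z

end Concrete

end Fermat.Agent.S36.H70
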