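import Mathlib
import Fermat.Agent.S35.H70_TwoComponentsBC

/-!
# S36, row (E2), base-change layer (helper70): transport of the vertical-prime facts to `B·A₂`

Binder block of `S35.H70_TwoComponentsBC` (`R = genRing A₂ B E = B·A₂`, `redGen red : R → R₀` the
extension of a reduction map `red : B → R₀` killing `q`).  Everything here is reduction-by-reduction
and therefore works for any number of components and any multiplicities.

* `redGen_eq_zero_iff` : `redGen red z = 0 ↔ z = b + π r'` with `red b = 0`.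
* `exists_mul_dvd_of_redGen_eq_zero` (**hred / e = 1**) : `P B_P = q B_P` passes to `R`.
* `exists_mul_dvd_theta_of_redGen_eq_zero` (**uniformiser `θ`, any `e`**) : `P B_P = θ B_P`
  (with `q ∈ θ B_P`) passes to `R`.
* `exists_mul_pow_dvd_of_redGen_eq_zero` (**hmult**) : `Pᴺ B_P ⊆ q B_P` passes to `R`.
* `dvd_of_forall_exists_mul_dvd` (**hsat**) : `q B = ⋂ (q B_P ∩ B)` passes to `R`.
* `exists_pow_dvd_of_forall_redGen_eq_zero` (**hrad-type**) : `⋂ P = rad (q)` passes to `R`.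
-/

set_option autoImplicit false

namespace Fermat.Agent.S36.H70

open Fermat.Agent.CA.H79 Fermat.Agent.S35.H70

section Single

variable {A₁ A₂ B E : Type*} [CommRing A₁] [IsDomain A₁] [IsPrincipalIdealRing A₁]
  [CommRing A₂] [Algebra A₁ A₂] [Module.IsTorsionFree A₁ A₂]
  [CommRing B] [Algebra A₁ B]
  [CommRing E] [Algebra A₁ E] [Algebra A₂ E] [Algebra B E]
  [IsScalarTower A₁ A₂ E] [IsScalarTower A₁ B E]
  {R₀ : Type*} [CommRing R₀]

variable (q : A₁) (π : A₂)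
  (h1 : ∀ a : A₂, ∃ c : A₁, ∃ a' : A₂, a = algebraMap A₁ A₂ c + π * a')
  (h2 : ∀ c : A₁, π ∣ algebraMap A₁ A₂ c → q ∣ c)
  (h3 : π ∣ algebraMap A₁ A₂ q)
  (hLD : ∀ (r : ℕ) (m : Fin r → A₂), LinearIndependent A₁ m →
    LinearIndependent B (fun l => algebraMap A₂ E (m l)))
  (red : B →+* R₀) (hq : red (algebraMap A₁ B q) = 0)

/-- The kernel of `redGen red`. -/
theorem redGen_eq_zero_iff (z : genRing A₂ B E) :
    redGen (E := E) q π h1 h2 h3 hLD red hq z = 0 ↔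
      ∃ b : B, ∃ r' : genRing A₂ B E, red b = 0 ∧
        z = algebraMap B (genRing A₂ B E) b + piGen B E π * r' := by
  constructor
  · exact exists_of_redGen_eq_zero q π h1 h2 h3 hLD red hq
  · rintro ⟨b, r', hb, rfl⟩
    rw [redGen_add_mul, hb]

omit [IsDomain A₁] [IsPrincipalIdealRing A₁] [Module.IsTorsionFree A₁ A₂] in
/-- `q b` in `B` goes to a multiple of `π` in `R`. -/
theorem piGen_dvd_algebraMap_of_dvd (h3 : π ∣ algebraMap A₁ A₂ q) {b : B}
    (hb : algebraMap A₁ B q ∣ b) : piGen B E π ∣ algebraMap B (genRing A₂ B E) b := by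
  rw [← Ideal.mem_span_singleton]
  exact algebraMap_mem_span_piGen q π h3 (Ideal.mem_span_singleton.2 hb)

include h1 h2 hLD in
/-- `π ∣ b` in `R` for `b ∈ B` forces `q ∣ b` in `B`. -/
theorem dvd_of_piGen_dvd_algebraMap {b : B}
    (hb : piGen B E π ∣ algebraMap B (genRing A₂ B E) b) : algebraMap A₁ B q ∣ b := by
  obtain ⟨r, hr⟩ := hb
  refine dvd_of_eq_mul_of_mem_genRing (E := E) q π h1 h2 hLD b r.2 ?_
  have := congrArg (Subtype.val : genRing A₂ B E → E) hr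
  simpa [piGen] using this

/-- **hred (`e = 1`) passes to `R`.** -/
theorem exists_mul_dvd_of_redGen_eq_zero
    (hm : ∀ z : B, red z = 0 → ∃ s : B, red s ≠ 0 ∧ algebraMap A₁ B q ∣ s * z)
    {z : genRing A₂ B E} (hz : redGen (E := E) q π h1 h2 h3 hLD red hq z = 0) :
    ∃ s : genRing A₂ B E, redGen (E := E) q π h1 h2 h3 hLD red hq s ≠ 0 ∧
      piGen B E π ∣ s * z := by
  obtain ⟨b, r', hb, rfl⟩ := exists_of_redGen_eq_zero q π h1 h2 h3 hLD red hq hz
  obtain ⟨s, hs, hsb⟩ := hm b hb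
  refine ⟨algebraMap B (genRing A₂ B E) s, by rwa [redGen_algebraMap], ?_⟩
  rw [mul_add, ← map_mul]
  exact dvd_add (piGen_dvd_algebraMap_of_dvd q π h3 hsb)
    (Dvd.intro _ (by ring : piGen B E π * (algebraMap B (genRing A₂ B E) s * r') = _))

/-- **hmult (`Pᴺ B_P ⊆ q B_P`) passes to `R`.** -/
theorem exists_mul_pow_dvd_of_redGen_eq_zero (N : ℕ)
    (hm : ∀ z : B, red z = 0 → ∃ s : B, red s ≠ 0 ∧ algebraMap A₁ B q ∣ s * z ^ N)
    {z : genRing A₂ B E} (hz : redGen (E := E) q π h1 h2 h3 hLD red hq z = 0) :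
    ∃ s : genRing A₂ B E, redGen (E := E) q π h1 h2 h3 hLD red hq s ≠ 0 ∧
      piGen B E π ∣ s * z ^ N := by
  obtain ⟨b, r', hb, rfl⟩ := exists_of_redGen_eq_zero q π h1 h2 h3 hLD red hq hz
  obtain ⟨s, hs, hsb⟩ := hm b hb
  refine ⟨algebraMap B (genRing A₂ B E) s, by rwa [redGen_algebraMap], ?_⟩
  -- `(b + π r')ᴺ = bᴺ + π (…)`
  obtain ⟨c, hc⟩ : ∃ c : genRing A₂ B E,
      (algebraMap B (genRing A₂ B E) b + piGen B E π * r') ^ N =
        algebraMap B (genRing A₂ B E) b ^ N + piGen B E π * c := by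
    obtain ⟨c', hc'⟩ := sub_dvd_pow_sub_pow
      (algebraMap B (genRing A₂ B E) b + piGen B E π * r') (algebraMap B (genRing A₂ B E) b) N
    refine ⟨r' * c', ?_⟩
    rw [add_sub_cancel_left] at hc'
    rw [eq_add_of_sub_eq' hc']
    ring
  rw [hc, mul_add, ← map_pow, ← map_mul]
  exact dvd_add (piGen_dvd_algebraMap_of_dvd q π h3 hsb)
    (Dvd.intro _ (by ring : piGen B E π * (algebraMap B (genRing A₂ B E) s * c) = _))

/-- `(b + π r')ᴺ = bᴺ + π c`. -/
theorem exists_add_pow_eq (b : B) (r' : genRing A₂ B E) (N : ℕ) :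
    ∃ c : genRing A₂ B E,
      (algebraMap B (genRing A₂ B E) b + piGen B E π * r') ^ N =
        algebraMap B (genRing A₂ B E) b ^ N + piGen B E π * c := by
  obtain ⟨c', hc'⟩ := sub_dvd_pow_sub_pow
    (algebraMap B (genRing A₂ B E) b + piGen B E π * r') (algebraMap B (genRing A₂ B E) b) N
  refine ⟨r' * c', ?_⟩
  rw [add_sub_cancel_left] at hc'
  rw [eq_add_of_sub_eq' hc']
  ring

/-- **Uniformiser `θ` of a vertical prime of any multiplicity passes to `R`**: if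
`P B_P = θ B_P` at the base chart and `π ∈ θ R_P`, then `P R_P = θ R_P`. -/
theorem exists_mul_dvd_theta_of_redGen_eq_zero [NoZeroDivisors R₀] (θ : B)
    (hm : ∀ z : B, red z = 0 → ∃ s : B, red s ≠ 0 ∧ θ ∣ s * z)
    (hθπ : ∃ t : genRing A₂ B E, redGen (E := E) q π h1 h2 h3 hLD red hq t ≠ 0 ∧
      algebraMap B (genRing A₂ B E) θ ∣ t * piGen B E π)
    {z : genRing A₂ B E} (hz : redGen (E := E) q π h1 h2 h3 hLD red hq z = 0) :
    ∃ s : genRing A₂ B E, redGen (E := E) q π h1 h2 h3 hLD red hq s ≠ 0 ∧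
      algebraMap B (genRing A₂ B E) θ ∣ s * z := by
  obtain ⟨b, r', hb, rfl⟩ := exists_of_redGen_eq_zero q π h1 h2 h3 hLD red hq hz
  obtain ⟨s, hs, hsb⟩ := hm b hb
  obtain ⟨t, ht, htπ⟩ := hθπ
  refine ⟨algebraMap B (genRing A₂ B E) s * t, ?_, ?_⟩
  · rw [map_mul, redGen_algebraMap]
    exact mul_ne_zero hs ht
  · have e : algebraMap B (genRing A₂ B E) s * t *
        (algebraMap B (genRing A₂ B E) b + piGen B E π * r') =
        t * algebraMap B (genRing A₂ B E) (s * b) +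
          (t * piGen B E π) * (algebraMap B (genRing A₂ B E) s * r') := by
      rw [map_mul]; ring
    rw [e]
    exact dvd_add (Dvd.dvd.mul_left (map_dvd _ hsb) _) (Dvd.dvd.mul_right htπ _)

end Single

section Family

variable {A₁ A₂ B E : Type*} [CommRing A₁] [IsDomain A₁] [IsPrincipalIdealRing A₁]
  [CommRing A₂] [Algebra A₁ A₂] [Module.IsTorsionFree A₁ A₂]
  [CommRing B] [Algebra A₁ B]
  [CommRing E] [Algebra A₁ E] [Algebra A₂ E] [Algebra B E]
  [IsScalarTower A₁ A₂ E] [IsScalarTower A₁ B E]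
  {ι : Type*} {R₀ : ι → Type*} [∀ i, CommRing (R₀ i)]

variable (q : A₁) (π : A₂)
  (h1 : ∀ a : A₂, ∃ c : A₁, ∃ a' : A₂, a = algebraMap A₁ A₂ c + π * a')
  (h2 : ∀ c : A₁, π ∣ algebraMap A₁ A₂ c → q ∣ c)
  (h3 : π ∣ algebraMap A₁ A₂ q)
  (hLD : ∀ (r : ℕ) (m : Fin r → A₂), LinearIndependent A₁ m →
    LinearIndependent B (fun l => algebraMap A₂ E (m l)))
  (red : ∀ i, B →+* R₀ i) (hq : ∀ i, red i (algebraMap A₁ B q) = 0)

/-- **hsat passes to `R`**: if `q B = ⋂ᵢ (q B_{Pᵢ} ∩ B)` then `π R = ⋂ᵢ (π R_{Pᵢ} ∩ R)`. -/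
theorem dvd_of_forall_exists_mul_dvd
    (hsat : ∀ z : B, (∀ i, ∃ s : B, red i s ≠ 0 ∧ algebraMap A₁ B q ∣ s * z) →
      algebraMap A₁ B q ∣ z)
    {z : genRing A₂ B E}
    (hz : ∀ i, ∃ s : genRing A₂ B E,
      redGen (E := E) q π h1 h2 h3 hLD (red i) (hq i) s ≠ 0 ∧ piGen B E π ∣ s * z) :
    piGen B E π ∣ z := by
  obtain ⟨b, r', rfl⟩ := exists_eq_add_mul (A₁ := A₁) π h1 z
  have hb : algebraMap A₁ B q ∣ b := by
    refine hsat b fun i => ?_
    obtain ⟨s', hs', hdvd⟩ := hz i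
    obtain ⟨s, r'', rfl⟩ := exists_eq_add_mul (A₁ := A₁) π h1 s'
    rw [redGen_add_mul] at hs'
    refine ⟨s, hs', ?_⟩
    apply dvd_of_piGen_dvd_algebraMap (E := E) q π h1 h2 hLD
    have e : algebraMap B (genRing A₂ B E) (s * b) =
        (algebraMap B (genRing A₂ B E) s + piGen B E π * r'') *
          (algebraMap B (genRing A₂ B E) b + piGen B E π * r') -
        piGen B E π * (algebraMap B (genRing A₂ B E) s * r' +
          r'' * (algebraMap B (genRing A₂ B E) b + piGen B E π * r')) := by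
      rw [map_mul]; ring
    rw [e]
    exact dvd_sub hdvd (Dvd.intro _ rfl)
  exact dvd_add (piGen_dvd_algebraMap_of_dvd q π h3 hb) (Dvd.intro _ rfl)

/-- **hrad-type statement passes to `R`**: if `⋂ᵢ Pᵢ ⊆ rad (q B)` then the same in `R`. -/
theorem exists_pow_dvd_of_forall_redGen_eq_zero
    (hrad : ∀ z : B, (∀ i, red i z = 0) → ∃ n : ℕ, algebraMap A₁ B q ∣ z ^ n)
    {z : genRing A₂ B E}
    (hz : ∀ i, redGen (E := E) q π h1 h2 h3 hLD (red i) (hq i) z = 0) :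
    ∃ n : ℕ, piGen B E π ∣ z ^ n := by
  obtain ⟨b, r', rfl⟩ := exists_eq_add_mul (A₁ := A₁) π h1 z
  have hb : ∀ i, red i b = 0 := fun i => by
    have := hz i
    rwa [redGen_add_mul] at this
  obtain ⟨n, hn⟩ := hrad b hb
  refine ⟨n, ?_⟩
  obtain ⟨c, hc⟩ := exists_add_pow_eq (E := E) π b r' n
  rw [hc, ← map_pow]
  exact dvd_add (piGen_dvd_algebraMap_of_dvd q π h3 hn) (Dvd.intro _ rfl)

end Family


end Fermat.Agent.S36.H70
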