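import Mathlib
import Fermat.Agent.S36.H83_ThreeComponents
import Fermat.Agent.S36.H70_TransportGen

/-!
# S36, row (E2), base-change layer (helper70): `ThreeComponents` for `R = B·A₂`

Generic base change of helper83's L0-36 → engine interface `S36.H83.ThreeComponents` along
`A₁ → A₂`, in the binder block of `S35.H70_TwoComponentsBC` (`redGen`, `mapGen`).

* `powKer` : the ideal `Pⁿ R + π R` of `R = genRing A₂ B E` (`P = ker red`), in elementwise form;
  `ker_redGen_pow_le_powKer` : `(ker (redGen red))ⁿ ≤ Pⁿ R + π R`.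
* `threeComponents_genRing` : `ThreeComponents` for `(B, BM)` over `A₁` gives `ThreeComponents` for
  `(genRing A₂ B E, genRing A₂ BM EM)` with the same `D`, `W`, `q` and `qB := π`, under the extra
  hypothesis `hq2 : ∃ t, red₂ t ≠ 0 ∧ t * q ∈ (ker red₂)^(q-1)` (`q ∈ P₂^((q-1))`).
* `hq2_genRing` : `hq2` itself passes to `R`.
* `threeComponents_of_equiv`, `threeComponents_subring` : transport to subrings with the same
  elements (e.g. `chartB A₂ J''`).
-/

set_option autoImplicit false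
set_option linter.unusedSectionVars false

namespace Fermat.Agent.S36.H70

open Fermat.Agent.CA.H79 Fermat.Agent.S35.H70 Fermat.Agent.S36.H83

section PowKer

variable {A₁ A₂ B E : Type*} [CommRing A₁] [IsDomain A₁] [IsPrincipalIdealRing A₁]
  [CommRing A₂] [Algebra A₁ A₂] [Module.IsTorsionFree A₁ A₂]
  [CommRing B] [Algebra A₁ B]
  [CommRing E] [Algebra A₁ E] [Algebra A₂ E] [Algebra B E]
  [IsScalarTower A₁ A₂ E] [IsScalarTower A₁ B E]
  {R₀ : Type*} [CommRing R₀]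

/-- The ideal `I R + π R` of `R = genRing A₂ B E`, for an ideal `I` of `B`, in elementwise form. -/
def powKer (π : A₂)
    (h1 : ∀ a : A₂, ∃ c : A₁, ∃ a' : A₂, a = algebraMap A₁ A₂ c + π * a')
    (I : Ideal B) : Ideal (genRing A₂ B E) where
  carrier := {x | ∃ p ∈ I, ∃ r : genRing A₂ B E,
    x = algebraMap B (genRing A₂ B E) p + piGen B E π * r}
  zero_mem' := ⟨0, I.zero_mem, 0, by simp⟩
  add_mem' := by
    rintro _ _ ⟨p, hp, r, rfl⟩ ⟨p', hp', r', rfl⟩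
    exact ⟨p + p', I.add_mem hp hp', r + r', by rw [map_add]; ring⟩
  smul_mem' := by
    rintro c _ ⟨p, hp, r, rfl⟩
    obtain ⟨b₀, r₀, rfl⟩ := exists_eq_add_mul (A₁ := A₁) π h1 c
    refine ⟨b₀ * p, I.mul_mem_left _ hp,
      r₀ * algebraMap B (genRing A₂ B E) p +
        (algebraMap B (genRing A₂ B E) b₀ + piGen B E π * r₀) * r, ?_⟩
    rw [smul_eq_mul, map_mul]
    ring

variable (q : A₁) (π : A₂)
  (h1 : ∀ a : A₂, ∃ c : A₁, ∃ a' : A₂, a = algebraMap A₁ A₂ c + π * a')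
  (h2 : ∀ c : A₁, π ∣ algebraMap A₁ A₂ c → q ∣ c)
  (h3 : π ∣ algebraMap A₁ A₂ q)
  (hLD : ∀ (r : ℕ) (m : Fin r → A₂), LinearIndependent A₁ m →
    LinearIndependent B (fun l => algebraMap A₂ E (m l)))
  (red : B →+* R₀) (hq : red (algebraMap A₁ B q) = 0)

theorem mem_powKer_iff (I : Ideal B) (x : genRing A₂ B E) :
    x ∈ powKer (A₁ := A₁) (E := E) π h1 I ↔ ∃ p ∈ I, ∃ r : genRing A₂ B E,
      x = algebraMap B (genRing A₂ B E) p + piGen B E π * r := Iff.rfl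

theorem powKer_mul_le (I J : Ideal B) :
    powKer (A₁ := A₁) (E := E) π h1 I * powKer (A₁ := A₁) (E := E) π h1 J ≤
      powKer (A₁ := A₁) (E := E) π h1 (I * J) := by
  rw [Ideal.mul_le]
  rintro _ ⟨p, hp, r, rfl⟩ _ ⟨p', hp', r', rfl⟩
  refine ⟨p * p', Ideal.mul_mem_mul hp hp',
    algebraMap B (genRing A₂ B E) p * r' + r * algebraMap B (genRing A₂ B E) p' +
      piGen B E π * r * r', ?_⟩
  rw [map_mul]
  ring

theorem ker_redGen_le_powKer :
    RingHom.ker (redGen (E := E) q π h1 h2 h3 hLD red hq) ≤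
      powKer (A₁ := A₁) (E := E) π h1 (RingHom.ker red) := fun z hz => by
  obtain ⟨b, r', hb, rfl⟩ := exists_of_redGen_eq_zero q π h1 h2 h3 hLD red hq
    ((RingHom.mem_ker).1 hz)
  exact ⟨b, (RingHom.mem_ker).2 hb, r', rfl⟩

theorem ker_redGen_pow_le_powKer (n : ℕ) :
    RingHom.ker (redGen (E := E) q π h1 h2 h3 hLD red hq) ^ n ≤
      powKer (A₁ := A₁) (E := E) π h1 (RingHom.ker red ^ n) := by
  induction n with
  | zero =>
    intro z _
    obtain ⟨b, r', rfl⟩ := exists_eq_add_mul (A₁ := A₁) π h1 z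
    exact ⟨b, by simp, r', rfl⟩
  | succ n ih =>
    rw [pow_succ, pow_succ]
    exact (Ideal.mul_mono ih (ker_redGen_le_powKer q π h1 h2 h3 hLD red hq)).trans
      (powKer_mul_le π h1 _ _)

/-- Conversely `Pⁿ R ⊆ (ker (redGen red))ⁿ`. -/
theorem algebraMap_mem_ker_redGen_pow {n : ℕ} {p : B} (hp : p ∈ RingHom.ker red ^ n) :
    algebraMap B (genRing A₂ B E) p ∈
      RingHom.ker (redGen (E := E) q π h1 h2 h3 hLD red hq) ^ n := by
  have hle : Ideal.map (algebraMap B (genRing A₂ B E)) (RingHom.ker red) ≤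
      RingHom.ker (redGen (E := E) q π h1 h2 h3 hLD red hq) := by
    rw [Ideal.map_le_iff_le_comap]
    intro b hb
    rw [Ideal.mem_comap, RingHom.mem_ker, redGen_algebraMap]
    exact (RingHom.mem_ker).1 hb
  have := Ideal.mem_map_of_mem (algebraMap B (genRing A₂ B E)) hp
  rw [Ideal.map_pow] at this
  exact Ideal.pow_right_mono hle n this

end PowKer

/-! ### `ThreeComponents` for `genRing` -/

section Three

variable {A₁ A₂ B BM E EM : Type*} [CommRing A₁] [IsDomain A₁] [IsPrincipalIdealRing A₁]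
  [CommRing A₂] [Algebra A₁ A₂] [Module.IsTorsionFree A₁ A₂]
  [CommRing B] [Algebra A₁ B] [CommRing BM] [Algebra A₁ BM]
  [CommRing E] [Algebra A₁ E] [Algebra A₂ E] [Algebra B E]
  [IsScalarTower A₁ A₂ E] [IsScalarTower A₁ B E]
  [CommRing EM] [Algebra A₁ EM] [Algebra A₂ EM] [Algebra BM EM]
  [IsScalarTower A₁ A₂ EM] [IsScalarTower A₁ BM EM]
  {R₀ : Type*} [CommRing R₀]

/-- One compatibility `red ∘ ι = W^k ∘ rbar` passes to `genRing`. -/
theorem redGen_comp_mapGen (q : A₁) (π : A₂)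
    (h1 : ∀ a : A₂, ∃ c : A₁, ∃ a' : A₂, a = algebraMap A₁ A₂ c + π * a')
    (h2 : ∀ c : A₁, π ∣ algebraMap A₁ A₂ c → q ∣ c)
    (h3 : π ∣ algebraMap A₁ A₂ q)
    (hLD : ∀ (r : ℕ) (m : Fin r → A₂), LinearIndependent A₁ m →
      LinearIndependent B (fun l => algebraMap A₂ E (m l)))
    (hLDM : ∀ (r : ℕ) (m : Fin r → A₂), LinearIndependent A₁ m →
      LinearIndependent BM (fun l => algebraMap A₂ EM (m l)))
    {red : B →+* R₀} {ι : BM →+* B} {rbar : BM →+* R₀} (Wk : R₀ →+* R₀)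
    (hι : ∀ ψ, red (ι ψ) = Wk (rbar ψ))
    (hιA₁ : ∀ c : A₁, ι (algebraMap A₁ BM c) = algebraMap A₁ B c)
    (hq : red (algebraMap A₁ B q) = 0) (hqM : rbar (algebraMap A₁ BM q) = 0)
    (ιE : EM →+* E)
    (hιB : ∀ b : BM, ιE (algebraMap BM EM b) = algebraMap B E (ι b))
    (hιA : ∀ a : A₂, ιE (algebraMap A₂ EM a) = algebraMap A₂ E a)
    (ψ : genRing A₂ BM EM) :
    redGen (E := E) q π h1 h2 h3 hLD red hq (mapGen ιE ι hιB hιA ψ) =
      Wk (redGen (E := EM) q π h1 h2 h3 hLDM rbar hqM ψ) := by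
  have := genRing_ringHom_ext
    (f := (redGen (E := E) q π h1 h2 h3 hLD red hq).comp (mapGen ιE ι hιB hιA))
    (g := Wk.comp (redGen (E := EM) q π h1 h2 h3 hLDM rbar hqM))
    (fun b => by
      rw [RingHom.comp_apply, RingHom.comp_apply, mapGen_algebraMap, redGen_algebraMap,
        redGen_algebraMap, hι])
    (fun a => by
      obtain ⟨c, a', hca⟩ := h1 a
      rw [RingHom.comp_apply, RingHom.comp_apply, mapGen_constGen,
        redGen_constGen q π h1 h2 h3 hLD red hq hca,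
        redGen_constGen q π h1 h2 h3 hLDM rbar hqM hca, ← hιA₁, hι])
  exact RingHom.congr_fun this ψ

/-- **Base change of `ThreeComponents`.**  `ThreeComponents` for the `A₁`-charts `(B, BM)` gives
`ThreeComponents` for the `A₂`-charts `(genRing A₂ B E, genRing A₂ BM EM)`, with the same target
`R₀`, the same `W` and `q`, and `qB := π`; the extra input is `q ∈ P₂^((q-1))` at the base. -/
theorem threeComponents_genRing [NoZeroDivisors R₀] (q : A₁) (π : A₂)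
    (h1 : ∀ a : A₂, ∃ c : A₁, ∃ a' : A₂, a = algebraMap A₁ A₂ c + π * a')
    (h2 : ∀ c : A₁, π ∣ algebraMap A₁ A₂ c → q ∣ c)
    (h3 : π ∣ algebraMap A₁ A₂ q)
    (hLD : ∀ (r : ℕ) (m : Fin r → A₂), LinearIndependent A₁ m →
      LinearIndependent B (fun l => algebraMap A₂ E (m l)))
    (hLDM : ∀ (r : ℕ) (m : Fin r → A₂), LinearIndependent A₁ m →
      LinearIndependent BM (fun l => algebraMap A₂ EM (m l)))
    {red₁ red₂ red₃ : B →+* R₀} {ιu ιv ιw : BM →+* B} {rbar : BM →+* R₀} {W : R₀ →+* R₀}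
    {qn : ℕ}
    (TC : ThreeComponents red₁ red₂ red₃ ιu ιv ιw rbar W qn (algebraMap A₁ B q))
    (hq2 : ∃ t : B, red₂ t ≠ 0 ∧ t * algebraMap A₁ B q ∈ RingHom.ker red₂ ^ (qn - 1))
    (huA₁ : ∀ c : A₁, ιu (algebraMap A₁ BM c) = algebraMap A₁ B c)
    (hvA₁ : ∀ c : A₁, ιv (algebraMap A₁ BM c) = algebraMap A₁ B c)
    (hwA₁ : ∀ c : A₁, ιw (algebraMap A₁ BM c) = algebraMap A₁ B c)
    (hq₁ : red₁ (algebraMap A₁ B q) = 0) (hq₂ : red₂ (algebraMap A₁ B q) = 0)
    (hq₃ : red₃ (algebraMap A₁ B q) = 0)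
    (hqM : rbar (algebraMap A₁ BM q) = 0)
    (ιuE ιvE ιwE : EM →+* E)
    (huB : ∀ b : BM, ιuE (algebraMap BM EM b) = algebraMap B E (ιu b))
    (huA : ∀ a : A₂, ιuE (algebraMap A₂ EM a) = algebraMap A₂ E a)
    (hvB : ∀ b : BM, ιvE (algebraMap BM EM b) = algebraMap B E (ιv b))
    (hvA : ∀ a : A₂, ιvE (algebraMap A₂ EM a) = algebraMap A₂ E a)
    (hwB : ∀ b : BM, ιwE (algebraMap BM EM b) = algebraMap B E (ιw b))
    (hwA : ∀ a : A₂, ιwE (algebraMap A₂ EM a) = algebraMap A₂ E a) :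
    ThreeComponents (redGen (E := E) q π h1 h2 h3 hLD red₁ hq₁)
      (redGen (E := E) q π h1 h2 h3 hLD red₂ hq₂)
      (redGen (E := E) q π h1 h2 h3 hLD red₃ hq₃)
      (mapGen ιuE ιu huB huA) (mapGen ιvE ιv hvB hvA) (mapGen ιwE ιw hwB hwA)
      (redGen (E := EM) q π h1 h2 h3 hLDM rbar hqM) W qn (piGen B E π) where
  hroot := TC.hroot
  h1u := redGen_comp_mapGen q π h1 h2 h3 hLD hLDM (RingHom.id R₀) TC.h1u huA₁ hq₁ hqM ιuE huB huA
  h1v := redGen_comp_mapGen q π h1 h2 h3 hLD hLDM W TC.h1v hvA₁ hq₁ hqM ιvE hvB hvA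
  h1w := redGen_comp_mapGen q π h1 h2 h3 hLD hLDM (W.comp W) TC.h1w hwA₁ hq₁ hqM ιwE hwB hwA
  h2u := redGen_comp_mapGen q π h1 h2 h3 hLD hLDM (RingHom.id R₀) TC.h2u huA₁ hq₂ hqM ιuE huB huA
  h2v := redGen_comp_mapGen q π h1 h2 h3 hLD hLDM W TC.h2v hvA₁ hq₂ hqM ιvE hvB hvA
  h2w := redGen_comp_mapGen q π h1 h2 h3 hLD hLDM (RingHom.id R₀) TC.h2w hwA₁ hq₂ hqM ιwE hwB hwA
  h3u := redGen_comp_mapGen q π h1 h2 h3 hLD hLDM (W.comp W) TC.h3u huA₁ hq₃ hqM ιuE huB huA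
  h3v := redGen_comp_mapGen q π h1 h2 h3 hLD hLDM W TC.h3v hvA₁ hq₃ hqM ιvE hvB hvA
  h3w := redGen_comp_mapGen q π h1 h2 h3 hLD hLDM (RingHom.id R₀) TC.h3w hwA₁ hq₃ hqM ιwE hwB hwA
  hrbar := redGen_surjective q π h1 h2 h3 hLDM rbar hqM TC.hrbar
  hsat := fun z hz₁ hz₃ ⟨s', hs', hmem⟩ => by
    obtain ⟨b, r', rfl⟩ := exists_eq_add_mul (A₁ := A₁) π h1 z
    rw [redGen_add_mul] at hz₁ hz₃
    obtain ⟨s, r'', rfl⟩ := exists_eq_add_mul (A₁ := A₁) π h1 s'
    rw [redGen_add_mul] at hs'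
    -- `s b ∈ P₂^(q-1) + q B`
    obtain ⟨p, hp, r, hr⟩ := ker_redGen_pow_le_powKer q π h1 h2 h3 hLD red₂ hq₂ (qn - 1) hmem
    have hdvd : algebraMap A₁ B q ∣ s * b - p := by
      apply dvd_of_piGen_dvd_algebraMap (E := E) q π h1 h2 hLD
      refine ⟨r - (algebraMap B (genRing A₂ B E) s * r' +
        r'' * (algebraMap B (genRing A₂ B E) b + piGen B E π * r')), ?_⟩
      rw [map_sub, map_mul]
      linear_combination hr
    obtain ⟨b', hb'⟩ := hdvd
    -- `p ∈ P₁ ∩ P₂^(q-1) ∩ P₃`, hence `q ∣ p`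
    have hpe : p = s * b - algebraMap A₁ B q * b' := by rw [← hb']; ring
    have hp₁ : red₁ p = 0 := by rw [hpe, map_sub, map_mul, map_mul, hz₁, hq₁]; ring
    have hp₃ : red₃ p = 0 := by rw [hpe, map_sub, map_mul, map_mul, hz₃, hq₃]; ring
    have h1ne : red₂ 1 ≠ 0 := fun h => hs' (by rw [← mul_one s, map_mul, h, mul_zero])
    have hpq : p ∈ Ideal.span {algebraMap A₁ B q} :=
      TC.hsat p hp₁ hp₃ ⟨1, h1ne, by rwa [one_mul]⟩
    obtain ⟨p', hp'⟩ := Ideal.mem_span_singleton'.1 hpq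
    -- `t s b ∈ P₂^(q-1)`
    obtain ⟨t, ht, htq⟩ := hq2
    have hsb : s * b = algebraMap A₁ B q * (p' + b') := by
      rw [mul_add, ← hb', mul_comm _ p', hp']; ring
    have hb : b ∈ Ideal.span {algebraMap A₁ B q} := by
      refine TC.hsat b hz₁ hz₃ ⟨t * s, ?_, ?_⟩
      · rw [map_mul]; exact mul_ne_zero ht hs'
      · rw [mul_assoc, hsb, ← mul_assoc]
        exact Ideal.mul_mem_right _ _ htq
    exact Ideal.add_mem _ (algebraMap_mem_span_piGen q π h3 hb)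
      (Ideal.mul_mem_right _ _ (Ideal.mem_span_singleton_self _))

/-- `q ∈ P₂^((q-1))` passes to `genRing` (needs `π ∣ q` AND `q ∣ π`, i.e. the unramified case,
stated as `π = q`). -/
theorem hq2_genRing (q : A₁)
    (h1 : ∀ a : A₂, ∃ c : A₁, ∃ a' : A₂, a = algebraMap A₁ A₂ c + algebraMap A₁ A₂ q * a')
    (h2 : ∀ c : A₁, algebraMap A₁ A₂ q ∣ algebraMap A₁ A₂ c → q ∣ c)
    (h3 : algebraMap A₁ A₂ q ∣ algebraMap A₁ A₂ q)
    (hLD : ∀ (r : ℕ) (m : Fin r → A₂), LinearIndependent A₁ m →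
      LinearIndependent B (fun l => algebraMap A₂ E (m l)))
    {red₂ : B →+* R₀} (hq₂ : red₂ (algebraMap A₁ B q) = 0) {n : ℕ}
    (hq2 : ∃ t : B, red₂ t ≠ 0 ∧ t * algebraMap A₁ B q ∈ RingHom.ker red₂ ^ n) :
    ∃ t : genRing A₂ B E,
      redGen (E := E) q (algebraMap A₁ A₂ q) h1 h2 h3 hLD red₂ hq₂ t ≠ 0 ∧
      t * piGen B E (algebraMap A₁ A₂ q) ∈
        RingHom.ker (redGen (E := E) q (algebraMap A₁ A₂ q) h1 h2 h3 hLD red₂ hq₂) ^ n := by
  obtain ⟨t, ht, htq⟩ := hq2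
  refine ⟨algebraMap B (genRing A₂ B E) t, by rwa [redGen_algebraMap], ?_⟩
  have e : algebraMap B (genRing A₂ B E) t * piGen B E (algebraMap A₁ A₂ q) =
      algebraMap B (genRing A₂ B E) (t * algebraMap A₁ B q) := by
    apply Subtype.ext
    simp only [piGen, Subalgebra.coe_mul, Subalgebra.coe_algebraMap, map_mul]
    rw [← IsScalarTower.algebraMap_apply A₁ A₂ E, ← IsScalarTower.algebraMap_apply A₁ B E]
  rw [e]
  exact algebraMap_mem_ker_redGen_pow q _ h1 h2 h3 hLD red₂ hq₂ htq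

end Three

/-! ### Transport to a subring with the same elements -/

section Transport

variable {B B' R₀ BM BM' : Type*} [CommRing B] [CommRing B'] [CommRing R₀] [CommRing BM]
  [CommRing BM']

/-- `ThreeComponents` is invariant under ring isomorphisms of the two charts. -/
theorem threeComponents_of_equiv {red₁ red₂ red₃ : B →+* R₀} {ιu ιv ιw : BM →+* B}
    {rbar : BM →+* R₀} {W : R₀ →+* R₀} {q : ℕ} {qB : B}
    (h : ThreeComponents red₁ red₂ red₃ ιu ιv ιw rbar W q qB)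
    (e : B' ≃+* B) (eM : BM' ≃+* BM) :
    ThreeComponents (red₁.comp (e : B' →+* B)) (red₂.comp (e : B' →+* B))
      (red₃.comp (e : B' →+* B))
      ((e.symm : B →+* B').comp (ιu.comp (eM : BM' →+* BM)))
      ((e.symm : B →+* B').comp (ιv.comp (eM : BM' →+* BM)))
      ((e.symm : B →+* B').comp (ιw.comp (eM : BM' →+* BM)))
      (rbar.comp (eM : BM' →+* BM)) W q (e.symm qB) where
  hroot := h.hroot
  h1u := fun ψ => by simp [h.h1u]
  h1v := fun ψ => by simp [h.h1v]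
  h1w := fun ψ => by simp [h.h1w]
  h2u := fun ψ => by simp [h.h2u]
  h2v := fun ψ => by simp [h.h2v]
  h2w := fun ψ => by simp [h.h2w]
  h3u := fun ψ => by simp [h.h3u]
  h3v := fun ψ => by simp [h.h3v]
  h3w := fun ψ => by simp [h.h3w]
  hrbar := h.hrbar.comp eM.surjective
  hsat := fun z hz₁ hz₃ ⟨s, hs, hmem⟩ => by
    have hker : Ideal.map (e : B' →+* B) (RingHom.ker (red₂.comp (e : B' →+* B))) =
        RingHom.ker red₂ := by
      rw [← RingHom.comap_ker]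
      exact Ideal.map_comap_of_surjective _ e.surjective _
    have hmem' : e s * e z ∈ RingHom.ker red₂ ^ (q - 1) := by
      have := Ideal.mem_map_of_mem (e : B' →+* B) hmem
      rw [Ideal.map_pow, hker] at this
      simpa using this
    have := h.hsat (e z) hz₁ hz₃ ⟨e s, hs, hmem'⟩
    obtain ⟨y, hy⟩ := Ideal.mem_span_singleton'.1 this
    rw [Ideal.mem_span_singleton']
    refine ⟨e.symm y, ?_⟩
    rw [← map_mul, hy, RingEquiv.symm_apply_apply]

end Transport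

/-! ### `ThreeComponents` for subrings with the same elements as `genRing` -/

section Subring

variable {A₁ A₂ B BM E EM : Type*} [CommRing A₁] [IsDomain A₁] [IsPrincipalIdealRing A₁]
  [CommRing A₂] [Algebra A₁ A₂] [Module.IsTorsionFree A₁ A₂]
  [CommRing B] [Algebra A₁ B] [CommRing BM] [Algebra A₁ BM]
  [CommRing E] [Algebra A₁ E] [Algebra A₂ E] [Algebra B E]
  [IsScalarTower A₁ A₂ E] [IsScalarTower A₁ B E]
  [CommRing EM] [Algebra A₁ EM] [Algebra A₂ EM] [Algebra BM EM]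
  [IsScalarTower A₁ A₂ EM] [IsScalarTower A₁ BM EM]
  {R₀ : Type*} [CommRing R₀]
  {S SM : Type*} [SetLike S E] [SubringClass S E] [SetLike SM EM] [SubringClass SM EM]

/-- **Base change of `ThreeComponents`, subring form.**  `s ⊆ E`, `sM ⊆ EM` subrings with the same
elements as `genRing A₂ B E`, `genRing A₂ BM EM` (e.g. the `A₂`-charts `chartB A₂ J''`). -/
theorem threeComponents_subring [NoZeroDivisors R₀] (q : A₁) (π : A₂)
    (h1 : ∀ a : A₂, ∃ c : A₁, ∃ a' : A₂, a = algebraMap A₁ A₂ c + π * a')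
    (h2 : ∀ c : A₁, π ∣ algebraMap A₁ A₂ c → q ∣ c)
    (h3 : π ∣ algebraMap A₁ A₂ q)
    (hLD : ∀ (r : ℕ) (m : Fin r → A₂), LinearIndependent A₁ m →
      LinearIndependent B (fun l => algebraMap A₂ E (m l)))
    (hLDM : ∀ (r : ℕ) (m : Fin r → A₂), LinearIndependent A₁ m →
      LinearIndependent BM (fun l => algebraMap A₂ EM (m l)))
    {red₁ red₂ red₃ : B →+* R₀} {ιu ιv ιw : BM →+* B} {rbar : BM →+* R₀} {W : R₀ →+* R₀}
    {qn : ℕ}
    (TC : ThreeComponents red₁ red₂ red₃ ιu ιv ιw rbar W qn (algebraMap A₁ B q))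
    (hq2 : ∃ t : B, red₂ t ≠ 0 ∧ t * algebraMap A₁ B q ∈ RingHom.ker red₂ ^ (qn - 1))
    (huA₁ : ∀ c : A₁, ιu (algebraMap A₁ BM c) = algebraMap A₁ B c)
    (hvA₁ : ∀ c : A₁, ιv (algebraMap A₁ BM c) = algebraMap A₁ B c)
    (hwA₁ : ∀ c : A₁, ιw (algebraMap A₁ BM c) = algebraMap A₁ B c)
    (hq₁ : red₁ (algebraMap A₁ B q) = 0) (hq₂ : red₂ (algebraMap A₁ B q) = 0)
    (hq₃ : red₃ (algebraMap A₁ B q) = 0)
    (hqM : rbar (algebraMap A₁ BM q) = 0)
    (ιuE ιvE ιwE : EM →+* E)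
    (huB : ∀ b : BM, ιuE (algebraMap BM EM b) = algebraMap B E (ιu b))
    (huA : ∀ a : A₂, ιuE (algebraMap A₂ EM a) = algebraMap A₂ E a)
    (hvB : ∀ b : BM, ιvE (algebraMap BM EM b) = algebraMap B E (ιv b))
    (hvA : ∀ a : A₂, ιvE (algebraMap A₂ EM a) = algebraMap A₂ E a)
    (hwB : ∀ b : BM, ιwE (algebraMap BM EM b) = algebraMap B E (ιw b))
    (hwA : ∀ a : A₂, ιwE (algebraMap A₂ EM a) = algebraMap A₂ E a)
    (s : S) (hs : ∀ z : E, z ∈ s ↔ z ∈ genRing A₂ B E)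
    (sM : SM) (hsM : ∀ z : EM, z ∈ sM ↔ z ∈ genRing A₂ BM EM) :
    ThreeComponents
      ((redGen (E := E) q π h1 h2 h3 hLD red₁ hq₁).comp
        (genEquiv s (genRing A₂ B E) hs : s →+* genRing A₂ B E))
      ((redGen (E := E) q π h1 h2 h3 hLD red₂ hq₂).comp
        (genEquiv s (genRing A₂ B E) hs : s →+* genRing A₂ B E))
      ((redGen (E := E) q π h1 h2 h3 hLD red₃ hq₃).comp
        (genEquiv s (genRing A₂ B E) hs : s →+* genRing A₂ B E))
      (((genEquiv s (genRing A₂ B E) hs).symm : genRing A₂ B E →+* s).comp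
        ((mapGen ιuE ιu huB huA).comp
          (genEquiv sM (genRing A₂ BM EM) hsM : sM →+* genRing A₂ BM EM)))
      (((genEquiv s (genRing A₂ B E) hs).symm : genRing A₂ B E →+* s).comp
        ((mapGen ιvE ιv hvB hvA).comp
          (genEquiv sM (genRing A₂ BM EM) hsM : sM →+* genRing A₂ BM EM)))
      (((genEquiv s (genRing A₂ B E) hs).symm : genRing A₂ B E →+* s).comp
        ((mapGen ιwE ιw hwB hwA).comp
          (genEquiv sM (genRing A₂ BM EM) hsM : sM →+* genRing A₂ BM EM)))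
      ((redGen (E := EM) q π h1 h2 h3 hLDM rbar hqM).comp
        (genEquiv sM (genRing A₂ BM EM) hsM : sM →+* genRing A₂ BM EM))
      W qn ((genEquiv s (genRing A₂ B E) hs).symm (piGen B E π)) :=
  threeComponents_of_equiv
    (threeComponents_genRing q π h1 h2 h3 hLD hLDM TC hq2 huA₁ hvA₁ hwA₁ hq₁ hq₂ hq₃ hqM
      ιuE ιvE ιwE huB huA hvB hvA hwB hwA)
    (genEquiv s (genRing A₂ B E) hs) (genEquiv sM (genRing A₂ BM EM) hsM)

end Subring

end Fermat.Agent.S36.H70
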