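import Mathlib
import Fermat.Agent.S36.H70_ThreeComponentsBC
import Fermat.Agent.S36.H70_GenByUnram
import Fermat.Agent.S35.H70_TwoComponentsBCMain

/-!
# S36, row (E2), base-change layer (helper70): `ThreeComponents` for the `A''`-charts

`A₁ := A0 A ℓ`, `A'' := cutOver A E`, `F1(N) := fullC (unrCyclo ℓ) N`, `F_E(N) := fullC ↥E N`,
`bc := H45.baseChangeE E N`.  For chart coordinates `J₁ : F1(N)` (level `N = L q²`) and
`c₁ : F1(M)` (level `M = L`):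

* `threeComponents_cutOver` : `S36.H83.ThreeComponents` for the `A₁`-charts gives
  `S36.H83.ThreeComponents` for the `A''`-charts, with `red_k'' := S35.H70.redE red_k`, the degeneracy
  maps `S35.H70.mapE`, the same `D`, `W`, `q`, and `qB := π`  (any uniformiser `π` of `A''`; extra
  input `hq2 : q ∈ P₂^((q-1))` at the base).
* `hq2_cutOver` : `hq2` over `A''` when `ℓ` stays a uniformiser (`hunr`, `π := ℓ`).
* the `GenBy` hypotheses `hN hM` are discharged by `S36.H70.genBy_of_unram` (unramified `E`).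
-/

set_option autoImplicit false
set_option linter.unusedSectionVars false
set_option linter.style.haveILetI false
set_option synthInstance.maxHeartbeats 400000
set_option maxHeartbeats 3200000

noncomputable section

namespace Fermat.Agent.S36.H70

open ModularCurve HahnSeries IsLocalRing IntermediateField
open Fermat.Agent.S18 Fermat.Agent.CA Fermat.Agent.S36.H83 Fermat.Agent.S35.H70

local notation "Qbar" => AlgebraicClosure ℚ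

variable {A : ValuationSubring Qbar} {ℓ : ℕ} (hℓ : ℓ.Prime) (hA : A.LiesOverPrime ℓ)
variable (E : IntermediateField (H45.unrCyclo ℓ) Qbar) (N : ℕ) [NeZero N] (M : ℕ) [NeZero M]

section Main

variable (J₁ : ↥(modularFunctionFieldFullC ↥(H45.unrCyclo ℓ) N))
  (c₁ : ↥(modularFunctionFieldFullC ↥(H45.unrCyclo ℓ) M))
  (π : ↥(H45.cutOver A E)) (hπ : maximalIdeal ↥(H45.cutOver A E) = Ideal.span {π})
  (hN : GenBy (A := A) E N J₁) (hM : GenBy (A := A) E M c₁)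
  {R₀ : Type*} [CommRing R₀] [NoZeroDivisors R₀]
  {red₁ red₂ red₃ : ↥(H40.chartB ↥(H45.A0 A ℓ) J₁) →+* R₀}
  {ιu ιv ιw : ↥(H40.chartB ↥(H45.A0 A ℓ) c₁) →+* ↥(H40.chartB ↥(H45.A0 A ℓ) J₁)}
  {rbar : ↥(H40.chartB ↥(H45.A0 A ℓ) c₁) →+* R₀} {W : R₀ →+* R₀} {qn : ℕ}

/-- **`ThreeComponents` for the `A''`-charts from `ThreeComponents` for the `A₁`-charts.** -/
theorem threeComponents_cutOver
    (TC : ThreeComponents red₁ red₂ red₃ ιu ιv ιw rbar W qn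
      (algebraMap ↥(H45.A0 A ℓ) ↥(H40.chartB ↥(H45.A0 A ℓ) J₁) ((ℓ : ℕ) : ↥(H45.A0 A ℓ))))
    (hq2 : ∃ t : ↥(H40.chartB ↥(H45.A0 A ℓ) J₁), red₂ t ≠ 0 ∧
      t * algebraMap ↥(H45.A0 A ℓ) ↥(H40.chartB ↥(H45.A0 A ℓ) J₁) ((ℓ : ℕ) : ↥(H45.A0 A ℓ)) ∈
        RingHom.ker red₂ ^ (qn - 1))
    (huA₁ : ∀ c : ↥(H45.A0 A ℓ),
      ιu (algebraMap ↥(H45.A0 A ℓ) ↥(H40.chartB ↥(H45.A0 A ℓ) c₁) c) =
        algebraMap ↥(H45.A0 A ℓ) ↥(H40.chartB ↥(H45.A0 A ℓ) J₁) c)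
    (hvA₁ : ∀ c : ↥(H45.A0 A ℓ),
      ιv (algebraMap ↥(H45.A0 A ℓ) ↥(H40.chartB ↥(H45.A0 A ℓ) c₁) c) =
        algebraMap ↥(H45.A0 A ℓ) ↥(H40.chartB ↥(H45.A0 A ℓ) J₁) c)
    (hwA₁ : ∀ c : ↥(H45.A0 A ℓ),
      ιw (algebraMap ↥(H45.A0 A ℓ) ↥(H40.chartB ↥(H45.A0 A ℓ) c₁) c) =
        algebraMap ↥(H45.A0 A ℓ) ↥(H40.chartB ↥(H45.A0 A ℓ) J₁) c)
    (hq₁ : red₁ (algebraMap ↥(H45.A0 A ℓ) ↥(H40.chartB ↥(H45.A0 A ℓ) J₁)
      ((ℓ : ℕ) : ↥(H45.A0 A ℓ))) = 0)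
    (hq₂ : red₂ (algebraMap ↥(H45.A0 A ℓ) ↥(H40.chartB ↥(H45.A0 A ℓ) J₁)
      ((ℓ : ℕ) : ↥(H45.A0 A ℓ))) = 0)
    (hq₃ : red₃ (algebraMap ↥(H45.A0 A ℓ) ↥(H40.chartB ↥(H45.A0 A ℓ) J₁)
      ((ℓ : ℕ) : ↥(H45.A0 A ℓ))) = 0)
    (hqM : rbar (algebraMap ↥(H45.A0 A ℓ) ↥(H40.chartB ↥(H45.A0 A ℓ) c₁)
      ((ℓ : ℕ) : ↥(H45.A0 A ℓ))) = 0)
    (ιuE ιvE ιwE : ↥(modularFunctionFieldFullC ↥E M) →+* ↥(modularFunctionFieldFullC ↥E N))
    (hubc : ∀ b : ↥(H40.chartB ↥(H45.A0 A ℓ) c₁),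
      ιuE (H45.baseChangeE E M (b : ↥(modularFunctionFieldFullC ↥(H45.unrCyclo ℓ) M))) =
        H45.baseChangeE E N
          ((ιu b : ↥(H40.chartB ↥(H45.A0 A ℓ) J₁)) :
            ↥(modularFunctionFieldFullC ↥(H45.unrCyclo ℓ) N)))
    (huc : ∀ a : ↥(H45.cutOver A E),
      ιuE (algebraMap ↥(H45.cutOver A E) ↥(modularFunctionFieldFullC ↥E M) a) =
        algebraMap ↥(H45.cutOver A E) ↥(modularFunctionFieldFullC ↥E N) a)
    (hvbc : ∀ b : ↥(H40.chartB ↥(H45.A0 A ℓ) c₁),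
      ιvE (H45.baseChangeE E M (b : ↥(modularFunctionFieldFullC ↥(H45.unrCyclo ℓ) M))) =
        H45.baseChangeE E N
          ((ιv b : ↥(H40.chartB ↥(H45.A0 A ℓ) J₁)) :
            ↥(modularFunctionFieldFullC ↥(H45.unrCyclo ℓ) N)))
    (hvc : ∀ a : ↥(H45.cutOver A E),
      ιvE (algebraMap ↥(H45.cutOver A E) ↥(modularFunctionFieldFullC ↥E M) a) =
        algebraMap ↥(H45.cutOver A E) ↥(modularFunctionFieldFullC ↥E N) a)
    (hwbc : ∀ b : ↥(H40.chartB ↥(H45.A0 A ℓ) c₁),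
      ιwE (H45.baseChangeE E M (b : ↥(modularFunctionFieldFullC ↥(H45.unrCyclo ℓ) M))) =
        H45.baseChangeE E N
          ((ιw b : ↥(H40.chartB ↥(H45.A0 A ℓ) J₁)) :
            ↥(modularFunctionFieldFullC ↥(H45.unrCyclo ℓ) N)))
    (hwc : ∀ a : ↥(H45.cutOver A E),
      ιwE (algebraMap ↥(H45.cutOver A E) ↥(modularFunctionFieldFullC ↥E M) a) =
        algebraMap ↥(H45.cutOver A E) ↥(modularFunctionFieldFullC ↥E N) a) :
    ThreeComponents (redE hℓ hA E N J₁ π hπ hN red₁ hq₁) (redE hℓ hA E N J₁ π hπ hN red₂ hq₂)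
      (redE hℓ hA E N J₁ π hπ hN red₃ hq₃)
      (mapE E N M J₁ c₁ hN hM ιuE ιu hubc huc) (mapE E N M J₁ c₁ hN hM ιvE ιv hvbc hvc)
      (mapE E N M J₁ c₁ hN hM ιwE ιw hwbc hwc)
      (redE hℓ hA E M c₁ π hπ hM rbar hqM) W qn
      (algebraMap ↥(H45.cutOver A E)
        ↥(H40.chartB ↥(H45.cutOver A E) (H45.baseChangeE E N J₁)) π) := by
  letI := S34.H70.algA0FE (A := A) E N
  letI := S34.H70.algSubFE (A := A) E N (H40.chartB ↥(H45.A0 A ℓ) J₁)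
  haveI := S34.H70.isScalarTower_A0_cutOver_FE (A := A) (q := ℓ) E N
  haveI := S34.H70.isScalarTower_A0_sub_FE (A := A) (q := ℓ) E N (H40.chartB ↥(H45.A0 A ℓ) J₁)
  letI := S34.H70.algA0FE (A := A) E M
  letI := S34.H70.algSubFE (A := A) E M (H40.chartB ↥(H45.A0 A ℓ) c₁)
  haveI := S34.H70.isScalarTower_A0_cutOver_FE (A := A) (q := ℓ) E M
  haveI := S34.H70.isScalarTower_A0_sub_FE (A := A) (q := ℓ) E M (H40.chartB ↥(H45.A0 A ℓ) c₁)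
  haveI := H45.isDiscreteValuationRing_A0 hℓ hA
  exact threeComponents_subring (E := ↥(modularFunctionFieldFullC ↥E N))
    (EM := ↥(modularFunctionFieldFullC ↥E M)) ((ℓ : ℕ) : ↥(H45.A0 A ℓ)) π
    (S34.H70.h1_inst hℓ hA E π hπ) (S34.H70.h2_inst hℓ hA E π hπ)
    (S34.H70.h3_inst hℓ hA E π hπ)
    (S34.H70.hLD_inst (A := A) (q := ℓ) E N (H40.chartB ↥(H45.A0 A ℓ) J₁))
    (S34.H70.hLD_inst (A := A) (q := ℓ) E M (H40.chartB ↥(H45.A0 A ℓ) c₁))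
    TC hq2 huA₁ hvA₁ hwA₁ hq₁ hq₂ hq₃ hqM ιuE ιvE ιwE hubc huc hvbc hvc hwbc hwc
    (H40.chartB ↥(H45.cutOver A E) (H45.baseChangeE E N J₁))
    (mem_chartB_iff_mem_genRing (A := A) E N J₁ hN)
    (H40.chartB ↥(H45.cutOver A E) (H45.baseChangeE E M c₁))
    (mem_chartB_iff_mem_genRing (A := A) E M c₁ hM)

/-- Powers of the kernel of `red` go into powers of the kernel of `redE red` under `chartMapE`. -/
theorem chartMapE_mem_ker_redE_pow {red : ↥(H40.chartB ↥(H45.A0 A ℓ) J₁) →+* R₀}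
    (hq : red (algebraMap ↥(H45.A0 A ℓ) ↥(H40.chartB ↥(H45.A0 A ℓ) J₁)
      ((ℓ : ℕ) : ↥(H45.A0 A ℓ))) = 0) {n : ℕ}
    {p : ↥(H40.chartB ↥(H45.A0 A ℓ) J₁)} (hp : p ∈ RingHom.ker red ^ n) :
    S34.H70.chartMapE (A := A) E N J₁ p ∈ RingHom.ker (redE hℓ hA E N J₁ π hπ hN red hq) ^ n := by
  have hle : Ideal.map (S34.H70.chartMapE (A := A) E N J₁) (RingHom.ker red) ≤
      RingHom.ker (redE hℓ hA E N J₁ π hπ hN red hq) := by
    rw [Ideal.map_le_iff_le_comap]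
    intro b hb
    rw [Ideal.mem_comap, RingHom.mem_ker, redE_chartMapE]
    exact (RingHom.mem_ker).1 hb
  have := Ideal.mem_map_of_mem (S34.H70.chartMapE (A := A) E N J₁) hp
  rw [Ideal.map_pow] at this
  exact Ideal.pow_right_mono hle n this

/-- **`q ∈ P₂^((n))` over `A''`** when `ℓ` stays a uniformiser (`π := ℓ`; `hunr` = helper45's
`S36.H45.maximalIdeal_cutOver_eq_span_natCast_of_fixed`). -/
theorem hq2_cutOver
    (hunr : maximalIdeal ↥(H45.cutOver A E) = Ideal.span {((ℓ : ℕ) : ↥(H45.cutOver A E))})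
    {red₂ : ↥(H40.chartB ↥(H45.A0 A ℓ) J₁) →+* R₀}
    (hq₂ : red₂ (algebraMap ↥(H45.A0 A ℓ) ↥(H40.chartB ↥(H45.A0 A ℓ) J₁)
      ((ℓ : ℕ) : ↥(H45.A0 A ℓ))) = 0) {n : ℕ}
    (hq2 : ∃ t : ↥(H40.chartB ↥(H45.A0 A ℓ) J₁), red₂ t ≠ 0 ∧
      t * algebraMap ↥(H45.A0 A ℓ) ↥(H40.chartB ↥(H45.A0 A ℓ) J₁) ((ℓ : ℕ) : ↥(H45.A0 A ℓ)) ∈
        RingHom.ker red₂ ^ n) :
    ∃ t : ↥(H40.chartB ↥(H45.cutOver A E) (H45.baseChangeE E N J₁)),
      redE hℓ hA E N J₁ _ hunr hN red₂ hq₂ t ≠ 0 ∧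
      t * algebraMap ↥(H45.cutOver A E)
          ↥(H40.chartB ↥(H45.cutOver A E) (H45.baseChangeE E N J₁))
          ((ℓ : ℕ) : ↥(H45.cutOver A E)) ∈
        RingHom.ker (redE hℓ hA E N J₁ _ hunr hN red₂ hq₂) ^ n := by
  obtain ⟨t, ht, htq⟩ := hq2
  refine ⟨S34.H70.chartMapE (A := A) E N J₁ t, by rwa [redE_chartMapE], ?_⟩
  have e' : S34.H70.chartMapE (A := A) E N J₁
      (algebraMap ↥(H45.A0 A ℓ) ↥(H40.chartB ↥(H45.A0 A ℓ) J₁) ((ℓ : ℕ) : ↥(H45.A0 A ℓ))) =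
      algebraMap ↥(H45.cutOver A E) ↥(H40.chartB ↥(H45.cutOver A E) (H45.baseChangeE E N J₁))
        ((ℓ : ℕ) : ↥(H45.cutOver A E)) := by
    rw [map_natCast, map_natCast, map_natCast]
  rw [← e', ← map_mul]
  exact chartMapE_mem_ker_redE_pow hℓ hA E N J₁ _ hunr hN hq₂ htq

end Main

end Fermat.Agent.S36.H70
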