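import Mathlib
import Fermat.Agent.S36.H70_ThreeComponentsBCMain
import Fermat.Agent.S35.H70_TwoComponentsBCFinal

/-!
# S36, row (E2), base-change layer (helper70): the E-level `ThreeComponents`, consumer form

As in S35 (`H70_TwoComponentsBCFinal`) the E-level `S36.H83.ThreeComponents` does not need any base
change at level `M = L`: the level-`L` chart `BM` of the `A₁`-level structure is kept, the three
degeneracy maps being composed with the chart-to-chart base change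
`chartB A₁ J₁ → chartB A'' (bc J₁)`.  So NO E-level field embeddings are needed.

* generic: `redGen_hsat3`, `threeComponents_genRing_left`, `mul_mem_ker_pow_of_equiv`;
* concrete: `redE_hsat3`, `threeComponents_cutOver_left`;
* consumer form (`(J₁, J_E, hJ : baseChangeE E N J₁ = J_E)` and helper95's `S34.H95.chartBC`):
  `exists_threeComponents_chartBC` (any uniformiser `π` of `A''`) and
  `exists_threeComponents_chartBC_unram` (`π := ℓ`, with `hq2` over `A''` as well).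
-/

set_option autoImplicit false
set_option linter.unusedSectionVars false
set_option linter.style.haveILetI false
set_option synthInstance.maxHeartbeats 400000
set_option maxHeartbeats 3200000

noncomputable section

namespace Fermat.Agent.S36.H70

open ModularCurve HahnSeries IsLocalRing
open Fermat.Agent.S18 Fermat.Agent.CA Fermat.Agent.CA.H79 Fermat.Agent.S36.H83
open Fermat.Agent.S35.H70

/-! ### Generic part -/

section Generic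

variable {A₁ A₂ B BM E : Type*} [CommRing A₁] [IsDomain A₁] [IsPrincipalIdealRing A₁]
  [CommRing A₂] [Algebra A₁ A₂] [Module.IsTorsionFree A₁ A₂]
  [CommRing B] [Algebra A₁ B] [CommRing BM]
  [CommRing E] [Algebra A₁ E] [Algebra A₂ E] [Algebra B E]
  [IsScalarTower A₁ A₂ E] [IsScalarTower A₁ B E]
  {R₀ : Type*} [CommRing R₀]

/-- **`π R = P₁'' ∩ P₂''^((q-1)) ∩ P₃''` from `q B = P₁ ∩ P₂^((q-1)) ∩ P₃` and
`q ∈ P₂^((q-1))`.** -/
theorem redGen_hsat3 [NoZeroDivisors R₀] (q : A₁) (π : A₂)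
    (h1 : ∀ a : A₂, ∃ c : A₁, ∃ a' : A₂, a = algebraMap A₁ A₂ c + π * a')
    (h2 : ∀ c : A₁, π ∣ algebraMap A₁ A₂ c → q ∣ c)
    (h3 : π ∣ algebraMap A₁ A₂ q)
    (hLD : ∀ (r : ℕ) (m : Fin r → A₂), LinearIndependent A₁ m →
      LinearIndependent B (fun l => algebraMap A₂ E (m l)))
    {red₁ red₂ red₃ : B →+* R₀} {n : ℕ}
    (hq₁ : red₁ (algebraMap A₁ B q) = 0) (hq₂ : red₂ (algebraMap A₁ B q) = 0)
    (hq₃ : red₃ (algebraMap A₁ B q) = 0)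
    (hsat : ∀ z : B, red₁ z = 0 → red₃ z = 0 →
      (∃ s : B, red₂ s ≠ 0 ∧ s * z ∈ RingHom.ker red₂ ^ n) →
        z ∈ Ideal.span {algebraMap A₁ B q})
    (hq2 : ∃ t : B, red₂ t ≠ 0 ∧ t * algebraMap A₁ B q ∈ RingHom.ker red₂ ^ n)
    (z : genRing A₂ B E)
    (hz₁ : redGen (E := E) q π h1 h2 h3 hLD red₁ hq₁ z = 0)
    (hz₃ : redGen (E := E) q π h1 h2 h3 hLD red₃ hq₃ z = 0)
    (hz₂ : ∃ s : genRing A₂ B E, redGen (E := E) q π h1 h2 h3 hLD red₂ hq₂ s ≠ 0 ∧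
      s * z ∈ RingHom.ker (redGen (E := E) q π h1 h2 h3 hLD red₂ hq₂) ^ n) :
    z ∈ Ideal.span {piGen B E π} := by
  obtain ⟨s', hs', hmem⟩ := hz₂
  obtain ⟨b, r', rfl⟩ := exists_eq_add_mul (A₁ := A₁) π h1 z
  rw [redGen_add_mul] at hz₁ hz₃
  obtain ⟨s, r'', rfl⟩ := exists_eq_add_mul (A₁ := A₁) π h1 s'
  rw [redGen_add_mul] at hs'
  obtain ⟨p, hp, r, hr⟩ := ker_redGen_pow_le_powKer q π h1 h2 h3 hLD red₂ hq₂ n hmem
  have hdvd : algebraMap A₁ B q ∣ s * b - p := by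
    apply dvd_of_piGen_dvd_algebraMap (E := E) q π h1 h2 hLD
    refine ⟨r - (algebraMap B (genRing A₂ B E) s * r' +
      r'' * (algebraMap B (genRing A₂ B E) b + piGen B E π * r')), ?_⟩
    rw [map_sub, map_mul]
    linear_combination hr
  obtain ⟨b', hb'⟩ := hdvd
  have hpe : p = s * b - algebraMap A₁ B q * b' := by rw [← hb']; ring
  have hp₁ : red₁ p = 0 := by rw [hpe, map_sub, map_mul, map_mul, hz₁, hq₁]; ring
  have hp₃ : red₃ p = 0 := by rw [hpe, map_sub, map_mul, map_mul, hz₃, hq₃]; ring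
  have h1ne : red₂ 1 ≠ 0 := fun h => hs' (by rw [← mul_one s, map_mul, h, mul_zero])
  have hpq : p ∈ Ideal.span {algebraMap A₁ B q} :=
    hsat p hp₁ hp₃ ⟨1, h1ne, by rwa [one_mul]⟩
  obtain ⟨p', hp'⟩ := Ideal.mem_span_singleton'.1 hpq
  obtain ⟨t, ht, htq⟩ := hq2
  have hsb : s * b = algebraMap A₁ B q * (p' + b') := by
    rw [mul_add, ← hb', mul_comm _ p', hp']; ring
  have hb : b ∈ Ideal.span {algebraMap A₁ B q} := by
    refine hsat b hz₁ hz₃ ⟨t * s, ?_, ?_⟩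
    · rw [map_mul]; exact mul_ne_zero ht hs'
    · rw [mul_assoc, hsb, ← mul_assoc]
      exact Ideal.mul_mem_right _ _ htq
  exact Ideal.add_mem _ (algebraMap_mem_span_piGen q π h3 hb)
    (Ideal.mul_mem_right _ _ (Ideal.mem_span_singleton_self _))

/-- **Base change of `ThreeComponents`, keeping the level-`L` chart.** -/
theorem threeComponents_genRing_left [NoZeroDivisors R₀] (q : A₁) (π : A₂)
    (h1 : ∀ a : A₂, ∃ c : A₁, ∃ a' : A₂, a = algebraMap A₁ A₂ c + π * a')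
    (h2 : ∀ c : A₁, π ∣ algebraMap A₁ A₂ c → q ∣ c)
    (h3 : π ∣ algebraMap A₁ A₂ q)
    (hLD : ∀ (r : ℕ) (m : Fin r → A₂), LinearIndependent A₁ m →
      LinearIndependent B (fun l => algebraMap A₂ E (m l)))
    {red₁ red₂ red₃ : B →+* R₀} {ιu ιv ιw : BM →+* B} {rbar : BM →+* R₀} {W : R₀ →+* R₀}
    {qn : ℕ}
    (TC : ThreeComponents red₁ red₂ red₃ ιu ιv ιw rbar W qn (algebraMap A₁ B q))
    (hq2 : ∃ t : B, red₂ t ≠ 0 ∧ t * algebraMap A₁ B q ∈ RingHom.ker red₂ ^ (qn - 1))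
    (hq₁ : red₁ (algebraMap A₁ B q) = 0) (hq₂ : red₂ (algebraMap A₁ B q) = 0)
    (hq₃ : red₃ (algebraMap A₁ B q) = 0) :
    ThreeComponents (redGen (E := E) q π h1 h2 h3 hLD red₁ hq₁)
      (redGen (E := E) q π h1 h2 h3 hLD red₂ hq₂)
      (redGen (E := E) q π h1 h2 h3 hLD red₃ hq₃)
      ((algebraMap B (genRing A₂ B E)).comp ιu) ((algebraMap B (genRing A₂ B E)).comp ιv)
      ((algebraMap B (genRing A₂ B E)).comp ιw) rbar W qn (piGen B E π) where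
  hroot := TC.hroot
  h1u := fun ψ => by rw [RingHom.comp_apply, redGen_algebraMap, TC.h1u]
  h1v := fun ψ => by rw [RingHom.comp_apply, redGen_algebraMap, TC.h1v]
  h1w := fun ψ => by rw [RingHom.comp_apply, redGen_algebraMap, TC.h1w]
  h2u := fun ψ => by rw [RingHom.comp_apply, redGen_algebraMap, TC.h2u]
  h2v := fun ψ => by rw [RingHom.comp_apply, redGen_algebraMap, TC.h2v]
  h2w := fun ψ => by rw [RingHom.comp_apply, redGen_algebraMap, TC.h2w]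
  h3u := fun ψ => by rw [RingHom.comp_apply, redGen_algebraMap, TC.h3u]
  h3v := fun ψ => by rw [RingHom.comp_apply, redGen_algebraMap, TC.h3v]
  h3w := fun ψ => by rw [RingHom.comp_apply, redGen_algebraMap, TC.h3w]
  hrbar := TC.hrbar
  hsat := fun z hz₁ hz₃ hz₂ =>
    redGen_hsat3 q π h1 h2 h3 hLD hq₁ hq₂ hq₃ TC.hsat hq2 z hz₁ hz₃ hz₂

end Generic

/-! ### Transport of powers of a kernel along a ring isomorphism -/

section Transport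

variable {B B' D : Type*} [CommRing B] [CommRing B'] [CommRing D]

theorem mul_mem_ker_pow_of_equiv (red : B →+* D) (e : B' ≃+* B) {n : ℕ} {x : B'}
    (hx : x ∈ RingHom.ker (red.comp (e : B' →+* B)) ^ n) : e x ∈ RingHom.ker red ^ n := by
  have hker : Ideal.map (e : B' →+* B) (RingHom.ker (red.comp (e : B' →+* B))) =
      RingHom.ker red := by
    rw [← RingHom.comap_ker]
    exact Ideal.map_comap_of_surjective _ e.surjective _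
  have := Ideal.mem_map_of_mem (e : B' →+* B) hx
  rw [Ideal.map_pow, hker] at this
  simpa using this

end Transport

/-! ### Concrete part -/

section Concrete

local notation "Qbar" => AlgebraicClosure ℚ

variable {A : ValuationSubring Qbar} {ℓ : ℕ} (hℓ : ℓ.Prime) (hA : A.LiesOverPrime ℓ)
variable (E : IntermediateField (H45.unrCyclo ℓ) Qbar) (N : ℕ) [NeZero N]
variable (J₁ : ↥(modularFunctionFieldFullC ↥(H45.unrCyclo ℓ) N))
  (π : ↥(H45.cutOver A E)) (hπ : maximalIdeal ↥(H45.cutOver A E) = Ideal.span {π})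
  (h : GenBy (A := A) E N J₁) {R₀ : Type*} [CommRing R₀] [NoZeroDivisors R₀]

/-- `π R = P₁'' ∩ P₂''^((n)) ∩ P₃''` for the `A''`-chart. -/
theorem redE_hsat3 {red₁ red₂ red₃ : ↥(H40.chartB ↥(H45.A0 A ℓ) J₁) →+* R₀} {n : ℕ}
    (hq₁ : red₁ (algebraMap ↥(H45.A0 A ℓ) ↥(H40.chartB ↥(H45.A0 A ℓ) J₁)
      ((ℓ : ℕ) : ↥(H45.A0 A ℓ))) = 0)
    (hq₂ : red₂ (algebraMap ↥(H45.A0 A ℓ) ↥(H40.chartB ↥(H45.A0 A ℓ) J₁)
      ((ℓ : ℕ) : ↥(H45.A0 A ℓ))) = 0)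
    (hq₃ : red₃ (algebraMap ↥(H45.A0 A ℓ) ↥(H40.chartB ↥(H45.A0 A ℓ) J₁)
      ((ℓ : ℕ) : ↥(H45.A0 A ℓ))) = 0)
    (hsat : ∀ z : ↥(H40.chartB ↥(H45.A0 A ℓ) J₁), red₁ z = 0 → red₃ z = 0 →
      (∃ s, red₂ s ≠ 0 ∧ s * z ∈ RingHom.ker red₂ ^ n) →
      z ∈ Ideal.span {algebraMap ↥(H45.A0 A ℓ) ↥(H40.chartB ↥(H45.A0 A ℓ) J₁)
        ((ℓ : ℕ) : ↥(H45.A0 A ℓ))})
    (hq2 : ∃ t : ↥(H40.chartB ↥(H45.A0 A ℓ) J₁), red₂ t ≠ 0 ∧
      t * algebraMap ↥(H45.A0 A ℓ) ↥(H40.chartB ↥(H45.A0 A ℓ) J₁) ((ℓ : ℕ) : ↥(H45.A0 A ℓ)) ∈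
        RingHom.ker red₂ ^ n)
    (z : ↥(H40.chartB ↥(H45.cutOver A E) (H45.baseChangeE E N J₁)))
    (hz₁ : redE hℓ hA E N J₁ π hπ h red₁ hq₁ z = 0)
    (hz₃ : redE hℓ hA E N J₁ π hπ h red₃ hq₃ z = 0)
    (hz₂ : ∃ s, redE hℓ hA E N J₁ π hπ h red₂ hq₂ s ≠ 0 ∧
      s * z ∈ RingHom.ker (redE hℓ hA E N J₁ π hπ h red₂ hq₂) ^ n) :
    z ∈ Ideal.span {algebraMap ↥(H45.cutOver A E)
      ↥(H40.chartB ↥(H45.cutOver A E) (H45.baseChangeE E N J₁)) π} := by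
  letI := S34.H70.algA0FE (A := A) E N
  letI := S34.H70.algSubFE (A := A) E N (H40.chartB ↥(H45.A0 A ℓ) J₁)
  haveI := S34.H70.isScalarTower_A0_cutOver_FE (A := A) (q := ℓ) E N
  haveI := S34.H70.isScalarTower_A0_sub_FE (A := A) (q := ℓ) E N (H40.chartB ↥(H45.A0 A ℓ) J₁)
  haveI := H45.isDiscreteValuationRing_A0 hℓ hA
  obtain ⟨s, hs, hmem⟩ := hz₂
  have hmem' : chartGenEquiv (A := A) E N J₁ h (s * z) ∈
      RingHom.ker (redGen (E := ↥(modularFunctionFieldFullC ↥E N)) ((ℓ : ℕ) : ↥(H45.A0 A ℓ)) π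
        (S34.H70.h1_inst hℓ hA E π hπ) (S34.H70.h2_inst hℓ hA E π hπ)
        (S34.H70.h3_inst hℓ hA E π hπ)
        (S34.H70.hLD_inst (A := A) (q := ℓ) E N (H40.chartB ↥(H45.A0 A ℓ) J₁)) red₂ hq₂) ^ n := by
    have hle : Ideal.map (chartGenEquiv (A := A) E N J₁ h).toRingHom
        (RingHom.ker (redE hℓ hA E N J₁ π hπ h red₂ hq₂)) ≤
        RingHom.ker (redGen (E := ↥(modularFunctionFieldFullC ↥E N)) ((ℓ : ℕ) : ↥(H45.A0 A ℓ)) π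
          (S34.H70.h1_inst hℓ hA E π hπ) (S34.H70.h2_inst hℓ hA E π hπ)
          (S34.H70.h3_inst hℓ hA E π hπ)
          (S34.H70.hLD_inst (A := A) (q := ℓ) E N (H40.chartB ↥(H45.A0 A ℓ) J₁)) red₂ hq₂) := by
      rw [Ideal.map_le_iff_le_comap]
      intro y hy
      rw [Ideal.mem_comap, RingHom.mem_ker]
      exact (RingHom.mem_ker).1 hy
    have h0 := Ideal.mem_map_of_mem (chartGenEquiv (A := A) E N J₁ h).toRingHom hmem
    rw [Ideal.map_pow] at h0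
    exact Ideal.pow_right_mono hle n h0
  rw [map_mul] at hmem'
  have key := redGen_hsat3 (E := ↥(modularFunctionFieldFullC ↥E N)) ((ℓ : ℕ) : ↥(H45.A0 A ℓ)) π
      (S34.H70.h1_inst hℓ hA E π hπ) (S34.H70.h2_inst hℓ hA E π hπ)
      (S34.H70.h3_inst hℓ hA E π hπ)
      (S34.H70.hLD_inst (A := A) (q := ℓ) E N (H40.chartB ↥(H45.A0 A ℓ) J₁)) hq₁ hq₂ hq₃
      hsat hq2 (chartGenEquiv (A := A) E N J₁ h z) hz₁ hz₃
      ⟨chartGenEquiv (A := A) E N J₁ h s, hs, hmem'⟩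
  exact mem_span_of_genEquiv_mem_span
    (H40.chartB ↥(H45.cutOver A E) (H45.baseChangeE E N J₁))
    (H79.genRing ↥(H45.cutOver A E) ↥(H40.chartB ↥(H45.A0 A ℓ) J₁)
      ↥(modularFunctionFieldFullC ↥E N))
    (mem_chartB_iff_mem_genRing (A := A) E N J₁ h)
    (algebraMap ↥(H45.cutOver A E)
      ↥(H40.chartB ↥(H45.cutOver A E) (H45.baseChangeE E N J₁)) π)
    (H79.piGen ↥(H40.chartB ↥(H45.A0 A ℓ) J₁) ↥(modularFunctionFieldFullC ↥E N) π) rfl z key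

variable {BM : Type*} [CommRing BM]
  {red₁ red₂ red₃ : ↥(H40.chartB ↥(H45.A0 A ℓ) J₁) →+* R₀}
  {ιu ιv ιw : BM →+* ↥(H40.chartB ↥(H45.A0 A ℓ) J₁)}
  {rbar : BM →+* R₀} {W : R₀ →+* R₀} {qn : ℕ}

/-- **`ThreeComponents` for the `A''`-chart from `ThreeComponents` for the `A₁`-chart**, keeping
the level-`L` chart `BM`: only (a)'' at the level `N` is needed. -/
theorem threeComponents_cutOver_left
    (TC : ThreeComponents red₁ red₂ red₃ ιu ιv ιw rbar W qn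
      (algebraMap ↥(H45.A0 A ℓ) ↥(H40.chartB ↥(H45.A0 A ℓ) J₁) ((ℓ : ℕ) : ↥(H45.A0 A ℓ))))
    (hq2 : ∃ t : ↥(H40.chartB ↥(H45.A0 A ℓ) J₁), red₂ t ≠ 0 ∧
      t * algebraMap ↥(H45.A0 A ℓ) ↥(H40.chartB ↥(H45.A0 A ℓ) J₁) ((ℓ : ℕ) : ↥(H45.A0 A ℓ)) ∈
        RingHom.ker red₂ ^ (qn - 1))
    (hq₁ : red₁ (algebraMap ↥(H45.A0 A ℓ) ↥(H40.chartB ↥(H45.A0 A ℓ) J₁)
      ((ℓ : ℕ) : ↥(H45.A0 A ℓ))) = 0)
    (hq₂ : red₂ (algebraMap ↥(H45.A0 A ℓ) ↥(H40.chartB ↥(H45.A0 A ℓ) J₁)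
      ((ℓ : ℕ) : ↥(H45.A0 A ℓ))) = 0)
    (hq₃ : red₃ (algebraMap ↥(H45.A0 A ℓ) ↥(H40.chartB ↥(H45.A0 A ℓ) J₁)
      ((ℓ : ℕ) : ↥(H45.A0 A ℓ))) = 0) :
    ThreeComponents (redE hℓ hA E N J₁ π hπ h red₁ hq₁) (redE hℓ hA E N J₁ π hπ h red₂ hq₂)
      (redE hℓ hA E N J₁ π hπ h red₃ hq₃)
      ((S34.H70.chartMapE (A := A) E N J₁).comp ιu) ((S34.H70.chartMapE (A := A) E N J₁).comp ιv)
      ((S34.H70.chartMapE (A := A) E N J₁).comp ιw) rbar W qn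
      (algebraMap ↥(H45.cutOver A E)
        ↥(H40.chartB ↥(H45.cutOver A E) (H45.baseChangeE E N J₁)) π) where
  hroot := TC.hroot
  h1u := fun ψ => by rw [RingHom.comp_apply, redE_chartMapE, TC.h1u]
  h1v := fun ψ => by rw [RingHom.comp_apply, redE_chartMapE, TC.h1v]
  h1w := fun ψ => by rw [RingHom.comp_apply, redE_chartMapE, TC.h1w]
  h2u := fun ψ => by rw [RingHom.comp_apply, redE_chartMapE, TC.h2u]
  h2v := fun ψ => by rw [RingHom.comp_apply, redE_chartMapE, TC.h2v]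
  h2w := fun ψ => by rw [RingHom.comp_apply, redE_chartMapE, TC.h2w]
  h3u := fun ψ => by rw [RingHom.comp_apply, redE_chartMapE, TC.h3u]
  h3v := fun ψ => by rw [RingHom.comp_apply, redE_chartMapE, TC.h3v]
  h3w := fun ψ => by rw [RingHom.comp_apply, redE_chartMapE, TC.h3w]
  hrbar := TC.hrbar
  hsat := fun z hz₁ hz₃ hz₂ =>
    redE_hsat3 hℓ hA E N J₁ π hπ h hq₁ hq₂ hq₃ TC.hsat hq2 z hz₁ hz₃ hz₂

/-! ### Consumer form: `(J₁, J_E, hJ : baseChangeE E N J₁ = J_E)` and `S34.H95.chartBC` -/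

include hℓ hA hπ h in
/-- **The E-level `ThreeComponents`, consumer form.**  For the chart `chartB A'' J_E` with
`J_E = baseChangeE E N J₁`: reductions `red_k''` extending the `A₁`-level ones along `chartBC`,
killing `π`, equal to `red_k` of the `A₁`-part on the constants, and forming a
`ThreeComponents` structure with `qB := π` (degeneracy maps `chartBC ∘ ι•`). -/
theorem exists_threeComponents_chartBC
    (J_E : ↥(modularFunctionFieldFullC ↥E N)) (hJ : H45.baseChangeE E N J₁ = J_E)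
    (TC : ThreeComponents red₁ red₂ red₃ ιu ιv ιw rbar W qn
      (algebraMap ↥(H45.A0 A ℓ) ↥(H40.chartB ↥(H45.A0 A ℓ) J₁) ((ℓ : ℕ) : ↥(H45.A0 A ℓ))))
    (hq2 : ∃ t : ↥(H40.chartB ↥(H45.A0 A ℓ) J₁), red₂ t ≠ 0 ∧
      t * algebraMap ↥(H45.A0 A ℓ) ↥(H40.chartB ↥(H45.A0 A ℓ) J₁) ((ℓ : ℕ) : ↥(H45.A0 A ℓ)) ∈
        RingHom.ker red₂ ^ (qn - 1))
    (hq₁ : red₁ (algebraMap ↥(H45.A0 A ℓ) ↥(H40.chartB ↥(H45.A0 A ℓ) J₁)
      ((ℓ : ℕ) : ↥(H45.A0 A ℓ))) = 0)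
    (hq₂ : red₂ (algebraMap ↥(H45.A0 A ℓ) ↥(H40.chartB ↥(H45.A0 A ℓ) J₁)
      ((ℓ : ℕ) : ↥(H45.A0 A ℓ))) = 0)
    (hq₃ : red₃ (algebraMap ↥(H45.A0 A ℓ) ↥(H40.chartB ↥(H45.A0 A ℓ) J₁)
      ((ℓ : ℕ) : ↥(H45.A0 A ℓ))) = 0) :
    ∃ red₁'' red₂'' red₃'' : ↥(H40.chartB ↥(H45.cutOver A E) J_E) →+* R₀,
      (∀ b, red₁'' (S34.H95.chartBC (A := A) E N J₁ J_E hJ b) = red₁ b) ∧
      (∀ b, red₂'' (S34.H95.chartBC (A := A) E N J₁ J_E hJ b) = red₂ b) ∧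
      (∀ b, red₃'' (S34.H95.chartBC (A := A) E N J₁ J_E hJ b) = red₃ b) ∧
      red₁'' (algebraMap ↥(H45.cutOver A E) ↥(H40.chartB ↥(H45.cutOver A E) J_E) π) = 0 ∧
      red₂'' (algebraMap ↥(H45.cutOver A E) ↥(H40.chartB ↥(H45.cutOver A E) J_E) π) = 0 ∧
      red₃'' (algebraMap ↥(H45.cutOver A E) ↥(H40.chartB ↥(H45.cutOver A E) J_E) π) = 0 ∧
      (∀ (a : ↥(H45.cutOver A E)) (c : ↥(H45.A0 A ℓ)) (a' : ↥(H45.cutOver A E)),
        a = algebraMap ↥(H45.A0 A ℓ) ↥(H45.cutOver A E) c + π * a' →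
        red₁'' (algebraMap ↥(H45.cutOver A E) ↥(H40.chartB ↥(H45.cutOver A E) J_E) a) =
          red₁ (algebraMap ↥(H45.A0 A ℓ) ↥(H40.chartB ↥(H45.A0 A ℓ) J₁) c)) ∧
      (∀ (a : ↥(H45.cutOver A E)) (c : ↥(H45.A0 A ℓ)) (a' : ↥(H45.cutOver A E)),
        a = algebraMap ↥(H45.A0 A ℓ) ↥(H45.cutOver A E) c + π * a' →
        red₂'' (algebraMap ↥(H45.cutOver A E) ↥(H40.chartB ↥(H45.cutOver A E) J_E) a) =
          red₂ (algebraMap ↥(H45.A0 A ℓ) ↥(H40.chartB ↥(H45.A0 A ℓ) J₁) c)) ∧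
      (∀ (a : ↥(H45.cutOver A E)) (c : ↥(H45.A0 A ℓ)) (a' : ↥(H45.cutOver A E)),
        a = algebraMap ↥(H45.A0 A ℓ) ↥(H45.cutOver A E) c + π * a' →
        red₃'' (algebraMap ↥(H45.cutOver A E) ↥(H40.chartB ↥(H45.cutOver A E) J_E) a) =
          red₃ (algebraMap ↥(H45.A0 A ℓ) ↥(H40.chartB ↥(H45.A0 A ℓ) J₁) c)) ∧
      ThreeComponents red₁'' red₂'' red₃''
        ((S34.H95.chartBC (A := A) E N J₁ J_E hJ).comp ιu)
        ((S34.H95.chartBC (A := A) E N J₁ J_E hJ).comp ιv)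
        ((S34.H95.chartBC (A := A) E N J₁ J_E hJ).comp ιw) rbar W qn
        (algebraMap ↥(H45.cutOver A E) ↥(H40.chartB ↥(H45.cutOver A E) J_E) π) := by
  subst hJ
  refine ⟨redE hℓ hA E N J₁ π hπ h red₁ hq₁, redE hℓ hA E N J₁ π hπ h red₂ hq₂,
    redE hℓ hA E N J₁ π hπ h red₃ hq₃,
    fun b => redE_chartMapE hℓ hA E N J₁ π hπ h red₁ hq₁ b,
    fun b => redE_chartMapE hℓ hA E N J₁ π hπ h red₂ hq₂ b,
    fun b => redE_chartMapE hℓ hA E N J₁ π hπ h red₃ hq₃ b,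
    redE_pi hℓ hA E N J₁ π hπ h red₁ hq₁, redE_pi hℓ hA E N J₁ π hπ h red₂ hq₂,
    redE_pi hℓ hA E N J₁ π hπ h red₃ hq₃,
    fun a c a' hca => redE_algebraMap hℓ hA E N J₁ π hπ h red₁ hq₁ hca,
    fun a c a' hca => redE_algebraMap hℓ hA E N J₁ π hπ h red₂ hq₂ hca,
    fun a c a' hca => redE_algebraMap hℓ hA E N J₁ π hπ h red₃ hq₃ hca, ?_⟩
  rw [chartBC_eq_chartMapE]
  exact threeComponents_cutOver_left hℓ hA E N J₁ π hπ h TC hq2 hq₁ hq₂ hq₃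

omit hπ in
include hℓ hA h in
/-- **The E-level `ThreeComponents` over an unramified `E`, consumer form** (`π := ℓ`,
`hunr` = helper45's `S36.H45.maximalIdeal_cutOver_eq_span_natCast_of_fixed`), together with
`q ∈ P₂''^((q-1))` over `A''`. -/
theorem exists_threeComponents_chartBC_unram
    (hunr : maximalIdeal ↥(H45.cutOver A E) = Ideal.span {((ℓ : ℕ) : ↥(H45.cutOver A E))})
    (J_E : ↥(modularFunctionFieldFullC ↥E N)) (hJ : H45.baseChangeE E N J₁ = J_E)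
    (TC : ThreeComponents red₁ red₂ red₃ ιu ιv ιw rbar W qn
      (algebraMap ↥(H45.A0 A ℓ) ↥(H40.chartB ↥(H45.A0 A ℓ) J₁) ((ℓ : ℕ) : ↥(H45.A0 A ℓ))))
    (hq2 : ∃ t : ↥(H40.chartB ↥(H45.A0 A ℓ) J₁), red₂ t ≠ 0 ∧
      t * algebraMap ↥(H45.A0 A ℓ) ↥(H40.chartB ↥(H45.A0 A ℓ) J₁) ((ℓ : ℕ) : ↥(H45.A0 A ℓ)) ∈
        RingHom.ker red₂ ^ (qn - 1))
    (hq₁ : red₁ (algebraMap ↥(H45.A0 A ℓ) ↥(H40.chartB ↥(H45.A0 A ℓ) J₁)
      ((ℓ : ℕ) : ↥(H45.A0 A ℓ))) = 0)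
    (hq₂ : red₂ (algebraMap ↥(H45.A0 A ℓ) ↥(H40.chartB ↥(H45.A0 A ℓ) J₁)
      ((ℓ : ℕ) : ↥(H45.A0 A ℓ))) = 0)
    (hq₃ : red₃ (algebraMap ↥(H45.A0 A ℓ) ↥(H40.chartB ↥(H45.A0 A ℓ) J₁)
      ((ℓ : ℕ) : ↥(H45.A0 A ℓ))) = 0) :
    ∃ red₁'' red₂'' red₃'' : ↥(H40.chartB ↥(H45.cutOver A E) J_E) →+* R₀,
      (∀ b, red₁'' (S34.H95.chartBC (A := A) E N J₁ J_E hJ b) = red₁ b) ∧
      (∀ b, red₂'' (S34.H95.chartBC (A := A) E N J₁ J_E hJ b) = red₂ b) ∧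
      (∀ b, red₃'' (S34.H95.chartBC (A := A) E N J₁ J_E hJ b) = red₃ b) ∧
      red₁'' (algebraMap ↥(H45.cutOver A E) ↥(H40.chartB ↥(H45.cutOver A E) J_E)
        ((ℓ : ℕ) : ↥(H45.cutOver A E))) = 0 ∧
      red₂'' (algebraMap ↥(H45.cutOver A E) ↥(H40.chartB ↥(H45.cutOver A E) J_E)
        ((ℓ : ℕ) : ↥(H45.cutOver A E))) = 0 ∧
      red₃'' (algebraMap ↥(H45.cutOver A E) ↥(H40.chartB ↥(H45.cutOver A E) J_E)
        ((ℓ : ℕ) : ↥(H45.cutOver A E))) = 0 ∧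
      (∃ t : ↥(H40.chartB ↥(H45.cutOver A E) J_E), red₂'' t ≠ 0 ∧
        t * algebraMap ↥(H45.cutOver A E) ↥(H40.chartB ↥(H45.cutOver A E) J_E)
          ((ℓ : ℕ) : ↥(H45.cutOver A E)) ∈ RingHom.ker red₂'' ^ (qn - 1)) ∧
      ThreeComponents red₁'' red₂'' red₃''
        ((S34.H95.chartBC (A := A) E N J₁ J_E hJ).comp ιu)
        ((S34.H95.chartBC (A := A) E N J₁ J_E hJ).comp ιv)
        ((S34.H95.chartBC (A := A) E N J₁ J_E hJ).comp ιw) rbar W qn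
        (algebraMap ↥(H45.cutOver A E) ↥(H40.chartB ↥(H45.cutOver A E) J_E)
          ((ℓ : ℕ) : ↥(H45.cutOver A E))) := by
  subst hJ
  refine ⟨redE hℓ hA E N J₁ _ hunr h red₁ hq₁, redE hℓ hA E N J₁ _ hunr h red₂ hq₂,
    redE hℓ hA E N J₁ _ hunr h red₃ hq₃,
    fun b => redE_chartMapE hℓ hA E N J₁ _ hunr h red₁ hq₁ b,
    fun b => redE_chartMapE hℓ hA E N J₁ _ hunr h red₂ hq₂ b,
    fun b => redE_chartMapE hℓ hA E N J₁ _ hunr h red₃ hq₃ b,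
    redE_pi hℓ hA E N J₁ _ hunr h red₁ hq₁, redE_pi hℓ hA E N J₁ _ hunr h red₂ hq₂,
    redE_pi hℓ hA E N J₁ _ hunr h red₃ hq₃,
    hq2_cutOver hℓ hA E N J₁ h hunr hq₂ hq2, ?_⟩
  rw [chartBC_eq_chartMapE]
  exact threeComponents_cutOver_left hℓ hA E N J₁ _ hunr h TC hq2 hq₁ hq₂ hq₃

end Concrete

end Fermat.Agent.S36.H70
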