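import Mathlib
import Fermat.Agent.S36.H83_L0ThreeExists
import Fermat.Agent.S36.H70_ThreeComponentsBCFinal
import Fermat.Agent.S36.H70_GenByUnram

/-!
# S36, row (E2), the (S1) SPELLING (helper78's Ruling 8) at level `q² L` (helper70)

Charts `B_i := chartB R (H45.baseChangeE E N (J3N L)^(±1))`, `R = cutOver A E`, `N = q * (q * L)`;
reductions `S35.H70.redE .. red_k hq_k`; degeneracy maps `(S34.H70.chartMapE E N _).comp ι•`.

* `genBy_J3N(_inv)` : helper40's (a)'' for the two coordinates (over an unramified `E`);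
* `threeComponentsS1_J3K(_inv)` : helper83's `A₁`-level package `threeComponents_J3K(_inv)_real`
  (with `red_k q = 0` pulled out as NAMED proofs `hq₁ hq₂ hq₃`, on which `redE` depends) together
  with (hq2) for `redE .. red₂ hq₂` and `ThreeComponents (redE .. red₁ hq₁) (redE .. red₂ hq₂)
  (redE .. red₃ hq₃) (chartMapE ∘ ιu) (chartMapE ∘ ιv) (chartMapE ∘ ιw) rbar W q (q : R)`.
-/

set_option autoImplicit false
set_option linter.unusedSectionVars false
set_option linter.style.haveILetI false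
set_option synthInstance.maxHeartbeats 400000
set_option maxHeartbeats 3200000

noncomputable section

namespace Fermat.Agent.S36.H70

open ModularCurve Polynomial IsLocalRing Fermat.Agent.S28
open Fermat.Agent.S18 Fermat.Agent.S34.H92 Fermat.Agent.S34.H16 Fermat.Agent.S34.H55
open Fermat.Agent.S36.H83

local notation "Qbar" => AlgebraicClosure ℚ

section S1

variable (L : ℕ) [NeZero L] {q : ℕ} [hq : Fact q.Prime] (hqL : ¬ q ∣ L)
  (A : ValuationSubring Qbar) (hA : A.LiesOverPrime q)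
  (Pi : PlaceInf L hqL A hA) (P0 : PlaceZero L hqL A hA)
  (PA : S36.H55.PlaceA L hqL A hA P0) (PB : S36.H55.PlaceB L hqL A hA Pi)
  (PC : S36.H55.PlaceC L hqL A hA Pi)
  (E : IntermediateField (H45.unrCyclo q) Qbar) [FiniteDimensional (H45.unrCyclo q) E]

local notation "kA" => IsLocalRing.ResidueField A
local notation "A₁" => H45.A0 A q
local notation "L₁" => H45.unrCyclo q
local notation "F0" => modularFunctionFieldFullC (H45.unrCyclo q) L
local notation "F2" => modularFunctionFieldFullC (H45.unrCyclo q) (q * (q * L))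
local notation "FkL" => modularFunctionFieldFullC (IsLocalRing.ResidueField A) L

include hA in
/-- (a)'' for `J₃` over an unramified `E`. -/
theorem genBy_J3N
    (hunr : maximalIdeal ↥(H45.cutOver A E) = Ideal.span {((q : ℕ) : ↥(H45.cutOver A E))}) :
    S35.H70.GenBy (A := A) E (q * (q * L)) (J3N L (q := q)) := by
  haveI := S36.H95.isNoetherianRing_chartB_J3K_A0 (A := A) hq.out hA (q * (q * L)) q (hq2_dvd L)
  haveI := finiteDimensional_J3K L₁ (q * (q * L)) q (hq2_dvd L)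
    (S18.H99.natCast_ne_zero₀ (q * (q * L)) L₁)
  exact genBy_of_unram hq.out hA E (q * (q * L)) (J3N L (q := q)) hunr

include hA in
/-- (a)'' for `J₃⁻¹` over an unramified `E`. -/
theorem genBy_J3N_inv
    (hunr : maximalIdeal ↥(H45.cutOver A E) = Ideal.span {((q : ℕ) : ↥(H45.cutOver A E))}) :
    S35.H70.GenBy (A := A) E (q * (q * L)) (J3N L (q := q))⁻¹ := by
  haveI := S36.H95.isNoetherianRing_chartB_J3K_inv_A0 (A := A) hq.out hA (q * (q * L)) q
    (hq2_dvd L)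
  haveI := finiteDimensional_J3K_inv L₁ (q * (q * L)) q (hq2_dvd L)
    (S18.H99.natCast_ne_zero₀ (q * (q * L)) L₁)
  exact genBy_of_unram hq.out hA E (q * (q * L)) (J3N L (q := q))⁻¹ hunr

/-- **(E2) in the (S1) spelling, chart `J₃`.** -/
theorem threeComponentsS1_J3K
    (hunr : maximalIdeal ↥(H45.cutOver A E) = Ideal.span {((q : ℕ) : ↥(H45.cutOver A E))}) :
    ∃ (red₁ red₂ red₃ : ↥(H40.chartB A₁ (J3N L (q := q))) →+* ↥(integralClosure (Algebra.adjoin kA {S18.H16.jK kA L}) FkL))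
      (hq₁ : red₁ (algebraMap A₁ ↥(H40.chartB A₁ (J3N L (q := q))) ((q : ℕ) : A₁)) = 0)
      (hq₂ : red₂ (algebraMap A₁ ↥(H40.chartB A₁ (J3N L (q := q))) ((q : ℕ) : A₁)) = 0)
      (hq₃ : red₃ (algebraMap A₁ ↥(H40.chartB A₁ (J3N L (q := q))) ((q : ℕ) : A₁)) = 0),
      (∀ (b : ↥(H40.chartB A₁ (J3N L (q := q)))) (h : (b : F2) ∈ S36.H55.QO1 L hqL A hA PB),
        inclk L A ((red₁ b : ↥(integralClosure (Algebra.adjoin kA {S18.H16.jK kA L}) FkL)) : FkL) = S36.H55.Qres1 L hqL A hA PB ⟨b, h⟩) ∧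
      (∀ (b : ↥(H40.chartB A₁ (J3N L (q := q)))) (h : (b : F2) ∈ S36.H55.RO1 L hqL A hA PC),
        inclk L A ((red₂ b : ↥(integralClosure (Algebra.adjoin kA {S18.H16.jK kA L}) FkL)) : FkL) = S36.H55.Rres1 L hqL A hA PC ⟨b, h⟩) ∧
      (∀ (b : ↥(H40.chartB A₁ (J3N L (q := q)))) (h : (b : F2) ∈ S36.H55.QO1 L hqL A hA PA),
        inclk L A ((red₃ b : ↥(integralClosure (Algebra.adjoin kA {S18.H16.jK kA L}) FkL)) : FkL) = S36.H55.Qres1 L hqL A hA PA ⟨b, h⟩) ∧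
      (∃ t : ↥(H40.chartB A₁ (J3N L (q := q))), red₂ t ≠ 0 ∧
        t * algebraMap A₁ ↥(H40.chartB A₁ (J3N L (q := q))) ((q : ℕ) : A₁) ∈ RingHom.ker red₂ ^ (q - 1)) ∧
      ThreeComponents red₁ red₂ red₃
        (chartMap (eU L (q := q)) (eU_algebraMap L A) (huint1 L A))
        (chartMap (eV L (q := q)) (eV_algebraMap L A) (hvint1 L A))
        (chartMap (eW L (q := q)) (eW_algebraMap L A) (hwint1 L A))
        (rbarB (Mod L hqL A hA) (Mod L hqL A hA).x_mem (Mod L hqL A hA).res1_x)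
        (WR (FrM L A hA) q (hFrx L A hA)) q
        (algebraMap A₁ ↥(H40.chartB A₁ (J3N L (q := q))) ((q : ℕ) : A₁)) ∧
      (∃ t : ↥(H40.chartB ↥(H45.cutOver A E) (H45.baseChangeE E (q * (q * L)) (J3N L (q := q)))),
        (S35.H70.redE hq.out hA E (q * (q * L)) (J3N L (q := q)) ((q : ℕ) : ↥(H45.cutOver A E)) hunr
          (genBy_J3N L A hA E hunr) red₂ hq₂) t ≠ 0 ∧
        t * algebraMap ↥(H45.cutOver A E) ↥(H40.chartB ↥(H45.cutOver A E) (H45.baseChangeE E (q * (q * L)) (J3N L (q := q))))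
            ((q : ℕ) : ↥(H45.cutOver A E)) ∈
          RingHom.ker (S35.H70.redE hq.out hA E (q * (q * L)) (J3N L (q := q)) ((q : ℕ) : ↥(H45.cutOver A E)) hunr
          (genBy_J3N L A hA E hunr) red₂ hq₂) ^ (q - 1)) ∧
      ThreeComponents
        (S35.H70.redE hq.out hA E (q * (q * L)) (J3N L (q := q)) ((q : ℕ) : ↥(H45.cutOver A E)) hunr
          (genBy_J3N L A hA E hunr) red₁ hq₁)
        (S35.H70.redE hq.out hA E (q * (q * L)) (J3N L (q := q)) ((q : ℕ) : ↥(H45.cutOver A E)) hunr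
          (genBy_J3N L A hA E hunr) red₂ hq₂)
        (S35.H70.redE hq.out hA E (q * (q * L)) (J3N L (q := q)) ((q : ℕ) : ↥(H45.cutOver A E)) hunr
          (genBy_J3N L A hA E hunr) red₃ hq₃)
        ((S34.H70.chartMapE (A := A) E (q * (q * L)) (J3N L (q := q))).comp
          (chartMap (eU L (q := q)) (eU_algebraMap L A) (huint1 L A)))
        ((S34.H70.chartMapE (A := A) E (q * (q * L)) (J3N L (q := q))).comp
          (chartMap (eV L (q := q)) (eV_algebraMap L A) (hvint1 L A)))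
        ((S34.H70.chartMapE (A := A) E (q * (q * L)) (J3N L (q := q))).comp
          (chartMap (eW L (q := q)) (eW_algebraMap L A) (hwint1 L A)))
        (rbarB (Mod L hqL A hA) (Mod L hqL A hA).x_mem (Mod L hqL A hA).res1_x)
        (WR (FrM L A hA) q (hFrx L A hA)) q
        (algebraMap ↥(H45.cutOver A E) ↥(H40.chartB ↥(H45.cutOver A E) (H45.baseChangeE E (q * (q * L)) (J3N L (q := q))))
          ((q : ℕ) : ↥(H45.cutOver A E))) := by
  have key := threeComponents_J3K_real L hqL A hA Pi P0 PA PB PC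
  exact key.elim fun red₁ h => h.elim fun red₂ h => h.elim fun red₃ h =>
    ⟨red₁, red₂, red₃, h.2.2.2.1, h.2.2.2.2.1, h.2.2.2.2.2.1, h.1, h.2.1, h.2.2.1,
      h.2.2.2.2.2.2.1, h.2.2.2.2.2.2.2,
      hq2_cutOver hq.out hA E (q * (q * L)) (J3N L (q := q)) (genBy_J3N L A hA E hunr) hunr
        h.2.2.2.2.1 h.2.2.2.2.2.2.1,
      threeComponents_cutOver_left hq.out hA E (q * (q * L)) (J3N L (q := q))
        ((q : ℕ) : ↥(H45.cutOver A E)) hunr (genBy_J3N L A hA E hunr)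
        h.2.2.2.2.2.2.2 h.2.2.2.2.2.2.1 h.2.2.2.1 h.2.2.2.2.1 h.2.2.2.2.2.1⟩

/-- **(E2) in the (S1) spelling, chart `J₃⁻¹`.** -/
theorem threeComponentsS1_J3K_inv
    (hunr : maximalIdeal ↥(H45.cutOver A E) = Ideal.span {((q : ℕ) : ↥(H45.cutOver A E))}) :
    ∃ (red₁ red₂ red₃ : ↥(H40.chartB A₁ (J3N L (q := q))⁻¹) →+* ↥(integralClosure (Algebra.adjoin kA {(S18.H16.jK kA L)⁻¹}) FkL))
      (hq₁ : red₁ (algebraMap A₁ ↥(H40.chartB A₁ (J3N L (q := q))⁻¹) ((q : ℕ) : A₁)) = 0)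
      (hq₂ : red₂ (algebraMap A₁ ↥(H40.chartB A₁ (J3N L (q := q))⁻¹) ((q : ℕ) : A₁)) = 0)
      (hq₃ : red₃ (algebraMap A₁ ↥(H40.chartB A₁ (J3N L (q := q))⁻¹) ((q : ℕ) : A₁)) = 0),
      (∀ (b : ↥(H40.chartB A₁ (J3N L (q := q))⁻¹)) (h : (b : F2) ∈ S36.H55.QO1 L hqL A hA PB),
        inclk L A ((red₁ b : ↥(integralClosure (Algebra.adjoin kA {(S18.H16.jK kA L)⁻¹}) FkL)) : FkL) = S36.H55.Qres1 L hqL A hA PB ⟨b, h⟩) ∧
      (∀ (b : ↥(H40.chartB A₁ (J3N L (q := q))⁻¹)) (h : (b : F2) ∈ S36.H55.RO1 L hqL A hA PC),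
        inclk L A ((red₂ b : ↥(integralClosure (Algebra.adjoin kA {(S18.H16.jK kA L)⁻¹}) FkL)) : FkL) = S36.H55.Rres1 L hqL A hA PC ⟨b, h⟩) ∧
      (∀ (b : ↥(H40.chartB A₁ (J3N L (q := q))⁻¹)) (h : (b : F2) ∈ S36.H55.QO1 L hqL A hA PA),
        inclk L A ((red₃ b : ↥(integralClosure (Algebra.adjoin kA {(S18.H16.jK kA L)⁻¹}) FkL)) : FkL) = S36.H55.Qres1 L hqL A hA PA ⟨b, h⟩) ∧
      (∃ t : ↥(H40.chartB A₁ (J3N L (q := q))⁻¹), red₂ t ≠ 0 ∧
        t * algebraMap A₁ ↥(H40.chartB A₁ (J3N L (q := q))⁻¹) ((q : ℕ) : A₁) ∈ RingHom.ker red₂ ^ (q - 1)) ∧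
      ThreeComponents red₁ red₂ red₃
        (chartMap (eU L (q := q)) (eU_algebraMap L A) (huint2 L A))
        (chartMap (eV L (q := q)) (eV_algebraMap L A) (hvint2 L A))
        (chartMap (eW L (q := q)) (eW_algebraMap L A) (hwint2 L A))
        (rbarB (Mod L hqL A hA) (hc2 L hqL A hA) (hcw2 L hqL A hA))
        (WR (FrM L A hA) q (hFrx_inv L A hA)) q
        (algebraMap A₁ ↥(H40.chartB A₁ (J3N L (q := q))⁻¹) ((q : ℕ) : A₁)) ∧
      (∃ t : ↥(H40.chartB ↥(H45.cutOver A E) (H45.baseChangeE E (q * (q * L)) (J3N L (q := q))⁻¹)),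
        (S35.H70.redE hq.out hA E (q * (q * L)) (J3N L (q := q))⁻¹ ((q : ℕ) : ↥(H45.cutOver A E)) hunr
          (genBy_J3N_inv L A hA E hunr) red₂ hq₂) t ≠ 0 ∧
        t * algebraMap ↥(H45.cutOver A E) ↥(H40.chartB ↥(H45.cutOver A E) (H45.baseChangeE E (q * (q * L)) (J3N L (q := q))⁻¹))
            ((q : ℕ) : ↥(H45.cutOver A E)) ∈
          RingHom.ker (S35.H70.redE hq.out hA E (q * (q * L)) (J3N L (q := q))⁻¹ ((q : ℕ) : ↥(H45.cutOver A E)) hunr
          (genBy_J3N_inv L A hA E hunr) red₂ hq₂) ^ (q - 1)) ∧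
      ThreeComponents
        (S35.H70.redE hq.out hA E (q * (q * L)) (J3N L (q := q))⁻¹ ((q : ℕ) : ↥(H45.cutOver A E)) hunr
          (genBy_J3N_inv L A hA E hunr) red₁ hq₁)
        (S35.H70.redE hq.out hA E (q * (q * L)) (J3N L (q := q))⁻¹ ((q : ℕ) : ↥(H45.cutOver A E)) hunr
          (genBy_J3N_inv L A hA E hunr) red₂ hq₂)
        (S35.H70.redE hq.out hA E (q * (q * L)) (J3N L (q := q))⁻¹ ((q : ℕ) : ↥(H45.cutOver A E)) hunr
          (genBy_J3N_inv L A hA E hunr) red₃ hq₃)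
        ((S34.H70.chartMapE (A := A) E (q * (q * L)) (J3N L (q := q))⁻¹).comp
          (chartMap (eU L (q := q)) (eU_algebraMap L A) (huint2 L A)))
        ((S34.H70.chartMapE (A := A) E (q * (q * L)) (J3N L (q := q))⁻¹).comp
          (chartMap (eV L (q := q)) (eV_algebraMap L A) (hvint2 L A)))
        ((S34.H70.chartMapE (A := A) E (q * (q * L)) (J3N L (q := q))⁻¹).comp
          (chartMap (eW L (q := q)) (eW_algebraMap L A) (hwint2 L A)))
        (rbarB (Mod L hqL A hA) (hc2 L hqL A hA) (hcw2 L hqL A hA))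
        (WR (FrM L A hA) q (hFrx_inv L A hA)) q
        (algebraMap ↥(H45.cutOver A E) ↥(H40.chartB ↥(H45.cutOver A E) (H45.baseChangeE E (q * (q * L)) (J3N L (q := q))⁻¹))
          ((q : ℕ) : ↥(H45.cutOver A E))) := by
  have key := threeComponents_J3K_inv_real L hqL A hA Pi P0 PA PB PC
  exact key.elim fun red₁ h => h.elim fun red₂ h => h.elim fun red₃ h =>
    ⟨red₁, red₂, red₃, h.2.2.2.1, h.2.2.2.2.1, h.2.2.2.2.2.1, h.1, h.2.1, h.2.2.1,
      h.2.2.2.2.2.2.1, h.2.2.2.2.2.2.2,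
      hq2_cutOver hq.out hA E (q * (q * L)) (J3N L (q := q))⁻¹ (genBy_J3N_inv L A hA E hunr) hunr
        h.2.2.2.2.1 h.2.2.2.2.2.2.1,
      threeComponents_cutOver_left hq.out hA E (q * (q * L)) (J3N L (q := q))⁻¹
        ((q : ℕ) : ↥(H45.cutOver A E)) hunr (genBy_J3N_inv L A hA E hunr)
        h.2.2.2.2.2.2.2 h.2.2.2.2.2.2.1 h.2.2.2.1 h.2.2.2.2.1 h.2.2.2.2.2.1⟩

end S1

end Fermat.Agent.S36.H70
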