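/-
helper46 -- S36 (Carayol), row (r3)-inst (Ruling 9), **`HVab_real`**: `HVa ∧ HVb` of
`S36.H18.geoFn36E_of_rows` in the (S1) spelling of Ruling 8,

  `J := baseChangeE E0 (q (q L)) (J3N L)`,  `B' := chartB R (baseChangeE E0 (q L) (JN L))`,

from the E-level rows (binder vocabulary of `geoFn36E_of_rows`, reductions ANY ring homs extending
the `A₁`-level ones along `S34.H70.chartMapE`, e.g. `S35.H70.redE`) and the `A₁`-level place
clauses of helper83's `S36.H83.threeComponents_J3K_real` / helper55's `S34.H55.twoComponents_JK`.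

Discharged here on top of `S36.H46.HVab_of_chartBC`: the six `A₁`-level chart instances, the
generation hypothesis `GenBy` (helper70's `genBy_J3N`), the two `L₁`-level towers (helper16's
`towerValU_alpha_J3N` / `towerValU_beta_J3N`), the kernel-primality instances.
-/
import Mathlib
import Fermat.Agent.S36.H46_HVaGen
import Fermat.Agent.S36.H16_TowerValChartsJ3
import Fermat.Agent.S36.H70_ThreeComponentsS1

set_option autoImplicit false
set_option linter.unusedSectionVars false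
set_option linter.style.haveILetI false
set_option synthInstance.maxHeartbeats 400000
set_option maxHeartbeats 6400000

noncomputable section

namespace Fermat.Agent.S36.H46

open ModularCurve IntermediateField IsLocalRing Polynomial Fermat.Agent.S28
open Fermat.Agent.S18 Fermat.Agent.S18.H45 Fermat.Agent.S34 Fermat.Agent.S34.H47
  Fermat.Agent.S36.H18 Fermat.Agent.S36.H83 Fermat.Agent.S34.H83
  Fermat.Agent.S34.H92 Fermat.Agent.S34.H16 Fermat.Agent.S34.H55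

local notation "Qbar" => AlgebraicClosure ℚ

section Real

variable (L : ℕ) [NeZero L] {q : ℕ} [hq : Fact q.Prime] (hqL : ¬ q ∣ L)
  (A : ValuationSubring Qbar) (hA : A.LiesOverPrime q)
  (Pi : PlaceInf L hqL A hA) (P0 : PlaceZero L hqL A hA)
  (PA : S36.H55.PlaceA L hqL A hA P0) (PB : S36.H55.PlaceB L hqL A hA Pi)
  (PC : S36.H55.PlaceC L hqL A hA Pi)
  (E0 : IntermediateField (unrCyclo q) Qbar) [FiniteDimensional (unrCyclo q) E0]
  (Dm : ModularPolynomialData q)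
  (hDm : ∀ (k : Type) [Field k] (ζ : kˣ), IsPrimitiveRoot ζ q → RootsAt k q ζ Dm.Φ)

set_option quotPrecheck false
local notation "kA" => IsLocalRing.ResidueField A
local notation "A₁" => ↥(H45.A0 A q)
local notation "F₁L" => ↥(modularFunctionFieldFullC ↥(unrCyclo q) (q * L))
local notation "F₂L" => ↥(modularFunctionFieldFullC ↥(unrCyclo q) (q * (q * L)))
local notation "F₁" => ↥(modularFunctionFieldFullC ↥E0 (q * L))
local notation "F₂" => ↥(modularFunctionFieldFullC ↥E0 (q * (q * L)))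
local notation "FkL" => ↥(modularFunctionFieldFullC (IsLocalRing.ResidueField A) L)
local notation "Dk" => ↥(integralClosure (Algebra.adjoin kA {S18.H16.jK kA L})
  (modularFunctionFieldFullC (IsLocalRing.ResidueField A) L))
local notation "RR" => ↥(cutOver A E0)
local notation "J₂L" => S36.H83.J3N L (q := q)
local notation "J₁L" => S34.H55.JN L (ℓ := q)
local notation "J₂" => baseChangeE E0 (q * (q * L)) (S36.H83.J3N L (q := q))
local notation "J₁" => baseChangeE E0 (q * L) (S34.H55.JN L (ℓ := q))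
local notation "aα" => alphaK ↥E0 (q * L) (q * (q * L)) (dvd_mul_left (q * L) q)
local notation "bβ" => betaK ↥E0 q (q * L) (q * (q * L)) dvd_rfl
local notation "Nα" => normAlphaK ↥E0 (q * L) (q * (q * L)) (dvd_mul_left (q * L) q)
local notation "Nβ" => normBetaK ↥E0 q (q * L) (q * (q * L)) dvd_rfl
local notation "πq" => (((q : ℕ) : ↥(cutOver A E0)))

/-- helper85's elaboration shortcuts (#3632): local, reducible, equal to what the search finds. -/
local instance (priority := 10000) shortcutAlgE46d (N : ℕ) [NeZero N] :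
    Algebra ↥E0 ↥(modularFunctionFieldFullC ↥E0 N) :=
  SubalgebraClass.toAlgebra (modularFunctionFieldFullC ↥E0 N)

local instance (priority := 10000) shortcutAlg46d (N : ℕ) [NeZero N] :
    Algebra ↥(cutOver A E0) ↥(modularFunctionFieldFullC ↥E0 N) :=
  Algebra.ofSubsemiring (cutOver A E0)

local instance (priority := 10000) shortcutTower46d (N : ℕ) [NeZero N] :
    IsScalarTower ↥(cutOver A E0) ↥E0 ↥(modularFunctionFieldFullC ↥E0 N) :=
  IsScalarTower.of_algebraMap_eq (fun _ => rfl)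

include hDm in
/-- **(r3)-inst at the (S1) spelling: `HVa ∧ HVb` of `geoFn36E_of_rows`.** -/
theorem HVab_real
    [IsFractionRing ↥(H40.chartB RR J₂) F₂] [IsNoetherianRing ↥(H40.chartB RR J₂)]
    [IsIntegrallyClosed ↥(H40.chartB RR J₂)]
    [IsFractionRing ↥(H40.chartB RR J₁) F₁] [IsNoetherianRing ↥(H40.chartB RR J₁)]
    [IsIntegrallyClosed ↥(H40.chartB RR J₁)]
    (hunr : maximalIdeal RR = Ideal.span {πq})
    -- the `A₁`-level reductions with the place clauses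
    (r₁ r₂ r₃ : ↥(H40.chartB A₁ J₂L) →+* Dk)
    (c₁ : ∀ (b : ↥(H40.chartB A₁ J₂L)) (h : (b : F₂L) ∈ S36.H55.QO1 L hqL A hA PB),
      inclk L A ((r₁ b : Dk) : FkL) = S36.H55.Qres1 L hqL A hA PB ⟨b, h⟩)
    (c₂ : ∀ (b : ↥(H40.chartB A₁ J₂L)) (h : (b : F₂L) ∈ S36.H55.RO1 L hqL A hA PC),
      inclk L A ((r₂ b : Dk) : FkL) = S36.H55.Rres1 L hqL A hA PC ⟨b, h⟩)
    (c₃ : ∀ (b : ↥(H40.chartB A₁ J₂L)) (h : (b : F₂L) ∈ S36.H55.QO1 L hqL A hA PA),
      inclk L A ((r₃ b : Dk) : FkL) = S36.H55.Qres1 L hqL A hA PA ⟨b, h⟩)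
    (r₁' r₂' : ↥(H40.chartB A₁ J₁L) →+* Dk)
    (c₁' : ∀ (b : ↥(H40.chartB A₁ J₁L)) (h : (b : F₁L) ∈ PO1 L hqL A hA Pi),
      inclk L A ((r₁' b : Dk) : FkL) = Pres1 L hqL A hA Pi ⟨b, h⟩)
    (c₂' : ∀ (b : ↥(H40.chartB A₁ J₁L)) (h : (b : F₁L) ∈ PO1 L hqL A hA P0),
      inclk L A ((r₂' b : Dk) : FkL) = Pres1 L hqL A hA P0 ⟨b, h⟩)
    (k₁ : (RingHom.ker r₁).height = 1) (k₂ : (RingHom.ker r₂).height = 1)
    (k₃ : (RingHom.ker r₃).height = 1)
    (k₁' : (RingHom.ker r₁').height = 1) (k₂' : (RingHom.ker r₂').height = 1)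
    -- E-level rows (vocabulary of `geoFn36E_of_rows`)
    [IsDedekindDomain Dk] (hD : ¬ IsField Dk)
    {BM BM' : Type*} [CommRing BM] [CommRing BM']
    {red₁ red₂ red₃ : ↥(H40.chartB RR J₂) →+* Dk} {ιu ιv ιw : BM →+* ↥(H40.chartB RR J₂)}
    {rbar : BM →+* Dk} {W : Dk →+* Dk}
    (h₁ : ThreeComponents red₁ red₂ red₃ ιu ιv ιw rbar W q
      (algebraMap RR ↥(H40.chartB RR J₂) πq))
    (hq1 : red₁ (algebraMap RR ↥(H40.chartB RR J₂) πq) = 0)
    (hq2 : red₂ (algebraMap RR ↥(H40.chartB RR J₂) πq) = 0)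
    (hq3 : red₃ (algebraMap RR ↥(H40.chartB RR J₂) πq) = 0)
    (hqm : ∃ s : ↥(H40.chartB RR J₂), red₂ s ≠ 0 ∧
      s * algebraMap RR ↥(H40.chartB RR J₂) πq ∈ RingHom.ker red₂ ^ (q - 1))
    {red₁' red₂' : ↥(H40.chartB RR J₁) →+* Dk} {ι' V' : BM' →+* ↥(H40.chartB RR J₁)}
    {rbar' : BM' →+* Dk}
    (h' : TwoComponents red₁' red₂' ι' V' rbar' W q (algebraMap RR ↥(H40.chartB RR J₁) πq))
    (hq1' : red₁' (algebraMap RR ↥(H40.chartB RR J₁) πq) = 0)
    (hq2' : red₂' (algebraMap RR ↥(H40.chartB RR J₁) πq) = 0)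
    {α β : ↥(H40.chartB RR J₁) →+* ↥(H40.chartB RR J₂)}
    (hL : LevelMaps red₁ red₂ red₃ red₁' red₂' α β W) (hWinj : Function.Injective W)
    (hintα : α.IsIntegral) (hintβ : β.IsIntegral)
    (haα : ∀ x, algebraMap ↥(H40.chartB RR J₂) F₂ (α x) =
      aα (algebraMap ↥(H40.chartB RR J₁) F₁ x))
    (hbβ : ∀ x, algebraMap ↥(H40.chartB RR J₂) F₂ (β x) =
      bβ (algebraMap ↥(H40.chartB RR J₁) F₁ x))
    (hαR : ∀ c : RR, α (algebraMap RR ↥(H40.chartB RR J₁) c) =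
      algebraMap RR ↥(H40.chartB RR J₂) c)
    (hβR : ∀ c : RR, β (algebraMap RR ↥(H40.chartB RR J₁) c) =
      algebraMap RR ↥(H40.chartB RR J₂) c)
    (P₁ : Fin 3 → Ideal ↥(H40.chartB RR J₂))
    (e10 : P₁ 0 = RingHom.ker red₁) (e11 : P₁ 1 = RingHom.ker red₂)
    (e12 : P₁ 2 = RingHom.ker red₃)
    [hP₁ : ∀ i, (P₁ i).IsPrime] (hh₁ : ∀ i, (P₁ i).height = 1)
    (hinj : Function.Injective P₁)
    (P'F P'V : Ideal ↥(H40.chartB RR J₁)) [hP'F : P'F.IsPrime] [hP'V : P'V.IsPrime]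
    (hF : P'F.height = 1) (hV : P'V.height = 1)
    (hP'F1 : P'F = RingHom.ker red₁') (hP'V2 : P'V = RingHom.ker red₂')
    -- compatibility of the E-level reductions with the `A₁`-level ones (`S35.H70.redE_chartMapE`)
    (hc1 : ∀ b, red₁ (S34.H70.chartMapE (A := A) E0 (q * (q * L)) J₂L b) = r₁ b)
    (hc2 : ∀ b, red₂ (S34.H70.chartMapE (A := A) E0 (q * (q * L)) J₂L b) = r₂ b)
    (hc3 : ∀ b, red₃ (S34.H70.chartMapE (A := A) E0 (q * (q * L)) J₂L b) = r₃ b)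
    (hc1' : ∀ b, red₁' (S34.H70.chartMapE (A := A) E0 (q * L) J₁L b) = r₁' b)
    (hc2' : ∀ b, red₂' (S34.H70.chartMapE (A := A) E0 (q * L) J₁L b) = r₂' b) :
    TowerValU aα Nα q (H56.valuationSubringAt (K := F₂) (P₁ 0) (hh₁ 0))
      (H56.valuationSubringAt (K := F₂) (P₁ 1) (hh₁ 1))
      (H56.valuationSubringAt (K := F₂) (P₁ 2) (hh₁ 2))
      (H56.valuationSubringAt (K := F₁) P'F hF) (H56.valuationSubringAt (K := F₁) P'V hV) ∧
    TowerValU bβ Nβ q (H56.valuationSubringAt (K := F₂) (P₁ 2) (hh₁ 2))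
      (H56.valuationSubringAt (K := F₂) (P₁ 1) (hh₁ 1))
      (H56.valuationSubringAt (K := F₂) (P₁ 0) (hh₁ 0))
      (H56.valuationSubringAt (K := F₁) P'V hV) (H56.valuationSubringAt (K := F₁) P'F hF) := by
  haveI : NeZero q := ⟨hq.out.ne_zero⟩
  haveI := S36.H95.isNoetherianRing_chartB_J3K_A0 (A := A) hq.out hA (q * (q * L)) q
    (S36.H83.hq2_dvd L)
  haveI := S36.H95.isIntegrallyClosed_chartB_J3K_A0 (A := A) (ℓ := q) (q * (q * L)) q
    (S36.H83.hq2_dvd L)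
  haveI := S36.H95.isFractionRing_chartB_J3K_A0 (A := A) (ℓ := q) (q * (q * L)) q
    (S36.H83.hq2_dvd L)
  haveI := S34.H95.isNoetherianRing_chartB_JK_A0 (A := A) hq.out hA (q * L) q (Dvd.intro L rfl)
  haveI := S34.H95.isIntegrallyClosed_chartB_JK_A0 (A := A) (ℓ := q) (q * L) q
    (Dvd.intro L rfl)
  haveI := S34.H95.isFractionRing_chartB_JK_A0 (A := A) (ℓ := q) (q * L) q (Dvd.intro L rfl)
  haveI := RingHom.ker_isPrime r₁
  haveI := RingHom.ker_isPrime r₂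
  haveI := RingHom.ker_isPrime r₃
  haveI := RingHom.ker_isPrime r₁'
  haveI := RingHom.ker_isPrime r₂'
  have HLa := S36.H16.towerValU_alpha_J3N L hqL A hA Pi P0 Dm hDm PA PB PC r₁ r₂ r₃ c₁ c₂ c₃
    r₁' r₂' c₁' c₂' k₁ k₂ k₃ k₁' k₂'
  have HLb := S36.H16.towerValU_beta_J3N L hqL A hA Pi P0 Dm hDm PA PB PC r₁ r₂ r₃ c₁ c₂ c₃
    r₁' r₂' c₁' c₂' k₁ k₂ k₃ k₁' k₂'
  have g₂ := S36.H70.genBy_J3N L A hA E0 hunr
  have key := HVab_of_chartBC L q hq.out hA E0 J₂L J₂ rfl J₁L J₁ rfl hunr g₂ hD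
    h₁ hq1 hq2 hq3 hqm h' hq1' hq2' hL hWinj hintα hintβ haα hbβ hαR hβR
    P₁ e10 e11 e12 hh₁ hinj P'F P'V hF hV hP'F1 hP'V2
    (r₁ := r₁) (r₂ := r₂) (r₃ := r₃)
    (fun b => by rw [S35.H70.chartBC_eq_chartMapE]; exact hc1 b)
    (fun b => by rw [S35.H70.chartBC_eq_chartMapE]; exact hc2 b)
    (fun b => by rw [S35.H70.chartBC_eq_chartMapE]; exact hc3 b)
    (r₁' := r₁') (r₂' := r₂')
    (fun b => by rw [S35.H70.chartBC_eq_chartMapE]; exact hc1' b)
    (fun b => by rw [S35.H70.chartBC_eq_chartMapE]; exact hc2' b)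
    k₁ k₂ k₃ k₁' k₂' HLa HLb
  exact key

end Real

end Fermat.Agent.S36.H46
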