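import Mathlib
import Fermat.Agent.CA.H92_BigBall
import Fermat.Agent.S34.H55_L0Base

/-!
# S36 (M1)(d) (helper92): Gauss fraction form for the `∞`-place `Pi`

`Pi : S34.H55.PlaceInf M hℓM A hA` is the place of `F_N = fullC L₁ (ℓ * M)` over the level-`M`
Gauss ring whose reduction is the coefficientwise reduction of `t`-expansions.  We make this
literal: with `G' := CA.H92.bigBall A₁ (resA0 A ℓ) ⊆ L₁((t))` (fractions `a / b` of `A₁`-integral
expansions with `b̄ ≠ 0`),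

* `coe_mem_bigBall_of_mem_PO1` : every `x ∈ PO1 Pi` has `(x : L₁((t))) ∈ G'` and
  `bigResFun x = Pres1 Pi x`;
* `mem_PO1_inf_iff` : `x ∈ PO1 Pi ↔ (x : L₁((t))) ∈ G'`;
* `mem_PO1_inf_of_up`, `isUnit`-type corollaries for integral expansions.
-/

set_option autoImplicit false
set_option linter.unusedSectionVars false
set_option linter.style.haveILetI false
set_option synthInstance.maxHeartbeats 400000
set_option maxHeartbeats 1600000

noncomputable section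

namespace Fermat.Agent.S36.H92

open ModularCurve Polynomial IsLocalRing IntermediateField
open Fermat.Agent.S18 Fermat.Agent.S18.H92 Fermat.Agent.S34 Fermat.Agent.S34.H92
  Fermat.Agent.S34.H16 Fermat.Agent.S34.H55 Fermat.Agent.CA.H92 Fermat.Agent.CA.H99

local notation "Qbar" => AlgebraicClosure ℚ

variable (M : ℕ) [NeZero M] {ℓ : ℕ} [hℓ : Fact ℓ.Prime] (hℓM : ¬ ℓ ∣ M)
  (A : ValuationSubring Qbar) (hA : A.LiesOverPrime ℓ)

local notation "kA" => IsLocalRing.ResidueField A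
local notation "A₁" => H45.A0 A ℓ
local notation "L₁" => H45.unrCyclo ℓ
local notation "FM" => modularFunctionFieldFullC (H45.unrCyclo ℓ) M
local notation "FN" => modularFunctionFieldFullC (H45.unrCyclo ℓ) (ℓ * M)
local notation "V" => VM M hℓM A hA
local notation "G'" => bigBall (H45.A0 A ℓ) (H45.resA0 A ℓ)

/-- the coercion `F_N → L₁((t))` as a ring hom -/
def coeN : FN →+* LaurentSeries L₁ := (IntermediateField.val FN).toRingHom

theorem coeN_apply (f : FN) : coeN M (ℓ := ℓ) f = (f : LaurentSeries L₁) := rfl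

/-- elements of the level-`M` Gauss ring lie in the big ball, with residue `resM`. -/
theorem coe_VM_mem_bigBall (a : V) :
    (((a : V) : FM) : LaurentSeries L₁) ∈ G' ∧
      bigResFun (H45.A0 A ℓ) (H45.resA0 A ℓ) (((a : V) : FM) : LaurentSeries L₁) =
        resM M hℓM A hA a := by
  have ha : (((a : V) : FM) : LaurentSeries L₁) ∈ (twoGenA0 M hℓM A hA).ball := a.2
  exact ⟨ball_le_bigBall _ ha, bigResFun_eq_resFun _ ha⟩

/-- the `t`-expansion of `j_N` is integral. -/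
theorem coe_jNK_eq_up :
    ((S18.H16.jNK L₁ (ℓ * M) : FN) : LaurentSeries L₁) =
      up (H45.A0 A ℓ) (qExpand (H45.A0 A ℓ) (ℓ * M) (jqModC (H45.A0 A ℓ))) := by
  rw [S18.H16.coe_jNK]
  show _ = coeffMap (A₁).subtype _
  rw [coeffMap_qExpand, coeffMap_jqModC]

include hA in
/-- the residue of `j_N` at `Pi` is the coefficientwise reduction of its `t`-expansion. -/
theorem resM_jMV_pow_eq :
    resM M hℓM A hA (jMV M hℓM A hA) ^ ℓ =
      coeffMap (H45.resA0 A ℓ) (qExpand (H45.A0 A ℓ) (ℓ * M) (jqModC (H45.A0 A ℓ))) := by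
  haveI : CharP kA ℓ := Fermat.Agent.S18.H92.charP_residueField A hA
  rw [coeffMap_qExpand, coeffMap_jqModC, resM_jMV, ← qExpand_qExpand]
  exact (S34.H36.qExpand_jd_char kA ℓ M).symm

section Place

attribute [local instance] Fermat.Agent.S34.H16.algebraVMFN

include hA in
/-- **Gauss fraction form for `Pi`**: the `t`-expansion of every element of the place ring is a
fraction of `A₁`-integral expansions with unit denominator, and the residue map is the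
coefficientwise reduction. -/
theorem coe_mem_bigBall_of_mem_PO1 (Pi : PlaceInf M hℓM A hA) (x : FN)
    (hx : x ∈ PO1 M hℓM A hA Pi) :
    ((x : FN) : LaurentSeries L₁) ∈ G' ∧
      bigResFun (H45.A0 A ℓ) (H45.resA0 A ℓ) ((x : FN) : LaurentSeries L₁) =
        Pres1 M hℓM A hA Pi ⟨x, hx⟩ := by
  letI := algebraVMFN M hℓM A hA
  obtain ⟨a, s, hs, h⟩ := PlaceOver.exists_repr Pi x hx
  -- the coefficient map `V → L₁((t))`
  set φ : ↥V →+* LaurentSeries L₁ := (coeN M (ℓ := ℓ)).comp (algebraMap ↥V ↥FN) with hφdef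
  have hφa : ∀ c : ↥V, φ c = (((c : V) : FM) : LaurentSeries L₁) := fun c => by
    show ((iotaMN M (ℓ := ℓ) ((c : V) : FM) : FN) : LaurentSeries L₁) = _
    exact coe_iotaMN M _
  have hφ : ∀ c : ↥V, φ c ∈ G' := fun c => by
    rw [hφa]; exact (coe_VM_mem_bigBall M hℓM A hA c).1
  have hι : ∀ c : ↥V, bigResFun (H45.A0 A ℓ) (H45.resA0 A ℓ) (φ c) = resM M hℓM A hA c :=
    fun c => by rw [hφa]; exact (coe_VM_mem_bigBall M hℓM A hA c).2
  set θ : LaurentSeries L₁ := ((S18.H16.jNK L₁ (ℓ * M) : FN) : LaurentSeries L₁) with hθdef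
  have hθ : θ ∈ G' := by
    rw [hθdef, coe_jNK_eq_up M A]; exact up_mem_bigBall _
  have hθres : bigResFun (H45.A0 A ℓ) (H45.resA0 A ℓ) θ =
      resM M hℓM A hA (jMV M hℓM A hA) ^ ℓ := by
    rw [hθdef, coe_jNK_eq_up M A, bigResFun_up, resM_jMV_pow_eq M hℓM A hA]
  -- push `aeval θ_N p` to `L₁((t))`
  have hev : ∀ p : (↥V)[X], coeN M (ℓ := ℓ) (aeval (S18.H16.jNK L₁ (ℓ * M)) p) =
      p.eval₂ φ θ := fun p => by
    rw [aeval_def, Polynomial.hom_eval₂]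
    rfl
  have hsmem : coeN M (ℓ := ℓ) (aeval (S18.H16.jNK L₁ (ℓ * M)) s) ∈ G' := by
    rw [hev]; exact aeval_mem_bigBall φ hφ hθ s
  have hamem : coeN M (ℓ := ℓ) (aeval (S18.H16.jNK L₁ (ℓ * M)) a) ∈ G' := by
    rw [hev]; exact aeval_mem_bigBall φ hφ hθ a
  have hsres : bigResFun (H45.A0 A ℓ) (H45.resA0 A ℓ)
      (coeN M (ℓ := ℓ) (aeval (S18.H16.jNK L₁ (ℓ * M)) s)) =
      s.eval₂ (resM M hℓM A hA) (resM M hℓM A hA (jMV M hℓM A hA) ^ ℓ) := by
    rw [hev, bigResFun_eval₂ φ hφ (resM M hℓM A hA) hι hθ, hθres]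
  have hares : bigResFun (H45.A0 A ℓ) (H45.resA0 A ℓ)
      (coeN M (ℓ := ℓ) (aeval (S18.H16.jNK L₁ (ℓ * M)) a)) =
      a.eval₂ (resM M hℓM A hA) (resM M hℓM A hA (jMV M hℓM A hA) ^ ℓ) := by
    rw [hev, bigResFun_eval₂ φ hφ (resM M hℓM A hA) hι hθ, hθres]
  have hmul : coeN M (ℓ := ℓ) x * coeN M (ℓ := ℓ) (aeval (S18.H16.jNK L₁ (ℓ * M)) s) =
      coeN M (ℓ := ℓ) (aeval (S18.H16.jNK L₁ (ℓ * M)) a) := by
    rw [← map_mul, h]
  have hs0 : bigResFun (H45.A0 A ℓ) (H45.resA0 A ℓ)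
      (coeN M (ℓ := ℓ) (aeval (S18.H16.jNK L₁ (ℓ * M)) s)) ≠ 0 := by
    rw [hsres]; exact hs
  obtain ⟨hxmem, hxres⟩ := mem_bigBall_of_mul_eq hsmem hamem hs0 hmul
  refine ⟨hxmem, ?_⟩
  -- the residue at `Pi`, computed from the same representation
  have hsO : aeval (S18.H16.jNK L₁ (ℓ * M)) s ∈ Pi.O1 := Pi.aeval_mem s
  have haO : aeval (S18.H16.jNK L₁ (ℓ * M)) a ∈ Pi.O1 := Pi.aeval_mem a
  have hrs : Pi.res1 ⟨_, hsO⟩ =
      s.eval₂ (resM M hℓM A hA) (resM M hℓM A hA (jMV M hℓM A hA) ^ ℓ) := Pi.res1_aeval s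
  have hra : Pi.res1 ⟨_, haO⟩ =
      a.eval₂ (resM M hℓM A hA) (resM M hℓM A hA (jMV M hℓM A hA) ^ ℓ) := Pi.res1_aeval a
  have hx' : x ∈ Pi.O1 := hx
  have hprod : Pi.res1 ⟨x, hx'⟩ * Pi.res1 ⟨_, hsO⟩ = Pi.res1 ⟨_, haO⟩ := by
    rw [← map_mul]
    congr 1
    exact Subtype.ext h
  have hgoal : Pres1 M hℓM A hA Pi ⟨x, hx⟩ = Pi.res1 ⟨x, hx'⟩ := rfl
  rw [hgoal]
  have hxres' : bigResFun (H45.A0 A ℓ) (H45.resA0 A ℓ) ((x : FN) : LaurentSeries L₁) =
      bigResFun (H45.A0 A ℓ) (H45.resA0 A ℓ)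
        (coeN M (ℓ := ℓ) (aeval (S18.H16.jNK L₁ (ℓ * M)) a)) /
      bigResFun (H45.A0 A ℓ) (H45.resA0 A ℓ)
        (coeN M (ℓ := ℓ) (aeval (S18.H16.jNK L₁ (ℓ * M)) s)) := hxres
  rw [hxres', hares, hsres, ← hra, ← hrs, ← hprod]
  have hne : Pi.res1 ⟨_, hsO⟩ ≠ 0 := by rw [hrs]; exact hs
  exact (mul_div_cancel_right₀ _ hne)

include hA in
/-- the converse: an element of `F_N` whose `t`-expansion lies in the big ball lies in the place
ring of `Pi`. -/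
theorem mem_PO1_of_coe_mem_bigBall (Pi : PlaceInf M hℓM A hA) (x : FN)
    (hx : ((x : FN) : LaurentSeries L₁) ∈ G') : x ∈ PO1 M hℓM A hA Pi := by
  rcases Pmem_or_inv_mem M hℓM A hA Pi x with h | h
  · exact h
  · by_cases hx0 : x = 0
    · rw [hx0]; exact (PO1 M hℓM A hA Pi).zero_mem
    by_cases hres : Pres1 M hℓM A hA Pi ⟨x⁻¹, h⟩ = 0
    · exfalso
      obtain ⟨hinv, hinvres⟩ := coe_mem_bigBall_of_mem_PO1 M hℓM A hA Pi x⁻¹ h
      rw [hres] at hinvres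
      have hcoe0 : ((x : FN) : LaurentSeries L₁) ≠ 0 := by
        intro h0
        exact hx0 (Subtype.ext h0)
      have hmul : ((x : FN) : LaurentSeries L₁) * ((x⁻¹ : FN) : LaurentSeries L₁) = 1 := by
        rw [← coeN_apply, ← coeN_apply, ← map_mul, mul_inv_cancel₀ hx0, map_one]
      have h1 := bigResFun_mul hx hinv
      rw [hmul, bigResFun_one, hinvres, mul_zero] at h1
      exact one_ne_zero h1
    · have := Pinv_mem M hℓM A hA Pi x⁻¹ h hres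
      rwa [inv_inv] at this

include hA in
/-- **`PO1 Pi` is the trace of the big ball on `F_N`.** -/
theorem mem_PO1_inf_iff (Pi : PlaceInf M hℓM A hA) (x : FN) :
    x ∈ PO1 M hℓM A hA Pi ↔ ((x : FN) : LaurentSeries L₁) ∈ G' :=
  ⟨fun h => (coe_mem_bigBall_of_mem_PO1 M hℓM A hA Pi x h).1,
    mem_PO1_of_coe_mem_bigBall M hℓM A hA Pi x⟩

include hA in
/-- the residue at `Pi` is the coefficientwise reduction. -/
theorem Pres1_inf_eq (Pi : PlaceInf M hℓM A hA) (x : PO1 M hℓM A hA Pi) :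
    Pres1 M hℓM A hA Pi x =
      bigResFun (H45.A0 A ℓ) (H45.resA0 A ℓ) (((x : FN)) : LaurentSeries L₁) :=
  (coe_mem_bigBall_of_mem_PO1 M hℓM A hA Pi x.1 x.2).2.symm

include hA in
/-- an element of `F_N` with an `A₁`-integral `t`-expansion lies in `PO1 Pi` and reduces
coefficientwise (the `q`-expansion principle at `Pi`). -/
theorem mem_PO1_inf_of_up (Pi : PlaceInf M hℓM A hA) (x : FN) (z : LaurentSeries (H45.A0 A ℓ))
    (h : ((x : FN) : LaurentSeries L₁) = up (H45.A0 A ℓ) z) :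
    ∃ hx : x ∈ PO1 M hℓM A hA Pi,
      Pres1 M hℓM A hA Pi ⟨x, hx⟩ = coeffMap (H45.resA0 A ℓ) z := by
  have hmem : ((x : FN) : LaurentSeries L₁) ∈ G' := by rw [h]; exact up_mem_bigBall z
  have hx := mem_PO1_of_coe_mem_bigBall M hℓM A hA Pi x hmem
  refine ⟨hx, ?_⟩
  rw [Pres1_inf_eq M hℓM A hA Pi ⟨x, hx⟩]
  show bigResFun _ _ ((x : FN) : LaurentSeries L₁) = _
  rw [h, bigResFun_up]

include hA in
/-- units: `x ∈ F_N` whose `t`-expansion is a unit of the big ball is a unit of `PO1 Pi`. -/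
theorem mem_and_inv_mem_PO1_inf (Pi : PlaceInf M hℓM A hA) (x : FN)
    (hx : ((x : FN) : LaurentSeries L₁) ∈ G')
    (hx0 : bigResFun (H45.A0 A ℓ) (H45.resA0 A ℓ) ((x : FN) : LaurentSeries L₁) ≠ 0) :
    x ∈ PO1 M hℓM A hA Pi ∧ x⁻¹ ∈ PO1 M hℓM A hA Pi := by
  have h1 := mem_PO1_of_coe_mem_bigBall M hℓM A hA Pi x hx
  refine ⟨h1, Pinv_mem M hℓM A hA Pi x h1 ?_⟩
  rw [Pres1_inf_eq M hℓM A hA Pi ⟨x, h1⟩]
  exact hx0

include hA in
/-- **valuation one at `Pi`** (shape of the CLAIM `v_Pi(Φ_X(w, v)) = 1`): if the `t`-expansion of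
`y ∈ F_N` is `ℓ * g` with `g` a unit of the big ball, then `y = ℓ * u` with `u` a unit of
`PO1 Pi`, and the residue of `u` is the reduction of `g`. -/
theorem exists_unit_mul_of_coe_eq (Pi : PlaceInf M hℓM A hA) (y : FN) (g : LaurentSeries L₁)
    (hg : g ∈ G') (hg0 : bigResFun (H45.A0 A ℓ) (H45.resA0 A ℓ) g ≠ 0)
    (hy : ((y : FN) : LaurentSeries L₁) = ((ℓ : ℕ) : LaurentSeries L₁) * g) :
    ∃ u : FN, ∃ hu : u ∈ PO1 M hℓM A hA Pi, u⁻¹ ∈ PO1 M hℓM A hA Pi ∧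
      y = ((ℓ : ℕ) : FN) * u ∧
      Pres1 M hℓM A hA Pi ⟨u, hu⟩ = bigResFun (H45.A0 A ℓ) (H45.resA0 A ℓ) g := by
  have hℓ0 : ((ℓ : ℕ) : FN) ≠ 0 := by
    have : ((ℓ : ℕ) : L₁) ≠ 0 := Nat.cast_ne_zero.2 hℓ.out.ne_zero
    intro h0
    apply this
    have h1 : algebraMap L₁ FN ((ℓ : ℕ) : L₁) = 0 := by rw [map_natCast]; exact h0
    exact (map_eq_zero _).mp h1
  have hcoeℓ : ((((ℓ : ℕ) : FN)) : LaurentSeries L₁) = ((ℓ : ℕ) : LaurentSeries L₁) := by
    rw [← coeN_apply, map_natCast]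
  have hℓL : ((ℓ : ℕ) : LaurentSeries L₁) ≠ 0 := by
    rw [← hcoeℓ]
    intro h0
    exact hℓ0 (Subtype.ext h0)
  set u : FN := y / ((ℓ : ℕ) : FN) with hu
  have hcoeu : ((u : FN) : LaurentSeries L₁) = g := by
    rw [hu, ← coeN_apply, map_div₀, coeN_apply, coeN_apply, hcoeℓ, hy, mul_div_cancel_left₀ _ hℓL]
  have hum : ((u : FN) : LaurentSeries L₁) ∈ G' := by rw [hcoeu]; exact hg
  have hu0 : bigResFun (H45.A0 A ℓ) (H45.resA0 A ℓ) ((u : FN) : LaurentSeries L₁) ≠ 0 := by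
    rw [hcoeu]; exact hg0
  obtain ⟨h1, h2⟩ := mem_and_inv_mem_PO1_inf M hℓM A hA Pi u hum hu0
  refine ⟨u, h1, h2, ?_, ?_⟩
  · rw [hu, mul_div_cancel₀ _ hℓ0]
  · rw [Pres1_inf_eq M hℓM A hA Pi ⟨u, h1⟩]
    show bigResFun _ _ ((u : FN) : LaurentSeries L₁) = _
    rw [hcoeu]

end Place

end Fermat.Agent.S36.H92
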