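/-
S36 / (M1)(e), place `B` (helper55): `PB` is the GAUSS place of `F₂ = FullC L₁ (q * (q * L))`.

With `G' := CA.H92.bigBall A₁ (resA0 A q) ⊆ L₁((t))`:
* `coe_mem_bigBall_of_mem_PB` : every `x ∈ QO1 PB` has `(x : L₁((t))) ∈ G'` and
  `bigResFun x = Qres1 PB x`;
* `mem_PB_iff` : `x ∈ QO1 PB ↔ (x : L₁((t))) ∈ G'`;
* `exists_mem_PB_of_up` : the `t`-expansion principle at `PB`;
* `resB_eU` : `res_B (y(t^(q²))) = ȳ(t^(q²))` for `y` in the level-`L` Gauss ring;
* `resB_V2` : `res_B ∘ V₂ = (t ↦ t^q) ∘ res_{Pi}` on all of `PO1 Pi`.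
-/
import Fermat.Agent.S36.H55_L0ThreeBase
import Fermat.Agent.CA.H55_BigBallPlace
import Fermat.Agent.CA.H92_BigBallDeriv
import Fermat.Agent.S36.H92_GaussPi

set_option autoImplicit false
set_option linter.unusedSectionVars false
set_option linter.style.haveILetI false
set_option synthInstance.maxHeartbeats 400000

noncomputable section

namespace Fermat.Agent.S36.H55

open ModularCurve Polynomial IsLocalRing
open Fermat.Agent.S18 Fermat.Agent.S18.H92 Fermat.Agent.S34.H92 Fermat.Agent.S34.H16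
  Fermat.Agent.S34.H55 Fermat.Agent.CA.H92

local notation "Qbar" => AlgebraicClosure ℚ

section GaussB

variable (L : ℕ) [NeZero L] {q : ℕ} [hq : Fact q.Prime] (hqL : ¬ q ∣ L)
  (A : ValuationSubring Qbar) (hA : A.LiesOverPrime q)

local notation "kA" => IsLocalRing.ResidueField A
local notation "A₁" => H45.A0 A q
local notation "L₁" => H45.unrCyclo q
local notation "F0" => modularFunctionFieldFullC (H45.unrCyclo q) L
local notation "F1" => modularFunctionFieldFullC (H45.unrCyclo q) (q * L)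
local notation "F2" => modularFunctionFieldFullC (H45.unrCyclo q) (q * (q * L))
local notation "G'" => bigBall (H45.A0 A q) (H45.resA0 A q)

/-- the coercion `F₂ → L₁((t))` as a ring hom. -/
def coe2 : F2 →+* LaurentSeries L₁ := (IntermediateField.val F2).toRingHom

theorem coe2_apply (f : F2) : coe2 L (q := q) f = (f : LaurentSeries L₁) := rfl

include hA in
/-- `((x^q)^q` is the coefficientwise reduction of the expansion of `θ₂`. -/
theorem xbar_pow_pow_eq :
    (xbar L hqL A hA ^ q) ^ q =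
      coeffMap (H45.resA0 A q) (qExpand (H45.A0 A q) (q * (q * L)) (jqModC (H45.A0 A q))) := by
  haveI : CharP kA q := Fermat.Agent.S18.H92.charP_residueField A hA
  rw [coeffMap_qExpand, coeffMap_jqModC, xbar, resM_jMV,
    ← S34.H36.qExpand_jd_char kA q L, qExpand_qExpand,
    ← S34.H36.qExpand_jd_char kA q (q * L), qExpand_qExpand]

section Place

attribute [local instance] algPO1F2

variable (Pi : PlaceInf L hqL A hA) (PB : PlaceB L hqL A hA Pi)

include hA in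
theorem hO_B (a : ↥(PO1 L hqL A hA Pi)) :
    coe2 L (q := q) (algebraMap ↥(PO1 L hqL A hA Pi) F2 a) ∈ G' ∧
      bigResFun (H45.A0 A q) (H45.resA0 A q)
        (coe2 L (q := q) (algebraMap ↥(PO1 L hqL A hA Pi) F2 a)) = Pres1 L hqL A hA Pi a := by
  have e : coe2 L (q := q) (algebraMap ↥(PO1 L hqL A hA Pi) F2 a) =
      ((a : F1) : LaurentSeries L₁) := coe_iota2 L a.1
  rw [e]
  exact S36.H92.coe_mem_bigBall_of_mem_PO1 L hqL A hA Pi a.1 a.2

include hA in
theorem hθ_B :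
    coe2 L (q := q) (theta2 L (q := q)) ∈ G' ∧
      bigResFun (H45.A0 A q) (H45.resA0 A q) (coe2 L (q := q) (theta2 L (q := q))) =
        (xbar L hqL A hA ^ q) ^ q := by
  have e : coe2 L (q := q) (theta2 L (q := q)) =
      up (H45.A0 A q) (qExpand (H45.A0 A q) (q * (q * L)) (jqModC (H45.A0 A q))) :=
    S36.H92.coe_jNK_eq_up (q * L) A
  rw [e]
  exact ⟨up_mem_bigBall _, by rw [bigResFun_up, xbar_pow_pow_eq L hqL A hA]⟩

include hA in
/-- **Gauss fraction form for `PB`.** -/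
theorem coe_mem_bigBall_of_mem_PB (x : F2) (hx : x ∈ QO1 L hqL A hA PB) :
    ((x : F2) : LaurentSeries L₁) ∈ G' ∧
      bigResFun (H45.A0 A q) (H45.resA0 A q) ((x : F2) : LaurentSeries L₁) =
        Qres1 L hqL A hA PB ⟨x, hx⟩ :=
  CA.H55.coe_mem_bigBall_of_mem_place (coe2 L (q := q)) PB (hO_B L hqL A hA Pi)
    (hθ_B L hqL A hA) x hx

include hA in
/-- the converse. -/
theorem mem_PB_of_coe_mem_bigBall (x : F2) (hx : ((x : F2) : LaurentSeries L₁) ∈ G') :
    x ∈ QO1 L hqL A hA PB :=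
  CA.H55.mem_place_of_coe_mem_bigBall (coe2 L (q := q)) PB (hO_B L hqL A hA Pi)
    (hθ_B L hqL A hA) x hx

include hA in
/-- **`PB` is the Gauss place of `F₂`.** -/
theorem mem_PB_iff (x : F2) :
    x ∈ QO1 L hqL A hA PB ↔ ((x : F2) : LaurentSeries L₁) ∈ G' :=
  ⟨fun h => (coe_mem_bigBall_of_mem_PB L hqL A hA Pi PB x h).1,
    mem_PB_of_coe_mem_bigBall L hqL A hA Pi PB x⟩

include hA in
/-- the `t`-expansion principle at `PB`. -/
theorem exists_mem_PB_of_up (x : F2) (z : LaurentSeries (H45.A0 A q))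
    (hz : ((x : F2) : LaurentSeries L₁) = up (H45.A0 A q) z) :
    ∃ hx : x ∈ QO1 L hqL A hA PB,
      Qres1 L hqL A hA PB ⟨x, hx⟩ = coeffMap (H45.resA0 A q) z :=
  CA.H55.exists_mem_place_of_up (coe2 L (q := q)) PB (hO_B L hqL A hA Pi)
    (hθ_B L hqL A hA) x z hz

include hA in
/-- **`res_B ∘ V₂ = (t ↦ t^q) ∘ res_{Pi}`** on all of `PO1 Pi`. -/
theorem resB_V2 (x : F1) (hx : x ∈ PO1 L hqL A hA Pi) :
    ∃ h : V2 L (q := q) x ∈ QO1 L hqL A hA PB,
      Qres1 L hqL A hA PB ⟨_, h⟩ = qExpand kA q (Pres1 L hqL A hA Pi ⟨x, hx⟩) := by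
  obtain ⟨h1, h2⟩ := S36.H92.coe_mem_bigBall_of_mem_PO1 L hqL A hA Pi x hx
  have hmem : ((V2 L (q := q) x : F2) : LaurentSeries L₁) ∈ G' := by
    rw [coe_V2]; exact qExpand_mem_bigBall q h1
  have h := mem_PB_of_coe_mem_bigBall L hqL A hA Pi PB _ hmem
  refine ⟨h, ?_⟩
  rw [← (coe_mem_bigBall_of_mem_PB L hqL A hA Pi PB _ h).2, coe_V2, bigResFun_qExpand q h1, h2]

include hA in
/-- **`res_B (y(t^(q²))) = ȳ(t^(q²))`.** -/
theorem resB_eU (y : F0) (hy : y ∈ (Mod L hqL A hA).O1) :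
    ∃ h : eU L (q := q) y ∈ QO1 L hqL A hA PB,
      Qres1 L hqL A hA PB ⟨_, h⟩ =
        inclk L A (FrM L A hA (FrM L A hA ((Mod L hqL A hA).res1 ⟨y, hy⟩))) := by
  obtain ⟨h1, h2⟩ := HiV L hqL A hA Pi y hy
  obtain ⟨h3, h4⟩ := resB_V2 L hqL A hA Pi PB _ h1
  refine ⟨h3, h4.trans ?_⟩
  rw [h2, inclk_FrM L A hA, inclk_FrM L A hA, inclk_FrM L A hA]

end Place

end GaussB

end Fermat.Agent.S36.H55
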