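/-
S36 / (M1)(e), places `A` and `C` (helper55): transport along `e_u = V₂ ∘ V` (`y(t) ↦ y(t^(q²))`).

For a "place-like" subring `S ⊆ F₂ = FullC L₁ (q * (q * L))` with reduction `rS : S → kA((t))`:
* `eU_transport_gen` : if `rS` is the standard reduction on constants, `rS (j(t^(q²))) = j̄` and
  `rS θ₂ = j̄_L`, then `rS (y(t^(q²))) = ȳ` for every `y` in the level-`L` Gauss ring
  (`S34.H6.transport_of_gens` with the generators `const, j, j_L`);
* `res_jqq_zero` : `rS (j(t^q)) = j̄(t^q)` and `rS θ₂ = j̄_L` force `rS (j(t^(q²))) = j̄`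
  (`S34.H6.res_jq_zero`, relations `Φ_q(j_q, j_{q²}) = 0`, `Φ_L(j_{q²}, j_{q²L}) = 0`);
* `resA_eU`, `resC_eU` : the instances at the places `A` and `C`.
-/
import Fermat.Agent.S36.H55_L0ThreeBase
import Fermat.Agent.S34.H6_L0HV

set_option autoImplicit false
set_option linter.unusedSectionVars false
set_option linter.style.haveILetI false
set_option synthInstance.maxHeartbeats 400000

noncomputable section

namespace Fermat.Agent.S36.H55

open ModularCurve Polynomial IsLocalRing Fermat.Agent.S28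
open Fermat.Agent.S18 Fermat.Agent.S34.H92 Fermat.Agent.S34.H16 Fermat.Agent.S34.H55

local notation "Qbar" => AlgebraicClosure ℚ

section Transport

variable (L : ℕ) [NeZero L] {q : ℕ} [hq : Fact q.Prime] (hqL : ¬ q ∣ L)
  (A : ValuationSubring Qbar) (hA : A.LiesOverPrime q)

local notation "kA" => IsLocalRing.ResidueField A
local notation "A₁" => H45.A0 A q
local notation "L₁" => H45.unrCyclo q
local notation "F0" => modularFunctionFieldFullC (H45.unrCyclo q) L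
local notation "F1" => modularFunctionFieldFullC (H45.unrCyclo q) (q * L)
local notation "F2" => modularFunctionFieldFullC (H45.unrCyclo q) (q * (q * L))
local notation "Fk0" => modularFunctionFieldFullC (IsLocalRing.ResidueField A) L

/-! ### The images of the generators under `e_v`, `e_u` -/

theorem dvd_level2_q : q ∣ q * (q * L) := Dvd.intro _ rfl

theorem dvd_level2_qq : q * q ∣ q * (q * L) := ⟨L, by ring⟩

theorem eV_jK : eV L (q := q) (S18.H16.jK L₁ L) = S18.H99.jdK L₁ (q * (q * L)) q (dvd_level2_q L) := by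
  apply Subtype.ext
  rw [coe_eV, S18.H16.coe_jK, S18.H99.coe_jdK]

theorem eU_jK :
    eU L (q := q) (S18.H16.jK L₁ L) = S18.H99.jdK L₁ (q * (q * L)) (q * q) (dvd_level2_qq L) := by
  apply Subtype.ext
  rw [coe_eU, S18.H16.coe_jK, S18.H99.coe_jdK, qExpand_qExpand]

theorem qExpand_congr {K : Type*} [CommRing K] {a b : ℕ} [NeZero a] [NeZero b] (h : a = b)
    (x : LaurentSeries K) : qExpand K a x = qExpand K b x := by
  subst h; rfl

theorem eU_jNK : eU L (q := q) (S18.H16.jNK L₁ L) = theta2 L (q := q) := by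
  apply Subtype.ext
  rw [coe_eU, S18.H16.coe_jNK, S18.H16.coe_jNK, qExpand_qExpand, qExpand_qExpand]
  exact qExpand_congr (mul_assoc q q L) _

theorem eU_algebraMap (r : A₁) : eU L (q := q) (algebraMap A₁ F0 r) = algebraMap A₁ F2 r := by
  rw [eU, RingHom.comp_apply, VMN_algebraMap L A r]
  exact VMN_algebraMap (q * L) A r

theorem eW_algebraMap (r : A₁) : eW L (q := q) (algebraMap A₁ F0 r) = algebraMap A₁ F2 r := by
  rw [eW, RingHom.comp_apply, iotaMN_algebraMap L A r]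
  exact iotaMN_algebraMap (q * L) A r

/-! ### Transport from the generators -/

/-- **Transport along `e_u`** for a place-like subring of `F₂`. -/
theorem eU_transport_gen (S : Subring ↥F2) (rS : ↥S →+* LaurentSeries kA)
    (hinv : ∀ (y : F2) (hy : y ∈ S), rS ⟨y, hy⟩ ≠ 0 → y⁻¹ ∈ S)
    (hc : ∀ a : A₁, ∃ h : algebraMap A₁ F2 a ∈ S,
      rS ⟨_, h⟩ = (HahnSeries.C (H45.resA0 A q a) : LaurentSeries kA))
    (hj : ∃ h : eU L (q := q) (S18.H16.jK L₁ L) ∈ S, rS ⟨_, h⟩ = jqModC kA)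
    (hθ : ∃ h : theta2 L (q := q) ∈ S, rS ⟨_, h⟩ = qExpand kA L (jqModC kA))
    (y : ↥(VM L hqL A hA)) :
    ∃ h : eU L (q := q) (y : F0) ∈ S, rS ⟨_, h⟩ = resM L hqL A hA y := by
  have hmain := S34.H6.transport_of_gens (R0 := A₁) (O := ↥(VM L hqL A hA)) (L := ↥F2)
    (Fk := LaurentSeries kA) (Fk' := LaurentSeries kA)
    (VM L hqL A hA).subtype (resM L hqL A hA) (constVM L hqL A hA)
    ⟨S18.H16.jK L₁ L, (jK_mem_VM L hqL A hA).1⟩ ⟨S18.H16.jNK L₁ L, (jNK_mem_VM L hqL A hA).1⟩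
    S rS (eU L (q := q)) (RingHom.id _)
    Subtype.val_injective (fun a => rfl) hinv ?_ ?_ ?_ ?_ y
  · exact hmain
  · -- constants
    intro a
    obtain ⟨h, hh⟩ := hc a
    have e : eU L (q := q) ((VM L hqL A hA).subtype (constVM L hqL A hA a)) =
        algebraMap A₁ F2 a := eU_algebraMap L A a
    refine ⟨e ▸ h, ?_⟩
    rw [RingHom.id_apply, resM_const, ← hh]
    exact congrArg rS (Subtype.ext e)
  · -- `j ↦ j(t^(q²))`
    obtain ⟨h1, h2⟩ := hj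
    refine ⟨h1, ?_⟩
    rw [RingHom.id_apply, (jK_mem_VM L hqL A hA).2]
    exact h2
  · -- `j_L ↦ θ₂`
    obtain ⟨h1, h2⟩ := hθ
    have e := eU_jNK L (q := q)
    refine ⟨?_, ?_⟩
    · show eU L (q := q) (S18.H16.jNK L₁ L) ∈ S
      rw [e]; exact h1
    · rw [RingHom.id_apply, (jNK_mem_VM L hqL A hA).2, ← h2]
      exact congrArg rS (Subtype.ext e)
  · -- representation
    intro y
    obtain ⟨s, g, hs, -, hrel⟩ := exists_repr_VM L hqL A hA (y : F0) y.2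
    refine ⟨s, g, ?_, hrel⟩
    rw [S34.H6.resM_eval₂_const]
    intro h0
    exact hs ((transcendental_iff.1 (S28.H39.transcendental_jqModC (k := kA))) _ h0)

include hA hqL in
/-- **the residue of `j(t^(q²))` at a place of type "`u ↦ j̄_L`"**. -/
theorem res_jqq_zero (S : Subring ↥F2) (rS : ↥S →+* LaurentSeries kA)
    (hval : ∀ y : F2, y ∈ S ∨ y⁻¹ ∈ S)
    (hjq : ∃ h : eV L (q := q) (S18.H16.jK L₁ L) ∈ S,
      rS ⟨_, h⟩ = qExpand kA q (jqModC kA))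
    (hθ : ∃ h : theta2 L (q := q) ∈ S, rS ⟨_, h⟩ = qExpand kA L (jqModC kA)) :
    ∃ h : eU L (q := q) (S18.H16.jK L₁ L) ∈ S, rS ⟨_, h⟩ = jqModC kA := by
  haveI : CharP kA q := H45.charP_residueField hq.out hA
  obtain ⟨Dq, hDq⟩ := S28.H16.hasModPoly q
  obtain ⟨DL, hDL⟩ := S28.H16.hasModPoly L
  obtain ⟨hj, hjres⟩ := hjq
  obtain ⟨hθ1, hθres⟩ := hθ
  rw [eV_jK] at hj
  have hrel1 := S34.H16.relFK L₁ (q * (q * L)) q Dq q (q * q) rfl (dvd_level2_q L)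
    (dvd_level2_qq L)
  have hrel2 := S34.H16.relFK L₁ (q * (q * L)) L DL (q * q) (q * (q * L)) (by ring)
    (dvd_level2_qq L) dvd_rfl
  rw [S18.H99.jdK_self] at hrel2
  have hjqq : S18.H99.jdK L₁ (q * (q * L)) (q * q) (dvd_level2_qq L) ∈ S :=
    S34.H6.mem_of_monic_eval₂_eq_zero S hval Dq.Φ Dq.monic
      (S34.H16.evalF L₁ (q * (q * L)) (S18.H99.jdK L₁ (q * (q * L)) q (dvd_level2_q L)))
      (by rw [S34.H16.evalF_X]; exact hj) hrel1
  have hresj : rS ⟨S34.H16.evalF L₁ (q * (q * L))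
        (S18.H99.jdK L₁ (q * (q * L)) q (dvd_level2_q L)) X,
      by rw [S34.H16.evalF_X]; exact hj⟩ = qExpand kA q (jqModC kA) := by
    rw [← hjres]
    exact congrArg rS (Subtype.ext ((S34.H16.evalF_X L₁ _ _).trans (eV_jK L).symm))
  have key := S34.H6.res_jq_zero q kA Dq hDq S rS L hqL DL hDL
    (S34.H16.evalF L₁ (q * (q * L)) (S18.H99.jdK L₁ (q * (q * L)) q (dvd_level2_q L)))
    (S34.H16.evalF L₁ (q * (q * L)) (S18.H99.jdK L₁ (q * (q * L)) (q * q) (dvd_level2_qq L)))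
    (by rw [S34.H16.evalF_X]; exact hj) (by rw [S34.H16.evalF_X]; exact hjqq) hθ1
    (by rw [S34.H16.evalF_X]; exact hrel1) hrel2 hresj hθres
  have hmem : eU L (q := q) (S18.H16.jK L₁ L) ∈ S := by rw [eU_jK]; exact hjqq
  refine ⟨hmem, ?_⟩
  rw [← key]
  exact congrArg rS (Subtype.ext ((eU_jK L).trans (S34.H16.evalF_X L₁ _ _).symm))


/-! ### The instances at the places `A` and `C` -/

section PlaceAxioms

attribute [local instance] algPO1F2

theorem QO1_mem_or_inv_mem {ι' : ↥(VM L hqL A hA) →+* LaurentSeries kA} {θb : LaurentSeries kA}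
    {P : PlaceGen L hqL A hA ι' θb}
    {ι'' : ↥(PO1 L hqL A hA P) →+* LaurentSeries kA} {θb'' : LaurentSeries kA}
    (Q : PlaceGen2 L hqL A hA P ι'' θb'') (y : F2) :
    y ∈ QO1 L hqL A hA Q ∨ y⁻¹ ∈ QO1 L hqL A hA Q := Q.mem_or_inv_mem y

theorem QO1_inv_mem {ι' : ↥(VM L hqL A hA) →+* LaurentSeries kA} {θb : LaurentSeries kA}
    {P : PlaceGen L hqL A hA ι' θb}
    {ι'' : ↥(PO1 L hqL A hA P) →+* LaurentSeries kA} {θb'' : LaurentSeries kA}
    (Q : PlaceGen2 L hqL A hA P ι'' θb'') (y : F2) (hy : y ∈ QO1 L hqL A hA Q)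
    (h : Qres1 L hqL A hA Q ⟨y, hy⟩ ≠ 0) : y⁻¹ ∈ QO1 L hqL A hA Q := Q.inv_mem y hy h

theorem RO1_mem_or_inv_mem {ι' : ↥(VM L hqL A hA) →+* LaurentSeries kA} {θb : LaurentSeries kA}
    {P : PlaceGen L hqL A hA ι' θb} {τ : F2} {n : ℕ}
    {ι'' : ↥(PO1 L hqL A hA P) →+* LaurentSeries kA} {θb'' : LaurentSeries kA}
    (Q : PlaceRam2 L hqL A hA P τ n ι'' θb'') (y : F2) :
    y ∈ RO1 L hqL A hA Q ∨ y⁻¹ ∈ RO1 L hqL A hA Q := Q.mem_or_inv_mem y

theorem RO1_inv_mem {ι' : ↥(VM L hqL A hA) →+* LaurentSeries kA} {θb : LaurentSeries kA}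
    {P : PlaceGen L hqL A hA ι' θb} {τ : F2} {n : ℕ}
    {ι'' : ↥(PO1 L hqL A hA P) →+* LaurentSeries kA} {θb'' : LaurentSeries kA}
    (Q : PlaceRam2 L hqL A hA P τ n ι'' θb'') (y : F2) (hy : y ∈ RO1 L hqL A hA Q)
    (h : Rres1 L hqL A hA Q ⟨y, hy⟩ ≠ 0) : y⁻¹ ∈ RO1 L hqL A hA Q := Q.inv_mem y hy h

end PlaceAxioms

section Places

variable (Pi : PlaceInf L hqL A hA) (P0 : PlaceZero L hqL A hA)

theorem jK_mem_Mod : S18.H16.jK L₁ L ∈ (Mod L hqL A hA).O1 := (jK_mem_VM L hqL A hA).1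

theorem inclk_res1_jK (hy : S18.H16.jK L₁ L ∈ (Mod L hqL A hA).O1) :
    inclk L A ((Mod L hqL A hA).res1 ⟨_, hy⟩) = jqModC kA :=
  (inclk_res1 L hqL A hA _ hy).trans (jK_mem_VM L hqL A hA).2

/-- constants at `A`. -/
theorem hconstA (PA : PlaceA L hqL A hA P0) (r : A₁) :
    ∃ h : algebraMap A₁ F2 r ∈ QO1 L hqL A hA PA,
      Qres1 L hqL A hA PA ⟨_, h⟩ = (HahnSeries.C (H45.resA0 A q r) : LaurentSeries kA) := by
  obtain ⟨h1, h2⟩ := hconst0 L hqL A hA P0 r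
  obtain ⟨h3, h4⟩ := iota2_mem_QO1 L hqL A hA PA _ h1
  have e : iota2 L (q := q) (algebraMap A₁ F1 r) = algebraMap A₁ F2 r :=
    iotaMN_algebraMap (q * L) A r
  refine ⟨e ▸ h3, ?_⟩
  have e2 : Qres1 L hqL A hA PA ⟨algebraMap A₁ F2 r, e ▸ h3⟩ =
      Qres1 L hqL A hA PA ⟨iota2 L (q := q) (algebraMap A₁ F1 r), h3⟩ :=
    congrArg _ (Subtype.ext e.symm)
  rw [e2, h4, iotaA_apply, h2, algebraMap_laurent_eq_C, qExpand_C]

/-- constants at `C`. -/
theorem hconstC (PC : PlaceC L hqL A hA Pi) (r : A₁) :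
    ∃ h : algebraMap A₁ F2 r ∈ RO1 L hqL A hA PC,
      Rres1 L hqL A hA PC ⟨_, h⟩ = (HahnSeries.C (H45.resA0 A q r) : LaurentSeries kA) := by
  have hh := hconsti L hqL A hA Pi r
  have h1 := hh.1
  have h2 := hh.2
  have hh' := iota2_mem_RO1 L hqL A hA PC _ h1
  have h3 := hh'.1
  have h4 := hh'.2
  have e : iota2 L (q := q) (algebraMap A₁ F1 r) = algebraMap A₁ F2 r :=
    iotaMN_algebraMap (q * L) A r
  refine ⟨e ▸ h3, ?_⟩
  have e2 : Rres1 L hqL A hA PC ⟨algebraMap A₁ F2 r, e ▸ h3⟩ =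
      Rres1 L hqL A hA PC ⟨iota2 L (q := q) (algebraMap A₁ F1 r), h3⟩ :=
    congrArg _ (Subtype.ext e.symm)
  rw [e2, h4, h2, algebraMap_laurent_eq_C]

/-- constants at `B`. -/
theorem hconstB (PB : PlaceB L hqL A hA Pi) (r : A₁) :
    ∃ h : algebraMap A₁ F2 r ∈ QO1 L hqL A hA PB,
      Qres1 L hqL A hA PB ⟨_, h⟩ = (HahnSeries.C (H45.resA0 A q r) : LaurentSeries kA) := by
  obtain ⟨h1, h2⟩ := hconsti L hqL A hA Pi r
  obtain ⟨h3, h4⟩ := iota2_mem_QO1 L hqL A hA PB _ h1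
  have e : iota2 L (q := q) (algebraMap A₁ F1 r) = algebraMap A₁ F2 r :=
    iotaMN_algebraMap (q * L) A r
  refine ⟨e ▸ h3, ?_⟩
  have e2 : Qres1 L hqL A hA PB ⟨algebraMap A₁ F2 r, e ▸ h3⟩ =
      Qres1 L hqL A hA PB ⟨iota2 L (q := q) (algebraMap A₁ F1 r), h3⟩ :=
    congrArg _ (Subtype.ext e.symm)
  rw [e2, h4, h2, algebraMap_laurent_eq_C]

/-- **`res_A (y(t^(q²))) = ȳ`.** -/
theorem resA_eU (PA : PlaceA L hqL A hA P0) (y : F0) (hy : y ∈ (Mod L hqL A hA).O1) :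
    ∃ h : eU L (q := q) y ∈ QO1 L hqL A hA PA,
      Qres1 L hqL A hA PA ⟨_, h⟩ = inclk L A ((Mod L hqL A hA).res1 ⟨y, hy⟩) := by
  have hθ : ∃ h : theta2 L (q := q) ∈ QO1 L hqL A hA PA,
      Qres1 L hqL A hA PA ⟨_, h⟩ = qExpand kA L (jqModC kA) := by
    obtain ⟨h1, h2⟩ := theta2_mem_QO1 L hqL A hA PA
    exact ⟨h1, h2.trans (resM_jMV L hqL A hA)⟩
  have hjq : ∃ h : eV L (q := q) (S18.H16.jK L₁ L) ∈ QO1 L hqL A hA PA,
      Qres1 L hqL A hA PA ⟨_, h⟩ = qExpand kA q (jqModC kA) := by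
    obtain ⟨h1, h2⟩ := resA_eV L hqL A hA P0 PA _ (jK_mem_Mod L hqL A hA)
    refine ⟨h1, h2.trans ?_⟩
    rw [inclk_FrM L A hA, inclk_res1_jK L hqL A hA]
  have hj := res_jqq_zero L hqL A hA (QO1 L hqL A hA PA) (Qres1 L hqL A hA PA)
    (QO1_mem_or_inv_mem L hqL A hA PA) hjq hθ
  obtain ⟨h, hh⟩ := eU_transport_gen L hqL A hA (QO1 L hqL A hA PA) (Qres1 L hqL A hA PA)
    (QO1_inv_mem L hqL A hA PA) (hconstA L hqL A hA P0 PA) hj hθ ⟨y, mem_V_of_mem_O1 L hqL A hA hy⟩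
  exact ⟨h, hh.trans (inclk_res1 L hqL A hA y hy).symm⟩

/-- **`res_C (y(t^(q²))) = ȳ`.** -/
theorem resC_eU (PC : PlaceC L hqL A hA Pi) (y : F0) (hy : y ∈ (Mod L hqL A hA).O1) :
    ∃ h : eU L (q := q) y ∈ RO1 L hqL A hA PC,
      Rres1 L hqL A hA PC ⟨_, h⟩ = inclk L A ((Mod L hqL A hA).res1 ⟨y, hy⟩) := by
  have hθ : ∃ h : theta2 L (q := q) ∈ RO1 L hqL A hA PC,
      Rres1 L hqL A hA PC ⟨_, h⟩ = qExpand kA L (jqModC kA) := by
    obtain ⟨h1, h2⟩ := theta2_mem_RO1 L hqL A hA PC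
    exact ⟨h1, h2.trans ((Pres1_wO L hqL A hA Pi).trans (resM_jMV L hqL A hA))⟩
  have hjq : ∃ h : eV L (q := q) (S18.H16.jK L₁ L) ∈ RO1 L hqL A hA PC,
      Rres1 L hqL A hA PC ⟨_, h⟩ = qExpand kA q (jqModC kA) := by
    obtain ⟨h1, h2⟩ := resC_eV L hqL A hA Pi PC _ (jK_mem_Mod L hqL A hA)
    refine ⟨h1, h2.trans ?_⟩
    rw [inclk_FrM L A hA, inclk_res1_jK L hqL A hA]
  have hj := res_jqq_zero L hqL A hA (RO1 L hqL A hA PC) (Rres1 L hqL A hA PC)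
    (RO1_mem_or_inv_mem L hqL A hA PC) hjq hθ
  have key := eU_transport_gen L hqL A hA (RO1 L hqL A hA PC) (Rres1 L hqL A hA PC)
    (RO1_inv_mem L hqL A hA PC) (hconstC L hqL A hA Pi PC) hj hθ ⟨y, mem_V_of_mem_O1 L hqL A hA hy⟩
  exact ⟨key.1, key.2.trans (inclk_res1 L hqL A hA y hy).symm⟩

end Places

end Transport

end Fermat.Agent.S36.H55
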