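/-
S36 / (M1) L0-36, FINAL (helper55): `S36.H55.ThreePlacesStatement`, hypothesis-free.

Assembly of
* helper6's existence + top step (`S36.H6.three_places_over_inf_final`, `three_places_over_zero`,
  with helper27/helper99's q-expansion CLAIM `Φ_X(w, v) = q · unit` inside),
* helper99's `exactly_three` (`S36/H99_L0ThreeUnique`) and the uniqueness of the place rings,
* the nine residue formulas: six tower formulas (`S36/H55_L0ThreeBase`) and the three `e_u`
  transports (`S36/H55_L0ThreeTransport` for `A`, `C`; `S36/H55_L0ThreeGaussB` for `B`).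
-/
import Fermat.Agent.S36.H55_L0ThreeTransport
import Fermat.Agent.S36.H55_L0ThreeGaussB
import Fermat.Agent.S36.H99_L0ThreeUnique

set_option autoImplicit false
set_option linter.unusedSectionVars false
set_option linter.style.haveILetI false
set_option synthInstance.maxHeartbeats 400000

noncomputable section

namespace Fermat.Agent.S36.H55

open ModularCurve Polynomial IsLocalRing Fermat.Agent.S28
open Fermat.Agent.S18 Fermat.Agent.S34.H92 Fermat.Agent.S34.H16 Fermat.Agent.S34.H55

local notation "Qbar" => AlgebraicClosure ℚ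

section Final

variable (L : ℕ) [NeZero L] {q : ℕ} [hq : Fact q.Prime] (hqL : ¬ q ∣ L)
  (A : ValuationSubring Qbar) (hA : A.LiesOverPrime q)

/-- **(M1), the facts for an ARBITRARY triple of places of the pinned types.** -/
theorem threePlacesFacts (D : ModularPolynomialData q)
    (hD : ∀ (k : Type) [Field k] (ζ : kˣ), IsPrimitiveRoot ζ q → RootsAt k q ζ D.Φ)
    (Pi : PlaceInf L hqL A hA) (P0 : PlaceZero L hqL A hA)
    (PA : PlaceA L hqL A hA P0) (PB : PlaceB L hqL A hA Pi) (PC : PlaceC L hqL A hA Pi) :
    ThreePlacesFacts L hqL A hA Pi P0 PA PB PC where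
  resA_eU := resA_eU L hqL A hA P0 PA
  resB_eU := resB_eU L hqL A hA Pi PB
  resC_eU := resC_eU L hqL A hA Pi PC
  exactly_three := S36.H99.exactly_three L hqL A hA D hD Pi P0 PA PB PC

/-- the three places exist over any pair of bottom places. -/
theorem exists_places (D : ModularPolynomialData q)
    (hD : ∀ (k : Type) [Field k] (ζ : kˣ), IsPrimitiveRoot ζ q → RootsAt k q ζ D.Φ)
    (Pi : PlaceInf L hqL A hA) (P0 : PlaceZero L hqL A hA) :
    ∃ (PA : PlaceA L hqL A hA P0) (PB : PlaceB L hqL A hA Pi) (PC : PlaceC L hqL A hA Pi),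
      ThreePlacesFacts L hqL A hA Pi P0 PA PB PC := by
  obtain ⟨PA, PB, PC, -⟩ := S36.H99.exists_three_places L hqL A hA D hD Pi P0
  exact ⟨PA, PB, PC, threePlacesFacts L hqL A hA D hD Pi P0 PA PB PC⟩

/-- **(M1) L0-36**, from the modular polynomial data. -/
theorem threePlacesStatement_of_modPoly (D : ModularPolynomialData q)
    (hD : ∀ (k : Type) [Field k] (ζ : kˣ), IsPrimitiveRoot ζ q → RootsAt k q ζ D.Φ) :
    ThreePlacesStatement L hqL A hA := by
  obtain ⟨Pi⟩ := nonempty_placeInfty L hqL A hA D hD
  obtain ⟨P0⟩ := nonempty_placeZero L hqL A hA D hD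
  obtain ⟨PA, PB, PC, h⟩ := exists_places L hqL A hA D hD Pi P0
  exact ⟨Pi, P0, PA, PB, PC, h⟩

/-- **(M1) L0-36, hypothesis-free.** -/
theorem threePlacesStatement : ThreePlacesStatement L hqL A hA := by
  obtain ⟨D, hD⟩ := S28.H16.hasModPoly q
  exact threePlacesStatement_of_modPoly L hqL A hA D hD

end Final

end Fermat.Agent.S36.H55
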