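import Fermat.Agent.S36.H61_HVS1
import Fermat.Agent.S36.H70_ThreeComponentsS1

/-!
# S36, seam (E2-hV) (helper61): `hVeq` in the (S1) spelling, ONE call, places as binders

`hVeq_S1` = `hVeq_redE` with
* `P := S36.H83.placeSide_of_places .. (S36.H96.resA_eU ..) (S36.H96.resB_eU ..) (S36.H96.resC_eU ..)`,
* `inv_a mem_a mem_c inv_b mem_b` := the structure fields of `PB PC PA`,
* `hN hN' := S36.H70.genBy_J3N(_inv) L A hA E0 hunr`,
so that its remaining binders are LITERALLY the outputs of the two `obtain`s from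
`S36.H70.threeComponentsS1_J3K` and `S36.H70.threeComponentsS1_J3K_inv` (same `Pi P0 PA PB PC E0 hunr`)
plus the labelled families `P₁ P₂` with `P₁ i = ker (redE .. r_i hq_i)`, `P₂ i = ker (redE .. s_i hq_i')`.

`exists_packages_hVeq_S1` is the end-to-end seam test: both (S1) packages and `hVeq` for the
canonical labelling, from `Pi P0 PA PB PC E0 hunr` alone.
-/

set_option autoImplicit false
set_option linter.unusedSectionVars false
set_option linter.style.haveILetI false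
set_option synthInstance.maxHeartbeats 400000
set_option maxHeartbeats 3200000

noncomputable section

namespace Fermat.Agent.S36.H61

open ModularCurve Polynomial IsLocalRing IntermediateField Fermat.Agent.S28
open Fermat.Agent.S18 Fermat.Agent.S34 Fermat.Agent.S34.H55 Fermat.Agent.S36.H83

local notation "Qbar" => AlgebraicClosure ℚ

section S1Final

variable (L : ℕ) [NeZero L] {q : ℕ} [hq : Fact q.Prime] (hqL : ¬ q ∣ L)
  (A : ValuationSubring Qbar) (hA : A.LiesOverPrime q)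

local notation "kA" => IsLocalRing.ResidueField A
local notation "A₁" => H45.A0 A q
local notation "L₁" => H45.unrCyclo q
local notation "F2" => modularFunctionFieldFullC (H45.unrCyclo q) (q * (q * L))
local notation "FkL" => modularFunctionFieldFullC (IsLocalRing.ResidueField A) L

attribute [local instance] S36.H55.algPO1F2

set_option maxHeartbeats 6400000 in
/-- **`hVeq` in the (S1) spelling, one call from the outputs of
`S36.H70.threeComponentsS1_J3K(_inv)`.** -/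
theorem hVeq_S1 (Pi : PlaceInf L hqL A hA) (P0 : PlaceZero L hqL A hA)
    (PA : S36.H55.PlaceA L hqL A hA P0) (PB : S36.H55.PlaceB L hqL A hA Pi)
    (PC : S36.H55.PlaceC L hqL A hA Pi)
    -- the `A₁`-level package, chart `J₃`
    {r₁ r₂ r₃ : ↥(H40.chartB A₁ (J3N L (q := q))) →+*
      ↥(integralClosure (Algebra.adjoin kA {S18.H16.jK kA L}) FkL)}
    (c₁ : ∀ (b : ↥(H40.chartB A₁ (J3N L (q := q)))) (h : (b : F2) ∈ S36.H55.QO1 L hqL A hA PB),
      inclk L A ((r₁ b : ↥(integralClosure (Algebra.adjoin kA {S18.H16.jK kA L}) FkL)) : FkL) =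
        S36.H55.Qres1 L hqL A hA PB ⟨b, h⟩)
    (c₂ : ∀ (b : ↥(H40.chartB A₁ (J3N L (q := q)))) (h : (b : F2) ∈ S36.H55.RO1 L hqL A hA PC),
      inclk L A ((r₂ b : ↥(integralClosure (Algebra.adjoin kA {S18.H16.jK kA L}) FkL)) : FkL) =
        S36.H55.Rres1 L hqL A hA PC ⟨b, h⟩)
    (c₃ : ∀ (b : ↥(H40.chartB A₁ (J3N L (q := q)))) (h : (b : F2) ∈ S36.H55.QO1 L hqL A hA PA),
      inclk L A ((r₃ b : ↥(integralClosure (Algebra.adjoin kA {S18.H16.jK kA L}) FkL)) : FkL) =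
        S36.H55.Qres1 L hqL A hA PA ⟨b, h⟩)
    (hq₁ : r₁ (algebraMap A₁ ↥(H40.chartB A₁ (J3N L (q := q))) ((q : ℕ) : A₁)) = 0)
    (hq₂ : r₂ (algebraMap A₁ ↥(H40.chartB A₁ (J3N L (q := q))) ((q : ℕ) : A₁)) = 0)
    (hq₃ : r₃ (algebraMap A₁ ↥(H40.chartB A₁ (J3N L (q := q))) ((q : ℕ) : A₁)) = 0)
    (TC₁ : ThreeComponents r₁ r₂ r₃
      (chartMap (eU L (q := q)) (eU_algebraMap L A) (huint1 L A))
      (chartMap (eV L (q := q)) (eV_algebraMap L A) (hvint1 L A))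
      (chartMap (eW L (q := q)) (eW_algebraMap L A) (hwint1 L A))
      (rbarB (Mod L hqL A hA) (Mod L hqL A hA).x_mem (Mod L hqL A hA).res1_x)
      (WR (FrM L A hA) q (hFrx L A hA)) q
      (algebraMap A₁ ↥(H40.chartB A₁ (J3N L (q := q))) ((q : ℕ) : A₁)))
    -- the `A₁`-level package, chart `J₃⁻¹`
    {s₁ s₂ s₃ : ↥(H40.chartB A₁ (J3N L (q := q))⁻¹) →+*
      ↥(integralClosure (Algebra.adjoin kA {(S18.H16.jK kA L)⁻¹}) FkL)}
    (d₁ : ∀ (b : ↥(H40.chartB A₁ (J3N L (q := q))⁻¹)) (h : (b : F2) ∈ S36.H55.QO1 L hqL A hA PB),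
      inclk L A ((s₁ b : ↥(integralClosure (Algebra.adjoin kA {(S18.H16.jK kA L)⁻¹}) FkL)) : FkL) =
        S36.H55.Qres1 L hqL A hA PB ⟨b, h⟩)
    (d₂ : ∀ (b : ↥(H40.chartB A₁ (J3N L (q := q))⁻¹)) (h : (b : F2) ∈ S36.H55.RO1 L hqL A hA PC),
      inclk L A ((s₂ b : ↥(integralClosure (Algebra.adjoin kA {(S18.H16.jK kA L)⁻¹}) FkL)) : FkL) =
        S36.H55.Rres1 L hqL A hA PC ⟨b, h⟩)
    (d₃ : ∀ (b : ↥(H40.chartB A₁ (J3N L (q := q))⁻¹)) (h : (b : F2) ∈ S36.H55.QO1 L hqL A hA PA),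
      inclk L A ((s₃ b : ↥(integralClosure (Algebra.adjoin kA {(S18.H16.jK kA L)⁻¹}) FkL)) : FkL) =
        S36.H55.Qres1 L hqL A hA PA ⟨b, h⟩)
    (hq₁' : s₁ (algebraMap A₁ ↥(H40.chartB A₁ (J3N L (q := q))⁻¹) ((q : ℕ) : A₁)) = 0)
    (hq₂' : s₂ (algebraMap A₁ ↥(H40.chartB A₁ (J3N L (q := q))⁻¹) ((q : ℕ) : A₁)) = 0)
    (hq₃' : s₃ (algebraMap A₁ ↥(H40.chartB A₁ (J3N L (q := q))⁻¹) ((q : ℕ) : A₁)) = 0)
    (TC₂ : ThreeComponents s₁ s₂ s₃
      (chartMap (eU L (q := q)) (eU_algebraMap L A) (huint2 L A))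
      (chartMap (eV L (q := q)) (eV_algebraMap L A) (hvint2 L A))
      (chartMap (eW L (q := q)) (eW_algebraMap L A) (hwint2 L A))
      (rbarB (Mod L hqL A hA) (hc2 L hqL A hA) (hcw2 L hqL A hA))
      (WR (FrM L A hA) q (hFrx_inv L A hA)) q
      (algebraMap A₁ ↥(H40.chartB A₁ (J3N L (q := q))⁻¹) ((q : ℕ) : A₁)))
    -- the `cutOver A E0`-level, (S1) spelling
    (E0 : IntermediateField (H45.unrCyclo q) Qbar) [FiniteDimensional (H45.unrCyclo q) E0]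
    (hunr : maximalIdeal ↥(H45.cutOver A E0) = Ideal.span {((q : ℕ) : ↥(H45.cutOver A E0))})
    [IsFractionRing ↥(H40.chartB ↥(H45.cutOver A E0) (H45.baseChangeE E0 (q * (q * L)) (J3N L (q := q)))) ↥(modularFunctionFieldFullC ↥E0 (q * (q * L)))]
    [IsNoetherianRing ↥(H40.chartB ↥(H45.cutOver A E0) (H45.baseChangeE E0 (q * (q * L)) (J3N L (q := q))))]
    [IsIntegrallyClosed ↥(H40.chartB ↥(H45.cutOver A E0) (H45.baseChangeE E0 (q * (q * L)) (J3N L (q := q))))]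
    [IsFractionRing ↥(H40.chartB ↥(H45.cutOver A E0) (H45.baseChangeE E0 (q * (q * L)) (J3N L (q := q))⁻¹)) ↥(modularFunctionFieldFullC ↥E0 (q * (q * L)))]
    [IsNoetherianRing ↥(H40.chartB ↥(H45.cutOver A E0) (H45.baseChangeE E0 (q * (q * L)) (J3N L (q := q))⁻¹))]
    [IsIntegrallyClosed ↥(H40.chartB ↥(H45.cutOver A E0) (H45.baseChangeE E0 (q * (q * L)) (J3N L (q := q))⁻¹))]
    (P₁ : Fin 3 → Ideal ↥(H40.chartB ↥(H45.cutOver A E0) (H45.baseChangeE E0 (q * (q * L)) (J3N L (q := q)))))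
    (P₂ : Fin 3 → Ideal ↥(H40.chartB ↥(H45.cutOver A E0) (H45.baseChangeE E0 (q * (q * L)) (J3N L (q := q))⁻¹)))
    (e10 : P₁ 0 = RingHom.ker (S35.H70.redE hq.out hA E0 (q * (q * L)) (J3N L (q := q)) ((q : ℕ) : ↥(H45.cutOver A E0)) hunr (S36.H70.genBy_J3N L A hA E0 hunr) r₁ hq₁))
    (e11 : P₁ 1 = RingHom.ker (S35.H70.redE hq.out hA E0 (q * (q * L)) (J3N L (q := q)) ((q : ℕ) : ↥(H45.cutOver A E0)) hunr (S36.H70.genBy_J3N L A hA E0 hunr) r₂ hq₂))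
    (e12 : P₁ 2 = RingHom.ker (S35.H70.redE hq.out hA E0 (q * (q * L)) (J3N L (q := q)) ((q : ℕ) : ↥(H45.cutOver A E0)) hunr (S36.H70.genBy_J3N L A hA E0 hunr) r₃ hq₃))
    (e20 : P₂ 0 = RingHom.ker (S35.H70.redE hq.out hA E0 (q * (q * L)) (J3N L (q := q))⁻¹ ((q : ℕ) : ↥(H45.cutOver A E0)) hunr (S36.H70.genBy_J3N_inv L A hA E0 hunr) s₁ hq₁'))
    (e21 : P₂ 1 = RingHom.ker (S35.H70.redE hq.out hA E0 (q * (q * L)) (J3N L (q := q))⁻¹ ((q : ℕ) : ↥(H45.cutOver A E0)) hunr (S36.H70.genBy_J3N_inv L A hA E0 hunr) s₂ hq₂'))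
    (e22 : P₂ 2 = RingHom.ker (S35.H70.redE hq.out hA E0 (q * (q * L)) (J3N L (q := q))⁻¹ ((q : ℕ) : ↥(H45.cutOver A E0)) hunr (S36.H70.genBy_J3N_inv L A hA E0 hunr) s₃ hq₃'))
    [hP₁ : ∀ i, (P₁ i).IsPrime] [hP₂ : ∀ i, (P₂ i).IsPrime]
    (hh₁ : ∀ i, (P₁ i).height = 1) (hh₂ : ∀ i, (P₂ i).height = 1) :
    ∀ i, H56.valuationSubringAt (K := ↥(modularFunctionFieldFullC ↥E0 (q * (q * L)))) (P₁ i) (hh₁ i) =
      H56.valuationSubringAt (K := ↥(modularFunctionFieldFullC ↥E0 (q * (q * L)))) (P₂ i) (hh₂ i) := by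
  have P := placeSide_of_places L hqL A hA Pi P0 PA PB PC (S36.H96.resA_eU L hqL A hA P0 PA)
    (S36.H96.resB_eU L hqL A hA Pi PB) (S36.H96.resC_eU L hqL A hA Pi P0 PC)
  have key := hVeq_redE L hqL A hA P (fun y hy h => PB.inv_mem y hy h)
    (fun y => PB.mem_or_inv_mem y) (fun y => PC.mem_or_inv_mem y)
    (fun y hy h => PA.inv_mem y hy h) (fun y => PA.mem_or_inv_mem y) c₁ c₂ c₃ hq₁ hq₂ hq₃ TC₁ d₁ d₂ d₃ hq₁' hq₂' hq₃' TC₂ E0 hunr
    (S36.H70.genBy_J3N L A hA E0 hunr) (S36.H70.genBy_J3N_inv L A hA E0 hunr)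
    P₁ P₂ e10 e11 e12 e20 e21 e22 hh₁ hh₂
  exact key

end S1Final

end Fermat.Agent.S36.H61
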