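import Mathlib
import Fermat.Agent.S36.H70_Hq2Place
import Fermat.Agent.S36.H83_L0ThreeFinal
import Fermat.Agent.S36.H95_CoordJ3Inst

/-!
# S36, row (E2), base-change layer (helper70): `hq2` and `hW2` at the real types

For the two charts `chartB A₁ (J3N L)^(±1)` of level `q² L` and ANY reductions `red₁ red₂ red₃`
with a `ThreeComponents` structure as in `S36.H83.threeComponents_J3K(_inv)` whose middle one is
compatible with helper55's ramified place `PC` (clause 2 of `threeComponents_J3K(_inv)`):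

* `hW2_J3K`, `hW2_J3K_inv` : `∃ d, W (W d) ≠ d` for `W = WR (FrM L A hA) q _`;
* `hq2_J3K`, `hq2_J3K_inv` : `∃ t, red₂ t ≠ 0 ∧ t * q ∈ (ker red₂) ^ (q - 1)`.
-/

set_option autoImplicit false
set_option linter.unusedSectionVars false
set_option linter.style.haveILetI false
set_option synthInstance.maxHeartbeats 400000
set_option maxHeartbeats 1600000

noncomputable section

namespace Fermat.Agent.S36.H70

open ModularCurve Polynomial IsLocalRing Fermat.Agent.S28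
open Fermat.Agent.S18 Fermat.Agent.S34.H92 Fermat.Agent.S34.H16 Fermat.Agent.S34.H55
open Fermat.Agent.S36.H83

local notation "Qbar" => AlgebraicClosure ℚ

section Real

variable (L : ℕ) [NeZero L] {q : ℕ} [hq : Fact q.Prime] (hqL : ¬ q ∣ L)
  (A : ValuationSubring Qbar) (hA : A.LiesOverPrime q)

local notation "kA" => IsLocalRing.ResidueField A
local notation "A₁" => H45.A0 A q
local notation "L₁" => H45.unrCyclo q
local notation "F0" => modularFunctionFieldFullC (H45.unrCyclo q) L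
local notation "F2" => modularFunctionFieldFullC (H45.unrCyclo q) (q * (q * L))
local notation "FkL" => modularFunctionFieldFullC (IsLocalRing.ResidueField A) L

/-- a transcendental element is not fixed by `x ↦ (x ^ q) ^ q`. -/
theorem pow_pow_ne_self_of_transcendental {k K : Type*} [Field k] [Field K] [Algebra k K]
    {w : K} (hw : Transcendental k w) {q : ℕ} (hq : 1 < q) : (w ^ q) ^ q ≠ w := by
  intro e
  apply hw
  refine ⟨X ^ (q * q) - X, ?_, ?_⟩
  · intro h0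
    have h1 := congrArg (fun p : k[X] => p.coeff (q * q)) h0
    have hqq : 1 < q * q := by nlinarith
    simp only [coeff_sub, coeff_X_pow, coeff_X, coeff_zero] at h1
    rw [if_pos trivial, if_neg (by omega)] at h1
    simp at h1
  · rw [map_sub, map_pow, aeval_X, pow_mul, e, sub_self]

/-- `hW2` on chart 1. -/
theorem hW2_J3K :
    ∃ d : ↥(integralClosure (Algebra.adjoin kA {S18.H16.jK kA L}) FkL),
      WR (FrM L A hA) q (hFrx L A hA) (WR (FrM L A hA) q (hFrx L A hA) d) ≠ d := by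
  refine ⟨⟨S18.H16.jK kA L, isIntegral_algebraMap (R := Algebra.adjoin kA {S18.H16.jK kA L})
    (x := ⟨S18.H16.jK kA L, Algebra.self_mem_adjoin_singleton kA _⟩)⟩, fun e => ?_⟩
  have e' := congrArg (fun d : ↥(integralClosure (Algebra.adjoin kA {S18.H16.jK kA L}) FkL) =>
    (d : FkL)) e
  simp only [coe_WR] at e'
  rw [hFrx, map_pow, hFrx] at e'
  exact pow_pow_ne_self_of_transcendental (S18.H16.transcendental_jK (K := kA) (N := L))
    hq.out.one_lt e'

/-- `hW2` on chart 2. -/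
theorem hW2_J3K_inv :
    ∃ d : ↥(integralClosure (Algebra.adjoin kA {(S18.H16.jK kA L)⁻¹}) FkL),
      WR (FrM L A hA) q (hFrx_inv L A hA) (WR (FrM L A hA) q (hFrx_inv L A hA) d) ≠ d := by
  refine ⟨⟨(S18.H16.jK kA L)⁻¹, isIntegral_algebraMap
    (R := Algebra.adjoin kA {(S18.H16.jK kA L)⁻¹})
    (x := ⟨(S18.H16.jK kA L)⁻¹, Algebra.self_mem_adjoin_singleton kA _⟩)⟩, fun e => ?_⟩
  have e' := congrArg (fun d : ↥(integralClosure (Algebra.adjoin kA {(S18.H16.jK kA L)⁻¹}) FkL) =>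
    (d : FkL)) e
  simp only [coe_WR] at e'
  rw [hFrx_inv, map_pow, hFrx_inv] at e'
  have htr : Transcendental kA (S18.H16.jK kA L)⁻¹ := fun h =>
    (S18.H16.transcendental_jK (K := kA) (N := L)) (IsAlgebraic.inv_iff.1 h)
  exact pow_pow_ne_self_of_transcendental htr hq.out.one_lt e'

/-! ### `hq2` at the two charts -/

section Hq2

variable (Pi : PlaceInf L hqL A hA) (P0 : PlaceZero L hqL A hA)
  (PA : S36.H55.PlaceA L hqL A hA P0) (PB : S36.H55.PlaceB L hqL A hA Pi)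
  (PC : S36.H55.PlaceC L hqL A hA Pi)

/-- **`hq2` on chart 1**, for any `red₂` compatible with the place `PC`. -/
theorem hq2_J3K
    (resA_eU : ∀ (y : F0) (hy : y ∈ (Mod L hqL A hA).O1),
      ∃ h : S36.H55.eU L (q := q) y ∈ S36.H55.QO1 L hqL A hA PA,
        S36.H55.Qres1 L hqL A hA PA ⟨_, h⟩ = inclk L A ((Mod L hqL A hA).res1 ⟨y, hy⟩))
    (resB_eU : ∀ (y : F0) (hy : y ∈ (Mod L hqL A hA).O1),
      ∃ h : S36.H55.eU L (q := q) y ∈ S36.H55.QO1 L hqL A hA PB,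
        S36.H55.Qres1 L hqL A hA PB ⟨_, h⟩ =
          inclk L A (FrM L A hA (FrM L A hA ((Mod L hqL A hA).res1 ⟨y, hy⟩))))
    (resC_eU : ∀ (y : F0) (hy : y ∈ (Mod L hqL A hA).O1),
      ∃ h : S36.H55.eU L (q := q) y ∈ S36.H55.RO1 L hqL A hA PC,
        S36.H55.Rres1 L hqL A hA PC ⟨_, h⟩ = inclk L A ((Mod L hqL A hA).res1 ⟨y, hy⟩))
    {BM : Type*} [CommRing BM]
    {red₁ red₂ red₃ : ↥(H40.chartB A₁ (J3N L (q := q))) →+*
      ↥(integralClosure (Algebra.adjoin kA {S18.H16.jK kA L}) FkL)}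
    {ιu ιv ιw : BM →+* ↥(H40.chartB A₁ (J3N L (q := q)))}
    {rbar : BM →+* ↥(integralClosure (Algebra.adjoin kA {S18.H16.jK kA L}) FkL)}
    (TC : ThreeComponents red₁ red₂ red₃ ιu ιv ιw rbar (WR (FrM L A hA) q (hFrx L A hA)) q
      (algebraMap A₁ ↥(H40.chartB A₁ (J3N L (q := q))) ((q : ℕ) : A₁)))
    (hc₂ : ∀ (b : ↥(H40.chartB A₁ (J3N L (q := q)))) (h : (b : F2) ∈ S36.H55.RO1 L hqL A hA PC),
      inclk L A ((red₂ b : ↥(integralClosure (Algebra.adjoin kA {S18.H16.jK kA L}) FkL)) : FkL)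
        = S36.H55.Rres1 L hqL A hA PC ⟨b, h⟩)
    (hq₂ : red₂ (algebraMap A₁ ↥(H40.chartB A₁ (J3N L (q := q))) ((q : ℕ) : A₁)) = 0) :
    ∃ t : ↥(H40.chartB A₁ (J3N L (q := q))), red₂ t ≠ 0 ∧
      t * algebraMap A₁ ↥(H40.chartB A₁ (J3N L (q := q))) ((q : ℕ) : A₁) ∈
        RingHom.ker red₂ ^ (q - 1) := by
  have P := placeSide_of_places L hqL A hA Pi P0 PA PB PC resA_eU resB_eU resC_eU
  letI := S36.H55.algPO1F2 L hqL A hA Pi
  haveI := S36.H95.isNoetherianRing_chartB_J3K_A0 (A := A) hq.out hA (q * (q * L)) q (hq2_dvd L)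
  haveI := S36.H95.isFractionRing_chartB_J3K_A0 (A := A) (ℓ := q) (q * (q * L)) q (hq2_dvd L)
  haveI := S36.H95.isIntegrallyClosed_chartB_J3K_A0 (A := A) (ℓ := q) (q * (q * L)) q (hq2_dvd L)
  have hB : ∀ b : ↥(H40.chartB A₁ (J3N L (q := q))),
      algebraMap ↥(H40.chartB A₁ (J3N L (q := q))) F2 b ∈ PC.O1 := fun b =>
    S18.H55T.mem_of_isIntegral_adjoin_of_closed _ P.hOicc (fun r => (P.hconstc r).1)
      (hu_hw_c1 L hqL A hA P).fst b.2
  have hq0 : algebraMap A₁ ↥(H40.chartB A₁ (J3N L (q := q))) ((q : ℕ) : A₁) ≠ 0 := by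
    intro h0
    apply hϖ0_F2 L A (q := q)
    have := congrArg (fun b : ↥(H40.chartB A₁ (J3N L (q := q))) => (b : F2)) h0
    exact this
  refine hq2_of_place (F := F2) TC hq₂ hq0 (hW2_J3K L A hA) PC.O1 PC.res1 PC.inv_mem
    PC.mem_or_inv_mem hB ?_ _ (q - 1) PC.τ_mem PC.res1_eq_zero_iff ?_
  · intro b
    have h := hc₂ b (hB b)
    constructor
    · intro h0
      have e : S36.H55.Rres1 L hqL A hA PC ⟨b, hB b⟩ = 0 := by
        rw [← h, h0]
        simp
      exact e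
    · intro h0
      have e : inclk L A ((red₂ b : ↥(integralClosure (Algebra.adjoin kA {S18.H16.jK kA L}) FkL)) :
          FkL) = 0 := h.trans h0
      have e2 : ((red₂ b : ↥(integralClosure (Algebra.adjoin kA {S18.H16.jK kA L}) FkL)) : FkL) = 0 :=
        (map_eq_zero (inclk L A)).1 e
      exact Subtype.ext e2
  · obtain ⟨u, hu, hui, hun⟩ := PC.unif_eq
    refine ⟨u, hu, hui, ?_⟩
    rw [← hun, map_natCast, map_natCast, map_natCast]

/-- **`hq2` on chart 2**, for any `red₂` compatible with the place `PC`. -/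
theorem hq2_J3K_inv
    (resA_eU : ∀ (y : F0) (hy : y ∈ (Mod L hqL A hA).O1),
      ∃ h : S36.H55.eU L (q := q) y ∈ S36.H55.QO1 L hqL A hA PA,
        S36.H55.Qres1 L hqL A hA PA ⟨_, h⟩ = inclk L A ((Mod L hqL A hA).res1 ⟨y, hy⟩))
    (resB_eU : ∀ (y : F0) (hy : y ∈ (Mod L hqL A hA).O1),
      ∃ h : S36.H55.eU L (q := q) y ∈ S36.H55.QO1 L hqL A hA PB,
        S36.H55.Qres1 L hqL A hA PB ⟨_, h⟩ =
          inclk L A (FrM L A hA (FrM L A hA ((Mod L hqL A hA).res1 ⟨y, hy⟩))))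
    (resC_eU : ∀ (y : F0) (hy : y ∈ (Mod L hqL A hA).O1),
      ∃ h : S36.H55.eU L (q := q) y ∈ S36.H55.RO1 L hqL A hA PC,
        S36.H55.Rres1 L hqL A hA PC ⟨_, h⟩ = inclk L A ((Mod L hqL A hA).res1 ⟨y, hy⟩))
    {BM : Type*} [CommRing BM]
    {red₁ red₂ red₃ : ↥(H40.chartB A₁ (J3N L (q := q))⁻¹) →+*
      ↥(integralClosure (Algebra.adjoin kA {(S18.H16.jK kA L)⁻¹}) FkL)}
    {ιu ιv ιw : BM →+* ↥(H40.chartB A₁ (J3N L (q := q))⁻¹)}
    {rbar : BM →+* ↥(integralClosure (Algebra.adjoin kA {(S18.H16.jK kA L)⁻¹}) FkL)}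
    (TC : ThreeComponents red₁ red₂ red₃ ιu ιv ιw rbar (WR (FrM L A hA) q (hFrx_inv L A hA)) q
      (algebraMap A₁ ↥(H40.chartB A₁ (J3N L (q := q))⁻¹) ((q : ℕ) : A₁)))
    (hc₂ : ∀ (b : ↥(H40.chartB A₁ (J3N L (q := q))⁻¹)) (h : (b : F2) ∈ S36.H55.RO1 L hqL A hA PC),
      inclk L A ((red₂ b : ↥(integralClosure (Algebra.adjoin kA {(S18.H16.jK kA L)⁻¹}) FkL)) : FkL)
        = S36.H55.Rres1 L hqL A hA PC ⟨b, h⟩)
    (hq₂ : red₂ (algebraMap A₁ ↥(H40.chartB A₁ (J3N L (q := q))⁻¹) ((q : ℕ) : A₁)) = 0) :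
    ∃ t : ↥(H40.chartB A₁ (J3N L (q := q))⁻¹), red₂ t ≠ 0 ∧
      t * algebraMap A₁ ↥(H40.chartB A₁ (J3N L (q := q))⁻¹) ((q : ℕ) : A₁) ∈
        RingHom.ker red₂ ^ (q - 1) := by
  have P := placeSide_of_places L hqL A hA Pi P0 PA PB PC resA_eU resB_eU resC_eU
  letI := S36.H55.algPO1F2 L hqL A hA Pi
  haveI := S36.H95.isNoetherianRing_chartB_J3K_inv_A0 (A := A) hq.out hA (q * (q * L)) q (hq2_dvd L)
  haveI := S36.H95.isFractionRing_chartB_J3K_inv_A0 (A := A) (ℓ := q) (q * (q * L)) q (hq2_dvd L)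
  haveI := S36.H95.isIntegrallyClosed_chartB_J3K_inv_A0 (A := A) (ℓ := q) (q * (q * L)) q (hq2_dvd L)
  have hB : ∀ b : ↥(H40.chartB A₁ (J3N L (q := q))⁻¹),
      algebraMap ↥(H40.chartB A₁ (J3N L (q := q))⁻¹) F2 b ∈ PC.O1 := fun b =>
    S18.H55T.mem_of_isIntegral_adjoin_of_closed _ P.hOicc (fun r => (P.hconstc r).1)
      (hu_hw_c2 L hqL A hA P).fst b.2
  have hq0 : algebraMap A₁ ↥(H40.chartB A₁ (J3N L (q := q))⁻¹) ((q : ℕ) : A₁) ≠ 0 := by
    intro h0
    apply hϖ0_F2 L A (q := q)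
    have := congrArg (fun b : ↥(H40.chartB A₁ (J3N L (q := q))⁻¹) => (b : F2)) h0
    exact this
  refine hq2_of_place (F := F2) TC hq₂ hq0 (hW2_J3K_inv L A hA) PC.O1 PC.res1 PC.inv_mem
    PC.mem_or_inv_mem hB ?_ _ (q - 1) PC.τ_mem PC.res1_eq_zero_iff ?_
  · intro b
    have h := hc₂ b (hB b)
    constructor
    · intro h0
      have e : S36.H55.Rres1 L hqL A hA PC ⟨b, hB b⟩ = 0 := by
        rw [← h, h0]
        simp
      exact e
    · intro h0
      have e : inclk L A ((red₂ b : ↥(integralClosure (Algebra.adjoin kA {(S18.H16.jK kA L)⁻¹}) FkL)) :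
          FkL) = 0 := h.trans h0
      have e2 : ((red₂ b : ↥(integralClosure (Algebra.adjoin kA {(S18.H16.jK kA L)⁻¹}) FkL)) : FkL) = 0 :=
        (map_eq_zero (inclk L A)).1 e
      exact Subtype.ext e2
  · obtain ⟨u, hu, hui, hun⟩ := PC.unif_eq
    refine ⟨u, hu, hui, ?_⟩
    rw [← hun, map_natCast, map_natCast, map_natCast]

end Hq2

end Real

end Fermat.Agent.S36.H70
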