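import Mathlib
import Fermat.Agent.S36.H70_Hq2Inst

/-!
# S36, row (E2) (helper70): `hW4` at the real types

`hW4_J3K`, `hW4_J3K_inv` : `∃ d, W (W (W (W d))) ≠ d` for `W = WR (FrM L A hA) q _` on the two
level-`L` special-fibre rings `D = integralClosure kA[j̄^(±1)] FkL` (the `hW4` binder of
`S36.H61.crit36_of_threeComponents` / `S36.H40.exists_sep₁₃`; `hW2` is in `S36/H70_Hq2Inst`).
-/

set_option autoImplicit false
set_option linter.unusedSectionVars false
set_option linter.style.haveILetI false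
set_option synthInstance.maxHeartbeats 400000
set_option maxHeartbeats 1600000

noncomputable section

namespace Fermat.Agent.S36.H70

open ModularCurve Polynomial IsLocalRing Fermat.Agent.S28
open Fermat.Agent.S18 Fermat.Agent.S34.H92 Fermat.Agent.S34.H16 Fermat.Agent.S34.H55
open Fermat.Agent.S36.H83

local notation "Qbar" => AlgebraicClosure ℚ

section Real

variable (L : ℕ) [NeZero L] {q : ℕ} [hq : Fact q.Prime]
  (A : ValuationSubring Qbar) (hA : A.LiesOverPrime q)

local notation "kA" => IsLocalRing.ResidueField A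
local notation "FkL" => modularFunctionFieldFullC (IsLocalRing.ResidueField A) L

/-- a transcendental element is not fixed by `x ↦ x ^ n`, `n ≥ 2`. -/
theorem pow_ne_self_of_transcendental {k K : Type*} [Field k] [Field K] [Algebra k K]
    {w : K} (hw : Transcendental k w) {n : ℕ} (hn : 1 < n) : w ^ n ≠ w := by
  intro e
  apply hw
  refine ⟨X ^ n - X, ?_, ?_⟩
  · intro h0
    have h1 := congrArg (fun p : k[X] => p.coeff n) h0
    simp only [coeff_sub, coeff_X_pow, coeff_X, coeff_zero] at h1
    rw [if_pos trivial, if_neg (by omega)] at h1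
    simp at h1
  · rw [map_sub, map_pow, aeval_X, e, sub_self]

/-- four-fold version. -/
theorem pow4_ne_self_of_transcendental {k K : Type*} [Field k] [Field K] [Algebra k K]
    {w : K} (hw : Transcendental k w) {q : ℕ} (hq : 1 < q) : (((w ^ q) ^ q) ^ q) ^ q ≠ w := by
  rw [← pow_mul, ← pow_mul, ← pow_mul]
  apply pow_ne_self_of_transcendental hw
  have h1 : 1 < q * q := by nlinarith
  have h2 : 1 < q * q * q := by nlinarith
  nlinarith

/-- `hW4` on chart 1. -/
theorem hW4_J3K :
    ∃ d : ↥(integralClosure (Algebra.adjoin kA {S18.H16.jK kA L}) FkL),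
      WR (FrM L A hA) q (hFrx L A hA) (WR (FrM L A hA) q (hFrx L A hA)
        (WR (FrM L A hA) q (hFrx L A hA) (WR (FrM L A hA) q (hFrx L A hA) d))) ≠ d := by
  refine ⟨⟨S18.H16.jK kA L, isIntegral_algebraMap (R := Algebra.adjoin kA {S18.H16.jK kA L})
    (x := ⟨S18.H16.jK kA L, Algebra.self_mem_adjoin_singleton kA _⟩)⟩, fun e => ?_⟩
  have e' := congrArg (fun d : ↥(integralClosure (Algebra.adjoin kA {S18.H16.jK kA L}) FkL) =>
    (d : FkL)) e
  simp only [coe_WR] at e'
  simp only [map_pow, hFrx] at e'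
  exact pow4_ne_self_of_transcendental (S18.H16.transcendental_jK (K := kA) (N := L))
    hq.out.one_lt e'

/-- `hW4` on chart 2. -/
theorem hW4_J3K_inv :
    ∃ d : ↥(integralClosure (Algebra.adjoin kA {(S18.H16.jK kA L)⁻¹}) FkL),
      WR (FrM L A hA) q (hFrx_inv L A hA) (WR (FrM L A hA) q (hFrx_inv L A hA)
        (WR (FrM L A hA) q (hFrx_inv L A hA) (WR (FrM L A hA) q (hFrx_inv L A hA) d))) ≠ d := by
  refine ⟨⟨(S18.H16.jK kA L)⁻¹, isIntegral_algebraMap
    (R := Algebra.adjoin kA {(S18.H16.jK kA L)⁻¹})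
    (x := ⟨(S18.H16.jK kA L)⁻¹, Algebra.self_mem_adjoin_singleton kA _⟩)⟩, fun e => ?_⟩
  have e' := congrArg (fun d : ↥(integralClosure (Algebra.adjoin kA {(S18.H16.jK kA L)⁻¹}) FkL) =>
    (d : FkL)) e
  simp only [coe_WR] at e'
  simp only [map_pow, hFrx_inv] at e'
  have htr : Transcendental kA (S18.H16.jK kA L)⁻¹ := fun h =>
    (S18.H16.transcendental_jK (K := kA) (N := L)) (IsAlgebraic.inv_iff.1 h)
  exact pow4_ne_self_of_transcendental htr hq.out.one_lt e'

end Real

end Fermat.Agent.S36.H70
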