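/-
helper71: S36, real-types input `hW` of `S36.H71.eq_of_comap_eq` (uniqueness of the closed point
above a node): on the special fibre ring `D = integralClosure kA[w] (fullC kA M)` the relative
Frobenius `W = WR (FrM ..)` (`t ↦ t ^ ℓ`) satisfies `D ^ ℓ ⊆ W(D)`:

  `∀ r : D, ∃ r₂ : D, W r₂ = r ^ ℓ`,   `r₂ :=` the coefficientwise Frobenius of `r`.

(The other inclusion `W(D) ⊆ D ^ ℓ` is the field `hroot` of `TwoComponents`/`ThreeComponents`.)
-/
import Mathlib
import Fermat.Agent.S35.H27_ChartFrobE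

set_option autoImplicit false
set_option linter.unusedSectionVars false

noncomputable section

namespace Fermat.Agent.S36.H71

open ModularCurve IsLocalRing
open Fermat.Agent.S18 Fermat.Agent.S34 Fermat.Agent.S35.H27

local notation "Qbar" => AlgebraicClosure ℚ

section FrobRoot

variable (M : ℕ) [NeZero M] {ℓ : ℕ} [hℓ : Fact ℓ.Prime]
  {A : ValuationSubring Qbar} (hA : A.LiesOverPrime ℓ)

local notation "kA" => IsLocalRing.ResidueField A
local notation "FkM" => modularFunctionFieldFullC (IsLocalRing.ResidueField A) M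

/-- `Fr (σ x) = x ^ ℓ` at `kA`, `Fr = H55.FrM`, `σ` the coefficientwise Frobenius. -/
theorem FrM_coeffRingAut (x : FkM) :
    H55.FrM M A hA (S37.H53.coeffRingAut kA M (frobEquivResidue hA) x) = x ^ ℓ := by
  haveI : CharP kA ℓ := S18.H92.charP_residueField A hA
  exact frobLin_coeffRingAut kA ℓ M (frobEquivResidue hA) (frobEquivResidue_apply hA) x

/-- `W (PhiD r) = r ^ ℓ` on `D = integralClosure kA[w] (fullC kA M)`. -/
theorem WR_resRingHom (w : FkM)
    (hw : S37.H53.coeffRingAut kA M (frobEquivResidue hA) w = w)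
    (hFrw : H55.FrM M A hA w = w ^ ℓ)
    (r : ↥(integralClosure (Algebra.adjoin kA {w}) FkM)) :
    H55.WR (H55.FrM M A hA) ℓ hFrw (resRingHom kA M (frobEquivResidue hA) w hw r) = r ^ ℓ := by
  apply Subtype.ext
  exact FrM_coeffRingAut M hA (r : FkM)

/-- **`hW`**: `D ^ ℓ ⊆ W(D)`, any coordinate `w` fixed by the coefficientwise Frobenius. -/
theorem exists_WR_eq_pow (w : FkM)
    (hw : S37.H53.coeffRingAut kA M (frobEquivResidue hA) w = w)
    (hFrw : H55.FrM M A hA w = w ^ ℓ)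
    (r : ↥(integralClosure (Algebra.adjoin kA {w}) FkM)) :
    ∃ r₂ : ↥(integralClosure (Algebra.adjoin kA {w}) FkM),
      H55.WR (H55.FrM M A hA) ℓ hFrw r₂ = r ^ ℓ :=
  ⟨_, WR_resRingHom M hA w hw hFrw r⟩

/-- **`hW`, chart 1** (`w = j`): the `W` of `H55.twoComponents_JK`. -/
theorem exists_WR_eq_pow_jK
    (r : ↥(integralClosure (Algebra.adjoin kA {S18.H16.jK kA M}) FkM)) :
    ∃ r₂ : ↥(integralClosure (Algebra.adjoin kA {S18.H16.jK kA M}) FkM),
      H55.WR (H55.FrM M A hA) ℓ (H55.hFrx M A hA) r₂ = r ^ ℓ :=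
  exists_WR_eq_pow M hA _ (coeffRingAut_jK kA M _) (H55.hFrx M A hA) r

/-- **`hW`, chart 2** (`w = j⁻¹`): the `W` of `H55.twoComponents_JK_inv`. -/
theorem exists_WR_eq_pow_jK_inv
    (r : ↥(integralClosure (Algebra.adjoin kA {(S18.H16.jK kA M)⁻¹}) FkM)) :
    ∃ r₂ : ↥(integralClosure (Algebra.adjoin kA {(S18.H16.jK kA M)⁻¹}) FkM),
      H55.WR (H55.FrM M A hA) ℓ (H55.hFrx_inv M A hA) r₂ = r ^ ℓ :=
  exists_WR_eq_pow M hA _ (coeffRingAut_jK_inv kA M _) (H55.hFrx_inv M A hA) r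

end FrobRoot

end Fermat.Agent.S36.H71
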