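/-
helper71: S36, seam (E2) → (E6): **the level `q² L` chart is integral over the image of the level
`q L` chart** under a degeneracy map - the hypothesis `hint : ∀ b : B, φ.IsIntegralElem b` of
`S36.H47.unitIn_norm_locSubring_ringHom` / `S36.H85.hpt_of_levelMaps` (`hint_alpha`, `hint_beta`).

GENERIC PART (vocabulary of `S34.H55.chartMap`): `f : F1 →+* F` an `R0`-linear field
homomorphism, `B' = chartB R0 c ⊆ F1`, `B = chartB R0 u ⊆ F`, `φ = chartMap f hf hint : B' →+* B`.
If the coordinate `u` is integral over `f(B')`, then every `b ∈ B` is integral over `φ`.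
-/
import Mathlib
import Fermat.Agent.S34.H55_TwoComponentsGlue

set_option autoImplicit false
set_option linter.unusedSectionVars false
set_option linter.style.haveILetI false

namespace Fermat.Agent.S36.H71

open Polynomial Fermat.Agent.S18 Fermat.Agent.S34

section Generic

variable {R0 F1 F : Type*} [CommRing R0] [Field F1] [Algebra R0 F1] [Field F] [Algebra R0 F]

variable (R0) in
/-- the composite `B' → F1 → F` (see the next docstring). -/
noncomputable def chartToField (f : F1 →+* F) (c : F1) : ↥(H40.chartB R0 c) →+* F :=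
  f.comp ((H40.chartB R0 c).val : ↥(H40.chartB R0 c) →+* F1)

@[simp] theorem chartToField_apply (f : F1 →+* F) (c : F1) (b : ↥(H40.chartB R0 c)) :
    chartToField R0 f c b = f (b : F1) := rfl

/-- elements of `f(B')` are integral over `B'`. -/
theorem isIntegralElem_chartToField_map (f : F1 →+* F) (c : F1) (b : ↥(H40.chartB R0 c)) :
    (chartToField R0 f c).IsIntegralElem (f (b : F1)) :=
  (chartToField R0 f c).isIntegralElem_map (x := b)

/-- constants are integral over `B'`. -/
theorem isIntegralElem_chartToField_algebraMap (f : F1 →+* F)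
    (hf : ∀ r : R0, f (algebraMap R0 F1 r) = algebraMap R0 F r) (c : F1) (r : R0) :
    (chartToField R0 f c).IsIntegralElem (algebraMap R0 F r) := by
  have := isIntegralElem_chartToField_map f c (algebraMap R0 ↥(H40.chartB R0 c) r)
  rwa [show ((algebraMap R0 ↥(H40.chartB R0 c) r : ↥(H40.chartB R0 c)) : F1) =
    algebraMap R0 F1 r from rfl, hf] at this

/-- **Transitivity**: `u` integral over `f(B')`, `x` integral over `R0[u]` ⟹ `x` integral over
`f(B')`. -/
theorem isIntegralElem_chartToField_of_adjoin (f : F1 →+* F)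
    (hf : ∀ r : R0, f (algebraMap R0 F1 r) = algebraMap R0 F r) (c : F1) {u : F}
    (hu : (chartToField R0 f c).IsIntegralElem u) {x : F}
    (hx : IsIntegral (Algebra.adjoin R0 {u}) x) :
    (chartToField R0 f c).IsIntegralElem x := by
  letI : Algebra ↥(H40.chartB R0 c) F := (chartToField R0 f c).toAlgebra
  let C : Subalgebra ↥(H40.chartB R0 c) F := integralClosure ↥(H40.chartB R0 c) F
  have hle : ∀ y ∈ Algebra.adjoin R0 {u}, y ∈ C := by
    intro y hy
    induction hy using Algebra.adjoin_induction with
    | mem z hz =>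
      rw [Set.mem_singleton_iff] at hz
      subst hz
      exact hu
    | algebraMap r => exact isIntegralElem_chartToField_algebraMap f hf c r
    | add a b _ _ ha hb => exact C.add_mem ha hb
    | mul a b _ _ ha hb => exact C.mul_mem ha hb
  -- `x` is integral over `C`
  let incl : ↥(Algebra.adjoin R0 {u}) →+* ↥C :=
    { toFun := fun y => ⟨y.1, hle y.1 y.2⟩
      map_one' := rfl
      map_mul' := fun _ _ => rfl
      map_zero' := rfl
      map_add' := fun _ _ => rfl }
  have hxC : IsIntegral ↥C x := by
    have := IsIntegral.map_of_comp_eq (R := ↥(Algebra.adjoin R0 {u})) (S := F) (T := ↥C) (U := F)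
      incl (RingHom.id F) (RingHom.ext fun y => rfl) hx
    simpa using this
  have hxmem : x ∈ integralClosure ↥C F := hxC
  rw [integralClosure_idem, Algebra.mem_bot] at hxmem
  obtain ⟨y, rfl⟩ := hxmem
  exact y.2

/-- **`hint`**: every element of the chart `B = chartB R0 u` is integral over the chart map
`φ = chartMap f hf hint : chartB R0 c →+* chartB R0 u`, as soon as `u` is integral over `f(B')`. -/
theorem chartMap_isIntegralElem (f : F1 →+* F)
    (hf : ∀ r : R0, f (algebraMap R0 F1 r) = algebraMap R0 F r)
    {c : F1} {u : F} (hint : IsIntegral (Algebra.adjoin R0 {u}) (f c))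
    (hu : (chartToField R0 f c).IsIntegralElem u) (b : ↥(H40.chartB R0 u)) :
    (H55.chartMap f hf hint).IsIntegralElem b := by
  obtain ⟨p, hpm, hp⟩ := isIntegralElem_chartToField_of_adjoin f hf c hu
    (H40.mem_chartB.1 b.2)
  refine ⟨p, hpm, ?_⟩
  apply Subtype.ext
  have h1 : ((H40.chartB R0 u).val : ↥(H40.chartB R0 u) →+* F).comp (H55.chartMap f hf hint) =
      chartToField R0 f c := RingHom.ext fun _ => rfl
  have h2 := Polynomial.hom_eval₂ p (H55.chartMap f hf hint)
    ((H40.chartB R0 u).val : ↥(H40.chartB R0 u) →+* F) b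
  rw [h1] at h2
  show ((H40.chartB R0 u).val : ↥(H40.chartB R0 u) →+* F) (p.eval₂ (H55.chartMap f hf hint) b) = 0
  rw [h2]
  exact hp

/-- products of `f(B')`-integral elements are integral. -/
theorem isIntegralElem_chartToField_mul (f : F1 →+* F) (c : F1) {x y : F}
    (hx : (chartToField R0 f c).IsIntegralElem x)
    (hy : (chartToField R0 f c).IsIntegralElem y) :
    (chartToField R0 f c).IsIntegralElem (x * y) :=
  RingHom.IsIntegralElem.mul _ hx hy

/-- `w` integral over `R0[f c']` with `c' ∈ B'` ⟹ `w` integral over `f(B')`. -/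
theorem isIntegralElem_chartToField_of_adjoin_map (f : F1 →+* F)
    (hf : ∀ r : R0, f (algebraMap R0 F1 r) = algebraMap R0 F r) (c : F1)
    (c' : ↥(H40.chartB R0 c)) {w : F}
    (hw : IsIntegral (Algebra.adjoin R0 {f (c' : F1)}) w) :
    (chartToField R0 f c).IsIntegralElem w :=
  isIntegralElem_chartToField_of_adjoin f hf c (isIntegralElem_chartToField_map f c c') hw

/-- **`hint`, product form**: `u = f c₁ * w` with `c₁ ∈ B'` and `w` integral over `R0[f c₂]`,
`c₂ ∈ B'`. -/
theorem chartMap_isIntegralElem_of_mul (f : F1 →+* F)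
    (hf : ∀ r : R0, f (algebraMap R0 F1 r) = algebraMap R0 F r)
    {c : F1} {u : F} (hint : IsIntegral (Algebra.adjoin R0 {u}) (f c))
    (c₁ c₂ : ↥(H40.chartB R0 c)) (w : F) (huw : u = f (c₁ : F1) * w)
    (hw : IsIntegral (Algebra.adjoin R0 {f (c₂ : F1)}) w) (b : ↥(H40.chartB R0 u)) :
    (H55.chartMap f hf hint).IsIntegralElem b := by
  refine chartMap_isIntegralElem f hf hint ?_ b
  rw [huw]
  exact isIntegralElem_chartToField_mul f c (isIntegralElem_chartToField_map f c c₁)
    (isIntegralElem_chartToField_of_adjoin_map f hf c c₂ hw)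

end Generic

end Fermat.Agent.S36.H71
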