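/-
helper71: S36, (E2-int) AT THE REAL TYPES, **CHART 1 ONLY** (`J₃ ≠ ∞`): every element of the level
`q² L` chart `B = chartB A₁ J₃ ⊆ F₂ = FullC L₁ (q (q L))` is integral over the level `q L` chart
`B' = chartB A₁ J ⊆ F₁ = FullC L₁ (q L)` along BOTH degeneracy maps
`α = chartMap ι₂`, `β = chartMap V₂` (`ι₂ = S34.H55.iotaMN (q L)`, `V₂ = S34.H55.VMN (q L)`).

These are the hypotheses `hint_alpha`, `hint_beta` (`hintα`, `hintβ`) of
`S36.H85.hpt_of_levelMaps(_fixed)` / `S36.H69.geo36_two_charts_of_rows` on chart 1.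
(On chart 2 = `J₃ ≠ 0` the statement is FALSE for these maps - see board #3456 - and is not needed:
chart 2 is reduced to chart 1 by overlap + cusps.)

* `iotaMN_JN` : `ι₂ J = J_N` (`S34.H95.JK` at level `N = q (q L)`);
* `VMN_JN`    : `V₂ J = j_q · j_{q²}`;
* `hint_alpha1`, `hint_beta1` : the `hint` arguments of `S34.H55.chartMap` (existence of `α`, `β`);
* `alpha_isIntegralElem`, `beta_isIntegralElem`, `alpha_isIntegral`, `beta_isIntegral` : for ANY
  proof `hint` (proof irrelevance: whatever proof the owner of `α`, `β` used).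
-/
import Fermat.Agent.S36.H71_ChartMapIntegral
import Fermat.Agent.S36.H83_L0ThreePre

set_option autoImplicit false
set_option linter.unusedSectionVars false
set_option linter.style.haveILetI false
set_option synthInstance.maxHeartbeats 400000

noncomputable section

namespace Fermat.Agent.S36.H71

open ModularCurve Polynomial IsLocalRing Fermat.Agent.S28
open Fermat.Agent.S18 Fermat.Agent.S34.H92 Fermat.Agent.S34.H16 Fermat.Agent.S34.H55

local notation "Qbar" => AlgebraicClosure ℚ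

section Inst

variable (L : ℕ) [NeZero L] {q : ℕ} [hq : Fact q.Prime]
  (A : ValuationSubring Qbar)

local notation "A₁" => H45.A0 A q
local notation "L₁" => H45.unrCyclo q
local notation "F1" => modularFunctionFieldFullC (H45.unrCyclo q) (q * L)
local notation "F2" => modularFunctionFieldFullC (H45.unrCyclo q) (q * (q * L))

/-- `ι₂` sends the level-`q L` coordinate `J = j · j_q` to the same function at level
`q (q L)`. -/
theorem iotaMN_JN : iotaMN (q * L) (ℓ := q) (JN L (ℓ := q)) =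
    S34.H95.JK L₁ (q * (q * L)) q (Dvd.intro (q * L) rfl) := by
  apply Subtype.ext
  rw [coe_iotaMN, S34.H95.coe_JK, S34.H95.coe_JK]

/-- `V₂` sends the level-`q L` coordinate `J = j · j_q` to `j_q · j_{q²}`. -/
theorem VMN_JN : VMN (q * L) (ℓ := q) (JN L (ℓ := q)) =
    S18.H99.jdK L₁ (q * (q * L)) q (Dvd.intro (q * L) rfl) *
      S18.H99.jdK L₁ (q * (q * L)) (q * q) (S36.H83.hq2_dvd L) := by
  apply Subtype.ext
  rw [coe_VMN, S34.H95.coe_JK]
  simp only [map_mul, MulMemClass.coe_mul, S18.H99.coe_jdK, qExpand_qExpand]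

/-- `J₃` is integral over `A₁[ι₂ J]`. -/
theorem isIntegral_adjoin_iotaMN_JN_J3N :
    IsIntegral (Algebra.adjoin A₁ {iotaMN (q * L) (ℓ := q) (JN L (ℓ := q))})
      (S36.H83.J3N L (q := q)) := by
  obtain ⟨D, hD⟩ := S28.H16.hasModPoly q
  rw [iotaMN_JN]
  exact (S36.H95.isIntegral_adjoin_JK_iff_J3K L₁ (q * (q * L)) q (Dvd.intro (q * L) rfl)
    (S36.H83.hq2_dvd L) D hD _).mpr (S36.H95.isIntegral_adjoin_self _)

/-- `J₃` is integral over `A₁[V₂ J]`. -/
theorem isIntegral_adjoin_VMN_JN_J3N :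
    IsIntegral (Algebra.adjoin A₁ {VMN (q * L) (ℓ := q) (JN L (ℓ := q))})
      (S36.H83.J3N L (q := q)) := by
  obtain ⟨D, hD⟩ := S28.H16.hasModPoly q
  rw [VMN_JN]
  -- `b = j_q`, `c = j_{q²}`, `x = b * c`
  have hc : IsIntegral (Algebra.adjoin A₁
      {S18.H99.jdK L₁ (q * (q * L)) q (Dvd.intro (q * L) rfl) *
        S18.H99.jdK L₁ (q * (q * L)) (q * q) (S36.H83.hq2_dvd L)})
      (S18.H99.jdK L₁ (q * (q * L)) (q * q) (S36.H83.hq2_dvd L)) :=
    S36.H95.isIntegral_adjoin_mul_of_isIntegral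
      (S36.H95.isIntegral_adjoin_jdK_jdK2 L₁ (q * (q * L)) q (Dvd.intro (q * L) rfl)
        (S36.H83.hq2_dvd L) D)
  have hb : IsIntegral (Algebra.adjoin A₁
      {S18.H99.jdK L₁ (q * (q * L)) q (Dvd.intro (q * L) rfl) *
        S18.H99.jdK L₁ (q * (q * L)) (q * q) (S36.H83.hq2_dvd L)})
      (S18.H99.jdK L₁ (q * (q * L)) q (Dvd.intro (q * L) rfl)) := by
    rw [mul_comm (S18.H99.jdK L₁ (q * (q * L)) q (Dvd.intro (q * L) rfl))
      (S18.H99.jdK L₁ (q * (q * L)) (q * q) (S36.H83.hq2_dvd L))]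
    exact S36.H95.isIntegral_adjoin_mul_of_isIntegral
      (S36.H95.isIntegral_adjoin_jdK2_jdK L₁ (q * (q * L)) q (Dvd.intro (q * L) rfl)
        (S36.H83.hq2_dvd L) D hD)
  have ha : IsIntegral (Algebra.adjoin A₁
      {S18.H99.jdK L₁ (q * (q * L)) q (Dvd.intro (q * L) rfl) *
        S18.H99.jdK L₁ (q * (q * L)) (q * q) (S36.H83.hq2_dvd L)})
      (S18.H16.jK L₁ (q * (q * L))) :=
    H55T.isIntegral_adjoin_trans hb
      (S36.H95.isIntegral_adjoin_jdK_jK L₁ (q * (q * L)) q (Dvd.intro (q * L) rfl) D hD)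
  exact (ha.mul hb).mul hc

/-- **`hint` for `α`**: `ι₂ J` is integral over `A₁[J₃]` (so that `α = chartMap ι₂ ..` exists). -/
theorem hint_alpha1 : IsIntegral (Algebra.adjoin A₁ {S36.H83.J3N L (q := q)})
    (iotaMN (q * L) (ℓ := q) (JN L (ℓ := q))) := by
  obtain ⟨D, hD⟩ := S28.H16.hasModPoly q
  rw [iotaMN_JN]
  exact (S36.H95.isIntegral_adjoin_JK_iff_J3K L₁ (q * (q * L)) q (Dvd.intro (q * L) rfl)
    (S36.H83.hq2_dvd L) D hD _).mp (S36.H95.isIntegral_adjoin_self _)

/-- **`hint` for `β`**: `V₂ J = j_q · j_{q²}` is integral over `A₁[J₃]`. -/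
theorem hint_beta1 : IsIntegral (Algebra.adjoin A₁ {S36.H83.J3N L (q := q)})
    (VMN (q * L) (ℓ := q) (JN L (ℓ := q))) := by
  obtain ⟨D, hD⟩ := S28.H16.hasModPoly q
  rw [VMN_JN]
  have h := S36.H95.isIntegral_adjoin_J3K (R0 := A₁) L₁ (q * (q * L)) q (Dvd.intro (q * L) rfl)
    (S36.H83.hq2_dvd L) D hD
  exact h.2.1.mul h.2.2

/-- `J₃` is integral over `ι₂(B')`. -/
theorem J3N_isIntegralElem_alpha :
    (chartToField A₁ (iotaMN (q * L) (ℓ := q)) (JN L (ℓ := q))).IsIntegralElem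
      (S36.H83.J3N L (q := q)) :=
  isIntegralElem_chartToField_of_adjoin_map (iotaMN (q * L) (ℓ := q))
    (iotaMN_algebraMap (q * L) A) (JN L (ℓ := q)) ⟨JN L (ℓ := q), H40.self_mem_chartB _⟩
    (isIntegral_adjoin_iotaMN_JN_J3N L A)

/-- `J₃` is integral over `V₂(B')`. -/
theorem J3N_isIntegralElem_beta :
    (chartToField A₁ (VMN (q * L) (ℓ := q)) (JN L (ℓ := q))).IsIntegralElem
      (S36.H83.J3N L (q := q)) :=
  isIntegralElem_chartToField_of_adjoin_map (VMN (q * L) (ℓ := q))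
    (VMN_algebraMap (q * L) A) (JN L (ℓ := q)) ⟨JN L (ℓ := q), H40.self_mem_chartB _⟩
    (isIntegral_adjoin_VMN_JN_J3N L A)

/-- **`hint_alpha` on chart 1** (any proof `hint` of existence of `α`). -/
theorem alpha_isIntegralElem
    (hint : IsIntegral (Algebra.adjoin A₁ {S36.H83.J3N L (q := q)})
      (iotaMN (q * L) (ℓ := q) (JN L (ℓ := q))))
    (b : ↥(H40.chartB A₁ (S36.H83.J3N L (q := q)))) :
    (chartMap (iotaMN (q * L) (ℓ := q)) (iotaMN_algebraMap (q * L) A) hint).IsIntegralElem b :=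
  chartMap_isIntegralElem _ _ hint (J3N_isIntegralElem_alpha L A) b

/-- **`hint_beta` on chart 1** (any proof `hint` of existence of `β`). -/
theorem beta_isIntegralElem
    (hint : IsIntegral (Algebra.adjoin A₁ {S36.H83.J3N L (q := q)})
      (VMN (q * L) (ℓ := q) (JN L (ℓ := q))))
    (b : ↥(H40.chartB A₁ (S36.H83.J3N L (q := q)))) :
    (chartMap (VMN (q * L) (ℓ := q)) (VMN_algebraMap (q * L) A) hint).IsIntegralElem b :=
  chartMap_isIntegralElem _ _ hint (J3N_isIntegralElem_beta L A) b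

/-- `α` is an integral ring homomorphism (chart 1). -/
theorem alpha_isIntegral
    (hint : IsIntegral (Algebra.adjoin A₁ {S36.H83.J3N L (q := q)})
      (iotaMN (q * L) (ℓ := q) (JN L (ℓ := q)))) :
    (chartMap (iotaMN (q * L) (ℓ := q)) (iotaMN_algebraMap (q * L) A) hint).IsIntegral :=
  fun b => alpha_isIntegralElem L A hint b

/-- `β` is an integral ring homomorphism (chart 1). -/
theorem beta_isIntegral
    (hint : IsIntegral (Algebra.adjoin A₁ {S36.H83.J3N L (q := q)})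
      (VMN (q * L) (ℓ := q) (JN L (ℓ := q)))) :
    (chartMap (VMN (q * L) (ℓ := q)) (VMN_algebraMap (q * L) A) hint).IsIntegral :=
  fun b => beta_isIntegralElem L A hint b

/-- the canonical `α` of chart 1. -/
abbrev alpha1 : ↥(H40.chartB A₁ (JN L (ℓ := q))) →+* ↥(H40.chartB A₁ (S36.H83.J3N L (q := q))) :=
  chartMap (iotaMN (q * L) (ℓ := q)) (iotaMN_algebraMap (q * L) A) (hint_alpha1 L A)

/-- the canonical `β` of chart 1. -/
abbrev beta1 : ↥(H40.chartB A₁ (JN L (ℓ := q))) →+* ↥(H40.chartB A₁ (S36.H83.J3N L (q := q))) :=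
  chartMap (VMN (q * L) (ℓ := q)) (VMN_algebraMap (q * L) A) (hint_beta1 L A)

theorem alpha1_isIntegral : (alpha1 L A (q := q)).IsIntegral := alpha_isIntegral L A _

theorem beta1_isIntegral : (beta1 L A (q := q)).IsIntegral := beta_isIntegral L A _

end Inst

end Fermat.Agent.S36.H71
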