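import Fermat.Agent.S34.H55_L0Base
import Fermat.Agent.S36.H95_CoordJ3Int
import Fermat.Agent.S36.H40_ChartSide

/-!
# S36, row (E2-chart): the chart-side hypotheses at the real types (helper40)

Level tower `M ∣ ℓ M ∣ ℓ (ℓ M)` over `L₁ = unrCyclo ℓ`, `A₁ = A0 A ℓ`:
`F0 = FullC L₁ M`, `F1 = FullC L₁ (ℓ * M)`, `F2 = FullC L₁ (ℓ * (ℓ * M))`.  The three degeneracy
maps `F0 → F2` in the `S34.H55` vocabulary:

* `e3u = ι₂ ∘ ι` (`f(z)`), `e3v = ι₂ ∘ V` (`f(ℓ z)`), `e3w = V₂ ∘ V` (`f(ℓ² z)`)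
  (`ι = S34.H55.iotaMN`, `V = S34.H55.VMN`; these are helper83's `ιu ιv ιw` and helper55's
  `e_w e_v e_u`).

Exports, for the two charts `(c, u, w) = (j, J₃, j̄)` and `(j⁻¹, J₃⁻¹, j̄⁻¹)` of
`S36.H83.threeComponents_of_incl`:

* `e3u_algebraMap`, `e3v_algebraMap`, `e3w_algebraMap` : `hιu hιv hιw`;
* `e3u_jK`, `e3v_jK`, `e3w_jK` : the images of `j` are `j`, `j_ℓ`, `j_{ℓ²}`;
* `J3K_eq_prod`, `J3K_inv_eq_prod` : `J₃^(±1) = e3u c * e3v c * e3w c` for `c = j^(±1)`;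
* `huint_J3` … `hwint_J3_inv` : `huint hvint hwint` for both charts (from helper95's `(E2-coord)`).
-/

set_option autoImplicit false
set_option linter.unusedSectionVars false
set_option linter.style.haveILetI false
set_option synthInstance.maxHeartbeats 400000

noncomputable section

namespace Fermat.Agent.S36.H40

open ModularCurve Polynomial IsLocalRing Fermat.Agent.S28
open Fermat.Agent.S18 Fermat.Agent.S34.H92 Fermat.Agent.S34.H16 Fermat.Agent.S34.H55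

local notation "Qbar" => AlgebraicClosure ℚ

section Three

variable (M : ℕ) [NeZero M] {ℓ : ℕ} [hℓ : Fact ℓ.Prime] (A : ValuationSubring Qbar)

local notation "A₁" => H45.A0 A ℓ
local notation "L₁" => H45.unrCyclo ℓ
local notation "F0" => modularFunctionFieldFullC (H45.unrCyclo ℓ) M
local notation "F1" => modularFunctionFieldFullC (H45.unrCyclo ℓ) (ℓ * M)
local notation "F2" => modularFunctionFieldFullC (H45.unrCyclo ℓ) (ℓ * (ℓ * M))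

/-- `f(z)`: the composite level inclusion `F0 → F1 → F2`. -/
def e3u : F0 →+* F2 := (iotaMN (ℓ * M) (ℓ := ℓ)).comp (iotaMN M (ℓ := ℓ))

/-- `f(ℓ z)`: `F0 → F1` by `t ↦ t ^ ℓ`, then the level inclusion `F1 → F2`. -/
def e3v : F0 →+* F2 := (iotaMN (ℓ * M) (ℓ := ℓ)).comp (VMN M (ℓ := ℓ))

/-- `f(ℓ² z)`: `t ↦ t ^ ℓ` twice. -/
def e3w : F0 →+* F2 := (VMN (ℓ * M) (ℓ := ℓ)).comp (VMN M (ℓ := ℓ))

theorem coe_e3u (x : F0) : ((e3u M (ℓ := ℓ) x : F2) : LaurentSeries L₁) = x := by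
  rw [e3u, RingHom.comp_apply, coe_iotaMN, coe_iotaMN]

theorem coe_e3v (x : F0) :
    ((e3v M (ℓ := ℓ) x : F2) : LaurentSeries L₁) = qExpand L₁ ℓ (x : LaurentSeries L₁) := by
  rw [e3v, RingHom.comp_apply, coe_iotaMN, coe_VMN]

theorem coe_e3w (x : F0) :
    ((e3w M (ℓ := ℓ) x : F2) : LaurentSeries L₁) =
      qExpand L₁ (ℓ * ℓ) (x : LaurentSeries L₁) := by
  rw [e3w, RingHom.comp_apply, coe_VMN, coe_VMN, qExpand_qExpand]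

/-! ### `A₁`-linearity -/

theorem e3u_algebraMap (r : A₁) : e3u M (ℓ := ℓ) (algebraMap A₁ F0 r) = algebraMap A₁ F2 r := by
  rw [e3u, RingHom.comp_apply, iotaMN_algebraMap, iotaMN_algebraMap]

theorem e3v_algebraMap (r : A₁) : e3v M (ℓ := ℓ) (algebraMap A₁ F0 r) = algebraMap A₁ F2 r := by
  rw [e3v, RingHom.comp_apply, VMN_algebraMap, iotaMN_algebraMap]

theorem e3w_algebraMap (r : A₁) : e3w M (ℓ := ℓ) (algebraMap A₁ F0 r) = algebraMap A₁ F2 r := by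
  rw [e3w, RingHom.comp_apply, VMN_algebraMap, VMN_algebraMap]

/-! ### The images of `j` -/

theorem dvd_level₂ : ℓ ∣ ℓ * (ℓ * M) := Dvd.intro _ rfl

theorem sq_dvd_level₂ : ℓ * ℓ ∣ ℓ * (ℓ * M) := ⟨M, by ring⟩

theorem e3u_jK : e3u M (ℓ := ℓ) (S18.H16.jK L₁ M) = S18.H16.jK L₁ (ℓ * (ℓ * M)) := by
  apply Subtype.ext
  rw [coe_e3u]
  rfl

theorem e3v_jK : e3v M (ℓ := ℓ) (S18.H16.jK L₁ M) =
    S18.H99.jdK L₁ (ℓ * (ℓ * M)) ℓ (dvd_level₂ M) := by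
  apply Subtype.ext
  rw [coe_e3v]
  rfl

theorem e3w_jK : e3w M (ℓ := ℓ) (S18.H16.jK L₁ M) =
    S18.H99.jdK L₁ (ℓ * (ℓ * M)) (ℓ * ℓ) (sq_dvd_level₂ M) := by
  apply Subtype.ext
  rw [coe_e3w]
  rfl

/-- the level-`ℓ² M` chart coordinate `J₃` (helper83). -/
abbrev J3N : F2 := S36.H83.J3K L₁ (ℓ * (ℓ * M)) ℓ (sq_dvd_level₂ M)

/-- **`J₃ = e3u j * e3v j * e3w j`.** -/
theorem J3K_eq_prod :
    J3N M (ℓ := ℓ) = e3u M (ℓ := ℓ) (S18.H16.jK L₁ M) * e3v M (ℓ := ℓ) (S18.H16.jK L₁ M) *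
      e3w M (ℓ := ℓ) (S18.H16.jK L₁ M) := by
  rw [e3u_jK, e3v_jK, e3w_jK]
  rfl

/-- **`J₃⁻¹ = e3u j⁻¹ * e3v j⁻¹ * e3w j⁻¹`.** -/
theorem J3K_inv_eq_prod :
    (J3N M (ℓ := ℓ))⁻¹ = e3u M (ℓ := ℓ) (S18.H16.jK L₁ M)⁻¹ *
      e3v M (ℓ := ℓ) (S18.H16.jK L₁ M)⁻¹ * e3w M (ℓ := ℓ) (S18.H16.jK L₁ M)⁻¹ := by
  rw [map_inv₀, map_inv₀, map_inv₀, ← mul_inv, ← mul_inv, ← J3K_eq_prod]

/-! ### `huint hvint hwint` -/

/-- **`huint`, chart `J₃`.** -/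
theorem huint_J3 :
    IsIntegral (Algebra.adjoin A₁ {J3N M (ℓ := ℓ)}) (e3u M (ℓ := ℓ) (S18.H16.jK L₁ M)) := by
  obtain ⟨D, hD⟩ := S28.H16.hasModPoly ℓ
  rw [e3u_jK]
  exact (S36.H95.isIntegral_adjoin_J3K (R0 := A₁) L₁ (ℓ * (ℓ * M)) ℓ (dvd_level₂ M)
    (sq_dvd_level₂ M) D hD).1

/-- **`hvint`, chart `J₃`.** -/
theorem hvint_J3 :
    IsIntegral (Algebra.adjoin A₁ {J3N M (ℓ := ℓ)}) (e3v M (ℓ := ℓ) (S18.H16.jK L₁ M)) := by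
  obtain ⟨D, hD⟩ := S28.H16.hasModPoly ℓ
  rw [e3v_jK]
  exact (S36.H95.isIntegral_adjoin_J3K (R0 := A₁) L₁ (ℓ * (ℓ * M)) ℓ (dvd_level₂ M)
    (sq_dvd_level₂ M) D hD).2.1

/-- **`hwint`, chart `J₃`.** -/
theorem hwint_J3 :
    IsIntegral (Algebra.adjoin A₁ {J3N M (ℓ := ℓ)}) (e3w M (ℓ := ℓ) (S18.H16.jK L₁ M)) := by
  obtain ⟨D, hD⟩ := S28.H16.hasModPoly ℓ
  rw [e3w_jK]
  exact (S36.H95.isIntegral_adjoin_J3K (R0 := A₁) L₁ (ℓ * (ℓ * M)) ℓ (dvd_level₂ M)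
    (sq_dvd_level₂ M) D hD).2.2

/-- **`huint`, chart `J₃⁻¹`.** -/
theorem huint_J3_inv :
    IsIntegral (Algebra.adjoin A₁ {(J3N M (ℓ := ℓ))⁻¹})
      (e3u M (ℓ := ℓ) (S18.H16.jK L₁ M)⁻¹) := by
  obtain ⟨D, hD⟩ := S28.H16.hasModPoly ℓ
  rw [map_inv₀, e3u_jK]
  exact (S36.H95.isIntegral_adjoin_J3K_inv (R0 := A₁) L₁ (ℓ * (ℓ * M)) ℓ (dvd_level₂ M)
    (sq_dvd_level₂ M) D hD).1

/-- **`hvint`, chart `J₃⁻¹`.** -/
theorem hvint_J3_inv :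
    IsIntegral (Algebra.adjoin A₁ {(J3N M (ℓ := ℓ))⁻¹})
      (e3v M (ℓ := ℓ) (S18.H16.jK L₁ M)⁻¹) := by
  obtain ⟨D, hD⟩ := S28.H16.hasModPoly ℓ
  rw [map_inv₀, e3v_jK]
  exact (S36.H95.isIntegral_adjoin_J3K_inv (R0 := A₁) L₁ (ℓ * (ℓ * M)) ℓ (dvd_level₂ M)
    (sq_dvd_level₂ M) D hD).2.1

/-- **`hwint`, chart `J₃⁻¹`.** -/
theorem hwint_J3_inv :
    IsIntegral (Algebra.adjoin A₁ {(J3N M (ℓ := ℓ))⁻¹})
      (e3w M (ℓ := ℓ) (S18.H16.jK L₁ M)⁻¹) := by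
  obtain ⟨D, hD⟩ := S28.H16.hasModPoly ℓ
  rw [map_inv₀, e3w_jK]
  exact (S36.H95.isIntegral_adjoin_J3K_inv (R0 := A₁) L₁ (ℓ * (ℓ * M)) ℓ (dvd_level₂ M)
    (sq_dvd_level₂ M) D hD).2.2

end Three

end Fermat.Agent.S36.H40
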