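/-
helper95 — S36, row (E2-bcmaps): the three degeneracy embeddings
`f(z), f(ℓ z), f(ℓ² z) : F_K(M) → F_K(ℓ (ℓ M))` over an ARBITRARY constant field `K`, their
compatibility with coefficientwise maps `H99.fullCMap`, and — at `K = ↥E`, `E ⊇ K1 = unrCyclo ℓ` —
the hypotheses `ιuE ιvE ιwE`, `hubc huc hvbc hvc hwbc hwc` of
`S36.H70.threeComponents_cutOver` (base change of `ThreeComponents` from the `A₁`-charts to the
`cutOver A E`-charts).

* `e3uK e3vK e3wK K M ℓ`   : the three maps (same composites as helper40's `S36.H40.e3u e3v e3w`,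
  to which they are definitionally equal at `K = unrCyclo ℓ`: `e3u_eq e3v_eq e3w_eq`);
* `coe_e3uK` …             : `t`-expansions `x`, `qExpand ℓ x`, `qExpand (ℓ * ℓ) x`;
* `e3uK_algebraMap` …      : `K`-linearity;   `e3uK_jK` … : images of `j`;
* `fullCMap_e3uK` …        : `fullCMap f ∘ e3•K K = e3•K K' ∘ fullCMap f`;
* `e3uE_baseChangeE` …     : `hubc hvbc hwbc` (for all `x : F1(M)`; `_chart` variants for chart
  elements through `S34.H55.chartMap`);
* `e3uE_algebraMap_cutOver` … : `huc hvc hwc`;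
* `baseChangeE_J3N(_inv)`  : the `E`-level coordinate is the base change of helper40's `J3N M`;
* `chartMap_algebraMap₅₅`  : `huA₁ hvA₁ hwA₁` (`S34.H55.chartMap f ..` fixes the base ring).
-/
import Fermat.Agent.S36.H40_L0ThreeChartInst
import Fermat.Agent.S36.H95_CoordJ3Inst
import Fermat.Prelude.Thm_ModularCurve_coeffMap_qExpand

set_option autoImplicit false
set_option linter.unusedSectionVars false
set_option linter.style.haveILetI false
set_option synthInstance.maxHeartbeats 400000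

noncomputable section

namespace Fermat.Agent.S36.H95

open ModularCurve HahnSeries IntermediateField Fermat.Agent.S18 Fermat.Agent.S18.H45
open Fermat.Agent.S34 Fermat.Agent.S34.H16

local notation "Qbar" => AlgebraicClosure ℚ

/-! ### `S34.H55.chartMap` is linear over the base ring -/

section ChartMap

variable {R0 F1 F : Type*} [CommRing R0] [Field F1] [Algebra R0 F1] [Field F] [Algebra R0 F]

/-- `huA₁ hvA₁ hwA₁` of `S36.H70.threeComponents_cutOver` for `ι := S34.H55.chartMap f hf hint`. -/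
theorem chartMap_algebraMap₅₅ (f : F1 →+* F)
    (hf : ∀ r : R0, f (algebraMap R0 F1 r) = algebraMap R0 F r)
    {c : F1} {u : F} (hint : IsIntegral (Algebra.adjoin R0 {u}) (f c)) (r : R0) :
    H55.chartMap f hf hint (algebraMap R0 ↥(H40.chartB R0 c) r) =
      algebraMap R0 ↥(H40.chartB R0 u) r :=
  Subtype.ext (hf r)

end ChartMap

/-! ### The three maps over an arbitrary constant field -/

section Generic

variable (K : Type) [Field K] (M : ℕ) [NeZero M] (ℓ : ℕ) [NeZero ℓ]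

/-- the level inclusion `F_K(M) ⊆ F_K(N)` (`M ∣ N`) as a ring hom. -/
def inclMN (N : ℕ) [NeZero N] (h : M ∣ N) :
    modularFunctionFieldFullC K M →+* modularFunctionFieldFullC K N :=
  @algebraMap (modularFunctionFieldFullC K M) (modularFunctionFieldFullC K N) _ _
    (degAlgebra K M N h)

theorem coe_inclMN (N : ℕ) [NeZero N] (h : M ∣ N) (x : modularFunctionFieldFullC K M) :
    ((inclMN K M N h x : modularFunctionFieldFullC K N) : LaurentSeries K) = x :=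
  degAlgebra_algebraMap_coe K M N h x

theorem dvd_level₁ : M ∣ ℓ * M := Dvd.intro_left ℓ rfl

theorem dvd_level₁₂ : ℓ * M ∣ ℓ * (ℓ * M) := Dvd.intro_left ℓ rfl

/-- `f(z)`: the composite level inclusion `F_K(M) → F_K(ℓ M) → F_K(ℓ (ℓ M))`. -/
def e3uK : modularFunctionFieldFullC K M →+* modularFunctionFieldFullC K (ℓ * (ℓ * M)) :=
  (inclMN K (ℓ * M) (ℓ * (ℓ * M)) (dvd_level₁₂ M ℓ)).comp (inclMN K M (ℓ * M) (dvd_level₁ M ℓ))

/-- the substitution `t ↦ t ^ ℓ`, `F_K(M) → F_K(N)` (`ℓ * M ∣ N`), as a ring hom. -/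
def vSubMN (N : ℕ) [NeZero N] (h : ℓ * M ∣ N) :
    modularFunctionFieldFullC K M →+* modularFunctionFieldFullC K N :=
  (H36.vSub K ℓ M N h : modularFunctionFieldFullC K M →ₐ[K] modularFunctionFieldFullC K N)

theorem coe_vSubMN (N : ℕ) [NeZero N] (h : ℓ * M ∣ N) (x : modularFunctionFieldFullC K M) :
    ((vSubMN K M ℓ N h x : modularFunctionFieldFullC K N) : LaurentSeries K) =
      qExpand K ℓ (x : LaurentSeries K) :=
  H36.coe_vSub K ℓ M N h x

theorem vSubMN_algebraMap (N : ℕ) [NeZero N] (h : ℓ * M ∣ N) (c : K) :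
    vSubMN K M ℓ N h (algebraMap K (modularFunctionFieldFullC K M) c) =
      algebraMap K (modularFunctionFieldFullC K N) c :=
  (H36.vSub K ℓ M N h).commutes c

theorem inclMN_algebraMap (N : ℕ) [NeZero N] (h : M ∣ N) (c : K) :
    inclMN K M N h (algebraMap K (modularFunctionFieldFullC K M) c) =
      algebraMap K (modularFunctionFieldFullC K N) c := by
  unfold inclMN
  rw [degAlgebra_algebraMap_eq K M N h]
  exact (IntermediateField.inclusion (full_degeneracyC_le K h)).commutes c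

/-- `f(ℓ z)`: `t ↦ t ^ ℓ`, then the level inclusion. -/
def e3vK : modularFunctionFieldFullC K M →+* modularFunctionFieldFullC K (ℓ * (ℓ * M)) :=
  (inclMN K (ℓ * M) (ℓ * (ℓ * M)) (dvd_level₁₂ M ℓ)).comp (vSubMN K M ℓ (ℓ * M) dvd_rfl)

/-- `f(ℓ² z)`: `t ↦ t ^ ℓ` twice. -/
def e3wK : modularFunctionFieldFullC K M →+* modularFunctionFieldFullC K (ℓ * (ℓ * M)) :=
  (vSubMN K (ℓ * M) ℓ (ℓ * (ℓ * M)) dvd_rfl).comp (vSubMN K M ℓ (ℓ * M) dvd_rfl)

theorem coe_e3uK (x : modularFunctionFieldFullC K M) :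
    ((e3uK K M ℓ x : modularFunctionFieldFullC K (ℓ * (ℓ * M))) : LaurentSeries K) = x := by
  rw [e3uK, RingHom.comp_apply, coe_inclMN, coe_inclMN]

theorem coe_e3vK (x : modularFunctionFieldFullC K M) :
    ((e3vK K M ℓ x : modularFunctionFieldFullC K (ℓ * (ℓ * M))) : LaurentSeries K) =
      qExpand K ℓ (x : LaurentSeries K) := by
  rw [e3vK, RingHom.comp_apply, coe_inclMN, coe_vSubMN]

theorem coe_e3wK (x : modularFunctionFieldFullC K M) :
    ((e3wK K M ℓ x : modularFunctionFieldFullC K (ℓ * (ℓ * M))) : LaurentSeries K) =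
      qExpand K (ℓ * ℓ) (x : LaurentSeries K) := by
  rw [e3wK, RingHom.comp_apply, coe_vSubMN, coe_vSubMN, qExpand_qExpand]

/-! #### `K`-linearity -/

theorem e3uK_algebraMap (c : K) :
    e3uK K M ℓ (algebraMap K (modularFunctionFieldFullC K M) c) =
      algebraMap K (modularFunctionFieldFullC K (ℓ * (ℓ * M))) c := by
  rw [e3uK, RingHom.comp_apply, inclMN_algebraMap, inclMN_algebraMap]

theorem e3vK_algebraMap (c : K) :
    e3vK K M ℓ (algebraMap K (modularFunctionFieldFullC K M) c) =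
      algebraMap K (modularFunctionFieldFullC K (ℓ * (ℓ * M))) c := by
  rw [e3vK, RingHom.comp_apply, vSubMN_algebraMap, inclMN_algebraMap]

theorem e3wK_algebraMap (c : K) :
    e3wK K M ℓ (algebraMap K (modularFunctionFieldFullC K M) c) =
      algebraMap K (modularFunctionFieldFullC K (ℓ * (ℓ * M))) c := by
  rw [e3wK, RingHom.comp_apply, vSubMN_algebraMap, vSubMN_algebraMap]

/-! #### The images of `j` -/

theorem dvd_level₂' : ℓ ∣ ℓ * (ℓ * M) := Dvd.intro _ rfl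

theorem sq_dvd_level₂' : ℓ * ℓ ∣ ℓ * (ℓ * M) := ⟨M, by ring⟩

theorem e3uK_jK : e3uK K M ℓ (S18.H16.jK K M) = S18.H16.jK K (ℓ * (ℓ * M)) := by
  apply Subtype.ext
  rw [coe_e3uK]
  rfl

theorem e3vK_jK :
    e3vK K M ℓ (S18.H16.jK K M) = S18.H99.jdK K (ℓ * (ℓ * M)) ℓ (dvd_level₂' M ℓ) := by
  apply Subtype.ext
  rw [coe_e3vK]
  rfl

theorem e3wK_jK :
    e3wK K M ℓ (S18.H16.jK K M) =
      S18.H99.jdK K (ℓ * (ℓ * M)) (ℓ * ℓ) (sq_dvd_level₂' M ℓ) := by
  apply Subtype.ext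
  rw [coe_e3wK]
  rfl

/-- **`J₃ = e3u j * e3v j * e3w j`** over any `K`. -/
theorem J3K_eq_prod_e3K :
    S36.H83.J3K K (ℓ * (ℓ * M)) ℓ (sq_dvd_level₂' M ℓ) =
      e3uK K M ℓ (S18.H16.jK K M) * e3vK K M ℓ (S18.H16.jK K M) *
        e3wK K M ℓ (S18.H16.jK K M) := by
  rw [e3uK_jK, e3vK_jK, e3wK_jK]
  rfl

/-- **`J₃⁻¹ = e3u j⁻¹ * e3v j⁻¹ * e3w j⁻¹`** over any `K`. -/
theorem J3K_inv_eq_prod_e3K :
    (S36.H83.J3K K (ℓ * (ℓ * M)) ℓ (sq_dvd_level₂' M ℓ))⁻¹ =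
      e3uK K M ℓ (S18.H16.jK K M)⁻¹ * e3vK K M ℓ (S18.H16.jK K M)⁻¹ *
        e3wK K M ℓ (S18.H16.jK K M)⁻¹ := by
  rw [map_inv₀, map_inv₀, map_inv₀, ← mul_inv, ← mul_inv, ← J3K_eq_prod_e3K]

/-! #### Compatibility with coefficientwise maps -/

variable {K} {K' : Type} [Field K'] (f : K →+* K')

theorem fullCMap_e3uK (x : modularFunctionFieldFullC K M) :
    H99.fullCMap f (ℓ * (ℓ * M)) (e3uK K M ℓ x) = e3uK K' M ℓ (H99.fullCMap f M x) := by
  apply Subtype.ext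
  rw [H99.coe_fullCMap, coe_e3uK, coe_e3uK, H99.coe_fullCMap]

theorem fullCMap_e3vK (x : modularFunctionFieldFullC K M) :
    H99.fullCMap f (ℓ * (ℓ * M)) (e3vK K M ℓ x) = e3vK K' M ℓ (H99.fullCMap f M x) := by
  apply Subtype.ext
  rw [H99.coe_fullCMap, coe_e3vK, coe_e3vK, H99.coe_fullCMap, coeffMap_qExpand]

theorem fullCMap_e3wK (x : modularFunctionFieldFullC K M) :
    H99.fullCMap f (ℓ * (ℓ * M)) (e3wK K M ℓ x) = e3wK K' M ℓ (H99.fullCMap f M x) := by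
  apply Subtype.ext
  rw [H99.coe_fullCMap, coe_e3wK, coe_e3wK, H99.coe_fullCMap, coeffMap_qExpand]

end Generic

/-! ### At the real types: `K1 = unrCyclo ℓ`, `E ⊇ K1`, `A'' = cutOver A E` -/

section Real

variable (M : ℕ) [NeZero M] {ℓ : ℕ} [hℓ : Fact ℓ.Prime] {A : ValuationSubring Qbar}
variable (E : IntermediateField (unrCyclo ℓ) Qbar)

/-- helper40's `e3u` is the generic map at `K = K1`. -/
theorem e3u_eq : S36.H40.e3u M (ℓ := ℓ) = e3uK (unrCyclo ℓ) M ℓ := rfl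

theorem e3v_eq : S36.H40.e3v M (ℓ := ℓ) = e3vK (unrCyclo ℓ) M ℓ := rfl

theorem e3w_eq : S36.H40.e3w M (ℓ := ℓ) = e3wK (unrCyclo ℓ) M ℓ := rfl

/-- **`hubc`** (field level): `ιuE ∘ bc = bc ∘ ιu`. -/
theorem e3uE_baseChangeE (x : modularFunctionFieldFullC (unrCyclo ℓ) M) :
    e3uK ↥E M ℓ (baseChangeE E M x) =
      baseChangeE E (ℓ * (ℓ * M)) (S36.H40.e3u M (ℓ := ℓ) x) :=
  (fullCMap_e3uK M ℓ (algebraMap (unrCyclo ℓ) ↥E) x).symm

/-- **`hvbc`** (field level). -/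
theorem e3vE_baseChangeE (x : modularFunctionFieldFullC (unrCyclo ℓ) M) :
    e3vK ↥E M ℓ (baseChangeE E M x) =
      baseChangeE E (ℓ * (ℓ * M)) (S36.H40.e3v M (ℓ := ℓ) x) :=
  (fullCMap_e3vK M ℓ (algebraMap (unrCyclo ℓ) ↥E) x).symm

/-- **`hwbc`** (field level). -/
theorem e3wE_baseChangeE (x : modularFunctionFieldFullC (unrCyclo ℓ) M) :
    e3wK ↥E M ℓ (baseChangeE E M x) =
      baseChangeE E (ℓ * (ℓ * M)) (S36.H40.e3w M (ℓ := ℓ) x) :=
  (fullCMap_e3wK M ℓ (algebraMap (unrCyclo ℓ) ↥E) x).symm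

/-- **`huc`**: `ιuE` fixes the constants `A'' = cutOver A E`. -/
theorem e3uE_algebraMap_cutOver (a : cutOver A E) :
    e3uK ↥E M ℓ (algebraMap (cutOver A E) (modularFunctionFieldFullC ↥E M) a) =
      algebraMap (cutOver A E) (modularFunctionFieldFullC ↥E (ℓ * (ℓ * M))) a :=
  e3uK_algebraMap ↥E M ℓ (a : ↥E)

/-- **`hvc`**. -/
theorem e3vE_algebraMap_cutOver (a : cutOver A E) :
    e3vK ↥E M ℓ (algebraMap (cutOver A E) (modularFunctionFieldFullC ↥E M) a) =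
      algebraMap (cutOver A E) (modularFunctionFieldFullC ↥E (ℓ * (ℓ * M))) a :=
  e3vK_algebraMap ↥E M ℓ (a : ↥E)

/-- **`hwc`**. -/
theorem e3wE_algebraMap_cutOver (a : cutOver A E) :
    e3wK ↥E M ℓ (algebraMap (cutOver A E) (modularFunctionFieldFullC ↥E M) a) =
      algebraMap (cutOver A E) (modularFunctionFieldFullC ↥E (ℓ * (ℓ * M))) a :=
  e3wK_algebraMap ↥E M ℓ (a : ↥E)

/-! #### The chart-element variants (`ιu := S34.H55.chartMap (e3u M) ..`) -/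

section Chart

variable {c : modularFunctionFieldFullC (unrCyclo ℓ) M}
  {u : modularFunctionFieldFullC (unrCyclo ℓ) (ℓ * (ℓ * M))}

/-- **`hubc`** in the binder shape of `S36.H70.threeComponents_cutOver`, for
`ιu := S34.H55.chartMap (e3u M) hιu huint`. -/
theorem e3uE_baseChangeE_chart
    (hf : ∀ r : A0 A ℓ, S36.H40.e3u M (ℓ := ℓ) (algebraMap (A0 A ℓ) _ r) = algebraMap (A0 A ℓ) _ r)
    (hint : IsIntegral (Algebra.adjoin (A0 A ℓ) {u}) (S36.H40.e3u M (ℓ := ℓ) c))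
    (b : ↥(H40.chartB (A0 A ℓ) c)) :
    e3uK ↥E M ℓ (baseChangeE E M (b : modularFunctionFieldFullC (unrCyclo ℓ) M)) =
      baseChangeE E (ℓ * (ℓ * M))
        ((H55.chartMap (S36.H40.e3u M (ℓ := ℓ)) hf hint b : ↥(H40.chartB (A0 A ℓ) u)) :
          modularFunctionFieldFullC (unrCyclo ℓ) (ℓ * (ℓ * M))) :=
  e3uE_baseChangeE M E _

theorem e3vE_baseChangeE_chart
    (hf : ∀ r : A0 A ℓ, S36.H40.e3v M (ℓ := ℓ) (algebraMap (A0 A ℓ) _ r) = algebraMap (A0 A ℓ) _ r)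
    (hint : IsIntegral (Algebra.adjoin (A0 A ℓ) {u}) (S36.H40.e3v M (ℓ := ℓ) c))
    (b : ↥(H40.chartB (A0 A ℓ) c)) :
    e3vK ↥E M ℓ (baseChangeE E M (b : modularFunctionFieldFullC (unrCyclo ℓ) M)) =
      baseChangeE E (ℓ * (ℓ * M))
        ((H55.chartMap (S36.H40.e3v M (ℓ := ℓ)) hf hint b : ↥(H40.chartB (A0 A ℓ) u)) :
          modularFunctionFieldFullC (unrCyclo ℓ) (ℓ * (ℓ * M))) :=
  e3vE_baseChangeE M E _

theorem e3wE_baseChangeE_chart
    (hf : ∀ r : A0 A ℓ, S36.H40.e3w M (ℓ := ℓ) (algebraMap (A0 A ℓ) _ r) = algebraMap (A0 A ℓ) _ r)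
    (hint : IsIntegral (Algebra.adjoin (A0 A ℓ) {u}) (S36.H40.e3w M (ℓ := ℓ) c))
    (b : ↥(H40.chartB (A0 A ℓ) c)) :
    e3wK ↥E M ℓ (baseChangeE E M (b : modularFunctionFieldFullC (unrCyclo ℓ) M)) =
      baseChangeE E (ℓ * (ℓ * M))
        ((H55.chartMap (S36.H40.e3w M (ℓ := ℓ)) hf hint b : ↥(H40.chartB (A0 A ℓ) u)) :
          modularFunctionFieldFullC (unrCyclo ℓ) (ℓ * (ℓ * M))) :=
  e3wE_baseChangeE M E _

end Chart

/-! #### The coordinate -/

/-- the `E`-level coordinate `J₃` is the base change of helper40's `J3N M`. -/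
theorem baseChangeE_J3N :
    baseChangeE E (ℓ * (ℓ * M)) (S36.H40.J3N M (ℓ := ℓ)) =
      S36.H83.J3K ↥E (ℓ * (ℓ * M)) ℓ (S36.H40.sq_dvd_level₂ M) :=
  baseChangeE_J3K E (ℓ * (ℓ * M)) ℓ (S36.H40.sq_dvd_level₂ M)

theorem baseChangeE_J3N_inv :
    baseChangeE E (ℓ * (ℓ * M)) (S36.H40.J3N M (ℓ := ℓ))⁻¹ =
      (S36.H83.J3K ↥E (ℓ * (ℓ * M)) ℓ (S36.H40.sq_dvd_level₂ M))⁻¹ :=
  baseChangeE_J3K_inv E (ℓ * (ℓ * M)) ℓ (S36.H40.sq_dvd_level₂ M)

end Real

end Fermat.Agent.S36.H95
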