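/-
helper83: S36, row (E2), (E2-lvl-E), **field side in the spelling of the top**.

The top (`H18.geoFn36E_of_twoCharts`, `H85.hpt_real`, `H56.hE4_real`) is written with
`αE := H18.alphaK ↥E (q L) (q (q L)) _`, `βE := H18.betaK ↥E q (q L) (q (q L)) _`.  Here: the four
binders `hαbc hαc hβbc hβc` of `H89L.levelMaps_cutOver` / `H89L.exists_levelMaps_chartBC` /
`H83.levelMaps_chartBC` / `H62.mapE_isIntegral` for THESE field maps, for ANY chart maps `α β` of the
`A₁`-charts whose coercions are `iotaMN (q L)`, `VMN (q L)` (so: helper96's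
`chartMap (iotaMN (q L)) _ (hinta1 L A)` etc. on both charts), and the bridges to the other
spellings (`S34.H55.iotaMN / VMN` at the `L₁`-level, helper95's `inclMN / vSubMN` for any `K`).
-/
import Mathlib
import Fermat.Agent.S34.H55_L0Base
import Fermat.Agent.S36.H18_NormBC
import Fermat.Agent.S36.H18_Geo36Consts
import Fermat.Agent.S36.H95_ThreeMapsE

set_option autoImplicit false
set_option linter.unusedSectionVars false
set_option linter.style.haveILetI false
set_option synthInstance.maxHeartbeats 400000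
set_option maxHeartbeats 1600000

noncomputable section

namespace Fermat.Agent.S36.H83

open ModularCurve IsLocalRing
open Fermat.Agent.S18 Fermat.Agent.S34.H55

local notation "Qbar" => AlgebraicClosure ℚ

/-! ### Bridges between the spellings of the two level maps -/

section Bridge

variable (K : Type) [Field K] (q N1 N2 : ℕ) [NeZero q] [NeZero N1] [NeZero N2]
  (hN : N1 ∣ N2) (hqN : q * N1 ∣ N2)

/-- `H18.alphaK` is helper95's `inclMN`. -/
theorem alphaK_eq_inclMN :
    S36.H18.alphaK K N1 N2 hN = S36.H95.inclMN K N1 N2 hN := rfl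

/-- `H18.betaK` is helper95's `vSubMN`. -/
theorem betaK_eq_vSubMN (x : modularFunctionFieldFullC K N1) :
    S36.H18.betaK K q N1 N2 hqN x = S36.H95.vSubMN K N1 q N2 hqN x :=
  Subtype.ext (by rw [S36.H18.coe_betaK, S36.H95.coe_vSubMN])

end Bridge

section Real

variable (L : ℕ) [NeZero L] {q : ℕ} [hq : Fact q.Prime]
  (A : ValuationSubring Qbar)
  (E : IntermediateField (H45.unrCyclo q) Qbar)

set_option quotPrecheck false
local notation "A₁" => H45.A0 A q
local notation "L₁" => H45.unrCyclo q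
local notation "A''" => H45.cutOver A E
local notation "F1" => modularFunctionFieldFullC (H45.unrCyclo q) (q * L)
local notation "F2" => modularFunctionFieldFullC (H45.unrCyclo q) (q * (q * L))
local notation "F1E" => modularFunctionFieldFullC ↥E (q * L)
local notation "F2E" => modularFunctionFieldFullC ↥E (q * (q * L))
local notation "aE" => S36.H18.alphaK ↥E (q * L) (q * (q * L)) (dvd_mul_left (q * L) q)
local notation "bE" => S36.H18.betaK ↥E q (q * L) (q * (q * L)) dvd_rfl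

/-- At the `L₁`-level `H18.alphaK` is `S34.H55.iotaMN (q L)`. -/
theorem alphaK_eq_iotaMN (x : F1) :
    S36.H18.alphaK L₁ (q * L) (q * (q * L)) (dvd_mul_left (q * L) q) x =
      iotaMN (q * L) (ℓ := q) x :=
  Subtype.ext (by rw [S36.H18.coe_alphaK, coe_iotaMN])

/-- At the `L₁`-level `H18.betaK` is `S34.H55.VMN (q L)`. -/
theorem betaK_eq_VMN (x : F1) :
    S36.H18.betaK L₁ q (q * L) (q * (q * L)) dvd_rfl x = VMN (q * L) (ℓ := q) x :=
  Subtype.ext (by rw [S36.H18.coe_betaK, coe_VMN])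

/-- `α_E ∘ bc = bc ∘ ι₂`. -/
theorem aE_baseChangeE (x : F1) :
    aE (H45.baseChangeE E (q * L) x) =
      H45.baseChangeE E (q * (q * L)) (iotaMN (q * L) (ℓ := q) x) := by
  rw [← alphaK_eq_iotaMN, S36.H18.baseChangeE_alphaK]

/-- `β_E ∘ bc = bc ∘ V₂`. -/
theorem bE_baseChangeE (x : F1) :
    bE (H45.baseChangeE E (q * L) x) =
      H45.baseChangeE E (q * (q * L)) (VMN (q * L) (ℓ := q) x) := by
  rw [← betaK_eq_VMN, S36.H18.baseChangeE_betaK]

/-- `α_E` fixes the constants `A''` (`hαc`). -/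
theorem aE_algebraMap (a : A'') :
    aE (algebraMap A'' F1E a) = algebraMap A'' F2E a :=
  S36.H18.alphaK_algebraMap ↥E (q * L) (q * (q * L)) (dvd_mul_left (q * L) q) (a : ↥E)

/-- `β_E` fixes the constants `A''` (`hβc`). -/
theorem bE_algebraMap (a : A'') :
    bE (algebraMap A'' F1E a) = algebraMap A'' F2E a :=
  S36.H18.betaK_algebraMap ↥E q (q * L) (q * (q * L)) dvd_rfl (a : ↥E)

/-- `hαbc` for any chart map `α` over `ι₂` (any chart coordinates `c₁`, `J₁`). -/
theorem hαbc_of_coe {c₁ : F1} {J₁ : F2}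
    (α : ↥(H40.chartB A₁ c₁) →+* ↥(H40.chartB A₁ J₁))
    (hα : ∀ b, ((α b : ↥(H40.chartB A₁ J₁)) : F2) = iotaMN (q * L) (ℓ := q) (b : F1))
    (b : ↥(H40.chartB A₁ c₁)) :
    aE (H45.baseChangeE E (q * L) (b : F1)) =
      H45.baseChangeE E (q * (q * L)) ((α b : ↥(H40.chartB A₁ J₁)) : F2) := by
  rw [hα, aE_baseChangeE]

/-- `hβbc` for any chart map `β` over `V₂` (any chart coordinates `c₁`, `J₁`). -/
theorem hβbc_of_coe {c₁ : F1} {J₁ : F2}
    (β : ↥(H40.chartB A₁ c₁) →+* ↥(H40.chartB A₁ J₁))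
    (hβ : ∀ b, ((β b : ↥(H40.chartB A₁ J₁)) : F2) = VMN (q * L) (ℓ := q) (b : F1))
    (b : ↥(H40.chartB A₁ c₁)) :
    bE (H45.baseChangeE E (q * L) (b : F1)) =
      H45.baseChangeE E (q * (q * L)) ((β b : ↥(H40.chartB A₁ J₁)) : F2) := by
  rw [hβ, bE_baseChangeE]

/-- `hαA₁` for any chart map `α` over `ι₂`. -/
theorem hαA₁_of_coe {c₁ : F1} {J₁ : F2}
    (α : ↥(H40.chartB A₁ c₁) →+* ↥(H40.chartB A₁ J₁))
    (hα : ∀ b, ((α b : ↥(H40.chartB A₁ J₁)) : F2) = iotaMN (q * L) (ℓ := q) (b : F1))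
    (c : A₁) :
    α (algebraMap A₁ ↥(H40.chartB A₁ c₁) c) = algebraMap A₁ ↥(H40.chartB A₁ J₁) c :=
  Subtype.ext ((hα _).trans (iotaMN_algebraMap (q * L) A c))

/-- `hβA₁` for any chart map `β` over `V₂`. -/
theorem hβA₁_of_coe {c₁ : F1} {J₁ : F2}
    (β : ↥(H40.chartB A₁ c₁) →+* ↥(H40.chartB A₁ J₁))
    (hβ : ∀ b, ((β b : ↥(H40.chartB A₁ J₁)) : F2) = VMN (q * L) (ℓ := q) (b : F1))
    (c : A₁) :
    β (algebraMap A₁ ↥(H40.chartB A₁ c₁) c) = algebraMap A₁ ↥(H40.chartB A₁ J₁) c :=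
  Subtype.ext ((hβ _).trans (VMN_algebraMap (q * L) A c))

end Real

end Fermat.Agent.S36.H83
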