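/-
helper62 — S36 (E2-int-bc): integrality of ring homomorphisms passes to a base change that is
generated by the image of the old ring and the new constants (generic, Mathlib only).

`α : B₀' → B₀` integral; `ψ' : B₀' → B'`, `ψ : B₀ → B`, `φ : B' → B` with `φ ∘ ψ' = ψ ∘ α`;
`B'`, `B` are `R`-algebras, `φ` is `R`-linear on the constants, and `B` is generated as a ring by
`ψ(B₀)` and the constants `R`.  Then `φ` is integral.
-/
import Mathlib

set_option autoImplicit false

namespace Fermat.Agent.S36.H62

section Generic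

variable {B₀' B₀ B' B R : Type*} [CommRing B₀'] [CommRing B₀] [CommRing B'] [CommRing B]
  [CommRing R] [Algebra R B'] [Algebra R B]

/-- The image under `ψ` of an element integral over `α` is integral over `φ`
(`φ ∘ ψ' = ψ ∘ α`). -/
theorem isIntegralElem_map_of_comm (α : B₀' →+* B₀) (φ : B' →+* B) (ψ' : B₀' →+* B')
    (ψ : B₀ →+* B) (hcomm : ∀ x, φ (ψ' x) = ψ (α x)) {b : B₀} (hb : α.IsIntegralElem b) :
    φ.IsIntegralElem (ψ b) := by
  obtain ⟨p, hp, hpb⟩ := hb
  refine ⟨p.map ψ', hp.map ψ', ?_⟩
  rw [Polynomial.eval₂_map]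
  have h : φ.comp ψ' = ψ.comp α := RingHom.ext hcomm
  rw [h, ← Polynomial.hom_eval₂, hpb, map_zero]

/-- **Integrality passes to a base change generated by the old ring and the constants.** -/
theorem isIntegral_of_closure_eq_top (α : B₀' →+* B₀) (φ : B' →+* B) (ψ' : B₀' →+* B')
    (ψ : B₀ →+* B) (hcomm : ∀ x, φ (ψ' x) = ψ (α x))
    (hR : ∀ r : R, φ (algebraMap R B' r) = algebraMap R B r)
    (hgen : ∀ z : B, z ∈ Subring.closure (Set.range ψ ∪ Set.range (algebraMap R B)))
    (hα : α.IsIntegral) : φ.IsIntegral := by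
  intro z
  induction hgen z using Subring.closure_induction with
  | mem x hx =>
    rcases hx with ⟨b, rfl⟩ | ⟨r, rfl⟩
    · exact isIntegralElem_map_of_comm α φ ψ' ψ hcomm (hα b)
    · rw [← hR r]
      exact φ.isIntegralElem_map
  | zero => exact φ.isIntegralElem_zero
  | one => exact φ.isIntegralElem_one
  | add x y _ _ hx hy => exact RingHom.IsIntegralElem.add φ hx hy
  | neg x _ hx => exact RingHom.IsIntegralElem.neg φ hx
  | mul x y _ _ hx hy => exact RingHom.IsIntegralElem.mul φ hx hy

end Generic

section Subalgebra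

/-! The same for charts given as subalgebras of fields, the maps being restrictions of field
homomorphisms (the shape of `S35.H70.mapE` / `S34.H70.chartMapE`: everything is determined by its
coercion to the field). -/

variable {F₀' F₀ F' F : Type*} [Field F₀'] [Field F₀] [Field F'] [Field F]
  {R₀ R : Type*} [CommRing R₀] [CommRing R]
  [Algebra R₀ F₀'] [Algebra R₀ F₀] [Algebra R F'] [Algebra R F]
  {B₀' : Subalgebra R₀ F₀'} {B₀ : Subalgebra R₀ F₀} {B' : Subalgebra R F'} {B : Subalgebra R F}

/-- **(E2-int-bc), field-coercion form.**  `bc' : F₀' → F'`, `bc : F₀ → F` the base-change maps of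
the function fields, `ιE : F' → F` the level map of the big fields, fixing the constants;
`α : B₀' → B₀` and `φ : B' → B` the level maps of the charts, `φ` being the restriction of `ιE`
and `ιE ∘ bc' = bc ∘ α` on `B₀'`; `B` generated by `bc (B₀)` and the constants (`GenBy`). -/
theorem isIntegral_of_genBy (bc' : F₀' →+* F') (bc : F₀ →+* F) (ιE : F' →+* F)
    (α : B₀' →+* B₀) (φ : B' →+* B)
    (hφ : ∀ x : B', ((φ x : B) : F) = ιE (x : F'))
    (hbc' : ∀ b : B₀', bc' (b : F₀') ∈ B')
    (hιbc : ∀ b : B₀', ιE (bc' (b : F₀')) = bc ((α b : B₀) : F₀))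
    (hιc : ∀ a : R, ιE (algebraMap R F' a) = algebraMap R F a)
    (hgen : ∀ z : F, z ∈ B → z ∈ Subring.closure
      (Set.range (fun b : B₀ => bc (b : F₀)) ∪ Set.range (algebraMap R F)))
    (hα : α.IsIntegral) : φ.IsIntegral := by
  -- integrality can be tested in the field `F`
  have key : ∀ z : F, z ∈ Subring.closure
      (Set.range (fun b : B₀ => bc (b : F₀)) ∪ Set.range (algebraMap R F)) →
      ∃ p : Polynomial B', p.Monic ∧ p.eval₂ (B.val.toRingHom.comp φ) z = 0 := by
    intro z hz
    have hint : ∀ z : F, (∃ p : Polynomial B', p.Monic ∧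
        p.eval₂ (B.val.toRingHom.comp φ) z = 0) ↔ (B.val.toRingHom.comp φ).IsIntegralElem z :=
      fun z => Iff.rfl
    induction hz using Subring.closure_induction with
    | mem x hx =>
      rcases hx with ⟨b, rfl⟩ | ⟨r, rfl⟩
      · obtain ⟨p, hp, hpb⟩ := hα b
        let ψ' : B₀' →+* B' :=
          (bc'.comp B₀'.val.toRingHom).codRestrict B' (fun b => hbc' b)
        refine ⟨p.map ψ', hp.map ψ', ?_⟩
        rw [Polynomial.eval₂_map]
        have h : (B.val.toRingHom.comp φ).comp ψ' = (bc.comp B₀.val.toRingHom).comp α := by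
          ext x
          simp only [RingHom.comp_apply]
          change ((φ (ψ' x) : B) : F) = bc ((α x : B₀) : F₀)
          rw [hφ]
          exact hιbc x
        rw [h]
        change Polynomial.eval₂ ((bc.comp B₀.val.toRingHom).comp α)
          ((bc.comp B₀.val.toRingHom) b) p = 0
        rw [← Polynomial.hom_eval₂, hpb, map_zero]
      · have : algebraMap R F r = (B.val.toRingHom.comp φ) (algebraMap R B' r) := by
          simp only [RingHom.comp_apply]
          change _ = ((φ (algebraMap R B' r) : B) : F)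
          rw [hφ]
          exact (hιc r).symm
        rw [hint, this]
        exact (B.val.toRingHom.comp φ).isIntegralElem_map
    | zero => exact (hint 0).2 (B.val.toRingHom.comp φ).isIntegralElem_zero
    | one => exact (hint 1).2 (B.val.toRingHom.comp φ).isIntegralElem_one
    | add x y _ _ hx hy =>
      exact (hint _).2 (RingHom.IsIntegralElem.add _ ((hint x).1 hx) ((hint y).1 hy))
    | neg x _ hx => exact (hint _).2 (RingHom.IsIntegralElem.neg _ ((hint x).1 hx))
    | mul x y _ _ hx hy =>
      exact (hint _).2 (RingHom.IsIntegralElem.mul _ ((hint x).1 hx) ((hint y).1 hy))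
  intro z
  obtain ⟨p, hp, hpz⟩ := key (z : F) (hgen (z : F) z.2)
  refine ⟨p, hp, ?_⟩
  apply Subtype.ext
  have h2 : ((Polynomial.eval₂ φ z p : B) : F) =
      Polynomial.eval₂ (B.val.toRingHom.comp φ) (z : F) p := by
    have := Polynomial.hom_eval₂ p φ B.val.toRingHom z
    exact this
  rw [h2, hpz]
  rfl

end Subalgebra

end Fermat.Agent.S36.H62
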