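/-
helper62 — S36 (E2-int-bc) in helper70's vocabulary: the restriction `S35.H70.mapE` of a level map
`ιE : F_E(M) → F_E(N)` to the `cutOver A E`-charts is integral as soon as the level map
`ι : chartB A₁ c₁ → chartB A₁ J₁` of the `A₁`-charts is integral (`GenBy` at level `N`).
-/
import Mathlib
import Fermat.Agent.S36.H62_IntegralBC
import Fermat.Agent.S35.H70_TwoComponentsBCMain

set_option autoImplicit false
set_option linter.unusedSectionVars false
set_option synthInstance.maxHeartbeats 400000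
set_option maxHeartbeats 3200000

noncomputable section

namespace Fermat.Agent.S36.H62

open ModularCurve HahnSeries IsLocalRing
open Fermat.Agent.S18 Fermat.Agent.CA

local notation "Qbar" => AlgebraicClosure ℚ

variable {A : ValuationSubring Qbar} {ℓ : ℕ}
variable (E : IntermediateField (H45.unrCyclo ℓ) Qbar) (N : ℕ) [NeZero N] (M : ℕ) [NeZero M]

variable (J₁ : ↥(modularFunctionFieldFullC ↥(H45.unrCyclo ℓ) N))
  (c₁ : ↥(modularFunctionFieldFullC ↥(H45.unrCyclo ℓ) M))
  (hN : S35.H70.GenBy (A := A) E N J₁) (hM : S35.H70.GenBy (A := A) E M c₁)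
  (ιE : ↥(modularFunctionFieldFullC ↥E M) →+* ↥(modularFunctionFieldFullC ↥E N))
  (ι : ↥(H40.chartB ↥(H45.A0 A ℓ) c₁) →+* ↥(H40.chartB ↥(H45.A0 A ℓ) J₁))
  (hιbc : ∀ b : ↥(H40.chartB ↥(H45.A0 A ℓ) c₁),
    ιE (H45.baseChangeE E M (b : ↥(modularFunctionFieldFullC ↥(H45.unrCyclo ℓ) M))) =
      H45.baseChangeE E N
        ((ι b : ↥(H40.chartB ↥(H45.A0 A ℓ) J₁)) :
          ↥(modularFunctionFieldFullC ↥(H45.unrCyclo ℓ) N)))
  (hιc : ∀ a : ↥(H45.cutOver A E),
    ιE (algebraMap ↥(H45.cutOver A E) ↥(modularFunctionFieldFullC ↥E M) a) =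
      algebraMap ↥(H45.cutOver A E) ↥(modularFunctionFieldFullC ↥E N) a)

/-- **(E2-int-bc)**: `mapE` is integral when the `A₁`-level chart map is. -/
theorem mapE_isIntegral (hι : ι.IsIntegral) :
    (S35.H70.mapE E N M J₁ c₁ hN hM ιE ι hιbc hιc).IsIntegral :=
  isIntegral_of_genBy (H45.baseChangeE E M) (H45.baseChangeE E N) ιE ι
    (S35.H70.mapE E N M J₁ c₁ hN hM ιE ι hιbc hιc)
    (fun _ => rfl)
    (fun b => S34.H70.baseChangeE_mem_chartB (A := A) E M c₁ b.2)
    hιbc hιc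
    (fun z hz => (hN z).1 hz)
    hι

end Fermat.Agent.S36.H62
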