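import Mathlib
import Fermat.Agent.S36.H70_ThreeComponentsBCMain
import Fermat.Agent.S36.H83_LevelMaps

/-!
# S36, row (E2), (E2-lvl-bc) (helper89): `LevelMaps` for the `A''`-charts

`A₁ := A0 A ℓ`, `A'' := cutOver A E`.  helper70's base change (`S35.H70.redE`, `S35.H70.mapE`)
carries `S36.H83.ThreeComponents` / `S34.H83.TwoComponents` from the `A₁`-charts to the
`A''`-charts.  Here: the same for the level maps `α β` and `S36.H83.LevelMaps`.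

* `redE_mapE` : ONE identity `red ∘ ι = Wk ∘ rbar` passes to the `A''`-charts
  (`redE red ∘ mapE ιE ι = Wk ∘ redE rbar`), any two levels `N`, `M`, any chart coordinates.
* `levelMaps_cutOver` : `LevelMaps` over `A₁` gives `LevelMaps` over `A''`.
* `mapE_algebraMap` : `mapE` fixes the constants `A''`.
* `mapE_comp` : functoriality of `mapE` (from the identity of the field maps).
* `coe_mapE'` : `mapE` is the restriction of the field map (the `ha_alpha` of `H85`).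
-/

set_option autoImplicit false
set_option linter.unusedSectionVars false
set_option linter.style.haveILetI false
set_option synthInstance.maxHeartbeats 400000
set_option maxHeartbeats 3200000

noncomputable section

namespace Fermat.Agent.S36.H89L

open ModularCurve HahnSeries IsLocalRing IntermediateField
open Fermat.Agent.S18 Fermat.Agent.CA Fermat.Agent.S36.H83 Fermat.Agent.S35.H70 Fermat.Agent.S36.H70

local notation "Qbar" => AlgebraicClosure ℚ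

variable {A : ValuationSubring Qbar} {ℓ : ℕ} (hℓ : ℓ.Prime) (hA : A.LiesOverPrime ℓ)
variable (E : IntermediateField (H45.unrCyclo ℓ) Qbar) (N : ℕ) [NeZero N] (M : ℕ) [NeZero M]

section One

variable (J₁ : ↥(modularFunctionFieldFullC ↥(H45.unrCyclo ℓ) N))
  (c₁ : ↥(modularFunctionFieldFullC ↥(H45.unrCyclo ℓ) M))
  (π : ↥(H45.cutOver A E)) (hπ : maximalIdeal ↥(H45.cutOver A E) = Ideal.span {π})
  (hN : GenBy (A := A) E N J₁) (hM : GenBy (A := A) E M c₁)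
  {R₀ : Type*} [CommRing R₀]

/-- **One identity `red ∘ ι = Wk ∘ rbar` passes to the `A''`-charts.** -/
theorem redE_mapE
    {red : ↥(H40.chartB ↥(H45.A0 A ℓ) J₁) →+* R₀}
    {ι : ↥(H40.chartB ↥(H45.A0 A ℓ) c₁) →+* ↥(H40.chartB ↥(H45.A0 A ℓ) J₁)}
    {rbar : ↥(H40.chartB ↥(H45.A0 A ℓ) c₁) →+* R₀} (Wk : R₀ →+* R₀)
    (hι : ∀ ψ, red (ι ψ) = Wk (rbar ψ))
    (hιA₁ : ∀ c : ↥(H45.A0 A ℓ),
      ι (algebraMap ↥(H45.A0 A ℓ) ↥(H40.chartB ↥(H45.A0 A ℓ) c₁) c) =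
        algebraMap ↥(H45.A0 A ℓ) ↥(H40.chartB ↥(H45.A0 A ℓ) J₁) c)
    (hq : red (algebraMap ↥(H45.A0 A ℓ) ↥(H40.chartB ↥(H45.A0 A ℓ) J₁)
      ((ℓ : ℕ) : ↥(H45.A0 A ℓ))) = 0)
    (hqM : rbar (algebraMap ↥(H45.A0 A ℓ) ↥(H40.chartB ↥(H45.A0 A ℓ) c₁)
      ((ℓ : ℕ) : ↥(H45.A0 A ℓ))) = 0)
    (ιE : ↥(modularFunctionFieldFullC ↥E M) →+* ↥(modularFunctionFieldFullC ↥E N))
    (hιbc : ∀ b : ↥(H40.chartB ↥(H45.A0 A ℓ) c₁),
      ιE (H45.baseChangeE E M (b : ↥(modularFunctionFieldFullC ↥(H45.unrCyclo ℓ) M))) =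
        H45.baseChangeE E N
          ((ι b : ↥(H40.chartB ↥(H45.A0 A ℓ) J₁)) :
            ↥(modularFunctionFieldFullC ↥(H45.unrCyclo ℓ) N)))
    (hιc : ∀ a : ↥(H45.cutOver A E),
      ιE (algebraMap ↥(H45.cutOver A E) ↥(modularFunctionFieldFullC ↥E M) a) =
        algebraMap ↥(H45.cutOver A E) ↥(modularFunctionFieldFullC ↥E N) a)
    (ψ : ↥(H40.chartB ↥(H45.cutOver A E) (H45.baseChangeE E M c₁))) :
    redE hℓ hA E N J₁ π hπ hN red hq (mapE E N M J₁ c₁ hN hM ιE ι hιbc hιc ψ) =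
      Wk (redE hℓ hA E M c₁ π hπ hM rbar hqM ψ) := by
  letI := S34.H70.algA0FE (A := A) E N
  letI := S34.H70.algSubFE (A := A) E N (H40.chartB ↥(H45.A0 A ℓ) J₁)
  haveI := S34.H70.isScalarTower_A0_cutOver_FE (A := A) (q := ℓ) E N
  haveI := S34.H70.isScalarTower_A0_sub_FE (A := A) (q := ℓ) E N (H40.chartB ↥(H45.A0 A ℓ) J₁)
  letI := S34.H70.algA0FE (A := A) E M
  letI := S34.H70.algSubFE (A := A) E M (H40.chartB ↥(H45.A0 A ℓ) c₁)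
  haveI := S34.H70.isScalarTower_A0_cutOver_FE (A := A) (q := ℓ) E M
  haveI := S34.H70.isScalarTower_A0_sub_FE (A := A) (q := ℓ) E M (H40.chartB ↥(H45.A0 A ℓ) c₁)
  haveI := H45.isDiscreteValuationRing_A0 hℓ hA
  have key := redGen_comp_mapGen (E := ↥(modularFunctionFieldFullC ↥E N))
    (EM := ↥(modularFunctionFieldFullC ↥E M)) ((ℓ : ℕ) : ↥(H45.A0 A ℓ)) π
    (S34.H70.h1_inst hℓ hA E π hπ) (S34.H70.h2_inst hℓ hA E π hπ)
    (S34.H70.h3_inst hℓ hA E π hπ)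
    (S34.H70.hLD_inst (A := A) (q := ℓ) E N (H40.chartB ↥(H45.A0 A ℓ) J₁))
    (S34.H70.hLD_inst (A := A) (q := ℓ) E M (H40.chartB ↥(H45.A0 A ℓ) c₁))
    Wk hι hιA₁ hq hqM ιE hιbc hιc (chartGenEquiv (A := A) E M c₁ hM ψ)
  have e : chartGenEquiv (A := A) E N J₁ hN (mapE E N M J₁ c₁ hN hM ιE ι hιbc hιc ψ) =
      mapGen (A₂ := ↥(H45.cutOver A E)) (E := ↥(modularFunctionFieldFullC ↥E N))
        (EM := ↥(modularFunctionFieldFullC ↥E M)) ιE ι hιbc hιc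
        (chartGenEquiv (A := A) E M c₁ hM ψ) :=
    RingEquiv.apply_symm_apply _ _
  show redGen (E := ↥(modularFunctionFieldFullC ↥E N)) ((ℓ : ℕ) : ↥(H45.A0 A ℓ)) π
      (S34.H70.h1_inst hℓ hA E π hπ) (S34.H70.h2_inst hℓ hA E π hπ)
      (S34.H70.h3_inst hℓ hA E π hπ)
      (S34.H70.hLD_inst (A := A) (q := ℓ) E N (H40.chartB ↥(H45.A0 A ℓ) J₁)) red hq
      (chartGenEquiv (A := A) E N J₁ hN (mapE E N M J₁ c₁ hN hM ιE ι hιbc hιc ψ)) = _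
  rw [e]
  exact key

end One

/-! ### `mapE`: constants, restriction, functoriality -/

section MapE

variable (J₁ : ↥(modularFunctionFieldFullC ↥(H45.unrCyclo ℓ) N))
  (c₁ : ↥(modularFunctionFieldFullC ↥(H45.unrCyclo ℓ) M))
  (hN : GenBy (A := A) E N J₁) (hM : GenBy (A := A) E M c₁)
  (ιE : ↥(modularFunctionFieldFullC ↥E M) →+* ↥(modularFunctionFieldFullC ↥E N))
  (ι : ↥(H40.chartB ↥(H45.A0 A ℓ) c₁) →+* ↥(H40.chartB ↥(H45.A0 A ℓ) J₁))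
  (hιbc : ∀ b : ↥(H40.chartB ↥(H45.A0 A ℓ) c₁),
    ιE (H45.baseChangeE E M (b : ↥(modularFunctionFieldFullC ↥(H45.unrCyclo ℓ) M))) =
      H45.baseChangeE E N
        ((ι b : ↥(H40.chartB ↥(H45.A0 A ℓ) J₁)) :
          ↥(modularFunctionFieldFullC ↥(H45.unrCyclo ℓ) N)))
  (hιc : ∀ a : ↥(H45.cutOver A E),
    ιE (algebraMap ↥(H45.cutOver A E) ↥(modularFunctionFieldFullC ↥E M) a) =
      algebraMap ↥(H45.cutOver A E) ↥(modularFunctionFieldFullC ↥E N) a)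

/-- `mapE` fixes the constants `A''` (the `h_alpha_R` / `h_beta_R` of `H85.hpt_of_levelMaps_fixed`;
in particular `mapE (algebraMap π) = algebraMap π`). -/
theorem mapE_algebraMap (a : ↥(H45.cutOver A E)) :
    mapE E N M J₁ c₁ hN hM ιE ι hιbc hιc
        (algebraMap ↥(H45.cutOver A E)
          ↥(H40.chartB ↥(H45.cutOver A E) (H45.baseChangeE E M c₁)) a) =
      algebraMap ↥(H45.cutOver A E)
        ↥(H40.chartB ↥(H45.cutOver A E) (H45.baseChangeE E N J₁)) a :=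
  Subtype.ext (by
    rw [coe_mapE]
    exact hιc a)

/-- `mapE` is the restriction of the field map `ιE` (the `ha_alpha` / `hb_beta` of
`H85.hpt_of_levelMaps_fixed`, `H47`, `H89W.midCusp_all`). -/
theorem algebraMap_mapE (x : ↥(H40.chartB ↥(H45.cutOver A E) (H45.baseChangeE E M c₁))) :
    algebraMap ↥(H40.chartB ↥(H45.cutOver A E) (H45.baseChangeE E N J₁))
        ↥(modularFunctionFieldFullC ↥E N) (mapE E N M J₁ c₁ hN hM ιE ι hιbc hιc x) =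
      ιE (algebraMap ↥(H40.chartB ↥(H45.cutOver A E) (H45.baseChangeE E M c₁))
        ↥(modularFunctionFieldFullC ↥E M) x) := rfl

/-- `mapE` of a natural number (e.g. `α'' (q : B') = (q : B)`). -/
theorem mapE_natCast (n : ℕ) :
    mapE E N M J₁ c₁ hN hM ιE ι hιbc hιc (n : ↥(H40.chartB ↥(H45.cutOver A E)
      (H45.baseChangeE E M c₁))) = (n : ↥(H40.chartB ↥(H45.cutOver A E)
      (H45.baseChangeE E N J₁))) := map_natCast _ n

end MapE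

section Comp

variable (M₀ : ℕ) [NeZero M₀]
  (J₁ : ↥(modularFunctionFieldFullC ↥(H45.unrCyclo ℓ) N))
  (c₁ : ↥(modularFunctionFieldFullC ↥(H45.unrCyclo ℓ) M))
  (c₀ : ↥(modularFunctionFieldFullC ↥(H45.unrCyclo ℓ) M₀))
  (hN : GenBy (A := A) E N J₁) (hM : GenBy (A := A) E M c₁) (hM₀ : GenBy (A := A) E M₀ c₀)

/-- **Functoriality of `mapE`**: if the field maps compose (`αE ∘ ιE' = ιuE`), so do their
restrictions to the `A''`-charts.  (`α'' ∘ ι''' = ιu''` etc.) -/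
theorem mapE_comp
    (αE : ↥(modularFunctionFieldFullC ↥E M) →+* ↥(modularFunctionFieldFullC ↥E N))
    (α : ↥(H40.chartB ↥(H45.A0 A ℓ) c₁) →+* ↥(H40.chartB ↥(H45.A0 A ℓ) J₁))
    (hαbc : ∀ b : ↥(H40.chartB ↥(H45.A0 A ℓ) c₁),
      αE (H45.baseChangeE E M (b : ↥(modularFunctionFieldFullC ↥(H45.unrCyclo ℓ) M))) =
        H45.baseChangeE E N
          ((α b : ↥(H40.chartB ↥(H45.A0 A ℓ) J₁)) :
            ↥(modularFunctionFieldFullC ↥(H45.unrCyclo ℓ) N)))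
    (hαc : ∀ a : ↥(H45.cutOver A E),
      αE (algebraMap ↥(H45.cutOver A E) ↥(modularFunctionFieldFullC ↥E M) a) =
        algebraMap ↥(H45.cutOver A E) ↥(modularFunctionFieldFullC ↥E N) a)
    (ιE' : ↥(modularFunctionFieldFullC ↥E M₀) →+* ↥(modularFunctionFieldFullC ↥E M))
    (ι' : ↥(H40.chartB ↥(H45.A0 A ℓ) c₀) →+* ↥(H40.chartB ↥(H45.A0 A ℓ) c₁))
    (hι'bc : ∀ b : ↥(H40.chartB ↥(H45.A0 A ℓ) c₀),
      ιE' (H45.baseChangeE E M₀ (b : ↥(modularFunctionFieldFullC ↥(H45.unrCyclo ℓ) M₀))) =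
        H45.baseChangeE E M
          ((ι' b : ↥(H40.chartB ↥(H45.A0 A ℓ) c₁)) :
            ↥(modularFunctionFieldFullC ↥(H45.unrCyclo ℓ) M)))
    (hι'c : ∀ a : ↥(H45.cutOver A E),
      ιE' (algebraMap ↥(H45.cutOver A E) ↥(modularFunctionFieldFullC ↥E M₀) a) =
        algebraMap ↥(H45.cutOver A E) ↥(modularFunctionFieldFullC ↥E M) a)
    (ιuE : ↥(modularFunctionFieldFullC ↥E M₀) →+* ↥(modularFunctionFieldFullC ↥E N))
    (ιu : ↥(H40.chartB ↥(H45.A0 A ℓ) c₀) →+* ↥(H40.chartB ↥(H45.A0 A ℓ) J₁))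
    (hubc : ∀ b : ↥(H40.chartB ↥(H45.A0 A ℓ) c₀),
      ιuE (H45.baseChangeE E M₀ (b : ↥(modularFunctionFieldFullC ↥(H45.unrCyclo ℓ) M₀))) =
        H45.baseChangeE E N
          ((ιu b : ↥(H40.chartB ↥(H45.A0 A ℓ) J₁)) :
            ↥(modularFunctionFieldFullC ↥(H45.unrCyclo ℓ) N)))
    (huc : ∀ a : ↥(H45.cutOver A E),
      ιuE (algebraMap ↥(H45.cutOver A E) ↥(modularFunctionFieldFullC ↥E M₀) a) =
        algebraMap ↥(H45.cutOver A E) ↥(modularFunctionFieldFullC ↥E N) a)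
    (hcomp : ∀ x : ↥(modularFunctionFieldFullC ↥E M₀), αE (ιE' x) = ιuE x)
    (z : ↥(H40.chartB ↥(H45.cutOver A E) (H45.baseChangeE E M₀ c₀))) :
    mapE E N M J₁ c₁ hN hM αE α hαbc hαc
        (mapE E M M₀ c₁ c₀ hM hM₀ ιE' ι' hι'bc hι'c z) =
      mapE E N M₀ J₁ c₀ hN hM₀ ιuE ιu hubc huc z :=
  Subtype.ext (by
    rw [coe_mapE, coe_mapE, coe_mapE]
    exact hcomp _)

end Comp

/-! ### `LevelMaps` over `A''` -/

section Level

variable (J₁ : ↥(modularFunctionFieldFullC ↥(H45.unrCyclo ℓ) N))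
  (c₁ : ↥(modularFunctionFieldFullC ↥(H45.unrCyclo ℓ) M))
  (π : ↥(H45.cutOver A E)) (hπ : maximalIdeal ↥(H45.cutOver A E) = Ideal.span {π})
  (hN : GenBy (A := A) E N J₁) (hM : GenBy (A := A) E M c₁)
  {R₀ : Type*} [CommRing R₀]
  {red₁ red₂ red₃ : ↥(H40.chartB ↥(H45.A0 A ℓ) J₁) →+* R₀}
  {red₁' red₂' : ↥(H40.chartB ↥(H45.A0 A ℓ) c₁) →+* R₀}
  {α β : ↥(H40.chartB ↥(H45.A0 A ℓ) c₁) →+* ↥(H40.chartB ↥(H45.A0 A ℓ) J₁)}
  {W : R₀ →+* R₀}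

/-- **`LevelMaps` for the `A''`-charts from `LevelMaps` for the `A₁`-charts.**  `N` = level
`q² L` with chart coordinate `J₁` (`J₃^{±1}`), `M` = level `q L` with chart coordinate `c₁`
(`(j j_q)^{±1}`); the reductions become `redE red`, the level maps `mapE αE α`, `mapE βE β`. -/
theorem levelMaps_cutOver (LM : LevelMaps red₁ red₂ red₃ red₁' red₂' α β W)
    (hαA₁ : ∀ c : ↥(H45.A0 A ℓ),
      α (algebraMap ↥(H45.A0 A ℓ) ↥(H40.chartB ↥(H45.A0 A ℓ) c₁) c) =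
        algebraMap ↥(H45.A0 A ℓ) ↥(H40.chartB ↥(H45.A0 A ℓ) J₁) c)
    (hβA₁ : ∀ c : ↥(H45.A0 A ℓ),
      β (algebraMap ↥(H45.A0 A ℓ) ↥(H40.chartB ↥(H45.A0 A ℓ) c₁) c) =
        algebraMap ↥(H45.A0 A ℓ) ↥(H40.chartB ↥(H45.A0 A ℓ) J₁) c)
    (hq₁ : red₁ (algebraMap ↥(H45.A0 A ℓ) ↥(H40.chartB ↥(H45.A0 A ℓ) J₁)
      ((ℓ : ℕ) : ↥(H45.A0 A ℓ))) = 0)
    (hq₂ : red₂ (algebraMap ↥(H45.A0 A ℓ) ↥(H40.chartB ↥(H45.A0 A ℓ) J₁)
      ((ℓ : ℕ) : ↥(H45.A0 A ℓ))) = 0)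
    (hq₃ : red₃ (algebraMap ↥(H45.A0 A ℓ) ↥(H40.chartB ↥(H45.A0 A ℓ) J₁)
      ((ℓ : ℕ) : ↥(H45.A0 A ℓ))) = 0)
    (hq₁' : red₁' (algebraMap ↥(H45.A0 A ℓ) ↥(H40.chartB ↥(H45.A0 A ℓ) c₁)
      ((ℓ : ℕ) : ↥(H45.A0 A ℓ))) = 0)
    (hq₂' : red₂' (algebraMap ↥(H45.A0 A ℓ) ↥(H40.chartB ↥(H45.A0 A ℓ) c₁)
      ((ℓ : ℕ) : ↥(H45.A0 A ℓ))) = 0)
    (αE βE : ↥(modularFunctionFieldFullC ↥E M) →+* ↥(modularFunctionFieldFullC ↥E N))
    (hαbc : ∀ b : ↥(H40.chartB ↥(H45.A0 A ℓ) c₁),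
      αE (H45.baseChangeE E M (b : ↥(modularFunctionFieldFullC ↥(H45.unrCyclo ℓ) M))) =
        H45.baseChangeE E N
          ((α b : ↥(H40.chartB ↥(H45.A0 A ℓ) J₁)) :
            ↥(modularFunctionFieldFullC ↥(H45.unrCyclo ℓ) N)))
    (hαc : ∀ a : ↥(H45.cutOver A E),
      αE (algebraMap ↥(H45.cutOver A E) ↥(modularFunctionFieldFullC ↥E M) a) =
        algebraMap ↥(H45.cutOver A E) ↥(modularFunctionFieldFullC ↥E N) a)
    (hβbc : ∀ b : ↥(H40.chartB ↥(H45.A0 A ℓ) c₁),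
      βE (H45.baseChangeE E M (b : ↥(modularFunctionFieldFullC ↥(H45.unrCyclo ℓ) M))) =
        H45.baseChangeE E N
          ((β b : ↥(H40.chartB ↥(H45.A0 A ℓ) J₁)) :
            ↥(modularFunctionFieldFullC ↥(H45.unrCyclo ℓ) N)))
    (hβc : ∀ a : ↥(H45.cutOver A E),
      βE (algebraMap ↥(H45.cutOver A E) ↥(modularFunctionFieldFullC ↥E M) a) =
        algebraMap ↥(H45.cutOver A E) ↥(modularFunctionFieldFullC ↥E N) a) :
    LevelMaps (redE hℓ hA E N J₁ π hπ hN red₁ hq₁) (redE hℓ hA E N J₁ π hπ hN red₂ hq₂)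
      (redE hℓ hA E N J₁ π hπ hN red₃ hq₃)
      (redE hℓ hA E M c₁ π hπ hM red₁' hq₁') (redE hℓ hA E M c₁ π hπ hM red₂' hq₂')
      (mapE E N M J₁ c₁ hN hM αE α hαbc hαc) (mapE E N M J₁ c₁ hN hM βE β hβbc hβc) W where
  h1α := fun z => redE_mapE hℓ hA E N M J₁ c₁ π hπ hN hM (RingHom.id R₀)
    (fun ψ => LM.h1α ψ) hαA₁ hq₁ hq₁' αE hαbc hαc z
  h1β := fun z => redE_mapE hℓ hA E N M J₁ c₁ π hπ hN hM W
    (fun ψ => LM.h1β ψ) hβA₁ hq₁ hq₁' βE hβbc hβc z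
  h2α := fun z => redE_mapE hℓ hA E N M J₁ c₁ π hπ hN hM (RingHom.id R₀)
    (fun ψ => LM.h2α ψ) hαA₁ hq₂ hq₁' αE hαbc hαc z
  h2β := fun z => redE_mapE hℓ hA E N M J₁ c₁ π hπ hN hM (RingHom.id R₀)
    (fun ψ => LM.h2β ψ) hβA₁ hq₂ hq₂' βE hβbc hβc z
  h3α := fun z => redE_mapE hℓ hA E N M J₁ c₁ π hπ hN hM W
    (fun ψ => LM.h3α ψ) hαA₁ hq₃ hq₂' αE hαbc hαc z
  h3β := fun z => redE_mapE hℓ hA E N M J₁ c₁ π hπ hN hM (RingHom.id R₀)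
    (fun ψ => LM.h3β ψ) hβA₁ hq₃ hq₂' βE hβbc hβc z

end Level

end Fermat.Agent.S36.H89L
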