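import Mathlib
import Fermat.Agent.S36.H89_LevelMapsBC
import Fermat.Agent.S36.H62_IntegralBCInst
import Fermat.Agent.S35.H70_TwoComponentsBCUniq
import Fermat.Agent.S35.H70_TwoComponentsBCFinal

/-!
# S36, row (E2), (E2-lvl-bc) consumer form (helper89)

helper70's final `E`-level packages (`S36.H70.exists_threeComponents_chartBC_unram`,
`S35.H70.exists_twoComponents_chartBC`) give reductions `red''` on `chartB A'' J_E` characterised
by TWO clauses: `red'' ∘ chartBC = red` and `red'' ℓ = 0` (unramified: `π = ℓ`).  Here the level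
maps for ANY such reductions:

* `eq_redE_of_clauses` : the two clauses force `red'' = redE red`.
* `exists_levelMaps_chartBC_unram` : `α'' β'' : chartB A'' c_E → chartB A'' J_E` with
  `LevelMaps red₁'' red₂'' red₃'' red₁''' red₂''' α'' β'' W`, `α'' ∘ chartBC = chartBC ∘ α`,
  constants fixed, restriction of the field maps, integrality.
-/

set_option autoImplicit false
set_option linter.unusedSectionVars false
set_option linter.style.haveILetI false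
set_option synthInstance.maxHeartbeats 400000
set_option maxHeartbeats 3200000

noncomputable section

namespace Fermat.Agent.S36.H89L

open ModularCurve HahnSeries IsLocalRing IntermediateField
open Fermat.Agent.S18 Fermat.Agent.CA Fermat.Agent.S36.H83 Fermat.Agent.S35.H70
  Fermat.Agent.S36.H70

local notation "Qbar" => AlgebraicClosure ℚ

/-! ### Generic: a ring hom killing `π` sees only the `A₁`-part of a constant -/

section GenericConst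

variable {A₁ R B B'' R₀ : Type*} [CommRing A₁] [CommRing R] [Algebra A₁ R] [CommRing B]
  [Algebra A₁ B] [CommRing B''] [Algebra R B''] [CommRing R₀]

theorem map_const_of_clauses (φ : B →+* B'')
    (hφc : ∀ c : A₁, φ (algebraMap A₁ B c) = algebraMap R B'' (algebraMap A₁ R c))
    (red : B →+* R₀) (red'' : B'' →+* R₀) (hcl : ∀ b, red'' (φ b) = red b) (π : R)
    (hπ : red'' (algebraMap R B'' π) = 0) (a : R) (c : A₁) (a' : R)
    (hca : a = algebraMap A₁ R c + π * a') :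
    red'' (algebraMap R B'' a) = red (algebraMap A₁ B c) := by
  rw [hca, map_add, map_mul, map_add, map_mul, hπ, zero_mul, add_zero, ← hφc, hcl]

end GenericConst

variable {A : ValuationSubring Qbar} {ℓ : ℕ} (hℓ : ℓ.Prime) (hA : A.LiesOverPrime ℓ)
variable (E : IntermediateField (H45.unrCyclo ℓ) Qbar) (N : ℕ) [NeZero N] (M : ℕ) [NeZero M]

section Uniq

variable (J₁ : ↥(modularFunctionFieldFullC ↥(H45.unrCyclo ℓ) N))
  (π : ↥(H45.cutOver A E)) (hπ : maximalIdeal ↥(H45.cutOver A E) = Ideal.span {π})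
  (hN : GenBy (A := A) E N J₁) {R₀ : Type*} [CommRing R₀]

/-- **The two clauses force `red'' = redE red`** (at `J_E := baseChangeE E N J₁`). -/
theorem eq_redE_of_clauses
    (red : ↥(H40.chartB ↥(H45.A0 A ℓ) J₁) →+* R₀)
    (hq : red (algebraMap ↥(H45.A0 A ℓ) ↥(H40.chartB ↥(H45.A0 A ℓ) J₁)
      ((ℓ : ℕ) : ↥(H45.A0 A ℓ))) = 0)
    (hJ : H45.baseChangeE E N J₁ = H45.baseChangeE E N J₁)
    (red'' : ↥(H40.chartB ↥(H45.cutOver A E) (H45.baseChangeE E N J₁)) →+* R₀)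
    (hcl : ∀ b, red'' (S34.H95.chartBC (A := A) E N J₁ (H45.baseChangeE E N J₁) hJ b) = red b)
    (hπ0 : red'' (algebraMap ↥(H45.cutOver A E)
      ↥(H40.chartB ↥(H45.cutOver A E) (H45.baseChangeE E N J₁)) π) = 0) :
    red'' = redE hℓ hA E N J₁ π hπ hN red hq :=
  eq_redE_of_chartBC hℓ hA E N J₁ π hπ hN red hq hJ red'' hcl
    (fun a c a' hca => map_const_of_clauses
      (S34.H95.chartBC (A := A) E N J₁ (H45.baseChangeE E N J₁) hJ)
      (S34.H95.chartBC_algebraMap (A := A) E N J₁ (H45.baseChangeE E N J₁) hJ)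
      red red'' hcl π hπ0 a c a' hca)

end Uniq

section Final

variable (J₁ : ↥(modularFunctionFieldFullC ↥(H45.unrCyclo ℓ) N))
  (c₁ : ↥(modularFunctionFieldFullC ↥(H45.unrCyclo ℓ) M))
  (π : ↥(H45.cutOver A E)) (hπ : maximalIdeal ↥(H45.cutOver A E) = Ideal.span {π})
  (hN : GenBy (A := A) E N J₁) (hM : GenBy (A := A) E M c₁)
  {R₀ : Type*} [CommRing R₀]
  {red₁ red₂ red₃ : ↥(H40.chartB ↥(H45.A0 A ℓ) J₁) →+* R₀}
  {red₁' red₂' : ↥(H40.chartB ↥(H45.A0 A ℓ) c₁) →+* R₀}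
  {α β : ↥(H40.chartB ↥(H45.A0 A ℓ) c₁) →+* ↥(H40.chartB ↥(H45.A0 A ℓ) J₁)}
  {W : R₀ →+* R₀}

include hℓ hA hπ hN hM in
/-- **`LevelMaps` over `A''`, consumer form**: for ANY reductions on the `A''`-charts
`chartB A'' J_E`, `chartB A'' c_E` satisfying the two clauses of helper70's final packages. -/
theorem exists_levelMaps_chartBC
    (J_E : ↥(modularFunctionFieldFullC ↥E N)) (hJ : H45.baseChangeE E N J₁ = J_E)
    (c_E : ↥(modularFunctionFieldFullC ↥E M)) (hc : H45.baseChangeE E M c₁ = c_E)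
    (LM : LevelMaps red₁ red₂ red₃ red₁' red₂' α β W)
    (hαA₁ : ∀ c : ↥(H45.A0 A ℓ),
      α (algebraMap ↥(H45.A0 A ℓ) ↥(H40.chartB ↥(H45.A0 A ℓ) c₁) c) =
        algebraMap ↥(H45.A0 A ℓ) ↥(H40.chartB ↥(H45.A0 A ℓ) J₁) c)
    (hβA₁ : ∀ c : ↥(H45.A0 A ℓ),
      β (algebraMap ↥(H45.A0 A ℓ) ↥(H40.chartB ↥(H45.A0 A ℓ) c₁) c) =
        algebraMap ↥(H45.A0 A ℓ) ↥(H40.chartB ↥(H45.A0 A ℓ) J₁) c)
    (hq₁ : red₁ (algebraMap ↥(H45.A0 A ℓ) ↥(H40.chartB ↥(H45.A0 A ℓ) J₁)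
      ((ℓ : ℕ) : ↥(H45.A0 A ℓ))) = 0)
    (hq₂ : red₂ (algebraMap ↥(H45.A0 A ℓ) ↥(H40.chartB ↥(H45.A0 A ℓ) J₁)
      ((ℓ : ℕ) : ↥(H45.A0 A ℓ))) = 0)
    (hq₃ : red₃ (algebraMap ↥(H45.A0 A ℓ) ↥(H40.chartB ↥(H45.A0 A ℓ) J₁)
      ((ℓ : ℕ) : ↥(H45.A0 A ℓ))) = 0)
    (hq₁' : red₁' (algebraMap ↥(H45.A0 A ℓ) ↥(H40.chartB ↥(H45.A0 A ℓ) c₁)
      ((ℓ : ℕ) : ↥(H45.A0 A ℓ))) = 0)
    (hq₂' : red₂' (algebraMap ↥(H45.A0 A ℓ) ↥(H40.chartB ↥(H45.A0 A ℓ) c₁)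
      ((ℓ : ℕ) : ↥(H45.A0 A ℓ))) = 0)
    (αE βE : ↥(modularFunctionFieldFullC ↥E M) →+* ↥(modularFunctionFieldFullC ↥E N))
    (hαbc : ∀ b : ↥(H40.chartB ↥(H45.A0 A ℓ) c₁),
      αE (H45.baseChangeE E M (b : ↥(modularFunctionFieldFullC ↥(H45.unrCyclo ℓ) M))) =
        H45.baseChangeE E N
          ((α b : ↥(H40.chartB ↥(H45.A0 A ℓ) J₁)) :
            ↥(modularFunctionFieldFullC ↥(H45.unrCyclo ℓ) N)))
    (hαc : ∀ a : ↥(H45.cutOver A E),
      αE (algebraMap ↥(H45.cutOver A E) ↥(modularFunctionFieldFullC ↥E M) a) =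
        algebraMap ↥(H45.cutOver A E) ↥(modularFunctionFieldFullC ↥E N) a)
    (hβbc : ∀ b : ↥(H40.chartB ↥(H45.A0 A ℓ) c₁),
      βE (H45.baseChangeE E M (b : ↥(modularFunctionFieldFullC ↥(H45.unrCyclo ℓ) M))) =
        H45.baseChangeE E N
          ((β b : ↥(H40.chartB ↥(H45.A0 A ℓ) J₁)) :
            ↥(modularFunctionFieldFullC ↥(H45.unrCyclo ℓ) N)))
    (hβc : ∀ a : ↥(H45.cutOver A E),
      βE (algebraMap ↥(H45.cutOver A E) ↥(modularFunctionFieldFullC ↥E M) a) =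
        algebraMap ↥(H45.cutOver A E) ↥(modularFunctionFieldFullC ↥E N) a)
    (hαint : α.IsIntegral) (hβint : β.IsIntegral)
    (red₁'' red₂'' red₃'' : ↥(H40.chartB ↥(H45.cutOver A E) J_E) →+* R₀)
    (hcl₁ : ∀ b, red₁'' (S34.H95.chartBC (A := A) E N J₁ J_E hJ b) = red₁ b)
    (hcl₂ : ∀ b, red₂'' (S34.H95.chartBC (A := A) E N J₁ J_E hJ b) = red₂ b)
    (hcl₃ : ∀ b, red₃'' (S34.H95.chartBC (A := A) E N J₁ J_E hJ b) = red₃ b)
    (hπ₁ : red₁'' (algebraMap ↥(H45.cutOver A E) ↥(H40.chartB ↥(H45.cutOver A E) J_E) π) = 0)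
    (hπ₂ : red₂'' (algebraMap ↥(H45.cutOver A E) ↥(H40.chartB ↥(H45.cutOver A E) J_E) π) = 0)
    (hπ₃ : red₃'' (algebraMap ↥(H45.cutOver A E) ↥(H40.chartB ↥(H45.cutOver A E) J_E) π) = 0)
    (red₁''' red₂''' : ↥(H40.chartB ↥(H45.cutOver A E) c_E) →+* R₀)
    (hcl₁' : ∀ b, red₁''' (S34.H95.chartBC (A := A) E M c₁ c_E hc b) = red₁' b)
    (hcl₂' : ∀ b, red₂''' (S34.H95.chartBC (A := A) E M c₁ c_E hc b) = red₂' b)
    (hπ₁' : red₁''' (algebraMap ↥(H45.cutOver A E) ↥(H40.chartB ↥(H45.cutOver A E) c_E) π) = 0)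
    (hπ₂' : red₂''' (algebraMap ↥(H45.cutOver A E) ↥(H40.chartB ↥(H45.cutOver A E) c_E) π) = 0) :
    ∃ α'' β'' : ↥(H40.chartB ↥(H45.cutOver A E) c_E) →+* ↥(H40.chartB ↥(H45.cutOver A E) J_E),
      LevelMaps red₁'' red₂'' red₃'' red₁''' red₂''' α'' β'' W ∧
      (∀ b, α'' (S34.H95.chartBC (A := A) E M c₁ c_E hc b) =
        S34.H95.chartBC (A := A) E N J₁ J_E hJ (α b)) ∧
      (∀ b, β'' (S34.H95.chartBC (A := A) E M c₁ c_E hc b) =
        S34.H95.chartBC (A := A) E N J₁ J_E hJ (β b)) ∧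
      (∀ a : ↥(H45.cutOver A E),
        α'' (algebraMap ↥(H45.cutOver A E) ↥(H40.chartB ↥(H45.cutOver A E) c_E) a) =
          algebraMap ↥(H45.cutOver A E) ↥(H40.chartB ↥(H45.cutOver A E) J_E) a) ∧
      (∀ a : ↥(H45.cutOver A E),
        β'' (algebraMap ↥(H45.cutOver A E) ↥(H40.chartB ↥(H45.cutOver A E) c_E) a) =
          algebraMap ↥(H45.cutOver A E) ↥(H40.chartB ↥(H45.cutOver A E) J_E) a) ∧
      (∀ x, algebraMap ↥(H40.chartB ↥(H45.cutOver A E) J_E) ↥(modularFunctionFieldFullC ↥E N)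
          (α'' x) =
        αE (algebraMap ↥(H40.chartB ↥(H45.cutOver A E) c_E)
          ↥(modularFunctionFieldFullC ↥E M) x)) ∧
      (∀ x, algebraMap ↥(H40.chartB ↥(H45.cutOver A E) J_E) ↥(modularFunctionFieldFullC ↥E N)
          (β'' x) =
        βE (algebraMap ↥(H40.chartB ↥(H45.cutOver A E) c_E)
          ↥(modularFunctionFieldFullC ↥E M) x)) ∧
      α''.IsIntegral ∧ β''.IsIntegral := by
  subst hJ
  subst hc
  have e₁ := eq_redE_of_clauses hℓ hA E N J₁ π hπ hN red₁ hq₁ rfl red₁'' hcl₁ hπ₁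
  have e₂ := eq_redE_of_clauses hℓ hA E N J₁ π hπ hN red₂ hq₂ rfl red₂'' hcl₂ hπ₂
  have e₃ := eq_redE_of_clauses hℓ hA E N J₁ π hπ hN red₃ hq₃ rfl red₃'' hcl₃ hπ₃
  have e₁' := eq_redE_of_clauses hℓ hA E M c₁ π hπ hM red₁' hq₁' rfl red₁''' hcl₁' hπ₁'
  have e₂' := eq_redE_of_clauses hℓ hA E M c₁ π hπ hM red₂' hq₂' rfl red₂''' hcl₂' hπ₂'
  subst e₁ e₂ e₃ e₁' e₂'
  refine ⟨mapE E N M J₁ c₁ hN hM αE α hαbc hαc, mapE E N M J₁ c₁ hN hM βE β hβbc hβc,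
    levelMaps_cutOver hℓ hA E N M J₁ c₁ π hπ hN hM LM hαA₁ hβA₁ hq₁ hq₂ hq₃ hq₁' hq₂'
      αE βE hαbc hαc hβbc hβc,
    fun b => Subtype.ext (hαbc b), fun b => Subtype.ext (hβbc b),
    mapE_algebraMap E N M J₁ c₁ hN hM αE α hαbc hαc,
    mapE_algebraMap E N M J₁ c₁ hN hM βE β hβbc hβc,
    fun _ => rfl, fun _ => rfl,
    S36.H62.mapE_isIntegral E N M J₁ c₁ hN hM αE α hαbc hαc hαint,
    S36.H62.mapE_isIntegral E N M J₁ c₁ hN hM βE β hβbc hβc hβint⟩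

end Final

end Fermat.Agent.S36.H89L
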