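/-
helper96: S36, row (E2-lvl), CHART LEVEL: **`S36.H83.LevelMaps` AT THE REAL TYPES**, both charts.

`φα = chartMap iota2`, `φβ = chartMap V2` (`iota2 = iotaMN (q * L)`, `V2 = VMN (q * L)`) between the
level-`qL` charts `chartB A₁ (j j_q)^(±1)` (`S34.H55.JN L`) and the level-`q²L` charts
`chartB A₁ J₃^(±1)` (`S36.H83.J3N L`).

* `iotaMN_JN`, `VMN_JN` : `iota2 (j j_q) = eU j * eV j`, `V2 (j j_q) = eV j * eW j` (helper83's
  `eU eV eW`); `hinta1 hintb1 hinta2 hintb2` : the `hint`s of the four `chartMap`s;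
* `levelMaps_real` : `LevelMaps` for ANY chart coordinates `c' ∈ F1`, `u ∈ F2`, `w ∈ Fk(L)` and ANY
  chart reductions restricting the place reductions of `PB PC PA` / `Pi P0`;
* `levelMaps_J3`, `levelMaps_J3_inv` : the two real charts;
* the extras: `phiα_ι`, `phiα_V`, `phiβ_ι`, `phiβ_V` (`φα ∘ ι' = ιu`, `φα ∘ V' = ιv`,
  `φβ ∘ ι' = ιv`, `φβ ∘ V' = ιw`); `φ q = q` is `S36.H96.chartMap_algebraMap`.
-/
import Fermat.Agent.S36.H96_LevelMapsAbs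
import Fermat.Agent.S36.H96_LevelMapsReal
import Fermat.Agent.S36.H83_L0ThreePre

set_option autoImplicit false
set_option linter.unusedSectionVars false
set_option linter.style.haveILetI false
set_option synthInstance.maxHeartbeats 400000

noncomputable section

namespace Fermat.Agent.S36.H96

open ModularCurve Polynomial IsLocalRing Fermat.Agent.S28
open Fermat.Agent.S18 Fermat.Agent.S18.H55T Fermat.Agent.S34.H92 Fermat.Agent.S34.H16
open Fermat.Agent.S34.H55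

local notation "Qbar" => AlgebraicClosure ℚ

section Gen

/-- integrality of a product, along an equation (generic: at the real types `rw` / `IsIntegral.mul`
directly are very slow). -/
theorem isIntegral_mul_of_eq {R0 F : Type*} [CommRing R0] [Field F] [Algebra R0 F] {u x y z : F}
    (e : z = x * y) (hx : IsIntegral (Algebra.adjoin R0 {u}) x)
    (hy : IsIntegral (Algebra.adjoin R0 {u}) y) : IsIntegral (Algebra.adjoin R0 {u}) z := by
  rw [e]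
  exact hx.mul hy

end Gen

section Chart

variable (L : ℕ) [NeZero L] {q : ℕ} [hq : Fact q.Prime] (hqL : ¬ q ∣ L)
  (A : ValuationSubring Qbar) (hA : A.LiesOverPrime q)

local notation "kA" => IsLocalRing.ResidueField A
local notation "A₁" => H45.A0 A q
local notation "L₁" => H45.unrCyclo q
local notation "F0" => modularFunctionFieldFullC (H45.unrCyclo q) L
local notation "F1" => modularFunctionFieldFullC (H45.unrCyclo q) (q * L)
local notation "F2" => modularFunctionFieldFullC (H45.unrCyclo q) (q * (q * L))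
local notation "FkL" => modularFunctionFieldFullC (IsLocalRing.ResidueField A) L

/-! ### The images of the level-`qL` chart coordinate -/

/-- `iota2 (j j_q) = eU j * eV j`. -/
theorem iotaMN_JN : iotaMN (q * L) (ℓ := q) (JN L (ℓ := q)) =
    S36.H83.eU L (q := q) (S18.H16.jK L₁ L) * S36.H83.eV L (q := q) (S18.H16.jK L₁ L) := by
  apply Subtype.ext
  rw [coe_iotaMN]
  change _ = ((S36.H83.eU L (q := q) (S18.H16.jK L₁ L) : F2) : LaurentSeries L₁) *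
    ((S36.H83.eV L (q := q) (S18.H16.jK L₁ L) : F2) : LaurentSeries L₁)
  rw [S36.H83.coe_eU, S36.H83.coe_eV, S18.H16.coe_jK]
  rfl

/-- `V2 (j j_q) = eV j * eW j`. -/
theorem VMN_JN : VMN (q * L) (ℓ := q) (JN L (ℓ := q)) =
    S36.H83.eV L (q := q) (S18.H16.jK L₁ L) * S36.H83.eW L (q := q) (S18.H16.jK L₁ L) := by
  apply Subtype.ext
  rw [coe_VMN]
  change _ = ((S36.H83.eV L (q := q) (S18.H16.jK L₁ L) : F2) : LaurentSeries L₁) *
    ((S36.H83.eW L (q := q) (S18.H16.jK L₁ L) : F2) : LaurentSeries L₁)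
  rw [S36.H83.coe_eV, S36.H83.coe_eW, S18.H16.coe_jK]
  change qExpand L₁ q (jqModC L₁ * qExpand L₁ q (jqModC L₁)) = _
  rw [map_mul]

/-- `iota2 (j j_q)⁻¹ = eU j⁻¹ * eV j⁻¹`. -/
theorem iotaMN_JN_inv : iotaMN (q * L) (ℓ := q) (JN L (ℓ := q))⁻¹ =
    S36.H83.eU L (q := q) (S18.H16.jK L₁ L)⁻¹ * S36.H83.eV L (q := q) (S18.H16.jK L₁ L)⁻¹ :=
  (map_inv₀ _ _).trans ((congrArg Inv.inv (iotaMN_JN L)).trans ((mul_inv _ _).trans
    (congrArg₂ (· * ·) (map_inv₀ (S36.H83.eU L (q := q)) _).symm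
      (map_inv₀ (S36.H83.eV L (q := q)) _).symm)))

/-- `V2 (j j_q)⁻¹ = eV j⁻¹ * eW j⁻¹`. -/
theorem VMN_JN_inv : VMN (q * L) (ℓ := q) (JN L (ℓ := q))⁻¹ =
    S36.H83.eV L (q := q) (S18.H16.jK L₁ L)⁻¹ * S36.H83.eW L (q := q) (S18.H16.jK L₁ L)⁻¹ :=
  (map_inv₀ _ _).trans ((congrArg Inv.inv (VMN_JN L)).trans ((mul_inv _ _).trans
    (congrArg₂ (· * ·) (map_inv₀ (S36.H83.eV L (q := q)) _).symm
      (map_inv₀ (S36.H83.eW L (q := q)) _).symm)))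

/-- **`hint` of `φα`, chart `J₃`.** -/
theorem hinta1 : IsIntegral (Algebra.adjoin A₁ {S36.H83.J3N L (q := q)})
    (iotaMN (q * L) (ℓ := q) (JN L (ℓ := q))) :=
  isIntegral_mul_of_eq (iotaMN_JN L) (S36.H83.huint1 L A) (S36.H83.hvint1 L A)

/-- **`hint` of `φβ`, chart `J₃`.** -/
theorem hintb1 : IsIntegral (Algebra.adjoin A₁ {S36.H83.J3N L (q := q)})
    (VMN (q * L) (ℓ := q) (JN L (ℓ := q))) :=
  isIntegral_mul_of_eq (VMN_JN L) (S36.H83.hvint1 L A) (S36.H83.hwint1 L A)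

/-- **`hint` of `φα`, chart `J₃⁻¹`.** -/
theorem hinta2 : IsIntegral (Algebra.adjoin A₁ {(S36.H83.J3N L (q := q))⁻¹})
    (iotaMN (q * L) (ℓ := q) (JN L (ℓ := q))⁻¹) :=
  isIntegral_mul_of_eq (iotaMN_JN_inv L) (S36.H83.huint2 L A) (S36.H83.hvint2 L A)

/-- **`hint` of `φβ`, chart `J₃⁻¹`.** -/
theorem hintb2 : IsIntegral (Algebra.adjoin A₁ {(S36.H83.J3N L (q := q))⁻¹})
    (VMN (q * L) (ℓ := q) (JN L (ℓ := q))⁻¹) :=
  isIntegral_mul_of_eq (VMN_JN_inv L) (S36.H83.hvint2 L A) (S36.H83.hwint2 L A)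

/-! ### The charts lie in the bottom place rings -/

theorem chart_le_PO1_inf (Pi : PlaceInf L hqL A hA) {c' : F1} (hci : c' ∈ PO1 L hqL A hA Pi)
    (z : ↥(H40.chartB A₁ c')) : (z : F1) ∈ PO1 L hqL A hA Pi :=
  mem_of_isIntegral_adjoin_of_closed (PO1 L hqL A hA Pi) (PO1_closed L hqL A hA Pi)
    (fun r => (hconsti L hqL A hA Pi r).1) hci z.2

theorem chart_le_PO1_zero (P0 : PlaceZero L hqL A hA) {c' : F1} (hc0 : c' ∈ PO1 L hqL A hA P0)
    (z : ↥(H40.chartB A₁ c')) : (z : F1) ∈ PO1 L hqL A hA P0 :=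
  mem_of_isIntegral_adjoin_of_closed (PO1 L hqL A hA P0) (PO1_closed L hqL A hA P0)
    (fun r => (hconst0 L hqL A hA P0 r).1) hc0 z.2

/-! ### `LevelMaps` -/

set_option maxHeartbeats 1600000 in
/-- **(E2-lvl), any chart coordinates.** -/
theorem levelMaps_real (Pi : PlaceInf L hqL A hA) (P0 : PlaceZero L hqL A hA)
    (PA : S36.H55.PlaceA L hqL A hA P0) (PB : S36.H55.PlaceB L hqL A hA Pi)
    (PC : S36.H55.PlaceC L hqL A hA Pi)
    {c' : F1} {u : F2} {w : FkL} (hFrw : FrM L A hA w = w ^ q)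
    (hci : c' ∈ PO1 L hqL A hA Pi) (hc0 : c' ∈ PO1 L hqL A hA P0)
    (hinta : IsIntegral (Algebra.adjoin A₁ {u}) (iotaMN (q * L) (ℓ := q) c'))
    (hintb : IsIntegral (Algebra.adjoin A₁ {u}) (VMN (q * L) (ℓ := q) c'))
    (red₁ red₂ red₃ : ↥(H40.chartB A₁ u) →+* ↥(integralClosure (Algebra.adjoin kA {w}) FkL))
    (red₁' red₂' : ↥(H40.chartB A₁ c') →+* ↥(integralClosure (Algebra.adjoin kA {w}) FkL))
    (h1 : ∀ (x : ↥(H40.chartB A₁ u)) (h : (x : F2) ∈ S36.H55.QO1 L hqL A hA PB),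
      inclk L A ((red₁ x : ↥(integralClosure (Algebra.adjoin kA {w}) FkL)) : FkL) =
        S36.H55.Qres1 L hqL A hA PB ⟨x, h⟩)
    (h2 : ∀ (x : ↥(H40.chartB A₁ u)) (h : (x : F2) ∈ S36.H55.RO1 L hqL A hA PC),
      inclk L A ((red₂ x : ↥(integralClosure (Algebra.adjoin kA {w}) FkL)) : FkL) =
        S36.H55.Rres1 L hqL A hA PC ⟨x, h⟩)
    (h3 : ∀ (x : ↥(H40.chartB A₁ u)) (h : (x : F2) ∈ S36.H55.QO1 L hqL A hA PA),
      inclk L A ((red₃ x : ↥(integralClosure (Algebra.adjoin kA {w}) FkL)) : FkL) =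
        S36.H55.Qres1 L hqL A hA PA ⟨x, h⟩)
    (h1' : ∀ (z : ↥(H40.chartB A₁ c')) (h : (z : F1) ∈ PO1 L hqL A hA Pi),
      inclk L A ((red₁' z : ↥(integralClosure (Algebra.adjoin kA {w}) FkL)) : FkL) =
        Pres1 L hqL A hA Pi ⟨z, h⟩)
    (h2' : ∀ (z : ↥(H40.chartB A₁ c')) (h : (z : F1) ∈ PO1 L hqL A hA P0),
      inclk L A ((red₂' z : ↥(integralClosure (Algebra.adjoin kA {w}) FkL)) : FkL) =
        Pres1 L hqL A hA P0 ⟨z, h⟩) :
    S36.H83.LevelMaps red₁ red₂ red₃ red₁' red₂'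
      (chartMap (iotaMN (q * L) (ℓ := q)) (iotaMN_algebraMap (q * L) A) hinta)
      (chartMap (VMN (q * L) (ℓ := q)) (VMN_algebraMap (q * L) A) hintb)
      (WR (FrM L A hA) q hFrw) :=
  levelMaps_of_incl (inclk L A) (qExpand (IsLocalRing.ResidueField A) q) (FrM L A hA)
    (fun γ => (coe_FrM L A hA γ).symm)
    (iotaMN (q * L) (ℓ := q)) (VMN (q * L) (ℓ := q))
    (iotaMN_algebraMap (q * L) A) (VMN_algebraMap (q * L) A)
    (PO1 L hqL A hA Pi) (Pres1 L hqL A hA Pi) (PO1 L hqL A hA P0) (Pres1 L hqL A hA P0)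
    (S36.H55.QO1 L hqL A hA PB) (S36.H55.Qres1 L hqL A hA PB)
    (S36.H55.RO1 L hqL A hA PC) (S36.H55.Rres1 L hqL A hA PC)
    (S36.H55.QO1 L hqL A hA PA) (S36.H55.Qres1 L hqL A hA PA)
    (resB_iota2 L hqL A hA Pi PB) (resC_iota2 L hqL A hA Pi PC) (resA_iota2 L hqL A hA P0 PA)
    (resB_V2 L hqL A hA Pi PB) (resC_V2 L hqL A hA Pi P0 PC) (resA_V2 L hqL A hA P0 PA)
    q hFrw hinta hintb
    (chart_le_PO1_inf L hqL A hA Pi hci) (chart_le_PO1_zero L hqL A hA P0 hc0)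
    red₁ red₂ red₃ red₁' red₂' h1 h2 h3 h1' h2'

/-! ### The two real charts -/

theorem JN_mem_inf (Pi : PlaceInf L hqL A hA) : JN L (ℓ := q) ∈ PO1 L hqL A hA Pi :=
  Exists.elim (S34.H99.hu_hw_JK_infty L hqL A hA Pi) fun h _ => h

theorem JN_mem_zero (P0 : PlaceZero L hqL A hA) : JN L (ℓ := q) ∈ PO1 L hqL A hA P0 :=
  Exists.elim (S34.H99.hu_hw_JK_zero L hqL A hA P0) fun h _ => h

theorem JN_inv_mem_inf (Pi : PlaceInf L hqL A hA) : (JN L (ℓ := q))⁻¹ ∈ PO1 L hqL A hA Pi :=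
  Exists.elim (S34.H99.hu_hw_JK_inv_infty L hqL A hA Pi) fun h _ => h

theorem JN_inv_mem_zero (P0 : PlaceZero L hqL A hA) : (JN L (ℓ := q))⁻¹ ∈ PO1 L hqL A hA P0 :=
  Exists.elim (S34.H99.hu_hw_JK_inv_zero L hqL A hA P0) fun h _ => h

set_option maxHeartbeats 1600000 in
/-- **(E2-lvl), chart `J₃`** (`B' = chartB A₁ (j j_q)`, `B = chartB A₁ J₃`, `D` = the integral
closure of `kA[j̄]` in `Fk(L)`, `W = WR Fr q`). -/
theorem levelMaps_J3 (Pi : PlaceInf L hqL A hA) (P0 : PlaceZero L hqL A hA)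
    (PA : S36.H55.PlaceA L hqL A hA P0) (PB : S36.H55.PlaceB L hqL A hA Pi)
    (PC : S36.H55.PlaceC L hqL A hA Pi)
    (red₁ red₂ red₃ : ↥(H40.chartB A₁ (S36.H83.J3N L (q := q))) →+*
      ↥(integralClosure (Algebra.adjoin kA {S18.H16.jK kA L}) FkL))
    (red₁' red₂' : ↥(H40.chartB A₁ (JN L (ℓ := q))) →+*
      ↥(integralClosure (Algebra.adjoin kA {S18.H16.jK kA L}) FkL))
    (h1 : ∀ (x : ↥(H40.chartB A₁ (S36.H83.J3N L (q := q))))
      (h : (x : F2) ∈ S36.H55.QO1 L hqL A hA PB),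
      inclk L A ((red₁ x : ↥(integralClosure (Algebra.adjoin kA {S18.H16.jK kA L}) FkL)) : FkL) =
        S36.H55.Qres1 L hqL A hA PB ⟨x, h⟩)
    (h2 : ∀ (x : ↥(H40.chartB A₁ (S36.H83.J3N L (q := q))))
      (h : (x : F2) ∈ S36.H55.RO1 L hqL A hA PC),
      inclk L A ((red₂ x : ↥(integralClosure (Algebra.adjoin kA {S18.H16.jK kA L}) FkL)) : FkL) =
        S36.H55.Rres1 L hqL A hA PC ⟨x, h⟩)
    (h3 : ∀ (x : ↥(H40.chartB A₁ (S36.H83.J3N L (q := q))))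
      (h : (x : F2) ∈ S36.H55.QO1 L hqL A hA PA),
      inclk L A ((red₃ x : ↥(integralClosure (Algebra.adjoin kA {S18.H16.jK kA L}) FkL)) : FkL) =
        S36.H55.Qres1 L hqL A hA PA ⟨x, h⟩)
    (h1' : ∀ (z : ↥(H40.chartB A₁ (JN L (ℓ := q)))) (h : (z : F1) ∈ PO1 L hqL A hA Pi),
      inclk L A ((red₁' z : ↥(integralClosure (Algebra.adjoin kA {S18.H16.jK kA L}) FkL)) : FkL) =
        Pres1 L hqL A hA Pi ⟨z, h⟩)
    (h2' : ∀ (z : ↥(H40.chartB A₁ (JN L (ℓ := q)))) (h : (z : F1) ∈ PO1 L hqL A hA P0),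
      inclk L A ((red₂' z : ↥(integralClosure (Algebra.adjoin kA {S18.H16.jK kA L}) FkL)) : FkL) =
        Pres1 L hqL A hA P0 ⟨z, h⟩) :
    S36.H83.LevelMaps red₁ red₂ red₃ red₁' red₂'
      (chartMap (iotaMN (q * L) (ℓ := q)) (iotaMN_algebraMap (q * L) A) (hinta1 L A))
      (chartMap (VMN (q * L) (ℓ := q)) (VMN_algebraMap (q * L) A) (hintb1 L A))
      (WR (FrM L A hA) q (hFrx L A hA)) :=
  levelMaps_real L hqL A hA Pi P0 PA PB PC (hFrx L A hA) (JN_mem_inf L hqL A hA Pi)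
    (JN_mem_zero L hqL A hA P0) (hinta1 L A) (hintb1 L A) red₁ red₂ red₃ red₁' red₂'
    h1 h2 h3 h1' h2'

set_option maxHeartbeats 1600000 in
/-- **(E2-lvl), chart `J₃⁻¹`** (`B' = chartB A₁ (j j_q)⁻¹`, `B = chartB A₁ J₃⁻¹`, `D` = the
integral closure of `kA[j̄⁻¹]` in `Fk(L)`). -/
theorem levelMaps_J3_inv (Pi : PlaceInf L hqL A hA) (P0 : PlaceZero L hqL A hA)
    (PA : S36.H55.PlaceA L hqL A hA P0) (PB : S36.H55.PlaceB L hqL A hA Pi)
    (PC : S36.H55.PlaceC L hqL A hA Pi)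
    (red₁ red₂ red₃ : ↥(H40.chartB A₁ (S36.H83.J3N L (q := q))⁻¹) →+*
      ↥(integralClosure (Algebra.adjoin kA {(S18.H16.jK kA L)⁻¹}) FkL))
    (red₁' red₂' : ↥(H40.chartB A₁ (JN L (ℓ := q))⁻¹) →+*
      ↥(integralClosure (Algebra.adjoin kA {(S18.H16.jK kA L)⁻¹}) FkL))
    (h1 : ∀ (x : ↥(H40.chartB A₁ (S36.H83.J3N L (q := q))⁻¹))
      (h : (x : F2) ∈ S36.H55.QO1 L hqL A hA PB),
      inclk L A
        ((red₁ x : ↥(integralClosure (Algebra.adjoin kA {(S18.H16.jK kA L)⁻¹}) FkL)) : FkL) =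
        S36.H55.Qres1 L hqL A hA PB ⟨x, h⟩)
    (h2 : ∀ (x : ↥(H40.chartB A₁ (S36.H83.J3N L (q := q))⁻¹))
      (h : (x : F2) ∈ S36.H55.RO1 L hqL A hA PC),
      inclk L A
        ((red₂ x : ↥(integralClosure (Algebra.adjoin kA {(S18.H16.jK kA L)⁻¹}) FkL)) : FkL) =
        S36.H55.Rres1 L hqL A hA PC ⟨x, h⟩)
    (h3 : ∀ (x : ↥(H40.chartB A₁ (S36.H83.J3N L (q := q))⁻¹))
      (h : (x : F2) ∈ S36.H55.QO1 L hqL A hA PA),
      inclk L A
        ((red₃ x : ↥(integralClosure (Algebra.adjoin kA {(S18.H16.jK kA L)⁻¹}) FkL)) : FkL) =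
        S36.H55.Qres1 L hqL A hA PA ⟨x, h⟩)
    (h1' : ∀ (z : ↥(H40.chartB A₁ (JN L (ℓ := q))⁻¹)) (h : (z : F1) ∈ PO1 L hqL A hA Pi),
      inclk L A
        ((red₁' z : ↥(integralClosure (Algebra.adjoin kA {(S18.H16.jK kA L)⁻¹}) FkL)) : FkL) =
        Pres1 L hqL A hA Pi ⟨z, h⟩)
    (h2' : ∀ (z : ↥(H40.chartB A₁ (JN L (ℓ := q))⁻¹)) (h : (z : F1) ∈ PO1 L hqL A hA P0),
      inclk L A
        ((red₂' z : ↥(integralClosure (Algebra.adjoin kA {(S18.H16.jK kA L)⁻¹}) FkL)) : FkL) =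
        Pres1 L hqL A hA P0 ⟨z, h⟩) :
    S36.H83.LevelMaps red₁ red₂ red₃ red₁' red₂'
      (chartMap (iotaMN (q * L) (ℓ := q)) (iotaMN_algebraMap (q * L) A) (hinta2 L A))
      (chartMap (VMN (q * L) (ℓ := q)) (VMN_algebraMap (q * L) A) (hintb2 L A))
      (WR (FrM L A hA) q (hFrx_inv L A hA)) :=
  levelMaps_real L hqL A hA Pi P0 PA PB PC (hFrx_inv L A hA) (JN_inv_mem_inf L hqL A hA Pi)
    (JN_inv_mem_zero L hqL A hA P0) (hinta2 L A) (hintb2 L A) red₁ red₂ red₃ red₁' red₂'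
    h1 h2 h3 h1' h2'

/-! ### The extras: compositions with the level-`q` chart maps (any chart coordinates) -/

/-- `φα ∘ ι' = ιu`. -/
theorem phiα_ι {c : F0} {c' : F1} {u : F2}
    (h₁ : IsIntegral (Algebra.adjoin A₁ {c'}) (iotaMN L (ℓ := q) c))
    (h₂ : IsIntegral (Algebra.adjoin A₁ {u}) (iotaMN (q * L) (ℓ := q) c'))
    (h₃ : IsIntegral (Algebra.adjoin A₁ {u}) (S36.H83.eU L (q := q) c))
    (ψ : ↥(H40.chartB A₁ c)) :
    chartMap (iotaMN (q * L) (ℓ := q)) (iotaMN_algebraMap (q * L) A) h₂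
        (chartMap (iotaMN L (ℓ := q)) (iotaMN_algebraMap L A) h₁ ψ) =
      chartMap (S36.H83.eU L (q := q)) (S36.H83.eU_algebraMap L A) h₃ ψ :=
  Subtype.ext rfl

/-- `φα ∘ V' = ιv`. -/
theorem phiα_V {c : F0} {c' : F1} {u : F2}
    (h₁ : IsIntegral (Algebra.adjoin A₁ {c'}) (VMN L (ℓ := q) c))
    (h₂ : IsIntegral (Algebra.adjoin A₁ {u}) (iotaMN (q * L) (ℓ := q) c'))
    (h₃ : IsIntegral (Algebra.adjoin A₁ {u}) (S36.H83.eV L (q := q) c))
    (ψ : ↥(H40.chartB A₁ c)) :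
    chartMap (iotaMN (q * L) (ℓ := q)) (iotaMN_algebraMap (q * L) A) h₂
        (chartMap (VMN L (ℓ := q)) (VMN_algebraMap L A) h₁ ψ) =
      chartMap (S36.H83.eV L (q := q)) (S36.H83.eV_algebraMap L A) h₃ ψ :=
  Subtype.ext rfl

/-- `φβ ∘ ι' = ιv`. -/
theorem phiβ_ι {c : F0} {c' : F1} {u : F2}
    (h₁ : IsIntegral (Algebra.adjoin A₁ {c'}) (iotaMN L (ℓ := q) c))
    (h₂ : IsIntegral (Algebra.adjoin A₁ {u}) (VMN (q * L) (ℓ := q) c'))
    (h₃ : IsIntegral (Algebra.adjoin A₁ {u}) (S36.H83.eV L (q := q) c))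
    (ψ : ↥(H40.chartB A₁ c)) :
    chartMap (VMN (q * L) (ℓ := q)) (VMN_algebraMap (q * L) A) h₂
        (chartMap (iotaMN L (ℓ := q)) (iotaMN_algebraMap L A) h₁ ψ) =
      chartMap (S36.H83.eV L (q := q)) (S36.H83.eV_algebraMap L A) h₃ ψ :=
  Subtype.ext (VMN_iotaMN L (ψ : F0))

/-- `φβ ∘ V' = ιw`. -/
theorem phiβ_V {c : F0} {c' : F1} {u : F2}
    (h₁ : IsIntegral (Algebra.adjoin A₁ {c'}) (VMN L (ℓ := q) c))
    (h₂ : IsIntegral (Algebra.adjoin A₁ {u}) (VMN (q * L) (ℓ := q) c'))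
    (h₃ : IsIntegral (Algebra.adjoin A₁ {u}) (S36.H83.eW L (q := q) c))
    (ψ : ↥(H40.chartB A₁ c)) :
    chartMap (VMN (q * L) (ℓ := q)) (VMN_algebraMap (q * L) A) h₂
        (chartMap (VMN L (ℓ := q)) (VMN_algebraMap L A) h₁ ψ) =
      chartMap (S36.H83.eW L (q := q)) (S36.H83.eW_algebraMap L A) h₃ ψ :=
  Subtype.ext rfl

end Chart

end Fermat.Agent.S36.H96
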