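/-
helper83: S36, row (E2), (E2-lvl-E), **chart 1 with integrality** (helper18's request #3651):
`exists_levelMapsE_S1` = helper89's `H89L.exists_levelMaps_chartBC` at the real data
`J₁ := J3N L`, `c₁ := JN L`, `αE := H18.alphaK ↥E (q L) (q (q L)) _`, `βE := H18.betaK ↥E q ..`
(the spelling of the top), `α β :=` helper96's chart maps, `hint :=` helper71's, ending in the
conclusion of `exists_levelMaps_chartBC` verbatim; (S2)-generic `(J_E) (hJ) (c_E) (hc)`.
`exists_levelMapsE_S1_places` : the same with `LM :=` helper96's `H96.levelMaps_J3` from the places.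
-/
import Mathlib
import Fermat.Agent.S36.H89_LevelMapsBCFinal
import Fermat.Agent.S36.H83_LevelFieldE
import Fermat.Agent.S36.H96_LevelMapsChart
import Fermat.Agent.S36.H71_ChartMapIntegralInst
import Fermat.Agent.S35.H70_TwoComponentsBCL0

set_option autoImplicit false
set_option linter.unusedSectionVars false
set_option linter.style.haveILetI false
set_option synthInstance.maxHeartbeats 400000
set_option maxHeartbeats 3200000

noncomputable section

namespace Fermat.Agent.S36.H83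

open ModularCurve IsLocalRing
open Fermat.Agent.S18 Fermat.Agent.S34.H55

local notation "Qbar" => AlgebraicClosure ℚ

section Real

variable (L : ℕ) [NeZero L] {q : ℕ} [hq : Fact q.Prime] (hqL : ¬ q ∣ L)
  (A : ValuationSubring Qbar) (hA : A.LiesOverPrime q)
  (E : IntermediateField (H45.unrCyclo q) Qbar) [FiniteDimensional (H45.unrCyclo q) E]

set_option quotPrecheck false
local notation "kA" => IsLocalRing.ResidueField A
local notation "A₁" => H45.A0 A q
local notation "L₁" => H45.unrCyclo q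
local notation "A''" => H45.cutOver A E
local notation "F1" => modularFunctionFieldFullC (H45.unrCyclo q) (q * L)
local notation "F2" => modularFunctionFieldFullC (H45.unrCyclo q) (q * (q * L))
local notation "FkL" => modularFunctionFieldFullC (IsLocalRing.ResidueField A) L
local notation "F1E" => modularFunctionFieldFullC ↥E (q * L)
local notation "F2E" => modularFunctionFieldFullC ↥E (q * (q * L))
local notation "aE" => S36.H18.alphaK ↥E (q * L) (q * (q * L)) (dvd_mul_left (q * L) q)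
local notation "bE" => S36.H18.betaK ↥E q (q * L) (q * (q * L)) dvd_rfl

include hqL hA in
/-- **(E2-lvl-E), chart 1, consumer form with integrality, field maps `alphaK` / `betaK`.** -/
theorem exists_levelMapsE_S1 (π : A'') (hπ : maximalIdeal A'' = Ideal.span {π})
    (hN : S35.H70.GenBy (A := A) E (q * (q * L)) (J3N L (q := q)))
    (J_E : F2E) (hJ : H45.baseChangeE E (q * (q * L)) (J3N L (q := q)) = J_E)
    (c_E : F1E) (hc : H45.baseChangeE E (q * L) (JN L (ℓ := q)) = c_E)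
    {R₀ : Type*} [CommRing R₀]
    {red₁ red₂ red₃ : ↥(H40.chartB A₁ (J3N L (q := q))) →+* R₀}
    {red₁' red₂' : ↥(H40.chartB A₁ (JN L (ℓ := q))) →+* R₀} {W : R₀ →+* R₀}
    (LM : LevelMaps red₁ red₂ red₃ red₁' red₂'
      (chartMap (iotaMN (q * L) (ℓ := q)) (iotaMN_algebraMap (q * L) A) (S36.H96.hinta1 L A))
      (chartMap (VMN (q * L) (ℓ := q)) (VMN_algebraMap (q * L) A) (S36.H96.hintb1 L A)) W)
    (hq₁ : red₁ (algebraMap A₁ ↥(H40.chartB A₁ (J3N L (q := q))) ((q : ℕ) : A₁)) = 0)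
    (hq₂ : red₂ (algebraMap A₁ ↥(H40.chartB A₁ (J3N L (q := q))) ((q : ℕ) : A₁)) = 0)
    (hq₃ : red₃ (algebraMap A₁ ↥(H40.chartB A₁ (J3N L (q := q))) ((q : ℕ) : A₁)) = 0)
    (hq₁' : red₁' (algebraMap A₁ ↥(H40.chartB A₁ (JN L (ℓ := q))) ((q : ℕ) : A₁)) = 0)
    (hq₂' : red₂' (algebraMap A₁ ↥(H40.chartB A₁ (JN L (ℓ := q))) ((q : ℕ) : A₁)) = 0)
    (red₁'' red₂'' red₃'' : ↥(H40.chartB A'' J_E) →+* R₀)
    (hcl₁ : ∀ b, red₁'' (S34.H95.chartBC (A := A) E (q * (q * L)) _ J_E hJ b) = red₁ b)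
    (hcl₂ : ∀ b, red₂'' (S34.H95.chartBC (A := A) E (q * (q * L)) _ J_E hJ b) = red₂ b)
    (hcl₃ : ∀ b, red₃'' (S34.H95.chartBC (A := A) E (q * (q * L)) _ J_E hJ b) = red₃ b)
    (hπ₁ : red₁'' (algebraMap A'' ↥(H40.chartB A'' J_E) π) = 0)
    (hπ₂ : red₂'' (algebraMap A'' ↥(H40.chartB A'' J_E) π) = 0)
    (hπ₃ : red₃'' (algebraMap A'' ↥(H40.chartB A'' J_E) π) = 0)
    (red₁''' red₂''' : ↥(H40.chartB A'' c_E) →+* R₀)
    (hcl₁' : ∀ b, red₁''' (S34.H95.chartBC (A := A) E (q * L) _ c_E hc b) = red₁' b)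
    (hcl₂' : ∀ b, red₂''' (S34.H95.chartBC (A := A) E (q * L) _ c_E hc b) = red₂' b)
    (hπ₁' : red₁''' (algebraMap A'' ↥(H40.chartB A'' c_E) π) = 0)
    (hπ₂' : red₂''' (algebraMap A'' ↥(H40.chartB A'' c_E) π) = 0) :
    ∃ α'' β'' : ↥(H40.chartB A'' c_E) →+* ↥(H40.chartB A'' J_E),
      LevelMaps red₁'' red₂'' red₃'' red₁''' red₂''' α'' β'' W ∧
      (∀ b, α'' (S34.H95.chartBC (A := A) E (q * L) _ c_E hc b) =
        S34.H95.chartBC (A := A) E (q * (q * L)) _ J_E hJ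
          (chartMap (iotaMN (q * L) (ℓ := q)) (iotaMN_algebraMap (q * L) A)
            (S36.H96.hinta1 L A) b)) ∧
      (∀ b, β'' (S34.H95.chartBC (A := A) E (q * L) _ c_E hc b) =
        S34.H95.chartBC (A := A) E (q * (q * L)) _ J_E hJ
          (chartMap (VMN (q * L) (ℓ := q)) (VMN_algebraMap (q * L) A)
            (S36.H96.hintb1 L A) b)) ∧
      (∀ a : A'', α'' (algebraMap A'' ↥(H40.chartB A'' c_E) a) =
        algebraMap A'' ↥(H40.chartB A'' J_E) a) ∧
      (∀ a : A'', β'' (algebraMap A'' ↥(H40.chartB A'' c_E) a) =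
        algebraMap A'' ↥(H40.chartB A'' J_E) a) ∧
      (∀ x, algebraMap ↥(H40.chartB A'' J_E) F2E (α'' x) =
        aE (algebraMap ↥(H40.chartB A'' c_E) F1E x)) ∧
      (∀ x, algebraMap ↥(H40.chartB A'' J_E) F2E (β'' x) =
        bE (algebraMap ↥(H40.chartB A'' c_E) F1E x)) ∧
      α''.IsIntegral ∧ β''.IsIntegral :=
  S36.H89L.exists_levelMaps_chartBC hq.out hA E (q * (q * L)) (q * L) (J3N L (q := q))
    (JN L (ℓ := q)) π hπ hN (S35.H70.genBy_JN L hqL A hA E) J_E hJ c_E hc LM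
    (hαA₁_of_coe L A _ (fun _ => rfl)) (hβA₁_of_coe L A _ (fun _ => rfl))
    hq₁ hq₂ hq₃ hq₁' hq₂' aE bE
    (hαbc_of_coe L A E _ (fun _ => rfl)) (aE_algebraMap L A E)
    (hβbc_of_coe L A E _ (fun _ => rfl)) (bE_algebraMap L A E)
    (S36.H71.alpha_isIntegral L A _) (S36.H71.beta_isIntegral L A _)
    red₁'' red₂'' red₃'' hcl₁ hcl₂ hcl₃ hπ₁ hπ₂ hπ₃ red₁''' red₂''' hcl₁' hcl₂' hπ₁' hπ₂'

end Real

end Fermat.Agent.S36.H83
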