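import Mathlib
import Fermat.Agent.S34.H6_KroneckerPoly
import Fermat.Agent.S34.H16_ModPolySymm

/-!
# The shape of the modular polynomial `Φ_q`, `q` prime (helper25; S36, row (M4r2), brick (S))

`D : ModularPolynomialData q` with the `RootsAt` property (`hD`), `q` prime.  In `ℤ[X][Y]`
(OUTER variable `Y` = the `j_q`-slot, inner variable `X` = the `j`-slot):

* `swap_modPoly_eq`      : `swap D.Φ = D.Φ`  (`Φ_q(X, Y) = Φ_q(Y, X)`, also for `q = 2`);
* `exists_kronecker_shape` : `D.Φ = (Y - X^q) (Y^q - X) + q R` with `swap R = R`,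
  `R.natDegree ≤ q` and `(R.coeff a).natDegree ≤ q` for all `a`;
* `eval₂_modPoly_shape` / `exists_eval₂_modPoly_shape` : the evaluated form over every commutative
  ring `F`: `Φ_q(x; y) = (x - y^q)(x^q - y) + q ∑_{a,b ≤ q} r a b x^a y^b` (`x` = OUTER slot),
  i.e. `= S36.H19.PhiAt q r x y` for `r a b := (R.coeff a).coeff b`.
-/

set_option autoImplicit false
set_option linter.unusedSectionVars false
set_option linter.style.haveILetI false

noncomputable section

namespace Fermat.Agent.S36.H25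

open ModularCurve Polynomial Polynomial.Bivariate Fermat.Agent.S28

/-! ### 0. The Kronecker product `(Y - X^q)(Y^q - X)` -/

/-- The Kronecker product `(Y - X^q)(Y^q - X) ∈ ℤ[X][Y]`. -/
def kron (q : ℕ) : Polynomial ℤ[X] := (X - C (X ^ q)) * (X ^ q - C X)

theorem kron_def (q : ℕ) : kron q = (X - C (X ^ q)) * (X ^ q - C X) := rfl

theorem kron_monic {q : ℕ} (hq : q ≠ 0) : (kron q).Monic :=
  (monic_X_sub_C _).mul (monic_X_pow_sub_C _ hq)

theorem natDegree_kron {q : ℕ} (hq : q ≠ 0) : (kron q).natDegree = q + 1 := by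
  rw [kron, (monic_X_sub_C _).natDegree_mul (monic_X_pow_sub_C _ hq), natDegree_X_sub_C,
    natDegree_X_pow_sub_C]
  omega

theorem swap_kron (q : ℕ) : swap (kron q) = kron q := by
  have h1 : swap (R := ℤ) (C (X ^ q)) = X ^ q := by
    rw [Bivariate.swap_C, Polynomial.map_pow, Polynomial.map_X]
  have h2 : swap (R := ℤ) X = C X := Bivariate.swap_Y
  have h3 : swap (R := ℤ) (X ^ q) = C X ^ q := by rw [map_pow, h2]
  rw [kron, map_mul, map_sub, map_sub, h1, h2, h3, Bivariate.swap_X, C_pow]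
  ring

theorem kron_expand (q : ℕ) :
    kron q = X ^ (q + 1) - C X * X - C (X ^ q) * X ^ q + C (X ^ (q + 1)) := by
  rw [kron, pow_succ (X : ℤ[X]) q, C_mul]
  ring

/-- the `X^q Y^q`-coefficient of the Kronecker product is `-1`. -/
theorem coeff_coeff_kron_self {q : ℕ} (hq : 2 ≤ q) : ((kron q).coeff q).coeff q = -1 := by
  have h1 : q ≠ q + 1 := by omega
  have h2 : (1 : ℕ) ≠ q := by omega
  have h3 : q ≠ 0 := by omega
  have h : (kron q).coeff q = -(X ^ q) := by
    rw [kron_expand, coeff_add, coeff_sub, coeff_sub, coeff_X_pow, if_neg h1, coeff_C_mul,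
      coeff_X, if_neg h2, coeff_C_mul, coeff_X_pow_self, coeff_C_of_ne_zero h3]
    ring
  rw [h, coeff_neg, coeff_X_pow_self]

theorem map_kron (q : ℕ) {k : Type*} [CommRing k] :
    (kron q).map (Polynomial.mapRingHom (Int.castRingHom k)) =
      (X - C (X ^ q)) * (X ^ q - C X) := by
  simp [kron, Polynomial.map_mul, Polynomial.map_sub, Polynomial.map_pow]

/-! ### 1. Generalities -/

/-- a polynomial in `ℤ[X][Y]` that dies over `ZMod q` is divisible by `q`. -/
theorem C_C_dvd_of_map_eq_zero (q : ℕ) (P : Polynomial ℤ[X])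
    (h : P.map (Polynomial.mapRingHom (Int.castRingHom (ZMod q))) = 0) :
    C (C (q : ℤ)) ∣ P := by
  rw [C_dvd_iff_dvd_coeff]
  intro i
  rw [C_dvd_iff_dvd_coeff]
  intro j
  have h1 := congrArg (fun P : Polynomial (Polynomial (ZMod q)) => (P.coeff i).coeff j) h
  simp only [coeff_map, coe_mapRingHom, coeff_zero, eq_intCast] at h1
  exact (ZMod.intCast_zmod_eq_zero_iff_dvd _ q).mp h1

theorem swap_C_C_mul (n : ℤ) (R : Polynomial ℤ[X]) :
    swap (C (C n) * R) = C (C n) * swap R := by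
  rw [map_mul, Bivariate.swap_C_C]

theorem C_C_natCast_ne_zero {q : ℕ} (hq : q ≠ 0) : (C (C (q : ℤ)) : Polynomial ℤ[X]) ≠ 0 := by
  rw [Ne, C_eq_zero, C_eq_zero]
  exact_mod_cast hq

theorem dedekindPsi_prime {q : ℕ} (hq : q.Prime) : dedekindPsi q = q + 1 := by
  rw [dedekindPsi, hq.divisors, Finset.filter_true_of_mem, Finset.sum_pair hq.one_lt.ne,
    Nat.div_one, Nat.div_self hq.pos]
  intro d hd
  rw [Finset.mem_insert, Finset.mem_singleton] at hd
  rcases hd with rfl | rfl
  · exact squarefree_one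
  · exact hq.prime.squarefree

/-! ### 2. The modular polynomial -/

section Main

variable (q : ℕ) [hq : Fact q.Prime] [NeZero q] (D : ModularPolynomialData q)
  (hD : ∀ (k : Type) [Field k] (ζ : kˣ), IsPrimitiveRoot ζ q → RootsAt k q ζ D.Φ)

include hD

/-- **Kronecker's congruence as an identity in `ℤ[X][Y]`**. -/
theorem exists_modPoly_eq_kron_add :
    ∃ R : Polynomial ℤ[X], D.Φ = kron q + C (C (q : ℤ)) * R := by
  have h0 : (D.Φ - kron q).map (Polynomial.mapRingHom (Int.castRingHom (ZMod q))) = 0 := by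
    rw [Polynomial.map_sub, S34.H6.kronecker_poly q D hD (ZMod q), map_kron, sub_self]
  obtain ⟨R, hR⟩ := C_C_dvd_of_map_eq_zero q _ h0
  exact ⟨R, by rw [← hR]; ring⟩

/-- the `X^q Y^q`-coefficient of `Φ_q` is nonzero (it is `≡ -1` mod `q`). -/
theorem coeff_coeff_modPoly_self_ne_zero : ((D.Φ.coeff q).coeff q) ≠ 0 := by
  obtain ⟨R, hR⟩ := exists_modPoly_eq_kron_add q D hD
  intro h0
  rw [hR, coeff_add, coeff_add, coeff_coeff_kron_self hq.out.two_le, coeff_C_mul,
    coeff_C_mul] at h0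
  have h1 : (q : ℤ) ∣ 1 := ⟨(R.coeff q).coeff q, by linarith⟩
  have h2 : q ∣ 1 := by exact_mod_cast h1
  exact hq.out.one_lt.ne' (Nat.dvd_one.mp h2)

/-- **Symmetry** of the modular polynomial of prime level: `Φ_q(X, Y) = Φ_q(Y, X)`. -/
theorem swap_modPoly_eq : swap D.Φ = D.Φ := by
  obtain ⟨Cc, hC⟩ := S34.H16.exists_swap_eq_mul q D hD
  have hΦ0 : D.Φ ≠ 0 := D.monic.ne_zero
  have hC' : D.Φ = swap D.Φ * swap Cc := by
    have := congrArg swap hC
    rwa [Bivariate.swap_swap_apply, map_mul] at this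
  have hone : Cc * swap Cc = 1 := by
    have h1 : D.Φ * (Cc * swap Cc) = D.Φ * 1 := by
      rw [mul_one, ← mul_assoc, ← hC, ← hC']
    exact mul_left_cancel₀ hΦ0 h1
  have hu : IsUnit Cc := IsUnit.of_mul_eq_one _ hone
  obtain ⟨c, hc, rfl⟩ := Polynomial.isUnit_iff.mp hu
  obtain ⟨n, -, rfl⟩ := Polynomial.isUnit_iff.mp hc
  -- compare the `X^q Y^q`-coefficients
  have h1 := congrArg (fun P : Polynomial ℤ[X] => (P.coeff q).coeff q) hC
  simp only [S34.H16.coeff_coeff_swap, coeff_mul_C] at h1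
  have hn : n = 1 := by
    have h2 : (D.Φ.coeff q).coeff q * (n - 1) = 0 := by linarith
    rcases mul_eq_zero.mp h2 with h3 | h3
    · exact absurd h3 (coeff_coeff_modPoly_self_ne_zero q D hD)
    · linarith
  rw [hC, hn, C_1, C_1, mul_one]

/-- **The shape of `Φ_q`**: `Φ_q = (Y - X^q)(Y^q - X) + q R` with `R` symmetric of bidegree
`≤ (q, q)`. -/
theorem exists_kronecker_shape :
    ∃ R : Polynomial ℤ[X],
      D.Φ = (X - C (X ^ q)) * (X ^ q - C X) + C (C (q : ℤ)) * R ∧
      swap R = R ∧ R.natDegree ≤ q ∧ ∀ a, (R.coeff a).natDegree ≤ q := by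
  obtain ⟨R, hR⟩ := exists_modPoly_eq_kron_add q D hD
  have hq0 : q ≠ 0 := hq.out.ne_zero
  have hqq : (C (C (q : ℤ)) : Polynomial ℤ[X]) ≠ 0 := C_C_natCast_ne_zero hq0
  have hsw : swap R = R := by
    have h1 := congrArg swap hR
    rw [swap_modPoly_eq q D hD, map_add, swap_kron, swap_C_C_mul] at h1
    have h2 : C (C (q : ℤ)) * swap R = C (C (q : ℤ)) * R := by
      have := hR.symm.trans h1
      exact (add_left_cancel this).symm
    exact mul_left_cancel₀ hqq h2
  have hdeg : R.natDegree ≤ q := by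
    have h1 : (C (C (q : ℤ)) * R).natDegree ≤ q := by
      have h2 : C (C (q : ℤ)) * R = D.Φ - kron q := by rw [hR]; ring
      rw [h2, natDegree_le_iff_coeff_eq_zero]
      intro N hN
      rw [coeff_sub]
      rcases Nat.lt_or_ge (q + 1) N with h3 | h3
      · rw [coeff_eq_zero_of_natDegree_lt, coeff_eq_zero_of_natDegree_lt, sub_zero]
        · rwa [natDegree_kron hq0]
        · rwa [D.natDegree_eq, dedekindPsi_prime hq.out]
      · have h4 : N = q + 1 := by omega
        have h5 : D.Φ.coeff N = 1 := by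
          have := D.monic
          rwa [Monic, leadingCoeff, D.natDegree_eq, dedekindPsi_prime hq.out, ← h4] at this
        have h6 : (kron q).coeff N = 1 := by
          have := kron_monic hq0
          rwa [Monic, leadingCoeff, natDegree_kron hq0, ← h4] at this
        rw [h5, h6, sub_self]
    rwa [natDegree_C_mul (by rw [Ne, C_eq_zero]; exact_mod_cast hq0)] at h1
  refine ⟨R, hR, hsw, hdeg, fun a => ?_⟩
  have h1 := S34.H16.natDegree_coeff_le_natDegree_swap R a
  rw [hsw] at h1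
  exact h1.trans hdeg

/-- the top inner coefficients of `Φ_q`: `Φ_q = X^(q+1) + (inner degree ≤ q)`. -/
theorem coeff_coeff_modPoly_top (i : ℕ) :
    (D.Φ.coeff i).coeff (q + 1) = if i = 0 then 1 else 0 := by
  have h5 : D.Φ.coeff (q + 1) = 1 := by
    have := D.monic
    rwa [Monic, leadingCoeff, D.natDegree_eq, dedekindPsi_prime hq.out] at this
  rw [← S34.H16.coeff_coeff_swap, swap_modPoly_eq q D hD, h5, coeff_one]

/-- the inner degree of the coefficient of `Y^i`, `i ≥ 1`, in `Φ_q` is at most `q`. -/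
theorem natDegree_coeff_modPoly_le_of_pos {i : ℕ} (hi : i ≠ 0) :
    (D.Φ.coeff i).natDegree ≤ q := by
  rw [natDegree_le_iff_coeff_eq_zero]
  intro N hN
  rcases Nat.lt_or_ge (q + 1) N with h3 | h3
  · apply coeff_eq_zero_of_natDegree_lt
    have := S34.H16.natDegree_coeff_modPoly_le q D hD i
    rw [dedekindPsi_prime hq.out] at this
    omega
  · have h4 : N = q + 1 := by omega
    rw [h4, coeff_coeff_modPoly_top q D hD, if_neg hi]

/-- the constant term (in `Y`) of `Φ_q` is monic of degree `q + 1` in `X`. -/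
theorem coeff_zero_modPoly_monic :
    (D.Φ.coeff 0).Monic ∧ (D.Φ.coeff 0).natDegree = q + 1 := by
  have h1 : (D.Φ.coeff 0).coeff (q + 1) = 1 := by
    rw [coeff_coeff_modPoly_top q D hD, if_pos rfl]
  have h2 : (D.Φ.coeff 0).natDegree ≤ q + 1 := by
    have := S34.H16.natDegree_coeff_modPoly_le q D hD 0
    rwa [dedekindPsi_prime hq.out] at this
  have h3 : (D.Φ.coeff 0).natDegree = q + 1 := by
    refine le_antisymm h2 (le_natDegree_of_ne_zero ?_)
    rw [h1]
    exact one_ne_zero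
  exact ⟨by rw [Monic, leadingCoeff, h3, h1], h3⟩

end Main

/-! ### 3. The evaluated form -/

/-- every ring hom out of `ℤ[X]` is evaluation at the image of `X`. -/
theorem ringHom_apply_eq_eval₂ {F : Type*} [CommRing F] (g : ℤ[X] →+* F) (p : ℤ[X]) :
    g p = p.eval₂ (Int.castRingHom F) (g X) := by
  have h : g = Polynomial.eval₂RingHom (Int.castRingHom F) (g X) := by
    refine Polynomial.ringHom_ext' (Subsingleton.elim _ _) ?_
    simp
  exact congrArg (fun f : ℤ[X] →+* F => f p) h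

/-- evaluation of a bivariate polynomial of bidegree `≤ (n, n)` as a double sum
(`x` = OUTER slot, `g X` = inner slot). -/
theorem eval₂_eq_double_sum {F : Type*} [CommRing F] (g : ℤ[X] →+* F) (x : F)
    (R : Polynomial ℤ[X]) (n : ℕ) (h1 : R.natDegree ≤ n) (h2 : ∀ a, (R.coeff a).natDegree ≤ n) :
    R.eval₂ g x = ∑ a ∈ Finset.range (n + 1), ∑ b ∈ Finset.range (n + 1),
      (((R.coeff a).coeff b : ℤ) : F) * x ^ a * (g X) ^ b := by
  rw [eval₂_eq_sum_range' g (Nat.lt_succ_of_le h1) x]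
  refine Finset.sum_congr rfl fun a _ => ?_
  rw [ringHom_apply_eq_eval₂ g (R.coeff a),
    eval₂_eq_sum_range' _ (Nat.lt_succ_of_le (h2 a)), Finset.sum_mul]
  refine Finset.sum_congr rfl fun b _ => ?_
  rw [eq_intCast]
  ring

section Eval

variable (q : ℕ) [hq : Fact q.Prime] [NeZero q] (D : ModularPolynomialData q)
  (hD : ∀ (k : Type) [Field k] (ζ : kˣ), IsPrimitiveRoot ζ q → RootsAt k q ζ D.Φ)

include hD

/-- **Evaluated Kronecker shape**, general form: there are integers `r a b` (symmetric,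
`a, b ≤ q`) such that for every ring hom `g : ℤ[X] →+* F` and every `x : F`

  `Φ_q(x; g X) = (x - (g X)^q) (x^q - g X) + q ∑_{a, b ≤ q} r a b x^a (g X)^b`

(`x` = the OUTER `j_q`-slot), i.e. `= S36.H19.PhiAt q r x (g X)`. -/
theorem exists_eval₂_modPoly_shape' :
    ∃ r : ℕ → ℕ → ℤ, (∀ a b, r a b = r b a) ∧
      ∀ {F : Type*} [CommRing F] (g : ℤ[X] →+* F) (x : F),
        D.Φ.eval₂ g x = (x - (g X) ^ q) * (x ^ q - g X) +
          (q : F) * ∑ a ∈ Finset.range (q + 1), ∑ b ∈ Finset.range (q + 1),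
            (r a b : F) * x ^ a * (g X) ^ b := by
  obtain ⟨R, hR, hsw, hdeg, hdeg'⟩ := exists_kronecker_shape q D hD
  refine ⟨fun a b => (R.coeff a).coeff b, fun a b => ?_, fun {F} _ g x => ?_⟩
  · show (R.coeff a).coeff b = (R.coeff b).coeff a
    conv_lhs => rw [← hsw]
    rw [S34.H16.coeff_coeff_swap]
  · have h1 : D.Φ.eval₂ g x = (x - (g X) ^ q) * (x ^ q - g X) + (q : F) * R.eval₂ g x := by
      conv_lhs => rw [hR]
      simp only [eval₂_add, eval₂_mul, eval₂_sub, eval₂_pow, eval₂_X, eval₂_C, map_pow,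
        map_natCast, eval₂_natCast]
    rw [h1, eval₂_eq_double_sum g x R q hdeg hdeg']

/-- **Evaluated Kronecker shape**: for every commutative ring `F` and `x y : F`
(`x` = the OUTER `j_q`-slot, `y` = the inner `j`-slot). -/
theorem exists_eval₂_modPoly_shape :
    ∃ r : ℕ → ℕ → ℤ, (∀ a b, r a b = r b a) ∧
      ∀ (F : Type*) [CommRing F] (x y : F),
        D.Φ.eval₂ (Polynomial.eval₂RingHom (Int.castRingHom F) y) x =
          (x - y ^ q) * (x ^ q - y) +
            (q : F) * ∑ a ∈ Finset.range (q + 1), ∑ b ∈ Finset.range (q + 1),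
              (r a b : F) * x ^ a * y ^ b := by
  obtain ⟨r, hr, h⟩ := exists_eval₂_modPoly_shape' q D hD
  refine ⟨r, hr, fun F _ x y => ?_⟩
  have h1 := h (Polynomial.eval₂RingHom (Int.castRingHom F) y) x
  have h2 : (Polynomial.eval₂RingHom (Int.castRingHom F) y) X = y := by simp
  rw [h2] at h1
  exact h1

/-- The same, for `(D.Φ.map ψ).eval x` (the spelling of `S36.H99` / `S18.H99`). -/
theorem exists_eval_map_modPoly_shape :
    ∃ r : ℕ → ℕ → ℤ, (∀ a b, r a b = r b a) ∧
      ∀ {F : Type*} [CommRing F] (ψ : ℤ[X] →+* F) (x : F),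
        (D.Φ.map ψ).eval x = (x - (ψ X) ^ q) * (x ^ q - ψ X) +
          (q : F) * ∑ a ∈ Finset.range (q + 1), ∑ b ∈ Finset.range (q + 1),
            (r a b : F) * x ^ a * (ψ X) ^ b := by
  obtain ⟨r, hr, h⟩ := exists_eval₂_modPoly_shape' q D hD
  exact ⟨r, hr, fun {F} _ ψ x => by rw [eval_map]; exact h ψ x⟩

end Eval

end Fermat.Agent.S36.H25
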