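/-
helper19: S36, row (M4r2) (middle cusps), abstract core I (Mathlib only).

`O` a local domain (think: the local ring `B_n` of the level-`q²L` model at a cusp point `n` of the
middle component), `q` a prime number with `(q : O)` in the maximal ideal, `wt` (`= 1/w`) in the
maximal ideal with `wt ∤ q`, `E' = 1 + q e₁` (`= v wt^q`), and `ρ` (`= w/u`) a root of a polynomial

  `Ψ = (1 - E' Z^q)(wt^(q²-1) - E'^q Z) + q Rt(Z)`     (Kronecker shape, denominators cleared)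

with `Ψ(1) = 0` and `Ψ'(1) = q ε' + wt s₀`, `ε'` a unit.  Then `(ρ - 1)^(q-1) = q · unit`.
No valuations, no expansions, no normality: only the Taylor shift of `Ψ` at `1`.
-/
import Mathlib

set_option autoImplicit false

namespace Fermat.Agent.S36.H19

open Polynomial IsLocalRing

section UnitLemma

variable {O : Type*} [CommRing O] [IsDomain O] [IsLocalRing O]

omit [IsDomain O] in
/-- unit plus an element of the maximal ideal is a unit. -/
theorem isUnit_add_of_mem_maximalIdeal {u m : O} (hu : IsUnit u) (hm : m ∈ maximalIdeal O) :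
    IsUnit (u + m) := by
  by_contra h
  have h1 : u + m ∈ maximalIdeal O := (mem_maximalIdeal _).2 h
  have h2 : u ∈ maximalIdeal O := by
    have := (maximalIdeal O).sub_mem h1 hm
    simpa using this
  exact (mem_maximalIdeal _).1 h2 hu

/-- **Lemma U'.**  From `Λ^q (Λ + a) + q A(Λ) = 0` with `a` a unit, `A(0) = 0`, `A'(0)` a unit and
`Λ ≠ 0` in the maximal ideal: `Λ^(q-1) = q · unit`. -/
theorem exists_unit_pow_eq_of_shifted {q : ℕ} (hq : 1 ≤ q) (Λ a : O)
    (hΛm : Λ ∈ maximalIdeal O) (hΛ0 : Λ ≠ 0) (ha : IsUnit a) (A : O[X])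
    (hA0 : A.coeff 0 = 0) (hA1 : IsUnit (A.coeff 1))
    (hrel : Λ ^ q * (Λ + a) + (q : O) * A.eval Λ = 0) :
    ∃ U : Oˣ, Λ ^ (q - 1) = (q : O) * U := by
  -- `A = A₁ X`, `A₁ = A₂ X + A'(0)`
  have hA : A = A.divX * X := by
    conv_lhs => rw [← Polynomial.divX_mul_X_add A, hA0, map_zero, add_zero]
  have hA1' : A.divX = A.divX.divX * X + C (A.coeff 1) := by
    conv_lhs => rw [← Polynomial.divX_mul_X_add A.divX, Polynomial.coeff_divX]
  have hev : A.eval Λ = (A.divX.divX.eval Λ * Λ + A.coeff 1) * Λ := by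
    conv_lhs => rw [hA, eval_mul, eval_X, hA1']
    simp
  set V : O := A.divX.divX.eval Λ * Λ + A.coeff 1 with hV
  have hVu : IsUnit V := by
    rw [hV, add_comm]
    exact isUnit_add_of_mem_maximalIdeal hA1 ((maximalIdeal O).mul_mem_left _ hΛm)
  have hWu : IsUnit (Λ + a) := by
    rw [add_comm]
    exact isUnit_add_of_mem_maximalIdeal ha hΛm
  have hpow : Λ ^ q = Λ ^ (q - 1) * Λ := by
    rw [← pow_succ, Nat.sub_add_cancel hq]
  have h2 : Λ * (Λ ^ (q - 1) * (Λ + a) + (q : O) * V) = 0 := by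
    rw [hev, hpow] at hrel
    linear_combination hrel
  have h3 : Λ ^ (q - 1) * (Λ + a) + (q : O) * V = 0 := by
    rcases mul_eq_zero.1 h2 with h | h
    · exact absurd h hΛ0
    · exact h
  obtain ⟨W, hW⟩ := hWu
  obtain ⟨V', hV'⟩ := hVu
  refine ⟨-(V' * W⁻¹), ?_⟩
  have h4 : Λ ^ (q - 1) * (W : O) = -((q : O) * V') := by
    rw [hW, hV']
    linear_combination h3
  have h5 : Λ ^ (q - 1) = Λ ^ (q - 1) * (W : O) * ((W⁻¹ : Oˣ) : O) := by
    rw [mul_assoc, Units.mul_inv, mul_one]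
  rw [h5, h4]
  push_cast
  ring

end UnitLemma

section PsiLemma

variable {O : Type*} [CommRing O] [IsDomain O] [IsLocalRing O]

omit [IsDomain O] [IsLocalRing O] in
/-- The Taylor shift at `1` of a polynomial of Kronecker shape:
`Ψ(1 + T) = T^q (T + 1 - w') + q A(T)`. -/
theorem exists_comp_eq_of_kroneckerShape {q : ℕ} (hq : q.Prime) (w' E' e1 : O)
    (hE : E' = 1 + (q : O) * e1) (Ψ Rt : O[X])
    (hΨ : Ψ = (1 - C E' * X ^ q) * (C w' - C (E' ^ q) * X) + (q : O[X]) * Rt) :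
    ∃ A : O[X], Ψ.comp (X + 1) = X ^ q * (X + C (1 - w')) + (q : O[X]) * A := by
  obtain ⟨r, hr⟩ := exists_add_pow_prime_eq hq (X : O[X]) 1
  have hdvd : (q : O) ∣ E' ^ q - 1 := by
    have h1 : E' - 1 ∣ E' ^ q - 1 ^ q := sub_dvd_pow_sub_pow E' 1 q
    rw [one_pow] at h1
    refine dvd_trans ?_ h1
    exact ⟨e1, by rw [hE]; ring⟩
  obtain ⟨e2, he2⟩ := hdvd
  have hE2 : E' ^ q = 1 + (q : O) * e2 := by linear_combination he2
  have hCE : (C E' : O[X]) = 1 + (q : O[X]) * C e1 := by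
    rw [hE]; simp
  have hCE2 : (C (E' ^ q) : O[X]) = 1 + (q : O[X]) * C e2 := by
    rw [hE2]; simp
  have hCw : (C (1 - w') : O[X]) = 1 - C w' := by simp
  set A1 : O[X] := X * r + C e1 * (X ^ q + 1 + (q : O[X]) * X * r) with hA1
  set A2 : O[X] := C e2 * (X + 1) with hA2
  refine ⟨X ^ q * A2 - A1 * (C w' - X - 1) + (q : O[X]) * A1 * A2 + Rt.comp (X + 1), ?_⟩
  rw [hΨ]
  simp only [add_comp, mul_comp, sub_comp, one_comp, C_comp, X_comp, pow_comp, natCast_comp]
  rw [hr, hCE, hCE2, hCw, hA1, hA2]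
  ring

/-- **Unit lemma for the middle cusp.**  See the header of this file. -/
theorem exists_unit_pow_eq_of_psi {q : ℕ} (hq : q.Prime) (hq0 : (q : O) ≠ 0)
    (wt E' e1 ρ : O) (hE : E' = 1 + (q : O) * e1)
    (hwtm : wt ∈ maximalIdeal O) (hwt : ¬ wt ∣ (q : O))
    (Ψ Rt : O[X])
    (hΨ : Ψ = (1 - C E' * X ^ q) * (C (wt ^ (q ^ 2 - 1)) - C (E' ^ q) * X) + (q : O[X]) * Rt)
    (hΨ1 : Ψ.eval 1 = 0)
    (ε' s0 : O) (hε : IsUnit ε') (hder : Ψ.derivative.eval 1 = (q : O) * ε' + wt * s0)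
    (hρ : Ψ.eval ρ = 0) (hρm : ρ - 1 ∈ maximalIdeal O) (hρ1 : ρ ≠ 1) :
    ∃ U : Oˣ, (ρ - 1) ^ (q - 1) = (q : O) * U := by
  have hq2 : 2 ≤ q := hq.two_le
  obtain ⟨A, hA⟩ := exists_comp_eq_of_kroneckerShape hq (wt ^ (q ^ 2 - 1)) E' e1 hE Ψ Rt hΨ
  set a : O := 1 - wt ^ (q ^ 2 - 1) with ha
  -- `a` is a unit
  have hexp : q ^ 2 - 1 ≠ 0 := by
    have : 4 ≤ q ^ 2 := by nlinarith
    omega
  have hau : IsUnit a := by
    have h1 : wt ^ (q ^ 2 - 1) ∈ maximalIdeal O := Ideal.pow_mem_of_mem _ hwtm _ (Nat.pos_of_ne_zero hexp)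
    have h2 : -(wt ^ (q ^ 2 - 1)) ∈ maximalIdeal O := (maximalIdeal O).neg_mem h1
    have := isUnit_add_of_mem_maximalIdeal (O := O) isUnit_one h2
    rw [ha, sub_eq_add_neg]; exact this
  -- coefficients `0` and `1` of the shifted polynomial
  have hc0 : (Ψ.comp (X + 1)).coeff 0 = 0 := by
    rw [Polynomial.coeff_zero_eq_eval_zero, eval_comp]
    simpa using hΨ1
  have hc1 : (Ψ.comp (X + 1)).coeff 1 = Ψ.derivative.eval 1 := by
    have h1 : (Ψ.comp (X + 1)).coeff 1 = (derivative (Ψ.comp (X + 1))).coeff 0 := by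
      rw [Polynomial.coeff_derivative]; simp
    rw [h1, Polynomial.coeff_zero_eq_eval_zero, Polynomial.derivative_comp, eval_mul, eval_comp]
    simp
  have hX0 : (X ^ q * (X + C a) : O[X]).coeff 0 = 0 := by
    rw [Polynomial.coeff_zero_eq_eval_zero]
    simp [zero_pow (by omega : q ≠ 0)]
  have hX1 : (X ^ q * (X + C a) : O[X]).coeff 1 = 0 := by
    rw [Polynomial.coeff_X_pow_mul']
    simp [show ¬ q ≤ 1 by omega]
  have hcast : ∀ (B : O[X]) (n : ℕ), ((q : O[X]) * B).coeff n = (q : O) * B.coeff n := by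
    intro B n
    rw [← Polynomial.C_eq_natCast, Polynomial.coeff_C_mul]
  have hA0 : A.coeff 0 = 0 := by
    have h := hc0
    rw [hA, Polynomial.coeff_add, hX0, zero_add, hcast] at h
    rcases mul_eq_zero.1 h with h | h
    · exact absurd h hq0
    · exact h
  have hA1 : (q : O) * A.coeff 1 = (q : O) * ε' + wt * s0 := by
    have h := hc1
    rw [hA, Polynomial.coeff_add, hX1, zero_add, hcast, hder] at h
    exact h
  have hA1u : IsUnit (A.coeff 1) := by
    by_contra hnu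
    have hm : A.coeff 1 ∈ maximalIdeal O := (mem_maximalIdeal _).2 hnu
    have hd : IsUnit (ε' + -(A.coeff 1)) :=
      isUnit_add_of_mem_maximalIdeal hε ((maximalIdeal O).neg_mem hm)
    obtain ⟨d, hd'⟩ := hd
    apply hwt
    refine ⟨-(s0 * ((d⁻¹ : Oˣ) : O)), ?_⟩
    have h1 : (q : O) * (d : O) = -(wt * s0) := by
      rw [hd']; linear_combination -hA1
    have h2 : (q : O) = (q : O) * (d : O) * ((d⁻¹ : Oˣ) : O) := by
      rw [mul_assoc, Units.mul_inv, mul_one]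
    rw [h2, h1]; ring
  -- the relation at `Λ = ρ - 1`
  have hrel : (ρ - 1) ^ q * ((ρ - 1) + a) + (q : O) * A.eval (ρ - 1) = 0 := by
    have h := congrArg (Polynomial.eval (ρ - 1)) hA
    rw [eval_comp] at h
    simp only [eval_add, eval_X, eval_one, sub_add_cancel, eval_mul, eval_pow, eval_C,
      eval_natCast] at h
    rw [hρ] at h
    exact h.symm
  exact exists_unit_pow_eq_of_shifted (by omega) (ρ - 1) a hρm (sub_ne_zero.2 hρ1) hau A hA0 hA1u hrel

end PsiLemma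

section PsiLemma'

variable {O : Type*} [CommRing O] [IsDomain O] [IsLocalRing O]

/-- **Unit lemma for the middle cusp**, derivative form: as `exists_unit_pow_eq_of_psi`, with the
hypothesis `Ψ'(1) = q g'`, `g'` a unit (no condition `wt ∤ q`). -/
theorem exists_unit_pow_eq_of_psi_of_derivative {q : ℕ} (hq : q.Prime) (hq0 : (q : O) ≠ 0)
    (wt E' e1 ρ : O) (hE : E' = 1 + (q : O) * e1)
    (hwtm : wt ∈ maximalIdeal O)
    (Ψ Rt : O[X])
    (hΨ : Ψ = (1 - C E' * X ^ q) * (C (wt ^ (q ^ 2 - 1)) - C (E' ^ q) * X) + (q : O[X]) * Rt)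
    (hΨ1 : Ψ.eval 1 = 0)
    (g' : O) (hg : IsUnit g') (hder : Ψ.derivative.eval 1 = (q : O) * g')
    (hρ : Ψ.eval ρ = 0) (hρm : ρ - 1 ∈ maximalIdeal O) (hρ1 : ρ ≠ 1) :
    ∃ U : Oˣ, (ρ - 1) ^ (q - 1) = (q : O) * U := by
  have hq2 : 2 ≤ q := hq.two_le
  obtain ⟨A, hA⟩ := exists_comp_eq_of_kroneckerShape hq (wt ^ (q ^ 2 - 1)) E' e1 hE Ψ Rt hΨ
  set a : O := 1 - wt ^ (q ^ 2 - 1) with ha
  have hexp : q ^ 2 - 1 ≠ 0 := by
    have : 4 ≤ q ^ 2 := by nlinarith
    omega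
  have hau : IsUnit a := by
    have h1 : wt ^ (q ^ 2 - 1) ∈ maximalIdeal O :=
      Ideal.pow_mem_of_mem _ hwtm _ (Nat.pos_of_ne_zero hexp)
    have h2 : -(wt ^ (q ^ 2 - 1)) ∈ maximalIdeal O := (maximalIdeal O).neg_mem h1
    have := isUnit_add_of_mem_maximalIdeal (O := O) isUnit_one h2
    rw [ha, sub_eq_add_neg]; exact this
  have hc0 : (Ψ.comp (X + 1)).coeff 0 = 0 := by
    rw [Polynomial.coeff_zero_eq_eval_zero, eval_comp]
    simpa using hΨ1
  have hc1 : (Ψ.comp (X + 1)).coeff 1 = Ψ.derivative.eval 1 := by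
    have h1 : (Ψ.comp (X + 1)).coeff 1 = (derivative (Ψ.comp (X + 1))).coeff 0 := by
      rw [Polynomial.coeff_derivative]; simp
    rw [h1, Polynomial.coeff_zero_eq_eval_zero, Polynomial.derivative_comp, eval_mul, eval_comp]
    simp
  have hX0 : (X ^ q * (X + C a) : O[X]).coeff 0 = 0 := by
    rw [Polynomial.coeff_zero_eq_eval_zero]
    simp [zero_pow (by omega : q ≠ 0)]
  have hX1 : (X ^ q * (X + C a) : O[X]).coeff 1 = 0 := by
    rw [Polynomial.coeff_X_pow_mul']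
    simp [show ¬ q ≤ 1 by omega]
  have hcast : ∀ (B : O[X]) (n : ℕ), ((q : O[X]) * B).coeff n = (q : O) * B.coeff n := by
    intro B n
    rw [← Polynomial.C_eq_natCast, Polynomial.coeff_C_mul]
  have hA0 : A.coeff 0 = 0 := by
    have h := hc0
    rw [hA, Polynomial.coeff_add, hX0, zero_add, hcast] at h
    rcases mul_eq_zero.1 h with h | h
    · exact absurd h hq0
    · exact h
  have hA1 : A.coeff 1 = g' := by
    have h := hc1
    rw [hA, Polynomial.coeff_add, hX1, zero_add, hcast, hder] at h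
    exact mul_left_cancel₀ hq0 h
  have hA1u : IsUnit (A.coeff 1) := by rw [hA1]; exact hg
  have hrel : (ρ - 1) ^ q * ((ρ - 1) + a) + (q : O) * A.eval (ρ - 1) = 0 := by
    have h := congrArg (Polynomial.eval (ρ - 1)) hA
    rw [eval_comp] at h
    simp only [eval_add, eval_X, eval_one, sub_add_cancel, eval_mul, eval_pow, eval_C,
      eval_natCast] at h
    rw [hρ] at h
    exact h.symm
  exact exists_unit_pow_eq_of_shifted (by omega) (ρ - 1) a hρm (sub_ne_zero.2 hρ1) hau A hA0 hA1u hrel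

end PsiLemma'

end Fermat.Agent.S36.H19
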