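/-
helper19: S36, row (M4r2) (middle cusps), abstract core II (Mathlib only).

The "weighted reversal" of a bivariate polynomial `P(X, Y) = ∑ c_{ab} X^a Y^b` of bidegree
`≤ (q+1, q+1)`:

  `wrev c = ∑ c_{ab} E'^b wt^(q(q+1-b) - a) Z^(q+1-a)`   (`= Z^(q+1) wt^(q²+q) P(1/(Z wt), E'/wt^q)`),

its evaluation identity, its value on the Kronecker product `(X - Y^q)(X^q - Y)`, and the value of
`Ψ'(1) - Ψ(1)` modulo `(q², wt)`.  Together with `H19_MidCuspUnit` this gives
`(w/u - 1)^(q-1) = q · unit` at a cusp point of the middle component, for every bivariate integer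
polynomial `P` of Kronecker shape with `P(u, v) = P(w, v) = 0`.
-/
import Mathlib
import Fermat.Agent.S36.H19_MidCuspUnit

set_option autoImplicit false

namespace Fermat.Agent.S36.H19

open Polynomial

section WeightedReversal

variable {O : Type*} [CommRing O] (q : ℕ) (E' wt : O)

/-- The exponent of `wt` in the weighted reversal. -/
def wexp (a b : ℕ) : ℕ := q * (q + 1 - b) - a

/-- Weighted reversal of a coefficient function `c a b` (`a` = outer degree, `b` = inner degree). -/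
noncomputable def wrev (c : ℕ → ℕ → ℤ) : O[X] :=
  ∑ a ∈ Finset.range (q + 2), ∑ b ∈ Finset.range (q + 2),
    C ((c a b : O) * E' ^ b * wt ^ wexp q a b) * X ^ (q + 1 - a)

theorem wrev_add (c₁ c₂ : ℕ → ℕ → ℤ) :
    wrev q E' wt (fun a b => c₁ a b + c₂ a b) = wrev q E' wt c₁ + wrev q E' wt c₂ := by
  unfold wrev
  rw [← Finset.sum_add_distrib]
  refine Finset.sum_congr rfl fun a _ => ?_
  rw [← Finset.sum_add_distrib]
  refine Finset.sum_congr rfl fun b _ => ?_
  rw [← add_mul, ← C_add]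
  congr 2
  push_cast
  ring

theorem wrev_zsmul (n : ℤ) (c : ℕ → ℕ → ℤ) :
    wrev q E' wt (fun a b => n * c a b) = (n : O[X]) * wrev q E' wt c := by
  unfold wrev
  rw [Finset.mul_sum]
  refine Finset.sum_congr rfl fun a _ => ?_
  rw [Finset.mul_sum]
  refine Finset.sum_congr rfl fun b _ => ?_
  rw [← mul_assoc, ← Polynomial.C_eq_intCast, ← C_mul]
  congr 2
  push_cast
  ring

theorem wrev_single (a₀ b₀ : ℕ) (ha : a₀ < q + 2) (hb : b₀ < q + 2) (z : ℤ) :
    wrev q E' wt (fun a b => if a = a₀ ∧ b = b₀ then z else 0) =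
      C ((z : O) * E' ^ b₀ * wt ^ wexp q a₀ b₀) * X ^ (q + 1 - a₀) := by
  unfold wrev
  rw [Finset.sum_eq_single a₀]
  · rw [Finset.sum_eq_single b₀]
    · simp
    · intro b _ hb'
      simp [hb']
    · intro h
      exact absurd (Finset.mem_range.2 hb) h
  · intro a _ ha'
    refine Finset.sum_eq_zero fun b _ => ?_
    simp [ha']
  · intro h
    exact absurd (Finset.mem_range.2 ha) h

end WeightedReversal

section Kronecker

variable {O : Type*} [CommRing O] (q : ℕ) (E' wt : O)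

/-- Coefficient function of the Kronecker product `(X - Y^q)(X^q - Y)`
(`a` = degree in `X`, `b` = degree in `Y`). -/
def cK (a b : ℕ) : ℤ :=
  (if a = q + 1 ∧ b = 0 then 1 else 0) + (if a = 1 ∧ b = 1 then -1 else 0)
    + (if a = q ∧ b = q then -1 else 0) + (if a = 0 ∧ b = q + 1 then 1 else 0)

/-- The Kronecker part of `Ψ`. -/
noncomputable def kronPsi : O[X] :=
  (1 - C E' * X ^ q) * (C (wt ^ (q ^ 2 - 1)) - C (E' ^ q) * X)

theorem wrev_cK (hq : 1 ≤ q) : wrev q E' wt (cK q) = kronPsi q E' wt := by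
  have h1 : wexp q (q + 1) 0 = q ^ 2 - 1 := by
    unfold wexp
    have : q * (q + 1 - 0) = q ^ 2 + q := by rw [Nat.sub_zero]; ring
    rw [this]; omega
  have h2 : wexp q 1 1 = q ^ 2 - 1 := by
    unfold wexp
    have : q * (q + 1 - 1) = q ^ 2 := by rw [Nat.add_sub_cancel]; ring
    rw [this]
  have h3 : wexp q q q = 0 := by
    unfold wexp
    have : q + 1 - q = 1 := by omega
    rw [this]; simp
  have h4 : wexp q 0 (q + 1) = 0 := by
    unfold wexp; simp
  have hfun : cK q = fun a b =>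
      (((if a = q + 1 ∧ b = 0 then (1 : ℤ) else 0) + (if a = 1 ∧ b = 1 then (-1 : ℤ) else 0))
        + (if a = q ∧ b = q then (-1 : ℤ) else 0)) + (if a = 0 ∧ b = q + 1 then (1 : ℤ) else 0) := by
    funext a b; rfl
  rw [hfun, wrev_add, wrev_add, wrev_add,
    wrev_single q E' wt (q + 1) 0 (by omega) (by omega),
    wrev_single q E' wt 1 1 (by omega) (by omega),
    wrev_single q E' wt q q (by omega) (by omega),
    wrev_single q E' wt 0 (q + 1) (by omega) (by omega), h1, h2, h3, h4]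
  unfold kronPsi
  have e1 : q + 1 - (q + 1) = 0 := by omega
  have e2 : q + 1 - 1 = q := by omega
  have e3 : q + 1 - q = 1 := by omega
  have e4 : q + 1 - 0 = q + 1 := by omega
  rw [e1, e2, e3, e4]
  simp only [Int.cast_one, Int.cast_neg, pow_zero, mul_one, one_mul, pow_one, C_mul, C_neg, C_pow,
    map_one]
  ring

end Kronecker

section Evaluation

variable {O : Type*} [CommRing O] (q : ℕ) (E' wt : O)

/-- One monomial of the evaluation identity. -/
theorem wrev_term {F : Type*} [CommRing F] (φ : O →+* F) (u v ρ : F)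
    (h1 : u * ρ * φ wt = 1) (h2 : v * φ wt ^ q = φ E') (a b : ℕ) (ha : a ≤ q + 1)
    (hb : b ≤ q + 1) (hab : a ≤ q * (q + 1 - b)) :
    φ (E' ^ b * wt ^ wexp q a b) * ρ ^ (q + 1 - a) =
      ρ ^ (q + 1) * φ wt ^ (q * (q + 1)) * (u ^ a * v ^ b) := by
  have e1 : ρ ^ (q + 1) = ρ ^ (q + 1 - a) * ρ ^ a := by
    rw [← pow_add, Nat.sub_add_cancel ha]
  have e2 : q * (q + 1) = a + wexp q a b + q * b := by
    unfold wexp
    have h3 : q * (q + 1) = q * (q + 1 - b) + q * b := by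
      rw [← Nat.mul_add, Nat.sub_add_cancel hb]
    omega
  rw [e1, e2, pow_add, pow_add, map_mul, map_pow, map_pow, ← h2, pow_mul]
  have h4 : u ^ a * ρ ^ a * φ wt ^ a = 1 := by
    rw [← mul_pow, ← mul_pow, h1, one_pow]
  calc (v * φ wt ^ q) ^ b * φ wt ^ wexp q a b * ρ ^ (q + 1 - a)
      = ρ ^ (q + 1 - a) * (u ^ a * ρ ^ a * φ wt ^ a) * φ wt ^ wexp q a b * ((φ wt ^ q) ^ b * v ^ b) := by
        rw [h4, mul_pow]; ring
    _ = _ := by ring

/-- **Evaluation identity** for the weighted reversal of a valid coefficient function. -/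
theorem eval₂_wrev {F : Type*} [CommRing F] (φ : O →+* F) (u v ρ : F)
    (h1 : u * ρ * φ wt = 1) (h2 : v * φ wt ^ q = φ E') (c : ℕ → ℕ → ℤ)
    (hval : ∀ a b, a < q + 2 → b < q + 2 → c a b ≠ 0 → a ≤ q * (q + 1 - b)) :
    (wrev q E' wt c).eval₂ φ ρ =
      ρ ^ (q + 1) * φ wt ^ (q * (q + 1)) *
        ∑ a ∈ Finset.range (q + 2), ∑ b ∈ Finset.range (q + 2), (c a b : F) * (u ^ a * v ^ b) := by
  unfold wrev
  rw [Polynomial.eval₂_finsetSum, Finset.mul_sum]
  refine Finset.sum_congr rfl fun a ha => ?_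
  rw [Polynomial.eval₂_finsetSum, Finset.mul_sum]
  refine Finset.sum_congr rfl fun b hb => ?_
  rw [Finset.mem_range] at ha hb
  rw [eval₂_mul, eval₂_C, eval₂_pow, eval₂_X]
  by_cases hc : c a b = 0
  · simp [hc]
  · have hab := hval a b ha hb hc
    have := wrev_term q E' wt φ u v ρ h1 h2 a b (by omega) (by omega) hab
    rw [mul_assoc (c a b : O), map_mul, map_intCast, mul_assoc, this]
    ring

end Evaluation

section Derivative

variable {O : Type*} [CommRing O] (q : ℕ) (E' wt : O)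

/-- `Ψ'(1) - Ψ(1)` for a valid weighted reversal lies in `(q, wt)`: a term with `wt`-exponent `0`
has `q ∣ a`, hence its `Z`-exponent `q + 1 - a` is `≡ 1 mod q`. -/
theorem wrev_derivative_sub_eval (hq : 2 ≤ q) (c : ℕ → ℕ → ℤ)
    (hval : ∀ a b, a < q + 2 → b < q + 2 → c a b ≠ 0 → a ≤ q * (q + 1 - b)) :
    ∃ x y : O, (wrev q E' wt c).derivative.eval 1 - (wrev q E' wt c).eval 1 =
      (q : O) * x + wt * y := by
  -- termwise statement
  have hterm : ∀ a b, a < q + 2 → b < q + 2 → ∃ x y : O,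
      ((C ((c a b : O) * E' ^ b * wt ^ wexp q a b) * X ^ (q + 1 - a) : O[X])).derivative.eval 1
        - ((C ((c a b : O) * E' ^ b * wt ^ wexp q a b) * X ^ (q + 1 - a) : O[X])).eval 1
        = (q : O) * x + wt * y := by
    intro a b ha hb
    rw [Polynomial.derivative_C_mul_X_pow]
    simp only [eval_mul, eval_C, eval_pow, eval_X, one_pow, mul_one]
    by_cases hc : c a b = 0
    · exact ⟨0, 0, by simp [hc]⟩
    have hab := hval a b ha hb hc
    by_cases he : wexp q a b = 0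
    · -- then `a = q * (q + 1 - b)`
      have hae : a = q * (q + 1 - b) := by
        unfold wexp at he; omega
      -- `q + 1 - a ≡ 1 mod q`
      obtain ⟨k, hk⟩ : ∃ k, q + 1 - b = k := ⟨_, rfl⟩
      rw [hk] at hae
      have hk' : k = 0 ∨ k = 1 := by
        by_contra hcon
        have : 2 ≤ k := by omega
        have : 2 * q ≤ q * k := by nlinarith
        omega
      rcases hk' with rfl | rfl
      · have ha0 : a = 0 := by simpa using hae
        subst ha0
        refine ⟨(c 0 b : O) * E' ^ b * wt ^ wexp q 0 b, 0, ?_⟩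
        have : ((q + 1 - 0 : ℕ) : O) = (q : O) + 1 := by push_cast; ring
        rw [this]; ring
      · have ha1 : a = q := by simpa using hae
        subst ha1
        refine ⟨0, 0, ?_⟩
        have : ((a + 1 - a : ℕ) : O) = 1 := by
          rw [Nat.add_sub_cancel_left]; simp
        rw [this]; ring
    · obtain ⟨e, he'⟩ := Nat.exists_eq_succ_of_ne_zero he
      refine ⟨0, (c a b : O) * E' ^ b * wt ^ e * (((q + 1 - a : ℕ) : O) - 1), ?_⟩
      rw [he', pow_succ]; ring
  -- sum up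
  unfold wrev
  simp only [Polynomial.derivative_sum, Polynomial.eval_finsetSum]
  rw [← Finset.sum_sub_distrib]
  have hsum : ∀ (s : Finset ℕ) (f : ℕ → O), (∀ a ∈ s, ∃ x y : O, f a = (q : O) * x + wt * y) →
      ∃ x y : O, ∑ a ∈ s, f a = (q : O) * x + wt * y := by
    intro s f hf
    classical
    induction s using Finset.induction_on with
    | empty => exact ⟨0, 0, by simp⟩
    | insert a s has ih =>
      obtain ⟨x1, y1, h1⟩ := hf a (Finset.mem_insert_self a s)
      obtain ⟨x2, y2, h2⟩ := ih fun a' ha' => hf a' (Finset.mem_insert_of_mem ha')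
      refine ⟨x1 + x2, y1 + y2, ?_⟩
      rw [Finset.sum_insert has, h1, h2]; ring
  apply hsum
  intro a ha
  rw [← Finset.sum_sub_distrib]
  apply hsum
  intro b hb
  exact hterm a b (Finset.mem_range.1 ha) (Finset.mem_range.1 hb)

/-- `K'(1) - K(1)` for the Kronecker part. -/
theorem kronPsi_derivative_sub_eval (hq : 2 ≤ q) :
    (kronPsi q E' wt).derivative.eval 1 - (kronPsi q E' wt).eval 1 =
      (q : O) * E' ^ (q + 1) + wt * (-(wt ^ (q ^ 2 - 2) * ((q : O) * E' + 1 - E'))) := by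
  have hw : wt ^ (q ^ 2 - 1) = wt * wt ^ (q ^ 2 - 2) := by
    rw [← pow_succ']
    congr 1
    have : 4 ≤ q ^ 2 := by nlinarith
    omega
  unfold kronPsi
  simp only [derivative_mul, derivative_sub, derivative_one, derivative_C, derivative_X_pow,
    derivative_X, eval_mul, eval_sub, eval_one, eval_C, eval_pow, eval_X, one_pow, mul_one,
    zero_sub, eval_add, eval_neg, eval_natCast, map_natCast, zero_mul, eval_zero]
  rw [hw]
  ring

end Derivative

section Main

open IsLocalRing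

theorem wrev_congr {O : Type*} [CommRing O] (q : ℕ) (E' wt : O) (c c' : ℕ → ℕ → ℤ)
    (h : ∀ a b, a < q + 2 → b < q + 2 → c a b = c' a b) :
    wrev q E' wt c = wrev q E' wt c' := by
  unfold wrev
  refine Finset.sum_congr rfl fun a ha => Finset.sum_congr rfl fun b hb => ?_
  rw [h a b (Finset.mem_range.1 ha) (Finset.mem_range.1 hb)]

/-- The Kronecker coefficient function is valid. -/
theorem cK_valid (q : ℕ) (hq : 1 ≤ q) (a b : ℕ) (h : cK q a b ≠ 0) : a ≤ q * (q + 1 - b) := by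
  unfold cK at h
  by_cases h1 : a = q + 1 ∧ b = 0
  · obtain ⟨rfl, rfl⟩ := h1
    rw [Nat.sub_zero]; nlinarith
  by_cases h2 : a = 1 ∧ b = 1
  · obtain ⟨rfl, rfl⟩ := h2
    rw [Nat.add_sub_cancel]; nlinarith
  by_cases h3 : a = q ∧ b = q
  · obtain ⟨rfl, rfl⟩ := h3
    rw [Nat.add_sub_cancel_left]; simp
  by_cases h4 : a = 0 ∧ b = q + 1
  · obtain ⟨rfl, rfl⟩ := h4
    simp
  simp [h1, h2, h3, h4] at h

/-- **Middle cusp, coefficient form.**  `c` the coefficient function of a bivariate integer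
polynomial `P(X, Y) = ∑ c a b X^a Y^b` of bidegree `≤ (q+1, q+1)` which is valid
(`c a b ≠ 0 → a ≤ q (q + 1 - b)`, i.e. the `Y^(q+1)`- and `X^(q+1)`-parts are pure) and congruent
to `(X - Y^q)(X^q - Y)` modulo `q`; `O` a local domain, `wt, E', ρ ∈ O`; `u, v, w` in an overring
with `w wt = 1`, `v wt^q = E'`, `u ρ = w`, `P(w, v) = P(u, v) = 0`.  Then
`(ρ - 1)^(q-1) = q · unit` in `O`. -/
theorem midCusp_unit_of_coeffs {q : ℕ} (hq : q.Prime) (c : ℕ → ℕ → ℤ)
    (hval : ∀ a b, a < q + 2 → b < q + 2 → c a b ≠ 0 → a ≤ q * (q + 1 - b))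
    (hK : ∀ a b, a < q + 2 → b < q + 2 → (q : ℤ) ∣ c a b - cK q a b)
    {O : Type*} [CommRing O] [IsDomain O] [IsLocalRing O]
    (hq0 : (q : O) ≠ 0) (hqm : (q : O) ∈ maximalIdeal O)
    (wt E' e1 ρ : O) (hE : E' = 1 + (q : O) * e1)
    (hwtm : wt ∈ maximalIdeal O) (hwt : ¬ wt ∣ (q : O))
    {F : Type*} [CommRing F] (φ : O →+* F) (hφ : Function.Injective φ)
    (u v w : F) (hw : w * φ wt = 1) (hv : v * φ wt ^ q = φ E') (hu : u * φ ρ = w)
    (hPw : ∑ a ∈ Finset.range (q + 2), ∑ b ∈ Finset.range (q + 2),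
      (c a b : F) * (w ^ a * v ^ b) = 0)
    (hPu : ∑ a ∈ Finset.range (q + 2), ∑ b ∈ Finset.range (q + 2),
      (c a b : F) * (u ^ a * v ^ b) = 0)
    (hρm : ρ - 1 ∈ maximalIdeal O) (hρ1 : ρ ≠ 1) :
    ∃ U : Oˣ, (ρ - 1) ^ (q - 1) = (q : O) * U := by
  have hq2 : 2 ≤ q := hq.two_le
  have hqpos : (q : ℤ) ≠ 0 := by exact_mod_cast hq.ne_zero
  -- the remainder coefficient function
  set cR : ℕ → ℕ → ℤ := fun a b => (c a b - cK q a b) / (q : ℤ) with hcR
  have hdec : ∀ a b, a < q + 2 → b < q + 2 → c a b = cK q a b + (q : ℤ) * cR a b := by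
    intro a b ha hb
    have := Int.mul_ediv_cancel' (hK a b ha hb)
    rw [hcR]; linarith
  have hvalR : ∀ a b, a < q + 2 → b < q + 2 → cR a b ≠ 0 → a ≤ q * (q + 1 - b) := by
    intro a b ha hb h
    by_cases hc : c a b = 0
    · have hk : cK q a b ≠ 0 := by
        intro hk
        apply h
        rw [hcR]; simp [hc, hk]
      exact cK_valid q (by omega) a b hk
    · exact hval a b ha hb hc
  set Ψ : O[X] := wrev q E' wt c with hΨdef
  set Rt : O[X] := wrev q E' wt cR with hRt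
  have hΨ : Ψ = (1 - C E' * X ^ q) * (C (wt ^ (q ^ 2 - 1)) - C (E' ^ q) * X) + (q : O[X]) * Rt := by
    rw [hΨdef, wrev_congr q E' wt c (fun a b => cK q a b + (q : ℤ) * cR a b) hdec, wrev_add,
      wrev_cK q E' wt (by omega), wrev_zsmul, Int.cast_natCast]
    rfl
  -- evaluations
  have hΨ1 : Ψ.eval 1 = 0 := by
    apply hφ
    rw [map_zero, ← Polynomial.eval₂_at_one, hΨdef,
      eval₂_wrev q E' wt φ w v 1 (by rw [mul_one]; exact hw) hv c hval, hPw, mul_zero]
  have hΨρ : Ψ.eval ρ = 0 := by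
    apply hφ
    rw [map_zero, ← Polynomial.eval₂_at_apply, hΨdef,
      eval₂_wrev q E' wt φ u v (φ ρ) (by rw [hu]; exact hw) hv c hval, hPu, mul_zero]
  -- the derivative at `1`
  obtain ⟨x, y, hxy⟩ := wrev_derivative_sub_eval q E' wt hq2 cR hvalR
  have hKd := kronPsi_derivative_sub_eval q E' wt hq2
  have hder : Ψ.derivative.eval 1 = (q : O) * (E' ^ (q + 1) + (q : O) * x) +
      wt * (-(wt ^ (q ^ 2 - 2) * ((q : O) * E' + 1 - E')) + (q : O) * y) := by
    have h1 : Ψ.derivative.eval 1 = Ψ.derivative.eval 1 - Ψ.eval 1 := by rw [hΨ1, sub_zero]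
    have h2 : Ψ = kronPsi q E' wt + (q : O[X]) * Rt := hΨ
    rw [h1, h2]
    simp only [derivative_add, derivative_mul, derivative_natCast, zero_mul, zero_add, eval_add,
      eval_mul, eval_natCast]
    have h3 : eval 1 (derivative (kronPsi q E' wt)) + (q : O) * eval 1 (derivative Rt) -
        (eval 1 (kronPsi q E' wt) + (q : O) * eval 1 Rt) =
        (eval 1 (derivative (kronPsi q E' wt)) - eval 1 (kronPsi q E' wt)) +
          (q : O) * (eval 1 (derivative Rt) - eval 1 Rt) := by ring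
    rw [h3, hKd, hxy]
    ring
  -- `ε'` is a unit
  have hEu : IsUnit E' := by
    rw [hE]
    exact isUnit_add_of_mem_maximalIdeal isUnit_one ((maximalIdeal O).mul_mem_right _ hqm)
  have hεu : IsUnit (E' ^ (q + 1) + (q : O) * x) :=
    isUnit_add_of_mem_maximalIdeal (hEu.pow _) ((maximalIdeal O).mul_mem_right _ hqm)
  exact exists_unit_pow_eq_of_psi hq hq0 wt E' e1 ρ hE hwtm hwt Ψ Rt hΨ hΨ1 _ _ hεu hder hΨρ hρm hρ1

end Main

section PolyForm

open IsLocalRing

theorem kron_expand (q : ℕ) : ((X - C (X ^ q)) * (X ^ q - C X) : ℤ[X][X]) =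
    X ^ (q + 1) - C X * X - C (X ^ q) * X ^ q + C (X ^ (q + 1)) := by
  rw [pow_succ (X : ℤ[X]) q, C_mul]
  ring

/-- The coefficients of the Kronecker product `(X - Y^q)(X^q - Y)` in `ℤ[Y][X]`. -/
theorem kron_coeff (q : ℕ) (hq : 2 ≤ q) (a b : ℕ) :
    (((X - C (X ^ q)) * (X ^ q - C X) : ℤ[X][X]).coeff a).coeff b = cK q a b := by
  have hq0 : ¬ q = 0 := by omega
  have hq1 : ¬ q = 1 := by omega
  have hq1' : ¬ 1 = q := by omega
  rw [kron_expand]
  simp only [coeff_add, coeff_sub, coeff_X_pow, coeff_C_mul_X, coeff_C_mul_X_pow, coeff_C]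
  unfold cK
  by_cases h1 : a = q + 1
  · subst h1
    simp [hq0, coeff_one]
  by_cases h2 : a = 1
  · subst h2
    simp [hq0, hq1', coeff_X]
    by_cases hb : b = 1
    · simp [hb]
    · have : ¬ 1 = b := fun h => hb h.symm
      simp [hb, this]
  by_cases h3 : a = q
  · subst h3
    simp [hq0, hq1, coeff_X_pow]
    by_cases hb : b = a
    · simp [hb]
    · simp [hb]
  by_cases h4 : a = 0
  · subst h4
    have e2 : ¬ (0 = q) := by omega
    simp [e2, coeff_X_pow]
  simp [h1, h2, h3, h4]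

/-- Kronecker's congruence, coefficientwise. -/
theorem dvd_sub_cK_of_map_eq (q : ℕ) (hq : 2 ≤ q) (P : ℤ[X][X])
    (hK : P.map (Polynomial.mapRingHom (Int.castRingHom (ZMod q))) =
      (X - C (X ^ q)) * (X ^ q - C X)) (a b : ℕ) :
    (q : ℤ) ∣ (P.coeff a).coeff b - cK q a b := by
  have h1 : ((X - C (X ^ q)) * (X ^ q - C X) : (ZMod q)[X][X]) =
      ((X - C (X ^ q)) * (X ^ q - C X) : ℤ[X][X]).map
        (Polynomial.mapRingHom (Int.castRingHom (ZMod q))) := by
    simp [Polynomial.map_sub, Polynomial.map_mul, Polynomial.map_pow]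
  rw [h1] at hK
  have h2 := congrArg (fun p : (ZMod q)[X][X] => (p.coeff a).coeff b) hK
  simp only [coeff_map, coe_mapRingHom] at h2
  rw [kron_coeff q hq] at h2
  exact (ZMod.intCast_eq_intCast_iff_dvd_sub _ _ q).1 h2.symm

/-- A ring homomorphism out of `ℤ[X][X]` is a double sum over the coefficients. -/
theorem ringHom_apply_eq_sum {F : Type*} [CommRing F] (ev : ℤ[X][X] →+* F) (P : ℤ[X][X])
    (n m : ℕ) (hdeg : P.natDegree < n) (hinner : ∀ a, (P.coeff a).natDegree < m) :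
    ev P = ∑ a ∈ Finset.range n, ∑ b ∈ Finset.range m,
      (((P.coeff a).coeff b : ℤ) : F) * (ev X ^ a * ev (C X) ^ b) := by
  have hCC : ∀ z : ℤ, ev (C (C z)) = (z : F) := by
    intro z
    exact eq_intCast (ev.comp (C.comp C)) z
  conv_lhs => rw [Polynomial.as_sum_range' P n hdeg]
  rw [map_sum]
  refine Finset.sum_congr rfl fun a _ => ?_
  conv_lhs => rw [Polynomial.as_sum_range' (P.coeff a) m (hinner a)]
  rw [← C_mul_X_pow_eq_monomial, map_sum, Finset.sum_mul, map_sum]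
  refine Finset.sum_congr rfl fun b _ => ?_
  rw [← C_mul_X_pow_eq_monomial, map_mul, map_mul, map_mul, map_pow, map_pow, map_pow, hCC]
  ring

/-- **Middle cusp, polynomial form.**  `P ∈ ℤ[Y][X]` (outer variable `X`, inner variable `Y`;
think `P = Φ_q`, outer = the `j_q`-slot) with
* `hdeg`   : `deg_X P ≤ q + 1`,
* `htop`   : the `X^(q+1)`-coefficient has no `Y^b`, `b ≥ 1` (e.g. `P` monic in `X`),
* `hinner` : `deg_Y P ≤ q + 1`,
* `hcorner`: the `Y^(q+1)`-part is pure: `coeff_{X^a Y^(q+1)} = 0` for `a ≥ 1` (symmetry),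
* `hK`     : Kronecker's congruence `P ≡ (X - Y^q)(X^q - Y) mod q`.
`O` a local domain with `(q : O) ≠ 0` in the maximal ideal, `wt ∈ m_O` with `wt ∤ q`,
`E' = 1 + q e₁`, `ρ ∈ O`, `ρ ≠ 1`, `ρ - 1 ∈ m_O`; `φ : O → F` injective; `evw, evu` two evaluations
of `ℤ[Y][X]` in `F` at `(X, Y) = (w, v)` and `(u, v)` with `w φ(wt) = 1`, `v φ(wt)^q = φ(E')`,
`u φ(ρ) = w`, killing `P`.  Then `(ρ - 1)^(q-1) = q · unit` in `O`. -/
theorem midCusp_unit_of_poly {q : ℕ} (hq : q.Prime) (P : ℤ[X][X])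
    (hdeg : P.natDegree ≤ q + 1)
    (htop : ∀ b, 1 ≤ b → (P.coeff (q + 1)).coeff b = 0)
    (hinner : ∀ a, (P.coeff a).natDegree ≤ q + 1)
    (hcorner : ∀ a, 1 ≤ a → (P.coeff a).coeff (q + 1) = 0)
    (hK : P.map (Polynomial.mapRingHom (Int.castRingHom (ZMod q))) =
      (X - C (X ^ q)) * (X ^ q - C X))
    {O : Type*} [CommRing O] [IsDomain O] [IsLocalRing O]
    (hq0 : (q : O) ≠ 0) (hqm : (q : O) ∈ maximalIdeal O)
    (wt E' e1 ρ : O) (hE : E' = 1 + (q : O) * e1)
    (hwtm : wt ∈ maximalIdeal O) (hwt : ¬ wt ∣ (q : O))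
    {F : Type*} [CommRing F] (φ : O →+* F) (hφ : Function.Injective φ)
    (evw evu : ℤ[X][X] →+* F) (hvv : evw (C X) = evu (C X))
    (hw : evw X * φ wt = 1) (hv : evw (C X) * φ wt ^ q = φ E') (hu : evu X * φ ρ = evw X)
    (hPw : evw P = 0) (hPu : evu P = 0)
    (hρm : ρ - 1 ∈ maximalIdeal O) (hρ1 : ρ ≠ 1) :
    ∃ U : Oˣ, (ρ - 1) ^ (q - 1) = (q : O) * U := by
  have hq2 : 2 ≤ q := hq.two_le
  set c : ℕ → ℕ → ℤ := fun a b => (P.coeff a).coeff b with hc
  have hval : ∀ a b, a < q + 2 → b < q + 2 → c a b ≠ 0 → a ≤ q * (q + 1 - b) := by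
    intro a b ha hb hne
    by_cases hbq : b = q + 1
    · subst hbq
      have ha0 : a = 0 := by
        by_contra h
        exact hne (hcorner a (by omega))
      subst ha0; simp
    · have hb' : b ≤ q := by omega
      by_cases haq : a = q + 1
      · subst haq
        have hb0 : b = 0 := by
          by_contra h
          exact hne (htop b (by omega))
        subst hb0
        rw [Nat.sub_zero]; nlinarith
      · have ha' : a ≤ q := by omega
        obtain ⟨k, hk⟩ : ∃ k, q + 1 - b = k + 1 := ⟨q - b, by omega⟩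
        rw [hk]; nlinarith
  have hKc : ∀ a b, a < q + 2 → b < q + 2 → (q : ℤ) ∣ c a b - cK q a b :=
    fun a b _ _ => dvd_sub_cK_of_map_eq q hq2 P hK a b
  have hsw := ringHom_apply_eq_sum evw P (q + 2) (q + 2) (by omega)
    (fun a => by have := hinner a; omega)
  have hsu := ringHom_apply_eq_sum evu P (q + 2) (q + 2) (by omega)
    (fun a => by have := hinner a; omega)
  rw [hPw] at hsw
  rw [hPu, ← hvv] at hsu
  exact midCusp_unit_of_coeffs hq c hval hKc hq0 hqm wt E' e1 ρ hE hwtm hwt φ hφ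
    (evu X) (evw (C X)) (evw X) hw hv hu hsw.symm hsu.symm hρm hρ1

end PolyForm

/-! ## Pinned API of row (M4r2) (helper97's signatures, board #3313) -/

section Pinned

open Finset IsLocalRing

variable {A : Type*} [CommRing A]

/-- The remainder part of `Ψ`: `r a b` = coefficients of the Kronecker remainder `R`
(outer index `a`, inner index `b`), `s = 1/w`, `E = v/w^q`. -/
noncomputable def Rt (q : ℕ) (r : ℕ → ℕ → ℤ) (s E : A) : A[X] :=
  ∑ a ∈ range (q + 1), ∑ b ∈ range (q + 1),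
    C ((r a b : A) * E ^ b * s ^ (q * (q + 1 - b) - a)) * X ^ (q + 1 - a)

/-- `Ψ(Z) = Z^(q+1) s^(q²+q) Φ(1/(Z s), E/s^q)`. -/
noncomputable def Psi (q : ℕ) (r : ℕ → ℕ → ℤ) (s E : A) : A[X] :=
  (1 - C E * X ^ q) * (C (s ^ (q ^ 2 - 1)) - C (E ^ q) * X) + C (q : A) * Rt q r s E

/-- `Ψ₀(E) = s^(q²+q) Φ(1/s, E/s^q)`, the monic polynomial satisfied by `E = v s^q`. -/
noncomputable def Psi0 (q : ℕ) (r : ℕ → ℕ → ℤ) (s : A) : A[X] :=
  (1 - X) * (C (s ^ (q ^ 2 - 1)) - X ^ q) + C (q : A) *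
    ∑ a ∈ range (q + 1), ∑ b ∈ range (q + 1), C ((r a b : A) * s ^ (q * (q + 1 - b) - a)) * X ^ b

/-- `Φ(x, y)` (`x` = outer slot) for `Φ = (X - Y^q)(X^q - Y) + q R`. -/
def PhiAt {F : Type*} [CommRing F] (q : ℕ) (r : ℕ → ℕ → ℤ) (x y : F) : F :=
  (x - y ^ q) * (x ^ q - y) + (q : F) *
    ∑ a ∈ range (q + 1), ∑ b ∈ range (q + 1), (r a b : F) * x ^ a * y ^ b

theorem eval₂_Rt {F : Type*} [CommRing F] (q : ℕ) (r : ℕ → ℕ → ℤ) (s E : A) (f : A →+* F)
    (u v ρ : F) (h1 : u * ρ * f s = 1) (h2 : v * f s ^ q = f E) :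
    (Rt q r s E).eval₂ f ρ = f s ^ (q ^ 2 + q) * ρ ^ (q + 1) *
      ∑ a ∈ range (q + 1), ∑ b ∈ range (q + 1), (r a b : F) * u ^ a * v ^ b := by
  unfold Rt
  rw [Polynomial.eval₂_finsetSum, Finset.mul_sum]
  refine Finset.sum_congr rfl fun a ha => ?_
  rw [Polynomial.eval₂_finsetSum, Finset.mul_sum]
  refine Finset.sum_congr rfl fun b hb => ?_
  rw [Finset.mem_range] at ha hb
  rw [eval₂_mul, eval₂_C, eval₂_pow, eval₂_X]
  have hab : a ≤ q * (q + 1 - b) := by
    obtain ⟨k, hk⟩ : ∃ k, q + 1 - b = k + 1 := ⟨q - b, by omega⟩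
    rw [hk]; nlinarith
  have := wrev_term q E s f u v ρ h1 h2 a b (by omega) (by omega) hab
  unfold wexp at this
  rw [mul_assoc (r a b : A), map_mul, map_intCast, mul_assoc, this]
  have e : q * (q + 1) = q ^ 2 + q := by ring
  rw [e]
  ring

theorem eval₂_Psi {F : Type*} [CommRing F] (q : ℕ) (hq : 1 ≤ q) (r : ℕ → ℕ → ℤ) (s E : A)
    (f : A →+* F) (u v ρ : F) (h1 : u * ρ * f s = 1) (h2 : v * f s ^ q = f E) :
    (Psi q r s E).eval₂ f ρ = f s ^ (q ^ 2 + q) * ρ ^ (q + 1) * PhiAt q r u v := by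
  unfold Psi PhiAt
  rw [eval₂_add, eval₂_mul, eval₂_mul, eval₂_C, eval₂_Rt q r s E f u v ρ h1 h2]
  simp only [eval₂_sub, eval₂_one, eval₂_mul, eval₂_C, eval₂_pow, eval₂_X, map_pow, map_natCast]
  -- the Kronecker part
  have hk1 : f s ^ q * ρ ^ q * (u ^ q - v) = 1 - f E * ρ ^ q := by
    have : (u * ρ * f s) ^ q = 1 := by rw [h1, one_pow]
    rw [← h2]
    linear_combination this
  have hk2 : f s ^ (q ^ 2) * ρ * (u - v ^ q) = f s ^ (q ^ 2 - 1) - f E ^ q * ρ := by
    have e1 : f s ^ (q ^ 2) = f s ^ (q ^ 2 - 1) * f s := by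
      rw [← pow_succ]
      congr 1
      have : 1 ≤ q ^ 2 := Nat.one_le_pow _ _ hq
      omega
    have e2 : (f s ^ q) ^ q = f s ^ (q ^ 2 - 1) * f s := by rw [← e1, ← pow_mul, pow_two]
    rw [← h2, mul_pow, e2, e1]
    linear_combination (f s ^ (q ^ 2 - 1)) * h1
  have e3 : f s ^ (q ^ 2 + q) * ρ ^ (q + 1) =
      (f s ^ (q ^ 2) * ρ) * (f s ^ q * ρ ^ q) := by
    rw [pow_add, pow_succ]; ring
  rw [e3]
  calc (1 - f E * ρ ^ q) * (f s ^ (q ^ 2 - 1) - f E ^ q * ρ) +
        ↑q * (f s ^ (q ^ 2) * ρ * (f s ^ q * ρ ^ q) *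
          ∑ a ∈ range (q + 1), ∑ b ∈ range (q + 1), (r a b : F) * u ^ a * v ^ b)
      = (f s ^ q * ρ ^ q * (u ^ q - v)) * (f s ^ (q ^ 2) * ρ * (u - v ^ q)) +
        ↑q * (f s ^ (q ^ 2) * ρ * (f s ^ q * ρ ^ q) *
          ∑ a ∈ range (q + 1), ∑ b ∈ range (q + 1), (r a b : F) * u ^ a * v ^ b) := by
        rw [hk1, hk2]
    _ = _ := by ring

theorem eval₂_Psi0 {F : Type*} [CommRing F] (q : ℕ) (hq : 1 ≤ q) (r : ℕ → ℕ → ℤ) (s : A)
    (f : A →+* F) (w v : F) (h1 : w * f s = 1) :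
    (Psi0 q r s).eval₂ f (v * f s ^ q) = f s ^ (q ^ 2 + q) * PhiAt q r w v := by
  unfold Psi0 PhiAt
  rw [eval₂_add, eval₂_mul, eval₂_mul, eval₂_C, Polynomial.eval₂_finsetSum]
  simp only [eval₂_sub, eval₂_one, eval₂_C, eval₂_pow, eval₂_X, map_pow, map_natCast]
  have hk1 : f s ^ q * (w ^ q - v) = 1 - v * f s ^ q := by
    have : (w * f s) ^ q = 1 := by rw [h1, one_pow]
    linear_combination this
  have hk2 : f s ^ (q ^ 2) * (w - v ^ q) = f s ^ (q ^ 2 - 1) - (v * f s ^ q) ^ q := by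
    have e1 : f s ^ (q ^ 2) = f s ^ (q ^ 2 - 1) * f s := by
      rw [← pow_succ]
      congr 1
      have : 1 ≤ q ^ 2 := Nat.one_le_pow _ _ hq
      omega
    have e2 : (f s ^ q) ^ q = f s ^ (q ^ 2 - 1) * f s := by rw [← e1, ← pow_mul, pow_two]
    rw [mul_pow, e2, e1]
    linear_combination (f s ^ (q ^ 2 - 1)) * h1
  have hsum : ∑ a ∈ range (q + 1), eval₂ f (v * f s ^ q)
        (∑ b ∈ range (q + 1), C ((r a b : A) * s ^ (q * (q + 1 - b) - a)) * X ^ b) =
      f s ^ (q ^ 2 + q) * ∑ a ∈ range (q + 1), ∑ b ∈ range (q + 1), (r a b : F) * w ^ a * v ^ b := by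
    rw [Finset.mul_sum]
    refine Finset.sum_congr rfl fun a ha => ?_
    rw [Polynomial.eval₂_finsetSum, Finset.mul_sum]
    refine Finset.sum_congr rfl fun b hb => ?_
    rw [Finset.mem_range] at ha hb
    rw [eval₂_mul, eval₂_C, eval₂_pow, eval₂_X, map_mul, map_intCast, map_pow]
    have hab : a ≤ q * (q + 1 - b) := by
      obtain ⟨k, hk⟩ : ∃ k, q + 1 - b = k + 1 := ⟨q - b, by omega⟩
      rw [hk]; nlinarith
    have e : q ^ 2 + q = (q * (q + 1 - b) - a) + a + q * b := by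
      have h3 : q * (q + 1) = q * (q + 1 - b) + q * b := by
        rw [← Nat.mul_add, Nat.sub_add_cancel (by omega)]
      have h4 : q ^ 2 + q = q * (q + 1) := by ring
      omega
    have hw : f s ^ a * w ^ a = 1 := by rw [← mul_pow, mul_comm, h1, one_pow]
    rw [e, pow_add, pow_add, mul_pow, pow_mul]
    calc (r a b : F) * f s ^ (q * (q + 1 - b) - a) * (v ^ b * (f s ^ q) ^ b)
        = (r a b : F) * f s ^ (q * (q + 1 - b) - a) * (f s ^ a * w ^ a) * (v ^ b * (f s ^ q) ^ b) := by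
          rw [hw, mul_one]
      _ = _ := by ring
  rw [hsum, ← hk1, ← hk2]
  have e3 : f s ^ (q ^ 2 + q) = f s ^ (q ^ 2) * f s ^ q := by rw [pow_add]
  rw [e3]
  ring

theorem natDegree_Rt_le (q : ℕ) (r : ℕ → ℕ → ℤ) (s E : A) : (Rt q r s E).natDegree ≤ q + 1 := by
  unfold Rt
  refine Polynomial.natDegree_sum_le_of_forall_le _ _ fun a _ => ?_
  refine Polynomial.natDegree_sum_le_of_forall_le _ _ fun b _ => ?_
  exact (Polynomial.natDegree_C_mul_X_pow_le _ _).trans (Nat.sub_le _ _)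

theorem natDegree_kron1_le (q : ℕ) (E : A) : (1 - C E * X ^ q : A[X]).natDegree ≤ q :=
  (Polynomial.natDegree_sub_le _ _).trans
    (max_le (by simp) (Polynomial.natDegree_C_mul_X_pow_le _ _))

theorem natDegree_kron2_le (c e : A) : (C c - C e * X : A[X]).natDegree ≤ 1 :=
  (Polynomial.natDegree_sub_le _ _).trans
    (max_le (by simp) ((Polynomial.natDegree_C_mul_le _ _).trans Polynomial.natDegree_X_le))

theorem natDegree_Psi_le (q : ℕ) (r : ℕ → ℕ → ℤ) (s E : A) :
    (Psi q r s E).natDegree ≤ q + 1 := by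
  unfold Psi
  refine Polynomial.natDegree_add_le_of_degree_le ?_ ?_
  · exact Polynomial.natDegree_mul_le_of_le (natDegree_kron1_le q E) (natDegree_kron2_le _ _)
  · exact (Polynomial.natDegree_C_mul_le _ _).trans (natDegree_Rt_le q r s E)

theorem coeff_Rt_top (q : ℕ) (hq : 1 ≤ q) (r : ℕ → ℕ → ℤ) (s E : A) :
    ∃ d : A, (Rt q r s E).coeff (q + 1) = s * d := by
  unfold Rt
  simp only [Polynomial.finsetSum_coeff, Polynomial.coeff_C_mul_X_pow]
  -- only `a = 0` contributes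
  refine ⟨∑ b ∈ range (q + 1), (r 0 b : A) * E ^ b * s ^ (q * (q + 1 - b) - 1), ?_⟩
  rw [Finset.sum_eq_single 0]
  · rw [Finset.mul_sum]
    refine Finset.sum_congr rfl fun b hb => ?_
    rw [Finset.mem_range] at hb
    have h1 : 1 ≤ q * (q + 1 - b) := by
      obtain ⟨k, hk⟩ : ∃ k, q + 1 - b = k + 1 := ⟨q - b, by omega⟩
      rw [hk]; nlinarith
    have h2 : s ^ (q * (q + 1 - b) - 0) = s * s ^ (q * (q + 1 - b) - 1) := by
      rw [Nat.sub_zero, ← pow_succ', Nat.sub_add_cancel h1]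
    simp only [Nat.sub_zero, if_true] at h2 ⊢
    rw [h2]; ring
  · intro a _ ha
    refine Finset.sum_eq_zero fun b _ => ?_
    have : ¬ (q + 1 = q + 1 - a) := by omega
    simp [this]
  · intro h
    exact absurd (Finset.mem_range.2 (by omega)) h

theorem coeff_Psi_top (q : ℕ) (hq : 1 ≤ q) (r : ℕ → ℕ → ℤ) (s E : A) :
    ∃ d : A, (Psi q r s E).coeff (q + 1) = E ^ (q + 1) + (q : A) * s * d := by
  obtain ⟨d, hd⟩ := coeff_Rt_top q hq r s E
  refine ⟨d, ?_⟩
  unfold Psi
  rw [Polynomial.coeff_add, Polynomial.coeff_C_mul, hd]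
  have h1 : ((1 - C E * X ^ q) * (C (s ^ (q ^ 2 - 1)) - C (E ^ q) * X) : A[X]).coeff (q + 1) =
      (1 - C E * X ^ q : A[X]).coeff q * (C (s ^ (q ^ 2 - 1)) - C (E ^ q) * X : A[X]).coeff 1 :=
    Polynomial.coeff_mul_add_eq_of_natDegree_le (natDegree_kron1_le q E) (natDegree_kron2_le _ _)
  rw [h1]
  have h2 : (1 - C E * X ^ q : A[X]).coeff q = -E := by
    rw [Polynomial.coeff_sub, Polynomial.coeff_C_mul_X_pow, Polynomial.coeff_one]
    have : ¬ q = 0 := by omega
    simp [this]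
  have h3 : (C (s ^ (q ^ 2 - 1)) - C (E ^ q) * X : A[X]).coeff 1 = -E ^ q := by
    rw [Polynomial.coeff_sub, Polynomial.coeff_C_mul_X, Polynomial.coeff_C]
    simp
  rw [h2, h3, pow_succ]
  ring

theorem Psi0_monic [Nontrivial A] (q : ℕ) (hq : 1 ≤ q) (r : ℕ → ℕ → ℤ) (s : A) :
    (Psi0 q r s).Monic := by
  have hrem : (∑ a ∈ range (q + 1), ∑ b ∈ range (q + 1),
      C ((r a b : A) * s ^ (q * (q + 1 - b) - a)) * X ^ b : A[X]).natDegree ≤ q := by
    refine Polynomial.natDegree_sum_le_of_forall_le _ _ fun a _ => ?_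
    refine Polynomial.natDegree_sum_le_of_forall_le _ _ fun b hb => ?_
    rw [Finset.mem_range] at hb
    exact (Polynomial.natDegree_C_mul_X_pow_le _ _).trans (by omega)
  have hform : Psi0 q r s = X ^ (q + 1) + (-(X ^ q) - C (s ^ (q ^ 2 - 1)) * X + C (s ^ (q ^ 2 - 1))
      + C (q : A) * ∑ a ∈ range (q + 1), ∑ b ∈ range (q + 1),
        C ((r a b : A) * s ^ (q * (q + 1 - b) - a)) * X ^ b) := by
    unfold Psi0
    rw [pow_succ]; ring
  rw [hform]
  apply Polynomial.monic_X_pow_add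
  refine lt_of_le_of_lt (Polynomial.degree_le_of_natDegree_le (n := q) ?_)
    (by exact_mod_cast Nat.lt_succ_self q)
  refine Polynomial.natDegree_add_le_of_degree_le ?_ ((Polynomial.natDegree_C_mul_le _ _).trans hrem)
  refine Polynomial.natDegree_add_le_of_degree_le ?_ ((Polynomial.natDegree_C _).le.trans (Nat.zero_le _))
  refine (Polynomial.natDegree_sub_le _ _).trans (max_le ?_ ?_)
  · rw [Polynomial.natDegree_neg]; exact Polynomial.natDegree_X_pow_le _
  · exact (Polynomial.natDegree_C_mul_le _ _).trans (by simpa using hq)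

/-- `Rt'(1) - Rt(1) ∈ (s)`: the only term with `s`-exponent `0` is `(a, b) = (q, q)`, whose
`Z`-exponent is `1`. -/
theorem Rt_derivative_sub_eval (q : ℕ) (hq : 1 ≤ q) (r : ℕ → ℕ → ℤ) (s E : A) :
    ∃ y : A, (Rt q r s E).derivative.eval 1 - (Rt q r s E).eval 1 = s * y := by
  have hterm : ∀ a b, a < q + 1 → b < q + 1 → ∃ y : A,
      ((C ((r a b : A) * E ^ b * s ^ (q * (q + 1 - b) - a)) * X ^ (q + 1 - a) : A[X])).derivative.eval 1
        - ((C ((r a b : A) * E ^ b * s ^ (q * (q + 1 - b) - a)) * X ^ (q + 1 - a) : A[X])).eval 1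
        = s * y := by
    intro a b ha hb
    rw [Polynomial.derivative_C_mul_X_pow]
    simp only [eval_mul, eval_C, eval_pow, eval_X, one_pow, mul_one]
    obtain ⟨k, hk⟩ : ∃ k, q + 1 - b = k + 1 := ⟨q - b, by omega⟩
    by_cases he : q * (q + 1 - b) - a = 0
    · have hak : a = q := by
        rw [hk] at he
        have h1 : q * (k + 1) ≤ a := by omega
        have h2 : q ≤ q * (k + 1) := by nlinarith
        omega
      subst hak
      refine ⟨0, ?_⟩
      have : ((a + 1 - a : ℕ) : A) = 1 := by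
        rw [Nat.add_sub_cancel_left]; simp
      rw [this]; ring
    · obtain ⟨e, he'⟩ := Nat.exists_eq_succ_of_ne_zero he
      refine ⟨(r a b : A) * E ^ b * s ^ e * (((q + 1 - a : ℕ) : A) - 1), ?_⟩
      rw [he', pow_succ]; ring
  unfold Rt
  simp only [Polynomial.derivative_sum, Polynomial.eval_finsetSum]
  rw [← Finset.sum_sub_distrib]
  have hsum : ∀ (t : Finset ℕ) (f : ℕ → A), (∀ a ∈ t, ∃ y : A, f a = s * y) →
      ∃ y : A, ∑ a ∈ t, f a = s * y := by
    intro t f hf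
    classical
    induction t using Finset.induction_on with
    | empty => exact ⟨0, by simp⟩
    | insert a t hat ih =>
      obtain ⟨y1, h1⟩ := hf a (Finset.mem_insert_self a t)
      obtain ⟨y2, h2⟩ := ih fun a' ha' => hf a' (Finset.mem_insert_of_mem ha')
      refine ⟨y1 + y2, ?_⟩
      rw [Finset.sum_insert hat, h1, h2]; ring
  apply hsum
  intro a ha
  rw [← Finset.sum_sub_distrib]
  apply hsum
  intro b hb
  exact hterm a b (Finset.mem_range.1 ha) (Finset.mem_range.1 hb)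

/-- **The unit relation at a cusp point of the middle component** (pinned statement #3313). -/
theorem unit_relation [IsDomain A] [IsLocalRing A] (q : ℕ) [hqp : Fact q.Prime]
    (r : ℕ → ℕ → ℤ) (s E ε : A) (hq0 : (q : A) ≠ 0) (hqm : (q : A) ∈ IsLocalRing.maximalIdeal A)
    (hs : s ∈ IsLocalRing.maximalIdeal A) (hE : E = 1 + (q : A) * ε) (ρ : A)
    (hρm : ρ - 1 ∈ IsLocalRing.maximalIdeal A) (hρ1 : ρ ≠ 1)
    (h1 : (Psi q r s E).eval 1 = 0) (hρ : (Psi q r s E).eval ρ = 0) :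
    ∃ U₁ U₂ : A, IsUnit U₁ ∧ IsUnit U₂ ∧ (ρ - 1) ^ (q - 1) * U₁ = (q : A) * U₂ := by
  have hq : q.Prime := hqp.out
  have hq2 : 2 ≤ q := hq.two_le
  obtain ⟨y, hy⟩ := Rt_derivative_sub_eval q (by omega) r s E
  have hKd := kronPsi_derivative_sub_eval q E s hq2
  have hΨ : Psi q r s E = (1 - C E * X ^ q) * (C (s ^ (q ^ 2 - 1)) - C (E ^ q) * X) +
      (q : A[X]) * Rt q r s E := by
    unfold Psi
    rw [Polynomial.C_eq_natCast]
  have hw : s ^ (q ^ 2 - 1) = s * s ^ (q ^ 2 - 2) := by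
    rw [← pow_succ']
    congr 1
    have : 4 ≤ q ^ 2 := by nlinarith
    omega
  set g' : A := E ^ (q + 1) - s ^ (q ^ 2 - 1) * (E - ε) + s * y with hg'
  have hder : (Psi q r s E).derivative.eval 1 = (q : A) * g' := by
    have h2 : (Psi q r s E).derivative.eval 1 =
        (Psi q r s E).derivative.eval 1 - (Psi q r s E).eval 1 := by rw [h1, sub_zero]
    have h3 : Psi q r s E = kronPsi q E s + (q : A[X]) * Rt q r s E := hΨ
    rw [h2, h3]
    simp only [derivative_add, derivative_mul, derivative_natCast, zero_mul, zero_add, eval_add,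
      eval_mul, eval_natCast]
    have h4 : eval 1 (derivative (kronPsi q E s)) + (q : A) * eval 1 (derivative (Rt q r s E)) -
        (eval 1 (kronPsi q E s) + (q : A) * eval 1 (Rt q r s E)) =
        (eval 1 (derivative (kronPsi q E s)) - eval 1 (kronPsi q E s)) +
          (q : A) * (eval 1 (derivative (Rt q r s E)) - eval 1 (Rt q r s E)) := by ring
    rw [h4, hKd, hy, hg', hw]
    have hE' : (q : A) * E + 1 - E = (q : A) * (E - ε) := by rw [hE]; ring
    rw [hE']
    ring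
  have hEu : IsUnit E := by
    rw [hE]
    exact isUnit_add_of_mem_maximalIdeal isUnit_one ((IsLocalRing.maximalIdeal A).mul_mem_right _ hqm)
  have hgu : IsUnit g' := by
    have hm : -(s ^ (q ^ 2 - 1) * (E - ε)) + s * y ∈ IsLocalRing.maximalIdeal A := by
      refine (IsLocalRing.maximalIdeal A).add_mem ((IsLocalRing.maximalIdeal A).neg_mem ?_)
        ((IsLocalRing.maximalIdeal A).mul_mem_right _ hs)
      rw [hw, mul_assoc]
      exact (IsLocalRing.maximalIdeal A).mul_mem_right _ hs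
    have := isUnit_add_of_mem_maximalIdeal (hEu.pow (q + 1)) hm
    have e : g' = E ^ (q + 1) + (-(s ^ (q ^ 2 - 1) * (E - ε)) + s * y) := by rw [hg']; ring
    rw [e]; exact this
  obtain ⟨U, hU⟩ := exists_unit_pow_eq_of_psi_of_derivative hq hq0 s E ε ρ hE hs (Psi q r s E)
    (Rt q r s E) hΨ h1 g' hgu hder hρ hρm hρ1
  exact ⟨1, U, isUnit_one, U.isUnit, by rw [mul_one, hU]⟩

end Pinned

end Fermat.Agent.S36.H19
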