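import Mathlib
import Fermat.Agent.S34.H83_L0Target
import Fermat.Agent.S36.H19_MidCuspPoly

/-!
# (M2-cusp): no crossing point at infinity, abstract half (helper25; S36, Note 6)

* `not_mem_of_ker_le` : `red₁ : B → D₁`, `red₂ : B → D₂` (domains), `u v w : B` with
  `w * v = u ^ q`, `red₁ v = (red₁ u) ^ q ≠ 0`, `red₂ u = (red₂ v) ^ q`, `red₂ v ≠ 0`, `2 ≤ q`,
  `n` a proper ideal containing both kernels.  Then `v ∉ n`.
  [`red₁ w = 1` and `red₂ w = (red₂ v) ^ (q² - 1)` by cancellation; so `v ∈ n` gives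
  `w - 1 ∈ n` and `w ∈ n`.]
* `TwoComponents.coord_not_mem_of_ker_le` : the same in the `S34.H83.TwoComponents` vocabulary:
  `ι ψ ∉ n`, `V ψ ∉ n` (hence `ι ψ * V ψ ∉ n` for `n` prime) for every `ψ : BM` with
  `W (rbar ψ) = rbar ψ ^ q`, `rbar ψ ≠ 0` and `w w' : B`, `w * V ψ = ι ψ ^ q`, `w' * ι ψ = V ψ ^ q`.
* `exists_mul_eq_pow_of_phiAt` : Step 0 (existence of `w`) for a subring `B` of a field `F` which is
  integrally closed in `F`, from the relation `PhiAt q r s⁻¹ t⁻¹ = 0`.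
-/

set_option autoImplicit false
set_option linter.unusedSectionVars false

namespace Fermat.Agent.S36.H25

open Polynomial

/-! ### A. The crossing-point argument -/

section Abs

variable {B D₁ D₂ : Type*} [CommRing B] [CommRing D₁] [IsDomain D₁] [CommRing D₂] [IsDomain D₂]

/-- **No crossing point on `v = 0`.** -/
theorem not_mem_of_ker_le (red₁ : B →+* D₁) (red₂ : B →+* D₂) {q : ℕ} (hq : 2 ≤ q)
    {u v w : B} (hw : w * v = u ^ q)
    (h1 : red₁ v = red₁ u ^ q) (h1u : red₁ u ≠ 0)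
    (h2 : red₂ u = red₂ v ^ q) (h2v : red₂ v ≠ 0)
    {n : Ideal B} (hn : n ≠ ⊤) (hk1 : RingHom.ker red₁ ≤ n) (hk2 : RingHom.ker red₂ ≤ n) :
    v ∉ n := by
  intro hv
  -- `red₁ w = 1`
  have e1 : red₁ w = 1 := by
    have h := congrArg red₁ hw
    rw [map_mul, map_pow, h1] at h
    have h' : red₁ w * red₁ u ^ q = 1 * red₁ u ^ q := by rw [h, one_mul]
    exact mul_right_cancel₀ (pow_ne_zero q h1u) h'
  have m1 : w - 1 ∈ n := hk1 (by rw [RingHom.mem_ker, map_sub, e1, map_one, sub_self])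
  -- `red₂ w = (red₂ v) ^ (q * q - 1)`
  have hqq : q * q - 1 + 1 = q * q := by
    have : 1 ≤ q * q := Nat.one_le_iff_ne_zero.mpr (by positivity)
    omega
  have e2 : red₂ w = red₂ v ^ (q * q - 1) := by
    have h := congrArg red₂ hw
    rw [map_mul, map_pow, h2, ← pow_mul, ← hqq, pow_succ] at h
    exact mul_right_cancel₀ h2v h
  have m2 : w - v ^ (q * q - 1) ∈ n :=
    hk2 (by rw [RingHom.mem_ker, map_sub, map_pow, e2, sub_self])
  have hk : q * q - 1 ≠ 0 := by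
    have : 4 ≤ q * q := Nat.mul_le_mul hq hq
    omega
  have m3 : v ^ (q * q - 1) ∈ n := Ideal.pow_mem_of_mem n hv _ (Nat.pos_of_ne_zero hk)
  have m4 : w ∈ n := by
    have := n.add_mem m2 m3
    rwa [sub_add_cancel] at this
  have m5 : (1 : B) ∈ n := by
    have := n.sub_mem m4 m1
    rwa [sub_sub_cancel] at this
  exact hn ((Ideal.eq_top_iff_one n).mpr m5)

end Abs

section TC

open Fermat.Agent.S34.H83

variable {B R BM : Type*} [CommRing B] [CommRing R] [IsDomain R] [CommRing BM]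
  {red₁ red₂ : B →+* R} {ι V : BM →+* B} {rbar : BM →+* R} {W : R →+* R} {q : ℕ} {qB : B}

/-- **(M2-cusp), `TwoComponents` form**: no crossing point lies on `ι ψ = 0` or on `V ψ = 0`. -/
theorem coord_not_mem_of_ker_le (h : TwoComponents red₁ red₂ ι V rbar W q qB) (hq : 2 ≤ q)
    (ψ : BM) (hW : W (rbar ψ) = rbar ψ ^ q) (h0 : rbar ψ ≠ 0)
    {w w' : B} (hw : w * V ψ = ι ψ ^ q) (hw' : w' * ι ψ = V ψ ^ q)
    {n : Ideal B} (hn : n ≠ ⊤) (hk1 : RingHom.ker red₁ ≤ n) (hk2 : RingHom.ker red₂ ≤ n) :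
    ι ψ ∉ n ∧ V ψ ∉ n := by
  have a1 : red₁ (ι ψ) = rbar ψ := h.h1ι ψ
  have a2 : red₁ (V ψ) = rbar ψ ^ q := by rw [h.h1V, hW]
  have a3 : red₂ (ι ψ) = rbar ψ ^ q := by rw [h.h2ι, hW]
  have a4 : red₂ (V ψ) = rbar ψ := h.h2V ψ
  refine ⟨?_, ?_⟩
  · exact not_mem_of_ker_le red₂ red₁ hq hw' (by rw [a3, a4]) (by rw [a4]; exact h0)
      (by rw [a2, a1]) (by rw [a1]; exact h0) hn hk2 hk1
  · exact not_mem_of_ker_le red₁ red₂ hq hw (by rw [a2, a1]) (by rw [a1]; exact h0)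
      (by rw [a3, a4]) (by rw [a4]; exact h0) hn hk1 hk2

/-- the same, for a prime `n`: the product `ι ψ * V ψ` (`= J⁻¹` for `ψ = j⁻¹`) is not in `n`. -/
theorem coord_mul_not_mem_of_ker_le (h : TwoComponents red₁ red₂ ι V rbar W q qB) (hq : 2 ≤ q)
    (ψ : BM) (hW : W (rbar ψ) = rbar ψ ^ q) (h0 : rbar ψ ≠ 0)
    {w w' : B} (hw : w * V ψ = ι ψ ^ q) (hw' : w' * ι ψ = V ψ ^ q)
    {n : Ideal B} [hn : n.IsPrime] (hk1 : RingHom.ker red₁ ≤ n) (hk2 : RingHom.ker red₂ ≤ n) :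
    ι ψ * V ψ ∉ n := by
  obtain ⟨hu, hv⟩ := coord_not_mem_of_ker_le h hq ψ hW h0 hw hw' hn.ne_top hk1 hk2
  intro hmem
  rcases hn.mem_or_mem hmem with h1 | h1
  · exact hu h1
  · exact hv h1

end TC

/-! ### B. Step 0: existence of `w` -/

section Step0

variable {R₀ F : Type*} [CommRing R₀] [Field F] [Algebra R₀ F]

/-- **Step 0**: `B` a subalgebra of a field `F`, integrally closed in `F`; `s t : B` nonzero with
`Φ(1/s; 1/t) = 0` in the Kronecker shape.  Then `s ^ q / t ∈ B`. -/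
theorem exists_mul_eq_pow_of_phiAt (B : Subalgebra R₀ F)
    (hB : ∀ x : F, IsIntegral B x → x ∈ B) {q : ℕ} (hq : 1 ≤ q) (r : ℕ → ℕ → ℤ)
    {s t : B} (hs : (s : F) ≠ 0) (ht : (t : F) ≠ 0)
    (hΦ : H19.PhiAt q r (s : F)⁻¹ (t : F)⁻¹ = 0) :
    ∃ w : B, w * t = s ^ q := by
  have h1 := H19.eval₂_Psi0 q hq r s (algebraMap B F) (s : F)⁻¹ (t : F)⁻¹
    (inv_mul_cancel₀ hs)
  rw [hΦ, mul_zero] at h1
  have hint : IsIntegral B ((t : F)⁻¹ * (s : F) ^ q) :=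
    ⟨H19.Psi0 q r s, H19.Psi0_monic q hq r s, h1⟩
  refine ⟨⟨(t : F)⁻¹ * (s : F) ^ q, hB _ hint⟩, ?_⟩
  apply Subtype.ext
  show (t : F)⁻¹ * (s : F) ^ q * (t : F) = (s : F) ^ q
  field_simp

end Step0

end Fermat.Agent.S36.H25
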