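import Mathlib
import Fermat.Agent.S36.H25_NoCrossAtCusp
import Fermat.Agent.S36.H25_ModPolyShape
import Fermat.Agent.S34.H55_L0Final
import Fermat.Agent.S34.H16_RelSwap
import Fermat.Agent.S34.H3_GlueCharts
import Fermat.Agent.S34.H95_ChartBC

/-!
# (M2-cusp): no crossing point at infinity, REAL TYPES (helper25; S36, Note 6)

Level `(M, ℓ)` (`= (L, q)` of S36), chart 2 `B₂ = chartB A₁ J⁻¹`, `J = j * j_ℓ`
(`S34.H55.twoComponents_JK_inv`): for EVERY `TwoComponents` structure on a ring `B''` receiving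
`B₂` (`g : B₂ →+* B''`; `g = id` for the `A₁`-level, `g = H95.chartBC_JK_inv` for the `E`-level
package `S35.H70.exists_twoComponentsE_JK_inv`) in the landed vocabulary
`(g ∘ chartMap ι, g ∘ chartMap V, rbarB, WR)`, and every proper ideal `n ⊇ ker red₁ + ker red₂`:

  `g (1/j) ∉ n`, `g (1/j_ℓ) ∉ n` and (for `n` prime) `g J⁻¹ ∉ n`.
-/

set_option autoImplicit false
set_option linter.unusedSectionVars false
set_option linter.style.haveILetI false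
set_option synthInstance.maxHeartbeats 400000

noncomputable section

namespace Fermat.Agent.S36.H25

open ModularCurve Polynomial IsLocalRing Fermat.Agent.S28
open Fermat.Agent.S18 Fermat.Agent.S34 Fermat.Agent.S34.H55 Fermat.Agent.S34.H16

local notation "Qbar" => AlgebraicClosure ℚ

/-- the chart ring is integrally closed in its ambient field. -/
theorem mem_chartB_of_isIntegral {R F : Type*} [CommRing R] [Field F] [Algebra R F] (j x : F)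
    (h : IsIntegral ↥(H40.chartB R j) x) : x ∈ H40.chartB R j :=
  (S34.H3.isIntegral_chartB_iff (R := R) (F0 := F) (L := F) j x).mp h

section Inst

variable (M : ℕ) [NeZero M] {ℓ : ℕ} [hℓ : Fact ℓ.Prime] (hℓM : ¬ ℓ ∣ M)
  (A : ValuationSubring Qbar) (hA : A.LiesOverPrime ℓ)

local notation "kA" => IsLocalRing.ResidueField A
local notation "A₁" => H45.A0 A ℓ
local notation "L₁" => H45.unrCyclo ℓ
local notation "FM" => modularFunctionFieldFullC (H45.unrCyclo ℓ) M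
local notation "FN" => modularFunctionFieldFullC (H45.unrCyclo ℓ) (ℓ * M)
local notation "FkM" => modularFunctionFieldFullC (IsLocalRing.ResidueField A) M

/-- `ψ₀ = 1/j` in the level-`M` chart 2. -/
def psi0 : ↥(H40.chartB A₁ (S18.H16.jK L₁ M)⁻¹) :=
  ⟨(S18.H16.jK L₁ M)⁻¹, H40.self_mem_chartB _⟩

/-- `u = ι ψ₀ = 1/j` in the level-`ℓ M` chart 2. -/
abbrev uB : ↥(H40.chartB A₁ (JN M (ℓ := ℓ))⁻¹) :=
  chartMap (iotaMN M (ℓ := ℓ)) (iotaMN_algebraMap M A) (hιint2 M A) (psi0 M A)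

/-- `v = V ψ₀ = 1/j_ℓ` in the level-`ℓ M` chart 2. -/
abbrev vB : ↥(H40.chartB A₁ (JN M (ℓ := ℓ))⁻¹) :=
  chartMap (VMN M (ℓ := ℓ)) (VMN_algebraMap M A) (hVint2 M A) (psi0 M A)

theorem coe_uB : ((uB M A : ↥(H40.chartB A₁ (JN M (ℓ := ℓ))⁻¹)) : FN) =
    (S18.H16.jK L₁ (ℓ * M))⁻¹ := by
  rw [coe_chartMap]
  show iotaMN M (ℓ := ℓ) (S18.H16.jK L₁ M)⁻¹ = _
  rw [map_inv₀]
  rfl

theorem coe_vB : ((vB M A : ↥(H40.chartB A₁ (JN M (ℓ := ℓ))⁻¹)) : FN) =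
    (S18.H99.jdK L₁ (ℓ * M) ℓ (Dvd.intro M rfl))⁻¹ := by
  rw [coe_chartMap]
  show VMN M (ℓ := ℓ) (S18.H16.jK L₁ M)⁻¹ = _
  rw [map_inv₀]
  rfl

/-- `J⁻¹ = u * v` in chart 2. -/
theorem coordInv_eq_mul :
    (⟨(JN M (ℓ := ℓ))⁻¹, H40.self_mem_chartB _⟩ : ↥(H40.chartB A₁ (JN M (ℓ := ℓ))⁻¹)) =
      uB M A * vB M A := by
  apply Subtype.ext
  show (JN M (ℓ := ℓ))⁻¹ = ((uB M A : ↥(H40.chartB A₁ (JN M (ℓ := ℓ))⁻¹)) : FN) *
    ((vB M A : ↥(H40.chartB A₁ (JN M (ℓ := ℓ))⁻¹)) : FN)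
  rw [coe_uB, coe_vB, ← mul_inv]
  rfl

/-- the two Kronecker relations between `j` and `j_ℓ` in `F_N`, in `H19.PhiAt` form, with the
SAME symmetric remainder `r`. -/
theorem exists_phiAt_rel : ∃ r : ℕ → ℕ → ℤ,
    H19.PhiAt ℓ r (S18.H99.jdK L₁ (ℓ * M) ℓ (Dvd.intro M rfl)) (S18.H16.jK L₁ (ℓ * M)) = 0 ∧
    H19.PhiAt ℓ r (S18.H16.jK L₁ (ℓ * M)) (S18.H99.jdK L₁ (ℓ * M) ℓ (Dvd.intro M rfl)) = 0 := by
  obtain ⟨D, hD⟩ := S28.H16.hasModPoly ℓ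
  obtain ⟨r, -, hsh⟩ := exists_eval₂_modPoly_shape' ℓ D hD
  refine ⟨r, ?_, ?_⟩
  · have h1 := relFK L₁ (ℓ * M) ℓ D 1 ℓ (one_mul ℓ).symm (one_dvd _) (Dvd.intro M rfl)
    rw [hsh, evalF_X, S18.H99.jdK_one] at h1
    exact h1
  · have h1 := relFK_swap L₁ (ℓ * M) ℓ D hD 1 ℓ (one_mul ℓ).symm (one_dvd _) (Dvd.intro M rfl)
    rw [hsh, evalF_X, S18.H99.jdK_one] at h1
    exact h1

/-- **Step 0 at the real types**: `w = u^ℓ / v` and `w' = v^ℓ / u` lie in chart 2. -/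
theorem exists_w : ∃ w w' : ↥(H40.chartB A₁ (JN M (ℓ := ℓ))⁻¹),
    w * vB M A = uB M A ^ ℓ ∧ w' * uB M A = vB M A ^ ℓ := by
  obtain ⟨r, hA', hB'⟩ := exists_phiAt_rel M (ℓ := ℓ)
  have hj : S18.H16.jK L₁ (ℓ * M) ≠ 0 := S34.H99.jK_ne_zero L₁ (ℓ * M)
  have hjℓ : S18.H99.jdK L₁ (ℓ * M) ℓ (Dvd.intro M rfl) ≠ 0 :=
    S34.H99.jdK_ne_zero L₁ (ℓ * M) ℓ (Dvd.intro M rfl)
  have hu : ((uB M A : ↥(H40.chartB A₁ (JN M (ℓ := ℓ))⁻¹)) : FN) ≠ 0 := by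
    rw [coe_uB]; exact inv_ne_zero hj
  have hv : ((vB M A : ↥(H40.chartB A₁ (JN M (ℓ := ℓ))⁻¹)) : FN) ≠ 0 := by
    rw [coe_vB]; exact inv_ne_zero hjℓ
  obtain ⟨w, hw⟩ := exists_mul_eq_pow_of_phiAt (H40.chartB A₁ (JN M (ℓ := ℓ))⁻¹)
    (mem_chartB_of_isIntegral _) hℓ.out.one_le r hu hv
    (by rw [coe_uB, coe_vB, inv_inv, inv_inv]; exact hB')
  obtain ⟨w', hw'⟩ := exists_mul_eq_pow_of_phiAt (H40.chartB A₁ (JN M (ℓ := ℓ))⁻¹)
    (mem_chartB_of_isIntegral _) hℓ.out.one_le r hv hu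
    (by rw [coe_uB, coe_vB, inv_inv, inv_inv]; exact hA')
  exact ⟨w, w', hw, hw'⟩

/-- `rbar ψ₀ = 1/j̄`. -/
theorem coe_rbar_psi0 :
    ((rbarB (Mod M hℓM A hA) (hc2 M hℓM A hA) (hcw2 M hℓM A hA) (psi0 M A) :
      ↥(integralClosure (Algebra.adjoin kA {(S18.H16.jK kA M)⁻¹}) FkM)) : FkM) =
      (S18.H16.jK kA M)⁻¹ := by
  rw [coe_rbarB]
  exact hcw2 M hℓM A hA

theorem rbar_psi0_ne_zero :
    rbarB (Mod M hℓM A hA) (hc2 M hℓM A hA) (hcw2 M hℓM A hA) (psi0 M A) ≠ 0 := by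
  intro h
  have h1 := coe_rbar_psi0 M hℓM A hA
  rw [h] at h1
  exact inv_ne_zero (S34.H99.jK_kA_ne_zero M A) h1.symm

theorem W_rbar_psi0 :
    WR (FrM M A hA) ℓ (hFrx_inv M A hA)
        (rbarB (Mod M hℓM A hA) (hc2 M hℓM A hA) (hcw2 M hℓM A hA) (psi0 M A)) =
      rbarB (Mod M hℓM A hA) (hc2 M hℓM A hA) (hcw2 M hℓM A hA) (psi0 M A) ^ ℓ := by
  apply Subtype.ext
  have h1 := coe_rbar_psi0 M hℓM A hA
  show FrM M A hA ((rbarB (Mod M hℓM A hA) (hc2 M hℓM A hA) (hcw2 M hℓM A hA) (psi0 M A) :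
      ↥(integralClosure (Algebra.adjoin kA {(S18.H16.jK kA M)⁻¹}) FkM)) : FkM) =
    ((rbarB (Mod M hℓM A hA) (hc2 M hℓM A hA) (hcw2 M hℓM A hA) (psi0 M A) :
      ↥(integralClosure (Algebra.adjoin kA {(S18.H16.jK kA M)⁻¹}) FkM)) : FkM) ^ ℓ
  rw [h1]
  exact hFrx_inv M A hA

variable {B'' : Type*} [CommRing B'']

/-- **(M2-cusp), real types.**  `g : B₂ →+* B''` any ring hom out of the `A₁`-level chart 2
(`g = id`, or `g = H95.chartBC_JK_inv` for the `E`-level package of `S35.H70`), `TC` any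
`TwoComponents` structure on `B''` in the landed vocabulary.  No proper ideal `n` of `B''`
containing both kernels contains `g (1/j)` or `g (1/j_ℓ)`. -/
theorem not_mem_of_crossing (g : ↥(H40.chartB A₁ (JN M (ℓ := ℓ))⁻¹) →+* B'')
    {red₁ red₂ : B'' →+* ↥(integralClosure (Algebra.adjoin kA {(S18.H16.jK kA M)⁻¹}) FkM)}
    {qB : B''}
    (TC : H83.TwoComponents red₁ red₂
      (g.comp (chartMap (iotaMN M (ℓ := ℓ)) (iotaMN_algebraMap M A) (hιint2 M A)))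
      (g.comp (chartMap (VMN M (ℓ := ℓ)) (VMN_algebraMap M A) (hVint2 M A)))
      (rbarB (Mod M hℓM A hA) (hc2 M hℓM A hA) (hcw2 M hℓM A hA))
      (WR (FrM M A hA) ℓ (hFrx_inv M A hA)) ℓ qB)
    {n : Ideal B''} (hn : n ≠ ⊤) (hk1 : RingHom.ker red₁ ≤ n) (hk2 : RingHom.ker red₂ ≤ n) :
    g (uB M A) ∉ n ∧ g (vB M A) ∉ n := by
  obtain ⟨w, w', hw, hw'⟩ := exists_w M (ℓ := ℓ) A
  exact coord_not_mem_of_ker_le TC hℓ.out.two_le (psi0 M A) (W_rbar_psi0 M hℓM A hA)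
    (rbar_psi0_ne_zero M hℓM A hA) (w := g w) (w' := g w')
    (by
      show g w * g (vB M A) = g (uB M A) ^ ℓ
      rw [← map_mul, hw, map_pow])
    (by
      show g w' * g (uB M A) = g (vB M A) ^ ℓ
      rw [← map_mul, hw', map_pow])
    hn hk1 hk2

/-- **(M2-cusp), real types, prime form**: `g J⁻¹ ∉ n` for every prime `n ⊇ ker red₁ + ker red₂`:
no crossing point lies on the divisor at infinity of chart 2. -/
theorem coordInv_not_mem_of_crossing (g : ↥(H40.chartB A₁ (JN M (ℓ := ℓ))⁻¹) →+* B'')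
    {red₁ red₂ : B'' →+* ↥(integralClosure (Algebra.adjoin kA {(S18.H16.jK kA M)⁻¹}) FkM)}
    {qB : B''}
    (TC : H83.TwoComponents red₁ red₂
      (g.comp (chartMap (iotaMN M (ℓ := ℓ)) (iotaMN_algebraMap M A) (hιint2 M A)))
      (g.comp (chartMap (VMN M (ℓ := ℓ)) (VMN_algebraMap M A) (hVint2 M A)))
      (rbarB (Mod M hℓM A hA) (hc2 M hℓM A hA) (hcw2 M hℓM A hA))
      (WR (FrM M A hA) ℓ (hFrx_inv M A hA)) ℓ qB)
    {n : Ideal B''} [hn : n.IsPrime] (hk1 : RingHom.ker red₁ ≤ n) (hk2 : RingHom.ker red₂ ≤ n) :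
    g ⟨(JN M (ℓ := ℓ))⁻¹, H40.self_mem_chartB _⟩ ∉ n := by
  obtain ⟨hu, hv⟩ := not_mem_of_crossing M hℓM A hA g TC hn.ne_top hk1 hk2
  rw [coordInv_eq_mul M A, map_mul]
  intro hmem
  rcases hn.mem_or_mem hmem with h1 | h1
  · exact hu h1
  · exact hv h1

/-- **(M2-cusp) at the `A₁`-level** (`S34.H55.twoComponents_JK_inv` vocabulary verbatim). -/
theorem coordInv_not_mem_of_crossing_A0
    {red₁ red₂ : ↥(H40.chartB A₁ (JN M (ℓ := ℓ))⁻¹) →+*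
      ↥(integralClosure (Algebra.adjoin kA {(S18.H16.jK kA M)⁻¹}) FkM)}
    {qB : ↥(H40.chartB A₁ (JN M (ℓ := ℓ))⁻¹)}
    (TC : H83.TwoComponents red₁ red₂
      (chartMap (iotaMN M (ℓ := ℓ)) (iotaMN_algebraMap M A) (hιint2 M A))
      (chartMap (VMN M (ℓ := ℓ)) (VMN_algebraMap M A) (hVint2 M A))
      (rbarB (Mod M hℓM A hA) (hc2 M hℓM A hA) (hcw2 M hℓM A hA))
      (WR (FrM M A hA) ℓ (hFrx_inv M A hA)) ℓ qB)
    {n : Ideal ↥(H40.chartB A₁ (JN M (ℓ := ℓ))⁻¹)} [hn : n.IsPrime]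
    (hk1 : RingHom.ker red₁ ≤ n) (hk2 : RingHom.ker red₂ ≤ n) :
    (⟨(JN M (ℓ := ℓ))⁻¹, H40.self_mem_chartB _⟩ : ↥(H40.chartB A₁ (JN M (ℓ := ℓ))⁻¹)) ∉ n ∧
      uB M A ∉ n ∧ vB M A ∉ n := by
  have TC' : H83.TwoComponents red₁ red₂
      ((RingHom.id _).comp (chartMap (iotaMN M (ℓ := ℓ)) (iotaMN_algebraMap M A) (hιint2 M A)))
      ((RingHom.id _).comp (chartMap (VMN M (ℓ := ℓ)) (VMN_algebraMap M A) (hVint2 M A)))
      (rbarB (Mod M hℓM A hA) (hc2 M hℓM A hA) (hcw2 M hℓM A hA))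
      (WR (FrM M A hA) ℓ (hFrx_inv M A hA)) ℓ qB := by
    rw [RingHom.id_comp, RingHom.id_comp]
    exact TC
  obtain ⟨hu, hv⟩ := not_mem_of_crossing M hℓM A hA (RingHom.id _) TC' hn.ne_top hk1 hk2
  exact ⟨coordInv_not_mem_of_crossing M hℓM A hA (RingHom.id _) TC' hk1 hk2, hu, hv⟩

set_option maxHeartbeats 3200000 in
/-- **(M2-cusp) at the `E`-level** (`S35.H70.exists_twoComponentsE_JK_inv` vocabulary verbatim:
`A'' = cutOver A E`, chart 2 `= chartB A'' (H95.JK ↥E (ℓ * M) ℓ _)⁻¹`, degeneracy maps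
`chartBC_JK_inv ∘ ι`, `chartBC_JK_inv ∘ V`): the chart coordinate `J_E⁻¹` lies in no prime containing
both vertical kernels, and neither do the images of `1/j`, `1/j_ℓ`. -/
theorem coordInv_not_mem_of_crossing_E (E : IntermediateField L₁ Qbar)
    {red₁ red₂ : ↥(H40.chartB ↥(H45.cutOver A E)
        (S34.H95.JK ↥E (ℓ * M) ℓ (Dvd.intro M rfl))⁻¹) →+*
      ↥(integralClosure (Algebra.adjoin kA {(S18.H16.jK kA M)⁻¹}) FkM)}
    {qB : ↥(H40.chartB ↥(H45.cutOver A E) (S34.H95.JK ↥E (ℓ * M) ℓ (Dvd.intro M rfl))⁻¹)}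
    (TC : H83.TwoComponents red₁ red₂
      ((S34.H95.chartBC_JK_inv (A := A) E (ℓ * M) ℓ (Dvd.intro M rfl)).comp
        (chartMap (iotaMN M (ℓ := ℓ)) (iotaMN_algebraMap M A) (hιint2 M A)))
      ((S34.H95.chartBC_JK_inv (A := A) E (ℓ * M) ℓ (Dvd.intro M rfl)).comp
        (chartMap (VMN M (ℓ := ℓ)) (VMN_algebraMap M A) (hVint2 M A)))
      (rbarB (Mod M hℓM A hA) (hc2 M hℓM A hA) (hcw2 M hℓM A hA))
      (WR (FrM M A hA) ℓ (hFrx_inv M A hA)) ℓ qB)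
    {n : Ideal ↥(H40.chartB ↥(H45.cutOver A E) (S34.H95.JK ↥E (ℓ * M) ℓ (Dvd.intro M rfl))⁻¹)}
    [hn : n.IsPrime] (hk1 : RingHom.ker red₁ ≤ n) (hk2 : RingHom.ker red₂ ≤ n) :
    (⟨(S34.H95.JK ↥E (ℓ * M) ℓ (Dvd.intro M rfl))⁻¹, H40.self_mem_chartB _⟩ :
      ↥(H40.chartB ↥(H45.cutOver A E) (S34.H95.JK ↥E (ℓ * M) ℓ (Dvd.intro M rfl))⁻¹)) ∉ n ∧
    S34.H95.chartBC_JK_inv (A := A) E (ℓ * M) ℓ (Dvd.intro M rfl) (uB M A) ∉ n ∧
    S34.H95.chartBC_JK_inv (A := A) E (ℓ * M) ℓ (Dvd.intro M rfl) (vB M A) ∉ n := by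
  have hcoord : (⟨(S34.H95.JK ↥E (ℓ * M) ℓ (Dvd.intro M rfl))⁻¹, H40.self_mem_chartB _⟩ :
      ↥(H40.chartB ↥(H45.cutOver A E) (S34.H95.JK ↥E (ℓ * M) ℓ (Dvd.intro M rfl))⁻¹)) =
      S34.H95.chartBC_JK_inv (A := A) E (ℓ * M) ℓ (Dvd.intro M rfl)
        ⟨(JN M (ℓ := ℓ))⁻¹, H40.self_mem_chartB _⟩ :=
    Subtype.ext (S34.H95.baseChangeE_JK_inv E (ℓ * M) ℓ (Dvd.intro M rfl)).symm
  obtain ⟨hu, hv⟩ := not_mem_of_crossing M hℓM A hA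
    (S34.H95.chartBC_JK_inv (A := A) E (ℓ * M) ℓ (Dvd.intro M rfl)) TC hn.ne_top hk1 hk2
  refine ⟨?_, hu, hv⟩
  rw [hcoord]
  exact coordInv_not_mem_of_crossing M hℓM A hA
    (S34.H95.chartBC_JK_inv (A := A) E (ℓ * M) ℓ (Dvd.intro M rfl)) TC hk1 hk2

end Inst

end Fermat.Agent.S36.H25
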