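import Mathlib
import Fermat.Agent.S36.H25_ModPolyShape
import Fermat.Agent.S36.H19_MidCuspPoly
import Fermat.Agent.S34.H16_RelSwap

/-!
# (M4r2)(I-rel): the Kronecker relations in `H19.PhiAt` form at the real types (helper25; S36)

`q` prime.  For every field `K`, level `N` and `d` with `d * q ∣ N`, in `F = FullC K N`:

  `PhiAt q r j_(dq) j_d = 0`  and  `PhiAt q r j_d j_(dq) = 0`   (`j_d = j(t^d) = S18.H99.jdK K N d _`),

* `phiAt_rel` : for a GIVEN `r` satisfying the conclusion of `S36.H25.exists_eval₂_modPoly_shape'`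
  at `F = FullC K N` (so the `r` of the `(S)` call and the `r` of the relations agree);
* `exists_phiAt_rel_all` : ONE symmetric `r` for all `K`, `N`, `d`.
-/

set_option autoImplicit false
set_option linter.unusedSectionVars false

namespace Fermat.Agent.S36.H25

open ModularCurve Polynomial Fermat.Agent.S28 Fermat.Agent.S18 Fermat.Agent.S34.H16

section Rel

variable (q : ℕ) [hq : Fact q.Prime] [NeZero q] (D : ModularPolynomialData q)
  (hD : ∀ (k : Type) [Field k] (ζ : kˣ), IsPrimitiveRoot ζ q → RootsAt k q ζ D.Φ)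

/-- `PhiAt` unfolds to the explicit Kronecker shape (the RHS of
`exists_eval₂_modPoly_shape'`). -/
theorem phiAt_def {F : Type*} [CommRing F] (r : ℕ → ℕ → ℤ) (x y : F) :
    H19.PhiAt q r x y = (x - y ^ q) * (x ^ q - y) +
      (q : F) * ∑ a ∈ Finset.range (q + 1), ∑ b ∈ Finset.range (q + 1),
        (r a b : F) * x ^ a * y ^ b := rfl

include hD in
/-- `(S)` in `PhiAt` form. -/
theorem exists_eval₂_eq_phiAt :
    ∃ r : ℕ → ℕ → ℤ, (∀ a b, r a b = r b a) ∧
      ∀ {F : Type*} [CommRing F] (g : ℤ[X] →+* F) (x : F),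
        D.Φ.eval₂ g x = H19.PhiAt q r x (g X) :=
  exists_eval₂_modPoly_shape' q D hD

include hD in
/-- **(I-rel), `r` given.**  Both slot orders, every field, every level, every `d` with
`d * q ∣ N`. -/
theorem phiAt_rel (K : Type*) [Field K] (N : ℕ) [NeZero N] (r : ℕ → ℕ → ℤ)
    (hsh : ∀ (g : ℤ[X] →+* ↥(modularFunctionFieldFullC K N))
      (x : ↥(modularFunctionFieldFullC K N)), D.Φ.eval₂ g x = H19.PhiAt q r x (g X))
    (d : ℕ) [NeZero d] (n : ℕ) [NeZero n] (hn : n = d * q) (hd : d ∣ N) (hnN : n ∣ N) :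
    H19.PhiAt q r (H99.jdK K N n hnN) (H99.jdK K N d hd) = 0 ∧
      H19.PhiAt q r (H99.jdK K N d hd) (H99.jdK K N n hnN) = 0 := by
  refine ⟨?_, ?_⟩
  · have h1 := relFK K N q D d n hn hd hnN
    rw [hsh, evalF_X] at h1
    exact h1
  · have h1 := relFK_swap K N q D hD d n hn hd hnN
    rw [hsh, evalF_X] at h1
    exact h1

end Rel

/-- **(I-rel), one `r` for everything**: a symmetric `r : ℕ → ℕ → ℤ` such that
* `Φ_q(x; g X) = PhiAt q r x (g X)` for EVERY modular polynomial datum `D` of level `q` with the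
  `RootsAt` property, every ring hom `g : ℤ[X] →+* F` and `x : F`;
* `PhiAt q r j_(dq) j_d = 0 = PhiAt q r j_d j_(dq)` in every `FullC K N`, `d * q ∣ N`. -/
theorem exists_phiAt_rel_all (q : ℕ) [hq : Fact q.Prime] [NeZero q] :
    ∃ r : ℕ → ℕ → ℤ, (∀ a b, r a b = r b a) ∧
      (∀ (K : Type*) [Field K] (N : ℕ) [NeZero N] (d : ℕ) [NeZero d] (n : ℕ) [NeZero n]
        (_ : n = d * q) (hd : d ∣ N) (hnN : n ∣ N),
        H19.PhiAt q r (H99.jdK K N n hnN) (H99.jdK K N d hd) = 0 ∧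
          H19.PhiAt q r (H99.jdK K N d hd) (H99.jdK K N n hnN) = 0) := by
  obtain ⟨D, hD⟩ := S28.H16.hasModPoly q
  obtain ⟨r, hr, hsh⟩ := exists_eval₂_modPoly_shape' q D hD
  exact ⟨r, hr, fun K _ N _ d _ n _ hn hd hnN =>
    phiAt_rel q D hD K N r (fun g x => hsh g x) d n hn hd hnN⟩

/-- the special case `d = 1`: the pair `(j, j_q)`. -/
theorem exists_phiAt_rel_one (q : ℕ) [hq : Fact q.Prime] [NeZero q] :
    ∃ r : ℕ → ℕ → ℤ, (∀ a b, r a b = r b a) ∧
      (∀ (K : Type*) [Field K] (N : ℕ) [NeZero N] (hqN : q ∣ N),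
        H19.PhiAt q r (H99.jdK K N q hqN) (H16.jK K N) = 0 ∧
          H19.PhiAt q r (H16.jK K N) (H99.jdK K N q hqN) = 0) := by
  obtain ⟨r, hr, h⟩ := exists_phiAt_rel_all q
  refine ⟨r, hr, fun K _ N _ hqN => ?_⟩
  have h1 := h K N 1 q (one_mul q).symm (one_dvd N) hqN
  rwa [H99.jdK_one] at h1

end Fermat.Agent.S36.H25
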