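/-
helper97: S36, row (M4r2) MIDDLE CUSPS, the BRIDGE.

At a closed point `n` of the chart `B` of level `q² L` lying on the middle component `C₂` and on
the cuspidal divisor, `θ ^ (q - 1) / q` is a unit of `B_n` for `θ := ` the numerator of
`u⁻¹ / w⁻¹ - 1`: this is the hypothesis `hE` of `S36.H83.ThreeComponents.localGen_middle`.

Input: helper19's polynomial core `S36.H19` (the rescaled modular equation `Psi`), the relations
`Φ_q(1/s; 1/vt) = 0 = Φ_q(1/s'; 1/vt)` in the fraction field, and `(HE)`: `E := s ^ q / vt` lies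
in `B` and `E - 1 ∈ q B_n` (this is where the level `q L` model enters).
-/
import Mathlib
import Fermat.Agent.S36.H19_MidCuspPoly

set_option autoImplicit false

noncomputable section

namespace Fermat.Agent.S36.H97

open Polynomial Finset Fermat.Agent.S36.H19

section Map

variable {A A' : Type*} [CommRing A] [CommRing A']

theorem map_Rt (g : A →+* A') (q : ℕ) (r : ℕ → ℕ → ℤ) (s E : A) :
    (Rt q r s E).map g = Rt q r (g s) (g E) := by
  simp only [Rt, Polynomial.map_sum, Polynomial.map_mul, Polynomial.map_pow, Polynomial.map_C,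
    Polynomial.map_X, map_mul, map_pow, map_intCast, Polynomial.map_intCast]

theorem map_Psi (g : A →+* A') (q : ℕ) (r : ℕ → ℕ → ℤ) (s E : A) :
    (Psi q r s E).map g = Psi q r (g s) (g E) := by
  simp only [Psi, Polynomial.map_add, Polynomial.map_mul, Polynomial.map_sub, Polynomial.map_one,
    Polynomial.map_pow, Polynomial.map_C, Polynomial.map_X, map_Rt, map_pow, map_natCast,
    Polynomial.map_natCast]

end Map

section StepZero

variable {B K : Type*} [CommRing B] [IsDomain B] [IsIntegrallyClosed B]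
  [Field K] [Algebra B K] [IsFractionRing B K]

/-- **Step 0.**  `E = v / w ^ q = s ^ q / vt` lies in the integrally closed `B`: it is a root of
the monic `Psi0`. -/
theorem exists_mul_eq_pow (q : ℕ) (hq : 1 ≤ q) (r : ℕ → ℕ → ℤ) (s vt : B) (hs : s ≠ 0)
    (hvt : vt ≠ 0)
    (hΦ : PhiAt q r (algebraMap B K s)⁻¹ (algebraMap B K vt)⁻¹ = 0) :
    ∃ E : B, E * vt = s ^ q := by
  have hinj : Function.Injective (algebraMap B K) := IsFractionRing.injective B K
  have hsK : algebraMap B K s ≠ 0 := fun h => hs (hinj (by rw [h, map_zero]))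
  have hvtK : algebraMap B K vt ≠ 0 := fun h => hvt (hinj (by rw [h, map_zero]))
  have hev : (Psi0 q r s).eval₂ (algebraMap B K)
      ((algebraMap B K vt)⁻¹ * algebraMap B K s ^ q) = 0 := by
    rw [eval₂_Psi0 q hq r s (algebraMap B K) (algebraMap B K s)⁻¹ (algebraMap B K vt)⁻¹
      (inv_mul_cancel₀ hsK), hΦ, mul_zero]
  have hint : IsIntegral B ((algebraMap B K vt)⁻¹ * algebraMap B K s ^ q) :=
    ⟨Psi0 q r s, Psi0_monic q hq r s, hev⟩
  obtain ⟨E, hE⟩ := IsIntegrallyClosed.algebraMap_eq_of_integral hint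
  refine ⟨E, hinj ?_⟩
  rw [map_mul, hE, map_pow]
  field_simp

end StepZero

section LevelQ

variable {B₁ D₁ B D : Type*} [CommRing B₁] [CommRing D₁] [IsDomain D₁] [CommRing B]
  [CommRing D] [IsDomain D]

/-- **`(HE)` from the level-`qL` model.**  `red_c red_o : B₁ → D₁` the two components of the
special fibre of the level-`qL` chart (`ker red_c ∩ ker red_o = (q)`), `s₁ = 1/w`, `v₁ = 1/v`
with `v = w ^ q` on the component `c` and `w = v ^ q` on the component `o`, and the two ratios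
`E₁ = v / w ^ q`, `E₁' = w / v ^ q` in `B₁`.  Then, at a cusp `n` of the middle component of the
level-`q² L` chart `B`, `E - 1 ∈ q B_n`. -/
theorem exists_HE (red_c red_o : B₁ →+* D₁) (q : ℕ) (hq : 2 ≤ q)
    (hinf : ∀ z : B₁, red_c z = 0 → red_o z = 0 → z ∈ Ideal.span {(q : B₁)})
    (s₁ v₁ E₁ E₁' : B₁) (hE₁ : E₁ * v₁ = s₁ ^ q) (hE₁' : E₁' * s₁ = v₁ ^ q)
    (hcv : red_c v₁ = red_c s₁ ^ q) (hcs : red_c s₁ ≠ 0)
    (hos : red_o s₁ = red_o v₁ ^ q) (hov : red_o v₁ ≠ 0)
    (g : B₁ →+* B) (red₂ : B →+* D) (n : Ideal B) [hn : n.IsMaximal]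
    (hker : RingHom.ker red₂ ≤ n) (hs : g s₁ ∈ n)
    (h2v : red₂ (g v₁) = red₂ (g s₁) ^ q) (h2s : red₂ (g s₁) ≠ 0) :
    ∃ E ε σ : B, σ ∉ n ∧ E * g v₁ = g s₁ ^ q ∧ σ * (E - 1) = (q : B) * ε := by
  have hnp : n.IsPrime := hn.isPrime
  -- `red_c E₁ = 1`
  have hcE : red_c (E₁ - 1) = 0 := by
    have h := congrArg red_c hE₁
    rw [map_mul, map_pow, hcv] at h
    have h' : (red_c E₁ - 1) * red_c s₁ ^ q = 0 := by rw [sub_mul, h, one_mul, sub_self]
    rw [map_sub, map_one]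
    exact (mul_eq_zero.1 h').resolve_right (pow_ne_zero _ hcs)
  -- `red_o E₁' = 1`
  have hoE : red_o (1 - E₁') = 0 := by
    have h := congrArg red_o hE₁'
    rw [map_mul, map_pow, hos] at h
    have h' : (1 - red_o E₁') * red_o v₁ ^ q = 0 := by rw [sub_mul, h, one_mul, sub_self]
    rw [map_sub, map_one]
    exact (mul_eq_zero.1 h').resolve_right (pow_ne_zero _ hov)
  have hmem : (1 - E₁') * (E₁ - 1) ∈ Ideal.span {(q : B₁)} :=
    hinf _ (by rw [map_mul, hcE, mul_zero]) (by rw [map_mul, hoE, zero_mul])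
  obtain ⟨ε₁, hε₁⟩ := Ideal.mem_span_singleton'.1 hmem
  refine ⟨g E₁, g ε₁, g (1 - E₁'), ?_, ?_, ?_⟩
  · -- `g E₁' ∈ n`
    have h := congrArg (fun z => red₂ (g z)) hE₁'
    simp only [map_mul, map_pow] at h
    rw [h2v, ← pow_mul] at h
    have hqq : q * q = (q * q - 1) + 1 := by
      have : 1 ≤ q * q := Nat.one_le_iff_ne_zero.2 (by positivity)
      omega
    have h' : (red₂ (g E₁') - red₂ (g s₁) ^ (q * q - 1)) * red₂ (g s₁) = 0 := by
      rw [sub_mul, h, ← pow_succ, ← hqq, sub_self]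
    have h'' : red₂ (g E₁' - g s₁ ^ (q * q - 1)) = 0 := by
      rw [map_sub, map_pow]
      exact (mul_eq_zero.1 h').resolve_right h2s
    have h3 : g E₁' - g s₁ ^ (q * q - 1) ∈ n := hker ((RingHom.mem_ker).2 h'')
    have h4 : g s₁ ^ (q * q - 1) ∈ n := by
      have : q * q - 1 ≠ 0 := by
        have : 4 ≤ q * q := Nat.mul_le_mul hq hq
        omega
      exact Ideal.pow_mem_of_mem n hs _ (Nat.pos_of_ne_zero this)
    have h5 : g E₁' ∈ n := by simpa using add_mem h3 h4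
    intro h6
    rw [map_sub, map_one] at h6
    exact hn.ne_top ((Ideal.eq_top_iff_one n).2 (by simpa using add_mem h6 h5))
  · rw [← map_mul, hE₁, map_pow]
  · rw [← map_one g, ← map_sub, ← map_mul, ← hε₁, map_mul, map_natCast, mul_comm]

end LevelQ

section Main

variable {B D K : Type*} [CommRing B] [IsDomain B] [IsIntegrallyClosed B]
  [Field K] [Algebra B K] [IsFractionRing B K] [CommRing D] [IsDomain D]

/-- **The middle cusps, one-ring form.**  `B` an integrally closed domain with fraction field `K`,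
`red₂ : B → D` the reduction to the middle component, `n ⊇ ker red₂` a maximal ideal containing
`q`; `s = 1/w`, `s' = 1/u`, `vt = 1/v` in `B` with `red₂ s' = red₂ s ≠ 0`, `s ∈ n` (a cusp),
`s' ≠ s`; the two modular relations `Φ_q(w; v) = 0 = Φ_q(u; v)` in Kronecker form; and `(HE)`:
`E = v / w ^ q ∈ B` with `E - 1 ∈ q B_n`.  Then there is `θ ∈ ker red₂`, `θ ≠ 0`, with
`θ ^ (q - 1) / q` a unit at `n`: the hypothesis `hE` of `H83.ThreeComponents.localGen_middle`. -/
theorem exists_hE_of_midCusp (red₂ : B →+* D) (q : ℕ) [hqp : Fact q.Prime] (r : ℕ → ℕ → ℤ)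
    (n : Ideal B) [hn : n.IsMaximal] (hker : RingHom.ker red₂ ≤ n)
    (hqn : (q : B) ∈ n) (hq0 : (q : B) ≠ 0)
    (s s' vt : B) (hs : s ∈ n) (hred : red₂ s' = red₂ s) (hx : red₂ s ≠ 0) (hne : s' ≠ s)
    (hvt : vt ≠ 0)
    (E ε σ : B) (hσ : σ ∉ n) (hEv : E * vt = s ^ q) (hε : σ * (E - 1) = (q : B) * ε)
    (hΦ : PhiAt q r (algebraMap B K s)⁻¹ (algebraMap B K vt)⁻¹ = 0)
    (hΦ' : PhiAt q r (algebraMap B K s')⁻¹ (algebraMap B K vt)⁻¹ = 0) :
    ∃ θ : B, red₂ θ = 0 ∧ θ ≠ 0 ∧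
      ∃ e t : B, e ∉ n ∧ t ∉ n ∧ t * θ ^ (q - 1) = e * (q : B) := by
  classical
  have hnp : n.IsPrime := hn.isPrime
  have hinj : Function.Injective (algebraMap B K) := IsFractionRing.injective B K
  have hs0 : s ≠ 0 := fun h => hx (by rw [h, map_zero])
  have hs'0 : s' ≠ 0 := fun h => hx (by rw [← hred, h, map_zero])
  have hsK : algebraMap B K s ≠ 0 := fun h => hs0 (hinj (by rw [h, map_zero]))
  have hs'K : algebraMap B K s' ≠ 0 := fun h => hs'0 (hinj (by rw [h, map_zero]))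
  have hvtK : algebraMap B K vt ≠ 0 := fun h => hvt (hinj (by rw [h, map_zero]))
  set f : B →+* K := algebraMap B K with hf
  set P : B[X] := Psi q r s E with hP
  -- the two relations, rescaled
  have h2 : (f vt)⁻¹ * f s ^ q = f E := by
    rw [← map_pow, ← hEv, map_mul]
    field_simp
  have hev1 : P.eval₂ f 1 = 0 := by
    rw [hP, eval₂_Psi q hqp.out.one_le r s E f (f s)⁻¹ (f vt)⁻¹ 1 (by field_simp) h2, hΦ, mul_zero]
  have hevρ : P.eval₂ f (f s' / f s) = 0 := by
    rw [hP, eval₂_Psi q hqp.out.one_le r s E f (f s')⁻¹ (f vt)⁻¹ (f s' / f s) (by field_simp) h2, hΦ', mul_zero]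
  have hP1 : P.eval 1 = 0 := by
    apply hinj
    rw [map_zero, ← hev1, Polynomial.eval₂_at_one]
  -- the leading coefficient is a unit at `n`
  obtain ⟨d, hd⟩ := coeff_Psi_top q hqp.out.one_le r s E
  have hE1 : E - 1 ∈ n := by
    have h : σ * (E - 1) ∈ n := by
      rw [hε]
      exact Ideal.mul_mem_right _ _ hqn
    exact (hnp.mem_or_mem h).resolve_left hσ
  have hEn : E ∉ n := fun h =>
    hn.ne_top ((Ideal.eq_top_iff_one n).2 (by simpa using sub_mem h hE1))
  set lc : B := P.coeff (q + 1) with hlc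
  have hlcn : lc ∉ n := by
    intro h
    rw [hd] at h
    have h' : E ^ (q + 1) ∈ n := by
      have h3 := sub_mem h (n.mul_mem_right d (n.mul_mem_right s hqn))
      simpa using h3
    exact hEn (hnp.mem_of_pow_mem _ h')
  have hlc0 : lc ≠ 0 := fun h => hlcn (h ▸ n.zero_mem)
  have hdeg : P.natDegree = q + 1 :=
    le_antisymm (natDegree_Psi_le q r s E) (le_natDegree_of_ne_zero hlc0)
  have hlead : P.leadingCoeff = lc := by rw [leadingCoeff, hdeg]
  -- integrality of `ρ = s' / s`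
  have hint : IsIntegral B (lc • (f s' / f s)) := by
    rw [← hlead]
    exact isIntegral_leadingCoeff_smul (p := P) (x := f s' / f s) (by rw [aeval_def]; exact hevρ)
  obtain ⟨b, hb⟩ := IsIntegrallyClosed.algebraMap_eq_of_integral hint
  have hb' : f b = f lc * (f s' / f s) := by
    rw [← Algebra.smul_def]
    exact hb
  have hbK : f b * f s = f lc * f s' := by
    rw [hb']
    field_simp
  have hbs : b * s = lc * s' := by
    apply hinj
    rw [map_mul, map_mul]
    exact hbK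
  set θ : B := b - lc with hθ
  have hθs : θ * s = lc * (s' - s) := by
    rw [hθ, sub_mul, hbs]
    ring
  have hθred : red₂ θ = 0 := by
    have h : red₂ θ * red₂ s = 0 := by
      rw [← map_mul, hθs, map_mul, map_sub, hred, sub_self, mul_zero]
    exact (mul_eq_zero.1 h).resolve_right hx
  have hθ0 : θ ≠ 0 := by
    intro h
    rw [h, zero_mul] at hθs
    rcases mul_eq_zero.1 hθs.symm with h' | h'
    · exact hlc0 h'
    · exact hne (sub_eq_zero.1 h')
  have hθn : θ ∈ n := hker ((RingHom.mem_ker).2 hθred)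
  refine ⟨θ, hθred, hθ0, ?_⟩
  -- the local ring
  let O := Localization.AtPrime n
  have hle : n.primeCompl ≤ nonZeroDivisors B := Ideal.primeCompl_le_nonZeroDivisors n
  have hOdom : IsDomain O := IsLocalization.isDomain_localization hle
  have hainj : Function.Injective (algebraMap B O) := IsLocalization.injective O hle
  set a : B →+* O := algebraMap B O with ha
  have hunit : ∀ y : n.primeCompl, IsUnit (f y) := fun y =>
    IsUnit.mk0 _ (fun h => y.2 (by
      have : (y : B) = 0 := hinj (by rw [h, map_zero])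
      rw [this]
      exact n.zero_mem))
  let φ : O →+* K := IsLocalization.lift (M := n.primeCompl) (S := O) hunit
  have hφa : ∀ x : B, φ (a x) = f x := fun x => IsLocalization.lift_eq hunit x
  have hφinj : Function.Injective φ := by
    rw [IsLocalization.lift_injective_iff]
    intro x y
    exact ⟨fun h => by rw [hainj h], fun h => by rw [hinj h]⟩
  have hφcomp : φ.comp a = f := RingHom.ext hφa
  -- the data in `O`
  set ρ : O := IsLocalization.mk' O b (⟨lc, hlcn⟩ : n.primeCompl) with hρ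
  set εO : O := IsLocalization.mk' O ε (⟨σ, hσ⟩ : n.primeCompl) with hεO
  have hρlc : ρ * a lc = a b := IsLocalization.mk'_spec O b (⟨lc, hlcn⟩ : n.primeCompl)
  have hεσ : εO * a σ = a ε := IsLocalization.mk'_spec O ε (⟨σ, hσ⟩ : n.primeCompl)
  have hlcu : IsUnit (a lc) := (IsLocalization.AtPrime.isUnit_to_map_iff O n lc).2 hlcn
  have hσu : IsUnit (a σ) := (IsLocalization.AtPrime.isUnit_to_map_iff O n σ).2 hσ
  have hq0O : ((q : ℕ) : O) ≠ 0 := by
    intro h
    apply hq0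
    apply hainj
    rw [map_natCast, map_zero]
    exact h
  have hqmO : ((q : ℕ) : O) ∈ IsLocalRing.maximalIdeal O := by
    have := (IsLocalization.AtPrime.to_map_mem_maximal_iff O n (q : B)).2 hqn
    rwa [map_natCast] at this
  have hsO : a s ∈ IsLocalRing.maximalIdeal O :=
    (IsLocalization.AtPrime.to_map_mem_maximal_iff O n s).2 hs
  have hEO : a E = 1 + ((q : ℕ) : O) * εO := by
    have h := congrArg a hε
    rw [map_mul, map_mul, map_sub, map_one, map_natCast] at h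
    have h3 : a σ * (a E - (1 + ((q : ℕ) : O) * εO)) = 0 := by
      have : a σ * (a E - (1 + ((q : ℕ) : O) * εO)) =
          a σ * (a E - 1) - ((q : ℕ) : O) * (εO * a σ) := by ring
      rw [this, h, hεσ, sub_self]
    rcases mul_eq_zero.1 h3 with h' | h'
    · exact absurd h' hσu.ne_zero
    · exact sub_eq_zero.1 h'
  have hρ1lc : (ρ - 1) * a lc = a θ := by
    rw [sub_mul, hρlc, one_mul, hθ, map_sub]
  have hρm : ρ - 1 ∈ IsLocalRing.maximalIdeal O := by
    have h : (ρ - 1) * a lc ∈ IsLocalRing.maximalIdeal O := by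
      rw [hρ1lc]
      exact (IsLocalization.AtPrime.to_map_mem_maximal_iff O n θ).2 hθn
    rcases (IsLocalRing.maximalIdeal.isMaximal O).isPrime.mem_or_mem h with h' | h'
    · exact h'
    · exact absurd hlcu ((IsLocalRing.mem_maximalIdeal _).1 h')
  have hρne : ρ ≠ 1 := by
    intro h
    rw [h, sub_self, zero_mul] at hρ1lc
    exact hθ0 (hainj (by rw [← hρ1lc, map_zero]))
  have hφρ : φ ρ = f s' / f s := by
    have h := congrArg φ hρlc
    rw [map_mul, hφa, hφa] at h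
    have hlcK : f lc ≠ 0 := fun h' => hlc0 (hinj (by rw [h', map_zero]))
    rw [eq_div_iff hsK]
    have : φ ρ * f s * f lc = f lc * f s' * 1 := by
      rw [mul_right_comm, h, hbK, mul_one]
    have h5 : f lc * (φ ρ * f s) = f lc * f s' := by
      rw [mul_comm, this, mul_one]
    exact mul_left_cancel₀ hlcK h5
  have hPO : Psi q r (a s) (a E) = P.map a := (map_Psi a q r s E).symm
  have h1O : (Psi q r (a s) (a E)).eval 1 = 0 := by
    rw [hPO, Polynomial.eval_one_map, hP1, map_zero]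
  have hρO : (Psi q r (a s) (a E)).eval ρ = 0 := by
    apply hφinj
    rw [map_zero, hPO, Polynomial.eval_map, Polynomial.hom_eval₂, hφcomp, hφρ]
    exact hevρ
  obtain ⟨U₁, U₂, hU₁, hU₂, hU⟩ :=
    unit_relation q r (a s) (a E) εO hq0O hqmO hsO hEO ρ hρm hρne h1O hρO
  -- clearing denominators
  obtain ⟨a₁, t₁, h₁⟩ := IsLocalization.exists_mk'_eq n.primeCompl U₁
  obtain ⟨a₂, t₂, h₂⟩ := IsLocalization.exists_mk'_eq n.primeCompl U₂
  have ha₁ : a₁ ∉ n := by
    rw [← h₁] at hU₁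
    exact (IsLocalization.AtPrime.isUnit_mk'_iff O n a₁ t₁).1 hU₁
  have ha₂ : a₂ ∉ n := by
    rw [← h₂] at hU₂
    exact (IsLocalization.AtPrime.isUnit_mk'_iff O n a₂ t₂).1 hU₂
  have hU₁t : U₁ * a t₁ = a a₁ := by rw [← h₁]; exact IsLocalization.mk'_spec O a₁ t₁
  have hU₂t : U₂ * a t₂ = a a₂ := by rw [← h₂]; exact IsLocalization.mk'_spec O a₂ t₂
  refine ⟨a₂ * lc ^ (q - 1) * t₁, a₁ * t₂, ?_, ?_, ?_⟩
  · intro h
    rcases hnp.mem_or_mem h with h' | h'
    · rcases hnp.mem_or_mem h' with h'' | h''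
      · exact ha₂ h''
      · exact hlcn (hnp.mem_of_pow_mem _ h'')
    · exact t₁.2 h'
  · intro h
    rcases hnp.mem_or_mem h with h' | h'
    · exact ha₁ h'
    · exact t₂.2 h'
  · apply hainj
    have e1 : a (a₁ * t₂ * θ ^ (q - 1)) =
        ((ρ - 1) ^ (q - 1) * U₁) * (a lc ^ (q - 1) * a t₁ * a t₂) := by
      rw [map_mul, map_mul, map_pow, ← hρ1lc, ← hU₁t, mul_pow]
      ring
    have e2 : a (a₂ * lc ^ (q - 1) * t₁ * (q : B)) =
        (((q : ℕ) : O) * U₂) * (a lc ^ (q - 1) * a t₁ * a t₂) := by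
      rw [map_mul, map_mul, map_mul, map_pow, map_natCast, ← hU₂t]
      ring
    rw [e1, e2, hU]

end Main

section Combined

variable {B₁ D₁ K₁ B D K : Type*} [CommRing B₁] [IsDomain B₁] [IsIntegrallyClosed B₁]
  [Field K₁] [Algebra B₁ K₁] [IsFractionRing B₁ K₁] [CommRing D₁] [IsDomain D₁]
  [CommRing B] [IsDomain B] [IsIntegrallyClosed B] [Field K] [Algebra B K] [IsFractionRing B K]
  [CommRing D] [IsDomain D]

/-- **The middle cusps, two-level form** (`exists_mul_eq_pow` twice, `exists_HE`,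
`exists_hE_of_midCusp`).  `B₁` the chart of level `q L` with its two components `red_c`, `red_o`
(`ker red_c ∩ ker red_o = (q)`), `s₁ = 1/w`, `v₁ = 1/v` in `B₁` (`v = w ^ q` on `c`, `w = v ^ q`
on `o`), `g : B₁ → B` the level map, `s' = 1/u ∈ B`; the relations `Φ(w; v) = 0 = Φ(v; w)` in
`Frac B₁` and `Φ(w; v) = 0 = Φ(u; v)` in `Frac B`. -/
theorem exists_hE_of_levelQ (red_c red_o : B₁ →+* D₁) (q : ℕ) [hqp : Fact q.Prime]
    (r : ℕ → ℕ → ℤ)
    (hinf : ∀ z : B₁, red_c z = 0 → red_o z = 0 → z ∈ Ideal.span {(q : B₁)})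
    (s₁ v₁ : B₁) (hcv : red_c v₁ = red_c s₁ ^ q) (hcs : red_c s₁ ≠ 0)
    (hos : red_o s₁ = red_o v₁ ^ q) (hov : red_o v₁ ≠ 0)
    (hΦ₁ : PhiAt q r (algebraMap B₁ K₁ s₁)⁻¹ (algebraMap B₁ K₁ v₁)⁻¹ = 0)
    (hΦ₁' : PhiAt q r (algebraMap B₁ K₁ v₁)⁻¹ (algebraMap B₁ K₁ s₁)⁻¹ = 0)
    (g : B₁ →+* B) (red₂ : B →+* D) (n : Ideal B) [hn : n.IsMaximal]
    (hker : RingHom.ker red₂ ≤ n) (hqn : (q : B) ∈ n) (hq0 : (q : B) ≠ 0)
    (s' : B) (hs : g s₁ ∈ n) (hred : red₂ s' = red₂ (g s₁)) (h2s : red₂ (g s₁) ≠ 0)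
    (h2v : red₂ (g v₁) = red₂ (g s₁) ^ q) (hne : s' ≠ g s₁)
    (hΦ : PhiAt q r (algebraMap B K (g s₁))⁻¹ (algebraMap B K (g v₁))⁻¹ = 0)
    (hΦ' : PhiAt q r (algebraMap B K s')⁻¹ (algebraMap B K (g v₁))⁻¹ = 0) :
    ∃ θ : B, red₂ θ = 0 ∧ θ ≠ 0 ∧
      ∃ e t : B, e ∉ n ∧ t ∉ n ∧ t * θ ^ (q - 1) = e * (q : B) := by
  have hs₁0 : s₁ ≠ 0 := fun h => hcs (by rw [h, map_zero])
  have hv₁0 : v₁ ≠ 0 := fun h => hov (by rw [h, map_zero])
  obtain ⟨E₁, hE₁⟩ := exists_mul_eq_pow (K := K₁) q hqp.out.one_le r s₁ v₁ hs₁0 hv₁0 hΦ₁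
  obtain ⟨E₁', hE₁'⟩ := exists_mul_eq_pow (K := K₁) q hqp.out.one_le r v₁ s₁ hv₁0 hs₁0 hΦ₁'
  obtain ⟨E, ε, σ, hσ, hEv, hε⟩ := exists_HE red_c red_o q hqp.out.two_le hinf s₁ v₁ E₁ E₁' hE₁
    hE₁' hcv hcs hos hov g red₂ n hker hs h2v h2s
  have hgv0 : g v₁ ≠ 0 := fun h => by
    rw [h, map_zero] at h2v
    exact pow_ne_zero q h2s h2v.symm
  exact exists_hE_of_midCusp (K := K) red₂ q r n hker hqn hq0 (g s₁) s' (g v₁) hs hred h2s hne
    hgv0 E ε σ hσ hEv hε hΦ hΦ'

end Combined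

end Fermat.Agent.S36.H97
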