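/-
helper89 — S36 row (M4r2), the **(W) wrapper** (helper97's cut, board #3370): the middle cusps in
the `S36.H83.ThreeComponents` vocabulary, on top of helper97's bridge `S36.H97` and helper19's
polynomial core `S36.H19`.

Setting: `B` = a chart of level `q² L` with its `ThreeComponents` package, `B'` = the chart of
level `q L` with its `S34.H83.TwoComponents` package, `α β : B' → B` the two level maps
(`α ∘ ι' = ιu`, `α ∘ V' = ιv`, `β ∘ ι' = ιv`, `β ∘ V' = ιw`), `ψ₀ : BM` (= `1/j` at the level `L`)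
with `W (rbar ψ₀) = rbar ψ₀ ^ q`, `rbar ψ₀ ≠ 0`, the modular relations in the evaluated shape
`H19.PhiAt q r x y = 0`.  A *middle cusp* is a maximal ideal `n ∋ q` of `B` with
`ker red₂ ≤ n` and `ιu ψ₀ ∈ n`.

* `phiAt_symm`, `map_phiAt`, `phiAt_inv_map` : symmetry / naturality of `PhiAt`.
* `exists_hE_midCusp_core` : helper97's `exists_HE` + `exists_hE_of_midCusp` in one call.
* `exists_hE_midCusp_alpha` / `_beta` : the unit statement `hE` of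
  `H83.ThreeComponents.localGen_middle` at a middle cusp, along the `α`-copy resp. `β`-copy.
* `locGen_midCusp_alpha` / `_beta` : the conclusions of `localGen_middle` and `locGen_middle`.
* `off_first_of_midCusp`, `off_third_of_midCusp` : a middle cusp lies neither on `C₁` nor on `C₃`
  (the hypotheses `h1 h3` of `localGen_middle`), from `ker red₂ ≤ n`.
* `midCusp_all` : everything from ONE relation `Φ(1/ι'ψ₀ ; 1/V'ψ₀) = 0` at the level `q`, the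
  symmetry of `r`, and two field maps `a b : K' → K` over `α β`.
-/
import Mathlib
import Fermat.Agent.S36.H97_MidCuspBridge
import Fermat.Agent.S36.H83_ThreeComponents
import Fermat.Agent.S34.H83_L0Target

set_option autoImplicit false

namespace Fermat.Agent.S36.H89W

open Polynomial Finset Fermat.Agent.S36.H19 Fermat.Agent.S34.H83 Fermat.Agent.S36.H83

/-! ### `PhiAt`: symmetry and naturality -/

section PhiAt

variable {F F' : Type*} [CommRing F] [CommRing F']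

/-- `Φ(x, y) = Φ(y, x)` when the remainder coefficients are symmetric. -/
theorem phiAt_symm (q : ℕ) (r : ℕ → ℕ → ℤ) (hr : ∀ a b, r a b = r b a) (x y : F) :
    PhiAt q r x y = PhiAt q r y x := by
  unfold PhiAt
  have h1 : (x - y ^ q) * (x ^ q - y) = (y - x ^ q) * (y ^ q - x) := by ring
  have h2 : ∑ a ∈ range (q + 1), ∑ b ∈ range (q + 1), (r a b : F) * x ^ a * y ^ b =
      ∑ a ∈ range (q + 1), ∑ b ∈ range (q + 1), (r a b : F) * y ^ a * x ^ b := by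
    rw [Finset.sum_comm]
    refine Finset.sum_congr rfl fun a _ => Finset.sum_congr rfl fun b _ => ?_
    rw [hr b a]; ring
  rw [h1, h2]

/-- `PhiAt` commutes with ring homomorphisms. -/
theorem map_phiAt (f : F →+* F') (q : ℕ) (r : ℕ → ℕ → ℤ) (x y : F) :
    f (PhiAt q r x y) = PhiAt q r (f x) (f y) := by
  unfold PhiAt
  simp only [map_add, map_mul, map_sub, map_pow, map_sum, map_natCast, map_intCast]

end PhiAt

/-- Transport of a relation `Φ(1/x ; 1/y) = 0` along a homomorphism of fields lying over a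
ring homomorphism `g`. -/
theorem phiAt_inv_map {B₁ B K₁ K : Type*} [CommRing B₁] [CommRing B] [Field K₁] [Field K]
    [Algebra B₁ K₁] [Algebra B K] (g : B₁ →+* B) (a : K₁ →+* K)
    (ha : ∀ x, algebraMap B K (g x) = a (algebraMap B₁ K₁ x)) (q : ℕ) (r : ℕ → ℕ → ℤ)
    (x y : B₁) (hΦ : PhiAt q r (algebraMap B₁ K₁ x)⁻¹ (algebraMap B₁ K₁ y)⁻¹ = 0) :
    PhiAt q r (algebraMap B K (g x))⁻¹ (algebraMap B K (g y))⁻¹ = 0 := by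
  have e1 : (a (algebraMap B₁ K₁ x))⁻¹ = a ((algebraMap B₁ K₁ x)⁻¹) := (map_inv₀ a _).symm
  have e2 : (a (algebraMap B₁ K₁ y))⁻¹ = a ((algebraMap B₁ K₁ y)⁻¹) := (map_inv₀ a _).symm
  rw [ha, ha, e1, e2, ← map_phiAt, hΦ, map_zero]

/-! ### The core: helper97's two theorems in one call -/

section Core

variable {B₁ D₁ B D K : Type*} [CommRing B₁] [CommRing D₁] [IsDomain D₁]
  [CommRing B] [IsDomain B] [IsIntegrallyClosed B] [Field K] [Algebra B K] [IsFractionRing B K]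
  [CommRing D] [IsDomain D]

/-- `exists_HE` followed by `exists_hE_of_midCusp` (`s = g s₁`, `vt = g v₁`). -/
theorem exists_hE_midCusp_core (red_c red_o : B₁ →+* D₁) (q : ℕ) [hqp : Fact q.Prime]
    (hinf : ∀ z, red_c z = 0 → red_o z = 0 → z ∈ Ideal.span {(q : B₁)})
    (s₁ v₁ E₁ E₁' : B₁) (hE₁ : E₁ * v₁ = s₁ ^ q) (hE₁' : E₁' * s₁ = v₁ ^ q)
    (hcv : red_c v₁ = red_c s₁ ^ q) (hcs : red_c s₁ ≠ 0)
    (hos : red_o s₁ = red_o v₁ ^ q) (hov : red_o v₁ ≠ 0)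
    (g : B₁ →+* B) (red₂ : B →+* D) (n : Ideal B) (hn : n.IsMaximal)
    (hker : RingHom.ker red₂ ≤ n) (hqn : (q : B) ∈ n) (hq0 : (q : B) ≠ 0)
    (s' : B) (hs : g s₁ ∈ n) (h2v : red₂ (g v₁) = red₂ (g s₁) ^ q) (h2s : red₂ (g s₁) ≠ 0)
    (hred : red₂ s' = red₂ (g s₁)) (hne : s' ≠ g s₁) (r : ℕ → ℕ → ℤ)
    (hΦ : PhiAt q r (algebraMap B K (g s₁))⁻¹ (algebraMap B K (g v₁))⁻¹ = 0)
    (hΦ' : PhiAt q r (algebraMap B K s')⁻¹ (algebraMap B K (g v₁))⁻¹ = 0) :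
    ∃ θ : B, red₂ θ = 0 ∧ θ ≠ 0 ∧
      ∃ e t : B, e ∉ n ∧ t ∉ n ∧ t * θ ^ (q - 1) = e * (q : B) := by
  have := hn
  obtain ⟨E, ε, σ, hσ, hEv, hε⟩ := H97.exists_HE red_c red_o q hqp.out.two_le hinf s₁ v₁ E₁ E₁'
    hE₁ hE₁' hcv hcs hos hov g red₂ n hker hs h2v h2s
  have hvt : g v₁ ≠ 0 := by
    intro h0
    rw [h0, map_zero] at h2v
    exact pow_ne_zero q h2s h2v.symm
  exact H97.exists_hE_of_midCusp (K := K) red₂ q r n hker hqn hq0 (g s₁) s' (g v₁) hs hred h2s hne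
    hvt E ε σ hσ hEv hε hΦ hΦ'

end Core

/-! ### Middle cusps lie on the middle component only -/

section Off

variable {B D BM : Type*} [CommRing B] [CommRing D] [IsDomain D] [CommRing BM]
  {red₁ red₂ red₃ : B →+* D} {ιu ιv ιw : BM →+* B} {rbar : BM →+* D} {W : D →+* D}
  {q : ℕ} {qB : B}

omit [IsDomain D] in
/-- At a point of the middle component, `ιu ψ ∈ n ↔ ιw ψ ∈ n`. -/
theorem mem_iff_mem_of_ker_le (h : ThreeComponents red₁ red₂ red₃ ιu ιv ιw rbar W q qB)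
    (n : Ideal B) (hker : RingHom.ker red₂ ≤ n) (ψ : BM) : ιu ψ ∈ n ↔ ιw ψ ∈ n := by
  have hd : ιu ψ - ιw ψ ∈ n := hker (by rw [RingHom.mem_ker, map_sub, h.h2u, h.h2w, sub_self])
  constructor
  · intro hu
    have := n.sub_mem hu hd
    rwa [sub_sub_cancel] at this
  · intro hw
    have := n.add_mem hd hw
    rwa [sub_add_cancel] at this

/-- **A middle cusp does not lie on `C₃`**: `F - 1` with `F = ιv ψ₀ ^ q / ιu ψ₀` (`= α E₁'`)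
lies in `ker red₃` and not in `n`. -/
theorem off_third_of_midCusp (h : ThreeComponents red₁ red₂ red₃ ιu ιv ιw rbar W q qB)
    (hq : 2 ≤ q) (ψ₀ : BM) (hψ₀ : rbar ψ₀ ≠ 0) (hW : W (rbar ψ₀) = rbar ψ₀ ^ q)
    (Fe : B) (hFe : Fe * ιu ψ₀ = ιv ψ₀ ^ q)
    (n : Ideal B) (hn : n.IsPrime) (hker : RingHom.ker red₂ ≤ n) (hcusp : ιu ψ₀ ∈ n) :
    ∃ s : B, red₃ s = 0 ∧ s ∉ n := by
  set τb := rbar ψ₀ with hτb
  have hWne : W τb ≠ 0 := by rw [hW]; exact pow_ne_zero _ hψ₀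
  have hr3 : red₃ Fe = 1 := by
    have h0 := congrArg red₃ hFe
    rw [map_mul, map_pow, h.h3u, h.h3v] at h0
    have e : W (W τb) = W τb ^ q := by rw [hW, map_pow, hW]
    rw [e] at h0
    have : red₃ Fe * W τb ^ q = 1 * W τb ^ q := by rw [h0, one_mul]
    exact mul_right_cancel₀ (pow_ne_zero _ hWne) this
  have hqq : q * q = (q * q - 1) + 1 := by
    have : 4 ≤ q * q := by nlinarith
    omega
  have hr2 : red₂ Fe = τb ^ (q * q - 1) := by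
    have h0 := congrArg red₂ hFe
    rw [map_mul, map_pow, h.h2u, h.h2v, hW, ← pow_mul] at h0
    have e : τb ^ (q * q) = τb ^ (q * q - 1) * τb := by rw [← pow_succ, ← hqq]
    rw [e] at h0
    exact mul_right_cancel₀ hψ₀ h0
  refine ⟨Fe - 1, by rw [map_sub, map_one, hr3, sub_self], fun hsn => ?_⟩
  have h1 : Fe - ιu ψ₀ ^ (q * q - 1) ∈ n := hker (by
    rw [RingHom.mem_ker, map_sub, map_pow, h.h2u, hr2, sub_self])
  have h2 : ιu ψ₀ ^ (q * q - 1) ∈ n := n.pow_mem_of_mem hcusp _ (by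
    have : 4 ≤ q * q := by nlinarith
    omega)
  have h3 : (1 : B) ∈ n := by
    have e : (1 : B) = (Fe - ιu ψ₀ ^ (q * q - 1)) + ιu ψ₀ ^ (q * q - 1) - (Fe - 1) := by ring
    rw [e]
    exact n.sub_mem (n.add_mem h1 h2) hsn
  exact hn.ne_top ((Ideal.eq_top_iff_one n).2 h3)

/-- **A middle cusp does not lie on `C₁`**: `F - 1` with `F = ιv ψ₀ ^ q / ιw ψ₀` (`= β E₁`)
lies in `ker red₁` and not in `n`. -/
theorem off_first_of_midCusp (h : ThreeComponents red₁ red₂ red₃ ιu ιv ιw rbar W q qB)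
    (hq : 2 ≤ q) (ψ₀ : BM) (hψ₀ : rbar ψ₀ ≠ 0) (hW : W (rbar ψ₀) = rbar ψ₀ ^ q)
    (Fe : B) (hFe : Fe * ιw ψ₀ = ιv ψ₀ ^ q)
    (n : Ideal B) (hn : n.IsPrime) (hker : RingHom.ker red₂ ≤ n) (hcusp : ιw ψ₀ ∈ n) :
    ∃ s : B, red₁ s = 0 ∧ s ∉ n := by
  set τb := rbar ψ₀ with hτb
  have hWne : W τb ≠ 0 := by rw [hW]; exact pow_ne_zero _ hψ₀
  have hr1 : red₁ Fe = 1 := by
    have h0 := congrArg red₁ hFe
    rw [map_mul, map_pow, h.h1w, h.h1v] at h0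
    have e : W (W τb) = W τb ^ q := by rw [hW, map_pow, hW]
    rw [e] at h0
    have : red₁ Fe * W τb ^ q = 1 * W τb ^ q := by rw [h0, one_mul]
    exact mul_right_cancel₀ (pow_ne_zero _ hWne) this
  have hqq : q * q = (q * q - 1) + 1 := by
    have : 4 ≤ q * q := by nlinarith
    omega
  have hr2 : red₂ Fe = τb ^ (q * q - 1) := by
    have h0 := congrArg red₂ hFe
    rw [map_mul, map_pow, h.h2w, h.h2v, hW, ← pow_mul] at h0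
    have e : τb ^ (q * q) = τb ^ (q * q - 1) * τb := by rw [← pow_succ, ← hqq]
    rw [e] at h0
    exact mul_right_cancel₀ hψ₀ h0
  refine ⟨Fe - 1, by rw [map_sub, map_one, hr1, sub_self], fun hsn => ?_⟩
  have h1 : Fe - ιw ψ₀ ^ (q * q - 1) ∈ n := hker (by
    rw [RingHom.mem_ker, map_sub, map_pow, h.h2w, hr2, sub_self])
  have h2 : ιw ψ₀ ^ (q * q - 1) ∈ n := n.pow_mem_of_mem hcusp _ (by
    have : 4 ≤ q * q := by nlinarith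
    omega)
  have h3 : (1 : B) ∈ n := by
    have e : (1 : B) = (Fe - ιw ψ₀ ^ (q * q - 1)) + ιw ψ₀ ^ (q * q - 1) - (Fe - 1) := by ring
    rw [e]
    exact n.sub_mem (n.add_mem h1 h2) hsn
  exact hn.ne_top ((Ideal.eq_top_iff_one n).2 h3)

end Off

/-! ### The `ThreeComponents` vocabulary -/

section Three

variable {B' B D BM K : Type*} [CommRing B'] [CommRing B] [IsDomain B] [IsIntegrallyClosed B]
  [Field K] [Algebra B K] [IsFractionRing B K] [CommRing D] [IsDomain D] [CommRing BM]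
  {red₁' red₂' : B' →+* D} {ι' V' : BM →+* B'}
  {red₁ red₂ red₃ : B →+* D} {ιu ιv ιw : BM →+* B} {rbar : BM →+* D} {W : D →+* D}
  {q : ℕ} {qB' : B'} {qB : B}

/-- **`hE` at a middle cusp, `α`-copy**: `(s, vt, s') = (ιu ψ₀, ιv ψ₀, ιw ψ₀)`,
`(s₁, v₁) = (ι' ψ₀, V' ψ₀)`, `E₁ = s₁^q / v₁`, `E₁' = v₁^q / s₁` at the level `q`. -/
theorem exists_hE_midCusp_alpha (h : ThreeComponents red₁ red₂ red₃ ιu ιv ιw rbar W q qB)
    (h' : TwoComponents red₁' red₂' ι' V' rbar W q qB') [Fact q.Prime]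
    (hqB' : qB' = (q : B')) (hqB : qB = (q : B)) (hq0 : (q : B) ≠ 0)
    (α : B' →+* B) (hαι : ∀ ψ, α (ι' ψ) = ιu ψ) (hαV : ∀ ψ, α (V' ψ) = ιv ψ)
    (ψ₀ : BM) (hψ₀ : rbar ψ₀ ≠ 0) (hW : W (rbar ψ₀) = rbar ψ₀ ^ q) (hne : ιw ψ₀ ≠ ιu ψ₀)
    (E₁ E₁' : B') (hE₁ : E₁ * V' ψ₀ = ι' ψ₀ ^ q) (hE₁' : E₁' * ι' ψ₀ = V' ψ₀ ^ q)
    (r : ℕ → ℕ → ℤ)
    (hΦu : PhiAt q r (algebraMap B K (ιu ψ₀))⁻¹ (algebraMap B K (ιv ψ₀))⁻¹ = 0)
    (hΦw : PhiAt q r (algebraMap B K (ιw ψ₀))⁻¹ (algebraMap B K (ιv ψ₀))⁻¹ = 0)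
    (n : Ideal B) (hn : n.IsMaximal) (hker : RingHom.ker red₂ ≤ n) (hqn : qB ∈ n)
    (hcusp : ιu ψ₀ ∈ n) :
    ∃ θ : B, red₂ θ = 0 ∧ θ ≠ 0 ∧
      ∃ e t : B, e ∉ n ∧ t ∉ n ∧ t * θ ^ (q - 1) = e * qB := by
  subst hqB' hqB
  refine exists_hE_midCusp_core (K := K) red₁' red₂' q h'.hinf (ι' ψ₀) (V' ψ₀) E₁ E₁' hE₁ hE₁'
    ?_ ?_ ?_ ?_ α red₂ n hn hker hqn hq0 (ιw ψ₀) ?_ ?_ ?_ ?_ ?_ r ?_ ?_
  · rw [h'.h1V, h'.h1ι, hW]
  · rw [h'.h1ι]; exact hψ₀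
  · rw [h'.h2ι, h'.h2V, hW]
  · rw [h'.h2V]; exact hψ₀
  · rw [hαι]; exact hcusp
  · rw [hαV, hαι, h.h2v, h.h2u, hW]
  · rw [hαι, h.h2u]; exact hψ₀
  · rw [hαι, h.h2w, h.h2u]
  · rw [hαι]; exact hne
  · rw [hαι, hαV]; exact hΦu
  · rw [hαV]; exact hΦw

/-- **`hE` at a middle cusp, `β`-copy**: `(s, vt, s') = (ιw ψ₀, ιv ψ₀, ιu ψ₀)`,
`(s₁, v₁) = (V' ψ₀, ι' ψ₀)`.  Here the cusp condition reads `ιw ψ₀ ∈ n`. -/
theorem exists_hE_midCusp_beta (h : ThreeComponents red₁ red₂ red₃ ιu ιv ιw rbar W q qB)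
    (h' : TwoComponents red₁' red₂' ι' V' rbar W q qB') [Fact q.Prime]
    (hqB' : qB' = (q : B')) (hqB : qB = (q : B)) (hq0 : (q : B) ≠ 0)
    (β : B' →+* B) (hβι : ∀ ψ, β (ι' ψ) = ιv ψ) (hβV : ∀ ψ, β (V' ψ) = ιw ψ)
    (ψ₀ : BM) (hψ₀ : rbar ψ₀ ≠ 0) (hW : W (rbar ψ₀) = rbar ψ₀ ^ q) (hne : ιu ψ₀ ≠ ιw ψ₀)
    (E₁ E₁' : B') (hE₁ : E₁ * V' ψ₀ = ι' ψ₀ ^ q) (hE₁' : E₁' * ι' ψ₀ = V' ψ₀ ^ q)
    (r : ℕ → ℕ → ℤ)
    (hΦu : PhiAt q r (algebraMap B K (ιu ψ₀))⁻¹ (algebraMap B K (ιv ψ₀))⁻¹ = 0)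
    (hΦw : PhiAt q r (algebraMap B K (ιw ψ₀))⁻¹ (algebraMap B K (ιv ψ₀))⁻¹ = 0)
    (n : Ideal B) (hn : n.IsMaximal) (hker : RingHom.ker red₂ ≤ n) (hqn : qB ∈ n)
    (hcusp : ιw ψ₀ ∈ n) :
    ∃ θ : B, red₂ θ = 0 ∧ θ ≠ 0 ∧
      ∃ e t : B, e ∉ n ∧ t ∉ n ∧ t * θ ^ (q - 1) = e * qB := by
  subst hqB' hqB
  refine exists_hE_midCusp_core (K := K) red₂' red₁' q (fun z h2 h1 => h'.hinf z h1 h2)
    (V' ψ₀) (ι' ψ₀) E₁' E₁ hE₁' hE₁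
    ?_ ?_ ?_ ?_ β red₂ n hn hker hqn hq0 (ιu ψ₀) ?_ ?_ ?_ ?_ ?_ r ?_ ?_
  · rw [h'.h2ι, h'.h2V, hW]
  · rw [h'.h2V]; exact hψ₀
  · rw [h'.h1V, h'.h1ι, hW]
  · rw [h'.h1ι]; exact hψ₀
  · rw [hβV]; exact hcusp
  · rw [hβι, hβV, h.h2v, h.h2w, hW]
  · rw [hβV, h.h2w]; exact hψ₀
  · rw [hβV, h.h2u, h.h2w]
  · rw [hβV]; exact hne
  · rw [hβV, hβι]; exact hΦw
  · rw [hβι]; exact hΦu

end Three

section ThreeLoc

variable {B' B D BM K : Type*} [CommRing B'] [CommRing B] [IsDomain B] [IsIntegrallyClosed B]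
  [Field K] [Algebra B K] [IsFractionRing B K] [CommRing D] [IsDedekindDomain D] [CommRing BM]
  {red₁' red₂' : B' →+* D} {ι' V' : BM →+* B'}
  {red₁ red₂ red₃ : B →+* D} {ιu ιv ιw : BM →+* B} {rbar : BM →+* D} {W : D →+* D}
  {q : ℕ} {qB' : B'} {qB : B}

/-- **Middle cusps, `α`-copy, in the shape of `H83.ThreeComponents.locGen_middle`**: given
`h1 h3` (off `C₁`, off `C₃`), a local generator `θ` of the middle vertical prime and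
`n B_n = (θ, τ)`. -/
theorem locGen_midCusp_alpha (h : ThreeComponents red₁ red₂ red₃ ιu ιv ιw rbar W q qB)
    (h' : TwoComponents red₁' red₂' ι' V' rbar W q qB') [hqp : Fact q.Prime]
    (hD : ¬ IsField D)
    (hqB' : qB' = (q : B')) (hqB : qB = (q : B)) (hq0 : (q : B) ≠ 0)
    (α : B' →+* B) (hαι : ∀ ψ, α (ι' ψ) = ιu ψ) (hαV : ∀ ψ, α (V' ψ) = ιv ψ)
    (ψ₀ : BM) (hψ₀ : rbar ψ₀ ≠ 0) (hW : W (rbar ψ₀) = rbar ψ₀ ^ q) (hne : ιw ψ₀ ≠ ιu ψ₀)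
    (E₁ E₁' : B') (hE₁ : E₁ * V' ψ₀ = ι' ψ₀ ^ q) (hE₁' : E₁' * ι' ψ₀ = V' ψ₀ ^ q)
    (r : ℕ → ℕ → ℤ)
    (hΦu : PhiAt q r (algebraMap B K (ιu ψ₀))⁻¹ (algebraMap B K (ιv ψ₀))⁻¹ = 0)
    (hΦw : PhiAt q r (algebraMap B K (ιw ψ₀))⁻¹ (algebraMap B K (ιv ψ₀))⁻¹ = 0)
    (n : Ideal B) (hn : n.IsMaximal) (hqn : qB ∈ n)
    (h1 : ∃ s : B, red₁ s = 0 ∧ s ∉ n) (h3 : ∃ s : B, red₃ s = 0 ∧ s ∉ n)
    (hcusp : ιu ψ₀ ∈ n) :
    ∃ θ : B, red₂ θ = 0 ∧ θ ≠ 0 ∧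
      (∃ e t : B, e ∉ n ∧ t ∉ n ∧ t * θ ^ (q - 1) = e * qB) ∧
      (∀ z ∈ RingHom.ker red₂, ∃ t : B, t ∉ n ∧ t * z ∈ Ideal.span {θ}) ∧
      ∃ τ ∈ n, ∀ z ∈ n, ∃ t : B, t ∉ n ∧ t * z ∈ Ideal.span {θ, τ} := by
  have hker : RingHom.ker red₂ ≤ n := h.ker_le_middle n hn hqn h1 h3
  obtain ⟨θ, hθ, hθ0, hE⟩ := exists_hE_midCusp_alpha (K := K) h h' hqB' hqB hq0 α hαι hαV ψ₀ hψ₀
    hW hne E₁ E₁' hE₁ hE₁' r hΦu hΦw n hn hker hqn hcusp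
  exact ⟨θ, hθ, hθ0, hE, h.localGen_middle hqp.out.two_le n hn h1 h3 hθ hθ0 hE,
    h.locGen_middle hqp.out.two_le hD n hn hqn h1 h3 hθ hθ0 hE⟩

/-- **Middle cusps, `β`-copy.** -/
theorem locGen_midCusp_beta (h : ThreeComponents red₁ red₂ red₃ ιu ιv ιw rbar W q qB)
    (h' : TwoComponents red₁' red₂' ι' V' rbar W q qB') [hqp : Fact q.Prime]
    (hD : ¬ IsField D)
    (hqB' : qB' = (q : B')) (hqB : qB = (q : B)) (hq0 : (q : B) ≠ 0)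
    (β : B' →+* B) (hβι : ∀ ψ, β (ι' ψ) = ιv ψ) (hβV : ∀ ψ, β (V' ψ) = ιw ψ)
    (ψ₀ : BM) (hψ₀ : rbar ψ₀ ≠ 0) (hW : W (rbar ψ₀) = rbar ψ₀ ^ q) (hne : ιu ψ₀ ≠ ιw ψ₀)
    (E₁ E₁' : B') (hE₁ : E₁ * V' ψ₀ = ι' ψ₀ ^ q) (hE₁' : E₁' * ι' ψ₀ = V' ψ₀ ^ q)
    (r : ℕ → ℕ → ℤ)
    (hΦu : PhiAt q r (algebraMap B K (ιu ψ₀))⁻¹ (algebraMap B K (ιv ψ₀))⁻¹ = 0)
    (hΦw : PhiAt q r (algebraMap B K (ιw ψ₀))⁻¹ (algebraMap B K (ιv ψ₀))⁻¹ = 0)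
    (n : Ideal B) (hn : n.IsMaximal) (hqn : qB ∈ n)
    (h1 : ∃ s : B, red₁ s = 0 ∧ s ∉ n) (h3 : ∃ s : B, red₃ s = 0 ∧ s ∉ n)
    (hcusp : ιw ψ₀ ∈ n) :
    ∃ θ : B, red₂ θ = 0 ∧ θ ≠ 0 ∧
      (∃ e t : B, e ∉ n ∧ t ∉ n ∧ t * θ ^ (q - 1) = e * qB) ∧
      (∀ z ∈ RingHom.ker red₂, ∃ t : B, t ∉ n ∧ t * z ∈ Ideal.span {θ}) ∧
      ∃ τ ∈ n, ∀ z ∈ n, ∃ t : B, t ∉ n ∧ t * z ∈ Ideal.span {θ, τ} := by
  have hker : RingHom.ker red₂ ≤ n := h.ker_le_middle n hn hqn h1 h3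
  obtain ⟨θ, hθ, hθ0, hE⟩ := exists_hE_midCusp_beta (K := K) h h' hqB' hqB hq0 β hβι hβV ψ₀ hψ₀
    hW hne E₁ E₁' hE₁ hE₁' r hΦu hΦw n hn hker hqn hcusp
  exact ⟨θ, hθ, hθ0, hE, h.localGen_middle hqp.out.two_le n hn h1 h3 hθ hθ0 hE,
    h.locGen_middle hqp.out.two_le hD n hn hqn h1 h3 hθ hθ0 hE⟩

end ThreeLoc

/-! ### Everything from one relation at the level `q` -/

section All

variable {B' B D BM K' K : Type*} [CommRing B'] [IsDomain B'] [IsIntegrallyClosed B']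
  [Field K'] [Algebra B' K'] [IsFractionRing B' K']
  [CommRing B] [IsDomain B] [IsIntegrallyClosed B]
  [Field K] [Algebra B K] [IsFractionRing B K] [CommRing D] [IsDedekindDomain D] [CommRing BM]
  {red₁' red₂' : B' →+* D} {ι' V' : BM →+* B'}
  {red₁ red₂ red₃ : B →+* D} {ιu ιv ιw : BM →+* B} {rbar : BM →+* D} {W : D →+* D}
  {q : ℕ} {qB' : B'} {qB : B}

/-- **(M4r2), all-in form.**  From the two packages, the two level maps with field maps over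
them, the symmetric evaluated shape of `Φ_q` (helper25's `(S2)`) and ONE relation
`Φ(1/ι'ψ₀ ; 1/V'ψ₀) = 0` at the level `q`: every middle cusp `n` (`q ∈ n`, `ker red₂ ≤ n`,
`ιu ψ₀ ∈ n`) lies off `C₁` and `C₃`, and the middle vertical prime has a local generator `θ`
there with `n B_n = (θ, τ)` and the unit relation `hE`. -/
theorem midCusp_all (h : ThreeComponents red₁ red₂ red₃ ιu ιv ιw rbar W q qB)
    (h' : TwoComponents red₁' red₂' ι' V' rbar W q qB') [hqp : Fact q.Prime]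
    (hD : ¬ IsField D)
    (hqB' : qB' = (q : B')) (hqB : qB = (q : B)) (hq0 : (q : B) ≠ 0)
    (α β : B' →+* B) (hαι : ∀ ψ, α (ι' ψ) = ιu ψ) (hαV : ∀ ψ, α (V' ψ) = ιv ψ)
    (hβι : ∀ ψ, β (ι' ψ) = ιv ψ) (hβV : ∀ ψ, β (V' ψ) = ιw ψ)
    (a b : K' →+* K) (ha : ∀ x, algebraMap B K (α x) = a (algebraMap B' K' x))
    (hb : ∀ x, algebraMap B K (β x) = b (algebraMap B' K' x))
    (ψ₀ : BM) (hψ₀ : rbar ψ₀ ≠ 0) (hW : W (rbar ψ₀) = rbar ψ₀ ^ q) (hne : ιw ψ₀ ≠ ιu ψ₀)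
    (r : ℕ → ℕ → ℤ) (hr : ∀ i j, r i j = r j i)
    (hΦ : PhiAt q r (algebraMap B' K' (ι' ψ₀))⁻¹ (algebraMap B' K' (V' ψ₀))⁻¹ = 0)
    (n : Ideal B) (hn : n.IsMaximal) (hqn : qB ∈ n) (hker : RingHom.ker red₂ ≤ n)
    (hcusp : ιu ψ₀ ∈ n) :
    (∃ s : B, red₁ s = 0 ∧ s ∉ n) ∧ (∃ s : B, red₃ s = 0 ∧ s ∉ n) ∧
    ∃ θ : B, red₂ θ = 0 ∧ θ ≠ 0 ∧
      (∃ e t : B, e ∉ n ∧ t ∉ n ∧ t * θ ^ (q - 1) = e * qB) ∧
      (∀ z ∈ RingHom.ker red₂, ∃ t : B, t ∉ n ∧ t * z ∈ Ideal.span {θ}) ∧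
      ∃ τ ∈ n, ∀ z ∈ n, ∃ t : B, t ∉ n ∧ t * z ∈ Ideal.span {θ, τ} := by
  have hq2 : 2 ≤ q := hqp.out.two_le
  have hq1 : 1 ≤ q := by omega
  have hΦ' : PhiAt q r (algebraMap B' K' (V' ψ₀))⁻¹ (algebraMap B' K' (ι' ψ₀))⁻¹ = 0 := by
    rw [phiAt_symm q r hr]; exact hΦ
  -- nonvanishing at the level `q`
  have hι0 : ι' ψ₀ ≠ 0 := by
    intro h0
    have := h'.h1ι ψ₀
    rw [h0, map_zero] at this
    exact hψ₀ this.symm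
  have hV0 : V' ψ₀ ≠ 0 := by
    intro h0
    have := h'.h2V ψ₀
    rw [h0, map_zero] at this
    exact hψ₀ this.symm
  obtain ⟨E₁, hE₁⟩ := H97.exists_mul_eq_pow (K := K') q hq1 r (ι' ψ₀) (V' ψ₀) hι0 hV0 hΦ
  obtain ⟨E₁', hE₁'⟩ := H97.exists_mul_eq_pow (K := K') q hq1 r (V' ψ₀) (ι' ψ₀) hV0 hι0 hΦ'
  -- the relations at the level `q²`
  have hΦu : PhiAt q r (algebraMap B K (ιu ψ₀))⁻¹ (algebraMap B K (ιv ψ₀))⁻¹ = 0 := by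
    have := phiAt_inv_map α a ha q r (ι' ψ₀) (V' ψ₀) hΦ
    rwa [hαι, hαV] at this
  have hΦw : PhiAt q r (algebraMap B K (ιw ψ₀))⁻¹ (algebraMap B K (ιv ψ₀))⁻¹ = 0 := by
    have := phiAt_inv_map β b hb q r (V' ψ₀) (ι' ψ₀) hΦ'
    rwa [hβι, hβV] at this
  have hnp : n.IsPrime := hn.isPrime
  have hcw : ιw ψ₀ ∈ n := (mem_iff_mem_of_ker_le h n hker ψ₀).1 hcusp
  have h1 : ∃ s : B, red₁ s = 0 ∧ s ∉ n :=
    off_first_of_midCusp h hq2 ψ₀ hψ₀ hW (β E₁) (by rw [← hβV, ← hβι, ← map_mul, hE₁, map_pow])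
      n hnp hker hcw
  have h3 : ∃ s : B, red₃ s = 0 ∧ s ∉ n :=
    off_third_of_midCusp h hq2 ψ₀ hψ₀ hW (α E₁') (by rw [← hαι, ← hαV, ← map_mul, hE₁', map_pow])
      n hnp hker hcusp
  exact ⟨h1, h3, locGen_midCusp_alpha (K := K) h h' hD hqB' hqB hq0 α hαι hαV ψ₀ hψ₀ hW hne
    E₁ E₁' hE₁ hE₁' r hΦu hΦw n hn hqn h1 h3 hcusp⟩

end All

end Fermat.Agent.S36.H89W
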