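/-
helper89 — S36 row (M4r2) / (OVL-b), seam file: **the cuspidal points of chart 2 at the level
`q² L`** in the `S36.H83.ThreeComponents` vocabulary.

`u = ιu ψ₀`, `v = ιv ψ₀`, `w = ιw ψ₀` (`ψ₀ = 1/j` at the level `L`), so that the chart-2
coordinate is `J₃⁻¹ = u v w`.  A prime `n` of `B` is *cuspidal* if `u v w ∈ n`.

* `cusp_mem_of_first / _middle / _third` : on a cuspidal prime through `C_i`, all of `u v w ∈ n`.
* `cuspidal_not_first_middle / _first_third / _middle_third`, `cuspidal_class` : a cuspidal prime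
  lies on AT MOST ONE vertical component (needs only `Fu = v^q/u`, `Fw = v^q/w` in `B`).
* `exists_Fu_Fw` : `Fu`, `Fw` from the two modular relations in `Frac B` (helper97's Step 0).
* `cuspidal_inputs` : at a cuspidal closed point the three hypotheses `h1 h3 h2` of
  `S36.H56.principalAt_of_threeComponents` VERBATIM (`h1 h3` vacuous, `h2` = (M4r2)).
-/
import Mathlib
import Fermat.Agent.S36.H89_MidCuspWrap

set_option autoImplicit false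

namespace Fermat.Agent.S36.H89W

open Polynomial Finset Fermat.Agent.S36.H19 Fermat.Agent.S34.H83 Fermat.Agent.S36.H83

section Cuspidal

variable {B D BM : Type*} [CommRing B] [CommRing D] [IsDomain D] [CommRing BM]
  {red₁ red₂ red₃ : B →+* D} {ιu ιv ιw : BM →+* B} {rbar : BM →+* D} {W : D →+* D}
  {q : ℕ} {qB : B}

omit [IsDomain D] in
/-- In a prime ideal, `a - b ^ q ∈ n` gives `a ∈ n ↔ b ∈ n`. -/
theorem mem_iff_of_sub_pow_mem (n : Ideal B) (hn : n.IsPrime) {a b : B} {q : ℕ}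
    (hab : a - b ^ q ∈ n) (hq : q ≠ 0) : a ∈ n ↔ b ∈ n := by
  constructor
  · intro ha
    have : b ^ q ∈ n := by
      have := n.sub_mem ha hab
      rwa [sub_sub_cancel] at this
    exact hn.mem_of_pow_mem q this
  · intro hb
    have := n.add_mem hab (n.pow_mem_of_mem hb q (Nat.pos_of_ne_zero hq))
    rwa [sub_add_cancel] at this

omit [IsDomain D] in
/-- Cuspidal prime through `C₁`: all of `u v w ∈ n`. -/
theorem cusp_mem_of_first (h : ThreeComponents red₁ red₂ red₃ ιu ιv ιw rbar W q qB)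
    (hq : 2 ≤ q) (ψ₀ : BM) (hW : W (rbar ψ₀) = rbar ψ₀ ^ q) (n : Ideal B) (hn : n.IsPrime)
    (hker : RingHom.ker red₁ ≤ n) (hJ : ιu ψ₀ * ιv ψ₀ * ιw ψ₀ ∈ n) :
    ιu ψ₀ ∈ n ∧ ιv ψ₀ ∈ n ∧ ιw ψ₀ ∈ n := by
  have hq0 : q ≠ 0 := by omega
  have e1 : ιv ψ₀ - ιu ψ₀ ^ q ∈ n := hker (by
    rw [RingHom.mem_ker, map_sub, map_pow, h.h1v, h.h1u, hW, sub_self])
  have e2 : ιw ψ₀ - ιv ψ₀ ^ q ∈ n := hker (by
    rw [RingHom.mem_ker, map_sub, map_pow, h.h1w, h.h1v, hW, map_pow, hW, sub_self])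
  have i1 := mem_iff_of_sub_pow_mem n hn e1 hq0
  have i2 := mem_iff_of_sub_pow_mem n hn e2 hq0
  have hu : ιu ψ₀ ∈ n := by
    rcases hn.mem_or_mem hJ with huv | hw
    · rcases hn.mem_or_mem huv with hu | hv
      · exact hu
      · exact i1.1 hv
    · exact i1.1 (i2.1 hw)
  exact ⟨hu, i1.2 hu, i2.2 (i1.2 hu)⟩

omit [IsDomain D] in
/-- Cuspidal prime through `C₂`: all of `u v w ∈ n`. -/
theorem cusp_mem_of_middle (h : ThreeComponents red₁ red₂ red₃ ιu ιv ιw rbar W q qB)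
    (hq : 2 ≤ q) (ψ₀ : BM) (hW : W (rbar ψ₀) = rbar ψ₀ ^ q) (n : Ideal B) (hn : n.IsPrime)
    (hker : RingHom.ker red₂ ≤ n) (hJ : ιu ψ₀ * ιv ψ₀ * ιw ψ₀ ∈ n) :
    ιu ψ₀ ∈ n ∧ ιv ψ₀ ∈ n ∧ ιw ψ₀ ∈ n := by
  have hq0 : q ≠ 0 := by omega
  have e1 : ιv ψ₀ - ιu ψ₀ ^ q ∈ n := hker (by
    rw [RingHom.mem_ker, map_sub, map_pow, h.h2v, h.h2u, hW, sub_self])
  have i1 := mem_iff_of_sub_pow_mem n hn e1 hq0
  have i2 := mem_iff_mem_of_ker_le h n hker ψ₀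
  have hu : ιu ψ₀ ∈ n := by
    rcases hn.mem_or_mem hJ with huv | hw
    · rcases hn.mem_or_mem huv with hu | hv
      · exact hu
      · exact i1.1 hv
    · exact i2.2 hw
  exact ⟨hu, i1.2 hu, i2.1 hu⟩

omit [IsDomain D] in
/-- Cuspidal prime through `C₃`: all of `u v w ∈ n`. -/
theorem cusp_mem_of_third (h : ThreeComponents red₁ red₂ red₃ ιu ιv ιw rbar W q qB)
    (hq : 2 ≤ q) (ψ₀ : BM) (hW : W (rbar ψ₀) = rbar ψ₀ ^ q) (n : Ideal B) (hn : n.IsPrime)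
    (hker : RingHom.ker red₃ ≤ n) (hJ : ιu ψ₀ * ιv ψ₀ * ιw ψ₀ ∈ n) :
    ιu ψ₀ ∈ n ∧ ιv ψ₀ ∈ n ∧ ιw ψ₀ ∈ n := by
  have hq0 : q ≠ 0 := by omega
  have e1 : ιv ψ₀ - ιw ψ₀ ^ q ∈ n := hker (by
    rw [RingHom.mem_ker, map_sub, map_pow, h.h3v, h.h3w, hW, sub_self])
  have e2 : ιu ψ₀ - ιv ψ₀ ^ q ∈ n := hker (by
    rw [RingHom.mem_ker, map_sub, map_pow, h.h3u, h.h3v, hW, map_pow, hW, sub_self])
  have i1 := mem_iff_of_sub_pow_mem n hn e1 hq0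
  have i2 := mem_iff_of_sub_pow_mem n hn e2 hq0
  have hw : ιw ψ₀ ∈ n := by
    rcases hn.mem_or_mem hJ with huv | hw
    · rcases hn.mem_or_mem huv with hu | hv
      · exact i1.1 (i2.1 hu)
      · exact i1.1 hv
    · exact hw
  exact ⟨i2.2 (i1.2 hw), i1.2 hw, hw⟩

/-- A cuspidal prime does not lie on `C₁ ∩ C₂`. -/
theorem cuspidal_not_first_middle (h : ThreeComponents red₁ red₂ red₃ ιu ιv ιw rbar W q qB)
    (hq : 2 ≤ q) (ψ₀ : BM) (hψ₀ : rbar ψ₀ ≠ 0) (hW : W (rbar ψ₀) = rbar ψ₀ ^ q)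
    (Fw : B) (hFw : Fw * ιw ψ₀ = ιv ψ₀ ^ q) (n : Ideal B) (hn : n.IsPrime)
    (hJ : ιu ψ₀ * ιv ψ₀ * ιw ψ₀ ∈ n) :
    ¬ (RingHom.ker red₁ ≤ n ∧ RingHom.ker red₂ ≤ n) := by
  rintro ⟨k1, k2⟩
  obtain ⟨s, hs, hsn⟩ := off_first_of_midCusp h hq ψ₀ hψ₀ hW Fw hFw n hn k2
    (cusp_mem_of_middle h hq ψ₀ hW n hn k2 hJ).2.2
  exact hsn (k1 ((RingHom.mem_ker).2 hs))

/-- A cuspidal prime does not lie on `C₂ ∩ C₃`. -/
theorem cuspidal_not_middle_third (h : ThreeComponents red₁ red₂ red₃ ιu ιv ιw rbar W q qB)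
    (hq : 2 ≤ q) (ψ₀ : BM) (hψ₀ : rbar ψ₀ ≠ 0) (hW : W (rbar ψ₀) = rbar ψ₀ ^ q)
    (Fu : B) (hFu : Fu * ιu ψ₀ = ιv ψ₀ ^ q) (n : Ideal B) (hn : n.IsPrime)
    (hJ : ιu ψ₀ * ιv ψ₀ * ιw ψ₀ ∈ n) :
    ¬ (RingHom.ker red₂ ≤ n ∧ RingHom.ker red₃ ≤ n) := by
  rintro ⟨k2, k3⟩
  obtain ⟨s, hs, hsn⟩ := off_third_of_midCusp h hq ψ₀ hψ₀ hW Fu hFu n hn k2
    (cusp_mem_of_middle h hq ψ₀ hW n hn k2 hJ).1
  exact hsn (k3 ((RingHom.mem_ker).2 hs))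

/-- A cuspidal prime does not lie on `C₁ ∩ C₃`. -/
theorem cuspidal_not_first_third (h : ThreeComponents red₁ red₂ red₃ ιu ιv ιw rbar W q qB)
    (hq : 2 ≤ q) (ψ₀ : BM) (hψ₀ : rbar ψ₀ ≠ 0) (hW : W (rbar ψ₀) = rbar ψ₀ ^ q)
    (Fw : B) (hFw : Fw * ιw ψ₀ = ιv ψ₀ ^ q) (n : Ideal B) (hn : n.IsPrime)
    (hJ : ιu ψ₀ * ιv ψ₀ * ιw ψ₀ ∈ n) :
    ¬ (RingHom.ker red₁ ≤ n ∧ RingHom.ker red₃ ≤ n) := by
  rintro ⟨k1, k3⟩
  set τb := rbar ψ₀ with hτb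
  have hWne : W τb ≠ 0 := by rw [hW]; exact pow_ne_zero _ hψ₀
  have hw : ιw ψ₀ ∈ n := (cusp_mem_of_third h hq ψ₀ hW n hn k3 hJ).2.2
  have hr1 : red₁ Fw = 1 := by
    have h0 := congrArg red₁ hFw
    rw [map_mul, map_pow, h.h1w, h.h1v] at h0
    have e : W (W τb) = W τb ^ q := by rw [hW, map_pow, hW]
    rw [e] at h0
    have : red₁ Fw * W τb ^ q = 1 * W τb ^ q := by rw [h0, one_mul]
    exact mul_right_cancel₀ (pow_ne_zero _ hWne) this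
  have hqq : q * q = (q * q - 1) + 1 := by
    have : 4 ≤ q * q := by nlinarith
    omega
  have hr3 : red₃ Fw = τb ^ (q * q - 1) := by
    have h0 := congrArg red₃ hFw
    rw [map_mul, map_pow, h.h3w, h.h3v, hW, ← pow_mul] at h0
    have e : τb ^ (q * q) = τb ^ (q * q - 1) * τb := by rw [← pow_succ, ← hqq]
    rw [e] at h0
    exact mul_right_cancel₀ hψ₀ h0
  have h1 : Fw - 1 ∈ n := k1 (by rw [RingHom.mem_ker, map_sub, map_one, hr1, sub_self])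
  have h3 : Fw - ιw ψ₀ ^ (q * q - 1) ∈ n := k3 (by
    rw [RingHom.mem_ker, map_sub, map_pow, h.h3w, hr3, sub_self])
  have h4 : ιw ψ₀ ^ (q * q - 1) ∈ n := n.pow_mem_of_mem hw _ (by
    have : 4 ≤ q * q := by nlinarith
    omega)
  have h5 : (1 : B) ∈ n := by
    have e : (1 : B) = (Fw - ιw ψ₀ ^ (q * q - 1)) + ιw ψ₀ ^ (q * q - 1) - (Fw - 1) := by ring
    rw [e]
    exact n.sub_mem (n.add_mem h3 h4) h1
  exact hn.ne_top ((Ideal.eq_top_iff_one n).2 h5)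

/-- **(OVL-b)**: a cuspidal prime lies on at most one vertical component, in the `hclass`
spelling of `S36.H56.principalAt_of_threeComponents_of_class` (without its first disjunct). -/
theorem cuspidal_class (h : ThreeComponents red₁ red₂ red₃ ιu ιv ιw rbar W q qB)
    (hq : 2 ≤ q) (ψ₀ : BM) (hψ₀ : rbar ψ₀ ≠ 0) (hW : W (rbar ψ₀) = rbar ψ₀ ^ q)
    (Fu Fw : B) (hFu : Fu * ιu ψ₀ = ιv ψ₀ ^ q) (hFw : Fw * ιw ψ₀ = ιv ψ₀ ^ q)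
    (n : Ideal B) (hn : n.IsPrime) (hJ : ιu ψ₀ * ιv ψ₀ * ιw ψ₀ ∈ n) :
    (¬ RingHom.ker red₂ ≤ n ∧ ¬ RingHom.ker red₃ ≤ n) ∨
    (¬ RingHom.ker red₁ ≤ n ∧ ¬ RingHom.ker red₃ ≤ n) ∨
    (¬ RingHom.ker red₁ ≤ n ∧ ¬ RingHom.ker red₂ ≤ n) := by
  have h12 := cuspidal_not_first_middle h hq ψ₀ hψ₀ hW Fw hFw n hn hJ
  have h23 := cuspidal_not_middle_third h hq ψ₀ hψ₀ hW Fu hFu n hn hJ
  have h13 := cuspidal_not_first_third h hq ψ₀ hψ₀ hW Fw hFw n hn hJ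
  by_cases c1 : RingHom.ker red₁ ≤ n
  · exact Or.inl ⟨fun c2 => h12 ⟨c1, c2⟩, fun c3 => h13 ⟨c1, c3⟩⟩
  · by_cases c2 : RingHom.ker red₂ ≤ n
    · exact Or.inr (Or.inl ⟨c1, fun c3 => h23 ⟨c2, c3⟩⟩)
    · exact Or.inr (Or.inr ⟨c1, c2⟩)

end Cuspidal

/-! ### `Fu`, `Fw` from the modular relations -/

section Step0

variable {B D BM K : Type*} [CommRing B] [IsDomain B] [IsIntegrallyClosed B]
  [Field K] [Algebra B K] [IsFractionRing B K] [CommRing D] [IsDomain D] [CommRing BM]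
  {red₁ red₂ red₃ : B →+* D} {ιu ιv ιw : BM →+* B} {rbar : BM →+* D} {W : D →+* D}
  {q : ℕ} {qB : B}

/-- `Fu = v^q / u` and `Fw = v^q / w` exist in the integrally closed chart. -/
theorem exists_Fu_Fw (h : ThreeComponents red₁ red₂ red₃ ιu ιv ιw rbar W q qB) (hq : 1 ≤ q)
    (ψ₀ : BM) (hψ₀ : rbar ψ₀ ≠ 0) (hW : W (rbar ψ₀) = rbar ψ₀ ^ q)
    (r : ℕ → ℕ → ℤ) (hr : ∀ i j, r i j = r j i)
    (hΦu : PhiAt q r (algebraMap B K (ιu ψ₀))⁻¹ (algebraMap B K (ιv ψ₀))⁻¹ = 0)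
    (hΦw : PhiAt q r (algebraMap B K (ιw ψ₀))⁻¹ (algebraMap B K (ιv ψ₀))⁻¹ = 0) :
    (∃ Fu : B, Fu * ιu ψ₀ = ιv ψ₀ ^ q) ∧ ∃ Fw : B, Fw * ιw ψ₀ = ιv ψ₀ ^ q := by
  have hu0 : ιu ψ₀ ≠ 0 := by
    intro h0
    have := h.h2u ψ₀
    rw [h0, map_zero] at this
    exact hψ₀ this.symm
  have hw0 : ιw ψ₀ ≠ 0 := by
    intro h0
    have := h.h2w ψ₀
    rw [h0, map_zero] at this
    exact hψ₀ this.symm
  have hv0 : ιv ψ₀ ≠ 0 := by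
    intro h0
    have := h.h2v ψ₀
    rw [h0, map_zero, hW] at this
    exact pow_ne_zero q hψ₀ this.symm
  exact ⟨H97.exists_mul_eq_pow (K := K) q hq r (ιv ψ₀) (ιu ψ₀) hv0 hu0
      (by rw [phiAt_symm q r hr]; exact hΦu),
    H97.exists_mul_eq_pow (K := K) q hq r (ιv ψ₀) (ιw ψ₀) hv0 hw0
      (by rw [phiAt_symm q r hr]; exact hΦw)⟩

end Step0

/-! ### The three hypotheses of `H56.principalAt_of_threeComponents` at a cuspidal point -/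

section Inputs

variable {B' B D BM K' K : Type*} [CommRing B'] [IsDomain B'] [IsIntegrallyClosed B']
  [Field K'] [Algebra B' K'] [IsFractionRing B' K']
  [CommRing B] [IsDomain B] [IsIntegrallyClosed B]
  [Field K] [Algebra B K] [IsFractionRing B K] [CommRing D] [IsDedekindDomain D] [CommRing BM]
  {red₁' red₂' : B' →+* D} {ι' V' : BM →+* B'}
  {red₁ red₂ red₃ : B →+* D} {ιu ιv ιw : BM →+* B} {rbar : BM →+* D} {W : D →+* D}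
  {q : ℕ} {qB' : B'} {qB : B}

/-- **Chart 2, cuspidal closed points** (`J₃⁻¹ = u v w ∈ n`): the hypotheses `h1 h3 h2` of
`S36.H56.principalAt_of_threeComponents` (and of `exists_unitIn_div_pow_of_three`) VERBATIM,
together with the classification.  `h1 h3` are vacuous there, `h2` is (M4r2). -/
theorem cuspidal_inputs (h : ThreeComponents red₁ red₂ red₃ ιu ιv ιw rbar W q qB)
    (h' : TwoComponents red₁' red₂' ι' V' rbar W q qB') [hqp : Fact q.Prime]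
    (hD : ¬ IsField D)
    (hqB' : qB' = (q : B')) (hqB : qB = (q : B)) (hq0 : (q : B) ≠ 0)
    (α β : B' →+* B) (hαι : ∀ ψ, α (ι' ψ) = ιu ψ) (hαV : ∀ ψ, α (V' ψ) = ιv ψ)
    (hβι : ∀ ψ, β (ι' ψ) = ιv ψ) (hβV : ∀ ψ, β (V' ψ) = ιw ψ)
    (a b : K' →+* K) (ha : ∀ x, algebraMap B K (α x) = a (algebraMap B' K' x))
    (hb : ∀ x, algebraMap B K (β x) = b (algebraMap B' K' x))
    (ψ₀ : BM) (hψ₀ : rbar ψ₀ ≠ 0) (hW : W (rbar ψ₀) = rbar ψ₀ ^ q) (hne : ιw ψ₀ ≠ ιu ψ₀)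
    (r : ℕ → ℕ → ℤ) (hr : ∀ i j, r i j = r j i)
    (hΦ : PhiAt q r (algebraMap B' K' (ι' ψ₀))⁻¹ (algebraMap B' K' (V' ψ₀))⁻¹ = 0)
    (n : Ideal B) (hn : n.IsMaximal) (hqn : qB ∈ n) (hJ : ιu ψ₀ * ιv ψ₀ * ιw ψ₀ ∈ n) :
    ((¬ RingHom.ker red₂ ≤ n ∧ ¬ RingHom.ker red₃ ≤ n) ∨
      (¬ RingHom.ker red₁ ≤ n ∧ ¬ RingHom.ker red₃ ≤ n) ∨
      (¬ RingHom.ker red₁ ≤ n ∧ ¬ RingHom.ker red₂ ≤ n)) ∧
    (RingHom.ker red₁ ≤ n → (RingHom.ker red₂ ≤ n ∨ RingHom.ker red₃ ≤ n) →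
      ∃ x : B, x ≠ 0 ∧ red₁ x = 0 ∧
        ∀ z ∈ RingHom.ker red₁, ∃ t : B, t ∉ n ∧ t * z ∈ Ideal.span {x}) ∧
    (RingHom.ker red₃ ≤ n → RingHom.ker red₂ ≤ n → ¬ RingHom.ker red₁ ≤ n →
      ∃ x : B, x ≠ 0 ∧ red₃ x = 0 ∧
        ∀ z ∈ RingHom.ker red₃, ∃ t : B, t ∉ n ∧ t * z ∈ Ideal.span {x}) ∧
    (RingHom.ker red₂ ≤ n → ¬ RingHom.ker red₁ ≤ n → ¬ RingHom.ker red₃ ≤ n →
      ∃ θ : B, red₂ θ = 0 ∧ θ ≠ 0 ∧ ∃ e t : B, e ∉ n ∧ t ∉ n ∧ t * θ ^ (q - 1) = e * qB) := by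
  have hq2 : 2 ≤ q := hqp.out.two_le
  have hq1 : 1 ≤ q := by omega
  have hnp : n.IsPrime := hn.isPrime
  have hΦ' : PhiAt q r (algebraMap B' K' (V' ψ₀))⁻¹ (algebraMap B' K' (ι' ψ₀))⁻¹ = 0 := by
    rw [phiAt_symm q r hr]; exact hΦ
  have hΦu : PhiAt q r (algebraMap B K (ιu ψ₀))⁻¹ (algebraMap B K (ιv ψ₀))⁻¹ = 0 := by
    have := phiAt_inv_map α a ha q r (ι' ψ₀) (V' ψ₀) hΦ
    rwa [hαι, hαV] at this
  have hΦw : PhiAt q r (algebraMap B K (ιw ψ₀))⁻¹ (algebraMap B K (ιv ψ₀))⁻¹ = 0 := by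
    have := phiAt_inv_map β b hb q r (V' ψ₀) (ι' ψ₀) hΦ'
    rwa [hβι, hβV] at this
  obtain ⟨⟨Fu, hFu⟩, ⟨Fw, hFw⟩⟩ := exists_Fu_Fw (K := K) h hq1 ψ₀ hψ₀ hW r hr hΦu hΦw
  have hclass := cuspidal_class h hq2 ψ₀ hψ₀ hW Fu Fw hFu hFw n hnp hJ
  refine ⟨hclass, fun c1 c23 => ?_, fun c3 c2 _ => ?_, fun c2 _ _ => ?_⟩
  · exfalso
    rcases c23 with c2 | c3
    · exact cuspidal_not_first_middle h hq2 ψ₀ hψ₀ hW Fw hFw n hnp hJ ⟨c1, c2⟩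
    · exact cuspidal_not_first_third h hq2 ψ₀ hψ₀ hW Fw hFw n hnp hJ ⟨c1, c3⟩
  · exact absurd ⟨c2, c3⟩ (cuspidal_not_middle_third h hq2 ψ₀ hψ₀ hW Fu hFu n hnp hJ)
  · obtain ⟨-, -, θ, hθ, hθ0, hE, -, -⟩ := midCusp_all h h' hD hqB' hqB hq0 α β hαι hαV hβι hβV
      a b ha hb ψ₀ hψ₀ hW hne r hr hΦ n hn hqn c2 (cusp_mem_of_middle h hq2 ψ₀ hW n hnp c2 hJ).1
    exact ⟨θ, hθ, hθ0, hE⟩

end Inputs

end Fermat.Agent.S36.H89W
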