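import Mathlib
import Fermat.Agent.S36.H83_L0ThreePre
import Fermat.Agent.S36.H89_MidCuspSeam
import Fermat.Agent.S36.H25_NoCrossAtCuspInst
import Fermat.Agent.S36.H25_PhiAtRel
import Fermat.Agent.S36.H95_CoordJ3Inst
import Fermat.Agent.S34.H95_CoordJInst
import Fermat.Agent.S18.H97_FibreInst
import Fermat.Agent.S34.H83_L1Inst

/-!
# (M4r2)(I-main-A1): the middle cusps at the REAL TYPES, `A₁`-level chart 2 (helper25; S36)

`B₂ = chartB A₁ J₃⁻¹` (level `q² L`, `J₃ = j j_q j_{q²}`), with ANY `ThreeComponents` structure in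
the conclusion shape of `S36.H83.threeComponents_J3K_inv`.  Everything else is discharged here:

* the level-`(L, q)` `TwoComponents` on `B₂' = chartB A₁ (j j_q)⁻¹` (`S34.H55`),
* the two level maps `alphaA1 = chartMap ι₂`, `betaA1 = chartMap V₂ : B₂' →+* B₂` with the four
  identities `α ∘ ι' = ιu`, `α ∘ V' = ιv`, `β ∘ ι' = ιv`, `β ∘ V' = ιw`,
* `ψ₀ = 1/j`, `hW`, `rbar ψ₀ ≠ 0`, `ιw ψ₀ ≠ ιu ψ₀`,
* the symmetric Kronecker remainder `r` and the relation `Φ(1/ι'ψ₀ ; 1/V'ψ₀) = 0`,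
* all instances (`IsIntegrallyClosed`, `IsFractionRing`, `IsDedekindDomain`).

Output: `cuspidal_inputs_A1` (= the conclusion of `S36.H89W.cuspidal_inputs` at every maximal
`n ∋ q` with `ιu ψ₀ * ιv ψ₀ * ιw ψ₀ = J₃⁻¹ ∈ n`) and `hM4r2_A1` (= the `hA1` binder of
`S36.H97.hM4r2_transfer` / the `hM4r2` binder of `S36.H56.hE4_of_rows` at the `A₁`-level).
-/

set_option autoImplicit false
set_option linter.unusedSectionVars false
set_option linter.style.haveILetI false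
set_option synthInstance.maxHeartbeats 400000

noncomputable section

namespace Fermat.Agent.S36.H25

open ModularCurve Polynomial IsLocalRing Fermat.Agent.S28
open Fermat.Agent.S18 Fermat.Agent.S34 Fermat.Agent.S34.H55 Fermat.Agent.S34.H16
open Fermat.Agent.S36.H83

local notation "Qbar" => AlgebraicClosure ℚ

section MidCuspA1

variable (L : ℕ) [NeZero L] {q : ℕ} [hq : Fact q.Prime] (hqL : ¬ q ∣ L)
  (A : ValuationSubring Qbar) (hA : A.LiesOverPrime q)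

local notation "kA" => IsLocalRing.ResidueField A
local notation "A₁" => H45.A0 A q
local notation "L₁" => H45.unrCyclo q
local notation "F0" => modularFunctionFieldFullC (H45.unrCyclo q) L
local notation "F1" => modularFunctionFieldFullC (H45.unrCyclo q) (q * L)
local notation "F2" => modularFunctionFieldFullC (H45.unrCyclo q) (q * (q * L))
local notation "FkL" => modularFunctionFieldFullC (IsLocalRing.ResidueField A) L

/-! ### The two level maps on chart 2 -/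

/-- `V₂ ∘ ι₁ = ι₂ ∘ V₁`. -/
theorem VMN_iotaMN (x : F0) :
    VMN (q * L) (ℓ := q) (iotaMN L (ℓ := q) x) = iotaMN (q * L) (ℓ := q) (VMN L (ℓ := q) x) := by
  apply Subtype.ext
  rw [coe_VMN, coe_iotaMN, coe_iotaMN, coe_VMN]

/-- `(j j_q)⁻¹ = ι₁ (1/j) * V₁ (1/j)` in `F₁`. -/
theorem JN_inv_eq_mul' : (JN L (ℓ := q))⁻¹ =
    iotaMN L (ℓ := q) (S18.H16.jK L₁ L)⁻¹ * VMN L (ℓ := q) (S18.H16.jK L₁ L)⁻¹ := by
  rw [map_inv₀, map_inv₀, ← mul_inv]
  rfl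

theorem hαint : IsIntegral (Algebra.adjoin A₁ {(J3N L (q := q))⁻¹})
    (iotaMN (q * L) (ℓ := q) (JN L (ℓ := q))⁻¹) := by
  have h1 : iotaMN (q * L) (ℓ := q) (JN L (ℓ := q))⁻¹ =
      eU L (q := q) (S18.H16.jK L₁ L)⁻¹ * eV L (q := q) (S18.H16.jK L₁ L)⁻¹ := by
    rw [JN_inv_eq_mul' L, map_mul, eU_apply, eV_apply]
  rw [h1]
  exact IsIntegral.mul (huint2 L (q := q) A) (hvint2 L (q := q) A)

theorem hβint : IsIntegral (Algebra.adjoin A₁ {(J3N L (q := q))⁻¹})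
    (VMN (q * L) (ℓ := q) (JN L (ℓ := q))⁻¹) := by
  have h1 : VMN (q * L) (ℓ := q) (JN L (ℓ := q))⁻¹ =
      eV L (q := q) (S18.H16.jK L₁ L)⁻¹ * eW L (q := q) (S18.H16.jK L₁ L)⁻¹ := by
    rw [JN_inv_eq_mul' L, map_mul, VMN_iotaMN, eV_apply, eW_apply]
  rw [h1]
  exact IsIntegral.mul (hvint2 L (q := q) A) (hwint2 L (q := q) A)

/-- the level map `α : f(z) ↦ f(z)` on chart 2, `chartB A₁ (j j_q)⁻¹ → chartB A₁ J₃⁻¹`. -/
def alphaA1 : ↥(H40.chartB A₁ (JN L (ℓ := q))⁻¹) →+* ↥(H40.chartB A₁ (J3N L (q := q))⁻¹) :=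
  chartMap (iotaMN (q * L) (ℓ := q)) (iotaMN_algebraMap (q * L) A) (hαint L A)

/-- the level map `β : f(z) ↦ f(qz)` on chart 2. -/
def betaA1 : ↥(H40.chartB A₁ (JN L (ℓ := q))⁻¹) →+* ↥(H40.chartB A₁ (J3N L (q := q))⁻¹) :=
  chartMap (VMN (q * L) (ℓ := q)) (VMN_algebraMap (q * L) A) (hβint L A)

@[simp] theorem coe_alphaA1 (x : ↥(H40.chartB A₁ (JN L (ℓ := q))⁻¹)) :
    ((alphaA1 L A x : ↥(H40.chartB A₁ (J3N L (q := q))⁻¹)) : F2) =
      iotaMN (q * L) (ℓ := q) (x : F1) := rfl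

@[simp] theorem coe_betaA1 (x : ↥(H40.chartB A₁ (JN L (ℓ := q))⁻¹)) :
    ((betaA1 L A x : ↥(H40.chartB A₁ (J3N L (q := q))⁻¹)) : F2) =
      VMN (q * L) (ℓ := q) (x : F1) := rfl

theorem alphaA1_ι (ψ : ↥(H40.chartB A₁ (S18.H16.jK L₁ L)⁻¹)) :
    alphaA1 L A (chartMap (iotaMN L (ℓ := q)) (iotaMN_algebraMap L A) (hιint2 L A) ψ) =
      chartMap (eU L (q := q)) (eU_algebraMap L A) (huint2 L A) ψ :=
  Subtype.ext rfl

theorem alphaA1_V (ψ : ↥(H40.chartB A₁ (S18.H16.jK L₁ L)⁻¹)) :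
    alphaA1 L A (chartMap (VMN L (ℓ := q)) (VMN_algebraMap L A) (hVint2 L A) ψ) =
      chartMap (eV L (q := q)) (eV_algebraMap L A) (hvint2 L A) ψ :=
  Subtype.ext rfl

theorem betaA1_ι (ψ : ↥(H40.chartB A₁ (S18.H16.jK L₁ L)⁻¹)) :
    betaA1 L A (chartMap (iotaMN L (ℓ := q)) (iotaMN_algebraMap L A) (hιint2 L A) ψ) =
      chartMap (eV L (q := q)) (eV_algebraMap L A) (hvint2 L A) ψ :=
  Subtype.ext (VMN_iotaMN L (ψ : F0))

theorem betaA1_V (ψ : ↥(H40.chartB A₁ (S18.H16.jK L₁ L)⁻¹)) :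
    betaA1 L A (chartMap (VMN L (ℓ := q)) (VMN_algebraMap L A) (hVint2 L A) ψ) =
      chartMap (eW L (q := q)) (eW_algebraMap L A) (hwint2 L A) ψ :=
  Subtype.ext rfl

/-! ### The coordinate functions of chart 2 at the level `q² L` -/

/-- `ιw ψ₀ ≠ ιu ψ₀`: `1/j(q²z) ≠ 1/j(z)`. -/
theorem ιw_psi0_ne_ιu_psi0 :
    chartMap (eW L (q := q)) (eW_algebraMap L A) (hwint2 L A) (psi0 L A) ≠
      chartMap (eU L (q := q)) (eU_algebraMap L A) (huint2 L A) (psi0 L A) := by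
  intro h
  have h1 : eW L (q := q) (S18.H16.jK L₁ L)⁻¹ = eU L (q := q) (S18.H16.jK L₁ L)⁻¹ :=
    congrArg (fun b : ↥(H40.chartB A₁ (J3N L (q := q))⁻¹) => (b : F2)) h
  rw [map_inv₀, map_inv₀, inv_inj, eW_jK, eU_jK] at h1
  have h2 := congrArg (fun x : F2 => ((x : LaurentSeries L₁)).order) h1
  simp only [S18.H99.coe_jdK, S18.H16.coe_jK, H39.order_qExpand, H39.order_jqModC] at h2
  have hq2 : 2 ≤ q := hq.out.two_le
  have h3 : (4 : ℤ) ≤ ((q * q : ℕ) : ℤ) := by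
    have : 4 ≤ q * q := Nat.mul_le_mul hq2 hq2
    exact_mod_cast this
  omega

/-- `J₃⁻¹ = ιu ψ₀ * ιv ψ₀ * ιw ψ₀` in chart 2. -/
theorem coordInv3_eq_mul :
    (⟨(J3N L (q := q))⁻¹, H40.self_mem_chartB _⟩ : ↥(H40.chartB A₁ (J3N L (q := q))⁻¹)) =
      chartMap (eU L (q := q)) (eU_algebraMap L A) (huint2 L A) (psi0 L A) *
        chartMap (eV L (q := q)) (eV_algebraMap L A) (hvint2 L A) (psi0 L A) *
        chartMap (eW L (q := q)) (eW_algebraMap L A) (hwint2 L A) (psi0 L A) :=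
  Subtype.ext (J3N_inv_eq_mul L)

/-! ### The main theorems -/

/-- `D = integralClosure kA[1/j̄]` in `FullC kA L` is not a field. -/
theorem not_isField_D :
    ¬ IsField ↥(integralClosure (Algebra.adjoin kA {(S18.H16.jK kA L)⁻¹}) FkL) :=
  S34.H83.not_isField_integralClosure_adjoin (S18.H16.jK kA L)⁻¹
    (fun h => S18.H16.transcendental_jK kA L (IsAlgebraic.inv_iff.mp h))

set_option maxHeartbeats 3200000 in
/-- **(M4r2)(I-main-A1), full form**: the conclusion of `S36.H89W.cuspidal_inputs` at the REAL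
TYPES (chart 2 of the level `q² L` over `A₁`), for ANY `ThreeComponents` structure in the
vocabulary of `S36.H83.threeComponents_J3K_inv`, at every cuspidal closed point of the special
fibre. -/
theorem cuspidal_inputs_A1
    {red₁ red₂ red₃ : ↥(H40.chartB A₁ (J3N L (q := q))⁻¹) →+*
        ↥(integralClosure (Algebra.adjoin kA {(S18.H16.jK kA L)⁻¹}) FkL)}
    (h3 : ThreeComponents red₁ red₂ red₃
        (chartMap (eU L (q := q)) (eU_algebraMap L A) (huint2 L A))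
        (chartMap (eV L (q := q)) (eV_algebraMap L A) (hvint2 L A))
        (chartMap (eW L (q := q)) (eW_algebraMap L A) (hwint2 L A))
        (rbarB (Mod L hqL A hA) (hc2 L hqL A hA) (hcw2 L hqL A hA))
        (WR (FrM L A hA) q (hFrx_inv L A hA)) q
        (algebraMap A₁ ↥(H40.chartB A₁ (J3N L (q := q))⁻¹) ((q : ℕ) : A₁)))
    (n : Ideal ↥(H40.chartB A₁ (J3N L (q := q))⁻¹)) (hn : n.IsMaximal)
    (hqn : algebraMap A₁ ↥(H40.chartB A₁ (J3N L (q := q))⁻¹) ((q : ℕ) : A₁) ∈ n)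
    (hJ : chartMap (eU L (q := q)) (eU_algebraMap L A) (huint2 L A) (psi0 L A) *
        chartMap (eV L (q := q)) (eV_algebraMap L A) (hvint2 L A) (psi0 L A) *
        chartMap (eW L (q := q)) (eW_algebraMap L A) (hwint2 L A) (psi0 L A) ∈ n) :
    ((¬ RingHom.ker red₂ ≤ n ∧ ¬ RingHom.ker red₃ ≤ n) ∨
      (¬ RingHom.ker red₁ ≤ n ∧ ¬ RingHom.ker red₃ ≤ n) ∨
      (¬ RingHom.ker red₁ ≤ n ∧ ¬ RingHom.ker red₂ ≤ n)) ∧
    (RingHom.ker red₁ ≤ n → (RingHom.ker red₂ ≤ n ∨ RingHom.ker red₃ ≤ n) →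
      ∃ x : ↥(H40.chartB A₁ (J3N L (q := q))⁻¹), x ≠ 0 ∧ red₁ x = 0 ∧
        ∀ z ∈ RingHom.ker red₁, ∃ t : ↥(H40.chartB A₁ (J3N L (q := q))⁻¹),
          t ∉ n ∧ t * z ∈ Ideal.span {x}) ∧
    (RingHom.ker red₃ ≤ n → RingHom.ker red₂ ≤ n → ¬ RingHom.ker red₁ ≤ n →
      ∃ x : ↥(H40.chartB A₁ (J3N L (q := q))⁻¹), x ≠ 0 ∧ red₃ x = 0 ∧
        ∀ z ∈ RingHom.ker red₃, ∃ t : ↥(H40.chartB A₁ (J3N L (q := q))⁻¹),
          t ∉ n ∧ t * z ∈ Ideal.span {x}) ∧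
    (RingHom.ker red₂ ≤ n → ¬ RingHom.ker red₁ ≤ n → ¬ RingHom.ker red₃ ≤ n →
      ∃ θ : ↥(H40.chartB A₁ (J3N L (q := q))⁻¹), red₂ θ = 0 ∧ θ ≠ 0 ∧
        ∃ e t : ↥(H40.chartB A₁ (J3N L (q := q))⁻¹), e ∉ n ∧ t ∉ n ∧
          t * θ ^ (q - 1) =
            e * algebraMap A₁ ↥(H40.chartB A₁ (J3N L (q := q))⁻¹) ((q : ℕ) : A₁)) := by
  haveI : NeZero q := ⟨hq.out.ne_zero⟩
  -- instances
  haveI : IsFractionRing ↥(H40.chartB A₁ (JN L (ℓ := q))⁻¹) F1 :=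
    S34.H95.isFractionRing_chartB_JK_inv_A0 (A := A) (ℓ := q) (q * L) q (Dvd.intro L rfl)
  haveI : IsIntegrallyClosed ↥(H40.chartB A₁ (JN L (ℓ := q))⁻¹) :=
    S34.H95.isIntegrallyClosed_chartB_JK_inv_A0 (A := A) (ℓ := q) (q * L) q (Dvd.intro L rfl)
  haveI : IsFractionRing ↥(H40.chartB A₁ (J3N L (q := q))⁻¹) F2 :=
    S36.H95.isFractionRing_chartB_J3K_inv_A0 (A := A) (ℓ := q) (q * (q * L)) q (hq2_dvd L)
  haveI : IsIntegrallyClosed ↥(H40.chartB A₁ (J3N L (q := q))⁻¹) :=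
    S36.H95.isIntegrallyClosed_chartB_J3K_inv_A0 (A := A) (ℓ := q) (q * (q * L)) q (hq2_dvd L)
  haveI : IsDedekindDomain ↥(integralClosure (Algebra.adjoin kA {(S18.H16.jK kA L)⁻¹}) FkL) := by
    haveI := S18.H16.finiteDimensional_Fk L hqL A hA
    haveI := S18.H16.isSeparable_Fk L hqL A hA
    haveI := S18.H97.finiteDimensional_adjoin_inv (k := kA) (S18.H16.jK kA L)
    haveI := S18.H97.isSeparable_adjoin_inv (k := kA) (S18.H16.jK kA L)
    exact S18.H97.isDedekindDomain_intRing_of_isSeparable (S18.H16.jK kA L)⁻¹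
      (S18.H97.transcendental_inv (S18.H16.transcendental_jk L A))
  -- the level-`(L, q)` two-component structure on chart 2
  have hmp := S28.H16.hasModPoly q
  obtain ⟨D, hD⟩ := hmp
  have htc := S34.H55.exists_twoComponents_JK_inv L (ℓ := q) hqL A hA D hD
  obtain ⟨red₁', red₂', h'⟩ := htc
  -- the symmetric Kronecker remainder and the modular relation
  have hrr := exists_phiAt_rel_one q
  obtain ⟨r, hr, hrel⟩ := hrr
  have hΦ : H19.PhiAt q r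
      (algebraMap ↥(H40.chartB A₁ (JN L (ℓ := q))⁻¹) F1
        (chartMap (iotaMN L (ℓ := q)) (iotaMN_algebraMap L A) (hιint2 L A) (psi0 L A)))⁻¹
      (algebraMap ↥(H40.chartB A₁ (JN L (ℓ := q))⁻¹) F1
        (chartMap (VMN L (ℓ := q)) (VMN_algebraMap L A) (hVint2 L A) (psi0 L A)))⁻¹ = 0 := by
    have e1 : algebraMap ↥(H40.chartB A₁ (JN L (ℓ := q))⁻¹) F1
        (chartMap (iotaMN L (ℓ := q)) (iotaMN_algebraMap L A) (hιint2 L A) (psi0 L A)) =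
        (S18.H16.jK L₁ (q * L))⁻¹ := coe_uB L A
    have e2 : algebraMap ↥(H40.chartB A₁ (JN L (ℓ := q))⁻¹) F1
        (chartMap (VMN L (ℓ := q)) (VMN_algebraMap L A) (hVint2 L A) (psi0 L A)) =
        (S18.H99.jdK L₁ (q * L) q (Dvd.intro L rfl))⁻¹ := coe_vB L A
    rw [e1, e2, inv_inv, inv_inv]
    exact (hrel L₁ (q * L) (Dvd.intro L rfl)).2
  have hq0 : ((q : ℕ) : ↥(H40.chartB A₁ (J3N L (q := q))⁻¹)) ≠ 0 := by
    intro h0
    have h1 : ((q : ℕ) : F2) = 0 := by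
      have := congrArg (fun b : ↥(H40.chartB A₁ (J3N L (q := q))⁻¹) => (b : F2)) h0
      simpa using this
    haveI : CharZero F2 := charZero_of_injective_algebraMap (algebraMap L₁ F2).injective
    exact hq.out.ne_zero (Nat.cast_eq_zero.mp h1)
  exact H89W.cuspidal_inputs (K' := F1) (K := F2) h3 h' (not_isField_D L A)
    (map_natCast _ q) (map_natCast _ q) hq0
    (alphaA1 L A) (betaA1 L A) (alphaA1_ι L A) (alphaA1_V L A) (betaA1_ι L A) (betaA1_V L A)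
    (iotaMN (q * L) (ℓ := q)) (VMN (q * L) (ℓ := q)) (fun _ => rfl) (fun _ => rfl)
    (psi0 L A) (rbar_psi0_ne_zero L hqL A hA) (W_rbar_psi0 L hqL A hA)
    (ιw_psi0_ne_ιu_psi0 L A) r hr hΦ n hn hqn hJ

/-- **(M4r2)(I-main-A1)**: the `hA1` binder of `S36.H97.hM4r2_transfer` (= the `hM4r2` binder of
`S36.H56.hE4_of_rows` at the `A₁`-level) at the real types, with
`c = ιu ψ₀ * ιv ψ₀ * ιw ψ₀` (`= J₃⁻¹`, `coordInv3_eq_mul`). -/
theorem hM4r2_A1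
    {red₁ red₂ red₃ : ↥(H40.chartB A₁ (J3N L (q := q))⁻¹) →+*
        ↥(integralClosure (Algebra.adjoin kA {(S18.H16.jK kA L)⁻¹}) FkL)}
    (h3 : ThreeComponents red₁ red₂ red₃
        (chartMap (eU L (q := q)) (eU_algebraMap L A) (huint2 L A))
        (chartMap (eV L (q := q)) (eV_algebraMap L A) (hvint2 L A))
        (chartMap (eW L (q := q)) (eW_algebraMap L A) (hwint2 L A))
        (rbarB (Mod L hqL A hA) (hc2 L hqL A hA) (hcw2 L hqL A hA))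
        (WR (FrM L A hA) q (hFrx_inv L A hA)) q
        (algebraMap A₁ ↥(H40.chartB A₁ (J3N L (q := q))⁻¹) ((q : ℕ) : A₁))) :
    ∀ n : Ideal ↥(H40.chartB A₁ (J3N L (q := q))⁻¹), n.IsMaximal →
      algebraMap A₁ ↥(H40.chartB A₁ (J3N L (q := q))⁻¹) ((q : ℕ) : A₁) ∈ n →
      chartMap (eU L (q := q)) (eU_algebraMap L A) (huint2 L A) (psi0 L A) *
        chartMap (eV L (q := q)) (eV_algebraMap L A) (hvint2 L A) (psi0 L A) *
        chartMap (eW L (q := q)) (eW_algebraMap L A) (hwint2 L A) (psi0 L A) ∈ n →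
      RingHom.ker red₂ ≤ n →
      ∃ θ : ↥(H40.chartB A₁ (J3N L (q := q))⁻¹), red₂ θ = 0 ∧ θ ≠ 0 ∧
        ∃ e t : ↥(H40.chartB A₁ (J3N L (q := q))⁻¹), e ∉ n ∧ t ∉ n ∧
          t * θ ^ (q - 1) =
            e * algebraMap A₁ ↥(H40.chartB A₁ (J3N L (q := q))⁻¹) ((q : ℕ) : A₁) := by
  intro n hn hqn hJ hk2
  have key := cuspidal_inputs_A1 L hqL A hA h3 n hn hqn hJ
  obtain ⟨hclass, -, -, hmid⟩ := key
  rcases hclass with ⟨h2, -⟩ | ⟨h1, h3'⟩ | ⟨-, h2⟩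
  · exact absurd hk2 h2
  · exact hmid hk2 h1 h3'
  · exact absurd hk2 h2

/-- the same with the cuspidality hypothesis in the form `J₃⁻¹ ∈ n`. -/
theorem hM4r2_A1_coord
    {red₁ red₂ red₃ : ↥(H40.chartB A₁ (J3N L (q := q))⁻¹) →+*
        ↥(integralClosure (Algebra.adjoin kA {(S18.H16.jK kA L)⁻¹}) FkL)}
    (h3 : ThreeComponents red₁ red₂ red₃
        (chartMap (eU L (q := q)) (eU_algebraMap L A) (huint2 L A))
        (chartMap (eV L (q := q)) (eV_algebraMap L A) (hvint2 L A))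
        (chartMap (eW L (q := q)) (eW_algebraMap L A) (hwint2 L A))
        (rbarB (Mod L hqL A hA) (hc2 L hqL A hA) (hcw2 L hqL A hA))
        (WR (FrM L A hA) q (hFrx_inv L A hA)) q
        (algebraMap A₁ ↥(H40.chartB A₁ (J3N L (q := q))⁻¹) ((q : ℕ) : A₁))) :
    ∀ n : Ideal ↥(H40.chartB A₁ (J3N L (q := q))⁻¹), n.IsMaximal →
      algebraMap A₁ ↥(H40.chartB A₁ (J3N L (q := q))⁻¹) ((q : ℕ) : A₁) ∈ n →
      (⟨(J3N L (q := q))⁻¹, H40.self_mem_chartB _⟩ : ↥(H40.chartB A₁ (J3N L (q := q))⁻¹)) ∈ n →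
      RingHom.ker red₂ ≤ n →
      ∃ θ : ↥(H40.chartB A₁ (J3N L (q := q))⁻¹), red₂ θ = 0 ∧ θ ≠ 0 ∧
        ∃ e t : ↥(H40.chartB A₁ (J3N L (q := q))⁻¹), e ∉ n ∧ t ∉ n ∧
          t * θ ^ (q - 1) =
            e * algebraMap A₁ ↥(H40.chartB A₁ (J3N L (q := q))⁻¹) ((q : ℕ) : A₁) := by
  intro n hn hqn hJ hk2
  rw [coordInv3_eq_mul L A] at hJ
  exact hM4r2_A1 L hqL A hA h3 n hn hqn hJ hk2

end MidCuspA1

end Fermat.Agent.S36.H25
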