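/-
helper97: S36, row (M4r2) MIDDLE CUSPS, route (B) of (I-main-E): TRANSFER of the unit statement
`hE` (and of helper56's binder `hM4r2`) along an injective integral ring hom `φ : B → B''`
(the base change of charts `chartB A₁ J → chartB (cutOver A E) (bc J)`), compatible with the
middle reductions.  Mathlib only.
-/
import Mathlib

set_option autoImplicit false

namespace Fermat.Agent.S36.H97

section Transfer

variable {B B'' D : Type*} [CommRing B] [CommRing B''] [CommRing D]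

/-- **Transfer at one point.**  `n''` maximal in `B''`, `n := φ⁻¹ n''`; a witness `(θ, e, t)` of
`hE` at `n` maps to a witness at `n''`. -/
theorem hE_map (φ : B →+* B'') (hφ : Function.Injective φ)
    (red₂ : B →+* D) (red₂'' : B'' →+* D) (hred : ∀ z, red₂'' (φ z) = red₂ z)
    (q : ℕ) (qB : B) (n'' : Ideal B'')
    (h : ∃ θ : B, red₂ θ = 0 ∧ θ ≠ 0 ∧ ∃ e t : B, e ∉ n''.comap φ ∧ t ∉ n''.comap φ ∧
      t * θ ^ (q - 1) = e * qB) :
    ∃ θ : B'', red₂'' θ = 0 ∧ θ ≠ 0 ∧ ∃ e t : B'', e ∉ n'' ∧ t ∉ n'' ∧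
      t * θ ^ (q - 1) = e * φ qB := by
  obtain ⟨θ, hθ, hθ0, e, t, he, ht, hE⟩ := h
  refine ⟨φ θ, by rw [hred, hθ], fun h0 => hθ0 (hφ (by rw [h0, map_zero])), φ e, φ t,
    fun h' => he (Ideal.mem_comap.2 h'), fun h' => ht (Ideal.mem_comap.2 h'), ?_⟩
  rw [← map_pow, ← map_mul, hE, map_mul]

/-- **Transfer of the (M4r2) binder** (`hM4r2` of `S36.H56.hE4_of_rows`): if `hE` holds at every
cuspidal (`c ∈ n`) closed point of the middle component of `B`, it holds at every cuspidal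
(`φ c ∈ n''`) closed point of the middle component of `B''`. -/
theorem hM4r2_transfer (φ : B →+* B'') (hφ : Function.Injective φ) (hφint : φ.IsIntegral)
    (red₂ : B →+* D) (red₂'' : B'' →+* D) (hred : ∀ z, red₂'' (φ z) = red₂ z)
    (q : ℕ) (qB c : B)
    (hA1 : ∀ n : Ideal B, n.IsMaximal → qB ∈ n → c ∈ n → RingHom.ker red₂ ≤ n →
      ∃ θ : B, red₂ θ = 0 ∧ θ ≠ 0 ∧ ∃ e t : B, e ∉ n ∧ t ∉ n ∧ t * θ ^ (q - 1) = e * qB)
    (n'' : Ideal B'') (hn'' : n''.IsMaximal) (hq : φ qB ∈ n'') (hc : φ c ∈ n'')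
    (hker : RingHom.ker red₂'' ≤ n'') :
    ∃ θ : B'', red₂'' θ = 0 ∧ θ ≠ 0 ∧ ∃ e t : B'', e ∉ n'' ∧ t ∉ n'' ∧
      t * θ ^ (q - 1) = e * φ qB := by
  have hmax : (n''.comap φ).IsMaximal :=
    Ideal.isMaximal_comap_of_isIntegral_of_isMaximal' φ hφint n''
  have hker' : RingHom.ker red₂ ≤ n''.comap φ := by
    intro z hz
    refine Ideal.mem_comap.2 (hker ((RingHom.mem_ker).2 ?_))
    rw [hred]
    exact (RingHom.mem_ker).1 hz
  exact hE_map φ hφ red₂ red₂'' hred q qB n''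
    (hA1 (n''.comap φ) hmax (Ideal.mem_comap.2 hq) (Ideal.mem_comap.2 hc) hker')

end Transfer

end Fermat.Agent.S36.H97
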