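import Mathlib
import Fermat.Agent.S36.H97_MidCuspTransfer
import Fermat.Agent.S34.H95_ChartBC
import Fermat.Agent.S34.H70_BaseChangeInst

/-!
# S36, row (M4r2), (I-main-E) (helper89): transfer of the middle-cusp unit statement from the
`A₁`-chart to the `A''`-chart, WITHOUT integrality

`A₁ := A0 A ℓ`, `A'' := cutOver A E`, `φ := S34.H95.chartBC : chartB A₁ J₁ → chartB A'' J_E`.
For a finite unramified `E ≠ L₁` the ring `A''` is NOT integral over `A₁` (the prime of `A₁`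
splits completely: residue field algebraically closed, `e = f = 1`), so `φ` is not integral and
`S36.H97.hM4r2_transfer` cannot be instantiated.  What is true: for a closed point `n'' ∋ π` of the
`A''`-chart the residue field is `A''/π = A₁/ℓ`, hence `φ⁻¹ n''` is maximal.

* `isMaximal_comap_of_res` : `φ⁻¹ n''` is maximal when every residue class of `φ(B)` mod `n''` is
  represented by a constant from the local ring `A₁`.
* `hM4r2_transfer_of_res` : `S36.H97.hM4r2_transfer` with `(hm, hres)` instead of `hφint`.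
* `hM4r2_chartBC` : the real types, in the binder shape `hM4r2` of `S36.H56.hE4_of_rows` /
  `S36.H69.geo36_*` at one closed point of the `A''`-chart (`π := ℓ`, unramified).
-/

set_option autoImplicit false
set_option linter.unusedSectionVars false
set_option linter.style.haveILetI false
set_option synthInstance.maxHeartbeats 400000
set_option maxHeartbeats 3200000

namespace Fermat.Agent.S36.H89T

open IsLocalRing

/-! ### Generic -/

section Generic

variable {A₁ B B'' D : Type*} [CommRing A₁] [IsLocalRing A₁] [CommRing B] [Algebra A₁ B]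
  [CommRing B''] [CommRing D]

/-- **`φ⁻¹ n''` is maximal** if modulo `n''` every element of `φ(B)` is a constant from the local
ring `A₁` whose maximal ideal goes into `n''`. -/
theorem isMaximal_comap_of_res (φ : B →+* B'') (n'' : Ideal B'') (hn'' : n''.IsMaximal)
    (hm : ∀ c ∈ maximalIdeal A₁, φ (algebraMap A₁ B c) ∈ n'')
    (hres : ∀ b : B, ∃ c : A₁, φ b - φ (algebraMap A₁ B c) ∈ n'') :
    (n''.comap φ).IsMaximal := by
  have hp'' : n''.IsPrime := hn''.isPrime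
  have hprime : (n''.comap φ).IsPrime := Ideal.comap_isPrime φ n''
  rw [Ideal.isMaximal_iff]
  refine ⟨fun h1 => hprime.ne_top ((Ideal.eq_top_iff_one _).2 h1), fun I b hnI hbn hbI => ?_⟩
  obtain ⟨c, hc⟩ := hres b
  have hcn : b - algebraMap A₁ B c ∈ n''.comap φ := by
    rw [Ideal.mem_comap, map_sub]; exact hc
  have hcu : IsUnit c := by
    by_contra hcu
    have h1 := hm c ((mem_maximalIdeal c).2 hcu)
    apply hbn
    rw [Ideal.mem_comap]
    have := n''.add_mem hc h1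
    rwa [sub_add_cancel] at this
  have hcI : algebraMap A₁ B c ∈ I := by
    have := I.sub_mem hbI (hnI hcn)
    rwa [sub_sub_cancel] at this
  obtain ⟨u, rfl⟩ := hcu
  have h2 : algebraMap A₁ B ((u⁻¹ : A₁ˣ) : A₁) * algebraMap A₁ B (u : A₁) ∈ I :=
    I.mul_mem_left _ hcI
  rwa [← map_mul, Units.inv_mul, map_one] at h2

/-- **Transfer of the (M4r2) binder without integrality.** -/
theorem hM4r2_transfer_of_res (φ : B →+* B'') (hφ : Function.Injective φ)
    (red₂ : B →+* D) (red₂'' : B'' →+* D) (hred : ∀ z, red₂'' (φ z) = red₂ z)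
    (q : ℕ) (qB c : B)
    (hA1 : ∀ n : Ideal B, n.IsMaximal → qB ∈ n → c ∈ n → RingHom.ker red₂ ≤ n →
      ∃ θ : B, red₂ θ = 0 ∧ θ ≠ 0 ∧ ∃ e t : B, e ∉ n ∧ t ∉ n ∧ t * θ ^ (q - 1) = e * qB)
    (n'' : Ideal B'') (hn'' : n''.IsMaximal)
    (hm : ∀ c ∈ maximalIdeal A₁, φ (algebraMap A₁ B c) ∈ n'')
    (hres : ∀ b : B, ∃ c : A₁, φ b - φ (algebraMap A₁ B c) ∈ n'')
    (hq : φ qB ∈ n'') (hc : φ c ∈ n'') (hker : RingHom.ker red₂'' ≤ n'') :
    ∃ θ : B'', red₂'' θ = 0 ∧ θ ≠ 0 ∧ ∃ e t : B'', e ∉ n'' ∧ t ∉ n'' ∧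
      t * θ ^ (q - 1) = e * φ qB := by
  have hmax : (n''.comap φ).IsMaximal := isMaximal_comap_of_res φ n'' hn'' hm hres
  have hker' : RingHom.ker red₂ ≤ n''.comap φ := by
    intro z hz
    refine Ideal.mem_comap.2 (hker ((RingHom.mem_ker).2 ?_))
    rw [hred]
    exact (RingHom.mem_ker).1 hz
  exact H97.hE_map φ hφ red₂ red₂'' hred q qB n''
    (hA1 (n''.comap φ) hmax (Ideal.mem_comap.2 hq) (Ideal.mem_comap.2 hc) hker')

end Generic

section GenericRes

variable {A₁ R B B'' D : Type*} [CommRing A₁] [IsLocalRing A₁] [CommRing R] [Algebra A₁ R]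
  [CommRing B] [Algebra A₁ B] [CommRing B''] [Algebra R B''] [CommRing D]

/-- **Transfer of the (M4r2) binder, base-change form**: `A₁ → R` local rings with
`R = A₁ + π R`, `φ : B → B''` over `A₁ → R`, closed points of `B''` with residue field `R/π`
(`hresB`). -/
theorem hM4r2_transfer_of_hresB (φ : B →+* B'') (hφ : Function.Injective φ)
    (hφc : ∀ c : A₁, φ (algebraMap A₁ B c) = algebraMap R B'' (algebraMap A₁ R c))
    (ℓ₁ : A₁) (hmax : maximalIdeal A₁ = Ideal.span {ℓ₁}) (π : R)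
    (hπ : algebraMap A₁ R ℓ₁ = π)
    (hdec : ∀ r : R, ∃ c : A₁, ∃ a' : R, r = algebraMap A₁ R c + π * a')
    (red₂ : B →+* D) (red₂'' : B'' →+* D) (hred : ∀ z, red₂'' (φ z) = red₂ z)
    (q : ℕ) (c : B) (c'' : B'') (hcc : φ c = c'')
    (hA1 : ∀ n : Ideal B, n.IsMaximal → algebraMap A₁ B ℓ₁ ∈ n → c ∈ n →
      RingHom.ker red₂ ≤ n →
      ∃ θ : B, red₂ θ = 0 ∧ θ ≠ 0 ∧ ∃ e t : B, e ∉ n ∧ t ∉ n ∧
        t * θ ^ (q - 1) = e * algebraMap A₁ B ℓ₁)
    (n'' : Ideal B'') (hn'' : n''.IsMaximal) (hπn : algebraMap R B'' π ∈ n'')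
    (hresB : ∀ b'' : B'', ∃ r : R, b'' - algebraMap R B'' r ∈ n'')
    (hc : c'' ∈ n'') (hker : RingHom.ker red₂'' ≤ n'') :
    ∃ θ : B'', red₂'' θ = 0 ∧ θ ≠ 0 ∧ ∃ e t : B'', e ∉ n'' ∧ t ∉ n'' ∧
      t * θ ^ (q - 1) = e * algebraMap R B'' π := by
  have hφℓ : φ (algebraMap A₁ B ℓ₁) = algebraMap R B'' π := by rw [hφc, hπ]
  have hm : ∀ c ∈ maximalIdeal A₁, φ (algebraMap A₁ B c) ∈ n'' := by
    intro c hc'
    rw [hmax, Ideal.mem_span_singleton] at hc'
    obtain ⟨c', rfl⟩ := hc'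
    rw [map_mul, map_mul, hφℓ]
    exact n''.mul_mem_right _ hπn
  have hres : ∀ b : B, ∃ c : A₁, φ b - φ (algebraMap A₁ B c) ∈ n'' := by
    intro b
    obtain ⟨r, hr⟩ := hresB (φ b)
    obtain ⟨c, a', hca⟩ := hdec r
    refine ⟨c, ?_⟩
    rw [hφc]
    have h2 : φ b - algebraMap R B'' (algebraMap A₁ R c) =
        (φ b - algebraMap R B'' r) + algebraMap R B'' π * algebraMap R B'' a' := by
      rw [hca, map_add, map_mul]; ring
    rw [h2]
    exact n''.add_mem hr (n''.mul_mem_right _ hπn)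
  have key := hM4r2_transfer_of_res (A₁ := A₁) φ hφ red₂ red₂'' hred q (algebraMap A₁ B ℓ₁) c
    hA1 n'' hn'' hm hres (by rw [hφℓ]; exact hπn) (by rw [hcc]; exact hc) hker
  rw [hφℓ] at key
  exact key

end GenericRes

/-! ### The real types -/

section Real

open ModularCurve Fermat.Agent.S18 Fermat.Agent.S18.H45 Fermat.Agent.S34.H95

local notation "Qbar" => AlgebraicClosure ℚ

variable {A : ValuationSubring Qbar} {ℓ : ℕ} (hℓ : ℓ.Prime) (hA : A.LiesOverPrime ℓ)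
variable (E : IntermediateField (unrCyclo ℓ) Qbar) (N : ℕ) [NeZero N]
  (J₁ : modularFunctionFieldFullC (unrCyclo ℓ) N) (J_E : modularFunctionFieldFullC ↥E N)
  (hJ : baseChangeE E N J₁ = J_E)

include hℓ hA in
/-- **(I-main-E), one closed point.**  `hA1` = the `A₁`-level theorem (helper25's
`(I-main-A1)`, with `c := coordB J₁`, i.e. `J₃⁻¹ = ιu ψ₀ * ιv ψ₀ * ιw ψ₀`); `hred` = the clause
`red₂'' ∘ chartBC = red₂` of `S36.H70.exists_threeComponents_chartBC_unram`; `hresB` = the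
residue hypothesis of `S36.H85.hpt_of_levelMaps_fixed` (`S34.H83.hres_of_isAlgClosed`).
Conclusion = the body of the binder `hM4r2` of `S36.H56.hE4_of_rows` at `n''`. -/
theorem hM4r2_chartBC {D : Type*} [CommRing D]
    (hunr : maximalIdeal ↥(cutOver A E) = Ideal.span {((ℓ : ℕ) : ↥(cutOver A E))})
    (red₂ : ↥(H40.chartB (A0 A ℓ) J₁) →+* D) (red₂'' : ↥(H40.chartB (cutOver A E) J_E) →+* D)
    (hred : ∀ b, red₂'' (chartBC E N J₁ J_E hJ b) = red₂ b) (q : ℕ)
    (hA1 : ∀ n : Ideal ↥(H40.chartB (A0 A ℓ) J₁), n.IsMaximal →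
      algebraMap (A0 A ℓ) ↥(H40.chartB (A0 A ℓ) J₁) ((ℓ : ℕ) : A0 A ℓ) ∈ n →
      coordB (R := A0 A ℓ) J₁ ∈ n → RingHom.ker red₂ ≤ n →
      ∃ θ : ↥(H40.chartB (A0 A ℓ) J₁), red₂ θ = 0 ∧ θ ≠ 0 ∧
        ∃ e t : ↥(H40.chartB (A0 A ℓ) J₁), e ∉ n ∧ t ∉ n ∧
          t * θ ^ (q - 1) =
            e * algebraMap (A0 A ℓ) ↥(H40.chartB (A0 A ℓ) J₁) ((ℓ : ℕ) : A0 A ℓ))
    (n'' : Ideal ↥(H40.chartB (cutOver A E) J_E)) (hn'' : n''.IsMaximal)
    (hπn : algebraMap ↥(cutOver A E) ↥(H40.chartB (cutOver A E) J_E)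
      ((ℓ : ℕ) : ↥(cutOver A E)) ∈ n'')
    (hresB : ∀ b'' : ↥(H40.chartB (cutOver A E) J_E), ∃ r : ↥(cutOver A E),
      b'' - algebraMap ↥(cutOver A E) ↥(H40.chartB (cutOver A E) J_E) r ∈ n'')
    (hc : coordB (R := cutOver A E) J_E ∈ n'') (hker : RingHom.ker red₂'' ≤ n'') :
    ∃ θ : ↥(H40.chartB (cutOver A E) J_E), red₂'' θ = 0 ∧ θ ≠ 0 ∧
      ∃ e t : ↥(H40.chartB (cutOver A E) J_E), e ∉ n'' ∧ t ∉ n'' ∧
        t * θ ^ (q - 1) =
          e * algebraMap ↥(cutOver A E) ↥(H40.chartB (cutOver A E) J_E)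
            ((ℓ : ℕ) : ↥(cutOver A E)) := by
  exact hM4r2_transfer_of_hresB (A₁ := A0 A ℓ) (R := ↥(cutOver A E)) (chartBC E N J₁ J_E hJ)
    (chartBC_injective E N J₁ J_E hJ) (chartBC_algebraMap E N J₁ J_E hJ)
    ((ℓ : ℕ) : A0 A ℓ) (maximalIdeal_A0_eq hℓ hA) ((ℓ : ℕ) : ↥(cutOver A E))
    (map_natCast _ ℓ) (exists_A0_add_mul hℓ hA E _ hunr) red₂ red₂'' hred q
    (coordB (R := A0 A ℓ) J₁) (coordB (R := cutOver A E) J_E) (chartBC_coordB E N J₁ J_E hJ)
    hA1 n'' hn'' hπn hresB hc hker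

end Real

end Fermat.Agent.S36.H89T
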