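import Mathlib
import Fermat.Agent.S36.H89_MidCuspTransferE
import Fermat.Agent.S36.H25_MidCuspInstA1
import Fermat.Agent.S34.H21_ModelHypCharts

/-!
# S36, row (OVL-b)-inst (helper85): the hypothesis `hcusp` of `S36.H56.hE4_real(_chartB)` /
`S36.H85.hpt_real` AT THE REAL TYPES, by transfer from the `A₁`-chart

"At most one vertical component passes through a closed point at infinity of chart 2" is known at
the `A₁`-level (helper25's `S36.H25.cuspidal_inputs_A1`, first conjunct).  It passes to the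
`A'' = cutOver A E`-chart along `φ := S34.H95.chartBC` exactly like helper89's
`S36.H89T.hM4r2_chartBC`: for a closed point `n'' ∋ π` of the `A''`-chart, `n := φ⁻¹ n''` is a
closed point of the `A₁`-chart (`H89T.isMaximal_comap_of_res`, from `hresB`), `q, J₃⁻¹ ∈ n`, and
`ker red_i'' ≤ n'' ⟹ ker red_i ≤ n` by the clause `red_i'' ∘ chartBC = red_i`.  NO level maps,
NO `ThreeComponents` structure and NO modular relation are needed at the `E`-level.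

* `class_transfer_of_res`, `class_transfer_of_hresB` : generic.
* `hclass_chartBC` : the real types, `(S2)`-generic form of Ruling 8 (`(J_E) (hJ)`, ANY `red''`
  with the clause).
* `exists_unique_of_class'`, `hcusp_chartBC` : the `hcusp` binder, verbatim.
* (the instantiation with helper25's `A₁`-level theorem plugged in, `J₁ := (J3N L)⁻¹`, is in
  `S36/H85_CuspTransferJ3`.)
-/

set_option autoImplicit false
set_option linter.unusedSectionVars false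
set_option linter.style.haveILetI false
set_option synthInstance.maxHeartbeats 400000
set_option maxHeartbeats 3200000

namespace Fermat.Agent.S36.H85

open IsLocalRing

/-! ### Generic -/

section Generic

variable {A₁ B B'' D : Type*} [CommRing A₁] [IsLocalRing A₁] [CommRing B] [Algebra A₁ B]
  [CommRing B''] [CommRing D]

/-- `ker red'' ≤ n'' ⟹ ker red ≤ φ⁻¹ n''` when `red'' ∘ φ = red`. -/
theorem ker_le_comap_of_comp (φ : B →+* B'') (red : B →+* D) (red'' : B'' →+* D)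
    (hred : ∀ z, red'' (φ z) = red z) (n'' : Ideal B'') (h : RingHom.ker red'' ≤ n'') :
    RingHom.ker red ≤ n''.comap φ := by
  intro z hz
  refine Ideal.mem_comap.2 (h ((RingHom.mem_ker).2 ?_))
  rw [hred]
  exact (RingHom.mem_ker).1 hz

/-- **Transfer of the classification "at most one component" without integrality.** -/
theorem class_transfer_of_res (φ : B →+* B'')
    (red₁ red₂ red₃ : B →+* D) (red₁'' red₂'' red₃'' : B'' →+* D)
    (hred₁ : ∀ z, red₁'' (φ z) = red₁ z) (hred₂ : ∀ z, red₂'' (φ z) = red₂ z)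
    (hred₃ : ∀ z, red₃'' (φ z) = red₃ z) (qB c : B)
    (hA1 : ∀ n : Ideal B, n.IsMaximal → qB ∈ n → c ∈ n →
      (¬ RingHom.ker red₂ ≤ n ∧ ¬ RingHom.ker red₃ ≤ n) ∨
      (¬ RingHom.ker red₁ ≤ n ∧ ¬ RingHom.ker red₃ ≤ n) ∨
      (¬ RingHom.ker red₁ ≤ n ∧ ¬ RingHom.ker red₂ ≤ n))
    (n'' : Ideal B'') (hn'' : n''.IsMaximal)
    (hm : ∀ c ∈ maximalIdeal A₁, φ (algebraMap A₁ B c) ∈ n'')
    (hres : ∀ b : B, ∃ c : A₁, φ b - φ (algebraMap A₁ B c) ∈ n'')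
    (hq : φ qB ∈ n'') (hc : φ c ∈ n'') :
    (¬ RingHom.ker red₂'' ≤ n'' ∧ ¬ RingHom.ker red₃'' ≤ n'') ∨
    (¬ RingHom.ker red₁'' ≤ n'' ∧ ¬ RingHom.ker red₃'' ≤ n'') ∨
    (¬ RingHom.ker red₁'' ≤ n'' ∧ ¬ RingHom.ker red₂'' ≤ n'') := by
  have hmax : (n''.comap φ).IsMaximal := H89T.isMaximal_comap_of_res φ n'' hn'' hm hres
  have k1 := ker_le_comap_of_comp φ red₁ red₁'' hred₁ n''
  have k2 := ker_le_comap_of_comp φ red₂ red₂'' hred₂ n''
  have k3 := ker_le_comap_of_comp φ red₃ red₃'' hred₃ n''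
  rcases hA1 (n''.comap φ) hmax (Ideal.mem_comap.2 hq) (Ideal.mem_comap.2 hc) with
    ⟨a, b⟩ | ⟨a, b⟩ | ⟨a, b⟩
  · exact Or.inl ⟨fun h => a (k2 h), fun h => b (k3 h)⟩
  · exact Or.inr (Or.inl ⟨fun h => a (k1 h), fun h => b (k3 h)⟩)
  · exact Or.inr (Or.inr ⟨fun h => a (k1 h), fun h => b (k2 h)⟩)

end Generic

section GenericRes

variable {A₁ R B B'' D : Type*} [CommRing A₁] [IsLocalRing A₁] [CommRing R] [Algebra A₁ R]
  [CommRing B] [Algebra A₁ B] [CommRing B''] [Algebra R B''] [CommRing D]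

/-- **Transfer of the classification, base-change form** (`A₁ → R` local rings with
`R = A₁ + π R`, `φ : B → B''` over `A₁ → R`, closed points of `B''` with residue field `R/π`). -/
theorem class_transfer_of_hresB (φ : B →+* B'')
    (hφc : ∀ c : A₁, φ (algebraMap A₁ B c) = algebraMap R B'' (algebraMap A₁ R c))
    (ℓ₁ : A₁) (hmax : maximalIdeal A₁ = Ideal.span {ℓ₁}) (π : R)
    (hπ : algebraMap A₁ R ℓ₁ = π)
    (hdec : ∀ r : R, ∃ c : A₁, ∃ a' : R, r = algebraMap A₁ R c + π * a')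
    (red₁ red₂ red₃ : B →+* D) (red₁'' red₂'' red₃'' : B'' →+* D)
    (hred₁ : ∀ z, red₁'' (φ z) = red₁ z) (hred₂ : ∀ z, red₂'' (φ z) = red₂ z)
    (hred₃ : ∀ z, red₃'' (φ z) = red₃ z) (c : B) (c'' : B'') (hcc : φ c = c'')
    (hA1 : ∀ n : Ideal B, n.IsMaximal → algebraMap A₁ B ℓ₁ ∈ n → c ∈ n →
      (¬ RingHom.ker red₂ ≤ n ∧ ¬ RingHom.ker red₃ ≤ n) ∨
      (¬ RingHom.ker red₁ ≤ n ∧ ¬ RingHom.ker red₃ ≤ n) ∨
      (¬ RingHom.ker red₁ ≤ n ∧ ¬ RingHom.ker red₂ ≤ n))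
    (n'' : Ideal B'') (hn'' : n''.IsMaximal) (hπn : algebraMap R B'' π ∈ n'')
    (hresB : ∀ b'' : B'', ∃ r : R, b'' - algebraMap R B'' r ∈ n'')
    (hc : c'' ∈ n'') :
    (¬ RingHom.ker red₂'' ≤ n'' ∧ ¬ RingHom.ker red₃'' ≤ n'') ∨
    (¬ RingHom.ker red₁'' ≤ n'' ∧ ¬ RingHom.ker red₃'' ≤ n'') ∨
    (¬ RingHom.ker red₁'' ≤ n'' ∧ ¬ RingHom.ker red₂'' ≤ n'') := by
  have hφℓ : φ (algebraMap A₁ B ℓ₁) = algebraMap R B'' π := by rw [hφc, hπ]
  have hm : ∀ c ∈ maximalIdeal A₁, φ (algebraMap A₁ B c) ∈ n'' := by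
    intro c hc'
    rw [hmax, Ideal.mem_span_singleton] at hc'
    obtain ⟨c', rfl⟩ := hc'
    rw [map_mul, map_mul, hφℓ]
    exact n''.mul_mem_right _ hπn
  have hres : ∀ b : B, ∃ c : A₁, φ b - φ (algebraMap A₁ B c) ∈ n'' := by
    intro b
    obtain ⟨r, hr⟩ := hresB (φ b)
    obtain ⟨c, a', hca⟩ := hdec r
    refine ⟨c, ?_⟩
    rw [hφc]
    have h2 : φ b - algebraMap R B'' (algebraMap A₁ R c) =
        (φ b - algebraMap R B'' r) + algebraMap R B'' π * algebraMap R B'' a' := by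
      rw [hca, map_add, map_mul]; ring
    rw [h2]
    exact n''.add_mem hr (n''.mul_mem_right _ hπn)
  exact class_transfer_of_res (A₁ := A₁) φ red₁ red₂ red₃ red₁'' red₂'' red₃'' hred₁ hred₂ hred₃
    (algebraMap A₁ B ℓ₁) c hA1 n'' hn'' hm hres (by rw [hφℓ]; exact hπn) (by rw [hcc]; exact hc)

end GenericRes

section Class

variable {B D : Type*} [CommRing B] [CommRing D] {red₁ red₂ red₃ : B →+* D}

/-- At most one of the three kernels below `n` ⟹ the left disjunct of `hpt`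
(twin of `H85.exists_unique_of_class`, kept here so that this file stays light). -/
theorem exists_unique_of_class' (P : Fin 3 → Ideal B) (hP0 : P 0 = RingHom.ker red₁)
    (hP1 : P 1 = RingHom.ker red₂) (hP2 : P 2 = RingHom.ker red₃) (n : Ideal B)
    (hclass : (¬ RingHom.ker red₂ ≤ n ∧ ¬ RingHom.ker red₃ ≤ n) ∨
      (¬ RingHom.ker red₁ ≤ n ∧ ¬ RingHom.ker red₃ ≤ n) ∨
      (¬ RingHom.ker red₁ ≤ n ∧ ¬ RingHom.ker red₂ ≤ n)) :
    ∃ i₀, ∀ i, P i ≤ n → i = i₀ := by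
  rw [← hP0, ← hP1, ← hP2] at hclass
  rcases hclass with ⟨n1, n2⟩ | ⟨n0, n2⟩ | ⟨n0, n1⟩
  · refine ⟨0, fun i hi => ?_⟩
    fin_cases i
    · rfl
    · exact absurd hi n1
    · exact absurd hi n2
  · refine ⟨1, fun i hi => ?_⟩
    fin_cases i
    · exact absurd hi n0
    · rfl
    · exact absurd hi n2
  · refine ⟨2, fun i hi => ?_⟩
    fin_cases i
    · exact absurd hi n0
    · exact absurd hi n1
    · rfl

end Class

/-! ### The real types -/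

section Real

open ModularCurve Fermat.Agent.S18 Fermat.Agent.S18.H45 Fermat.Agent.S34 Fermat.Agent.S34.H95

local notation "Qbar" => AlgebraicClosure ℚ

variable {A : ValuationSubring Qbar} {ℓ : ℕ} (hℓ : ℓ.Prime) (hA : A.LiesOverPrime ℓ)
variable (E : IntermediateField (unrCyclo ℓ) Qbar) (N : ℕ) [NeZero N]
  (J₁ : modularFunctionFieldFullC (unrCyclo ℓ) N) (J_E : modularFunctionFieldFullC ↥E N)
  (hJ : baseChangeE E N J₁ = J_E)

include hℓ hA in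
/-- **(OVL-b) at one closed point of the `A''`-chart**, from the `A₁`-level classification
`hA1` (helper25's `(I-main-A1)`, first conjunct, `c := coordB J₁`) and the three clauses
`red_i'' ∘ chartBC = red_i`. -/
theorem hclass_chartBC {D : Type*} [CommRing D]
    (hunr : maximalIdeal ↥(cutOver A E) = Ideal.span {((ℓ : ℕ) : ↥(cutOver A E))})
    (red₁ red₂ red₃ : ↥(H40.chartB (A0 A ℓ) J₁) →+* D)
    (red₁'' red₂'' red₃'' : ↥(H40.chartB (cutOver A E) J_E) →+* D)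
    (hred₁ : ∀ b, red₁'' (chartBC E N J₁ J_E hJ b) = red₁ b)
    (hred₂ : ∀ b, red₂'' (chartBC E N J₁ J_E hJ b) = red₂ b)
    (hred₃ : ∀ b, red₃'' (chartBC E N J₁ J_E hJ b) = red₃ b)
    (hA1 : ∀ n : Ideal ↥(H40.chartB (A0 A ℓ) J₁), n.IsMaximal →
      algebraMap (A0 A ℓ) ↥(H40.chartB (A0 A ℓ) J₁) ((ℓ : ℕ) : A0 A ℓ) ∈ n →
      coordB (R := A0 A ℓ) J₁ ∈ n →
      (¬ RingHom.ker red₂ ≤ n ∧ ¬ RingHom.ker red₃ ≤ n) ∨
      (¬ RingHom.ker red₁ ≤ n ∧ ¬ RingHom.ker red₃ ≤ n) ∨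
      (¬ RingHom.ker red₁ ≤ n ∧ ¬ RingHom.ker red₂ ≤ n))
    (n'' : Ideal ↥(H40.chartB (cutOver A E) J_E)) (hn'' : n''.IsMaximal)
    (hπn : algebraMap ↥(cutOver A E) ↥(H40.chartB (cutOver A E) J_E)
      ((ℓ : ℕ) : ↥(cutOver A E)) ∈ n'')
    (hresB : ∀ b'' : ↥(H40.chartB (cutOver A E) J_E), ∃ r : ↥(cutOver A E),
      b'' - algebraMap ↥(cutOver A E) ↥(H40.chartB (cutOver A E) J_E) r ∈ n'')
    (hc : coordB (R := cutOver A E) J_E ∈ n'') :
    (¬ RingHom.ker red₂'' ≤ n'' ∧ ¬ RingHom.ker red₃'' ≤ n'') ∨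
    (¬ RingHom.ker red₁'' ≤ n'' ∧ ¬ RingHom.ker red₃'' ≤ n'') ∨
    (¬ RingHom.ker red₁'' ≤ n'' ∧ ¬ RingHom.ker red₂'' ≤ n'') := by
  exact class_transfer_of_hresB (A₁ := A0 A ℓ) (R := ↥(cutOver A E)) (chartBC E N J₁ J_E hJ)
    (chartBC_algebraMap E N J₁ J_E hJ)
    ((ℓ : ℕ) : A0 A ℓ) (maximalIdeal_A0_eq hℓ hA) ((ℓ : ℕ) : ↥(cutOver A E))
    (map_natCast _ ℓ) (exists_A0_add_mul hℓ hA E _ hunr) red₁ red₂ red₃ red₁'' red₂'' red₃''
    hred₁ hred₂ hred₃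
    (coordB (R := A0 A ℓ) J₁) (coordB (R := cutOver A E) J_E) (chartBC_coordB E N J₁ J_E hJ)
    hA1 n'' hn'' hπn hresB hc

include hℓ hA in
/-- **The `hcusp` binder of `S36.H56.hE4_real(_chartB)` / `S36.H85.hpt_real`, verbatim**
(`Jinv := coordB J_E = ⟨J_E, _⟩`, `P₂ i = ker red_i''`), for all closed points of the special
fibre of the `A''`-chart. -/
theorem hcusp_chartBC {D : Type*} [CommRing D]
    (hunr : maximalIdeal ↥(cutOver A E) = Ideal.span {((ℓ : ℕ) : ↥(cutOver A E))})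
    (red₁ red₂ red₃ : ↥(H40.chartB (A0 A ℓ) J₁) →+* D)
    (red₁'' red₂'' red₃'' : ↥(H40.chartB (cutOver A E) J_E) →+* D)
    (hred₁ : ∀ b, red₁'' (chartBC E N J₁ J_E hJ b) = red₁ b)
    (hred₂ : ∀ b, red₂'' (chartBC E N J₁ J_E hJ b) = red₂ b)
    (hred₃ : ∀ b, red₃'' (chartBC E N J₁ J_E hJ b) = red₃ b)
    (hA1 : ∀ n : Ideal ↥(H40.chartB (A0 A ℓ) J₁), n.IsMaximal →
      algebraMap (A0 A ℓ) ↥(H40.chartB (A0 A ℓ) J₁) ((ℓ : ℕ) : A0 A ℓ) ∈ n →
      coordB (R := A0 A ℓ) J₁ ∈ n →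
      (¬ RingHom.ker red₂ ≤ n ∧ ¬ RingHom.ker red₃ ≤ n) ∨
      (¬ RingHom.ker red₁ ≤ n ∧ ¬ RingHom.ker red₃ ≤ n) ∨
      (¬ RingHom.ker red₁ ≤ n ∧ ¬ RingHom.ker red₂ ≤ n))
    (P₂ : Fin 3 → Ideal ↥(H40.chartB (cutOver A E) J_E))
    (hQ0 : P₂ 0 = RingHom.ker red₁'') (hQ1 : P₂ 1 = RingHom.ker red₂'')
    (hQ2 : P₂ 2 = RingHom.ker red₃'')
    (hresB : ∀ n : H21.ClosedPt (H40.chartB (cutOver A E) J_E) ((ℓ : ℕ) : ↥(cutOver A E)),
      ∀ b'' : ↥(H40.chartB (cutOver A E) J_E), ∃ r : ↥(cutOver A E),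
        b'' - algebraMap ↥(cutOver A E) ↥(H40.chartB (cutOver A E) J_E) r ∈ n.1) :
    ∀ n : H21.ClosedPt (H40.chartB (cutOver A E) J_E) ((ℓ : ℕ) : ↥(cutOver A E)),
      (⟨J_E, H40.self_mem_chartB J_E⟩ : ↥(H40.chartB (cutOver A E) J_E)) ∈ n.1 →
      ∃ i₀, ∀ i, P₂ i ≤ n.1 → i = i₀ := by
  intro n hJn
  exact exists_unique_of_class' P₂ hQ0 hQ1 hQ2 n.1
    (hclass_chartBC hℓ hA E N J₁ J_E hJ hunr red₁ red₂ red₃ red₁'' red₂'' red₃'' hred₁ hred₂
      hred₃ hA1 n.1 n.2.1 n.2.2 (hresB n) hJn)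

end Real

end Fermat.Agent.S36.H85
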