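import Mathlib
import Fermat.Agent.S36.H85_CuspTransferE
import Fermat.Agent.S36.H45_UnramifiedFixed
import Fermat.Agent.S36.H62_ChartGlueInst

/-!
# S36, row (OVL-b)-inst (helper85): `hcusp` AT THE REAL TYPES, with helper25's `A₁`-level theorem
plugged in (chart 2 of the level `q² L`, coordinate `J₃⁻¹`)

`S36.H85.hcusp_chartBC` at `J₁ := (J3N L)⁻¹` with `hA1 :=` first conjunct of
`S36.H25.cuspidal_inputs_A1`.  Ruling 8 form (S2): generic `J_E`, `hJ : baseChangeE E N (J3N L)⁻¹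
= J_E` (`(S1)`: `J_E := baseChangeE E N (J3N L)⁻¹`, `hJ := rfl`), ANY `red_i''` with the clause
`red_i'' ∘ chartBC = red_i`.

* `hclass_A1_J3_inv` : the `hA1` binder of `hclass_chartBC` / `hcusp_chartBC`.
* `hcusp_J3_inv` : the `hcusp` binder of `S36.H18.geoFn36E_of_rows` /
  `S36.H56.hE4_real_chartB(')` / `S36.H85.hpt_real`, with `hunr`, `hresB` as binders.
* `hcusp_J3_inv_of_fixed` : the same with `hunr` and `hresB` discharged from `hfix` and
  `[Algebra.FiniteType]`.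
-/

set_option autoImplicit false
set_option linter.unusedSectionVars false
set_option linter.style.haveILetI false
set_option synthInstance.maxHeartbeats 400000
set_option maxHeartbeats 3200000

noncomputable section

namespace Fermat.Agent.S36.H85

open ModularCurve Polynomial IsLocalRing Fermat.Agent.S28
open Fermat.Agent.S18 Fermat.Agent.S34 Fermat.Agent.S34.H55 Fermat.Agent.S34.H16
open Fermat.Agent.S36.H83

local notation "Qbar" => AlgebraicClosure ℚ

section J3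

variable (L : ℕ) [NeZero L] {q : ℕ} [hq : Fact q.Prime] (hqL : ¬ q ∣ L)
  (A : ValuationSubring Qbar) (hA : A.LiesOverPrime q)

local notation "kA" => IsLocalRing.ResidueField A
local notation "A₁" => H45.A0 A q
local notation "L₁" => H45.unrCyclo q
local notation "F2" => modularFunctionFieldFullC (H45.unrCyclo q) (q * (q * L))
local notation "FkL" => modularFunctionFieldFullC (IsLocalRing.ResidueField A) L

/-- **The `hA1` binder of `hclass_chartBC` / `hcusp_chartBC`** at `J₁ := (J3N L)⁻¹`, from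
helper25's `(I-main-A1)`. -/
theorem hclass_A1_J3_inv
    {red₁ red₂ red₃ : ↥(H40.chartB A₁ (J3N L (q := q))⁻¹) →+*
        ↥(integralClosure (Algebra.adjoin kA {(S18.H16.jK kA L)⁻¹}) FkL)}
    (h3 : ThreeComponents red₁ red₂ red₃
        (chartMap (eU L (q := q)) (eU_algebraMap L A) (huint2 L A))
        (chartMap (eV L (q := q)) (eV_algebraMap L A) (hvint2 L A))
        (chartMap (eW L (q := q)) (eW_algebraMap L A) (hwint2 L A))
        (rbarB (Mod L hqL A hA) (hc2 L hqL A hA) (hcw2 L hqL A hA))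
        (WR (FrM L A hA) q (hFrx_inv L A hA)) q
        (algebraMap A₁ ↥(H40.chartB A₁ (J3N L (q := q))⁻¹) ((q : ℕ) : A₁))) :
    ∀ n : Ideal ↥(H40.chartB A₁ (J3N L (q := q))⁻¹), n.IsMaximal →
      algebraMap A₁ ↥(H40.chartB A₁ (J3N L (q := q))⁻¹) ((q : ℕ) : A₁) ∈ n →
      H95.coordB (R := A₁) (J3N L (q := q))⁻¹ ∈ n →
      (¬ RingHom.ker red₂ ≤ n ∧ ¬ RingHom.ker red₃ ≤ n) ∨
      (¬ RingHom.ker red₁ ≤ n ∧ ¬ RingHom.ker red₃ ≤ n) ∨
      (¬ RingHom.ker red₁ ≤ n ∧ ¬ RingHom.ker red₂ ≤ n) := by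
  intro n hn hqn hc
  have hc' : chartMap (eU L (q := q)) (eU_algebraMap L A) (huint2 L A) (H25.psi0 L A) *
        chartMap (eV L (q := q)) (eV_algebraMap L A) (hvint2 L A) (H25.psi0 L A) *
        chartMap (eW L (q := q)) (eW_algebraMap L A) (hwint2 L A) (H25.psi0 L A) ∈ n := by
    rw [← H25.coordInv3_eq_mul L A]
    exact hc
  have key := H25.cuspidal_inputs_A1 L hqL A hA h3 n hn hqn hc'
  exact key.1

variable (E : IntermediateField (H45.unrCyclo q) Qbar)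
  (J_E : modularFunctionFieldFullC ↥E (q * (q * L)))
  (hJ : H45.baseChangeE E (q * (q * L)) (J3N L (q := q))⁻¹ = J_E)

/-- **`hcusp` at the real types** (chart 2 of the level `q² L` over `cutOver A E`), Ruling 8
form (S2): at most one vertical component passes through a cuspidal closed point.
`hunr := S36.H45.maximalIdeal_cutOver_eq_span_natCast_of_fixed hq hA E hfix`,
`hresB := fun n b => S36.H62.hres_closedPt _ hπ n b`. -/
theorem hcusp_J3_inv
    (hunr : maximalIdeal ↥(H45.cutOver A E) = Ideal.span {((q : ℕ) : ↥(H45.cutOver A E))})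
    {red₁ red₂ red₃ : ↥(H40.chartB A₁ (J3N L (q := q))⁻¹) →+*
        ↥(integralClosure (Algebra.adjoin kA {(S18.H16.jK kA L)⁻¹}) FkL)}
    (h3 : ThreeComponents red₁ red₂ red₃
        (chartMap (eU L (q := q)) (eU_algebraMap L A) (huint2 L A))
        (chartMap (eV L (q := q)) (eV_algebraMap L A) (hvint2 L A))
        (chartMap (eW L (q := q)) (eW_algebraMap L A) (hwint2 L A))
        (rbarB (Mod L hqL A hA) (hc2 L hqL A hA) (hcw2 L hqL A hA))
        (WR (FrM L A hA) q (hFrx_inv L A hA)) q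
        (algebraMap A₁ ↥(H40.chartB A₁ (J3N L (q := q))⁻¹) ((q : ℕ) : A₁)))
    (red₁'' red₂'' red₃'' : ↥(H40.chartB (H45.cutOver A E) J_E) →+*
        ↥(integralClosure (Algebra.adjoin kA {(S18.H16.jK kA L)⁻¹}) FkL))
    (hred₁ : ∀ b, red₁'' (H95.chartBC E (q * (q * L)) (J3N L (q := q))⁻¹ J_E hJ b) = red₁ b)
    (hred₂ : ∀ b, red₂'' (H95.chartBC E (q * (q * L)) (J3N L (q := q))⁻¹ J_E hJ b) = red₂ b)
    (hred₃ : ∀ b, red₃'' (H95.chartBC E (q * (q * L)) (J3N L (q := q))⁻¹ J_E hJ b) = red₃ b)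
    (P₂ : Fin 3 → Ideal ↥(H40.chartB (H45.cutOver A E) J_E))
    (hQ0 : P₂ 0 = RingHom.ker red₁'') (hQ1 : P₂ 1 = RingHom.ker red₂'')
    (hQ2 : P₂ 2 = RingHom.ker red₃'')
    (hresB : ∀ n : H21.ClosedPt (H40.chartB (H45.cutOver A E) J_E)
        ((q : ℕ) : ↥(H45.cutOver A E)),
      ∀ b'' : ↥(H40.chartB (H45.cutOver A E) J_E), ∃ r : ↥(H45.cutOver A E),
        b'' - algebraMap ↥(H45.cutOver A E) ↥(H40.chartB (H45.cutOver A E) J_E) r ∈ n.1) :
    ∀ n : H21.ClosedPt (H40.chartB (H45.cutOver A E) J_E) ((q : ℕ) : ↥(H45.cutOver A E)),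
      (⟨J_E, H40.self_mem_chartB J_E⟩ : ↥(H40.chartB (H45.cutOver A E) J_E)) ∈ n.1 →
      ∃ i₀, ∀ i, P₂ i ≤ n.1 → i = i₀ :=
  hcusp_chartBC hq.out hA E (q * (q * L)) (J3N L (q := q))⁻¹ J_E hJ hunr red₁ red₂ red₃
    red₁'' red₂'' red₃'' hred₁ hred₂ hred₃ (hclass_A1_J3_inv L hqL A hA h3) P₂ hQ0 hQ1 hQ2 hresB

/-- **`hcusp` at the real types, `hunr` and `hresB` discharged** from `hfix` (inertia fixes `E`)
and the finite type of the chart. -/
theorem hcusp_J3_inv_of_fixed [FiniteDimensional (H45.unrCyclo q) E]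
    (hfix : ∀ σ ∈ A.inertiaSubgroupIn ℚ, ∀ x : E, σ ((x : E) : Qbar) = ((x : E) : Qbar))
    [Algebra.FiniteType ↥(H45.cutOver A E) ↥(H40.chartB (H45.cutOver A E) J_E)]
    {red₁ red₂ red₃ : ↥(H40.chartB A₁ (J3N L (q := q))⁻¹) →+*
        ↥(integralClosure (Algebra.adjoin kA {(S18.H16.jK kA L)⁻¹}) FkL)}
    (h3 : ThreeComponents red₁ red₂ red₃
        (chartMap (eU L (q := q)) (eU_algebraMap L A) (huint2 L A))
        (chartMap (eV L (q := q)) (eV_algebraMap L A) (hvint2 L A))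
        (chartMap (eW L (q := q)) (eW_algebraMap L A) (hwint2 L A))
        (rbarB (Mod L hqL A hA) (hc2 L hqL A hA) (hcw2 L hqL A hA))
        (WR (FrM L A hA) q (hFrx_inv L A hA)) q
        (algebraMap A₁ ↥(H40.chartB A₁ (J3N L (q := q))⁻¹) ((q : ℕ) : A₁)))
    (red₁'' red₂'' red₃'' : ↥(H40.chartB (H45.cutOver A E) J_E) →+*
        ↥(integralClosure (Algebra.adjoin kA {(S18.H16.jK kA L)⁻¹}) FkL))
    (hred₁ : ∀ b, red₁'' (H95.chartBC E (q * (q * L)) (J3N L (q := q))⁻¹ J_E hJ b) = red₁ b)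
    (hred₂ : ∀ b, red₂'' (H95.chartBC E (q * (q * L)) (J3N L (q := q))⁻¹ J_E hJ b) = red₂ b)
    (hred₃ : ∀ b, red₃'' (H95.chartBC E (q * (q * L)) (J3N L (q := q))⁻¹ J_E hJ b) = red₃ b)
    (P₂ : Fin 3 → Ideal ↥(H40.chartB (H45.cutOver A E) J_E))
    (hQ0 : P₂ 0 = RingHom.ker red₁'') (hQ1 : P₂ 1 = RingHom.ker red₂'')
    (hQ2 : P₂ 2 = RingHom.ker red₃'') :
    ∀ n : H21.ClosedPt (H40.chartB (H45.cutOver A E) J_E) ((q : ℕ) : ↥(H45.cutOver A E)),
      (⟨J_E, H40.self_mem_chartB J_E⟩ : ↥(H40.chartB (H45.cutOver A E) J_E)) ∈ n.1 →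
      ∃ i₀, ∀ i, P₂ i ≤ n.1 → i = i₀ := by
  haveI := H45.isDiscreteValuationRing_cutOver hq.out hA E
  haveI := H45.isAlgClosed_residueField_cutOver hq.out hA E
  have hπ : Irreducible ((q : ℕ) : ↥(H45.cutOver A E)) :=
    S36.H45.irreducible_natCast_cutOver_of_fixed hq.out hA E hfix
  exact hcusp_J3_inv L hqL A hA E J_E hJ
    (S36.H45.maximalIdeal_cutOver_eq_span_natCast_of_fixed hq.out hA E hfix) h3
    red₁'' red₂'' red₃'' hred₁ hred₂ hred₃ P₂ hQ0 hQ1 hQ2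
    (fun n b => S36.H62.hres_closedPt _ hπ n b)

end J3

end Fermat.Agent.S36.H85
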