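/-
helper62 — S36 (OVL-a) AT THE REAL TYPES: the two charts
`B₁ = chartB (cutOver A E) (J3K ↥E N q hq2)`, `B₂ = chartB (cutOver A E) (J3K ↥E N q hq2)⁻¹`
of the function field `F_E(N)` (`q² ∣ N`).  `hovl_J3K` = `hovl` of `S36.H56.hE4_real` /
`hE4_of_rows` (with `C n₂ := ⟨J₃⁻¹, _⟩ ∈ n₂.1`), `hoverlap_J3K` = `hoverlap` of
`S36.H85.hpt_of_rows_gen` / `hpt_two_charts_of_first`, `hres_J3K`, `hres_J3K_inv` = rationality of
the closed points.  The chart instances are binders (any instance terms will do: they are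
propositions); `Algebra.FiniteType` and `IsAlgClosed (ResidueField _)` are discharged here.
-/
import Mathlib
import Fermat.Agent.S36.H62_ChartGlueInst
import Fermat.Agent.S36.H95_CoordJ3Inst

set_option autoImplicit false
set_option linter.unusedSectionVars false
set_option synthInstance.maxHeartbeats 400000

noncomputable section

namespace Fermat.Agent.S36.H62

open ModularCurve HahnSeries IntermediateField IsLocalRing
open Fermat.Agent.S18 Fermat.Agent.S18.H45 Fermat.Agent.S34 Fermat.Agent.S36.H83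

local notation "Qbar" => AlgebraicClosure ℚ

variable {A : ValuationSubring Qbar} {ℓ : ℕ} (hℓ : ℓ.Prime) (hA : A.LiesOverPrime ℓ)
variable (E : IntermediateField (unrCyclo ℓ) Qbar) (N : ℕ) [NeZero N]
variable (q : ℕ) [NeZero q] (hq2 : q * q ∣ N)
variable [FiniteDimensional (unrCyclo ℓ) E]

include hℓ hA in
/-- The chart `J₃` over `cutOver A E` is of finite type. -/
theorem finiteType_chartB_J3K :
    Algebra.FiniteType ↥(cutOver A E) ↥(H40.chartB (cutOver A E) (J3K ↥E N q hq2)) := by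
  haveI := isDiscreteValuationRing_cutOver hℓ hA E
  haveI := finiteDimensional_J3K ↥E N q hq2 (H99.natCast_ne_zero₀ N ↥E)
  haveI := isSeparable_J3K ↥E N q hq2
  exact S34.H83.finiteType_chartB (R := ↥(cutOver A E)) (K := ↥E) (J3K ↥E N q hq2)
    (transcendental_J3K ↥E N q hq2)

include hℓ hA in
/-- The chart `J₃⁻¹` over `cutOver A E` is of finite type. -/
theorem finiteType_chartB_J3K_inv :
    Algebra.FiniteType ↥(cutOver A E) ↥(H40.chartB (cutOver A E) (J3K ↥E N q hq2)⁻¹) := by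
  haveI := isDiscreteValuationRing_cutOver hℓ hA E
  haveI := finiteDimensional_J3K_inv ↥E N q hq2 (H99.natCast_ne_zero₀ N ↥E)
  haveI := isSeparable_J3K_inv ↥E N q hq2
  exact S34.H83.finiteType_chartB (R := ↥(cutOver A E)) (K := ↥E) (J3K ↥E N q hq2)⁻¹
    (transcendental_J3K_inv ↥E N q hq2)

theorem J3K_ne_zero : J3K ↥E N q hq2 ≠ 0 := by
  intro h
  apply transcendental_J3K ↥E N q hq2
  rw [h]
  exact isAlgebraic_zero

include hℓ hA in
/-- Rationality of the closed points of chart 1. -/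
theorem hres_J3K (π : ↥(cutOver A E)) (hπ : Irreducible π)
    (n : H21.ClosedPt (H40.chartB (cutOver A E) (J3K ↥E N q hq2)) π)
    (b : ↥(H40.chartB (cutOver A E) (J3K ↥E N q hq2))) :
    ∃ c : ↥(cutOver A E), b - algebraMap ↥(cutOver A E) _ c ∈ n.1 := by
  haveI := isDiscreteValuationRing_cutOver hℓ hA E
  haveI := isAlgClosed_residueField_cutOver hℓ hA E
  haveI := finiteType_chartB_J3K hℓ hA E N q hq2
  exact hres_closedPt _ hπ n b

include hℓ hA in
/-- Rationality of the closed points of chart 2. -/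
theorem hres_J3K_inv (π : ↥(cutOver A E)) (hπ : Irreducible π)
    (n : H21.ClosedPt (H40.chartB (cutOver A E) (J3K ↥E N q hq2)⁻¹) π)
    (b : ↥(H40.chartB (cutOver A E) (J3K ↥E N q hq2)⁻¹)) :
    ∃ c : ↥(cutOver A E), b - algebraMap ↥(cutOver A E) _ c ∈ n.1 := by
  haveI := isDiscreteValuationRing_cutOver hℓ hA E
  haveI := isAlgClosed_residueField_cutOver hℓ hA E
  haveI := finiteType_chartB_J3K_inv hℓ hA E N q hq2
  exact hres_closedPt _ hπ n b

variable
  [IsFractionRing ↥(H40.chartB (cutOver A E) (J3K ↥E N q hq2)) (modularFunctionFieldFullC ↥E N)]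
  [IsFractionRing ↥(H40.chartB (cutOver A E) (J3K ↥E N q hq2)⁻¹)
    (modularFunctionFieldFullC ↥E N)]
  [IsIntegrallyClosed ↥(H40.chartB (cutOver A E) (J3K ↥E N q hq2))]
  [IsIntegrallyClosed ↥(H40.chartB (cutOver A E) (J3K ↥E N q hq2)⁻¹)]

include hℓ hA in
/-- **(OVL-a)(i) at the real types**: `hovl` of `S36.H56.hE4_real` with
`C n₂ := ⟨J₃⁻¹, _⟩ ∈ n₂.1`. -/
theorem hovl_J3K (π : ↥(cutOver A E)) (hπ : Irreducible π) :
    ∀ n₂ : H21.ClosedPt (H40.chartB (cutOver A E) (J3K ↥E N q hq2)⁻¹) π,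
      ¬ ((⟨(J3K ↥E N q hq2)⁻¹, H40.self_mem_chartB _⟩ :
        ↥(H40.chartB (cutOver A E) (J3K ↥E N q hq2)⁻¹)) ∈ n₂.1) →
      ∃ n₁ : H21.ClosedPt (H40.chartB (cutOver A E) (J3K ↥E N q hq2)) π,
        H21.ptO (H40.chartB (cutOver A E) (J3K ↥E N q hq2))
            (H40.chartB (cutOver A E) (J3K ↥E N q hq2)⁻¹) π (Sum.inl n₁) =
          H21.ptO (H40.chartB (cutOver A E) (J3K ↥E N q hq2))
            (H40.chartB (cutOver A E) (J3K ↥E N q hq2)⁻¹) π (Sum.inr n₂) := by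
  haveI := isDiscreteValuationRing_cutOver hℓ hA E
  haveI := isAlgClosed_residueField_cutOver hℓ hA E
  haveI := finiteType_chartB_J3K_inv hℓ hA E N q hq2
  exact hovl_chartB (J3K ↥E N q hq2) (J3K_ne_zero E N q hq2) π hπ

variable [IsNoetherianRing ↥(H40.chartB (cutOver A E) (J3K ↥E N q hq2))]
  [IsNoetherianRing ↥(H40.chartB (cutOver A E) (J3K ↥E N q hq2)⁻¹)]

include hℓ hA in
/-- **(OVL-a)(iii) at the real types**: `hoverlap` of `S36.H85.hpt_of_rows_gen` /
`hpt_two_charts_of_first` / `S36.H69.geo36_two_charts_of_rows` with `J₂ := ⟨J₃⁻¹, _⟩`. -/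
theorem hoverlap_J3K (π : ↥(cutOver A E)) (hπ : Irreducible π) {κ : Type*}
    (P₁ : κ → Ideal ↥(H40.chartB (cutOver A E) (J3K ↥E N q hq2)))
    (P₂ : κ → Ideal ↥(H40.chartB (cutOver A E) (J3K ↥E N q hq2)⁻¹))
    [hP₁ : ∀ i, (P₁ i).IsPrime] [hP₂ : ∀ i, (P₂ i).IsPrime]
    (hh₁ : ∀ i, (P₁ i).height = 1) (hh₂ : ∀ i, (P₂ i).height = 1)
    (hVeq : ∀ i, H56.valuationSubringAt (K := ↥(modularFunctionFieldFullC ↥E N)) (P₁ i) (hh₁ i) =
      H56.valuationSubringAt (K := ↥(modularFunctionFieldFullC ↥E N)) (P₂ i) (hh₂ i)) :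
    ∀ n : H21.ClosedPt (H40.chartB (cutOver A E) (J3K ↥E N q hq2)⁻¹) π,
      (⟨(J3K ↥E N q hq2)⁻¹, H40.self_mem_chartB _⟩ :
        ↥(H40.chartB (cutOver A E) (J3K ↥E N q hq2)⁻¹)) ∉ n.1 →
      ∃ n1 : H21.ClosedPt (H40.chartB (cutOver A E) (J3K ↥E N q hq2)) π,
        H21.ptO (H40.chartB (cutOver A E) (J3K ↥E N q hq2))
            (H40.chartB (cutOver A E) (J3K ↥E N q hq2)⁻¹) π (Sum.inl n1) =
          H21.ptO (H40.chartB (cutOver A E) (J3K ↥E N q hq2))
            (H40.chartB (cutOver A E) (J3K ↥E N q hq2)⁻¹) π (Sum.inr n) ∧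
        ∀ i, P₁ i ≤ n1.1 ↔ P₂ i ≤ n.1 := by
  haveI := isDiscreteValuationRing_cutOver hℓ hA E
  haveI := isAlgClosed_residueField_cutOver hℓ hA E
  haveI := finiteType_chartB_J3K_inv hℓ hA E N q hq2
  exact hoverlap_chartB (J3K ↥E N q hq2) (J3K_ne_zero E N q hq2) π hπ P₁ P₂ hh₁ hh₂ hVeq

end Fermat.Agent.S36.H62
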