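import Mathlib
import Fermat.Agent.S36.H89_MidCuspTransferE
import Fermat.Agent.S36.H25_MidCuspInstA1
import Fermat.Agent.S36.H62_ChartGlueReal
import Fermat.Agent.S36.H70_ThreeComponentsS1

/-!
# S36, row (M4r2), (I-main-E) (helper89): the middle cusps at the REAL TYPES, `E`-level chart 2

`R = cutOver A E` (`E / L₁` finite, unramified: `𝔪_R = (q)`), `N = q (q L)`, chart
`B₂'' = chartB R J_E` with `J_E = baseChangeE E N J₃⁻¹`.

* `hM4r2_S2_of_hresB` : the `hM4r2` binder of `S36.H56.hE4_real(_chartB)` / `S36.H69.geo36_*`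
  for ANY `ρ₂` with the clause `ρ₂ ∘ chartBC = red₂` ((S2) form of Ruling 8), given the
  rationality `hresB` of the closed points of the special fibre of `B₂''`.
* `hresB_S2` : `hresB` (from helper62's `hres_closedPt`; `E` finite over `L₁`).
* `hM4r2_S2` : the same with `hresB` discharged.
* `hM4r2_S1` : the (S1) spelling: `J_E := baseChangeE E N J₃⁻¹`, `ρ₂ := S35.H70.redE .. red₂ hq₂`
  (helper70's `threeComponentsS1_J3K_inv`).

The only hypothesis besides the standing ones is the `A₁`-level `ThreeComponents` structure `h3`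
(= the conjunct of `S36.H83.threeComponents_J3K_inv` / `S36.H70.threeComponentsS1_J3K_inv`).
-/

set_option autoImplicit false
set_option linter.unusedSectionVars false
set_option linter.style.haveILetI false
set_option synthInstance.maxHeartbeats 400000
set_option maxHeartbeats 3200000

noncomputable section

namespace Fermat.Agent.S36.H89I

open ModularCurve Polynomial IsLocalRing Fermat.Agent.S28
open Fermat.Agent.S18 Fermat.Agent.S34 Fermat.Agent.S34.H55 Fermat.Agent.S34.H16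
open Fermat.Agent.S36.H83

local notation "Qbar" => AlgebraicClosure ℚ

section MidCuspE

variable (L : ℕ) [NeZero L] {q : ℕ} [hq : Fact q.Prime] (hqL : ¬ q ∣ L)
  (A : ValuationSubring Qbar) (hA : A.LiesOverPrime q)
  (E : IntermediateField (H45.unrCyclo q) Qbar)

set_option quotPrecheck false
local notation "kA" => IsLocalRing.ResidueField A
local notation "A₁" => H45.A0 A q
local notation "L₁" => H45.unrCyclo q
local notation "F2" => modularFunctionFieldFullC (H45.unrCyclo q) (q * (q * L))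
local notation "FE2" => modularFunctionFieldFullC ↥E (q * (q * L))
local notation "FkL" => modularFunctionFieldFullC (IsLocalRing.ResidueField A) L
local notation "RE" => ↥(H45.cutOver A E)
local notation "πE" => (((q : ℕ) : ↥(H45.cutOver A E)))

local instance (priority := 10000) shortcutAlgE (N : ℕ) [NeZero N] :
    Algebra ↥E ↥(modularFunctionFieldFullC ↥E N) :=
  SubalgebraClass.toAlgebra (modularFunctionFieldFullC ↥E N)
local instance (priority := 10000) shortcutAlg (N : ℕ) [NeZero N] :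
    Algebra ↥(H45.cutOver A E) ↥(modularFunctionFieldFullC ↥E N) :=
  Algebra.ofSubsemiring (H45.cutOver A E)

/-- **(M4r2)(I-main-E), (S2) form, `hresB` as a binder.** -/
theorem hM4r2_S2_of_hresB
    (hunr : maximalIdeal RE = Ideal.span {πE})
    (J_E : FE2) (hJ : H45.baseChangeE E (q * (q * L)) (J3N L (q := q))⁻¹ = J_E)
    {red₁ red₂ red₃ : ↥(H40.chartB A₁ (J3N L (q := q))⁻¹) →+*
        ↥(integralClosure (Algebra.adjoin kA {(S18.H16.jK kA L)⁻¹}) FkL)}
    (h3 : ThreeComponents red₁ red₂ red₃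
        (chartMap (eU L (q := q)) (eU_algebraMap L A) (huint2 L A))
        (chartMap (eV L (q := q)) (eV_algebraMap L A) (hvint2 L A))
        (chartMap (eW L (q := q)) (eW_algebraMap L A) (hwint2 L A))
        (rbarB (Mod L hqL A hA) (hc2 L hqL A hA) (hcw2 L hqL A hA))
        (WR (FrM L A hA) q (hFrx_inv L A hA)) q
        (algebraMap A₁ ↥(H40.chartB A₁ (J3N L (q := q))⁻¹) ((q : ℕ) : A₁)))
    (ρ₂ : ↥(H40.chartB (H45.cutOver A E) J_E) →+*
      ↥(integralClosure (Algebra.adjoin kA {(S18.H16.jK kA L)⁻¹}) FkL))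
    (hred : ∀ b : ↥(H40.chartB A₁ (J3N L (q := q))⁻¹),
      ρ₂ (S34.H95.chartBC (A := A) E (q * (q * L)) (J3N L (q := q))⁻¹ J_E hJ b) = red₂ b)
    (hresB : ∀ n₂ : S34.H21.ClosedPt (H40.chartB (H45.cutOver A E) J_E) πE,
      ∀ b : ↥(H40.chartB (H45.cutOver A E) J_E),
      ∃ r : RE, b - algebraMap RE ↥(H40.chartB (H45.cutOver A E) J_E) r ∈ n₂.1) :
    ∀ n₂ : S34.H21.ClosedPt (H40.chartB (H45.cutOver A E) J_E) πE,
      (⟨J_E, H40.self_mem_chartB J_E⟩ : ↥(H40.chartB (H45.cutOver A E) J_E)) ∈ n₂.1 →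
      RingHom.ker ρ₂ ≤ n₂.1 →
      ∃ θ : ↥(H40.chartB (H45.cutOver A E) J_E), ρ₂ θ = 0 ∧ θ ≠ 0 ∧
        ∃ e t : ↥(H40.chartB (H45.cutOver A E) J_E), e ∉ n₂.1 ∧ t ∉ n₂.1 ∧
          t * θ ^ (q - 1) = e * algebraMap RE ↥(H40.chartB (H45.cutOver A E) J_E) πE := by
  intro n₂ hc hker
  exact H89T.hM4r2_chartBC hq.out hA E (q * (q * L)) (J3N L (q := q))⁻¹ J_E hJ hunr red₂ ρ₂
    hred q (H25.hM4r2_A1_coord L hqL A hA h3) n₂.1 n₂.2.1 n₂.2.2 (hresB n₂) hc hker

include hA in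
/-- **Rationality of the closed points of the special fibre of chart 2, (S2) form**
(helper62's `hres_J3K_inv` transported along `J_E = J₃⁻¹`). -/
theorem hresB_S2 [FiniteDimensional L₁ E]
    (hunr : maximalIdeal RE = Ideal.span {πE})
    (J_E : FE2) (hJ : H45.baseChangeE E (q * (q * L)) (J3N L (q := q))⁻¹ = J_E) :
    ∀ n₂ : S34.H21.ClosedPt (H40.chartB (H45.cutOver A E) J_E) πE,
      ∀ b : ↥(H40.chartB (H45.cutOver A E) J_E),
      ∃ r : RE, b - algebraMap RE ↥(H40.chartB (H45.cutOver A E) J_E) r ∈ n₂.1 := by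
  haveI : NeZero q := ⟨hq.out.ne_zero⟩
  have hJE : J_E = (J3K ↥E (q * (q * L)) q (hq2_dvd L))⁻¹ := by
    rw [← hJ]
    exact S36.H95.baseChangeE_J3K_inv E (q * (q * L)) q (hq2_dvd L)
  subst hJE
  haveI := H45.isDiscreteValuationRing_cutOver hq.out hA E
  have hπ : Irreducible πE := (IsDiscreteValuationRing.irreducible_iff_uniformizer _).2 hunr
  exact S36.H62.hres_J3K_inv hq.out hA E (q * (q * L)) q (hq2_dvd L) πE hπ

include hA in
/-- **(M4r2)(I-main-E), (S2) form**: the `hM4r2` binder of `S36.H56.hE4_real(_chartB)` for ANY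
`ρ₂` extending the `A₁`-level `red₂` along `chartBC`. -/
theorem hM4r2_S2 [FiniteDimensional L₁ E]
    (hunr : maximalIdeal RE = Ideal.span {πE})
    (J_E : FE2) (hJ : H45.baseChangeE E (q * (q * L)) (J3N L (q := q))⁻¹ = J_E)
    {red₁ red₂ red₃ : ↥(H40.chartB A₁ (J3N L (q := q))⁻¹) →+*
        ↥(integralClosure (Algebra.adjoin kA {(S18.H16.jK kA L)⁻¹}) FkL)}
    (h3 : ThreeComponents red₁ red₂ red₃
        (chartMap (eU L (q := q)) (eU_algebraMap L A) (huint2 L A))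
        (chartMap (eV L (q := q)) (eV_algebraMap L A) (hvint2 L A))
        (chartMap (eW L (q := q)) (eW_algebraMap L A) (hwint2 L A))
        (rbarB (Mod L hqL A hA) (hc2 L hqL A hA) (hcw2 L hqL A hA))
        (WR (FrM L A hA) q (hFrx_inv L A hA)) q
        (algebraMap A₁ ↥(H40.chartB A₁ (J3N L (q := q))⁻¹) ((q : ℕ) : A₁)))
    (ρ₂ : ↥(H40.chartB (H45.cutOver A E) J_E) →+*
      ↥(integralClosure (Algebra.adjoin kA {(S18.H16.jK kA L)⁻¹}) FkL))
    (hred : ∀ b : ↥(H40.chartB A₁ (J3N L (q := q))⁻¹),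
      ρ₂ (S34.H95.chartBC (A := A) E (q * (q * L)) (J3N L (q := q))⁻¹ J_E hJ b) = red₂ b) :
    ∀ n₂ : S34.H21.ClosedPt (H40.chartB (H45.cutOver A E) J_E) πE,
      (⟨J_E, H40.self_mem_chartB J_E⟩ : ↥(H40.chartB (H45.cutOver A E) J_E)) ∈ n₂.1 →
      RingHom.ker ρ₂ ≤ n₂.1 →
      ∃ θ : ↥(H40.chartB (H45.cutOver A E) J_E), ρ₂ θ = 0 ∧ θ ≠ 0 ∧
        ∃ e t : ↥(H40.chartB (H45.cutOver A E) J_E), e ∉ n₂.1 ∧ t ∉ n₂.1 ∧
          t * θ ^ (q - 1) = e * algebraMap RE ↥(H40.chartB (H45.cutOver A E) J_E) πE :=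
  hM4r2_S2_of_hresB L hqL A hA E hunr J_E hJ h3 ρ₂ hred (hresB_S2 L A hA E hunr J_E hJ)

include hA in
/-- **(M4r2)(I-main-E), (S1) spelling of Ruling 8**: chart `chartB R (baseChangeE E N J₃⁻¹)`,
`ρ₂ := S35.H70.redE .. red₂ hq₂` (any `GenBy` proof `hG`, e.g. `S36.H70.genBy_J3N_inv`). -/
theorem hM4r2_S1 [FiniteDimensional L₁ E]
    (hunr : maximalIdeal RE = Ideal.span {πE})
    (hG : S35.H70.GenBy (A := A) E (q * (q * L)) (J3N L (q := q))⁻¹)
    {red₁ red₂ red₃ : ↥(H40.chartB A₁ (J3N L (q := q))⁻¹) →+*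
        ↥(integralClosure (Algebra.adjoin kA {(S18.H16.jK kA L)⁻¹}) FkL)}
    (h3 : ThreeComponents red₁ red₂ red₃
        (chartMap (eU L (q := q)) (eU_algebraMap L A) (huint2 L A))
        (chartMap (eV L (q := q)) (eV_algebraMap L A) (hvint2 L A))
        (chartMap (eW L (q := q)) (eW_algebraMap L A) (hwint2 L A))
        (rbarB (Mod L hqL A hA) (hc2 L hqL A hA) (hcw2 L hqL A hA))
        (WR (FrM L A hA) q (hFrx_inv L A hA)) q
        (algebraMap A₁ ↥(H40.chartB A₁ (J3N L (q := q))⁻¹) ((q : ℕ) : A₁)))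
    (hq₂ : red₂ (algebraMap A₁ ↥(H40.chartB A₁ (J3N L (q := q))⁻¹) ((q : ℕ) : A₁)) = 0) :
    ∀ n₂ : S34.H21.ClosedPt (H40.chartB (H45.cutOver A E)
        (H45.baseChangeE E (q * (q * L)) (J3N L (q := q))⁻¹)) πE,
      (⟨H45.baseChangeE E (q * (q * L)) (J3N L (q := q))⁻¹, H40.self_mem_chartB _⟩ :
        ↥(H40.chartB (H45.cutOver A E)
          (H45.baseChangeE E (q * (q * L)) (J3N L (q := q))⁻¹))) ∈ n₂.1 →
      RingHom.ker (S35.H70.redE hq.out hA E (q * (q * L)) (J3N L (q := q))⁻¹ πE hunr hG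
        red₂ hq₂) ≤ n₂.1 →
      ∃ θ : ↥(H40.chartB (H45.cutOver A E)
          (H45.baseChangeE E (q * (q * L)) (J3N L (q := q))⁻¹)),
        S35.H70.redE hq.out hA E (q * (q * L)) (J3N L (q := q))⁻¹ πE hunr hG red₂ hq₂ θ = 0 ∧
        θ ≠ 0 ∧
        ∃ e t : ↥(H40.chartB (H45.cutOver A E)
            (H45.baseChangeE E (q * (q * L)) (J3N L (q := q))⁻¹)), e ∉ n₂.1 ∧ t ∉ n₂.1 ∧
          t * θ ^ (q - 1) = e * algebraMap RE ↥(H40.chartB (H45.cutOver A E)
            (H45.baseChangeE E (q * (q * L)) (J3N L (q := q))⁻¹)) πE :=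
  hM4r2_S2 L hqL A hA E hunr _ rfl h3
    (S35.H70.redE hq.out hA E (q * (q * L)) (J3N L (q := q))⁻¹ πE hunr hG red₂ hq₂)
    (fun b => by
      rw [S35.H70.chartBC_eq_chartMapE]
      exact S35.H70.redE_chartMapE hq.out hA E (q * (q * L)) (J3N L (q := q))⁻¹ πE hunr hG
        red₂ hq₂ b)

end MidCuspE

end Fermat.Agent.S36.H89I
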