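import Mathlib
import Fermat.Agent.S36.H85_CuspTransferJ3
import Fermat.Agent.S36.H89_MidCuspInstE

/-!
# S36, row (OVL-b)-inst (helper85): `hcusp` at the real types in the (S1) SPELLING of Ruling 8

Chart 2 of the top: `chartB R (baseChangeE E N J₃⁻¹)` (`R = cutOver A E`, `N = q (q L)`),
reductions `ρ_i := S35.H70.redE .. red_i hq_i` (helper70's `threeComponentsS1_J3K_inv`), labels
`P₂ i = ker ρ_i`.  Twin of helper89's `S36.H89I.hM4r2_S1`; one call of `S36.H85.hcusp_J3_inv`.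
-/

set_option autoImplicit false
set_option linter.unusedSectionVars false
set_option linter.style.haveILetI false
set_option synthInstance.maxHeartbeats 400000
set_option maxHeartbeats 3200000

noncomputable section

namespace Fermat.Agent.S36.H85

open ModularCurve Polynomial IsLocalRing Fermat.Agent.S28
open Fermat.Agent.S18 Fermat.Agent.S34 Fermat.Agent.S34.H55 Fermat.Agent.S34.H16
open Fermat.Agent.S36.H83

local notation "Qbar" => AlgebraicClosure ℚ

section CuspS1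

variable (L : ℕ) [NeZero L] {q : ℕ} [hq : Fact q.Prime] (hqL : ¬ q ∣ L)
  (A : ValuationSubring Qbar) (hA : A.LiesOverPrime q)
  (E : IntermediateField (H45.unrCyclo q) Qbar)

set_option quotPrecheck false
local notation "kA" => IsLocalRing.ResidueField A
local notation "A₁" => H45.A0 A q
local notation "L₁" => H45.unrCyclo q
local notation "FkL" => modularFunctionFieldFullC (IsLocalRing.ResidueField A) L
local notation "RE" => ↥(H45.cutOver A E)
local notation "πE" => (((q : ℕ) : ↥(H45.cutOver A E)))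

local instance (priority := 10000) shortcutAlgE85 (N : ℕ) [NeZero N] :
    Algebra ↥E ↥(modularFunctionFieldFullC ↥E N) :=
  SubalgebraClass.toAlgebra (modularFunctionFieldFullC ↥E N)
local instance (priority := 10000) shortcutAlg85 (N : ℕ) [NeZero N] :
    Algebra ↥(H45.cutOver A E) ↥(modularFunctionFieldFullC ↥E N) :=
  Algebra.ofSubsemiring (H45.cutOver A E)

include hA in
/-- **`hcusp` of `S36.H18.geoFn36E_of_rows` in the (S1) spelling**: chart
`chartB R (baseChangeE E N J₃⁻¹)`, `P₂ i = ker (S35.H70.redE .. red_i hq_i)` (any `GenBy` proof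
`hG`, e.g. `S36.H70.genBy_J3N_inv L A hA E hunr`). -/
theorem hcusp_S1 [FiniteDimensional L₁ E]
    (hunr : maximalIdeal RE = Ideal.span {πE})
    (hG : S35.H70.GenBy (A := A) E (q * (q * L)) (J3N L (q := q))⁻¹)
    {red₁ red₂ red₃ : ↥(H40.chartB A₁ (J3N L (q := q))⁻¹) →+*
        ↥(integralClosure (Algebra.adjoin kA {(S18.H16.jK kA L)⁻¹}) FkL)}
    (h3 : ThreeComponents red₁ red₂ red₃
        (chartMap (eU L (q := q)) (eU_algebraMap L A) (huint2 L A))
        (chartMap (eV L (q := q)) (eV_algebraMap L A) (hvint2 L A))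
        (chartMap (eW L (q := q)) (eW_algebraMap L A) (hwint2 L A))
        (rbarB (Mod L hqL A hA) (hc2 L hqL A hA) (hcw2 L hqL A hA))
        (WR (FrM L A hA) q (hFrx_inv L A hA)) q
        (algebraMap A₁ ↥(H40.chartB A₁ (J3N L (q := q))⁻¹) ((q : ℕ) : A₁)))
    (hq₁ : red₁ (algebraMap A₁ ↥(H40.chartB A₁ (J3N L (q := q))⁻¹) ((q : ℕ) : A₁)) = 0)
    (hq₂ : red₂ (algebraMap A₁ ↥(H40.chartB A₁ (J3N L (q := q))⁻¹) ((q : ℕ) : A₁)) = 0)
    (hq₃ : red₃ (algebraMap A₁ ↥(H40.chartB A₁ (J3N L (q := q))⁻¹) ((q : ℕ) : A₁)) = 0)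
    (P₂ : Fin 3 → Ideal ↥(H40.chartB (H45.cutOver A E)
        (H45.baseChangeE E (q * (q * L)) (J3N L (q := q))⁻¹)))
    (e20 : P₂ 0 = RingHom.ker (S35.H70.redE hq.out hA E (q * (q * L)) (J3N L (q := q))⁻¹ πE
      hunr hG red₁ hq₁))
    (e21 : P₂ 1 = RingHom.ker (S35.H70.redE hq.out hA E (q * (q * L)) (J3N L (q := q))⁻¹ πE
      hunr hG red₂ hq₂))
    (e22 : P₂ 2 = RingHom.ker (S35.H70.redE hq.out hA E (q * (q * L)) (J3N L (q := q))⁻¹ πE
      hunr hG red₃ hq₃)) :
    ∀ n₂ : S34.H21.ClosedPt (H40.chartB (H45.cutOver A E)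
        (H45.baseChangeE E (q * (q * L)) (J3N L (q := q))⁻¹)) πE,
      (⟨H45.baseChangeE E (q * (q * L)) (J3N L (q := q))⁻¹, H40.self_mem_chartB _⟩ :
        ↥(H40.chartB (H45.cutOver A E)
          (H45.baseChangeE E (q * (q * L)) (J3N L (q := q))⁻¹))) ∈ n₂.1 →
      ∃ i₀ : Fin 3, ∀ i, P₂ i ≤ n₂.1 → i = i₀ :=
  hcusp_J3_inv L hqL A hA E _ rfl hunr h3
    (S35.H70.redE hq.out hA E (q * (q * L)) (J3N L (q := q))⁻¹ πE hunr hG red₁ hq₁)
    (S35.H70.redE hq.out hA E (q * (q * L)) (J3N L (q := q))⁻¹ πE hunr hG red₂ hq₂)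
    (S35.H70.redE hq.out hA E (q * (q * L)) (J3N L (q := q))⁻¹ πE hunr hG red₃ hq₃)
    (fun b => by
      rw [S35.H70.chartBC_eq_chartMapE]
      exact S35.H70.redE_chartMapE hq.out hA E (q * (q * L)) (J3N L (q := q))⁻¹ πE hunr hG
        red₁ hq₁ b)
    (fun b => by
      rw [S35.H70.chartBC_eq_chartMapE]
      exact S35.H70.redE_chartMapE hq.out hA E (q * (q * L)) (J3N L (q := q))⁻¹ πE hunr hG
        red₂ hq₂ b)
    (fun b => by
      rw [S35.H70.chartBC_eq_chartMapE]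
      exact S35.H70.redE_chartMapE hq.out hA E (q * (q * L)) (J3N L (q := q))⁻¹ πE hunr hG
        red₃ hq₃ b)
    P₂ e20 e21 e22 (H89I.hresB_S2 L A hA E hunr _ rfl)

end CuspS1

end Fermat.Agent.S36.H85
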