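/-
helper17 — S36, row (M2) REG-q, ABSTRACT CORE (Mathlib only).

Thickness one at a crossing point of the level-`q` model, rigid case, as pure commutative algebra
on the `P₀`-component.

* `zPoly q = X ^ (q * q) - X`, `tPoly q N = X ^ (q - 1) * z ^ 2 - N - z * N'`; in characteristic
  `q`: `z' = -1`, `z ∣ T'`, hence `T(a) = 0 → (X - a) ^ 2 ∣ T` at every root `a` of `z`.
* `eval_ne_zero_of_identity` : in a domain `D` over `k`, the identity
  `T(Y)^6 · Y^4 (Y - 1728)^3 · Ū = z(Y)^12 · (Y^q)^4 (Y^q - 1728)^3` with `Ū` in a prime `b`,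
  `Y ≡ a mod b`, `a ∉ {0, 1728}`, `a^(q^2) = a` forces `N(a) ≠ 0`.
* `not_mem_of_crossing` : the ring-level consequence: `R(w,v) ∉ n`.
* `locGen_pair` : the finish: `n` is locally generated by `x = w - v^q` and `y' = w^q - v`.
-/
import Mathlib

set_option autoImplicit false
set_option linter.unusedSectionVars false

namespace Fermat.Agent.S36.H17

open Polynomial

section PolyFact

variable {k : Type*} [Field k] (q : ℕ)

/-- `z = X ^ (q * q) - X`. -/
noncomputable def zPoly : k[X] := X ^ (q * q) - X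

/-- `T = X ^ (q - 1) * z ^ 2 - N - z * N'`. -/
noncomputable def tPoly (N : k[X]) : k[X] :=
  X ^ (q - 1) * (zPoly q * zPoly q) - N - zPoly q * derivative N

variable [CharP k q]

theorem derivative_zPoly : derivative (zPoly q : k[X]) = -1 := by
  have h : ((q * q : ℕ) : k) = 0 := (CharP.cast_eq_zero_iff k q (q * q)).mpr (dvd_mul_right q q)
  rw [zPoly, derivative_sub, derivative_X_pow, derivative_X, h, map_zero, zero_mul, zero_sub]

theorem zPoly_dvd_derivative_tPoly (N : k[X]) : zPoly q ∣ derivative (tPoly q N) := by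
  have hz := derivative_zPoly (k := k) q
  refine ⟨derivative (X ^ (q - 1)) * zPoly q - 2 * X ^ (q - 1) - derivative (derivative N), ?_⟩
  rw [tPoly]
  simp only [derivative_sub, derivative_mul, hz]
  ring

theorem zPoly_eval (a : k) : (zPoly q : k[X]).eval a = a ^ (q * q) - a := by
  simp [zPoly]

theorem tPoly_eval_of_root {a : k} (ha : a ^ (q * q) = a) (N : k[X]) :
    (tPoly q N).eval a = - N.eval a := by
  have hz : (zPoly q : k[X]).eval a = 0 := by rw [zPoly_eval, ha, sub_self]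
  simp [tPoly, hz]

/-- at a root `a` of `z`: `N(a) = 0 → (X - a)^2 ∣ T`. -/
theorem sq_dvd_tPoly {a : k} (ha : a ^ (q * q) = a) (N : k[X]) (hN : N.eval a = 0) :
    (X - C a) ^ 2 ∣ tPoly q N := by
  have hT : (tPoly q N).eval a = 0 := by rw [tPoly_eval_of_root q ha, hN, neg_zero]
  obtain ⟨T1, hT1⟩ := dvd_iff_isRoot.mpr hT
  obtain ⟨S, hS⟩ := zPoly_dvd_derivative_tPoly q N
  have hz : (zPoly q : k[X]).eval a = 0 := by rw [zPoly_eval, ha, sub_self]
  have hd : (derivative (tPoly q N)).eval a = 0 := by rw [hS, eval_mul, hz, zero_mul]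
  have hT1a : T1.eval a = 0 := by
    have h := hd
    rw [hT1, derivative_mul, derivative_sub, derivative_X, derivative_C, sub_zero, one_mul,
      eval_add, eval_mul, eval_sub, eval_X, eval_C, sub_self, zero_mul, add_zero] at h
    exact h
  obtain ⟨T2, hT2⟩ := dvd_iff_isRoot.mpr hT1a
  exact ⟨T2, by rw [hT1, hT2]; ring⟩

/-- `z = (X - a) z₁` with `z₁(a) = -1` at a root `a` of `z`. -/
theorem exists_zPoly_factor {a : k} (ha : a ^ (q * q) = a) :
    ∃ z1 : k[X], zPoly q = (X - C a) * z1 ∧ z1.eval a = -1 := by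
  have hz : (zPoly q : k[X]).eval a = 0 := by rw [zPoly_eval, ha, sub_self]
  obtain ⟨z1, hz1⟩ := dvd_iff_isRoot.mpr hz
  refine ⟨z1, hz1, ?_⟩
  have h := congrArg (fun p => (derivative p).eval a) hz1
  simp only [derivative_zPoly, derivative_mul, derivative_sub, derivative_X, derivative_C,
    sub_zero, one_mul, eval_add, eval_mul, eval_sub, eval_X, eval_C, sub_self, zero_mul,
    add_zero, eval_neg, eval_one] at h
  exact h.symm

end PolyFact

section Core

variable {k : Type*} [Field k] (q : ℕ) [hq : Fact q.Prime] [CharP k q]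
  {D : Type*} [CommRing D] [IsDomain D] [Algebra k D]

/-- `p(Y) ≡ p(a)` modulo an ideal containing `Y - a`. -/
theorem aeval_sub_mem {Y : D} {a : k} {b : Ideal D} (h : Y - algebraMap k D a ∈ b) (p : k[X]) :
    aeval Y p - algebraMap k D (p.eval a) ∈ b := by
  obtain ⟨g, hg⟩ := Polynomial.X_sub_C_dvd_sub_C_eval (a := a) (p := p)
  have h2 := congrArg (aeval Y) hg
  simp only [map_sub, aeval_C, map_mul, aeval_X] at h2
  rw [h2]
  exact Ideal.mul_mem_right _ _ h

theorem not_mem_of_sub_const_mem {b : Ideal D} [hb : b.IsPrime] {c : k} (hc : c ≠ 0) {d : D}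
    (hd : d - algebraMap k D c ∈ b) : d ∉ b := by
  intro hdb
  have h1 : algebraMap k D c ∈ b := by
    have := b.sub_mem hdb hd
    simpa using this
  have hunit : IsUnit (algebraMap k D c) := (IsUnit.mk0 c hc).map _
  exact hb.ne_top (Ideal.eq_top_of_isUnit_mem _ h1 hunit)

/-- **The core**: the `P₀`-side identity forces `N(a) ≠ 0` at a crossing point. -/
theorem eval_ne_zero_of_identity (Y Ubar : D) (b : Ideal D) [hb : b.IsPrime]
    (a : k) (hYa : Y - algebraMap k D a ∈ b) (hYne : Y - algebraMap k D a ≠ 0)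
    (ha0 : a ≠ 0) (ha1 : a ≠ 1728) (haq : a ^ (q * q) = a) (N : k[X]) (hU : Ubar ∈ b)
    (hid : aeval Y (tPoly q N) ^ 6 * (Y ^ 4 * (Y - 1728) ^ 3) * Ubar =
      aeval Y (zPoly q : k[X]) ^ 12 * ((Y ^ q) ^ 4 * (Y ^ q - 1728) ^ 3)) :
    N.eval a ≠ 0 := by
  intro hN
  obtain ⟨T2, hT2⟩ := sq_dvd_tPoly q haq N hN
  obtain ⟨z1, hz1, hz1a⟩ := exists_zPoly_factor (k := k) q haq
  have hT : aeval Y (tPoly q N) = (Y - algebraMap k D a) ^ 2 * aeval Y T2 := by
    rw [hT2]
    simp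
  have hz : aeval Y (zPoly q : k[X]) = (Y - algebraMap k D a) * aeval Y z1 := by
    rw [hz1]
    simp
  rw [hT, hz] at hid
  have hcancel : aeval Y T2 ^ 6 * (Y ^ 4 * (Y - 1728) ^ 3) * Ubar =
      aeval Y z1 ^ 12 * ((Y ^ q) ^ 4 * (Y ^ q - 1728) ^ 3) := by
    have h12 : (Y - algebraMap k D a) ^ 12 ≠ 0 := pow_ne_zero _ hYne
    apply mul_left_cancel₀ h12
    linear_combination hid
  have hL : aeval Y T2 ^ 6 * (Y ^ 4 * (Y - 1728) ^ 3) * Ubar ∈ b := Ideal.mul_mem_left _ _ hU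
  rw [hcancel] at hL
  -- the three factors of the right-hand side are not in `b`
  have h1 : aeval Y z1 ∉ b := by
    have := aeval_sub_mem (k := k) hYa z1
    rw [hz1a] at this
    exact not_mem_of_sub_const_mem (k := k) (by norm_num) this
  have h2 : Y ∉ b := not_mem_of_sub_const_mem (k := k) ha0 hYa
  have h3 : Y ^ q - 1728 ∉ b := by
    have hc : a ^ q - 1728 ≠ 0 := by
      have h1728 : (1728 : k) ^ q = 1728 := by
        have := map_natCast (frobenius k q) 1728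
        rw [frobenius_def] at this
        exact_mod_cast this
      have : (a - 1728) ^ q = a ^ q - 1728 := by
        rw [sub_pow_char a 1728, h1728]
      rw [← this]
      exact pow_ne_zero _ (sub_ne_zero.mpr ha1)
    refine not_mem_of_sub_const_mem (k := k) hc ?_
    obtain ⟨g, hg⟩ := sub_dvd_pow_sub_pow Y (algebraMap k D a) q
    have : Y ^ q - 1728 - algebraMap k D (a ^ q - 1728) = (Y - algebraMap k D a) * g := by
      rw [← hg, map_sub, map_pow]
      have : algebraMap k D 1728 = 1728 := map_ofNat _ 1728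
      rw [this]
      ring
    rw [this]
    exact Ideal.mul_mem_right _ _ hYa
  rcases hb.mem_or_mem hL with h | h
  · exact h1 (hb.mem_of_pow_mem _ h)
  · rcases hb.mem_or_mem h with h | h
    · exact h2 (hb.mem_of_pow_mem _ (hb.mem_of_pow_mem _ h))
    · exact h3 (hb.mem_of_pow_mem _ h)

end Core

section RingLevel

variable {k : Type*} [Field k] (q : ℕ) [hq : Fact q.Prime] [CharP k q]
  {B D : Type*} [CommRing B] [IsDomain B] [CommRing D] [IsDomain D] [Algebra k D]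

/-- **Thickness one, ring level.**  `B` the chart, `red₂ : B → D` the reduction onto the
`P₀`-component, `v, w, U` with the sixth-power identity `hid`, Kronecker in the shape `hxy`,
`hPhiX`, `hPhiY`; at a prime `n ⊇ ker red₂` containing `U` and `x = w - v ^ q`, with
`w ≡ a` modulo `n`, `a ∉ {0, 1728}`: the value `R(w,v)` is NOT in `n`. -/
theorem not_mem_of_crossing (red₂ : B →+* D) (hsurj : Function.Surjective red₂)
    (qB : B) (hq0 : qB ≠ 0)
    (v w U Rwv RX PhiX PhiY : B) (N : k[X]) (Y : D)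
    (hw : red₂ w = Y) (hv : red₂ v = Y ^ q)
    (hxy : (w - v ^ q) * (w ^ q - v) = -(qB * Rwv))
    (hPhiX : PhiX = qB * w ^ (q - 1) * (w - v ^ q) + (w ^ q - v) + qB * RX)
    (hPhiY : red₂ PhiY = -red₂ (w - v ^ q))
    (hid : PhiX ^ 6 * (w ^ 4 * (w - 1728) ^ 3) * U = qB ^ 6 * (PhiY ^ 6 * (v ^ 4 * (v - 1728) ^ 3)))
    (hN : red₂ Rwv = aeval Y N) (hN' : red₂ RX = aeval Y (derivative N))
    (hYtr : ∀ a : k, Y ≠ algebraMap k D a)
    (n : Ideal B) [hn : n.IsPrime] (hker : RingHom.ker red₂ ≤ n) (hUn : U ∈ n)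
    (hxn : w - v ^ q ∈ n)
    (a : k) (c : B) (hc : red₂ c = algebraMap k D a) (hwc : w - c ∈ n)
    (ha0 : a ≠ 0) (ha1 : a ≠ 1728) : Rwv ∉ n := by
  intro hR
  have hb : (n.map red₂).IsPrime := Ideal.map_isPrime_of_surjective hsurj hker
  set b := n.map red₂ with hbdef
  have hYa : Y - algebraMap k D a ∈ b := by
    rw [← hw, ← hc, ← map_sub]
    exact Ideal.mem_map_of_mem _ hwc
  have hYne : Y - algebraMap k D a ≠ 0 := sub_ne_zero.mpr (hYtr a)
  -- `z(Y) = - red₂ x ∈ b`, hence `a ^ (q * q) = a`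
  have hxbar : red₂ (w - v ^ q) = -aeval Y (zPoly q : k[X]) := by
    rw [map_sub, map_pow, hw, hv, zPoly]
    simp only [map_sub, map_pow, aeval_X]
    ring
  have hzb : aeval Y (zPoly q : k[X]) ∈ b := by
    have h1 : red₂ (w - v ^ q) ∈ b := Ideal.mem_map_of_mem _ hxn
    rw [hxbar] at h1
    simpa using b.neg_mem h1
  have haq : a ^ (q * q) = a := by
    by_contra hne
    have h1 := aeval_sub_mem (k := k) hYa (zPoly q : k[X])
    have h2 : algebraMap k D ((zPoly q : k[X]).eval a) ∈ b := by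
      have := b.sub_mem hzb h1
      simpa using this
    rw [zPoly_eval] at h2
    have hunit : IsUnit (algebraMap k D (a ^ (q * q) - a)) :=
      (IsUnit.mk0 _ (sub_ne_zero.mpr hne)).map _
    exact hb.ne_top (Ideal.eq_top_of_isUnit_mem _ h2 hunit)
  -- `N(a) = 0` from `R(w,v) ∈ n`
  have hNa : N.eval a = 0 := by
    by_contra hne
    have h1 : aeval Y N ∈ b := by
      rw [← hN]
      exact Ideal.mem_map_of_mem _ hR
    have h2 := aeval_sub_mem (k := k) hYa N
    exact not_mem_of_sub_const_mem (k := k) hne h2 h1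
  -- the identity in `D`
  have hT : (w - v ^ q) * PhiX =
      qB * (w ^ (q - 1) * (w - v ^ q) ^ 2 - Rwv + (w - v ^ q) * RX) := by
    rw [hPhiX]
    linear_combination hxy
  have hB : (w ^ (q - 1) * (w - v ^ q) ^ 2 - Rwv + (w - v ^ q) * RX) ^ 6 *
      (w ^ 4 * (w - 1728) ^ 3) * U =
      (w - v ^ q) ^ 6 * (PhiY ^ 6 * (v ^ 4 * (v - 1728) ^ 3)) := by
    have h6 : qB ^ 6 ≠ 0 := pow_ne_zero _ hq0
    apply mul_left_cancel₀ h6
    obtain ⟨T, hTdef⟩ : ∃ T, T = w ^ (q - 1) * (w - v ^ q) ^ 2 - Rwv + (w - v ^ q) * RX :=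
      ⟨_, rfl⟩
    obtain ⟨x, hxdef⟩ : ∃ x, x = w - v ^ q := ⟨_, rfl⟩
    obtain ⟨Ww, hWdef⟩ : ∃ Ww, Ww = w ^ 4 * (w - 1728) ^ 3 := ⟨_, rfl⟩
    obtain ⟨Vv, hVdef⟩ : ∃ Vv, Vv = v ^ 4 * (v - 1728) ^ 3 := ⟨_, rfl⟩
    rw [← hTdef, ← hxdef] at hT
    rw [← hWdef, ← hVdef] at hid
    rw [← hTdef, ← hxdef, ← hWdef, ← hVdef]
    calc qB ^ 6 * (T ^ 6 * Ww * U) = (qB * T) ^ 6 * Ww * U := by ring
      _ = (x * PhiX) ^ 6 * Ww * U := by rw [hT]
      _ = x ^ 6 * (PhiX ^ 6 * Ww * U) := by ring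
      _ = x ^ 6 * (qB ^ 6 * (PhiY ^ 6 * Vv)) := by rw [hid]
      _ = qB ^ 6 * (x ^ 6 * (PhiY ^ 6 * Vv)) := by ring
  have hD := congrArg red₂ hB
  have h1728 : red₂ 1728 = 1728 := map_ofNat red₂ 1728
  simp only [map_mul, map_pow, map_sub, map_add, hw, hv, hN, hN', hPhiY, h1728] at hD
  have hxb' : Y - (Y ^ q) ^ q = -aeval Y (zPoly q : k[X]) := by
    have := hxbar
    rwa [map_sub, map_pow, hw, hv] at this
  rw [hxb'] at hD
  have hid' : aeval Y (tPoly q N) ^ 6 * (Y ^ 4 * (Y - 1728) ^ 3) * red₂ U =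
      aeval Y (zPoly q : k[X]) ^ 12 * ((Y ^ q) ^ 4 * (Y ^ q - 1728) ^ 3) := by
    have ht : aeval Y (tPoly q N) = Y ^ (q - 1) * (-aeval Y (zPoly q : k[X])) ^ 2 - aeval Y N +
        -aeval Y (zPoly q : k[X]) * aeval Y (derivative N) := by
      rw [tPoly]
      simp only [map_sub, map_mul, map_pow, aeval_X]
      ring
    rw [ht]
    refine hD.trans ?_
    obtain ⟨zz, hzz⟩ : ∃ zz, zz = aeval Y (zPoly q : k[X]) := ⟨_, rfl⟩
    obtain ⟨Cc, hCc⟩ : ∃ Cc, Cc = (Y ^ q) ^ 4 * (Y ^ q - 1728) ^ 3 := ⟨_, rfl⟩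
    rw [← hzz, ← hCc]
    ring
  exact eval_ne_zero_of_identity q Y (red₂ U) b a hYa hYne ha0 ha1 haq N
    (Ideal.mem_map_of_mem _ hUn) hid' hNa

/-- **The finish**: if `x ∈ ker red₁`, `y ∈ ker red₂`, `x * y = -(q * R)` with `R ∉ n`, and `n`
is locally generated by `q, x₀, y₀` (`x₀ ∈ ker red₁`, `y₀ ∈ ker red₂`), then `n` is locally
generated by `x, y`. -/
theorem locGen_pair {R₁ : Type*} [CommRing R₁] (red₁ : B →+* R₁) (red₂ : B →+* D) (qB : B)
    (hinf : ∀ z : B, red₁ z = 0 → red₂ z = 0 → z ∈ Ideal.span {qB})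
    (x y Rwv : B) (hx : red₁ x = 0) (hy : red₂ y = 0) (hx0 : x ≠ 0) (hy0 : y ≠ 0)
    (hxy : x * y = -(qB * Rwv))
    (n : Ideal B) [hn : n.IsPrime] (hR : Rwv ∉ n)
    (x₀ y₀ : B) (hx₀ : red₁ x₀ = 0) (hy₀ : red₂ y₀ = 0)
    (hgen : ∀ z ∈ n, ∃ t : B, t ∉ n ∧ t * z ∈ Ideal.span {qB, x₀, y₀}) :
    ∀ z ∈ n, ∃ t : B, t ∉ n ∧ t * z ∈ Ideal.span {x, y} := by
  have hq : Rwv * qB ∈ Ideal.span {x, y} := by
    have : Rwv * qB = -(x * y) := by rw [hxy]; ring
    rw [this]
    exact neg_mem (Ideal.mul_mem_right _ _ (Ideal.subset_span (by simp)))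
  have hX : Rwv * x₀ ∈ Ideal.span {x, y} := by
    have h1 : x₀ * y ∈ Ideal.span {qB} :=
      hinf _ (by rw [map_mul, hx₀, zero_mul]) (by rw [map_mul, hy, mul_zero])
    obtain ⟨g, hg⟩ := Ideal.mem_span_singleton'.1 h1
    have h2 : Rwv * x₀ = -(x * g) := by
      apply mul_right_cancel₀ hy0
      linear_combination (-Rwv) * hg + g * hxy
    rw [h2]
    exact neg_mem (Ideal.mul_mem_right _ _ (Ideal.subset_span (by simp)))
  have hY : Rwv * y₀ ∈ Ideal.span {x, y} := by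
    have h1 : x * y₀ ∈ Ideal.span {qB} :=
      hinf _ (by rw [map_mul, hx, zero_mul]) (by rw [map_mul, hy₀, mul_zero])
    obtain ⟨g, hg⟩ := Ideal.mem_span_singleton'.1 h1
    have h2 : Rwv * y₀ = -(y * g) := by
      apply mul_left_cancel₀ hx0
      linear_combination (-Rwv) * hg + g * hxy
    rw [h2]
    exact neg_mem (Ideal.mul_mem_right _ _ (Ideal.subset_span (by simp)))
  intro z hz
  obtain ⟨t, ht, htz⟩ := hgen z hz
  refine ⟨Rwv * t, fun h => (hn.mem_or_mem h).elim hR ht, ?_⟩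
  obtain ⟨a, z', hz', hsum⟩ := Ideal.mem_span_insert.1 htz
  obtain ⟨b, c, hbc⟩ := Ideal.mem_span_pair.1 hz'
  have : Rwv * t * z = a * (Rwv * qB) + b * (Rwv * x₀) + c * (Rwv * y₀) := by
    rw [mul_assoc, hsum, ← hbc]
    ring
  rw [this]
  exact Ideal.add_mem _ (Ideal.add_mem _ (Ideal.mul_mem_left _ _ hq) (Ideal.mul_mem_left _ _ hX))
    (Ideal.mul_mem_left _ _ hY)

end RingLevel

end Fermat.Agent.S36.H17
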