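/-
helper17 — S36, row (M2) REG-q, FORMAL HALF.

`q` prime, `Φ = Φ_q` with Kronecker `Φ = (X - Y^q)(X^q - Y) + q R`.  In `ℤ((t))`, with `v = j(t)`,
`w = j(t^q)`, `x = w - v^q`, `y' = w^q - v`:

* `kroneckerR` : the polynomial `R ∈ ℤ[Y][X]`;
* `phiXVal`, `phiYVal` : the values `Φ_X(w,v) = y' + q w^(q-1) x + q R_X(w,v)`,
  `Φ_Y(w,v) = -x - q v^(q-1) y' + q R_Y(w,v)` (over any ring, as polynomial expressions);
* `sixth_power_identity` : `Φ_X(w,v)^6 · w^4 (w-1728)^3 · U = q^6 · Φ_Y(w,v)^6 · v^4 (v-1728)^3`,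
  `U = q^12 Δ(t^q)/Δ(t)`, over every commutative ring of coefficients.
-/
import Mathlib
import Fermat.Agent.S28.H17_FormalIdentity
import Fermat.Agent.S28.H39_Laurent
import Fermat.Agent.S28.H30_PrimeLevel
import Fermat.Agent.S28.H16_Transfer
import Fermat.Agent.S34.H6_KroneckerPoly
import Fermat.Agent.S18.H16_FbarBasics

set_option autoImplicit false
set_option linter.unusedSectionVars false

noncomputable section

namespace Fermat.Agent.S36.H17

open Polynomial ModularCurve Fermat.Agent.S28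

/-! ### The inner (coefficientwise) derivative of a bivariate polynomial -/

/-- `∂/∂Y` on `ℤ[Y][X]`. -/
def innerD (P : ℤ[X][X]) : ℤ[X][X] := P.sum fun n c => monomial n (derivative c)

theorem innerD_add (P Q : ℤ[X][X]) : innerD (P + Q) = innerD P + innerD Q := by
  unfold innerD
  rw [Polynomial.sum_add_index]
  · intro i
    simp
  · intro i a b
    rw [derivative_add, map_add]

theorem innerD_monomial (n : ℕ) (c : ℤ[X]) : innerD (monomial n c) = monomial n (derivative c) := by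
  unfold innerD
  rw [Polynomial.sum_monomial_index]
  simp

/-! ### Chain rule for `θ` and bivariate polynomials -/

section Chain

variable {R : Type*} [CommRing R]

theorem thetaOp_evalJ (v : LaurentSeries R) (c : ℤ[X]) :
    thetaOp (evalJ v c) = evalJ v (derivative c) * thetaOp v := by
  have h : ∀ c : ℤ[X], evalJ v c = aeval v (c.map (Int.castRingHom R)) := by
    intro c
    rw [evalJ, AlgHom.toRingHom_eq_coe, RingHom.coe_coe, aeval_def, aeval_def, eval₂_map]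
    congr 1
    exact Subsingleton.elim _ _
  rw [h, h, H39.thetaOp_aeval, derivative_map]

theorem thetaOp_eval₂ (P : ℤ[X][X]) (v w : LaurentSeries R) :
    thetaOp (P.eval₂ (evalJ v) w) =
      (innerD P).eval₂ (evalJ v) w * thetaOp v + (derivative P).eval₂ (evalJ v) w * thetaOp w := by
  induction P using Polynomial.induction_on' with
  | add p r hp hr =>
    rw [eval₂_add, map_add, hp, hr, innerD_add, derivative_add, eval₂_add, eval₂_add]
    ring
  | monomial n c =>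
    rw [innerD_monomial, derivative_monomial, eval₂_monomial, eval₂_monomial, eval₂_monomial,
      thetaOp_mul, thetaOp_evalJ, H39.thetaOp_pow, map_mul, map_natCast]
    ring

end Chain

/-! ### Kronecker's `R` -/

section Kron

variable (q : ℕ) [hq : Fact q.Prime] [NeZero q]

/-- the Kronecker main term `(X - Y^q)(X^q - Y)` in `ℤ[Y][X]`. -/
def kronMain : ℤ[X][X] := (X - C (X ^ q)) * (X ^ q - C X)

theorem exists_eq_C_mul_of_map_eq_zero (P : ℤ[X][X])
    (h : P.map (Polynomial.mapRingHom (Int.castRingHom (ZMod q))) = 0) :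
    ∃ R : ℤ[X][X], P = C (C (q : ℤ)) * R := by
  have hdvd : C (C (q : ℤ)) ∣ P := by
    rw [Polynomial.C_dvd_iff_dvd_coeff]
    intro n
    rw [Polynomial.C_dvd_iff_dvd_coeff]
    intro m
    have h1 := congrArg (fun p => (p.coeff n).coeff m) h
    simp only [coeff_map, Polynomial.coe_mapRingHom, coeff_zero, eq_intCast] at h1
    exact (ZMod.intCast_zmod_eq_zero_iff_dvd _ q).1 h1
  exact hdvd

theorem exists_kroneckerR (D : ModularPolynomialData q)
    (hD : ∀ (k : Type) [Field k] (ζ : kˣ), IsPrimitiveRoot ζ q → RootsAt k q ζ D.Φ) :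
    ∃ R : ℤ[X][X], D.Φ = kronMain q + C (C (q : ℤ)) * R := by
  have hk := S34.H6.kronecker_poly_zmod q D hD
  obtain ⟨R, hR⟩ := exists_eq_C_mul_of_map_eq_zero q (D.Φ - kronMain q) (by
    rw [Polynomial.map_sub, hk, kronMain]
    simp [Polynomial.map_sub, Polynomial.map_mul, Polynomial.map_pow])
  exact ⟨R, by rw [← hR]; ring⟩

end Kron

/-! ### The values `Φ_X(w,v)`, `Φ_Y(w,v)` over any ring -/

section Values

variable {A : Type*} [CommRing A]

/-- `Φ_X(w, v) = y' + q w^(q-1) x + q R_X(w,v)`, `v = f Y`. -/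
def phiXVal (R : ℤ[X][X]) (q : ℕ) (f : ℤ[X] →+* A) (w : A) : A :=
  (w ^ q - f X) + (q : A) * w ^ (q - 1) * (w - f X ^ q) + (q : A) * (derivative R).eval₂ f w

/-- `Φ_Y(w, v) = -x - q v^(q-1) y' + q R_Y(w,v)`, `v = f Y`. -/
def phiYVal (R : ℤ[X][X]) (q : ℕ) (f : ℤ[X] →+* A) (w : A) : A :=
  -(w - f X ^ q) - (q : A) * f X ^ (q - 1) * (w ^ q - f X) + (q : A) * (innerD R).eval₂ f w

theorem map_phiXVal {A' : Type*} [CommRing A'] (g : A →+* A') (R : ℤ[X][X]) (q : ℕ)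
    (f : ℤ[X] →+* A) (w : A) : g (phiXVal R q f w) = phiXVal R q (g.comp f) (g w) := by
  simp only [phiXVal, map_add, map_sub, map_mul, map_pow, map_natCast, Polynomial.hom_eval₂,
    RingHom.comp_apply]

theorem map_phiYVal {A' : Type*} [CommRing A'] (g : A →+* A') (R : ℤ[X][X]) (q : ℕ)
    (f : ℤ[X] →+* A) (w : A) : g (phiYVal R q f w) = phiYVal R q (g.comp f) (g w) := by
  simp only [phiYVal, map_add, map_sub, map_neg, map_mul, map_pow, map_natCast,
    Polynomial.hom_eval₂, RingHom.comp_apply]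

/-- `Φ(w,v) = x y' + q R(w,v)` for `Φ = kronMain + q R`. -/
theorem eval₂_kron (q : ℕ) (R : ℤ[X][X]) (f : ℤ[X] →+* A) (w : A) :
    (kronMain q + C (C (q : ℤ)) * R).eval₂ f w =
      (w - f X ^ q) * (w ^ q - f X) + (q : A) * R.eval₂ f w := by
  simp [kronMain, eval₂_add, eval₂_mul, eval₂_sub, eval₂_pow, eval₂_X, eval₂_C]

end Values

/-! ### The sixth-power identity over `ℤ` -/

section Main

variable (q : ℕ) [hq : Fact q.Prime] [NeZero q]

/-- `U = q^12 Δ(t^q)/Δ(t)` over `R`. -/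
def Useries (R : Type*) [CommRing R] : LaurentSeries R :=
  (q : LaurentSeries R) ^ 12 * DeltaQuot R q

theorem coeffMap_Useries {R S : Type*} [CommRing R] [CommRing S] (f : R →+* S) :
    coeffMap f (Useries q R) = Useries q S := by
  rw [Useries, map_mul, map_pow, map_natCast, S28.H30.coeffMap_DeltaQuot, Useries]

variable {R : Type*} [CommRing R]

/-- differentiated relation: `Φ_X(w,v) θw + Φ_Y(w,v) θv = 0`. -/
theorem phiX_mul_theta_add (Rk : ℤ[X][X]) (v w : LaurentSeries R)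
    (hrel : (w - v ^ q) * (w ^ q - v) + (q : LaurentSeries R) * Rk.eval₂ (evalJ v) w = 0) :
    phiXVal Rk q (evalJ v) w * thetaOp w + phiYVal Rk q (evalJ v) w * thetaOp v = 0 := by
  have h := congrArg thetaOp hrel
  rw [map_add, map_zero, thetaOp_mul, H39.thetaOp_natCast_mul, thetaOp_eval₂, map_sub, map_sub,
    H39.thetaOp_pow, H39.thetaOp_pow] at h
  rw [phiXVal, phiYVal, evalJ_X]
  linear_combination h

theorem sixth_power_identity_int (Rk : ℤ[X][X])
    (hrel : (qExpand ℤ q (jqModC ℤ) - jqModC ℤ ^ q) * (qExpand ℤ q (jqModC ℤ) ^ q - jqModC ℤ) +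
      (q : LaurentSeries ℤ) * Rk.eval₂ (evalJ (jqModC ℤ)) (qExpand ℤ q (jqModC ℤ)) = 0) :
    phiXVal Rk q (evalJ (jqModC ℤ)) (qExpand ℤ q (jqModC ℤ)) ^ 6 *
        (qExpand ℤ q (jqModC ℤ) ^ 4 * (qExpand ℤ q (jqModC ℤ) - 1728) ^ 3) * Useries q ℤ =
      (q : LaurentSeries ℤ) ^ 6 * (phiYVal Rk q (evalJ (jqModC ℤ)) (qExpand ℤ q (jqModC ℤ)) ^ 6 *
        (jqModC ℤ ^ 4 * (jqModC ℤ - 1728) ^ 3)) := by
  set v := jqModC ℤ with hv
  set w := qExpand ℤ q v with hw
  obtain ⟨PX, hPX⟩ : ∃ PX, PX = phiXVal Rk q (evalJ v) w := ⟨_, rfl⟩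
  obtain ⟨PY, hPY⟩ : ∃ PY, PY = phiYVal Rk q (evalJ v) w := ⟨_, rfl⟩
  rw [← hPX, ← hPY]
  have h1 : PX * thetaOp w + PY * thetaOp v = 0 := by
    rw [hPX, hPY]
    exact phiX_mul_theta_add q Rk v w hrel
  have hθw : thetaOp w = (q : LaurentSeries ℤ) * qExpand ℤ q (thetaOp v) := thetaOp_qExpand q v
  have hFI : DeltaS ℤ * v ^ 4 * (v - 1728) ^ 3 = thetaOp v ^ 6 := S28.H17.formal_identity ℤ
  have hFIq : qExpand ℤ q (DeltaS ℤ) * w ^ 4 * (w - 1728) ^ 3 = qExpand ℤ q (thetaOp v) ^ 6 := by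
    have := congrArg (qExpand ℤ q) hFI
    simpa only [map_mul, map_pow, map_sub, map_ofNat] using this
  have hΔ : DeltaS ℤ * DeltaSInv ℤ = 1 := S28.H30.DeltaS_mul_DeltaSInv ℤ
  obtain ⟨Δ, hΔdef⟩ : ∃ Δ, Δ = DeltaS ℤ := ⟨_, rfl⟩
  obtain ⟨Δi, hΔidef⟩ : ∃ Δi, Δi = DeltaSInv ℤ := ⟨_, rfl⟩
  obtain ⟨Δq, hΔqdef⟩ : ∃ Δq, Δq = qExpand ℤ q (DeltaS ℤ) := ⟨_, rfl⟩
  obtain ⟨θv, hθvdef⟩ : ∃ θv, θv = thetaOp v := ⟨_, rfl⟩
  obtain ⟨θq, hθqdef⟩ : ∃ θq, θq = qExpand ℤ q (thetaOp v) := ⟨_, rfl⟩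
  obtain ⟨Q, hQdef⟩ : ∃ Q, Q = (q : LaurentSeries ℤ) := ⟨_, rfl⟩
  rw [Useries, DeltaQuot, ← hΔqdef, ← hΔidef, ← hQdef]
  rw [← hΔdef, ← hθvdef] at hFI
  rw [← hΔqdef, ← hθqdef] at hFIq
  rw [← hΔdef, ← hΔidef] at hΔ
  rw [hθw, ← hθqdef, ← hθvdef, ← hQdef] at h1
  -- `PX * Q * θq = - PY * θv`
  have h2 : (PX * Q * θq) ^ 6 = (PY * θv) ^ 6 := by
    have : PX * Q * θq = -(PY * θv) := by linear_combination h1
    rw [this]
    ring
  have hQ0 : Q ^ 6 ≠ 0 := by
    apply pow_ne_zero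
    rw [hQdef]
    have : ((q : ℕ) : LaurentSeries ℤ) = HahnSeries.C ((q : ℕ) : ℤ) := by rw [map_natCast]
    rw [this]
    intro h0
    have := HahnSeries.C_injective (Γ := ℤ) (R := ℤ) (h0.trans (map_zero _).symm)
    exact (NeZero.ne q) (by exact_mod_cast this)
  apply mul_left_cancel₀ hQ0
  calc Q ^ 6 * (PX ^ 6 * (w ^ 4 * (w - 1728) ^ 3) * (Q ^ 12 * (Δq * Δi)))
      = (PX * Q * θq) ^ 6 * Q ^ 12 * Δi := by
        rw [mul_pow, mul_pow, ← hFIq]
        ring
    _ = (PY * θv) ^ 6 * Q ^ 12 * Δi := by rw [h2]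
    _ = PY ^ 6 * (v ^ 4 * (v - 1728) ^ 3) * Q ^ 12 * (Δ * Δi) := by
        rw [mul_pow, ← hFI]
        ring
    _ = Q ^ 6 * (Q ^ 6 * (PY ^ 6 * (v ^ 4 * (v - 1728) ^ 3))) := by
        rw [hΔ]
        ring

/-- the Kronecker relation `x y' + q R(w,v) = 0` over every ring of coefficients. -/
theorem kron_rel (D : ModularPolynomialData q) (Rk : ℤ[X][X])
    (hRk : D.Φ = kronMain q + C (C (q : ℤ)) * Rk) (R : Type*) [CommRing R] :
    (qExpand R q (jqModC R) - jqModC R ^ q) * (qExpand R q (jqModC R) ^ q - jqModC R) +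
      (q : LaurentSeries R) * Rk.eval₂ (evalJ (jqModC R)) (qExpand R q (jqModC R)) = 0 := by
  have h := S18.H16.modPoly_root q D R
  rw [hRk, eval₂_kron, evalJ_X] at h
  exact h

/-- **The sixth-power identity** over every commutative ring of coefficients. -/
theorem sixth_power_identity (D : ModularPolynomialData q) (Rk : ℤ[X][X])
    (hRk : D.Φ = kronMain q + C (C (q : ℤ)) * Rk) (R : Type*) [CommRing R] :
    phiXVal Rk q (evalJ (jqModC R)) (qExpand R q (jqModC R)) ^ 6 *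
        (qExpand R q (jqModC R) ^ 4 * (qExpand R q (jqModC R) - 1728) ^ 3) * Useries q R =
      (q : LaurentSeries R) ^ 6 * (phiYVal Rk q (evalJ (jqModC R)) (qExpand R q (jqModC R)) ^ 6 *
        (jqModC R ^ 4 * (jqModC R - 1728) ^ 3)) := by
  have h := congrArg (coeffMap (Int.castRingHom R))
    (sixth_power_identity_int q Rk (kron_rel q D Rk hRk ℤ))
  simp only [map_mul, map_pow, map_sub, map_ofNat, map_natCast, map_phiXVal, map_phiYVal,
    S28.H16.coeffMap_comp_evalJ, coeffMap_qExpand, coeffMap_jqModC, coeffMap_Useries] at h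
  exact h

end Main

end Fermat.Agent.S36.H17
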