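/-
helper17 — S36, row (M2r) REG-q at RIGID crossing points: the `TwoComponents`-level assembly.

`B` = a chart of level `q L` with its two reductions `red₁ red₂ : B → D` (S34 `TwoComponents`),
`ψ : BM` a `j`-type function of level `L` (`j` or `j(d ·)`), `v = ι ψ`, `w = V ψ`, `Y = rbar ψ`,
`W Y = Y ^ q`.  Inputs: Kronecker `x y' + q R(w,v) = 0` (`x = w - v^q`, `y' = w^q - v`) and the
sixth-power identity `Φ_X(w,v)^6 · w^4 (w-1728)^3 · U = q^6 · Φ_Y(w,v)^6 · v^4 (v-1728)^3` in `B`.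

Outputs, at a maximal ideal `n` containing both vertical primes, with `w ∉ n`, `w - 1728 ∉ n`:

* `Rwv_not_mem` : `R(w,v) ∉ n`;
* `localGen_first` : `∀ z ∈ ker red₁, ∃ t ∉ n, t z ∈ (x)` (and `red₂ x ≠ 0`);
* `localGen_second` : `∀ z ∈ ker red₂, ∃ t ∉ n, t z ∈ (y')` (and `red₁ y' ≠ 0`);
* `localGen_max` : `∀ z ∈ n, ∃ t ∉ n, t z ∈ (x, y')`;
* `middle_identity` : the identity in `D` consumed by (M4) (`H65_MiddleKronecker`).
-/
import Mathlib
import Fermat.Agent.S34.H83_L0Target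
import Fermat.Agent.S36.H17_RegQCore
import Fermat.Agent.S36.H17_RegQFormal

set_option autoImplicit false
set_option linter.unusedSectionVars false

noncomputable section

namespace Fermat.Agent.S36.H17

open Polynomial Fermat.Agent.S34.H83

/-- `ℤ[X] → A`, `X ↦ a`. -/
def evalAt {A : Type*} [CommRing A] (a : A) : ℤ[X] →+* A :=
  (Polynomial.aeval (R := ℤ) a).toRingHom

@[simp]
theorem evalAt_X {A : Type*} [CommRing A] (a : A) : evalAt a X = a := by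
  simp [evalAt]

theorem comp_evalAt {A A' : Type*} [CommRing A] [CommRing A'] (g : A →+* A') (a : A) :
    g.comp (evalAt a) = evalAt (g a) := by
  apply Polynomial.ringHom_ext'
  · exact RingHom.ext_int _ _
  · simp [evalAt]

theorem evalAt_eq_evalJ {R : Type*} [CommRing R] (v : LaurentSeries R) :
    evalAt v = Fermat.Agent.S28.evalJ v := by
  apply Polynomial.ringHom_ext'
  · exact RingHom.ext_int _ _
  · simp [evalAt, Fermat.Agent.S28.evalJ]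

section DerivExpand

variable {k : Type*} [Field k] (q : ℕ) [hq : Fact q.Prime] [CharP k q]

/-- `c(Y) ↦ c̄(X^q)`, `ℤ[Y] → k[X]`. -/
def expandHom : ℤ[X] →+* k[X] :=
  (↑(expand k q) : k[X] →+* k[X]).comp (Polynomial.mapRingHom (Int.castRingHom k))

theorem expandHom_X : expandHom (k := k) q X = X ^ q := by
  simp [expandHom]

theorem derivative_expandHom (c : ℤ[X]) : derivative (expandHom (k := k) q c) = 0 := by
  have hq0 : ((q : ℕ) : k[X]) = 0 := by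
    rw [← C_eq_natCast, CharP.cast_eq_zero k q, C_0]
  simp only [expandHom, RingHom.comp_apply, RingHom.coe_coe, derivative_expand, hq0, zero_mul,
    mul_zero]

/-- the outer derivative commutes with the substitution `Y ↦ X^q` in characteristic `q`. -/
theorem derivative_eval₂_expandHom (P : ℤ[X][X]) :
    derivative (P.eval₂ (expandHom (k := k) q) X) = (derivative P).eval₂ (expandHom (k := k) q) X := by
  induction P using Polynomial.induction_on' with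
  | add p r hp hr => rw [eval₂_add, derivative_add, hp, hr, derivative_add, eval₂_add]
  | monomial n c =>
    rw [eval₂_monomial, derivative_mul, derivative_expandHom, zero_mul, zero_add,
      derivative_monomial, eval₂_monomial, derivative_X_pow, map_mul]
    simp only [map_natCast]
    ring

end DerivExpand

section TC

variable {k : Type*} [Field k] (q : ℕ) [hq : Fact q.Prime] [CharP k q]
  {B D BM : Type*} [CommRing B] [IsDomain B] [CommRing D] [IsDedekindDomain D] [Algebra k D]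
  [CommRing BM]
  {red₁ red₂ : B →+* D} {ι V : BM →+* B} {rbar : BM →+* D} {W : D →+* D} {qB : B}

theorem natCast_eq_zero_of_algebra (k : Type*) [Field k] (q : ℕ) [CharP k q]
    (D : Type*) [CommRing D] [Algebra k D] : ((q : ℕ) : D) = 0 := by
  have h : ((q : ℕ) : D) = algebraMap k D ((q : ℕ) : k) := by rw [map_natCast]
  rw [h, CharP.cast_eq_zero k q, map_zero]

/-- `red ∘ (X ↦ v) = (aeval Y) ∘ (c ↦ c̄(X^q))` when `red v = Y^q`. -/
theorem comp_evalAt_eq_aeval_expandHom (red : B →+* D) (v : B) (Y : D) (hv : red v = Y ^ q) :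
    red.comp (evalAt v) =
      ((aeval Y : k[X] →ₐ[k] D) : k[X] →+* D).comp (expandHom (k := k) q) := by
  apply Polynomial.ringHom_ext'
  · exact RingHom.ext_int _ _
  · simp [evalAt, expandHom, hv]

end TC

/-- `x · Φ_X = q · T` and `Φ_X^6 W U = q^6 Φ_Y^6 V` give `T^6 W U = x^6 Φ_Y^6 V`. -/
theorem cancel_sixth {B : Type*} [CommRing B] [IsDomain B] {qB T x PX Ww U PY Vv : B}
    (h6 : qB ^ 6 ≠ 0) (hT : x * PX = qB * T) (hid : PX ^ 6 * Ww * U = qB ^ 6 * (PY ^ 6 * Vv)) :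
    T ^ 6 * Ww * U = x ^ 6 * (PY ^ 6 * Vv) := by
  apply mul_left_cancel₀ h6
  calc qB ^ 6 * (T ^ 6 * Ww * U) = (qB * T) ^ 6 * Ww * U := by ring
    _ = (x * PX) ^ 6 * Ww * U := by rw [hT]
    _ = x ^ 6 * (PX ^ 6 * Ww * U) := by ring
    _ = x ^ 6 * (qB ^ 6 * (PY ^ 6 * Vv)) := by rw [hid]
    _ = qB ^ 6 * (x ^ 6 * (PY ^ 6 * Vv)) := by ring

section Main

variable {k : Type*} [Field k] (q : ℕ) [hq : Fact q.Prime] [CharP k q]
  {B D BM : Type*} [CommRing B] [IsDomain B] [CommRing D] [IsDedekindDomain D] [Algebra k D]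
  [CommRing BM]
  {red₁ red₂ : B →+* D} {ι V : BM →+* B} {rbar : BM →+* D} {W : D →+* D} {qB : B}

/-- the node branch of `TwoComponents.locGen`, when both vertical primes lie in `n`. -/
theorem locGen_node_of_both (h : TwoComponents red₁ red₂ ι V rbar W q qB) (hq2 : 2 ≤ q)
    (hD : ¬ IsField D) (n : Ideal B) (hn : n.IsMaximal)
    (hk₁ : RingHom.ker red₁ ≤ n) (hk₂ : RingHom.ker red₂ ≤ n) :
    ∃ x y : B, red₁ x = 0 ∧ red₂ y = 0 ∧ x ∈ n ∧ y ∈ n ∧ x * y ∈ Ideal.span {qB} ∧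
      ∀ z ∈ n, ∃ t : B, t ∉ n ∧ t * z ∈ Ideal.span {qB, x, y} := by
  classical
  have hnprime : n.IsPrime := hn.isPrime
  have hk₁' : ∀ z : B, red₁ z = 0 → z ∈ n := fun z hz => hk₁ ((RingHom.mem_ker).2 hz)
  have hk₂' : ∀ z : B, red₂ z = 0 → z ∈ n := fun z hz => hk₂ ((RingHom.mem_ker).2 hz)
  have hmax : ∀ (red : B →+* D), Function.Surjective red → (∀ z : B, red z = 0 → z ∈ n) →
      (Ideal.map red n).IsMaximal ∧ Ideal.map red n ≠ ⊥ := by
    intro red hred hker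
    have h1 : (Ideal.map red n).IsMaximal := by
      rcases Ideal.map_eq_top_or_isMaximal_of_surjective red hred hn with h | h
      · exfalso
        have : (1 : B) ∈ n := (mem_iff_map_mem hred n hker 1).2 (by rw [h]; trivial)
        exact hnprime.ne_top ((Ideal.eq_top_iff_one n).2 this)
      · exact h
    exact ⟨h1, Ring.ne_bot_of_isMaximal_of_not_isField h1 hD⟩
  obtain ⟨hm₁, h0₁⟩ := hmax red₁ h.hred₁ hk₁'
  have hn₁ := mem_iff_map_mem h.hred₁ n hk₁'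
  obtain ⟨hm₂, h0₂⟩ := hmax red₂ h.hred₂ hk₂'
  have hn₂ := mem_iff_map_mem h.hred₂ n hk₂'
  obtain ⟨θ₂, hθ₂, hθ₂'⟩ := exists_mem_not_mem_sq hm₂.isPrime h0₂
  obtain ⟨θ₁, hθ₁, hθ₁'⟩ := exists_mem_not_mem_sq hm₁.isPrime h0₁
  obtain ⟨x, hx₁, hx₂, hx₂'⟩ := exists_mem_ker_uniformizer' (red₁ := red₁) (red₂ := red₂)
    h.hroot h.h1ι h.h1V h.h2ι h.h2V h.hrbar hq2 n _ _ hm₁.isPrime hn₁ hn₂ hθ₂ hθ₂'
  obtain ⟨y, hy₂, hy₁, hy₁'⟩ := exists_mem_ker_uniformizer' (red₁ := red₂) (red₂ := red₁)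
    (ι := V) (V := ι) h.hroot h.h2V h.h2ι h.h1V h.h1ι h.hrbar hq2 n _ _ hm₂.isPrime hn₂ hn₁
    hθ₁ hθ₁'
  obtain ⟨hxy, hxn, hyn, hgen⟩ := locGen_node h.hred₁ h.hred₂ h.hinf n _ _ hm₁.isPrime
    hm₂.isPrime hn₁ hn₂ hx₁ hx₂ hx₂' hy₂ hy₁ hy₁'
  exact ⟨x, y, hx₁, hy₂, hxn, hyn, hxy, hgen⟩

variable (h : TwoComponents red₁ red₂ ι V rbar W q qB) (hqB : qB = (q : B)) (hq0 : (q : B) ≠ 0)
  (ψ : BM) (hW : W (rbar ψ) = rbar ψ ^ q)
  (hY : Function.Injective (aeval (R := k) (rbar ψ)))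
  (Rk : ℤ[X][X]) (U : B)
  (hrel : (V ψ - ι ψ ^ q) * (V ψ ^ q - ι ψ) + (q : B) * Rk.eval₂ (evalAt (ι ψ)) (V ψ) = 0)
  (hid : phiXVal Rk q (evalAt (ι ψ)) (V ψ) ^ 6 * (V ψ ^ 4 * (V ψ - 1728) ^ 3) * U =
      (q : B) ^ 6 * (phiYVal Rk q (evalAt (ι ψ)) (V ψ) ^ 6 * (ι ψ ^ 4 * (ι ψ - 1728) ^ 3)))

include hY in
theorem aeval_ne_zero_of_inj {p : k[X]} (hp : p ≠ 0) : aeval (rbar ψ) p ≠ 0 := by
  intro h0
  exact hp (hY (by rw [h0, map_zero]))

include hY in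
theorem Y_pow_sub_ne_zero : (rbar ψ ^ q) ^ q - rbar ψ ≠ 0 := by
  have h1 : (X ^ (q * q) - X : k[X]) ≠ 0 :=
    FiniteField.X_pow_card_sub_X_ne_zero k (by nlinarith [hq.out.two_le])
  have := aeval_ne_zero_of_inj (k := k) ψ hY h1
  simpa [pow_mul] using this

include hY in
theorem Y_ne_const (a : k) : rbar ψ ≠ algebraMap k D a := by
  intro h0
  have h1 : (X - C a : k[X]) ≠ 0 := X_sub_C_ne_zero a
  exact aeval_ne_zero_of_inj (k := k) ψ hY h1 (by simp [h0])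

include h hW in
theorem red₁_x : red₁ (V ψ - ι ψ ^ q) = 0 := by
  rw [map_sub, map_pow, h.h1V, h.h1ι, hW, sub_self]

include h hW in
theorem red₂_y' : red₂ (V ψ ^ q - ι ψ) = 0 := by
  rw [map_sub, map_pow, h.h2V, h.h2ι, hW, sub_self]

include h hW in
theorem red₂_x : red₂ (V ψ - ι ψ ^ q) = rbar ψ - (rbar ψ ^ q) ^ q := by
  rw [map_sub, map_pow, h.h2V, h.h2ι, hW]

include h hW in
theorem red₁_y' : red₁ (V ψ ^ q - ι ψ) = (rbar ψ ^ q) ^ q - rbar ψ := by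
  rw [map_sub, map_pow, h.h1V, h.h1ι, hW]

include h hW hY in
theorem red₂_x_ne_zero : red₂ (V ψ - ι ψ ^ q) ≠ 0 := by
  rw [red₂_x q h ψ hW]
  intro h0
  apply Y_pow_sub_ne_zero (k := k) q ψ hY
  rw [← neg_sub, h0, neg_zero]

include h hW hY in
theorem red₁_y'_ne_zero : red₁ (V ψ ^ q - ι ψ) ≠ 0 := by
  rw [red₁_y' q h ψ hW]
  exact Y_pow_sub_ne_zero (k := k) q ψ hY

include hrel in
theorem x_mul_y' : (V ψ - ι ψ ^ q) * (V ψ ^ q - ι ψ) =
    -((q : B) * Rk.eval₂ (evalAt (ι ψ)) (V ψ)) := by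
  linear_combination hrel

include h hW hY hid in
/-- `U` vanishes on the first component. -/
theorem red₁_U : red₁ U = 0 := by
  have hqD : ((q : ℕ) : D) = 0 := natCast_eq_zero_of_algebra k q D
  have h1 := congrArg red₁ hid
  have h1728 : red₁ 1728 = 1728 := map_ofNat red₁ 1728
  have hPX : red₁ (phiXVal Rk q (evalAt (ι ψ)) (V ψ)) = (rbar ψ ^ q) ^ q - rbar ψ := by
    rw [map_phiXVal, phiXVal, hqD, comp_evalAt, evalAt_X, h.h1V, h.h1ι, hW]
    ring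
  simp only [map_mul, map_pow, map_sub, map_natCast, hPX, hqD, h1728, h.h1V, h.h1ι, hW] at h1
  have hq6 : (0 : D) ^ 6 = 0 := by norm_num
  rw [hq6, zero_mul] at h1
  have hne1 := Y_pow_sub_ne_zero (k := k) q ψ hY
  have hY0 : rbar ψ ≠ 0 := by
    have := Y_ne_const (k := k) ψ hY 0
    simpa using this
  have hne2 : rbar ψ ^ q - 1728 ≠ 0 := by
    have h2 : (X ^ q - C (1728 : k) : k[X]) ≠ 0 := X_pow_sub_C_ne_zero hq.out.pos _
    have := aeval_ne_zero_of_inj (k := k) ψ hY h2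
    have h3 : algebraMap k D 1728 = 1728 := map_ofNat _ 1728
    simpa [h3] using this
  have hne : ((rbar ψ ^ q) ^ q - rbar ψ) ^ 6 * ((rbar ψ ^ q) ^ 4 * (rbar ψ ^ q - 1728) ^ 3) ≠ 0 :=
    mul_ne_zero (pow_ne_zero _ hne1)
      (mul_ne_zero (pow_ne_zero _ (pow_ne_zero _ hY0)) (pow_ne_zero _ hne2))
  exact (mul_eq_zero.1 h1).resolve_left hne

include h hW hY hrel hid hq0 in
/-- **Thickness one**: at a rigid crossing point, `R(w, v) ∉ n`. -/
theorem Rwv_not_mem (n : Ideal B) [hn : n.IsPrime]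
    (hk₁ : RingHom.ker red₁ ≤ n) (hk₂ : RingHom.ker red₂ ≤ n)
    (a : k) (c : B) (hc : red₂ c = algebraMap k D a) (hwc : V ψ - c ∈ n)
    (hw0 : V ψ ∉ n) (hw1 : V ψ - 1728 ∉ n) :
    Rk.eval₂ (evalAt (ι ψ)) (V ψ) ∉ n := by
  have hqD : ((q : ℕ) : D) = 0 := natCast_eq_zero_of_algebra k q D
  have ha0 : a ≠ 0 := by
    rintro rfl
    rw [map_zero] at hc
    apply hw0
    have : V ψ = (V ψ - c) + c := by ring
    rw [this]
    exact add_mem hwc (hk₂ ((RingHom.mem_ker).2 hc))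
  have ha1 : a ≠ 1728 := by
    rintro rfl
    apply hw1
    have h2 : red₂ (c - 1728) = 0 := by
      rw [map_sub, hc, map_ofNat, map_ofNat, sub_self]
    have : V ψ - 1728 = (V ψ - c) + (c - 1728) := by ring
    rw [this]
    exact add_mem hwc (hk₂ ((RingHom.mem_ker).2 h2))
  have hcomp := comp_evalAt_eq_aeval_expandHom (k := k) q red₂ (ι ψ) (rbar ψ)
    (by rw [h.h2ι, hW])
  refine not_mem_of_crossing (k := k) q red₂ h.hred₂ (q : B) hq0 (ι ψ) (V ψ) U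
    (Rk.eval₂ (evalAt (ι ψ)) (V ψ)) ((derivative Rk).eval₂ (evalAt (ι ψ)) (V ψ))
    (phiXVal Rk q (evalAt (ι ψ)) (V ψ)) (phiYVal Rk q (evalAt (ι ψ)) (V ψ))
    (Rk.eval₂ (expandHom (k := k) q) X) (rbar ψ) (h.h2V ψ) (by rw [h.h2ι, hW])
    (x_mul_y' q ψ Rk hrel) ?_ ?_ hid ?_ ?_ (Y_ne_const (k := k) ψ hY) n hk₂
    (hk₁ ((RingHom.mem_ker).2 (red₁_U q h ψ hW hY Rk U hid)))
    (hk₁ ((RingHom.mem_ker).2 (red₁_x q h ψ hW))) a c hc hwc ha0 ha1
  · rw [phiXVal, evalAt_X]; ring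
  · rw [map_phiYVal, phiYVal, hqD, comp_evalAt, evalAt_X]
    simp only [map_sub, map_pow]
    ring
  · rw [Polynomial.hom_eval₂, hcomp, h.h2V]
    have := Polynomial.hom_eval₂ Rk (expandHom (k := k) q)
      ((aeval (rbar ψ) : k[X] →ₐ[k] D) : k[X] →+* D) X
    simp only [RingHom.coe_coe, aeval_X] at this
    exact this.symm
  · rw [Polynomial.hom_eval₂, hcomp, h.h2V, derivative_eval₂_expandHom]
    have := Polynomial.hom_eval₂ (derivative Rk) (expandHom (k := k) q)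
      ((aeval (rbar ψ) : k[X] →ₐ[k] D) : k[X] →+* D) X
    simp only [RingHom.coe_coe, aeval_X] at this
    exact this.symm

include h hqB hW hY hrel in
/-- `R(w,v) ∉ n` ⟹ `x` generates the first vertical prime locally (helper62's `hgen` shape). -/
theorem localGen_first_of_not_mem (n : Ideal B) (hR : Rk.eval₂ (evalAt (ι ψ)) (V ψ) ∉ n) :
    ∀ z ∈ RingHom.ker red₁, ∃ t : B, t ∉ n ∧ t * z ∈ Ideal.span {V ψ - ι ψ ^ q} := by
  intro z hz
  refine ⟨Rk.eval₂ (evalAt (ι ψ)) (V ψ), hR, ?_⟩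
  have hy0 : V ψ ^ q - ι ψ ≠ 0 := fun h0 =>
    red₁_y'_ne_zero (k := k) q h ψ hW hY (by rw [h0, map_zero])
  have h1 : z * (V ψ ^ q - ι ψ) ∈ Ideal.span {qB} :=
    h.hinf _ (by rw [map_mul, (RingHom.mem_ker).1 hz, zero_mul])
      (by rw [map_mul, red₂_y' q h ψ hW, mul_zero])
  obtain ⟨g, hg⟩ := Ideal.mem_span_singleton'.1 h1
  rw [hqB] at hg
  have h2 : Rk.eval₂ (evalAt (ι ψ)) (V ψ) * z = -g * (V ψ - ι ψ ^ q) := by
    apply mul_right_cancel₀ hy0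
    linear_combination (-(Rk.eval₂ (evalAt (ι ψ)) (V ψ))) * hg + g * x_mul_y' q ψ Rk hrel
  rw [h2]
  exact Ideal.mul_mem_left _ _ (Ideal.mem_span_singleton_self _)

include h hqB hW hY hrel in
/-- mirror: `y'` generates the second vertical prime locally. -/
theorem localGen_second_of_not_mem (n : Ideal B) (hR : Rk.eval₂ (evalAt (ι ψ)) (V ψ) ∉ n) :
    ∀ z ∈ RingHom.ker red₂, ∃ t : B, t ∉ n ∧ t * z ∈ Ideal.span {V ψ ^ q - ι ψ} := by
  intro z hz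
  refine ⟨Rk.eval₂ (evalAt (ι ψ)) (V ψ), hR, ?_⟩
  have hx0 : V ψ - ι ψ ^ q ≠ 0 := fun h0 =>
    red₂_x_ne_zero (k := k) q h ψ hW hY (by rw [h0, map_zero])
  have h1 : (V ψ - ι ψ ^ q) * z ∈ Ideal.span {qB} :=
    h.hinf _ (by rw [map_mul, red₁_x q h ψ hW, zero_mul])
      (by rw [map_mul, (RingHom.mem_ker).1 hz, mul_zero])
  obtain ⟨g, hg⟩ := Ideal.mem_span_singleton'.1 h1
  rw [hqB] at hg
  have h2 : Rk.eval₂ (evalAt (ι ψ)) (V ψ) * z = -g * (V ψ ^ q - ι ψ) := by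
    apply mul_left_cancel₀ hx0
    linear_combination (-(Rk.eval₂ (evalAt (ι ψ)) (V ψ))) * hg + g * x_mul_y' q ψ Rk hrel
  rw [h2]
  exact Ideal.mul_mem_left _ _ (Ideal.mem_span_singleton_self _)

include h hqB hW hY hrel in
/-- `R(w,v) ∉ n` ⟹ `n B_n = (x, y')`. -/
theorem localGen_max_of_not_mem (hD : ¬ IsField D) (n : Ideal B) (hn : n.IsMaximal)
    (hk₁ : RingHom.ker red₁ ≤ n) (hk₂ : RingHom.ker red₂ ≤ n)
    (hR : Rk.eval₂ (evalAt (ι ψ)) (V ψ) ∉ n) :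
    ∀ z ∈ n, ∃ t : B, t ∉ n ∧ t * z ∈ Ideal.span {V ψ - ι ψ ^ q, V ψ ^ q - ι ψ} := by
  obtain ⟨x₀, y₀, hx₀, hy₀, -, -, -, hgen⟩ :=
    locGen_node_of_both q h hq.out.two_le hD n hn hk₁ hk₂
  have hx0 : V ψ - ι ψ ^ q ≠ 0 := fun h0 =>
    red₂_x_ne_zero (k := k) q h ψ hW hY (by rw [h0, map_zero])
  have hy0 : V ψ ^ q - ι ψ ≠ 0 := fun h0 =>
    red₁_y'_ne_zero (k := k) q h ψ hW hY (by rw [h0, map_zero])
  have : n.IsPrime := hn.isPrime
  have hinf' : ∀ z : B, red₁ z = 0 → red₂ z = 0 → z ∈ Ideal.span {(q : B)} := by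
    intro z h1 h2
    rw [← hqB]
    exact h.hinf z h1 h2
  rw [hqB] at hgen
  exact locGen_pair red₁ red₂ (q : B) hinf' _ _ _ (red₁_x q h ψ hW) (red₂_y' q h ψ hW) hx0 hy0
    (x_mul_y' q ψ Rk hrel) n hR x₀ y₀ hx₀ hy₀ hgen

include h hqB hW hY hrel hid hq0 in
/-- **(M2r) REG-q at a rigid crossing point**, all outputs. -/
theorem rigid_crossing (hD : ¬ IsField D) (n : Ideal B) (hn : n.IsMaximal)
    (hk₁ : RingHom.ker red₁ ≤ n) (hk₂ : RingHom.ker red₂ ≤ n)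
    (a : k) (c : B) (hc : red₂ c = algebraMap k D a) (hwc : V ψ - c ∈ n)
    (hw0 : V ψ ∉ n) (hw1 : V ψ - 1728 ∉ n) :
    Rk.eval₂ (evalAt (ι ψ)) (V ψ) ∉ n ∧
    (∀ z ∈ RingHom.ker red₁, ∃ t : B, t ∉ n ∧ t * z ∈ Ideal.span {V ψ - ι ψ ^ q}) ∧
    (∀ z ∈ RingHom.ker red₂, ∃ t : B, t ∉ n ∧ t * z ∈ Ideal.span {V ψ ^ q - ι ψ}) ∧
    (∀ z ∈ n, ∃ t : B, t ∉ n ∧ t * z ∈ Ideal.span {V ψ - ι ψ ^ q, V ψ ^ q - ι ψ}) := by
  have : n.IsPrime := hn.isPrime
  have hR := Rwv_not_mem (k := k) q h hq0 ψ hW hY Rk U hrel hid n hk₁ hk₂ a c hc hwc hw0 hw1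
  exact ⟨hR, localGen_first_of_not_mem (k := k) q h hqB ψ hW hY Rk hrel n hR,
    localGen_second_of_not_mem (k := k) q h hqB ψ hW hY Rk hrel n hR,
    localGen_max_of_not_mem (k := k) q h hqB ψ hW hY Rk hrel hD n hn hk₁ hk₂ hR⟩

include h hW hrel hid hq0 in
/-- **The identity on the second component, in the shape consumed by (M4)**
(`H65.hE_middle_of_kronecker`: `m = 6`, `G = Y^4 (Y-1728)^3 · red₂ U`,
`H = Y^(4q) (Y^q - 1728)^3`). -/
theorem middle_identity (hqD : ((q : ℕ) : D) = 0) :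
    (rbar ψ ^ (q - 1) * (rbar ψ - rbar ψ ^ (q * q)) ^ 2
        - Rk.eval₂ (evalAt (rbar ψ ^ q)) (rbar ψ)
        + (rbar ψ - rbar ψ ^ (q * q)) * (derivative Rk).eval₂ (evalAt (rbar ψ ^ q)) (rbar ψ)) ^ 6 *
      (rbar ψ ^ 4 * (rbar ψ - 1728) ^ 3 * red₂ U) =
    ((rbar ψ - rbar ψ ^ (q * q)) ^ 2) ^ 6 * (rbar ψ ^ (4 * q) * (rbar ψ ^ q - 1728) ^ 3) := by
  have hxy := x_mul_y' q ψ Rk hrel
  obtain ⟨v, hvdef⟩ : ∃ v, v = ι ψ := ⟨_, rfl⟩
  obtain ⟨w, hwdef⟩ : ∃ w, w = V ψ := ⟨_, rfl⟩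
  rw [← hvdef, ← hwdef] at hxy hid
  obtain ⟨Rwv, hRdef⟩ : ∃ r, r = Rk.eval₂ (evalAt v) w := ⟨_, rfl⟩
  obtain ⟨RX, hRXdef⟩ : ∃ r, r = (derivative Rk).eval₂ (evalAt v) w := ⟨_, rfl⟩
  obtain ⟨PhiY, hPYdef⟩ : ∃ r, r = phiYVal Rk q (evalAt v) w := ⟨_, rfl⟩
  have hPhiX : phiXVal Rk q (evalAt v) w =
      (q : B) * w ^ (q - 1) * (w - v ^ q) + (w ^ q - v) + (q : B) * RX := by
    rw [phiXVal, evalAt_X, hRXdef]; ring
  rw [← hRdef] at hxy
  rw [hPhiX, ← hPYdef] at hid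
  have hT : (w - v ^ q) * ((q : B) * w ^ (q - 1) * (w - v ^ q) + (w ^ q - v) + (q : B) * RX) =
      (q : B) * (w ^ (q - 1) * (w - v ^ q) ^ 2 - Rwv + (w - v ^ q) * RX) := by
    linear_combination hxy
  have hB : (w ^ (q - 1) * (w - v ^ q) ^ 2 - Rwv + (w - v ^ q) * RX) ^ 6 *
      (w ^ 4 * (w - 1728) ^ 3) * U =
      (w - v ^ q) ^ 6 * (PhiY ^ 6 * (v ^ 4 * (v - 1728) ^ 3)) :=
    cancel_sixth (pow_ne_zero _ hq0) hT hid
  have hD := congrArg red₂ hB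
  have h1728 : red₂ 1728 = 1728 := map_ofNat red₂ 1728
  have hw2 : red₂ w = rbar ψ := by rw [hwdef, h.h2V]
  have hv2 : red₂ v = rbar ψ ^ q := by rw [hvdef, h.h2ι, hW]
  have hR2 : red₂ Rwv = Rk.eval₂ (evalAt (rbar ψ ^ q)) (rbar ψ) := by
    rw [hRdef, Polynomial.hom_eval₂, comp_evalAt, hw2, hv2]
  have hRX2 : red₂ RX = (derivative Rk).eval₂ (evalAt (rbar ψ ^ q)) (rbar ψ) := by
    rw [hRXdef, Polynomial.hom_eval₂, comp_evalAt, hw2, hv2]
  have hPY2 : red₂ PhiY = -(rbar ψ - (rbar ψ ^ q) ^ q) := by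
    rw [hPYdef, map_phiYVal, phiYVal, hqD, comp_evalAt, evalAt_X, hw2, hv2]
    ring
  simp only [map_mul, map_pow, map_sub, map_add, hw2, hv2, hR2, hRX2, hPY2, h1728] at hD
  rw [← pow_mul] at hD
  have e : rbar ψ ^ (4 * q) = (rbar ψ ^ q) ^ 4 := by rw [← pow_mul, mul_comm]
  rw [e]
  linear_combination hD

end Main

section Convenience

variable {A A' : Type*} [CommRing A] [CommRing A']

/-- the Kronecker shape of `Φ_q(X, v)` as a polynomial over any ring (shape of `H65`'s `hK`). -/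
theorem map_kron (q : ℕ) (Rk : ℤ[X][X]) (f : ℤ[X] →+* A) :
    (kronMain q + C (C (q : ℤ)) * Rk).map f =
      (X ^ q - C (f X)) * (X - C (f X ^ q)) + C (q : A) * Rk.map f := by
  simp only [kronMain, Polynomial.map_add, Polynomial.map_mul, Polynomial.map_sub,
    Polynomial.map_pow, Polynomial.map_X, Polynomial.map_C, map_pow, map_natCast,
    Polynomial.map_natCast]
  ring

theorem eval_map_map_evalAt (red : A →+* A') (v : A) (Y : A') (P : ℤ[X][X]) :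
    ((P.map (evalAt v)).map red).eval Y = P.eval₂ (evalAt (red v)) Y := by
  rw [Polynomial.map_map, Polynomial.eval_map, comp_evalAt]

theorem derivative_map_map_evalAt (red : A →+* A') (v : A) (Y : A') (P : ℤ[X][X]) :
    (derivative ((P.map (evalAt v)).map red)).eval Y = (derivative P).eval₂ (evalAt (red v)) Y := by
  rw [Polynomial.map_map, derivative_map, Polynomial.eval_map, comp_evalAt]

theorem eval_map_evalAt (v w : A) (P : ℤ[X][X]) :
    (P.map (evalAt v)).eval w = P.eval₂ (evalAt v) w := Polynomial.eval_map _ _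

end Convenience

end Fermat.Agent.S36.H17
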