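import Mathlib
import Fermat.Agent.S28.H9_DeltaQuot
import Fermat.Agent.S28.H30_PrimeLevel

/-!
S36 / (M2) input (helper76): the INVERSE `Δ`-quotient `Ω = Δ(q)/Δ(q^p)` is integral over
`ℤ[j(q^p)]`, and `(p^12 Δ(q^p)/Δ(q)) * Ω = p^12`.

The landed W1c (`S28.H9.exists_deltaQuotPoly`) gives integrality of `U = p^12 Δ(q^p)/Δ(q)` over
`ℤ[j(q)]`.  Its analytic polynomial (`S28.H9.exists_analytic_poly`) has ALL the conjugates
`GX x` of `U` as roots; the conjugate at the coset of `S⁻¹` is `Δ(τ/p)/Δ(τ)`, and evaluating at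
`p τ` gives `P(J(pτ))(Δ(τ)/Δ(pτ)) = 0`.
-/

set_option autoImplicit false

noncomputable section

namespace Fermat.Agent.S36.H76

open UpperHalfPlane ModularForm ModularCurve HahnSeries Polynomial Matrix.SpecialLinearGroup
open Fermat.Agent.S24 Fermat.Agent.S24.H15 Fermat.Agent.S24.H17
open Fermat.Agent.S28 Fermat.Agent.S28.H9
open scoped MatrixGroups Manifold

local notation "Δ" => ModularForm.discriminant

/-- The inverse `Δ`-quotient `Ω = Δ(q)/Δ(q^p)` over any ring. -/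
def DeltaInvQuot (R : Type*) [CommRing R] (p : ℕ) [NeZero p] : LaurentSeries R :=
  DeltaS R * qExpand R p (DeltaSInv R)

theorem coeffMap_DeltaInvQuot {R S : Type*} [CommRing R] [CommRing S] (f : R →+* S)
    (p : ℕ) [NeZero p] : coeffMap f (DeltaInvQuot R p) = DeltaInvQuot S p := by
  rw [DeltaInvQuot, map_mul, coeffMap_qExpand, H9.coeffMap_DeltaS, H9.coeffMap_DeltaSInv,
    DeltaInvQuot]

/-- `Δ(q^p)/Δ(q) * Δ(q)/Δ(q^p) = 1`. -/
theorem DeltaQuot_mul_DeltaInvQuot (R : Type*) [CommRing R] (p : ℕ) [NeZero p] :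
    DeltaQuot R p * DeltaInvQuot R p = 1 := by
  have h1 := H30.DeltaS_mul_DeltaSInv R
  have h2 : qExpand R p (DeltaS R) * qExpand R p (DeltaSInv R) = 1 := by
    rw [← map_mul, h1, map_one]
  calc DeltaQuot R p * DeltaInvQuot R p
      = (qExpand R p (DeltaS R) * qExpand R p (DeltaSInv R)) * (DeltaS R * DeltaSInv R) := by
        rw [DeltaQuot, DeltaInvQuot]; ring
    _ = 1 := by rw [h1, h2, mul_one]

/-- `U * Ω = p^12`. -/
theorem deltaQuot_mul_deltaInv (R : Type*) [CommRing R] (p : ℕ) [NeZero p] :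
    ((p : LaurentSeries R) ^ 12 * DeltaQuot R p) * DeltaInvQuot R p = (p : LaurentSeries R) ^ 12 := by
  rw [mul_assoc, DeltaQuot_mul_DeltaInvQuot, mul_one]

/-! ### the conjugate at the coset of `S⁻¹` -/

/-- The conjugate `Δ(τ/p)/Δ(τ)` of `G = p^12 Δ(pτ)/Δ(τ)`. -/
theorem Gp_S_smul (p : ℕ) (hp : 0 < p) (τ : ℍ) :
    Gp p hp (ModularGroup.S • τ) = Gabd 1 0 p one_pos hp τ := by
  refine Gabd_smul p hp ModularGroup.S ModularGroup.S 1 0 p one_pos hp (one_mul p) ?_ τ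
  ext i j
  fin_cases i <;> fin_cases j <;> simp [ModularGroup.S, Matrix.mul_apply, Fin.sum_univ_two]

theorem GX_S_inv (p : ℕ) (hp : 0 < p) (τ : ℍ) :
    GX p hp (QuotientGroup.mk (ModularGroup.S⁻¹ : SL(2, ℤ)) : H24.XN p) τ =
      Gabd 1 0 p one_pos hp τ := by
  rw [GX_mk, inv_inv, Gp_S_smul]

theorem aff_one_zero_aff (p : ℕ) (hp : 0 < p) (τ : ℍ) :
    aff 1 0 p one_pos hp (aff p 0 1 hp one_pos τ) = τ := by
  apply UpperHalfPlane.ext
  have hp' : (p : ℂ) ≠ 0 := by exact_mod_cast hp.ne'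
  simp only [coe_aff]
  push_cast
  field_simp
  ring

theorem Gabd_one_zero_aff (p : ℕ) (hp : 0 < p) (τ : ℍ) :
    Gabd 1 0 p one_pos hp (aff p 0 1 hp one_pos τ) = Δ τ * (Δ (aff p 0 1 hp one_pos τ))⁻¹ := by
  rw [Gabd, aff_one_zero_aff, div_eq_mul_inv]
  simp

theorem isQSum_DeltaInvQuot (p : ℕ) [NeZero p] (hp : 0 < p) :
    IsQSum (DeltaInvQuot ℂ p) (fun τ => Δ τ * (Δ (aff p 0 1 hp one_pos τ))⁻¹) :=
  IsQSum.mul isQSum_Delta (IsQSum.comp_aff_mul isQSum_DeltaInv p hp)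

/-- The analytic polynomial of W1c kills `Ω` over `ℂ[J(q^p)]`. -/
theorem eval₂_analytic_poly_inv_eq_zero (p : ℕ) [NeZero p] (hp : 0 < p)
    (P : Polynomial (Polynomial ℂ))
    (hP : ∀ τ : ℍ, P.map (Polynomial.evalRingHom (H28.J τ)) =
      ∏ x : H24.XN p, (Polynomial.X - Polynomial.C (GX p hp x τ))) :
    P.eval₂ ((Polynomial.aeval (qExpand ℂ p (jqModC ℂ))).toRingHom :
        Polynomial ℂ →+* LaurentSeries ℂ) (DeltaInvQuot ℂ p) = 0 := by
  have h := IsQSum.eval₂_aeval (IsQSum.comp_aff_mul isQSum_J p hp) (isQSum_DeltaInvQuot p hp) P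
  have hfun : (fun τ => (P.map (Polynomial.evalRingHom
      (H28.J (aff p 0 1 hp one_pos τ)))).eval (Δ τ * (Δ (aff p 0 1 hp one_pos τ))⁻¹)) = 0 := by
    funext τ
    rw [hP (aff p 0 1 hp one_pos τ), Polynomial.eval_prod]
    apply Finset.prod_eq_zero
      (Finset.mem_univ (QuotientGroup.mk (ModularGroup.S⁻¹ : SL(2, ℤ)) : H24.XN p))
    rw [Polynomial.eval_sub, Polynomial.eval_X, Polynomial.eval_C, GX_S_inv, Gabd_one_zero_aff,
      sub_self]
  rw [hfun] at h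
  exact IsQSum.eq_zero h

/-- **Inverse W1c**: `Ω = Δ(q)/Δ(q^p)` is integral over `ℤ[j(q^p)]` (formal Laurent series over
`ℤ`). -/
theorem exists_deltaInvPoly (p : ℕ) [NeZero p] (hp : p.Prime) :
    ∃ Q : Polynomial (Polynomial ℤ), Q.Monic ∧
      Q.eval₂ (evalJ (qExpand ℤ p (jqModC ℤ))) (DeltaInvQuot ℤ p) = 0 := by
  obtain ⟨P, hP1, hP2⟩ := exists_analytic_poly p hp.pos
  have h0 := eval₂_analytic_poly_inv_eq_zero p hp.pos P hP2
  obtain ⟨Q, hQ1, hQ2⟩ := exists_int_poly_of_monic_algInt (qExpand ℂ p (jqModC ℂ))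
    (DeltaInvQuot ℂ p) P hP1 (coeff_coeff_mem_Zbar p hp P hP2) h0
  refine ⟨Q, hQ1, ?_⟩
  apply coeffMap_int_injective
  rw [map_zero, H9.coeffMap_eval₂_evalJ, coeffMap_qExpand, coeffMap_jqModC, coeffMap_DeltaInvQuot]
  exact hQ2 (evalJ (qExpand ℂ p (jqModC ℂ))) (evalJ_X _)

/-- Transfer of the inverse W1c to every commutative ring. -/
theorem eval₂_deltaInvPoly_eq_zero {p : ℕ} [NeZero p] {Q : Polynomial (Polynomial ℤ)}
    (h : Q.eval₂ (evalJ (qExpand ℤ p (jqModC ℤ))) (DeltaInvQuot ℤ p) = 0)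
    (R : Type*) [CommRing R] :
    Q.eval₂ (evalJ (qExpand R p (jqModC R))) (DeltaInvQuot R p) = 0 := by
  have h1 := congrArg (coeffMap (Int.castRingHom R)) h
  rw [map_zero, H9.coeffMap_eval₂_evalJ, coeffMap_qExpand, coeffMap_jqModC,
    coeffMap_DeltaInvQuot] at h1
  exact h1

/-- Inverse W1c over every commutative ring. -/
theorem exists_deltaInvPoly_ring (p : ℕ) [NeZero p] (hp : p.Prime) :
    ∃ Q : Polynomial (Polynomial ℤ), Q.Monic ∧ ∀ (R : Type*) [CommRing R],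
      Q.eval₂ (evalJ (qExpand R p (jqModC R))) (DeltaInvQuot R p) = 0 := by
  obtain ⟨Q, hQ1, hQ2⟩ := exists_deltaInvPoly p hp
  exact ⟨Q, hQ1, fun R _ => eval₂_deltaInvPoly_eq_zero hQ2 R⟩

end Fermat.Agent.S36.H76
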