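/-
helper17 — S36, (A-Om), `TwoComponents`-level half.

Setting of `H17_RegQTC` (`v = ι ψ`, `w = V ψ`, Kronecker `hrel`, sixth-power identity `hid` with
`U ∈ B` the element of expansion `q^12 Δ(t^q)/Δ(t)`), plus `Om ∈ B` with `U * Om = q^12`
(the element of expansion `Δ(t)/Δ(t^q)`):

* `red₂_U_ne_zero` : `red₂ U ≠ 0`;
* `red₂_Om` / `Om_mem_ker_red₂` : `Om ∈ ker red₂` (`= P₂`), hence `Om_mem` : `Om ∈ n` at every
  `n ⊇ ker red₂` and `red₁_Om_mem_map` : `red₁ Om ∈ red₁(n)`;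
* `expansion_red₁_Om` : if `red₁` is compatible with expansions (`coeffMap ρ ∘ eB = eD ∘ red₁`) and
  `eB Om = Δ(t)/Δ(t^q)` then `eD (red₁ Om) = Δ̄(t)/Δ̄(t^q)` and `Δ̄(t^q) * eD (red₁ Om) = Δ̄(t)`
  (the hypothesis `h2` of `H62.exists_pow_mul_eq_one_of_identities`).
-/
import Mathlib
import Fermat.Agent.S36.H17_RegQTC
import Fermat.Agent.S36.H76_DeltaInvIntegral

set_option autoImplicit false
set_option linter.unusedSectionVars false

noncomputable section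

namespace Fermat.Agent.S36.H17

open Polynomial ModularCurve Fermat.Agent.S34.H83 Fermat.Agent.S28

section Om

variable {k : Type*} [Field k] (q : ℕ) [hq : Fact q.Prime] [CharP k q]
  {B D BM : Type*} [CommRing B] [IsDomain B] [CommRing D] [IsDedekindDomain D] [Algebra k D]
  [CommRing BM]
  {red₁ red₂ : B →+* D} {ι V : BM →+* B} {rbar : BM →+* D} {W : D →+* D} {qB : B}
  (h : TwoComponents red₁ red₂ ι V rbar W q qB) (hq0 : (q : B) ≠ 0)
  (ψ : BM) (hW : W (rbar ψ) = rbar ψ ^ q)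
  (hY : Function.Injective (aeval (R := k) (rbar ψ)))
  (Rk : ℤ[X][X]) (U : B)
  (hrel : (V ψ - ι ψ ^ q) * (V ψ ^ q - ι ψ) + (q : B) * Rk.eval₂ (evalAt (ι ψ)) (V ψ) = 0)
  (hid : phiXVal Rk q (evalAt (ι ψ)) (V ψ) ^ 6 * (V ψ ^ 4 * (V ψ - 1728) ^ 3) * U =
      (q : B) ^ 6 * (phiYVal Rk q (evalAt (ι ψ)) (V ψ) ^ 6 * (ι ψ ^ 4 * (ι ψ - 1728) ^ 3)))
  (Om : B) (hUOm : U * Om = (q : B) ^ 12)

include h hq0 hW hY hrel hid in
/-- `U` does not vanish on the second component. -/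
theorem red₂_U_ne_zero : red₂ U ≠ 0 := by
  have hqD : ((q : ℕ) : D) = 0 := natCast_eq_zero_of_algebra k q D
  have hmid := middle_identity q h hq0 ψ hW Rk U hrel hid hqD
  intro h0
  rw [h0, mul_zero, mul_zero] at hmid
  have hne1 : rbar ψ - rbar ψ ^ (q * q) ≠ 0 := by
    have := Y_pow_sub_ne_zero (k := k) q ψ hY
    rw [← pow_mul] at this
    intro h1
    apply this
    rw [← neg_sub, h1, neg_zero]
  have hY0 : rbar ψ ≠ 0 := by
    have := Y_ne_const (k := k) ψ hY 0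
    simpa using this
  have hne2 : rbar ψ ^ q - 1728 ≠ 0 := by
    have h2 : (X ^ q - C (1728 : k) : k[X]) ≠ 0 := X_pow_sub_C_ne_zero hq.out.pos _
    have := aeval_ne_zero_of_inj (k := k) ψ hY h2
    have h3 : algebraMap k D 1728 = 1728 := map_ofNat _ 1728
    simpa [h3] using this
  have hne : ((rbar ψ - rbar ψ ^ (q * q)) ^ 2) ^ 6 *
      (rbar ψ ^ (4 * q) * (rbar ψ ^ q - 1728) ^ 3) ≠ 0 :=
    mul_ne_zero (pow_ne_zero _ (pow_ne_zero _ hne1))
      (mul_ne_zero (pow_ne_zero _ hY0) (pow_ne_zero _ hne2))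
  exact hne hmid.symm

include h hq0 hW hY hrel hid hUOm in
/-- `Ω` vanishes on the second component. -/
theorem red₂_Om : red₂ Om = 0 := by
  have hqD : ((q : ℕ) : D) = 0 := natCast_eq_zero_of_algebra k q D
  have h1 := congrArg red₂ hUOm
  rw [map_mul, map_pow, map_natCast, hqD, zero_pow (by norm_num)] at h1
  exact (mul_eq_zero.1 h1).resolve_left
    (red₂_U_ne_zero (k := k) q h hq0 ψ hW hY Rk U hrel hid)

include h hq0 hW hY hrel hid hUOm in
theorem Om_mem_ker_red₂ : Om ∈ RingHom.ker red₂ :=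
  (RingHom.mem_ker).2 (red₂_Om (k := k) q h hq0 ψ hW hY Rk U hrel hid Om hUOm)

include h hq0 hW hY hrel hid hUOm in
theorem Om_mem (n : Ideal B) (hk₂ : RingHom.ker red₂ ≤ n) : Om ∈ n :=
  hk₂ (Om_mem_ker_red₂ (k := k) q h hq0 ψ hW hY Rk U hrel hid Om hUOm)

include h hq0 hW hY hrel hid hUOm in
theorem red₁_Om_mem_map (n : Ideal B) (hk₂ : RingHom.ker red₂ ≤ n) :
    red₁ Om ∈ Ideal.map red₁ n :=
  Ideal.mem_map_of_mem _ (Om_mem (k := k) q h hq0 ψ hW hY Rk U hrel hid Om hUOm n hk₂)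

end Om

section Expansion

variable {B D R₀ k' : Type*} [CommRing B] [CommRing D] [CommRing R₀] [CommRing k']

/-- `Δ(t^q) * (Δ(t)/Δ(t^q)) = Δ(t)` as Laurent series over any ring. -/
theorem qExpand_DeltaS_mul_DeltaInvQuot (R : Type*) [CommRing R] (p : ℕ) [NeZero p] :
    qExpand R p (DeltaS R) * H76.DeltaInvQuot R p = DeltaS R := by
  rw [H76.DeltaInvQuot]
  have h2 : qExpand R p (DeltaS R) * qExpand R p (DeltaSInv R) = 1 := by
    rw [← map_mul, H30.DeltaS_mul_DeltaSInv, map_one]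
  calc qExpand R p (DeltaS R) * (DeltaS R * qExpand R p (DeltaSInv R))
      = DeltaS R * (qExpand R p (DeltaS R) * qExpand R p (DeltaSInv R)) := by ring
    _ = DeltaS R := by rw [h2, mul_one]

/-- the expansion of `red₁ Ω`. -/
theorem expansion_red₁_Om (q : ℕ) [NeZero q] (red₁ : B →+* D)
    (eB : B →+* LaurentSeries R₀) (eD : D →+* LaurentSeries k') (ρ : R₀ →+* k')
    (hcompat : ∀ b : B, coeffMap ρ (eB b) = eD (red₁ b))
    (Om : B) (hOm : eB Om = H76.DeltaInvQuot R₀ q) :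
    eD (red₁ Om) = H76.DeltaInvQuot k' q ∧
      qExpand k' q (DeltaS k') * eD (red₁ Om) = DeltaS k' := by
  have h1 : eD (red₁ Om) = H76.DeltaInvQuot k' q := by
    rw [← hcompat, hOm, H76.coeffMap_DeltaInvQuot]
  exact ⟨h1, by rw [h1, qExpand_DeltaS_mul_DeltaInvQuot]⟩

end Expansion

end Fermat.Agent.S36.H17
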