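/-
helper17 — S36, rows (M2r)/(A-Om): from identities in a big ring (Laurent series, function field)
to identities in a chart `B` (a subalgebra, integrally closed in the function field).

* `rel_of_map`, `id_of_map` : the Kronecker relation `hrel` and the sixth-power identity `hid` of
  `H17_RegQTC` descend along an injective ring homomorphism.
* `isIntegral_of_eval₂_evalAt` : `P ∈ ℤ[Y][X]` monic, `P(U, v) = 0`, `v` in the image of `B`
  ⟹ `U` is integral over `B`.
* `mem_chartB_of_isIntegral` : `H40.chartB R j` is integrally closed in `F`.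
* `chart_data` : the package `U, Ω ∈ B` + `hrel`, `hid`, `U * Ω = q ^ 12` in `B`.
-/
import Mathlib
import Fermat.Agent.S18.H40_CechFG
import Fermat.Agent.S36.H17_RegQTC

set_option autoImplicit false
set_option linter.unusedSectionVars false

noncomputable section

namespace Fermat.Agent.S36.H17

open Polynomial

section Descend

variable {A A' : Type*} [CommRing A] [CommRing A'] (g : A →+* A') (hg : Function.Injective g)
  (q : ℕ) (Rk : ℤ[X][X])

include hg in
theorem rel_of_map (v w : A)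
    (h : (g w - g v ^ q) * (g w ^ q - g v) + (q : A') * Rk.eval₂ (evalAt (g v)) (g w) = 0) :
    (w - v ^ q) * (w ^ q - v) + (q : A) * Rk.eval₂ (evalAt v) w = 0 := by
  apply hg
  rw [map_zero, map_add, map_mul, map_mul, map_sub, map_sub, map_pow, map_pow, map_natCast,
    Polynomial.hom_eval₂, comp_evalAt]
  exact h

include hg in
theorem id_of_map (v w U : A)
    (h : phiXVal Rk q (evalAt (g v)) (g w) ^ 6 * (g w ^ 4 * (g w - 1728) ^ 3) * g U =
      (q : A') ^ 6 * (phiYVal Rk q (evalAt (g v)) (g w) ^ 6 * (g v ^ 4 * (g v - 1728) ^ 3))) :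
    phiXVal Rk q (evalAt v) w ^ 6 * (w ^ 4 * (w - 1728) ^ 3) * U =
      (q : A) ^ 6 * (phiYVal Rk q (evalAt v) w ^ 6 * (v ^ 4 * (v - 1728) ^ 3)) := by
  apply hg
  have h1728 : g 1728 = 1728 := map_ofNat g 1728
  simp only [map_mul, map_pow, map_sub, map_natCast, map_phiXVal, map_phiYVal, comp_evalAt, h1728]
  exact h

end Descend

section Integral

variable {B F : Type*} [CommRing B] [CommRing F] [Algebra B F]

/-- `P(U, v) = 0` with `P` monic in `ℤ[Y][X]` and `v` coming from `B`: `U` is integral over `B`. -/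
theorem isIntegral_of_eval₂_evalAt (P : ℤ[X][X]) (hP : P.Monic) (vB : B) (U : F)
    (h : P.eval₂ (evalAt (algebraMap B F vB)) U = 0) : IsIntegral B U := by
  refine ⟨P.map (evalAt vB), hP.map _, ?_⟩
  rw [Polynomial.eval₂_map, comp_evalAt]
  exact h

end Integral

section ChartB

variable {R F : Type*} [CommRing R] [Field F] [Algebra R F]

/-- `chartB R j` is integrally closed in `F`. -/
theorem mem_chartB_of_isIntegral (j x : F)
    (hx : IsIntegral ↥(Fermat.Agent.S18.H40.chartB R j) x) :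
    x ∈ Fermat.Agent.S18.H40.chartB R j := by
  rw [Fermat.Agent.S18.H40.mem_chartB]
  have h1 : IsIntegral ↥(integralClosure (Algebra.adjoin R {j}) F) x := hx
  exact isIntegral_trans (R := ↥(Algebra.adjoin R {j}))
    (A := ↥(integralClosure (Algebra.adjoin R {j}) F)) x h1

end ChartB

section Package

open Fermat.Agent.S18.H40

variable {R F A' : Type*} [CommRing R] [Field F] [Algebra R F] [CommRing A']
  (e : F →+* A') (he : Function.Injective e) (j : F) (q : ℕ) (Rk P Q : ℤ[X][X])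

include he in
/-- **The chart package**: identities in `A'` (Laurent series) for elements `v w U Ω` of the
function field `F`, `v w` in the chart `B = chartB R j`, `U` integral over `ℤ[v]`, `Ω` integral over
`ℤ[w]`  ⟹  `U, Ω ∈ B` and `hrel`, `hid`, `U * Ω = q ^ 12` hold in `B`. -/
theorem chart_data (hP : P.Monic) (hQ : Q.Monic) (v w U Om : F)
    (hv : v ∈ chartB R j) (hw : w ∈ chartB R j)
    (hPU : P.eval₂ (evalAt (e v)) (e U) = 0) (hQOm : Q.eval₂ (evalAt (e w)) (e Om) = 0)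
    (hrel : (e w - e v ^ q) * (e w ^ q - e v) + (q : A') * Rk.eval₂ (evalAt (e v)) (e w) = 0)
    (hid : phiXVal Rk q (evalAt (e v)) (e w) ^ 6 * (e w ^ 4 * (e w - 1728) ^ 3) * e U =
      (q : A') ^ 6 * (phiYVal Rk q (evalAt (e v)) (e w) ^ 6 * (e v ^ 4 * (e v - 1728) ^ 3)))
    (hUOm : e U * e Om = (q : A') ^ 12) :
    ∃ (hU : U ∈ chartB R j) (hOm : Om ∈ chartB R j),
      ((⟨w, hw⟩ : ↥(chartB R j)) - (⟨v, hv⟩ : ↥(chartB R j)) ^ q) *
          ((⟨w, hw⟩ : ↥(chartB R j)) ^ q - ⟨v, hv⟩) +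
        (q : ↥(chartB R j)) * Rk.eval₂ (evalAt (⟨v, hv⟩ : ↥(chartB R j))) ⟨w, hw⟩ = 0 ∧
      phiXVal Rk q (evalAt (⟨v, hv⟩ : ↥(chartB R j))) ⟨w, hw⟩ ^ 6 *
          ((⟨w, hw⟩ : ↥(chartB R j)) ^ 4 * ((⟨w, hw⟩ : ↥(chartB R j)) - 1728) ^ 3) * ⟨U, hU⟩ =
        (q : ↥(chartB R j)) ^ 6 * (phiYVal Rk q (evalAt (⟨v, hv⟩ : ↥(chartB R j))) ⟨w, hw⟩ ^ 6 *
          ((⟨v, hv⟩ : ↥(chartB R j)) ^ 4 * ((⟨v, hv⟩ : ↥(chartB R j)) - 1728) ^ 3)) ∧
      (⟨U, hU⟩ : ↥(chartB R j)) * ⟨Om, hOm⟩ = (q : ↥(chartB R j)) ^ 12 := by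
  have hPU' : P.eval₂ (evalAt v) U = 0 := by
    apply he
    rw [map_zero, Polynomial.hom_eval₂, comp_evalAt]
    exact hPU
  have hQOm' : Q.eval₂ (evalAt w) Om = 0 := by
    apply he
    rw [map_zero, Polynomial.hom_eval₂, comp_evalAt]
    exact hQOm
  have hU : U ∈ chartB R j :=
    mem_chartB_of_isIntegral j U
      (isIntegral_of_eval₂_evalAt P hP (⟨v, hv⟩ : ↥(chartB R j)) U hPU')
  have hOm : Om ∈ chartB R j :=
    mem_chartB_of_isIntegral j Om
      (isIntegral_of_eval₂_evalAt Q hQ (⟨w, hw⟩ : ↥(chartB R j)) Om hQOm')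
  set g : ↥(chartB R j) →+* A' := e.comp (chartB R j).val.toRingHom with hgdef
  have hg : Function.Injective g := he.comp Subtype.val_injective
  refine ⟨hU, hOm, rel_of_map g hg q Rk _ _ hrel, id_of_map g hg q Rk _ _ _ hid, ?_⟩
  apply hg
  rw [map_mul, map_pow, map_natCast]
  exact hUOm

end Package

end Fermat.Agent.S36.H17
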