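/-
helper59: S36 / (M2) brick `DeltaInvIntegral`.

`Ω := Δ(t)/Δ(t^p)` is a root of the SAME monic polynomial `P ∈ ℤ[Y][X]` (the landed W1c polynomial
of `U := p^12 Δ(t^p)/Δ(t)` over `ℤ[j(t)]`), but over `ℤ[j(t^p)]`:
`P(j(t^p), Δ(t)/Δ(t^p)) = 0` in `ℤ((t))`, hence over every commutative ring.
Proof: the Fricke substitution `τ ↦ -1/(p τ)` in the analytic identity `P(J(τ), U(τ)) = 0`, via the
`IsQSum` calculus and `Delta_smul`; then coefficient descent `ℂ → ℤ`.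
Also `U * Ω = p^12`.
-/
import Mathlib
import Fermat.Agent.S28.H9_DeltaQuot
import Fermat.Agent.S28.H30_PrimeLevel

set_option autoImplicit false

noncomputable section

namespace Fermat.Agent.S36.H59

open UpperHalfPlane ModularForm ModularCurve HahnSeries
open Fermat.Agent.S24 Fermat.Agent.S24.H15 Fermat.Agent.S24.H17
open Fermat.Agent.S28 Fermat.Agent.S28.H9
open scoped MatrixGroups

local notation "Δ" => ModularForm.discriminant

/-- `Ω = Δ(t)/Δ(t^p)` over `R`. -/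
def DeltaQuotInv (R : Type*) [CommRing R] (p : ℕ) [NeZero p] : LaurentSeries R :=
  DeltaS R * qExpand R p (DeltaSInv R)

theorem coeffMap_DeltaQuotInv {R S : Type*} [CommRing R] [CommRing S] (f : R →+* S) (p : ℕ)
    [NeZero p] : coeffMap f (DeltaQuotInv R p) = DeltaQuotInv S p := by
  rw [DeltaQuotInv, map_mul, coeffMap_qExpand, H9.coeffMap_DeltaS, H9.coeffMap_DeltaSInv,
    DeltaQuotInv]

/-- `Δ(t^p)/Δ(t) * Δ(t)/Δ(t^p) = 1`. -/
theorem DeltaQuot_mul_DeltaQuotInv (R : Type*) [CommRing R] (p : ℕ) [NeZero p] :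
    DeltaQuot R p * DeltaQuotInv R p = 1 := by
  have h1 : DeltaS R * DeltaSInv R = 1 := H30.DeltaS_mul_DeltaSInv R
  have h2 : qExpand R p (DeltaS R) * qExpand R p (DeltaSInv R) = 1 := by
    rw [← map_mul, h1, map_one]
  calc DeltaQuot R p * DeltaQuotInv R p
      = (qExpand R p (DeltaS R) * qExpand R p (DeltaSInv R)) * (DeltaS R * DeltaSInv R) := by
        rw [DeltaQuot, DeltaQuotInv]; ring
    _ = 1 := by rw [h1, h2, mul_one]

/-- `U * Ω = p^12`. -/
theorem U_mul_DeltaQuotInv (R : Type*) [CommRing R] (p : ℕ) [NeZero p] :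
    ((p : LaurentSeries R) ^ 12 * DeltaQuot R p) * DeltaQuotInv R p = (p : LaurentSeries R) ^ 12 := by
  rw [mul_assoc, DeltaQuot_mul_DeltaQuotInv, mul_one]

/-! ### The Fricke point `-1/(p τ)` -/

/-- `-1/(p τ) = S • (p τ)`. -/
def frickePt (p : ℕ) (hp : 0 < p) (τ : ℍ) : ℍ := ModularGroup.S • aff p 0 1 hp one_pos τ

theorem aff_frickePt (p : ℕ) (hp : 0 < p) (τ : ℍ) :
    aff p 0 1 hp one_pos (frickePt p hp τ) = ModularGroup.S • τ := by
  apply UpperHalfPlane.ext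
  have hp' : (p : ℂ) ≠ 0 := by exact_mod_cast hp.ne'
  have hτ : (τ : ℂ) ≠ 0 := UpperHalfPlane.ne_zero τ
  rw [coe_aff, frickePt, UpperHalfPlane.modular_S_smul, UpperHalfPlane.modular_S_smul]
  simp only [coe_aff, Nat.cast_zero, Nat.cast_one, add_zero, div_one]
  field_simp

theorem J_frickePt (p : ℕ) (hp : 0 < p) (τ : ℍ) :
    H28.J (frickePt p hp τ) = H28.J (aff p 0 1 hp one_pos τ) := H28.J_smul _ _

theorem Delta_S_smul (τ : ℍ) : Δ (ModularGroup.S • τ) = (τ : ℂ) ^ 12 * Δ τ := by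
  rw [Delta_smul]
  simp [ModularGroup.S]

theorem Gp_frickePt (p : ℕ) (hp : 0 < p) (τ : ℍ) :
    Gp p hp (frickePt p hp τ) = Δ τ * (Δ (aff p 0 1 hp one_pos τ))⁻¹ := by
  have hp' : (p : ℂ) ≠ 0 := by exact_mod_cast hp.ne'
  have hτ : (τ : ℂ) ≠ 0 := UpperHalfPlane.ne_zero τ
  have hΔ := discriminant_ne_zero τ
  have hΔ' := discriminant_ne_zero (aff p 0 1 hp one_pos τ)
  rw [Gp, Gabd, aff_frickePt, Delta_S_smul, frickePt, Delta_S_smul, coe_aff]
  simp only [Nat.cast_zero, Nat.cast_one, add_zero, div_one]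
  field_simp

/-! ### From `ℤ[Y][X]` to `ℂ[Y][X]` -/

/-- The image of `P ∈ ℤ[Y][X]` in `ℂ[Y][X]`. -/
def polyC (P : Polynomial (Polynomial ℤ)) : Polynomial (Polynomial ℂ) :=
  P.map (Polynomial.mapRingHom (Int.castRingHom ℂ))

theorem aeval_comp_mapRingHom (x : LaurentSeries ℂ) :
    ((Polynomial.aeval x).toRingHom : Polynomial ℂ →+* LaurentSeries ℂ).comp
      (Polynomial.mapRingHom (Int.castRingHom ℂ)) = evalJ x := by
  apply Polynomial.ringHom_ext
  · intro a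
    simp [evalJ]
  · simp [evalJ]

theorem eval₂_polyC (P : Polynomial (Polynomial ℤ)) (x w : LaurentSeries ℂ) :
    (polyC P).eval₂ ((Polynomial.aeval x).toRingHom : Polynomial ℂ →+* LaurentSeries ℂ) w =
      P.eval₂ (evalJ x) w := by
  rw [polyC, Polynomial.eval₂_map, aeval_comp_mapRingHom]

/-! ### The main identity -/

theorem isQSum_DeltaQuotInv (p : ℕ) [NeZero p] (hp : 0 < p) :
    IsQSum (DeltaQuotInv ℂ p) (fun τ => Δ τ * (Δ (aff p 0 1 hp one_pos τ))⁻¹) :=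
  IsQSum.mul isQSum_Delta (IsQSum.comp_aff_mul isQSum_DeltaInv p hp)

/-- Over `ℂ`: if `P(j(t), p^12 Δ(t^p)/Δ(t)) = 0` then `P(j(t^p), Δ(t)/Δ(t^p)) = 0`. -/
theorem eval₂_DeltaQuotInv_complex (p : ℕ) [NeZero p] (hp : 0 < p)
    (P : Polynomial (Polynomial ℤ))
    (hP : P.eval₂ (evalJ (jqModC ℂ)) ((p : LaurentSeries ℂ) ^ 12 * DeltaQuot ℂ p) = 0) :
    P.eval₂ (evalJ (qExpand ℂ p (jqModC ℂ))) (DeltaQuotInv ℂ p) = 0 := by
  have h1 := IsQSum.eval₂_aeval isQSum_J (isQSum_Gp p hp) (polyC P)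
  rw [eval₂_polyC, hP] at h1
  have hfun : ∀ τ : ℍ,
      ((polyC P).map (Polynomial.evalRingHom (H28.J τ))).eval (Gp p hp τ) = 0 := by
    intro τ
    exact congrFun (IsQSum.unique h1 IsQSum.zero) τ
  have hj : IsQSum (qExpand ℂ p (jqModC ℂ)) (fun τ => H28.J (aff p 0 1 hp one_pos τ)) :=
    IsQSum.comp_aff_mul isQSum_J p hp
  have h2 := IsQSum.eval₂_aeval hj (isQSum_DeltaQuotInv p hp) (polyC P)
  rw [eval₂_polyC] at h2
  have hfun2 : (fun τ : ℍ =>
      ((polyC P).map (Polynomial.evalRingHom (H28.J (aff p 0 1 hp one_pos τ)))).eval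
        (Δ τ * (Δ (aff p 0 1 hp one_pos τ))⁻¹)) = 0 := by
    funext τ
    have := hfun (frickePt p hp τ)
    rwa [J_frickePt, Gp_frickePt] at this
  rw [hfun2] at h2
  exact IsQSum.eq_zero h2

/-- Over `ℤ`. -/
theorem eval₂_DeltaQuotInv_int (p : ℕ) [NeZero p] (hp : 0 < p) (P : Polynomial (Polynomial ℤ))
    (hP : P.eval₂ (evalJ (jqModC ℤ)) ((p : LaurentSeries ℤ) ^ 12 * DeltaQuot ℤ p) = 0) :
    P.eval₂ (evalJ (qExpand ℤ p (jqModC ℤ))) (DeltaQuotInv ℤ p) = 0 := by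
  apply coeffMap_int_injective
  rw [map_zero, coeffMap_eval₂_evalJ, coeffMap_qExpand, coeffMap_jqModC, coeffMap_DeltaQuotInv]
  apply eval₂_DeltaQuotInv_complex p hp P
  have := congrArg (coeffMap (Int.castRingHom ℂ)) hP
  rwa [map_zero, coeffMap_eval₂_evalJ, coeffMap_jqModC, map_mul, map_pow, map_natCast,
    H9.coeffMap_DeltaQuot] at this

/-- **`Ω = Δ(t)/Δ(t^p)` is a root of the W1c polynomial over `ℤ[j(t^p)]`**, over every
commutative ring. -/
theorem eval₂_DeltaQuotInv (R : Type*) [CommRing R] (p : ℕ) [NeZero p] (hp : 0 < p)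
    (P : Polynomial (Polynomial ℤ)) (hP : IsDeltaQuotPoly p P) :
    P.eval₂ (evalJ (qExpand R p (jqModC R))) (DeltaQuotInv R p) = 0 := by
  have := congrArg (coeffMap (Int.castRingHom R)) (eval₂_DeltaQuotInv_int p hp P hP.2)
  rwa [map_zero, coeffMap_eval₂_evalJ, coeffMap_qExpand, coeffMap_jqModC,
    coeffMap_DeltaQuotInv] at this

/-- The twin of `IsDeltaQuotPoly` for `U` itself over every ring (for convenience). -/
theorem eval₂_DeltaQuot (R : Type*) [CommRing R] (p : ℕ) [NeZero p]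
    (P : Polynomial (Polynomial ℤ)) (hP : IsDeltaQuotPoly p P) :
    P.eval₂ (evalJ (jqModC R)) ((p : LaurentSeries R) ^ 12 * DeltaQuot R p) = 0 := by
  have := congrArg (coeffMap (Int.castRingHom R)) hP.2
  rwa [map_zero, coeffMap_eval₂_evalJ, coeffMap_jqModC, map_mul, map_pow, map_natCast,
    H9.coeffMap_DeltaQuot] at this

/-- `Ω` is integral over the subring generated by `j(t^p)`: packaged existence statement. -/
theorem exists_deltaQuotInvPoly (R : Type*) [CommRing R] (p : ℕ) [NeZero p] (hp : p.Prime) :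
    ∃ P : Polynomial (Polynomial ℤ), P.Monic ∧
      P.eval₂ (evalJ (jqModC R)) ((p : LaurentSeries R) ^ 12 * DeltaQuot R p) = 0 ∧
      P.eval₂ (evalJ (qExpand R p (jqModC R))) (DeltaQuotInv R p) = 0 ∧
      ((p : LaurentSeries R) ^ 12 * DeltaQuot R p) * DeltaQuotInv R p = (p : LaurentSeries R) ^ 12 := by
  obtain ⟨P, hP⟩ := exists_deltaQuotPoly p hp
  exact ⟨P, hP.1, eval₂_DeltaQuot R p P hP, eval₂_DeltaQuotInv R p hp.pos P hP,
    U_mul_DeltaQuotInv R p⟩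

end Fermat.Agent.S36.H59
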