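/-
helper17 — S36, rows (M2r)/(A-Om): the Laurent-series identities for the pair
`(j(t^d), j(t^(q d)))`, every `d ≥ 1` (image of the case `d = 1` under `t ↦ t^d`).

`vSer = j(t^d)`, `wSer = j(t^(q d))` (as `qExpand q (qExpand d j)`), `USer = U(t^d)`,
`OmSer = Ω(t^d)`:

* `rel_ser`, `id_ser` : Kronecker relation and sixth-power identity;
* `USer_mul_OmSer` : `U Ω = q^12`;
* `exists_integrality_ser` : one monic `P ∈ ℤ[Y][X]` with `P(vSer, USer) = 0`, `P(wSer, OmSer) = 0`.
-/
import Mathlib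
import Fermat.Agent.S36.H17_RegQChart
import Fermat.Agent.S36.H59_DeltaInvIntegral

set_option autoImplicit false
set_option linter.unusedSectionVars false

noncomputable section

namespace Fermat.Agent.S36.H17

open Polynomial ModularCurve Fermat.Agent.S28

section Forward

variable {A A' : Type*} [CommRing A] [CommRing A'] (g : A →+* A') (q : ℕ) (Rk : ℤ[X][X])

theorem map_rel (v w : A)
    (h : (w - v ^ q) * (w ^ q - v) + (q : A) * Rk.eval₂ (evalAt v) w = 0) :
    (g w - g v ^ q) * (g w ^ q - g v) + (q : A') * Rk.eval₂ (evalAt (g v)) (g w) = 0 := by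
  have := congrArg g h
  rwa [map_zero, map_add, map_mul, map_mul, map_sub, map_sub, map_pow, map_pow, map_natCast,
    Polynomial.hom_eval₂, comp_evalAt] at this

theorem map_id (v w U : A)
    (h : phiXVal Rk q (evalAt v) w ^ 6 * (w ^ 4 * (w - 1728) ^ 3) * U =
      (q : A) ^ 6 * (phiYVal Rk q (evalAt v) w ^ 6 * (v ^ 4 * (v - 1728) ^ 3))) :
    phiXVal Rk q (evalAt (g v)) (g w) ^ 6 * (g w ^ 4 * (g w - 1728) ^ 3) * g U =
      (q : A') ^ 6 * (phiYVal Rk q (evalAt (g v)) (g w) ^ 6 * (g v ^ 4 * (g v - 1728) ^ 3)) := by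
  have := congrArg g h
  have h1728 : g 1728 = 1728 := map_ofNat g 1728
  simpa only [map_mul, map_pow, map_sub, map_natCast, map_phiXVal, map_phiYVal, comp_evalAt,
    h1728] using this

theorem map_eval₂_evalAt (P : ℤ[X][X]) (v U : A) (h : P.eval₂ (evalAt v) U = 0) :
    P.eval₂ (evalAt (g v)) (g U) = 0 := by
  have := congrArg g h
  rwa [map_zero, Polynomial.hom_eval₂, comp_evalAt] at this

end Forward

section Series

variable (K : Type*) [CommRing K] (q : ℕ) [hq : Fact q.Prime] (d : ℕ) [NeZero d]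

/-- `j(t^d)`. -/
def vSer : LaurentSeries K := qExpand K d (jqModC K)

/-- `j(t^(q d))`, in the form `V (j(t^d))`. -/
def wSer : LaurentSeries K := qExpand K q (qExpand K d (jqModC K))

/-- `U(t^d)`, `U = q^12 Δ(t^q)/Δ(t)`. -/
def USer : LaurentSeries K := qExpand K d (Useries q K)

/-- `Ω(t^d)`, `Ω = Δ(t)/Δ(t^q)`. -/
def OmSer : LaurentSeries K := qExpand K d (Fermat.Agent.S36.H59.DeltaQuotInv K q)

theorem wSer_eq : wSer K q d = qExpand K d (qExpand K q (jqModC K)) := by
  rw [wSer, qExpand_qExpand, qExpand_qExpand]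
  exact qExpand_congr (mul_comm q d) _

theorem rel_ser (D : ModularPolynomialData q) (Rk : ℤ[X][X])
    (hRk : D.Φ = kronMain q + C (C (q : ℤ)) * Rk) :
    (wSer K q d - vSer K d ^ q) * (wSer K q d ^ q - vSer K d) +
      (q : LaurentSeries K) * Rk.eval₂ (evalAt (vSer K d)) (wSer K q d) = 0 := by
  rw [wSer_eq, vSer]
  have h := kron_rel q D Rk hRk K
  rw [← evalAt_eq_evalJ] at h
  exact map_rel (qExpand K d) q Rk _ _ h

theorem id_ser (D : ModularPolynomialData q) (Rk : ℤ[X][X])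
    (hRk : D.Φ = kronMain q + C (C (q : ℤ)) * Rk) :
    phiXVal Rk q (evalAt (vSer K d)) (wSer K q d) ^ 6 *
        (wSer K q d ^ 4 * (wSer K q d - 1728) ^ 3) * USer K q d =
      (q : LaurentSeries K) ^ 6 * (phiYVal Rk q (evalAt (vSer K d)) (wSer K q d) ^ 6 *
        (vSer K d ^ 4 * (vSer K d - 1728) ^ 3)) := by
  rw [wSer_eq, vSer, USer]
  have h := sixth_power_identity q D Rk hRk K
  rw [← evalAt_eq_evalJ] at h
  exact map_id (qExpand K d) q Rk _ _ _ h

theorem USer_mul_OmSer : USer K q d * OmSer K q d = (q : LaurentSeries K) ^ 12 := by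
  rw [USer, OmSer, ← map_mul, Useries, Fermat.Agent.S36.H59.U_mul_DeltaQuotInv, map_pow,
    map_natCast]

/-- one monic `P` for both `U` (over `ℤ[j(t^d)]`) and `Ω` (over `ℤ[j(t^(q d))]`). -/
theorem exists_integrality_ser :
    ∃ P : ℤ[X][X], P.Monic ∧ P.eval₂ (evalAt (vSer K d)) (USer K q d) = 0 ∧
      P.eval₂ (evalAt (wSer K q d)) (OmSer K q d) = 0 := by
  obtain ⟨P, hP, h1, h2, -⟩ := Fermat.Agent.S36.H59.exists_deltaQuotInvPoly K q hq.out
  refine ⟨P, hP, ?_, ?_⟩
  · rw [vSer, USer, Useries]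
    rw [← evalAt_eq_evalJ] at h1
    exact map_eval₂_evalAt (qExpand K d) P _ _ h1
  · rw [wSer_eq, OmSer]
    rw [← evalAt_eq_evalJ] at h2
    exact map_eval₂_evalAt (qExpand K d) P _ _ h2

end Series

end Fermat.Agent.S36.H17
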