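import Mathlib
import Fermat.Agent.S36.H17_RegQFormal
import Fermat.Agent.S36.H76_DeltaInvIntegral
import Fermat.Agent.S18.H16_FKGen
import Fermat.Agent.S18.H99_F1Basics
import Fermat.Agent.S28.H98_Transfer

/-!
S36 / (M2e) (A-Om), FullC-level half (helper76).

`q` prime, `K` a field with `q ≠ 0` in `K`, `q ∣ N`.  Inside `K((t))`:

* `U = q^12 Δ(t^q)/Δ(t)` (`S36.H17.Useries q K`) and `Ω = Δ(t)/Δ(t^q)` (`DeltaInvQuot K q`) lie in
  the function field `modularFunctionFieldFullC K N`;
* as elements `Uel`, `Omel` of that field: `Uel * Omel = q^12`, `Uel` is integral over `ℤ[j]`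
  (W1c) and `Omel` is integral over `ℤ[j_q]` (inverse W1c).
-/

set_option autoImplicit false
set_option linter.unusedSectionVars false

noncomputable section

namespace Fermat.Agent.S36.H76

open Polynomial ModularCurve Fermat.Agent.S28 Fermat.Agent.S18.H16

/-! ### polynomial expressions in two elements of a subfield -/

section Mem

variable {K : Type*} [Field K] {L : Type*} [Field L] [Algebra K L]

theorem evalJ_mem (S : IntermediateField K (LaurentSeries K)) {v : LaurentSeries K} (hv : v ∈ S)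
    (c : ℤ[X]) : evalJ v c ∈ S := by
  have : evalJ v c = Polynomial.eval₂ (algebraMap ℤ (LaurentSeries K)) v c := rfl
  rw [this, Polynomial.eval₂_eq_sum_range]
  refine S.sum_mem fun i _ => ?_
  refine S.mul_mem ?_ (pow_mem hv i)
  rw [eq_intCast]
  exact intCast_mem S _

theorem eval₂_evalJ_mem (S : IntermediateField K (LaurentSeries K)) {v w : LaurentSeries K}
    (hv : v ∈ S) (hw : w ∈ S) (P : ℤ[X][X]) : P.eval₂ (evalJ v) w ∈ S := by
  rw [Polynomial.eval₂_eq_sum_range]
  refine S.sum_mem fun i _ => ?_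
  exact S.mul_mem (evalJ_mem S hv _) (pow_mem hw i)

theorem natCast_mem' (S : IntermediateField K (LaurentSeries K)) (n : ℕ) :
    (n : LaurentSeries K) ∈ S := by
  have : (n : LaurentSeries K) = algebraMap K (LaurentSeries K) (n : K) := by
    rw [map_natCast]
  rw [this]
  exact S.algebraMap_mem _

theorem phiXVal_mem (S : IntermediateField K (LaurentSeries K)) {v w : LaurentSeries K}
    (hv : v ∈ S) (hw : w ∈ S) (Rk : ℤ[X][X]) (q : ℕ) : H17.phiXVal Rk q (evalJ v) w ∈ S := by
  have hq := natCast_mem' S q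
  rw [H17.phiXVal, evalJ_X]
  exact S.add_mem (S.add_mem (S.sub_mem (pow_mem hw q) hv)
    (S.mul_mem (S.mul_mem hq (pow_mem hw (q - 1))) (S.sub_mem hw (pow_mem hv q))))
    (S.mul_mem hq (eval₂_evalJ_mem S hv hw _))

theorem phiYVal_mem (S : IntermediateField K (LaurentSeries K)) {v w : LaurentSeries K}
    (hv : v ∈ S) (hw : w ∈ S) (Rk : ℤ[X][X]) (q : ℕ) : H17.phiYVal Rk q (evalJ v) w ∈ S := by
  have hq := natCast_mem' S q
  rw [H17.phiYVal, evalJ_X]
  exact S.add_mem (S.sub_mem (S.neg_mem (S.sub_mem hw (pow_mem hv q)))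
    (S.mul_mem (S.mul_mem hq (pow_mem hv (q - 1))) (S.sub_mem (pow_mem hw q) hv)))
    (S.mul_mem hq (eval₂_evalJ_mem S hv hw _))

end Mem

/-! ### `Φ_X(w, v) ≠ 0` -/

section PhiX

variable (q : ℕ) [hq : Fact q.Prime] [NeZero q]

/-- `∂_X (kronMain + q R)` evaluated at `(w, v)` is `phiXVal`. -/
theorem derivative_eval₂_kron {A : Type*} [CommRing A] (R : ℤ[X][X]) (f : ℤ[X] →+* A) (w : A) :
    (derivative (H17.kronMain q + C (C (q : ℤ)) * R)).eval₂ f w = H17.phiXVal R q f w := by
  have h1 : derivative (H17.kronMain q) =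
      (X ^ q - C X) + (X - C (X ^ q)) * (C ((q : ℕ) : ℤ[X]) * X ^ (q - 1)) := by
    rw [H17.kronMain, derivative_mul, derivative_sub, derivative_sub, derivative_X, derivative_C,
      derivative_C, derivative_X_pow]
    ring
  rw [derivative_add, Polynomial.derivative_C_mul, h1, H17.phiXVal]
  simp only [eval₂_add, eval₂_mul, eval₂_sub, eval₂_pow, eval₂_X, eval₂_C, map_natCast,
    map_pow, eval₂_natCast]
  ring

theorem jq_ne_zero (K : Type*) [Field K] : qExpand K q (jqModC K) ≠ 0 := by
  intro h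
  have h1 : qExpand K q (jqModC K) = qExpand K q 0 := by rw [h, map_zero]
  exact jqModC_ne_zero_of_nontrivial K ((qExpand K q).injective h1)

theorem jq_sub_ne_zero (K : Type*) [Field K] (c : K) :
    qExpand K q (jqModC K) - algebraMap K (LaurentSeries K) c ≠ 0 := by
  intro h
  have hc : qExpand K q (algebraMap K (LaurentSeries K) c) = algebraMap K (LaurentSeries K) c := by
    rw [algebraMap_laurentSeries_eq_single, qExpand_single, mul_zero]
  have h1 : qExpand K q (jqModC K - algebraMap K (LaurentSeries K) c) = qExpand K q 0 := by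
    rw [map_sub, hc, h, map_zero]
  have h2 : jqModC K - algebraMap K (LaurentSeries K) c = 0 := (qExpand K q).injective h1
  have h3 : Polynomial.aeval (R := K) (jqModC K) (X - Polynomial.C c) = 0 := by
    rw [map_sub, aeval_X, aeval_C]
    exact h2
  have h4 := aeval_jqModC_injective (K := K) (h3.trans (map_zero _).symm)
  exact Polynomial.X_sub_C_ne_zero c h4

theorem phiXVal_ne_zero (K : Type) [Field K] (hqK : ((q : ℕ) : K) ≠ 0)
    (D : ModularPolynomialData q)
    (hD : ∀ (k : Type) [Field k] (ζ : kˣ), IsPrimitiveRoot ζ q → RootsAt k q ζ D.Φ)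
    (hirr : Irreducible (redModPoly K D.Φ))
    (Rk : ℤ[X][X]) (hRk : D.Φ = H17.kronMain q + C (C (q : ℤ)) * Rk) :
    H17.phiXVal Rk q (evalJ (jqModC K)) (qExpand K q (jqModC K)) ≠ 0 := by
  have hsep := separable_redModPoly_gen hqK D hD
  have hmonic : (redModPoly K D.Φ).Monic := S28.H16.redModPoly_monic K D.monic
  have hdegΦ : 0 < D.Φ.natDegree := by
    rw [D.natDegree_eq]
    exact dedekindPsi_pos' q
  have hdeg : (redModPoly K D.Φ).natDegree = D.Φ.natDegree := by
    rw [redModPoly, D.monic.natDegree_map]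
  have hP : derivative (redModPoly K D.Φ) ≠ 0 := by
    intro h0
    have h1 : IsUnit (redModPoly K D.Φ) := by
      have := hsep
      rw [Polynomial.Separable, h0] at this
      exact isCoprime_zero_right.1 this
    have := Polynomial.natDegree_eq_zero_of_isUnit h1
    omega
  have hPdeg : (derivative (redModPoly K D.Φ)).degree < D.Φ.degree := by
    rw [Polynomial.degree_eq_natDegree D.monic.ne_zero]
    have := Polynomial.natDegree_derivative_lt (p := redModPoly K D.Φ) (by omega)
    rw [hdeg] at this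
    exact (Polynomial.degree_le_natDegree).trans_lt (by exact_mod_cast this)
  have hne := eval_map_iotaJ_ne_zero D.monic hirr (modPoly_root q D K) hP hPdeg
  have hder : derivative (redModPoly K D.Φ) = redModPoly K (derivative D.Φ) := by
    rw [redModPoly, redModPoly, Polynomial.derivative_map]
  rw [hder, eval_map_iotaJ, hRk, derivative_eval₂_kron] at hne
  exact hne

end PhiX

/-! ### `U` and `Ω` lie in the function field -/

section Membership

variable (q : ℕ) [hq : Fact q.Prime] [NeZero q] (K : Type) [Field K] (N : ℕ) [NeZero N]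

theorem Useries_mem_fullC (hqK : ((q : ℕ) : K) ≠ 0) (hqN : q ∣ N) :
    H17.Useries q K ∈ modularFunctionFieldFullC K N := by
  obtain ⟨D, hD, hirr⟩ := exists_modPoly_gen q
  obtain ⟨Rk, hRk⟩ := H17.exists_kroneckerR q D hD
  set S := modularFunctionFieldFullC K N with hS
  set v := jqModC K with hv
  set w := qExpand K q (jqModC K) with hw
  have hvS : v ∈ S := jqModC_mem_full K N
  have hwS : w ∈ S := jqModCd_mem_full K N hqN
  have hPX := phiXVal_ne_zero q K hqK D hD (hirr K hqK) Rk hRk
  have hid := H17.sixth_power_identity q D Rk hRk K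
  rw [← hv, ← hw] at hPX hid
  have hc1728 : (1728 : LaurentSeries K) = algebraMap K (LaurentSeries K) (1728 : K) := by
    rw [map_ofNat]
  have hW : w ^ 4 * (w - 1728) ^ 3 ≠ 0 := by
    refine mul_ne_zero (pow_ne_zero _ (jq_ne_zero q K)) (pow_ne_zero _ ?_)
    rw [hc1728]
    exact jq_sub_ne_zero q K _
  have h1728 : (1728 : LaurentSeries K) ∈ S := by
    rw [hc1728]
    exact S.algebraMap_mem _
  have hden : H17.phiXVal Rk q (evalJ v) w ^ 6 * (w ^ 4 * (w - 1728) ^ 3) ≠ 0 :=
    mul_ne_zero (pow_ne_zero _ hPX) hW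
  have hU : H17.Useries q K =
      ((q : LaurentSeries K) ^ 6 * (H17.phiYVal Rk q (evalJ v) w ^ 6 * (v ^ 4 * (v - 1728) ^ 3))) /
        (H17.phiXVal Rk q (evalJ v) w ^ 6 * (w ^ 4 * (w - 1728) ^ 3)) := by
    rw [eq_div_iff hden, mul_comm, hid]
  rw [hU]
  refine S.div_mem ?_ ?_
  · exact S.mul_mem (S.pow_mem (natCast_mem' S q) 6)
      (S.mul_mem (S.pow_mem (phiYVal_mem S hvS hwS Rk q) 6)
        (S.mul_mem (pow_mem hvS 4) (S.pow_mem (S.sub_mem hvS h1728) 3)))
  · exact S.mul_mem (S.pow_mem (phiXVal_mem S hvS hwS Rk q) 6)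
      (S.mul_mem (pow_mem hwS 4) (S.pow_mem (S.sub_mem hwS h1728) 3))

theorem natCast_laurent_ne_zero (hqK : ((q : ℕ) : K) ≠ 0) : ((q : ℕ) : LaurentSeries K) ≠ 0 := by
  have : ((q : ℕ) : LaurentSeries K) = algebraMap K (LaurentSeries K) ((q : ℕ) : K) := by
    rw [map_natCast]
  rw [this]
  exact fun h => hqK ((algebraMap K (LaurentSeries K)).injective (h.trans (map_zero _).symm))

theorem DeltaQuot_mem_fullC (hqK : ((q : ℕ) : K) ≠ 0) (hqN : q ∣ N) :
    DeltaQuot K q ∈ modularFunctionFieldFullC K N := by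
  have hU := Useries_mem_fullC q K N hqK hqN
  have hq0 := pow_ne_zero 12 (natCast_laurent_ne_zero q K hqK)
  have : DeltaQuot K q = H17.Useries q K / (q : LaurentSeries K) ^ 12 := by
    rw [H17.Useries, mul_div_assoc, mul_comm, div_mul_cancel₀ _ hq0]
  rw [this]
  exact (modularFunctionFieldFullC K N).div_mem hU
    (pow_mem (natCast_mem' _ q) 12)

theorem DeltaInvQuot_mem_fullC (hqK : ((q : ℕ) : K) ≠ 0) (hqN : q ∣ N) :
    DeltaInvQuot K q ∈ modularFunctionFieldFullC K N := by
  have h := DeltaQuot_mem_fullC q K N hqK hqN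
  have : DeltaInvQuot K q = (DeltaQuot K q)⁻¹ :=
    eq_inv_of_mul_eq_one_right (DeltaQuot_mul_DeltaInvQuot K q)
  rw [this]
  exact (modularFunctionFieldFullC K N).inv_mem h

/-- `U = q^12 Δ(t^q)/Δ(t)` as an element of the function field. -/
def Uel (hqK : ((q : ℕ) : K) ≠ 0) (hqN : q ∣ N) : modularFunctionFieldFullC K N :=
  ⟨H17.Useries q K, Useries_mem_fullC q K N hqK hqN⟩

/-- `Ω = Δ(t)/Δ(t^q)` as an element of the function field. -/
def Omel (hqK : ((q : ℕ) : K) ≠ 0) (hqN : q ∣ N) : modularFunctionFieldFullC K N :=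
  ⟨DeltaInvQuot K q, DeltaInvQuot_mem_fullC q K N hqK hqN⟩

@[simp] theorem coe_Uel (hqK : ((q : ℕ) : K) ≠ 0) (hqN : q ∣ N) :
    ((Uel q K N hqK hqN : modularFunctionFieldFullC K N) : LaurentSeries K) = H17.Useries q K := rfl

@[simp] theorem coe_Omel (hqK : ((q : ℕ) : K) ≠ 0) (hqN : q ∣ N) :
    ((Omel q K N hqK hqN : modularFunctionFieldFullC K N) : LaurentSeries K) = DeltaInvQuot K q :=
  rfl

/-- `U * Ω = q^12` in the function field. -/
theorem Uel_mul_Omel (hqK : ((q : ℕ) : K) ≠ 0) (hqN : q ∣ N) :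
    Uel q K N hqK hqN * Omel q K N hqK hqN = ((q : ℕ) : modularFunctionFieldFullC K N) ^ 12 := by
  apply Subtype.ext
  push_cast
  exact deltaQuot_mul_deltaInv K q

theorem Uel_ne_zero (hqK : ((q : ℕ) : K) ≠ 0) (hqN : q ∣ N) : Uel q K N hqK hqN ≠ 0 := by
  intro h
  have h1 := Uel_mul_Omel q K N hqK hqN
  rw [h, zero_mul] at h1
  have hq0 : ((q : ℕ) : modularFunctionFieldFullC K N) ≠ 0 := by
    have : ((q : ℕ) : modularFunctionFieldFullC K N) =
        algebraMap K (modularFunctionFieldFullC K N) ((q : ℕ) : K) := by rw [map_natCast]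
    rw [this]
    exact fun h => hqK ((algebraMap K (modularFunctionFieldFullC K N)).injective
      (h.trans (map_zero _).symm))
  exact pow_ne_zero 12 hq0 h1.symm

theorem Omel_ne_zero (hqK : ((q : ℕ) : K) ≠ 0) (hqN : q ∣ N) : Omel q K N hqK hqN ≠ 0 := by
  intro h
  have h1 := Uel_mul_Omel q K N hqK hqN
  rw [h, mul_zero] at h1
  have hq0 : ((q : ℕ) : modularFunctionFieldFullC K N) ≠ 0 := by
    have : ((q : ℕ) : modularFunctionFieldFullC K N) =
        algebraMap K (modularFunctionFieldFullC K N) ((q : ℕ) : K) := by rw [map_natCast]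
    rw [this]
    exact fun h => hqK ((algebraMap K (modularFunctionFieldFullC K N)).injective
      (h.trans (map_zero _).symm))
  exact pow_ne_zero 12 hq0 h1.symm

end Membership

/-! ### integrality in the function field -/

section Integral

variable (q : ℕ) [hq : Fact q.Prime] [NeZero q] (K : Type) [Field K] (N : ℕ) [NeZero N]

/-- `ℤ[Y] → F`, `Y ↦ x`. -/
def evF (x : modularFunctionFieldFullC K N) : ℤ[X] →+* modularFunctionFieldFullC K N :=
  (Polynomial.aeval (R := ℤ) x).toRingHom

@[simp] theorem evF_X (x : modularFunctionFieldFullC K N) : evF K N x X = x := by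
  simp [evF]

theorem val_comp_evF (x : modularFunctionFieldFullC K N) :
    ((modularFunctionFieldFullC K N).val : modularFunctionFieldFullC K N →+* LaurentSeries K).comp
      (evF K N x) = evalJ (x : LaurentSeries K) := by
  apply Polynomial.ringHom_ext
  · intro a
    simp [evF, evalJ]
  · simp [evF, evalJ]

theorem coe_eval₂_evF (P : ℤ[X][X]) (x y : modularFunctionFieldFullC K N) :
    ((P.eval₂ (evF K N x) y : modularFunctionFieldFullC K N) : LaurentSeries K) =
      P.eval₂ (evalJ (x : LaurentSeries K)) (y : LaurentSeries K) := by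
  have := Polynomial.hom_eval₂ P (evF K N x)
    ((modularFunctionFieldFullC K N).val : modularFunctionFieldFullC K N →+* LaurentSeries K) y
  rw [val_comp_evF] at this
  exact this

/-- **W1c in the function field**: `U` is integral over `ℤ[j]`. -/
theorem isIntegralElem_Uel (hqK : ((q : ℕ) : K) ≠ 0) (hqN : q ∣ N) :
    (evF K N (jK K N)).IsIntegralElem (Uel q K N hqK hqN) := by
  obtain ⟨P, hP⟩ := S28.H9.exists_deltaQuotPoly q hq.out
  refine ⟨P, hP.1, ?_⟩
  apply Subtype.ext
  rw [coe_eval₂_evF]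
  exact S28.H98.IsDeltaQuotPoly.eval₂_eq_zero hP K

/-- **Inverse W1c in the function field**: `Ω` is integral over `ℤ[j_q]`. -/
theorem isIntegralElem_Omel (hqK : ((q : ℕ) : K) ≠ 0) (hqN : q ∣ N) :
    (evF K N (S18.H99.jdK K N q hqN)).IsIntegralElem (Omel q K N hqK hqN) := by
  obtain ⟨Q, hQ1, hQ2⟩ := exists_deltaInvPoly_ring q hq.out
  refine ⟨Q, hQ1, ?_⟩
  apply Subtype.ext
  rw [coe_eval₂_evF]
  exact hQ2 K

end Integral

end Fermat.Agent.S36.H76
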