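/-
helper17 — S36, rows (M2r)/(A-Om): the chart package at the real function fields.

`F = modularFunctionFieldFullC K N`, `q d ∣ N`, `R` any base ring with `Algebra R F`, `J : F` a chart
coordinate, `v w : F` with expansions `j(t^d)`, `j(t^(q d))`, both in `chartB R J`:

* `USer_mem_fullC`, `OmSer_mem_fullC` : `U(t^d), Ω(t^d) ∈ F` (from helper76's `H76_OmegaFullC`);
* `Ud`, `Omd` : the elements of `F`;
* `fullC_chart_data` : `Ud, Omd ∈ chartB R J`, and `hrel`, `hid`, `U Ω = q^12` in the chart, in the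
  shape of the hypotheses of `H17_RegQTC` / `H17_OmegaTC`.
-/
import Mathlib
import Fermat.Agent.S34.H36_VSub
import Fermat.Agent.S36.H17_RegQSeries
import Fermat.Agent.S36.H76_OmegaFullC

set_option autoImplicit false
set_option linter.unusedSectionVars false

noncomputable section

namespace Fermat.Agent.S36.H17

open Polynomial ModularCurve Fermat.Agent.S28 Fermat.Agent.S18.H40

section FullC

variable (K : Type) [Field K] (N : ℕ) [NeZero N] (q : ℕ) [hq : Fact q.Prime] (d : ℕ) [NeZero d]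

theorem USer_mem_fullC (hqK : ((q : ℕ) : K) ≠ 0) (hdN : d * q ∣ N) :
    USer K q d ∈ modularFunctionFieldFullC K N :=
  Fermat.Agent.S34.H36.qExpand_mem_fullC K d q N hdN
    (Fermat.Agent.S36.H76.Useries_mem_fullC q K q hqK dvd_rfl)

theorem OmSer_mem_fullC (hqK : ((q : ℕ) : K) ≠ 0) (hdN : d * q ∣ N) :
    OmSer K q d ∈ modularFunctionFieldFullC K N :=
  Fermat.Agent.S34.H36.qExpand_mem_fullC K d q N hdN
    (Fermat.Agent.S36.H76.DeltaInvQuot_mem_fullC q K q hqK dvd_rfl)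

/-- `U(t^d)` as an element of the function field of level `N`. -/
def Ud (hqK : ((q : ℕ) : K) ≠ 0) (hdN : d * q ∣ N) : modularFunctionFieldFullC K N :=
  ⟨USer K q d, USer_mem_fullC K N q d hqK hdN⟩

/-- `Ω(t^d)` as an element of the function field of level `N`. -/
def Omd (hqK : ((q : ℕ) : K) ≠ 0) (hdN : d * q ∣ N) : modularFunctionFieldFullC K N :=
  ⟨OmSer K q d, OmSer_mem_fullC K N q d hqK hdN⟩

variable {R : Type*} [CommRing R] [Algebra R ↥(modularFunctionFieldFullC K N)]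

/-- **The chart package at the real function field.** -/
theorem fullC_chart_data (hqK : ((q : ℕ) : K) ≠ 0) (hdN : d * q ∣ N)
    (D : ModularPolynomialData q) (Rk : ℤ[X][X])
    (hRk : D.Φ = kronMain q + C (C (q : ℤ)) * Rk)
    (J v w : ↥(modularFunctionFieldFullC K N))
    (hvc : (v : LaurentSeries K) = vSer K d) (hwc : (w : LaurentSeries K) = wSer K q d)
    (hv : v ∈ chartB R J) (hw : w ∈ chartB R J) :
    ∃ (hU : Ud K N q d hqK hdN ∈ chartB R J) (hOm : Omd K N q d hqK hdN ∈ chartB R J),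
      ((⟨w, hw⟩ : ↥(chartB R J)) - (⟨v, hv⟩ : ↥(chartB R J)) ^ q) *
          ((⟨w, hw⟩ : ↥(chartB R J)) ^ q - ⟨v, hv⟩) +
        (q : ↥(chartB R J)) * Rk.eval₂ (evalAt (⟨v, hv⟩ : ↥(chartB R J))) ⟨w, hw⟩ = 0 ∧
      phiXVal Rk q (evalAt (⟨v, hv⟩ : ↥(chartB R J))) ⟨w, hw⟩ ^ 6 *
          ((⟨w, hw⟩ : ↥(chartB R J)) ^ 4 * ((⟨w, hw⟩ : ↥(chartB R J)) - 1728) ^ 3) *
            ⟨Ud K N q d hqK hdN, hU⟩ =
        (q : ↥(chartB R J)) ^ 6 * (phiYVal Rk q (evalAt (⟨v, hv⟩ : ↥(chartB R J))) ⟨w, hw⟩ ^ 6 *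
          ((⟨v, hv⟩ : ↥(chartB R J)) ^ 4 * ((⟨v, hv⟩ : ↥(chartB R J)) - 1728) ^ 3)) ∧
      (⟨Ud K N q d hqK hdN, hU⟩ : ↥(chartB R J)) * ⟨Omd K N q d hqK hdN, hOm⟩ =
        (q : ↥(chartB R J)) ^ 12 := by
  obtain ⟨P, hP, hPU, hPOm⟩ := exists_integrality_ser K q d
  set e : ↥(modularFunctionFieldFullC K N) →+* LaurentSeries K :=
    (modularFunctionFieldFullC K N).val.toRingHom with hedef
  have he : Function.Injective e := Subtype.val_injective
  have hev : e v = vSer K d := hvc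
  have hew : e w = wSer K q d := hwc
  have heU : e (Ud K N q d hqK hdN) = USer K q d := rfl
  have heOm : e (Omd K N q d hqK hdN) = OmSer K q d := rfl
  refine chart_data e he J q Rk P P hP hP v w _ _ hv hw ?_ ?_ ?_ ?_ ?_
  · rw [hev, heU]; exact hPU
  · rw [hew, heOm]; exact hPOm
  · rw [hev, hew]; exact rel_ser K q d D Rk hRk
  · rw [hev, hew, heU]; exact id_ser K q d D Rk hRk
  · rw [heU, heOm]; exact USer_mul_OmSer K q d

end FullC

end Fermat.Agent.S36.H17
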