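/-
helper17 — S36, (A-Om) AT THE REAL TYPES of `S35.H55.exists_l0Pkg`, chart 1
(`B = chartB A₁ (JN M)`, `A₁ = A0 A ℓ`, level `N = ℓ * M`).

For the `TwoComponents` structure of `S34.H55.twoComponents_JK` (any `red₁ red₂` with
`L0ChartFacts`): elements `U, Ω ∈ B` with expansions `ℓ^12 Δ(t^ℓ)/Δ(t)`, `Δ(t)/Δ(t^ℓ)`,
`U Ω = ℓ^12`, `red₁ U = 0`, `red₂ U ≠ 0`, `red₂ Ω = 0`, and the expansion of `red₁ Ω` is
`Δ̄(t)/Δ̄(t^ℓ)`; together with the Kronecker relation `hrel` and the sixth-power identity `hid`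
for `ψ₀ = j` (the hypotheses of `H17_RegQTC`).
-/
import Mathlib
import Fermat.Agent.S35.H55_L0Pkg
import Fermat.Agent.S34.H40_L0Consumers
import Fermat.Agent.S36.H92_GaussPi
import Fermat.Agent.S36.H17_RegQFullC
import Fermat.Agent.S36.H17_OmegaTC

set_option autoImplicit false
set_option linter.unusedSectionVars false
set_option linter.style.haveILetI false
set_option synthInstance.maxHeartbeats 400000
set_option maxHeartbeats 3200000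

noncomputable section

namespace Fermat.Agent.S36.H17

open ModularCurve Polynomial IsLocalRing Fermat.Agent.S28
open Fermat.Agent.S18 Fermat.Agent.S34 Fermat.Agent.S34.H92 Fermat.Agent.S34.H16
open Fermat.Agent.S34.H55

local notation "Qbar" => AlgebraicClosure ℚ

section Inst

variable (M : ℕ) [NeZero M] {ℓ : ℕ} [hℓ : Fact ℓ.Prime] (hℓM : ¬ ℓ ∣ M)
  (A : ValuationSubring Qbar) (hA : A.LiesOverPrime ℓ)

local notation "kA" => IsLocalRing.ResidueField A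
local notation "A₁" => H45.A0 A ℓ
local notation "L₁" => H45.unrCyclo ℓ
local notation "FM" => modularFunctionFieldFullC (H45.unrCyclo ℓ) M
local notation "FN" => modularFunctionFieldFullC (H45.unrCyclo ℓ) (ℓ * M)
local notation "FkM" => modularFunctionFieldFullC (IsLocalRing.ResidueField A) M
local notation "RM" => integralClosure
  (Algebra.adjoin (IsLocalRing.ResidueField A) {S18.H16.jK (IsLocalRing.ResidueField A) M})
  (modularFunctionFieldFullC (IsLocalRing.ResidueField A) M)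

/-- `ψ₀ = j` in the level-`M` chart. -/
def psi0 : ↥(H40.chartB A₁ (S18.H16.jK L₁ M)) :=
  ⟨S18.H16.jK L₁ M, H40.self_mem_chartB _⟩

theorem coe_iota_psi0 :
    ((((chartMap (iotaMN M (ℓ := ℓ)) (iotaMN_algebraMap M A) (hιint1 M A) (psi0 M A) :
      ↥(H40.chartB A₁ (JN M (ℓ := ℓ)))) : FN)) : LaurentSeries L₁) = vSer L₁ 1 := by
  rw [vSer, qExpand_one_apply]
  show ((iotaMN M (ℓ := ℓ) (S18.H16.jK L₁ M) : FN) : LaurentSeries L₁) = jqModC L₁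
  rw [coe_iotaMN]
  rfl

theorem coe_V_psi0 :
    ((((chartMap (VMN M (ℓ := ℓ)) (VMN_algebraMap M A) (hVint1 M A) (psi0 M A) :
      ↥(H40.chartB A₁ (JN M (ℓ := ℓ)))) : FN)) : LaurentSeries L₁) = wSer L₁ ℓ 1 := by
  rw [wSer, qExpand_one_apply]
  show ((VMN M (ℓ := ℓ) (S18.H16.jK L₁ M) : FN) : LaurentSeries L₁) = qExpand L₁ ℓ (jqModC L₁)
  rw [coe_VMN]
  rfl

include hA in
theorem natCast_L₁_ne_zero : ((ℓ : ℕ) : L₁) ≠ 0 := Nat.cast_ne_zero.2 hℓ.out.ne_zero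

/-- **The chart package at the real types**, chart 1: `U, Ω ∈ chartB A₁ (JN M)` with `hrel`, `hid`,
`U Ω = ℓ^12` for `ι ψ₀`, `V ψ₀`. -/
theorem exists_chart_data_JK (D : ModularPolynomialData ℓ) (Rk : ℤ[X][X])
    (hRk : D.Φ = kronMain ℓ + C (C (ℓ : ℤ)) * Rk) :
    ∃ U Om : ↥(H40.chartB A₁ (JN M (ℓ := ℓ))),
      (((U : FN)) : LaurentSeries L₁) = Useries ℓ L₁ ∧
      (((Om : FN)) : LaurentSeries L₁) = Fermat.Agent.S36.H76.DeltaInvQuot L₁ ℓ ∧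
      (chartMap (VMN M (ℓ := ℓ)) (VMN_algebraMap M A) (hVint1 M A) (psi0 M A) -
          chartMap (iotaMN M (ℓ := ℓ)) (iotaMN_algebraMap M A) (hιint1 M A) (psi0 M A) ^ ℓ) *
        (chartMap (VMN M (ℓ := ℓ)) (VMN_algebraMap M A) (hVint1 M A) (psi0 M A) ^ ℓ -
          chartMap (iotaMN M (ℓ := ℓ)) (iotaMN_algebraMap M A) (hιint1 M A) (psi0 M A)) +
        ((ℓ : ℕ) : ↥(H40.chartB A₁ (JN M (ℓ := ℓ)))) *
          Rk.eval₂ (evalAt (chartMap (iotaMN M (ℓ := ℓ)) (iotaMN_algebraMap M A) (hιint1 M A)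
            (psi0 M A))) (chartMap (VMN M (ℓ := ℓ)) (VMN_algebraMap M A) (hVint1 M A)
            (psi0 M A)) = 0 ∧
      phiXVal Rk ℓ (evalAt (chartMap (iotaMN M (ℓ := ℓ)) (iotaMN_algebraMap M A) (hιint1 M A)
            (psi0 M A))) (chartMap (VMN M (ℓ := ℓ)) (VMN_algebraMap M A) (hVint1 M A)
            (psi0 M A)) ^ 6 *
          (chartMap (VMN M (ℓ := ℓ)) (VMN_algebraMap M A) (hVint1 M A) (psi0 M A) ^ 4 *
            (chartMap (VMN M (ℓ := ℓ)) (VMN_algebraMap M A) (hVint1 M A) (psi0 M A) - 1728) ^ 3) *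
          U =
        ((ℓ : ℕ) : ↥(H40.chartB A₁ (JN M (ℓ := ℓ)))) ^ 6 *
          (phiYVal Rk ℓ (evalAt (chartMap (iotaMN M (ℓ := ℓ)) (iotaMN_algebraMap M A) (hιint1 M A)
            (psi0 M A))) (chartMap (VMN M (ℓ := ℓ)) (VMN_algebraMap M A) (hVint1 M A)
            (psi0 M A)) ^ 6 *
          (chartMap (iotaMN M (ℓ := ℓ)) (iotaMN_algebraMap M A) (hιint1 M A) (psi0 M A) ^ 4 *
            (chartMap (iotaMN M (ℓ := ℓ)) (iotaMN_algebraMap M A) (hιint1 M A) (psi0 M A)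
              - 1728) ^ 3)) ∧
      U * Om = ((ℓ : ℕ) : ↥(H40.chartB A₁ (JN M (ℓ := ℓ)))) ^ 12 := by
  have hqK : ((ℓ : ℕ) : L₁) ≠ 0 := Nat.cast_ne_zero.2 hℓ.out.ne_zero
  have hdN : 1 * ℓ ∣ ℓ * M := ⟨M, by ring⟩
  obtain ⟨hU, hOm, h1, h2, h3⟩ := fullC_chart_data (R := A₁) L₁ (ℓ * M) ℓ 1 hqK hdN D Rk hRk
    (JN M (ℓ := ℓ))
    ((chartMap (iotaMN M (ℓ := ℓ)) (iotaMN_algebraMap M A) (hιint1 M A) (psi0 M A) :
      ↥(H40.chartB A₁ (JN M (ℓ := ℓ)))) : FN)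
    ((chartMap (VMN M (ℓ := ℓ)) (VMN_algebraMap M A) (hVint1 M A) (psi0 M A) :
      ↥(H40.chartB A₁ (JN M (ℓ := ℓ)))) : FN)
    (coe_iota_psi0 M A) (coe_V_psi0 M A)
    (chartMap (iotaMN M (ℓ := ℓ)) (iotaMN_algebraMap M A) (hιint1 M A) (psi0 M A)).2
    (chartMap (VMN M (ℓ := ℓ)) (VMN_algebraMap M A) (hVint1 M A) (psi0 M A)).2
  refine ⟨⟨Ud L₁ (ℓ * M) ℓ 1 hqK hdN, hU⟩, ⟨Omd L₁ (ℓ * M) ℓ 1 hqK hdN, hOm⟩, ?_, ?_, h1, h2, h3⟩
  · show USer L₁ ℓ 1 = Useries ℓ L₁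
    rw [USer, qExpand_one_apply]
  · show OmSer L₁ ℓ 1 = Fermat.Agent.S36.H76.DeltaInvQuot L₁ ℓ
    rw [OmSer, qExpand_one_apply]
    rfl

/-- `W (rbar ψ₀) = (rbar ψ₀)^ℓ`. -/
theorem hW_psi0 :
    WR (FrM M A hA) ℓ (hFrx M A hA)
        (rbarB (Mod M hℓM A hA) (Mod M hℓM A hA).x_mem (Mod M hℓM A hA).res1_x (psi0 M A)) =
      rbarB (Mod M hℓM A hA) (Mod M hℓM A hA).x_mem (Mod M hℓM A hA).res1_x (psi0 M A) ^ ℓ := by
  apply Subtype.ext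
  rw [coe_WR]
  push_cast
  rw [coe_rbarB]
  have : (Mod M hℓM A hA).res1 ⟨((psi0 M A : ↥(H40.chartB A₁ (S18.H16.jK L₁ M))) : FM),
      chart_le_O1 (Mod M hℓM A hA) (Mod M hℓM A hA).x_mem (psi0 M A).2⟩ = S18.H16.jK kA M :=
    (Mod M hℓM A hA).res1_x
  rw [this]
  exact hFrx M A hA

/-- `rbar ψ₀ = j̄` is transcendental. -/
theorem hY_psi0 :
    Function.Injective (aeval (R := kA)
      (rbarB (Mod M hℓM A hA) (Mod M hℓM A hA).x_mem (Mod M hℓM A hA).res1_x (psi0 M A))) := by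
  have htr : Transcendental kA (S18.H16.jK kA M) := S18.H16.transcendental_jk M A
  rw [transcendental_iff_injective] at htr
  intro p p' hpp'
  apply htr
  have hcoe : algebraMap ↥RM FkM
      (rbarB (Mod M hℓM A hA) (Mod M hℓM A hA).x_mem (Mod M hℓM A hA).res1_x (psi0 M A)) =
      S18.H16.jK kA M := (Mod M hℓM A hA).res1_x
  rw [← hcoe, aeval_algebraMap_apply, aeval_algebraMap_apply, hpp']

theorem natCast_chart_ne_zero :
    ((ℓ : ℕ) : ↥(H40.chartB A₁ (JN M (ℓ := ℓ)))) ≠ 0 := by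
  intro h0
  have h1 : (((ℓ : ℕ) : ↥(H40.chartB A₁ (JN M (ℓ := ℓ)))) : FN) = 0 := by rw [h0]; rfl
  push_cast at h1
  have h2 : ((ℓ : ℕ) : L₁) ≠ 0 := Nat.cast_ne_zero.2 hℓ.out.ne_zero
  apply h2
  have h3 : algebraMap L₁ FN ((ℓ : ℕ) : L₁) = 0 := by rw [map_natCast]; exact h1
  exact (map_eq_zero _).mp h3

include hℓM hA in
/-- **(A-Om) at the real types, chart 1.** -/
theorem exists_omega_JK (Pi : PlaceInf M hℓM A hA) (P0 : PlaceZero M hℓM A hA)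
    (red₁ red₂ : ↥(H40.chartB A₁ (JN M (ℓ := ℓ))) →+* ↥RM)
    (TC : H83.TwoComponents red₁ red₂
      (chartMap (iotaMN M (ℓ := ℓ)) (iotaMN_algebraMap M A) (hιint1 M A))
      (chartMap (VMN M (ℓ := ℓ)) (VMN_algebraMap M A) (hVint1 M A))
      (rbarB (Mod M hℓM A hA) (Mod M hℓM A hA).x_mem (Mod M hℓM A hA).res1_x)
      (WR (FrM M A hA) ℓ (hFrx M A hA)) ℓ
      (algebraMap A₁ ↥(H40.chartB A₁ (JN M (ℓ := ℓ))) ((ℓ : ℕ) : A₁)))
    (hF : Fermat.Agent.S35.H55.L0ChartFacts M hℓM A hA Pi P0 red₁ red₂) :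
    ∃ U Om : ↥(H40.chartB A₁ (JN M (ℓ := ℓ))),
      (((U : FN)) : LaurentSeries L₁) = Useries ℓ L₁ ∧
      (((Om : FN)) : LaurentSeries L₁) = Fermat.Agent.S36.H76.DeltaInvQuot L₁ ℓ ∧
      U * Om = ((ℓ : ℕ) : ↥(H40.chartB A₁ (JN M (ℓ := ℓ)))) ^ 12 ∧
      red₁ U = 0 ∧ red₂ U ≠ 0 ∧ red₂ Om = 0 ∧
      inclk M A ((red₁ Om : ↥RM) : FkM) = Fermat.Agent.S36.H76.DeltaInvQuot kA ℓ ∧
      qExpand kA ℓ (DeltaS kA) * inclk M A ((red₁ Om : ↥RM) : FkM) = DeltaS kA := by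
  obtain ⟨D, hD, -⟩ := S18.H16.exists_modPoly_gen ℓ
  obtain ⟨Rk, hRk⟩ := exists_kroneckerR ℓ D hD
  obtain ⟨U, Om, hUc, hOmc, hrel, hid, hUOm⟩ := exists_chart_data_JK M A D Rk hRk
  haveI := S18.H16.charP_k A hA
  haveI := S18.H16.isAlgClosed_k A
  haveI := S18.H16.finiteDimensional_Fk M hℓM A hA
  haveI := S18.H16.isSeparable_Fk M hℓM A hA
  haveI hDed : IsDedekindDomain ↥RM :=
    S18.H97.isDedekindDomain_intRing_of_isSeparable (S18.H16.jK kA M)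
      (S18.H16.transcendental_jk M A)
  have hq0 := natCast_chart_ne_zero M A (ℓ := ℓ)
  have hW := hW_psi0 M hℓM A hA
  have hY := hY_psi0 M hℓM A hA
  have h1 : red₁ U = 0 := red₁_U (k := kA) ℓ TC (psi0 M A) hW hY Rk U hid
  have h2 : red₂ U ≠ 0 := red₂_U_ne_zero (k := kA) ℓ TC hq0 (psi0 M A) hW hY Rk U hrel hid
  have h3 : red₂ Om = 0 := red₂_Om (k := kA) ℓ TC hq0 (psi0 M A) hW hY Rk U hrel hid Om hUOm
  have hup : (((Om : FN)) : LaurentSeries L₁) =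
      S18.H92.up A₁ (Fermat.Agent.S36.H76.DeltaInvQuot A₁ ℓ) := by
    rw [hOmc, S18.H92.up, Fermat.Agent.S36.H76.coeffMap_DeltaInvQuot]
  obtain ⟨hx, hres⟩ := Fermat.Agent.S36.H92.mem_PO1_inf_of_up M hℓM A hA Pi (Om : FN)
    (Fermat.Agent.S36.H76.DeltaInvQuot A₁ ℓ) hup
  have h4 : inclk M A ((red₁ Om : ↥RM) : FkM) = Fermat.Agent.S36.H76.DeltaInvQuot kA ℓ := by
    rw [hF.res_inf Om, hres, Fermat.Agent.S36.H76.coeffMap_DeltaInvQuot]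
  refine ⟨U, Om, hUc, hOmc, hUOm, h1, h2, h3, h4, ?_⟩
  rw [h4, qExpand_DeltaS_mul_DeltaInvQuot]

end Inst

end Fermat.Agent.S36.H17
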