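import Mathlib
import Fermat.Agent.S34.H83_LocGen
import Fermat.Agent.S34.H83_LocGenLocal
import Fermat.Agent.S34.H56_Step3Chart
import Fermat.Agent.S36.H62_RegularPrincipal

/-!
# S36 / (M2e), helper54: thickness one at a crossing point by the intrinsic argument (A) — CONTRACT

Abstract assembly of Coordination Note 2 (A).  Everything is stated "in the field" (no
`Localization` type in the hypotheses), in the vocabulary of `S34.H83.TwoComponents`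
(`red₁ red₂ : B →+* D`, `hinf`) and `S34.H56.MemAt`.

* `MemLoc 𝔞 x` : `x ∈ D_𝔞` for `x` in a field `T ⊇ D` (`∃ c u, u ∉ 𝔞 ∧ x * u = c`).
* `not_memLoc_of_ode` : the pole lemma.  `θ` a derivation of `T`, `d/ds̄ := θ / θ s̄` preserves `D_𝔞`
  (`hdel`), `θ δ = θ s̄ * P - ρ̄ ^ (q - 1) * θ ρ̄` and `1 / P ∈ 𝔞 D_𝔞`  ⟹  `δ ∉ D_𝔞`.
* `not_mem_of_ode` : moreover `δ * ȳ = R̄₀`, `ȳ ∈ 𝔞 \ 𝔞 ^ 2`  ⟹  `R̄₀ ∉ 𝔞`.
* `exists_num_den_of_hartogs` : `g ∈ F` regular at `P₁ = ker red₁`, in `P₂ B_{P₂}`, and regular at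
  every horizontal height-one prime through `n`  ⟹  `g = a / b`, `b ∉ n`, `red₂ a = 0`.
* `thickness_one_of_intrinsic` : THE CONTRACT.  Output: `R₀ ∉ n`, `n B_n = (x, y)`,
  `P₁ B_n = x B_n`, `P₂ B_n = y B_n`.
* `ufm_of_intrinsic` : `UniqueFactorizationMonoid (Localization.AtPrime n)` (shape (U) of (E4)).
-/

set_option autoImplicit false

namespace Fermat.Agent.S36.H54

open Fermat.Agent.S34 Fermat.Agent.S34.H56

/-! ### Fractions with denominator outside a prime, inside a field -/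

section MemLoc

variable {D T : Type*} [CommRing D] [Field T] [Algebra D T]

/-- `x ∈ D_𝔞` inside the field `T`. -/
def MemLoc (𝔞 : Ideal D) (x : T) : Prop :=
  ∃ c u : D, u ∉ 𝔞 ∧ x * algebraMap D T u = algebraMap D T c

theorem memLoc_algebraMap (𝔞 : Ideal D) (h𝔞 : 𝔞 ≠ ⊤) (d : D) : MemLoc 𝔞 (algebraMap D T d) :=
  ⟨d, 1, (Ideal.ne_top_iff_one 𝔞).mp h𝔞, by rw [map_one, mul_one]⟩

theorem MemLoc.add {𝔞 : Ideal D} [h𝔞 : 𝔞.IsPrime] {x y : T} (hx : MemLoc 𝔞 x) (hy : MemLoc 𝔞 y) :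
    MemLoc 𝔞 (x + y) := by
  obtain ⟨c, u, hu, hcu⟩ := hx
  obtain ⟨c', u', hu', hcu'⟩ := hy
  refine ⟨c * u' + c' * u, u * u', fun h => (h𝔞.mem_or_mem h).elim hu hu', ?_⟩
  rw [map_add, map_mul, map_mul, map_mul, ← hcu, ← hcu']
  ring

theorem MemLoc.mul {𝔞 : Ideal D} [h𝔞 : 𝔞.IsPrime] {x y : T} (hx : MemLoc 𝔞 x) (hy : MemLoc 𝔞 y) :
    MemLoc 𝔞 (x * y) := by
  obtain ⟨c, u, hu, hcu⟩ := hx
  obtain ⟨c', u', hu', hcu'⟩ := hy
  refine ⟨c * c', u * u', fun h => (h𝔞.mem_or_mem h).elim hu hu', ?_⟩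
  rw [map_mul, map_mul, ← hcu, ← hcu']
  ring

theorem MemLoc.neg {𝔞 : Ideal D} {x : T} (hx : MemLoc 𝔞 x) : MemLoc 𝔞 (-x) := by
  obtain ⟨c, u, hu, hcu⟩ := hx
  exact ⟨-c, u, hu, by rw [map_neg, ← hcu]; ring⟩

theorem MemLoc.sub {𝔞 : Ideal D} [𝔞.IsPrime] {x y : T} (hx : MemLoc 𝔞 x) (hy : MemLoc 𝔞 y) :
    MemLoc 𝔞 (x - y) := by
  rw [sub_eq_add_neg]
  exact hx.add hy.neg

theorem MemLoc.pow {𝔞 : Ideal D} [h𝔞 : 𝔞.IsPrime] {x : T} (hx : MemLoc 𝔞 x) (m : ℕ) :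
    MemLoc 𝔞 (x ^ m) := by
  induction m with
  | zero =>
    rw [pow_zero, ← map_one (algebraMap D T)]
    exact memLoc_algebraMap 𝔞 h𝔞.ne_top 1
  | succ m ih => rw [pow_succ]; exact ih.mul hx

/-- Division by (the image of) an element outside `𝔞`. -/
theorem MemLoc.div_algebraMap {𝔞 : Ideal D} [h𝔞 : 𝔞.IsPrime]
    (hinj : Function.Injective (algebraMap D T)) {x : T} (hx : MemLoc 𝔞 x) {w : D} (hw : w ∉ 𝔞) :
    MemLoc 𝔞 (x / algebraMap D T w) := by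
  obtain ⟨c, u, hu, hcu⟩ := hx
  have hw0 : algebraMap D T w ≠ 0 := by
    intro h0
    apply hw
    have : w = 0 := hinj (by rw [h0, map_zero])
    rw [this]; exact 𝔞.zero_mem
  refine ⟨c, u * w, fun h => (h𝔞.mem_or_mem h).elim hu hw, ?_⟩
  rw [map_mul, ← hcu]
  field_simp

end MemLoc

/-! ### The pole lemma, in the field -/

section Pole

variable {D T k : Type*} [CommRing D] [Field T] [Algebra D T] [CommRing k] [Algebra k T]

/-- **Quotient rule**: if `θ d / θ s̄ ∈ D_𝔞` for all `d ∈ D`, then `θ x / θ s̄ ∈ D_𝔞` for all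
`x ∈ D_𝔞`. -/
theorem memLoc_deriv_div {𝔞 : Ideal D} [h𝔞 : 𝔞.IsPrime]
    (hinj : Function.Injective (algebraMap D T)) (θ : Derivation k T T) (sb : D)
    (hdel : ∀ d : D, MemLoc 𝔞 (θ (algebraMap D T d) / θ (algebraMap D T sb)))
    {x : T} (hx : MemLoc 𝔞 x) : MemLoc 𝔞 (θ x / θ (algebraMap D T sb)) := by
  obtain ⟨c, u, hu, hcu⟩ := hx
  have hu0 : algebraMap D T u ≠ 0 := by
    intro h0
    apply hu
    have : u = 0 := hinj (by rw [h0, map_zero])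
    rw [this]; exact 𝔞.zero_mem
  have hxe : x = algebraMap D T c / algebraMap D T u := by
    rw [eq_div_iff hu0, hcu]
  have hθ : θ x / θ (algebraMap D T sb) =
      (θ (algebraMap D T c) / θ (algebraMap D T sb) -
        x * (θ (algebraMap D T u) / θ (algebraMap D T sb))) / algebraMap D T u := by
    have h1 : θ (algebraMap D T c) = θ x * algebraMap D T u + x * θ (algebraMap D T u) := by
      rw [← hcu, Derivation.leibniz, smul_eq_mul, smul_eq_mul]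
      ring
    rw [h1]
    field_simp
    ring
  rw [hθ]
  exact MemLoc.div_algebraMap hinj
    ((hdel c).sub (MemLoc.mul ⟨c, u, hu, hcu⟩ (hdel u))) hu

/-- **Pole lemma, in the field.**  `d/ds̄ = θ / θ s̄` preserves `D_𝔞`,
`θ δ = θ s̄ * P - ρ̄ ^ (q - 1) * θ ρ̄` and `1 / P ∈ 𝔞 D_𝔞`: then `δ ∉ D_𝔞`. -/
theorem not_memLoc_of_ode {𝔞 : Ideal D} [h𝔞 : 𝔞.IsPrime]
    (hinj : Function.Injective (algebraMap D T)) (θ : Derivation k T T) (sb ρb : D)
    (hθs : θ (algebraMap D T sb) ≠ 0)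
    (hdel : ∀ d : D, MemLoc 𝔞 (θ (algebraMap D T d) / θ (algebraMap D T sb)))
    (δ P : T) (q : ℕ)
    (hode : θ δ = θ (algebraMap D T sb) * P -
      algebraMap D T ρb ^ (q - 1) * θ (algebraMap D T ρb))
    (hP : ∃ a b : D, a ∈ 𝔞 ∧ b ∉ 𝔞 ∧ P * algebraMap D T a = algebraMap D T b) :
    ¬ MemLoc 𝔞 δ := by
  intro hδ
  have h1 := memLoc_deriv_div hinj θ sb hdel hδ
  have h2 : MemLoc 𝔞 (algebraMap D T ρb ^ (q - 1) *
      (θ (algebraMap D T ρb) / θ (algebraMap D T sb))) :=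
    ((memLoc_algebraMap 𝔞 h𝔞.ne_top ρb).pow (q - 1)).mul (hdel ρb)
  have hPe : P = θ δ / θ (algebraMap D T sb) + algebraMap D T ρb ^ (q - 1) *
      (θ (algebraMap D T ρb) / θ (algebraMap D T sb)) := by
    rw [hode]
    field_simp
    ring
  have hPm : MemLoc 𝔞 P := by rw [hPe]; exact h1.add h2
  obtain ⟨c, u, hu, hcu⟩ := hPm
  obtain ⟨a, b, ha, hb, hab⟩ := hP
  have h3 : c * a = u * b := by
    apply hinj
    rw [map_mul, map_mul, ← hcu, ← hab]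
    ring
  have h4 : u * b ∈ 𝔞 := by rw [← h3]; exact 𝔞.mul_mem_left _ ha
  exact (h𝔞.mem_or_mem h4).elim hu hb

/-- **Thickness one, in the field.**  In the situation of `not_memLoc_of_ode`, if
`δ * ȳ = R̄₀` with `ȳ ∈ 𝔞 \ 𝔞 ^ 2` (`D` Dedekind), then `R̄₀ ∉ 𝔞`. -/
theorem not_mem_of_ode [IsDedekindDomain D] {𝔞 : Ideal D} [h𝔞 : 𝔞.IsPrime]
    (hinj : Function.Injective (algebraMap D T)) (θ : Derivation k T T) (sb ρb : D)
    (hθs : θ (algebraMap D T sb) ≠ 0)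
    (hdel : ∀ d : D, MemLoc 𝔞 (θ (algebraMap D T d) / θ (algebraMap D T sb)))
    (δ P : T) (q : ℕ)
    (hode : θ δ = θ (algebraMap D T sb) * P -
      algebraMap D T ρb ^ (q - 1) * θ (algebraMap D T ρb))
    (hP : ∃ a b : D, a ∈ 𝔞 ∧ b ∉ 𝔞 ∧ P * algebraMap D T a = algebraMap D T b)
    {yb Rb : D} (hy : yb ∈ 𝔞) (hy2 : yb ∉ 𝔞 ^ 2)
    (hδ : δ * algebraMap D T yb = algebraMap D T Rb) : Rb ∉ 𝔞 := by
  intro hR
  apply not_memLoc_of_ode hinj θ sb ρb hθs hdel δ P q hode hP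
  obtain ⟨t, ht, htR⟩ := H83.exists_mul_mem_span_of_not_mem_sq h𝔞 hy hy2 hR
  obtain ⟨c, hc⟩ := Ideal.mem_span_singleton'.1 htR
  have hy0 : algebraMap D T yb ≠ 0 := by
    intro h0
    apply hy2
    have : yb = 0 := hinj (by rw [h0, map_zero])
    rw [this]; exact (𝔞 ^ 2).zero_mem
  refine ⟨c, t, ht, ?_⟩
  apply mul_right_cancel₀ hy0
  calc δ * algebraMap D T t * algebraMap D T yb
      = algebraMap D T t * (δ * algebraMap D T yb) := by ring
    _ = algebraMap D T (t * Rb) := by rw [hδ, map_mul]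
    _ = algebraMap D T c * algebraMap D T yb := by rw [← hc, map_mul]

end Pole

/-! ### The Hartogs step -/

section Hartogs

variable {B F D : Type*} [CommRing B] [IsDomain B] [IsNoetherianRing B] [IsIntegrallyClosed B]
  [Field F] [Algebra B F] [IsFractionRing B F] [CommRing D] [IsDomain D]
  {red₁ red₂ : B →+* D} {qB : B}

omit [IsNoetherianRing B] [IsIntegrallyClosed B] in
/-- A height-one prime containing `q` is one of the two vertical primes. -/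
theorem eq_ker_of_height_one
    (hinf : ∀ z : B, red₁ z = 0 → red₂ z = 0 → z ∈ Ideal.span {qB})
    (hk₁ : RingHom.ker red₁ ≠ ⊥) (hk₂ : RingHom.ker red₂ ≠ ⊥)
    (p : Ideal B) [hp : p.IsPrime] (hp1 : p.height = 1) (hqp : qB ∈ p) :
    p = RingHom.ker red₁ ∨ p = RingHom.ker red₂ := by
  have hmul : RingHom.ker red₁ * RingHom.ker red₂ ≤ p := by
    refine Ideal.mul_le.2 fun a ha b hb => ?_
    have : a * b ∈ Ideal.span {qB} :=
      hinf _ (by rw [map_mul, (RingHom.mem_ker).1 ha, zero_mul])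
        (by rw [map_mul, (RingHom.mem_ker).1 hb, mul_zero])
    exact (Ideal.span_singleton_le_iff_mem p).2 hqp this
  have key : ∀ P : Ideal B, P.IsPrime → P ≠ ⊥ → P ≤ p → p = P := by
    intro P hP hP0 hle
    by_contra hne
    have hlt : P < p := lt_of_le_of_ne hle (fun h => hne h.symm)
    have hfin : p.FiniteHeight := by simp [p.finiteHeight_iff, hp1]
    have h1 := Ideal.height_strict_mono_of_isPrime_of_isPrime hlt
    rw [hp1] at h1
    have h0 : P.height = 0 := Order.lt_one_iff.mp h1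
    exact hP0 (Ideal.height_eq_zero_iff_eq_bot.1 h0)
  rcases hp.mul_le.1 hmul with h | h
  · exact Or.inl (key _ (RingHom.ker_isPrime red₁) hk₁ h)
  · exact Or.inr (key _ (RingHom.ker_isPrime red₂) hk₂ h)

/-- **Hartogs step.**  `g ∈ B_{P₁}`, `g ∈ P₂ B_{P₂}` and `g ∈ B_H` for every horizontal height-one
prime `H ≤ n`: then `g = a / b` with `b ∉ n` and `a ∈ P₂`. -/
theorem exists_num_den_of_hartogs
    (hinf : ∀ z : B, red₁ z = 0 → red₂ z = 0 → z ∈ Ideal.span {qB})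
    (hk₁ : RingHom.ker red₁ ≠ ⊥) (hk₂ : RingHom.ker red₂ ≠ ⊥)
    (n : Ideal B) [hn : n.IsPrime] (g : F)
    (hg₁ : ∃ a₁ b₁ : B, red₁ b₁ ≠ 0 ∧ g * algebraMap B F b₁ = algebraMap B F a₁)
    (hg₂ : ∃ a₂ b₂ : B, red₂ b₂ ≠ 0 ∧ red₂ a₂ = 0 ∧ g * algebraMap B F b₂ = algebraMap B F a₂)
    (hgh : ∀ H : Ideal B, H.IsPrime → H.height = 1 → H ≤ n → qB ∉ H → MemAt H g) :
    ∃ a b : B, b ∉ n ∧ red₂ a = 0 ∧ g * algebraMap B F b = algebraMap B F a := by
  obtain ⟨a₂, b₂, hb₂, ha₂, hab₂⟩ := hg₂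
  have hmem : MemAt n g := by
    refine memAt_of_forall_height_one_le n g fun p hp hp1 hle => ?_
    by_cases hqp : qB ∈ p
    · rcases eq_ker_of_height_one hinf hk₁ hk₂ p hp1 hqp with rfl | rfl
      · obtain ⟨a₁, b₁, hb₁, hab₁⟩ := hg₁
        exact ⟨a₁, b₁, fun h => hb₁ ((RingHom.mem_ker).1 h), hab₁⟩
      · exact ⟨a₂, b₂, fun h => hb₂ ((RingHom.mem_ker).1 h), hab₂⟩
    · exact hgh p hp hp1 hle hqp
  obtain ⟨a, b, hb, hab⟩ := hmem
  refine ⟨a, b, hb, ?_, hab⟩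
  have h1 : a * b₂ = a₂ * b := by
    apply IsFractionRing.injective B F
    rw [map_mul, map_mul, ← hab, ← hab₂]
    ring
  have h2 : red₂ a * red₂ b₂ = 0 := by
    rw [← map_mul, h1, map_mul, ha₂, zero_mul]
  exact (mul_eq_zero.1 h2).resolve_right hb₂

end Hartogs

/-! ### The contract -/

section Contract

variable {B F D T k : Type*} [CommRing B] [IsDomain B] [IsNoetherianRing B] [IsIntegrallyClosed B]
  [Field F] [Algebra B F] [IsFractionRing B F] [CommRing D] [IsDedekindDomain D]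
  [Field T] [Algebra D T] [CommRing k] [Algebra k T]
  {red₁ red₂ : B →+* D} {qB : B}

/-- **(M2e) CONTRACT: thickness one at a crossing point by the intrinsic argument (A).**

`B` the (normal, noetherian) chart of level `(L, q)`, `red₁ red₂ : B → D` the two components
(`S34.H83.TwoComponents`), `n` a crossing point with images `𝔞`, `𝔟` in `Spec D`,
`x ∈ P₁`, `y ∈ P₂` restricting to uniformisers on the other component, `x * y = q * R₀`.

* (A-ode)  `δ ∈ T` (`= red₁ (x / q)`) with `δ * red₁ y = red₁ R₀` and the ODE `hode`;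
  `hdel` : `d/ds̄ = θ / θ s̄` preserves `D_𝔞`.
* (A-exp)  `hg₁` : `g = 1 / ω_s` lies in `B_{P₁}` with residue `1 / P`.
* (A-swap) `hg₂` : `g ∈ P₂ B_{P₂}`.
* (A-hor)  `hgh` : `g ∈ B_H` for every height-one prime `H ≤ n` not containing `q`.

Output: `R₀ ∉ n`; `n B_n = (x, y)`; `P₁ B_n = x B_n`; `P₂ B_n = y B_n`. -/
theorem thickness_one_of_intrinsic
    (hinj : Function.Injective (algebraMap D T))
    (hred₁ : Function.Surjective red₁) (hred₂ : Function.Surjective red₂)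
    (hinf : ∀ z : B, red₁ z = 0 → red₂ z = 0 → z ∈ Ideal.span {qB})
    (hq0 : qB ≠ 0) (hq₁ : red₁ qB = 0) (hq₂ : red₂ qB = 0)
    (n : Ideal B) (𝔞 𝔟 : Ideal D) [h𝔞 : 𝔞.IsPrime] [h𝔟 : 𝔟.IsPrime]
    (hn₁ : ∀ z : B, z ∈ n ↔ red₁ z ∈ 𝔞) (hn₂ : ∀ z : B, z ∈ n ↔ red₂ z ∈ 𝔟)
    {x y R₀ : B} (hx₁ : red₁ x = 0) (hx₂ : red₂ x ∈ 𝔟) (hx₂' : red₂ x ∉ 𝔟 ^ 2)
    (hy₂ : red₂ y = 0) (hy₁ : red₁ y ∈ 𝔞) (hy₁' : red₁ y ∉ 𝔞 ^ 2) (hxy : x * y = qB * R₀)
    -- (A-ode)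
    (θ : Derivation k T T) (sb ρb : D) (hθs : θ (algebraMap D T sb) ≠ 0)
    (hdel : ∀ d : D, MemLoc 𝔞 (θ (algebraMap D T d) / θ (algebraMap D T sb)))
    (δ P : T) (q : ℕ) (hδ : δ * algebraMap D T (red₁ y) = algebraMap D T (red₁ R₀))
    (hode : θ δ = θ (algebraMap D T sb) * P -
      algebraMap D T ρb ^ (q - 1) * θ (algebraMap D T ρb))
    -- (A-exp), (A-swap), (A-hor)
    (g : F)
    (hg₁ : ∃ a₁ b₁ : B, red₁ b₁ ≠ 0 ∧ g * algebraMap B F b₁ = algebraMap B F a₁ ∧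
      P * algebraMap D T (red₁ a₁) = algebraMap D T (red₁ b₁))
    (hg₂ : ∃ a₂ b₂ : B, red₂ b₂ ≠ 0 ∧ red₂ a₂ = 0 ∧ g * algebraMap B F b₂ = algebraMap B F a₂)
    (hgh : ∀ H : Ideal B, H.IsPrime → H.height = 1 → H ≤ n → qB ∉ H → MemAt H g) :
    R₀ ∉ n ∧ (∀ z ∈ n, ∃ t : B, t ∉ n ∧ t * z ∈ Ideal.span {x, y}) ∧
      (∀ z : B, red₁ z = 0 → ∃ t : B, t ∉ n ∧ x ∣ t * z) ∧
      (∀ z : B, red₂ z = 0 → ∃ t : B, t ∉ n ∧ y ∣ t * z) := by
  have hnprime : n.IsPrime := by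
    have : n = Ideal.comap red₁ 𝔞 := by
      ext z; rw [Ideal.mem_comap]; exact hn₁ z
    rw [this]; exact Ideal.comap_isPrime red₁ 𝔞
  have hk₁ : RingHom.ker red₁ ≠ ⊥ := fun h => hq0 (by
    have : qB ∈ RingHom.ker red₁ := (RingHom.mem_ker).2 hq₁
    rwa [h, Ideal.mem_bot] at this)
  have hk₂ : RingHom.ker red₂ ≠ ⊥ := fun h => hq0 (by
    have : qB ∈ RingHom.ker red₂ := (RingHom.mem_ker).2 hq₂
    rwa [h, Ideal.mem_bot] at this)
  -- Hartogs: `g = a / b`, `b ∉ n`, `a ∈ P₂`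
  obtain ⟨a₁, b₁, hb₁, hab₁, hPres⟩ := hg₁
  obtain ⟨a, b, hb, ha₂, hab⟩ := exists_num_den_of_hartogs hinf hk₁ hk₂ n g
    ⟨a₁, b₁, hb₁, hab₁⟩ hg₂ hgh
  -- the pole of `P` at `𝔞`
  have hP : ∃ a' b' : D, a' ∈ 𝔞 ∧ b' ∉ 𝔞 ∧ P * algebraMap D T a' = algebraMap D T b' := by
    refine ⟨red₁ a, red₁ b, ?_, fun h => hb ((hn₁ b).2 h), ?_⟩
    · refine (hn₁ a).1 ((hn₂ a).2 ?_)
      rw [ha₂]; exact 𝔟.zero_mem
    · have h1 : a * b₁ = a₁ * b := by
        apply IsFractionRing.injective B F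
        rw [map_mul, map_mul, ← hab, ← hab₁]
        ring
      have h2 : red₁ a * red₁ b₁ = red₁ a₁ * red₁ b := by rw [← map_mul, h1, map_mul]
      have hb₁T : algebraMap D T (red₁ b₁) ≠ 0 := fun h0 => hb₁ (hinj (by rw [h0, map_zero]))
      apply mul_right_cancel₀ hb₁T
      calc P * algebraMap D T (red₁ a) * algebraMap D T (red₁ b₁)
          = P * algebraMap D T (red₁ a * red₁ b₁) := by rw [map_mul]; ring
        _ = P * algebraMap D T (red₁ a₁) * algebraMap D T (red₁ b) := by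
            rw [h2, map_mul]; ring
        _ = algebraMap D T (red₁ b) * algebraMap D T (red₁ b₁) := by rw [hPres]; ring
  -- the ODE: `red₁ R₀ ∉ 𝔞`
  have hR : R₀ ∉ n := fun h =>
    not_mem_of_ode hinj θ sb ρb hθs hdel δ P q hode hP hy₁ hy₁' hδ ((hn₁ R₀).1 h)
  obtain ⟨-, hxn, hyn, hgen⟩ := H83.locGen_node hred₁ hred₂ hinf n 𝔞 𝔟 h𝔞 h𝔟 hn₁ hn₂
    hx₁ hx₂ hx₂' hy₂ hy₁ hy₁'
  have hx0 : x ≠ 0 := by
    rintro rfl
    rw [map_zero] at hx₂'
    exact hx₂' (𝔟 ^ 2).zero_mem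
  have hy0 : y ≠ 0 := by
    rintro rfl
    rw [map_zero] at hy₁'
    exact hy₁' (𝔞 ^ 2).zero_mem
  refine ⟨hR, fun z hz => ?_, fun z hz => ?_, fun z hz => ?_⟩
  · obtain ⟨t, ht, htz⟩ := hgen z hz
    refine ⟨R₀ * t, fun h => (hnprime.mem_or_mem h).elim hR ht, ?_⟩
    rw [Ideal.mem_span_insert] at htz
    obtain ⟨c, w, hw, hcw⟩ := htz
    rw [mul_assoc, hcw, mul_add]
    refine add_mem ?_ (Ideal.mul_mem_left _ _ hw)
    have : R₀ * (c * qB) = c * y * x := by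
      rw [mul_comm c qB, ← mul_assoc, mul_comm R₀ qB, ← hxy]; ring
    rw [this]
    exact Ideal.mul_mem_left _ _ (Ideal.subset_span (by simp))
  · -- `z ∈ P₁`: `z * y ∈ (q)`
    have h1 : z * y ∈ Ideal.span {qB} :=
      hinf _ (by rw [map_mul, hz, zero_mul]) (by rw [map_mul, hy₂, mul_zero])
    obtain ⟨c, hc⟩ := Ideal.mem_span_singleton'.1 h1
    refine ⟨R₀, hR, c, ?_⟩
    apply mul_right_cancel₀ hy0
    calc R₀ * z * y = R₀ * (z * y) := by ring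
      _ = c * (qB * R₀) := by rw [← hc]; ring
      _ = x * c * y := by rw [← hxy]; ring
  · have h1 : x * z ∈ Ideal.span {qB} :=
      hinf _ (by rw [map_mul, hx₁, zero_mul]) (by rw [map_mul, hz, mul_zero])
    obtain ⟨c, hc⟩ := Ideal.mem_span_singleton'.1 h1
    refine ⟨R₀, hR, c, ?_⟩
    apply mul_left_cancel₀ hx0
    calc x * (R₀ * z) = R₀ * (x * z) := by ring
      _ = c * (qB * R₀) := by rw [← hc]; ring
      _ = x * (y * c) := by rw [← hxy]; ring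

/-- **(M2e) CONTRACT, shape (U) of (E4)**: the local ring of `B` at the crossing point `n` is a
unique factorisation domain (regular of dimension two, `𝔪 = (x, y)`). -/
theorem ufm_of_intrinsic
    (hinj : Function.Injective (algebraMap D T))
    (hred₁ : Function.Surjective red₁) (hred₂ : Function.Surjective red₂)
    (hinf : ∀ z : B, red₁ z = 0 → red₂ z = 0 → z ∈ Ideal.span {qB})
    (hq0 : qB ≠ 0) (hq₁ : red₁ qB = 0) (hq₂ : red₂ qB = 0)
    (n : Ideal B) [hnmax : n.IsMaximal] (𝔞 𝔟 : Ideal D) [h𝔞 : 𝔞.IsPrime] [h𝔟 : 𝔟.IsPrime]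
    (hn₁ : ∀ z : B, z ∈ n ↔ red₁ z ∈ 𝔞) (hn₂ : ∀ z : B, z ∈ n ↔ red₂ z ∈ 𝔟)
    {x y R₀ : B} (hx₁ : red₁ x = 0) (hx₂ : red₂ x ∈ 𝔟) (hx₂' : red₂ x ∉ 𝔟 ^ 2)
    (hy₂ : red₂ y = 0) (hy₁ : red₁ y ∈ 𝔞) (hy₁' : red₁ y ∉ 𝔞 ^ 2) (hxy : x * y = qB * R₀)
    (θ : Derivation k T T) (sb ρb : D) (hθs : θ (algebraMap D T sb) ≠ 0)
    (hdel : ∀ d : D, MemLoc 𝔞 (θ (algebraMap D T d) / θ (algebraMap D T sb)))
    (δ P : T) (q : ℕ) (hδ : δ * algebraMap D T (red₁ y) = algebraMap D T (red₁ R₀))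
    (hode : θ δ = θ (algebraMap D T sb) * P -
      algebraMap D T ρb ^ (q - 1) * θ (algebraMap D T ρb))
    (g : F)
    (hg₁ : ∃ a₁ b₁ : B, red₁ b₁ ≠ 0 ∧ g * algebraMap B F b₁ = algebraMap B F a₁ ∧
      P * algebraMap D T (red₁ a₁) = algebraMap D T (red₁ b₁))
    (hg₂ : ∃ a₂ b₂ : B, red₂ b₂ ≠ 0 ∧ red₂ a₂ = 0 ∧ g * algebraMap B F b₂ = algebraMap B F a₂)
    (hgh : ∀ H : Ideal B, H.IsPrime → H.height = 1 → H ≤ n → qB ∉ H → MemAt H g) :
    UniqueFactorizationMonoid (Localization.AtPrime n) := by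
  obtain ⟨-, hgen, -, -⟩ := thickness_one_of_intrinsic hinj hred₁ hred₂ hinf hq0 hq₁ hq₂ n 𝔞 𝔟
    hn₁ hn₂ hx₁ hx₂ hx₂' hy₂ hy₁ hy₁' hxy θ sb ρb hθs hdel δ P q hδ hode g hg₁ hg₂ hgh
  set O := Localization.AtPrime n
  have hxn : x ∈ n := (hn₂ x).2 hx₂
  have hyn : y ∈ n := (hn₁ y).2 hy₁
  have hOinj : Function.Injective (algebraMap B O) :=
    IsLocalization.injective O n.primeCompl_le_nonZeroDivisors
  have hm : IsLocalRing.maximalIdeal O = Ideal.span {algebraMap B O x, algebraMap B O y} := by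
    apply le_antisymm
    · have := H83.maximalIdeal_le_span_image_of_locGen n O hgen
      rwa [show algebraMap B O '' {x, y} = {algebraMap B O x, algebraMap B O y} by
        simp [Set.image_insert_eq]] at this
    · rw [Ideal.span_le]
      rintro z (rfl | rfl)
      · rw [← IsLocalization.AtPrime.map_eq_maximalIdeal n O]
        exact Ideal.mem_map_of_mem _ hxn
      · rw [← IsLocalization.AtPrime.map_eq_maximalIdeal n O]
        exact Ideal.mem_map_of_mem _ hyn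
  have hx0 : algebraMap B O x ≠ 0 := by
    intro h0
    have : x = 0 := hOinj (by rw [h0, map_zero])
    rw [this, map_zero] at hx₂'
    exact hx₂' (𝔟 ^ 2).zero_mem
  have hkprime : (RingHom.ker red₁).IsPrime := RingHom.ker_isPrime red₁
  have hdisj : Disjoint (n.primeCompl : Set B) (RingHom.ker red₁ : Set B) := by
    rw [Set.disjoint_left]
    intro z hz hzk
    apply hz
    refine (hn₁ z).2 ?_
    rw [(RingHom.mem_ker).1 hzk]
    exact 𝔞.zero_mem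
  have : (Ideal.map (algebraMap B O) (RingHom.ker red₁)).IsPrime :=
    IsLocalization.isPrime_of_isPrime_disjoint n.primeCompl O _ hkprime hdisj
  refine H62.uniqueFactorizationMonoid_of_pair (algebraMap B O x) (algebraMap B O y) hm hx0
    (Ideal.map (algebraMap B O) (RingHom.ker red₁))
    (Ideal.mem_map_of_mem _ ((RingHom.mem_ker).2 hx₁)) ?_
  intro hy
  have h1 : y ∈ (Ideal.map (algebraMap B O) (RingHom.ker red₁)).under B := hy
  rw [IsLocalization.under_map_of_isPrime_disjoint n.primeCompl O hkprime hdisj] at h1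
  rw [(RingHom.mem_ker).1 h1] at hy₁'
  exact hy₁' (𝔞 ^ 2).zero_mem

end Contract

end Fermat.Agent.S36.H54
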