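import Mathlib
import Fermat.Agent.S36.H54_M2eContract

/-!
# S36 / (M2e), helper54: CONTRACT v2 (primary route of ruling 4: helper62's `Ω`-route, no `ω_s`)

The pole of `P_s = W(θ s̄) / θ s̄` at `𝔞` is read off from three identities in the field `T`
(`= kA((t))`), with `Θ := θ s̄`:

* `(I1a)`  `Θ ^ 6 * ad = Δ̄ * an`, `ad ∉ 𝔞`      (`A_s = an / ad` is regular at `𝔞`),
* `(I1b)`  `Θ ^ 6 * bd = Δ̄ * bn`, `bn ∉ 𝔟`      (`1 / A_s = bd / bn` is regular at `𝔟`),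
* `(I3)`   `W_T Δ̄ * ω̄ = Δ̄`, `ω̄ = red₁ Ω ∈ 𝔞`       (`Ω = Δ(t) / Δ(t^q)` vanishes on `P₂ ⊆ n`),

which give `P ^ 6 * (ω̄ * W bd * an) = W bn * ad` (`pow_six_mul_eq`): `1 / P ^ 6 ∈ 𝔞 D_𝔞`.

The contract is cut in two independent halves:

* `(C1) not_mem_of_identities` : PURE `D`/`T`-LEVEL (no chart ring): `R̄₀ ∉ 𝔞`;
* `(C2) thickness_one_of_not_mem`, `ufm_of_not_mem` : CHART LEVEL, for ANY two-component package
  (`red₁ red₂ : B → D`, `hinf`) and any `x y R₀` with `x * y = qB * R₀`, `red₁ R₀ ∉ 𝔞`.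

So (C1) can be run with the `t`-expansions of the unramified level (`A₁ = A0 A ℓ`) and (C2) with
the `cutOver A E`-charts (same branch ring `D`).
-/

set_option autoImplicit false

namespace Fermat.Agent.S36.H54

open Fermat.Agent.S34 Fermat.Agent.S34.H56

/-! ### The pole lemma with a power of `P` -/

section PolePow

variable {D T k : Type*} [CommRing D] [Field T] [Algebra D T] [CommRing k] [Algebra k T]

/-- **Pole lemma, power form.**  As `not_memLoc_of_ode`, but only `1 / P ^ m ∈ 𝔞 D_𝔞` is known. -/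
theorem not_memLoc_of_ode_pow {𝔞 : Ideal D} [h𝔞 : 𝔞.IsPrime]
    (hinj : Function.Injective (algebraMap D T)) (θ : Derivation k T T) (sb ρb : D)
    (hθs : θ (algebraMap D T sb) ≠ 0)
    (hdel : ∀ d : D, MemLoc 𝔞 (θ (algebraMap D T d) / θ (algebraMap D T sb)))
    (δ P : T) (q : ℕ)
    (hode : θ δ = θ (algebraMap D T sb) * P -
      algebraMap D T ρb ^ (q - 1) * θ (algebraMap D T ρb))
    (hP : ∃ (m : ℕ) (a b : D), a ∈ 𝔞 ∧ b ∉ 𝔞 ∧ P ^ m * algebraMap D T a = algebraMap D T b) :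
    ¬ MemLoc 𝔞 δ := by
  intro hδ
  have h1 := memLoc_deriv_div hinj θ sb hdel hδ
  have h2 : MemLoc 𝔞 (algebraMap D T ρb ^ (q - 1) *
      (θ (algebraMap D T ρb) / θ (algebraMap D T sb))) :=
    ((memLoc_algebraMap 𝔞 h𝔞.ne_top ρb).pow (q - 1)).mul (hdel ρb)
  have hPe : P = θ δ / θ (algebraMap D T sb) + algebraMap D T ρb ^ (q - 1) *
      (θ (algebraMap D T ρb) / θ (algebraMap D T sb)) := by
    rw [hode]
    field_simp
    ring
  have hPm : MemLoc 𝔞 P := by rw [hPe]; exact h1.add h2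
  obtain ⟨m, a, b, ha, hb, hab⟩ := hP
  obtain ⟨c, u, hu, hcu⟩ := hPm.pow m
  have h3 : c * a = u * b := by
    apply hinj
    rw [map_mul, map_mul, ← hcu, ← hab]
    ring
  have h4 : u * b ∈ 𝔞 := by rw [← h3]; exact 𝔞.mul_mem_left _ ha
  exact (h𝔞.mem_or_mem h4).elim hu hb

/-- **Thickness one, in the field, power form.** -/
theorem not_mem_of_ode_pow [IsDedekindDomain D] {𝔞 : Ideal D} [h𝔞 : 𝔞.IsPrime]
    (hinj : Function.Injective (algebraMap D T)) (θ : Derivation k T T) (sb ρb : D)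
    (hθs : θ (algebraMap D T sb) ≠ 0)
    (hdel : ∀ d : D, MemLoc 𝔞 (θ (algebraMap D T d) / θ (algebraMap D T sb)))
    (δ P : T) (q : ℕ)
    (hode : θ δ = θ (algebraMap D T sb) * P -
      algebraMap D T ρb ^ (q - 1) * θ (algebraMap D T ρb))
    (hP : ∃ (m : ℕ) (a b : D), a ∈ 𝔞 ∧ b ∉ 𝔞 ∧ P ^ m * algebraMap D T a = algebraMap D T b)
    {yb Rb : D} (hy : yb ∈ 𝔞) (hy2 : yb ∉ 𝔞 ^ 2)
    (hδ : δ * algebraMap D T yb = algebraMap D T Rb) : Rb ∉ 𝔞 := by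
  intro hR
  apply not_memLoc_of_ode_pow hinj θ sb ρb hθs hdel δ P q hode hP
  obtain ⟨t, ht, htR⟩ := H83.exists_mul_mem_span_of_not_mem_sq h𝔞 hy hy2 hR
  obtain ⟨c, hc⟩ := Ideal.mem_span_singleton'.1 htR
  have hy0 : algebraMap D T yb ≠ 0 := by
    intro h0
    apply hy2
    have : yb = 0 := hinj (by rw [h0, map_zero])
    rw [this]; exact (𝔞 ^ 2).zero_mem
  refine ⟨c, t, ht, ?_⟩
  apply mul_right_cancel₀ hy0
  calc δ * algebraMap D T t * algebraMap D T yb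
      = algebraMap D T t * (δ * algebraMap D T yb) := by ring
    _ = algebraMap D T (t * Rb) := by rw [hδ, map_mul]
    _ = algebraMap D T c * algebraMap D T yb := by rw [← hc, map_mul]

end PolePow

/-! ### The identities of the `Ω`-route -/

section Identities

variable {D T : Type*} [CommRing D] [Field T] [Algebra D T]

/-- **`P ^ 6 * (ω̄ * W bd * an) = W bn * ad`** from `(I1a)`, `(I1b)`, `(I3)` (no membership
hypotheses: also gives `P_s` unit at a non-crossing point, where `ω̄ ∉ 𝔞`). -/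
theorem pow_six_mul_eq (W : D →+* D) (W_T : T →+* T)
    (hWT : ∀ d : D, W_T (algebraMap D T d) = algebraMap D T (W d))
    {Θ P Δb : T} (hΘ : Θ ≠ 0) (hPdef : P * Θ = W_T Θ)
    {an ad bn bd ω : D}
    (hIa : Θ ^ 6 * algebraMap D T ad = Δb * algebraMap D T an)
    (hIb : Θ ^ 6 * algebraMap D T bd = Δb * algebraMap D T bn)
    (hIΩ : W_T Δb * algebraMap D T ω = Δb) :
    P ^ 6 * algebraMap D T (ω * W bd * an) = algebraMap D T (W bn * ad) := by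
  have hIb' : W_T Θ ^ 6 * algebraMap D T (W bd) = W_T Δb * algebraMap D T (W bn) := by
    have := congrArg W_T hIb
    rwa [map_mul, map_mul, map_pow, hWT, hWT] at this
  have hΘ6 : Θ ^ 6 ≠ 0 := pow_ne_zero 6 hΘ
  apply mul_left_cancel₀ hΘ6
  calc Θ ^ 6 * (P ^ 6 * algebraMap D T (ω * W bd * an))
      = (P * Θ) ^ 6 * algebraMap D T (W bd) * (algebraMap D T ω * algebraMap D T an) := by
        rw [map_mul, map_mul]; ring
    _ = W_T Δb * algebraMap D T (W bn) * (algebraMap D T ω * algebraMap D T an) := by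
        rw [hPdef, hIb']
    _ = (W_T Δb * algebraMap D T ω) * algebraMap D T an * algebraMap D T (W bn) := by ring
    _ = Θ ^ 6 * algebraMap D T ad * algebraMap D T (W bn) := by rw [hIΩ, ← hIa]
    _ = Θ ^ 6 * algebraMap D T (W bn * ad) := by rw [map_mul]; ring

/-- The pole of `P` at `𝔞`, power form, from the identities. -/
theorem exists_pow_pole_of_identities (W : D →+* D) (W_T : T →+* T)
    (hWT : ∀ d : D, W_T (algebraMap D T d) = algebraMap D T (W d))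
    {𝔞 𝔟 : Ideal D} [h𝔞 : 𝔞.IsPrime] (hW𝔞 : ∀ d : D, W d ∈ 𝔞 → d ∈ 𝔟)
    {Θ P Δb : T} (hΘ : Θ ≠ 0) (hPdef : P * Θ = W_T Θ)
    {an ad bn bd ω : D} (had : ad ∉ 𝔞) (hbn : bn ∉ 𝔟) (hω : ω ∈ 𝔞)
    (hIa : Θ ^ 6 * algebraMap D T ad = Δb * algebraMap D T an)
    (hIb : Θ ^ 6 * algebraMap D T bd = Δb * algebraMap D T bn)
    (hIΩ : W_T Δb * algebraMap D T ω = Δb) :
    ∃ (m : ℕ) (a b : D), a ∈ 𝔞 ∧ b ∉ 𝔞 ∧ P ^ m * algebraMap D T a = algebraMap D T b := by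
  refine ⟨6, ω * W bd * an, W bn * ad, ?_, ?_, pow_six_mul_eq W W_T hWT hΘ hPdef hIa hIb hIΩ⟩
  · exact 𝔞.mul_mem_right _ (𝔞.mul_mem_right _ hω)
  · intro h
    rcases h𝔞.mem_or_mem h with h | h
    · exact hbn (hW𝔞 _ h)
    · exact had h

end Identities

/-! ### (C1): the `D`/`T`-level half of the contract -/

section C1

variable {D T k : Type*} [CommRing D] [IsDedekindDomain D] [Field T] [Algebra D T]
  [CommRing k] [Algebra k T]

/-- **(M2e) CONTRACT v2, half (C1)** (no chart ring).  `D` the branch ring, `T ⊇ D` a field with a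
derivation `θ` and an endomorphism `W_T` extending `W`, `𝔞`, `𝔟` the two points under the crossing
point, `sb = s̄`, `ρb = ρ s̄`, `P = W_T (θ s̄) / θ s̄`.

* (A-ode)  `δ`, `hδ : δ * ȳ = R̄₀`, `hode`;  `hdel` : `d/ds̄` preserves `D_𝔞`;
* (A-As) + (A-exp-As)  `hIa`, `hIb` : `(θ s̄) ^ 6 = Δ̄ * A_s` with `A_s` regular at `𝔞` and
  `1 / A_s` regular at `𝔟` (e.g. `A_s` a unit at both);
* (A-Om)  `hIΩ` : `W_T Δ̄ * ω̄ = Δ̄`, `ω̄ = red₁ Ω ∈ 𝔞`.

Output: `R̄₀ ∉ 𝔞`. -/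
theorem not_mem_of_identities
    (hinj : Function.Injective (algebraMap D T))
    (W : D →+* D) (W_T : T →+* T)
    (hWT : ∀ d : D, W_T (algebraMap D T d) = algebraMap D T (W d))
    {𝔞 𝔟 : Ideal D} [h𝔞 : 𝔞.IsPrime] (hW𝔞 : ∀ d : D, W d ∈ 𝔞 → d ∈ 𝔟)
    (θ : Derivation k T T) (sb ρb : D) (hθs : θ (algebraMap D T sb) ≠ 0)
    (hdel : ∀ d : D, MemLoc 𝔞 (θ (algebraMap D T d) / θ (algebraMap D T sb)))
    (δ P : T) (q : ℕ)
    (hPdef : P * θ (algebraMap D T sb) = W_T (θ (algebraMap D T sb)))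
    (hode : θ δ = θ (algebraMap D T sb) * P -
      algebraMap D T ρb ^ (q - 1) * θ (algebraMap D T ρb))
    {yb Rb : D} (hy : yb ∈ 𝔞) (hy2 : yb ∉ 𝔞 ^ 2)
    (hδ : δ * algebraMap D T yb = algebraMap D T Rb)
    {Δb : T} {an ad bn bd ω : D} (had : ad ∉ 𝔞) (hbn : bn ∉ 𝔟) (hω : ω ∈ 𝔞)
    (hIa : θ (algebraMap D T sb) ^ 6 * algebraMap D T ad = Δb * algebraMap D T an)
    (hIb : θ (algebraMap D T sb) ^ 6 * algebraMap D T bd = Δb * algebraMap D T bn)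
    (hIΩ : W_T Δb * algebraMap D T ω = Δb) :
    Rb ∉ 𝔞 :=
  not_mem_of_ode_pow hinj θ sb ρb hθs hdel δ P q hode
    (exists_pow_pole_of_identities W W_T hWT hW𝔞 hθs hPdef had hbn hω hIa hIb hIΩ)
    hy hy2 hδ

end C1

/-! ### (C2): the chart-level half of the contract -/

section C2

variable {B D : Type*} [CommRing B] [IsDomain B] [CommRing D] [IsDedekindDomain D]
  {red₁ red₂ : B →+* D} {qB : B}

omit [IsDomain B] [IsDedekindDomain D] in
/-- `W d ∈ 𝔞 → d ∈ 𝔟` from the two-component relations (`b = W⁻¹ a`). -/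
theorem mem_of_W_mem {BM : Type*} [CommRing BM] {V : BM →+* B} {rbar : BM →+* D} {W : D →+* D}
    (h1V : ∀ ψ, red₁ (V ψ) = W (rbar ψ)) (h2V : ∀ ψ, red₂ (V ψ) = rbar ψ)
    (hrbar : Function.Surjective rbar) {n : Ideal B} {𝔞 𝔟 : Ideal D}
    (hn₁ : ∀ z : B, z ∈ n ↔ red₁ z ∈ 𝔞) (hn₂ : ∀ z : B, z ∈ n ↔ red₂ z ∈ 𝔟)
    (d : D) (hd : W d ∈ 𝔞) : d ∈ 𝔟 := by
  obtain ⟨ψ, rfl⟩ := hrbar d
  have h1 : V ψ ∈ n := (hn₁ _).2 (by rw [h1V]; exact hd)
  have h2 := (hn₂ _).1 h1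
  rwa [h2V] at h2

/-- **(M2e) CONTRACT v2, half (C2)**: `x * y = q * R₀` with `red₁ R₀ ∉ 𝔞` at a crossing point:
`n B_n = (x, y)`, `P₁ B_n = x B_n`, `P₂ B_n = y B_n`. -/
theorem thickness_one_of_not_mem
    (hred₁ : Function.Surjective red₁) (hred₂ : Function.Surjective red₂)
    (hinf : ∀ z : B, red₁ z = 0 → red₂ z = 0 → z ∈ Ideal.span {qB})
    (n : Ideal B) (𝔞 𝔟 : Ideal D) [h𝔞 : 𝔞.IsPrime] [h𝔟 : 𝔟.IsPrime]
    (hn₁ : ∀ z : B, z ∈ n ↔ red₁ z ∈ 𝔞) (hn₂ : ∀ z : B, z ∈ n ↔ red₂ z ∈ 𝔟)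
    {x y R₀ : B} (hx₁ : red₁ x = 0) (hx₂ : red₂ x ∈ 𝔟) (hx₂' : red₂ x ∉ 𝔟 ^ 2)
    (hy₂ : red₂ y = 0) (hy₁ : red₁ y ∈ 𝔞) (hy₁' : red₁ y ∉ 𝔞 ^ 2) (hxy : x * y = qB * R₀)
    (hR₀ : red₁ R₀ ∉ 𝔞) :
    R₀ ∉ n ∧ (∀ z ∈ n, ∃ t : B, t ∉ n ∧ t * z ∈ Ideal.span {x, y}) ∧
      (∀ z : B, red₁ z = 0 → ∃ t : B, t ∉ n ∧ x ∣ t * z) ∧
      (∀ z : B, red₂ z = 0 → ∃ t : B, t ∉ n ∧ y ∣ t * z) := by
  have hnprime : n.IsPrime := by
    have : n = Ideal.comap red₁ 𝔞 := by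
      ext z; rw [Ideal.mem_comap]; exact hn₁ z
    rw [this]; exact Ideal.comap_isPrime red₁ 𝔞
  have hR : R₀ ∉ n := fun h => hR₀ ((hn₁ R₀).1 h)
  obtain ⟨-, hxn, hyn, hgen⟩ := H83.locGen_node hred₁ hred₂ hinf n 𝔞 𝔟 h𝔞 h𝔟 hn₁ hn₂
    hx₁ hx₂ hx₂' hy₂ hy₁ hy₁'
  have hx0 : x ≠ 0 := by
    rintro rfl
    rw [map_zero] at hx₂'
    exact hx₂' (𝔟 ^ 2).zero_mem
  have hy0 : y ≠ 0 := by
    rintro rfl
    rw [map_zero] at hy₁'
    exact hy₁' (𝔞 ^ 2).zero_mem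
  refine ⟨hR, fun z hz => ?_, fun z hz => ?_, fun z hz => ?_⟩
  · obtain ⟨t, ht, htz⟩ := hgen z hz
    refine ⟨R₀ * t, fun h => (hnprime.mem_or_mem h).elim hR ht, ?_⟩
    rw [Ideal.mem_span_insert] at htz
    obtain ⟨c, w, hw, hcw⟩ := htz
    rw [mul_assoc, hcw, mul_add]
    refine add_mem ?_ (Ideal.mul_mem_left _ _ hw)
    have : R₀ * (c * qB) = c * y * x := by
      rw [mul_comm c qB, ← mul_assoc, mul_comm R₀ qB, ← hxy]; ring
    rw [this]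
    exact Ideal.mul_mem_left _ _ (Ideal.subset_span (by simp))
  · have h1 : z * y ∈ Ideal.span {qB} :=
      hinf _ (by rw [map_mul, hz, zero_mul]) (by rw [map_mul, hy₂, mul_zero])
    obtain ⟨c, hc⟩ := Ideal.mem_span_singleton'.1 h1
    refine ⟨R₀, hR, c, ?_⟩
    apply mul_right_cancel₀ hy0
    calc R₀ * z * y = R₀ * (z * y) := by ring
      _ = c * (qB * R₀) := by rw [← hc]; ring
      _ = x * c * y := by rw [← hxy]; ring
  · have h1 : x * z ∈ Ideal.span {qB} :=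
      hinf _ (by rw [map_mul, hx₁, zero_mul]) (by rw [map_mul, hz, mul_zero])
    obtain ⟨c, hc⟩ := Ideal.mem_span_singleton'.1 h1
    refine ⟨R₀, hR, c, ?_⟩
    apply mul_left_cancel₀ hx0
    calc x * (R₀ * z) = R₀ * (x * z) := by ring
      _ = c * (qB * R₀) := by rw [← hc]; ring
      _ = x * (y * c) := by rw [← hxy]; ring

/-- **(M2e) CONTRACT v2, half (C2), shape (U) of (E4).** -/
theorem ufm_of_not_mem [IsNoetherianRing B]
    (hred₁ : Function.Surjective red₁) (hred₂ : Function.Surjective red₂)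
    (hinf : ∀ z : B, red₁ z = 0 → red₂ z = 0 → z ∈ Ideal.span {qB})
    (n : Ideal B) [hnmax : n.IsMaximal] (𝔞 𝔟 : Ideal D) [h𝔞 : 𝔞.IsPrime] [h𝔟 : 𝔟.IsPrime]
    (hn₁ : ∀ z : B, z ∈ n ↔ red₁ z ∈ 𝔞) (hn₂ : ∀ z : B, z ∈ n ↔ red₂ z ∈ 𝔟)
    {x y R₀ : B} (hx₁ : red₁ x = 0) (hx₂ : red₂ x ∈ 𝔟) (hx₂' : red₂ x ∉ 𝔟 ^ 2)
    (hy₂ : red₂ y = 0) (hy₁ : red₁ y ∈ 𝔞) (hy₁' : red₁ y ∉ 𝔞 ^ 2) (hxy : x * y = qB * R₀)
    (hR₀ : red₁ R₀ ∉ 𝔞) :
    UniqueFactorizationMonoid (Localization.AtPrime n) := by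
  obtain ⟨-, hgen, -, -⟩ := thickness_one_of_not_mem hred₁ hred₂ hinf n 𝔞 𝔟 hn₁ hn₂
    hx₁ hx₂ hx₂' hy₂ hy₁ hy₁' hxy hR₀
  set O := Localization.AtPrime n
  have hxn : x ∈ n := (hn₂ x).2 hx₂
  have hyn : y ∈ n := (hn₁ y).2 hy₁
  have hOinj : Function.Injective (algebraMap B O) :=
    IsLocalization.injective O n.primeCompl_le_nonZeroDivisors
  have hm : IsLocalRing.maximalIdeal O = Ideal.span {algebraMap B O x, algebraMap B O y} := by
    apply le_antisymm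
    · have := H83.maximalIdeal_le_span_image_of_locGen n O hgen
      rwa [show algebraMap B O '' {x, y} = {algebraMap B O x, algebraMap B O y} by
        simp [Set.image_insert_eq]] at this
    · rw [Ideal.span_le]
      rintro z (rfl | rfl)
      · rw [← IsLocalization.AtPrime.map_eq_maximalIdeal n O]
        exact Ideal.mem_map_of_mem _ hxn
      · rw [← IsLocalization.AtPrime.map_eq_maximalIdeal n O]
        exact Ideal.mem_map_of_mem _ hyn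
  have hx0 : algebraMap B O x ≠ 0 := by
    intro h0
    have : x = 0 := hOinj (by rw [h0, map_zero])
    rw [this, map_zero] at hx₂'
    exact hx₂' (𝔟 ^ 2).zero_mem
  have hkprime : (RingHom.ker red₁).IsPrime := RingHom.ker_isPrime red₁
  have hdisj : Disjoint (n.primeCompl : Set B) (RingHom.ker red₁ : Set B) := by
    rw [Set.disjoint_left]
    intro z hz hzk
    apply hz
    refine (hn₁ z).2 ?_
    rw [(RingHom.mem_ker).1 hzk]
    exact 𝔞.zero_mem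
  have : (Ideal.map (algebraMap B O) (RingHom.ker red₁)).IsPrime :=
    IsLocalization.isPrime_of_isPrime_disjoint n.primeCompl O _ hkprime hdisj
  refine H62.uniqueFactorizationMonoid_of_pair (algebraMap B O x) (algebraMap B O y) hm hx0
    (Ideal.map (algebraMap B O) (RingHom.ker red₁))
    (Ideal.mem_map_of_mem _ ((RingHom.mem_ker).2 hx₁)) ?_
  intro hy
  have h1 : y ∈ (Ideal.map (algebraMap B O) (RingHom.ker red₁)).under B := hy
  rw [IsLocalization.under_map_of_isPrime_disjoint n.primeCompl O hkprime hdisj] at h1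
  rw [(RingHom.mem_ker).1 h1] at hy₁'
  exact hy₁' (𝔞 ^ 2).zero_mem

end C2

end Fermat.Agent.S36.H54
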