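import Mathlib
import Fermat.Agent.S34.H83_L0Target
import Fermat.Agent.S36.H54_M2eContract2

/-!
# S36 / (M2e), helper54: the assembly at the `TwoComponents` level

`h : S34.H83.TwoComponents red₁ red₂ ι V rbar W q qB` (the level-`(M, q)` chart over the
unramified base), `T ⊇ D` a field with a derivation `θ` and an endomorphism `W_T` extending `W`
(`T = kA((t))`, `θ = t d/dt`, `W_T f = f(t^q)`).  The four real-types inputs of the `Ω`-route are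
taken as hypotheses, in their FINAL shapes:

* `Hdel` : for every point `𝔞` and every uniformiser `s̄` at `𝔞`: `θ s̄ ≠ 0` and `θ / θ s̄`
  preserves `D_𝔞`;
* `Hode` : for `s s₁ : BM` with `(rbar s₁) ^ q = W (rbar s)` and `(V s - (ι s₁) ^ q) * y = q * R₀`:
  a `δ : T` with `δ * red₁ y = red₁ R₀` and `θ δ = W_T (θ s̄) - ρ̄ ^ (q - 1) * θ ρ̄`;
* `HAs` : for every non-cuspidal point `𝔠` and every uniformiser `s̄` at `𝔠`: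
  `(θ s̄) ^ 6 * cd = Δ̄ * cn` with `cn, cd ∉ 𝔠`;
* `HOm` : `Ω : B` with `red₂ Ω = 0` and `W_T Δ̄ * red₁ Ω = Δ̄`.

Output (`exists_pair_of_crossing`): at every crossing point `n` (not at a cusp) elements
`x ∈ P₁`, `y ∈ P₂` restricting to uniformisers on the other branch, with `x * y = q * R₀`,
`red₁ R₀ ∉ 𝔞`.  `regular_of_transfer` carries this to any other two-component package with the
same branch ring `D` receiving the chart (`φ : B →+* B''`, e.g. the `cutOver A E`-chart) and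
concludes in the shape `S36.H62.RegularCrossings` / `S36.H84.NodeGen` (unfolded).
-/

set_option autoImplicit false

namespace Fermat.Agent.S36.H54

open Fermat.Agent.S34 Fermat.Agent.S34.H83

/-! ### A common uniformiser at two points of a Dedekind domain -/

section CRT

variable {D : Type*} [CommRing D] [IsDedekindDomain D]

/-- An element which is a uniformiser at two (possibly equal) maximal ideals. -/
theorem exists_mem_not_mem_sq_pair (𝔞 𝔟 : Ideal D) [h𝔞 : 𝔞.IsMaximal] [h𝔟 : 𝔟.IsMaximal]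
    (h𝔞0 : 𝔞 ≠ ⊥) (h𝔟0 : 𝔟 ≠ ⊥) :
    ∃ s : D, s ∈ 𝔞 ∧ s ∉ 𝔞 ^ 2 ∧ s ∈ 𝔟 ∧ s ∉ 𝔟 ^ 2 := by
  obtain ⟨a, ha, ha2⟩ := exists_mem_not_mem_sq h𝔞.isPrime h𝔞0
  by_cases hab : 𝔞 = 𝔟
  · subst hab
    exact ⟨a, ha, ha2, ha, ha2⟩
  obtain ⟨b, hb, hb2⟩ := exists_mem_not_mem_sq h𝔟.isPrime h𝔟0
  have hsup : 𝔞 ⊔ 𝔟 = ⊤ := Ideal.IsMaximal.coprime_of_ne h𝔞 h𝔟 hab
  have hsup2 : 𝔞 ^ 2 ⊔ 𝔟 ^ 2 = ⊤ := Ideal.pow_sup_pow_eq_top hsup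
  obtain ⟨u, hu, v, hv, huv⟩ := Submodule.mem_sup.1
    (by rw [hsup2]; exact Submodule.mem_top : (1 : D) ∈ 𝔞 ^ 2 ⊔ 𝔟 ^ 2)
  have h𝔞2 : 𝔞 ^ 2 ≤ 𝔞 := Ideal.pow_le_self (by norm_num)
  have h𝔟2 : 𝔟 ^ 2 ≤ 𝔟 := Ideal.pow_le_self (by norm_num)
  have e1 : a * v + b * u - a = (b - a) * u := by
    have : v = 1 - u := by rw [← huv]; ring
    rw [this]; ring
  have e2 : a * v + b * u - b = (a - b) * v := by
    have : u = 1 - v := by rw [← huv]; ring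
    rw [this]; ring
  have m1 : a * v + b * u - a ∈ 𝔞 ^ 2 := by rw [e1]; exact Ideal.mul_mem_left _ _ hu
  have m2 : a * v + b * u - b ∈ 𝔟 ^ 2 := by rw [e2]; exact Ideal.mul_mem_left _ _ hv
  refine ⟨a * v + b * u, ?_, ?_, ?_, ?_⟩
  · have := 𝔞.add_mem (h𝔞2 m1) ha
    simpa using this
  · intro hmem
    apply ha2
    have := (𝔞 ^ 2).sub_mem hmem m1
    simpa using this
  · have := 𝔟.add_mem (h𝔟2 m2) hb
    simpa using this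
  · intro hmem
    apply hb2
    have := (𝔟 ^ 2).sub_mem hmem m2
    simpa using this

end CRT

/-! ### The core: the pair `(x, y)` at a crossing point -/

section Core

variable {B D BM T k : Type*} [CommRing B] [IsDomain B] [CommRing D] [IsDedekindDomain D]
  [CommRing BM] [Field T] [Algebra D T] [CommRing k] [Algebra k T]
  {red₁ red₂ : B →+* D} {ι V : BM →+* B} {rbar : BM →+* D} {W : D →+* D} {q : ℕ} {qB : B}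

omit [IsDomain B] in
/-- **(M2e) at the `TwoComponents` level, core.**  At a crossing point `n` (with images `𝔞`, `𝔟`,
not at a cusp) there are `x ∈ P₁`, `y ∈ P₂` restricting to uniformisers of the other branch with
`x * y = q * R₀` and `red₁ R₀ ∉ 𝔞`. -/
theorem exists_pair_of_crossing
    (h : TwoComponents red₁ red₂ ι V rbar W q qB) (hq : 2 ≤ q)
    (hinj : Function.Injective (algebraMap D T))
    (W_T : T →+* T) (hWT : ∀ d : D, W_T (algebraMap D T d) = algebraMap D T (W d))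
    (θ : Derivation k T T) (Δb : T) (ψ₀ : BM)
    (Hdel : ∀ (𝔠 : Ideal D), 𝔠.IsMaximal → ∀ sb : D, sb ∈ 𝔠 → sb ∉ 𝔠 ^ 2 →
      θ (algebraMap D T sb) ≠ 0 ∧
        ∀ d : D, MemLoc 𝔠 (θ (algebraMap D T d) / θ (algebraMap D T sb)))
    (Hode : ∀ (s s₁ : BM) (y R₀ : B), rbar s₁ ^ q = W (rbar s) →
      (V s - ι s₁ ^ q) * y = qB * R₀ →
      ∃ δ : T, δ * algebraMap D T (red₁ y) = algebraMap D T (red₁ R₀) ∧
        θ δ = W_T (θ (algebraMap D T (rbar s))) -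
          algebraMap D T (rbar s₁) ^ (q - 1) * θ (algebraMap D T (rbar s₁)))
    (HAs : ∀ (𝔠 : Ideal D), 𝔠.IsMaximal → ∀ sb : D, sb ∈ 𝔠 → sb ∉ 𝔠 ^ 2 → rbar ψ₀ ∉ 𝔠 →
      ∃ cn cd : D, cn ∉ 𝔠 ∧ cd ∉ 𝔠 ∧
        θ (algebraMap D T sb) ^ 6 * algebraMap D T cd = Δb * algebraMap D T cn)
    (HOm : ∃ Ω : B, red₂ Ω = 0 ∧ W_T Δb * algebraMap D T (red₁ Ω) = Δb)
    (n : Ideal B) (𝔞 𝔟 : Ideal D) [h𝔞 : 𝔞.IsMaximal] [h𝔟 : 𝔟.IsMaximal]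
    (h𝔞0 : 𝔞 ≠ ⊥) (h𝔟0 : 𝔟 ≠ ⊥)
    (hn₁ : ∀ z : B, z ∈ n ↔ red₁ z ∈ 𝔞) (hn₂ : ∀ z : B, z ∈ n ↔ red₂ z ∈ 𝔟)
    (hcι : ι ψ₀ ∉ n) (hcV : V ψ₀ ∉ n) :
    ∃ x y R₀ : B, red₁ x = 0 ∧ red₂ x ∈ 𝔟 ∧ red₂ x ∉ 𝔟 ^ 2 ∧ red₂ y = 0 ∧ red₁ y ∈ 𝔞 ∧
      red₁ y ∉ 𝔞 ^ 2 ∧ x * y = qB * R₀ ∧ red₁ R₀ ∉ 𝔞 := by
  have hp𝔞 : 𝔞.IsPrime := h𝔞.isPrime
  have hp𝔟 : 𝔟.IsPrime := h𝔟.isPrime
  -- the `W`-relations between `𝔞` and `𝔟`
  have hW𝔞 : ∀ d : D, W d ∈ 𝔞 ↔ d ∈ 𝔟 := by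
    intro d
    obtain ⟨ψ, rfl⟩ := h.hrbar d
    rw [← h.h1V, ← hn₁, hn₂, h.h2V]
  have hW𝔟 : ∀ d : D, W d ∈ 𝔟 ↔ d ∈ 𝔞 := by
    intro d
    obtain ⟨ψ, rfl⟩ := h.hrbar d
    rw [← h.h2ι, ← hn₂, hn₁, h.h1ι]
  have hc𝔞 : rbar ψ₀ ∉ 𝔞 := fun hm => hcι ((hn₁ _).2 (by rw [h.h1ι]; exact hm))
  have hc𝔟 : rbar ψ₀ ∉ 𝔟 := fun hm => hcV ((hn₂ _).2 (by rw [h.h2V]; exact hm))
  -- the intrinsic parameter
  obtain ⟨sb, hs𝔞, hs𝔞2, hs𝔟, hs𝔟2⟩ := exists_mem_not_mem_sq_pair 𝔞 𝔟 h𝔞0 h𝔟0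
  obtain ⟨s, rfl⟩ := h.hrbar sb
  obtain ⟨ρb, hρb⟩ := h.hroot (rbar s)
  obtain ⟨s₁, hs₁⟩ := h.hrbar ρb
  have hq0 : q ≠ 0 := by omega
  have hρ𝔞 : ρb ∈ 𝔞 := hp𝔞.mem_of_pow_mem q (by rw [hρb]; exact (hW𝔞 _).2 hs𝔟)
  have hρ𝔟 : ρb ∈ 𝔟 := hp𝔟.mem_of_pow_mem q (by rw [hρb]; exact (hW𝔟 _).2 hs𝔞)
  have hWρ𝔟 : W ρb ∈ 𝔟 := (hW𝔟 _).2 hρ𝔞
  have hWρ𝔞 : W ρb ∈ 𝔞 := (hW𝔞 _).2 hρ𝔟
  have hpow : ∀ (𝔠 : Ideal D) (c : D), c ∈ 𝔠 → c ^ q ∈ 𝔠 ^ 2 := by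
    intro 𝔠 c hc
    have h2 : c ^ 2 ∈ 𝔠 ^ 2 := Ideal.pow_mem_pow hc 2
    have h3 : q = 2 + (q - 2) := by omega
    rw [h3, pow_add]
    exact Ideal.mul_mem_right _ _ h2
  have h𝔞2 : 𝔞 ^ 2 ≤ 𝔞 := Ideal.pow_le_self (by norm_num)
  have h𝔟2 : 𝔟 ^ 2 ≤ 𝔟 := Ideal.pow_le_self (by norm_num)
  -- the pair
  set x : B := V s - ι s₁ ^ q with hx
  set y : B := ι s - V s₁ ^ q with hy
  have hx₁ : red₁ x = 0 := by
    rw [hx, map_sub, map_pow, h.h1V, h.h1ι, hs₁, hρb, sub_self]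
  have hx₂e : red₂ x = rbar s - W ρb ^ q := by
    rw [hx, map_sub, map_pow, h.h2V, h.h2ι, hs₁]
  have hy₂ : red₂ y = 0 := by
    rw [hy, map_sub, map_pow, h.h2ι, h.h2V, hs₁, hρb, sub_self]
  have hy₁e : red₁ y = rbar s - W ρb ^ q := by
    rw [hy, map_sub, map_pow, h.h1ι, h.h1V, hs₁]
  have hx₂ : red₂ x ∈ 𝔟 := by
    rw [hx₂e]; exact 𝔟.sub_mem hs𝔟 (h𝔟2 (hpow 𝔟 _ hWρ𝔟))
  have hx₂' : red₂ x ∉ 𝔟 ^ 2 := by
    rw [hx₂e]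
    intro hm
    apply hs𝔟2
    have := (𝔟 ^ 2).add_mem hm (hpow 𝔟 _ hWρ𝔟)
    simpa using this
  have hy₁ : red₁ y ∈ 𝔞 := by
    rw [hy₁e]; exact 𝔞.sub_mem hs𝔞 (h𝔞2 (hpow 𝔞 _ hWρ𝔞))
  have hy₁' : red₁ y ∉ 𝔞 ^ 2 := by
    rw [hy₁e]
    intro hm
    apply hs𝔞2
    have := (𝔞 ^ 2).add_mem hm (hpow 𝔞 _ hWρ𝔞)
    simpa using this
  have hxyq : x * y ∈ Ideal.span {qB} :=
    h.hinf _ (by rw [map_mul, hx₁, zero_mul]) (by rw [map_mul, hy₂, mul_zero])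
  obtain ⟨R₀, hR₀⟩ := Ideal.mem_span_singleton'.1 hxyq
  have hxy : x * y = qB * R₀ := by rw [← hR₀, mul_comm]
  refine ⟨x, y, R₀, hx₁, hx₂, hx₂', hy₂, hy₁, hy₁', hxy, ?_⟩
  -- the four inputs
  obtain ⟨hθs, hdel⟩ := Hdel 𝔞 h𝔞 (rbar s) hs𝔞 hs𝔞2
  obtain ⟨δ, hδ, hodeδ⟩ := Hode s s₁ y R₀ (by rw [hs₁, hρb]) hxy
  obtain ⟨an, ad, -, had, hIa⟩ := HAs 𝔞 h𝔞 (rbar s) hs𝔞 hs𝔞2 hc𝔞
  obtain ⟨bn, bd, hbn, -, hIb⟩ := HAs 𝔟 h𝔟 (rbar s) hs𝔟 hs𝔟2 hc𝔟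
  obtain ⟨Ω, hΩ₂, hIΩ⟩ := HOm
  have hω : red₁ Ω ∈ 𝔞 := (hn₁ Ω).1 ((hn₂ Ω).2 (by rw [hΩ₂]; exact 𝔟.zero_mem))
  set Θ : T := θ (algebraMap D T (rbar s)) with hΘ
  have hPdef : W_T Θ / Θ * Θ = W_T Θ := div_mul_cancel₀ _ hθs
  have hode : θ δ = Θ * (W_T Θ / Θ) -
      algebraMap D T ρb ^ (q - 1) * θ (algebraMap D T ρb) := by
    rw [hodeδ, hs₁, mul_div_cancel₀ _ hθs]
  exact not_mem_of_identities hinj W W_T hWT (fun d hd => (hW𝔞 d).1 hd) θ (rbar s) ρb hθs hdel δ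
    (W_T Θ / Θ) q hPdef hode hy₁ hy₁' hδ had hbn hω hIa hIb hIΩ

end Core

/-! ### Transfer to another two-component package over the same branch ring -/

section Transfer

variable {B B'' D BM T k : Type*} [CommRing B] [IsDomain B] [CommRing B''] [IsDomain B'']
  [CommRing D] [IsDedekindDomain D]
  [CommRing BM] [Field T] [Algebra D T] [CommRing k] [Algebra k T]
  {red₁ red₂ : B →+* D} {ι V : BM →+* B} {rbar : BM →+* D} {W : D →+* D} {q : ℕ} {qB : B}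
  {red₁'' red₂'' : B'' →+* D} {qB'' : B''}

omit [IsDomain B] in
/-- **(M2e) at the `TwoComponents` level, with transfer.**  `B''` another chart over the same
branch ring receiving `B` (`φ`, compatible with the reductions; `φ q = q'' * u`, `u` a unit).
At every crossing point `n''` of `B''`: `x'' ∈ P₁''`, `y'' ∈ P₂''` generating the two vertical
primes and the maximal ideal locally.  (`B'' = B`, `φ = id`, `u = 1` gives the statement for the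
original chart.) -/
theorem regular_of_transfer
    (h : TwoComponents red₁ red₂ ι V rbar W q qB) (hq : 2 ≤ q) (hD : ¬ IsField D)
    (hinj : Function.Injective (algebraMap D T))
    (W_T : T →+* T) (hWT : ∀ d : D, W_T (algebraMap D T d) = algebraMap D T (W d))
    (θ : Derivation k T T) (Δb : T) (ψ₀ : BM)
    (Hdel : ∀ (𝔠 : Ideal D), 𝔠.IsMaximal → ∀ sb : D, sb ∈ 𝔠 → sb ∉ 𝔠 ^ 2 →
      θ (algebraMap D T sb) ≠ 0 ∧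
        ∀ d : D, MemLoc 𝔠 (θ (algebraMap D T d) / θ (algebraMap D T sb)))
    (Hode : ∀ (s s₁ : BM) (y R₀ : B), rbar s₁ ^ q = W (rbar s) →
      (V s - ι s₁ ^ q) * y = qB * R₀ →
      ∃ δ : T, δ * algebraMap D T (red₁ y) = algebraMap D T (red₁ R₀) ∧
        θ δ = W_T (θ (algebraMap D T (rbar s))) -
          algebraMap D T (rbar s₁) ^ (q - 1) * θ (algebraMap D T (rbar s₁)))
    (HAs : ∀ (𝔠 : Ideal D), 𝔠.IsMaximal → ∀ sb : D, sb ∈ 𝔠 → sb ∉ 𝔠 ^ 2 → rbar ψ₀ ∉ 𝔠 →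
      ∃ cn cd : D, cn ∉ 𝔠 ∧ cd ∉ 𝔠 ∧
        θ (algebraMap D T sb) ^ 6 * algebraMap D T cd = Δb * algebraMap D T cn)
    (HOm : ∃ Ω : B, red₂ Ω = 0 ∧ W_T Δb * algebraMap D T (red₁ Ω) = Δb)
    (Hcusp : ∀ n : Ideal B, n ≠ ⊤ → RingHom.ker red₁ ≤ n → RingHom.ker red₂ ≤ n →
      ι ψ₀ ∉ n ∧ V ψ₀ ∉ n)
    -- the second package
    (hred₁'' : Function.Surjective red₁'') (hred₂'' : Function.Surjective red₂'')
    (hinf'' : ∀ z : B'', red₁'' z = 0 → red₂'' z = 0 → z ∈ Ideal.span {qB''})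
    (φ : B →+* B'') (hφ₁ : ∀ b : B, red₁'' (φ b) = red₁ b) (hφ₂ : ∀ b : B, red₂'' (φ b) = red₂ b)
    (u : B'') (hu : IsUnit u) (hφq : φ qB = qB'' * u)
    (n'' : Ideal B'') (hn'' : n''.IsMaximal)
    (hk₁ : RingHom.ker red₁'' ≤ n'') (hk₂ : RingHom.ker red₂'' ≤ n'') :
    ∃ x y R₀ : B'', red₁'' x = 0 ∧ red₂'' x ≠ 0 ∧ red₂'' y = 0 ∧ red₁'' y ≠ 0 ∧
      x * y = qB'' * R₀ ∧ R₀ ∉ n'' ∧
      (∀ z ∈ n'', ∃ t : B'', t ∉ n'' ∧ t * z ∈ Ideal.span {x, y}) ∧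
      (∀ z : B'', red₁'' z = 0 → ∃ t : B'', t ∉ n'' ∧ t * z ∈ Ideal.span {x}) ∧
      (∀ z : B'', red₂'' z = 0 → ∃ t : B'', t ∉ n'' ∧ t * z ∈ Ideal.span {y}) := by
  have hnprime : n''.IsPrime := hn''.isPrime
  -- the two points under `n''`
  have hmax : ∀ (red : B'' →+* D), Function.Surjective red → RingHom.ker red ≤ n'' →
      (Ideal.map red n'').IsMaximal ∧ Ideal.map red n'' ≠ ⊥ ∧
        ∀ z : B'', z ∈ n'' ↔ red z ∈ Ideal.map red n'' := by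
    intro red hred hker
    have hker' : ∀ z : B'', red z = 0 → z ∈ n'' := fun z hz => hker ((RingHom.mem_ker).2 hz)
    have hiff := mem_iff_map_mem hred n'' hker'
    have h1 : (Ideal.map red n'').IsMaximal := by
      rcases Ideal.map_eq_top_or_isMaximal_of_surjective red hred hn'' with h | h
      · exfalso
        have : (1 : B'') ∈ n'' := (hiff 1).2 (by rw [h]; trivial)
        exact hnprime.ne_top ((Ideal.eq_top_iff_one n'').2 this)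
      · exact h
    exact ⟨h1, Ring.ne_bot_of_isMaximal_of_not_isField h1 hD, hiff⟩
  obtain ⟨h𝔞, h𝔞0, hn₁''⟩ := hmax red₁'' hred₁'' hk₁
  obtain ⟨h𝔟, h𝔟0, hn₂''⟩ := hmax red₂'' hred₂'' hk₂
  set 𝔞 := Ideal.map red₁'' n''
  set 𝔟 := Ideal.map red₂'' n''
  -- the point of `B` under `n''`
  set n : Ideal B := Ideal.comap φ n'' with hn
  have hn₁ : ∀ z : B, z ∈ n ↔ red₁ z ∈ 𝔞 := fun z => by
    rw [hn, Ideal.mem_comap, hn₁'', hφ₁]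
  have hn₂ : ∀ z : B, z ∈ n ↔ red₂ z ∈ 𝔟 := fun z => by
    rw [hn, Ideal.mem_comap, hn₂'', hφ₂]
  have hntop : n ≠ ⊤ := (Ideal.comap_isPrime φ n'').ne_top
  have hkn₁ : RingHom.ker red₁ ≤ n := fun z hz => (hn₁ z).2 (by
    rw [(RingHom.mem_ker).1 hz]; exact 𝔞.zero_mem)
  have hkn₂ : RingHom.ker red₂ ≤ n := fun z hz => (hn₂ z).2 (by
    rw [(RingHom.mem_ker).1 hz]; exact 𝔟.zero_mem)
  obtain ⟨hcι, hcV⟩ := Hcusp n hntop hkn₁ hkn₂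
  obtain ⟨x, y, R₀, hx₁, hx₂, hx₂', hy₂, hy₁, hy₁', hxy, hR₀⟩ :=
    exists_pair_of_crossing h hq hinj W_T hWT θ Δb ψ₀ Hdel Hode HAs HOm n 𝔞 𝔟 h𝔞0 h𝔟0
      hn₁ hn₂ hcι hcV
  -- transfer
  have hxy'' : φ x * φ y = qB'' * (u * φ R₀) := by
    rw [← map_mul, hxy, map_mul, hφq]; ring
  have hu𝔞 : red₁'' u ∉ 𝔞 := by
    intro hm
    have hun : u ∈ n'' := (hn₁'' u).2 hm
    exact hnprime.ne_top (Ideal.eq_top_of_isUnit_mem _ hun hu)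
  have hR₀'' : red₁'' (u * φ R₀) ∉ 𝔞 := by
    rw [map_mul, hφ₁]
    intro hm
    rcases h𝔞.isPrime.mem_or_mem hm with hm | hm
    · exact hu𝔞 hm
    · exact hR₀ hm
  have hp𝔞 : 𝔞.IsPrime := h𝔞.isPrime
  have hp𝔟 : 𝔟.IsPrime := h𝔟.isPrime
  obtain ⟨hRn, hgen, hP₁, hP₂⟩ := thickness_one_of_not_mem hred₁'' hred₂'' hinf'' n'' 𝔞 𝔟
    hn₁'' hn₂'' (x := φ x) (y := φ y) (R₀ := u * φ R₀)
    (by rw [hφ₁, hx₁]) (by rw [hφ₂]; exact hx₂) (by rw [hφ₂]; exact hx₂')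
    (by rw [hφ₂, hy₂]) (by rw [hφ₁]; exact hy₁) (by rw [hφ₁]; exact hy₁') hxy'' hR₀''
  refine ⟨φ x, φ y, u * φ R₀, by rw [hφ₁, hx₁], ?_, by rw [hφ₂, hy₂], ?_, hxy'', hRn, hgen,
    fun z hz => ?_, fun z hz => ?_⟩
  · rw [hφ₂]
    intro h0
    rw [h0] at hx₂'
    exact hx₂' (𝔟 ^ 2).zero_mem
  · rw [hφ₁]
    intro h0
    rw [h0] at hy₁'
    exact hy₁' (𝔞 ^ 2).zero_mem
  · obtain ⟨t, ht, hd⟩ := hP₁ z hz
    exact ⟨t, ht, Ideal.mem_span_singleton.2 hd⟩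
  · obtain ⟨t, ht, hd⟩ := hP₂ z hz
    exact ⟨t, ht, Ideal.mem_span_singleton.2 hd⟩

end Transfer

end Fermat.Agent.S36.H54
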