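/-
helper54 — S36 row (M2e), REAL-TYPES SETUP.

The four analytic hypotheses `Hdel Hode HAs HOm` of `H54.exists_pair_of_crossing` /
`H54.regular_of_transfer` (file `S36/H54_M2eTC`), spelled as `Prop`s at the real types of CHART 1
of helper55's L0 package `S35.H55.exists_l0Pkg`:

* `B  = chartB A₁ (JN M)`            (level `ℓ M`, coordinate `J = j · j_ℓ`),
* `BM = chartB A₁ (jK L₁ M)`         (level `M`),
* `D  = integralClosure kA[j̄] Fk(M)` (the branch ring), `T = kA((t))` with the synthesised algebra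
  structure `algebraMap D T d = ((d : Fk(M)) : kA((t)))`,
* `θ = S28.H39.thetaDer`, `W_T = qExpand kA ℓ`, `Δ̄ = S28.DeltaS kA`, `ψ₀ = 1`.

Each leaf owner proves ONE of these `Prop`s; `H54.regular_real` (below) is the assembly.
-/
import Mathlib
import Fermat.Agent.S35.H55_L0Pkg
import Fermat.Agent.S28.H39_Laurent
import Fermat.Agent.S36.H54_M2eTC

set_option autoImplicit false
set_option linter.unusedSectionVars false
set_option linter.style.haveILetI false
set_option synthInstance.maxHeartbeats 400000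

noncomputable section

namespace Fermat.Agent.S36.H54

open ModularCurve Polynomial IsLocalRing Fermat.Agent.S28
open Fermat.Agent.S18 Fermat.Agent.S34 Fermat.Agent.S34.H92 Fermat.Agent.S34.H16
open Fermat.Agent.S34.H55 Fermat.Agent.S34.H83

local notation "Qbar" => AlgebraicClosure ℚ

section Setup

variable (M : ℕ) [NeZero M] {ℓ : ℕ} [hℓ : Fact ℓ.Prime] (hℓM : ¬ ℓ ∣ M)
  (A : ValuationSubring Qbar) (hA : A.LiesOverPrime ℓ)

local notation "kA" => IsLocalRing.ResidueField A
local notation "A₁" => H45.A0 A ℓ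
local notation "L₁" => H45.unrCyclo ℓ
local notation "FM" => modularFunctionFieldFullC (H45.unrCyclo ℓ) M
local notation "FN" => modularFunctionFieldFullC (H45.unrCyclo ℓ) (ℓ * M)
local notation "FkM" => modularFunctionFieldFullC (IsLocalRing.ResidueField A) M
local notation "B1" => H40.chartB (H45.A0 A ℓ) (JN M (ℓ := ℓ))
local notation "BM1" => H40.chartB (H45.A0 A ℓ) (S18.H16.jK (H45.unrCyclo ℓ) M)
local notation "D1" =>
  integralClosure (Algebra.adjoin (IsLocalRing.ResidueField A)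
    {S18.H16.jK (IsLocalRing.ResidueField A) M})
    (modularFunctionFieldFullC (IsLocalRing.ResidueField A) M)
local notation "TT" => LaurentSeries (IsLocalRing.ResidueField A)

/-- the synthesised algebra structure of `kA((t))` over the branch ring is the double coercion. -/
theorem algebraMap_D_apply (d : D1) : algebraMap D1 TT d = ((d : FkM) : TT) := rfl

theorem algebraMap_D_injective : Function.Injective (algebraMap D1 TT) := by
  intro a b h
  rw [algebraMap_D_apply, algebraMap_D_apply] at h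
  exact Subtype.ext (Subtype.ext h)

/-- `hWT` at the real types. -/
theorem hWT_real (d : D1) :
    qExpand kA ℓ (algebraMap D1 TT d) =
      algebraMap D1 TT (WR (FrM M A hA) ℓ (hFrx M A hA) d) := rfl

/-- **(R-del)**: `Hdel` at the real types. -/
def HdelReal : Prop :=
  ∀ (𝔠 : Ideal D1), 𝔠.IsMaximal → ∀ sb : D1, sb ∈ 𝔠 → sb ∉ 𝔠 ^ 2 →
    S28.H39.thetaDer (algebraMap D1 TT sb) ≠ 0 ∧
      ∀ d : D1, MemLoc 𝔠
        (S28.H39.thetaDer (algebraMap D1 TT d) / S28.H39.thetaDer (algebraMap D1 TT sb))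

/-- **(R-ode)**: `Hode` at the real types (for a first reduction `red₁`). -/
def HodeReal (red₁ : B1 →+* D1) : Prop :=
  ∀ (s s₁ : BM1) (y R₀ : B1),
    rbarB (Mod M hℓM A hA) (Mod M hℓM A hA).x_mem (Mod M hℓM A hA).res1_x s₁ ^ ℓ =
      WR (FrM M A hA) ℓ (hFrx M A hA)
        (rbarB (Mod M hℓM A hA) (Mod M hℓM A hA).x_mem (Mod M hℓM A hA).res1_x s) →
    (chartMap (VMN M (ℓ := ℓ)) (VMN_algebraMap M A) (hVint1 M A) s -
        chartMap (iotaMN M (ℓ := ℓ)) (iotaMN_algebraMap M A) (hιint1 M A) s₁ ^ ℓ) * y =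
      algebraMap A₁ B1 ((ℓ : ℕ) : A₁) * R₀ →
    ∃ δ : TT, δ * algebraMap D1 TT (red₁ y) = algebraMap D1 TT (red₁ R₀) ∧
      S28.H39.thetaDer δ =
        qExpand kA ℓ (S28.H39.thetaDer (algebraMap D1 TT
          (rbarB (Mod M hℓM A hA) (Mod M hℓM A hA).x_mem (Mod M hℓM A hA).res1_x s))) -
        algebraMap D1 TT
            (rbarB (Mod M hℓM A hA) (Mod M hℓM A hA).x_mem (Mod M hℓM A hA).res1_x s₁) ^ (ℓ - 1) *
          S28.H39.thetaDer (algebraMap D1 TT
            (rbarB (Mod M hℓM A hA) (Mod M hℓM A hA).x_mem (Mod M hℓM A hA).res1_x s₁))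

/-- **(R-As)**: `HAs` at the real types (chart 1: `ψ₀ = 1`, so no cusp condition). -/
def HAsReal : Prop :=
  ∀ (𝔠 : Ideal D1), 𝔠.IsMaximal → ∀ sb : D1, sb ∈ 𝔠 → sb ∉ 𝔠 ^ 2 →
    ∃ cn cd : D1, cn ∉ 𝔠 ∧ cd ∉ 𝔠 ∧
      S28.H39.thetaDer (algebraMap D1 TT sb) ^ 6 * algebraMap D1 TT cd =
        S28.DeltaS kA * algebraMap D1 TT cn

/-- **(R-Om)**: `HOm` at the real types. -/
def HOmReal (red₁ red₂ : B1 →+* D1) : Prop :=
  ∃ Ω : B1, red₂ Ω = 0 ∧
    qExpand kA ℓ (S28.DeltaS kA) * algebraMap D1 TT (red₁ Ω) = S28.DeltaS kA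

end Setup

end Fermat.Agent.S36.H54
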