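/-
S36 / row (r5) = (E6) at the chart level, helper84: **the point classification of `hpt`.**

A closed point `n` of the level-`q² L` chart `B` (three reductions `red₁ red₂ red₃ : B → D`,
vertical primes `P_i = ker red_i`) lies on AT MOST ONE vertical prime or on ALL THREE.

Proof.  If `n` lies on `C₁, C₃` (resp. `C₂, C₃`), its image `n' = α⁻¹ n` in the level-`q L` chart
`B'` lies on both vertical primes `P₁', P₂'` (a node).  The maximal ideal
`n₂ = red₂⁻¹ (red₁ n)` (resp. `n₁ = red₁⁻¹ (red₂ n)`) of `B` lies on `C₂` (resp. `C₁`) and above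
`n'`; by helper71's uniqueness of the point above a node (`S36.H71.eq_of_comap_eq`), `n = n₂`.
If `n` lies on `C₁, C₂`, the same with `β` and `n₃ = red₃⁻¹ (red₂ n)`
(`S36.H71.eq_of_comap_eq_beta`).

Input from (M2): at every node `n'` of the level-`q L` chart both vertical primes are locally
principal (`NodeGen`).
-/
import Mathlib
import Fermat.Agent.S36.H83_LevelMaps
import Fermat.Agent.S36.H71_UniqueAbove

set_option autoImplicit false
set_option linter.unusedSectionVars false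

namespace Fermat.Agent.S36.H84

open Fermat.Agent.S36

section PointClass

variable {B' B D : Type*} [CommRing B'] [CommRing B] [IsDomain B] [IsNoetherianRing B]
  [CommRing D] [IsDomain D]

/-- **The (M2) output at the nodes of the level-`q L` chart**: at every maximal ideal `n'` of `B'`
containing both vertical primes, `P₂'` is generated at `n'` by one element `y'` not vanishing on
the first component, and `P₁'` by one element `x'` not vanishing on the second. -/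
def NodeGen (red₁' red₂' : B' →+* D) : Prop :=
  ∀ n' : Ideal B', n'.IsMaximal → RingHom.ker red₁' ≤ n' → RingHom.ker red₂' ≤ n' →
    (∃ y' : B', red₁' y' ≠ 0 ∧ red₂' y' = 0 ∧
      ∀ z, red₂' z = 0 → ∃ t, t ∉ n' ∧ t * z ∈ Ideal.span {y'}) ∧
    (∃ x' : B', red₂' x' ≠ 0 ∧ red₁' x' = 0 ∧
      ∀ z, red₁' z = 0 → ∃ t, t ∉ n' ∧ t * z ∈ Ideal.span {x'})

omit [IsDomain B] [IsNoetherianRing B] [IsDomain D] in
/-- a maximal ideal containing the kernel of a surjection is the preimage of its (maximal)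
image. -/
theorem exists_maximal_image (red : B →+* D) (hred : Function.Surjective red) (n : Ideal B)
    (hn : n.IsMaximal) (hk : RingHom.ker red ≤ n) :
    ∃ 𝔞 : Ideal D, 𝔞.IsMaximal ∧ ∀ z : B, z ∈ n ↔ red z ∈ 𝔞 := by
  have hcm : Ideal.comap red (Ideal.map red n) = n := by
    rw [Ideal.comap_map_of_surjective red hred]
    exact sup_eq_left.2 hk
  have hne : Ideal.map red n ≠ ⊤ := by
    intro htop
    rw [htop, Ideal.comap_top] at hcm
    exact hn.ne_top hcm.symm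
  refine ⟨Ideal.map red n, (Ideal.map_eq_top_or_isMaximal_of_surjective red hred hn).resolve_left
    hne, fun z => ?_⟩
  rw [← Ideal.mem_comap, hcm]

variable (red₁ red₂ red₃ : B →+* D) (red₁' red₂' : B' →+* D) (α β : B' →+* B) (W : D →+* D)
  (hL : H83.LevelMaps red₁ red₂ red₃ red₁' red₂' α β W)
  (hred₁ : Function.Surjective red₁) (hred₂ : Function.Surjective red₂)
  (hred₃ : Function.Surjective red₃)
  (hred₁' : Function.Surjective red₁') (hred₂' : Function.Surjective red₂')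
  (q : ℕ) (hq : 0 < q) (hW : ∀ r : D, ∃ r₂ : D, W r₂ = r ^ q)
  (qB : B) (qB' : B') (hqα : α qB' = qB) (hqβ : β qB' = qB)
  (hq₁' : red₁' qB' = 0) (hq₂' : red₂' qB' = 0)
  (h3 : ∀ P : Ideal B, P.IsPrime → qB ∈ P →
    RingHom.ker red₁ ≤ P ∨ RingHom.ker red₂ ≤ P ∨ RingHom.ker red₃ ≤ P)
  (hk1 : RingHom.ker red₁ ≠ ⊥) (hk2 : RingHom.ker red₂ ≠ ⊥) (hk3 : RingHom.ker red₃ ≠ ⊥)
  (hnode : NodeGen red₁' red₂')

include hL hred₂ hred₁' hred₂' hq hW hqα hq₂' h3 hk1 hk2 hnode in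
/-- `n` on `C₁` and `C₃` lies on `C₂`. -/
theorem ker₂_le_of_first_third (hred₁ : Function.Surjective red₁) (n : Ideal B)
    (hn : n.IsMaximal) (h1 : RingHom.ker red₁ ≤ n) (h3n : RingHom.ker red₃ ≤ n) :
    RingHom.ker red₂ ≤ n := by
  obtain ⟨𝔞, h𝔞, hn𝔞⟩ := exists_maximal_image red₁ hred₁ n hn h1
  -- the image point
  have hn'max : (Ideal.comap red₁' 𝔞).IsMaximal :=
    Ideal.comap_isMaximal_of_surjective red₁' hred₁'
  have hcomap : n.comap α = Ideal.comap red₁' 𝔞 := by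
    ext z
    rw [Ideal.mem_comap, Ideal.mem_comap, hn𝔞, hL.h1α]
  have hk1' : RingHom.ker red₁' ≤ Ideal.comap red₁' 𝔞 := by
    intro z hz
    rw [Ideal.mem_comap, (RingHom.mem_ker).1 hz]
    exact 𝔞.zero_mem
  have hk2' : RingHom.ker red₂' ≤ Ideal.comap red₁' 𝔞 := by
    intro z hz
    rw [← hcomap, Ideal.mem_comap]
    exact h3n ((RingHom.mem_ker).2 (hL.α_mem_ker₃ ((RingHom.mem_ker).1 hz)))
  obtain ⟨⟨y', hy1, hy2, hy'⟩, -⟩ := hnode _ hn'max hk1' hk2'
  -- the point of `C₂` above it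
  have hn₂max : (Ideal.comap red₂ 𝔞).IsMaximal := Ideal.comap_isMaximal_of_surjective red₂ hred₂
  have hcomap₂ : (Ideal.comap red₂ 𝔞).comap α = Ideal.comap red₁' 𝔞 := by
    ext z
    rw [Ideal.mem_comap, Ideal.mem_comap, Ideal.mem_comap, hL.h2α]
  have heq : n = Ideal.comap red₂ 𝔞 :=
    H71.eq_of_comap_eq α red₁ red₂ red₃ red₁' red₂' W q hq qB qB' hqα h3 hk1 hk2 hL.h1α hL.h2α
      hL.h3α hred₂' hW (Ideal.comap red₁' 𝔞) hk2' hq₂' y' hy1 hy2 hy' n (Ideal.comap red₂ 𝔞) hn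
      hn₂max hcomap hcomap₂
  rw [heq]
  intro z hz
  rw [Ideal.mem_comap, (RingHom.mem_ker).1 hz]
  exact 𝔞.zero_mem

include hL hred₁ hred₁' hred₂' hq hW hqα hq₂' h3 hk1 hk2 hnode in
/-- `n` on `C₂` and `C₃` lies on `C₁`. -/
theorem ker₁_le_of_middle_third (hred₂ : Function.Surjective red₂) (n : Ideal B)
    (hn : n.IsMaximal) (h2 : RingHom.ker red₂ ≤ n) (h3n : RingHom.ker red₃ ≤ n) :
    RingHom.ker red₁ ≤ n := by
  obtain ⟨𝔞, h𝔞, hn𝔞⟩ := exists_maximal_image red₂ hred₂ n hn h2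
  have hn'max : (Ideal.comap red₁' 𝔞).IsMaximal :=
    Ideal.comap_isMaximal_of_surjective red₁' hred₁'
  have hcomap : n.comap α = Ideal.comap red₁' 𝔞 := by
    ext z
    rw [Ideal.mem_comap, Ideal.mem_comap, hn𝔞, hL.h2α]
  have hk1' : RingHom.ker red₁' ≤ Ideal.comap red₁' 𝔞 := by
    intro z hz
    rw [Ideal.mem_comap, (RingHom.mem_ker).1 hz]
    exact 𝔞.zero_mem
  have hk2' : RingHom.ker red₂' ≤ Ideal.comap red₁' 𝔞 := by
    intro z hz
    rw [← hcomap, Ideal.mem_comap]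
    exact h3n ((RingHom.mem_ker).2 (hL.α_mem_ker₃ ((RingHom.mem_ker).1 hz)))
  obtain ⟨⟨y', hy1, hy2, hy'⟩, -⟩ := hnode _ hn'max hk1' hk2'
  have hn₁max : (Ideal.comap red₁ 𝔞).IsMaximal := Ideal.comap_isMaximal_of_surjective red₁ hred₁
  have hcomap₁ : (Ideal.comap red₁ 𝔞).comap α = Ideal.comap red₁' 𝔞 := by
    ext z
    rw [Ideal.mem_comap, Ideal.mem_comap, Ideal.mem_comap, hL.h1α]
  have heq : n = Ideal.comap red₁ 𝔞 :=
    H71.eq_of_comap_eq α red₁ red₂ red₃ red₁' red₂' W q hq qB qB' hqα h3 hk1 hk2 hL.h1α hL.h2α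
      hL.h3α hred₂' hW (Ideal.comap red₁' 𝔞) hk2' hq₂' y' hy1 hy2 hy' n (Ideal.comap red₁ 𝔞) hn
      hn₁max hcomap hcomap₁
  rw [heq]
  intro z hz
  rw [Ideal.mem_comap, (RingHom.mem_ker).1 hz]
  exact 𝔞.zero_mem

include hL hred₃ hred₁' hred₂' hq hW hqβ hq₁' h3 hk2 hk3 hnode in
/-- `n` on `C₁` and `C₂` lies on `C₃`. -/
theorem ker₃_le_of_first_middle (hred₂ : Function.Surjective red₂) (n : Ideal B)
    (hn : n.IsMaximal) (h1 : RingHom.ker red₁ ≤ n) (h2 : RingHom.ker red₂ ≤ n) :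
    RingHom.ker red₃ ≤ n := by
  obtain ⟨𝔞, h𝔞, hn𝔞⟩ := exists_maximal_image red₂ hred₂ n hn h2
  have hn'max : (Ideal.comap red₂' 𝔞).IsMaximal :=
    Ideal.comap_isMaximal_of_surjective red₂' hred₂'
  have hcomap : n.comap β = Ideal.comap red₂' 𝔞 := by
    ext z
    rw [Ideal.mem_comap, Ideal.mem_comap, hn𝔞, hL.h2β]
  have hk2' : RingHom.ker red₂' ≤ Ideal.comap red₂' 𝔞 := by
    intro z hz
    rw [Ideal.mem_comap, (RingHom.mem_ker).1 hz]
    exact 𝔞.zero_mem
  have hk1' : RingHom.ker red₁' ≤ Ideal.comap red₂' 𝔞 := by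
    intro z hz
    rw [← hcomap, Ideal.mem_comap]
    exact h1 ((RingHom.mem_ker).2 (hL.β_mem_ker₁ ((RingHom.mem_ker).1 hz)))
  obtain ⟨-, ⟨x', hx2, hx1, hx'⟩⟩ := hnode _ hn'max hk1' hk2'
  have hn₃max : (Ideal.comap red₃ 𝔞).IsMaximal := Ideal.comap_isMaximal_of_surjective red₃ hred₃
  have hcomap₃ : (Ideal.comap red₃ 𝔞).comap β = Ideal.comap red₂' 𝔞 := by
    ext z
    rw [Ideal.mem_comap, Ideal.mem_comap, Ideal.mem_comap, hL.h3β]
  have heq : n = Ideal.comap red₃ 𝔞 :=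
    H71.eq_of_comap_eq_beta β red₁ red₂ red₃ red₁' red₂' W q hq qB qB' hqβ h3 hk2 hk3 hL.h1β
      hL.h2β hL.h3β hred₁' hW (Ideal.comap red₂' 𝔞) hk1' hq₁' x' hx2 hx1 hx' n
      (Ideal.comap red₃ 𝔞) hn hn₃max hcomap hcomap₃
  rw [heq]
  intro z hz
  rw [Ideal.mem_comap, (RingHom.mem_ker).1 hz]
  exact 𝔞.zero_mem

include hL hred₁ hred₂ hred₃ hred₁' hred₂' hq hW hqα hqβ hq₁' hq₂' h3 hk1 hk2 hk3 hnode in
/-- **Point classification**: a maximal ideal of `B` lies on at most one of the three vertical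
primes `P i = ker red_i`, or on all three. -/
theorem point_class (P : Fin 3 → Ideal B) (hP0 : P 0 = RingHom.ker red₁)
    (hP1 : P 1 = RingHom.ker red₂) (hP2 : P 2 = RingHom.ker red₃) (n : Ideal B)
    (hn : n.IsMaximal) :
    (∃ i₀, ∀ i, P i ≤ n → i = i₀) ∨ ∀ i, P i ≤ n := by
  have t13 := ker₂_le_of_first_third red₁ red₂ red₃ red₁' red₂' α β W hL hred₂ hred₁' hred₂' q hq
    hW qB qB' hqα hq₂' h3 hk1 hk2 hnode hred₁ n hn
  have t23 := ker₁_le_of_middle_third red₁ red₂ red₃ red₁' red₂' α β W hL hred₁ hred₁' hred₂' q hq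
    hW qB qB' hqα hq₂' h3 hk1 hk2 hnode hred₂ n hn
  have t12 := ker₃_le_of_first_middle red₁ red₂ red₃ red₁' red₂' α β W hL hred₃ hred₁' hred₂' q hq
    hW qB qB' hqβ hq₁' h3 hk2 hk3 hnode hred₂ n hn
  by_cases c0 : P 0 ≤ n <;> by_cases c1 : P 1 ≤ n <;> by_cases c2 : P 2 ≤ n
  · right
    intro i; fin_cases i <;> assumption
  · right
    have : P 2 ≤ n := by rw [hP2]; exact t12 (hP0 ▸ c0) (hP1 ▸ c1)
    intro i; fin_cases i <;> assumption
  · right
    have : P 1 ≤ n := by rw [hP1]; exact t13 (hP0 ▸ c0) (hP2 ▸ c2)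
    intro i; fin_cases i <;> assumption
  · left
    refine ⟨0, fun i hi => ?_⟩
    fin_cases i
    · rfl
    · exact absurd hi c1
    · exact absurd hi c2
  · right
    have : P 0 ≤ n := by rw [hP0]; exact t23 (hP1 ▸ c1) (hP2 ▸ c2)
    intro i; fin_cases i <;> assumption
  · left
    refine ⟨1, fun i hi => ?_⟩
    fin_cases i
    · exact absurd hi c0
    · rfl
    · exact absurd hi c2
  · left
    refine ⟨2, fun i hi => ?_⟩
    fin_cases i
    · exact absurd hi c0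
    · exact absurd hi c1
    · rfl
  · left
    refine ⟨0, fun i hi => ?_⟩
    fin_cases i
    · exact absurd hi c0
    · exact absurd hi c1
    · exact absurd hi c2

end PointClass

end Fermat.Agent.S36.H84
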