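/-
helper54 — S36 row (M2e), REAL-TYPES ASSEMBLY.

`regular_real`: from the four real-types leaves `HdelReal HodeReal HAsReal HOmReal`
(`S36/H54_M2eSetup`), the A₁-level `TwoComponents` structure of chart 1 with its side facts
(`S35.H55.L0ChartFacts`), and ANY second package `(B'', red₁'', red₂'', φ, u)` over the same branch
ring (e.g. helper70's E-level chart `chartB (cutOver A E) (JK E (ℓ M) ℓ)` with
`φ = H95.chartBC_JK`): the crossing points of `B''` are regular, in both consumer shapes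
`H62.RegularCrossings` and `H84.NodeGen`.
-/
import Mathlib
import Fermat.Agent.S36.H54_M2eSetup
import Fermat.Agent.S36.H62_PrincipalAll
import Fermat.Agent.S36.H84_PointClass
import Fermat.Agent.S18.H97_FibreInst
import Fermat.Agent.S18.H16_FkInst

set_option autoImplicit false
set_option linter.unusedSectionVars false
set_option linter.style.haveILetI false
set_option synthInstance.maxHeartbeats 400000
set_option maxHeartbeats 1600000

noncomputable section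

namespace Fermat.Agent.S36.H54

open ModularCurve Polynomial IsLocalRing Fermat.Agent.S28
open Fermat.Agent.S18 Fermat.Agent.S34 Fermat.Agent.S34.H92 Fermat.Agent.S34.H16
open Fermat.Agent.S34.H55 Fermat.Agent.S34.H83

local notation "Qbar" => AlgebraicClosure ℚ

section Shapes

variable {B'' D : Type*} [CommRing B''] [CommRing D] {red₁'' red₂'' : B'' →+* D} {qB'' : B''}

/-- the unfolded output of `regular_of_transfer` gives both consumer shapes. -/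
theorem consumer_shapes
    (H : ∀ n'' : Ideal B'', n''.IsMaximal → RingHom.ker red₁'' ≤ n'' → RingHom.ker red₂'' ≤ n'' →
      ∃ x y R₀ : B'', red₁'' x = 0 ∧ red₂'' x ≠ 0 ∧ red₂'' y = 0 ∧ red₁'' y ≠ 0 ∧
        x * y = qB'' * R₀ ∧ R₀ ∉ n'' ∧
        (∀ z ∈ n'', ∃ t : B'', t ∉ n'' ∧ t * z ∈ Ideal.span {x, y}) ∧
        (∀ z : B'', red₁'' z = 0 → ∃ t : B'', t ∉ n'' ∧ t * z ∈ Ideal.span {x}) ∧
        (∀ z : B'', red₂'' z = 0 → ∃ t : B'', t ∉ n'' ∧ t * z ∈ Ideal.span {y})) :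
    H62.RegularCrossings red₁'' red₂'' ∧ H84.NodeGen red₁'' red₂'' := by
  constructor
  · intro n'' hn'' hk₁ hk₂
    obtain ⟨x, y, R₀, hx₁, hx₂, hy₂, hy₁, -, -, -, hP₁, hP₂⟩ := H n'' hn'' hk₁ hk₂
    exact ⟨⟨x, hx₁, hx₂, fun z hz => hP₁ z ((RingHom.mem_ker).1 hz)⟩,
      ⟨y, hy₂, hy₁, fun z hz => hP₂ z ((RingHom.mem_ker).1 hz)⟩⟩
  · intro n'' hn'' hk₁ hk₂
    obtain ⟨x, y, R₀, hx₁, hx₂, hy₂, hy₁, -, -, -, hP₁, hP₂⟩ := H n'' hn'' hk₁ hk₂
    exact ⟨⟨y, hy₁, hy₂, hP₂⟩, ⟨x, hx₂, hx₁, hP₁⟩⟩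

end Shapes

section Inst

variable (M : ℕ) [NeZero M] {ℓ : ℕ} [hℓ : Fact ℓ.Prime] (hℓM : ¬ ℓ ∣ M)
  (A : ValuationSubring Qbar) (hA : A.LiesOverPrime ℓ)

local notation "kA" => IsLocalRing.ResidueField A
local notation "A₁" => H45.A0 A ℓ
local notation "L₁" => H45.unrCyclo ℓ
local notation "FkM" => modularFunctionFieldFullC (IsLocalRing.ResidueField A) M
local notation "B1" => H40.chartB (H45.A0 A ℓ) (JN M (ℓ := ℓ))
local notation "BM1" => H40.chartB (H45.A0 A ℓ) (S18.H16.jK (H45.unrCyclo ℓ) M)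
local notation "D1" =>
  integralClosure (Algebra.adjoin (IsLocalRing.ResidueField A)
    {S18.H16.jK (IsLocalRing.ResidueField A) M})
    (modularFunctionFieldFullC (IsLocalRing.ResidueField A) M)
local notation "TT" => LaurentSeries (IsLocalRing.ResidueField A)

include hℓM hA in
/-- the branch ring of chart 1 is a Dedekind domain. -/
theorem isDedekindDomain_D1 : IsDedekindDomain D1 := by
  haveI := S18.H16.isAlgClosed_k A
  haveI := S18.H16.finiteDimensional_Fk M hℓM A hA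
  haveI := S18.H16.isSeparable_Fk M hℓM A hA
  exact S18.H97.isDedekindDomain_intRing_of_isSeparable (S18.H16.jK kA M)
    (S18.H16.transcendental_jk M A)

/-- **(M2e), unfolded output at the real types.** -/
theorem regular_real_unfolded (Pi : PlaceInf M hℓM A hA) (P0 : PlaceZero M hℓM A hA)
    {red₁ red₂ : B1 →+* D1}
    (hTC : TwoComponents red₁ red₂
      (chartMap (iotaMN M (ℓ := ℓ)) (iotaMN_algebraMap M A) (hιint1 M A))
      (chartMap (VMN M (ℓ := ℓ)) (VMN_algebraMap M A) (hVint1 M A))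
      (rbarB (Mod M hℓM A hA) (Mod M hℓM A hA).x_mem (Mod M hℓM A hA).res1_x)
      (WR (FrM M A hA) ℓ (hFrx M A hA)) ℓ
      (algebraMap A₁ B1 ((ℓ : ℕ) : A₁)))
    (hF : S35.H55.L0ChartFacts M hℓM A hA Pi P0 red₁ red₂)
    (Hdel : HdelReal M A) (Hode : HodeReal M hℓM A hA red₁) (HAs : HAsReal M A)
    (HOm : HOmReal M A red₁ red₂)
    {B'' : Type*} [CommRing B''] [IsDomain B''] {red₁'' red₂'' : B'' →+* D1} {qB'' : B''}
    (hred₁'' : Function.Surjective red₁'') (hred₂'' : Function.Surjective red₂'')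
    (hinf'' : ∀ z : B'', red₁'' z = 0 → red₂'' z = 0 → z ∈ Ideal.span {qB''})
    (φ : B1 →+* B'') (hφ₁ : ∀ b : B1, red₁'' (φ b) = red₁ b)
    (hφ₂ : ∀ b : B1, red₂'' (φ b) = red₂ b)
    (u : B'') (hu : IsUnit u) (hφq : φ (algebraMap A₁ B1 ((ℓ : ℕ) : A₁)) = qB'' * u)
    (n'' : Ideal B'') (hn'' : n''.IsMaximal)
    (hk₁ : RingHom.ker red₁'' ≤ n'') (hk₂ : RingHom.ker red₂'' ≤ n'') :
    ∃ x y R₀ : B'', red₁'' x = 0 ∧ red₂'' x ≠ 0 ∧ red₂'' y = 0 ∧ red₁'' y ≠ 0 ∧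
      x * y = qB'' * R₀ ∧ R₀ ∉ n'' ∧
      (∀ z ∈ n'', ∃ t : B'', t ∉ n'' ∧ t * z ∈ Ideal.span {x, y}) ∧
      (∀ z : B'', red₁'' z = 0 → ∃ t : B'', t ∉ n'' ∧ t * z ∈ Ideal.span {x}) ∧
      (∀ z : B'', red₂'' z = 0 → ∃ t : B'', t ∉ n'' ∧ t * z ∈ Ideal.span {y}) := by
  haveI := isDedekindDomain_D1 M hℓM A hA
  refine regular_of_transfer (T := TT) (k := kA) hTC hℓ.out.two_le hF.notField
    (algebraMap_D_injective M A) (qExpand kA ℓ) (hWT_real M A hA)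
    (S28.H39.thetaDer (R := kA)) (S28.DeltaS kA) 1 Hdel Hode
    (fun 𝔠 h𝔠 sb hsb hsb2 _ => HAs 𝔠 h𝔠 sb hsb hsb2) HOm ?_
    hred₁'' hred₂'' hinf'' φ hφ₁ hφ₂ u hu hφq n'' hn'' hk₁ hk₂
  intro n hn _ _
  refine ⟨fun h1 => hn ((Ideal.eq_top_iff_one n).2 ?_), fun h1 => hn ((Ideal.eq_top_iff_one n).2 ?_)⟩
  · rwa [map_one] at h1
  · rwa [map_one] at h1

/-- **(M2e) at the real types, consumer shapes**: `H62.RegularCrossings` and `H84.NodeGen` for
the second package. -/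
theorem regular_real (Pi : PlaceInf M hℓM A hA) (P0 : PlaceZero M hℓM A hA)
    {red₁ red₂ : B1 →+* D1}
    (hTC : TwoComponents red₁ red₂
      (chartMap (iotaMN M (ℓ := ℓ)) (iotaMN_algebraMap M A) (hιint1 M A))
      (chartMap (VMN M (ℓ := ℓ)) (VMN_algebraMap M A) (hVint1 M A))
      (rbarB (Mod M hℓM A hA) (Mod M hℓM A hA).x_mem (Mod M hℓM A hA).res1_x)
      (WR (FrM M A hA) ℓ (hFrx M A hA)) ℓ
      (algebraMap A₁ B1 ((ℓ : ℕ) : A₁)))
    (hF : S35.H55.L0ChartFacts M hℓM A hA Pi P0 red₁ red₂)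
    (Hdel : HdelReal M A) (Hode : HodeReal M hℓM A hA red₁) (HAs : HAsReal M A)
    (HOm : HOmReal M A red₁ red₂)
    {B'' : Type*} [CommRing B''] [IsDomain B''] {red₁'' red₂'' : B'' →+* D1} {qB'' : B''}
    (hred₁'' : Function.Surjective red₁'') (hred₂'' : Function.Surjective red₂'')
    (hinf'' : ∀ z : B'', red₁'' z = 0 → red₂'' z = 0 → z ∈ Ideal.span {qB''})
    (φ : B1 →+* B'') (hφ₁ : ∀ b : B1, red₁'' (φ b) = red₁ b)
    (hφ₂ : ∀ b : B1, red₂'' (φ b) = red₂ b)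
    (u : B'') (hu : IsUnit u) (hφq : φ (algebraMap A₁ B1 ((ℓ : ℕ) : A₁)) = qB'' * u) :
    H62.RegularCrossings red₁'' red₂'' ∧ H84.NodeGen red₁'' red₂'' :=
  consumer_shapes fun n'' hn'' hk₁ hk₂ =>
    regular_real_unfolded M hℓM A hA Pi P0 hTC hF Hdel Hode HAs HOm hred₁'' hred₂'' hinf''
      φ hφ₁ hφ₂ u hu hφq n'' hn'' hk₁ hk₂

end Inst

end Fermat.Agent.S36.H54
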