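import Mathlib
import Fermat.Agent.S36.H92_GaussPi
import Fermat.Agent.CA.H59_BigBallTheta

/-!
# S36 (M2e)(A-ode) (helper59): the differential equation at the `∞`-place `Pi`, real types

`Pi : S34.H55.PlaceInf M hℓM A hA` the place of `F_N = fullC L₁ (ℓ * M)` over the level-`M` Gauss
ring `V_M` whose reduction is the coefficientwise reduction of `t`-expansions.  For `s, s₁ ∈ V_M`
with `s̄₁ ^ ℓ = s̄(t^ℓ)` the element

  `δ := (V s - (ι s₁) ^ ℓ) / ℓ ∈ F_N`      (`V = VMN`: `t ↦ t^ℓ`, `ι = iotaMN`)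

lies in the place ring `PO1 Pi`, and its residue satisfies

  `θ δ̄ = (θ s̄)(t^ℓ) - s̄₁ ^ (ℓ - 1) * θ s̄₁`      in `kA((t))`, `θ = t d/dt`.

This is `hode` of `S36.H54.isUnit_of_ode`.
-/

set_option autoImplicit false
set_option linter.unusedSectionVars false
set_option linter.style.haveILetI false
set_option synthInstance.maxHeartbeats 400000
set_option maxHeartbeats 1600000

noncomputable section

namespace Fermat.Agent.S36.H59

open ModularCurve Polynomial IsLocalRing IntermediateField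
open Fermat.Agent.S18 Fermat.Agent.S18.H92 Fermat.Agent.S34 Fermat.Agent.S34.H92
  Fermat.Agent.S34.H16 Fermat.Agent.S34.H55 Fermat.Agent.CA.H92 Fermat.Agent.CA.H99
  Fermat.Agent.S36.H92 Fermat.Agent.S28 Fermat.Agent.S28.H39

local notation "Qbar" => AlgebraicClosure ℚ

variable (M : ℕ) [NeZero M] {ℓ : ℕ} [hℓ : Fact ℓ.Prime] (hℓM : ¬ ℓ ∣ M)
  (A : ValuationSubring Qbar) (hA : A.LiesOverPrime ℓ)

local notation "kA" => IsLocalRing.ResidueField A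
local notation "A₁" => H45.A0 A ℓ
local notation "L₁" => H45.unrCyclo ℓ
local notation "FM" => modularFunctionFieldFullC (H45.unrCyclo ℓ) M
local notation "FN" => modularFunctionFieldFullC (H45.unrCyclo ℓ) (ℓ * M)
local notation "V" => VM M hℓM A hA
local notation "G'" => bigBall (H45.A0 A ℓ) (H45.resA0 A ℓ)

section Place

attribute [local instance] Fermat.Agent.S34.H16.algebraVMFN

/-- the element `δ = (V s - (ι s₁)^ℓ) / ℓ` of `F_N`. -/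
def deltaN (s s1 : FM) : FN :=
  (VMN M (ℓ := ℓ) s - iotaMN M (ℓ := ℓ) s1 ^ ℓ) / ((ℓ : ℕ) : FN)

theorem natCast_FN_ne_zero : ((ℓ : ℕ) : FN) ≠ 0 := by
  have : ((ℓ : ℕ) : L₁) ≠ 0 := Nat.cast_ne_zero.2 hℓ.out.ne_zero
  intro h0
  apply this
  have h1 : algebraMap L₁ FN ((ℓ : ℕ) : L₁) = 0 := by rw [map_natCast]; exact h0
  exact (map_eq_zero _).mp h1

theorem natCast_mul_deltaN (s s1 : FM) :
    ((ℓ : ℕ) : FN) * deltaN M (ℓ := ℓ) s s1 = VMN M (ℓ := ℓ) s - iotaMN M (ℓ := ℓ) s1 ^ ℓ := by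
  rw [deltaN, mul_div_cancel₀ _ (natCast_FN_ne_zero M)]

/-- the `t`-expansion of `δ`. -/
theorem C_mul_coe_deltaN (s s1 : FM) :
    HahnSeries.C ((ℓ : ℕ) : L₁) * ((deltaN M (ℓ := ℓ) s s1 : FN) : LaurentSeries L₁) =
      qExpand L₁ ℓ (s : LaurentSeries L₁) - (s1 : LaurentSeries L₁) ^ ℓ := by
  have h := congrArg (coeN M (ℓ := ℓ)) (natCast_mul_deltaN M (ℓ := ℓ) s s1)
  rw [map_mul, map_sub, map_pow, map_natCast, coeN_apply, coeN_apply, coeN_apply, coe_VMN,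
    coe_iotaMN] at h
  rw [← h, map_natCast]

include hA in
/-- **(A-ode) at the real types.** -/
theorem deltaN_mem_and_ode (Pi : PlaceInf M hℓM A hA) (s s1 : V)
    (h : resM M hℓM A hA s1 ^ ℓ = qExpand kA ℓ (resM M hℓM A hA s)) :
    ∃ hδ : deltaN M (ℓ := ℓ) (s : FM) (s1 : FM) ∈ PO1 M hℓM A hA Pi,
      thetaOp (Pres1 M hℓM A hA Pi ⟨_, hδ⟩) =
        qExpand kA ℓ (thetaOp (resM M hℓM A hA s)) -
          resM M hℓM A hA s1 ^ (ℓ - 1) * thetaOp (resM M hℓM A hA s1) := by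
  obtain ⟨hs, hsres⟩ := coe_VM_mem_bigBall M hℓM A hA s
  obtain ⟨hs1, hs1res⟩ := coe_VM_mem_bigBall M hℓM A hA s1
  have hq0 : ((ℓ : ℕ) : L₁) ≠ 0 := Nat.cast_ne_zero.2 hℓ.out.ne_zero
  have hϖ : ∀ a : A₁, H45.resA0 A ℓ a = 0 → ∃ c : A₁, a = ((ℓ : ℕ) : A₁) * c := fun a ha =>
    (H45.resA0_eq_zero_iff_dvd hℓ.out hA a).mp ha
  have hrel : bigResFun (H45.A0 A ℓ) (H45.resA0 A ℓ) (((s1 : V) : FM) : LaurentSeries L₁) ^ ℓ =
      qExpand kA ℓ (bigResFun (H45.A0 A ℓ) (H45.resA0 A ℓ) (((s : V) : FM) : LaurentSeries L₁)) := by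
    rw [hsres, hs1res]; exact h
  obtain ⟨δ', hδ'm, hδ'⟩ := CA.H59.exists_delta hϖ ℓ hs hs1 hrel
  have hcast : (((((ℓ : ℕ) : A₁)) : A₁) : L₁) = ((ℓ : ℕ) : L₁) := by
    simp
  rw [hcast] at hδ'
  have hC0 : HahnSeries.C ((ℓ : ℕ) : L₁) ≠ (0 : LaurentSeries L₁) := fun h0 =>
    hq0 (HahnSeries.C_injective (by rw [h0, map_zero]))
  have hδeq : ((deltaN M (ℓ := ℓ) (s : FM) (s1 : FM) : FN) : LaurentSeries L₁) = δ' :=
    mul_left_cancel₀ hC0 ((C_mul_coe_deltaN M (ℓ := ℓ) (s : FM) (s1 : FM)).trans hδ'.symm)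
  have hδm : ((deltaN M (ℓ := ℓ) (s : FM) (s1 : FM) : FN) : LaurentSeries L₁) ∈ G' := by
    rw [hδeq]; exact hδ'm
  have hδ := mem_PO1_of_coe_mem_bigBall M hℓM A hA Pi _ hδm
  refine ⟨hδ, ?_⟩
  rw [Pres1_inf_eq M hℓM A hA Pi ⟨_, hδ⟩, ← hsres, ← hs1res]
  exact CA.H59.ode ℓ hq0 hs hs1 hδm (C_mul_coe_deltaN M (ℓ := ℓ) (s : FM) (s1 : FM))

include hA in
/-- **(A-ode), consumer spelling**: `hode` of `S36.H54.isUnit_of_ode` with `T := kA((t))`,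
`θ := S28.H39.thetaDer'`, `P := (θ s̄)(t^ℓ) / θ s̄`. -/
theorem deltaN_mem_and_hode (Pi : PlaceInf M hℓM A hA) (s s1 : V)
    (h : resM M hℓM A hA s1 ^ ℓ = qExpand kA ℓ (resM M hℓM A hA s))
    (hθs : thetaOp (resM M hℓM A hA s) ≠ 0) :
    ∃ hδ : deltaN M (ℓ := ℓ) (s : FM) (s1 : FM) ∈ PO1 M hℓM A hA Pi,
      (thetaDer' (R := kA)) (Pres1 M hℓM A hA Pi ⟨_, hδ⟩) =
        (thetaDer' (R := kA)) (resM M hℓM A hA s) *
            (qExpand kA ℓ (thetaOp (resM M hℓM A hA s)) / thetaOp (resM M hℓM A hA s)) -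
          resM M hℓM A hA s1 ^ (ℓ - 1) * (thetaDer' (R := kA)) (resM M hℓM A hA s1) := by
  obtain ⟨hδ, hode⟩ := deltaN_mem_and_ode M hℓM A hA Pi s s1 h
  refine ⟨hδ, ?_⟩
  rw [thetaDer'_apply, thetaDer'_apply, thetaDer'_apply, mul_div_cancel₀ _ hθs]
  exact hode

end Place

end Fermat.Agent.S36.H59
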