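import Mathlib
import Fermat.Agent.S36.H59_OdeInst
import Fermat.Agent.S35.H55_L0Pkg

/-!
# S36 (M2e)(R-ode) (helper59): `Hode` of `S36.H54.exists_pair_of_crossing` at the real types

Real types = chart 1 (or chart 2: everything is generic in the chart coordinates `u`, `c`, `w`) of
`S35.H55.exists_l0Pkg`:  `B := chartB A₁ u ⊆ F_N`, `BM := chartB A₁ c ⊆ F_M`,
`D := integralClosure kA[w] ⊆ Fk(M)`, `T := kA((t))` with `D → T` the inclusion `inclk ∘ coe`,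
`ι / V / rbar / W := chartMap iotaMN / chartMap VMN / rbarB Mod / WR (FrM) ℓ`, `q := ℓ`,
`qB := algebraMap A₁ B ℓ`, `θ := thetaOp` (`= S28.H39.thetaDer`, `rfl`), `W_T := qExpand kA ℓ`.

`hode_raw` : for `s s₁ : BM`, `y R₀ : B` with `rbar s₁ ^ ℓ = W (rbar s)` and
`(V s - ι s₁ ^ ℓ) * y = ℓ * R₀` there is `δ : T` with `δ * red₁ y = red₁ R₀` and
`θ δ = W_T (θ (rbar s)) - (rbar s₁) ^ (ℓ - 1) * θ (rbar s₁)`.
-/

set_option autoImplicit false
set_option linter.unusedSectionVars false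
set_option linter.style.haveILetI false
set_option synthInstance.maxHeartbeats 400000
set_option maxHeartbeats 1600000

noncomputable section

namespace Fermat.Agent.S36.H59

open ModularCurve Polynomial IsLocalRing IntermediateField
open Fermat.Agent.S18 Fermat.Agent.S18.H92 Fermat.Agent.S34 Fermat.Agent.S34.H92
  Fermat.Agent.S34.H16 Fermat.Agent.S34.H55 Fermat.Agent.S35.H55
  Fermat.Agent.S28 Fermat.Agent.S28.H39

local notation "Qbar" => AlgebraicClosure ℚ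

variable (M : ℕ) [NeZero M] {ℓ : ℕ} [hℓ : Fact ℓ.Prime] (hℓM : ¬ ℓ ∣ M)
  (A : ValuationSubring Qbar) (hA : A.LiesOverPrime ℓ)

local notation "kA" => IsLocalRing.ResidueField A
local notation "A₁" => H45.A0 A ℓ
local notation "L₁" => H45.unrCyclo ℓ
local notation "FM" => modularFunctionFieldFullC (H45.unrCyclo ℓ) M
local notation "FN" => modularFunctionFieldFullC (H45.unrCyclo ℓ) (ℓ * M)
local notation "FkM" => modularFunctionFieldFullC (IsLocalRing.ResidueField A) M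

section Place

attribute [local instance] Fermat.Agent.S34.H16.algebraVMFN

/-- elements of a level-`M` chart lie in the level-`M` Gauss ring. -/
theorem chart_mem_VM {c : FM} (hc : c ∈ (Mod M hℓM A hA).O1) (b : ↥(H40.chartB A₁ c)) :
    (b : FM) ∈ VM M hℓM A hA :=
  mem_V_of_mem_O1 M hℓM A hA (chart_le_O1 (Mod M hℓM A hA) hc b.2)

/-- `inclk (rbar b) = resM b`. -/
theorem inclk_rbarB {c : FM} (hc : c ∈ (Mod M hℓM A hA).O1) {w : FkM}
    (hcw : (Mod M hℓM A hA).res1 ⟨c, hc⟩ = w) (b : ↥(H40.chartB A₁ c)) :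
    inclk M A ((rbarB (Mod M hℓM A hA) hc hcw b :
        ↥(integralClosure (Algebra.adjoin kA {w}) FkM)) : FkM) =
      resM M hℓM A hA ⟨(b : FM), chart_mem_VM M hℓM A hA hc b⟩ := by
  rw [coe_rbarB]
  exact inclk_res1 M hℓM A hA (b : FM) (chart_le_O1 (Mod M hℓM A hA) hc b.2)

/-- the relation `rbar s₁ ^ ℓ = W (rbar s)` read in `kA((t))`. -/
theorem resM_pow_eq_of_rbarB {c : FM} (hc : c ∈ (Mod M hℓM A hA).O1) {w : FkM}
    (hcw : (Mod M hℓM A hA).res1 ⟨c, hc⟩ = w) (hFrw : FrM M A hA w = w ^ ℓ)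
    (s s1 : ↥(H40.chartB A₁ c))
    (hrel : rbarB (Mod M hℓM A hA) hc hcw s1 ^ ℓ =
      WR (FrM M A hA) ℓ hFrw (rbarB (Mod M hℓM A hA) hc hcw s)) :
    resM M hℓM A hA ⟨(s1 : FM), chart_mem_VM M hℓM A hA hc s1⟩ ^ ℓ =
      qExpand kA ℓ (resM M hℓM A hA ⟨(s : FM), chart_mem_VM M hℓM A hA hc s⟩) := by
  rw [← inclk_rbarB M hℓM A hA hc hcw s, ← inclk_rbarB M hℓM A hA hc hcw s1]
  have h1 : inclk M A (((rbarB (Mod M hℓM A hA) hc hcw s1 ^ ℓ :
      ↥(integralClosure (Algebra.adjoin kA {w}) FkM)) : FkM)) =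
      inclk M A ((WR (FrM M A hA) ℓ hFrw (rbarB (Mod M hℓM A hA) hc hcw s) :
        ↥(integralClosure (Algebra.adjoin kA {w}) FkM)) : FkM) := by rw [hrel]
  rw [SubmonoidClass.coe_pow, map_pow] at h1
  rw [h1, coe_WR]
  exact coe_FrM M A hA _

/-- `δ * y = R₀` in `F_N`. -/
theorem deltaN_mul_eq {u : FN} {c : FM}
    (hιint : IsIntegral (Algebra.adjoin A₁ {u}) (iotaMN M (ℓ := ℓ) c))
    (hVint : IsIntegral (Algebra.adjoin A₁ {u}) (VMN M (ℓ := ℓ) c))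
    (s s1 : ↥(H40.chartB A₁ c)) (y R0 : ↥(H40.chartB A₁ u))
    (hxy : (chartMap (VMN M (ℓ := ℓ)) (VMN_algebraMap M A) hVint s -
        chartMap (iotaMN M (ℓ := ℓ)) (iotaMN_algebraMap M A) hιint s1 ^ ℓ) * y =
      algebraMap A₁ ↥(H40.chartB A₁ u) ((ℓ : ℕ) : A₁) * R0) :
    deltaN M (ℓ := ℓ) (s : FM) (s1 : FM) * (y : FN) = (R0 : FN) := by
  have hℓ0 : ((ℓ : ℕ) : FN) ≠ 0 := natCast_FN_ne_zero M
  have hxy' : (((chartMap (VMN M (ℓ := ℓ)) (VMN_algebraMap M A) hVint s -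
      chartMap (iotaMN M (ℓ := ℓ)) (iotaMN_algebraMap M A) hιint s1 ^ ℓ) * y :
        ↥(H40.chartB A₁ u)) : FN) =
      ((algebraMap A₁ ↥(H40.chartB A₁ u) ((ℓ : ℕ) : A₁) * R0 : ↥(H40.chartB A₁ u)) : FN) := by
    rw [hxy]
  have hcoeℓ : ((algebraMap A₁ ↥(H40.chartB A₁ u) ((ℓ : ℕ) : A₁) : ↥(H40.chartB A₁ u)) : FN) =
      ((ℓ : ℕ) : FN) := by
    show algebraMap A₁ FN ((ℓ : ℕ) : A₁) = _
    rw [map_natCast]
  rw [MulMemClass.coe_mul, MulMemClass.coe_mul, hcoeℓ, AddSubgroupClass.coe_sub,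
    SubmonoidClass.coe_pow, coe_chartMap, coe_chartMap] at hxy'
  apply mul_left_cancel₀ hℓ0
  rw [← mul_assoc, natCast_mul_deltaN]
  exact hxy'

include hA in
/-- **(R-ode)**: `Hode` at the real types, raw form (no `Algebra D T` instance: `D → T` is written
`inclk M A ((d : D) : FkM)`; `θ` is written `thetaOp`). -/
theorem hode_raw (Pi : PlaceInf M hℓM A hA) (P0 : PlaceZero M hℓM A hA) {u : FN} {c : FM}
    {w : FkM} (hc : c ∈ (Mod M hℓM A hA).O1) (hcw : (Mod M hℓM A hA).res1 ⟨c, hc⟩ = w)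
    (hFrw : FrM M A hA w = w ^ ℓ)
    (hιint : IsIntegral (Algebra.adjoin A₁ {u}) (iotaMN M (ℓ := ℓ) c))
    (hVint : IsIntegral (Algebra.adjoin A₁ {u}) (VMN M (ℓ := ℓ) c))
    (red₁ red₂ : ↥(H40.chartB A₁ u) →+* ↥(integralClosure (Algebra.adjoin kA {w}) FkM))
    (hF : L0ChartFacts M hℓM A hA Pi P0 red₁ red₂)
    (s s1 : ↥(H40.chartB A₁ c)) (y R0 : ↥(H40.chartB A₁ u))
    (hrel : rbarB (Mod M hℓM A hA) hc hcw s1 ^ ℓ =
      WR (FrM M A hA) ℓ hFrw (rbarB (Mod M hℓM A hA) hc hcw s))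
    (hxy : (chartMap (VMN M (ℓ := ℓ)) (VMN_algebraMap M A) hVint s -
        chartMap (iotaMN M (ℓ := ℓ)) (iotaMN_algebraMap M A) hιint s1 ^ ℓ) * y =
      algebraMap A₁ ↥(H40.chartB A₁ u) ((ℓ : ℕ) : A₁) * R0) :
    ∃ del : LaurentSeries kA,
      del * inclk M A ((red₁ y : ↥(integralClosure (Algebra.adjoin kA {w}) FkM)) : FkM) =
          inclk M A ((red₁ R0 : ↥(integralClosure (Algebra.adjoin kA {w}) FkM)) : FkM) ∧
        thetaOp del =
          qExpand kA ℓ (thetaOp (inclk M A ((rbarB (Mod M hℓM A hA) hc hcw s :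
            ↥(integralClosure (Algebra.adjoin kA {w}) FkM)) : FkM))) -
          inclk M A ((rbarB (Mod M hℓM A hA) hc hcw s1 :
            ↥(integralClosure (Algebra.adjoin kA {w}) FkM)) : FkM) ^ (ℓ - 1) *
            thetaOp (inclk M A ((rbarB (Mod M hℓM A hA) hc hcw s1 :
              ↥(integralClosure (Algebra.adjoin kA {w}) FkM)) : FkM)) := by
  have hrel' := resM_pow_eq_of_rbarB M hℓM A hA hc hcw hFrw s s1 hrel
  obtain ⟨hδ, hode⟩ := deltaN_mem_and_ode M hℓM A hA Pi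
    ⟨(s : FM), chart_mem_VM M hℓM A hA hc s⟩ ⟨(s1 : FM), chart_mem_VM M hℓM A hA hc s1⟩ hrel'
  refine ⟨Pres1 M hℓM A hA Pi ⟨_, hδ⟩, ?_, ?_⟩
  · have hmul := deltaN_mul_eq M A hιint hVint s s1 y R0 hxy
    rw [hF.res_inf y, hF.res_inf R0, ← map_mul]
    exact congrArg (Pres1 M hℓM A hA Pi) (Subtype.ext hmul)
  · rw [inclk_rbarB M hℓM A hA hc hcw s, inclk_rbarB M hℓM A hA hc hcw s1]
    exact hode

end Place

end Fermat.Agent.S36.H59
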