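import Mathlib
import Fermat.Agent.S36.H59_M2eInputs
import Fermat.Agent.S36.H54_M2eSetup

/-!
# S36 (M2e)(R-ode) (helper59): END LINE `H54.HodeReal` (chart 1 of `S35.H55.exists_l0Pkg`)

`hodeReal Pi P0 hF : H54.HodeReal M hℓM A hA red₁` for every pair of reductions `red₁ red₂` on
chart 1 with the side facts `hF : S35.H55.L0ChartFacts M hℓM A hA Pi P0 red₁ red₂`.
-/

set_option autoImplicit false
set_option linter.unusedSectionVars false
set_option linter.style.haveILetI false
set_option synthInstance.maxHeartbeats 400000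
set_option maxHeartbeats 1600000

noncomputable section

namespace Fermat.Agent.S36.H59

open ModularCurve Polynomial IsLocalRing
open Fermat.Agent.S18 Fermat.Agent.S34 Fermat.Agent.S34.H92 Fermat.Agent.S34.H16
  Fermat.Agent.S34.H55 Fermat.Agent.S35.H55 Fermat.Agent.S28

local notation "Qbar" => AlgebraicClosure ℚ

variable (M : ℕ) [NeZero M] {ℓ : ℕ} [hℓ : Fact ℓ.Prime] (hℓM : ¬ ℓ ∣ M)
  (A : ValuationSubring Qbar) (hA : A.LiesOverPrime ℓ)

local notation "kA" => IsLocalRing.ResidueField A
local notation "A₁" => H45.A0 A ℓ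
local notation "L₁" => H45.unrCyclo ℓ
local notation "FkM" => modularFunctionFieldFullC (IsLocalRing.ResidueField A) M
local notation "B1" => H40.chartB (H45.A0 A ℓ) (JN M (ℓ := ℓ))
local notation "D1" =>
  integralClosure (Algebra.adjoin (IsLocalRing.ResidueField A)
    {S18.H16.jK (IsLocalRing.ResidueField A) M})
    (modularFunctionFieldFullC (IsLocalRing.ResidueField A) M)

include hA in
/-- **(R-ode), END LINE**: `Hode` at the real types of chart 1. -/
theorem hodeReal (Pi : PlaceInf M hℓM A hA) (P0 : PlaceZero M hℓM A hA)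
    {red₁ red₂ : B1 →+* D1} (hF : L0ChartFacts M hℓM A hA Pi P0 red₁ red₂) :
    H54.HodeReal M hℓM A hA red₁ := by
  intro s s₁ y R₀ hrel hxy
  obtain ⟨del, h1, h2⟩ := hode_raw M hℓM A hA Pi P0 (Mod M hℓM A hA).x_mem
    (Mod M hℓM A hA).res1_x (hFrx M A hA) (hιint1 M A) (hVint1 M A) red₁ red₂ hF s s₁ y R₀
    hrel hxy
  exact ⟨del, h1, h2⟩

end Fermat.Agent.S36.H59
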