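/-
helper54 — S36 row (M2e), FINAL FORM at the E-level chart 1 of level `(M, ℓ)`.

`regular_E_of_HAs`: `H62.RegularCrossings red₁'' red₂'' ∧ H84.NodeGen red₁'' red₂''` for the output
`(red₁'', red₂'')` of `S35.H70.exists_twoComponentsE_JK`, with the leaves (R-del) `H54.hdelReal`,
(R-ode) `H59.hodeReal`, (R-Om) `H17.hOmReal` discharged; the only remaining hypothesis is
(R-As) `HAs : HAsReal M A`.
-/
import Mathlib
import Fermat.Agent.S36.H54_M2eE
import Fermat.Agent.S36.H54_M2eHdel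
import Fermat.Agent.S36.H59_M2eOdeReal
import Fermat.Agent.S36.H17_OmegaRealH54

set_option autoImplicit false
set_option linter.unusedSectionVars false
set_option linter.style.haveILetI false
set_option synthInstance.maxHeartbeats 400000
set_option maxHeartbeats 1600000

noncomputable section

namespace Fermat.Agent.S36.H54

open ModularCurve Polynomial IsLocalRing Fermat.Agent.S28
open Fermat.Agent.S18 Fermat.Agent.S34 Fermat.Agent.S34.H92 Fermat.Agent.S34.H16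
open Fermat.Agent.S34.H55 Fermat.Agent.S34.H83

local notation "Qbar" => AlgebraicClosure ℚ

section Final

variable (M : ℕ) [NeZero M] {ℓ : ℕ} [hℓ : Fact ℓ.Prime] (hℓM : ¬ ℓ ∣ M)
  (A : ValuationSubring Qbar) (hA : A.LiesOverPrime ℓ)

local notation "kA" => IsLocalRing.ResidueField A
local notation "A₁" => H45.A0 A ℓ
local notation "L₁" => H45.unrCyclo ℓ
local notation "FkM" => modularFunctionFieldFullC (IsLocalRing.ResidueField A) M
local notation "B1" => H40.chartB (H45.A0 A ℓ) (JN M (ℓ := ℓ))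
local notation "D1" =>
  integralClosure (Algebra.adjoin (IsLocalRing.ResidueField A)
    {S18.H16.jK (IsLocalRing.ResidueField A) M})
    (modularFunctionFieldFullC (IsLocalRing.ResidueField A) M)

/-- **(M2e) at the E-level chart 1, all leaves but (R-As) discharged.** -/
theorem regular_E_of_HAs (HAs : HAsReal M A)
    (Pi : PlaceInf M hℓM A hA) (P0 : PlaceZero M hℓM A hA)
    {red₁ red₂ : B1 →+* D1}
    (hTC : TwoComponents red₁ red₂
      (chartMap (iotaMN M (ℓ := ℓ)) (iotaMN_algebraMap M A) (hιint1 M A))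
      (chartMap (VMN M (ℓ := ℓ)) (VMN_algebraMap M A) (hVint1 M A))
      (rbarB (Mod M hℓM A hA) (Mod M hℓM A hA).x_mem (Mod M hℓM A hA).res1_x)
      (WR (FrM M A hA) ℓ (hFrx M A hA)) ℓ
      (algebraMap A₁ B1 ((ℓ : ℕ) : A₁)))
    (hF : S35.H55.L0ChartFacts M hℓM A hA Pi P0 red₁ red₂)
    (E : IntermediateField (H45.unrCyclo ℓ) Qbar)
    (π u₀ : ↥(H45.cutOver A E)) (hu₀ : IsUnit u₀)
    (hℓπ : ((ℓ : ℕ) : ↥(H45.cutOver A E)) = π * u₀)
    {red₁'' red₂'' : ↥(H40.chartB ↥(H45.cutOver A E)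
        (H95.JK ↥E (ℓ * M) ℓ (Dvd.intro M rfl))) →+* D1}
    (hc₁ : ∀ b, red₁'' (H95.chartBC_JK (A := A) E (ℓ * M) ℓ (Dvd.intro M rfl) b) = red₁ b)
    (hc₂ : ∀ b, red₂'' (H95.chartBC_JK (A := A) E (ℓ * M) ℓ (Dvd.intro M rfl) b) = red₂ b)
    {BM'' : Type*} [CommRing BM'']
    {ι'' V'' : BM'' →+* ↥(H40.chartB ↥(H45.cutOver A E)
        (H95.JK ↥E (ℓ * M) ℓ (Dvd.intro M rfl)))}
    {rbar'' : BM'' →+* D1} {W'' : D1 →+* D1} {qn : ℕ}
    (hTC'' : TwoComponents red₁'' red₂'' ι'' V'' rbar'' W'' qn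
      (algebraMap ↥(H45.cutOver A E)
        ↥(H40.chartB ↥(H45.cutOver A E) (H95.JK ↥E (ℓ * M) ℓ (Dvd.intro M rfl))) π)) :
    H62.RegularCrossings red₁'' red₂'' ∧ H84.NodeGen red₁'' red₂'' :=
  regular_E M hℓM A hA Pi P0 hTC hF (hdelReal M hℓM A hA)
    (S36.H59.hodeReal M hℓM A hA Pi P0 hF) HAs (S36.H17.hOmReal M hℓM A hA Pi P0 hTC hF)
    E π u₀ hu₀ hℓπ hc₁ hc₂ hTC''

end Final

end Fermat.Agent.S36.H54
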