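/-
helper54 — S36 row (M2e), E-LEVEL FORM in helper70's `redE` vocabulary.

`regular_redE_of_HAs`: `H62.RegularCrossings ∧ H84.NodeGen` for the reductions
`S35.H70.redE .. red₁ _`, `S35.H70.redE .. red₂ _` of the chart
`chartB (cutOver A E) (baseChangeE E (ℓ M) (JN M))` (the shape in which helper89's
`levelMaps_cutOver` and helper70's `twoComponents_cutOver` produce the level-`q L` reductions).
-/
import Mathlib
import Fermat.Agent.S36.H54_M2eFinal
import Fermat.Agent.S35.H70_TwoComponentsBCFinal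

set_option autoImplicit false
set_option linter.unusedSectionVars false
set_option linter.style.haveILetI false
set_option synthInstance.maxHeartbeats 400000
set_option maxHeartbeats 1600000

noncomputable section

namespace Fermat.Agent.S36.H54

open ModularCurve Polynomial IsLocalRing Fermat.Agent.S28
open Fermat.Agent.S18 Fermat.Agent.S34 Fermat.Agent.S34.H92 Fermat.Agent.S34.H16
open Fermat.Agent.S34.H55 Fermat.Agent.S34.H83

local notation "Qbar" => AlgebraicClosure ℚ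

section RedE

variable (M : ℕ) [NeZero M] {ℓ : ℕ} [hℓ : Fact ℓ.Prime] (hℓM : ¬ ℓ ∣ M)
  (A : ValuationSubring Qbar) (hA : A.LiesOverPrime ℓ)

local notation "kA" => IsLocalRing.ResidueField A
local notation "A₁" => H45.A0 A ℓ
local notation "L₁" => H45.unrCyclo ℓ
local notation "FkM" => modularFunctionFieldFullC (IsLocalRing.ResidueField A) M
local notation "B1" => H40.chartB (H45.A0 A ℓ) (JN M (ℓ := ℓ))
local notation "D1" =>
  integralClosure (Algebra.adjoin (IsLocalRing.ResidueField A)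
    {S18.H16.jK (IsLocalRing.ResidueField A) M})
    (modularFunctionFieldFullC (IsLocalRing.ResidueField A) M)

/-- **(M2e) at the E-level chart 1, `redE` vocabulary, all leaves but (R-As) discharged.** -/
theorem regular_redE_of_HAs (HAs : HAsReal M A)
    (Pi : PlaceInf M hℓM A hA) (P0 : PlaceZero M hℓM A hA)
    {red₁ red₂ : B1 →+* D1}
    (hTC : TwoComponents red₁ red₂
      (chartMap (iotaMN M (ℓ := ℓ)) (iotaMN_algebraMap M A) (hιint1 M A))
      (chartMap (VMN M (ℓ := ℓ)) (VMN_algebraMap M A) (hVint1 M A))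
      (rbarB (Mod M hℓM A hA) (Mod M hℓM A hA).x_mem (Mod M hℓM A hA).res1_x)
      (WR (FrM M A hA) ℓ (hFrx M A hA)) ℓ
      (algebraMap A₁ B1 ((ℓ : ℕ) : A₁)))
    (hF : S35.H55.L0ChartFacts M hℓM A hA Pi P0 red₁ red₂)
    (E : IntermediateField (H45.unrCyclo ℓ) Qbar)
    (π : ↥(H45.cutOver A E)) (hπ : maximalIdeal ↥(H45.cutOver A E) = Ideal.span {π})
    (u₀ : ↥(H45.cutOver A E)) (hu₀ : IsUnit u₀)
    (hℓπ : ((ℓ : ℕ) : ↥(H45.cutOver A E)) = π * u₀)
    (hN : S35.H70.GenBy (A := A) E (ℓ * M) (JN M (ℓ := ℓ)))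
    (hq₁ : red₁ (algebraMap A₁ B1 ((ℓ : ℕ) : A₁)) = 0)
    (hq₂ : red₂ (algebraMap A₁ B1 ((ℓ : ℕ) : A₁)) = 0) :
    H62.RegularCrossings
        (S35.H70.redE hℓ.out hA E (ℓ * M) (JN M (ℓ := ℓ)) π hπ hN red₁ hq₁)
        (S35.H70.redE hℓ.out hA E (ℓ * M) (JN M (ℓ := ℓ)) π hπ hN red₂ hq₂) ∧
      H84.NodeGen
        (S35.H70.redE hℓ.out hA E (ℓ * M) (JN M (ℓ := ℓ)) π hπ hN red₁ hq₁)
        (S35.H70.redE hℓ.out hA E (ℓ * M) (JN M (ℓ := ℓ)) π hπ hN red₂ hq₂) := by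
  refine regular_real M hℓM A hA Pi P0 hTC hF (hdelReal M hℓM A hA)
    (S36.H59.hodeReal M hℓM A hA Pi P0 hF) HAs (S36.H17.hOmReal M hℓM A hA Pi P0 hTC hF)
    (S35.H70.redE_surjective hℓ.out hA E (ℓ * M) _ π hπ hN red₁ hq₁ hTC.hred₁)
    (S35.H70.redE_surjective hℓ.out hA E (ℓ * M) _ π hπ hN red₂ hq₂ hTC.hred₂)
    (S35.H70.redE_hinf hℓ.out hA E (ℓ * M) _ π hπ hN hq₁ hq₂ hTC.hinf)
    (S34.H70.chartMapE (A := A) E (ℓ * M) (JN M (ℓ := ℓ)))
    (S35.H70.redE_chartMapE hℓ.out hA E (ℓ * M) _ π hπ hN red₁ hq₁)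
    (S35.H70.redE_chartMapE hℓ.out hA E (ℓ * M) _ π hπ hN red₂ hq₂)
    (algebraMap ↥(H45.cutOver A E) _ u₀) (hu₀.map _) ?_
  rw [← map_mul, ← hℓπ]
  apply Subtype.ext
  rw [S34.H70.coe_chartMapE]
  show H45.baseChangeE E (ℓ * M) (algebraMap A₁ _ ((ℓ : ℕ) : A₁)) = algebraMap ↥(H45.cutOver A E) _ _
  rw [H95.baseChangeE_algebraMap_A0, map_natCast]

end RedE

end Fermat.Agent.S36.H54
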