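/-
S36 (M2), brick (Der-res) in the chart vocabulary of S34: for a HORIZONTAL height-one prime `p`
of a chart `B` (a noetherian integrally closed domain, integral over `R[j]`), the valuation ring
`S34.H56.valuationSubringAt p h1 = B_p ⊆ F` has residue field algebraic over `k` (`R → k → F`,
`k ⊆ B_p`).  This is the hypothesis `hres` of `CA.H32.deriv_mem` / `CA.H32.horizontal_unit`
(and `halg` of `CA.H33.deriv_mem`, `CA.H49.derivation_mem_valuationSubring`).
-/
import Mathlib
import Fermat.Agent.S18.H40_CechFG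
import Fermat.Agent.S34.H56_PrimeVal
import Fermat.Agent.CA.H32_ResidueAlgebraic

set_option autoImplicit false

namespace Fermat.Agent.S36.H32

open Polynomial Fermat.Agent.S34.H56 Fermat.Agent.CA.H42

section General

variable {R k B K : Type*} [CommRing R] [Field k] [CommRing B] [IsDomain B] [Field K]
  [Algebra B K] [IsFractionRing B K] [IsNoetherianRing B] [IsIntegrallyClosed B]
  [Algebra R k] [Algebra k K] [Algebra R B] [Algebra R K] [IsScalarTower R k K]
  [IsScalarTower R B K]

omit [IsDomain B] [IsFractionRing B K] [IsNoetherianRing B] [IsIntegrallyClosed B] in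
/-- `k ⊆ B_p` as soon as `p ∩ R = 0` and `k = Frac R`. -/
theorem memAt_algebraMap_of_horizontal [IsDomain R] [IsFractionRing R k] (p : Ideal B)
    (hhor : ∀ r : R, r ≠ 0 → algebraMap R B r ∉ p) (c : k) : MemAt p (algebraMap k K c) := by
  obtain ⟨a, b, hb, hab⟩ := IsFractionRing.div_surjective (A := R) c
  have hb0 : b ≠ 0 := nonZeroDivisors.ne_zero hb
  have hbk : algebraMap R k b ≠ 0 := fun h => hb0 ((IsFractionRing.injective R k) (by
    rw [h, map_zero]))
  refine ⟨algebraMap R B a, algebraMap R B b, hhor b hb0, ?_⟩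
  rw [← IsScalarTower.algebraMap_apply R B K, ← IsScalarTower.algebraMap_apply R B K,
    IsScalarTower.algebraMap_apply R k K, IsScalarTower.algebraMap_apply R k K a, ← map_mul,
    ← hab, div_mul_cancel₀ _ hbk]

/-- **(Der-res) at a height-one prime of a chart.** -/
theorem exists_poly_valuation_lt_one_at (p : Ideal B) [hp : p.IsPrime] (h1 : p.height = 1)
    (hk : ∀ c : k, MemAt p (algebraMap k K c)) (j : B)
    (hint : ∀ b : B, IsIntegral (Algebra.adjoin R {algebraMap B K j}) (algebraMap B K b)) :
    ∀ x : K, MemAt p x →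
      ∃ μ : k[X], μ ≠ 0 ∧ (valuationSubringAt (K := K) p h1).valuation (aeval x μ) < 1 := by
  have hnt : ∃ y : K, y ≠ 0 ∧ (valuationSubringAt (K := K) p h1).valuation y < 1 := by
    obtain ⟨b, hbp, hb0⟩ :=
      Submodule.exists_mem_ne_zero_of_ne_bot (Ideal.ne_bot_of_height_eq_one h1)
    refine ⟨algebraMap B K b, fun h => hb0 ((IsFractionRing.injective B K) (by
      rw [h, map_zero])), (algebraMap_mem_nonunits_iff h1 b).mpr hbp⟩
  refine CA.H32.exists_poly_valuation_lt_one_of_chart (R := R) (valuationSubringAt (K := K) p h1)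
    hk hnt (algebraMap B K j) (algebraMap_mem_valuationSubringAt h1 j)
    (IsScalarTower.toAlgHom R B K).range ?_ ?_ ?_
  · rintro x ⟨b, rfl⟩
    exact hint b
  · rintro x ⟨b, rfl⟩
    exact algebraMap_mem_valuationSubringAt h1 b
  · rintro x ⟨a, b, hb, hab⟩
    exact ⟨algebraMap B K a, ⟨a, rfl⟩, algebraMap B K b, ⟨b, rfl⟩,
      (valuation_eq_one_iff h1).mpr (isUnitAt_algebraMap hb hp.ne_top), hab⟩

end General

section Chart

open Fermat.Agent.S18.H40

variable {R k F : Type*} [CommRing R] [Field k] [Field F] [Algebra R k] [Algebra k F]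
  [Algebra R F] [IsScalarTower R k F]

/-- **(Der-res) at a height-one prime of `chartB R j`.** -/
theorem exists_poly_valuation_lt_one_chartB (j : F) [IsFractionRing ↥(chartB R j) F]
    [IsNoetherianRing ↥(chartB R j)] [IsIntegrallyClosed ↥(chartB R j)]
    (p : Ideal ↥(chartB R j)) [hp : p.IsPrime] (h1 : p.height = 1)
    (hk : ∀ c : k, MemAt p (algebraMap k F c)) :
    ∀ x : F, MemAt p x →
      ∃ μ : k[X], μ ≠ 0 ∧ (valuationSubringAt (K := F) p h1).valuation (aeval x μ) < 1 :=
  exists_poly_valuation_lt_one_at (R := R) p h1 hk ⟨j, self_mem_chartB j⟩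
    (fun b => mem_chartB.mp b.2)

end Chart

end Fermat.Agent.S36.H32
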