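/-
helper13 — S36 (A-hor), chart level, generic in the rings (no modular curves).
Route of helper62 #3361 (2) ("(A-hor-L)"): the six-fold differential
`A_s := j⁴ (j - 1728)³ / (del j)⁶` is a unit at every horizontal height-one prime through a
closed point `a` of the level-`L` chart at which the chart is regular with parameters `(π, s)`,
`del` the derivation with `del s = 1`.

* `isLocalRing_locSubring` : the subring `B_p ⊆ F` (`S34.H21.locSubring`) is a local ring.
* `inv_mem_locSubring`, `inv_notMem_locSubring`.
* `derivation_mem_locSubring` : (Der-1)+(Der-2) at a closed point `a` of a finite type chart: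
  `a B_a = (π, s)`, `B = R + a`, `del s = 1` ⟹ `del` preserves `B_a` (via `CA.H9`).
* `valuation_sixfold_eq_one` : the valuation lemma over a DVR with a unit derivation
  (`e = 3, 2, 1` over the `j`-line ⟹ `v (A_s) = 1`), via `CA.H32`.
* `derivation_memAt_of_le` : quotient rule `B_a → B_H`, `H ≤ a`.
* `isUnitAt_sixfold_of_horizontal` : **(A-hor-L)** with the e-data in ORD form as hypothesis `hE`.
* `isUnitAt_sixfold` : + local Hartogs (vertical primes as a hypothesis) ⟹ `A_s ∈ (B_a)ˣ`.
-/
import Mathlib
import Fermat.Agent.CA.H9_DerivationLocal2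
import Fermat.Agent.CA.H32_DerivHorizontal
import Fermat.Agent.CA.H79_DerivUnique
import Fermat.Agent.S34.H3_PlaceChart
import Fermat.Agent.S34.H21_ModelHypCharts
import Fermat.Agent.S36.H32_HorizontalRes
import Fermat.Agent.S34.H56_Step3Chart

set_option autoImplicit false
set_option linter.unusedSectionVars false
set_option linter.style.haveILetI false

namespace Fermat.Agent.S36.H13

open Fermat.Agent.S34 Fermat.Agent.S34.H56 Fermat.Agent.S34.H3 Fermat.Agent.CA

section LocalRing

variable {B F : Type*} [CommRing B] [IsDomain B] [Field F] [Algebra B F] [IsFractionRing B F]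

/-- `B_p ⊆ F` is a local ring. -/
theorem isLocalRing_locSubring (p : Ideal B) [hp : p.IsPrime] :
    IsLocalRing (H21.locSubring (F := F) p) := by
  haveI : Nontrivial (H21.locSubring (F := F) p) := inferInstance
  refine IsLocalRing.of_isUnit_or_isUnit_one_sub_self fun x => ?_
  obtain ⟨x, a, s, hs, has⟩ := x
  have hs0 : algebraMap B F s ≠ 0 := fun h => hs (by
    have : s = 0 := IsFractionRing.injective B F (by rw [h, map_zero])
    rw [this]; exact p.zero_mem)
  -- general: an element `y / u` with `y ∉ p` is a unit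
  have key : ∀ (z : F) (y u : B), y ∉ p → u ∉ p → z * algebraMap B F u = algebraMap B F y →
      ∀ hz : z ∈ H21.locSubring (F := F) p, IsUnit (⟨z, hz⟩ : H21.locSubring (F := F) p) := by
    intro z y u hy hu hzu hz
    have hy0 : algebraMap B F y ≠ 0 := fun h => hy (by
      have : y = 0 := IsFractionRing.injective B F (by rw [h, map_zero])
      rw [this]; exact p.zero_mem)
    have hz0 : z ≠ 0 := by
      rintro rfl
      rw [zero_mul] at hzu
      exact hy0 hzu.symm
    have hinv : z⁻¹ ∈ H21.locSubring (F := F) p := by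
      refine ⟨u, y, hy, ?_⟩
      rw [← hzu, ← mul_assoc, inv_mul_cancel₀ hz0, one_mul]
    refine isUnit_iff_exists_inv.mpr ⟨⟨z⁻¹, hinv⟩, ?_⟩
    apply Subtype.ext
    show z * z⁻¹ = 1
    exact mul_inv_cancel₀ hz0
  by_cases ha : a ∈ p
  · right
    have h1 : (1 - x) * algebraMap B F s = algebraMap B F (s - a) := by
      rw [map_sub, ← has]; ring
    have hsa : s - a ∉ p := fun h => hs (by
      have := p.add_mem h ha
      rwa [sub_add_cancel] at this)
    exact key (1 - x) (s - a) s hsa hs h1 _
  · left
    exact key x a s ha hs has _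

end LocalRing

section LevelL

variable {R K : Type*} [CommRing R] [Field K] [Algebra R K]
variable {B F : Type*} [CommRing B] [IsDomain B] [Field F] [Algebra B F] [IsFractionRing B F]
  [Algebra R B] [Algebra K F] [Algebra R F] [IsScalarTower R B F] [IsScalarTower R K F]

/-- Elements outside the prime `p` are units of `B_p`. -/
theorem inv_mem_locSubring {p : Ideal B} [hp : p.IsPrime] {u : B} (hu : u ∉ p) :
    (algebraMap B F u)⁻¹ ∈ H21.locSubring (F := F) p := by
  have hu0 : algebraMap B F u ≠ 0 := fun h => hu (by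
    have : u = 0 := IsFractionRing.injective B F (by rw [h, map_zero])
    rw [this]; exact p.zero_mem)
  exact ⟨1, u, hu, by rw [inv_mul_cancel₀ hu0, map_one]⟩

/-- Nonzero elements of the prime `p` are non-units of `B_p`. -/
theorem inv_notMem_locSubring {p : Ideal B} [p.IsPrime] {z : B} (hz : z ∈ p) (hz0 : z ≠ 0) :
    (algebraMap B F z)⁻¹ ∉ H21.locSubring (F := F) p := by
  rintro ⟨y, u, hu, hyu⟩
  have hz0' : algebraMap B F z ≠ 0 := fun h => hz0 (IsFractionRing.injective B F (by
    rw [h, map_zero]))
  apply hu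
  have : u = z * y := IsFractionRing.injective B F (by
    rw [map_mul, ← hyu]; field_simp)
  rw [this]
  exact Ideal.mul_mem_right _ _ hz

/-- **(Der-1)+(Der-2) at a closed point of the level-`L` chart.**  `B` a finite type `R`-algebra
(a domain with fraction field `F`), `a` a prime of `B` with `a B_a = (π, s)` and `B = R + a`
(the residue field at `a` is that of `R`), `del` a `K`-derivation of `F` with `del s = 1`.
Then `del` preserves `B_a`. -/
theorem derivation_mem_locSubring [Algebra.FiniteType R B] (π : R) (a : Ideal B) [ha : a.IsPrime]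
    (s : B) (hπ0 : algebraMap R B π ≠ 0) (hπa : algebraMap R B π ∈ a) (hsa : s ∈ a)
    (hgen : ∀ z ∈ a, ∃ t, t ∉ a ∧ t * z ∈ Ideal.span {algebraMap R B π, s})
    (hres : ∀ x : B, ∃ c : R, x - algebraMap R B c ∈ a)
    (del : Derivation K F F) (hdel : del (algebraMap B F s) = 1) :
    ∀ x ∈ H21.locSubring (F := F) a, del x ∈ H21.locSubring (F := F) a := by
  haveI := isLocalRing_locSubring (F := F) a
  have hinj := IsFractionRing.injective B F
  have hs0 : s ≠ 0 := by
    rintro rfl
    rw [map_zero, map_zero] at hdel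
    exact zero_ne_one hdel
  have hconst : ∀ r : R, del (algebraMap B F (algebraMap R B r)) = 0 := by
    intro r
    rw [← IsScalarTower.algebraMap_apply R B F, IsScalarTower.algebraMap_apply R K F,
      Derivation.map_algebraMap]
  have hmain := H9.derivation_mem_local_of_finiteType (A := R) (del.restrictScalars R)
    (H21.locSubring (F := F) a)
    (t := ![algebraMap B F (algebraMap R B π), algebraMap B F s]) ?_ ?_ ?_ ?_
    (B := B) (IsScalarTower.toAlgHom R B F) ?_ ?_
  · exact hmain
  · -- htO
    intro i
    fin_cases i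
    · exact H21.algebraMap_mem_locSubring a _
    · exact H21.algebraMap_mem_locSubring a _
  · -- htm
    intro i
    fin_cases i
    · exact inv_notMem_locSubring hπa hπ0
    · exact inv_notMem_locSubring hsa hs0
  · -- hdt
    intro i
    fin_cases i
    · show del (algebraMap B F (algebraMap R B π)) ∈ _
      rw [hconst]; exact Subring.zero_mem _
    · show del (algebraMap B F s) ∈ _
      rw [hdel]; exact Subring.one_mem _
  · -- hres
    rintro x ⟨y, u, hu, hxu⟩
    obtain ⟨cy, hcy⟩ := hres y
    obtain ⟨cu, hcu⟩ := hres u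
    have hCu : algebraMap R B cu ∉ a := fun h => hu (by
      have := a.add_mem hcu h
      rwa [sub_add_cancel] at this)
    have hu0 : algebraMap B F u ≠ 0 := fun h => hu (by
      have : u = 0 := hinj (by rw [h, map_zero])
      rw [this]; exact a.zero_mem)
    have hCu0 : algebraMap B F (algebraMap R B cu) ≠ 0 := fun h => hCu (by
      have : algebraMap R B cu = 0 := hinj (by rw [h, map_zero])
      rw [this]; exact a.zero_mem)
    set z : B := y * algebraMap R B cu - u * algebraMap R B cy with hz
    have hza : z ∈ a := by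
      have : z = (y - algebraMap R B cy) * algebraMap R B cu
          - (u - algebraMap R B cu) * algebraMap R B cy := by rw [hz]; ring
      rw [this]
      exact a.sub_mem (a.mul_mem_right _ hcy) (a.mul_mem_right _ hcu)
    obtain ⟨t, ht, htz⟩ := hgen z hza
    obtain ⟨α, β, hαβ⟩ := Ideal.mem_span_pair.mp htz
    have ht0 : algebraMap B F t ≠ 0 := fun h => ht (by
      have : t = 0 := hinj (by rw [h, map_zero])
      rw [this]; exact a.zero_mem)
    have hw : t * (u * algebraMap R B cu) ∉ a := fun h =>
      (ha.mem_or_mem h).elim ht fun h' => (ha.mem_or_mem h').elim hu hCu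
    have hwinv := inv_mem_locSubring (F := F) hw
    refine ⟨algebraMap K F (algebraMap R K cy * (algebraMap R K cu)⁻¹), ?_, ?_, ?_⟩
    · rw [map_mul, map_inv₀, ← IsScalarTower.algebraMap_apply R K F,
        ← IsScalarTower.algebraMap_apply R K F, IsScalarTower.algebraMap_apply R B F,
        IsScalarTower.algebraMap_apply R B F cu]
      exact Subring.mul_mem _ (H21.algebraMap_mem_locSubring a _) (inv_mem_locSubring hCu)
    · show del _ = 0
      rw [Derivation.map_algebraMap]
    · refine ⟨![algebraMap B F α * (algebraMap B F (t * (u * algebraMap R B cu)))⁻¹,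
        algebraMap B F β * (algebraMap B F (t * (u * algebraMap R B cu)))⁻¹], ?_, ?_⟩
      · intro i
        fin_cases i
        · exact Subring.mul_mem _ (H21.algebraMap_mem_locSubring a _) hwinv
        · exact Subring.mul_mem _ (H21.algebraMap_mem_locSubring a _) hwinv
      · rw [Fin.sum_univ_two]
        simp only [Matrix.cons_val_zero, Matrix.cons_val_one]
        have hx : x = algebraMap B F y * (algebraMap B F u)⁻¹ := by
          rw [← hxu, mul_assoc, mul_inv_cancel₀ hu0, mul_one]
        have hαβ' : algebraMap B F α * algebraMap B F (algebraMap R B π)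
            + algebraMap B F β * algebraMap B F s
            = algebraMap B F t * (algebraMap B F y * algebraMap B F (algebraMap R B cu)
              - algebraMap B F u * algebraMap B F (algebraMap R B cy)) := by
          rw [← map_mul, ← map_mul, ← map_add, hαβ, hz, map_mul, map_sub, map_mul, map_mul]
        rw [map_mul, map_inv₀, ← IsScalarTower.algebraMap_apply R K F,
          ← IsScalarTower.algebraMap_apply R K F, IsScalarTower.algebraMap_apply R B F,
          IsScalarTower.algebraMap_apply R B F cu, hx, map_mul, map_mul]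
        field_simp
        linear_combination (-1 : F) * hαβ'
  · -- hCO
    intro b
    exact H21.algebraMap_mem_locSubring a b
  · -- hfrac
    rintro x ⟨y, u, hu, hxu⟩
    have hu0 : algebraMap B F u ≠ 0 := fun h => hu (by
      have : u = 0 := hinj (by rw [h, map_zero])
      rw [this]; exact a.zero_mem)
    refine ⟨y, u, hu0, inv_mem_locSubring hu, ?_⟩
    show x = algebraMap B F y * (algebraMap B F u)⁻¹
    rw [← hxu, mul_assoc, mul_inv_cancel₀ hu0, mul_one]

end LevelL

/-! ### The six-fold differential `j⁴ (j - 1728)³ / (δ j)⁶` at a DVR with a unit derivation -/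

section DVR

open Polynomial

variable {K F : Type*} [Field K] [Field F] [Algebra K F] [CharZero K]
  (O : ValuationSubring F) [IsDiscreteValuationRing O]

omit [CharZero K] [IsDiscreteValuationRing O] in
/-- In a valuation ring: `v x < 1`, `v c = 1` ⟹ `v (x - c) = 1`. -/
theorem valuation_sub_eq_one_of_lt {x c : F} (hx : O.valuation x < 1) (hc : O.valuation c = 1) :
    O.valuation (x - c) = 1 := by
  have h := Valuation.map_sub_eq_of_lt_right O.valuation (x := x) (y := c) (by rw [hc]; exact hx)
  rw [h, hc]

omit [CharZero K] [IsDiscreteValuationRing O] in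
/-- `a ≤ 1`, `b ≤ 1`, `a * b = 1` ⟹ `b = 1` (values of a valuation). -/
theorem eq_one_of_mul_eq_one_of_le {Γ : Type*} [LinearOrderedCommGroupWithZero Γ] {a b : Γ}
    (ha : a ≤ 1) (hb : b ≤ 1) (hab : a * b = 1) : b = 1 := by
  refine le_antisymm hb ?_
  by_contra hlt
  have hlt' : b < 1 := lt_of_not_ge hlt
  have : a * b < 1 := by
    calc a * b ≤ 1 * b := mul_le_mul_left ha b
      _ = b := one_mul b
      _ < 1 := hlt'
  rw [hab] at this
  exact lt_irrefl _ this

/-- **The valuation lemma of (A-hor-L).**  `O` a DVR of `F ⊇ K` (char 0) with residue field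
algebraic over `K`, `δ` a `K`-derivation preserving `O` with `δ s = 1` for some `s ∈ O`.  Let
`j ∈ F` and `c ∈ K` nonzero (`c = 1728`) be such that one of
* `v j = v ϖ ^ 3`,
* `v (j - c) = v ϖ ^ 2`,
* `v j = 1`, `v (j - c) = 1` and `v (p(j)) = v ϖ` for some `p : K[X]`
holds (`e = 3, 2, 1` over the `j`-line).  Then `j ^ 4 * (j - c) ^ 3 / (δ j) ^ 6` is a unit. -/
theorem valuation_sixfold_eq_one (hK : ∀ c : K, algebraMap K F c ∈ O)
    (hres : ∀ x ∈ O, ∃ μ : K[X], μ ≠ 0 ∧ O.valuation (aeval x μ) < 1)
    (δ : Derivation K F F) (hδ : ∀ x ∈ O, δ x ∈ O) {s : F} (hs : s ∈ O) (hδs : δ s = 1)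
    {ϖ : O} (hϖ : Irreducible ϖ) (j : F) (c : K) (hc : c ≠ 0)
    (hcase : O.valuation j = O.valuation (ϖ : F) ^ 3 ∨
      O.valuation (j - algebraMap K F c) = O.valuation (ϖ : F) ^ 2 ∨
      (O.valuation j = 1 ∧ O.valuation (j - algebraMap K F c) = 1 ∧
        ∃ p : K[X], O.valuation (aeval j p) = O.valuation (ϖ : F))) :
    O.valuation (j ^ 4 * (j - algebraMap K F c) ^ 3 / (δ j) ^ 6) = 1 := by
  have hϖ0 : (ϖ : F) ≠ 0 := fun h => hϖ.ne_zero (Subtype.ext h)
  have hvϖ0 : O.valuation (ϖ : F) ≠ 0 := (O.valuation.ne_zero_iff).mpr hϖ0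
  have hvϖ1 : O.valuation (ϖ : F) < 1 := H32.valuation_irreducible_lt_one O hϖ
  have hδϖ1 : O.valuation (δ (ϖ : F)) = 1 :=
    H32.valuation_deriv_uniformiser_eq_one O hK hres δ hϖ hδ hs hδs
  have hform : ∀ {x : F}, x ≠ 0 → O.valuation x ≠ 1 →
      O.valuation (δ x) * O.valuation (ϖ : F) = O.valuation x := fun hx0 hx1 =>
    H32.valuation_deriv_mul_uniformiser O hK δ hϖ hδ hδϖ1 hx0 hx1
  have hvc : O.valuation (algebraMap K F c) = 1 :=
    H32.val_algebraMap_eq_one O.valuation
      (fun c => (O.valuation_le_one_iff _).mpr (hK c)) hc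
  have hδc : δ (algebraMap K F c) = 0 := Derivation.map_algebraMap δ c
  have hpow_lt : ∀ n : ℕ, n ≠ 0 → O.valuation (ϖ : F) ^ n < 1 := fun n hn =>
    pow_lt_one₀ zero_le hvϖ1 hn
  rcases hcase with h3 | h2 | ⟨hj1, hjc1, p, hp⟩
  · -- `e = 3`
    have hjlt : O.valuation j < 1 := by rw [h3]; exact hpow_lt 3 (by norm_num)
    have hj0 : j ≠ 0 := by
      intro h0
      rw [h0, map_zero] at h3
      exact pow_ne_zero 3 hvϖ0 h3.symm
    have hδj : O.valuation (δ j) = O.valuation (ϖ : F) ^ 2 := by
      have h := hform hj0 hjlt.ne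
      rw [h3] at h
      have h' : O.valuation (δ j) * O.valuation (ϖ : F)
          = O.valuation (ϖ : F) ^ 2 * O.valuation (ϖ : F) := by rw [h]; exact pow_succ _ 2
      exact mul_right_cancel₀ hvϖ0 h'
    have hjc : O.valuation (j - algebraMap K F c) = 1 :=
      valuation_sub_eq_one_of_lt O hjlt hvc
    rw [map_div₀, map_mul, map_pow, map_pow, map_pow, h3, hjc, hδj, one_pow, mul_one,
      ← pow_mul, ← pow_mul]
    exact div_self (pow_ne_zero _ hvϖ0)
  · -- `e = 2`
    have hlt : O.valuation (j - algebraMap K F c) < 1 := by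
      rw [h2]; exact hpow_lt 2 (by norm_num)
    have hx0 : j - algebraMap K F c ≠ 0 := by
      intro h0
      rw [h0, map_zero] at h2
      exact pow_ne_zero 2 hvϖ0 h2.symm
    have hδeq : δ (j - algebraMap K F c) = δ j := by rw [map_sub, hδc, sub_zero]
    have hδj : O.valuation (δ j) = O.valuation (ϖ : F) := by
      have h := hform hx0 hlt.ne
      rw [h2, hδeq] at h
      have h' : O.valuation (δ j) * O.valuation (ϖ : F)
          = O.valuation (ϖ : F) * O.valuation (ϖ : F) := by rw [h]; exact sq _
      exact mul_right_cancel₀ hvϖ0 h'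
    have hj1 : O.valuation j = 1 := by
      have hneg : O.valuation (-(algebraMap K F c)) = 1 := by rw [Valuation.map_neg, hvc]
      have := valuation_sub_eq_one_of_lt O hlt hneg
      rwa [sub_neg_eq_add, sub_add_cancel] at this
    rw [map_div₀, map_mul, map_pow, map_pow, map_pow, h2, hj1, hδj, one_pow, one_mul,
      ← pow_mul]
    exact div_self (pow_ne_zero _ hvϖ0)
  · -- `e = 1`
    have hτ0 : aeval j p ≠ 0 := by
      intro h0
      rw [h0, map_zero] at hp
      exact hvϖ0 hp.symm
    have hτ1 : O.valuation (aeval j p) ≠ 1 := by rw [hp]; exact hvϖ1.ne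
    have hδτ : O.valuation (δ (aeval j p)) = 1 := by
      have h := hform hτ0 hτ1
      rw [hp] at h
      have h' : O.valuation (δ (aeval j p)) * O.valuation (ϖ : F)
          = 1 * O.valuation (ϖ : F) := by rw [h, one_mul]
      exact mul_right_cancel₀ hvϖ0 h'
    have hjO : j ∈ O := (O.valuation_le_one_iff j).mp hj1.le
    have hδj : O.valuation (δ j) = 1 := by
      rw [Derivation.map_aeval, smul_eq_mul, map_mul] at hδτ
      refine eq_one_of_mul_eq_one_of_le ?_ ((O.valuation_le_one_iff _).mpr (hδ j hjO)) hδτ
      exact H32.val_aeval_le_one O.valuation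
        (fun c => (O.valuation_le_one_iff _).mpr (hK c)) hj1.le _
    rw [map_div₀, map_mul, map_pow, map_pow, map_pow, hj1, hjc1, hδj, one_pow, one_pow,
      one_pow, mul_one, div_one]

end DVR

/-! ### Chart level: `A_s` is a unit at every horizontal height-one prime through `a` -/

section Chart

open AlgebraicCurve Polynomial

variable {K F : Type*} [Field K] [Field F] [Algebra K F]

/-- The order of a constant is `0`. -/
theorem ord_algebraMap_eq_zero (v : Place K F) (c : K) : v.ord (algebraMap K F c) = 0 := by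
  by_cases hc : c = 0
  · rw [hc, map_zero, Place.ord_zero]
  · have hc' : algebraMap K F c ≠ 0 := fun h => hc ((algebraMap K F).injective (by
      rw [h, map_zero]))
    rw [ord_eq_zero_iff_mem_and_inv_mem v hc']
    refine ⟨v.algebraMap_mem' c, ?_⟩
    rw [← map_inv₀]
    exact v.algebraMap_mem' _

/-- `v x = v ϖ ^ ord x` for `x ≠ 0`. -/
theorem valuation_eq_zpow_ord (v : Place K F) {x : F} (hx : x ≠ 0) {ϖ : v.toValuationSubring}
    (hϖ : Irreducible ϖ) :
    v.toValuationSubring.valuation x = v.toValuationSubring.valuation (ϖ : F) ^ (v.ord x) := by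
  obtain ⟨u, hu⟩ := v.exists_unit_mul_zpow hx hϖ
  have hu1 : v.toValuationSubring.valuation ((u : v.toValuationSubring) : F) = 1 :=
    (v.toValuationSubring.valuation_eq_one_iff (u : v.toValuationSubring)).mp u.isUnit
  conv_lhs => rw [hu]
  rw [map_mul, hu1, one_mul, map_zpow₀]

variable {R : Type*} [CommRing R] [IsDomain R] [Algebra R K] [CharZero K]
variable {B : Type*} [CommRing B] [IsDomain B] [Algebra B F] [IsFractionRing B F]
  [Algebra R B] [Algebra R F] [IsScalarTower R B F] [IsScalarTower R K F]

omit [IsDomain R] [CharZero K] in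
/-- Quotient rule through a further localisation: if `del` preserves `B_a` and `H ≤ a`, then
`del` preserves `B_H`. -/
theorem derivation_memAt_of_le (del : Derivation K F F) (a H : Ideal B) [ha : a.IsPrime]
    [hH : H.IsPrime] (hHa : H ≤ a)
    (hdel : ∀ x ∈ H21.locSubring (F := F) a, del x ∈ H21.locSubring (F := F) a) :
    ∀ x : F, MemAt H x → MemAt H (del x) := by
  have hinj := IsFractionRing.injective B F
  intro x hx
  refine H9.derivation_mem_of_localisation del (H21.locSubring (F := F) a)
    (H21.locSubring (F := F) H) hdel ?_ ?_ x hx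
  · rintro y ⟨c, u, hu, hyu⟩
    exact ⟨c, u, fun h => hu (hHa h), hyu⟩
  · rintro y ⟨c, u, hu, hyu⟩
    have hu0 : algebraMap B F u ≠ 0 := fun h => hu (by
      have : u = 0 := hinj (by rw [h, map_zero])
      rw [this]; exact H.zero_mem)
    refine ⟨algebraMap B F c, H21.algebraMap_mem_locSubring a c, algebraMap B F u,
      H21.algebraMap_mem_locSubring a u, hu0, inv_mem_locSubring hu, ?_⟩
    rw [← hyu, mul_assoc, mul_inv_cancel₀ hu0, mul_one]

variable [IsNoetherianRing B] [IsIntegrallyClosed B]

/-- **(A-hor-L), chart level.**  `B` a normal noetherian chart of finite type over `R`, integral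
over `R[J]`, `K = R[1/π]` of characteristic `0`; `a` a closed point with `a B_a = (π, s)` and
residue field that of `R`; `del` the `K`-derivation with `del s = 1`; `j ∈ B_a` with the e-data
of the `j`-line in ORD form (`hE`).  Then `j⁴ (j - 1728)³ / (del j)⁶` is a unit at every
horizontal height-one prime `H ≤ a`. -/
theorem isUnitAt_sixfold_of_horizontal [Algebra.FiniteType R B] (π : R)
    [IsLocalization.Away π K] (J : B)
    (hint : ∀ b : B, IsIntegral (Algebra.adjoin R {algebraMap B F J}) (algebraMap B F b))
    (a : Ideal B) [ha : a.IsPrime] (s : B)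
    (hπ0 : algebraMap R B π ≠ 0) (hπa : algebraMap R B π ∈ a) (hsa : s ∈ a)
    (hgen : ∀ z ∈ a, ∃ t, t ∉ a ∧ t * z ∈ Ideal.span {algebraMap R B π, s})
    (hres : ∀ x : B, ∃ c : R, x - algebraMap R B c ∈ a)
    (del : Derivation K F F) (hdel : del (algebraMap B F s) = 1)
    (j : F) (hja : MemAt a j)
    (hE : ∀ v : Place K F, 0 ≤ v.ord j →
      (0 < v.ord j → v.ord j = 3) ∧
      (0 < v.ord (j - algebraMap K F 1728) → v.ord (j - algebraMap K F 1728) = 2) ∧
      (v.ord j = 0 → v.ord (j - algebraMap K F 1728) = 0 →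
        ∃ p : K[X], v.ord (aeval j p) = 1))
    (H : Ideal B) [hH : H.IsPrime] (h1 : H.height = 1) (hHa : H ≤ a)
    (hπH : algebraMap R B π ∉ H) :
    IsUnitAt H (j ^ 4 * (j - algebraMap K F 1728) ^ 3 / (del j) ^ 6) := by
  have hk : ∀ c : K, MemAt H (algebraMap K F c) := memAt_algebraMap_of_away π H hπH
  set v : Place K F := placeOfPrime H h1 hk with hv
  have hvO : v.toValuationSubring = valuationSubringAt (K := F) H h1 := rfl
  have hmem : ∀ x : F, x ∈ v.toValuationSubring ↔ MemAt H x := fun x => Iff.rfl
  -- `del` preserves `B_H`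
  have hdel_a := derivation_mem_locSubring (K := K) (F := F) π a s hπ0 hπa hsa hgen hres del hdel
  have hδ : ∀ x ∈ v.toValuationSubring, del x ∈ v.toValuationSubring := fun x hx =>
    derivation_memAt_of_le del a H hHa hdel_a x hx
  have hK : ∀ c : K, algebraMap K F c ∈ v.toValuationSubring := v.algebraMap_mem'
  have hresO : ∀ x ∈ v.toValuationSubring, ∃ μ : K[X], μ ≠ 0 ∧
      v.toValuationSubring.valuation (aeval x μ) < 1 := fun x hx =>
    S36.H32.exists_poly_valuation_lt_one_at (R := R) H h1 hk J hint x hx
  have hsO : algebraMap B F s ∈ v.toValuationSubring := algebraMap_mem_valuationSubringAt h1 s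
  have hjO : j ∈ v.toValuationSubring := by
    obtain ⟨c, u, hu, hcu⟩ := hja
    exact ⟨c, u, fun h => hu (hHa h), hcu⟩
  obtain ⟨ϖ, hϖ⟩ := IsDiscreteValuationRing.exists_irreducible v.toValuationSubring
  have hc1728 : (1728 : K) ≠ 0 := by norm_num
  have hcO : algebraMap K F 1728 ∈ v.toValuationSubring := hK _
  -- orders
  have hordj : 0 ≤ v.ord j := by
    by_cases hj0 : j = 0
    · rw [hj0, Place.ord_zero]
    · exact (ord_nonneg_iff_mem v hj0).2 hjO
  obtain ⟨hc3, hc2, hc1⟩ := hE v hordj
  have hval := valuation_sixfold_eq_one v.toValuationSubring hK hresO del hδ hsO hdel hϖ j 1728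
    hc1728 ?_
  · exact (valuation_eq_one_iff h1).mp hval
  · by_cases hpos : 0 < v.ord j
    · left
      have h3 := hc3 hpos
      have hj0 : j ≠ 0 := by
        rintro rfl
        rw [Place.ord_zero] at hpos
        exact lt_irrefl _ hpos
      rw [valuation_eq_zpow_ord v hj0 hϖ, h3]
      norm_cast
    · right
      have hj0ord : v.ord j = 0 := le_antisymm (not_lt.1 hpos) hordj
      by_cases hpos2 : 0 < v.ord (j - algebraMap K F 1728)
      · left
        have h2 := hc2 hpos2
        have hx0 : j - algebraMap K F 1728 ≠ 0 := by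
          intro h0
          rw [h0, Place.ord_zero] at hpos2
          exact lt_irrefl _ hpos2
        rw [valuation_eq_zpow_ord v hx0 hϖ, h2]
        norm_cast
      · right
        have hordjc : 0 ≤ v.ord (j - algebraMap K F 1728) := by
          by_cases hx0 : j - algebraMap K F 1728 = 0
          · rw [hx0, Place.ord_zero]
          · exact (ord_nonneg_iff_mem v hx0).2 (v.toValuationSubring.sub_mem hjO hcO)
        have hjc0ord : v.ord (j - algebraMap K F 1728) = 0 :=
          le_antisymm (not_lt.1 hpos2) hordjc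
        obtain ⟨p, hp⟩ := hc1 hj0ord hjc0ord
        have hτ0 : aeval j p ≠ 0 := by
          intro h0
          rw [h0, Place.ord_zero] at hp
          exact zero_ne_one hp
        have hj0 : j ≠ 0 := by
          rintro rfl
          have : aeval (0 : F) p = algebraMap K F (p.coeff 0) := by
            rw [← Polynomial.coeff_zero_eq_aeval_zero' p]
          rw [this, ord_algebraMap_eq_zero] at hp
          exact zero_ne_one hp
        have hx0 : j - algebraMap K F 1728 ≠ 0 := by
          intro h0
          have hj : j = algebraMap K F 1728 := sub_eq_zero.mp h0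
          rw [hj, Polynomial.aeval_algebraMap_apply, ord_algebraMap_eq_zero] at hp
          exact zero_ne_one hp
        refine ⟨?_, ?_, p, ?_⟩
        · rw [valuation_eq_zpow_ord v hj0 hϖ, hj0ord, zpow_zero]
        · rw [valuation_eq_zpow_ord v hx0 hϖ, hjc0ord, zpow_zero]
        · rw [valuation_eq_zpow_ord v hτ0 hϖ, hp, zpow_one]

/-- **(A-hor-L) + local Hartogs.**  If moreover `A_s ≠ 0` is a unit at the vertical height-one
primes through `a` (Gauss norm `1`), then `A_s` is a unit of `B_a`. -/
theorem isUnitAt_sixfold [Algebra.FiniteType R B] (π : R)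
    [IsLocalization.Away π K] (J : B)
    (hint : ∀ b : B, IsIntegral (Algebra.adjoin R {algebraMap B F J}) (algebraMap B F b))
    (a : Ideal B) [ha : a.IsPrime] (s : B)
    (hπ0 : algebraMap R B π ≠ 0) (hπa : algebraMap R B π ∈ a) (hsa : s ∈ a)
    (hgen : ∀ z ∈ a, ∃ t, t ∉ a ∧ t * z ∈ Ideal.span {algebraMap R B π, s})
    (hres : ∀ x : B, ∃ c : R, x - algebraMap R B c ∈ a)
    (del : Derivation K F F) (hdel : del (algebraMap B F s) = 1)
    (j : F) (hja : MemAt a j)
    (hE : ∀ v : Place K F, 0 ≤ v.ord j →
      (0 < v.ord j → v.ord j = 3) ∧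
      (0 < v.ord (j - algebraMap K F 1728) → v.ord (j - algebraMap K F 1728) = 2) ∧
      (v.ord j = 0 → v.ord (j - algebraMap K F 1728) = 0 →
        ∃ p : K[X], v.ord (aeval j p) = 1))
    (hA0 : j ^ 4 * (j - algebraMap K F 1728) ^ 3 / (del j) ^ 6 ≠ 0)
    (hvert : ∀ P : Ideal B, P.IsPrime → P.height = 1 → P ≤ a → algebraMap R B π ∈ P →
      IsUnitAt P (j ^ 4 * (j - algebraMap K F 1728) ^ 3 / (del j) ^ 6)) :
    IsUnitAt a (j ^ 4 * (j - algebraMap K F 1728) ^ 3 / (del j) ^ 6) := by
  refine isUnitAt_of_forall_height_one_le a _ (fun P hP h1 hPa => ?_) hA0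
  by_cases hπP : algebraMap R B π ∈ P
  · exact hvert P hP h1 hPa hπP
  · haveI := hP
    exact isUnitAt_sixfold_of_horizontal π J hint a s hπ0 hπa hsa hgen hres del hdel j hja hE
      P h1 hPa hπP

end Chart

end Fermat.Agent.S36.H13
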