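import Mathlib
import Fermat.Agent.S16.H24_GenusBridge

/-!
# S36 / (M2-unr) : the per-place ramification indices of `j` on `X₀(N)`

For `F = modularFunctionFieldBar N` over `ℚ̄` and `x = jBar N` (all from the landed `S24` chain):

* `ord_jBar_dvd_three`, `ord_jBar_sub_dvd_two` : at every place over `j = 0` the index
  `e = ord_v (j)` divides `3`, over `j = 1728` the index `e = ord_v (j - 1728)` divides `2`;
* `ord_jBar_eq_three` (`ν₃(N) = 0`), `ord_jBar_sub_eq_two` (`ν₂(N) = 0`): without elliptic points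
  all indices are `3` resp. `2`;
* `nuTwo_eq_zero_of_dvd`, `nuThree_eq_zero_of_dvd` : a prime `r ≡ 3 mod 4` (resp. `r ≡ 2 mod 3`)
  dividing `N` kills `ν₂` (resp. `ν₃`); so `r ≡ 11 mod 12` kills both.

The generic fibres (`a ≠ 0, 1728`) are `Fermat.Agent.S16.H24.hunr_FN`.
-/

set_option autoImplicit false

noncomputable section

namespace Fermat.Agent.S36.H24

open AlgebraicCurve ModularCurve UpperHalfPlane
open Fermat.Agent.S24 Fermat.Agent.S24.H24 Fermat.Agent.S16.H24
open scoped MatrixGroups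

/-! ### Arithmetic: no elliptic points at a level divisible by `r ≡ 11 mod 12` -/

theorem nuTwo_eq_zero_of_dvd {N r : ℕ} [NeZero N] (hr : r.Prime) (hr4 : r % 4 = 3)
    (hrN : r ∣ N) : nuTwo N = 0 := by
  have : Fact r.Prime := ⟨hr⟩
  unfold nuTwo
  rw [Nat.card_eq_zero]
  left
  constructor
  rintro ⟨x, hx⟩
  let φ := ZMod.castHom hrN (ZMod r)
  have h1 : (φ x) ^ 2 + 1 = 0 := by
    rw [← map_pow, ← map_one φ, ← map_add, hx, map_zero]
  have hsq : IsSquare (-1 : ZMod r) := ⟨φ x, by linear_combination (-1 : ZMod r) * h1⟩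
  exact (ZMod.exists_sq_eq_neg_one_iff.mp hsq) hr4

theorem nuThree_eq_zero_of_dvd {N r : ℕ} [NeZero N] (hr : r.Prime) (hr3 : r % 3 = 2)
    (hrN : r ∣ N) : nuThree N = 0 := by
  have : Fact r.Prime := ⟨hr⟩
  unfold nuThree
  rw [Nat.card_eq_zero]
  left
  constructor
  rintro ⟨x, hx⟩
  let φ := ZMod.castHom hrN (ZMod r)
  set y : ZMod r := φ x with hy
  have h1 : y ^ 2 + y + 1 = 0 := by
    rw [hy, ← map_pow, ← map_one φ, ← map_add, ← map_add, hx, map_zero]
  have h3 : y ^ 3 = 1 := by linear_combination (y - 1) * h1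
  have hy0 : y ≠ 0 := by
    rintro h0
    rw [h0] at h1
    simp at h1
  have hfermat : y ^ (r - 1) = 1 := ZMod.pow_card_sub_one_eq_one hy0
  -- `r - 1 = 3 k + 1`
  have hr2 : 2 ≤ r := hr.two_le
  obtain ⟨k, hk⟩ : ∃ k, r - 1 = 3 * k + 1 := ⟨(r - 1) / 3, by omega⟩
  have hy1 : y = 1 := by
    have : y ^ (r - 1) = y := by
      rw [hk, pow_succ, pow_mul, h3, one_pow, one_mul]
    rw [← this, hfermat]
  rw [hy1] at h1
  have h30 : ((3 : ℕ) : ZMod r) = 0 := by
    push_cast
    linear_combination h1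
  rw [ZMod.natCast_eq_zero_iff] at h30
  have : r = 3 := (Nat.prime_dvd_prime_iff_eq hr Nat.prime_three).mp h30
  omega

theorem nuTwo_eq_zero_of_dvd_of_mod_twelve {N r : ℕ} [NeZero N] (hr : r.Prime)
    (hr12 : r % 12 = 11) (hrN : r ∣ N) : nuTwo N = 0 :=
  nuTwo_eq_zero_of_dvd hr (by omega) hrN

theorem nuThree_eq_zero_of_dvd_of_mod_twelve {N r : ℕ} [NeZero N] (hr : r.Prime)
    (hr12 : r % 12 = 11) (hrN : r ∣ N) : nuThree N = 0 :=
  nuThree_eq_zero_of_dvd hr (by omega) hrN

/-! ### Per-place divisibility -/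

section Places

variable (N : ℕ) [NeZero N]

/-- over `j = 0` the ramification index divides `3`. -/
theorem ord_jBar_sub_zero_dvd_three (v : Place Qbar (FN N))
    (hv : 0 < v.ord (jBar N - algebraMap Qbar (FN N) 0)) :
    v.ord (jBar N - algebraMap Qbar (FN N) 0) ∣ 3 := by
  have hM := H76.modInputs_final N
  have hData := rhData_FN N
  have hord := H8.analyticOrderAt_J_of_E₄_eq_zero UpperHalfPlane.ρ H8.E₄_ρ
  have hord' : analyticOrderAt (fun z : ℂ => H28.J (ofComplex z) - H17.iota 0)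
      ((UpperHalfPlane.ρ : ℍ) : ℂ) = ((3 : ℕ) : ℕ∞) := by
    simpa using hord
  have hJρ : H28.J UpperHalfPlane.ρ = H17.iota 0 := by rw [map_zero]; exact H8.J_ρ
  obtain ⟨γ, m, hm, hval⟩ := hM.place_fin v 0 _ hJρ hv
  have h := hval _ (hM.sub_const_mem 0) (H76.ModInputs.sub_const_ne_zero hData 0)
  rw [H76.IsTheta.ordH_translate_of_eq_J_sub (Θ := H17.Theta N) H28.J_smul (hM.theta_sub_const 0)
    hord' γ] at h
  exact ⟨m, by rw [mul_comm]; exact_mod_cast h⟩

/-- over `j = 1728` the ramification index divides `2`. -/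
theorem ord_jBar_sub_dvd_two (v : Place Qbar (FN N))
    (hv : 0 < v.ord (jBar N - algebraMap Qbar (FN N) 1728)) :
    v.ord (jBar N - algebraMap Qbar (FN N) 1728) ∣ 2 := by
  have hM := H76.modInputs_final N
  have hData := rhData_FN N
  have hord := H8.analyticOrderAt_J_sub_1728_of_E₆_eq_zero UpperHalfPlane.I H8.E₆_I
  have hι : H17.iota 1728 = 1728 := map_ofNat H17.iota 1728
  have hord' : analyticOrderAt (fun z : ℂ => H28.J (ofComplex z) - H17.iota 1728)
      ((UpperHalfPlane.I : ℍ) : ℂ) = ((2 : ℕ) : ℕ∞) := by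
    rw [hι]; exact hord
  have hJI : H28.J UpperHalfPlane.I = H17.iota 1728 := by rw [hι]; exact H8.J_I
  obtain ⟨γ, m, hm, hval⟩ := hM.place_fin v 1728 _ hJI hv
  have h := hval _ (hM.sub_const_mem 1728) (H76.ModInputs.sub_const_ne_zero hData 1728)
  rw [H76.IsTheta.ordH_translate_of_eq_J_sub (Θ := H17.Theta N) H28.J_smul (hM.theta_sub_const 1728)
    hord' γ] at h
  exact ⟨m, by rw [mul_comm]; exact_mod_cast h⟩

/-! ### Without elliptic points all indices are maximal -/

/-- abstract squeeze: positive integers `e w ∣ d` (`d > 0`) on a finite set with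
`∑ e w = d * #Z` are all equal to `d`. -/
theorem eq_of_dvd_of_sum_eq {ι : Type*} (Z : Finset ι) (e : ι → ℤ) (d : ℤ) (hd : 0 < d)
    (hdvd : ∀ w ∈ Z, e w ∣ d) (hsum : ∑ w ∈ Z, e w = d * Z.card) :
    ∀ w ∈ Z, e w = d := by
  have hle : ∀ w ∈ Z, e w ≤ d := fun w hw => Int.le_of_dvd hd (hdvd w hw)
  have h0 : ∑ w ∈ Z, (d - e w) = 0 := by
    rw [Finset.sum_sub_distrib, hsum, Finset.sum_const, nsmul_eq_mul]
    ring
  have h1 := (Finset.sum_eq_zero_iff_of_nonneg (fun w hw => sub_nonneg.mpr (hle w hw))).mp h0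
  intro w hw
  have := h1 w hw
  omega

/-- **`ν₃(N) = 0`**: every place over `j = 0` has ramification index `3`. -/
theorem ord_jBar_sub_zero_eq_three (h3 : nuThree N = 0) (v : Place Qbar (FN N))
    (hv : 0 < v.ord (jBar N - algebraMap Qbar (FN N) 0)) :
    v.ord (jBar N - algebraMap Qbar (FN N) 0) = 3 := by
  classical
  have hM := H76.modInputs_final N
  have hData := rhData_FN N
  have hcard := hM.card_fib_zero hData
  have hsum := hData.fib_sum 0
  have horb := H37.three_mul_natCard_orbits (perm N (ModularGroup.S * ModularGroup.T))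
    (perm_ST_cube N)
  rw [numFixed_ST_eq_nuThree N, h3] at horb
  have hc : (3 : ℤ) * ((hData.fib_finite 0).toFinset.card : ℤ) = (Fintype.card (XN N) : ℤ) := by
    rw [hcard]
    exact_mod_cast horb
  refine eq_of_dvd_of_sum_eq (hData.fib_finite 0).toFinset
    (fun w => w.ord (jBar N - algebraMap Qbar (FN N) 0)) 3 (by norm_num) ?_ ?_ v ?_
  · intro w hw
    exact ord_jBar_sub_zero_dvd_three N w (H76.ModInputs.mem_fib_of_mem_toFinset hw)
  · rw [hsum, hc]
  · exact (Set.Finite.mem_toFinset _).mpr hv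

/-- **`ν₂(N) = 0`**: every place over `j = 1728` has ramification index `2`. -/
theorem ord_jBar_sub_eq_two (h2 : nuTwo N = 0) (v : Place Qbar (FN N))
    (hv : 0 < v.ord (jBar N - algebraMap Qbar (FN N) 1728)) :
    v.ord (jBar N - algebraMap Qbar (FN N) 1728) = 2 := by
  classical
  have hM := H76.modInputs_final N
  have hData := rhData_FN N
  have hcard := hM.card_fib_1728 hData
  have hsum := hData.fib_sum 1728
  have horb := H37.two_mul_natCard_orbits (perm N ModularGroup.S) (perm_S_sq N)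
  rw [numFixed_S_eq_nuTwo N, h2] at horb
  have hc : (2 : ℤ) * ((hData.fib_finite 1728).toFinset.card : ℤ)
      = (Fintype.card (XN N) : ℤ) := by
    rw [hcard]
    exact_mod_cast horb
  refine eq_of_dvd_of_sum_eq (hData.fib_finite 1728).toFinset
    (fun w => w.ord (jBar N - algebraMap Qbar (FN N) 1728)) 2 (by norm_num) ?_ ?_ v ?_
  · intro w hw
    exact ord_jBar_sub_dvd_two N w (H76.ModInputs.mem_fib_of_mem_toFinset hw)
  · rw [hsum, hc]
  · exact (Set.Finite.mem_toFinset _).mpr hv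

/-! ### `jBar` spellings over `j = 0` -/

theorem ord_jBar_dvd_three (v : Place Qbar (FN N)) (hv : 0 < v.ord (jBar N)) :
    v.ord (jBar N) ∣ 3 := by
  have h := ord_jBar_sub_zero_dvd_three N v (by rwa [map_zero, sub_zero])
  rwa [map_zero, sub_zero] at h

theorem ord_jBar_eq_one_or_three (v : Place Qbar (FN N)) (hv : 0 < v.ord (jBar N)) :
    v.ord (jBar N) = 1 ∨ v.ord (jBar N) = 3 := by
  have h := ord_jBar_dvd_three N v hv
  have hle : v.ord (jBar N) ≤ 3 := Int.le_of_dvd (by norm_num) h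
  have h2 : v.ord (jBar N) ≠ 2 := by
    intro h2
    rw [h2] at h
    norm_num at h
  omega

theorem ord_jBar_sub_eq_one_or_two (v : Place Qbar (FN N))
    (hv : 0 < v.ord (jBar N - algebraMap Qbar (FN N) 1728)) :
    v.ord (jBar N - algebraMap Qbar (FN N) 1728) = 1 ∨
      v.ord (jBar N - algebraMap Qbar (FN N) 1728) = 2 := by
  have h := ord_jBar_sub_dvd_two N v hv
  have hle : v.ord (jBar N - algebraMap Qbar (FN N) 1728) ≤ 2 :=
    Int.le_of_dvd (by norm_num) h
  omega

theorem ord_jBar_eq_three (h3 : nuThree N = 0) (v : Place Qbar (FN N))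
    (hv : 0 < v.ord (jBar N)) : v.ord (jBar N) = 3 := by
  have h := ord_jBar_sub_zero_eq_three N h3 v (by rwa [map_zero, sub_zero])
  rwa [map_zero, sub_zero] at h

open Classical in
/-- **The finite ramification of `j` at a level without elliptic points**: over `a ∈ ℚ̄`
the index is `3` (`a = 0`), `2` (`a = 1728`), `1` otherwise. -/
theorem ord_jBar_sub_eq (h2 : nuTwo N = 0) (h3 : nuThree N = 0) (v : Place Qbar (FN N))
    (a : Qbar) (hv : 0 < v.ord (jBar N - algebraMap Qbar (FN N) a)) :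
    v.ord (jBar N - algebraMap Qbar (FN N) a) =
      if a = 0 then 3 else if a = 1728 then 2 else 1 := by
  by_cases ha0 : a = 0
  · subst ha0
    rw [if_pos rfl]
    exact ord_jBar_sub_zero_eq_three N h3 v hv
  · rw [if_neg ha0]
    by_cases ha1 : a = 1728
    · subst ha1
      rw [if_pos rfl]
      exact ord_jBar_sub_eq_two N h2 v hv
    · rw [if_neg ha1]
      exact hunr_FN N v a ha0 ha1 hv

end Places

end Fermat.Agent.S36.H24
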