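/-
helper2 — S36 row (M2e), step (2) of helper62's route (#3361), real-types half (A62-ord)(b):
**the ramification data of `j` in ORD form at a finite level `L ⊆ Qbar`** (e.g. `L = E0`).

`L` any algebraic subfield of `Qbar`, `F_L = modularFunctionFieldFullC L N`, `jK = S18.H16.jK L N`.
For every place `w` of `F_L / L`, read through a place `v` of `FN N / Qbar` above it
(`S36.H36.exists_place_above_toBar`: a constant field extension is unramified, (D1c)):

* `ord_jK_eq_three` (`ν₃(N) = 0`): `0 < ord_w j → ord_w j = 3`;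
* `ord_jK_sub_eq_two` (`ν₂(N) = 0`): `0 < ord_w (j - 1728) → ord_w (j - 1728) = 2`;
* `exists_poly_ord_jK_eq_one` : if `ord_w j = 0 = ord_w (j - 1728)` there is `p ∈ L[X]` with
  `ord_w (p(j)) = 1` (`p` = minimal polynomial over `L` of the value of `j` at `v`);
* `hres_toBar` : the residue field of `w` is algebraic over `L`, elementwise, in the spelling of
  `CA.H32` / `CA.H2` (`∃ μ ≠ 0, v(μ(x)) < 1`);
* `ord_sixDiff_fullC` : for a `L`-derivation `δ` of `F_L` preserving `O_w` with `δ s = 1`, `s ∈ O_w`,
  and `j ∈ O_w`: `δ j ≠ 0` and `4 ord_w j + 3 ord_w (j - 1728) = 6 ord_w (δ j)`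
  (`A_s = j^4 (j - 1728)^3 / (δ j)^6` has order `0` at `w`).
-/
import Mathlib
import Fermat.Agent.CA.H2_OrdSixDiff
import Fermat.Agent.S36.H24_EData
import Fermat.Agent.S36.H36_ConstExtUnram

set_option autoImplicit false
set_option linter.unusedSectionVars false
set_option linter.style.haveILetI false
set_option synthInstance.maxHeartbeats 400000

noncomputable section

namespace Fermat.Agent.S36.H2

open Polynomial AlgebraicCurve ModularCurve
open Fermat.Agent.S18 Fermat.Agent.S24 Fermat.Agent.S24.H24

section Generic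

variable {K F : Type*} [Field K] [Field F] [Algebra K F] (v : Place K F)

/-- at a simple root `a` of `P`, `ord (P(x)) = ord (x - a)` as soon as `ord (x - a) > 0`. -/
theorem ord_aeval_of_simple_root {x : F} {a : K} (hxa : 0 < v.ord (x - algebraMap K F a))
    (P : K[X]) (hroot : P.eval a = 0) (hsimple : P.derivative.eval a ≠ 0) :
    v.ord (aeval x P) = v.ord (x - algebraMap K F a) := by
  have hxa0 : x - algebraMap K F a ≠ 0 := by
    intro h0
    rw [h0, Place.ord_zero] at hxa
    exact lt_irrefl _ hxa
  -- `P = (X - a) g`, `g(a) = P'(a) ≠ 0`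
  obtain ⟨g, hg⟩ := (Polynomial.dvd_iff_isRoot (p := P) (a := a)).mpr hroot
  have hga : g.eval a ≠ 0 := by
    have hd : P.derivative = g + (X - C a) * g.derivative := by
      rw [hg, derivative_mul, derivative_sub, derivative_X, derivative_C, sub_zero, one_mul]
    rw [hd, eval_add, eval_mul, eval_sub, eval_X, eval_C, sub_self, zero_mul, add_zero] at hsimple
    exact hsimple
  -- `g = g(a) + (X - a) h`
  obtain ⟨h, hh⟩ := (Polynomial.dvd_iff_isRoot (p := g - C (g.eval a)) (a := a)).mpr
    (by rw [IsRoot, eval_sub, eval_C, sub_self])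
  have hg' : g = C (g.eval a) + (X - C a) * h := by rw [← hh]; ring
  have hxmem : x ∈ v.toValuationSubring := by
    have h1 : x - algebraMap K F a ∈ v.toValuationSubring :=
      (PlaceLemmas.mem_iff_ord_nonneg v hxa0).mpr hxa.le
    have h2 : x = (x - algebraMap K F a) + algebraMap K F a := by ring
    rw [h2]
    exact add_mem h1 (v.algebraMap_mem' a)
  have hev : aeval x g = algebraMap K F (g.eval a) + (x - algebraMap K F a) * aeval x h := by
    conv_lhs => rw [hg']
    rw [map_add, map_mul, map_sub, aeval_C, aeval_X, aeval_C]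
  have hc0 : algebraMap K F (g.eval a) ≠ 0 := (_root_.map_ne_zero _).mpr hga
  have hgx : aeval x g ≠ 0 ∧ v.ord (aeval x g) = 0 := by
    rcases eq_or_ne (aeval x h) 0 with h0 | h0
    · rw [hev, h0, mul_zero, add_zero]
      exact ⟨hc0, PlaceLemmas.ord_algebraMap v _⟩
    · have hy0 : (x - algebraMap K F a) * aeval x h ≠ 0 := mul_ne_zero hxa0 h0
      have hh0 : 0 ≤ v.ord (aeval x h) :=
        (PlaceLemmas.mem_iff_ord_nonneg v h0).mp (CA.H2.aeval_mem_toValuationSubring v hxmem h)
      have hlt : v.ord (algebraMap K F (g.eval a)) < v.ord ((x - algebraMap K F a) * aeval x h) := by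
        rw [PlaceLemmas.ord_algebraMap, Place.ord_mul v hxa0 h0]
        omega
      have hsum := PlaceLemmas.ord_add_eq_of_lt v hc0 hy0 hlt
      rw [← hev, PlaceLemmas.ord_algebraMap] at hsum
      refine ⟨?_, hsum⟩
      rw [hev]
      intro hzero
      have h3 : algebraMap K F (g.eval a) = -((x - algebraMap K F a) * aeval x h) :=
        eq_neg_of_add_eq_zero_left hzero
      rw [h3, PlaceLemmas.ord_neg] at hlt
      exact lt_irrefl _ hlt
  have hP : aeval x P = (x - algebraMap K F a) * aeval x g := by
    rw [hg, map_mul, map_sub, aeval_X, aeval_C]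
  rw [hP, Place.ord_mul v hxa0 hgx.1, hgx.2, add_zero]

/-- at a place of degree one every integral element is congruent to a constant. -/
theorem exists_const_of_deg_eq_one (hdeg : v.deg = 1) {f : F} (hf : f ∈ v.toValuationSubring) :
    ∃ a : K, f = algebraMap K F a ∨ 0 < v.ord (f - algebraMap K F a) := by
  obtain ⟨a, ha⟩ := H25.residueTrivial_of_deg_eq_one v hdeg
    (IsLocalRing.residue _ (⟨f, hf⟩ : v.toValuationSubring))
  refine ⟨a, ?_⟩
  set z : v.toValuationSubring := ⟨f, hf⟩ - algebraMap K v.toValuationSubring a with hz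
  have hzF : (z : F) = f - algebraMap K F a := rfl
  have h0 : IsLocalRing.residue v.toValuationSubring z = 0 := by
    rw [hz, map_sub, ← ha, sub_eq_zero]; rfl
  rcases eq_or_ne (f - algebraMap K F a) 0 with h | h
  · exact Or.inl (sub_eq_zero.mp h)
  · right
    have hz0 : z ≠ 0 := fun hz0 => h (by rw [← hzF, hz0]; rfl)
    rw [← hzF, H27.ord_pos_iff_mem_maximalIdeal v z hz0, ← IsLocalRing.residue_eq_zero_iff]
    exact h0

end Generic

section Instance

variable (L : Type*) [Field L] [Algebra L Qbar] (N : ℕ) [NeZero N]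
  [Algebra L (FN N)] [IsScalarTower L Qbar (FN N)] [Algebra.IsAlgebraic L Qbar]

/-- `toBar` of a polynomial expression. -/
theorem toBar_aeval (x : modularFunctionFieldFullC L N) (p : L[X]) :
    H99.toBar L N (aeval x p) = aeval (H99.toBar L N x) (p.map (algebraMap L Qbar)) := by
  rw [aeval_def, Polynomial.hom_eval₂, aeval_def, eval₂_map]
  congr 1
  exact RingHom.ext fun c => H99.toBar_algebraMap L N c

theorem toBar_jK_sub (c : L) :
    H99.toBar L N (H16.jK L N - algebraMap L (modularFunctionFieldFullC L N) c)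
      = jBar N - algebraMap Qbar (FN N) (algebraMap L Qbar c) := by
  rw [map_sub, H99.toBar_jK, H99.toBar_algebraMap]

/-- **`e = 3` over `j = 0`** at level `L`, when `ν₃(N) = 0`. -/
theorem ord_jK_eq_three (h3 : nuThree N = 0) (w : Place L (modularFunctionFieldFullC L N))
    (hw : 0 < w.ord (H16.jK L N)) : w.ord (H16.jK L N) = 3 := by
  obtain ⟨v, hord, -⟩ := H36.exists_place_above_toBar L N w
  have h := hord (H16.jK L N)
  rw [H99.toBar_jK] at h
  rw [← h] at hw ⊢
  exact S36.H24.ord_jBar_eq_three N h3 v hw

/-- **`e = 2` over `j = 1728`** at level `L`, when `ν₂(N) = 0`. -/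
theorem ord_jK_sub_eq_two (h2 : nuTwo N = 0) (w : Place L (modularFunctionFieldFullC L N))
    (hw : 0 < w.ord (H16.jK L N - algebraMap L (modularFunctionFieldFullC L N) 1728)) :
    w.ord (H16.jK L N - algebraMap L (modularFunctionFieldFullC L N) 1728) = 2 := by
  obtain ⟨v, hord, -⟩ := H36.exists_place_above_toBar L N w
  have h := hord (H16.jK L N - algebraMap L (modularFunctionFieldFullC L N) 1728)
  rw [toBar_jK_sub, map_ofNat] at h
  rw [← h] at hw ⊢
  exact S36.H24.ord_jBar_sub_eq_two N h2 v hw

/-- **the residue field of every place of `F_L / L` is algebraic over `L`** (elementwise). -/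
theorem hres_toBar (w : Place L (modularFunctionFieldFullC L N)) :
    ∀ x ∈ w.toValuationSubring, ∃ μ : L[X], μ ≠ 0 ∧
      w.toValuationSubring.valuation (aeval x μ) < 1 := by
  intro x hx
  obtain ⟨v, hord, hmem⟩ := H36.exists_place_above_toBar L N w
  have hxv : H99.toBar L N x ∈ v.toValuationSubring := (hmem x).mp hx
  haveI := H40.finiteDimensional_FN N
  have hdeg : v.deg = 1 := H25.deg_eq_one (K := Qbar) (jBar N) (H40.transcendental_jBar N) v
  obtain ⟨a, ha⟩ := exists_const_of_deg_eq_one v hdeg hxv
  have haint : IsIntegral L a := (Algebra.IsAlgebraic.isAlgebraic a).isIntegral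
  refine ⟨minpoly L a, minpoly.ne_zero haint, ?_⟩
  -- `μ(x)` is integral at `w`, and not a unit
  have hμmem : aeval x (minpoly L a) ∈ w.toValuationSubring :=
    CA.H2.aeval_mem_toValuationSubring w hx _
  rcases eq_or_ne (aeval x (minpoly L a)) 0 with h0 | h0
  · rw [h0, map_zero]; exact zero_lt_one
  · have hpos : 0 < w.ord (aeval x (minpoly L a)) := by
      rw [← hord, toBar_aeval]
      have hroot : ((minpoly L a).map (algebraMap L Qbar)).eval a = 0 := by
        rw [eval_map, ← aeval_def]; exact minpoly.aeval L a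
      rcases ha with ha | ha
      · exfalso
        apply h0
        apply H99.toBar_injective L N
        rw [toBar_aeval, ha, aeval_algebraMap_apply, coe_aeval_eq_eval, hroot, map_zero, map_zero]
      · -- `P = (X - a) g`, so `P(x) = (x - a) g(x)` with `g(x)` integral
        have ha' : 0 < v.ord (H99.toBar L N x - algebraMap Qbar (FN N) a) := ha
        obtain ⟨g, hg⟩ := (Polynomial.dvd_iff_isRoot
          (p := (minpoly L a).map (algebraMap L Qbar)) (a := a)).mpr hroot
        have hxa0 : H99.toBar L N x - algebraMap Qbar (FN N) a ≠ 0 := by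
          intro h0'
          rw [h0', Place.ord_zero] at ha'
          exact lt_irrefl _ ha'
        have hP : aeval (H99.toBar L N x) ((minpoly L a).map (algebraMap L Qbar))
            = (H99.toBar L N x - algebraMap Qbar (FN N) a) * aeval (H99.toBar L N x) g := by
          rw [hg, map_mul, map_sub, aeval_X, aeval_C]
        have hne : aeval (H99.toBar L N x) ((minpoly L a).map (algebraMap L Qbar)) ≠ 0 := by
          rw [← toBar_aeval]
          exact (_root_.map_ne_zero _).mpr h0
        rw [hP] at hne ⊢
        have hg0 : aeval (H99.toBar L N x) g ≠ 0 := right_ne_zero_of_mul hne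
        have hgnn : 0 ≤ v.ord (aeval (H99.toBar L N x) g) :=
          (PlaceLemmas.mem_iff_ord_nonneg v hg0).mp
            (CA.H2.aeval_mem_toValuationSubring v hxv g)
        rw [Place.ord_mul v hxa0 hg0]
        omega
    -- translate `0 < ord` into `valuation < 1`
    have hmemMax : (⟨aeval x (minpoly L a), hμmem⟩ : w.toValuationSubring)
        ∈ IsLocalRing.maximalIdeal w.toValuationSubring := by
      rw [← H27.ord_pos_iff_mem_maximalIdeal w _ (fun h => h0 (congrArg Subtype.val h))]
      exact hpos
    exact (w.toValuationSubring.valuation_lt_one_iff ⟨_, hμmem⟩).mp hmemMax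

/-- **the generic fibres**: if `j` takes a value `≠ 0, 1728` at `w`, some polynomial in `j`
over `L` is a uniformiser at `w`. -/
theorem exists_poly_ord_jK_eq_one (w : Place L (modularFunctionFieldFullC L N))
    (h0 : w.ord (H16.jK L N) = 0)
    (h1728 : w.ord (H16.jK L N - algebraMap L (modularFunctionFieldFullC L N) 1728) = 0) :
    ∃ p : L[X], w.ord (aeval (H16.jK L N) p) = 1 := by
  obtain ⟨v, hord, hmem⟩ := H36.exists_place_above_toBar L N w
  have hj0 : v.ord (jBar N) = 0 := by rw [← H99.toBar_jK L N, hord, h0]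
  have hj1728 : v.ord (jBar N - algebraMap Qbar (FN N) 1728) = 0 := by
    have h := hord (H16.jK L N - algebraMap L (modularFunctionFieldFullC L N) 1728)
    rw [toBar_jK_sub, map_ofNat] at h
    rw [h, h1728]
  -- the value of `j` at `v`
  obtain ⟨a, ha⟩ : ∃ a : Qbar, 0 < v.ord (jBar N - algebraMap Qbar (FN N) a) := by
    rcases (S16.H24.rhData_FN N).value v with hneg | hex
    · omega
    · exact hex
  have ha0 : a ≠ 0 := by
    rintro rfl
    rw [map_zero, sub_zero, hj0] at ha
    exact lt_irrefl _ ha
  have ha1 : a ≠ 1728 := by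
    rintro rfl
    rw [hj1728] at ha
    exact lt_irrefl _ ha
  have hone : v.ord (jBar N - algebraMap Qbar (FN N) a) = 1 := S16.H24.hunr_FN N v a ha0 ha1 ha
  have haint : IsIntegral L a := (Algebra.IsAlgebraic.isAlgebraic a).isIntegral
  haveI : CharZero L := RingHom.charZero (algebraMap L Qbar)
  have hsep : (minpoly L a).Separable := (minpoly.irreducible haint).separable
  have hroot : ((minpoly L a).map (algebraMap L Qbar)).eval a = 0 := by
    rw [eval_map, ← aeval_def]; exact minpoly.aeval L a
  have hsimple : ((minpoly L a).map (algebraMap L Qbar)).derivative.eval a ≠ 0 := by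
    have hsep' : ((minpoly L a).map (algebraMap L Qbar)).Separable := hsep.map
    have := hsep'.aeval_derivative_ne_zero (x := a) (by rw [coe_aeval_eq_eval]; exact hroot)
    rwa [coe_aeval_eq_eval] at this
  refine ⟨minpoly L a, ?_⟩
  rw [← hord, toBar_aeval, H99.toBar_jK,
    ord_aeval_of_simple_root v ha _ hroot hsimple, hone]

/-- **(A62-ord)(b)**: at every place `w` of `F_L / L` where `j` is finite, for a unit derivation
`δ` at `w` (`δ O_w ⊆ O_w`, `δ s = 1`), `4 ord j + 3 ord (j - 1728) = 6 ord (δ j)`. -/
theorem ord_sixDiff_fullC (h2 : nuTwo N = 0) (h3 : nuThree N = 0)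
    (w : Place L (modularFunctionFieldFullC L N))
    (δ : Derivation L (modularFunctionFieldFullC L N) (modularFunctionFieldFullC L N))
    (hδ : ∀ x ∈ w.toValuationSubring, δ x ∈ w.toValuationSubring)
    {s : modularFunctionFieldFullC L N} (hs : s ∈ w.toValuationSubring) (hδs : δ s = 1)
    (hj : H16.jK L N ∈ w.toValuationSubring) :
    δ (H16.jK L N) ≠ 0 ∧
      4 * w.ord (H16.jK L N)
        + 3 * w.ord (H16.jK L N - algebraMap L (modularFunctionFieldFullC L N) 1728)
        = 6 * w.ord (δ (H16.jK L N)) := by
  haveI : CharZero L := RingHom.charZero (algebraMap L Qbar)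
  exact CA.H2.ord_sixDiff_eq_zero w δ (hres_toBar L N w) hδ hs hδs hj
    (c := (1728 : L)) (by norm_num) (ord_jK_eq_three L N h3 w) (ord_jK_sub_eq_two L N h2 w)
    (exists_poly_ord_jK_eq_one L N w)

end Instance

end Fermat.Agent.S36.H2
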