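/-
helper2 — S36 row (M2e)/(A-As): the e-data of `j` at a finite level `L ⊆ Qbar` in EXACTLY the
`hE` shape consumed by `S36.H13.isUnitAt_sixfold_of_horizontal` / `isUnitAt_sixfold`
(`K := L`, `F := modularFunctionFieldFullC L N`, `j := S18.H16.jK L N`).
-/
import Mathlib
import Fermat.Agent.S36.H2_EDataE0

set_option autoImplicit false
set_option linter.unusedSectionVars false
set_option synthInstance.maxHeartbeats 400000

noncomputable section

namespace Fermat.Agent.S36.H2

open Polynomial AlgebraicCurve ModularCurve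
open Fermat.Agent.S18 Fermat.Agent.S24

variable (L : Type*) [Field L] [Algebra L Qbar] (N : ℕ) [NeZero N]
  [Algebra L (FN N)] [IsScalarTower L Qbar (FN N)] [Algebra.IsAlgebraic L Qbar]

/-- **`hE` of `S36.H13.isUnitAt_sixfold_of_horizontal`, verbatim**, at any algebraic `L ⊆ Qbar`
and any level `N` without elliptic points (`ν₂(N) = ν₃(N) = 0`, e.g. `r ∣ N`, `r ≡ 11 mod 12`). -/
theorem hE_fullC (h2 : nuTwo N = 0) (h3 : nuThree N = 0) :
    ∀ v : Place L (modularFunctionFieldFullC L N), 0 ≤ v.ord (H16.jK L N) →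
      (0 < v.ord (H16.jK L N) → v.ord (H16.jK L N) = 3) ∧
      (0 < v.ord (H16.jK L N - algebraMap L (modularFunctionFieldFullC L N) 1728) →
        v.ord (H16.jK L N - algebraMap L (modularFunctionFieldFullC L N) 1728) = 2) ∧
      (v.ord (H16.jK L N) = 0 →
        v.ord (H16.jK L N - algebraMap L (modularFunctionFieldFullC L N) 1728) = 0 →
        ∃ p : L[X], v.ord (aeval (H16.jK L N) p) = 1) :=
  fun v _ => ⟨ord_jK_eq_three L N h3 v, ord_jK_sub_eq_two L N h2 v,
    exists_poly_ord_jK_eq_one L N v⟩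

/-- the same from an auxiliary prime `r ≡ 11 mod 12` dividing the level. -/
theorem hE_fullC_of_aux {r : ℕ} (hr : r.Prime) (hr12 : r % 12 = 11) (hrN : r ∣ N) :
    ∀ v : Place L (modularFunctionFieldFullC L N), 0 ≤ v.ord (H16.jK L N) →
      (0 < v.ord (H16.jK L N) → v.ord (H16.jK L N) = 3) ∧
      (0 < v.ord (H16.jK L N - algebraMap L (modularFunctionFieldFullC L N) 1728) →
        v.ord (H16.jK L N - algebraMap L (modularFunctionFieldFullC L N) 1728) = 2) ∧
      (v.ord (H16.jK L N) = 0 →
        v.ord (H16.jK L N - algebraMap L (modularFunctionFieldFullC L N) 1728) = 0 →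
        ∃ p : L[X], v.ord (aeval (H16.jK L N) p) = 1) :=
  hE_fullC L N (S36.H24.nuTwo_eq_zero_of_dvd_of_mod_twelve hr hr12 hrN)
    (S36.H24.nuThree_eq_zero_of_dvd_of_mod_twelve hr hr12 hrN)

end Fermat.Agent.S36.H2
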