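import Mathlib
import Fermat.Agent.CA.H92_BigBallDeriv
import Fermat.Agent.S36.H92_GaussPi
import Fermat.Agent.CA.H39_FiniteOverParam

/-!
# S36 (M2e)(A-exp) (helper92): the intrinsic function `ω_s = ∂_ι(V s) / ℓ` and its place at `Pi`

Generic part (`K` a field of characteristic zero, `F = FullC K N ⊆ K((t))`):

* `delOf K N x₀ hx₀` : THE `K`-derivation `d/dx₀` of `F` for `x₀ ∈ F` transcendental over `K`
  (`delOf_self`, `eq_delOf` uniqueness);
* `thetaOp_coe_eq_delOf_mul` : chain rule on `t`-expansions, `θ y = ∂ y * θ x₀` (`θ = t d/dt`);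
* `delOf_mul_delOf` : `∂_{x₀} x₁ * ∂_{x₁} x₀ = 1`;
* `delOf_conj` : `w (∂_{x₀} y) = ∂_{w x₀} (w y)` for every `K`-automorphism `w` of `F`.

Real types (binder block of `S36/H92_GaussPi` = `S34.H55` L0Base; level pair `(M, ℓ)`; `s ∈ V_M`
the level-`M` Gauss ring, `σ` its `t`-expansion, `s̄ = resM s`):

* `omega M hℓM A hA s htr = ∂_{ι s}(V s) / ℓ ∈ F_N` (`ι = iotaMN`, `V = VMN : t ↦ t ^ ℓ`);
* `coe_omega_mul` : `ω * θ σ = (θ σ)(t ^ ℓ)` in `L₁((t))`;
* `omega_mem_PO1`, `omega_inv_mem_PO1`, `Pres1_omega` : if `θ s̄ ≠ 0` then at every `Pi : PlaceInf`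
  `ω` is a unit of the place ring, with residue `P_s = (θ s̄)(t ^ ℓ) / θ s̄`
  (the `P` of `S36.H54.isUnit_of_ode`);
* `omega_swap` : for a `L₁`-automorphism `w` of `F_N` exchanging `ι s` and `V s`,
  `w ω * (ℓ ^ 2 * ω) = 1`.
-/

set_option autoImplicit false
set_option linter.unusedSectionVars false
set_option linter.style.haveILetI false
set_option synthInstance.maxHeartbeats 400000

noncomputable section

namespace Fermat.Agent.S36.H92

open ModularCurve Polynomial IsLocalRing IntermediateField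
open Fermat.Agent.S18 Fermat.Agent.S18.H92 Fermat.Agent.S34 Fermat.Agent.S34.H92
  Fermat.Agent.S34.H16 Fermat.Agent.S34.H55 Fermat.Agent.CA.H92 Fermat.Agent.CA.H99
  Fermat.Agent.S28 Fermat.Agent.S28.H39

local notation "Qbar" => AlgebraicClosure ℚ

/-! ### Generic part -/

/-- in characteristic zero a Laurent series with `θ x ≠ 0` is transcendental over the constants. -/
theorem transcendental_of_thetaOp_ne_zero {K : Type*} [Field K] [CharZero K]
    (x : LaurentSeries K) (h : thetaOp x ≠ 0) : Transcendental K x := by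
  intro halg
  have hint : IsIntegral K x := halg.isIntegral
  have hsep : (minpoly K x).Separable := (minpoly.irreducible hint).separable
  have h1 := thetaOp_aeval x (minpoly K x)
  rw [minpoly.aeval, map_zero] at h1
  have h2 := hsep.aeval_derivative_ne_zero (minpoly.aeval K x)
  exact h ((mul_eq_zero.mp h1.symm).resolve_left h2)

/-- **chain rule for `t`-expansions** (generic): `K` a field of characteristic zero, `F` an
intermediate field of `K((t))` finite over `K(J)`, `x₀ ∈ F` transcendental over `K` and `D` a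
`K`-derivation of `F` with `D x₀ = 1`.  Then `θ y = D y * θ x₀` on expansions. -/
theorem thetaOp_coe_eq_mul {K : Type*} [Field K] [CharZero K]
    (F : IntermediateField K (LaurentSeries K)) (J x₀ : F) [FiniteDimensional K⟮J⟯ F]
    (hx₀ : Transcendental K x₀) (D : Derivation K F F) (hD : D x₀ = 1) (y : F) :
    thetaOp (y : LaurentSeries K) =
      ((D y : F) : LaurentSeries K) * thetaOp (x₀ : LaurentSeries K) := by
  letI : Module K (LaurentSeries K) := Algebra.toModule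
  have key := Fermat.Agent.CA.H39.derivation_eq_smul_of_charZero J x₀ hx₀ D hD
    ((thetaDer (R := K)).compAlgebraMap F) y
  rw [Derivation.compAlgebraMap_apply, Derivation.compAlgebraMap_apply] at key
  exact key

section Generic

variable (K : Type) [Field K] [CharZero K] (N : ℕ) [NeZero N]

local notation "F" => modularFunctionFieldFullC K N

theorem finiteDimensional_jK_fullC : FiniteDimensional K⟮S18.H16.jK K N⟯ F :=
  S18.H16.finiteDimensional_fullC_gen N K (Nat.cast_ne_zero.mpr (NeZero.ne _))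

theorem existsUnique_delOf (x₀ : F) (hx₀ : Transcendental K x₀) :
    ∃! D : Derivation K F F, D x₀ = 1 := by
  haveI := finiteDimensional_jK_fullC K N
  exact Fermat.Agent.CA.H39.existsUnique_derivation_eq_one_of_charZero (S18.H16.jK K N) x₀ hx₀

/-- THE `K`-derivation `d/dx₀` of `FullC K N`, for `x₀` transcendental over `K`. -/
def delOf (x₀ : F) (hx₀ : Transcendental K x₀) : Derivation K F F :=
  (existsUnique_delOf K N x₀ hx₀).exists.choose

variable {K N}

theorem delOf_self (x₀ : F) (hx₀ : Transcendental K x₀) : delOf K N x₀ hx₀ x₀ = 1 :=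
  (existsUnique_delOf K N x₀ hx₀).exists.choose_spec

theorem eq_delOf (x₀ : F) (hx₀ : Transcendental K x₀) (D : Derivation K F F) (hD : D x₀ = 1) :
    D = delOf K N x₀ hx₀ :=
  (existsUnique_delOf K N x₀ hx₀).unique hD (delOf_self x₀ hx₀)

/-- every `K`-derivation of `F` is a multiple of `d/dx₀`. -/
theorem derivation_eq_delOf_mul (x₀ : F) (hx₀ : Transcendental K x₀) (D : Derivation K F F)
    (y : F) : D y = delOf K N x₀ hx₀ y * D x₀ := by
  haveI := finiteDimensional_jK_fullC K N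
  have := Fermat.Agent.CA.H39.derivation_eq_smul_of_charZero (S18.H16.jK K N) x₀ hx₀
    (delOf K N x₀ hx₀) (delOf_self x₀ hx₀) D y
  rw [this, smul_eq_mul]

/-- chain rule on `t`-expansions: `θ y = ∂_{x₀} y * θ x₀`. -/
theorem thetaOp_coe_eq_delOf_mul (x₀ : F) (hx₀ : Transcendental K x₀) (y : F) :
    thetaOp (y : LaurentSeries K) =
      ((delOf K N x₀ hx₀ y : F) : LaurentSeries K) * thetaOp (x₀ : LaurentSeries K) := by
  haveI := finiteDimensional_jK_fullC K N
  exact thetaOp_coe_eq_mul F (S18.H16.jK K N) x₀ hx₀ _ (delOf_self x₀ hx₀) y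

/-- `∂_{x₀} x₁ * ∂_{x₁} x₀ = 1`. -/
theorem delOf_mul_delOf (x₀ x₁ : F) (hx₀ : Transcendental K x₀) (hx₁ : Transcendental K x₁) :
    delOf K N x₀ hx₀ x₁ * delOf K N x₁ hx₁ x₀ = 1 := by
  have h := derivation_eq_delOf_mul x₀ hx₀ (delOf K N x₁ hx₁) x₁
  rw [delOf_self] at h
  exact h.symm

/-- conjugation by an automorphism: `w (∂_{x₀} y) = ∂_{w x₀} (w y)`. -/
theorem delOf_conj (w : F ≃ₐ[K] F) (x₀ : F) (hx₀ : Transcendental K x₀)
    (hwx₀ : Transcendental K (w x₀)) (y : F) :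
    w (delOf K N x₀ hx₀ y) = delOf K N (w x₀) hwx₀ (w y) := by
  have h1 : Fermat.Agent.CA.H39.derivationCongr w (delOf K N x₀ hx₀) (w x₀) = 1 := by
    rw [Fermat.Agent.CA.H39.derivationCongr_apply, AlgEquiv.symm_apply_apply, delOf_self, map_one]
  have h2 := eq_delOf (w x₀) hwx₀ _ h1
  rw [← h2, Fermat.Agent.CA.H39.derivationCongr_apply, AlgEquiv.symm_apply_apply]

end Generic

/-! ### Real types -/

variable (M : ℕ) [NeZero M] {ℓ : ℕ} [hℓ : Fact ℓ.Prime] (hℓM : ¬ ℓ ∣ M)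
  (A : ValuationSubring Qbar) (hA : A.LiesOverPrime ℓ)

local notation "kA" => IsLocalRing.ResidueField A
local notation "A₁" => H45.A0 A ℓ
local notation "L₁" => H45.unrCyclo ℓ
local notation "FM" => modularFunctionFieldFullC (H45.unrCyclo ℓ) M
local notation "FN" => modularFunctionFieldFullC (H45.unrCyclo ℓ) (ℓ * M)
local notation "V" => VM M hℓM A hA
local notation "G'" => bigBall (H45.A0 A ℓ) (H45.resA0 A ℓ)

/-- `θ σ ≠ 0` for the expansion `σ` of `s ∈ V_M` with `θ s̄ ≠ 0`. -/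
theorem thetaOp_coe_ne_zero (s : V) (hs : thetaOp (resM M hℓM A hA s) ≠ 0) :
    thetaOp (((s : V) : FM) : LaurentSeries L₁) ≠ 0 := by
  obtain ⟨h1, h2⟩ := coe_VM_mem_bigBall M hℓM A hA s
  apply ne_zero_of_bigResFun_ne_zero (A := H45.A0 A ℓ) (π := H45.resA0 A ℓ)
  rw [bigResFun_thetaOp h1, h2]
  exact hs

/-- `ι s` is transcendental over the constants when `θ s̄ ≠ 0`. -/
theorem transcendental_iotaMN (s : V) (hs : thetaOp (resM M hℓM A hA s) ≠ 0) :
    Transcendental L₁ (iotaMN M (ℓ := ℓ) ((s : V) : FM)) := by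
  have h : Transcendental L₁
      (algebraMap FN (LaurentSeries L₁) (iotaMN M (ℓ := ℓ) ((s : V) : FM))) := by
    show Transcendental L₁ ((iotaMN M (ℓ := ℓ) ((s : V) : FM) : FN) : LaurentSeries L₁)
    rw [coe_iotaMN]
    exact transcendental_of_thetaOp_ne_zero _ (thetaOp_coe_ne_zero M hℓM A hA s hs)
  exact (transcendental_algebraMap_iff (algebraMap FN (LaurentSeries L₁)).injective).1 h

/-- **`ω_s = ∂_{ι s}(V s) / ℓ`**, an element of `F_N`. -/
def omega (s : V) (htr : Transcendental L₁ (iotaMN M (ℓ := ℓ) ((s : V) : FM))) : FN :=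
  delOf L₁ (ℓ * M) (iotaMN M (ℓ := ℓ) ((s : V) : FM)) htr (VMN M (ℓ := ℓ) ((s : V) : FM)) /
    ((ℓ : ℕ) : FN)

theorem natCast_FN_ne_zero : ((ℓ : ℕ) : FN) ≠ 0 :=
  Nat.cast_ne_zero.mpr hℓ.out.ne_zero

theorem omega_mul_natCast (s : V) (htr : Transcendental L₁ (iotaMN M (ℓ := ℓ) ((s : V) : FM))) :
    omega M hℓM A hA s htr * ((ℓ : ℕ) : FN) =
      delOf L₁ (ℓ * M) (iotaMN M (ℓ := ℓ) ((s : V) : FM)) htr (VMN M (ℓ := ℓ) ((s : V) : FM)) := by
  rw [omega, div_mul_cancel₀ _ (natCast_FN_ne_zero M)]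

/-- **the expansion of `ω_s`**: `ω * θ σ = (θ σ)(t ^ ℓ)`. -/
theorem coe_omega_mul (s : V) (htr : Transcendental L₁ (iotaMN M (ℓ := ℓ) ((s : V) : FM))) :
    ((omega M hℓM A hA s htr : FN) : LaurentSeries L₁) *
        thetaOp (((s : V) : FM) : LaurentSeries L₁) =
      qExpand L₁ ℓ (thetaOp (((s : V) : FM) : LaurentSeries L₁)) := by
  have h := thetaOp_coe_eq_delOf_mul (iotaMN M (ℓ := ℓ) ((s : V) : FM)) htr
    (VMN M (ℓ := ℓ) ((s : V) : FM))
  rw [coe_VMN, coe_iotaMN, thetaOp_qExpand, ← omega_mul_natCast M hℓM A hA s htr] at h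
  have hcoeℓ : ((((ℓ : ℕ) : FN)) : LaurentSeries L₁) = ((ℓ : ℕ) : LaurentSeries L₁) := by
    rw [← coeN_apply, map_natCast]
  have hℓL : ((ℓ : ℕ) : LaurentSeries L₁) ≠ 0 := by
    rw [← hcoeℓ]
    intro h0
    exact natCast_FN_ne_zero M (ℓ := ℓ) (Subtype.ext h0)
  have hcoe : (((omega M hℓM A hA s htr * ((ℓ : ℕ) : FN) : FN)) : LaurentSeries L₁) =
      ((omega M hℓM A hA s htr : FN) : LaurentSeries L₁) * ((ℓ : ℕ) : LaurentSeries L₁) := by
    rw [← coeN_apply, map_mul, map_natCast, coeN_apply]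
  rw [hcoe] at h
  apply mul_left_cancel₀ hℓL
  rw [h]
  ring

section Place

attribute [local instance] Fermat.Agent.S34.H16.algebraVMFN

include hA in
/-- the big-ball form of **(A-exp)**. -/
theorem omega_bigBall (s : V) (hs : thetaOp (resM M hℓM A hA s) ≠ 0)
    (htr : Transcendental L₁ (iotaMN M (ℓ := ℓ) ((s : V) : FM))) :
    ((omega M hℓM A hA s htr : FN) : LaurentSeries L₁) ∈ G' ∧
    (((omega M hℓM A hA s htr)⁻¹ : FN) : LaurentSeries L₁) ∈ G' ∧
    bigResFun (H45.A0 A ℓ) (H45.resA0 A ℓ) ((omega M hℓM A hA s htr : FN) : LaurentSeries L₁) =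
      qExpand kA ℓ (thetaOp (resM M hℓM A hA s)) / thetaOp (resM M hℓM A hA s) ∧
    bigResFun (H45.A0 A ℓ) (H45.resA0 A ℓ) ((omega M hℓM A hA s htr : FN) : LaurentSeries L₁) ≠
      0 := by
  obtain ⟨h1, h2⟩ := coe_VM_mem_bigBall M hℓM A hA s
  have h0 : thetaOp (bigResFun (H45.A0 A ℓ) (H45.resA0 A ℓ)
      (((s : V) : FM) : LaurentSeries L₁)) ≠ 0 := by rw [h2]; exact hs
  obtain ⟨a, b, c, d⟩ := ratio_mem_bigBall ℓ h1 h0 (coe_omega_mul M hℓM A hA s htr)
  rw [h2] at c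
  refine ⟨a, ?_, c, d⟩
  have : (((omega M hℓM A hA s htr)⁻¹ : FN) : LaurentSeries L₁) =
      (((omega M hℓM A hA s htr : FN) : LaurentSeries L₁))⁻¹ := by
    rw [← coeN_apply, map_inv₀, coeN_apply]
  rw [this]
  exact b

include hA in
/-- **(A-exp), membership**: `ω_s` lies in the place ring of every `Pi`. -/
theorem omega_mem_PO1 (Pi : PlaceInf M hℓM A hA) (s : V)
    (hs : thetaOp (resM M hℓM A hA s) ≠ 0)
    (htr : Transcendental L₁ (iotaMN M (ℓ := ℓ) ((s : V) : FM))) :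
    omega M hℓM A hA s htr ∈ PO1 M hℓM A hA Pi :=
  (mem_PO1_inf_iff M hℓM A hA Pi _).mpr (omega_bigBall M hℓM A hA s hs htr).1

include hA in
/-- **(A-exp), unit**: `ω_s⁻¹` lies in the place ring of every `Pi`. -/
theorem omega_inv_mem_PO1 (Pi : PlaceInf M hℓM A hA) (s : V)
    (hs : thetaOp (resM M hℓM A hA s) ≠ 0)
    (htr : Transcendental L₁ (iotaMN M (ℓ := ℓ) ((s : V) : FM))) :
    (omega M hℓM A hA s htr)⁻¹ ∈ PO1 M hℓM A hA Pi :=
  (mem_PO1_inf_iff M hℓM A hA Pi _).mpr (omega_bigBall M hℓM A hA s hs htr).2.1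

include hA in
/-- **(A-exp), residue**: the residue of `ω_s` at `Pi` is `P_s = (θ s̄)(t ^ ℓ) / θ s̄`. -/
theorem Pres1_omega (Pi : PlaceInf M hℓM A hA) (s : V)
    (hs : thetaOp (resM M hℓM A hA s) ≠ 0)
    (htr : Transcendental L₁ (iotaMN M (ℓ := ℓ) ((s : V) : FM))) :
    Pres1 M hℓM A hA Pi ⟨omega M hℓM A hA s htr, omega_mem_PO1 M hℓM A hA Pi s hs htr⟩ =
      qExpand kA ℓ (thetaOp (resM M hℓM A hA s)) / thetaOp (resM M hℓM A hA s) := by
  rw [Pres1_inf_eq M hℓM A hA Pi ⟨_, omega_mem_PO1 M hℓM A hA Pi s hs htr⟩]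
  exact (omega_bigBall M hℓM A hA s hs htr).2.2.1

include hA in
/-- the residue of `ω_s⁻¹` at `Pi` times `P_s` is `1`. -/
theorem Pres1_omega_inv_mul (Pi : PlaceInf M hℓM A hA) (s : V)
    (hs : thetaOp (resM M hℓM A hA s) ≠ 0)
    (htr : Transcendental L₁ (iotaMN M (ℓ := ℓ) ((s : V) : FM))) :
    (qExpand kA ℓ (thetaOp (resM M hℓM A hA s)) / thetaOp (resM M hℓM A hA s)) *
      Pres1 M hℓM A hA Pi
        ⟨(omega M hℓM A hA s htr)⁻¹, omega_inv_mem_PO1 M hℓM A hA Pi s hs htr⟩ = 1 := by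
  rw [← Pres1_omega M hℓM A hA Pi s hs htr, ← map_mul]
  have hω0 : omega M hℓM A hA s htr ≠ 0 := by
    intro h0
    have := (omega_bigBall M hℓM A hA s hs htr).2.2.2
    rw [h0] at this
    exact this bigResFun_zero
  have : (⟨omega M hℓM A hA s htr, omega_mem_PO1 M hℓM A hA Pi s hs htr⟩ :
      PO1 M hℓM A hA Pi) * ⟨(omega M hℓM A hA s htr)⁻¹,
        omega_inv_mem_PO1 M hℓM A hA Pi s hs htr⟩ = 1 :=
    Subtype.ext (mul_inv_cancel₀ hω0)
  rw [this, map_one]

end Place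

/-- **(A-swap), formal half**: an automorphism `w` of `F_N` over the constants which exchanges
`ι s` and `V s` sends `ω_s` to `1 / (ℓ ^ 2 * ω_s)`. -/
theorem omega_swap (s : V) (htr : Transcendental L₁ (iotaMN M (ℓ := ℓ) ((s : V) : FM)))
    (w : FN ≃ₐ[L₁] FN)
    (h1 : w (iotaMN M (ℓ := ℓ) ((s : V) : FM)) = VMN M (ℓ := ℓ) ((s : V) : FM))
    (h2 : w (VMN M (ℓ := ℓ) ((s : V) : FM)) = iotaMN M (ℓ := ℓ) ((s : V) : FM)) :
    w (omega M hℓM A hA s htr) * (((ℓ : ℕ) : FN) ^ 2 * omega M hℓM A hA s htr) = 1 := by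
  have htrV : Transcendental L₁ (VMN M (ℓ := ℓ) ((s : V) : FM)) := by
    rw [← h1]
    intro halg
    apply htr
    have := halg.algHom (w.symm : FN →ₐ[L₁] FN)
    simpa using this
  have hconj := delOf_conj w (iotaMN M (ℓ := ℓ) ((s : V) : FM)) htr (by rw [h1]; exact htrV)
    (VMN M (ℓ := ℓ) ((s : V) : FM))
  have hmul := delOf_mul_delOf (iotaMN M (ℓ := ℓ) ((s : V) : FM))
    (VMN M (ℓ := ℓ) ((s : V) : FM)) htr htrV
  have hℓ0 : ((ℓ : ℕ) : FN) ≠ 0 := natCast_FN_ne_zero M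
  have hw : w (omega M hℓM A hA s htr) =
      delOf L₁ (ℓ * M) (VMN M (ℓ := ℓ) ((s : V) : FM)) htrV
        (iotaMN M (ℓ := ℓ) ((s : V) : FM)) / ((ℓ : ℕ) : FN) := by
    rw [omega, map_div₀, map_natCast, hconj]
    congr 1
    simp only [h1, h2]
  rw [hw, omega]
  have hmul' : delOf L₁ (ℓ * M) (VMN M (ℓ := ℓ) ((s : V) : FM)) htrV
      (iotaMN M (ℓ := ℓ) ((s : V) : FM)) *
      delOf L₁ (ℓ * M) (iotaMN M (ℓ := ℓ) ((s : V) : FM)) htr
        (VMN M (ℓ := ℓ) ((s : V) : FM)) = 1 := (mul_comm _ _).trans hmul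
  field_simp
  exact hmul'

end Fermat.Agent.S36.H92
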