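import Mathlib
import Fermat.Agent.S36.H92_OmegaPi
import Fermat.Agent.S28.H17_FormalIdentity

/-!
# S36 (M2e)(A-exp-As) (helper92): the level-`M` function `A_s = j⁴ (j - 1728)³ / (∂_s j)⁶`

Primary route of (M2e) (helper62 #3361, ruling 4 #3394).

Generic part (`K` a field of characteristic zero, `F = FullC K N ⊆ K((t))`, `x₀ ∈ F` transcendental
over `K`, `∂ = delOf K N x₀ hx₀ = d/dx₀`):

* `delOf_jK_ne_zero` : `∂ j ≠ 0`;
* `AsOf K N x₀ hx₀ = j⁴ (j - 1728)³ / (∂ j)⁶ ∈ F`;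
* `DeltaS_mul_coe_AsOf` : **the expansion identity** `Δ * A = (θ x₀)⁶` in `K((t))`
  (helper17's formal identity `Δ j⁴ (j - 1728)³ = (θ j)⁶` + the chain rule `θ j = ∂ j * θ x₀`).

Real types (binder block of `S34.H55` L0Base / `S34.H92` GaussLevelM; `s ∈ V_M` the level-`M` Gauss
ring, `s̄ = resM s`):

* `mem_VM_of_coe_mem_bigBall`, `mem_VM_iff` : `V_M` is the trace of the big ball on `F_M`;
  `resM_eq_bigResFun`;
* `transcendental_coe_VM` : `s` is transcendental over the constants when `θ s̄ ≠ 0`;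
* `As M hℓM A hA s htr ∈ F_M`, `DeltaS_mul_coe_As`;
* `As_mem_VM` : `A_s ∈ V_M` (always), `DeltaS_mul_resM_As` : **the reduction**
  `Δ̄ * Ā_s = (θ s̄)⁶` in `kA((t))`;
* `As_inv_mem_VM` : if `θ s̄ ≠ 0` then `A_s` is a unit of `V_M` ("Gauss norm one");
  `resM_As_ne_zero`;
* `DeltaS_mul_resM_mul` : the fraction form: for `c d ∈ V_M` with `A_s * d = c`:
  `Δ̄ * c̄ = (θ s̄)⁶ * d̄`.
-/

set_option autoImplicit false
set_option linter.unusedSectionVars false
set_option linter.style.haveILetI false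
set_option synthInstance.maxHeartbeats 400000

noncomputable section

namespace Fermat.Agent.S36.H92

open ModularCurve Polynomial IsLocalRing IntermediateField
open Fermat.Agent.S18 Fermat.Agent.S18.H92 Fermat.Agent.S34 Fermat.Agent.S34.H92
  Fermat.Agent.S34.H16 Fermat.Agent.S34.H55 Fermat.Agent.CA.H92 Fermat.Agent.CA.H99
  Fermat.Agent.S28 Fermat.Agent.S28.H39

local notation "Qbar" => AlgebraicClosure ℚ

/-! ### Generic part -/

section Generic

variable (K : Type) [Field K] [CharZero K] (N : ℕ) [NeZero N]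

local notation "F" => modularFunctionFieldFullC K N

variable {K N}

/-- `∂_{x₀} j ≠ 0`. -/
theorem delOf_jK_ne_zero (x₀ : F) (hx₀ : Transcendental K x₀) :
    delOf K N x₀ hx₀ (S18.H16.jK K N) ≠ 0 := by
  intro h0
  have h := delOf_mul_delOf x₀ (S18.H16.jK K N) hx₀ (S18.H16.transcendental_jK K N)
  rw [h0, zero_mul] at h
  exact zero_ne_one h

variable (K N)

/-- **`A = j⁴ (j - 1728)³ / (∂_{x₀} j)⁶`**. -/
def AsOf (x₀ : F) (hx₀ : Transcendental K x₀) : F :=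
  S18.H16.jK K N ^ 4 * (S18.H16.jK K N - 1728) ^ 3 / delOf K N x₀ hx₀ (S18.H16.jK K N) ^ 6

variable {K N}

theorem AsOf_mul (x₀ : F) (hx₀ : Transcendental K x₀) :
    AsOf K N x₀ hx₀ * delOf K N x₀ hx₀ (S18.H16.jK K N) ^ 6 =
      S18.H16.jK K N ^ 4 * (S18.H16.jK K N - 1728) ^ 3 := by
  rw [AsOf, div_mul_cancel₀ _ (pow_ne_zero 6 (delOf_jK_ne_zero x₀ hx₀))]

/-- **the expansion identity** `Δ * A = (θ x₀)⁶`. -/
theorem DeltaS_mul_coe_AsOf (x₀ : F) (hx₀ : Transcendental K x₀) :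
    DeltaS K * ((AsOf K N x₀ hx₀ : F) : LaurentSeries K) =
      thetaOp (x₀ : LaurentSeries K) ^ 6 := by
  have hchain := thetaOp_coe_eq_delOf_mul x₀ hx₀ (S18.H16.jK K N)
  rw [S18.H16.coe_jK] at hchain
  have hform := S28.H17.formal_identity K
  rw [hchain, mul_pow] at hform
  set d : LaurentSeries K := ((delOf K N x₀ hx₀ (S18.H16.jK K N) : F) : LaurentSeries K) with hd
  have hd0 : d ≠ 0 := by
    intro h0
    exact delOf_jK_ne_zero x₀ hx₀ (Subtype.ext h0)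
  have hmul := congrArg (fun y : F => (y : LaurentSeries K)) (AsOf_mul x₀ hx₀)
  have hmul' : ((AsOf K N x₀ hx₀ : F) : LaurentSeries K) * d ^ 6 =
      jqModC K ^ 4 * (jqModC K - 1728) ^ 3 := by
    have e1 : ((AsOf K N x₀ hx₀ * delOf K N x₀ hx₀ (S18.H16.jK K N) ^ 6 : F) : LaurentSeries K) =
        ((AsOf K N x₀ hx₀ : F) : LaurentSeries K) * d ^ 6 := by
      rw [hd]
      exact (map_mul (algebraMap F (LaurentSeries K)) _ _).trans
        (by rw [map_pow]; rfl)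
    have e2 : ((S18.H16.jK K N ^ 4 * (S18.H16.jK K N - 1728) ^ 3 : F) : LaurentSeries K) =
        jqModC K ^ 4 * (jqModC K - 1728) ^ 3 := by
      have := (map_mul (algebraMap F (LaurentSeries K)) (S18.H16.jK K N ^ 4)
        ((S18.H16.jK K N - 1728) ^ 3))
      rw [map_pow, map_pow, map_sub, map_ofNat] at this
      exact this
    rw [← e1, ← e2]
    exact hmul
  have hd6 : d ^ 6 ≠ 0 := pow_ne_zero 6 hd0
  apply mul_right_cancel₀ hd6
  rw [mul_assoc, hmul', ← mul_assoc, hform]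
  ring

end Generic

/-! ### Real types -/

variable (M : ℕ) [NeZero M] {ℓ : ℕ} [hℓ : Fact ℓ.Prime] (hℓM : ¬ ℓ ∣ M)
  (A : ValuationSubring Qbar) (hA : A.LiesOverPrime ℓ)

local notation "kA" => IsLocalRing.ResidueField A
local notation "A₁" => H45.A0 A ℓ
local notation "L₁" => H45.unrCyclo ℓ
local notation "FM" => modularFunctionFieldFullC (H45.unrCyclo ℓ) M
local notation "V" => VM M hℓM A hA
local notation "G'" => bigBall (H45.A0 A ℓ) (H45.resA0 A ℓ)

theorem resM_eq_bigResFun (a : V) :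
    resM M hℓM A hA a =
      bigResFun (H45.A0 A ℓ) (H45.resA0 A ℓ) (((a : V) : FM) : LaurentSeries L₁) :=
  (coe_VM_mem_bigBall M hℓM A hA a).2.symm

/-- an element of `F_M` whose `t`-expansion lies in the big ball lies in `V_M`. -/
theorem mem_VM_of_coe_mem_bigBall (x : FM) (hx : ((x : FM) : LaurentSeries L₁) ∈ G') :
    x ∈ V := by
  rcases (VM M hℓM A hA).mem_or_inv_mem x with h | h
  · exact h
  · by_cases hx0 : x = 0
    · rw [hx0]; exact (VM M hℓM A hA).zero_mem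
    by_cases hres : resM M hℓM A hA ⟨x⁻¹, h⟩ = 0
    · exfalso
      obtain ⟨hinv, hinvres⟩ := coe_VM_mem_bigBall M hℓM A hA ⟨x⁻¹, h⟩
      rw [hres] at hinvres
      have hmul : ((x : FM) : LaurentSeries L₁) * ((x⁻¹ : FM) : LaurentSeries L₁) = 1 := by
        have := map_mul (algebraMap FM (LaurentSeries L₁)) x x⁻¹
        rw [mul_inv_cancel₀ hx0, map_one] at this
        exact this.symm
      have h1 := bigResFun_mul hx hinv
      rw [hmul, bigResFun_one, hinvres, mul_zero] at h1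
      exact one_ne_zero h1
    · have hu : IsUnit (⟨x⁻¹, h⟩ : V) := by
        by_contra hnu
        exact hres ((resM_eq_zero_iff_not_isUnit M hℓM A hA _).mpr hnu)
      obtain ⟨u, hu'⟩ := hu
      have h2 : ((↑(u⁻¹) : V) : FM) = x := by
        have h3 : ((u : V) : FM) = x⁻¹ := by rw [hu']
        have h4 : ((u : V) : FM) * ((↑(u⁻¹) : V) : FM) = 1 := by
          rw [← MulMemClass.coe_mul, Units.mul_inv]; rfl
        rw [h3] at h4
        exact (eq_inv_of_mul_eq_one_right h4).trans (inv_inv x)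
      rw [← h2]
      exact (↑(u⁻¹) : V).2

/-- **`V_M` is the trace of the big ball on `F_M`.** -/
theorem mem_VM_iff (x : FM) : x ∈ V ↔ ((x : FM) : LaurentSeries L₁) ∈ G' :=
  ⟨fun h => (coe_VM_mem_bigBall M hℓM A hA ⟨x, h⟩).1, mem_VM_of_coe_mem_bigBall M hℓM A hA x⟩

/-- `s` is transcendental over the constants when `θ s̄ ≠ 0`. -/
theorem transcendental_coe_VM (s : V) (hs : thetaOp (resM M hℓM A hA s) ≠ 0) :
    Transcendental L₁ ((s : V) : FM) := by
  have h : Transcendental L₁ (algebraMap FM (LaurentSeries L₁) ((s : V) : FM)) :=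
    transcendental_of_thetaOp_ne_zero _ (thetaOp_coe_ne_zero M hℓM A hA s hs)
  exact (transcendental_algebraMap_iff (algebraMap FM (LaurentSeries L₁)).injective).1 h

/-- **`A_s = j⁴ (j - 1728)³ / (∂_s j)⁶`**, an element of the level-`M` field `F_M`. -/
def As (s : V) (htr : Transcendental L₁ ((s : V) : FM)) : FM :=
  AsOf L₁ M ((s : V) : FM) htr

/-- **the expansion identity** `Δ * A_s = (θ σ)⁶` in `L₁((t))`. -/
theorem DeltaS_mul_coe_As (s : V) (htr : Transcendental L₁ ((s : V) : FM)) :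
    DeltaS L₁ * ((As M hℓM A hA s htr : FM) : LaurentSeries L₁) =
      thetaOp (((s : V) : FM) : LaurentSeries L₁) ^ 6 :=
  DeltaS_mul_coe_AsOf _ htr

theorem DeltaS_mem_bigBall :
    DeltaS L₁ ∈ G' ∧ bigResFun (H45.A0 A ℓ) (H45.resA0 A ℓ) (DeltaS L₁) = DeltaS kA := by
  have h : DeltaS L₁ = up (H45.A0 A ℓ) (DeltaS (H45.A0 A ℓ)) :=
    (S28.H39.coeffMap_DeltaS (A₁).subtype).symm
  rw [h]
  refine ⟨up_mem_bigBall _, ?_⟩
  rw [bigResFun_up, S28.H39.coeffMap_DeltaS]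

/-- the big-ball form: `A_s` lies in the big ball, with `Δ̄ * Ā_s = (θ s̄)⁶`. -/
theorem As_bigBall (s : V) (htr : Transcendental L₁ ((s : V) : FM)) :
    ((As M hℓM A hA s htr : FM) : LaurentSeries L₁) ∈ G' ∧
      DeltaS kA * bigResFun (H45.A0 A ℓ) (H45.resA0 A ℓ)
        ((As M hℓM A hA s htr : FM) : LaurentSeries L₁) =
        thetaOp (resM M hℓM A hA s) ^ 6 := by
  obtain ⟨hΔ, hΔres⟩ := DeltaS_mem_bigBall (ℓ := ℓ) A
  obtain ⟨hσ, hσres⟩ := coe_VM_mem_bigBall M hℓM A hA s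
  have hθ : thetaOp (((s : V) : FM) : LaurentSeries L₁) ^ 6 ∈ G' :=
    Subring.pow_mem _ (thetaOp_mem_bigBall hσ) 6
  have hΔ0 : bigResFun (H45.A0 A ℓ) (H45.resA0 A ℓ) (DeltaS L₁) ≠ 0 := by
    rw [hΔres]; exact S28.H39.DeltaS_ne_zero
  have hmul : ((As M hℓM A hA s htr : FM) : LaurentSeries L₁) * DeltaS L₁ =
      thetaOp (((s : V) : FM) : LaurentSeries L₁) ^ 6 := by
    rw [mul_comm]; exact DeltaS_mul_coe_As M hℓM A hA s htr
  obtain ⟨h1, h2⟩ := mem_bigBall_of_mul_eq hΔ hθ hΔ0 hmul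
  refine ⟨h1, ?_⟩
  have hpow : bigResFun (H45.A0 A ℓ) (H45.resA0 A ℓ)
      (thetaOp (((s : V) : FM) : LaurentSeries L₁) ^ 6) = thetaOp (resM M hℓM A hA s) ^ 6 := by
    have := map_pow (bigRes (H45.A0 A ℓ) (H45.resA0 A ℓ))
      ⟨thetaOp (((s : V) : FM) : LaurentSeries L₁), thetaOp_mem_bigBall hσ⟩ 6
    rw [bigRes_apply, bigRes_apply] at this
    rw [← hσres, ← bigResFun_thetaOp hσ]
    exact this
  rw [h2, hΔres, hpow, mul_div_cancel₀ _ S28.H39.DeltaS_ne_zero]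

/-- `A_s ∈ V_M`. -/
theorem As_mem_VM (s : V) (htr : Transcendental L₁ ((s : V) : FM)) :
    As M hℓM A hA s htr ∈ V :=
  mem_VM_of_coe_mem_bigBall M hℓM A hA _ (As_bigBall M hℓM A hA s htr).1

/-- **the reduction** `Δ̄ * Ā_s = (θ s̄)⁶` in `kA((t))`. -/
theorem DeltaS_mul_resM_As (s : V) (htr : Transcendental L₁ ((s : V) : FM)) :
    DeltaS kA * resM M hℓM A hA ⟨As M hℓM A hA s htr, As_mem_VM M hℓM A hA s htr⟩ =
      thetaOp (resM M hℓM A hA s) ^ 6 := by
  rw [resM_eq_bigResFun]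
  exact (As_bigBall M hℓM A hA s htr).2

theorem resM_As_ne_zero (s : V) (hs : thetaOp (resM M hℓM A hA s) ≠ 0)
    (htr : Transcendental L₁ ((s : V) : FM)) :
    resM M hℓM A hA ⟨As M hℓM A hA s htr, As_mem_VM M hℓM A hA s htr⟩ ≠ 0 := by
  intro h0
  have h := DeltaS_mul_resM_As M hℓM A hA s htr
  rw [h0, mul_zero] at h
  exact pow_ne_zero 6 hs h.symm

/-- **Gauss norm one**: if `θ s̄ ≠ 0`, `A_s` is a unit of `V_M`. -/
theorem isUnit_As (s : V) (hs : thetaOp (resM M hℓM A hA s) ≠ 0)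
    (htr : Transcendental L₁ ((s : V) : FM)) :
    IsUnit (⟨As M hℓM A hA s htr, As_mem_VM M hℓM A hA s htr⟩ : V) := by
  by_contra hnu
  exact resM_As_ne_zero M hℓM A hA s hs htr ((resM_eq_zero_iff_not_isUnit M hℓM A hA _).mpr hnu)

theorem As_inv_mem_VM (s : V) (hs : thetaOp (resM M hℓM A hA s) ≠ 0)
    (htr : Transcendental L₁ ((s : V) : FM)) :
    (As M hℓM A hA s htr)⁻¹ ∈ V := by
  obtain ⟨u, hu⟩ := isUnit_As M hℓM A hA s hs htr
  have h3 : ((u : V) : FM) = As M hℓM A hA s htr := by rw [hu]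
  have h4 : ((u : V) : FM) * ((↑(u⁻¹) : V) : FM) = 1 := by
    rw [← MulMemClass.coe_mul, Units.mul_inv]; rfl
  rw [h3] at h4
  have h5 : ((↑(u⁻¹) : V) : FM) = (As M hℓM A hA s htr)⁻¹ := eq_inv_of_mul_eq_one_right h4
  rw [← h5]
  exact (↑(u⁻¹) : V).2

/-- the fraction form: for `c d ∈ V_M` with `A_s * d = c`: `Δ̄ * c̄ = (θ s̄)⁶ * d̄`. -/
theorem DeltaS_mul_resM_mul (s : V) (htr : Transcendental L₁ ((s : V) : FM)) (c d : V)
    (h : As M hℓM A hA s htr * ((d : V) : FM) = ((c : V) : FM)) :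
    DeltaS kA * resM M hℓM A hA c = thetaOp (resM M hℓM A hA s) ^ 6 * resM M hℓM A hA d := by
  have h1 : (⟨As M hℓM A hA s htr, As_mem_VM M hℓM A hA s htr⟩ : V) * d = c := Subtype.ext h
  rw [← h1, map_mul, ← mul_assoc, DeltaS_mul_resM_As]

/-- **(A-exp-As), end line** (the `hIa`/`hIb` spelling of `S36.H54.not_mem_of_identities`, with
`Δb := DeltaS kA`): for `c d ∈ V_M` with `A_s * d = c` in `F_M`:
`(θ s̄)⁶ * d̄ = Δ̄ * c̄` in `kA((t))`. -/
theorem thetaOp_pow_six_mul_resM (s : V) (htr : Transcendental L₁ ((s : V) : FM)) (c d : V)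
    (h : As M hℓM A hA s htr * ((d : V) : FM) = ((c : V) : FM)) :
    thetaOp (resM M hℓM A hA s) ^ 6 * resM M hℓM A hA d = DeltaS kA * resM M hℓM A hA c :=
  (DeltaS_mul_resM_mul M hℓM A hA s htr c d h).symm

end Fermat.Agent.S36.H92
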