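import Mathlib
import Fermat.Agent.S36.H92_AsExp
import Fermat.Agent.S34.H35_SatInst

/-!
# S36 (M2e)(A-As), vertical prime (helper92): `A_s` is a fraction of chart elements with non-zero
reductions

Generic (`Mo : S18.H3.GaussModel ϖ π0 x1 θ xb θb`, chart `B = chartB R0 x1 = R0[x1]^int`, reduction
`rbarB Mo Mo.x_mem Mo.res1_x : B →+* k[xb]^int`):

* `exists_chart_frac_of_res1_ne_zero` : every `y ∈ O1` with `res1 y ≠ 0` is `c / d` with
  `c d ∈ B`, `rbarB c ≠ 0`, `rbarB d ≠ 0` (i.e. `y` is a unit at the vertical prime `ker rbarB` of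
  the chart), provided `θ` is integral over `R0[x1]` and `xb` is transcendental.

Real types (`S34.H55` L0Base binder block; level-`M` chart `BM = chartB A₁ (jK L₁ M)`):

* `isIntegral_jNK_levelM` : `j_M` is integral over `A₁[j]` in `F_M`;
* `exists_chart_frac_As` : if `θ s̄ ≠ 0`, `A_s * d = c` with `c d ∈ BM`, `rbarB c ≠ 0`,
  `rbarB d ≠ 0`  (= `hvert` of `S36.H13.isUnitAt_sixfold` after unfolding `S34.H56.IsUnitAt` at
  `P = ker rbarB`);
* `As_ne_zero`.
-/

set_option autoImplicit false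
set_option linter.unusedSectionVars false
set_option linter.style.haveILetI false
set_option synthInstance.maxHeartbeats 400000

noncomputable section

namespace Fermat.Agent.S36.H92

open ModularCurve Polynomial IsLocalRing IntermediateField
open Fermat.Agent.S18 Fermat.Agent.S18.H92 Fermat.Agent.S34 Fermat.Agent.S34.H92
  Fermat.Agent.S34.H16 Fermat.Agent.S34.H55 Fermat.Agent.CA.H92 Fermat.Agent.CA.H99
  Fermat.Agent.S28 Fermat.Agent.S28.H39

local notation "Qbar" => AlgebraicClosure ℚ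

/-! ### Generic part -/

section Generic

variable {R0 k F1 Fk : Type*} [CommRing R0] [Field k] [Field F1] [Algebra R0 F1]
  [Field Fk] [Algebra k Fk] {ϖ : R0} {π0 : R0 →+* k} {x1 θ : F1} {xb θb : Fk}

theorem aeval_mem_chartB (s : R0[X]) : aeval x1 s ∈ H40.chartB R0 x1 := by
  have h1 : aeval x1 s ∈ Algebra.adjoin R0 {x1} := Polynomial.aeval_mem_adjoin_singleton R0 x1
  have h2 : Algebra.adjoin R0 {x1} ≤ H40.chartB R0 x1 :=
    Algebra.adjoin_le (Set.singleton_subset_iff.mpr (H40.self_mem_chartB x1))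
  exact h2 h1

theorem eval2_mem_chartB (hθ : θ ∈ H40.chartB R0 x1) (g : R0[X][X]) :
    H3.eval2 x1 θ g ∈ H40.chartB R0 x1 := by
  unfold H3.eval2
  rw [Polynomial.eval₂_eq_sum_range]
  refine Subalgebra.sum_mem _ fun i _ => Subalgebra.mul_mem _ ?_ (Subalgebra.pow_mem _ hθ i)
  exact aeval_mem_chartB _

/-- **units of the Gauss ring are units at the vertical prime of the chart.** -/
theorem exists_chart_frac_of_res1_ne_zero (Mo : H3.GaussModel ϖ π0 x1 θ xb θb)
    (hxb : Transcendental k xb) (hθ : θ ∈ H40.chartB R0 x1)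
    (y : F1) (hy : y ∈ Mo.O1) (hy0 : Mo.res1 ⟨y, hy⟩ ≠ 0) :
    ∃ c d : ↥(H40.chartB R0 x1), rbarB Mo Mo.x_mem Mo.res1_x c ≠ 0 ∧
      rbarB Mo Mo.x_mem Mo.res1_x d ≠ 0 ∧ y * (d : F1) = (c : F1) := by
  obtain ⟨s, hs, g, hg⟩ := Mo.exists_repr y hy
  have hxbinj : Function.Injective (aeval xb : k[X] →ₐ[k] Fk) :=
    transcendental_iff_injective.mp hxb
  have hsb : aeval xb (s.map π0) ≠ 0 := fun h => hs (hxbinj (by rw [h, map_zero]))
  set d : ↥(H40.chartB R0 x1) := ⟨aeval x1 s, aeval_mem_chartB s⟩ with hd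
  set c : ↥(H40.chartB R0 x1) := ⟨H3.eval2 x1 θ g, eval2_mem_chartB hθ g⟩ with hc
  have hdres : ((rbarB Mo Mo.x_mem Mo.res1_x d :
      ↥(integralClosure (Algebra.adjoin k {xb}) Fk)) : Fk) = aeval xb (s.map π0) := by
    rw [coe_rbarB]
    exact (Mo.res1_aeval s)
  have hd0 : rbarB Mo Mo.x_mem Mo.res1_x d ≠ 0 := by
    intro h0
    apply hsb
    rw [← hdres, h0]; rfl
  have hyd : y * (d : F1) = (c : F1) := by
    show y * aeval x1 s = H3.eval2 x1 θ g
    rw [mul_comm]; exact hg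
  have hcres : ((rbarB Mo Mo.x_mem Mo.res1_x c :
      ↥(integralClosure (Algebra.adjoin k {xb}) Fk)) : Fk) =
      Mo.res1 ⟨y, hy⟩ * aeval xb (s.map π0) := by
    rw [coe_rbarB, ← hdres, coe_rbarB, ← map_mul]
    congr 1
    exact Subtype.ext hyd.symm
  refine ⟨c, d, ?_, hd0, hyd⟩
  intro h0
  have : Mo.res1 ⟨y, hy⟩ * aeval xb (s.map π0) = 0 := by rw [← hcres, h0]; rfl
  rcases mul_eq_zero.mp this with h | h
  · exact hy0 h
  · exact hsb h

end Generic

/-! ### Real types -/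

variable (M : ℕ) [NeZero M] {ℓ : ℕ} [hℓ : Fact ℓ.Prime] (hℓM : ¬ ℓ ∣ M)
  (A : ValuationSubring Qbar) (hA : A.LiesOverPrime ℓ)

local notation "kA" => IsLocalRing.ResidueField A
local notation "A₁" => H45.A0 A ℓ
local notation "L₁" => H45.unrCyclo ℓ
local notation "FM" => modularFunctionFieldFullC (H45.unrCyclo ℓ) M
local notation "FkM" => modularFunctionFieldFullC (IsLocalRing.ResidueField A) M
local notation "V" => VM M hℓM A hA

/-- `j_M` is integral over `A₁[j]` in `F_M`. -/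
theorem isIntegral_jNK_levelM :
    IsIntegral (Algebra.adjoin A₁ {S18.H16.jK L₁ M}) (S18.H16.jNK L₁ M) := by
  obtain ⟨D, -, -⟩ := S18.H16.exists_modPoly_gen M
  have h0 := S34.H16.relFK_aeval L₁ M M D 1 M (one_mul _).symm (one_dvd _) dvd_rfl
  rw [S18.H99.jdK_one, S18.H99.jdK_self] at h0
  exact CA.H55.isIntegral_adjoin_of_monic _ _
    (D.Φ.map (Polynomial.mapRingHom (Int.castRingHom A₁))) (D.monic.map _)
    (by rw [S34.H35.eval₂_map_intCast]; exact h0)

theorem As_ne_zero (s : V) (hs : thetaOp (resM M hℓM A hA s) ≠ 0)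
    (htr : Transcendental L₁ ((s : V) : FM)) : As M hℓM A hA s htr ≠ 0 := by
  intro h0
  apply resM_As_ne_zero M hℓM A hA s hs htr
  have : (⟨As M hℓM A hA s htr, As_mem_VM M hℓM A hA s htr⟩ : V) = 0 := Subtype.ext h0
  rw [this, map_zero]

/-- **(A-As), vertical prime**: `A_s = c / d` with `c d` in the level-`M` chart
`BM = chartB A₁ j`, both with non-zero reduction. -/
theorem exists_chart_frac_As (s : V) (hs : thetaOp (resM M hℓM A hA s) ≠ 0)
    (htr : Transcendental L₁ ((s : V) : FM)) :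
    ∃ c d : ↥(H40.chartB A₁ (S18.H16.jK L₁ M)),
      rbarB (Mod M hℓM A hA) (Mod M hℓM A hA).x_mem (Mod M hℓM A hA).res1_x c ≠ 0 ∧
      rbarB (Mod M hℓM A hA) (Mod M hℓM A hA).x_mem (Mod M hℓM A hA).res1_x d ≠ 0 ∧
      As M hℓM A hA s htr * ((d : ↥(H40.chartB A₁ (S18.H16.jK L₁ M))) : FM) =
        ((c : ↥(H40.chartB A₁ (S18.H16.jK L₁ M))) : FM) := by
  have hmem : As M hℓM A hA s htr ∈ (Mod M hℓM A hA).O1 := As_mem_VM M hℓM A hA s htr
  have hres : (Mod M hℓM A hA).res1 ⟨As M hℓM A hA s htr, hmem⟩ ≠ 0 := by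
    intro h0
    apply resM_As_ne_zero M hℓM A hA s hs htr
    rw [← inclk_res1 M hℓM A hA _ hmem, h0, map_zero]
  have hxb : Transcendental kA (S18.H16.jK kA M) := S18.H16.transcendental_jK kA M
  exact exists_chart_frac_of_res1_ne_zero (Mod M hℓM A hA) hxb
    (isIntegral_jNK_levelM M A) _ hmem hres

end Fermat.Agent.S36.H92
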