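import Mathlib
import Fermat.Agent.S36.H92_AsVert
import Fermat.Agent.S36.H54_M2eSetup

/-!
# S36 (M2e)(R-As), glue half (helper92): `HAs` of `S36.H54.exists_pair_of_crossing` at the real
types

Real types of helper54's #3516 (chart 1 at level `M`):
`BM := chartB A₁ (jK L₁ M)`, `D := integralClosure kA[j̄] FkM`, `T := LaurentSeries kA`,
`algebraMap D T d = ((d : FkM) : kA((t)))`, `θ := S28.H39.thetaDer`, `Δb := DeltaS kA`, `ψ₀ := 1`,
`rbar := rbarB Mod`.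

* `resM_chart` : `resM ⟨b, _⟩ = algebraMap D T (rbar b)` for `b ∈ BM`;
* `HAs_real` : **`HAs` verbatim**, from
  - `hrbar` : `rbar` is surjective (`TwoComponents.hrbar`),
  - `hth`   : `θ s̄ ≠ 0` for every uniformiser `s̄` of `D` at a maximal ideal (first half of `Hdel`),
  - `hU`    : for `s ∈ BM` lifting a uniformiser at `𝔠`: `A_s = cn' / cd'` with
    `cn' cd' ∈ BM`, `rbar cn' ∉ 𝔠`, `rbar cd' ∉ 𝔠` (`S34.H56.IsUnitAt (comap rbar 𝔠) A_s` unfolded;
    helper13's `S36/H13_AsUnitInst`).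
-/

set_option autoImplicit false
set_option linter.unusedSectionVars false
set_option linter.style.haveILetI false
set_option synthInstance.maxHeartbeats 400000

noncomputable section

namespace Fermat.Agent.S36.H92

open ModularCurve Polynomial IsLocalRing IntermediateField
open Fermat.Agent.S18 Fermat.Agent.S18.H92 Fermat.Agent.S34 Fermat.Agent.S34.H92
  Fermat.Agent.S34.H16 Fermat.Agent.S34.H55 Fermat.Agent.CA.H92 Fermat.Agent.CA.H99
  Fermat.Agent.S28 Fermat.Agent.S28.H39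

local notation "Qbar" => AlgebraicClosure ℚ

variable (M : ℕ) [NeZero M] {ℓ : ℕ} [hℓ : Fact ℓ.Prime] (hℓM : ¬ ℓ ∣ M)
  (A : ValuationSubring Qbar) (hA : A.LiesOverPrime ℓ)

local notation "kA" => IsLocalRing.ResidueField A
local notation "A₁" => H45.A0 A ℓ
local notation "L₁" => H45.unrCyclo ℓ
local notation "FM" => modularFunctionFieldFullC (H45.unrCyclo ℓ) M
local notation "FkM" => modularFunctionFieldFullC (IsLocalRing.ResidueField A) M
local notation "V" => VM M hℓM A hA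
set_option quotPrecheck false in
local notation "BM" => ↥(H40.chartB (H45.A0 A ℓ) (S18.H16.jK (H45.unrCyclo ℓ) M))
set_option quotPrecheck false in
local notation "DM" =>
  ↥(integralClosure (Algebra.adjoin (IsLocalRing.ResidueField A)
    {S18.H16.jK (IsLocalRing.ResidueField A) M}) (modularFunctionFieldFullC (IsLocalRing.ResidueField A) M))
set_option quotPrecheck false in
local notation "rbarM" =>
  rbarB (Mod M hℓM A hA) (Mod M hℓM A hA).x_mem (Mod M hℓM A hA).res1_x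

/-- elements of the level-`M` chart lie in the Gauss ring. -/
theorem chart_mem_VM (b : BM) : ((b : BM) : FM) ∈ V :=
  mem_V_of_mem_O1 M hℓM A hA (chart_le_O1 (Mod M hℓM A hA) (Mod M hℓM A hA).x_mem b.2)

/-- the expansion of the reduction of a chart element. -/
theorem resM_chart (b : BM) :
    resM M hℓM A hA ⟨((b : BM) : FM), chart_mem_VM M hℓM A hA b⟩ =
      algebraMap DM (LaurentSeries kA) (rbarM b) := by
  rw [← inclk_res1 M hℓM A hA _ (chart_le_O1 (Mod M hℓM A hA) (Mod M hℓM A hA).x_mem b.2)]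
  rfl

include hA in
/-- **`HAs` at the real types**, from the unit property of `A_s` at the closed points of the
level-`M` chart. -/
theorem HAs_real
    (hrbar : Function.Surjective (rbarM))
    (hth : ∀ (𝔠 : Ideal DM), 𝔠.IsMaximal → ∀ sb : DM, sb ∈ 𝔠 → sb ∉ 𝔠 ^ 2 →
      thetaOp (algebraMap DM (LaurentSeries kA) sb) ≠ 0)
    (hU : ∀ (s : BM) (htr : Transcendental L₁ ((s : BM) : FM)) (𝔠 : Ideal DM), 𝔠.IsMaximal →
      rbarM s ∈ 𝔠 → rbarM s ∉ 𝔠 ^ 2 →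
      ∃ cn' cd' : BM, rbarM cn' ∉ 𝔠 ∧ rbarM cd' ∉ 𝔠 ∧
        As M hℓM A hA ⟨((s : BM) : FM), chart_mem_VM M hℓM A hA s⟩ htr * ((cd' : BM) : FM) =
          ((cn' : BM) : FM)) :
    ∀ (𝔠 : Ideal DM), 𝔠.IsMaximal → ∀ sb : DM, sb ∈ 𝔠 → sb ∉ 𝔠 ^ 2 →
      rbarM (1 : BM) ∉ 𝔠 →
      ∃ cn cd : DM, cn ∉ 𝔠 ∧ cd ∉ 𝔠 ∧
        (S28.H39.thetaDer (R := kA)) (algebraMap DM (LaurentSeries kA) sb) ^ 6 *
            algebraMap DM (LaurentSeries kA) cd =
          DeltaS kA * algebraMap DM (LaurentSeries kA) cn := by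
  intro 𝔠 h𝔠 sb hsb hsb2 _
  obtain ⟨s, hs⟩ := hrbar sb
  have hsb' : rbarM s ∈ 𝔠 := by rw [hs]; exact hsb
  have hsb2' : rbarM s ∉ 𝔠 ^ 2 := by rw [hs]; exact hsb2
  have hres : resM M hℓM A hA ⟨((s : BM) : FM), chart_mem_VM M hℓM A hA s⟩ =
      algebraMap DM (LaurentSeries kA) sb := by
    rw [resM_chart M hℓM A hA s, hs]
  have hθ : thetaOp (resM M hℓM A hA ⟨((s : BM) : FM), chart_mem_VM M hℓM A hA s⟩) ≠ 0 := by
    rw [hres]; exact hth 𝔠 h𝔠 sb hsb hsb2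
  have htr : Transcendental L₁ ((s : BM) : FM) :=
    transcendental_coe_VM M hℓM A hA ⟨((s : BM) : FM), chart_mem_VM M hℓM A hA s⟩ hθ
  obtain ⟨cn', cd', hcn, hcd, h⟩ := hU s htr 𝔠 h𝔠 hsb' hsb2'
  refine ⟨rbarM cn', rbarM cd', hcn, hcd, ?_⟩
  have key := thetaOp_pow_six_mul_resM M hℓM A hA
    ⟨((s : BM) : FM), chart_mem_VM M hℓM A hA s⟩ htr
    ⟨((cn' : BM) : FM), chart_mem_VM M hℓM A hA cn'⟩
    ⟨((cd' : BM) : FM), chart_mem_VM M hℓM A hA cd'⟩ h
  rw [hres, resM_chart M hℓM A hA cd', resM_chart M hℓM A hA cn'] at key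
  exact key

include hA in
/-- **(R-As), end line**: `S36.H54.HAsReal M A` from `S36.H54.HdelReal M A` (only its first
component `θ s̄ ≠ 0` is used), the surjectivity of `rbar` and the unit property `hU` of `A_s`. -/
theorem HAsReal_of
    (hrbar : Function.Surjective (rbarM))
    (hdel : S36.H54.HdelReal M A)
    (hU : ∀ (s : BM) (htr : Transcendental L₁ ((s : BM) : FM)) (𝔠 : Ideal DM), 𝔠.IsMaximal →
      rbarM s ∈ 𝔠 → rbarM s ∉ 𝔠 ^ 2 →
      ∃ cn' cd' : BM, rbarM cn' ∉ 𝔠 ∧ rbarM cd' ∉ 𝔠 ∧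
        As M hℓM A hA ⟨((s : BM) : FM), chart_mem_VM M hℓM A hA s⟩ htr * ((cd' : BM) : FM) =
          ((cn' : BM) : FM)) :
    S36.H54.HAsReal M A := by
  intro 𝔠 h𝔠 sb hsb hsb2
  have hth : ∀ (𝔠 : Ideal DM), 𝔠.IsMaximal → ∀ sb : DM, sb ∈ 𝔠 → sb ∉ 𝔠 ^ 2 →
      thetaOp (algebraMap DM (LaurentSeries kA) sb) ≠ 0 :=
    fun 𝔠 h𝔠 sb hsb hsb2 => (hdel 𝔠 h𝔠 sb hsb hsb2).1
  have h1 : rbarM (1 : BM) ∉ 𝔠 := by
    rw [map_one]
    exact fun h => h𝔠.ne_top ((Ideal.eq_top_iff_one 𝔠).mpr h)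
  exact HAs_real M hℓM A hA hrbar hth hU 𝔠 h𝔠 sb hsb hsb2 h1

end Fermat.Agent.S36.H92
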