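import Mathlib
import Fermat.Agent.S36.H92_HAsReal
import Fermat.Agent.S18.H3_ChartFinal
import Fermat.Agent.S34.H56_Step3

/-!
# S36 (M2e)(R-As), `hvert` (helper92): `A_s` is a unit at the vertical prime of the level-`M` chart

`BM = chartB A₁ (jK L₁ M)`, `rbar = rbarB Mod : BM →+* D`.

* `rbarM_natCast` : `rbar ℓ = 0`;
* `exists_mul_of_rbarM_eq_zero` : `rbar b = 0 → b ∈ (ℓ)` (saturation `S18.H3.hsat_inst`);
* `not_mem_of_rbarM_ne_zero` : a height-one prime `P ∋ ℓ` of `BM` is `ker rbar`, i.e.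
  `rbar c ≠ 0 → c ∉ P`;
* `isUnitAt_vert_As` : **`hvert`** of `S36.H13.isUnitAt_sixfold`:
  `S34.H56.IsUnitAt P A_s` for every height-one prime `P ∋ ℓ` (if `θ s̄ ≠ 0`).
-/

set_option autoImplicit false
set_option linter.unusedSectionVars false
set_option linter.style.haveILetI false
set_option synthInstance.maxHeartbeats 400000

noncomputable section

namespace Fermat.Agent.S36.H92

open ModularCurve Polynomial IsLocalRing IntermediateField
open Fermat.Agent.S18 Fermat.Agent.S18.H92 Fermat.Agent.S34 Fermat.Agent.S34.H92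
  Fermat.Agent.S34.H16 Fermat.Agent.S34.H55 Fermat.Agent.CA.H92 Fermat.Agent.CA.H99
  Fermat.Agent.S28 Fermat.Agent.S28.H39

local notation "Qbar" => AlgebraicClosure ℚ

variable (M : ℕ) [NeZero M] {ℓ : ℕ} [hℓ : Fact ℓ.Prime] (hℓM : ¬ ℓ ∣ M)
  (A : ValuationSubring Qbar) (hA : A.LiesOverPrime ℓ)

local notation "kA" => IsLocalRing.ResidueField A
local notation "A₁" => H45.A0 A ℓ
local notation "L₁" => H45.unrCyclo ℓ
local notation "FM" => modularFunctionFieldFullC (H45.unrCyclo ℓ) M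
local notation "FkM" => modularFunctionFieldFullC (IsLocalRing.ResidueField A) M
local notation "V" => VM M hℓM A hA
set_option quotPrecheck false in
local notation "BM" => ↥(H40.chartB (H45.A0 A ℓ) (S18.H16.jK (H45.unrCyclo ℓ) M))
set_option quotPrecheck false in
local notation "DM" =>
  ↥(integralClosure (Algebra.adjoin (IsLocalRing.ResidueField A)
    {S18.H16.jK (IsLocalRing.ResidueField A) M}) (modularFunctionFieldFullC (IsLocalRing.ResidueField A) M))
set_option quotPrecheck false in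
local notation "rbarM" =>
  rbarB (Mod M hℓM A hA) (Mod M hℓM A hA).x_mem (Mod M hℓM A hA).res1_x

/-- `rbar b = 0` iff the `res1` of `b` vanishes. -/
theorem rbarM_eq_zero_iff (b : BM) :
    rbarM b = 0 ↔ (Mod M hℓM A hA).res1 ⟨((b : BM) : FM),
      chart_le_O1 (Mod M hℓM A hA) (Mod M hℓM A hA).x_mem b.2⟩ = 0 := by
  constructor
  · intro h
    have := congrArg (fun d : DM => ((d : DM) : FkM)) h
    exact this
  · intro h
    exact Subtype.ext h

include hA in
/-- the kernel of `rbar` is `(ℓ)`. -/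
theorem exists_mul_of_rbarM_eq_zero (b : BM) (hb : rbarM b = 0) :
    ∃ b' : BM, b = algebraMap A₁ BM ((ℓ : ℕ) : A₁) * b' := by
  rw [rbarM_eq_zero_iff] at hb
  obtain ⟨z, hz, hbz⟩ := ((Mod M hℓM A hA).res1_eq_zero_iff _ _).mp hb
  have hint : IsIntegral (Algebra.adjoin A₁ {S18.H16.jK L₁ M})
      (algebraMap A₁ FM ((ℓ : ℕ) : A₁) * z) := by
    rw [← hbz]; exact b.2
  have hzint := S18.H3.hsat_inst M A hA (Mod M hℓM A hA) z hz hint
  refine ⟨⟨z, hzint⟩, ?_⟩
  apply Subtype.ext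
  exact hbz

theorem rbarM_natCast : rbarM (algebraMap A₁ BM ((ℓ : ℕ) : A₁)) = 0 := by
  rw [rbarM_eq_zero_iff]
  refine ((Mod M hℓM A hA).res1_eq_zero_iff _ _).mpr ⟨1, (Mod M hℓM A hA).O1.one_mem, ?_⟩
  rw [mul_one]
  rfl

include hA in
/-- a height-one prime of `BM` containing `ℓ` is the kernel of `rbar`. -/
theorem not_mem_of_rbarM_ne_zero (P : Ideal BM) [hP : P.IsPrime] (h1 : P.height = 1)
    (hℓP : algebraMap A₁ BM ((ℓ : ℕ) : A₁) ∈ P) (c : BM) (hc : rbarM c ≠ 0) : c ∉ P := by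
  intro hcP
  set Q : Ideal BM := RingHom.ker (rbarM) with hQ
  haveI hQp : Q.IsPrime := RingHom.ker_isPrime _
  have hQP : Q ≤ P := by
    intro b hb
    obtain ⟨b', rfl⟩ := exists_mul_of_rbarM_eq_zero M hℓM A hA b ((RingHom.mem_ker).mp hb)
    exact P.mul_mem_right _ hℓP
  have hlt : Q < P := by
    refine lt_of_le_of_ne hQP (fun h => hc ?_)
    have hcQ : c ∈ Q := by rw [h]; exact hcP
    exact (RingHom.mem_ker).mp hcQ
  haveI : P.FiniteHeight := ⟨Or.inr (by rw [h1]; exact ENat.one_ne_top)⟩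
  have hh := Ideal.height_strict_mono_of_isPrime_of_isPrime hlt
  rw [h1] at hh
  have hQ0 : Q.height = 0 := by
    have : Q.height < 1 := hh
    exact Order.lt_one_iff.mp this
  rw [Ideal.height_eq_zero_iff, IsDomain.minimalPrimes_eq_singleton_bot,
    Set.mem_singleton_iff] at hQ0
  have hℓQ : algebraMap A₁ BM ((ℓ : ℕ) : A₁) ∈ Q := (RingHom.mem_ker).mpr (rbarM_natCast M hℓM A hA)
  rw [hQ0, Ideal.mem_bot] at hℓQ
  have h2 : ((algebraMap A₁ BM ((ℓ : ℕ) : A₁) : BM) : FM) = 0 := by rw [hℓQ]; rfl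
  have h3 : ((algebraMap A₁ BM ((ℓ : ℕ) : A₁) : BM) : FM) = algebraMap A₁ FM ((ℓ : ℕ) : A₁) := rfl
  rw [h3, map_natCast] at h2
  have h4 : ((ℓ : ℕ) : FM) ≠ 0 := Nat.cast_ne_zero.mpr hℓ.out.ne_zero
  exact h4 h2

include hA in
/-- **`hvert`**: `A_s` is a unit at every height-one prime of `BM` containing `ℓ`. -/
theorem isUnitAt_vert_As [IsFractionRing BM FM] (s : V) (hs : thetaOp (resM M hℓM A hA s) ≠ 0)
    (htr : Transcendental L₁ ((s : V) : FM)) (P : Ideal BM) [hP : P.IsPrime]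
    (h1 : P.height = 1) (hℓP : algebraMap A₁ BM ((ℓ : ℕ) : A₁) ∈ P) :
    S34.H56.IsUnitAt P (As M hℓM A hA s htr) := by
  obtain ⟨c, d, hc, hd, h⟩ := exists_chart_frac_As M hℓM A hA s hs htr
  exact ⟨c, d, not_mem_of_rbarM_ne_zero M hℓM A hA P h1 hℓP c hc,
    not_mem_of_rbarM_ne_zero M hℓM A hA P h1 hℓP d hd, h⟩

end Fermat.Agent.S36.H92
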