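import Mathlib
import Fermat.Agent.S36.H92_AsVertPrime
import Fermat.Agent.S36.H13_OmegaHorChart
import Fermat.Agent.S36.H2_EDataE0Shape
import Fermat.Agent.S34.H83_L1Inst
import Fermat.Agent.S34.H95_CoordJ
import Fermat.Agent.S18.H11_IfaceMain
import Fermat.Agent.S18.H45_CutOverPoint
import Fermat.Agent.S18.H97_FibreInst

/-!
# S36 (M2e)(R-As), `hU` (helper92, second seat / twin of helper13's `H13_AsUnitInst`):
`A_s` is a unit at every closed point of the level-`M` chart where `s` is a local parameter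

`S36.H13.isUnitAt_sixfold` at `(R, K, B, F) := (A₁, L₁, BM, F_M)`, `BM = chartB A₁ (jK L₁ M)`:
instances, `hint`, `hgen`, `hres`, `hE := S36.H2.hE_fullC_of_aux` (auxiliary prime `r ∣ M`,
`r ≡ 11 mod 12`, as a binder), `hvert`/`hA0` from `S36/H92_AsVertPrime`, `S36/H92_AsVert`.

* `hU_real` : the hypothesis `hU` of `S36.H92.HAsReal_of`;
* `HAsReal_of_aux` : `S36.H54.HAsReal M A` from `hrbar`, `S36.H54.HdelReal M A` and the auxiliary
  prime.
-/

set_option autoImplicit false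
set_option linter.unusedSectionVars false
set_option linter.style.haveILetI false
set_option synthInstance.maxHeartbeats 400000

noncomputable section

namespace Fermat.Agent.S36.H92

open ModularCurve Polynomial IsLocalRing IntermediateField
open Fermat.Agent.S18 Fermat.Agent.S18.H92 Fermat.Agent.S34 Fermat.Agent.S34.H92
  Fermat.Agent.S34.H16 Fermat.Agent.S34.H55 Fermat.Agent.CA.H92 Fermat.Agent.CA.H99
  Fermat.Agent.S28 Fermat.Agent.S28.H39

local notation "Qbar" => AlgebraicClosure ℚ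

variable (M : ℕ) [NeZero M] {ℓ : ℕ} [hℓ : Fact ℓ.Prime] (hℓM : ¬ ℓ ∣ M)
  (A : ValuationSubring Qbar) (hA : A.LiesOverPrime ℓ)

local notation "kA" => IsLocalRing.ResidueField A
local notation "A₁" => H45.A0 A ℓ
local notation "L₁" => H45.unrCyclo ℓ
local notation "FM" => modularFunctionFieldFullC (H45.unrCyclo ℓ) M
local notation "FkM" => modularFunctionFieldFullC (IsLocalRing.ResidueField A) M
local notation "V" => VM M hℓM A hA
set_option quotPrecheck false in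
local notation "BM" => ↥(H40.chartB (H45.A0 A ℓ) (S18.H16.jK (H45.unrCyclo ℓ) M))
set_option quotPrecheck false in
local notation "DM" =>
  ↥(integralClosure (Algebra.adjoin (IsLocalRing.ResidueField A)
    {S18.H16.jK (IsLocalRing.ResidueField A) M}) (modularFunctionFieldFullC (IsLocalRing.ResidueField A) M))
set_option quotPrecheck false in
local notation "rbarM" =>
  rbarB (Mod M hℓM A hA) (Mod M hℓM A hA).x_mem (Mod M hℓM A hA).res1_x

/-! ### The instances of the level-`M` chart -/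

theorem finiteDimensional_jK_FM : FiniteDimensional L₁⟮S18.H16.jK L₁ M⟯ FM :=
  finiteDimensional_jK_fullC L₁ M

theorem isFractionRing_BM : IsFractionRing BM FM := by
  haveI := finiteDimensional_jK_FM M (ℓ := ℓ)
  exact S34.H3.isFractionRing_chartB (K := L₁) (S18.H16.jK L₁ M)

theorem isIntegrallyClosed_BM : IsIntegrallyClosed BM := by
  haveI := finiteDimensional_jK_FM M (ℓ := ℓ)
  exact S34.H3.isIntegrallyClosed_chartB (K := L₁) (S18.H16.jK L₁ M)

include hA in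
theorem isNoetherianRing_BM : IsNoetherianRing BM := by
  haveI := H45.isDiscreteValuationRing_A0 hℓ.out hA
  haveI := finiteDimensional_jK_FM M (ℓ := ℓ)
  haveI : Algebra.IsSeparable L₁⟮S18.H16.jK L₁ M⟯ FM := inferInstance
  exact S34.H95.isNoetherianRing_chartB (K := L₁) (S18.H16.jK L₁ M)
    (S18.H16.transcendental_jK L₁ M)

include hA in
theorem finiteType_BM : Algebra.FiniteType A₁ BM := by
  haveI := H45.isDiscreteValuationRing_A0 hℓ.out hA
  haveI := finiteDimensional_jK_FM M (ℓ := ℓ)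
  haveI : Algebra.IsSeparable L₁⟮S18.H16.jK L₁ M⟯ FM := inferInstance
  exact S34.H83.finiteType_chartB (K := L₁) (S18.H16.jK L₁ M) (S18.H16.transcendental_jK L₁ M)

include hA in
theorem isLocalization_away_A0 : IsLocalization.Away ((ℓ : ℕ) : A₁) L₁ := by
  haveI := H45.isDiscreteValuationRing_A0 hℓ.out hA
  exact H45.isLocalization_away_of_irreducible (H45.irreducible_natCast_A0 hℓ.out hA)

include hℓM hA in
theorem isDedekindDomain_DM : IsDedekindDomain DM := by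
  haveI := S18.H16.finiteDimensional_fullC_gen M kA
    (S18.H92.natCast_residueField_ne_zero M hℓM A hA)
  haveI := S18.H16.isSeparable_fullC_gen M kA
    (S18.H92.natCast_residueField_ne_zero M hℓM A hA)
  exact S18.H97.isDedekindDomain_intRing_of_isSeparable (S18.H16.jK kA M)
    (S18.H16.transcendental_jK kA M)

/-! ### The hypotheses of `S36.H13.isUnitAt_sixfold` at a closed point -/

/-- `hgen`, abstract form: `rbar : B → D` onto a Dedekind domain with kernel `(π)`; the preimage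
of a prime `𝔠` is generated, locally, by `π` and any lift `s` of a uniformiser at `𝔠`. -/
theorem hgen_of_ker {B D : Type*} [CommRing B] [CommRing D] [IsDedekindDomain D]
    (rbar : B →+* D) (hrbar : Function.Surjective rbar) (π : B)
    (hker : ∀ b : B, rbar b = 0 → ∃ b' : B, b = π * b')
    (s : B) (𝔠 : Ideal D) (h𝔠 : 𝔠.IsPrime) (hs1 : rbar s ∈ 𝔠) (hs2 : rbar s ∉ 𝔠 ^ 2)
    (z : B) (hz : z ∈ 𝔠.comap rbar) :
    ∃ t : B, t ∉ 𝔠.comap rbar ∧ t * z ∈ Ideal.span {π, s} := by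
  obtain ⟨u, hu, huz⟩ := S34.H83.exists_mul_mem_span_of_not_mem_sq h𝔠 hs1 hs2 (Ideal.mem_comap.mp hz)
  obtain ⟨t, ht⟩ := hrbar u
  obtain ⟨w, hw⟩ := Ideal.mem_span_singleton'.mp huz
  obtain ⟨w', hw'⟩ := hrbar w
  have hk : rbar (t * z - w' * s) = 0 := by
    rw [map_sub, map_mul, map_mul, ht, hw', hw, sub_self]
  obtain ⟨b', hb'⟩ := hker _ hk
  refine ⟨t, fun h => hu (by rw [← ht]; exact Ideal.mem_comap.mp h), ?_⟩
  have : t * z = b' * π + w' * s := by
    rw [mul_comm b', ← hb']; ring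
  rw [this, Ideal.mem_span_pair]
  exact ⟨b', w', rfl⟩

/-- `hker` of `hres_of_residue`, abstract form. -/
theorem hker_of_span {A₀ B k : Type*} [CommRing A₀] [CommRing B] [Algebra A₀ B] [CommRing k]
    (res : A₀ →+* k) (ϖ : A₀) (hres : RingHom.ker res = Ideal.span {ϖ}) (n : Ideal B)
    (hϖ : algebraMap A₀ B ϖ ∈ n) (a : A₀) (ha : res a = 0) : algebraMap A₀ B a ∈ n := by
  have : a ∈ Ideal.span {ϖ} := by rw [← hres]; exact (RingHom.mem_ker).mpr ha
  obtain ⟨c, rfl⟩ := Ideal.mem_span_singleton'.mp this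
  rw [map_mul]
  exact n.mul_mem_left _ hϖ

/-- `hint` of `S36.H13.isUnitAt_sixfold`. -/
theorem hint_real (b : BM) :
    IsIntegral (Algebra.adjoin A₁ {algebraMap BM FM ⟨S18.H16.jK L₁ M, H40.self_mem_chartB _⟩})
      (algebraMap BM FM b) := by
  have h1 : algebraMap BM FM ⟨S18.H16.jK L₁ M, H40.self_mem_chartB _⟩ = S18.H16.jK L₁ M := rfl
  have h2 : algebraMap BM FM b = ((b : BM) : FM) := rfl
  rw [h1, h2]
  exact b.2

/-- `A_s` in the spelling of `S36.H13.isUnitAt_sixfold`. -/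
theorem As_eq_sixfold (s : V) (htr : Transcendental L₁ ((s : V) : FM)) :
    As M hℓM A hA s htr =
      S18.H16.jK L₁ M ^ 4 * (S18.H16.jK L₁ M - algebraMap L₁ FM 1728) ^ 3 /
        (delOf L₁ M ((s : V) : FM) htr (S18.H16.jK L₁ M)) ^ 6 := by
  rw [map_ofNat]
  rfl

include hA in
/-- **`hU` of `S36.H92.HAsReal_of`**: at a closed point `comap rbar 𝔠` of the level-`M` chart where
`s` is a local parameter, `A_s = cn' / cd'` with `cn', cd'` chart elements not vanishing at the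
point. -/
theorem hU_real {r : ℕ} (hr : r.Prime) (hr12 : r % 12 = 11) (hrM : r ∣ M)
    (hrbar : Function.Surjective (rbarM))
    (hth : ∀ (𝔠 : Ideal DM), 𝔠.IsMaximal → ∀ sb : DM, sb ∈ 𝔠 → sb ∉ 𝔠 ^ 2 →
      thetaOp (algebraMap DM (LaurentSeries kA) sb) ≠ 0)
    (s : BM) (htr : Transcendental L₁ ((s : BM) : FM)) (𝔠 : Ideal DM) (h𝔠 : 𝔠.IsMaximal)
    (hs1 : rbarM s ∈ 𝔠) (hs2 : rbarM s ∉ 𝔠 ^ 2) :
    ∃ cn' cd' : BM, rbarM cn' ∉ 𝔠 ∧ rbarM cd' ∉ 𝔠 ∧
      As M hℓM A hA ⟨((s : BM) : FM), chart_mem_VM M hℓM A hA s⟩ htr * ((cd' : BM) : FM) =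
        ((cn' : BM) : FM) := by
  haveI := isFractionRing_BM M (ℓ := ℓ) A
  haveI := isIntegrallyClosed_BM M (ℓ := ℓ) A
  haveI := isNoetherianRing_BM M A hA
  haveI := finiteType_BM M A hA
  haveI := isLocalization_away_A0 A hA
  haveI := isDedekindDomain_DM M hℓM A hA
  haveI ha : (𝔠.comap (rbarM)).IsMaximal := Ideal.comap_isMaximal_of_surjective _ hrbar
  have hθ : thetaOp (resM M hℓM A hA ⟨((s : BM) : FM), chart_mem_VM M hℓM A hA s⟩) ≠ 0 := by
    rw [resM_chart M hℓM A hA s]; exact hth 𝔠 h𝔠 _ hs1 hs2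
  have hπa : algebraMap A₁ BM ((ℓ : ℕ) : A₁) ∈ 𝔠.comap (rbarM) := by
    rw [Ideal.mem_comap, rbarM_natCast M hℓM A hA]; exact 𝔠.zero_mem
  have hπ0 : algebraMap A₁ BM ((ℓ : ℕ) : A₁) ≠ 0 := by
    intro h0
    have h2 : ((algebraMap A₁ BM ((ℓ : ℕ) : A₁) : BM) : FM) = 0 := by rw [h0]; rfl
    have h3 : ((algebraMap A₁ BM ((ℓ : ℕ) : A₁) : BM) : FM) =
        algebraMap A₁ FM ((ℓ : ℕ) : A₁) := rfl
    rw [h3, map_natCast] at h2
    have h4 : ((ℓ : ℕ) : FM) ≠ 0 := Nat.cast_ne_zero.mpr hℓ.out.ne_zero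
    exact h4 h2
  have hgen := hgen_of_ker (D := DM) (rbarM) hrbar (algebraMap A₁ BM ((ℓ : ℕ) : A₁))
    (exists_mul_of_rbarM_eq_zero M hℓM A hA) s 𝔠 h𝔠.isPrime hs1 hs2
  haveI : IsAlgClosed kA := S18.H11.isAlgClosed_residueField A
  have hres := S34.H83.hres_of_residue (H45.resA0 A ℓ) (H45.resA0_surjective hℓ.out hA)
    (𝔠.comap (rbarM))
    (hker_of_span (H45.resA0 A ℓ) ((ℓ : ℕ) : A₁) (H45.ker_resA0_eq_span hℓ.out hA) _ hπa)
  have hvert : ∀ P : Ideal BM, P.IsPrime → P.height = 1 → P ≤ 𝔠.comap (rbarM) →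
      algebraMap A₁ BM ((ℓ : ℕ) : A₁) ∈ P →
      S34.H56.IsUnitAt P (S18.H16.jK L₁ M ^ 4 * (S18.H16.jK L₁ M - algebraMap L₁ FM 1728) ^ 3 /
        (delOf L₁ M ((s : BM) : FM) htr (S18.H16.jK L₁ M)) ^ 6) := by
    intro P hP h1 _ hℓP
    rw [← As_eq_sixfold M hℓM A hA ⟨((s : BM) : FM), chart_mem_VM M hℓM A hA s⟩ htr]
    exact isUnitAt_vert_As M hℓM A hA _ hθ htr P h1 hℓP
  have hA0 : S18.H16.jK L₁ M ^ 4 * (S18.H16.jK L₁ M - algebraMap L₁ FM 1728) ^ 3 /
        (delOf L₁ M ((s : BM) : FM) htr (S18.H16.jK L₁ M)) ^ 6 ≠ 0 := by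
    rw [← As_eq_sixfold M hℓM A hA ⟨((s : BM) : FM), chart_mem_VM M hℓM A hA s⟩ htr]
    exact As_ne_zero M hℓM A hA _ hθ htr
  have hja : S34.H56.MemAt (𝔠.comap (rbarM)) (S18.H16.jK L₁ M) :=
    ⟨⟨S18.H16.jK L₁ M, H40.self_mem_chartB _⟩, 1,
      (Ideal.ne_top_iff_one _).mp ha.ne_top, by rw [map_one, mul_one]; rfl⟩
  have key := S36.H13.isUnitAt_sixfold (K := L₁) (F := FM) (R := A₁) (B := BM)
    ((ℓ : ℕ) : A₁) ⟨S18.H16.jK L₁ M, H40.self_mem_chartB _⟩ (hint_real M A)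
    (𝔠.comap (rbarM)) s hπ0 hπa hs1 hgen hres
    (delOf L₁ M ((s : BM) : FM) htr) (delOf_self _ htr) (S18.H16.jK L₁ M) hja
    (S36.H2.hE_fullC_of_aux L₁ M hr hr12 hrM) hA0 hvert
  obtain ⟨cn', cd', hcn, hcd, h⟩ := key
  refine ⟨cn', cd', hcn, hcd, ?_⟩
  rw [As_eq_sixfold M hℓM A hA ⟨((s : BM) : FM), chart_mem_VM M hℓM A hA s⟩ htr]
  exact h

include hA in
/-- **(R-As), complete**: `S36.H54.HAsReal M A` from the surjectivity of `rbar`
(`TwoComponents.hrbar`), `S36.H54.HdelReal M A` (only `θ s̄ ≠ 0` is used) and an auxiliary prime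
`r ≡ 11 mod 12` dividing the level (no elliptic points at level `M`). -/
theorem HAsReal_of_aux {r : ℕ} (hr : r.Prime) (hr12 : r % 12 = 11) (hrM : r ∣ M)
    (hrbar : Function.Surjective (rbarM)) (hdel : S36.H54.HdelReal M A) :
    S36.H54.HAsReal M A :=
  HAsReal_of M hℓM A hA hrbar hdel
    (hU_real M hℓM A hA hr hr12 hrM hrbar
      (fun 𝔠 h𝔠 sb hsb hsb2 => (hdel 𝔠 h𝔠 sb hsb hsb2).1))

end Fermat.Agent.S36.H92
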