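import Mathlib
import Fermat.Agent.S36.H54_M2eFinal
import Fermat.Agent.S36.H54_M2eRedE
import Fermat.Agent.S36.H92_AsUnitInst

/-!
# S36 (M2e), seam (helper92): helper54's `regular_E_of_HAs` with (R-As) discharged

`regular_E_aux` : `H62.RegularCrossings red₁'' red₂'' ∧ H84.NodeGen red₁'' red₂''` at the E-level
chart 1 of level `(M, ℓ)`, all five leaves discharged; the only extra binder is the auxiliary
prime `r ≡ 11 mod 12`, `r ∣ M`.  ((S2) form: any `red''` with `hc₁ hc₂ hTC''`.)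

`regular_redE_aux` : the same in the (S1) spelling (`S35.H70.redE` reductions of
`chartB (cutOver A E) (baseChangeE E (ℓ M) (JN M))`), from helper54's `regular_redE_of_HAs`.
-/

set_option autoImplicit false
set_option linter.unusedSectionVars false
set_option linter.style.haveILetI false
set_option synthInstance.maxHeartbeats 400000

noncomputable section

namespace Fermat.Agent.S36.H92

open ModularCurve Polynomial IsLocalRing Fermat.Agent.S28
open Fermat.Agent.S18 Fermat.Agent.S34 Fermat.Agent.S34.H92 Fermat.Agent.S34.H16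
open Fermat.Agent.S34.H55 Fermat.Agent.S34.H83 Fermat.Agent.S36.H54

local notation "Qbar" => AlgebraicClosure ℚ

variable (M : ℕ) [NeZero M] {ℓ : ℕ} [hℓ : Fact ℓ.Prime] (hℓM : ¬ ℓ ∣ M)
  (A : ValuationSubring Qbar) (hA : A.LiesOverPrime ℓ)

local notation "kA" => IsLocalRing.ResidueField A
local notation "A₁" => H45.A0 A ℓ
local notation "L₁" => H45.unrCyclo ℓ
local notation "FkM" => modularFunctionFieldFullC (IsLocalRing.ResidueField A) M
local notation "B1" => H40.chartB (H45.A0 A ℓ) (JN M (ℓ := ℓ))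
local notation "D1" =>
  integralClosure (Algebra.adjoin (IsLocalRing.ResidueField A)
    {S18.H16.jK (IsLocalRing.ResidueField A) M})
    (modularFunctionFieldFullC (IsLocalRing.ResidueField A) M)

/-- **(M2e) at the E-level chart 1, all leaves discharged** (auxiliary prime `r` as a binder). -/
theorem regular_E_aux {r : ℕ} (hr : r.Prime) (hr12 : r % 12 = 11) (hrM : r ∣ M)
    (Pi : PlaceInf M hℓM A hA) (P0 : PlaceZero M hℓM A hA)
    {red₁ red₂ : B1 →+* D1}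
    (hTC : TwoComponents red₁ red₂
      (chartMap (iotaMN M (ℓ := ℓ)) (iotaMN_algebraMap M A) (hιint1 M A))
      (chartMap (VMN M (ℓ := ℓ)) (VMN_algebraMap M A) (hVint1 M A))
      (rbarB (Mod M hℓM A hA) (Mod M hℓM A hA).x_mem (Mod M hℓM A hA).res1_x)
      (WR (FrM M A hA) ℓ (hFrx M A hA)) ℓ
      (algebraMap A₁ B1 ((ℓ : ℕ) : A₁)))
    (hF : S35.H55.L0ChartFacts M hℓM A hA Pi P0 red₁ red₂)
    (E : IntermediateField (H45.unrCyclo ℓ) Qbar)
    (π u₀ : ↥(H45.cutOver A E)) (hu₀ : IsUnit u₀)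
    (hℓπ : ((ℓ : ℕ) : ↥(H45.cutOver A E)) = π * u₀)
    {red₁'' red₂'' : ↥(H40.chartB ↥(H45.cutOver A E)
        (H95.JK ↥E (ℓ * M) ℓ (Dvd.intro M rfl))) →+* D1}
    (hc₁ : ∀ b, red₁'' (H95.chartBC_JK (A := A) E (ℓ * M) ℓ (Dvd.intro M rfl) b) = red₁ b)
    (hc₂ : ∀ b, red₂'' (H95.chartBC_JK (A := A) E (ℓ * M) ℓ (Dvd.intro M rfl) b) = red₂ b)
    {BM'' : Type*} [CommRing BM'']
    {ι'' V'' : BM'' →+* ↥(H40.chartB ↥(H45.cutOver A E)
        (H95.JK ↥E (ℓ * M) ℓ (Dvd.intro M rfl)))}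
    {rbar'' : BM'' →+* D1} {W'' : D1 →+* D1} {qn : ℕ}
    (hTC'' : TwoComponents red₁'' red₂'' ι'' V'' rbar'' W'' qn
      (algebraMap ↥(H45.cutOver A E)
        ↥(H40.chartB ↥(H45.cutOver A E) (H95.JK ↥E (ℓ * M) ℓ (Dvd.intro M rfl))) π)) :
    S36.H62.RegularCrossings red₁'' red₂'' ∧ S36.H84.NodeGen red₁'' red₂'' :=
  regular_E_of_HAs M hℓM A hA
    (HAsReal_of_aux M hℓM A hA hr hr12 hrM hTC.hrbar (hdelReal M hℓM A hA))
    Pi P0 hTC hF E π u₀ hu₀ hℓπ hc₁ hc₂ hTC''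

/-- **(M2e) at the E-level chart 1, `redE` vocabulary ((S1) spelling), all leaves discharged**
(auxiliary prime `r` as a binder). -/
theorem regular_redE_aux {r : ℕ} (hr : r.Prime) (hr12 : r % 12 = 11) (hrM : r ∣ M)
    (Pi : PlaceInf M hℓM A hA) (P0 : PlaceZero M hℓM A hA)
    {red₁ red₂ : B1 →+* D1}
    (hTC : TwoComponents red₁ red₂
      (chartMap (iotaMN M (ℓ := ℓ)) (iotaMN_algebraMap M A) (hιint1 M A))
      (chartMap (VMN M (ℓ := ℓ)) (VMN_algebraMap M A) (hVint1 M A))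
      (rbarB (Mod M hℓM A hA) (Mod M hℓM A hA).x_mem (Mod M hℓM A hA).res1_x)
      (WR (FrM M A hA) ℓ (hFrx M A hA)) ℓ
      (algebraMap A₁ B1 ((ℓ : ℕ) : A₁)))
    (hF : S35.H55.L0ChartFacts M hℓM A hA Pi P0 red₁ red₂)
    (E : IntermediateField (H45.unrCyclo ℓ) Qbar)
    (π : ↥(H45.cutOver A E)) (hπ : maximalIdeal ↥(H45.cutOver A E) = Ideal.span {π})
    (u₀ : ↥(H45.cutOver A E)) (hu₀ : IsUnit u₀)
    (hℓπ : ((ℓ : ℕ) : ↥(H45.cutOver A E)) = π * u₀)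
    (hN : S35.H70.GenBy (A := A) E (ℓ * M) (JN M (ℓ := ℓ)))
    (hq₁ : red₁ (algebraMap A₁ B1 ((ℓ : ℕ) : A₁)) = 0)
    (hq₂ : red₂ (algebraMap A₁ B1 ((ℓ : ℕ) : A₁)) = 0) :
    S36.H62.RegularCrossings
        (S35.H70.redE hℓ.out hA E (ℓ * M) (JN M (ℓ := ℓ)) π hπ hN red₁ hq₁)
        (S35.H70.redE hℓ.out hA E (ℓ * M) (JN M (ℓ := ℓ)) π hπ hN red₂ hq₂) ∧
      S36.H84.NodeGen
        (S35.H70.redE hℓ.out hA E (ℓ * M) (JN M (ℓ := ℓ)) π hπ hN red₁ hq₁)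
        (S35.H70.redE hℓ.out hA E (ℓ * M) (JN M (ℓ := ℓ)) π hπ hN red₂ hq₂) :=
  regular_redE_of_HAs M hℓM A hA
    (HAsReal_of_aux M hℓM A hA hr hr12 hrM hTC.hrbar (hdelReal M hℓM A hA))
    Pi P0 hTC hF E π hπ u₀ hu₀ hℓπ hN hq₁ hq₂

end Fermat.Agent.S36.H92
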