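import Mathlib
import Fermat.Agent.S36.H92_M2eClosed
import Fermat.Agent.S35.H70_TwoComponentsBCL0

/-!
# S36 (M2e) at the top (helper92): the `hM2` / `hnode` rows in the (S1) spelling, unramified `E`

`regular_redE_unram` = `regular_redE_aux` at `π := (ℓ : cutOver A E)`, `hπ := hunr`, `u₀ := 1`,
`hN := S35.H70.genBy_JN M hℓM A hA E`, `hq_i := hF.red_i_ell`: the reductions are literally
`S35.H70.redE hℓ.out hA E (ℓ * M) (JN M) (ℓ : R) hunr (genBy_JN ..) red_i hF.red_i_ell`, i.e. the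
level-`ℓ M` reductions of the (S1)-spelled packages (Ruling 8).
-/

set_option autoImplicit false
set_option linter.unusedSectionVars false
set_option linter.style.haveILetI false
set_option synthInstance.maxHeartbeats 400000

noncomputable section

namespace Fermat.Agent.S36.H92

open ModularCurve Polynomial IsLocalRing Fermat.Agent.S28
open Fermat.Agent.S18 Fermat.Agent.S34 Fermat.Agent.S34.H92 Fermat.Agent.S34.H16
open Fermat.Agent.S34.H55 Fermat.Agent.S34.H83 Fermat.Agent.S36.H54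

local notation "Qbar" => AlgebraicClosure ℚ

variable (M : ℕ) [NeZero M] {ℓ : ℕ} [hℓ : Fact ℓ.Prime] (hℓM : ¬ ℓ ∣ M)
  (A : ValuationSubring Qbar) (hA : A.LiesOverPrime ℓ)

local notation "kA" => IsLocalRing.ResidueField A
local notation "A₁" => H45.A0 A ℓ
local notation "L₁" => H45.unrCyclo ℓ
local notation "FkM" => modularFunctionFieldFullC (IsLocalRing.ResidueField A) M
local notation "B1" => H40.chartB (H45.A0 A ℓ) (JN M (ℓ := ℓ))
local notation "D1" =>
  integralClosure (Algebra.adjoin (IsLocalRing.ResidueField A)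
    {S18.H16.jK (IsLocalRing.ResidueField A) M})
    (modularFunctionFieldFullC (IsLocalRing.ResidueField A) M)

/-- **(M2e) + node generation at the top**: `E` unramified over `L₁` at `A`
(`hunr : 𝔪 = (ℓ)`), reductions `redE` of the two L0 components, (S1) spelling. -/
theorem regular_redE_unram {r : ℕ} (hr : r.Prime) (hr12 : r % 12 = 11) (hrM : r ∣ M)
    (Pi : PlaceInf M hℓM A hA) (P0 : PlaceZero M hℓM A hA)
    {red₁ red₂ : B1 →+* D1}
    (hTC : TwoComponents red₁ red₂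
      (chartMap (iotaMN M (ℓ := ℓ)) (iotaMN_algebraMap M A) (hιint1 M A))
      (chartMap (VMN M (ℓ := ℓ)) (VMN_algebraMap M A) (hVint1 M A))
      (rbarB (Mod M hℓM A hA) (Mod M hℓM A hA).x_mem (Mod M hℓM A hA).res1_x)
      (WR (FrM M A hA) ℓ (hFrx M A hA)) ℓ
      (algebraMap A₁ B1 ((ℓ : ℕ) : A₁)))
    (hF : S35.H55.L0ChartFacts M hℓM A hA Pi P0 red₁ red₂)
    (E : IntermediateField (H45.unrCyclo ℓ) Qbar) [FiniteDimensional (H45.unrCyclo ℓ) E]
    (hunr : maximalIdeal ↥(H45.cutOver A E) =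
      Ideal.span {((ℓ : ℕ) : ↥(H45.cutOver A E))}) :
    S36.H62.RegularCrossings
        (S35.H70.redE hℓ.out hA E (ℓ * M) (JN M (ℓ := ℓ)) ((ℓ : ℕ) : ↥(H45.cutOver A E)) hunr
          (S35.H70.genBy_JN M hℓM A hA E) red₁ hF.red₁_ell)
        (S35.H70.redE hℓ.out hA E (ℓ * M) (JN M (ℓ := ℓ)) ((ℓ : ℕ) : ↥(H45.cutOver A E)) hunr
          (S35.H70.genBy_JN M hℓM A hA E) red₂ hF.red₂_ell) ∧
      S36.H84.NodeGen
        (S35.H70.redE hℓ.out hA E (ℓ * M) (JN M (ℓ := ℓ)) ((ℓ : ℕ) : ↥(H45.cutOver A E)) hunr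
          (S35.H70.genBy_JN M hℓM A hA E) red₁ hF.red₁_ell)
        (S35.H70.redE hℓ.out hA E (ℓ * M) (JN M (ℓ := ℓ)) ((ℓ : ℕ) : ↥(H45.cutOver A E)) hunr
          (S35.H70.genBy_JN M hℓM A hA E) red₂ hF.red₂_ell) :=
  regular_redE_aux M hℓM A hA hr hr12 hrM Pi P0 hTC hF E _ hunr 1 isUnit_one (mul_one _).symm
    (S35.H70.genBy_JN M hℓM A hA E) hF.red₁_ell hF.red₂_ell

end Fermat.Agent.S36.H92
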