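/-
helper95 — S36, (E7) seam (#3615): the chart instance block in the **(S1) spelling**
`chartB (cutOver A E) (H45.baseChangeE E N J₁)` for the four `E`-level charts of the top file:

* level `ℓ² M`: `J₁ = S36.H40.J3N M`, `(J3N M)⁻¹`   (`N = ℓ * (ℓ * M)`);
* level `ℓ M` : `J₁ = S34.H55.JN M`, `(JN M)⁻¹`     (`N = ℓ * M`).

For each: `IsNoetherianRing`, `IsIntegrallyClosed`, `IsFractionRing .. (fullC ↥E N)`,
`Transcendental ↥E (bc J₁)`, `FiniteDimensional ↥E⟮bc J₁⟯ (fullC ↥E N)`,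
`Algebra.IsSeparable ↥E⟮bc J₁⟯ (fullC ↥E N)`, `bc J₁ ≠ 0` — each obtained by rewriting along
`baseChangeE_J3N(_inv)` / `S34.H95.baseChangeE_JK(_inv)` to the landed literal-coordinate lemmas
(`S36.H95.*_J3K*`, `S34.H95.*_JK*`, `S36.H83.*_J3K*`).  Also the generic transport
`*_of_baseChangeE_eq` along any `h : baseChangeE E N J₁ = J_E`.
-/
import Fermat.Agent.S36.H95_ThreeMapsE
import Fermat.Agent.S34.H55_L0Final

set_option autoImplicit false
set_option linter.unusedSectionVars false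
set_option linter.style.haveILetI false
set_option synthInstance.maxHeartbeats 400000
set_option maxHeartbeats 1600000

noncomputable section

namespace Fermat.Agent.S36.H95

open ModularCurve HahnSeries IntermediateField Fermat.Agent.S18 Fermat.Agent.S18.H45
open Fermat.Agent.S34

local notation "Qbar" => AlgebraicClosure ℚ

/-- Local shortcut (reducible, `:= inferInstance`): the synthesis of this instance takes ~8 s per
occurrence. It unfolds to the canonical instance, so the statements below are the canonical ones. -/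
local instance (priority := 2000) algCutOverFullC {A : ValuationSubring Qbar} {ℓ : ℕ}
    (E : IntermediateField (unrCyclo ℓ) Qbar) (N : ℕ) :
    Algebra ↥(cutOver A E) ↥(modularFunctionFieldFullC ↥E N) := inferInstance

/-! ### Generic transport along `baseChangeE E N J₁ = J_E` -/

section Transport

variable {A : ValuationSubring Qbar} {ℓ : ℕ}
variable (E : IntermediateField (unrCyclo ℓ) Qbar) (N : ℕ) [NeZero N]
variable {J₁ : modularFunctionFieldFullC (unrCyclo ℓ) N} {J_E : modularFunctionFieldFullC ↥E N}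

theorem isNoetherianRing_chartB_of_baseChangeE_eq (h : baseChangeE E N J₁ = J_E)
    (H : IsNoetherianRing ↥(H40.chartB (cutOver A E) J_E)) :
    IsNoetherianRing ↥(H40.chartB (cutOver A E) (baseChangeE E N J₁)) := by
  subst h
  exact H

theorem isIntegrallyClosed_chartB_of_baseChangeE_eq (h : baseChangeE E N J₁ = J_E)
    (H : IsIntegrallyClosed ↥(H40.chartB (cutOver A E) J_E)) :
    IsIntegrallyClosed ↥(H40.chartB (cutOver A E) (baseChangeE E N J₁)) := by
  subst h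
  exact H

theorem isFractionRing_chartB_of_baseChangeE_eq (h : baseChangeE E N J₁ = J_E)
    (H : IsFractionRing ↥(H40.chartB (cutOver A E) J_E) (modularFunctionFieldFullC ↥E N)) :
    IsFractionRing ↥(H40.chartB (cutOver A E) (baseChangeE E N J₁))
      (modularFunctionFieldFullC ↥E N) := by
  subst h
  exact H

theorem transcendental_of_baseChangeE_eq (h : baseChangeE E N J₁ = J_E)
    (H : Transcendental ↥E J_E) : Transcendental ↥E (baseChangeE E N J₁) := by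
  subst h
  exact H

theorem finiteDimensional_of_baseChangeE_eq (h : baseChangeE E N J₁ = J_E)
    (H : FiniteDimensional ↥E⟮J_E⟯ (modularFunctionFieldFullC ↥E N)) :
    FiniteDimensional ↥E⟮baseChangeE E N J₁⟯ (modularFunctionFieldFullC ↥E N) := by
  subst h
  exact H

theorem isSeparable_of_baseChangeE_eq (h : baseChangeE E N J₁ = J_E)
    (H : Algebra.IsSeparable ↥E⟮J_E⟯ (modularFunctionFieldFullC ↥E N)) :
    Algebra.IsSeparable ↥E⟮baseChangeE E N J₁⟯ (modularFunctionFieldFullC ↥E N) := by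
  subst h
  exact H

end Transport

variable (M : ℕ) [NeZero M] {ℓ : ℕ} [hℓ : Fact ℓ.Prime] {A : ValuationSubring Qbar}
  (hA : A.LiesOverPrime ℓ) (E : IntermediateField (unrCyclo ℓ) Qbar)

local notation "N₂" => ℓ * (ℓ * M)
local notation "N₁" => ℓ * M

/-! ### Level `ℓ² M`, chart `bc (J3N M)` -/

section J3

theorem baseChangeE_J3N_ne_zero : baseChangeE E N₂ (S36.H40.J3N M (ℓ := ℓ)) ≠ 0 := by
  rw [baseChangeE_J3N]
  exact S36.H83.J3K_ne_zero ↥E N₂ ℓ _

theorem baseChangeE_J3N_inv_ne_zero : baseChangeE E N₂ (S36.H40.J3N M (ℓ := ℓ))⁻¹ ≠ 0 := by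
  rw [baseChangeE_J3N_inv]
  exact inv_ne_zero (S36.H83.J3K_ne_zero ↥E N₂ ℓ _)

theorem transcendental_bc_J3N : Transcendental ↥E (baseChangeE E N₂ (S36.H40.J3N M (ℓ := ℓ))) :=
  transcendental_of_baseChangeE_eq E N₂ (baseChangeE_J3N M E)
    (S36.H83.transcendental_J3K ↥E N₂ ℓ _)

theorem transcendental_bc_J3N_inv :
    Transcendental ↥E (baseChangeE E N₂ (S36.H40.J3N M (ℓ := ℓ))⁻¹) :=
  transcendental_of_baseChangeE_eq E N₂ (baseChangeE_J3N_inv M E)
    (S36.H83.transcendental_J3K_inv ↥E N₂ ℓ _)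

theorem finiteDimensional_bc_J3N :
    FiniteDimensional ↥E⟮baseChangeE E N₂ (S36.H40.J3N M (ℓ := ℓ))⟯
      (modularFunctionFieldFullC ↥E N₂) :=
  finiteDimensional_of_baseChangeE_eq E N₂ (baseChangeE_J3N M E)
    (S36.H83.finiteDimensional_J3K ↥E N₂ ℓ _ (H99.natCast_ne_zero₀ N₂ ↥E))

theorem finiteDimensional_bc_J3N_inv :
    FiniteDimensional ↥E⟮baseChangeE E N₂ (S36.H40.J3N M (ℓ := ℓ))⁻¹⟯
      (modularFunctionFieldFullC ↥E N₂) :=
  finiteDimensional_of_baseChangeE_eq E N₂ (baseChangeE_J3N_inv M E)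
    (S36.H83.finiteDimensional_J3K_inv ↥E N₂ ℓ _ (H99.natCast_ne_zero₀ N₂ ↥E))

theorem isSeparable_bc_J3N :
    Algebra.IsSeparable ↥E⟮baseChangeE E N₂ (S36.H40.J3N M (ℓ := ℓ))⟯
      (modularFunctionFieldFullC ↥E N₂) :=
  isSeparable_of_baseChangeE_eq E N₂ (baseChangeE_J3N M E)
    (S36.H83.isSeparable_J3K ↥E N₂ ℓ _)

theorem isSeparable_bc_J3N_inv :
    Algebra.IsSeparable ↥E⟮baseChangeE E N₂ (S36.H40.J3N M (ℓ := ℓ))⁻¹⟯
      (modularFunctionFieldFullC ↥E N₂) :=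
  isSeparable_of_baseChangeE_eq E N₂ (baseChangeE_J3N_inv M E)
    (S36.H83.isSeparable_J3K_inv ↥E N₂ ℓ _)

variable [FiniteDimensional (unrCyclo ℓ) E]

theorem isFractionRing_chartB_bc_J3N :
    IsFractionRing ↥(H40.chartB (cutOver A E) (baseChangeE E N₂ (S36.H40.J3N M (ℓ := ℓ))))
      (modularFunctionFieldFullC ↥E N₂) :=
  isFractionRing_chartB_of_baseChangeE_eq E N₂ (baseChangeE_J3N M E)
    (isFractionRing_chartB_J3K E N₂ ℓ _)

theorem isFractionRing_chartB_bc_J3N_inv :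
    IsFractionRing ↥(H40.chartB (cutOver A E) (baseChangeE E N₂ (S36.H40.J3N M (ℓ := ℓ))⁻¹))
      (modularFunctionFieldFullC ↥E N₂) :=
  isFractionRing_chartB_of_baseChangeE_eq E N₂ (baseChangeE_J3N_inv M E)
    (isFractionRing_chartB_J3K_inv E N₂ ℓ _)

theorem isIntegrallyClosed_chartB_bc_J3N :
    IsIntegrallyClosed
      ↥(H40.chartB (cutOver A E) (baseChangeE E N₂ (S36.H40.J3N M (ℓ := ℓ)))) :=
  isIntegrallyClosed_chartB_of_baseChangeE_eq E N₂ (baseChangeE_J3N M E)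
    (isIntegrallyClosed_chartB_J3K E N₂ ℓ _)

theorem isIntegrallyClosed_chartB_bc_J3N_inv :
    IsIntegrallyClosed
      ↥(H40.chartB (cutOver A E) (baseChangeE E N₂ (S36.H40.J3N M (ℓ := ℓ))⁻¹)) :=
  isIntegrallyClosed_chartB_of_baseChangeE_eq E N₂ (baseChangeE_J3N_inv M E)
    (isIntegrallyClosed_chartB_J3K_inv E N₂ ℓ _)

include hA in
theorem isNoetherianRing_chartB_bc_J3N :
    IsNoetherianRing
      ↥(H40.chartB (cutOver A E) (baseChangeE E N₂ (S36.H40.J3N M (ℓ := ℓ)))) :=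
  isNoetherianRing_chartB_of_baseChangeE_eq E N₂ (baseChangeE_J3N M E)
    (isNoetherianRing_chartB_J3K hℓ.out hA E N₂ ℓ _)

include hA in
theorem isNoetherianRing_chartB_bc_J3N_inv :
    IsNoetherianRing
      ↥(H40.chartB (cutOver A E) (baseChangeE E N₂ (S36.H40.J3N M (ℓ := ℓ))⁻¹)) :=
  isNoetherianRing_chartB_of_baseChangeE_eq E N₂ (baseChangeE_J3N_inv M E)
    (isNoetherianRing_chartB_J3K_inv hℓ.out hA E N₂ ℓ _)

end J3

/-! ### Level `ℓ M`, chart `bc (JN M)` (`JN M = S34.H95.JK K1 (ℓ * M) ℓ _`) -/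

section J2

theorem baseChangeE_JN :
    baseChangeE E N₁ (S34.H55.JN M (ℓ := ℓ)) = S34.H95.JK ↥E N₁ ℓ (Dvd.intro M rfl) :=
  S34.H95.baseChangeE_JK E N₁ ℓ (Dvd.intro M rfl)

theorem baseChangeE_JN_inv :
    baseChangeE E N₁ (S34.H55.JN M (ℓ := ℓ))⁻¹ = (S34.H95.JK ↥E N₁ ℓ (Dvd.intro M rfl))⁻¹ :=
  S34.H95.baseChangeE_JK_inv E N₁ ℓ (Dvd.intro M rfl)

theorem baseChangeE_JN_ne_zero : baseChangeE E N₁ (S34.H55.JN M (ℓ := ℓ)) ≠ 0 := by
  rw [baseChangeE_JN]
  exact S34.H95.JK_ne_zero ↥E N₁ ℓ _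

theorem baseChangeE_JN_inv_ne_zero : baseChangeE E N₁ (S34.H55.JN M (ℓ := ℓ))⁻¹ ≠ 0 := by
  rw [baseChangeE_JN_inv]
  exact inv_ne_zero (S34.H95.JK_ne_zero ↥E N₁ ℓ _)

theorem transcendental_bc_JN : Transcendental ↥E (baseChangeE E N₁ (S34.H55.JN M (ℓ := ℓ))) :=
  transcendental_of_baseChangeE_eq E N₁ (baseChangeE_JN M E)
    (S34.H95.transcendental_JK ↥E N₁ ℓ _)

theorem transcendental_bc_JN_inv :
    Transcendental ↥E (baseChangeE E N₁ (S34.H55.JN M (ℓ := ℓ))⁻¹) :=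
  transcendental_of_baseChangeE_eq E N₁ (baseChangeE_JN_inv M E)
    (S34.H95.transcendental_JK_inv ↥E N₁ ℓ _)

theorem finiteDimensional_bc_JN :
    FiniteDimensional ↥E⟮baseChangeE E N₁ (S34.H55.JN M (ℓ := ℓ))⟯
      (modularFunctionFieldFullC ↥E N₁) :=
  finiteDimensional_of_baseChangeE_eq E N₁ (baseChangeE_JN M E)
    (S34.H95.finiteDimensional_JK ↥E N₁ ℓ _ (H99.natCast_ne_zero₀ N₁ ↥E))

theorem finiteDimensional_bc_JN_inv :
    FiniteDimensional ↥E⟮baseChangeE E N₁ (S34.H55.JN M (ℓ := ℓ))⁻¹⟯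
      (modularFunctionFieldFullC ↥E N₁) :=
  finiteDimensional_of_baseChangeE_eq E N₁ (baseChangeE_JN_inv M E)
    (S34.H95.finiteDimensional_JK_inv ↥E N₁ ℓ _ (H99.natCast_ne_zero₀ N₁ ↥E))

theorem isSeparable_bc_JN :
    Algebra.IsSeparable ↥E⟮baseChangeE E N₁ (S34.H55.JN M (ℓ := ℓ))⟯
      (modularFunctionFieldFullC ↥E N₁) :=
  isSeparable_of_baseChangeE_eq E N₁ (baseChangeE_JN M E)
    (S34.H95.isSeparable_JK ↥E N₁ ℓ _)

theorem isSeparable_bc_JN_inv :
    Algebra.IsSeparable ↥E⟮baseChangeE E N₁ (S34.H55.JN M (ℓ := ℓ))⁻¹⟯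
      (modularFunctionFieldFullC ↥E N₁) :=
  isSeparable_of_baseChangeE_eq E N₁ (baseChangeE_JN_inv M E)
    (S34.H95.isSeparable_JK_inv ↥E N₁ ℓ _)

variable [FiniteDimensional (unrCyclo ℓ) E]

theorem isFractionRing_chartB_bc_JN :
    IsFractionRing ↥(H40.chartB (cutOver A E) (baseChangeE E N₁ (S34.H55.JN M (ℓ := ℓ))))
      (modularFunctionFieldFullC ↥E N₁) :=
  isFractionRing_chartB_of_baseChangeE_eq E N₁ (baseChangeE_JN M E)
    (S34.H95.isFractionRing_chartB_JK E N₁ ℓ _)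

theorem isFractionRing_chartB_bc_JN_inv :
    IsFractionRing ↥(H40.chartB (cutOver A E) (baseChangeE E N₁ (S34.H55.JN M (ℓ := ℓ))⁻¹))
      (modularFunctionFieldFullC ↥E N₁) :=
  isFractionRing_chartB_of_baseChangeE_eq E N₁ (baseChangeE_JN_inv M E)
    (S34.H95.isFractionRing_chartB_JK_inv E N₁ ℓ _)

theorem isIntegrallyClosed_chartB_bc_JN :
    IsIntegrallyClosed
      ↥(H40.chartB (cutOver A E) (baseChangeE E N₁ (S34.H55.JN M (ℓ := ℓ)))) :=
  isIntegrallyClosed_chartB_of_baseChangeE_eq E N₁ (baseChangeE_JN M E)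
    (S34.H95.isIntegrallyClosed_chartB_JK E N₁ ℓ _)

theorem isIntegrallyClosed_chartB_bc_JN_inv :
    IsIntegrallyClosed
      ↥(H40.chartB (cutOver A E) (baseChangeE E N₁ (S34.H55.JN M (ℓ := ℓ))⁻¹)) :=
  isIntegrallyClosed_chartB_of_baseChangeE_eq E N₁ (baseChangeE_JN_inv M E)
    (S34.H95.isIntegrallyClosed_chartB_JK_inv E N₁ ℓ _)

include hA in
theorem isNoetherianRing_chartB_bc_JN :
    IsNoetherianRing
      ↥(H40.chartB (cutOver A E) (baseChangeE E N₁ (S34.H55.JN M (ℓ := ℓ)))) :=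
  isNoetherianRing_chartB_of_baseChangeE_eq E N₁ (baseChangeE_JN M E)
    (S34.H95.isNoetherianRing_chartB_JK hℓ.out hA E N₁ ℓ _)

include hA in
theorem isNoetherianRing_chartB_bc_JN_inv :
    IsNoetherianRing
      ↥(H40.chartB (cutOver A E) (baseChangeE E N₁ (S34.H55.JN M (ℓ := ℓ))⁻¹)) :=
  isNoetherianRing_chartB_of_baseChangeE_eq E N₁ (baseChangeE_JN_inv M E)
    (S34.H95.isNoetherianRing_chartB_JK_inv hℓ.out hA E N₁ ℓ _)

end J2

end Fermat.Agent.S36.H95
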