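/-
helper18 — S36 row (E7), **the model-side statement `H57.Model36`**: final assembly.
-/
import Mathlib
import Fermat.Agent.S36.H57_Geo36Input
import Fermat.Agent.S36.H18_Geo36Rows
import Fermat.Agent.S36.H70_ThreeComponentsS1
import Fermat.Agent.S36.H55_L0ThreeFinal
import Fermat.Agent.S35.H55_L0Pkg
import Fermat.Agent.S36.H95_InstS1
import Fermat.Agent.S36.H83_LevelMapsES1
import Fermat.Agent.S36.H92_M2eTop
import Fermat.Agent.S36.H9_MiddleUnitRealS1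
import Fermat.Agent.S36.H85_CuspTransferJ3
import Fermat.Agent.S36.H89_MidCuspInstE
import Fermat.Agent.S36.H85_CuspS1
import Fermat.Agent.S36.H35_BranchRings
import Fermat.Agent.S36.H70_Hq2Inst
import Fermat.Agent.S36.H70_HW4Inst
import Fermat.Agent.S36.H71_FrobRoot
import Fermat.Agent.S36.H3_WRInjective
import Fermat.Agent.S36.H61_HVS1Final
import Fermat.Agent.S36.H16_R3Heights
import Fermat.Agent.S36.H46_HVaReal
import Fermat.Agent.S36.H3_Geo36RowsNoE3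
import Fermat.Agent.S36.H70_NatCastNeZero

set_option autoImplicit false
set_option linter.unusedSectionVars false
set_option linter.unusedVariables false
set_option linter.style.haveILetI false
set_option synthInstance.maxHeartbeats 400000

noncomputable section

namespace Fermat.Agent.S36.H18

open ModularCurve AlgebraicCurve IntermediateField IsLocalRing
open Fermat.Agent.S18 Fermat.Agent.S18.H45 Fermat.Agent.S34 Fermat.Agent.S34.H47
open Fermat.Agent.S36.H83 Fermat.Agent.S36.H85 Fermat.Agent.S36.H46 Fermat.Agent.S36.H69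
open Fermat.Agent.S34.H83 Fermat.Agent.S35.H84

local notation "Qbar" => AlgebraicClosure ℚ

set_option quotPrecheck false
set_option hygiene false
local notation "πE" => (((q : ℕ) : ↥(cutOver A E0)))
local notation "r1E" => S35.H70.redE hq hA E0 (q * (q * L)) (S36.H83.J3N L (q := q))
  (((q : ℕ) : ↥(cutOver A E0))) hunr hN1 red₁ hq₁
local notation "r2E" => S35.H70.redE hq hA E0 (q * (q * L)) (S36.H83.J3N L (q := q))
  (((q : ℕ) : ↥(cutOver A E0))) hunr hN1 red₂ hq₂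
local notation "r3E" => S35.H70.redE hq hA E0 (q * (q * L)) (S36.H83.J3N L (q := q))
  (((q : ℕ) : ↥(cutOver A E0))) hunr hN1 red₃ hq₃
local notation "s1E" => S35.H70.redE hq hA E0 (q * (q * L)) (S36.H83.J3N L (q := q))⁻¹
  (((q : ℕ) : ↥(cutOver A E0))) hunr hN2 ρ₁ hr₁
local notation "s2E" => S35.H70.redE hq hA E0 (q * (q * L)) (S36.H83.J3N L (q := q))⁻¹
  (((q : ℕ) : ↥(cutOver A E0))) hunr hN2 ρ₂ hr₂
local notation "s3E" => S35.H70.redE hq hA E0 (q * (q * L)) (S36.H83.J3N L (q := q))⁻¹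
  (((q : ℕ) : ↥(cutOver A E0))) hunr hN2 ρ₃ hr₃
local notation "r1E'" => S35.H70.redE hq hA E0 (q * L) (S34.H55.JN L (ℓ := q))
  (((q : ℕ) : ↥(cutOver A E0))) hunr hM1 red₁' hC'.2.red₁_ell
local notation "r2E'" => S35.H70.redE hq hA E0 (q * L) (S34.H55.JN L (ℓ := q))
  (((q : ℕ) : ↥(cutOver A E0))) hunr hM1 red₂' hC'.2.red₂_ell
local notation "PP1" => ![RingHom.ker (S35.H70.redE hq hA E0 (q * (q * L)) (S36.H83.J3N L (q := q))
    (((q : ℕ) : ↥(cutOver A E0))) hunr hN1 red₁ hq₁),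
  RingHom.ker (S35.H70.redE hq hA E0 (q * (q * L)) (S36.H83.J3N L (q := q))
    (((q : ℕ) : ↥(cutOver A E0))) hunr hN1 red₂ hq₂),
  RingHom.ker (S35.H70.redE hq hA E0 (q * (q * L)) (S36.H83.J3N L (q := q))
    (((q : ℕ) : ↥(cutOver A E0))) hunr hN1 red₃ hq₃)]
local notation "PP2" => ![RingHom.ker (S35.H70.redE hq hA E0 (q * (q * L)) (S36.H83.J3N L (q := q))⁻¹
    (((q : ℕ) : ↥(cutOver A E0))) hunr hN2 ρ₁ hr₁),
  RingHom.ker (S35.H70.redE hq hA E0 (q * (q * L)) (S36.H83.J3N L (q := q))⁻¹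
    (((q : ℕ) : ↥(cutOver A E0))) hunr hN2 ρ₂ hr₂),
  RingHom.ker (S35.H70.redE hq hA E0 (q * (q * L)) (S36.H83.J3N L (q := q))⁻¹
    (((q : ℕ) : ↥(cutOver A E0))) hunr hN2 ρ₃ hr₃)]

set_option hygiene true

set_option maxHeartbeats 6400000 in
/-- **The model-side statement.** -/
theorem model36 : Fermat.Agent.S36.H57.Model36 := by
  intro L q p _ _ hq hqL hp hpq hr
  refine ⟨(q + 1) * (q - 1) * (q ^ 2 - 1), ?_, ?_⟩
  · have h2 := hq.two_le
    have h1 : 0 < q - 1 := by omega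
    have h3 : 0 < q ^ 2 - 1 := by
      have : 4 ≤ q ^ 2 := by nlinarith
      omega
    positivity
  intro k A hA E0 _ hfix
  haveI hqF : Fact q.Prime := ⟨hq⟩
  obtain ⟨r, hrp, hr12, hrL, hrq, hrp'⟩ := hr
  have hunr := S36.H45.maximalIdeal_cutOver_eq_span_natCast_of_fixed hq hA E0 hfix
  obtain ⟨Dm, hDm, -⟩ := S18.H16.exists_modPoly_gen q
  obtain ⟨Pi⟩ := S34.H16.nonempty_placeInfty L hqL A hA Dm hDm
  obtain ⟨P0⟩ := S34.H16.nonempty_placeZero L hqL A hA Dm hDm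
  have hplaces := S36.H55.exists_places L hqL A hA Dm hDm Pi P0
  refine hplaces.elim fun PA h => h.elim fun PB h => h.elim fun PC hFacts => ?_
  -- chart 1, level q² L
  have hTC1 := S36.H70.threeComponentsS1_J3K L hqL A hA Pi P0 PA PB PC E0 hunr
  refine hTC1.elim fun red₁ h => h.elim fun red₂ h => h.elim fun red₃ h => h.elim fun hq₁ h =>
    h.elim fun hq₂ h => h.elim fun hq₃ hC1 => ?_
  -- chart 2, level q² L
  have hTC2 := S36.H70.threeComponentsS1_J3K_inv L hqL A hA Pi P0 PA PB PC E0 hunr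
  refine hTC2.elim fun ρ₁ h => h.elim fun ρ₂ h => h.elim fun ρ₃ h => h.elim fun hr₁ h =>
    h.elim fun hr₂ h => h.elim fun hr₃ hC2 => ?_
  -- chart 1, level q L
  have hTC' := S35.H55.exists_l0ChartFacts_JK L hqL A hA Pi P0
  refine hTC'.elim fun red₁' h => h.elim fun red₂' hC' => ?_
  have hN1 := S36.H70.genBy_J3N L A hA E0 hunr
  have hN2 := S36.H70.genBy_J3N_inv L A hA E0 hunr
  have hM1 := S35.H70.genBy_JN L hqL A hA E0
  -- the E-level `TwoComponents` of the level-`q L` chart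
  have h'E := S35.H70.twoComponents_cutOver_left hq hA E0 (q * L) (S34.H55.JN L (ℓ := q))
    ((q : ℕ) : ↥(cutOver A E0)) hunr hM1 hC'.1 hC'.2.red₁_ell hC'.2.red₂_ell
  -- the level maps
  have LM := S36.H96.levelMaps_J3 L hqL A hA Pi P0 PA PB PC red₁ red₂ red₃ red₁' red₂'
    hC1.1 hC1.2.1 hC1.2.2.1 (fun z _ => hC'.2.res_inf z) (fun z _ => hC'.2.res_zero z)
  have hLE := S36.H83.exists_levelMapsE_S1 L hqL A hA E0 ((q : ℕ) : ↥(cutOver A E0)) hunr hN1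
    _ rfl _ rfl LM hq₁ hq₂ hq₃ hC'.2.red₁_ell hC'.2.red₂_ell
    r1E r2E r3E
    (fun b => by
      rw [S35.H70.chartBC_eq_chartMapE]
      exact S35.H70.redE_chartMapE hq hA E0 (q * (q * L)) (S36.H83.J3N L (q := q)) πE hunr hN1
        red₁ hq₁ b)
    (fun b => by
      rw [S35.H70.chartBC_eq_chartMapE]
      exact S35.H70.redE_chartMapE hq hA E0 (q * (q * L)) (S36.H83.J3N L (q := q)) πE hunr hN1
        red₂ hq₂ b)
    (fun b => by
      rw [S35.H70.chartBC_eq_chartMapE]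
      exact S35.H70.redE_chartMapE hq hA E0 (q * (q * L)) (S36.H83.J3N L (q := q)) πE hunr hN1
        red₃ hq₃ b)
    (S35.H70.redE_pi hq hA E0 (q * (q * L)) (S36.H83.J3N L (q := q)) πE hunr hN1 red₁ hq₁)
    (S35.H70.redE_pi hq hA E0 (q * (q * L)) (S36.H83.J3N L (q := q)) πE hunr hN1 red₂ hq₂)
    (S35.H70.redE_pi hq hA E0 (q * (q * L)) (S36.H83.J3N L (q := q)) πE hunr hN1 red₃ hq₃)
    r1E' r2E'
    (fun b => by
      rw [S35.H70.chartBC_eq_chartMapE]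
      exact S35.H70.redE_chartMapE hq hA E0 (q * L) (S34.H55.JN L (ℓ := q)) πE hunr hM1
        red₁' hC'.2.red₁_ell b)
    (fun b => by
      rw [S35.H70.chartBC_eq_chartMapE]
      exact S35.H70.redE_chartMapE hq hA E0 (q * L) (S34.H55.JN L (ℓ := q)) πE hunr hM1
        red₂' hC'.2.red₂_ell b)
    (S35.H70.redE_pi hq hA E0 (q * L) (S34.H55.JN L (ℓ := q)) πE hunr hM1 red₁' hC'.2.red₁_ell)
    (S35.H70.redE_pi hq hA E0 (q * L) (S34.H55.JN L (ℓ := q)) πE hunr hM1 red₂' hC'.2.red₂_ell)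
  refine hLE.elim fun α'' h => h.elim fun β'' hLM => ?_
  -- (M2), (M4)
  have hM2 := (S36.H92.regular_redE_unram L hqL A hA hrp hr12 hrL Pi P0 hC'.1 hC'.2 E0 hunr).1
  haveI := S36.H95.isNoetherianRing_chartB_bc_J3N L hA E0
  have hM4 := S36.H9.middleUnit_real_S1 L q hqL A hA E0 hC1.2.2.2.2.2.2 h'E hrp hr12 hrL β''
    hLM.1.h2β
  -- the instance block
  haveI := S36.H95.isNoetherianRing_chartB_bc_J3N_inv L hA E0
  haveI := S36.H95.isIntegrallyClosed_chartB_bc_J3N (A := A) L E0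
  haveI := S36.H95.isIntegrallyClosed_chartB_bc_J3N_inv (A := A) L E0
  haveI := S36.H95.isFractionRing_chartB_bc_J3N (A := A) L E0
  haveI := S36.H95.isFractionRing_chartB_bc_J3N_inv (A := A) L E0
  haveI := S36.H95.isNoetherianRing_chartB_bc_JN L hA E0
  haveI := S36.H95.isIntegrallyClosed_chartB_bc_JN (A := A) L E0
  haveI := S36.H95.isFractionRing_chartB_bc_JN (A := A) L E0
  haveI := S36.H95.finiteDimensional_bc_J3N L E0
  haveI := S36.H95.isSeparable_bc_J3N L E0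
  haveI := S36.H95.finiteDimensional_bc_J3N_inv L E0
  haveI := S36.H95.isSeparable_bc_J3N_inv L E0
  -- chart 2: cusps and middle cusps
  have hcusp := S36.H85.hcusp_S1 L hqL A hA E0 hunr hN2 hC2.2.2.2.2.1 hr₁ hr₂ hr₃
    PP2 rfl rfl rfl
  have hM4r2 := S36.H89I.hM4r2_S1 L hqL A hA E0 hunr hN2 hC2.2.2.2.2.1 hr₂
  -- the branch rings
  haveI := S36.H35BR.isDedekindDomain_D1 L hqL A hA
  haveI := S36.H35BR.isDedekindDomain_D2 L hqL A hA
  have hD1 := S36.H35BR.not_isField_D1 L A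
  have hD2 := S36.H35BR.not_isField_D2 L A
  have hW2 := S36.H70.hW2_J3K L A hA
  have hW4 := S36.H70.hW4_J3K L A hA
  have hW2' := S36.H70.hW2_J3K_inv L A hA
  have hW4' := S36.H70.hW4_J3K_inv L A hA
  have hWq := S36.H71.exists_WR_eq_pow_jK L hA
  have hWinj := S36.H3.WR_injective (S34.H55.FrM L A hA) q (S34.H55.hFrx L A hA)
  -- the E-level reductions kill `q`
  have hq1E := S35.H70.redE_pi hq hA E0 (q * (q * L)) (S36.H83.J3N L (q := q)) πE hunr hN1 red₁ hq₁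
  have hq2E := S35.H70.redE_pi hq hA E0 (q * (q * L)) (S36.H83.J3N L (q := q)) πE hunr hN1 red₂ hq₂
  have hq3E := S35.H70.redE_pi hq hA E0 (q * (q * L)) (S36.H83.J3N L (q := q)) πE hunr hN1 red₃ hq₃
  have hr1E := S35.H70.redE_pi hq hA E0 (q * (q * L)) (S36.H83.J3N L (q := q))⁻¹ πE hunr hN2 ρ₁ hr₁
  have hr2E := S35.H70.redE_pi hq hA E0 (q * (q * L)) (S36.H83.J3N L (q := q))⁻¹ πE hunr hN2 ρ₂ hr₂
  have hr3E := S35.H70.redE_pi hq hA E0 (q * (q * L)) (S36.H83.J3N L (q := q))⁻¹ πE hunr hN2 ρ₃ hr₃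
  have hq1E' := S35.H70.redE_pi hq hA E0 (q * L) (S34.H55.JN L (ℓ := q)) πE hunr hM1 red₁'
    hC'.2.red₁_ell
  have hq2E' := S35.H70.redE_pi hq hA E0 (q * L) (S34.H55.JN L (ℓ := q)) πE hunr hM1 red₂'
    hC'.2.red₂_ell
  -- the labels
  haveI hP₁ : ∀ i, (PP1 i).IsPrime := S36.H61.vertFam_isPrime PP1 rfl rfl rfl
  haveI hP₂ : ∀ i, (PP2 i).IsPrime := S36.H61.vertFam_isPrime PP2 rfl rfl rfl
  have hπ₁ := S36.H70.algebraMap_natCast_ne_zero (A := A) E0 (q * (q * L))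
    (H40.chartB ↥(cutOver A E0) (baseChangeE E0 (q * (q * L)) (S36.H83.J3N L (q := q))))
    hq.ne_zero
  have hπ₂ := S36.H70.algebraMap_natCast_ne_zero (A := A) E0 (q * (q * L))
    (H40.chartB ↥(cutOver A E0) (baseChangeE E0 (q * (q * L)) (S36.H83.J3N L (q := q))⁻¹))
    hq.ne_zero
  have hπ' := S36.H70.algebraMap_natCast_ne_zero (A := A) E0 (q * L)
    (H40.chartB ↥(cutOver A E0) (baseChangeE E0 (q * L) (S34.H55.JN L (ℓ := q))))
    hq.ne_zero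
  have hh₁ : ∀ i, (PP1 i).height = 1 := S36.H61.vertFam_height PP1 rfl rfl rfl
    hC1.2.2.2.2.2.2 hq1E hq2E hq3E hW2 hW4 hπ₁
  have hh₂ : ∀ i, (PP2 i).height = 1 := S36.H61.vertFam_height PP2 rfl rfl rfl
    hC2.2.2.2.2.2.2 hr1E hr2E hr3E hW2' hW4' hπ₂
  have hVeq := S36.H61.hVeq_S1 L hqL A hA Pi P0 PA PB PC hC1.1 hC1.2.1 hC1.2.2.1 hq₁ hq₂ hq₃
    hC1.2.2.2.2.1 hC2.1 hC2.2.1 hC2.2.2.1 hr₁ hr₂ hr₃ hC2.2.2.2.2.1 E0 hunr PP1 PP2
    rfl rfl rfl rfl rfl rfl hh₁ hh₂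
  haveI hP'F : (RingHom.ker r1E').IsPrime := RingHom.ker_isPrime _
  haveI hP'V : (RingHom.ker r2E').IsPrime := RingHom.ker_isPrime _
  have hF : (RingHom.ker r1E').height = 1 :=
    height_vertTC' h'E hπ' hq1E' hq2E'
      hq.two_le hD1 true
  have hV : (RingHom.ker r2E').height = 1 :=
    height_vertTC' h'E hπ' hq1E' hq2E'
      hq.two_le hD1 false
  have hinj := S36.H61.vertFam_injective PP1 rfl rfl rfl hC1.2.2.2.2.2.2 hW2 hW4
  -- the `A₁`-level heights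
  have k₁ := S36.H16.height_ker_J3N₁ L A hA hC1.2.2.2.2.1 hq₁
  have k₂ := S36.H16.height_ker_J3N₂ L A hA hC1.2.2.2.2.1 hq₂
  have k₃ := S36.H16.height_ker_J3N₃ L A hA hC1.2.2.2.2.1 hq₃
  have k₁' := S36.H16.height_ker_JN₁ L hqL A hA Pi P0 red₁' red₂'
    (fun z _ => hC'.2.res_inf z) (fun z _ => hC'.2.res_zero z) hC'.1
  have k₂' := S36.H16.height_ker_JN₂ L hqL A hA Pi P0 red₁' red₂'
    (fun z _ => hC'.2.res_inf z) (fun z _ => hC'.2.res_zero z) hC'.1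
  -- (E5)/(E6) the two towers
  have HVab := S36.H46.HVab_real L hqL A hA Pi P0 PA PB PC E0 Dm hDm hunr red₁ red₂ red₃
    hC1.1 hC1.2.1 hC1.2.2.1 red₁' red₂' (fun z _ => hC'.2.res_inf z)
    (fun z _ => hC'.2.res_zero z) k₁ k₂ k₃ k₁' k₂' hD1 hC1.2.2.2.2.2.2 hq1E hq2E hq3E
    hC1.2.2.2.2.2.1 h'E hq1E' hq2E' hLM.1 hWinj hLM.2.2.2.2.2.2.2.1 hLM.2.2.2.2.2.2.2.2
    hLM.2.2.2.2.2.1 hLM.2.2.2.2.2.2.1 hLM.2.2.2.1 hLM.2.2.2.2.1 PP1 rfl rfl rfl hh₁ hinj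
    (RingHom.ker r1E') (RingHom.ker r2E') hF hV rfl rfl
    (fun b => S35.H70.redE_chartMapE hq hA E0 (q * (q * L)) (S36.H83.J3N L (q := q)) πE hunr hN1
      red₁ hq₁ b)
    (fun b => S35.H70.redE_chartMapE hq hA E0 (q * (q * L)) (S36.H83.J3N L (q := q)) πE hunr hN1
      red₂ hq₂ b)
    (fun b => S35.H70.redE_chartMapE hq hA E0 (q * (q * L)) (S36.H83.J3N L (q := q)) πE hunr hN1
      red₃ hq₃ b)
    (fun b => S35.H70.redE_chartMapE hq hA E0 (q * L) (S34.H55.JN L (ℓ := q)) πE hunr hM1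
      red₁' hC'.2.red₁_ell b)
    (fun b => S35.H70.redE_chartMapE hq hA E0 (q * L) (S34.H55.JN L (ℓ := q)) πE hunr hM1
      red₂' hC'.2.red₂_ell b)
  -- the master theorem
  have key := S36.H3.geoFn36E_of_rows_noE3 L q hq hA E0 hfix hp hpq k
    (baseChangeE E0 (q * (q * L)) (S36.H83.J3N L (q := q)))
    (baseChangeE E0 (q * (q * L)) (S36.H83.J3N L (q := q))⁻¹)
    (map_inv₀ (baseChangeE E0 (q * (q * L))) (S36.H83.J3N L (q := q)))
    (S36.H95.transcendental_bc_J3N L E0)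
    hD1 hC1.2.2.2.2.2.2 hq1E hq2E hq3E hW2 hW4 hWq h'E hq1E' hq2E'
    hLM.1 hLM.2.2.2.2.2.2.2.1 hLM.2.2.2.2.2.2.2.2 hLM.2.2.2.2.2.1 hLM.2.2.2.2.2.2.1
    hLM.2.2.2.1 hLM.2.2.2.2.1 hM2 hM4
    hD2 hC2.2.2.2.2.2.2 hr1E hr2E hr3E hW2' hW4'
    PP1 PP2 rfl rfl rfl rfl rfl rfl hh₁ hh₂ hVeq
    (RingHom.ker r1E') (RingHom.ker r2E') hF hV rfl rfl hcusp hM4r2 HVab.1 HVab.2
    hC1.2.2.2.2.2.1 hWinj
  exact key

end Fermat.Agent.S36.H18
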