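/-
S36, row (N36-B5) (helper10): NORM-EQUIV for `β = heckeBetaBar ℂ M q : F_M → F_{Mq}` when `q ∣ M`
is allowed (index `q`), in GENERIC form.

`U : CosetDatum (gl (M q)) (gl M) (ZMod q)` ANY coset datum with representatives
`U.α j = heckeMatrix q j.val = [[1, j],[0, q]]` (helper86's `uDatum` of (B1)), and `hnorm` the analytic
norm formula (B4) along `β`,

  `thetaC M (Nm_β x) = ∏ j : ZMod q, (thetaC (M q) x) ∘ [[1, j],[0, q]]`.

Then
  `lam_M (ζ_n ^ (U.opPar x)) = β_* (lam_{Mq} (ζ_n ^ x))`      (`lam_opPar_of_heckeMatrix`)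
  `lamW_M (verB36 U x) = β_* (lamW_{Mq} x)`,  `verB36 U := w_M ∘ U.opPar ∘ w_{Mq}`   (`lamW_verB36`)
and the kernel form `verB36 U x = 0 → β_* (lamW x) = 0`.
-/
import Mathlib
import Fermat.Agent.S35.H90_NormEquivBeta

set_option autoImplicit false
set_option linter.unusedSectionVars false
set_option linter.style.haveILetI false

open UpperHalfPlane AlgebraicCurve ModularCurve CongruenceSubgroup Matrix.SpecialLinearGroup
  ModularForm
open scoped MatrixGroups Manifold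

noncomputable section

namespace Fermat.Agent.S36.H10

open Fermat.Agent Fermat.Agent.S24 Fermat.Agent.S24.H81 Fermat.Agent.S29
open Fermat.Agent.S41.H85 (gl CosetDatum Lat)
open Fermat.Agent.S29.H25
open Fermat.Agent.S29.H85 (kummerSetupFinal chiLat charX admUnits thetaAlg actAlg)
open Fermat.Agent.S41.H72 Fermat.Agent.S41.H65
open Fermat.Agent.S35.H90 (betaPush lam_push isIntegral_FC finiteAlong_FC normFormulaAlong_FC)
open ModularCurve.Period
open P2MW.S_ModularForm_heckeT_slash_eq_self_of_mem_Gamma0.ModularForm.HeckeSlashInvariance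

attribute [local instance] H85.merAlgebra

/-! ### `[[1, j],[0, q]]` stabilises the cusp ring -/

/-- `S = [[0,-1],[1,0]]`. -/
def sMat : SL(2, ℤ) := ⟨!![0, -1; 1, 0], by simp [Matrix.det_fin_two_of]⟩

/-- `S⁻¹ T^j = [[0,1],[-1,-j]]`. -/
def stMat (j : ℤ) : SL(2, ℤ) := ⟨!![0, 1; -1, -j], by simp [Matrix.det_fin_two_of]⟩

/-- `[[1, j],[0, q]]` as an element of `GL(2,ℝ)⁺`. -/
def heckeMatrixPos (q : ℕ) (hq : q ≠ 0) (j : ℕ) : GL(2, ℝ)⁺ :=
  ⟨heckeMatrix q j, H65.heckeMatrix_mem_glPos hq j⟩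

@[simp] theorem coe_heckeMatrixPos (q : ℕ) (hq : q ≠ 0) (j : ℕ) :
    ((heckeMatrixPos q hq j : GL(2, ℝ)⁺) : GL (Fin 2) ℝ) = heckeMatrix q j := rfl

/-- `[[1, j],[0, q]] = S · diag(q,1) · (S⁻¹ T^j)`. -/
theorem heckeMatrixPos_eq (q : ℕ) (hq : q ≠ 0) (j : ℕ) :
    heckeMatrixPos q hq j = H65.slp sMat * H65.diagPos q hq * H65.slp (stMat j) := by
  apply Subtype.ext
  apply Units.ext
  ext a b
  fin_cases a <;> fin_cases b <;>
    simp [heckeMatrixPos, sMat, stMat, val_heckeMatrix hq, val_heckeDiagMatrix hq,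
      Matrix.mul_apply, Fin.sum_univ_two]

theorem heckeMatrixPos_mem_cuspStab (q : ℕ) (hq : q ≠ 0) (j : ℕ) :
    heckeMatrixPos q hq j ∈ H72.cuspStab := by
  rw [heckeMatrixPos_eq]
  exact H72.cuspStab.mul_mem
    (H72.cuspStab.mul_mem (H72.slp_mem_cuspStab _) (H72.diagPos_mem_cuspStab q hq))
    (H72.slp_mem_cuspStab _)

variable {M q : ℕ} [NeZero M] [NeZero q]

/-! ### The datum in `GL(2,ℝ)⁺` -/

theorem datum_α_mem (U : CosetDatum (gl (M * q)) (gl M) (ZMod q))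
    (hα : ∀ j, U.α j = heckeMatrix q j.val) (j : ZMod q) : U.α j ∈ GL(2, ℝ)⁺ := by
  rw [hα]
  exact H65.heckeMatrix_mem_glPos (NeZero.ne q) _

/-- `U` as a coset datum for `GL(2,ℝ)⁺`. -/
def uPos (U : CosetDatum (gl (M * q)) (gl M) (ZMod q))
    (hα : ∀ j, U.α j = heckeMatrix q j.val) :
    CosetDatum (H65.glp (M * q)) (H65.glp M) (ZMod q) :=
  H65.posDatum U (datum_α_mem U hα)

theorem uPos_α (U : CosetDatum (gl (M * q)) (gl M) (ZMod q))
    (hα : ∀ j, U.α j = heckeMatrix q j.val) (j : ZMod q) :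
    (uPos U hα).α j = heckeMatrixPos q (NeZero.ne q) j.val :=
  Subtype.ext (hα j)

section main

open H88 H65.CosetDatumMul

/-- **NORM-EQUIV for `β` (index `q`, `q ∣ M` allowed), character form.** -/
theorem lam_opMul_uPos (U : CosetDatum (gl (M * q)) (gl M) (ZMod q))
    (hα : ∀ j, U.α j = heckeMatrix q j.val)
    (hnorm : ∀ x : H25.FC (M * q),
      thetaC M (H65.normAlong (heckeBetaBar ℂ M q) x)
        = ∏ j : ZMod q, H65.actGL (heckeMatrixPos q (NeZero.ne q) j.val) (thetaC (M * q) x))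
    {n : ℕ} (hn : 0 < n) {χ : Gamma0 (M * q) →* ℂˣ}
    (hχ : χ ∈ charX (Gamma0 (M * q)) n)
    (hχ' : opMul (uPos U hα) χ ∈ charX (Gamma0 M) n) :
    (kummerSetupFinal M hn).lam hn (Additive.ofMul ⟨opMul (uPos U hα) χ, hχ'⟩)
      = betaPush M q ((kummerSetupFinal (M * q) hn).lam hn (Additive.ofMul ⟨χ, hχ⟩)) := by
  have hX : ∀ χ ∈ charX (Gamma0 (M * q)) n, opMul (uPos U hα) χ ∈ charX (Gamma0 M) n := by
    rintro _ ⟨x, rfl⟩
    rw [H85.opMul_expChar]
    exact ⟨⟨_, Fermat.Agent.S41.H85.op_mem_parabolicHoms U ℤ x.2⟩, rfl⟩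
  exact lam_push (kummerSetupFinal M hn) (kummerSetupFinal (M * q) hn) hn (heckeBetaBar ℂ M q)
    (isIntegral_FC _) (finiteAlong_FC _) (normFormulaAlong_FC _)
    (H65.heckeMer (uPos U hα)) (opMul (uPos U hα))
    (fun Φ hΦ => H72.heckeMer_mem_admUnits (uPos U hα)
      (fun j => by
        rw [uPos_α]
        exact heckeMatrixPos_mem_cuspStab q (NeZero.ne q) _) hΦ)
    hX
    (fun χ _ Φ _ haut =>
      (H65.isAut_iff (fun c => rfl) (H85.actAlg_eq_actGL M) _ _).mpr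
        (H65.IsAut.heckeMer (uPos U hα)
          ((H65.isAut_iff (fun c => rfl) (H85.actAlg_eq_actGL (M * q)) χ Φ).mp haut)))
    (fun f Φ hΦ => by
      rw [H65.heckeMer_val, ← hΦ]
      refine (hnorm f).trans (Finset.prod_congr rfl fun j _ => ?_)
      rw [uPos_α]
      rfl)
    hχ

/-- **NORM-EQUIV for `β`, lattice form**:
`lam_M (ζ_n ^ (U.opPar x)) = β_* (lam_{Mq} (ζ_n ^ x))`. -/
theorem lam_opPar_of_heckeMatrix (U : CosetDatum (gl (M * q)) (gl M) (ZMod q))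
    (hα : ∀ j, U.α j = heckeMatrix q j.val)
    (hnorm : ∀ x : H25.FC (M * q),
      thetaC M (H65.normAlong (heckeBetaBar ℂ M q) x)
        = ∏ j : ZMod q, H65.actGL (heckeMatrixPos q (NeZero.ne q) j.val) (thetaC (M * q) x))
    {n : ℕ} (hn : 0 < n) (x : Lat (M * q)) :
    (kummerSetupFinal M hn).lam hn (chiLat (Gamma0 M) n (U.opPar ℤ ℤ x))
      = betaPush M q ((kummerSetupFinal (M * q) hn).lam hn (chiLat (Gamma0 (M * q)) n x)) := by
  have hχ : H85.expChar (H85.zetaC n) (x : Additive (Gamma0 (M * q)) →+ ℤ)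
      ∈ charX (Gamma0 (M * q)) n := H85.expChar_mem_charX x
  have hχ' : opMul (uPos U hα)
      (H85.expChar (H85.zetaC n) (x : Additive (Gamma0 (M * q)) →+ ℤ))
      ∈ charX (Gamma0 M) n := by
    rw [H85.opMul_expChar]
    exact H85.expChar_mem_charX (U.opPar ℤ ℤ x)
  have key := lam_opMul_uPos U hα hnorm hn hχ hχ'
  have e1 : chiLat (Gamma0 (M * q)) n x = Additive.ofMul ⟨_, hχ⟩ := rfl
  have e2 : chiLat (Gamma0 M) n (U.opPar ℤ ℤ x) = Additive.ofMul ⟨_, hχ'⟩ := by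
    apply Additive.toMul.injective
    apply Subtype.ext
    show H85.expChar (H85.zetaC n) _ = opMul (uPos U hα) _
    rw [H85.opMul_expChar]
    rfl
  rw [e1, e2]
  exact key

/-- `Ver_B36 := w_M ∘ U.opPar ∘ w_{Mq}`, the `β`-transfer in the `lamW`-normalisation. -/
def verB36 (U : CosetDatum (gl (M * q)) (gl M) (ZMod q)) : Lat (M * q) →+ Lat M :=
  (H65.wPar (NeZero.ne M)).comp
    ((U.opPar ℤ ℤ).toAddMonoidHom.comp (H65.wPar (NeZero.ne (M * q))))

theorem verB36_apply (U : CosetDatum (gl (M * q)) (gl M) (ZMod q)) (x : Lat (M * q)) :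
    verB36 U x = H65.wPar (NeZero.ne M) (U.opPar ℤ ℤ (H65.wPar (NeZero.ne (M * q)) x)) := rfl

/-- **NORM-EQUIV for `β`, `lamW`-form**: `lamW_M (Ver_B36 x) = β_* (lamW_{Mq} x)`. -/
theorem lamW_verB36 (U : CosetDatum (gl (M * q)) (gl M) (ZMod q))
    (hα : ∀ j, U.α j = heckeMatrix q j.val)
    (hnorm : ∀ x : H25.FC (M * q),
      thetaC M (H65.normAlong (heckeBetaBar ℂ M q) x)
        = ∏ j : ZMod q, H65.actGL (heckeMatrixPos q (NeZero.ne q) j.val) (thetaC (M * q) x))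
    {n : ℕ} (hn : 0 < n) (x : Lat (M * q)) :
    H65.lamW (kummerSetupFinal M hn) hn (verB36 U x)
      = betaPush M q (H65.lamW (kummerSetupFinal (M * q) hn) hn x) := by
  rw [H65.lamW_apply, H65.lamW_apply, verB36_apply, H65.wPar_wPar]
  exact lam_opPar_of_heckeMatrix U hα hnorm hn _

theorem verB36_eq_zero_iff (U : CosetDatum (gl (M * q)) (gl M) (ZMod q)) (x : Lat (M * q)) :
    verB36 U x = 0 ↔ U.opPar ℤ ℤ (H65.wPar (NeZero.ne (M * q)) x) = 0 := by
  rw [verB36_apply]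
  constructor
  · intro h
    exact S35.H90.wPar_injective (NeZero.ne M) (h.trans (map_zero _).symm)
  · intro h
    rw [h, map_zero]

/-- Kernel form: `Ver_B36 x = 0 → β_* (lamW x) = 0`. -/
theorem betaPush_lamW_eq_zero36 (U : CosetDatum (gl (M * q)) (gl M) (ZMod q))
    (hα : ∀ j, U.α j = heckeMatrix q j.val)
    (hnorm : ∀ x : H25.FC (M * q),
      thetaC M (H65.normAlong (heckeBetaBar ℂ M q) x)
        = ∏ j : ZMod q, H65.actGL (heckeMatrixPos q (NeZero.ne q) j.val) (thetaC (M * q) x))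
    {n : ℕ} (hn : 0 < n) (x : Lat (M * q)) (h : verB36 U x = 0) :
    betaPush M q (H65.lamW (kummerSetupFinal (M * q) hn) hn x) = 0 := by
  rw [← lamW_verB36 U hα hnorm hn x, h, map_zero]

end main

end Fermat.Agent.S36.H10
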