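/-
S36, rows (N36-B1)/(N36-B2), generic spare (helper10): the `β`-side transfer
`Hom(Γ₀(M q), A) → Hom(Γ₀(M), A)` of index `q` when `q ∣ M`, with coset representatives
`[[1, j],[0, q]] = heckeMatrix q j`, `j mod q`.

* `stable_heckeMatrix_down`, `uDatum hqM`  : the coset datum (B1);
* `res_op_eq_heckeUHom`                  : `res ∘ U.op = U_q` on `Hom(Γ₀(M q), A)` for ANY datum `U`
                                           with these representatives (same cosets);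
* `res_injective_int`                    : `res : Hom(Γ₀(M), ℤ) → Hom(Γ₀(M q), ℤ)` is injective;
* `opPar_heckeTPar_of_heckeMatrix`       : `U.opPar ∘ T_ℓ = T_ℓ ∘ U.opPar`, `ℓ ∤ M q` (B2);
* `verB36_heckeTPar`, `verB36_cohT`, `verB36L`, composition form for `S35.H10` / `S35.H49`.
-/
import Mathlib
import Fermat.Agent.S36.H10_LamBeta36
import Fermat.Agent.S41.H85_DegPar
import Fermat.Agent.S29.H80_Interface

set_option autoImplicit false
set_option linter.unusedSectionVars false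
set_option linter.style.haveILetI false

open CongruenceSubgroup Matrix.SpecialLinearGroup ModularForm ModularCurve ModularCurve.Period
open scoped MatrixGroups
open P2MW.S_ModularForm_heckeT_slash_eq_self_of_mem_Gamma0.ModularForm.HeckeSlashInvariance

noncomputable section

namespace Fermat.Agent.S36.H10

open Fermat.Agent Fermat.Agent.S29
open Fermat.Agent.S41.H85 Fermat.Agent.S41.H72 Fermat.Agent.S41.H65

variable {M q : ℕ} {A : Type*} [AddCommGroup A]

/-! ### (B1) the datum -/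

/-- For `q ∣ M` the family `[[1, j],[0, q]]`, `j mod q`, is stable under right multiplication by
`Γ₀(M)`, with cocycle in `Γ₀(M q)`. -/
theorem stable_heckeMatrix_down [NeZero q] (hqM : q ∣ M) (γ : Gamma0 M) (x : ZMod q) :
    ∃ (y : ZMod q) (g : Gamma0 (M * q)),
      heckeMatrix q x.val * gl M γ = gl (M * q) g * heckeMatrix q y.val := by
  have hN : (M : ℤ) ∣ (γ : SL(2, ℤ)) 1 0 := dvd_of_mem_Gamma0 γ.2
  have hc : (q : ℤ) ∣ (γ : SL(2, ℤ)) 1 0 := (Int.natCast_dvd_natCast.mpr hqM).trans hN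
  obtain ⟨g', hg', h⟩ := heckeMatrix_mul_of_dvd (γ : SL(2, ℤ)) hc x
  refine ⟨_, ⟨g', mem_Gamma0_of_dvd ?_⟩, h⟩
  rw [hg']
  obtain ⟨c, hc'⟩ := hN
  exact ⟨c, by rw [hc']; push_cast; ring⟩

/-- **(B1)** the coset datum of the `β`-transfer of index `q`, `q ∣ M`. -/
def uDatum [NeZero q] (hqM : q ∣ M) : CosetDatum (gl (M * q)) (gl M) (ZMod q) :=
  CosetDatum.ofReduced (isReduced_heckeMatrix (M * q) q) (stable_heckeMatrix_down hqM)

theorem uDatum_α [NeZero q] (hqM : q ∣ M) (j : ZMod q) :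
    (uDatum hqM).α j = heckeMatrix q j.val := rfl

/-! ### `res ∘ U.op = U_q` -/

theorem isReduced_of_heckeMatrix [NeZero q] (U : CosetDatum (gl (M * q)) (gl M) (ZMod q))
    (hα : ∀ j, U.α j = heckeMatrix q j.val) : IsReduced (gl (M * q)) U.α := by
  have h : U.α = fun x : ZMod q => heckeMatrix q x.val := funext hα
  rw [h]
  exact isReduced_heckeMatrix (M * q) q

/-- **`res ∘ U.op = U_q`** at level `M q`: the composite has the same cosets
`Γ₀(M q) [[1, j],[0, q]]` as the Hecke operator `U_q`. -/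
theorem res_op_eq_heckeUHom [NeZero q] (U : CosetDatum (gl (M * q)) (gl M) (ZMod q))
    (hα : ∀ j, U.α j = heckeMatrix q j.val) (ψ : Additive (Gamma0 (M * q)) →+ A) :
    res A M q (U.op ψ) = heckeUHom A (Dvd.intro_left M rfl : q ∣ M * q) ψ := by
  have h1 : res A M q (U.op ψ) = (U.comp (resDatum M q)).op ψ :=
    (CosetDatum.comp_op_apply U (resDatum M q) ψ).symm
  rw [h1]
  refine congrFun (congrArg DFunLike.coe (op_eq_of_forall_exists (A := A)
    (U.comp (resDatum M q)) (heckeUDatum (M * q) q (Dvd.intro_left M rfl))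
    (isReduced_comp_single U (isReduced_of_heckeMatrix U hα) _ _ _)
    (heckeUDatum_isReduced (M * q) q _)
    (by rw [Fintype.card_prod, Fintype.card_unit, mul_one]) ?_)) ψ
  rintro ⟨j, u⟩
  refine ⟨j, 1, ?_⟩
  show heckeMatrix q j.val = gl (M * q) 1 * (U.α j * 1)
  rw [map_one, one_mul, mul_one, hα]

/-! ### `res` is injective on `ℤ`-valued homomorphisms -/

theorem exists_pow_mem_Gamma0_mul [NeZero (M * q)] (γ : SL(2, ℤ)) :
    ∃ n : ℕ, 0 < n ∧ γ ^ n ∈ Gamma0 (M * q) := by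
  obtain ⟨n, hn0, -, hn⟩ :=
    Subgroup.exists_pow_mem_of_index_ne_zero (H := Gamma0 (M * q)) Subgroup.FiniteIndex.index_ne_zero γ
  exact ⟨n, hn0, hn⟩

theorem res_injective_int [NeZero (M * q)] : Function.Injective (res ℤ M q) := by
  rw [injective_iff_map_eq_zero]
  intro φ hφ
  refine AddMonoidHom.ext fun γ => ?_
  obtain ⟨γ, rfl⟩ := Additive.ofMul.surjective γ
  obtain ⟨n, hn0, hn⟩ := exists_pow_mem_Gamma0_mul (M := M) (q := q) (γ : SL(2, ℤ))
  have h1 : res ℤ M q φ (Additive.ofMul (⟨(γ : SL(2, ℤ)) ^ n, hn⟩ : Gamma0 (M * q))) = 0 := by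
    rw [hφ]; rfl
  rw [res_apply_apply] at h1
  have h2 : inclHom M q (⟨(γ : SL(2, ℤ)) ^ n, hn⟩ : Gamma0 (M * q)) = γ ^ n := Subtype.ext rfl
  rw [h2, ofMul_pow, map_nsmul, nsmul_eq_mul] at h1
  rcases mul_eq_zero.mp h1 with h | h
  · exact absurd (by exact_mod_cast h) hn0.ne'
  · simpa using h

theorem resPar_injective [NeZero (M * q)] : Function.Injective (resPar M q) := by
  intro x y hxy
  apply Subtype.ext
  apply res_injective_int (M := M) (q := q)
  have := congrArg (fun z : Lat (M * q) => (z : Additive (Gamma0 (M * q)) →+ ℤ)) hxy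
  simpa using this

/-! ### (B2) `U.opPar` commutes with `T_ℓ`, `ℓ ∤ M q` -/

theorem resPar_opPar_eq_heckeUPar [NeZero q] (U : CosetDatum (gl (M * q)) (gl M) (ZMod q))
    (hα : ∀ j, U.α j = heckeMatrix q j.val) (y : Lat (M * q)) :
    resPar M q (U.opPar ℤ ℤ y) = heckeUPar ℤ ℤ (Dvd.intro_left M rfl : q ∣ M * q) y := by
  apply Subtype.ext
  rw [coe_resPar, CosetDatum.coe_opPar_apply, coe_heckeUPar_apply]
  exact res_op_eq_heckeUHom U hα y.1

theorem resPar_heckeTPar {ℓ : ℕ} (hℓ : ℓ.Prime) (hℓM : ¬ ℓ ∣ M * q) (x : Lat M) :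
    heckeTPar ℤ ℤ hℓ hℓM (resPar M q x)
      = resPar M q (heckeTPar ℤ ℤ hℓ (not_dvd_left_of_not_dvd_mul hℓM) x) := by
  apply Subtype.ext
  rw [coe_heckeTPar_apply, coe_resPar, coe_resPar, coe_heckeTPar_apply]
  exact heckeTHom_res hℓ hℓM x.1

/-- **(B2)** `U.opPar ∘ T_ℓ = T_ℓ ∘ U.opPar`, `ℓ ∤ M q`, `q` prime (`q ∣ M` allowed). -/
theorem opPar_heckeTPar_of_heckeMatrix [NeZero M] [NeZero q] (hq : q.Prime)
    (U : CosetDatum (gl (M * q)) (gl M) (ZMod q))
    (hα : ∀ j, U.α j = heckeMatrix q j.val) {ℓ : ℕ} (hℓ : ℓ.Prime) (hℓM : ¬ ℓ ∣ M * q)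
    (y : Lat (M * q)) :
    U.opPar ℤ ℤ (heckeTPar ℤ ℤ hℓ hℓM y)
      = heckeTPar ℤ ℤ hℓ (not_dvd_left_of_not_dvd_mul hℓM) (U.opPar ℤ ℤ y) := by
  haveI : NeZero (M * q) := ⟨Nat.mul_ne_zero (NeZero.ne M) hq.ne_zero⟩
  apply resPar_injective (M := M) (q := q)
  rw [resPar_opPar_eq_heckeUPar U hα, ← resPar_heckeTPar hℓ hℓM, resPar_opPar_eq_heckeUPar U hα]
  have hcomm := commute_heckeTPar_heckeUPar_int (N := M * q) hℓ hℓM hq (Dvd.intro_left M rfl)
  exact (LinearMap.congr_fun hcomm.eq y).symm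

/-! ### The `lamW`-normalised transfer `verB36` -/

variable [NeZero M] [NeZero q]

/-- **`Ver_B36 ∘ T_ℓ = T_ℓ ∘ Ver_B36`**, `ℓ ∤ M q`. -/
theorem verB36_heckeTPar (hq : q.Prime) (U : CosetDatum (gl (M * q)) (gl M) (ZMod q))
    (hα : ∀ j, U.α j = heckeMatrix q j.val) {ℓ : ℕ} (hℓ : ℓ.Prime) (hℓM : ¬ ℓ ∣ M * q)
    (x : Lat (M * q)) :
    verB36 U (heckeTPar ℤ ℤ hℓ hℓM x)
      = heckeTPar ℤ ℤ hℓ (not_dvd_left_of_not_dvd_mul hℓM) (verB36 U x) := by
  rw [verB36_apply, verB36_apply, S35.H90.wPar_heckeTPar,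
    opPar_heckeTPar_of_heckeMatrix hq U hα, S35.H90.wPar_heckeTPar]

/-- `Ver_B36 ∘ cohT_ℓ = cohT_ℓ ∘ Ver_B36`, `ℓ ∤ M q`. -/
theorem verB36_cohT (hq : q.Prime) (U : CosetDatum (gl (M * q)) (gl M) (ZMod q))
    (hα : ∀ j, U.α j = heckeMatrix q j.val) (ℓ : Nat.Primes) (hℓM : ¬ (ℓ : ℕ) ∣ M * q)
    (x : Lat (M * q)) :
    verB36 U (H80.cohT (M * q) ℓ x) = H80.cohT M ℓ (verB36 U x) := by
  rw [S35.H90.cohT_of_not_dvd ℓ hℓM,
    S35.H90.cohT_of_not_dvd ℓ (not_dvd_left_of_not_dvd_mul hℓM)]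
  exact verB36_heckeTPar hq U hα ℓ.2 hℓM x

/-- `verB36` as a `ℤ`-linear map. -/
def verB36L (U : CosetDatum (gl (M * q)) (gl M) (ZMod q)) : Lat (M * q) →ₗ[ℤ] Lat M :=
  (verB36 U).toIntLinearMap

@[simp] theorem verB36L_apply (U : CosetDatum (gl (M * q)) (gl M) (ZMod q)) (x : Lat (M * q)) :
    verB36L U x = verB36 U x := rfl

/-- Composition form = the hypothesis `hV` of `S35.H10.exists_new_eigenvector_ext` /
`S35.H49.baseChange_eq_zero_of_isNewform` (with level `M * q` and divisor level `M`). -/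
theorem verB36L_comp_heckeTPar (hq : q.Prime) (U : CosetDatum (gl (M * q)) (gl M) (ZMod q))
    (hα : ∀ j, U.α j = heckeMatrix q j.val) {ℓ : ℕ} (hℓ : ℓ.Prime) (hℓM : ¬ ℓ ∣ M * q) :
    verB36L U ∘ₗ heckeTPar ℤ ℤ hℓ hℓM
      = heckeTPar ℤ ℤ hℓ (fun hd => hℓM (hd.trans (Dvd.intro q rfl))) ∘ₗ verB36L U := by
  refine LinearMap.ext fun x => ?_
  rw [LinearMap.comp_apply, LinearMap.comp_apply, verB36L_apply, verB36L_apply]
  exact verB36_heckeTPar hq U hα hℓ hℓM x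

end Fermat.Agent.S36.H10
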