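import Mathlib

/-!
S36 / row (K) (helper16): the elementary **Kolchin substitute** of helper78's reduction (#3022).

Ring level: `S` a ring in which `x + x = 0 → x = 0`, `U ⊆ S` a set of elements closed under
products and "inverses" (`u ↦ 2 - u`) with `(u - 1) ^ 2 = 0` for all `u ∈ U`.  For `a = u - 1`,
`b = v - 1`, `c = w - 1` (`u v w ∈ U`): `a * b = - (b * a)`, `a * b * a = 0`, `a * b * c = 0`.

Module level: `Y` a module over a commutative ring `R` with `2` invertible, a group `G` acting
through `ρ : G →* Module.End R Y` with `(ρ g - 1) ^ 2 = 0` for every `g`.  Then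
`(ρ g - 1) ((ρ h - 1) y)` is `G`-invariant for all `y`, and if `P • z = 0` for every invariant `z`
then `P ^ 3 • y = 0` for every `y`.
-/

set_option autoImplicit false

namespace Fermat.Agent.S36.H16

section Ring

variable {S : Type*} [Ring S]

/-- the square of `a + b + a * b` when `a * a = 0`, `b * b = 0`. -/
theorem sq_expand (a b : S) (ha : a * a = 0) (hb : b * b = 0) :
    (a + b + a * b) * (a + b + a * b) =
      a * b + b * a + a * b * a + b * a * b + a * b * a * b := by
  have e : (a + b + a * b) * (a + b + a * b) =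
      a * b + b * a + a * b * a + b * a * b + a * b * a * b +
        (a * a + b * b + (a * a) * b + a * (b * b)) := by noncomm_ring
  rw [e, ha, hb]
  simp

/-- **anticommutation and the sandwich identity**, from the four relations for
`(±a, ±b)`. -/
theorem anticomm_of_sq (h2 : ∀ x : S, x + x = 0 → x = 0) (a b : S)
    (ha : a * a = 0) (hb : b * b = 0)
    (h1 : (a + b + a * b) * (a + b + a * b) = 0)
    (h2' : (-a + b + (-a) * b) * (-a + b + (-a) * b) = 0)
    (h3 : (a + -b + a * (-b)) * (a + -b + a * (-b)) = 0)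
    (h4 : (-a + -b + (-a) * (-b)) * (-a + -b + (-a) * (-b)) = 0) :
    a * b + b * a = 0 ∧ a * b * a = 0 ∧ b * a * b = 0 := by
  have hna : (-a) * (-a) = 0 := by rw [neg_mul_neg, ha]
  have hnb : (-b) * (-b) = 0 := by rw [neg_mul_neg, hb]
  rw [sq_expand a b ha hb] at h1
  rw [sq_expand (-a) b hna hb] at h2'
  rw [sq_expand a (-b) ha hnb] at h3
  rw [sq_expand (-a) (-b) hna hnb] at h4
  -- normalise signs
  have e2 : -(a * b) - b * a + a * b * a - b * a * b + a * b * a * b = 0 := by
    rw [← h2']; noncomm_ring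
  have e3 : -(a * b) - b * a - a * b * a + b * a * b + a * b * a * b = 0 := by
    rw [← h3]; noncomm_ring
  have e4 : a * b + b * a - a * b * a - b * a * b + a * b * a * b = 0 := by
    rw [← h4]; noncomm_ring
  -- `abab = 0`
  have habab : a * b * a * b = 0 := by
    apply h2; apply h2
    have : a * b * a * b + a * b * a * b + (a * b * a * b + a * b * a * b) =
        (a * b + b * a + a * b * a + b * a * b + a * b * a * b) +
        (-(a * b) - b * a + a * b * a - b * a * b + a * b * a * b) +
        (-(a * b) - b * a - a * b * a + b * a * b + a * b * a * b) +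
        (a * b + b * a - a * b * a - b * a * b + a * b * a * b) := by abel
    rw [this, h1, e2, e3, e4]; simp
  have hanti : a * b + b * a = 0 := by
    apply h2
    have : a * b + b * a + (a * b + b * a) =
        (a * b + b * a + a * b * a + b * a * b + a * b * a * b) +
        (a * b + b * a - a * b * a - b * a * b + a * b * a * b) -
        (a * b * a * b + a * b * a * b) := by abel
    rw [this, h1, e4, habab]; simp
  have haba : a * b * a = 0 := by
    apply h2
    have : a * b * a + a * b * a =
        (a * b + b * a + a * b * a + b * a * b + a * b * a * b) +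
        (-(a * b) - b * a + a * b * a - b * a * b + a * b * a * b) -
        (a * b * a * b + a * b * a * b) := by abel
    rw [this, h1, e2, habab]; simp
  have hbab : b * a * b = 0 := by
    apply h2
    have : b * a * b + b * a * b =
        (a * b + b * a + a * b * a + b * a * b + a * b * a * b) +
        (-(a * b) - b * a - a * b * a + b * a * b + a * b * a * b) -
        (a * b * a * b + a * b * a * b) := by abel
    rw [this, h1, e3, habab]; simp
  exact ⟨hanti, haba, hbab⟩

/-- **triple products vanish**: if `a`, `b`, `a + b + a * b` all anticommute with `c`. -/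
theorem triple_of_anticomm (h2 : ∀ x : S, x + x = 0 → x = 0) (a b c : S)
    (hac : a * c + c * a = 0) (hbc : b * c + c * b = 0)
    (habc : (a + b + a * b) * c + c * (a + b + a * b) = 0) : a * b * c = 0 := by
  apply h2
  have hca : c * a = -(a * c) := eq_neg_of_add_eq_zero_right hac
  have hcb : c * b = -(b * c) := eq_neg_of_add_eq_zero_right hbc
  have e : (a + b + a * b) * c + c * (a + b + a * b) =
      (a * c + c * a) + (b * c + c * b) + (a * b * c + c * a * b) := by noncomm_ring
  rw [e, hac, hbc, zero_add, zero_add] at habc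
  have e2 : c * a * b = a * b * c := by
    rw [hca, neg_mul, mul_assoc a c b, hcb, mul_neg, neg_neg, mul_assoc]
  rw [e2] at habc
  exact habc

end Ring

section Module

variable {R : Type*} [CommRing R] [Invertible (2 : R)] {Y : Type*} [AddCommGroup Y] [Module R Y]
variable {G : Type*} [Group G] (ρ : G →* Module.End R Y)

omit [Invertible (2 : R)] in
theorem map_mul_sub_one (g h : G) :
    ρ (g * h) - 1 = (ρ g - 1) + (ρ h - 1) + (ρ g - 1) * (ρ h - 1) := by
  rw [map_mul]; noncomm_ring

omit [Invertible (2 : R)] in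
theorem map_inv_sub_one (hρ : ∀ g : G, (ρ g - 1) * (ρ g - 1) = 0) (g : G) :
    ρ g⁻¹ - 1 = -(ρ g - 1) := by
  have h1 : ρ g⁻¹ * ρ g = 1 := by rw [← map_mul, inv_mul_cancel, map_one]
  have h2 : ρ g * (1 - (ρ g - 1)) = 1 := by
    have : ρ g * (1 - (ρ g - 1)) = 1 - (ρ g - 1) * (ρ g - 1) := by noncomm_ring
    rw [this, hρ g, sub_zero]
  have h3 : ρ g⁻¹ = 1 - (ρ g - 1) := by
    calc ρ g⁻¹ = ρ g⁻¹ * (ρ g * (1 - (ρ g - 1))) := by rw [h2, mul_one]
      _ = 1 - (ρ g - 1) := by rw [← mul_assoc, h1, one_mul]
  rw [h3]; abel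

theorem end_two_tors (f : Module.End R Y) (h : f + f = 0) : f = 0 := by
  have h2 : (2 : R) • f = 0 := by rw [two_smul]; exact h
  calc f = (⅟2 : R) • ((2 : R) • f) := by rw [smul_smul, invOf_mul_self, one_smul]
    _ = 0 := by rw [h2, smul_zero]

variable {ρ}

/-- **anticommutation** of the `n g = ρ g - 1`, and the sandwich identity. -/
theorem nil_anticomm (hρ : ∀ g : G, (ρ g - 1) * (ρ g - 1) = 0) (g h : G) :
    (ρ g - 1) * (ρ h - 1) + (ρ h - 1) * (ρ g - 1) = 0 ∧
      (ρ g - 1) * (ρ h - 1) * (ρ g - 1) = 0 ∧ (ρ h - 1) * (ρ g - 1) * (ρ h - 1) = 0 := by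
  refine anticomm_of_sq end_two_tors (ρ g - 1) (ρ h - 1) (hρ g) (hρ h) ?_ ?_ ?_ ?_
  · rw [← map_mul_sub_one]; exact hρ _
  · rw [← map_inv_sub_one ρ hρ g, ← map_mul_sub_one]; exact hρ _
  · rw [← map_inv_sub_one ρ hρ h, ← map_mul_sub_one]; exact hρ _
  · rw [← map_inv_sub_one ρ hρ g, ← map_inv_sub_one ρ hρ h, ← map_mul_sub_one]; exact hρ _

/-- **all triple products of the `n g = ρ g - 1` vanish.** -/
theorem nil_triple (hρ : ∀ g : G, (ρ g - 1) * (ρ g - 1) = 0) (g h k : G) :
    (ρ g - 1) * (ρ h - 1) * (ρ k - 1) = 0 := by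
  refine triple_of_anticomm end_two_tors (ρ g - 1) (ρ h - 1) (ρ k - 1)
    (nil_anticomm hρ g k).1 (nil_anticomm hρ h k).1 ?_
  rw [← map_mul_sub_one]
  exact (nil_anticomm hρ (g * h) k).1

/-- `n g (n h y)` is `G`-invariant. -/
theorem nil_nil_invariant (hρ : ∀ g : G, (ρ g - 1) * (ρ g - 1) = 0) (g h k : G) (y : Y) :
    ρ k ((ρ g - 1) ((ρ h - 1) y)) = (ρ g - 1) ((ρ h - 1) y) := by
  have h0 := nil_triple hρ k g h
  have h1 : ((ρ k - 1) * (ρ g - 1) * (ρ h - 1)) y = 0 := by rw [h0]; rfl
  rw [Module.End.mul_apply, Module.End.mul_apply, LinearMap.sub_apply, Module.End.one_apply,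
    sub_eq_zero] at h1
  exact h1

/-- **Kolchin substitute**: if the invariants are killed by `P`, then `Y` is killed by `P ^ 3`. -/
theorem pow_three_smul_eq_zero (hρ : ∀ g : G, (ρ g - 1) * (ρ g - 1) = 0) (P : R)
    (hP : ∀ z : Y, (∀ k : G, ρ k z = z) → P • z = 0) (y : Y) : P ^ 3 • y = 0 := by
  -- step 1: `n g (n h (P • y)) = 0`
  have s1 : ∀ (g h : G) (y : Y), (ρ g - 1) ((ρ h - 1) (P • y)) = 0 := by
    intro g h y
    rw [map_smul, map_smul]
    exact hP _ (fun k => nil_nil_invariant hρ g h k y)
  -- step 2: `n h (P ^ 2 • y) = 0`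
  have s2 : ∀ (h : G) (y : Y), (ρ h - 1) (P ^ 2 • y) = 0 := by
    intro h y
    have hinv : ∀ k : G, ρ k ((ρ h - 1) (P • y)) = (ρ h - 1) (P • y) := by
      intro k
      have := s1 k h y
      rw [LinearMap.sub_apply, Module.End.one_apply, sub_eq_zero] at this
      exact this
    have := hP _ hinv
    rw [← map_smul, smul_smul, ← pow_two] at this
    exact this
  -- step 3
  have hinv : ∀ k : G, ρ k (P ^ 2 • y) = P ^ 2 • y := by
    intro k
    have := s2 k y
    rw [LinearMap.sub_apply, Module.End.one_apply, sub_eq_zero] at this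
    exact this
  have := hP _ hinv
  rw [smul_smul, ← pow_succ'] at this
  exact this

end Module

end Fermat.Agent.S36.H16
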