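/-
S36, row (T2) (helper57), part A: the ABSTRACT ASSEMBLY.

* `Midpoint36 lam M S 𝒪₁ χ₁`: the S30 midpoint (`H57.Midpoint`) WITHOUT the unramifiedness clause,
  PLUS the clause (INV): for every prime `q ≠ lam` with `M.factorization q = 2` there is a place
  `A` of `Qbar` over `q` such that the inertia group at `A` has NO nonzero invariant vector.
* `s36_of_midpoint36`: the exact conclusion of the frozen statement S36 (with `𝒪'' := 𝒪₁`) from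
  `Midpoint36 lam M S 𝒪₁ ((algebraMap 𝒪' 𝒪₁).comp χ)` and `lam ≠ 2`.

Proof of the new clause: if the final representation were unipotent on inertia at `q`, then for
`τ` in the inertia group at `A`: trace `= 2`, determinant `= 1`, so `(ρ τ - 1)² = 0` on the
midpoint module by the quadratic relation; helper16's Kolchin substitute (`2` is a unit as
`lam ≠ 2`) then produces a nonzero invariant vector.
-/
import Mathlib
import Fermat.Agent.S35.H31_S35Assembly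
import Fermat.Agent.S36.H16_KolchinSub
import Fermat.Agent.S14.H54_Places
import Fermat.Prelude.Def_GaloisRep_LocalConditions

set_option autoImplicit false
set_option linter.style.haveILetI false

namespace Fermat.Agent.S36.H57

open Polynomial Module
open CuspForm IsLocalRing Fermat.Agent.S30 Fermat.Agent.S30.H31

local notation "Qbar" => AlgebraicClosure ℚ
local notation "GQ" => (AlgebraicClosure ℚ ≃ₐ[ℚ] AlgebraicClosure ℚ)

/-- The midpoint of the S36 pipeline: `H57.Midpoint` without unramifiedness, plus (INV). -/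
def Midpoint36 (lam M : ℕ) [NeZero M] (S : Finset ℕ) (𝒪₁ : Type) [CommRing 𝒪₁] [IsLocalRing 𝒪₁]
    (χ₁ : heckeAlgebra M 2 (↑S : Set ℕ) →+* 𝒪₁) : Prop :=
  ∃ (V : Type) (_ : AddCommGroup V) (_ : Module 𝒪₁ V) (_ : Module.Free 𝒪₁ V)
    (_ : Module.Finite 𝒪₁ V) (ρ : GQ →* Module.End 𝒪₁ V),
    Nontrivial V ∧ GaloisActionIsAdicContinuous 𝒪₁ ρ ∧
    (∀ (ℓ : ℕ) (hℓ : ℓ.Prime) (hℓM : ¬ ℓ ∣ M) (hℓS : ℓ ∉ (↑S : Set ℕ)),
      ∀ A : ValuationSubring Qbar, A.LiesOverPrime ℓ →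
        ∀ σ : GQ, A.IsFrobeniusAt σ ℓ →
          ρ σ * ρ σ = χ₁ (heckeAlgebra.T hℓ hℓM hℓS) • ρ σ - (ℓ : 𝒪₁) • (1 : Module.End 𝒪₁ V)) ∧
    (∀ q : ℕ, q.Prime → q ≠ lam → M.factorization q = 2 →
      ∃ A : ValuationSubring Qbar, A.LiesOverPrime q ∧
        ∀ v : V, (∀ σ ∈ A.inertiaSubgroupIn ℚ, ρ σ v = v) → v = 0)

/-- `2` is a unit in a local ring whose residue characteristic is an odd prime. -/
theorem isUnit_two_of_mem {O : Type*} [CommRing O] [IsLocalRing O] (lam : ℕ) (hlam : lam.Prime)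
    (hlam2 : lam ≠ 2) (h : (lam : O) ∈ IsLocalRing.maximalIdeal O) : IsUnit (2 : O) := by
  by_contra h2
  have h2m : (2 : O) ∈ IsLocalRing.maximalIdeal O := (IsLocalRing.mem_maximalIdeal _).mpr h2
  have hcop : Nat.Coprime 2 lam :=
    (Nat.coprime_primes Nat.prime_two hlam).mpr (Ne.symm hlam2)
  have hb : (Nat.gcdA 2 lam : ℤ) * 2 + Nat.gcdB 2 lam * lam = 1 := by
    have := Nat.gcd_eq_gcd_ab 2 lam
    rw [hcop.gcd_eq_one] at this
    push_cast at this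
    linarith
  have h1 : (1 : O) ∈ IsLocalRing.maximalIdeal O := by
    have hcast : (1 : O) = ((Nat.gcdA 2 lam : ℤ) : O) * 2 + ((Nat.gcdB 2 lam : ℤ) : O) * (lam : O) := by
      have := congrArg (fun z : ℤ => (z : O)) hb
      simp only [Int.cast_add, Int.cast_mul, Int.cast_ofNat, Int.cast_natCast, Int.cast_one] at this
      exact this.symm
    rw [hcast]
    exact Ideal.add_mem _ (Ideal.mul_mem_left _ _ h2m) (Ideal.mul_mem_left _ _ h)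
  exact (Ideal.ne_top_iff_one _).mp (IsLocalRing.maximalIdeal.isMaximal O).ne_top h1

/-- coefficient comparison: `X² - t X + d = (X - 1)²` forces `t = 2`, `d = 1`. -/
theorem eq_two_and_eq_one_of_charpoly {O : Type*} [CommRing O] (t d : O)
    (h : (X ^ 2 - C t * X + C d : O[X]) = (X - 1) ^ 2) : t = 2 ∧ d = 1 := by
  have h0 := congrArg (fun f : O[X] => f.coeff 0) h
  have h1 := congrArg (fun f : O[X] => f.coeff 1) h
  have e : ((X : O[X]) - 1) ^ 2 = X ^ 2 - C 2 * X + C 1 := by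
    simp only [map_ofNat, map_one]; ring
  rw [e] at h0 h1
  simp only [coeff_add, coeff_sub, coeff_X_pow, coeff_C_mul, coeff_X_zero,
    coeff_X_one, coeff_C] at h0 h1
  norm_num at h0 h1
  exact ⟨h1, h0⟩

/-- **S36 from the midpoint** (with `𝒪'' := 𝒪₁`). -/
theorem s36_of_midpoint36 {M : ℕ} [NeZero M] (lam : ℕ) [hlam : Fact lam.Prime] (S : Finset ℕ)
    (hlamS : lam ∈ S) (hlam2 : lam ≠ 2)
    (𝒪' : Type) [CommRing 𝒪']
    (χ : CuspForm.heckeAlgebra M 2 (↑S : Set ℕ) →+* 𝒪')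
    (𝒪₁ : Type) [CommRing 𝒪₁] [IsDomain 𝒪₁] [IsDiscreteValuationRing 𝒪₁]
    [IsAdicComplete (IsLocalRing.maximalIdeal 𝒪₁) 𝒪₁] [Finite (IsLocalRing.ResidueField 𝒪₁)]
    [CharZero 𝒪₁] [Algebra 𝒪' 𝒪₁] [Module.Finite 𝒪' 𝒪₁] [IsLocalHom (algebraMap 𝒪' 𝒪₁)]
    (hinj : Function.Injective (algebraMap 𝒪' 𝒪₁))
    (hlam𝒪₁ : (lam : 𝒪₁) ∈ IsLocalRing.maximalIdeal 𝒪₁)
    (hmid : Midpoint36 lam M S 𝒪₁ ((algebraMap 𝒪' 𝒪₁).comp χ)) :
    ∃ (O'' : Type) (_ : CommRing O'') (_ : IsDomain O'') (_ : IsDiscreteValuationRing O'')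
      (_ : IsAdicComplete (IsLocalRing.maximalIdeal O'') O'')
      (_ : Finite (IsLocalRing.ResidueField O''))
      (_ : CharZero O'') (_ : Algebra 𝒪' O'') (_ : Module.Finite 𝒪' O'')
      (_ : IsLocalHom (algebraMap 𝒪' O'')),
      Function.Injective (algebraMap 𝒪' O'') ∧
      ∃ ρ : GaloisRepAdic O'',
        (∀ (ℓ : ℕ) (hℓ : ℓ.Prime) (hℓM : ¬ ℓ ∣ M) (hℓS : ℓ ∉ (↑S : Set ℕ)),
          ∀ A : ValuationSubring (AlgebraicClosure ℚ), A.LiesOverPrime ℓ →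
            ∀ σ : AlgebraicClosure ℚ ≃ₐ[ℚ] AlgebraicClosure ℚ, A.IsFrobeniusAt σ ℓ →
              LinearMap.charpoly (ρ.ρ σ) =
                X ^ 2 - C (algebraMap 𝒪' O'' (χ (CuspForm.heckeAlgebra.T hℓ hℓM hℓS))) * X
                  + C ((ℓ : O''))) ∧
        (∀ q : ℕ, q.Prime → q ≠ lam → M.factorization q = 2 →
          ¬ ρ.IsUnipotentOnInertiaAt q) := by
  classical
  obtain ⟨V, i1, i2, i3, i4, ρ, hnt, hcont, hfrob, hinv⟩ := hmid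
  set χ₁ : CuspForm.heckeAlgebra M 2 (↑S : Set ℕ) →+* 𝒪₁ := (algebraMap 𝒪' 𝒪₁).comp χ with hχ₁
  -- the bad set and the eigenvalue function
  set T : Finset ℕ := S ∪ M.primeFactors with hT
  have hpT : lam ∈ T := Finset.mem_union_left _ hlamS
  set c : ℕ → 𝒪₁ := fun ℓ =>
    if h : ℓ.Prime ∧ ¬ ℓ ∣ M ∧ ℓ ∉ (↑S : Set ℕ) then χ₁ (CuspForm.heckeAlgebra.T h.1 h.2.1 h.2.2)
    else 0 with hc
  have hgood : ∀ ℓ : ℕ, ℓ.Prime → ℓ ∉ T → ¬ ℓ ∣ M ∧ ℓ ∉ (↑S : Set ℕ) := by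
    intro ℓ hℓ hℓT
    rw [hT, Finset.mem_union, not_or] at hℓT
    refine ⟨fun hdvd => hℓT.2 ?_, fun hS => hℓT.1 (Finset.mem_coe.mp hS)⟩
    exact Nat.mem_primeFactors.mpr ⟨hℓ, hdvd, NeZero.ne M⟩
  have hnotT : ∀ ℓ : ℕ, ℓ.Prime → ¬ ℓ ∣ M → ℓ ∉ (↑S : Set ℕ) → ℓ ∉ T := by
    intro ℓ hℓ hℓN hℓS hℓT
    rw [hT, Finset.mem_union] at hℓT
    rcases hℓT with h | h
    · exact hℓS (Finset.mem_coe.mpr h)
    · exact hℓN (Nat.mem_primeFactors.mp h).2.1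
  have hcval : ∀ (ℓ : ℕ) (hℓ : ℓ.Prime) (hℓN : ¬ ℓ ∣ M) (hℓS : ℓ ∉ (↑S : Set ℕ)),
      c ℓ = χ₁ (CuspForm.heckeAlgebra.T hℓ hℓN hℓS) := by
    intro ℓ hℓ hℓN hℓS
    rw [hc]
    exact dif_pos ⟨hℓ, hℓN, hℓS⟩
  have hquadF : ∀ ℓ : ℕ, ℓ.Prime → ℓ ∉ T → ∀ A : ValuationSubring Qbar,
      A.LiesOverPrime ℓ → ∀ σ : GQ, A.IsFrobeniusAt σ ℓ →
          ρ σ * ρ σ = c ℓ • ρ σ - (ℓ : 𝒪₁) • (1 : Module.End 𝒪₁ V) := by
    intro ℓ hℓ hℓT A hA σ hσ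
    obtain ⟨hℓN, hℓS⟩ := hgood ℓ hℓ hℓT
    rw [hcval ℓ hℓ hℓN hℓS]
    exact hfrob ℓ hℓ hℓN hℓS A hA σ hσ
  obtain ⟨t, hquad, htF⟩ :=
    H10.exists_trace_of_frobenius_quad lam hlam𝒪₁ ρ hcont T hpT c hquadF
  set 𝔪 := IsLocalRing.maximalIdeal 𝒪₁ with h𝔪
  set d := H68.cycloAdic lam 𝔪 hlam𝒪₁ with hd
  obtain ⟨σ, hσ, hσc⟩ := exists_matrixRep_of_module (two_ne_zero : (2 : 𝒪₁) ≠ 0) ρ t d hquad
    complexConjugation complexConjugation_mul_self (H68.cycloAdic_complexConjugation lam 𝔪 hlam𝒪₁)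
  obtain ⟨ϖ, hϖ⟩ := IsDiscreteValuationRing.exists_irreducible 𝒪₁
  have h𝔪ϖ : ∀ n : ℕ, 𝔪 ^ n = Ideal.span {ϖ ^ n} := by
    intro n
    rw [h𝔪, hϖ.maximalIdeal_eq, Ideal.span_singleton_pow]
  -- continuity
  have hcontσ : GaloisActionIsAdicContinuous 𝒪₁ (linOfMatrix σ) := by
    intro n
    obtain ⟨L₁, hL₁f, hL₁⟩ := hcont n
    obtain ⟨L₂, hL₂f, hL₂⟩ := H68.cycloAdic_continuity lam 𝔪 hlam𝒪₁ n
    refine ⟨L₁ ⊔ L₂, IntermediateField.finiteDimensional_sup L₁ L₂, fun τ hτ v => ?_⟩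
    have hτ₁ : ∀ x ∈ L₁, τ x = x := fun x hx => hτ x ((le_sup_left : L₁ ≤ L₁ ⊔ L₂) hx)
    have hτ₂ : ∀ x ∈ L₂, τ x = x := fun x hx => hτ x ((le_sup_right : L₂ ≤ L₁ ⊔ L₂) hx)
    have h1 : ∀ v, ρ τ v - v ∈ Ideal.span {ϖ ^ n} • (⊤ : Submodule 𝒪₁ V) := by
      intro v
      rw [← h𝔪ϖ n]
      exact hL₁ τ hτ₁ v
    have h2 : ϖ ^ n ∣ ((d τ : 𝒪₁ˣ) : 𝒪₁) - 1 := by
      rw [← Ideal.mem_span_singleton, ← h𝔪ϖ n]
      exact H68.span_natCast_pow_le lam 𝔪 hlam𝒪₁ n (hL₂ τ hτ₂)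
    have h3 := hσc (ϖ ^ n) τ h1 h2
    rw [h𝔪ϖ n]
    apply mem_smul_top_of_forall_mem
    intro i
    have h4 : (linOfMatrix σ τ v - v) i = ∑ j, (σ τ - 1) i j * v j := by
      rw [linOfMatrix_apply, Pi.sub_apply, Matrix.toLin'_apply, Matrix.mulVec, dotProduct]
      have : v i = ∑ j, (1 : Matrix (Fin 2) (Fin 2) 𝒪₁) i j * v j := by
        simp [Matrix.one_apply]
      rw [this, ← Finset.sum_sub_distrib]
      refine Finset.sum_congr rfl fun j _ => ?_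
      rw [Matrix.sub_apply, sub_mul]
    rw [h4]
    exact Ideal.sum_mem _ fun j _ =>
      Ideal.mul_mem_right _ _ (Ideal.mem_span_singleton.mpr (h3 i j))
  refine ⟨𝒪₁, inferInstance, inferInstance, inferInstance, inferInstance, inferInstance,
    inferInstance, inferInstance, inferInstance, inferInstance, hinj, ?_⟩
  refine ⟨{ V := Fin 2 → 𝒪₁
            finrank_eq := by rw [Module.finrank_fin_fun]
            ρ := linOfMatrix σ
            isAdicContinuous := hcontσ }, ?_, ?_⟩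
  · intro ℓ hℓ hℓN hℓS A hA τ hτ
    have hℓp : ℓ ≠ lam := by
      rintro rfl
      exact hℓS (Finset.mem_coe.mpr hlamS)
    show LinearMap.charpoly (linOfMatrix σ τ) = _
    rw [linOfMatrix_apply, Matrix.charpoly_toLin', Matrix.charpoly_fin_two, (hσ τ).1, (hσ τ).2,
      htF ℓ hℓ (hnotT ℓ hℓ hℓN hℓS) A hA τ hτ, hcval ℓ hℓ hℓN hℓS, hd,
      H68.cycloAdic_frobenius lam 𝔪 hlam𝒪₁ hℓ hℓp hA hτ]
    rfl
  · intro q hq hqlam hq2 hU
    obtain ⟨A, hA, hAinv⟩ := hinv q hq hqlam hq2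
    -- on inertia at `A`: `(ρ τ - 1)² = 0`
    have hnil : ∀ τ ∈ A.inertiaSubgroupIn ℚ, (ρ τ - 1) * (ρ τ - 1) = 0 := by
      intro τ hτ
      have hcp : LinearMap.charpoly (linOfMatrix σ τ) =
          X ^ 2 - C (t τ) * X + C ((d τ : 𝒪₁ˣ) : 𝒪₁) := by
        rw [linOfMatrix_apply, Matrix.charpoly_toLin', Matrix.charpoly_fin_two, (hσ τ).1,
          (hσ τ).2]
      have hU' : LinearMap.charpoly (linOfMatrix σ τ) = (X - 1) ^ 2 := hU A hA τ hτ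
      rw [hcp] at hU'
      obtain ⟨ht2, hd1⟩ := eq_two_and_eq_one_of_charpoly _ _ hU'
      have hq' := hquad τ
      rw [ht2, hd1] at hq'
      have : (ρ τ - 1) * (ρ τ - 1) = ρ τ * ρ τ - (2 : 𝒪₁) • ρ τ + (1 : 𝒪₁) • (1 : Module.End 𝒪₁ V) := by
        rw [two_smul, one_smul]; noncomm_ring
      rw [this, hq']
      abel
    -- Kolchin
    have hu2 : IsUnit (2 : 𝒪₁) := isUnit_two_of_mem lam hlam.out hlam2 hlam𝒪₁
    letI : Invertible (2 : 𝒪₁) := hu2.invertible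
    set I : Subgroup GQ := A.inertiaSubgroupIn ℚ with hI
    set ρI : I →* Module.End 𝒪₁ V := ρ.comp I.subtype with hρI
    have hnilI : ∀ g : I, (ρI g - 1) * (ρI g - 1) = 0 := fun g => hnil g.1 g.2
    have hkill : ∀ z : V, (∀ k : I, ρI k z = z) → (1 : 𝒪₁) • z = 0 := by
      intro z hz
      rw [one_smul]
      exact hAinv z (fun τ hτ => hz ⟨τ, hτ⟩)
    obtain ⟨v, hv⟩ := exists_ne (0 : V)
    have := Fermat.Agent.S36.H16.pow_three_smul_eq_zero hnilI (1 : 𝒪₁) hkill v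
    rw [one_pow, one_smul] at this
    exact hv this

end Fermat.Agent.S36.H57
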