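/-
S36, row (T2) (helper57), part B: INVARIANTS transfer from `J` to the eigenspace of `𝒪₁ ⊗ T_p J`.

* `finite_free_zp` : a complete DVR `𝒪₁` of characteristic zero with finite residue field and
  residue characteristic `p` is a finite free `ℤ_[p]`-module (structure map `H83.zpTo`);
* `tate_invariant_eq_zero` : if the `p`-power torsion points of `J` fixed by a set `I` of
  endomorphisms are killed by a fixed `c ≠ 0`, then `T_p J` has no nonzero `I`-invariant;
* `tateRep_invariant_eq_zero` : the same for `O ⊗[ℤ_p] T_p J`, `O` free over `ℤ_p`;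
* `eigenRep_invariant_eq_zero` : the same for the eigenspace representation `eigenRep`.
-/
import Mathlib
import Fermat.Agent.S30.H57_TateRep
import Fermat.Agent.S30.H12_TopNakayama
import Fermat.Agent.S30.H83_ZpAlgebra

set_option autoImplicit false
set_option linter.style.haveILetI false

namespace Fermat.Agent.S36.H57

open scoped TensorProduct
open Fermat.Agent.S30 Fermat.Agent.S30.H57

noncomputable section

section FiniteFree

variable (p : ℕ) [hp : Fact p.Prime]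
  (𝒪₁ : Type*) [CommRing 𝒪₁] [IsDomain 𝒪₁] [IsDiscreteValuationRing 𝒪₁]
  [IsAdicComplete (IsLocalRing.maximalIdeal 𝒪₁) 𝒪₁] [Finite (IsLocalRing.ResidueField 𝒪₁)]
  [CharZero 𝒪₁]

/-- A complete DVR of characteristic zero with finite residue field of characteristic `p` is
finite free over `ℤ_[p]`. -/
theorem finite_free_zp (hp𝒪₁ : (p : 𝒪₁) ∈ IsLocalRing.maximalIdeal 𝒪₁) :
    letI : Algebra ℤ_[p] 𝒪₁ := (H83.zpTo p 𝒪₁ hp𝒪₁).toAlgebra
    Module.Finite ℤ_[p] 𝒪₁ ∧ Module.Free ℤ_[p] 𝒪₁ := by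
  letI : Algebra ℤ_[p] 𝒪₁ := (H83.zpTo p 𝒪₁ hp𝒪₁).toAlgebra
  have hpO : (p : 𝒪₁) ≠ 0 := Nat.cast_ne_zero.mpr hp.out.ne_zero
  have hsmul : ∀ (a : ℤ_[p]) (m : 𝒪₁), a • m = H83.zpTo p 𝒪₁ hp𝒪₁ a * m := fun a m => rfl
  have hpsmul : ∀ m : 𝒪₁, (p : ℤ_[p]) • m = (p : 𝒪₁) * m := by
    intro m
    rw [hsmul, H83.zpTo_natCast]
  have hpowsmul : ∀ (n : ℕ) (m : 𝒪₁), ((p : ℤ_[p]) ^ n) • m = (p : 𝒪₁) ^ n * m := by
    intro n m
    rw [hsmul, map_pow, H83.zpTo_natCast]
  -- `(p) = 𝔪 ^ e`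
  obtain ⟨ϖ, hϖ⟩ := IsDiscreteValuationRing.exists_irreducible 𝒪₁
  have hne : Ideal.span {(p : 𝒪₁)} ≠ ⊥ := by
    rw [Ne, Ideal.span_singleton_eq_bot]
    exact hpO
  obtain ⟨e, he⟩ := IsDiscreteValuationRing.ideal_eq_span_pow_irreducible hne hϖ
  have hle : (IsLocalRing.maximalIdeal 𝒪₁) ^ e ≤ Ideal.span {(p : 𝒪₁)} := by
    rw [he, hϖ.maximalIdeal_eq, Ideal.span_singleton_pow]
  haveI : Finite (𝒪₁ ⧸ Ideal.span {(p : 𝒪₁)}) := IsLocalRing.finite_quotient_iff.mpr ⟨e, hle⟩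
  refine H12.finite_free_padicInt p (M := 𝒪₁)
    ((Ideal.Quotient.mk (Ideal.span {(p : 𝒪₁)})).toAddMonoidHom) (Set.toFinite _) ?_ ?_ ?_
  · intro m hm
    have h1 : m ∈ Ideal.span {(p : 𝒪₁)} := Ideal.Quotient.eq_zero_iff_mem.mp hm
    obtain ⟨m', rfl⟩ := Ideal.mem_span_singleton.mp h1
    exact ⟨m', (hpsmul m').symm⟩
  · intro m hm
    rw [hpsmul] at hm
    rcases mul_eq_zero.mp hm with h | h
    · exact absurd h hpO
    · exact h
  · intro m hm
    have hH : IsHausdorff (IsLocalRing.maximalIdeal 𝒪₁) 𝒪₁ := inferInstance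
    apply hH.haus'
    intro n
    rw [SModEq.zero, smul_eq_mul, Ideal.mul_top]
    obtain ⟨m', rfl⟩ := hm n
    rw [hpowsmul]
    exact Ideal.mul_mem_right _ _ (Ideal.pow_mem_pow hp𝒪₁ n)

end FiniteFree

section Invariants

variable {p : ℕ} [hp : Fact p.Prime] {J : Type*} [AddCommGroup J]

/-- If the `p`-power torsion points of `J` fixed by all `f ∈ I` are killed by `c ≠ 0`, then the
Tate module has no nonzero `I`-invariant. -/
theorem tate_invariant_eq_zero {I : Set (AddMonoid.End J)} (c : ℕ) (hc : c ≠ 0)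
    (h : ∀ y : J, (∃ n : ℕ, p ^ n • y = 0) → (∀ f ∈ I, f y = y) → c • y = 0)
    (x : Tate p J) (hx : ∀ f ∈ I, Tate.map f x = x) : x = 0 := by
  have h1 : c • x = 0 := by
    ext k
    rw [Tate.nsmul_comp, Tate.zero_comp]
    refine h (x.comp k) ⟨k, Tate.pow_smul_comp x k⟩ (fun f hf => ?_)
    have h3 := Tate.map_comp (p := p) f x k
    rw [hx f hf] at h3
    exact h3.symm
  have h2 : (c : ℤ_[p]) • x = 0 := by
    rw [Nat.cast_smul_eq_nsmul]
    exact h1
  have hc' : (c : ℤ_[p]) ≠ 0 := Nat.cast_ne_zero.mpr hc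
  rcases smul_eq_zero.mp h2 with h3 | h3
  · exact absurd h3 hc'
  · exact h3

variable {O : Type*} [CommRing O] [Algebra ℤ_[p] O]

/-- coordinates commute with the action -/
theorem equivFinsupp_tateRep {ι : Type*} [DecidableEq ι] (ℬ : Module.Basis ι ℤ_[p] O)
    (f : AddMonoid.End J) (m : O ⊗[ℤ_[p]] Tate p J) (i : ι) :
    TensorProduct.equivFinsuppOfBasisLeft ℬ (tateRep p J O f m) i =
      Tate.map f (TensorProduct.equivFinsuppOfBasisLeft ℬ m i) := by
  induction m using TensorProduct.induction_on with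
  | zero => simp
  | tmul a x =>
    rw [tateRep_tmul, TensorProduct.equivFinsuppOfBasisLeft_apply_tmul_apply,
      TensorProduct.equivFinsuppOfBasisLeft_apply_tmul_apply, map_smul]
  | add m₁ m₂ h₁ h₂ =>
    rw [map_add, map_add, Finsupp.add_apply, h₁, h₂, map_add, Finsupp.add_apply, map_add]

/-- If `T_p J` has no nonzero `I`-invariant, neither has `O ⊗ T_p J` (`O` free over `ℤ_p`). -/
theorem tateRep_invariant_eq_zero [Module.Free ℤ_[p] O] {I : Set (AddMonoid.End J)}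
    (h : ∀ x : Tate p J, (∀ f ∈ I, Tate.map f x = x) → x = 0)
    (m : O ⊗[ℤ_[p]] Tate p J) (hm : ∀ f ∈ I, tateRep p J O f m = m) : m = 0 := by
  classical
  set ℬ := Module.Free.chooseBasis ℤ_[p] O with hℬ
  apply (TensorProduct.equivFinsuppOfBasisLeft (N := Tate p J) ℬ).injective
  rw [map_zero]
  refine Finsupp.ext fun i => ?_
  rw [Finsupp.zero_apply]
  refine h _ (fun f hf => ?_)
  rw [← equivFinsupp_tateRep ℬ f m i, hm f hf]

variable {ι : Type*} {τ : ι → AddMonoid.End J} {c : ι → O}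
  {G : Type*} [Group G] (ρJ : G →* AddMonoid.End J) (hcomm : ∀ g i, Commute (ρJ g) (τ i))

/-- **Invariants transfer.**  If the `p`-power torsion points of `J` fixed by `I ⊆ G` are killed
by a fixed `n ≠ 0`, then the eigenspace representation has no nonzero `I`-invariant vector. -/
theorem eigenRep_invariant_eq_zero [Module.Free ℤ_[p] O] (I : Set G) (n : ℕ) (hn : n ≠ 0)
    (h : ∀ y : J, (∃ k : ℕ, p ^ k • y = 0) → (∀ g ∈ I, ρJ g y = y) → n • y = 0)
    (v : eigen p J O τ c)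
    (hv : ∀ g ∈ I, eigenRep (p := p) (O := O) (c := c) ρJ hcomm g v = v) : v = 0 := by
  apply Subtype.ext
  rw [ZeroMemClass.coe_zero]
  refine tateRep_invariant_eq_zero (I := ρJ '' I)
    (fun x hx => tate_invariant_eq_zero (I := ρJ '' I) n hn ?_ x hx) _ ?_
  · intro y hy hfix
    exact h y hy (fun g hg => hfix _ ⟨g, hg, rfl⟩)
  · rintro f ⟨g, hg, rfl⟩
    have := congrArg Subtype.val (hv g hg)
    rw [coe_eigenRep_apply] at this
    exact this

end Invariants

end

end Fermat.Agent.S36.H57
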