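import Mathlib
import Fermat.Agent.S41.H65_DegHecke
import Fermat.Agent.S29.H65_RepSystem

/-!
# S36 / row N36 (helper90): `T_ℓ` commutes with the transfer of ANY system of representatives

`N, q ≥ 1` ARBITRARY (in particular `q ∣ N` is allowed: this is the case needed for S36, levels
`(M₀ q, M₀ q²)`), `r : Q → Γ₀(N)` any system of representatives of `Γ₀(N q) \ Γ₀(N)`,
`ℓ ∤ N q` prime.  Then

  `T_ℓ ∘ Ver = Ver ∘ T_ℓ`,   `Ver = (H65.repDatum h).op : Hom(Γ₀(N q), A) → Hom(Γ₀(N), A)`.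

Generalises `S41.H65.heckeTHom_cor` (which is for `q` prime, `q ∤ N` and the explicit `corRep`).
-/

set_option autoImplicit false

open CongruenceSubgroup Matrix.SpecialLinearGroup ModularForm
open scoped MatrixGroups
open P2MW.S_ModularForm_heckeT_slash_eq_self_of_mem_Gamma0.ModularForm.HeckeSlashInvariance

namespace Fermat.Agent.S36.H90

open Fermat.Agent.S41.H85 Fermat.Agent.S41.H72 Fermat.Agent.S41.H65
open Fermat.Agent.S29

variable {N q ℓ : ℕ} {A : Type*} [AddCommGroup A]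

/-- Arithmetic lemma: if `h_x b = γ h_x'` with `m ∣ γ₁₀` and `m` prime to `ℓ`, then `m ∣ b₁₀`. -/
theorem dvd_of_heckeRep_mul_eq_of_coprime (hℓ : ℓ.Prime) {m : ℤ} (hm : IsCoprime m (ℓ : ℤ))
    (x x' : OnePoint (ZMod ℓ)) (b γ : SL(2, ℤ))
    (h : heckeRep ℓ x * mapGL ℝ b = mapGL ℝ γ * heckeRep ℓ x') (hγ : m ∣ γ 1 0) :
    m ∣ b 1 0 := by
  have hℓ0 : ℓ ≠ 0 := hℓ.ne_zero
  have h10 := real_entry_eq h 1 0
  induction x using OnePoint.rec with
  | infty =>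
    induction x' using OnePoint.rec with
    | infty =>
      simp [heckeRep_infty, Matrix.mul_apply, Fin.sum_univ_two, hℓ0] at h10
      have h' : b 1 0 = γ 1 0 * ℓ := by exact_mod_cast h10
      rw [h']
      exact Dvd.dvd.mul_right hγ _
    | coe z' =>
      simp [heckeRep_infty, heckeRep_coe, Matrix.mul_apply, Fin.sum_univ_two, hℓ0] at h10
      have h' : b 1 0 = γ 1 0 := by exact_mod_cast h10
      rw [h']
      exact hγ
  | coe z =>
    induction x' using OnePoint.rec with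
    | infty =>
      simp [heckeRep_infty, heckeRep_coe, Matrix.mul_apply, Fin.sum_univ_two, hℓ0] at h10
      have h' : (ℓ : ℤ) * b 1 0 = γ 1 0 * ℓ := by exact_mod_cast h10
      have hd : m ∣ (ℓ : ℤ) * b 1 0 := by
        rw [h']
        exact Dvd.dvd.mul_right hγ _
      exact hm.dvd_of_dvd_mul_left hd
    | coe z' =>
      simp [heckeRep_coe, Matrix.mul_apply, Fin.sum_univ_two, hℓ0] at h10
      have h' : (ℓ : ℤ) * b 1 0 = γ 1 0 := by exact_mod_cast h10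
      have hd : m ∣ (ℓ : ℤ) * b 1 0 := by
        rw [h']
        exact hγ
      exact hm.dvd_of_dvd_mul_left hd

theorem isCoprime_of_not_dvd (hℓ : ℓ.Prime) (hℓM : ¬ ℓ ∣ N * q) :
    IsCoprime (((N * q : ℕ) : ℤ)) (ℓ : ℤ) := by
  rw [Nat.isCoprime_iff_coprime]
  exact ((Nat.Prime.coprime_iff_not_dvd hℓ).mpr hℓM).symm

variable {Q : Type*} {r : Q → Gamma0 N}

/-- The family `h_x r_i` is reduced with respect to `Γ₀(N q)`, for any system of representatives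
`r` of `Γ₀(N q) \ Γ₀(N)`. -/
theorem isReduced_hecke_comp_rep (h : H65.IsRepSystem (gl (N * q)) (gl N) r)
    (hℓ : ℓ.Prime) (hℓM : ¬ ℓ ∣ N * q) :
    haveI : Fact ℓ.Prime := ⟨hℓ⟩
    IsReduced (gl (N * q)) ((heckeTDatum (N * q) ℓ hℓM).comp (H65.repDatum h)).α := by
  have : Fact ℓ.Prime := ⟨hℓ⟩
  have hℓN := not_dvd_left_of_not_dvd_mul hℓM
  refine ⟨gl_injective _, ?_⟩
  rintro ⟨x₁, i₁⟩ ⟨x₂, i₂⟩ g hg
  have hg' : gl (N * q) g * (heckeRep ℓ x₁ * gl N (r i₁))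
      = heckeRep ℓ x₂ * gl N (r i₂) := hg
  set b : Gamma0 N := r i₁ * (r i₂)⁻¹ with hb
  -- `h_{x₁} b = γ h_{x'}` at level `N`
  obtain ⟨x', γ, hγ⟩ := stable_heckeRep N ℓ hℓN b x₁
  have h1 : gl N (inclHom N q g * γ) * heckeRep ℓ x' = heckeRep ℓ x₂ := by
    have : heckeRep ℓ x₂ = gl (N * q) g * (heckeRep ℓ x₁ * gl N b) := by
      rw [hb, map_mul, map_inv, ← mul_assoc (heckeRep ℓ x₁), ← mul_assoc (gl (N * q) g), hg',
        mul_inv_cancel_right]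
    rw [this, hγ, map_mul, gl_inclHom, mul_assoc]
  obtain ⟨hx', hgγ⟩ := (isReduced_heckeRep N ℓ).unique (i := x') (j := x₂)
    (g := inclHom N q g * γ) (g' := 1) (by rw [map_one, one_mul]; exact h1)
  -- hence `γ = g⁻¹ ∈ Γ₀(N q)`
  have hγmem : (γ : SL(2, ℤ)) ∈ Gamma0 (N * q) := by
    have h2 : γ = (inclHom N q g)⁻¹ := eq_inv_of_mul_eq_one_right hgγ
    rw [h2]
    exact inv_mem g.2
  have hNqb : (((N * q : ℕ) : ℤ)) ∣ (b : SL(2, ℤ)) 1 0 :=
    dvd_of_heckeRep_mul_eq_of_coprime hℓ (isCoprime_of_not_dvd hℓ hℓM) x₁ x' (b : SL(2, ℤ))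
      (γ : SL(2, ℤ)) hγ (Fermat.Agent.S41.H72.mem_Gamma0_iff_dvd.mp hγmem)
  have hbmem : (b : SL(2, ℤ)) ∈ Gamma0 (N * q) := Fermat.Agent.S41.H72.mem_Gamma0_iff_dvd.mpr hNqb
  have hi : i₂ = i₁ := by
    refine h.distinct i₂ i₁ ⟨(b : SL(2, ℤ)), hbmem⟩ ?_
    show gl N b * gl N (r i₂) = gl N (r i₁)
    rw [← map_mul, hb, inv_mul_cancel_right]
  subst hi
  have hx : x₁ = x₂ := by
    refine (isReduced_heckeRep (N * q) ℓ).distinct x₁ x₂ g ?_
    apply mul_right_cancel (b := gl N (r i₂))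
    rw [mul_assoc]
    exact hg'
  rw [hx]

variable [Fintype Q]

/-- **`T_ℓ ∘ Ver = Ver ∘ T_ℓ`** for the transfer `Ver = (repDatum h).op` of any system of
representatives of `Γ₀(N q) \ Γ₀(N)` (`N`, `q` arbitrary), `ℓ ∤ N q`. -/
theorem heckeTHom_repDatum_op (h : H65.IsRepSystem (gl (N * q)) (gl N) r)
    (hℓ : ℓ.Prime) (hℓM : ¬ ℓ ∣ N * q) (ψ : Additive (Gamma0 (N * q)) →+ A) :
    heckeTHom A hℓ (not_dvd_left_of_not_dvd_mul hℓM) ((H65.repDatum h).op ψ)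
      = (H65.repDatum h).op (heckeTHom A hℓ hℓM ψ) := by
  have : Fact ℓ.Prime := ⟨hℓ⟩
  have hℓN := not_dvd_left_of_not_dvd_mul hℓM
  have h1 : heckeTHom A hℓ hℓN ((H65.repDatum h).op ψ)
      = ((H65.repDatum h).comp (heckeTDatum N ℓ hℓN)).op ψ :=
    (CosetDatum.comp_op_apply (H65.repDatum h) (heckeTDatum N ℓ hℓN) ψ).symm
  have h2 : (H65.repDatum h).op (heckeTHom A hℓ hℓM ψ)
      = ((heckeTDatum (N * q) ℓ hℓM).comp (H65.repDatum h)).op ψ :=
    (CosetDatum.comp_op_apply (heckeTDatum (N * q) ℓ hℓM) (H65.repDatum h) ψ).symm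
  rw [h1, h2]
  symm
  refine congrFun (congrArg DFunLike.coe (op_eq_of_forall_exists (A := A)
    ((heckeTDatum (N * q) ℓ hℓM).comp (H65.repDatum h))
    ((H65.repDatum h).comp (heckeTDatum N ℓ hℓN))
    (isReduced_hecke_comp_rep h hℓ hℓM)
    (isReduced_comp_of_range _ _ (H65.repDatum_isReduced h)
      (heckeTDatum_isReduced N ℓ hℓN) (inclHom N q) (fun _ => rfl) r (fun _ => rfl))
    (by rw [Fintype.card_prod, Fintype.card_prod, mul_comm]) ?_)) ψ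
  rintro ⟨x, i⟩
  obtain ⟨x', γ, hγ⟩ := stable_heckeRep N ℓ hℓN (r i) x
  obtain ⟨y, g, hg⟩ := h.cover γ
  refine ⟨(y, x'), g⁻¹, ?_⟩
  show gl N (r y) * heckeRep ℓ x' = gl (N * q) g⁻¹ * (heckeRep ℓ x * gl N (r i))
  rw [hγ, hg, map_inv]
  simp only [mul_assoc, inv_mul_cancel_left]

end Fermat.Agent.S36.H90
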