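import Mathlib
import Fermat.Agent.S36.H90_HeckeTransfer
import Fermat.Agent.S35.H90_VerAB

/-!
# S36 / row N36 (helper90): NORM-EQUIV for `α` at ARBITRARY levels `(M, M q)` (`q ∣ M` allowed)

`M, q ≥ 1` arbitrary.  `Cos M q = Γ₀(M) / Γ₀(M q)` (finite), `repA M q` its canonical system of
representatives (`H65.outRep`), `corA M q := (repDatum).opPar ℤ ℤ : Lat (M q) → Lat M` the transfer
and `verA' M q := w_M ∘ corA ∘ w_{Mq}`.  Then

  `lamW_M (verA' x) = α_* (lamW_{Mq} x)`                       (`lamW_verA'`)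
  `verA' ∘ T_ℓ = T_ℓ ∘ verA'`, `ℓ ∤ M q`                       (`verA'_heckeTPar`, `verA'_cohT`)

This is the S36 twin of `S35.H90.verA / lamW_verA / verA_heckeTPar` (there: `q` prime, `q ∤ M`,
S41's `corPar`).  For S36 use `M := M₀ q`.
-/

set_option autoImplicit false
set_option linter.unusedSectionVars false
set_option linter.style.haveILetI false

open UpperHalfPlane AlgebraicCurve ModularCurve CongruenceSubgroup ModularCurve.Period
open scoped MatrixGroups Manifold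

noncomputable section

namespace Fermat.Agent.S36.H90

open Fermat.Agent Fermat.Agent.S24 Fermat.Agent.S24.H81 Fermat.Agent.S29
open Fermat.Agent.S41.H85 (gl CosetDatum Lat heckeTPar)
open Fermat.Agent.S29.H85 (kummerSetupFinal chiLat)
open Fermat.Agent.S41.H65 Fermat.Agent.S41.H72
open Fermat.Agent.S35.H90 (alphaPush lam_opPar_repDatum wPar_heckeTPar wPar_injective
  cohT_of_not_dvd)

attribute [local instance] H85.merAlgebra

variable (M q : ℕ) [NeZero M] [NeZero q]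

/-- The coset space `Γ₀(M) / Γ₀(M q)`. -/
abbrev Cos : Type := Gamma0 M ⧸ (Gamma0 (M * q)).subgroupOf (Gamma0 M)

instance : Finite (Cos M q) := by
  unfold Cos
  infer_instance

instance : Fintype (Cos M q) := Fintype.ofFinite _

/-- The canonical system of representatives of `Γ₀(M q) \ Γ₀(M)`. -/
def repA : Cos M q → Gamma0 M := H65.outRep (Gamma0 (M * q)) (Gamma0 M)

theorem isRepSystem_repA : H65.IsRepSystem (gl (M * q)) (gl M) (repA M q) :=
  S29.H90.isRepSystem_outRep_Gamma0 M q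

/-- The transfer `Lat (M q) → Lat M`. -/
def corA : Lat (M * q) →ₗ[ℤ] Lat M := (H65.repDatum (isRepSystem_repA M q)).opPar ℤ ℤ

/-- The transfer does not depend on the system of representatives. -/
theorem corA_eq_opPar {Q : Type*} [Fintype Q] {r : Q → Gamma0 M}
    (h : H65.IsRepSystem (gl (M * q)) (gl M) r) (x : Lat (M * q)) :
    corA M q x = (H65.repDatum h).opPar ℤ ℤ x := by
  apply Subtype.ext
  show (H65.repDatum (isRepSystem_repA M q)).op x.1 = (H65.repDatum h).op x.1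
  rw [H65.repDatum_op_eq (isRepSystem_repA M q) h]

/-- **NORM-EQUIV for `α`**: `lam_M (ζ_n ^ corA x) = α_* (lam_{Mq} (ζ_n ^ x))`. -/
theorem lam_corA {n : ℕ} (hn : 0 < n) (x : Lat (M * q)) :
    (kummerSetupFinal M hn).lam hn (chiLat (Gamma0 M) n (corA M q x))
      = alphaPush M q ((kummerSetupFinal (M * q) hn).lam hn (chiLat (Gamma0 (M * q)) n x)) :=
  lam_opPar_repDatum M q hn (isRepSystem_repA M q) x

/-- `Ver_A' := w_M ∘ corA ∘ w_{Mq}`, the transfer in the `lamW`-normalisation. -/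
def verA' : Lat (M * q) →+ Lat M :=
  (H65.wPar (NeZero.ne M)).comp
    ((corA M q).toAddMonoidHom.comp (H65.wPar (NeZero.ne (M * q))))

theorem verA'_apply (x : Lat (M * q)) :
    verA' M q x = H65.wPar (NeZero.ne M) (corA M q (H65.wPar (NeZero.ne (M * q)) x)) := rfl

/-- **NORM-EQUIV for `α`, `lamW`-form**: `lamW_M (Ver_A' x) = α_* (lamW_{Mq} x)`. -/
theorem lamW_verA' {n : ℕ} (hn : 0 < n) (x : Lat (M * q)) :
    H65.lamW (kummerSetupFinal M hn) hn (verA' M q x)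
      = alphaPush M q (H65.lamW (kummerSetupFinal (M * q) hn) hn x) := by
  rw [H65.lamW_apply, H65.lamW_apply, verA'_apply, H65.wPar_wPar]
  exact lam_corA M q hn _

theorem verA'_eq_zero_iff (x : Lat (M * q)) :
    verA' M q x = 0 ↔ corA M q (H65.wPar (NeZero.ne (M * q)) x) = 0 := by
  rw [verA'_apply]
  constructor
  · intro h
    exact wPar_injective (NeZero.ne M) (h.trans (map_zero _).symm)
  · intro h
    rw [h, map_zero]

/-- Kernel form: `Ver_A' x = 0 → α_* (lamW x) = 0`. -/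
theorem alphaPush_lamW_eq_zero' {n : ℕ} (hn : 0 < n) (x : Lat (M * q))
    (h : verA' M q x = 0) :
    alphaPush M q (H65.lamW (kummerSetupFinal (M * q) hn) hn x) = 0 := by
  rw [← lamW_verA' M q hn x, h, map_zero]

/-- The transfer commutes with `T_ℓ`, `ℓ ∤ M q`. -/
theorem corA_heckeTPar {ℓ : ℕ} (hℓ : ℓ.Prime) (hℓM : ¬ ℓ ∣ M * q) (y : Lat (M * q)) :
    corA M q (heckeTPar ℤ ℤ hℓ hℓM y)
      = heckeTPar ℤ ℤ hℓ (not_dvd_left_of_not_dvd_mul hℓM) (corA M q y) := by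
  apply Subtype.ext
  have h := heckeTHom_repDatum_op (A := ℤ) (isRepSystem_repA M q) hℓ hℓM y.1
  rw [S41.H85.coe_heckeTPar_apply]
  show (H65.repDatum (isRepSystem_repA M q)).op
      ((heckeTPar ℤ ℤ hℓ hℓM y : Lat (M * q)) : Additive (Gamma0 (M * q)) →+ ℤ) = _
  rw [S41.H85.coe_heckeTPar_apply]
  exact h.symm

/-- **`Ver_A' ∘ T_ℓ = T_ℓ ∘ Ver_A'`**, `ℓ ∤ M q`. -/
theorem verA'_heckeTPar {ℓ : ℕ} (hℓ : ℓ.Prime) (hℓM : ¬ ℓ ∣ M * q) (x : Lat (M * q)) :
    verA' M q (heckeTPar ℤ ℤ hℓ hℓM x)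
      = heckeTPar ℤ ℤ hℓ (not_dvd_left_of_not_dvd_mul hℓM) (verA' M q x) := by
  rw [verA'_apply, verA'_apply, wPar_heckeTPar, corA_heckeTPar, wPar_heckeTPar]

/-- `Ver_A' ∘ cohT_ℓ = cohT_ℓ ∘ Ver_A'`, `ℓ ∤ M q`. -/
theorem verA'_cohT (ℓ : Nat.Primes) (hℓM : ¬ (ℓ : ℕ) ∣ M * q) (x : Lat (M * q)) :
    verA' M q (H80.cohT (M * q) ℓ x) = H80.cohT M ℓ (verA' M q x) := by
  rw [cohT_of_not_dvd ℓ hℓM, cohT_of_not_dvd ℓ (not_dvd_left_of_not_dvd_mul hℓM)]
  exact verA'_heckeTPar M q ℓ.2 hℓM x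

end Fermat.Agent.S36.H90
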