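/-
S36, row (T2) (helper57), part D: the WIRING of the abstract NEW-assembly
(`H57.midpoint36_of_new`) with the index-`q` degeneracy data at the levels `(M / q, M)`,
`q² ∥ M`, `q ≠ p`:

* `P j` = helper86's `pushAlpha (M / q) q`, `pushBeta (M / q) q` (defined for arbitrary levels),
* `V j` = a LATTICE MODEL of `P j` (`HasLatModel`): an additive map `W : Lat (N q) → Lat N`
  commuting with the `T_ℓ`, `ℓ ∤ N q`, and with `W x = 0 → P (lamQ x) = 0`.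
  For `α` this is helper90's `verA'` (`hasLatModel_pushAlpha`); for `β` it is an input
  (row (N36)-β, helper86), also accepted in the `lamW`-form (`hasLatModel_pushBeta_of_lamW`).

Output: `s36_of_new_eigenvector` (twin of `S35.H57.s35_of_new_eigenvector`).
-/
import Mathlib
import Fermat.Agent.S36.H57_S36Assembly
import Fermat.Agent.S36.H90_VerAlpha
import Fermat.Agent.S35.H57_NewWiring

set_option autoImplicit false
set_option linter.style.haveILetI false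
set_option linter.unusedSectionVars false

namespace Fermat.Agent.S36.H57

open scoped TensorProduct
open Polynomial CuspForm IsLocalRing ModularCurve ModularCurve.Period CongruenceSubgroup
open Fermat.Agent.S30 Fermat.Agent.S30.H57 Fermat.Agent.S29.H80
open Fermat.Agent.S35 Fermat.Agent.S35.H57
open Fermat.Agent.S41.H85 (heckeTPar)

local notation "Qbar" => AlgebraicClosure ℚ
local notation "GQ" => (AlgebraicClosure ℚ ≃ₐ[ℚ] AlgebraicClosure ℚ)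

noncomputable section

attribute [local instance] Fermat.Agent.S29.H85.merAlgebra

/-! ### Lattice models of a degeneracy pushforward -/

/-- A lattice-level model of a pushforward `P : J₀(N q) → J₀(N)`. -/
def HasLatModel (N q : ℕ) [NeZero N] [NeZero q] (P : JZero (N * q) →+ JZero N) : Prop :=
  ∃ W : Lat (N * q) →+ Lat N,
    (∀ (ℓ : ℕ) (hℓ : ℓ.Prime) (hℓN : ¬ ℓ ∣ N * q) (x : Lat (N * q)),
      W (heckeTPar ℤ ℤ hℓ hℓN x) = heckeTPar ℤ ℤ hℓ (fun h' => hℓN (Dvd.dvd.mul_right h' q)) (W x)) ∧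
    (∀ (n : ℕ) (hn : 0 < n) (x : Lat (N * q)), W x = 0 → P (H72.lamQ (N * q) hn x) = 0)

/-- helper90's `verA'` is a lattice model of `α_*` (arbitrary `N`, `q`). -/
theorem hasLatModel_pushAlpha (N q : ℕ) [NeZero N] [NeZero q] :
    HasLatModel N q (H86.pushAlpha N q) := by
  refine ⟨S36.H90.verA' N q, fun ℓ hℓ hℓN x => S36.H90.verA'_heckeTPar N q hℓ hℓN x,
    fun n hn x hx => ?_⟩
  have h1 : H86.pushAlpha N q (H72.lamQ (N * q) hn x) = H72.lamQ N hn (S36.H90.verA' N q x) := by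
    rw [← H72.alphaPush_qbar_eq]
    refine H72.alphaPush_lamQ_eq N q hn x _ ?_
    rw [H72.alphaPush_complex_eq]
    exact (S36.H90.lamW_verA' N q hn x).symm
  rw [h1, hx, map_zero]

/-- A lattice model of `β_*` from the `ℂ`-level norm-equivalence (`lamW`-form). -/
theorem hasLatModel_pushBeta_of_lamW (N q : ℕ) [NeZero N] [NeZero q]
    (W : Lat (N * q) →+ Lat N)
    (hW1 : ∀ (ℓ : ℕ) (hℓ : ℓ.Prime) (hℓN : ¬ ℓ ∣ N * q) (x : Lat (N * q)),
      W (heckeTPar ℤ ℤ hℓ hℓN x) = heckeTPar ℤ ℤ hℓ (fun h' => hℓN (Dvd.dvd.mul_right h' q)) (W x))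
    (hW2 : ∀ (n : ℕ) (hn : 0 < n) (x : Lat (N * q)),
      S29.H65.lamW (S29.H85.kummerSetupFinal N hn) hn (W x)
        = H90.betaPush N q (S29.H65.lamW (S29.H85.kummerSetupFinal (N * q) hn) hn x)) :
    HasLatModel N q (H86.pushBeta N q) := by
  refine ⟨W, hW1, fun n hn x hx => ?_⟩
  have h1 : H86.pushBeta N q (H72.lamQ (N * q) hn x) = H72.lamQ N hn (W x) := by
    rw [← H72.betaPush_qbar_eq]
    refine H72.betaPush_lamQ_eq N q hn x _ ?_
    rw [H72.betaPush_complex_eq]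
    exact (hW2 n hn x).symm
  rw [h1, hx, map_zero]

/-! ### One prime `q`, level `M = N * q` -/

section Level

variable {M N q : ℕ} [NeZero M] [NeZero N] [NeZero q] (h : M = N * q)

/-- a lattice map at level `M = N * q`. -/
def Vc (W : Lat (N * q) →+ Lat N) : Lat M →ₗ[ℤ] Lat N := W.toIntLinearMap.comp (castLat h)

/-- a pushforward at level `M = N * q`. -/
def Pc (P : JZero (N * q) →+ JZero N) : JZero M →+ JZero N := P.comp (castJ h)

/-- (A2) -/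
theorem Pc_smul (P : JZero (N * q) →+ JZero N) (hP : ∀ (σ : GQ) y, P (σ • y) = σ • P y)
    (σ : GQ) (y : JZero M) (hy : Pc h P y = 0) : Pc h P (σ • y) = 0 := by
  subst h
  have h1 : P y = 0 := hy
  show P (σ • y) = 0
  rw [hP, h1]
  exact map_zero (galJ N σ)

/-- `T_ℓ`-intertwining, `ℓ ∤ M`. -/
theorem Vc_heckeTPar (W : Lat (N * q) →+ Lat N)
    (hW1 : ∀ (ℓ : ℕ) (hℓ : ℓ.Prime) (hℓN : ¬ ℓ ∣ N * q) (x : Lat (N * q)),
      W (heckeTPar ℤ ℤ hℓ hℓN x) = heckeTPar ℤ ℤ hℓ (fun h' => hℓN (Dvd.dvd.mul_right h' q)) (W x))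
    {ℓ : ℕ} (hℓ : ℓ.Prime) (hℓM : ¬ ℓ ∣ M) (hℓN : ¬ ℓ ∣ N) :
    Vc h W ∘ₗ heckeTPar ℤ ℤ hℓ hℓM = heckeTPar ℤ ℤ hℓ hℓN ∘ₗ Vc h W := by
  subst h
  refine LinearMap.ext fun y => ?_
  exact hW1 ℓ hℓ hℓM y

/-- (A3) -/
theorem Vc_cohT (W : Lat (N * q) →+ Lat N)
    (hW1 : ∀ (ℓ : ℕ) (hℓ : ℓ.Prime) (hℓN : ¬ ℓ ∣ N * q) (x : Lat (N * q)),
      W (heckeTPar ℤ ℤ hℓ hℓN x) = heckeTPar ℤ ℤ hℓ (fun h' => hℓN (Dvd.dvd.mul_right h' q)) (W x))
    (ℓ : Nat.Primes) (hℓ : ¬ (ℓ : ℕ) ∣ M) (x : Lat M) (hx : Vc h W x = 0) :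
    Vc h W (cohT M ℓ x) = 0 := by
  subst h
  have h1 : W x = 0 := hx
  show W (cohT (N * q) ℓ x) = 0
  rw [H90.cohT_of_not_dvd ℓ hℓ, hW1 ℓ.1 ℓ.2 hℓ x, h1, map_zero]

/-- (A4) -/
theorem Pc_lamQ (P : JZero (N * q) →+ JZero N) (W : Lat (N * q) →+ Lat N)
    (hW2 : ∀ (n : ℕ) (hn : 0 < n) (x : Lat (N * q)), W x = 0 → P (H72.lamQ (N * q) hn x) = 0)
    {n : ℕ} (hn : 0 < n) (x : Lat M) (hx : Vc h W x = 0) :
    Pc h P (H72.lamQ M hn x) = 0 := by
  subst h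
  exact hW2 n hn x hx

/-- (A6): (IF-GEO36) at level `N * q` gives it at level `M`. -/
theorem geo36_cast {p : ℕ}
    (hGEO : ∃ A : ValuationSubring Qbar, A.LiesOverPrime q ∧ ∃ c : ℕ, c ≠ 0 ∧
      ∀ y : JZero (N * q), (∃ k : ℕ, p ^ k • y = 0) → H86.pushAlpha N q y = 0 →
        H86.pushBeta N q y = 0 → (∀ σ ∈ A.inertiaSubgroupIn ℚ, σ • y = y) → c • y = 0) :
    ∃ A : ValuationSubring Qbar, A.LiesOverPrime q ∧ ∃ c : ℕ, c ≠ 0 ∧
      ∀ y : JZero M, (∃ k : ℕ, p ^ k • y = 0) → Pc h (H86.pushAlpha N q) y = 0 →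
        Pc h (H86.pushBeta N q) y = 0 → (∀ σ ∈ A.inertiaSubgroupIn ℚ, σ • y = y) → c • y = 0 := by
  subst h
  exact hGEO

end Level

/-! ### All primes `q² ∥ M`, `q ≠ p` at once -/

section Global

variable (M p : ℕ) [NeZero M]

/-- The primes `q ≠ p` with `q² ∥ M`. -/
def BadPrime2 : Type := {q : ℕ // q.Prime ∧ q ≠ p ∧ M.factorization q = 2}

variable {M p}

theorem BadPrime2.dvd (q : BadPrime2 M p) : q.1 ∣ M :=
  Nat.dvd_of_factorization_pos (by rw [q.2.2.2]; norm_num)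

instance badPrime2_finite : Finite (BadPrime2 M p) := by
  have hfin : Finite {q : ℕ // q ∈ Nat.divisors M} := inferInstance
  exact Finite.of_injective
    (fun q : BadPrime2 M p =>
      (⟨q.1, Nat.mem_divisors.mpr ⟨q.dvd, NeZero.ne M⟩⟩ : {q : ℕ // q ∈ Nat.divisors M}))
    (fun a b hab => Subtype.ext (congrArg (fun x => x.1) hab))

theorem BadPrime2.level_eq (q : BadPrime2 M p) : M = M / q.1 * q.1 :=
  (Nat.div_mul_cancel q.dvd).symm

instance BadPrime2.neZero (q : BadPrime2 M p) : NeZero (M / q.1) :=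
  ⟨(Nat.div_pos (Nat.le_of_dvd (NeZero.pos M) q.dvd) q.2.1.pos).ne'⟩

instance BadPrime2.neZero' (q : BadPrime2 M p) : NeZero q.1 := ⟨q.2.1.ne_zero⟩

theorem BadPrime2.factorization_div (q : BadPrime2 M p) : (M / q.1).factorization q.1 = 1 := by
  rw [Nat.factorization_div q.dvd, Finsupp.tsub_apply, q.2.2.2, q.2.1.factorization_self]

theorem BadPrime2.dvd_div (q : BadPrime2 M p) : q.1 ∣ M / q.1 :=
  Nat.dvd_of_factorization_pos (by rw [q.factorization_div]; norm_num)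

theorem BadPrime2.not_sq_dvd_div (q : BadPrime2 M p) : ¬ q.1 ^ 2 ∣ M / q.1 := by
  intro h
  have h1 := (q.2.1.pow_dvd_iff_le_factorization (NeZero.ne (M / q.1))).mp h
  rw [q.factorization_div] at h1
  omega

theorem BadPrime2.div_dvd (q : BadPrime2 M p) : M / q.1 ∣ M := Nat.div_dvd_of_dvd q.dvd

theorem BadPrime2.div_ne (q : BadPrime2 M p) : M / q.1 ≠ M := fun h => by
  have h1 := q.level_eq
  rw [h] at h1
  have h2 : M * 1 = M * q.1 := by rw [mul_one]; exact h1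
  have h3 := Nat.eq_of_mul_eq_mul_left (NeZero.pos M) h2
  exact q.2.1.one_lt.ne h3

end Global

/-- **S36 from a new eigenvector (row N1), a lattice model of `β_*` (row (N36)-β) and (IF-GEO36)
(rows D/M/E).** -/
theorem s36_of_new_eigenvector {M : ℕ} [NeZero M] {g : CuspForm (Gamma0 M) 2} (hg : g.IsNewform)
    (p : ℕ) [hp : Fact p.Prime] (S : Finset ℕ) (hpS : p ∈ S) (hp2 : p ≠ 2)
    (O' : Type) [CommRing O'] (χ : CuspForm.heckeAlgebra M 2 (↑S : Set ℕ) →+* O')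
    (𝒪₁ : Type) [CommRing 𝒪₁] [IsDomain 𝒪₁] [IsDiscreteValuationRing 𝒪₁]
    [IsAdicComplete (IsLocalRing.maximalIdeal 𝒪₁) 𝒪₁] [Finite (IsLocalRing.ResidueField 𝒪₁)]
    [CharZero 𝒪₁] [Algebra O' 𝒪₁] [Module.Finite O' 𝒪₁] [IsLocalHom (algebraMap O' 𝒪₁)]
    (hinj : Function.Injective (algebraMap O' 𝒪₁))
    (hp𝒪₁ : (p : 𝒪₁) ∈ IsLocalRing.maximalIdeal 𝒪₁)
    -- row N1
    (χ1 : CuspForm.heckeAlgebra M 2 (∅ : Set ℕ) →+* 𝒪₁)
    (hcompat : ∀ (ℓ : ℕ) (hℓ : ℓ.Prime) (hℓM : ¬ ℓ ∣ M) (hℓS : ℓ ∉ (↑S : Set ℕ)),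
      χ1 (CuspForm.heckeAlgebra.T hℓ hℓM (Set.notMem_empty ℓ))
        = algebraMap O' 𝒪₁ (χ (CuspForm.heckeAlgebra.T hℓ hℓM hℓS)))
    (hχ1 : ∀ t, Fermat.Agent.S41.H85.eigenChar hg.1 ∅ t = 0 → χ1 t = 0)
    (u : 𝒪₁ ⊗[ℤ] Lat M) (hu : u ≠ 0)
    (hueig : ∀ (ℓ : ℕ) (hℓ : ℓ.Prime) (hℓM : ¬ ℓ ∣ M),
      (heckeTPar ℤ ℤ hℓ hℓM).baseChange 𝒪₁ u
        = χ1 (CuspForm.heckeAlgebra.T hℓ hℓM (Set.notMem_empty ℓ)) • u)
    -- Stage 2
    (hS37 : HeckeOperatorsCommuteBar M → letI := heckeModuleBar M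
      ∀ (_ : SMulCommClass GQ HeckeAlg (JZero M)),
        SpecializationExists (K := ℚ) (L := Qbar) M p (JZero M))
    -- row (N36)-β
    (hB36 : ∀ (N q : ℕ) [NeZero N] [NeZero q], q.Prime → q ∣ N → M = N * q →
      HasLatModel N q (H86.pushBeta N q))
    -- (IF-GEO36)
    (hGEO36 : ∀ (N q : ℕ) [NeZero N] [NeZero q], q.Prime → q ∣ N → ¬ q ^ 2 ∣ N → q ≠ p →
      M = N * q →
      ∃ A : ValuationSubring Qbar, A.LiesOverPrime q ∧ ∃ c : ℕ, c ≠ 0 ∧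
        ∀ y : JZero (N * q), (∃ k : ℕ, p ^ k • y = 0) → H86.pushAlpha N q y = 0 →
          H86.pushBeta N q y = 0 → (∀ σ ∈ A.inertiaSubgroupIn ℚ, σ • y = y) → c • y = 0) :
    ∃ (O'' : Type) (_ : CommRing O'') (_ : IsDomain O'') (_ : IsDiscreteValuationRing O'')
      (_ : IsAdicComplete (IsLocalRing.maximalIdeal O'') O'')
      (_ : Finite (IsLocalRing.ResidueField O''))
      (_ : CharZero O'') (_ : Algebra O' O'') (_ : Module.Finite O' O'')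
      (_ : IsLocalHom (algebraMap O' O'')),
      Function.Injective (algebraMap O' O'') ∧
      ∃ ρ : GaloisRepAdic O'',
        (∀ (ℓ : ℕ) (hℓ : ℓ.Prime) (hℓM : ¬ ℓ ∣ M) (hℓS : ℓ ∉ (↑S : Set ℕ)),
          ∀ A : ValuationSubring (AlgebraicClosure ℚ), A.LiesOverPrime ℓ →
            ∀ σ : AlgebraicClosure ℚ ≃ₐ[ℚ] AlgebraicClosure ℚ, A.IsFrobeniusAt σ ℓ →
              LinearMap.charpoly (ρ.ρ σ) =
                X ^ 2 - C (algebraMap O' O'' (χ (CuspForm.heckeAlgebra.T hℓ hℓM hℓS))) * X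
                  + C ((ℓ : O''))) ∧
        (∀ q : ℕ, q.Prime → q ≠ p → M.factorization q = 2 →
          ¬ ρ.IsUnipotentOnInertiaAt q) := by
  classical
  have hcomm : HeckeOperatorsCommuteBar M := heckeOperatorsCommuteBar M
  obtain ⟨_, hfrob⟩ :=
    Fermat.Agent.S30.H31.unr_frob_of_specializationExists p M hcomm (hS37 hcomm)
  have hfin : Set.Finite {y : JZero M | p • y = 0} := finite_torsion_JZero_nat M hp.out.pos
  letI : Fintype (BadPrime2 M p × Bool) := Fintype.ofFinite _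
  -- the lattice models
  have hmA : ∀ q : BadPrime2 M p, HasLatModel (M / q.1) q.1 (H86.pushAlpha (M / q.1) q.1) :=
    fun q => hasLatModel_pushAlpha (M / q.1) q.1
  have hmB : ∀ q : BadPrime2 M p, HasLatModel (M / q.1) q.1 (H86.pushBeta (M / q.1) q.1) :=
    fun q => hB36 (M / q.1) q.1 q.2.1 q.dvd_div q.level_eq
  set WA : ∀ q : BadPrime2 M p, Lat (M / q.1 * q.1) →+ Lat (M / q.1) :=
    fun q => Classical.choose (hmA q) with hWA
  set WB : ∀ q : BadPrime2 M p, Lat (M / q.1 * q.1) →+ Lat (M / q.1) :=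
    fun q => Classical.choose (hmB q) with hWB
  have hWA1 := fun q : BadPrime2 M p => (Classical.choose_spec (hmA q)).1
  have hWA2 := fun q : BadPrime2 M p => (Classical.choose_spec (hmA q)).2
  have hWB1 := fun q : BadPrime2 M p => (Classical.choose_spec (hmB q)).1
  have hWB2 := fun q : BadPrime2 M p => (Classical.choose_spec (hmB q)).2
  set famV : ∀ j : BadPrime2 M p × Bool, Lat M →ₗ[ℤ] Lat (M / j.1.1) :=
    fun j => bif j.2 then Vc j.1.level_eq (WB j.1) else Vc j.1.level_eq (WA j.1) with hfamV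
  set famP : ∀ j : BadPrime2 M p × Bool, JZero M →+ JZero (M / j.1.1) :=
    fun j => bif j.2 then Pc j.1.level_eq (H86.pushBeta (M / j.1.1) j.1.1)
      else Pc j.1.level_eq (H86.pushAlpha (M / j.1.1) j.1.1) with hfamP
  refine s36_of_midpoint36 p S hpS hp2 O' χ 𝒪₁ hinj hp𝒪₁ ?_
  refine midpoint36_of_new p S hpS 𝒪₁ hp𝒪₁ ((algebraMap O' 𝒪₁).comp χ) hfrob hfin
    (ι := BadPrime2 M p × Bool) famV famP ?_ ?_ ?_ u hu ?_ ?_ ?_
  · -- (A2)
    rintro ⟨q, _ | _⟩ σ y hy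
    · exact Pc_smul q.level_eq _ (fun σ y => H86.pushAlpha_smul (M / q.1) q.1 σ y) σ y hy
    · exact Pc_smul q.level_eq _ (fun σ y => H86.pushBeta_smul (M / q.1) q.1 σ y) σ y hy
  · -- (A3)
    intro ℓ x hx
    rintro ⟨q, _ | _⟩
    · exact Vc_cohT q.level_eq (WA q) (hWA1 q) ⟨ℓ.1, ℓ.2.1⟩ ℓ.2.2.1 x (hx (q, false))
    · exact Vc_cohT q.level_eq (WB q) (hWB1 q) ⟨ℓ.1, ℓ.2.1⟩ ℓ.2.2.1 x (hx (q, true))
  · -- (A4)
    intro k
    have hn : 0 < p ^ k := pow_pos hp.out.pos k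
    refine ⟨H72.lamQ M hn, fun x => H72.lamQ_nsmul M hn x, fun x hx => ?_,
      fun l x => H72.lamQ_cohT M hn l x, fun x hx => ?_⟩
    · obtain ⟨y, hy⟩ := H72.lamQ_eq_zero M hn hx
      exact ⟨y, by rw [hy, natCast_zsmul]⟩
    · rintro ⟨q, _ | _⟩
      · exact Pc_lamQ q.level_eq _ (WA q) (hWA2 q) hn x (hx (q, false))
      · exact Pc_lamQ q.level_eq _ (WB q) (hWB2 q) hn x (hx (q, true))
  · -- the eigen-equation
    intro ℓ
    rw [H90.cohT_of_not_dvd ⟨ℓ.1, ℓ.2.1⟩ ℓ.2.2.1, hueig ℓ.1 ℓ.2.1 ℓ.2.2.1,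
      hcompat ℓ.1 ℓ.2.1 ℓ.2.2.1 ℓ.2.2.2]
    rfl
  · -- newness
    rintro ⟨q, _ | _⟩
    · exact H49.baseChange_eq_zero_of_isNewform hg q.div_dvd q.div_ne χ1 hχ1 u hueig _
        (fun ℓ hℓ hℓM => Vc_heckeTPar q.level_eq (WA q) (hWA1 q) hℓ hℓM _)
    · exact H49.baseChange_eq_zero_of_isNewform hg q.div_dvd q.div_ne χ1 hχ1 u hueig _
        (fun ℓ hℓ hℓM => Vc_heckeTPar q.level_eq (WB q) (hWB1 q) hℓ hℓM _)
  · -- (INV)
    intro q hq hqp hq2
    let qq : BadPrime2 M p := ⟨q, hq, hqp, hq2⟩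
    haveI : NeZero (M / q) := BadPrime2.neZero qq
    haveI : NeZero q := ⟨hq.ne_zero⟩
    obtain ⟨A, hA, c, hc, h⟩ := geo36_cast (p := p) qq.level_eq
      (hGEO36 (M / q) q hq qq.dvd_div qq.not_sq_dvd_div hqp qq.level_eq)
    exact ⟨A, hA, c, hc, fun y hy hP hfix => h y hy (hP (qq, false)) (hP (qq, true)) hfix⟩

end

end Fermat.Agent.S36.H57
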