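/-
S36, row (N36-β) wrapper (helper10): the lattice model of `β_* : J₀(N q) → J₀(N)`, `q ∣ N`, in
helper57's `HasLatModel` vocabulary (`S36.H57_S36Wiring`), from the single remaining input (B4) =
the analytic norm formula along `β`,

  `thetaC N (Nm_β x) = ∏ j : ZMod q, (thetaC (N q) x) ∘ [[1, j],[0, q]]`.

`W := verB36 (uDatum hqN) = w_N ∘ (uDatum hqN).opPar ∘ w_{Nq}`.
-/
import Mathlib
import Fermat.Agent.S36.H10_BetaTransfer36
import Fermat.Agent.S36.H57_S36Wiring

set_option autoImplicit false
set_option linter.unusedSectionVars false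
set_option linter.style.haveILetI false

open CongruenceSubgroup ModularForm ModularCurve ModularCurve.Period
open scoped MatrixGroups

noncomputable section

namespace Fermat.Agent.S36.H10

open Fermat.Agent Fermat.Agent.S29 Fermat.Agent.S29.H25
open Fermat.Agent.S41.H85 (gl CosetDatum Lat heckeTPar)

attribute [local instance] Fermat.Agent.S29.H85.merAlgebra

/-- **(N36-β) from (B4).** -/
theorem hasLatModel_pushBeta_of_norm (N q : ℕ) [NeZero N] [NeZero q] (hq : q.Prime)
    (hqN : q ∣ N)
    (hnorm : ∀ x : H25.FC (N * q),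
      thetaC N (H65.normAlong (heckeBetaBar ℂ N q) x)
        = ∏ j : ZMod q, H65.actGL (heckeMatrixPos q (NeZero.ne q) j.val) (thetaC (N * q) x)) :
    S36.H57.HasLatModel N q (S35.H86.pushBeta N q) :=
  S36.H57.hasLatModel_pushBeta_of_lamW N q (verB36 (uDatum hqN))
    (fun _ hℓ hℓN x => verB36_heckeTPar hq (uDatum hqN) (uDatum_α hqN) hℓ hℓN x)
    (fun _ hn x => lamW_verB36 (uDatum hqN) (uDatum_α hqN) hnorm hn x)

end Fermat.Agent.S36.H10
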