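/-
S36, row (N36-H) (helper10): the transfer `Hom(Γ₀(N q), A) → Hom(Γ₀(N), A)` attached to ANY system
of representatives of `Γ₀(N q) \ Γ₀(N)` commutes with the Hecke operators `T_ℓ`, `ℓ ∤ N q`.

No primality of `q`, no coprimality of `q` and `N` (in S36: `N = M₀ q`, so `q ∣ N`).

* `dvd_of_heckeRep_mul_eq_of_coprime` : one-modulus arithmetic lemma (`m ∣ γ₁₀`, `(m, ℓ) = 1`);
* `isReduced_hecke_comp_rep`          : the family `h_x r_i` is reduced w.r.t. `Γ₀(N q)`;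
* `heckeTHom_repDatum_op`             : `T_ℓ ∘ tr = tr ∘ T_ℓ` on `Hom(-, A)`;
* `heckeTPar_opPar_repDatum`          : the same on the parabolic lattices;
* `opPar_repDatum_comp_heckeTPar`     : the composition form `V ∘ₗ T_ℓ = T_ℓ ∘ₗ V` consumed by
  `S35.H10.exists_new_eigenvector_ext` / `S35.H49.baseChange_eq_zero_of_isNewform`.
-/
import Mathlib
import Fermat.Agent.S41.H65_DegHecke
import Fermat.Agent.S41.H85_DegPar
import Fermat.Agent.S29.H65_RepSystem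

set_option autoImplicit false

open CongruenceSubgroup Matrix.SpecialLinearGroup ModularForm ModularCurve.Period
open scoped MatrixGroups
open P2MW.S_ModularForm_heckeT_slash_eq_self_of_mem_Gamma0.ModularForm.HeckeSlashInvariance

namespace Fermat.Agent.S36.H10

open Fermat.Agent.S41.H85 Fermat.Agent.S41.H72 Fermat.Agent.S41.H65
open Fermat.Agent.S29.H65 (IsRepSystem repDatum repDatum_α repDatum_isReduced)

variable {N q ℓ : ℕ} {A : Type*} [AddCommGroup A]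

/-- Arithmetic lemma, one modulus: if `h_x b = γ h_x'` with `m ∣ γ₁₀` and `m` coprime to the
prime `ℓ`, then `m ∣ b₁₀`. -/
theorem dvd_of_heckeRep_mul_eq_of_coprime (hℓ : ℓ.Prime) {m : ℤ} (hm : IsCoprime m (ℓ : ℤ))
    (x x' : OnePoint (ZMod ℓ)) (b γ : SL(2, ℤ))
    (h : heckeRep ℓ x * mapGL ℝ b = mapGL ℝ γ * heckeRep ℓ x') (hγ : m ∣ γ 1 0) :
    m ∣ b 1 0 := by
  have hℓ0 : ℓ ≠ 0 := hℓ.ne_zero
  have h10 := real_entry_eq h 1 0
  induction x using OnePoint.rec with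
  | infty =>
    induction x' using OnePoint.rec with
    | infty =>
      simp [heckeRep_infty, Matrix.mul_apply, Fin.sum_univ_two, hℓ0] at h10
      have h' : b 1 0 = γ 1 0 * ℓ := by exact_mod_cast h10
      rw [h']
      exact Dvd.dvd.mul_right hγ _
    | coe z' =>
      simp [heckeRep_infty, heckeRep_coe, Matrix.mul_apply, Fin.sum_univ_two, hℓ0] at h10
      have h' : b 1 0 = γ 1 0 := by exact_mod_cast h10
      rw [h']
      exact hγ
  | coe z =>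
    induction x' using OnePoint.rec with
    | infty =>
      simp [heckeRep_infty, heckeRep_coe, Matrix.mul_apply, Fin.sum_univ_two, hℓ0] at h10
      have h' : (ℓ : ℤ) * b 1 0 = γ 1 0 * ℓ := by exact_mod_cast h10
      have hd : m ∣ (ℓ : ℤ) * b 1 0 := by
        rw [h']
        exact Dvd.dvd.mul_right hγ _
      exact hm.dvd_of_dvd_mul_left hd
    | coe z' =>
      simp [heckeRep_coe, Matrix.mul_apply, Fin.sum_univ_two, hℓ0] at h10
      have h' : (ℓ : ℤ) * b 1 0 = γ 1 0 := by exact_mod_cast h10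
      have hd : m ∣ (ℓ : ℤ) * b 1 0 := by
        rw [h']
        exact hγ
      exact hm.dvd_of_dvd_mul_left hd

theorem isCoprime_of_not_dvd (hℓ : ℓ.Prime) {m : ℕ} (hℓm : ¬ ℓ ∣ m) :
    IsCoprime (m : ℤ) (ℓ : ℤ) := by
  rw [Nat.isCoprime_iff_coprime]
  exact ((Nat.Prime.coprime_iff_not_dvd hℓ).mpr hℓm).symm

variable {Q : Type*} {r : Q → Gamma0 N}

/-- The family `h_x r_i` is reduced with respect to `Γ₀(N q)`, for ANY system of representatives
`r` of `Γ₀(N q) \ Γ₀(N)`. -/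
theorem isReduced_hecke_comp_rep (h : IsRepSystem (gl (N * q)) (gl N) r)
    (hℓ : ℓ.Prime) (hℓM : ¬ ℓ ∣ N * q) :
    haveI : Fact ℓ.Prime := ⟨hℓ⟩
    IsReduced (gl (N * q)) ((heckeTDatum (N * q) ℓ hℓM).comp (repDatum h)).α := by
  have : Fact ℓ.Prime := ⟨hℓ⟩
  have hℓN := not_dvd_left_of_not_dvd_mul hℓM
  refine ⟨gl_injective _, ?_⟩
  rintro ⟨x₁, i₁⟩ ⟨x₂, i₂⟩ g hg
  have hg' : gl (N * q) g * (heckeRep ℓ x₁ * gl N (r i₁))
      = heckeRep ℓ x₂ * gl N (r i₂) := hg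
  set b : Gamma0 N := r i₁ * (r i₂)⁻¹ with hb
  -- `h_{x₁} b = γ h_{x'}` at level `N`
  obtain ⟨x', γ, hγ⟩ := stable_heckeRep N ℓ hℓN b x₁
  have h1 : gl N (inclHom N q g * γ) * heckeRep ℓ x' = heckeRep ℓ x₂ := by
    have : heckeRep ℓ x₂ = gl (N * q) g * (heckeRep ℓ x₁ * gl N b) := by
      rw [hb, map_mul, map_inv, ← mul_assoc (heckeRep ℓ x₁), ← mul_assoc (gl (N * q) g), hg',
        mul_inv_cancel_right]
    rw [this, hγ, map_mul, gl_inclHom, mul_assoc]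
  obtain ⟨hx', hgγ⟩ := (isReduced_heckeRep N ℓ).unique (i := x') (j := x₂)
    (g := inclHom N q g * γ) (g' := 1) (by rw [map_one, one_mul]; exact h1)
  -- hence `γ = g⁻¹ ∈ Γ₀(N q)`
  have hγmem : (γ : SL(2, ℤ)) ∈ Gamma0 (N * q) := by
    have h2 : γ = (inclHom N q g)⁻¹ := eq_inv_of_mul_eq_one_right hgγ
    rw [h2]
    exact inv_mem g.2
  have hbdvd : ((N * q : ℕ) : ℤ) ∣ (b : SL(2, ℤ)) 1 0 :=
    dvd_of_heckeRep_mul_eq_of_coprime hℓ (isCoprime_of_not_dvd hℓ hℓM) x₁ x' (b : SL(2, ℤ))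
      (γ : SL(2, ℤ)) hγ (Fermat.Agent.S41.H72.mem_Gamma0_iff_dvd.mp hγmem)
  have hbmem : (b : SL(2, ℤ)) ∈ Gamma0 (N * q) := Fermat.Agent.S41.H72.mem_Gamma0_iff_dvd.mpr hbdvd
  have hi : i₂ = i₁ := by
    refine h.distinct i₂ i₁ ⟨(b : SL(2, ℤ)), hbmem⟩ ?_
    show gl N b * gl N (r i₂) = gl N (r i₁)
    rw [← map_mul, hb, inv_mul_cancel_right]
  subst hi
  have hx : x₁ = x₂ := by
    refine (isReduced_heckeRep (N * q) ℓ).distinct x₁ x₂ g ?_
    apply mul_right_cancel (b := gl N (r i₂))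
    rw [mul_assoc]
    exact hg'
  rw [hx]

variable [Fintype Q]

/-- **`T_ℓ ∘ tr = tr ∘ T_ℓ`** for the transfer `tr = (repDatum h).op` of ANY system of
representatives of `Γ₀(N q) \ Γ₀(N)`, `ℓ ∤ N q` prime. -/
theorem heckeTHom_repDatum_op (h : IsRepSystem (gl (N * q)) (gl N) r)
    (hℓ : ℓ.Prime) (hℓM : ¬ ℓ ∣ N * q) (ψ : Additive (Gamma0 (N * q)) →+ A) :
    heckeTHom A hℓ (not_dvd_left_of_not_dvd_mul hℓM) ((repDatum h).op ψ)
      = (repDatum h).op (heckeTHom A hℓ hℓM ψ) := by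
  have : Fact ℓ.Prime := ⟨hℓ⟩
  have hℓN := not_dvd_left_of_not_dvd_mul hℓM
  have h1 : heckeTHom A hℓ hℓN ((repDatum h).op ψ)
      = ((repDatum h).comp (heckeTDatum N ℓ hℓN)).op ψ :=
    (CosetDatum.comp_op_apply (repDatum h) (heckeTDatum N ℓ hℓN) ψ).symm
  have h2 : (repDatum h).op (heckeTHom A hℓ hℓM ψ)
      = ((heckeTDatum (N * q) ℓ hℓM).comp (repDatum h)).op ψ :=
    (CosetDatum.comp_op_apply (heckeTDatum (N * q) ℓ hℓM) (repDatum h) ψ).symm
  rw [h1, h2]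
  symm
  refine congrFun (congrArg DFunLike.coe (op_eq_of_forall_exists (A := A)
    ((heckeTDatum (N * q) ℓ hℓM).comp (repDatum h))
    ((repDatum h).comp (heckeTDatum N ℓ hℓN))
    (isReduced_hecke_comp_rep h hℓ hℓM)
    (isReduced_comp_of_range _ _ (repDatum_isReduced h)
      (heckeTDatum_isReduced N ℓ hℓN) (inclHom N q) (fun _ => rfl) r (fun _ => rfl))
    (by rw [Fintype.card_prod, Fintype.card_prod, mul_comm]) ?_)) ψ
  rintro ⟨x, i⟩
  obtain ⟨x', γ, hγ⟩ := stable_heckeRep N ℓ hℓN (r i) x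
  obtain ⟨y, g, hg⟩ := h.cover γ
  refine ⟨(y, x'), g⁻¹, ?_⟩
  show gl N (r y) * heckeRep ℓ x' = gl (N * q) g⁻¹ * (heckeRep ℓ x * gl N (r i))
  rw [hγ, hg, map_inv]
  simp only [mul_assoc, inv_mul_cancel_left]

/-- The transfer on the parabolic lattices commutes with `T_ℓ`, `ℓ ∤ N q`. -/
theorem heckeTPar_opPar_repDatum (h : IsRepSystem (gl (N * q)) (gl N) r)
    (hℓ : ℓ.Prime) (hℓM : ¬ ℓ ∣ N * q) (x : Lat (N * q)) :
    heckeTPar ℤ ℤ hℓ (not_dvd_left_of_not_dvd_mul hℓM) ((repDatum h).opPar ℤ ℤ x)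
      = (repDatum h).opPar ℤ ℤ (heckeTPar ℤ ℤ hℓ hℓM x) := by
  apply Subtype.ext
  rw [coe_heckeTPar_apply, CosetDatum.coe_opPar_apply, CosetDatum.coe_opPar_apply,
    coe_heckeTPar_apply]
  exact heckeTHom_repDatum_op h hℓ hℓM x.1

/-- Composition form, exactly the hypothesis `hV` of `S35.H10.exists_new_eigenvector_ext` and
`S35.H49.baseChange_eq_zero_of_isNewform` (with `M := N * q`, `M' := N`). -/
theorem opPar_repDatum_comp_heckeTPar (h : IsRepSystem (gl (N * q)) (gl N) r)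
    (hℓ : ℓ.Prime) (hℓM : ¬ ℓ ∣ N * q) :
    ((repDatum h).opPar ℤ ℤ) ∘ₗ heckeTPar ℤ ℤ hℓ hℓM
      = heckeTPar ℤ ℤ hℓ (fun hd => hℓM (hd.trans (Dvd.intro q rfl))) ∘ₗ
          ((repDatum h).opPar ℤ ℤ) := by
  refine LinearMap.ext fun x => ?_
  rw [LinearMap.comp_apply, LinearMap.comp_apply]
  exact (heckeTPar_opPar_repDatum h hℓ hℓM x).symm

end Fermat.Agent.S36.H10
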