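/-
helper13 — S36 (M2e)(A-As), REAL TYPES, L₁-level (route of helper62 #3361, ruling 4):
`A_s = j⁴ (j - 1728)³ / (∂_s j)⁶` is a unit of the local ring of the level-`M` chart
`BM = chartB A₁ j` (`A₁ = A0 A ℓ`, `F_M = FullC L₁ M`, `L₁ = unrCyclo ℓ`) at every closed point
`a'` of the special fibre at which `s ∈ BM` restricts to a uniformiser of the branch
(`rbar s ∈ 𝔞 \ 𝔞²`, `𝔞 = rbar a'`), as soon as `θ s̄ ≠ 0` and `ν₂(M) = ν₃(M) = 0`.

Pure instantiation of `S36.H13.isUnitAt_sixfold` (chart level, `S36/H13_OmegaHorChart`) with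
* the e-data of the `j`-line in ORD form at `K = L₁` : helper2's `S36.H2` (`ord_jK_eq_three`,
  `ord_jK_sub_eq_two`, `exists_poly_ord_jK_eq_one`);
* the Gauss norm of `A_s` : helper92's `S36.H92.As_mem_VM`, `As_inv_mem_VM`, and the vertical
  prime `(ℓ) = ker rbar` via `S35.H84.valuationSubringAt_eq_of_centre`;
* `a' B_{a'} = (ℓ, s)` : `S36.H83.locGen_of_localGen` for `rbar`, `ker rbar = (ℓ)`;
* `BM = A₁ + a'` : `S34.H83.hres_of_residue` (`kA` algebraically closed).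

Exports: chart facts (`isNoetherianRing_BM`, `isFractionRing_BM`, `isIntegrallyClosed_BM`,
`finiteType_BM`, `isLocalization_away_A0`), `rbarM` (+ `rbarM_surjective`, `ker_rbarM`,
`rbarM_eq_zero_iff`, `resM_toVM`), `isDedekindDomain_DM`, `not_isField_DM`, `hgen_BM`, `hres_BM`,
`eq_ker_rbarM_of_height_one`, `isUnitAt_vert`, and the end lines
`isUnitAt_sixfold_BM` (any derivation), `isUnitAt_As`, `exists_fraction_As`,
`isUnitAt_As_comap`, `exists_identity_As` (= `hIa`/`hIb` of `S36.H54.not_mem_of_identities`).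
-/
import Mathlib
import Fermat.Agent.S36.H13_OmegaHorChart
import Fermat.Agent.S36.H2_EDataE0
import Fermat.Agent.S36.H92_AsExp
import Fermat.Agent.S36.H83_ThreeComponents
import Fermat.Agent.S34.H55_L0Final
import Fermat.Agent.S34.H40_L0Consumers
import Fermat.Agent.S34.H83_L1Inst
import Fermat.Agent.S18.H45_CutOverPoint
import Fermat.Agent.S35.H84_VertPlace

set_option autoImplicit false
set_option linter.unusedSectionVars false
set_option linter.style.haveILetI false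
set_option synthInstance.maxHeartbeats 400000
set_option maxHeartbeats 3200000

noncomputable section

namespace Fermat.Agent.S36.H13

open ModularCurve Polynomial IsLocalRing IntermediateField AlgebraicCurve
open Fermat.Agent.S18 Fermat.Agent.S34 Fermat.Agent.S34.H55 Fermat.Agent.S28

local notation "Qbar" => AlgebraicClosure ℚ

section Inst

variable (M : ℕ) [NeZero M] {ℓ : ℕ} [hℓ : Fact ℓ.Prime] (hℓM : ¬ ℓ ∣ M)
  (A : ValuationSubring Qbar) (hA : A.LiesOverPrime ℓ)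

local notation "kA" => IsLocalRing.ResidueField A
local notation "A₁" => H45.A0 A ℓ
local notation "L₁" => H45.unrCyclo ℓ
local notation "FM" => modularFunctionFieldFullC (H45.unrCyclo ℓ) M
local notation "FkM" => modularFunctionFieldFullC (IsLocalRing.ResidueField A) M
local notation "jM" => S18.H16.jK (H45.unrCyclo ℓ) M
local notation "BM" => H40.chartB (H45.A0 A ℓ) (S18.H16.jK (H45.unrCyclo ℓ) M)
local notation "DM" => integralClosure
  (Algebra.adjoin (IsLocalRing.ResidueField A) {S18.H16.jK (IsLocalRing.ResidueField A) M})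
  (modularFunctionFieldFullC (IsLocalRing.ResidueField A) M)

/-! ### The level-`M` chart `BM = chartB A₁ j` -/

theorem finiteDimensional_jM : FiniteDimensional L₁⟮jM⟯ FM :=
  S18.H16.finiteDimensional_fullC_gen M L₁ (H99.natCast_ne_zero₀ M L₁)

include hA in
theorem isNoetherianRing_BM : IsNoetherianRing ↥BM := by
  haveI := H45.isDiscreteValuationRing_A0 hℓ.out hA
  haveI := finiteDimensional_jM M (ℓ := ℓ)
  exact S34.H95.isNoetherianRing_chartB (K := L₁) jM (S18.H16.transcendental_jK L₁ M)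

theorem isFractionRing_BM : IsFractionRing ↥BM FM := by
  haveI := finiteDimensional_jM M (ℓ := ℓ)
  exact H3.isFractionRing_chartB (K := L₁) jM

theorem isIntegrallyClosed_BM : IsIntegrallyClosed ↥BM := by
  haveI := finiteDimensional_jM M (ℓ := ℓ)
  exact H3.isIntegrallyClosed_chartB (K := L₁) jM

include hA in
theorem finiteType_BM : Algebra.FiniteType A₁ ↥BM := by
  haveI := H45.isDiscreteValuationRing_A0 hℓ.out hA
  haveI := finiteDimensional_jM M (ℓ := ℓ)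
  exact S34.H83.finiteType_chartB (K := L₁) jM (S18.H16.transcendental_jK L₁ M)

include hA in
theorem isLocalization_away_A0 : IsLocalization.Away ((ℓ : ℕ) : A₁) L₁ := by
  haveI := H45.isDiscreteValuationRing_A0 hℓ.out hA
  exact H45.isLocalization_away_of_irreducible (H45.irreducible_natCast_A0 hℓ.out hA)

/-! ### The reduction `rbar : BM → DM` of the level-`M` chart -/

/-- the reduction of the level-`M` chart (= `rbar` of `S34.H55.twoComponents_JK`). -/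
abbrev rbarM : ↥BM →+* ↥DM :=
  rbarB (Mod M hℓM A hA) (Mod M hℓM A hA).x_mem (Mod M hℓM A hA).res1_x

theorem mem_O1_of_mem_BM (b : ↥BM) : (b : FM) ∈ (Mod M hℓM A hA).O1 :=
  chart_le_O1 (Mod M hℓM A hA) (Mod M hℓM A hA).x_mem b.2

theorem mem_VM_of_mem_BM (b : ↥BM) : (b : FM) ∈ S34.H92.VM M hℓM A hA :=
  mem_V_of_mem_O1 M hℓM A hA (mem_O1_of_mem_BM M hℓM A hA b)

theorem coe_rbarM (b : ↥BM) :
    ((rbarM M hℓM A hA b : ↥DM) : FkM) =
      (Mod M hℓM A hA).res1 ⟨(b : FM), mem_O1_of_mem_BM M hℓM A hA b⟩ := rfl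

/-- `rbar b = 0 ↔ resM b = 0`. -/
theorem rbarM_eq_zero_iff (b : ↥BM) :
    rbarM M hℓM A hA b = 0 ↔
      S34.H92.resM M hℓM A hA ⟨(b : FM), mem_VM_of_mem_BM M hℓM A hA b⟩ = 0 := by
  rw [← inclk_res1 M hℓM A hA (b : FM) (mem_O1_of_mem_BM M hℓM A hA b)]
  constructor
  · intro h
    have h1 : (Mod M hℓM A hA).res1 ⟨(b : FM), mem_O1_of_mem_BM M hℓM A hA b⟩ = 0 := by
      rw [← coe_rbarM, h]; rfl
    rw [h1, map_zero]
  · intro h
    have h1 : (Mod M hℓM A hA).res1 ⟨(b : FM), mem_O1_of_mem_BM M hℓM A hA b⟩ = 0 :=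
      (map_eq_zero (inclk M A)).1 h
    apply Subtype.ext
    rw [coe_rbarM, h1]; rfl

include hℓM hA in
theorem rbarM_surjective : Function.Surjective (rbarM M hℓM A hA) := by
  intro γ
  obtain ⟨b, hbO, hbint, hres⟩ := hGRfin M hℓM A hA (γ : FkM) γ.2
  exact ⟨⟨b, H40.mem_chartB.2 hbint⟩, Subtype.ext hres⟩

include hA in
theorem natCast_DM_eq_zero : ((ℓ : ℕ) : ↥DM) = 0 :=
  H40.natCast_eq_zero_of_subalgebra M A hA _

include hA in
/-- the kernel of `rbar` is `(ℓ)`. -/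
theorem ker_rbarM :
    RingHom.ker (rbarM M hℓM A hA) = Ideal.span {algebraMap A₁ ↥BM ((ℓ : ℕ) : A₁)} := by
  ext b
  rw [RingHom.mem_ker, Ideal.mem_span_singleton']
  constructor
  · intro hb
    have hb' : (Mod M hℓM A hA).res1 ⟨(b : FM), mem_O1_of_mem_BM M hℓM A hA b⟩ = 0 := by
      rw [← coe_rbarM, hb]; rfl
    rw [(Mod M hℓM A hA).res1_eq_zero_iff] at hb'
    obtain ⟨z, hz, hbz⟩ := hb'
    have hzint : IsIntegral (Algebra.adjoin A₁ {jM}) z :=
      S18.H3.hsat_inst M A hA (Mod M hℓM A hA) z hz (hbz ▸ b.2)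
    refine ⟨⟨z, H40.mem_chartB.2 hzint⟩, Subtype.ext ?_⟩
    rw [hbz, mul_comm]
    rfl
  · rintro ⟨c, rfl⟩
    rw [map_mul, map_natCast, map_natCast, natCast_DM_eq_zero M A hA, mul_zero]

include hℓM hA in
theorem isDedekindDomain_DM : IsDedekindDomain ↥DM := by
  haveI := S18.H16.finiteDimensional_Fk M hℓM A hA
  haveI := S18.H16.isSeparable_Fk M hℓM A hA
  exact S18.H97.isDedekindDomain_intRing_of_isSeparable (S18.H16.jK kA M)
    (S18.H16.transcendental_jk M A)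

theorem not_isField_DM : ¬ IsField ↥DM :=
  S34.H83.not_isField_integralClosure_adjoin (S18.H16.jK kA M) (S18.H16.transcendental_jk M A)

/-! ### Closed points of the special fibre of `BM` -/

include hA in
theorem natCast_BM_ne_zero : algebraMap A₁ ↥BM ((ℓ : ℕ) : A₁) ≠ 0 := by
  rw [map_natCast]
  intro h
  have h1 := congrArg (fun z : ↥BM => (z : FM)) h
  simp only [ZeroMemClass.coe_zero] at h1
  have h2 : ((ℓ : ℕ) : FM) = 0 := by
    rw [← h1]; push_cast; rfl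
  exact (Nat.cast_ne_zero.mpr hℓ.out.ne_zero) h2

include hℓM hA in
/-- **`a' B_{a'} = (ℓ, s)`** at a closed point `a' ∋ ℓ` where `s ∈ a'` restricts to a uniformiser
of the branch. -/
theorem hgen_BM (a' : Ideal ↥BM) [ha' : a'.IsMaximal]
    (hℓa : algebraMap A₁ ↥BM ((ℓ : ℕ) : A₁) ∈ a') (s : ↥BM) (hsa : s ∈ a')
    (hs2 : rbarM M hℓM A hA s ∉ Ideal.map (rbarM M hℓM A hA) a' ^ 2) :
    ∀ z ∈ a', ∃ t, t ∉ a' ∧ t * z ∈ Ideal.span {algebraMap A₁ ↥BM ((ℓ : ℕ) : A₁), s} := by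
  haveI := isDedekindDomain_DM M hℓM A hA
  have hker : RingHom.ker (rbarM M hℓM A hA) ≤ a' := by
    rw [ker_rbarM M hℓM A hA, Ideal.span_singleton_le_iff_mem]
    exact hℓa
  refine S36.H83.locGen_of_localGen (rbarM_surjective M hℓM A hA) (not_isField_DM M A) a' ha'
    hker (x := algebraMap A₁ ↥BM ((ℓ : ℕ) : A₁)) ?_ hsa hs2
  intro z hz
  refine ⟨1, fun h => ha'.ne_top ((Ideal.eq_top_iff_one a').2 h), ?_⟩
  rw [one_mul, ← ker_rbarM M hℓM A hA]
  exact hz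

include hA in
/-- **`BM = A₁ + a'`** at a closed point `a' ∋ ℓ` (`kA` is algebraically closed). -/
theorem hres_BM (a' : Ideal ↥BM) [ha' : a'.IsMaximal]
    (hℓa : algebraMap A₁ ↥BM ((ℓ : ℕ) : A₁) ∈ a') (b : ↥BM) :
    ∃ c : A₁, b - algebraMap A₁ ↥BM c ∈ a' := by
  haveI := finiteType_BM M A hA
  haveI := S18.H16.isAlgClosed_k A
  refine S34.H83.hres_of_residue (H45.resA0 A ℓ) (H45.resA0_surjective hℓ.out hA) a' ?_ b
  intro a ha
  obtain ⟨c, rfl⟩ := H40.hker_resA0 A hA a ha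
  rw [map_mul]
  exact Ideal.mul_mem_right _ _ hℓa

/-! ### The vertical prime: units of the Gauss ring are units at `(ℓ)` -/

include hℓM hA in
/-- the only vertical height-one prime of `BM` is `ker rbar = (ℓ)`. -/
theorem eq_ker_rbarM_of_height_one (P : Ideal ↥BM) [hP : P.IsPrime] (h1 : P.height = 1)
    (hℓP : algebraMap A₁ ↥BM ((ℓ : ℕ) : A₁) ∈ P) : RingHom.ker (rbarM M hℓM A hA) = P := by
  haveI := isNoetherianRing_BM M A hA
  haveI := isDedekindDomain_DM M hℓM A hA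
  haveI : (RingHom.ker (rbarM M hℓM A hA)).IsPrime := RingHom.ker_isPrime _
  have hle : RingHom.ker (rbarM M hℓM A hA) ≤ P := by
    rw [ker_rbarM M hℓM A hA, Ideal.span_singleton_le_iff_mem]
    exact hℓP
  have hne : RingHom.ker (rbarM M hℓM A hA) ≠ ⊥ := by
    intro h0
    have hmem : algebraMap A₁ ↥BM ((ℓ : ℕ) : A₁) ∈ RingHom.ker (rbarM M hℓM A hA) := by
      rw [ker_rbarM M hℓM A hA]
      exact Ideal.mem_span_singleton_self _
    rw [h0, Ideal.mem_bot] at hmem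
    exact natCast_BM_ne_zero M A hA hmem
  by_contra hneq
  have hlt : RingHom.ker (rbarM M hℓM A hA) < P := lt_of_le_of_ne hle hneq
  have h2 : (RingHom.ker (rbarM M hℓM A hA)).height < P.height :=
    Ideal.height_strict_mono_of_isPrime_of_isPrime hlt
  rw [h1] at h2
  exact hne (Ideal.height_eq_zero_iff_eq_bot.1 (Order.lt_one_iff.1 h2))

include hℓM hA in
/-- **Gauss norm one ⟹ unit at the vertical prime.** -/
theorem isUnitAt_vert (P : Ideal ↥BM) [hP : P.IsPrime] (h1 : P.height = 1)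
    (hℓP : algebraMap A₁ ↥BM ((ℓ : ℕ) : A₁) ∈ P) {x : FM} (hx0 : x ≠ 0)
    (hx : x ∈ S34.H92.VM M hℓM A hA) (hxi : x⁻¹ ∈ S34.H92.VM M hℓM A hA) :
    S34.H56.IsUnitAt P x := by
  haveI := isNoetherianRing_BM M A hA
  haveI := isFractionRing_BM M (ℓ := ℓ) A
  haveI := isIntegrallyClosed_BM M (ℓ := ℓ) A
  have hkerP := eq_ker_rbarM_of_height_one M hℓM A hA P h1 hℓP
  have hcentre : ∀ b : ↥BM, b ∈ P ↔
      (S34.H92.VM M hℓM A hA).valuation (algebraMap ↥BM FM b) < 1 := by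
    intro b
    rw [← hkerP, RingHom.mem_ker, rbarM_eq_zero_iff, S34.H92.resM_eq_zero_iff_not_isUnit]
    have h := (S34.H92.VM M hℓM A hA).valuation_lt_one_iff
      ⟨(b : FM), mem_VM_of_mem_BM M hℓM A hA b⟩
    rw [IsLocalRing.mem_maximalIdeal, mem_nonunits_iff] at h
    exact h
  have hV := S35.H84.valuationSubringAt_eq_of_centre P h1 (S34.H92.VM M hℓM A hA)
    (fun b => mem_VM_of_mem_BM M hℓM A hA b) hcentre
  rw [S34.H56.isUnitAt_iff_memAt]
  refine ⟨hx0, (S34.H56.mem_valuationSubringAt h1).mp ?_, (S34.H56.mem_valuationSubringAt h1).mp ?_⟩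
  · rw [hV]; exact hx
  · rw [hV]; exact hxi

/-! ### (A-As) at the real types -/

/-- the chart coordinate `j` as an element of `BM`. -/
abbrev jB : ↥BM := ⟨jM, H40.self_mem_chartB jM⟩

include hℓM hA in
/-- **(A-As), real types, any derivation.**  `ν₂(M) = ν₃(M) = 0`; `a' ∋ ℓ` a closed point of the
level-`M` chart `BM`, `s ∈ a'` with `rbar s ∉ (rbar a')²`, `del` the `L₁`-derivation of `F_M` with
`del s = 1`.  If `A = j⁴ (j - 1728)³ / (del j)⁶` is a unit of the Gauss ring `V_M`, then it is a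
unit of the local ring of `BM` at `a'`. -/
theorem isUnitAt_sixfold_BM (h2 : nuTwo M = 0) (h3 : nuThree M = 0)
    (a' : Ideal ↥BM) [ha' : a'.IsMaximal]
    (hℓa : algebraMap A₁ ↥BM ((ℓ : ℕ) : A₁) ∈ a') (s : ↥BM) (hsa : s ∈ a')
    (hs2 : rbarM M hℓM A hA s ∉ Ideal.map (rbarM M hℓM A hA) a' ^ 2)
    (del : Derivation L₁ FM FM) (hdel : del (s : FM) = 1)
    (hx : jM ^ 4 * (jM - 1728) ^ 3 / (del jM) ^ 6 ∈ S34.H92.VM M hℓM A hA)
    (hxi : (jM ^ 4 * (jM - 1728) ^ 3 / (del jM) ^ 6)⁻¹ ∈ S34.H92.VM M hℓM A hA)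
    (hx0 : jM ^ 4 * (jM - 1728) ^ 3 / (del jM) ^ 6 ≠ 0) :
    S34.H56.IsUnitAt a' (jM ^ 4 * (jM - 1728) ^ 3 / (del jM) ^ 6) := by
  haveI := isNoetherianRing_BM M A hA
  haveI := isFractionRing_BM M (ℓ := ℓ) A
  haveI := isIntegrallyClosed_BM M (ℓ := ℓ) A
  haveI := finiteType_BM M A hA
  haveI := isLocalization_away_A0 A hA
  haveI : a'.IsPrime := ha'.isPrime
  have h1728 : algebraMap L₁ FM 1728 = 1728 := map_ofNat (algebraMap L₁ FM) 1728
  -- instance arguments first (synthesised once), then the data, one group at a time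
  have key := @isUnitAt_sixfold L₁ FM _ _ _ A₁ _ _ _ _ ↥BM _ _ _ _ _ _ _ _ _ _ _ ((ℓ : ℕ) : A₁) _
  have key1 := key (jB M A)
  have hint : ∀ b : ↥BM, IsIntegral (Algebra.adjoin A₁ {algebraMap ↥BM FM (jB M A)})
      (algebraMap ↥BM FM b) := fun b => H40.mem_chartB.1 b.2
  have key2 := key1 hint a' s (natCast_BM_ne_zero M A hA) hℓa hsa
    (hgen_BM M hℓM A hA a' hℓa s hsa hs2) (hres_BM M A hA a' hℓa) del hdel
  have hja : S34.H56.MemAt a' jM := S34.H56.memAt_algebraMap a' ha'.ne_top (jB M A)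
  have hE : ∀ v : Place L₁ FM, 0 ≤ v.ord jM →
      (0 < v.ord jM → v.ord jM = 3) ∧
      (0 < v.ord (jM - algebraMap L₁ FM 1728) → v.ord (jM - algebraMap L₁ FM 1728) = 2) ∧
      (v.ord jM = 0 → v.ord (jM - algebraMap L₁ FM 1728) = 0 →
        ∃ p : L₁[X], v.ord (aeval jM p) = 1) :=
    fun v _ => ⟨S36.H2.ord_jK_eq_three L₁ M h3 v, S36.H2.ord_jK_sub_eq_two L₁ M h2 v,
      S36.H2.exists_poly_ord_jK_eq_one L₁ M v⟩
  have key3 := key2 jM hja hE
  have hx0' : jM ^ 4 * (jM - algebraMap L₁ FM 1728) ^ 3 / (del jM) ^ 6 ≠ 0 := by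
    rw [h1728]; exact hx0
  have hvert : ∀ P : Ideal ↥BM, P.IsPrime → P.height = 1 → P ≤ a' →
      algebraMap A₁ ↥BM ((ℓ : ℕ) : A₁) ∈ P →
      S34.H56.IsUnitAt P (jM ^ 4 * (jM - algebraMap L₁ FM 1728) ^ 3 / (del jM) ^ 6) := by
    intro P hP hP1 _ hℓP
    haveI := hP
    rw [h1728]
    exact isUnitAt_vert M hℓM A hA P hP1 hℓP hx0 hx hxi
  have key4 : S34.H56.IsUnitAt a'
      (jM ^ 4 * (jM - algebraMap L₁ FM 1728) ^ 3 / (del jM) ^ 6) := key3 hx0' hvert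
  rw [h1728] at key4
  exact key4

/-- an element of the chart `BM`, seen in helper92's Gauss ring `V_M`. -/
abbrev toVM (b : ↥BM) : S34.H92.VM M hℓM A hA := ⟨(b : FM), mem_VM_of_mem_BM M hℓM A hA b⟩

include hℓM hA in
/-- **(A-As), real types, helper92's `A_s`.**  `A_s = S36.H92.As M hℓM A hA s htr` is a unit of the
local ring of `BM` at every closed point `a' ∋ ℓ` at which `s` restricts to a uniformiser of the
branch, provided `θ s̄ ≠ 0` (Gauss norm one) and `ν₂(M) = ν₃(M) = 0`. -/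
theorem isUnitAt_As (h2 : nuTwo M = 0) (h3 : nuThree M = 0)
    (a' : Ideal ↥BM) [ha' : a'.IsMaximal]
    (hℓa : algebraMap A₁ ↥BM ((ℓ : ℕ) : A₁) ∈ a') (s : ↥BM) (hsa : s ∈ a')
    (hs2 : rbarM M hℓM A hA s ∉ Ideal.map (rbarM M hℓM A hA) a' ^ 2)
    (hθ : thetaOp (S34.H92.resM M hℓM A hA (toVM M hℓM A hA s)) ≠ 0)
    (htr : Transcendental L₁ ((toVM M hℓM A hA s : S34.H92.VM M hℓM A hA) : FM)) :
    S34.H56.IsUnitAt a' (S36.H92.As M hℓM A hA (toVM M hℓM A hA s) htr) := by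
  have hu := S36.H92.isUnit_As M hℓM A hA (toVM M hℓM A hA s) hθ htr
  have hx := S36.H92.As_mem_VM M hℓM A hA (toVM M hℓM A hA s) htr
  have hxi := S36.H92.As_inv_mem_VM M hℓM A hA (toVM M hℓM A hA s) hθ htr
  have hx0 : S36.H92.As M hℓM A hA (toVM M hℓM A hA s) htr ≠ 0 := by
    intro h0
    have h1 : (⟨S36.H92.As M hℓM A hA (toVM M hℓM A hA s) htr, hx⟩ :
        S34.H92.VM M hℓM A hA) = 0 := Subtype.ext h0
    rw [h1] at hu
    exact not_isUnit_zero hu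
  exact isUnitAt_sixfold_BM M hℓM A hA h2 h3 a' hℓa s hsa hs2
    (S36.H92.delOf L₁ M ((toVM M hℓM A hA s : S34.H92.VM M hℓM A hA) : FM) htr)
    (S36.H92.delOf_self _ htr) hx hxi hx0

include hℓM hA in
/-- **(A-As), fraction form** (helper54's end line): `A_s * d = c` with `c, d ∈ BM \ a'`. -/
theorem exists_fraction_As (h2 : nuTwo M = 0) (h3 : nuThree M = 0)
    (a' : Ideal ↥BM) [ha' : a'.IsMaximal]
    (hℓa : algebraMap A₁ ↥BM ((ℓ : ℕ) : A₁) ∈ a') (s : ↥BM) (hsa : s ∈ a')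
    (hs2 : rbarM M hℓM A hA s ∉ Ideal.map (rbarM M hℓM A hA) a' ^ 2)
    (hθ : thetaOp (S34.H92.resM M hℓM A hA (toVM M hℓM A hA s)) ≠ 0)
    (htr : Transcendental L₁ ((toVM M hℓM A hA s : S34.H92.VM M hℓM A hA) : FM)) :
    ∃ c d : ↥BM, c ∉ a' ∧ d ∉ a' ∧
      S36.H92.As M hℓM A hA (toVM M hℓM A hA s) htr * (d : FM) = (c : FM) :=
  isUnitAt_As M hℓM A hA h2 h3 a' hℓa s hsa hs2 hθ htr

/-! ### The same at a closed point `𝔞` of the branch ring `DM` (`a' = rbar⁻¹ 𝔞`) -/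

include hℓM hA in
theorem comap_rbarM_isMaximal (𝔞 : Ideal ↥DM) [h𝔞 : 𝔞.IsMaximal] :
    (𝔞.comap (rbarM M hℓM A hA)).IsMaximal :=
  Ideal.comap_isMaximal_of_surjective _ (rbarM_surjective M hℓM A hA)

include hA in
theorem natCast_mem_comap_rbarM (𝔞 : Ideal ↥DM) :
    algebraMap A₁ ↥BM ((ℓ : ℕ) : A₁) ∈ 𝔞.comap (rbarM M hℓM A hA) := by
  rw [Ideal.mem_comap, map_natCast, map_natCast, natCast_DM_eq_zero M A hA]
  exact 𝔞.zero_mem

/-- `resM b = inclk (rbar b)` for `b ∈ BM`. -/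
theorem resM_toVM (b : ↥BM) :
    S34.H92.resM M hℓM A hA (toVM M hℓM A hA b) =
      inclk M A ((rbarM M hℓM A hA b : ↥DM) : FkM) :=
  (inclk_res1 M hℓM A hA (b : FM) (mem_O1_of_mem_BM M hℓM A hA b)).symm

include hℓM hA in
/-- **(A-As) at `a' = rbar⁻¹ 𝔞`.** -/
theorem isUnitAt_As_comap (h2 : nuTwo M = 0) (h3 : nuThree M = 0)
    (𝔞 : Ideal ↥DM) [h𝔞 : 𝔞.IsMaximal] (s : ↥BM)
    (hs : rbarM M hℓM A hA s ∈ 𝔞) (hs2 : rbarM M hℓM A hA s ∉ 𝔞 ^ 2)
    (hθ : thetaOp (S34.H92.resM M hℓM A hA (toVM M hℓM A hA s)) ≠ 0)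
    (htr : Transcendental L₁ ((toVM M hℓM A hA s : S34.H92.VM M hℓM A hA) : FM)) :
    S34.H56.IsUnitAt (𝔞.comap (rbarM M hℓM A hA))
      (S36.H92.As M hℓM A hA (toVM M hℓM A hA s) htr) := by
  haveI := comap_rbarM_isMaximal M hℓM A hA 𝔞
  refine isUnitAt_As M hℓM A hA h2 h3 (𝔞.comap (rbarM M hℓM A hA))
    (natCast_mem_comap_rbarM M hℓM A hA 𝔞) s hs ?_ hθ htr
  rw [Ideal.map_comap_of_surjective _ (rbarM_surjective M hℓM A hA)]
  exact hs2

include hℓM hA in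
/-- **(A-As) + (A-exp-As): the identities `hIa` / `hIb` of `S36.H54.not_mem_of_identities`** at a
closed point `𝔞` of the branch ring where `s̄ = rbar s` is a uniformiser and `θ s̄ ≠ 0`:
`(θ s̄)⁶ * ad = Δ̄ * an` in `kA((t))` with `an, ad ∈ DM \ 𝔞`. -/
theorem exists_identity_As (h2 : nuTwo M = 0) (h3 : nuThree M = 0)
    (𝔞 : Ideal ↥DM) [h𝔞 : 𝔞.IsMaximal] (s : ↥BM)
    (hs : rbarM M hℓM A hA s ∈ 𝔞) (hs2 : rbarM M hℓM A hA s ∉ 𝔞 ^ 2)
    (hθ : thetaOp (inclk M A ((rbarM M hℓM A hA s : ↥DM) : FkM)) ≠ 0) :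
    ∃ an ad : ↥DM, an ∉ 𝔞 ∧ ad ∉ 𝔞 ∧
      thetaOp (inclk M A ((rbarM M hℓM A hA s : ↥DM) : FkM)) ^ 6 * inclk M A ((ad : ↥DM) : FkM) =
        DeltaS kA * inclk M A ((an : ↥DM) : FkM) := by
  have hθ' : thetaOp (S34.H92.resM M hℓM A hA (toVM M hℓM A hA s)) ≠ 0 := by
    rw [resM_toVM]; exact hθ
  have htr := S36.H92.transcendental_coe_VM M hℓM A hA (toVM M hℓM A hA s) hθ'
  obtain ⟨c, d, hc, hd, hcd⟩ := isUnitAt_As_comap M hℓM A hA h2 h3 𝔞 s hs hs2 hθ' htr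
  refine ⟨rbarM M hℓM A hA c, rbarM M hℓM A hA d, fun h => hc (Ideal.mem_comap.2 h),
    fun h => hd (Ideal.mem_comap.2 h), ?_⟩
  have h := S36.H92.thetaOp_pow_six_mul_resM M hℓM A hA (toVM M hℓM A hA s) htr
    (toVM M hℓM A hA c) (toVM M hℓM A hA d) hcd
  rw [resM_toVM, resM_toVM, resM_toVM] at h
  exact h

end Inst

end Fermat.Agent.S36.H13
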