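import Mathlib

/-!
S36 / (G-iii) (helper16): the **Eisenstein localisation lemma** of helper55's #3084.

`B` a noetherian domain, `m = (π, θ)` a maximal ideal of `B`, `π ≠ 0`, and a relation
`θ ^ n * u = π * r` with `u, r ∉ m`, `0 < n`.  Then the localisation `B_m` is a discrete valuation
ring whose maximal ideal is generated by `θ`, and `π = unit * θ ^ n` there (`e = n`).

(Application: `O = O_{P₀}` a DVR with uniformiser `π`, `h = X ^ n * h₁ + π * r₁ ∈ O[X]` monic with
`h₁(0)`, `r₁(0)` units, `h(θ) = 0`, `B = O[θ]`: `u = h₁(θ)`, `r = - r₁(θ)`.)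
-/

set_option autoImplicit false

namespace Fermat.Agent.S36.H16

open IsLocalRing

variable {B : Type*} [CommRing B]

/-- in `B_m`: `π = unit * θ ^ n`. -/
theorem exists_unit_mul_pow_eq (m : Ideal B) [m.IsMaximal] (π θ u r : B) (n : ℕ)
    (hrel : θ ^ n * u = π * r) (hr : r ∉ m) (hu : u ∉ m) :
    ∃ ε : (Localization.AtPrime m)ˣ,
      algebraMap B (Localization.AtPrime m) π = ε * algebraMap B (Localization.AtPrime m) θ ^ n := by
  have hur : IsUnit (algebraMap B (Localization.AtPrime m) r) :=
    IsLocalization.map_units (Localization.AtPrime m) (⟨r, hr⟩ : m.primeCompl)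
  have huu : IsUnit (algebraMap B (Localization.AtPrime m) u) :=
    IsLocalization.map_units (Localization.AtPrime m) (⟨u, hu⟩ : m.primeCompl)
  obtain ⟨εr, hεr⟩ := hur
  obtain ⟨εu, hεu⟩ := huu
  refine ⟨εu * εr⁻¹, ?_⟩
  have h1 := congrArg (algebraMap B (Localization.AtPrime m)) hrel
  rw [map_mul, map_mul, map_pow, ← hεr, ← hεu] at h1
  -- `θ^n * εu = π * εr`
  have h2 : algebraMap B (Localization.AtPrime m) π =
      algebraMap B (Localization.AtPrime m) θ ^ n * εu * ((εr⁻¹ : (Localization.AtPrime m)ˣ) :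
        Localization.AtPrime m) := by
    rw [h1, mul_assoc, Units.mul_inv, mul_one]
  rw [h2]
  push_cast
  ring

/-- the maximal ideal of `B_m` is generated by `θ`. -/
theorem maximalIdeal_eq_span_theta (m : Ideal B) [m.IsMaximal] (π θ u r : B) (n : ℕ) (hn : 0 < n)
    (hm : m = Ideal.span {π, θ}) (hrel : θ ^ n * u = π * r) (hr : r ∉ m) (hu : u ∉ m) :
    maximalIdeal (Localization.AtPrime m) =
      Ideal.span {algebraMap B (Localization.AtPrime m) θ} := by
  obtain ⟨ε, hε⟩ := exists_unit_mul_pow_eq m π θ u r n hrel hr hu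
  rw [← Localization.AtPrime.map_eq_maximalIdeal]
  have hθm : θ ∈ m := by rw [hm]; exact Ideal.subset_span (by simp)
  have hπθ : algebraMap B (Localization.AtPrime m) π ∈
      Ideal.span {algebraMap B (Localization.AtPrime m) θ} := by
    rw [hε]
    obtain ⟨k, rfl⟩ : ∃ k, n = k + 1 := ⟨n - 1, by omega⟩
    rw [pow_succ, ← mul_assoc]
    exact Ideal.mul_mem_left _ _ (Ideal.mem_span_singleton_self _)
  apply le_antisymm
  · rw [Ideal.map_le_iff_le_comap]
    intro x hx
    rw [hm, Ideal.mem_span_pair] at hx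
    obtain ⟨a, b, rfl⟩ := hx
    rw [Ideal.mem_comap, map_add, map_mul, map_mul]
    exact Ideal.add_mem _ (Ideal.mul_mem_left _ _ hπθ)
      (Ideal.mul_mem_left _ _ (Ideal.mem_span_singleton_self _))
  · rw [Ideal.span_le]
    rintro _ rfl
    exact Ideal.mem_map_of_mem _ hθm

/-- **Eisenstein localisation**: `B_m` is a DVR. -/
theorem isDiscreteValuationRing_localization [IsDomain B] [IsNoetherianRing B] (m : Ideal B) [m.IsMaximal] (π θ u r : B) (n : ℕ)
    (hn : 0 < n) (hπ : π ≠ 0) (hm : m = Ideal.span {π, θ}) (hrel : θ ^ n * u = π * r)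
    (hr : r ∉ m) (hu : u ∉ m) : IsDiscreteValuationRing (Localization.AtPrime m) := by
  have hmax := maximalIdeal_eq_span_theta m π θ u r n hn hm hrel hr hu
  have hnf : ¬ IsField (Localization.AtPrime m) := by
    intro hf
    have h0 : maximalIdeal (Localization.AtPrime m) = ⊥ :=
      IsLocalRing.isField_iff_maximalIdeal_eq.mp hf
    have hπm : π ∈ m := by rw [hm]; exact Ideal.subset_span (by simp)
    have : algebraMap B (Localization.AtPrime m) π ∈ maximalIdeal (Localization.AtPrime m) := by
      rw [← Localization.AtPrime.map_eq_maximalIdeal]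
      exact Ideal.mem_map_of_mem _ hπm
    rw [h0, Ideal.mem_bot] at this
    exact hπ ((IsLocalization.injective (Localization.AtPrime m)
      m.primeCompl_le_nonZeroDivisors) (by rw [this, map_zero]))
  have hprinc : (maximalIdeal (Localization.AtPrime m)).IsPrincipal := ⟨⟨_, hmax⟩⟩
  exact ((IsDiscreteValuationRing.TFAE (Localization.AtPrime m) hnf).out 0 4).mpr hprinc

end Fermat.Agent.S36.H16
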