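import Mathlib
import Fermat.Agent.S36.H16_NormRedRam
import Fermat.Agent.S35.H46_G3Assembly

/-!
S36 / (E5) (helper16): **norm reduction at the three vertical places of level `q²`**, in the
`H46.ResPlace` / `HasRes` vocabulary of S35 (g2), GENERIC in the base DVR `O ⊆ K`, `L = K(θ)`.

* `hasRes_norm_ram_pair` : over a place of `K` with `f̄ = (X - θ₁) ^ n (X - θ₂)` (the places `V₂`
  [`e = n = q - 1`] and `V₁` [`e = f = 1`] above `P₀`): `res (N u) = res₁(u) ^ n * res₂(u)`;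
* `hasRes_norm_insep`    : over a place of `K` with `f̄ = X ^ q - θ₃ ^ q` (the single purely
  inseparable place `V₃` above `P_∞`): `res (N u) = res₃(u) ^ q`.

The places of `L` enter only through: `O[θ] ⊆ O1`, `res (p(θ)) = p^ι(θb)`, and
`⋂ O1 ⊆ O[θ]` (`hint`; from `exists_repr` + `S36.H16.mem_adjoin_of_bezout`).
-/

set_option autoImplicit false
set_option linter.unusedSectionVars false

namespace Fermat.Agent.S36.H16

open Polynomial Fermat.Agent.S35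

variable {O K L Fk : Type*} [CommRing O] [Field K] [Algebra O K] [Field L] [Algebra K L]
  [Algebra O L] [IsScalarTower O K L] [FiniteDimensional K L] [Algebra.IsSeparable K L]
  [Field Fk]

/-- **(g2) at a ramified pair**: `res (N u) = res₁(u) ^ n * res₂(u)`. -/
theorem hasRes_norm_ram_pair (hinj : Function.Injective (algebraMap O K))
    (ι : O →+* Fk) (n : ℕ) (f : O[X]) (hf : f.Monic) {θ : L} (hθ : aeval θ f = 0)
    (hdeg : f.natDegree = Module.finrank K L) (hgen : Algebra.adjoin K {θ} = ⊤)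
    (θ₁ θ₂ : Fk) (hsplit : f.map ι = (X - C θ₁) ^ n * (X - C θ₂))
    (P₁ P₂ : H46.ResPlace L Fk) (PK : H46.ResPlace K Fk)
    (hPK : ∀ m : O, ∃ h : algebraMap O K m ∈ PK.O1, PK.res ⟨_, h⟩ = ι m)
    (hmem₁ : ∀ p : O[X], aeval θ p ∈ P₁.O1)
    (hres₁ : ∀ p : O[X], P₁.res ⟨aeval θ p, hmem₁ p⟩ = p.eval₂ ι θ₁)
    (hmem₂ : ∀ p : O[X], aeval θ p ∈ P₂.O1)
    (hres₂ : ∀ p : O[X], P₂.res ⟨aeval θ p, hmem₂ p⟩ = p.eval₂ ι θ₂)
    (hint : ∀ u : L, u ∈ P₁.O1 → u ∈ P₂.O1 → ∃ p : O[X], u = aeval θ p)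
    (u : L) (s₁ s₂ : Fkˣ) (h₁ : P₁.HasRes u s₁) (h₂ : P₂.HasRes u s₂) :
    PK.HasRes (Algebra.norm K u) (s₁ ^ n * s₂) := by
  obtain ⟨hu₁, e₁⟩ := h₁
  obtain ⟨hu₂, e₂⟩ := h₂
  obtain ⟨p, rfl⟩ := hint u hu₁ hu₂
  obtain ⟨m, hm1, hm2⟩ := exists_norm_aeval_reduction_ram (K := K) (L := L) hinj ι n f hf hθ hdeg
    hgen θ₁ θ₂ hsplit p
  obtain ⟨hmem, hres⟩ := hPK m
  rw [hm1] at hmem
  refine ⟨hmem, ?_⟩
  have e3 : PK.res ⟨Algebra.norm K (aeval θ p), hmem⟩ = ι m := by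
    rw [← hres]
    exact congrArg PK.res (Subtype.ext hm1.symm)
  rw [e3, hm2, eval_map, eval_map, ← hres₁ p, ← hres₂ p, e₁, e₂, Units.val_mul, Units.val_pow_eq_pow_val]

/-- **(g2) at a purely inseparable place**: `res (N u) = res₃(u) ^ q`. -/
theorem hasRes_norm_insep (hinj : Function.Injective (algebraMap O K))
    (ι : O →+* Fk) (q : ℕ) [Fact q.Prime] [CharP Fk q] (f : O[X]) (hf : f.Monic) {θ : L}
    (hθ : aeval θ f = 0)
    (hdeg : f.natDegree = Module.finrank K L) (hgen : Algebra.adjoin K {θ} = ⊤)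
    (θ₃ : Fk) (hsplit : f.map ι = X ^ q - C (θ₃ ^ q))
    (P₃ : H46.ResPlace L Fk) (PK : H46.ResPlace K Fk)
    (hPK : ∀ m : O, ∃ h : algebraMap O K m ∈ PK.O1, PK.res ⟨_, h⟩ = ι m)
    (hmem₃ : ∀ p : O[X], aeval θ p ∈ P₃.O1)
    (hres₃ : ∀ p : O[X], P₃.res ⟨aeval θ p, hmem₃ p⟩ = p.eval₂ ι θ₃)
    (hint : ∀ u : L, u ∈ P₃.O1 → ∃ p : O[X], u = aeval θ p)
    (u : L) (s₃ : Fkˣ) (h₃ : P₃.HasRes u s₃) :
    PK.HasRes (Algebra.norm K u) (s₃ ^ q) := by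
  obtain ⟨hu₃, e₃⟩ := h₃
  obtain ⟨p, rfl⟩ := hint u hu₃
  obtain ⟨m, hm1, hm2⟩ := exists_norm_aeval_reduction_insep (K := K) (L := L) hinj ι q f hf hθ
    hdeg hgen θ₃ hsplit p
  obtain ⟨hmem, hres⟩ := hPK m
  rw [hm1] at hmem
  refine ⟨hmem, ?_⟩
  have e3 : PK.res ⟨Algebra.norm K (aeval θ p), hmem⟩ = ι m := by
    rw [← hres]
    exact congrArg PK.res (Subtype.ext hm1.symm)
  rw [e3, hm2, eval_map, ← hres₃ p, e₃, Units.val_pow_eq_pow_val]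

end Fermat.Agent.S36.H16
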