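/-
helper17 — S36: the chart data `Rk U Ω hrel hid hUOm` of `H17_RegQTC` / `H17_OmegaTC` /
`H9.middleUnit_of_rows` (LEVEL `q L` block) for ANY second package reached by a ring homomorphism
`φ : chartB A₁ (JN M) →+* B''` (e.g. `φ := H95.chartBC_JK E (ℓ * M) ℓ _`, the E-level chart 1 of
`S35.H70.exists_twoComponentsE_JK`, whose `ι'' = φ.comp ι`, `V'' = φ.comp V`): push-forward of
`exists_chart_data_JK`.
-/
import Mathlib
import Fermat.Agent.S36.H17_OmegaInst

set_option autoImplicit false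
set_option linter.unusedSectionVars false
set_option linter.style.haveILetI false
set_option synthInstance.maxHeartbeats 400000
set_option maxHeartbeats 3200000

noncomputable section

namespace Fermat.Agent.S36.H17

open ModularCurve Polynomial IsLocalRing Fermat.Agent.S28
open Fermat.Agent.S18 Fermat.Agent.S34 Fermat.Agent.S34.H92 Fermat.Agent.S34.H16
open Fermat.Agent.S34.H55

local notation "Qbar" => AlgebraicClosure ℚ

section Hom

variable (M : ℕ) [NeZero M] {ℓ : ℕ} [hℓ : Fact ℓ.Prime]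
  (A : ValuationSubring Qbar)

local notation "A₁" => H45.A0 A ℓ
local notation "L₁" => H45.unrCyclo ℓ

/-- **Chart data along a ring homomorphism.**  `ι'' := φ.comp ι`, `V'' := φ.comp V`. -/
theorem exists_chart_data_of_hom {B'' : Type*} [CommRing B'']
    (φ : ↥(H40.chartB A₁ (JN M (ℓ := ℓ))) →+* B'')
    (D : ModularPolynomialData ℓ) (Rk : ℤ[X][X])
    (hRk : D.Φ = kronMain ℓ + C (C (ℓ : ℤ)) * Rk) :
    ∃ U Om : B'',
      ((φ.comp (chartMap (VMN M (ℓ := ℓ)) (VMN_algebraMap M A) (hVint1 M A))) (psi0 M A) -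
          (φ.comp (chartMap (iotaMN M (ℓ := ℓ)) (iotaMN_algebraMap M A) (hιint1 M A)))
            (psi0 M A) ^ ℓ) *
        ((φ.comp (chartMap (VMN M (ℓ := ℓ)) (VMN_algebraMap M A) (hVint1 M A))) (psi0 M A) ^ ℓ -
          (φ.comp (chartMap (iotaMN M (ℓ := ℓ)) (iotaMN_algebraMap M A) (hιint1 M A)))
            (psi0 M A)) +
        ((ℓ : ℕ) : B'') *
          Rk.eval₂ (evalAt ((φ.comp (chartMap (iotaMN M (ℓ := ℓ)) (iotaMN_algebraMap M A)
            (hιint1 M A))) (psi0 M A)))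
            ((φ.comp (chartMap (VMN M (ℓ := ℓ)) (VMN_algebraMap M A) (hVint1 M A)))
              (psi0 M A)) = 0 ∧
      phiXVal Rk ℓ (evalAt ((φ.comp (chartMap (iotaMN M (ℓ := ℓ)) (iotaMN_algebraMap M A)
            (hιint1 M A))) (psi0 M A)))
            ((φ.comp (chartMap (VMN M (ℓ := ℓ)) (VMN_algebraMap M A) (hVint1 M A)))
              (psi0 M A)) ^ 6 *
          ((φ.comp (chartMap (VMN M (ℓ := ℓ)) (VMN_algebraMap M A) (hVint1 M A))) (psi0 M A) ^ 4 *
            ((φ.comp (chartMap (VMN M (ℓ := ℓ)) (VMN_algebraMap M A) (hVint1 M A))) (psi0 M A)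
              - 1728) ^ 3) * U =
        ((ℓ : ℕ) : B'') ^ 6 *
          (phiYVal Rk ℓ (evalAt ((φ.comp (chartMap (iotaMN M (ℓ := ℓ)) (iotaMN_algebraMap M A)
            (hιint1 M A))) (psi0 M A)))
            ((φ.comp (chartMap (VMN M (ℓ := ℓ)) (VMN_algebraMap M A) (hVint1 M A)))
              (psi0 M A)) ^ 6 *
          ((φ.comp (chartMap (iotaMN M (ℓ := ℓ)) (iotaMN_algebraMap M A) (hιint1 M A)))
              (psi0 M A) ^ 4 *
            ((φ.comp (chartMap (iotaMN M (ℓ := ℓ)) (iotaMN_algebraMap M A) (hιint1 M A)))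
              (psi0 M A) - 1728) ^ 3)) ∧
      U * Om = ((ℓ : ℕ) : B'') ^ 12 := by
  obtain ⟨U, Om, -, -, hrel, hid, hUOm⟩ := exists_chart_data_JK M A D Rk hRk
  refine ⟨φ U, φ Om, ?_, ?_, ?_⟩
  · exact map_rel φ ℓ Rk _ _ hrel
  · exact map_id φ ℓ Rk _ _ _ hid
  · rw [← map_mul, hUOm, map_pow, map_natCast]

end Hom

end Fermat.Agent.S36.H17
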