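/-
S36 / (M2e), helper8: the hypothesis `hWT` of helper54's contract
`S36.H54.not_mem_of_identities` AT THE REAL TYPES of the unramified level (S34.H55 vocabulary):

* `D := integralClosure kA[w] in Fk(M)` (`w = j̄` on chart 1, `w = j̄⁻¹` on chart 2),
* `T := LaurentSeries kA`, `D → T` the inclusion `inclk ∘ coe`,
* `W := S34.H55.WR (FrM M A hA) ℓ hFrw`, `W_T := qExpand kA ℓ`.

Everything is generic in `w` and `hFrw : FrM w = w ^ ℓ`, so both charts are covered by
`hFrw := S34.H55.hFrx M A hA` resp. `S34.H55.hFrx_inv M A hA`.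

* `inclk_WR` : the raw identity `inclk (WR .. d) = qExpand kA ℓ (inclk d)` (no instance).
* `algDT` : the `Algebra D T` structure (a `def`, to be used as a local instance), with
  `algDT_algebraMap` (`rfl`), `algDT_injective`, and `hWT_real` = `hWT` VERBATIM in the contract
  spelling `W_T (algebraMap D T d) = algebraMap D T (W d)`.
* `inclk_WR_pow`, `WR_eq_pow` : `W d = (ρ d) ^ ℓ`-type facts are NOT needed here; only the
  compatibility with products/powers, which is `map_pow`.
-/
import Fermat.Agent.S34.H55_L0Final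

set_option autoImplicit false
set_option linter.unusedSectionVars false
set_option linter.style.haveILetI false
set_option synthInstance.maxHeartbeats 400000

noncomputable section

namespace Fermat.Agent.S36.H8

open ModularCurve Polynomial IsLocalRing
open Fermat.Agent.S18 Fermat.Agent.S34 Fermat.Agent.S34.H55

local notation "Qbar" => AlgebraicClosure ℚ

section WT

variable (M : ℕ) [NeZero M] {ℓ : ℕ} [hℓ : Fact ℓ.Prime]
  (A : ValuationSubring Qbar) (hA : A.LiesOverPrime ℓ)

local notation "kA" => IsLocalRing.ResidueField A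
local notation "FkM" => modularFunctionFieldFullC (IsLocalRing.ResidueField A) M

/-- **`hWT`, raw form**: the inclusion `Fk(M) ⊆ kA((t))` intertwines `WR (FrM ..)` on the branch
ring with the substitution `t ↦ t ^ ℓ`. Generic in the chart coordinate `w`. -/
theorem inclk_WR {w : FkM} (hFrw : FrM M A hA w = w ^ ℓ)
    (d : ↥(integralClosure (Algebra.adjoin kA {w}) FkM)) :
    inclk M A ((WR (FrM M A hA) ℓ hFrw d :
        ↥(integralClosure (Algebra.adjoin kA {w}) FkM)) : FkM) =
      qExpand kA ℓ (inclk M A (d : FkM)) := rfl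

/-- the `Algebra D T` structure `D ⊆ Fk(M) ⊆ kA((t))` (use as a LOCAL instance:
`letI := H8.algDT M A w`). -/
abbrev algDT (w : FkM) :
    Algebra ↥(integralClosure (Algebra.adjoin kA {w}) FkM) (LaurentSeries kA) :=
  (((inclk M A : FkM →ₐ[kA] LaurentSeries kA) : FkM →+* LaurentSeries kA).comp
    ((integralClosure (Algebra.adjoin kA {w}) FkM).val :
      ↥(integralClosure (Algebra.adjoin kA {w}) FkM) →+* FkM)).toAlgebra

theorem algDT_algebraMap (w : FkM) (d : ↥(integralClosure (Algebra.adjoin kA {w}) FkM)) :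
    @algebraMap _ _ _ _ (algDT M A w) d = inclk M A (d : FkM) := rfl

theorem algDT_injective (w : FkM) :
    Function.Injective (@algebraMap ↥(integralClosure (Algebra.adjoin kA {w}) FkM)
      (LaurentSeries kA) _ _ (algDT M A w)) := by
  intro a b hab
  apply Subtype.ext
  apply Subtype.ext
  exact hab

/-- **`hWT` at the real types, contract spelling** (`S36.H54.not_mem_of_identities`):
`W_T (algebraMap D T d) = algebraMap D T (W d)` with `W_T := qExpand kA ℓ`,
`W := WR (FrM M A hA) ℓ hFrw`. -/
theorem hWT_real {w : FkM} (hFrw : FrM M A hA w = w ^ ℓ)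
    (d : ↥(integralClosure (Algebra.adjoin kA {w}) FkM)) :
    qExpand kA ℓ (@algebraMap _ _ _ _ (algDT M A w) d) =
      @algebraMap _ _ _ _ (algDT M A w) (WR (FrM M A hA) ℓ hFrw d) := rfl

/-- chart 1 (`w = j̄`). -/
theorem hWT_JK (d : ↥(integralClosure (Algebra.adjoin kA {S18.H16.jK kA M}) FkM)) :
    qExpand kA ℓ (@algebraMap _ _ _ _ (algDT M A (S18.H16.jK kA M)) d) =
      @algebraMap _ _ _ _ (algDT M A (S18.H16.jK kA M))
        (WR (FrM M A hA) ℓ (hFrx M A hA) d) := rfl

/-- chart 2 (`w = j̄⁻¹`). -/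
theorem hWT_JK_inv (d : ↥(integralClosure (Algebra.adjoin kA {(S18.H16.jK kA M)⁻¹}) FkM)) :
    qExpand kA ℓ (@algebraMap _ _ _ _ (algDT M A (S18.H16.jK kA M)⁻¹) d) =
      @algebraMap _ _ _ _ (algDT M A (S18.H16.jK kA M)⁻¹)
        (WR (FrM M A hA) ℓ (hFrx_inv M A hA) d) := rfl

end WT

end Fermat.Agent.S36.H8
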