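/-
helper17 — S36, (R-Om): the hypothesis `HOm` of `S36.H54.exists_pair_of_crossing` /
`regular_of_transfer` at the real types of `S35.H55.exists_l0Pkg`, chart 1, in the contract spelling
(`T := LaurentSeries kA`, `Algebra D T := H8.algDT`, `W_T := qExpand kA ℓ`, `Δb := DeltaS kA`).
-/
import Mathlib
import Fermat.Agent.S36.H17_OmegaInst
import Fermat.Agent.S36.H8_WTReal

set_option autoImplicit false
set_option linter.unusedSectionVars false
set_option linter.style.haveILetI false
set_option synthInstance.maxHeartbeats 400000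
set_option maxHeartbeats 3200000

noncomputable section

namespace Fermat.Agent.S36.H17

open ModularCurve Polynomial IsLocalRing Fermat.Agent.S28
open Fermat.Agent.S18 Fermat.Agent.S34 Fermat.Agent.S34.H92 Fermat.Agent.S34.H16
open Fermat.Agent.S34.H55

local notation "Qbar" => AlgebraicClosure ℚ

section Real

variable (M : ℕ) [NeZero M] {ℓ : ℕ} [hℓ : Fact ℓ.Prime] (hℓM : ¬ ℓ ∣ M)
  (A : ValuationSubring Qbar) (hA : A.LiesOverPrime ℓ)

local notation "kA" => IsLocalRing.ResidueField A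
local notation "A₁" => H45.A0 A ℓ
local notation "L₁" => H45.unrCyclo ℓ
local notation "FN" => modularFunctionFieldFullC (H45.unrCyclo ℓ) (ℓ * M)
local notation "FkM" => modularFunctionFieldFullC (IsLocalRing.ResidueField A) M
local notation "RM" => integralClosure
  (Algebra.adjoin (IsLocalRing.ResidueField A) {S18.H16.jK (IsLocalRing.ResidueField A) M})
  (modularFunctionFieldFullC (IsLocalRing.ResidueField A) M)

include hℓM hA in
/-- **`HOm` at the real types** (contract spelling of `S36.H54.exists_pair_of_crossing`). -/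
theorem hOm_real (Pi : PlaceInf M hℓM A hA) (P0 : PlaceZero M hℓM A hA)
    (red₁ red₂ : ↥(H40.chartB A₁ (JN M (ℓ := ℓ))) →+* ↥RM)
    (TC : H83.TwoComponents red₁ red₂
      (chartMap (iotaMN M (ℓ := ℓ)) (iotaMN_algebraMap M A) (hιint1 M A))
      (chartMap (VMN M (ℓ := ℓ)) (VMN_algebraMap M A) (hVint1 M A))
      (rbarB (Mod M hℓM A hA) (Mod M hℓM A hA).x_mem (Mod M hℓM A hA).res1_x)
      (WR (FrM M A hA) ℓ (hFrx M A hA)) ℓ
      (algebraMap A₁ ↥(H40.chartB A₁ (JN M (ℓ := ℓ))) ((ℓ : ℕ) : A₁)))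
    (hF : Fermat.Agent.S35.H55.L0ChartFacts M hℓM A hA Pi P0 red₁ red₂) :
    ∃ Om : ↥(H40.chartB A₁ (JN M (ℓ := ℓ))), red₂ Om = 0 ∧
      qExpand kA ℓ (DeltaS kA) *
        @algebraMap ↥RM (LaurentSeries kA) _ _
          (Fermat.Agent.S36.H8.algDT M A (S18.H16.jK kA M)) (red₁ Om) = DeltaS kA := by
  obtain ⟨U, Om, -, -, -, -, -, h3, -, h5⟩ := exists_omega_JK M hℓM A hA Pi P0 red₁ red₂ TC hF
  exact ⟨Om, h3, h5⟩

end Real

end Fermat.Agent.S36.H17
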