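/-
helper19: S36, seam (OVL): a closed point of the second chart `chartB R j⁻¹` at which `j⁻¹` does not
vanish is a closed point of the first chart `chartB R j`, with the same local ring inside `F`.

`S34.H21` keeps the closed points of the two charts as a disjoint sum
`ClosedPt B₁ π ⊕ ClosedPt B₂ π`; nothing identifies the points of the overlap.  For S36 the local
analysis (rows (M2e), (M3), (M4)) is done with elements of the first chart only, so the
non-cuspidal points of the second chart have to be transported to the first one.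

* `exists_mul_eval₂_eq_one`, `exists_inv_eq_eval₂` : elementary algebraicity lemmas;
* `exists_poly_mul_sub_one_mem` : `j⁻¹` is invertible modulo `n₂` by a polynomial in `j⁻¹`;
* `exists_overlap_ideal` : the ideal `n₁` of the first chart, maximal, with the dictionary
  `j⁻ᴺ b ∈ n₂ ↔ b ∈ n₁` and `jᴹ c ∈ n₁ ↔ c ∈ n₂`;
* `exists_locSubring_eq` : `H21.locSubring n₁ = H21.locSubring n₂`;
* `exists_closedPt_inl_eq` : the `H21.ptO` form.
-/
import Mathlib
import Fermat.Agent.S34.H3_VerticalCharts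
import Fermat.Agent.S34.H21_ModelHypCharts

set_option autoImplicit false

namespace Fermat.Agent.S36.H19

open Polynomial Fermat.Agent.S18 Fermat.Agent.S34

/-! ### 1. Two elementary algebraicity lemmas -/

section Alg

variable {R κ : Type*} [CommRing R] [Field κ]

/-- If `x ≠ 0` is a root of a polynomial over `R` one of whose coefficients survives in the field
`κ`, and every element of `R` that survives in `κ` is a unit, then `x⁻¹` is a polynomial in `x`. -/
theorem exists_mul_eval₂_eq_one (f : R →+* κ) (hf : ∀ c : R, f c ≠ 0 → IsUnit c) {x : κ}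
    (hx : x ≠ 0) :
    ∀ (n : ℕ) (P : R[X]), P.natDegree ≤ n → (∃ i, f (P.coeff i) ≠ 0) → P.eval₂ f x = 0 →
      ∃ Q : R[X], x * Q.eval₂ f x = 1 := by
  intro n
  induction n with
  | zero =>
    intro P hdeg hi hP
    exfalso
    obtain ⟨i, hi⟩ := hi
    have hC : P = C (P.coeff 0) := eq_C_of_natDegree_le_zero hdeg
    rcases Nat.eq_zero_or_pos i with rfl | hpos
    · rw [hC, eval₂_C] at hP
      exact hi hP
    · apply hi
      rw [hC, coeff_C, if_neg hpos.ne', map_zero]
  | succ n ih =>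
    intro P hdeg hi hP
    have hdiv : P.eval₂ f x = x * (divX P).eval₂ f x + f (P.coeff 0) := by
      conv_lhs => rw [← X_mul_divX_add P]
      rw [eval₂_add, eval₂_mul, eval₂_X, eval₂_C]
    by_cases h0 : f (P.coeff 0) = 0
    · have h1 : (divX P).eval₂ f x = 0 := by
        rw [hdiv, h0, add_zero] at hP
        exact (mul_eq_zero.mp hP).resolve_left hx
      obtain ⟨i, hi⟩ := hi
      have hi0 : i ≠ 0 := by
        rintro rfl
        exact hi h0
      obtain ⟨k, rfl⟩ := Nat.exists_eq_succ_of_ne_zero hi0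
      refine ih (divX P) ?_ ⟨k, by rwa [coeff_divX]⟩ h1
      rw [natDegree_divX_eq_natDegree_tsub_one]
      omega
    · obtain ⟨u, hu⟩ := hf _ h0
      refine ⟨-(C ((u⁻¹ : Rˣ) : R)) * divX P, ?_⟩
      have h1 : x * (divX P).eval₂ f x = -f (P.coeff 0) := by
        rw [hdiv] at hP
        exact eq_neg_of_add_eq_zero_left hP
      have h2 : f ((u⁻¹ : Rˣ) : R) * f (P.coeff 0) = 1 := by
        rw [← map_mul, ← hu, Units.inv_mul, map_one]
      rw [eval₂_mul, eval₂_neg, eval₂_C]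
      calc x * (-f ((u⁻¹ : Rˣ) : R) * (divX P).eval₂ f x)
          = -f ((u⁻¹ : Rˣ) : R) * (x * (divX P).eval₂ f x) := by ring
        _ = 1 := by rw [h1]; linear_combination h2

/-- If `τ⁻¹` is a polynomial in `τ` then `τ` is a polynomial in `τ⁻¹`. -/
theorem exists_inv_eq_eval₂ (f : R →+* κ) (hf : ∀ c : R, f c ≠ 0 → IsUnit c) {τ ι : κ}
    (h : ι * τ = 1) (g : R[X]) (hg : τ * g.eval₂ f τ = 1) :
    ∃ Q : R[X], ι * Q.eval₂ f ι = 1 := by
  have hτ0 : τ ≠ 0 := right_ne_zero_of_mul_eq_one h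
  have hι0 : ι ≠ 0 := left_ne_zero_of_mul_eq_one h
  let _ : Invertible τ := ⟨ι, h, by rw [mul_comm]; exact h⟩
  set N := g.natDegree + 1 with hN
  set P0 : R[X] := X * g - 1 with hP0
  have hdeg : P0.natDegree ≤ N := by
    rw [hP0]
    refine (natDegree_sub_le _ _).trans ?_
    rw [natDegree_one, max_le_iff]
    refine ⟨?_, Nat.zero_le _⟩
    refine natDegree_mul_le.trans ?_
    have hX : (X : R[X]).natDegree ≤ 1 := natDegree_X_le
    omega
  have hev : P0.eval₂ f τ = 0 := by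
    rw [hP0, eval₂_sub, eval₂_mul, eval₂_X, eval₂_one, hg, sub_self]
  have h1 := eval₂_reflect_mul_pow f τ N P0 hdeg
  rw [hev] at h1
  have h2 : (reflect N P0).eval₂ f ι = 0 := by
    have : (⅟τ : κ) = ι := rfl
    rw [this] at h1
    exact (mul_eq_zero.mp h1).resolve_right (pow_ne_zero _ hτ0)
  refine exists_mul_eval₂_eq_one f hf hι0 (max N P0.natDegree) (reflect N P0)
    natDegree_reflect_le ⟨N, ?_⟩ h2
  rw [coeff_reflect, revAt_le le_rfl, Nat.sub_self, hP0, coeff_sub, mul_coeff_zero, coeff_X_zero,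
    zero_mul, coeff_one_zero, zero_sub, map_neg, map_one]
  exact neg_ne_zero.mpr one_ne_zero

end Alg

/-! ### 2. The coordinate of a chart is invertible modulo a maximal ideal by a polynomial -/

section Coord

variable (R : Type*) [CommRing R] {F : Type*} [Field F] [Algebra R F]

/-- The coordinate `x` as an element of the chart `chartB R x`. -/
def chartCoord (x : F) : ↥(H40.chartB R x) := ⟨x, H40.self_mem_chartB x⟩

@[simp] theorem coe_chartCoord (x : F) : ((chartCoord R x : ↥(H40.chartB R x)) : F) = x := rfl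

variable {R}

/-- At a maximal ideal `n` of the chart `chartB R x` not containing the coordinate `x`, the inverse
of `x` modulo `n` is a polynomial in `x` (`R[x] / (n ∩ R[x])` is a field). -/
theorem exists_poly_mul_sub_one_mem (x : F) (n : Ideal ↥(H40.chartB R x)) [hn : n.IsMaximal]
    (hx : chartCoord R x ∉ n) :
    ∃ g : R[X], chartCoord R x * aeval (chartCoord R x) g - 1 ∈ n := by
  let ι : ↥(Algebra.adjoin R {x}) →ₐ[R] ↥(H40.chartB R x) :=
    Subalgebra.inclusion (H40.adjoin_le_chartB x)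
  have hint : ι.toRingHom.IsIntegral := by
    intro b
    obtain ⟨p, hpm, hp⟩ := H40.mem_chartB.1 b.2
    refine ⟨p, hpm, ?_⟩
    apply Subtype.ext
    have h1 := Polynomial.hom_eval₂ p ι.toRingHom (H40.chartB R x).val.toRingHom b
    have h2 : ((H40.chartB R x).val.toRingHom.comp ι.toRingHom) =
        algebraMap ↥(Algebra.adjoin R {x}) F := by
      ext a; rfl
    rw [h2] at h1
    have h3 : ((p.eval₂ ι.toRingHom b : ↥(H40.chartB R x)) : F) =
        (H40.chartB R x).val.toRingHom (p.eval₂ ι.toRingHom b) := rfl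
    rw [h3, h1]
    exact hp
  haveI hmax : (n.comap ι.toRingHom).IsMaximal :=
    Ideal.isMaximal_comap_of_isIntegral_of_isMaximal' ι.toRingHom hint n
  let tA : ↥(Algebra.adjoin R {x}) := ⟨x, Algebra.self_mem_adjoin_singleton R x⟩
  have hιt : ι tA = chartCoord R x := Subtype.ext rfl
  have htA : tA ∉ n.comap ι.toRingHom := by
    intro h
    apply hx
    rw [← hιt]
    exact h
  obtain ⟨y, i, hi, hyi⟩ := hmax.exists_inv htA
  have hy : ∀ z : F, z ∈ Algebra.adjoin R {x} → ∃ g : R[X], aeval x g = z := by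
    intro z hz
    rw [Algebra.adjoin_singleton_eq_range_aeval] at hz
    exact hz
  obtain ⟨g, hg⟩ := hy _ y.2
  refine ⟨g, ?_⟩
  have hιy : aeval (chartCoord R x) g = ι y := by
    apply Subtype.ext
    rw [chartCoord, coe_aeval_mk_apply]
    exact hg
  have hkey : chartCoord R x * aeval (chartCoord R x) g - 1 = ι (-i) := by
    rw [hιy, ← hιt, ← map_mul, ← map_one ι, ← map_sub]
    congr 1
    rw [← hyi]
    ring
  rw [hkey, map_neg]
  exact n.neg_mem hi

end Coord

/-! ### 3. The abstract residue map on the first chart -/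

section Abstract

variable {R B₁ B₂ C κ : Type*} [CommRing R] [CommRing B₁] [CommRing B₂] [CommRing C] [Field κ]
  [Algebra R B₁] [Algebra R B₂] [Algebra B₂ C]

/-- `C = B₂[1/t₂]` receives `B₁`, `t₁ t₂ = 1` in `C`, every element of `B₂` becomes an element of
`B₁` after multiplication by a power of `t₁`; `φ₂ : B₂ → κ` onto a field with `φ₂ t₂ ≠ 0` whose
inverse is a polynomial in `φ₂ t₂` over `R`, and the elements of `R` surviving in `κ` are units.
Then `φ₂` extends to `L : C → κ` and `L ∘ i₁ : B₁ → κ` is ONTO. -/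
theorem exists_lift_surjective (i₁ : B₁ →+* C) (t₁ : B₁) (t₂ : B₂) [IsLocalization.Away t₂ C]
    (h12 : i₁ t₁ * algebraMap B₂ C t₂ = 1)
    (hR : ∀ r : R, i₁ (algebraMap R B₁ r) = algebraMap B₂ C (algebraMap R B₂ r))
    (hcl : ∀ c : B₂, ∃ (M : ℕ) (c₁ : B₁), i₁ c₁ = i₁ t₁ ^ M * algebraMap B₂ C c)
    (φ₂ : B₂ →+* κ) (hφ : Function.Surjective φ₂) (ht : φ₂ t₂ ≠ 0)
    (hloc : ∀ c : R, φ₂ (algebraMap R B₂ c) ≠ 0 → IsUnit c)
    (g : R[X]) (hg : φ₂ t₂ * φ₂ (aeval t₂ g) = 1) :
    ∃ L : C →+* κ, (∀ c : B₂, L (algebraMap B₂ C c) = φ₂ c) ∧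
      Function.Surjective (L.comp i₁) := by
  have hτu : IsUnit (φ₂ t₂) := isUnit_iff_ne_zero.2 ht
  refine ⟨IsLocalization.Away.lift t₂ hτu, fun c => IsLocalization.Away.lift_eq t₂ hτu c, ?_⟩
  set L : C →+* κ := IsLocalization.Away.lift t₂ hτu with hL
  have hlift : ∀ c : B₂, L (algebraMap B₂ C c) = φ₂ c :=
    fun c => IsLocalization.Away.lift_eq t₂ hτu c
  have hιτ : L (i₁ t₁) * φ₂ t₂ = 1 := by
    rw [← hlift, ← map_mul, h12, map_one]
  have hι0 : L (i₁ t₁) ≠ 0 := left_ne_zero_of_mul_eq_one hιτ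
  let f : R →+* κ := φ₂.comp (algebraMap R B₂)
  have hgτ : φ₂ t₂ * g.eval₂ f (φ₂ t₂) = 1 := by
    have h1 : φ₂ (aeval t₂ g) = g.eval₂ f (φ₂ t₂) := by
      rw [aeval_def, Polynomial.hom_eval₂]
    rw [← h1]
    exact hg
  obtain ⟨Q, hQ⟩ := exists_inv_eq_eval₂ f hloc hιτ g hgτ
  have hψf : ((L.comp i₁).comp (algebraMap R B₁)) = f := by
    refine RingHom.ext fun r => ?_
    show L (i₁ (algebraMap R B₁ r)) = φ₂ (algebraMap R B₂ r)
    rw [hR, hlift]
  have hg₁ : L (i₁ (aeval t₁ Q)) = φ₂ t₂ := by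
    have h1 : (L.comp i₁) (aeval t₁ Q) = Q.eval₂ f ((L.comp i₁) t₁) := by
      rw [aeval_def, Polynomial.hom_eval₂, hψf]
    have h2 : L (i₁ t₁) * L (i₁ (aeval t₁ Q)) = L (i₁ t₁) * φ₂ t₂ := by
      rw [hιτ]
      exact h1 ▸ hQ
    exact mul_left_cancel₀ hι0 h2
  intro y
  obtain ⟨c, rfl⟩ := hφ y
  obtain ⟨M, c₁, hc₁⟩ := hcl c
  refine ⟨c₁ * aeval t₁ Q ^ M, ?_⟩
  show L (i₁ (c₁ * aeval t₁ Q ^ M)) = φ₂ c
  rw [map_mul, map_mul, map_pow, map_pow, hc₁, map_mul, map_pow, hlift, hg₁]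
  calc L (i₁ t₁) ^ M * φ₂ c * φ₂ t₂ ^ M = (L (i₁ t₁) * φ₂ t₂) ^ M * φ₂ c := by ring
    _ = φ₂ c := by rw [hιτ, one_pow, one_mul]

end Abstract

/-! ### 4. The overlap ideal -/

section Overlap

variable {R : Type*} [CommRing R] {F : Type*} [Field F] [Algebra R F]

/-- the inclusion of the first chart in the overlap chart. -/
def incl₁ (j : F) : ↥(H40.chartB R j) →+* ↥(H83.chart12 R j) :=
  (Subalgebra.inclusion (H83.chartB_le_chart12 (R := R) j)).toRingHom

/-- the inclusion of the second chart in the overlap chart. -/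
def incl₂ (j : F) : ↥(H40.chartB R j⁻¹) →+* ↥(H83.chart12 R j) :=
  (Subalgebra.inclusion (H83.chartB_inv_le_chart12 (R := R) j)).toRingHom

theorem coe_incl₁ (j : F) (b : ↥(H40.chartB R j)) : ((incl₁ j b : ↥(H83.chart12 R j)) : F) = b :=
  Subalgebra.coe_inclusion (H83.chartB_le_chart12 (R := R) j) b

theorem coe_incl₂ (j : F) (c : ↥(H40.chartB R j⁻¹)) :
    ((incl₂ j c : ↥(H83.chart12 R j)) : F) = c :=
  Subalgebra.coe_inclusion (H83.chartB_inv_le_chart12 (R := R) j) c

theorem incl₁_mul_incl₂ (j : F) (hj : j ≠ 0) :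
    incl₁ j (chartCoord R j) * incl₂ j (chartCoord R j⁻¹) = 1 := by
  apply Subtype.ext
  rw [Subalgebra.coe_mul, coe_incl₁, coe_incl₂, coe_chartCoord, coe_chartCoord,
    Subalgebra.coe_one, mul_inv_cancel₀ hj]

theorem incl₁_algebraMap (j : F) (r : R) :
    incl₁ j (algebraMap R ↥(H40.chartB R j) r) =
      incl₂ j (algebraMap R ↥(H40.chartB R j⁻¹) r) := by
  apply Subtype.ext
  rw [coe_incl₁, coe_incl₂, Subalgebra.coe_algebraMap, Subalgebra.coe_algebraMap]

theorem incl₂_mk (j : F) (b : ↥(H40.chartB R j)) (N : ℕ)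
    (hb : j⁻¹ ^ N * (b : F) ∈ H40.chartB R j⁻¹) :
    incl₂ j ⟨j⁻¹ ^ N * (b : F), hb⟩ = incl₂ j (chartCoord R j⁻¹) ^ N * incl₁ j b := by
  apply Subtype.ext
  rw [Subalgebra.coe_mul, Subalgebra.coe_pow, coe_incl₁, coe_incl₂, coe_incl₂, coe_chartCoord]

theorem incl₁_mk (j : F) (c : ↥(H40.chartB R j⁻¹)) (M : ℕ)
    (hc : j ^ M * (c : F) ∈ H40.chartB R j) :
    incl₁ j ⟨j ^ M * (c : F), hc⟩ = incl₁ j (chartCoord R j) ^ M * incl₂ j c := by
  apply Subtype.ext
  rw [Subalgebra.coe_mul, Subalgebra.coe_pow, coe_incl₁, coe_incl₁, coe_incl₂, coe_chartCoord]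

/-- **The overlap ideal.**  `n₂` a maximal ideal of the second chart `chartB R j⁻¹` not containing
`j⁻¹`, such that every element of `R` outside `n₂` is a unit of `R` (e.g. `R` local and `n₂` over its
maximal ideal).  Then the contraction `n₁` of `n₂` to the first chart `chartB R j` (through the
overlap `chart12 R j`) is MAXIMAL, and membership in `n₁` and `n₂` correspond after clearing
powers of `j`. -/
theorem exists_overlap_ideal (j : F) (hj : j ≠ 0) (n₂ : Ideal ↥(H40.chartB R j⁻¹))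
    [hn₂ : n₂.IsMaximal] (hjn : chartCoord R j⁻¹ ∉ n₂)
    (hloc : ∀ c : R, algebraMap R ↥(H40.chartB R j⁻¹) c ∉ n₂ → IsUnit c) :
    ∃ n₁ : Ideal ↥(H40.chartB R j), n₁.IsMaximal ∧ chartCoord R j ∉ n₁ ∧
      (∀ r : R, algebraMap R ↥(H40.chartB R j) r ∈ n₁ ↔
        algebraMap R ↥(H40.chartB R j⁻¹) r ∈ n₂) ∧
      (∀ (b : ↥(H40.chartB R j)) (N : ℕ) (hb : j⁻¹ ^ N * (b : F) ∈ H40.chartB R j⁻¹),
        (⟨j⁻¹ ^ N * (b : F), hb⟩ : ↥(H40.chartB R j⁻¹)) ∈ n₂ ↔ b ∈ n₁) ∧
      (∀ (c : ↥(H40.chartB R j⁻¹)) (M : ℕ) (hc : j ^ M * (c : F) ∈ H40.chartB R j),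
        (⟨j ^ M * (c : F), hc⟩ : ↥(H40.chartB R j)) ∈ n₁ ↔ c ∈ n₂) := by
  classical
  letI : Field (↥(H40.chartB R j⁻¹) ⧸ n₂) := Ideal.Quotient.field n₂
  letI alg₂ : Algebra ↥(H40.chartB R j⁻¹) ↥(H83.chart12 R j) := (incl₂ j).toAlgebra
  haveI hloc₂ : IsLocalization.Away (chartCoord R j⁻¹) ↥(H83.chart12 R j) :=
    H3.isLocalization_chart12_inv (R := R) j hj
  have hφ0 : ∀ c, Ideal.Quotient.mk n₂ c = 0 ↔ c ∈ n₂ := fun c => Ideal.Quotient.eq_zero_iff_mem
  obtain ⟨g, hg⟩ := exists_poly_mul_sub_one_mem (R := R) j⁻¹ n₂ hjn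
  have hg' : Ideal.Quotient.mk n₂ (chartCoord R j⁻¹) *
      Ideal.Quotient.mk n₂ (aeval (chartCoord R j⁻¹) g) = 1 := by
    have h2 := (hφ0 _).2 hg
    rw [map_sub, map_one, sub_eq_zero, map_mul] at h2
    exact h2
  obtain ⟨L, hL, hsurj⟩ := exists_lift_surjective (R := R) (incl₁ j) (chartCoord R j)
    (chartCoord R j⁻¹) (incl₁_mul_incl₂ j hj) (incl₁_algebraMap j)
    (fun c => by
      obtain ⟨M, hM⟩ := H40.chart_hloc (R := R) j hj c.2
      exact ⟨M, ⟨j ^ M * (c : F), hM⟩, incl₁_mk j c M hM⟩)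
    (Ideal.Quotient.mk n₂) Ideal.Quotient.mk_surjective (fun h => hjn ((hφ0 _).1 h))
    (fun c hc => hloc c fun hmem => hc ((hφ0 _).2 hmem)) g hg'
  have hL' : ∀ c : ↥(H40.chartB R j⁻¹), L (incl₂ j c) = Ideal.Quotient.mk n₂ c := hL
  have hιτ : L (incl₁ j (chartCoord R j)) * Ideal.Quotient.mk n₂ (chartCoord R j⁻¹) = 1 := by
    rw [← hL', ← map_mul, incl₁_mul_incl₂ j hj, map_one]
  have hτ0 : Ideal.Quotient.mk n₂ (chartCoord R j⁻¹) ≠ 0 := right_ne_zero_of_mul_eq_one hιτ
  have hι0 : L (incl₁ j (chartCoord R j)) ≠ 0 := left_ne_zero_of_mul_eq_one hιτ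
  refine ⟨RingHom.ker (L.comp (incl₁ j)), RingHom.ker_isMaximal_of_surjective _ hsurj,
    ?_, ?_, ?_, ?_⟩
  · rw [RingHom.mem_ker]
    exact hι0
  · intro r
    rw [RingHom.mem_ker, RingHom.comp_apply, incl₁_algebraMap, hL', hφ0]
  · intro b N hb
    rw [RingHom.mem_ker, RingHom.comp_apply, ← hφ0, ← hL', incl₂_mk, map_mul, map_pow, hL',
      mul_eq_zero]
    constructor
    · rintro (h | h)
      · exact absurd h (pow_ne_zero _ hτ0)
      · exact h
    · exact fun h => Or.inr h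
  · intro c M hc
    rw [RingHom.mem_ker, RingHom.comp_apply, incl₁_mk, map_mul, map_pow, hL', mul_eq_zero, hφ0]
    constructor
    · rintro (h | h)
      · exact absurd h (pow_ne_zero _ hι0)
      · exact h
    · exact fun h => Or.inr h

/-- a power of `j⁻¹` moves an element of the first chart into the second one, and the exponent may
be increased. -/
theorem exists_inv_pow_mul_mem (j : F) (hj : j ≠ 0) {y : F} (hy : y ∈ H40.chartB R j) :
    ∃ N : ℕ, ∀ k, j⁻¹ ^ (N + k) * y ∈ H40.chartB R j⁻¹ := by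
  have hy' : y ∈ H40.chartB R j⁻¹⁻¹ := by rw [inv_inv]; exact hy
  obtain ⟨N, hN⟩ := H40.chart_hloc (R := R) j⁻¹ (inv_ne_zero hj) hy'
  refine ⟨N, fun k => ?_⟩
  have e : j⁻¹ ^ (N + k) * y = j⁻¹ ^ k * (j⁻¹ ^ N * y) := by rw [pow_add]; ring
  rw [e]
  exact mul_mem (pow_mem (H40.self_mem_chartB j⁻¹) k) hN

/-- a power of `j` moves an element of the second chart into the first one, and the exponent may
be increased. -/
theorem exists_pow_mul_mem (j : F) (hj : j ≠ 0) {y : F} (hy : y ∈ H40.chartB R j⁻¹) :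
    ∃ N : ℕ, ∀ k, j ^ (N + k) * y ∈ H40.chartB R j := by
  obtain ⟨N, hN⟩ := H40.chart_hloc (R := R) j hj hy
  refine ⟨N, fun k => ?_⟩
  have e : j ^ (N + k) * y = j ^ k * (j ^ N * y) := by rw [pow_add]; ring
  rw [e]
  exact mul_mem (pow_mem (H40.self_mem_chartB j) k) hN

/-- **Overlap transfer, local-ring form.**  A closed point `n₂` of the second chart with
`j⁻¹ ∉ n₂` is a closed point `n₁` of the first chart: the two local rings coincide inside `F`. -/
theorem exists_locSubring_eq (j : F) (hj : j ≠ 0)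
    [IsFractionRing ↥(H40.chartB R j) F] [IsFractionRing ↥(H40.chartB R j⁻¹) F]
    (n₂ : Ideal ↥(H40.chartB R j⁻¹)) [hn₂ : n₂.IsMaximal] (hjn : chartCoord R j⁻¹ ∉ n₂)
    (hloc : ∀ c : R, algebraMap R ↥(H40.chartB R j⁻¹) c ∉ n₂ → IsUnit c) :
    ∃ (n₁ : Ideal ↥(H40.chartB R j)) (hn₁ : n₁.IsMaximal), chartCoord R j ∉ n₁ ∧
      (∀ r : R, algebraMap R ↥(H40.chartB R j) r ∈ n₁ ↔
        algebraMap R ↥(H40.chartB R j⁻¹) r ∈ n₂) ∧
      (haveI := hn₁.isPrime; H21.locSubring (F := F) n₁) =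
        (haveI := hn₂.isPrime; H21.locSubring (F := F) n₂) := by
  obtain ⟨n₁, hn₁, hj₁, hR, h12, h21⟩ := exists_overlap_ideal j hj n₂ hjn hloc
  refine ⟨n₁, hn₁, hj₁, hR, ?_⟩
  haveI := hn₁.isPrime
  haveI := hn₂.isPrime
  ext x
  rw [H21.mem_locSubring, H21.mem_locSubring]
  constructor
  · rintro ⟨a, s, hs, has⟩
    obtain ⟨Na, hNa⟩ := exists_inv_pow_mul_mem (R := R) j hj a.2
    obtain ⟨Ns, hNs⟩ := exists_inv_pow_mul_mem (R := R) j hj s.2
    have ha' : j⁻¹ ^ (Na + Ns) * (a : F) ∈ H40.chartB R j⁻¹ := hNa Ns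
    have hs' : j⁻¹ ^ (Na + Ns) * (s : F) ∈ H40.chartB R j⁻¹ := by
      rw [add_comm]; exact hNs Na
    refine ⟨⟨_, ha'⟩, ⟨_, hs'⟩, fun hmem => hs ((h12 s _ hs').1 hmem), ?_⟩
    show x * (j⁻¹ ^ (Na + Ns) * (s : F)) = j⁻¹ ^ (Na + Ns) * (a : F)
    have has' : x * (s : F) = (a : F) := has
    rw [← has']
    ring
  · rintro ⟨a, s, hs, has⟩
    obtain ⟨Na, hNa⟩ := exists_pow_mul_mem (R := R) j hj a.2
    obtain ⟨Ns, hNs⟩ := exists_pow_mul_mem (R := R) j hj s.2
    have ha' : j ^ (Na + Ns) * (a : F) ∈ H40.chartB R j := hNa Ns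
    have hs' : j ^ (Na + Ns) * (s : F) ∈ H40.chartB R j := by
      rw [add_comm]; exact hNs Na
    refine ⟨⟨_, ha'⟩, ⟨_, hs'⟩, fun hmem => hs ((h21 s _ hs').1 hmem), ?_⟩
    show x * (j ^ (Na + Ns) * (s : F)) = j ^ (Na + Ns) * (a : F)
    have has' : x * (s : F) = (a : F) := has
    rw [← has']
    ring

end Overlap

/-! ### 5. `B_n ⊆ F` is the localisation of `B` at `n`; transfer of unique factorisation -/

section UFM

variable {B F : Type*} [CommRing B] [IsDomain B] [Field F] [Algebra B F] [IsFractionRing B F]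

/-- the structure map `B → B_n ⊆ F`. -/
def toLocSubring (n : Ideal B) [n.IsPrime] : B →+* ↥(H21.locSubring (F := F) n) :=
  (algebraMap B F).codRestrict _ (H21.algebraMap_mem_locSubring n)

theorem coe_toLocSubring (n : Ideal B) [n.IsPrime] (b : B) :
    ((toLocSubring (F := F) n b : ↥(H21.locSubring (F := F) n)) : F) = algebraMap B F b := rfl

/-- `H21.locSubring n` IS the localisation of `B` at the prime `n`. -/
theorem isLocalization_locSubring (n : Ideal B) [hn : n.IsPrime] :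
    @IsLocalization B _ n.primeCompl ↥(H21.locSubring (F := F) n) _
      (toLocSubring (F := F) n).toAlgebra := by
  letI : Algebra B ↥(H21.locSubring (F := F) n) := (toLocSubring (F := F) n).toAlgebra
  have halg : ∀ b : B, algebraMap B ↥(H21.locSubring (F := F) n) b = toLocSubring (F := F) n b :=
    fun _ => rfl
  have hinj : Function.Injective (algebraMap B F) := IsFractionRing.injective B F
  refine ⟨?_, ?_, ?_⟩
  · rintro ⟨s, hs⟩
    have hs0 : algebraMap B F s ≠ 0 := by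
      intro h
      apply hs
      have : s = 0 := hinj (by rw [h, map_zero])
      rw [this]
      exact n.zero_mem
    have hmem : (algebraMap B F s)⁻¹ ∈ H21.locSubring (F := F) n :=
      ⟨1, s, hs, by rw [map_one, inv_mul_cancel₀ hs0]⟩
    refine IsUnit.of_mul_eq_one ⟨_, hmem⟩ ?_
    apply Subtype.ext
    rw [Subring.coe_mul, halg, coe_toLocSubring, Subring.coe_one]
    exact mul_inv_cancel₀ hs0
  · rintro ⟨x, a, s, hs, has⟩
    refine ⟨(a, ⟨s, hs⟩), ?_⟩
    apply Subtype.ext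
    rw [Subring.coe_mul, halg, halg, coe_toLocSubring, coe_toLocSubring]
    exact has
  · intro a b hab
    refine ⟨1, ?_⟩
    have h1 : algebraMap B F a = algebraMap B F b := by
      have := congrArg (fun z : ↥(H21.locSubring (F := F) n) => (z : F)) hab
      simpa only [halg, coe_toLocSubring] using this
    rw [hinj h1]

/-- `Localization.AtPrime n ≃+* B_n ⊆ F`. -/
noncomputable def locSubringEquiv (n : Ideal B) [n.IsPrime] :
    Localization.AtPrime n ≃+* ↥(H21.locSubring (F := F) n) :=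
  letI : Algebra B ↥(H21.locSubring (F := F) n) := (toLocSubring (F := F) n).toAlgebra
  haveI : IsLocalization n.primeCompl ↥(H21.locSubring (F := F) n) :=
    isLocalization_locSubring (F := F) n
  (IsLocalization.algEquiv n.primeCompl (Localization.AtPrime n)
    ↥(H21.locSubring (F := F) n)).toRingEquiv

/-- Unique factorisation of the local ring depends only on the local ring as a subring of `F`. -/
theorem ufm_localization_of_locSubring_eq {B' : Type*} [CommRing B'] [IsDomain B'] [Algebra B' F]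
    [IsFractionRing B' F] (n : Ideal B) [n.IsPrime] (n' : Ideal B') [n'.IsPrime]
    (h : H21.locSubring (F := F) n = H21.locSubring (F := F) n')
    (hU : UniqueFactorizationMonoid (Localization.AtPrime n)) :
    UniqueFactorizationMonoid (Localization.AtPrime n') :=
  (((locSubringEquiv (F := F) n).trans (RingEquiv.subringCongr h)).trans
    (locSubringEquiv (F := F) n').symm).toMulEquiv.uniqueFactorizationMonoid hU

end UFM

/-! ### 6. The `H21.ptO` form over a discrete valuation ring -/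

section TwoCharts

variable {R K0 F : Type*} [CommRing R] [IsDomain R] [IsDiscreteValuationRing R]
  [Field K0] [Algebra R K0] [IsFractionRing R K0]
  [Field F] [Algebra R F] [Algebra K0 F] [IsScalarTower R K0 F]

/-- over a DVR with uniformiser `π`, a constant outside a prime containing `π` is a unit. -/
theorem isUnit_of_algebraMap_not_mem {B : Type*} [CommRing B] [Algebra R B] {π : R}
    (hπ : Irreducible π) (n : Ideal B) (hπn : algebraMap R B π ∈ n) (c : R)
    (hc : algebraMap R B c ∉ n) : IsUnit c := by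
  by_contra hcu
  have h1 : c ∈ IsLocalRing.maximalIdeal R := (IsLocalRing.mem_maximalIdeal c).2 hcu
  rw [hπ.maximalIdeal_eq, Ideal.mem_span_singleton] at h1
  obtain ⟨d, rfl⟩ := h1
  apply hc
  rw [map_mul]
  exact n.mul_mem_right _ hπn

/-- **Overlap transfer (OVL), `H21.ptO` form.**  A closed point `n₂` of the special fibre of the
second chart `chartB R j⁻¹` at which `j⁻¹` does not vanish (a NON-CUSPIDAL point, for `j` a
`j`-type coordinate) is a closed point `n₁` of the special fibre of the first chart `chartB R j`: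
the two local rings of the model coincide. -/
theorem exists_closedPt_inl_eq (j : F) (hj : j ≠ 0)
    [IsFractionRing ↥(H40.chartB R j) F] [IsFractionRing ↥(H40.chartB R j⁻¹) F]
    {π : R} (hπ : Irreducible π) (n₂ : H21.ClosedPt (H40.chartB R j⁻¹) π)
    (hjn : chartCoord R j⁻¹ ∉ n₂.1) :
    ∃ n₁ : H21.ClosedPt (H40.chartB R j) π, chartCoord R j ∉ n₁.1 ∧
      H21.ptO (H40.chartB R j) (H40.chartB R j⁻¹) π (Sum.inl n₁) =
        H21.ptO (H40.chartB R j) (H40.chartB R j⁻¹) π (Sum.inr n₂) := by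
  haveI := n₂.2.1
  obtain ⟨n₁, hn₁, hj₁, hR, heq⟩ := exists_locSubring_eq (R := R) j hj n₂.1 hjn
    (isUnit_of_algebraMap_not_mem hπ n₂.1 n₂.2.2)
  exact ⟨⟨n₁, hn₁, (hR π).2 n₂.2.2⟩, hj₁, heq⟩

/-- **Overlap transfer (OVL), unique-factorisation form** (= the hypothesis `hU₂` of
`S36.H21.exists_unitIn_ptO_div_pow` at the NON-CUSPIDAL closed points of the second chart, from
`hU₁`). -/
theorem ufm_localization_of_overlap (j : F) (hj : j ≠ 0)
    [IsFractionRing ↥(H40.chartB R j) F] [IsFractionRing ↥(H40.chartB R j⁻¹) F]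
    {π : R} (hπ : Irreducible π)
    (hU₁ : ∀ (n : Ideal ↥(H40.chartB R j)) [n.IsPrime], n.IsMaximal →
      algebraMap R ↥(H40.chartB R j) π ∈ n → UniqueFactorizationMonoid (Localization.AtPrime n))
    (n₂ : Ideal ↥(H40.chartB R j⁻¹)) [hp₂ : n₂.IsPrime] (hn₂ : n₂.IsMaximal)
    (hπ₂ : algebraMap R ↥(H40.chartB R j⁻¹) π ∈ n₂) (hjn : chartCoord R j⁻¹ ∉ n₂) :
    UniqueFactorizationMonoid (Localization.AtPrime n₂) := by
  obtain ⟨n₁, hn₁, -, hR, heq⟩ := exists_locSubring_eq (R := R) j hj n₂ hjn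
    (isUnit_of_algebraMap_not_mem hπ n₂ hπ₂)
  haveI := hn₁.isPrime
  exact ufm_localization_of_locSubring_eq (F := F) n₁ n₂ heq (hU₁ n₁ hn₁ ((hR π).2 hπ₂))

end TwoCharts

end Fermat.Agent.S36.H19
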