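/-
helper46 -- S36 (Carayol), row (E5-bc), real types: **`Dominates` and `DenseIn` along helper70's
chart base change** `chartB A₁ J₁ → chartB A'' (baseChangeE J₁)` (`A₁ = A0 A ℓ`,
`A'' = cutOver A E`), for a vertical prime `P = ker red` of the `A₁`-chart and its extension
`Q = ker (S35.H70.redE red)` to the `A''`-chart.

These are the inputs `dV hdV dWF dWV` of `S36.H46.towerValU_alpha_of_baseChange` /
`towerValU_beta_of_baseChange` (at `K = unrCyclo ℓ`, `K' = ↥E`, `φ = algebraMap`,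
`H99.fullCMap φ N = H45.baseChangeE E N`).
-/
import Mathlib
import Fermat.Agent.S36.H46_TowerValBC
import Fermat.Agent.S35.H70_TwoComponentsBCInst

set_option autoImplicit false
set_option linter.unusedSectionVars false
set_option linter.style.haveILetI false
set_option synthInstance.maxHeartbeats 400000
set_option maxHeartbeats 3200000

noncomputable section

namespace Fermat.Agent.S36.H46

open ModularCurve IsLocalRing
open Fermat.Agent.S18 Fermat.Agent.CA Fermat.Agent.S34 Fermat.Agent.S35.H70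

local notation "Qbar" => AlgebraicClosure ℚ

variable {A : ValuationSubring Qbar} {ℓ : ℕ} (hℓ : ℓ.Prime) (hA : A.LiesOverPrime ℓ)
variable (E : IntermediateField (H45.unrCyclo ℓ) Qbar) (N : ℕ) [NeZero N]
variable (J₁ : ↥(modularFunctionFieldFullC ↥(H45.unrCyclo ℓ) N))
  (π : ↥(H45.cutOver A E)) (hπ : maximalIdeal ↥(H45.cutOver A E) = Ideal.span {π})
  (h : GenBy (A := A) E N J₁) {R₀ : Type*} [CommRing R₀]
  (red : ↥(H40.chartB ↥(H45.A0 A ℓ) J₁) →+* R₀)
  (hq : red (algebraMap ↥(H45.A0 A ℓ) ↥(H40.chartB ↥(H45.A0 A ℓ) J₁)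
    ((ℓ : ℕ) : ↥(H45.A0 A ℓ))) = 0)

include hℓ hA hπ h in
/-- **The decomposition `C = ψ B + π C`** of the `A''`-chart (`ψ = chartMapE`). -/
theorem exists_eq_chartMapE_add_mul
    (z : ↥(H40.chartB ↥(H45.cutOver A E) (H45.baseChangeE E N J₁))) :
    ∃ (b : ↥(H40.chartB ↥(H45.A0 A ℓ) J₁))
      (z' : ↥(H40.chartB ↥(H45.cutOver A E) (H45.baseChangeE E N J₁))),
      z = S34.H70.chartMapE (A := A) E N J₁ b +
        algebraMap ↥(H45.cutOver A E)
          ↥(H40.chartB ↥(H45.cutOver A E) (H45.baseChangeE E N J₁)) π * z' := by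
  letI := S34.H70.algA0FE (A := A) E N
  letI := S34.H70.algSubFE (A := A) E N (H40.chartB ↥(H45.A0 A ℓ) J₁)
  haveI := S34.H70.isScalarTower_A0_cutOver_FE (A := A) (q := ℓ) E N
  haveI := S34.H70.isScalarTower_A0_sub_FE (A := A) (q := ℓ) E N (H40.chartB ↥(H45.A0 A ℓ) J₁)
  obtain ⟨b, r', hr⟩ := exists_eq_add_mul (A₁ := ↥(H45.A0 A ℓ))
    (E := ↥(modularFunctionFieldFullC ↥E N)) π (S34.H70.h1_inst hℓ hA E π hπ)
    (chartGenEquiv (A := A) E N J₁ h z)
  have hr'mem : (r' : ↥(modularFunctionFieldFullC ↥E N)) ∈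
      H40.chartB ↥(H45.cutOver A E) (H45.baseChangeE E N J₁) :=
    (mem_chartB_iff_mem_genRing (A := A) E N J₁ h _).2 r'.2
  refine ⟨b, ⟨r', hr'mem⟩, Subtype.ext ?_⟩
  have := congrArg Subtype.val hr
  exact this

variable [IsFractionRing ↥(H40.chartB ↥(H45.A0 A ℓ) J₁)
    ↥(modularFunctionFieldFullC ↥(H45.unrCyclo ℓ) N)]
  [IsNoetherianRing ↥(H40.chartB ↥(H45.A0 A ℓ) J₁)]
  [IsIntegrallyClosed ↥(H40.chartB ↥(H45.A0 A ℓ) J₁)]
  [IsFractionRing ↥(H40.chartB ↥(H45.cutOver A E) (H45.baseChangeE E N J₁))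
    ↥(modularFunctionFieldFullC ↥E N)]
  [IsNoetherianRing ↥(H40.chartB ↥(H45.cutOver A E) (H45.baseChangeE E N J₁))]
  [IsIntegrallyClosed ↥(H40.chartB ↥(H45.cutOver A E) (H45.baseChangeE E N J₁))]
  (P : Ideal ↥(H40.chartB ↥(H45.A0 A ℓ) J₁)) [P.IsPrime] (hP : P.height = 1)
  (hPker : P = RingHom.ker red)
  (Q : Ideal ↥(H40.chartB ↥(H45.cutOver A E) (H45.baseChangeE E N J₁))) [Q.IsPrime]
  (hQ : Q.height = 1) (hQker : Q = RingHom.ker (redE hℓ hA E N J₁ π hπ h red hq))

include hPker hQker in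
theorem chartMapE_mem_iff (b : ↥(H40.chartB ↥(H45.A0 A ℓ) J₁)) :
    S34.H70.chartMapE (A := A) E N J₁ b ∈ Q ↔ b ∈ P := by
  rw [hPker, hQker, RingHom.mem_ker, RingHom.mem_ker, redE_chartMapE]

include hPker hQker in
/-- **`Dominates` along the chart base change.** -/
theorem dominates_chartE :
    Dominates (H45.baseChangeE E N)
      (H56.valuationSubringAt
        (K := ↥(modularFunctionFieldFullC ↥(H45.unrCyclo ℓ) N)) P hP)
      (H56.valuationSubringAt (K := ↥(modularFunctionFieldFullC ↥E N)) Q hQ) :=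
  dominates_of_chart (S34.H70.chartMapE (A := A) E N J₁) (H45.baseChangeE E N)
    (fun _ => rfl) P hP Q hQ
    (chartMapE_mem_iff hℓ hA E N J₁ π hπ h red hq P hPker Q hQker)

include hPker hQker in
/-- **`DenseIn` along the chart base change** (trivial residue extension). -/
theorem denseIn_chartE :
    DenseIn (H45.baseChangeE E N)
      (H56.valuationSubringAt
        (K := ↥(modularFunctionFieldFullC ↥(H45.unrCyclo ℓ) N)) P hP)
      (H56.valuationSubringAt (K := ↥(modularFunctionFieldFullC ↥E N)) Q hQ) := by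
  refine denseIn_of_chart (S34.H70.chartMapE (A := A) E N J₁) (H45.baseChangeE E N)
    (fun _ => rfl) P hP Q hQ
    (chartMapE_mem_iff hℓ hA E N J₁ π hπ h red hq P hPker Q hQker)
    (algebraMap ↥(H45.cutOver A E)
      ↥(H40.chartB ↥(H45.cutOver A E) (H45.baseChangeE E N J₁)) π) ?_
    (exists_eq_chartMapE_add_mul hℓ hA E N J₁ π hπ h)
  rw [hQker, RingHom.mem_ker]
  have := redE_pi_mul hℓ hA E N J₁ π hπ h red hq 1
  rwa [mul_one] at this

end Fermat.Agent.S36.H46
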