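/-
helper1 — S36 row (r3)/(E5-bc), instance layer, file 1 (offered by helper46 #3564/#3579):
**heights of the extended vertical primes WITHOUT any Two/ThreeComponents input, and the
`Dominates`/`DenseIn` pair of `S36/H46_DominatesReal.lean` in the CONSUMER form**
`(J₁, J_E, hJ : baseChangeE E N J₁ = J_E)` for an ARBITRARY `r''` on the `A''`-chart `chartB A'' J_E`
with the characterising properties exported by `S36.H70.exists_threeComponents_chartBC(_unram)` /
`S35.H70.exists_twoComponents_chartBC` (`r'' ∘ chartBC = red`, `r'' π = 0`).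

Generic (Mathlib + `S34.H3.height_eq_one_of_mem_minimalPrimes`):
* `ker_mem_minimalPrimes_of_dec`, `height_ker_eq_one_of_dec` : `ψ : B → C`, `red'' ∘ ψ = red`,
  `red'' π = 0`, `C = ψ B + π C`, `ψ ℓ ∈ (π)`, `ℓ ≠ 0`, `ker red` of height one ⟹ `ker red''` is a
  minimal prime over `(π)`, of height one (`C` noetherian domain, `π ≠ 0`).

`redE` form (binder block of `S35.H70.redE` / `S36.H46.dominates_chartE`):
* `ker_redE_mem_minimalPrimes`, `height_ker_redE`;
* `eq_redE_of_comp` : a ring hom on the `A''`-chart that is `red` on the image of the `A₁`-chart and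
  kills `π` IS `redE red` (no hypothesis on the constants).

Consumer form (`J_E`-spelled chart, helper95's `S34.H95.chartBC`):
* `height_ker_of_chartBC`, `dominates_chartBC`, `denseIn_chartBC`.

With these the six chart instances needed are EXACTLY helper95's landed
`S36.H95.isNoetherianRing/isFractionRing/isIntegrallyClosed_chartB_J3K(_A0)` (level `q(qL)`) and
`S34.H95.*_chartB_JK(_A0)` (level `qL`), with `hJ := baseChangeE_J3K` resp. `baseChangeE_JK`; see
`S36/H1_R3InstJ3.lean` for the calls with all instances discharged.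
-/
import Mathlib
import Fermat.Agent.S36.H46_DominatesReal
import Fermat.Agent.S35.H70_TwoComponentsBCFinal
import Fermat.Agent.S34.H95_ChartBC
import Fermat.Agent.S34.H3_VerticalSingle

set_option autoImplicit false
set_option linter.unusedSectionVars false
set_option linter.style.haveILetI false
set_option synthInstance.maxHeartbeats 400000
set_option maxHeartbeats 3200000

noncomputable section

namespace Fermat.Agent.S36.H1R3

open ModularCurve IsLocalRing
open Fermat.Agent.S18 Fermat.Agent.CA Fermat.Agent.S34 Fermat.Agent.S35.H70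

local notation "Qbar" => AlgebraicClosure ℚ

section Generic

variable {B C R₀ : Type*} [CommRing B] [IsDomain B] [CommRing C] [CommRing R₀] [IsDomain R₀]

theorem ker_mem_minimalPrimes_of_dec (ψ : B →+* C) (red : B →+* R₀) (red'' : C →+* R₀)
    (hcomp : ∀ b, red'' (ψ b) = red b) (π : C) (hπ : red'' π = 0)
    (hdec : ∀ z : C, ∃ b : B, ∃ z' : C, z = ψ b + π * z')
    (ℓ : B) (hℓ0 : ℓ ≠ 0) (hℓ : ψ ℓ ∈ Ideal.span {π})
    (hP : (RingHom.ker red).height = 1) :
    RingHom.ker red'' ∈ (Ideal.span {π} : Ideal C).minimalPrimes := by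
  haveI : (RingHom.ker red'').IsPrime := RingHom.ker_isPrime red''
  haveI : (RingHom.ker red).IsPrime := RingHom.ker_isPrime red
  refine ⟨⟨inferInstance, ?_⟩, ?_⟩
  · rw [Ideal.span_singleton_le_iff_mem, RingHom.mem_ker]
    exact hπ
  · rintro Q' ⟨hQ'prime, hπQ'⟩ hQ'le
    haveI := hQ'prime
    rw [Ideal.span_singleton_le_iff_mem] at hπQ'
    set P' : Ideal B := Q'.comap ψ with hP'
    haveI : P'.IsPrime := Ideal.comap_isPrime ψ Q'
    have hP'le : P' ≤ RingHom.ker red := by
      intro b hb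
      rw [RingHom.mem_ker, ← hcomp]
      exact (RingHom.mem_ker).1 (hQ'le hb)
    have hℓP' : ℓ ∈ P' := by
      rw [hP', Ideal.mem_comap]
      obtain ⟨c, hc⟩ := Ideal.mem_span_singleton'.1 hℓ
      rw [← hc]
      exact Ideal.mul_mem_left _ _ hπQ'
    have hP'ne : P' ≠ ⊥ := fun h => hℓ0 (by rw [h] at hℓP'; simpa using hℓP')
    have hfin : P'.FiniteHeight := ⟨Or.inr (ne_top_of_le_ne_top (by rw [hP]; exact ENat.one_ne_top)
      (Ideal.height_mono hP'le))⟩
    have h1 : 1 ≤ P'.height := by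
      rw [Order.one_le_iff_pos, pos_iff_ne_zero, Ne, Ideal.height_eq_zero_iff_eq_bot]
      exact hP'ne
    have hPP' : P' = RingHom.ker red :=
      Ideal.eq_of_le_of_height_le P' hP'le (by rw [hP]; exact h1)
    intro z hz
    obtain ⟨b, z', rfl⟩ := hdec z
    have hb : b ∈ RingHom.ker red := by
      rw [RingHom.mem_ker, ← hcomp]
      have := (RingHom.mem_ker).1 hz
      rw [map_add, map_mul, hπ, zero_mul, add_zero] at this
      exact this
    rw [← hPP'] at hb
    exact Ideal.add_mem _ hb (Ideal.mul_mem_right _ _ hπQ')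

theorem height_ker_eq_one_of_dec [IsDomain C] [IsNoetherianRing C]
    (ψ : B →+* C) (red : B →+* R₀) (red'' : C →+* R₀)
    (hcomp : ∀ b, red'' (ψ b) = red b) (π : C) (hπ0 : π ≠ 0) (hπ : red'' π = 0)
    (hdec : ∀ z : C, ∃ b : B, ∃ z' : C, z = ψ b + π * z')
    (ℓ : B) (hℓ0 : ℓ ≠ 0) (hℓ : ψ ℓ ∈ Ideal.span {π})
    (hP : (RingHom.ker red).height = 1) :
    (RingHom.ker red'').height = 1 :=
  S34.H3.height_eq_one_of_mem_minimalPrimes hπ0
    (ker_mem_minimalPrimes_of_dec ψ red red'' hcomp π hπ hdec ℓ hℓ0 hℓ hP)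

end Generic

section Real

variable {A : ValuationSubring Qbar} {ℓ : ℕ} (hℓ : ℓ.Prime) (hA : A.LiesOverPrime ℓ)
variable (E : IntermediateField (H45.unrCyclo ℓ) Qbar) (N : ℕ) [NeZero N]
variable (J₁ : ↥(modularFunctionFieldFullC ↥(H45.unrCyclo ℓ) N))
  (π : ↥(H45.cutOver A E)) (hπ : maximalIdeal ↥(H45.cutOver A E) = Ideal.span {π})
  (h : GenBy (A := A) E N J₁) {R₀ : Type*} [CommRing R₀] [IsDomain R₀]
  (red : ↥(H40.chartB ↥(H45.A0 A ℓ) J₁) →+* R₀)
  (hq : red (algebraMap ↥(H45.A0 A ℓ) ↥(H40.chartB ↥(H45.A0 A ℓ) J₁)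
    ((ℓ : ℕ) : ↥(H45.A0 A ℓ))) = 0)

include hℓ hA hπ h in
/-- **`ker (redE red)` is a minimal prime over `(π)`** as soon as `ker red` has height one. -/
theorem ker_redE_mem_minimalPrimes (hP : (RingHom.ker red).height = 1) :
    RingHom.ker (redE hℓ hA E N J₁ π hπ h red hq) ∈
      (Ideal.span {algebraMap ↥(H45.cutOver A E)
        ↥(H40.chartB ↥(H45.cutOver A E) (H45.baseChangeE E N J₁)) π}).minimalPrimes := by
  refine ker_mem_minimalPrimes_of_dec (S34.H70.chartMapE (A := A) E N J₁) red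
    (redE hℓ hA E N J₁ π hπ h red hq) (redE_chartMapE hℓ hA E N J₁ π hπ h red hq) _ ?_
    (S36.H46.exists_eq_chartMapE_add_mul hℓ hA E N J₁ π hπ h)
    (algebraMap ↥(H45.A0 A ℓ) ↥(H40.chartB ↥(H45.A0 A ℓ) J₁) ((ℓ : ℕ) : ↥(H45.A0 A ℓ)))
    ?_ ?_ hP
  · have := redE_pi_mul hℓ hA E N J₁ π hπ h red hq 1
    rwa [mul_one] at this
  · rw [map_natCast]
    exact Nat.cast_ne_zero.2 hℓ.ne_zero
  · obtain ⟨c, hc⟩ := S34.H70.h3_inst hℓ hA E π hπ
    rw [map_natCast] at hc
    have e' : S34.H70.chartMapE (A := A) E N J₁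
        (algebraMap ↥(H45.A0 A ℓ) ↥(H40.chartB ↥(H45.A0 A ℓ) J₁) ((ℓ : ℕ) : ↥(H45.A0 A ℓ))) =
        algebraMap ↥(H45.cutOver A E) ↥(H40.chartB ↥(H45.cutOver A E) (H45.baseChangeE E N J₁))
          ((ℓ : ℕ) : ↥(H45.cutOver A E)) := by
      rw [map_natCast, map_natCast, map_natCast]
    have e2 : algebraMap ↥(H45.cutOver A E)
        ↥(H40.chartB ↥(H45.cutOver A E) (H45.baseChangeE E N J₁)) ((ℓ : ℕ) : ↥(H45.cutOver A E)) =
        algebraMap ↥(H45.cutOver A E)
          ↥(H40.chartB ↥(H45.cutOver A E) (H45.baseChangeE E N J₁)) π *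
        algebraMap ↥(H45.cutOver A E)
          ↥(H40.chartB ↥(H45.cutOver A E) (H45.baseChangeE E N J₁)) c :=
      (congrArg _ hc).trans (map_mul _ _ _)
    have hmem : algebraMap ↥(H45.cutOver A E)
          ↥(H40.chartB ↥(H45.cutOver A E) (H45.baseChangeE E N J₁)) π *
        algebraMap ↥(H45.cutOver A E)
          ↥(H40.chartB ↥(H45.cutOver A E) (H45.baseChangeE E N J₁)) c ∈
        Ideal.span {algebraMap ↥(H45.cutOver A E)
          ↥(H40.chartB ↥(H45.cutOver A E) (H45.baseChangeE E N J₁)) π} :=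
      Ideal.mul_mem_right _ _ (Ideal.mem_span_singleton_self _)
    exact (congrArg (fun x => x ∈ Ideal.span {algebraMap ↥(H45.cutOver A E)
      ↥(H40.chartB ↥(H45.cutOver A E) (H45.baseChangeE E N J₁)) π}) (e'.trans e2)).mpr hmem

include hℓ hA hπ h in
/-- **`ker (redE red)` has height one** as soon as `ker red` has (no `ThreeComponents` input). -/
theorem height_ker_redE
    [IsNoetherianRing ↥(H40.chartB ↥(H45.cutOver A E) (H45.baseChangeE E N J₁))]
    (hπ0 : π ≠ 0) (hP : (RingHom.ker red).height = 1) :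
    (RingHom.ker (redE hℓ hA E N J₁ π hπ h red hq)).height = 1 := by
  refine S34.H3.height_eq_one_of_mem_minimalPrimes ?_
    (ker_redE_mem_minimalPrimes hℓ hA E N J₁ π hπ h red hq hP)
  intro h0
  apply hπ0
  have hinj : Function.Injective (algebraMap ↥(H45.cutOver A E)
      ↥(H40.chartB ↥(H45.cutOver A E) (H45.baseChangeE E N J₁))) := by
    intro x y hxy
    have := congrArg Subtype.val hxy
    exact Subtype.ext ((algebraMap ↥E ↥(modularFunctionFieldFullC ↥E N)).injective this)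
  exact hinj (by rw [h0, map_zero])

include hℓ hA hπ h in
/-- **Uniqueness of the extended reduction** (no hypothesis on the constants): a ring hom on the
`A''`-chart which is `red` on the image of the `A₁`-chart and kills `π` is `redE red`. -/
theorem eq_redE_of_comp
    (r'' : ↥(H40.chartB ↥(H45.cutOver A E) (H45.baseChangeE E N J₁)) →+* R₀)
    (hc : ∀ b, r'' (S34.H70.chartMapE (A := A) E N J₁ b) = red b)
    (hπ'' : r'' (algebraMap ↥(H45.cutOver A E)
      ↥(H40.chartB ↥(H45.cutOver A E) (H45.baseChangeE E N J₁)) π) = 0) :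
    r'' = redE hℓ hA E N J₁ π hπ h red hq := by
  refine RingHom.ext fun z => ?_
  obtain ⟨b, z', rfl⟩ := S36.H46.exists_eq_chartMapE_add_mul hℓ hA E N J₁ π hπ h z
  have e1 : r'' (S34.H70.chartMapE (A := A) E N J₁ b +
      algebraMap ↥(H45.cutOver A E)
        ↥(H40.chartB ↥(H45.cutOver A E) (H45.baseChangeE E N J₁)) π * z') =
      red b + 0 * r'' z' :=
    (map_add r'' _ _).trans
      (congrArg₂ (· + ·) (hc b) ((map_mul r'' _ _).trans (congrArg (· * r'' z') hπ'')))
  have e2 : redE hℓ hA E N J₁ π hπ h red hq (S34.H70.chartMapE (A := A) E N J₁ b +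
      algebraMap ↥(H45.cutOver A E)
        ↥(H40.chartB ↥(H45.cutOver A E) (H45.baseChangeE E N J₁)) π * z') = red b + 0 :=
    (map_add _ _ _).trans
      (congrArg₂ (· + ·) (redE_chartMapE hℓ hA E N J₁ π hπ h red hq b)
        (redE_pi_mul hℓ hA E N J₁ π hπ h red hq z'))
  exact e1.trans ((by rw [zero_mul] : red b + 0 * r'' z' = red b + 0).trans e2.symm)

end Real

/-! ### Consumer form `(J₁, J_E, hJ : baseChangeE E N J₁ = J_E)`, ARBITRARY `r''` with the
characterising properties exported by `S36.H70.exists_threeComponents_chartBC(_unram)` /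
`S35.H70.exists_twoComponents_chartBC` -/

section Consumer

variable {A : ValuationSubring Qbar} {ℓ : ℕ} (hℓ : ℓ.Prime) (hA : A.LiesOverPrime ℓ)
variable (E : IntermediateField (H45.unrCyclo ℓ) Qbar) (N : ℕ) [NeZero N]
variable (J₁ : ↥(modularFunctionFieldFullC ↥(H45.unrCyclo ℓ) N))
  (π : ↥(H45.cutOver A E)) (hπ : maximalIdeal ↥(H45.cutOver A E) = Ideal.span {π})
  (h : GenBy (A := A) E N J₁) {R₀ : Type*} [CommRing R₀] [IsDomain R₀]
  (red : ↥(H40.chartB ↥(H45.A0 A ℓ) J₁) →+* R₀)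
  (hq : red (algebraMap ↥(H45.A0 A ℓ) ↥(H40.chartB ↥(H45.A0 A ℓ) J₁)
    ((ℓ : ℕ) : ↥(H45.A0 A ℓ))) = 0)
  (J_E : ↥(modularFunctionFieldFullC ↥E N)) (hJ : H45.baseChangeE E N J₁ = J_E)
  (r'' : ↥(H40.chartB ↥(H45.cutOver A E) J_E) →+* R₀)
  (hc : ∀ b, r'' (S34.H95.chartBC (A := A) E N J₁ J_E hJ b) = red b)
  (hπ'' : r'' (algebraMap ↥(H45.cutOver A E) ↥(H40.chartB ↥(H45.cutOver A E) J_E) π) = 0)

include hℓ hA hπ h hq hc hπ'' in
/-- **`ker r''` has height one** (consumer form). -/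
theorem height_ker_of_chartBC [IsNoetherianRing ↥(H40.chartB ↥(H45.cutOver A E) J_E)]
    (hπ0 : π ≠ 0) (hP : (RingHom.ker red).height = 1) : (RingHom.ker r'').height = 1 := by
  subst hJ
  have e := eq_redE_of_comp hℓ hA E N J₁ π hπ h red hq r''
    (fun b => by rw [← chartBC_eq_chartMapE (A := A) E N J₁ rfl]; exact hc b) hπ''
  rw [e]
  exact height_ker_redE hℓ hA E N J₁ π hπ h red hq hπ0 hP

variable [IsFractionRing ↥(H40.chartB ↥(H45.A0 A ℓ) J₁)
    ↥(modularFunctionFieldFullC ↥(H45.unrCyclo ℓ) N)]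
  [IsNoetherianRing ↥(H40.chartB ↥(H45.A0 A ℓ) J₁)]
  [IsIntegrallyClosed ↥(H40.chartB ↥(H45.A0 A ℓ) J₁)]
  [IsFractionRing ↥(H40.chartB ↥(H45.cutOver A E) J_E) ↥(modularFunctionFieldFullC ↥E N)]
  [IsNoetherianRing ↥(H40.chartB ↥(H45.cutOver A E) J_E)]
  [IsIntegrallyClosed ↥(H40.chartB ↥(H45.cutOver A E) J_E)]
  (P : Ideal ↥(H40.chartB ↥(H45.A0 A ℓ) J₁)) [P.IsPrime] (hP : P.height = 1)
  (hPker : P = RingHom.ker red)
  (Q : Ideal ↥(H40.chartB ↥(H45.cutOver A E) J_E)) [Q.IsPrime]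
  (hQ : Q.height = 1) (hQker : Q = RingHom.ker r'')

include hℓ hA hπ h hq hc hπ'' hPker hQker in
/-- **`Dominates` along the chart base change, consumer form.** -/
theorem dominates_chartBC :
    S36.H46.Dominates (H45.baseChangeE E N)
      (H56.valuationSubringAt
        (K := ↥(modularFunctionFieldFullC ↥(H45.unrCyclo ℓ) N)) P hP)
      (H56.valuationSubringAt (K := ↥(modularFunctionFieldFullC ↥E N)) Q hQ) := by
  subst hJ
  have e := eq_redE_of_comp hℓ hA E N J₁ π hπ h red hq r''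
    (fun b => by rw [← chartBC_eq_chartMapE (A := A) E N J₁ rfl]; exact hc b) hπ''
  rw [e] at hQker
  exact S36.H46.dominates_chartE hℓ hA E N J₁ π hπ h red hq P hP hPker Q hQ hQker

include hℓ hA hπ h hq hc hπ'' hPker hQker in
/-- **`DenseIn` along the chart base change, consumer form.** -/
theorem denseIn_chartBC :
    S36.H46.DenseIn (H45.baseChangeE E N)
      (H56.valuationSubringAt
        (K := ↥(modularFunctionFieldFullC ↥(H45.unrCyclo ℓ) N)) P hP)
      (H56.valuationSubringAt (K := ↥(modularFunctionFieldFullC ↥E N)) Q hQ) := by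
  subst hJ
  have e := eq_redE_of_comp hℓ hA E N J₁ π hπ h red hq r''
    (fun b => by rw [← chartBC_eq_chartMapE (A := A) E N J₁ rfl]; exact hc b) hπ''
  rw [e] at hQker
  exact S36.H46.denseIn_chartE hℓ hA E N J₁ π hπ h red hq P hP hPker Q hQ hQker

end Consumer

end Fermat.Agent.S36.H1R3
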