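/-
helper1 — S36 row (r3)/(E5-bc), instance layer, file 2: the consumer forms of
`S36/H1_R3Inst.lean` (`height_ker_of_chartBC`, `dominates_chartBC`, `denseIn_chartBC`) AT THE TWO
PINNED CHART COORDINATES, with ALL SIX chart instances discharged (helper95's
`S36.H95.*_chartB_J3K(_A0)` resp. `S34.H95.*_chartB_JK(_A0)`), so that the calls for
`S36.H46.towerValU_alpha_of_baseChange` / `towerValU_beta_of_baseChange` are `exact`:

* level `N₂` (`q² ∣ N₂`), coordinate `J₃ = S36.H83.J3K`: `height_ker_J3K`, `dominates_J3K`,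
  `denseIn_J3K`  (the three `V i`);
* level `N₁` (`q ∣ N₁`), coordinate `J = S34.H95.JK` (`= S34.H55.JN` at `N₁ = ℓ * M`):
  `height_ker_JK`, `dominates_JK`, `denseIn_JK`  (`WF`, `WV`).

Inputs = exactly the outputs of `S36.H70.exists_threeComponents_chartBC(_unram)` resp.
`S35.H70.exists_twoComponents_chartBC`: `r''` on the `A''`-chart with `r'' ∘ chartBC = red`,
`r'' π = 0`.  The residue characteristic `ℓ` of `A` and the level prime `q` are independent here
(S36 uses `ℓ := q`).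
-/
import Mathlib
import Fermat.Agent.S36.H1_R3Inst
import Fermat.Agent.S36.H95_CoordJ3Inst
import Fermat.Agent.S34.H95_CoordJInst

set_option autoImplicit false
set_option linter.unusedSectionVars false
set_option linter.style.haveILetI false
set_option synthInstance.maxHeartbeats 400000
set_option maxHeartbeats 3200000

noncomputable section

namespace Fermat.Agent.S36.H1R3

open ModularCurve IsLocalRing
open Fermat.Agent.S18 Fermat.Agent.CA Fermat.Agent.S34 Fermat.Agent.S35.H70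

local notation "Qbar" => AlgebraicClosure ℚ

variable {A : ValuationSubring Qbar} {ℓ : ℕ} (hℓ : ℓ.Prime) (hA : A.LiesOverPrime ℓ)
variable (E : IntermediateField (H45.unrCyclo ℓ) Qbar) [FiniteDimensional (H45.unrCyclo ℓ) E]
  (N : ℕ) [NeZero N] (q : ℕ) [NeZero q]
  (π : ↥(H45.cutOver A E)) (hπ : maximalIdeal ↥(H45.cutOver A E) = Ideal.span {π})
  {R₀ : Type*} [CommRing R₀] [IsDomain R₀]

/-! ### Level `N₂`, coordinate `J₃` -/

section J3

variable (hq2 : q * q ∣ N)
  (h : GenBy (A := A) E N (S36.H83.J3K (H45.unrCyclo ℓ) N q hq2))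
  (red : ↥(H40.chartB ↥(H45.A0 A ℓ) (S36.H83.J3K (H45.unrCyclo ℓ) N q hq2)) →+* R₀)
  (hq : red (algebraMap ↥(H45.A0 A ℓ) _ ((ℓ : ℕ) : ↥(H45.A0 A ℓ))) = 0)
  (r'' : ↥(H40.chartB ↥(H45.cutOver A E) (S36.H83.J3K ↥E N q hq2)) →+* R₀)
  (hc : ∀ b, r'' (S34.H95.chartBC (A := A) E N _ _ (S36.H95.baseChangeE_J3K E N q hq2) b) = red b)
  (hπ'' : r'' (algebraMap ↥(H45.cutOver A E) _ π) = 0)

include hℓ hA hπ h hq hc hπ'' in
/-- height one of `ker r''` on the `J₃`-chart over `A''` from height one of `ker red`. -/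
theorem height_ker_J3K (hπ0 : π ≠ 0) (hP : (RingHom.ker red).height = 1) :
    (RingHom.ker r'').height = 1 := by
  haveI := S36.H95.isNoetherianRing_chartB_J3K hℓ hA E N q hq2
  exact height_ker_of_chartBC hℓ hA E N _ π hπ h red hq _
    (S36.H95.baseChangeE_J3K E N q hq2) r'' hc hπ'' hπ0 hP

include hℓ hA hπ h hq hc hπ'' in
/-- **`Dominates` at the coordinate `J₃`**, all chart instances discharged. -/
theorem dominates_J3K
    (P : Ideal ↥(H40.chartB ↥(H45.A0 A ℓ) (S36.H83.J3K (H45.unrCyclo ℓ) N q hq2))) [P.IsPrime]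
    (hP : P.height = 1) (hPker : P = RingHom.ker red)
    (Q : Ideal ↥(H40.chartB ↥(H45.cutOver A E) (S36.H83.J3K ↥E N q hq2))) [Q.IsPrime]
    (hQ : Q.height = 1) (hQker : Q = RingHom.ker r'') :
    haveI := S36.H95.isNoetherianRing_chartB_J3K_A0 hℓ hA N q hq2
    haveI := S36.H95.isFractionRing_chartB_J3K_A0 (A := A) (ℓ := ℓ) N q hq2
    haveI := S36.H95.isIntegrallyClosed_chartB_J3K_A0 (A := A) (ℓ := ℓ) N q hq2
    haveI := S36.H95.isNoetherianRing_chartB_J3K hℓ hA E N q hq2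
    haveI := S36.H95.isFractionRing_chartB_J3K (A := A) E N q hq2
    haveI := S36.H95.isIntegrallyClosed_chartB_J3K (A := A) E N q hq2
    S36.H46.Dominates (H45.baseChangeE E N)
      (H56.valuationSubringAt
        (K := ↥(modularFunctionFieldFullC ↥(H45.unrCyclo ℓ) N)) P hP)
      (H56.valuationSubringAt (K := ↥(modularFunctionFieldFullC ↥E N)) Q hQ) := by
  haveI := S36.H95.isNoetherianRing_chartB_J3K_A0 hℓ hA N q hq2
  haveI := S36.H95.isFractionRing_chartB_J3K_A0 (A := A) (ℓ := ℓ) N q hq2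
  haveI := S36.H95.isIntegrallyClosed_chartB_J3K_A0 (A := A) (ℓ := ℓ) N q hq2
  haveI := S36.H95.isNoetherianRing_chartB_J3K hℓ hA E N q hq2
  haveI := S36.H95.isFractionRing_chartB_J3K (A := A) E N q hq2
  haveI := S36.H95.isIntegrallyClosed_chartB_J3K (A := A) E N q hq2
  exact dominates_chartBC hℓ hA E N _ π hπ h red hq _
    (S36.H95.baseChangeE_J3K E N q hq2) r'' hc hπ'' P hP hPker Q hQ hQker

include hℓ hA hπ h hq hc hπ'' in
/-- **`DenseIn` at the coordinate `J₃`**, all chart instances discharged. -/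
theorem denseIn_J3K
    (P : Ideal ↥(H40.chartB ↥(H45.A0 A ℓ) (S36.H83.J3K (H45.unrCyclo ℓ) N q hq2))) [P.IsPrime]
    (hP : P.height = 1) (hPker : P = RingHom.ker red)
    (Q : Ideal ↥(H40.chartB ↥(H45.cutOver A E) (S36.H83.J3K ↥E N q hq2))) [Q.IsPrime]
    (hQ : Q.height = 1) (hQker : Q = RingHom.ker r'') :
    haveI := S36.H95.isNoetherianRing_chartB_J3K_A0 hℓ hA N q hq2
    haveI := S36.H95.isFractionRing_chartB_J3K_A0 (A := A) (ℓ := ℓ) N q hq2
    haveI := S36.H95.isIntegrallyClosed_chartB_J3K_A0 (A := A) (ℓ := ℓ) N q hq2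
    haveI := S36.H95.isNoetherianRing_chartB_J3K hℓ hA E N q hq2
    haveI := S36.H95.isFractionRing_chartB_J3K (A := A) E N q hq2
    haveI := S36.H95.isIntegrallyClosed_chartB_J3K (A := A) E N q hq2
    S36.H46.DenseIn (H45.baseChangeE E N)
      (H56.valuationSubringAt
        (K := ↥(modularFunctionFieldFullC ↥(H45.unrCyclo ℓ) N)) P hP)
      (H56.valuationSubringAt (K := ↥(modularFunctionFieldFullC ↥E N)) Q hQ) := by
  haveI := S36.H95.isNoetherianRing_chartB_J3K_A0 hℓ hA N q hq2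
  haveI := S36.H95.isFractionRing_chartB_J3K_A0 (A := A) (ℓ := ℓ) N q hq2
  haveI := S36.H95.isIntegrallyClosed_chartB_J3K_A0 (A := A) (ℓ := ℓ) N q hq2
  haveI := S36.H95.isNoetherianRing_chartB_J3K hℓ hA E N q hq2
  haveI := S36.H95.isFractionRing_chartB_J3K (A := A) E N q hq2
  haveI := S36.H95.isIntegrallyClosed_chartB_J3K (A := A) E N q hq2
  exact denseIn_chartBC hℓ hA E N _ π hπ h red hq _
    (S36.H95.baseChangeE_J3K E N q hq2) r'' hc hπ'' P hP hPker Q hQ hQker

end J3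

/-! ### Level `N₁`, coordinate `J = j · j_q` -/

section JK

variable (hqN : q ∣ N)
  (h : GenBy (A := A) E N (S34.H95.JK (H45.unrCyclo ℓ) N q hqN))
  (red : ↥(H40.chartB ↥(H45.A0 A ℓ) (S34.H95.JK (H45.unrCyclo ℓ) N q hqN)) →+* R₀)
  (hq : red (algebraMap ↥(H45.A0 A ℓ) _ ((ℓ : ℕ) : ↥(H45.A0 A ℓ))) = 0)
  (r'' : ↥(H40.chartB ↥(H45.cutOver A E) (S34.H95.JK ↥E N q hqN)) →+* R₀)
  (hc : ∀ b, r'' (S34.H95.chartBC (A := A) E N _ _ (S34.H95.baseChangeE_JK E N q hqN) b) = red b)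
  (hπ'' : r'' (algebraMap ↥(H45.cutOver A E) _ π) = 0)

include hℓ hA hπ h hq hc hπ'' in
/-- height one of `ker r''` on the `J`-chart over `A''` from height one of `ker red`. -/
theorem height_ker_JK (hπ0 : π ≠ 0) (hP : (RingHom.ker red).height = 1) :
    (RingHom.ker r'').height = 1 := by
  haveI := S34.H95.isNoetherianRing_chartB_JK hℓ hA E N q hqN
  exact height_ker_of_chartBC hℓ hA E N _ π hπ h red hq _
    (S34.H95.baseChangeE_JK E N q hqN) r'' hc hπ'' hπ0 hP

include hℓ hA hπ h hq hc hπ'' in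
/-- **`Dominates` at the coordinate `J = j · j_q`**, all chart instances discharged. -/
theorem dominates_JK
    (P : Ideal ↥(H40.chartB ↥(H45.A0 A ℓ) (S34.H95.JK (H45.unrCyclo ℓ) N q hqN))) [P.IsPrime]
    (hP : P.height = 1) (hPker : P = RingHom.ker red)
    (Q : Ideal ↥(H40.chartB ↥(H45.cutOver A E) (S34.H95.JK ↥E N q hqN))) [Q.IsPrime]
    (hQ : Q.height = 1) (hQker : Q = RingHom.ker r'') :
    haveI := S34.H95.isNoetherianRing_chartB_JK_A0 hℓ hA N q hqN
    haveI := S34.H95.isFractionRing_chartB_JK_A0 (A := A) (ℓ := ℓ) N q hqN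
    haveI := S34.H95.isIntegrallyClosed_chartB_JK_A0 (A := A) (ℓ := ℓ) N q hqN
    haveI := S34.H95.isNoetherianRing_chartB_JK hℓ hA E N q hqN
    haveI := S34.H95.isFractionRing_chartB_JK (A := A) E N q hqN
    haveI := S34.H95.isIntegrallyClosed_chartB_JK (A := A) E N q hqN
    S36.H46.Dominates (H45.baseChangeE E N)
      (H56.valuationSubringAt
        (K := ↥(modularFunctionFieldFullC ↥(H45.unrCyclo ℓ) N)) P hP)
      (H56.valuationSubringAt (K := ↥(modularFunctionFieldFullC ↥E N)) Q hQ) := by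
  haveI := S34.H95.isNoetherianRing_chartB_JK_A0 hℓ hA N q hqN
  haveI := S34.H95.isFractionRing_chartB_JK_A0 (A := A) (ℓ := ℓ) N q hqN
  haveI := S34.H95.isIntegrallyClosed_chartB_JK_A0 (A := A) (ℓ := ℓ) N q hqN
  haveI := S34.H95.isNoetherianRing_chartB_JK hℓ hA E N q hqN
  haveI := S34.H95.isFractionRing_chartB_JK (A := A) E N q hqN
  haveI := S34.H95.isIntegrallyClosed_chartB_JK (A := A) E N q hqN
  exact dominates_chartBC hℓ hA E N _ π hπ h red hq _
    (S34.H95.baseChangeE_JK E N q hqN) r'' hc hπ'' P hP hPker Q hQ hQker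

include hℓ hA hπ h hq hc hπ'' in
/-- **`DenseIn` at the coordinate `J = j · j_q`**, all chart instances discharged. -/
theorem denseIn_JK
    (P : Ideal ↥(H40.chartB ↥(H45.A0 A ℓ) (S34.H95.JK (H45.unrCyclo ℓ) N q hqN))) [P.IsPrime]
    (hP : P.height = 1) (hPker : P = RingHom.ker red)
    (Q : Ideal ↥(H40.chartB ↥(H45.cutOver A E) (S34.H95.JK ↥E N q hqN))) [Q.IsPrime]
    (hQ : Q.height = 1) (hQker : Q = RingHom.ker r'') :
    haveI := S34.H95.isNoetherianRing_chartB_JK_A0 hℓ hA N q hqN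
    haveI := S34.H95.isFractionRing_chartB_JK_A0 (A := A) (ℓ := ℓ) N q hqN
    haveI := S34.H95.isIntegrallyClosed_chartB_JK_A0 (A := A) (ℓ := ℓ) N q hqN
    haveI := S34.H95.isNoetherianRing_chartB_JK hℓ hA E N q hqN
    haveI := S34.H95.isFractionRing_chartB_JK (A := A) E N q hqN
    haveI := S34.H95.isIntegrallyClosed_chartB_JK (A := A) E N q hqN
    S36.H46.DenseIn (H45.baseChangeE E N)
      (H56.valuationSubringAt
        (K := ↥(modularFunctionFieldFullC ↥(H45.unrCyclo ℓ) N)) P hP)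
      (H56.valuationSubringAt (K := ↥(modularFunctionFieldFullC ↥E N)) Q hQ) := by
  haveI := S34.H95.isNoetherianRing_chartB_JK_A0 hℓ hA N q hqN
  haveI := S34.H95.isFractionRing_chartB_JK_A0 (A := A) (ℓ := ℓ) N q hqN
  haveI := S34.H95.isIntegrallyClosed_chartB_JK_A0 (A := A) (ℓ := ℓ) N q hqN
  haveI := S34.H95.isNoetherianRing_chartB_JK hℓ hA E N q hqN
  haveI := S34.H95.isFractionRing_chartB_JK (A := A) E N q hqN
  haveI := S34.H95.isIntegrallyClosed_chartB_JK (A := A) E N q hqN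
  exact denseIn_chartBC hℓ hA E N _ π hπ h red hq _
    (S34.H95.baseChangeE_JK E N q hqN) r'' hc hπ'' P hP hPker Q hQ hQker

end JK

end Fermat.Agent.S36.H1R3
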