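/-
helper1: (M5)-abs.  Regularity of a crossing point from ONE function `g` (the Delta-quotient).

`O` a noetherian integrally closed local domain (the local ring of a normal chart at a crossing
point), `P1`, `P2` two primes (the vertical primes `P_∞`, `P_0`), `y ∈ P2`, `g ∈ O` a function
whose only height-one zero is `P2` (e.g. `g ∣ π ^ M`, `g ∉ P1`) and which vanishes to order `N`
along `P2` in the sense `y ^ N / g ∈ O_{P2}`.  Then

* `g ∣ y ^ N` in `O` (Hartogs), hence `ḡ ∣ ȳ ^ N` in `O ⧸ P1`  ("`w(ḡ) ≤ N` always");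
* if moreover `g ≡ c · y ^ N mod P1` for some `c` ("`w(ḡ) ≥ N`"), then `y ^ N = g · unit`;
* if moreover `π` is a uniformiser at `P2` and `g = unit · π ^ N` at `P2`, then `P2 = (y)`;
* hence `𝔪 = (y, x)` as soon as `x̄` generates the maximal ideal of `O ⧸ P2`  (`O` regular).

Mathlib + `CA.H42_Hartogs` only.
-/
import Mathlib
import Fermat.Agent.CA.H42_Hartogs

set_option autoImplicit false

namespace Fermat.Agent.S36.H1

open Ideal

variable {O : Type*} [CommRing O] [IsDomain O] [IsNoetherianRing O] [IsIntegrallyClosed O]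

/-- **Step 1 (Hartogs).**  If the only height-one prime containing `g` is `P2` and
`y ^ N / g` is integral at `P2`, then `g ∣ y ^ N`. -/
theorem dvd_pow_of_hartogs {P2 : Ideal O} (g y : O) (N : ℕ) (hg0 : g ≠ 0)
    (hvert : ∀ p : Ideal O, p.IsPrime → p.height = 1 → g ∈ p → p = P2)
    (hP2 : ∃ a b : O, b ∉ P2 ∧ y ^ N * b = g * a) :
    g ∣ y ^ N := by
  classical
  set K := FractionRing O
  have hgK : algebraMap O K g ≠ 0 := by
    simpa using (IsFractionRing.injective O K).ne hg0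
  have hmem : (algebraMap O K (y ^ N)) / (algebraMap O K g) ∈ Set.range (algebraMap O K) := by
    refine Fermat.Agent.CA.H42.mem_range_of_forall_height_one _ ?_
    intro p hp hp1
    by_cases hgp : g ∈ p
    · obtain rfl := hvert p hp hp1 hgp
      obtain ⟨a, b, hb, hab⟩ := hP2
      refine ⟨a, b, hb, ?_⟩
      rw [div_mul_eq_mul_div, div_eq_iff hgK, ← map_mul, ← map_mul, hab, mul_comm]
    · refine ⟨y ^ N, g, hgp, ?_⟩
      rw [div_mul_cancel₀ _ hgK]
  obtain ⟨h, hh⟩ := hmem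
  refine ⟨h, ?_⟩
  apply IsFractionRing.injective O K
  rw [map_mul, hh, mul_div_cancel₀ _ hgK]

/-- The "`w(ḡ) ≤ N` always" clause: `ḡ ∣ ȳ ^ N` in `O ⧸ P1`. -/
theorem mk_dvd_mk_pow {P2 : Ideal O} (P1 : Ideal O) (g y : O) (N : ℕ) (hg0 : g ≠ 0)
    (hvert : ∀ p : Ideal O, p.IsPrime → p.height = 1 → g ∈ p → p = P2)
    (hP2 : ∃ a b : O, b ∉ P2 ∧ y ^ N * b = g * a) :
    Ideal.Quotient.mk P1 g ∣ Ideal.Quotient.mk P1 y ^ N := by
  obtain ⟨h, hh⟩ := dvd_pow_of_hartogs g y N hg0 hvert hP2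
  exact ⟨Ideal.Quotient.mk P1 h, by rw [← map_pow, hh, map_mul]⟩

/-- **Step 2.**  If moreover `g ≡ c * y ^ N` modulo the prime `P1` for some `c : O`
(i.e. `ȳ ^ N ∣ ḡ` in `O ⧸ P1`), `y ∉ P1` and `P1` lies in the Jacobson radical (e.g. `O` local),
then `y ^ N = g * unit`. -/
theorem exists_unit_mul_eq_pow {P2 : Ideal O} (P1 : Ideal O) [P1.IsPrime]
    (hP1 : P1 ≤ (⊥ : Ideal O).jacobson) (g y : O) (N : ℕ) (hg0 : g ≠ 0)
    (hvert : ∀ p : Ideal O, p.IsPrime → p.height = 1 → g ∈ p → p = P2)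
    (hP2 : ∃ a b : O, b ∉ P2 ∧ y ^ N * b = g * a)
    (hy1 : y ∉ P1) (c : O) (hgc : g - c * y ^ N ∈ P1) :
    ∃ h : O, IsUnit h ∧ y ^ N = g * h := by
  obtain ⟨h, hh⟩ := dvd_pow_of_hartogs g y N hg0 hvert hP2
  refine ⟨h, ?_, hh⟩
  -- `y^N (1 - c h) ∈ P1`
  have h1 : y ^ N * (1 - c * h) ∈ P1 := by
    have : y ^ N * (1 - c * h) = (g - c * y ^ N) * h := by
      rw [hh]; ring
    rw [this]
    exact P1.mul_mem_right _ hgc
  have h2 : 1 - c * h ∈ P1 := by
    rcases (Ideal.IsPrime.mem_or_mem inferInstance h1) with h3 | h3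
    · exact absurd (Ideal.IsPrime.mem_of_pow_mem inferInstance N h3) hy1
    · exact h3
  -- so `c * h` is a unit
  have h3 : IsUnit (c * h) := by
    have hj : 1 - c * h ∈ (⊥ : Ideal O).jacobson := hP1 h2
    have := (Ideal.mem_jacobson_bot.mp hj) (-1)
    -- `IsUnit ((1 - c*h) * (-1) + 1)`
    have e : (1 - c * h) * (-1) + 1 = c * h := by ring
    rwa [e] at this
  exact isUnit_of_mul_isUnit_right h3

/-- **Step 3.**  If moreover `π` is a uniformiser at `P2` (`∀ z ∈ P2, ∃ s ∉ P2, π ∣ s z`) and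
`g = unit · π ^ N` at `P2` (`s g = t π ^ N`, `s t ∉ P2`), then `P2 = (y)`. -/
theorem eq_span_singleton {P2 : Ideal O} [P2.IsPrime] (g y π : O) (N : ℕ) (hN : 0 < N)
    (hg0 : g ≠ 0) (hπ0 : π ≠ 0)
    (hvert : ∀ p : Ideal O, p.IsPrime → p.height = 1 → g ∈ p → p = P2)
    (hy2 : y ∈ P2)
    (hunif : ∀ z ∈ P2, ∃ s : O, s ∉ P2 ∧ π ∣ s * z)
    (s t : O) (hs : s ∉ P2) (ht : t ∉ P2) (hst : s * g = t * π ^ N)
    (h : O) (hh : IsUnit h) (hyg : y ^ N = g * h) :
    P2 = Ideal.span {y} := by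
  classical
  set K := FractionRing O
  have hinj := IsFractionRing.injective O K
  have hy0 : y ≠ 0 := by
    rintro rfl
    rw [zero_pow hN.ne'] at hyg
    rcases mul_eq_zero.mp hyg.symm with h0 | h0
    · exact hg0 h0
    · exact hh.ne_zero h0
  have hyK : algebraMap O K y ≠ 0 := by simpa using hinj.ne hy0
  -- write `s1 * y = π * c`
  obtain ⟨s1, hs1, c, hc⟩ := hunif y hy2
  -- `c ∉ P2`
  have hcP : c ∉ P2 := by
    intro hcP
    -- s * s1^N * y^N = s * π^N c^N ; and s*y^N = s*g*h = t π^N h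
    have e1 : s1 ^ N * y ^ N = π ^ N * c ^ N := by
      rw [← mul_pow, hc, mul_pow]
    have e2 : s * (s1 ^ N * y ^ N) = s1 ^ N * (t * π ^ N * h) := by
      rw [hyg, ← hst]; ring
    have e3 : π ^ N * (s * c ^ N) = π ^ N * (s1 ^ N * t * h) := by
      rw [e1] at e2
      calc π ^ N * (s * c ^ N) = s * (π ^ N * c ^ N) := by ring
        _ = s1 ^ N * (t * π ^ N * h) := e2
        _ = π ^ N * (s1 ^ N * t * h) := by ring
    have e4 : s * c ^ N = s1 ^ N * t * h := mul_left_cancel₀ (pow_ne_zero N hπ0) e3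
    have e5 : s1 ^ N * t * h ∈ P2 := by
      rw [← e4]
      exact P2.mul_mem_left _ (Ideal.pow_mem_of_mem P2 hcP N hN)
    have hunitP : h ∉ P2 := fun hm => (Ideal.IsPrime.ne_top inferInstance)
      (Ideal.eq_top_of_isUnit_mem P2 hm hh)
    rcases Ideal.IsPrime.mem_or_mem inferInstance e5 with e6 | e6
    · rcases Ideal.IsPrime.mem_or_mem inferInstance e6 with e7 | e7
      · exact hs1 (Ideal.IsPrime.mem_of_pow_mem inferInstance N e7)
      · exact ht e7
    · exact hunitP e6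
  apply le_antisymm
  · intro z hz
    rw [Ideal.mem_span_singleton]
    -- Hartogs on z / y
    have hmem : (algebraMap O K z) / (algebraMap O K y) ∈ Set.range (algebraMap O K) := by
      refine Fermat.Agent.CA.H42.mem_range_of_forall_height_one _ ?_
      intro p hp hp1
      by_cases hyp : y ∈ p
      · have hgp : g ∈ p := by
          have : g * h ∈ p := by rw [← hyg]; exact Ideal.pow_mem_of_mem p hyp N hN
          rcases hp.mem_or_mem this with h1 | h1
          · exact h1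
          · exact absurd (Ideal.eq_top_of_isUnit_mem p h1 hh) hp.ne_top
        obtain rfl := hvert p hp hp1 hgp
        obtain ⟨s2, hs2, c2, hc2⟩ := hunif z hz
        -- z * (c * s2) = y * (s1 * c2)
        refine ⟨s1 * c2, c * s2, ?_, ?_⟩
        · intro hm
          rcases Ideal.IsPrime.mem_or_mem inferInstance hm with h1 | h1
          · exact hcP h1
          · exact hs2 h1
        · rw [div_mul_eq_mul_div, div_eq_iff hyK, ← map_mul, ← map_mul]
          congr 1
          calc z * (c * s2) = c * (s2 * z) := by ring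
            _ = c * (π * c2) := by rw [hc2]
            _ = (π * c) * c2 := by ring
            _ = (s1 * y) * c2 := by rw [hc]
            _ = s1 * c2 * y := by ring
      · refine ⟨z, y, hyp, ?_⟩
        rw [div_mul_cancel₀ _ hyK]
    obtain ⟨w, hw⟩ := hmem
    refine ⟨w, ?_⟩
    apply hinj
    rw [map_mul, hw, mul_div_cancel₀ _ hyK]
  · rw [Ideal.span_singleton_le_iff_mem]
    exact hy2

omit [IsDomain O] [IsNoetherianRing O] [IsIntegrallyClosed O] in
/-- **Step 4 (regularity).**  If `P2 = (y)` and `x̄` generates the maximal ideal of the local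
ring `O ⧸ P2`, then `𝔪_O = (y, x)`. -/
theorem maximalIdeal_eq_span_pair [IsLocalRing O] {P2 : Ideal O} (y x : O)
    (hP2 : P2 = Ideal.span {y}) (hP2ne : P2 ≠ ⊤)
    (hx : ∀ z ∈ IsLocalRing.maximalIdeal O, ∃ a : O, z - a * x ∈ P2)
    (hxm : x ∈ IsLocalRing.maximalIdeal O) :
    IsLocalRing.maximalIdeal O = Ideal.span {y, x} := by
  apply le_antisymm
  · intro z hz
    obtain ⟨a, ha⟩ := hx z hz
    rw [hP2, Ideal.mem_span_singleton] at ha
    obtain ⟨b, hb⟩ := ha
    rw [Ideal.mem_span_pair]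
    exact ⟨b, a, by linear_combination -hb⟩
  · rw [Ideal.span_le]
    rintro z (rfl | rfl)
    · have : z ∈ P2 := by rw [hP2]; exact Ideal.mem_span_singleton_self z
      exact IsLocalRing.le_maximalIdeal hP2ne this
    · exact hxm

end Fermat.Agent.S36.H1
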