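/-
S36 / (M2-unr) support (helper37): no elliptic points at levels divisible by a prime
`r ≡ 11 (mod 12)`, in the vocabulary of the landed S24 ramification data.

* `nuTwo_eq_zero_of_dvd`, `nuThree_eq_zero_of_dvd` : the elliptic-point counts of the prelude vanish
  as soon as a prime `r ≡ 3 (mod 4)` resp. `r ≡ 2 (mod 3)` divides the level;
* `ord_jBar_eq_three` : if `nuThree N = 0`, EVERY place of `FN N` over `j = 0` has `e = 3`;
* `ord_jBar_sub_eq_two` : if `nuTwo N = 0`, EVERY place of `FN N` over `j = 1728` has `e = 2`;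
* `ord_jBar_sub_eq_one` : `e = 1` over every other finite value (= `H76.ModInputs.hunr`).
-/
import Mathlib
import Fermat.Agent.S24.H24_Main
import Fermat.Agent.S24.H40_M123
import Fermat.Agent.S24.H76_Closed

set_option autoImplicit false
set_option linter.style.haveILetI false

noncomputable section

namespace Fermat.Agent.S36.H37

open AlgebraicCurve ModularCurve IntermediateField UpperHalfPlane ModularGroup
open Fermat.Agent.S24
open scoped MatrixGroups

/-! ### Arithmetic: no roots of `x² + 1`, `x² + x + 1` modulo `N` -/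

theorem nuTwo_eq_zero_of_dvd {N r : ℕ} (hr : r.Prime) (hr4 : r % 4 = 3) (hrN : r ∣ N) :
    nuTwo N = 0 := by
  haveI : Fact r.Prime := ⟨hr⟩
  unfold nuTwo
  rw [Nat.card_eq_zero]
  left
  refine ⟨fun x => ?_⟩
  obtain ⟨x, hx⟩ := x
  have hy : (ZMod.castHom hrN (ZMod r) x) ^ 2 + 1 = 0 := by
    have := congrArg (ZMod.castHom hrN (ZMod r)) hx
    rw [map_add, map_pow, map_one, map_zero] at this
    exact this
  have hsq : IsSquare (-1 : ZMod r) := by
    refine ⟨ZMod.castHom hrN (ZMod r) x, ?_⟩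
    rw [← sq]
    linear_combination -hy
  exact (ZMod.exists_sq_eq_neg_one_iff.mp hsq) hr4

theorem nuThree_eq_zero_of_dvd {N r : ℕ} (hr : r.Prime) (hr3 : r % 3 = 2) (hrN : r ∣ N) :
    nuThree N = 0 := by
  haveI : Fact r.Prime := ⟨hr⟩
  unfold nuThree
  rw [Nat.card_eq_zero]
  left
  refine ⟨fun x => ?_⟩
  obtain ⟨x, hx⟩ := x
  set y : ZMod r := ZMod.castHom hrN (ZMod r) x with hy_def
  have hy : y ^ 2 + y + 1 = 0 := by
    have := congrArg (ZMod.castHom hrN (ZMod r)) hx
    rw [map_add, map_add, map_pow, map_one, map_zero] at this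
    exact this
  have hy3 : y ^ 3 = 1 := by linear_combination (y - 1) * hy
  have hy0 : y ≠ 0 := by
    rintro h0
    rw [h0] at hy3
    simp at hy3
  have hyr : y ^ (r - 1) = 1 := ZMod.pow_card_sub_one_eq_one hy0
  -- `gcd 3 (r-1) = 1`
  have hcop : Nat.Coprime 3 (r - 1) := by
    have hr2 : 2 ≤ r := hr.two_le
    rw [Nat.Prime.coprime_iff_not_dvd Nat.prime_three]
    omega
  have hy1 : y = 1 := by
    have hord : orderOf y ∣ Nat.gcd 3 (r - 1) :=
      Nat.dvd_gcd (orderOf_dvd_of_pow_eq_one hy3) (orderOf_dvd_of_pow_eq_one hyr)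
    rw [hcop.gcd_eq_one, Nat.dvd_one, orderOf_eq_one_iff] at hord
    exact hord
  rw [hy1] at hy
  have h3 : ((3 : ℕ) : ZMod r) = 0 := by
    push_cast
    linear_combination hy
  rw [ZMod.natCast_eq_zero_iff] at h3
  have : r ≤ 3 := Nat.le_of_dvd (by norm_num) h3
  interval_cases r <;> omega

theorem nuTwo_eq_zero_of_eleven_mod_twelve {N r : ℕ} (hr : r.Prime) (hr12 : r % 12 = 11)
    (hrN : r ∣ N) : nuTwo N = 0 :=
  nuTwo_eq_zero_of_dvd hr (by omega) hrN

theorem nuThree_eq_zero_of_eleven_mod_twelve {N r : ℕ} (hr : r.Prime) (hr12 : r % 12 = 11)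
    (hrN : r ∣ N) : nuThree N = 0 :=
  nuThree_eq_zero_of_dvd hr (by omega) hrN

/-! ### A counting lemma -/

/-- If `∑ e_v = c * #Z`, and every `e_v ≤ c`, then every `e_v = c`. -/
theorem eq_of_sum_eq_mul_card {ι : Type*} (Z : Finset ι) (e : ι → ℤ) (c : ℤ)
    (hle : ∀ v ∈ Z, e v ≤ c) (hsum : ∑ v ∈ Z, e v = c * Z.card) :
    ∀ v ∈ Z, e v = c := by
  intro v hv
  by_contra hne
  have hlt : e v < c := lt_of_le_of_ne (hle v hv) hne
  have : ∑ w ∈ Z, e w < ∑ _w ∈ Z, c :=
    Finset.sum_lt_sum hle ⟨v, hv, hlt⟩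
  rw [Finset.sum_const, nsmul_eq_mul, hsum] at this
  linarith [mul_comm (Z.card : ℤ) c]

/-! ### Ramification of `j` on `X₀(N)` without elliptic points -/

variable (N : ℕ) [NeZero N]

/-- the Riemann–Hurwitz data of `jBar N` (S24). -/
theorem rhData : H24.RH.Data (K := Qbar) (jBar N) (Fintype.card (H24.XN N)) := by
  haveI := H40.finiteDimensional_FN N
  exact H24.rhData_jBar N (H40.finrank_FN_eq_natCard N)

/-- `e ∣ 3` over `j = 0`. -/
theorem ord_jBar_le_three (v : Place Qbar (FN N)) (hv : 0 < v.ord (jBar N)) :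
    v.ord (jBar N) ≤ 3 := by
  have h := H76.modInputs_final N
  have hv' : 0 < v.ord (jBar N - algebraMap Qbar (FN N) 0) := by simpa using hv
  have hJρ : H28.J UpperHalfPlane.ρ = H17.iota 0 := by rw [map_zero]; exact H8.J_ρ
  obtain ⟨γ, m, hm, hf⟩ := h.place_fin v 0 _ hJρ hv'
  have hne : jBar N - algebraMap Qbar (FN N) 0 ≠ 0 := by
    intro h0
    rw [h0] at hv'
    simp at hv'
  have hord := H8.analyticOrderAt_J_of_E₄_eq_zero UpperHalfPlane.ρ H8.E₄_ρ
  have hord' : analyticOrderAt (fun z : ℂ => H28.J (ofComplex z) - H17.iota 0)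
      ((UpperHalfPlane.ρ : ℍ) : ℂ) = (3 : ℕ) := by
    simpa using hord
  have h3 := H76.IsTheta.ordH_translate_of_eq_J_sub (Θ := H17.Theta N) H28.J_smul
    (h.theta_sub_const 0) hord' γ
  rw [hf _ (h.sub_const_mem 0) hne] at h3
  have hv0 : v.ord (jBar N - algebraMap Qbar (FN N) 0) = v.ord (jBar N) := by simp
  rw [hv0] at h3
  -- `m * e = 3`, `m ≥ 1` ⟹ `e ≤ 3`
  have hle : v.ord (jBar N) ≤ m * v.ord (jBar N) :=
    le_mul_of_one_le_left (le_of_lt hv) (by omega)
  rw [h3] at hle
  exact_mod_cast hle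

/-- `e ∣ 2` over `j = 1728`. -/
theorem ord_jBar_sub_le_two (v : Place Qbar (FN N))
    (hv : 0 < v.ord (jBar N - algebraMap Qbar (FN N) 1728)) :
    v.ord (jBar N - algebraMap Qbar (FN N) 1728) ≤ 2 := by
  have h := H76.modInputs_final N
  have hι : H17.iota 1728 = 1728 := map_ofNat H17.iota 1728
  have hJI : H28.J UpperHalfPlane.I = H17.iota 1728 := by rw [hι]; exact H8.J_I
  obtain ⟨γ, m, hm, hf⟩ := h.place_fin v 1728 _ hJI hv
  have hne : jBar N - algebraMap Qbar (FN N) 1728 ≠ 0 := by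
    intro h0
    rw [h0] at hv
    simp at hv
  have hord := H8.analyticOrderAt_J_sub_1728_of_E₆_eq_zero UpperHalfPlane.I H8.E₆_I
  have hord' : analyticOrderAt (fun z : ℂ => H28.J (ofComplex z) - H17.iota 1728)
      ((UpperHalfPlane.I : ℍ) : ℂ) = (2 : ℕ) := by
    rw [hι]; exact_mod_cast hord
  have h2 := H76.IsTheta.ordH_translate_of_eq_J_sub (Θ := H17.Theta N) H28.J_smul
    (h.theta_sub_const 1728) hord' γ
  rw [hf _ (h.sub_const_mem 1728) hne] at h2
  have hle : v.ord (jBar N - algebraMap Qbar (FN N) 1728) ≤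
      m * v.ord (jBar N - algebraMap Qbar (FN N) 1728) :=
    le_mul_of_one_le_left (le_of_lt hv) (by omega)
  rw [h2] at hle
  exact_mod_cast hle

/-- **No elliptic points of order 3 ⟹ every place over `j = 0` has `e = 3`.** -/
theorem ord_jBar_eq_three (h3 : nuThree N = 0) (v : Place Qbar (FN N))
    (hv : 0 < v.ord (jBar N)) : v.ord (jBar N) = 3 := by
  have h := H76.modInputs_final N
  have hData := rhData N
  have hcard := h.card_fib_zero hData
  have horb := H37.three_mul_natCard_orbits (H24.perm N (S * T)) (H24.perm_ST_cube N)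
  rw [H24.numFixed_ST_eq_nuThree N, h3, mul_zero, add_zero] at horb
  have hsum := hData.fib_sum 0
  have hmem : v ∈ (hData.fib_finite 0).toFinset := by
    rw [Set.Finite.mem_toFinset]
    show 0 < v.ord (jBar N - algebraMap Qbar (FN N) 0)
    simpa using hv
  have key := eq_of_sum_eq_mul_card (hData.fib_finite 0).toFinset
    (fun w => w.ord (jBar N - algebraMap Qbar (FN N) 0)) 3 ?_ ?_ v hmem
  · simpa using key
  · intro w hw
    have hw' : 0 < w.ord (jBar N - algebraMap Qbar (FN N) 0) :=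
      H76.ModInputs.mem_fib_of_mem_toFinset hw
    have := ord_jBar_le_three N w (by simpa using hw')
    simpa using this
  · rw [hsum, hcard]
    have : (Fintype.card (H24.XN N) : ℤ) =
        3 * (Nat.card (MulAction.orbitRel.Quotient
          (Subgroup.zpowers (H24.perm N (S * T))) (H24.XN N)) : ℤ) := by
      exact_mod_cast horb.symm
    exact this

/-- **No elliptic points of order 2 ⟹ every place over `j = 1728` has `e = 2`.** -/
theorem ord_jBar_sub_eq_two (h2 : nuTwo N = 0) (v : Place Qbar (FN N))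
    (hv : 0 < v.ord (jBar N - algebraMap Qbar (FN N) 1728)) :
    v.ord (jBar N - algebraMap Qbar (FN N) 1728) = 2 := by
  have h := H76.modInputs_final N
  have hData := rhData N
  have hcard := h.card_fib_1728 hData
  have horb := H37.two_mul_natCard_orbits (H24.perm N S) (H24.perm_S_sq N)
  rw [H24.numFixed_S_eq_nuTwo N, h2, add_zero] at horb
  have hsum := hData.fib_sum 1728
  have hmem : v ∈ (hData.fib_finite 1728).toFinset := by
    rw [Set.Finite.mem_toFinset]
    exact hv
  refine eq_of_sum_eq_mul_card (hData.fib_finite 1728).toFinset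
    (fun w => w.ord (jBar N - algebraMap Qbar (FN N) 1728)) 2 ?_ ?_ v hmem
  · intro w hw
    exact ord_jBar_sub_le_two N w (H76.ModInputs.mem_fib_of_mem_toFinset hw)
  · rw [hsum, hcard]
    have : (Fintype.card (H24.XN N) : ℤ) =
        2 * (Nat.card (MulAction.orbitRel.Quotient
          (Subgroup.zpowers (H24.perm N S)) (H24.XN N)) : ℤ) := by
      exact_mod_cast horb.symm
    exact this

/-- `e = 1` over every finite value other than `0`, `1728` (S24, `H76.ModInputs.hunr`). -/
theorem ord_jBar_sub_eq_one (v : Place Qbar (FN N)) (a : Qbar) (ha0 : a ≠ 0) (ha1 : a ≠ 1728)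
    (hv : 0 < v.ord (jBar N - algebraMap Qbar (FN N) a)) :
    v.ord (jBar N - algebraMap Qbar (FN N) a) = 1 :=
  (H76.modInputs_final N).hunr v a ha0 ha1 hv

/-- **Summary at a level divisible by a prime `r ≡ 11 (mod 12)`**: at every non-cuspidal place
the ramification index over the `j`-line is `3`, `2`, `1` according to `j = 0`, `1728`, other. -/
theorem ord_jBar_sub_of_eleven_mod_twelve {r : ℕ} (hr : r.Prime) (hr12 : r % 12 = 11)
    (hrN : r ∣ N) (v : Place Qbar (FN N)) (a : Qbar)
    (hv : 0 < v.ord (jBar N - algebraMap Qbar (FN N) a)) :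
    (a = 0 → v.ord (jBar N - algebraMap Qbar (FN N) a) = 3) ∧
    (a = 1728 → v.ord (jBar N - algebraMap Qbar (FN N) a) = 2) ∧
    (a ≠ 0 → a ≠ 1728 → v.ord (jBar N - algebraMap Qbar (FN N) a) = 1) := by
  refine ⟨?_, ?_, ?_⟩
  · rintro rfl
    have hv' : 0 < v.ord (jBar N) := by simpa using hv
    have := ord_jBar_eq_three N (nuThree_eq_zero_of_eleven_mod_twelve hr hr12 hrN) v hv'
    simpa using this
  · rintro rfl
    exact ord_jBar_sub_eq_two N (nuTwo_eq_zero_of_eleven_mod_twelve hr hr12 hrN) v hv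
  · intro ha0 ha1
    exact ord_jBar_sub_eq_one N v a ha0 ha1 hv

end Fermat.Agent.S36.H37
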