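/-
S36 / (M2-unr) = (Der-5) (helper20): the two degeneracy maps `α, β : X₀(Lq) → X₀(L)` are
unramified at every NON-CUSPIDAL place, as soon as a prime `r ≡ 11 (mod 12)` divides `L`
(no elliptic points on `X₀(L)`).

Statement, over `Qbar`, in the consumer shape ("`hunif`" of `S34.H65`): for every place `H` of
`FN (L * q)` with `0 ≤ H.ord (jBar (L * q))`

* `ramificationIndexAlong_heckeAlphaBar_eq_one`, `ramificationIndexAlong_heckeBetaBar_eq_one` :
  the prelude ramification index of `H` along `heckeAlphaBar Qbar L q` / `heckeBetaBar Qbar L q`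
  is `1`;
* `exists_ord_heckeAlphaBar_eq_one`, `exists_ord_heckeBetaBar_eq_one` :
  `∃ t : FN L, H.ord (α t) = 1`, `∃ t : FN L, H.ord (β t) = 1`;
* `ord_heckeAlphaBar_eq`, `ord_heckeBetaBar_eq` : `H.ord (φ f) = (H.restrictAlong φ _).ord f`.

Uniform proof (`ramificationIndexAlong_eq_one_of_jd`) for ANY integral `Qbar`-embedding
`φ : FN L → FN M` with `φ (jBar L) = jd M d _`, `d ∣ M`: by the analytic place dictionary of S24
(`H76.modInputs_final M`), `H` sits at some `τ₁ ∈ ℍ` with
`ord_{τ₁} Θ(f) = m · H.ord f` on `A = Qbar[j_d]`; `Θ (j_d - b) = J(d τ) - b` has order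
`≤ 3, 2, 1` at `τ₁` according to `b = 0, 1728`, other (the order of `J - b` at `d τ₁`), while the
place below has `ord (j - b) = 3, 2, 1` EXACTLY (no elliptic points, `S36.H37`), so
`m · e · (3,2,1) ≤ (3,2,1)` and `e = 1`.
-/
import Mathlib
import Fermat.Agent.S36.H37_NoElliptic
import Fermat.Agent.S37.H8_HeckeInputs

set_option autoImplicit false
set_option linter.style.haveILetI false
set_option linter.unusedSectionVars false

noncomputable section

namespace Fermat.Agent.S36.H20

open AlgebraicCurve ModularCurve IntermediateField UpperHalfPlane ModularGroup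
open Fermat.Agent.S24
open scoped MatrixGroups

/-! ### Analytic part: the order of `J(d τ) - c` -/

/-- `mulD d (ofComplex z) = ofComplex (d z)` on the upper half plane. -/
theorem mulD_ofComplex (d : ℕ) [NeZero d] {z : ℂ} (hz : 0 < z.im) :
    H17.mulD d (ofComplex z) = ofComplex ((d : ℂ) * z) := by
  have hd : (0 : ℝ) < d := by exact_mod_cast Nat.pos_of_ne_zero (NeZero.ne d)
  have hz' : 0 < ((d : ℂ) * z).im := by
    have : ((d : ℂ) * z).im = (d : ℝ) * z.im := by simp [Complex.mul_im]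
    rw [this]; exact mul_pos hd hz
  apply UpperHalfPlane.ext
  rw [H17.mulD, H15.coe_aff, ofComplex_apply_of_im_pos hz, ofComplex_apply_of_im_pos hz']
  simp

/-- the order at `τ` of `J(d τ) - c` is the order of `J - c` at `d τ`. -/
theorem analyticOrderAt_J_mulD_sub (d : ℕ) [NeZero d] (c : ℂ) (τ : ℍ) :
    analyticOrderAt (fun z : ℂ => H28.J (H17.mulD d (ofComplex z)) - c) (τ : ℂ) =
      analyticOrderAt (fun z : ℂ => H28.J (ofComplex z) - c) ((H17.mulD d τ : ℍ) : ℂ) := by
  let Gm : ℂ → ℂ := fun z => (d : ℂ) * z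
  let Fm : ℂ → ℂ := fun z => H28.J (ofComplex z) - c
  have hd0 : (d : ℂ) ≠ 0 := by exact_mod_cast NeZero.ne d
  have hev : (fun z : ℂ => H28.J (H17.mulD d (ofComplex z)) - c) =ᶠ[nhds (τ : ℂ)] (Fm ∘ Gm) := by
    have hopen : {z : ℂ | 0 < z.im} ∈ nhds (τ : ℂ) :=
      (isOpen_lt continuous_const Complex.continuous_im).mem_nhds τ.im_pos
    filter_upwards [hopen] with z hz
    simp only [Fm, Gm, Function.comp_apply]
    rw [mulD_ofComplex d hz]
  rw [analyticOrderAt_congr hev]
  have hGan : AnalyticAt ℂ Gm (τ : ℂ) := by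
    simp only [Gm]
    fun_prop
  have hGder : deriv Gm (τ : ℂ) ≠ 0 := by
    have : deriv Gm (τ : ℂ) = (d : ℂ) := by
      simp only [Gm]
      rw [deriv_const_mul_field]
      simp
    rw [this]
    exact hd0
  rw [analyticOrderAt_comp_of_deriv_ne_zero hGan hGder]
  have hG : Gm (τ : ℂ) = ((H17.mulD d τ : ℍ) : ℂ) := by
    simp only [Gm]
    rw [H17.mulD, H15.coe_aff]
    simp
  rw [hG]

theorem ordH_J_mulD_sub (d : ℕ) [NeZero d] (c : ℂ) (τ : ℍ) :
    H76.ordH (fun τ => H28.J (H17.mulD d τ) - c) τ =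
      (analyticOrderNatAt (fun z : ℂ => H28.J (ofComplex z) - c)
        ((H17.mulD d τ : ℍ) : ℂ) : ℤ) := by
  unfold H76.ordH analyticOrderNatAt
  have := analyticOrderAt_J_mulD_sub d c τ
  simp only [Function.comp_def] at this ⊢
  rw [this]

/-- `J - c` is analytic at every point of `ℍ`. -/
theorem analyticAt_J_sub (c : ℂ) (σ : ℍ) :
    AnalyticAt ℂ (fun z : ℂ => H28.J (ofComplex z) - c) (σ : ℂ) := by
  have h := H32.analyticAt_comp_ofComplex_of_mdifferentiable H28.J_mdiff σ
  have h' : AnalyticAt ℂ (fun z : ℂ => H28.J (ofComplex z)) (σ : ℂ) := h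
  exact h'.sub analyticAt_const

/-- The order of `J - ι b` at ANY point of `ℍ` is at most `3`, `2`, `1` according to
`b = 0`, `b = 1728`, other. -/
theorem analyticOrderNatAt_J_sub_le (σ : ℍ) (b : Qbar) :
    (b = 0 → analyticOrderNatAt (fun z : ℂ => H28.J (ofComplex z) - H17.iota b) (σ : ℂ) ≤ 3) ∧
    (b = 1728 →
      analyticOrderNatAt (fun z : ℂ => H28.J (ofComplex z) - H17.iota b) (σ : ℂ) ≤ 2) ∧
    (b ≠ 0 → b ≠ 1728 →
      analyticOrderNatAt (fun z : ℂ => H28.J (ofComplex z) - H17.iota b) (σ : ℂ) ≤ 1) := by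
  by_cases hJ : H28.J σ = H17.iota b
  · refine ⟨?_, ?_, ?_⟩
    · rintro rfl
      have h0 : H28.J σ = 0 := by rw [hJ, map_zero]
      have h := H8.analyticOrderAt_J_of_E₄_eq_zero σ ((H8.J_eq_zero_iff σ).mp h0)
      have h' : analyticOrderAt (fun z : ℂ => H28.J (ofComplex z) - H17.iota 0) (σ : ℂ)
          = (3 : ℕ) := by
        simpa using h
      unfold analyticOrderNatAt
      rw [h']
      simp
    · rintro rfl
      have hι : H17.iota 1728 = 1728 := map_ofNat H17.iota 1728
      have h1 : H28.J σ = 1728 := by rw [hJ, hι]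
      have h := H8.analyticOrderAt_J_sub_1728_of_E₆_eq_zero σ ((H8.J_eq_1728_iff σ).mp h1)
      have h' : analyticOrderAt (fun z : ℂ => H28.J (ofComplex z) - H17.iota 1728) (σ : ℂ)
          = (2 : ℕ) := by
        rw [hι]; exact_mod_cast h
      unfold analyticOrderNatAt
      rw [h']
      simp
    · intro hb0 hb1
      have h0 : H28.J σ ≠ 0 := by
        rw [hJ]
        exact fun h0 => hb0 (H17.iota.injective (by rw [h0, map_zero]))
      have h1 : H28.J σ ≠ 1728 := by
        rw [hJ]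
        exact fun h1 => hb1 (H17.iota.injective (by rw [h1, map_ofNat]))
      have h := H8.analyticOrderAt_J_sub_generic σ h0 h1
      rw [hJ] at h
      have h' : analyticOrderAt (fun z : ℂ => H28.J (ofComplex z) - H17.iota b) (σ : ℂ)
          = (1 : ℕ) := by
        exact_mod_cast h
      unfold analyticOrderNatAt
      rw [h']
      simp
  · have hz : analyticOrderAt (fun z : ℂ => H28.J (ofComplex z) - H17.iota b) (σ : ℂ) = 0 := by
      rw [(analyticAt_J_sub (H17.iota b) σ).analyticOrderAt_eq_zero]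
      simp only [ofComplex_apply]
      exact sub_ne_zero.mpr hJ
    have hz' : analyticOrderNatAt (fun z : ℂ => H28.J (ofComplex z) - H17.iota b) (σ : ℂ) = 0 := by
      unfold analyticOrderNatAt
      rw [hz]
      simp
    rw [hz']
    exact ⟨fun _ => by norm_num, fun _ => by norm_num, fun _ _ => by norm_num⟩

/-! ### `Θ` of `j_d - b` -/

theorem Theta_jd_sub_const (M : ℕ) [NeZero M] (d : ℕ) [NeZero d] (hd : d ∣ M) (b : Qbar) :
    H17.Theta M (jd M d hd - algebraMap Qbar (FN M) b) =
      fun τ => H28.J (H17.mulD d τ) - H17.iota b := by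
  have hj : jd M d hd ∈ H17.A M := H17.jd_mem_A M d hd
  have hb : algebraMap Qbar (FN M) b ∈ H17.A M := Subalgebra.algebraMap_mem _ b
  have h := map_sub (H17.ThetaHom M) ⟨jd M d hd, hj⟩ ⟨algebraMap Qbar (FN M) b, hb⟩
  have h1 : H17.ThetaHom M (⟨jd M d hd, hj⟩ - ⟨algebraMap Qbar (FN M) b, hb⟩) =
      H17.Theta M (jd M d hd - algebraMap Qbar (FN M) b) := rfl
  rw [h1, H17.ThetaHom_apply, H17.ThetaHom_apply] at h
  rw [h, H17.Theta_algebraMap]
  funext τ
  simp only [Pi.sub_apply]
  rw [H17.Theta_jd]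

/-! ### The uniform statement -/

/-- **Unramifiedness at non-cuspidal places along a `j ↦ j_d` embedding.**  Let
`φ : FN L → FN M` be an integral `Qbar`-embedding with `φ (jBar L) = jd M d _` (`d ∣ M`), and
suppose a prime `r ≡ 11 (mod 12)` divides `L`.  Then every place `H` of `FN M` which is not a
pole of `jBar M` has ramification index `1` along `φ`. -/
theorem ramificationIndexAlong_eq_one_of_jd {L M : ℕ} [NeZero L] [NeZero M]
    {r : ℕ} (hr : r.Prime) (hr12 : r % 12 = 11) (hrL : r ∣ L)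
    (φ : FN L →ₐ[Qbar] FN M) (hφ : φ.toRingHom.IsIntegral)
    (d : ℕ) [NeZero d] (hd : d ∣ M) (hφj : φ (jBar L) = jd M d hd)
    (H : Place Qbar (FN M)) (hH : 0 ≤ H.ord (jBar M)) :
    Place.ramificationIndexAlong φ H = 1 := by
  have hM := H76.modInputs_final M
  obtain ⟨a, ha⟩ : ∃ a : Qbar, 0 < H.ord (jBar M - algebraMap Qbar (FN M) a) := by
    rcases (H37.rhData M).value H with h | h
    · exact absurd h (not_lt.mpr hH)
    · exact h
  obtain ⟨τ0, hτ0⟩ := H28.J_surjective (H17.iota a)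
  obtain ⟨γ, m, hm, hf⟩ := hM.place_fin H a τ0 hτ0 ha
  have he : 0 < Place.ramificationIndexAlong φ H := by
    letI := algebraAlong φ
    haveI := isScalarTower_along φ
    haveI := isIntegral_along φ hφ
    exact H.ramificationIndex_pos (F := FN L)
  have hord : ∀ f : FN L, H.ord (φ f) =
      Place.ramificationIndexAlong φ H * (H.restrictAlong φ hφ).ord f :=
    Place.ord_restrictAlong φ hφ H
  set e : ℕ := Place.ramificationIndexAlong φ H with he_def
  set P : Place Qbar (FN L) := H.restrictAlong φ hφ with hP_def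
  have heZ : (0 : ℤ) < (e : ℤ) := by exact_mod_cast he
  have hjd_mem : jd M d hd ∈ H17.A M := H17.jd_mem_A M d hd
  rcases (H37.rhData L).value P with hpole | ⟨b, hb⟩
  · exfalso
    have h1 : H.ord (jd M d hd) < 0 := by
      rw [← hφj, hord]
      exact mul_neg_of_pos_of_neg heZ hpole
    have hne : jd M d hd ≠ 0 := by
      intro h0
      rw [h0] at h1
      simp at h1
    have h2 := hf _ hjd_mem hne
    have h3 : 0 ≤ H76.ordH (H17.Theta M (jd M d hd)) (γ⁻¹ • τ0) := by
      unfold H76.ordH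
      exact Int.natCast_nonneg _
    rw [h2] at h3
    have : m * H.ord (jd M d hd) < 0 := mul_neg_of_pos_of_neg hm h1
    omega
  · set p : ℤ := P.ord (jBar L - algebraMap Qbar (FN L) b) with hp_def
    have hu : H.ord (jd M d hd - algebraMap Qbar (FN M) b) = e * p := by
      rw [hp_def, ← hord, map_sub, hφj, AlgHom.commutes]
    have hu_pos : 0 < H.ord (jd M d hd - algebraMap Qbar (FN M) b) := by
      rw [hu]; exact mul_pos heZ hb
    have hu_ne : jd M d hd - algebraMap Qbar (FN M) b ≠ 0 := by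
      intro h0
      rw [h0] at hu_pos
      simp at hu_pos
    have hu_mem : jd M d hd - algebraMap Qbar (FN M) b ∈ H17.A M :=
      sub_mem hjd_mem (Subalgebra.algebraMap_mem _ b)
    have h2 := hf _ hu_mem hu_ne
    rw [Theta_jd_sub_const, ordH_J_mulD_sub, hu] at h2
    obtain ⟨hp3, hp2, hp1⟩ := H37.ord_jBar_sub_of_eleven_mod_twelve L hr hr12 hrL P b hb
    obtain ⟨hn3, hn2, hn1⟩ := analyticOrderNatAt_J_sub_le (H17.mulD d (γ⁻¹ • τ0)) b
    set n : ℕ := analyticOrderNatAt (fun z : ℂ => H28.J (ofComplex z) - H17.iota b)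
      ((H17.mulD d (γ⁻¹ • τ0) : ℍ) : ℂ) with hn_def
    -- `n = m * (e * p)`, `n ≤ p`, `p > 0`, `m, e ≥ 1`
    have hnp : (n : ℤ) ≤ p := by
      by_cases hb0 : b = 0
      · rw [hp_def, hp3 hb0]; exact_mod_cast hn3 hb0
      · by_cases hb1 : b = 1728
        · rw [hp_def, hp2 hb1]; exact_mod_cast hn2 hb1
        · rw [hp_def, hp1 hb0 hb1]; exact_mod_cast hn1 hb0 hb1
    have hp_pos : 0 < p := hb
    have hme : m * (e : ℤ) ≤ 1 := by
      by_contra hcon
      push Not at hcon
      have h2' : (2 : ℤ) ≤ m * e := by omega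
      have : 2 * p ≤ m * e * p := mul_le_mul_of_nonneg_right h2' hp_pos.le
      have h3 : m * (e * p) = m * e * p := by ring
      rw [h3] at h2
      omega
    have he1 : (e : ℤ) ≤ 1 := by
      have : (e : ℤ) ≤ m * e := le_mul_of_one_le_left heZ.le (by omega)
      omega
    omega

/-! ### The two degeneracy maps -/

section Degeneracy

variable (L q : ℕ) [NeZero L] [NeZero q]

theorem heckeAlphaBar_jBar :
    heckeAlphaBar Qbar L q (jBar L) = jd (L * q) 1 (one_dvd (L * q)) := by
  rw [← H17.jBar_eq_jd]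
  apply Subtype.ext
  rw [coe_heckeAlphaBar]
  rfl

theorem heckeBetaBar_jBar :
    heckeBetaBar Qbar L q (jBar L) = jd (L * q) q (dvd_mul_left q L) := by
  apply Subtype.ext
  show qExpand Qbar q (coeffEmb Qbar jq) = coeffEmb Qbar (qExpand ℚ q jq)
  rw [coeffEmb, coeffMap_qExpand]

variable {L q}
variable {r : ℕ} (hr : r.Prime) (hr12 : r % 12 = 11) (hrL : r ∣ L)
include hr hr12 hrL

/-- **(M2-unr), `α`**: the ramification index along `heckeAlphaBar` is `1` at every non-cuspidal
place of `X₀(Lq)`. -/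
theorem ramificationIndexAlong_heckeAlphaBar_eq_one
    (H : Place Qbar (FN (L * q))) (hH : 0 ≤ H.ord (jBar (L * q))) :
    Place.ramificationIndexAlong (heckeAlphaBar Qbar L q) H = 1 :=
  ramificationIndexAlong_eq_one_of_jd hr hr12 hrL (heckeAlphaBar Qbar L q)
    (S37.H8.heckeAlphaBarIntegral L q) 1 (one_dvd _) (heckeAlphaBar_jBar L q) H hH

/-- **(M2-unr), `β`**: the ramification index along `heckeBetaBar` is `1` at every non-cuspidal
place of `X₀(Lq)`. -/
theorem ramificationIndexAlong_heckeBetaBar_eq_one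
    (H : Place Qbar (FN (L * q))) (hH : 0 ≤ H.ord (jBar (L * q))) :
    Place.ramificationIndexAlong (heckeBetaBar Qbar L q) H = 1 :=
  ramificationIndexAlong_eq_one_of_jd hr hr12 hrL (heckeBetaBar Qbar L q)
    (S37.H8.heckeBetaBarIntegral L q) q (dvd_mul_left q L) (heckeBetaBar_jBar L q) H hH

/-- orders are preserved along `α` at non-cuspidal places. -/
theorem ord_heckeAlphaBar_eq
    (H : Place Qbar (FN (L * q))) (hH : 0 ≤ H.ord (jBar (L * q))) (f : FN L) :
    H.ord (heckeAlphaBar Qbar L q f) =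
      (H.restrictAlong (heckeAlphaBar Qbar L q) (S37.H8.heckeAlphaBarIntegral L q)).ord f := by
  rw [Place.ord_restrictAlong _ (S37.H8.heckeAlphaBarIntegral L q),
    ramificationIndexAlong_heckeAlphaBar_eq_one hr hr12 hrL H hH]
  simp

/-- orders are preserved along `β` at non-cuspidal places. -/
theorem ord_heckeBetaBar_eq
    (H : Place Qbar (FN (L * q))) (hH : 0 ≤ H.ord (jBar (L * q))) (f : FN L) :
    H.ord (heckeBetaBar Qbar L q f) =
      (H.restrictAlong (heckeBetaBar Qbar L q) (S37.H8.heckeBetaBarIntegral L q)).ord f := by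
  rw [Place.ord_restrictAlong _ (S37.H8.heckeBetaBarIntegral L q),
    ramificationIndexAlong_heckeBetaBar_eq_one hr hr12 hrL H hH]
  simp

/-- **(M2-unr) (a), consumer shape**: a uniformiser at `H` coming from level `L` through `α`. -/
theorem exists_ord_heckeAlphaBar_eq_one
    (H : Place Qbar (FN (L * q))) (hH : 0 ≤ H.ord (jBar (L * q))) :
    ∃ t : FN L, H.ord (heckeAlphaBar Qbar L q t) = 1 := by
  obtain ⟨t, -, ht⟩ := H76.exists_ord_eq_one
    (H.restrictAlong (heckeAlphaBar Qbar L q) (S37.H8.heckeAlphaBarIntegral L q))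
  exact ⟨t, by rw [ord_heckeAlphaBar_eq hr hr12 hrL H hH, ht]⟩

/-- **(M2-unr) (b), consumer shape**: a uniformiser at `H` coming from level `L` through `β`. -/
theorem exists_ord_heckeBetaBar_eq_one
    (H : Place Qbar (FN (L * q))) (hH : 0 ≤ H.ord (jBar (L * q))) :
    ∃ t : FN L, H.ord (heckeBetaBar Qbar L q t) = 1 := by
  obtain ⟨t, -, ht⟩ := H76.exists_ord_eq_one
    (H.restrictAlong (heckeBetaBar Qbar L q) (S37.H8.heckeBetaBarIntegral L q))
  exact ⟨t, by rw [ord_heckeBetaBar_eq hr hr12 hrL H hH, ht]⟩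

end Degeneracy

end Fermat.Agent.S36.H20
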