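/-
S36 / (A-hor) step H5 = retargeted (Der-5) (helper20): `e(H / H') = 1` AT THE `E0` LEVEL.

`E` any field with `Qbar / E` algebraic (e.g. `E = ↥E0`, `E0 : IntermediateField k Qbar`),
`F_L(E) = modularFunctionFieldFullC E L`.  The two degeneracy embeddings at the `E` level

* `iotaE E L q : F_L(E) →ₐ[E] F_{Lq}(E)`, the inclusion (`f(t) ↦ f(t)`),
* `verE E L q  : F_L(E) →ₐ[E] F_{Lq}(E)`, `= S34.H36.vSub E q L (L * q) _` (`f(t) ↦ f(t^q)`),

are UNRAMIFIED at every place `w` of `F_{Lq}(E) / E` which is not a pole of `j`, as soon as a prime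
`r ≡ 11 (mod 12)` divides `L`:

* `exists_ord_iotaE_eq_one`, `exists_ord_verE_eq_one` : `∃ t : F_L(E), w.ord (φ t) = 1`
  (a uniformiser of `O_w` coming from level `L`);
* `ord_iotaE_eq_of_le`, `ord_verE_eq_of_le` : for EVERY place `w'` of `F_L(E)` with
  `φ (O_{w'}) ⊆ O_w` (i.e. `w'` is the place below `w`): `w.ord (φ x) = w'.ord x` for all `x`;
  in particular `φ` maps every uniformiser of `O_{w'}` to a uniformiser of `O_w`
  (`ord_iotaE_uniformiser`, `ord_verE_uniformiser`).

Proof = the `Qbar` half (`S36.H20_DegenUnram`, twin of `S36.H63`) + (D1c) `S36.H36_ConstExtUnram`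
(constant field extension `E → Qbar` unramified at every place, at both levels) + multiplicativity
of `ord`.  The generic engine `exists_ord_eq_one_of_compat` / `ord_eq_of_le_of_compat` works for
any pair `(φE, φ)` of compatible embeddings with `φ` unramified at the non-cuspidal places.
-/
import Mathlib
import Fermat.Agent.S36.H20_DegenUnram
import Fermat.Agent.S36.H36_ConstExtUnram
import Fermat.Agent.S34.H36_VSub

set_option autoImplicit false
set_option linter.style.haveILetI false
set_option linter.unusedSectionVars false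
set_option synthInstance.maxHeartbeats 400000

noncomputable section

namespace Fermat.Agent.S36.H20

open AlgebraicCurve ModularCurve IntermediateField
open Fermat.Agent.S24 Fermat.Agent.S18

/-! ### A lemma on places: `e = 1` from one uniformiser -/

section PlaceLemma

variable {K K' F F' : Type*} [Field K] [Field F] [Algebra K F] [Field K'] [Field F']
  [Algebra K' F']

/-- `φ : F → F'` a ring embedding, `w` a place of `F'`, `w'` a place of `F` with
`φ (O_{w'}) ⊆ O_w`; if SOME `φ t` is a uniformiser at `w`, then `ord_w ∘ φ = ord_{w'}`. -/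
theorem ord_map_eq_of_le_of_exists_one (φ : F →+* F') (w : Place K' F') (w' : Place K F)
    (hle : ∀ x : F, x ∈ w'.toValuationSubring → φ x ∈ w.toValuationSubring)
    (ht : ∃ t : F, w.ord (φ t) = 1) (x : F) : w.ord (φ x) = w'.ord x := by
  obtain ⟨π, hπ0, hπ⟩ := H76.exists_ord_eq_one w'
  have hφ0 : ∀ y : F, y ≠ 0 → φ y ≠ 0 := fun y hy => (map_ne_zero φ).mpr hy
  have hnn : ∀ y : F, y ≠ 0 → 0 ≤ w'.ord y → 0 ≤ w.ord (φ y) := by
    intro y hy h0
    exact (H24.PlaceLemmas.mem_iff_ord_nonneg w (hφ0 y hy)).mp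
      (hle y ((H24.PlaceLemmas.mem_iff_ord_nonneg w' hy).mpr h0))
  have hunit : ∀ y : F, y ≠ 0 → w'.ord y = 0 → w.ord (φ y) = 0 := by
    intro y hy h0
    have h1 : 0 ≤ w.ord (φ y) := hnn y hy h0.ge
    have h2 : 0 ≤ w.ord (φ y⁻¹) := hnn y⁻¹ (inv_ne_zero hy) (by rw [w'.ord_inv, h0]; simp)
    rw [map_inv₀, w.ord_inv] at h2
    omega
  have hgen : ∀ y : F, y ≠ 0 → w.ord (φ y) = w'.ord y * w.ord (φ π) := by
    intro y hy
    have hz : π ^ (-(w'.ord y)) ≠ 0 := zpow_ne_zero _ hπ0
    have hu : w'.ord (y * π ^ (-(w'.ord y))) = 0 := by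
      rw [w'.ord_mul hy hz, w'.ord_zpow, hπ]; ring
    have h := hunit _ (mul_ne_zero hy hz) hu
    rw [map_mul, map_zpow₀, w.ord_mul (hφ0 y hy) (zpow_ne_zero _ (hφ0 π hπ0)), w.ord_zpow] at h
    linarith
  have he0 : 0 ≤ w.ord (φ π) := hnn π hπ0 (by rw [hπ]; norm_num)
  obtain ⟨t, ht⟩ := ht
  have ht0 : t ≠ 0 := by
    rintro rfl
    rw [map_zero, w.ord_zero] at ht
    exact zero_ne_one ht
  have h1 := hgen t ht0
  rw [ht] at h1
  have he1 : w.ord (φ π) = 1 := Int.eq_one_of_mul_eq_one_left he0 h1.symm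
  rcases eq_or_ne x 0 with rfl | hx
  · rw [map_zero, w.ord_zero, w'.ord_zero]
  · rw [hgen x hx, he1, mul_one]

end PlaceLemma

/-! ### The generic engine -/

section Generic

variable (E : Type*) [Field E] [Algebra E Qbar] [Algebra.IsAlgebraic E Qbar]
variable (L M : ℕ) [NeZero L] [NeZero M]
variable [Algebra E (FN L)] [IsScalarTower E Qbar (FN L)]
variable [Algebra E (FN M)] [IsScalarTower E Qbar (FN M)]

variable {E L M}

/-- **Engine, existence of a uniformiser from below.**  `φE : F_L(E) → F_M(E)` and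
`φ : FN L → FN M` compatible with the coefficient embeddings `toBar`, `φ` integral and of
ramification index `1` at every non-cuspidal place of `FN M`.  Then every non-cuspidal place `w`
of `F_M(E) / E` has a uniformiser of the form `φE t`. -/
theorem exists_ord_eq_one_of_compat
    (φE : modularFunctionFieldFullC E L →+* modularFunctionFieldFullC E M)
    (φ : FN L →ₐ[Qbar] FN M) (hφ : φ.toRingHom.IsIntegral)
    (hcompat : ∀ x, H99.toBar E M (φE x) = φ (H99.toBar E L x))
    (hram : ∀ v : Place Qbar (FN M), 0 ≤ v.ord (jBar M) → Place.ramificationIndexAlong φ v = 1)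
    (w : Place E (modularFunctionFieldFullC E M)) (hw : 0 ≤ w.ord (H16.jK E M)) :
    ∃ t : modularFunctionFieldFullC E L, w.ord (φE t) = 1 := by
  obtain ⟨v, hv, -⟩ := H36.exists_place_above_toBar E M w
  have hvj : 0 ≤ v.ord (jBar M) := by
    rw [← H99.toBar_jK E M, hv]
    exact hw
  obtain ⟨t, ht⟩ := H36.exists_ord_toBar_eq_one E L (v.restrictAlong φ hφ)
  refine ⟨t, ?_⟩
  rw [← hv, hcompat, Place.ord_restrictAlong φ hφ, hram v hvj, ht]
  simp

/-- **Engine, `e = 1` over the place below.**  Same hypotheses, `φE` an `E`-algebra map; if `w'`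
is a place of `F_L(E)` with `φE (O_{w'}) ⊆ O_w`, then `w.ord (φE x) = w'.ord x` for all `x`. -/
theorem ord_eq_of_le_of_compat
    (φE : modularFunctionFieldFullC E L →ₐ[E] modularFunctionFieldFullC E M)
    (φ : FN L →ₐ[Qbar] FN M) (hφ : φ.toRingHom.IsIntegral)
    (hcompat : ∀ x, H99.toBar E M (φE x) = φ (H99.toBar E L x))
    (hram : ∀ v : Place Qbar (FN M), 0 ≤ v.ord (jBar M) → Place.ramificationIndexAlong φ v = 1)
    (w : Place E (modularFunctionFieldFullC E M)) (hw : 0 ≤ w.ord (H16.jK E M))
    (w' : Place E (modularFunctionFieldFullC E L))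
    (hle : ∀ x : modularFunctionFieldFullC E L, x ∈ w'.toValuationSubring →
      φE x ∈ w.toValuationSubring)
    (x : modularFunctionFieldFullC E L) : w.ord (φE x) = w'.ord x := by
  have hex : ∃ t : modularFunctionFieldFullC E L, w.ord (φE.toRingHom t) = 1 :=
    exists_ord_eq_one_of_compat φE.toRingHom φ hφ hcompat hram w hw
  exact ord_map_eq_of_le_of_exists_one (K := E) (K' := E) (F := modularFunctionFieldFullC E L)
    (F' := modularFunctionFieldFullC E M) φE.toRingHom w w' hle hex x

end Generic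

/-! ### The two degeneracy embeddings at the `E` level -/

section Maps

variable (E : Type*) [Field E] (L q : ℕ) [NeZero L] [NeZero q]

/-- `ι : F_L(E) → F_{Lq}(E)`, the inclusion. -/
def iotaE : modularFunctionFieldFullC E L →ₐ[E] modularFunctionFieldFullC E (L * q) :=
  IntermediateField.inclusion (full_degeneracyC_le E (dvd_mul_right L q))

theorem coe_iotaE (x : modularFunctionFieldFullC E L) :
    ((iotaE E L q x : modularFunctionFieldFullC E (L * q)) : LaurentSeries E) =
      (x : LaurentSeries E) :=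
  IntermediateField.coe_inclusion _ x

theorem mul_comm_dvd_mul (L q : ℕ) : q * L ∣ L * q := (mul_comm q L).dvd

/-- `V_q : F_L(E) → F_{Lq}(E)`, `f(t) ↦ f(t^q)` (`= S34.H36.vSub`). -/
def verE : modularFunctionFieldFullC E L →ₐ[E] modularFunctionFieldFullC E (L * q) :=
  S34.H36.vSub E q L (L * q) (mul_comm_dvd_mul L q)

theorem coe_verE (x : modularFunctionFieldFullC E L) :
    ((verE E L q x : modularFunctionFieldFullC E (L * q)) : LaurentSeries E) =
      qExpand E q (x : LaurentSeries E) :=
  S34.H36.coe_vSub E q L (L * q) (mul_comm_dvd_mul L q) x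

variable [Algebra E Qbar]

theorem toBar_iotaE (x : modularFunctionFieldFullC E L) :
    H99.toBar E (L * q) (iotaE E L q x) = heckeAlphaBar Qbar L q (H99.toBar E L x) := by
  apply Subtype.ext
  rw [coe_heckeAlphaBar, H99.coe_toBar, H99.coe_toBar, coe_iotaE]

theorem toBar_verE (x : modularFunctionFieldFullC E L) :
    H99.toBar E (L * q) (verE E L q x) = heckeBetaBar Qbar L q (H99.toBar E L x) := by
  apply Subtype.ext
  rw [coe_heckeBetaBar, H99.coe_toBar, H99.coe_toBar, coe_verE, coeffMap_qExpand]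

end Maps

/-! ### (A-hor) H5 at the `E` level -/

section Main

variable (E : Type*) [Field E] [Algebra E Qbar] [Algebra.IsAlgebraic E Qbar]
variable {L q : ℕ} [NeZero L] [NeZero q]
variable [Algebra E (FN L)] [IsScalarTower E Qbar (FN L)]
variable [Algebra E (FN (L * q))] [IsScalarTower E Qbar (FN (L * q))]
variable {r : ℕ} (hr : r.Prime) (hr12 : r % 12 = 11) (hrL : r ∣ L)
include hr hr12 hrL

/-- **H5 (a), `ι`**: every non-cuspidal place of `F_{Lq}(E) / E` has a uniformiser `ι t`,
`t : F_L(E)`. -/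
theorem exists_ord_iotaE_eq_one (w : Place E (modularFunctionFieldFullC E (L * q)))
    (hw : 0 ≤ w.ord (H16.jK E (L * q))) :
    ∃ t : modularFunctionFieldFullC E L, w.ord (iotaE E L q t) = 1 :=
  exists_ord_eq_one_of_compat (iotaE E L q).toRingHom (heckeAlphaBar Qbar L q)
    (S37.H8.heckeAlphaBarIntegral L q) (toBar_iotaE E L q)
    (fun v hv => ramificationIndexAlong_heckeAlphaBar_eq_one hr hr12 hrL v hv) w hw

/-- **H5 (a), `V`**: every non-cuspidal place of `F_{Lq}(E) / E` has a uniformiser `V t`,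
`t : F_L(E)`. -/
theorem exists_ord_verE_eq_one (w : Place E (modularFunctionFieldFullC E (L * q)))
    (hw : 0 ≤ w.ord (H16.jK E (L * q))) :
    ∃ t : modularFunctionFieldFullC E L, w.ord (verE E L q t) = 1 :=
  exists_ord_eq_one_of_compat (verE E L q).toRingHom (heckeBetaBar Qbar L q)
    (S37.H8.heckeBetaBarIntegral L q) (toBar_verE E L q)
    (fun v hv => ramificationIndexAlong_heckeBetaBar_eq_one hr hr12 hrL v hv) w hw

/-- **H5 (b), `ι`**: `e(w / w') = 1` for the place `w'` below `w` along `ι`. -/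
theorem ord_iotaE_eq_of_le (w : Place E (modularFunctionFieldFullC E (L * q)))
    (hw : 0 ≤ w.ord (H16.jK E (L * q))) (w' : Place E (modularFunctionFieldFullC E L))
    (hle : ∀ x : modularFunctionFieldFullC E L, x ∈ w'.toValuationSubring →
      iotaE E L q x ∈ w.toValuationSubring)
    (x : modularFunctionFieldFullC E L) : w.ord (iotaE E L q x) = w'.ord x :=
  ord_eq_of_le_of_compat (iotaE E L q) (heckeAlphaBar Qbar L q)
    (S37.H8.heckeAlphaBarIntegral L q) (toBar_iotaE E L q)
    (fun v hv => ramificationIndexAlong_heckeAlphaBar_eq_one hr hr12 hrL v hv) w hw w' hle x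

/-- **H5 (b), `V`**: `e(w / w'') = 1` for the place `w''` below `w` along `V`. -/
theorem ord_verE_eq_of_le (w : Place E (modularFunctionFieldFullC E (L * q)))
    (hw : 0 ≤ w.ord (H16.jK E (L * q))) (w' : Place E (modularFunctionFieldFullC E L))
    (hle : ∀ x : modularFunctionFieldFullC E L, x ∈ w'.toValuationSubring →
      verE E L q x ∈ w.toValuationSubring)
    (x : modularFunctionFieldFullC E L) : w.ord (verE E L q x) = w'.ord x :=
  ord_eq_of_le_of_compat (verE E L q) (heckeBetaBar Qbar L q)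
    (S37.H8.heckeBetaBarIntegral L q) (toBar_verE E L q)
    (fun v hv => ramificationIndexAlong_heckeBetaBar_eq_one hr hr12 hrL v hv) w hw w' hle x

/-- `ι` maps uniformisers of `O_{w'}` to uniformisers of `O_w`. -/
theorem ord_iotaE_uniformiser (w : Place E (modularFunctionFieldFullC E (L * q)))
    (hw : 0 ≤ w.ord (H16.jK E (L * q))) (w' : Place E (modularFunctionFieldFullC E L))
    (hle : ∀ x : modularFunctionFieldFullC E L, x ∈ w'.toValuationSubring →
      iotaE E L q x ∈ w.toValuationSubring)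
    {π : modularFunctionFieldFullC E L} (hπ : w'.ord π = 1) : w.ord (iotaE E L q π) = 1 := by
  rw [ord_iotaE_eq_of_le E hr hr12 hrL w hw w' hle, hπ]

/-- `V` maps uniformisers of `O_{w''}` to uniformisers of `O_w`. -/
theorem ord_verE_uniformiser (w : Place E (modularFunctionFieldFullC E (L * q)))
    (hw : 0 ≤ w.ord (H16.jK E (L * q))) (w' : Place E (modularFunctionFieldFullC E L))
    (hle : ∀ x : modularFunctionFieldFullC E L, x ∈ w'.toValuationSubring →
      verE E L q x ∈ w.toValuationSubring)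
    {π : modularFunctionFieldFullC E L} (hπ : w'.ord π = 1) : w.ord (verE E L q π) = 1 := by
  rw [ord_verE_eq_of_le E hr hr12 hrL w hw w' hle, hπ]

end Main

end Fermat.Agent.S36.H20
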