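/-
helper21 — S36, row (E4) **Step 2** (generic, Mathlib + the `S34` chart vocabulary only).

`B` a noetherian domain (a chart of the model), `F` its fraction field, `n` a prime of `B` (a closed
point), `u ≠ 0` in `F`, `m > 0`.

INPUT (IN-1), either of
  (U) `UniqueFactorizationMonoid (Localization.AtPrime n)`,
  (P) every height-one prime `P ⊆ n` is principal after localisation at `n`:
      `∃ f ∈ P, ∀ z ∈ P, ∃ t ∉ n, f ∣ t * z`        (`(P) ⟹ (U)`: Kaplansky's criterion);
INPUT (IN-2)
  (D) at every height-one prime `P ⊆ n`, `u` is an `m`-th power up to a unit at `P`: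
      `∃ g ≠ 0, S34.H56.IsUnitAt P (u / g ^ m)`     (valuation form for normal `B` also accepted);
OUTPUT
  `∃ G ≠ 0, S34.H47.UnitIn (S34.H21.locSubring n) (u / G ^ m)`    (`u = η_n G_n ^ m`, the pair
  `hG0`/`hG` of `S36.H85.radDatum_of_towers`).

Exports: `exists_unitIn_div_pow` (U), `exists_unitIn_div_pow_of_principal` (P),
`exists_unitIn_div_pow_of_atPrime` (abstract localisation `A` of `B` at `n`, factorial),
`uniqueFactorizationMonoid_of_principal` ((P) ⟹ (U)), the valuation variants
`exists_unitIn_div_pow_of_valuation`, `exists_unitIn_div_pow_of_principal_of_valuation`, and the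
UFD lemmas `exists_unit_mul_eq_pow`, `exists_unit_div_pow_of_ufm`.
-/
import Mathlib
import Fermat.Agent.S34.H21_ModelHypCharts
import Fermat.Agent.CA.H3_HasOrd

set_option autoImplicit false
set_option linter.unusedSectionVars false
set_option linter.style.haveILetI false

namespace Fermat.Agent.S36.H21

open Fermat.Agent.S34

section UFD

variable {A F : Type*} [CommRing A] [IsDomain A] [UniqueFactorizationMonoid A]
  [Field F] [Algebra A F] [IsFractionRing A F]

open Classical in
/-- In a UFD, an element all of whose prime multiplicities are "divisible by `m`" (in the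
multiplicative form: `c * x ^ m * b = a * y ^ m` with `p ∤ a`, `p ∤ b`) is a unit times an
`m`-th power. -/
theorem exists_unit_mul_eq_pow {c : A} (hc : c ≠ 0) {m : ℕ}
    (h : ∀ p : A, Prime p → ∃ x y a b : A, x ≠ 0 ∧ y ≠ 0 ∧ ¬ p ∣ a ∧ ¬ p ∣ b ∧
      c * x ^ m * b = a * y ^ m) :
    ∃ (ε : Aˣ) (c' : A), c * ε = c' ^ m := by
  have key : ∀ p : Associates A, Irreducible p →
      m ∣ Associates.count p (Associates.mk c).factors := by
    intro p hp
    obtain ⟨p0, rfl⟩ := Associates.mk_surjective p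
    have hp0 : Irreducible p0 := Associates.irreducible_mk.mp hp
    have hp0' : Prime p0 := UniqueFactorizationMonoid.irreducible_iff_prime.mp hp0
    obtain ⟨x, y, a, b, hx, hy, ha, hb, heq⟩ := h p0 hp0'
    have ha0 : a ≠ 0 := fun h0 => ha (h0 ▸ dvd_zero p0)
    have hb0 : b ≠ 0 := fun h0 => hb (h0 ▸ dvd_zero p0)
    have cnt0 : ∀ z : A, z ≠ 0 → ¬ p0 ∣ z →
        Associates.count (Associates.mk p0) (Associates.mk z).factors = 0 := by
      intro z hz hpz
      by_contra hne
      exact hpz ((Associates.count_ne_zero_iff_dvd hz hp0).mp hne)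
    have mk0 : ∀ z : A, z ≠ 0 → Associates.mk z ≠ 0 := fun z hz =>
      Associates.mk_ne_zero.mpr hz
    have h1 := congrArg (fun z => Associates.count (Associates.mk p0) (Associates.mk z).factors) heq
    simp only [← Associates.mk_mul_mk, Associates.mk_pow] at h1
    rw [Associates.count_mul (mul_ne_zero (mk0 c hc) (pow_ne_zero _ (mk0 x hx))) (mk0 b hb0) hp,
      Associates.count_mul (mk0 c hc) (pow_ne_zero _ (mk0 x hx)) hp,
      Associates.count_mul (mk0 a ha0) (pow_ne_zero _ (mk0 y hy)) hp,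
      Associates.count_pow (mk0 x hx) hp, Associates.count_pow (mk0 y hy) hp,
      cnt0 a ha0 ha, cnt0 b hb0 hb, add_zero, zero_add] at h1
    exact (Nat.dvd_add_left (dvd_mul_right m _)).mp (h1 ▸ dvd_mul_right m _)
  obtain ⟨β, hβ⟩ := Associates.is_pow_of_dvd_count (Associates.mk_ne_zero.mpr hc) key
  obtain ⟨c', rfl⟩ := Associates.mk_surjective β
  rw [← Associates.mk_pow, Associates.mk_eq_mk_iff_associated] at hβ
  obtain ⟨ε, hε⟩ := hβ
  exact ⟨ε, c', hε⟩

/-- UFD, fraction-field form: if `u` is an `m`-th power up to a unit at every prime element,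
then `u` is a unit of `A` times an `m`-th power. -/
theorem exists_unit_div_pow_of_ufm {u : F} (hu : u ≠ 0) {m : ℕ} (hm : 0 < m)
    (h : ∀ p : A, Prime p → ∃ g : F, g ≠ 0 ∧ ∃ a b : A, ¬ p ∣ a ∧ ¬ p ∣ b ∧
        u / g ^ m * algebraMap A F b = algebraMap A F a) :
    ∃ G : F, G ≠ 0 ∧ ∃ ε : Aˣ, u / G ^ m = algebraMap A F (ε : A) := by
  have hinj := IsFractionRing.injective A F
  have hne : ∀ z : A, z ≠ 0 → algebraMap A F z ≠ 0 :=
    fun z hz h0 => hz (hinj (by rw [h0, map_zero]))
  obtain ⟨a0, b0, hb0, rfl⟩ := IsFractionRing.div_surjective (A := A) u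
  have hb00 : b0 ≠ 0 := nonZeroDivisors.ne_zero hb0
  have ha00 : a0 ≠ 0 := by
    rintro rfl
    rw [map_zero, zero_div] at hu
    exact hu rfl
  obtain ⟨m', rfl⟩ : ∃ m', m = m' + 1 := ⟨m - 1, by omega⟩
  have hc : a0 * b0 ^ m' ≠ 0 := mul_ne_zero ha00 (pow_ne_zero _ hb00)
  have hβ0 := hne b0 hb00
  obtain ⟨ε, c', hε⟩ := exists_unit_mul_eq_pow hc (m := m' + 1) (fun p hp => by
    obtain ⟨g, hg, a, b, ha, hb, heq⟩ := h p hp
    obtain ⟨s, t, ht, rfl⟩ := IsFractionRing.div_surjective (A := A) g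
    have ht0 : t ≠ 0 := nonZeroDivisors.ne_zero ht
    have hs0 : s ≠ 0 := by
      rintro rfl
      rw [map_zero, zero_div] at hg
      exact hg rfl
    refine ⟨t, s * b0, a, b, ht0, mul_ne_zero hs0 hb00, ha, hb, hinj ?_⟩
    have hτ := hne t ht0
    have hσ := hne s hs0
    simp only [map_mul, map_pow]
    rw [← heq, div_pow]
    field_simp
    ring)
  have hc'0 : c' ≠ 0 := by
    rintro rfl
    rw [zero_pow (Nat.succ_ne_zero m')] at hε
    exact hc ((Units.mul_left_eq_zero ε).mp hε)
  have hγ := hne c' hc'0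
  refine ⟨algebraMap A F c' / algebraMap A F b0, div_ne_zero hγ hβ0, ε⁻¹, ?_⟩
  have h1 : algebraMap A F c' ^ (m' + 1) =
      algebraMap A F a0 * algebraMap A F b0 ^ m' * algebraMap A F (ε : A) := by
    rw [← map_pow, ← hε, map_mul, map_mul, map_pow]
  have h2 : algebraMap A F (ε : A) * algebraMap A F ((ε⁻¹ : Aˣ) : A) = 1 := by
    rw [← map_mul, Units.mul_inv, map_one]
  have hε0 : algebraMap A F (ε : A) ≠ 0 := hne _ ε.ne_zero
  have hα0 := hne a0 ha00
  rw [div_pow, h1]
  field_simp
  linear_combination (-(algebraMap A F b0 * algebraMap A F b0 ^ m')) * h2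

end UFD

section Glue

variable {B F : Type*} [CommRing B] [IsDomain B] [IsNoetherianRing B] [Field F] [Algebra B F]
  [IsFractionRing B F]

/-- Elements of the localisation `A` of `B` at `n` lie in `locSubring n`. -/
theorem algebraMap_mem_locSubring_of_isLocalization (n : Ideal B) [n.IsPrime]
    (A : Type*) [CommRing A] [Algebra B A] [IsLocalization.AtPrime A n]
    [Algebra A F] [IsScalarTower B A F] (y : A) :
    algebraMap A F y ∈ H21.locSubring (F := F) n := by
  obtain ⟨⟨a, s⟩, hs⟩ := IsLocalization.surj n.primeCompl y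
  refine ⟨a, s, s.2, ?_⟩
  rw [IsScalarTower.algebraMap_apply B A F, IsScalarTower.algebraMap_apply B A F, ← hs, map_mul]

/-- **(E4) core, abstract local ring.**  `A` the localisation of the noetherian domain `B` at the
prime `n`, assumed factorial; `u ≠ 0` in the fraction field which is an `m`-th power up to a unit
at every height-one prime through `n`.  Then `u = η G ^ m` with `η` a unit at `n`. -/
theorem exists_unitIn_div_pow_of_isLocalization (n : Ideal B) [hn : n.IsPrime]
    (A : Type*) [CommRing A] [Algebra B A] [IsLocalization.AtPrime A n] [IsDomain A]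
    [UniqueFactorizationMonoid A] [Algebra A F] [IsScalarTower B A F]
    {u : F} (hu : u ≠ 0) {m : ℕ} (hm : 0 < m)
    (hord : ∀ P : Ideal B, P.IsPrime → P.height = 1 → P ≤ n →
      ∃ g : F, g ≠ 0 ∧ H56.IsUnitAt P (u / g ^ m)) :
    ∃ G : F, G ≠ 0 ∧ H47.UnitIn (H21.locSubring (F := F) n) (u / G ^ m) := by
  haveI : IsFractionRing A F :=
    IsFractionRing.isFractionRing_of_isDomain_of_isLocalization n.primeCompl A F
  haveI : IsNoetherianRing A := IsLocalization.isNoetherianRing n.primeCompl A inferInstance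
  have hinj := IsFractionRing.injective A F
  obtain ⟨G, hG0, ε, hε⟩ := exists_unit_div_pow_of_ufm (A := A) hu hm (fun p hp => by
    -- the height-one prime `(p)` of `A` and its contraction
    have hp0 : p ≠ 0 := hp.ne_zero
    haveI hQp : (Ideal.span ({p} : Set A)).IsPrime := (Ideal.span_singleton_prime hp0).2 hp
    have hQ1 : (Ideal.span ({p} : Set A)).height = 1 := by
      refine le_antisymm ?_ ?_
      · refine Ideal.height_le_one_of_isPrincipal_of_mem_minimalPrimes
          (Ideal.span ({p} : Set A)) _ ?_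
        rw [Ideal.minimalPrimes_eq_subsingleton_self]
        exact Set.mem_singleton _
      · refine Order.one_le_iff_pos.mpr (pos_iff_ne_zero.mpr fun h0 => hp0 ?_)
        have := Ideal.height_eq_zero_iff_eq_bot.mp h0
        rwa [Ideal.span_singleton_eq_bot] at this
    have hPp : ((Ideal.span ({p} : Set A)).under B).IsPrime := inferInstance
    have hP1 : ((Ideal.span ({p} : Set A)).under B).height = 1 := by
      rw [IsLocalization.height_under n.primeCompl]
      exact hQ1
    have hPn : (Ideal.span ({p} : Set A)).under B ≤ n := by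
      intro x hx
      by_contra hxn
      have hunit : IsUnit (algebraMap B A x) := IsLocalization.map_units A (⟨x, hxn⟩ : n.primeCompl)
      exact hQp.ne_top (Ideal.eq_top_of_isUnit_mem _ hx hunit)
    obtain ⟨g, hg, a, b, ha, hb, hab⟩ := hord _ hPp hP1 hPn
    refine ⟨g, hg, algebraMap B A a, algebraMap B A b, fun hd => ha ?_, fun hd => hb ?_, ?_⟩
    · exact Ideal.mem_span_singleton.mpr hd
    · exact Ideal.mem_span_singleton.mpr hd
    · rw [← IsScalarTower.algebraMap_apply B A F, ← IsScalarTower.algebraMap_apply B A F]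
      exact hab)
  refine ⟨G, hG0, ?_, ?_, ?_⟩
  · rw [hε]
    exact algebraMap_mem_locSubring_of_isLocalization n A _
  · have : (u / G ^ m)⁻¹ = algebraMap A F ((ε⁻¹ : Aˣ) : A) := by
      rw [hε, ← map_units_inv]
    rw [this]
    exact algebraMap_mem_locSubring_of_isLocalization n A _
  · rw [hε]
    intro h0
    exact ε.ne_zero (hinj (by rw [h0, map_zero]))

/-- The canonical map from an abstract localisation `A` of `B` at `n` to the fraction field. -/
theorem exists_algebra_of_isLocalization (n : Ideal B) [hn : n.IsPrime]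
    (A : Type*) [CommRing A] [Algebra B A] [IsLocalization.AtPrime A n] :
    ∃ φ : A →+* F, ∀ x : B, φ (algebraMap B A x) = algebraMap B F x := by
  have hunit : ∀ y : n.primeCompl, IsUnit (algebraMap B F (y : B)) := fun y =>
    IsLocalization.map_units F (⟨y, n.primeCompl_le_nonZeroDivisors y.2⟩ : nonZeroDivisors B)
  exact ⟨IsLocalization.lift (M := n.primeCompl) (S := A) hunit, IsLocalization.lift_eq hunit⟩

/-- **(E4), abstract local ring without a chosen map to `F`.** -/
theorem exists_unitIn_div_pow_of_atPrime (n : Ideal B) [hn : n.IsPrime]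
    (A : Type*) [CommRing A] [Algebra B A] [IsLocalization.AtPrime A n] [IsDomain A]
    [UniqueFactorizationMonoid A]
    {u : F} (hu : u ≠ 0) {m : ℕ} (hm : 0 < m)
    (hord : ∀ P : Ideal B, P.IsPrime → P.height = 1 → P ≤ n →
      ∃ g : F, g ≠ 0 ∧ H56.IsUnitAt P (u / g ^ m)) :
    ∃ G : F, G ≠ 0 ∧ H47.UnitIn (H21.locSubring (F := F) n) (u / G ^ m) := by
  obtain ⟨φ, hφ⟩ := exists_algebra_of_isLocalization (F := F) n A
  letI : Algebra A F := φ.toAlgebra
  haveI : IsScalarTower B A F := IsScalarTower.of_algebraMap_eq fun x => (hφ x).symm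
  exact exists_unitIn_div_pow_of_isLocalization n A hu hm hord

/-- **(E4) Step 2, shape (U).**  `B` a noetherian domain (a chart), `n` a prime (the closed
point) such that `B_n` is factorial; `u ≠ 0` in the fraction field such that at every height-one
prime `P ⊆ n` it is an `m`-th power up to a unit at `P`.  Then `u = η G ^ m`, `η ∈ (B_n)ˣ`. -/
theorem exists_unitIn_div_pow (n : Ideal B) [hn : n.IsPrime]
    [UniqueFactorizationMonoid (Localization.AtPrime n)]
    {u : F} (hu : u ≠ 0) {m : ℕ} (hm : 0 < m)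
    (hord : ∀ P : Ideal B, P.IsPrime → P.height = 1 → P ≤ n →
      ∃ g : F, g ≠ 0 ∧ H56.IsUnitAt P (u / g ^ m)) :
    ∃ G : F, G ≠ 0 ∧ H47.UnitIn (H21.locSubring (F := F) n) (u / G ^ m) :=
  exists_unitIn_div_pow_of_atPrime n (Localization.AtPrime n) hu hm hord

/-- **(P) ⟹ (U)** (Kaplansky's criterion).  If every height-one prime `P ⊆ n` of the noetherian
domain `B` becomes principal in `B_n` (`P B_n = f B_n`), then the localisation is factorial. -/
theorem uniqueFactorizationMonoid_of_principal (n : Ideal B) [hn : n.IsPrime]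
    (A : Type*) [CommRing A] [Algebra B A] [IsLocalization.AtPrime A n] [IsDomain A]
    (hprin : ∀ P : Ideal B, P.IsPrime → P.height = 1 → P ≤ n →
      ∃ f, f ∈ P ∧ ∀ z ∈ P, ∃ t, t ∉ n ∧ f ∣ t * z) :
    UniqueFactorizationMonoid A := by
  haveI : IsNoetherianRing A := IsLocalization.isNoetherianRing n.primeCompl A inferInstance
  have hinjA : Function.Injective (algebraMap B A) :=
    IsLocalization.injective A n.primeCompl_le_nonZeroDivisors
  refine UniqueFactorizationMonoid.iff_exists_prime_mem_of_isPrime.2 fun I hI hIp => ?_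
  obtain ⟨x, hxI, hx0⟩ := Submodule.exists_mem_ne_zero_of_ne_bot hI
  have hxle : Ideal.span ({x} : Set A) ≤ I := (Ideal.span_singleton_le_iff_mem _).mpr hxI
  obtain ⟨Q, hQmin, hQI⟩ := Ideal.exists_minimalPrimes_le hxle
  haveI hQp : Q.IsPrime := hQmin.1.1
  have hxQ : x ∈ Q := (Ideal.span_singleton_le_iff_mem _).mp hQmin.1.2
  have hQ1 : Q.height = 1 := by
    refine le_antisymm
      (Ideal.height_le_one_of_isPrincipal_of_mem_minimalPrimes (Ideal.span ({x} : Set A)) Q hQmin)
      (Order.one_le_iff_pos.mpr (pos_iff_ne_zero.mpr fun h0 => hx0 ?_))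
    have := Ideal.height_eq_zero_iff_eq_bot.mp h0
    rw [this] at hxQ
    exact hxQ
  have hPp : (Q.under B).IsPrime := inferInstance
  have hP1 : (Q.under B).height = 1 := by
    rw [IsLocalization.height_under n.primeCompl]
    exact hQ1
  have hPn : Q.under B ≤ n := by
    intro y hy
    by_contra hyn
    have hunit : IsUnit (algebraMap B A y) :=
      IsLocalization.map_units A (⟨y, hyn⟩ : n.primeCompl)
    exact hQp.ne_top (Ideal.eq_top_of_isUnit_mem _ hy hunit)
  obtain ⟨f, hfP, hf⟩ := hprin _ hPp hP1 hPn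
  have hfQ : algebraMap B A f ∈ Q := hfP
  have hQf : Q = Ideal.span {algebraMap B A f} := by
    refine le_antisymm (fun y hy => ?_) ((Ideal.span_singleton_le_iff_mem _).mpr hfQ)
    obtain ⟨⟨z, s⟩, hzs⟩ := IsLocalization.surj n.primeCompl y
    have hzP : z ∈ Q.under B := by
      show algebraMap B A z ∈ Q
      rw [← hzs]
      exact Q.mul_mem_right _ hy
    obtain ⟨t, htn, w, hw⟩ := hf z hzP
    obtain ⟨su, hsu⟩ := IsLocalization.map_units A s
    obtain ⟨tu, htu⟩ := IsLocalization.map_units A (⟨t, htn⟩ : n.primeCompl)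
    rw [Ideal.mem_span_singleton]
    refine ⟨algebraMap B A w * ↑su⁻¹ * ↑tu⁻¹, ?_⟩
    have h1 : algebraMap B A t * algebraMap B A z = algebraMap B A f * algebraMap B A w := by
      rw [← map_mul, ← map_mul, hw]
    have h2 : y = y * (↑su * ↑su⁻¹) * (↑tu * ↑tu⁻¹) := by
      rw [Units.mul_inv, Units.mul_inv, mul_one, mul_one]
    rw [h2, hsu, htu]
    simp only at hzs h1 ⊢
    linear_combination (↑su⁻¹ * ↑tu⁻¹ * algebraMap B A t) * hzs + (↑su⁻¹ * ↑tu⁻¹ : A) * h1
  have hf0 : algebraMap B A f ≠ 0 := by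
    intro h0
    rw [h0, Ideal.span_singleton_eq_bot.mpr rfl] at hQf
    rw [hQf] at hxQ
    exact hx0 hxQ
  exact ⟨algebraMap B A f, hQI hfQ, (Ideal.span_singleton_prime hf0).1 (hQf ▸ hQp)⟩

/-- **(E4) Step 2, shape (P).** -/
theorem exists_unitIn_div_pow_of_principal (n : Ideal B) [hn : n.IsPrime]
    (hprin : ∀ P : Ideal B, P.IsPrime → P.height = 1 → P ≤ n →
      ∃ f, f ∈ P ∧ ∀ z ∈ P, ∃ t, t ∉ n ∧ f ∣ t * z)
    {u : F} (hu : u ≠ 0) {m : ℕ} (hm : 0 < m)
    (hord : ∀ P : Ideal B, P.IsPrime → P.height = 1 → P ≤ n →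
      ∃ g : F, g ≠ 0 ∧ H56.IsUnitAt P (u / g ^ m)) :
    ∃ G : F, G ≠ 0 ∧ H47.UnitIn (H21.locSubring (F := F) n) (u / G ^ m) := by
  haveI := uniqueFactorizationMonoid_of_principal n (Localization.AtPrime n) hprin
  exact exists_unitIn_div_pow n hu hm hord

end Glue

section Normal

variable {B F : Type*} [CommRing B] [IsDomain B] [IsNoetherianRing B] [IsIntegrallyClosed B]
  [Field F] [Algebra B F] [IsFractionRing B F]

/-- (D) in valuation form gives (D) in `IsUnitAt` form. -/
theorem isUnitAt_of_valuation (n : Ideal B) {u : F} {m : ℕ}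
    (hord : ∀ (P : Ideal B) (_ : P.IsPrime) (h1 : P.height = 1), P ≤ n →
      ∃ g : F, g ≠ 0 ∧ (H56.valuationSubringAt (K := F) P h1).valuation (u / g ^ m) = 1) :
    ∀ P : Ideal B, P.IsPrime → P.height = 1 → P ≤ n →
      ∃ g : F, g ≠ 0 ∧ H56.IsUnitAt P (u / g ^ m) := by
  intro P hP h1 hPn
  obtain ⟨g, hg, h⟩ := hord P hP h1 hPn
  exact ⟨g, hg, (H56.valuation_eq_one_iff h1).mp h⟩

/-- **(E4) Step 2, shape (U), orders in valuation form** (`B` normal). -/
theorem exists_unitIn_div_pow_of_valuation (n : Ideal B) [hn : n.IsPrime]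
    [UniqueFactorizationMonoid (Localization.AtPrime n)]
    {u : F} (hu : u ≠ 0) {m : ℕ} (hm : 0 < m)
    (hord : ∀ (P : Ideal B) (_ : P.IsPrime) (h1 : P.height = 1), P ≤ n →
      ∃ g : F, g ≠ 0 ∧ (H56.valuationSubringAt (K := F) P h1).valuation (u / g ^ m) = 1) :
    ∃ G : F, G ≠ 0 ∧ H47.UnitIn (H21.locSubring (F := F) n) (u / G ^ m) :=
  exists_unitIn_div_pow n hu hm (isUnitAt_of_valuation n hord)

/-- **(E4) Step 2, shape (P), orders in valuation form** (`B` normal). -/
theorem exists_unitIn_div_pow_of_principal_of_valuation (n : Ideal B) [hn : n.IsPrime]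
    (hprin : ∀ P : Ideal B, P.IsPrime → P.height = 1 → P ≤ n →
      ∃ f, f ∈ P ∧ ∀ z ∈ P, ∃ t, t ∉ n ∧ f ∣ t * z)
    {u : F} (hu : u ≠ 0) {m : ℕ} (hm : 0 < m)
    (hord : ∀ (P : Ideal B) (_ : P.IsPrime) (h1 : P.height = 1), P ≤ n →
      ∃ g : F, g ≠ 0 ∧ (H56.valuationSubringAt (K := F) P h1).valuation (u / g ^ m) = 1) :
    ∃ G : F, G ≠ 0 ∧ H47.UnitIn (H21.locSubring (F := F) n) (u / G ^ m) :=
  exists_unitIn_div_pow_of_principal n hprin hu hm (isUnitAt_of_valuation n hord)

end Normal

section Ord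

open Fermat.Agent.CA.H3

variable {F : Type*} [Field F]

/-- An element of order `m * e` with respect to `t` is an `m`-th power up to a unit: the shape (D)
from the `HasOrd` bookkeeping of row (E3). -/
theorem exists_div_pow_of_hasOrd {V : ValuationSubring F} {t u : F} (ht : t ≠ 0) {m : ℕ} {e : ℤ}
    (h : HasOrd V t u ((m : ℤ) * e)) : ∃ g : F, g ≠ 0 ∧ V.valuation (u / g ^ m) = 1 := by
  refine ⟨t ^ e, zpow_ne_zero _ ht, ?_⟩
  unfold HasOrd at h
  have : u / (t ^ e) ^ m = u * t ^ (-((m : ℤ) * e)) := by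
    rw [zpow_neg, div_eq_mul_inv, ← zpow_natCast, ← zpow_mul, mul_comm e]
  rw [this]
  exact h

end Ord

end Fermat.Agent.S36.H21
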