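/-
helper21 — S36, row (E4)/(r4) **Step 2 in the Place / two-chart vocabulary**.

On top of `S36/H21_StepTwo` (factorial local ring + `m ∣` orders ⟹ `u = η_n G_n ^ m`) and of the
`S34` dictionary "horizontal height-one primes of a chart ↔ places of `F/k`"
(`S34/H3_PointOfPlace`):

* `exists_isUnitAt_div_pow_of_place` : `m ∣ ord_w u` at the place `w` of a horizontal height-one
  prime `P`  ⟹  `∃ g ≠ 0, IsUnitAt P (u / g ^ m)`   (`g := t ^ (ord_w u / m)`, `t` a uniformiser);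
* `exists_unitIn_div_pow_of_places` : ONE chart `B` (noetherian, integrally closed, over `R`,
  `k = R[1/π]`), `n` a prime with `B_n` factorial, `m ∣ ord_w u` at EVERY place `w` of `F/k`
  (the divisor hypothesis, from (D1)/(D1c)), and `u` an `m`-th power up to a unit at the vertical
  height-one primes through `n` (row (E3))  ⟹  `∃ G ≠ 0, UnitIn (locSubring n) (u / G ^ m)`;
* `exists_unitIn_div_pow_of_places_of_verticals` : the same with the vertical primes listed as a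
  family `P i` and ONE `g` serving all of them in the valuation form
  `(valuationSubringAt (P i) _).valuation (u / g ^ m) = 1`  (the output shape of
  `S36.H3.exists_unit_at_verticals`);
* `exists_unitIn_ptO_div_pow` : TWO charts `B₁ B₂ : Subalgebra R F`, every closed point of the
  special fibre: `∀ n, ∃ G ≠ 0, UnitIn (S34.H21.ptO B₁ B₂ π n) (u / G ^ m)` — verbatim the pair
  `hG0`/`hG` of `S36.H85.radDatum_of_towers` after `choose`.
-/
import Mathlib
import Fermat.Agent.S36.H21_StepTwo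
import Fermat.Agent.S34.H3_PointOfPlace

set_option autoImplicit false
set_option linter.unusedSectionVars false
set_option linter.style.haveILetI false

namespace Fermat.Agent.S36.H21

open Fermat.Agent.S34 Fermat.Agent.S34.H56 Fermat.Agent.S34.H3 AlgebraicCurve

section PlaceLemma

variable {k F : Type*} [Field k] [Field F] [Algebra k F]

/-- Every place has an element of order one. -/
theorem exists_ord_eq_one_of_place (w : Place k F) : ∃ t : F, t ≠ 0 ∧ w.ord t = 1 := by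
  obtain ⟨ϖ, hϖ⟩ := IsDiscreteValuationRing.exists_irreducible w.toValuationSubring
  refine ⟨(ϖ : F), ?_, w.ord_coe_irreducible hϖ⟩
  simpa [ne_eq, ZeroMemClass.coe_eq_zero] using hϖ.ne_zero

/-- If `m ∣ ord_w u` there is `g ≠ 0` with `ord_w (u / g ^ m) = 0`. -/
theorem exists_ord_div_pow_eq_zero (w : Place k F) {u : F} (hu : u ≠ 0) {m : ℕ}
    (h : (m : ℤ) ∣ w.ord u) : ∃ g : F, g ≠ 0 ∧ w.ord (u / g ^ m) = 0 := by
  obtain ⟨e, he⟩ := h
  obtain ⟨t, ht0, ht⟩ := exists_ord_eq_one_of_place w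
  refine ⟨t ^ e, zpow_ne_zero _ ht0, ?_⟩
  have h1 : (t ^ e) ^ m = t ^ (e * (m : ℤ)) := by
    rw [zpow_mul, zpow_natCast]
  rw [div_eq_mul_inv, w.ord_mul hu (inv_ne_zero (pow_ne_zero _ (zpow_ne_zero _ ht0))), w.ord_inv,
    h1, w.ord_zpow, ht, he]
  ring

end PlaceLemma

section OneChart

variable {R k B F : Type*} [CommRing R] [IsDomain R] [Field k] [Algebra R k]
  [CommRing B] [IsDomain B] [Field F] [Algebra B F] [IsFractionRing B F]
  [Algebra R B] [Algebra k F] [Algebra R F] [IsScalarTower R B F] [IsScalarTower R k F]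
  [IsNoetherianRing B] [IsIntegrallyClosed B]

/-- **Horizontal primes**: the divisor hypothesis at the place of a horizontal height-one prime
gives the shape (D) of `exists_unitIn_div_pow`. -/
theorem exists_isUnitAt_div_pow_of_place (π : R) [IsLocalization.Away π k] (P : Ideal B)
    [P.IsPrime] (h1 : P.height = 1) (hπP : algebraMap R B π ∉ P) {u : F} (hu : u ≠ 0) {m : ℕ}
    (hdiv : ∀ w : Place k F, (m : ℤ) ∣ w.ord u) :
    ∃ g : F, g ≠ 0 ∧ IsUnitAt P (u / g ^ m) := by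
  obtain ⟨w, -, -, hw0, -⟩ := exists_place_of_horizontal (k := k) (F := F) π P h1 hπP
  obtain ⟨g, hg0, hg⟩ := exists_ord_div_pow_eq_zero w hu (hdiv w)
  exact ⟨g, hg0, (hw0 _ (div_ne_zero hu (pow_ne_zero _ hg0))).mp hg⟩

/-- **(E4) Step 2, one chart, Place vocabulary.** -/
theorem exists_unitIn_div_pow_of_places (π : R) [IsLocalization.Away π k]
    (n : Ideal B) [n.IsPrime] [UniqueFactorizationMonoid (Localization.AtPrime n)]
    {u : F} (hu : u ≠ 0) {m : ℕ} (hm : 0 < m)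
    (hdiv : ∀ w : Place k F, (m : ℤ) ∣ w.ord u)
    (hvert : ∀ P : Ideal B, P.IsPrime → P.height = 1 → P ≤ n → algebraMap R B π ∈ P →
      ∃ g : F, g ≠ 0 ∧ IsUnitAt P (u / g ^ m)) :
    ∃ G : F, G ≠ 0 ∧ H47.UnitIn (H21.locSubring (F := F) n) (u / G ^ m) := by
  refine exists_unitIn_div_pow n hu hm fun P hP h1 hPn => ?_
  haveI := hP
  by_cases hπP : algebraMap R B π ∈ P
  · exact hvert P hP h1 hPn hπP
  · exact exists_isUnitAt_div_pow_of_place π P h1 hπP hu hdiv

/-- **(E4) Step 2, one chart, vertical primes listed** as a family `Pv i`, one `g` serving all of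
them (the output shape of `S36.H3.exists_unit_at_verticals`). -/
theorem exists_unitIn_div_pow_of_places_of_verticals (π : R) [IsLocalization.Away π k]
    (n : Ideal B) [n.IsPrime] [UniqueFactorizationMonoid (Localization.AtPrime n)]
    {u : F} (hu : u ≠ 0) {m : ℕ} (hm : 0 < m)
    (hdiv : ∀ w : Place k F, (m : ℤ) ∣ w.ord u)
    {ι : Type*} (Pv : ι → Ideal B) [hPv : ∀ i, (Pv i).IsPrime] (hh : ∀ i, (Pv i).height = 1)
    (hall : ∀ P : Ideal B, P.IsPrime → P.height = 1 → P ≤ n → algebraMap R B π ∈ P →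
      ∃ i, P = Pv i)
    (hvert : ∃ g : F, g ≠ 0 ∧
      ∀ i, (valuationSubringAt (K := F) (Pv i) (hh i)).valuation (u / g ^ m) = 1) :
    ∃ G : F, G ≠ 0 ∧ H47.UnitIn (H21.locSubring (F := F) n) (u / G ^ m) := by
  obtain ⟨g, hg0, hg⟩ := hvert
  refine exists_unitIn_div_pow_of_places π n hu hm hdiv fun P hP h1 hPn hπP => ?_
  obtain ⟨i, rfl⟩ := hall P hP h1 hPn hπP
  exact ⟨g, hg0, (valuation_eq_one_iff (hh i)).mp (hg i)⟩

end OneChart

section TwoCharts

variable {R K0 F : Type*} [CommRing R] [IsDomain R] [IsDiscreteValuationRing R]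
  [Field K0] [Algebra R K0] [IsFractionRing R K0]
  [Field F] [Algebra R F] [Algebra K0 F] [IsScalarTower R K0 F]
  (B₁ B₂ : Subalgebra R F) [IsFractionRing B₁ F] [IsFractionRing B₂ F]
  [IsNoetherianRing B₁] [IsNoetherianRing B₂] [IsIntegrallyClosed B₁] [IsIntegrallyClosed B₂]

/-- **(E4)/(r4) Step 2 at every closed point of the two-chart model.**  `hU₁ hU₂`: the local ring
at every closed point of the special fibre is factorial (rows (M2)–(M4r2)); `hdiv`: the divisor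
hypothesis (rows (D1)/(D1c)); `hvert₁ hvert₂`: `u` is an `m`-th power up to a unit at the vertical
height-one primes (row (E3)). -/
theorem exists_unitIn_ptO_div_pow (π : R) [IsLocalization.Away π K0]
    (hU₁ : ∀ (n : Ideal B₁) [n.IsPrime], n.IsMaximal → algebraMap R B₁ π ∈ n →
      UniqueFactorizationMonoid (Localization.AtPrime n))
    (hU₂ : ∀ (n : Ideal B₂) [n.IsPrime], n.IsMaximal → algebraMap R B₂ π ∈ n →
      UniqueFactorizationMonoid (Localization.AtPrime n))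
    {u : F} (hu : u ≠ 0) {m : ℕ} (hm : 0 < m)
    (hdiv : ∀ w : Place K0 F, (m : ℤ) ∣ w.ord u)
    (hvert₁ : ∀ P : Ideal B₁, P.IsPrime → P.height = 1 → algebraMap R B₁ π ∈ P →
      ∃ g : F, g ≠ 0 ∧ IsUnitAt P (u / g ^ m))
    (hvert₂ : ∀ P : Ideal B₂, P.IsPrime → P.height = 1 → algebraMap R B₂ π ∈ P →
      ∃ g : F, g ≠ 0 ∧ IsUnitAt P (u / g ^ m)) :
    ∀ n : H21.ClosedPt B₁ π ⊕ H21.ClosedPt B₂ π,
      ∃ G : F, G ≠ 0 ∧ H47.UnitIn (H21.ptO B₁ B₂ π n) (u / G ^ m) := by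
  rintro (n | n)
  · haveI := n.2.1.isPrime
    haveI := hU₁ n.1 n.2.1 n.2.2
    exact exists_unitIn_div_pow_of_places (k := K0) π n.1 hu hm hdiv
      fun P hP h1 _ hπP => hvert₁ P hP h1 hπP
  · haveI := n.2.1.isPrime
    haveI := hU₂ n.1 n.2.1 n.2.2
    exact exists_unitIn_div_pow_of_places (k := K0) π n.1 hu hm hdiv
      fun P hP h1 _ hπP => hvert₂ P hP h1 hπP

/-- The same with the vertical primes of both charts listed (`P₁ i`, `P₂ i`, all of height one,
exhausting the height-one primes containing `π`) and one `g` per chart in the valuation form. -/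
theorem exists_unitIn_ptO_div_pow_of_verticals (π : R) [IsLocalization.Away π K0]
    (hU₁ : ∀ (n : Ideal B₁) [n.IsPrime], n.IsMaximal → algebraMap R B₁ π ∈ n →
      UniqueFactorizationMonoid (Localization.AtPrime n))
    (hU₂ : ∀ (n : Ideal B₂) [n.IsPrime], n.IsMaximal → algebraMap R B₂ π ∈ n →
      UniqueFactorizationMonoid (Localization.AtPrime n))
    {u : F} (hu : u ≠ 0) {m : ℕ} (hm : 0 < m)
    (hdiv : ∀ w : Place K0 F, (m : ℤ) ∣ w.ord u)
    {ι : Type*} (P₁ : ι → Ideal B₁) (P₂ : ι → Ideal B₂)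
    [hP₁ : ∀ i, (P₁ i).IsPrime] [hP₂ : ∀ i, (P₂ i).IsPrime]
    (hh₁ : ∀ i, (P₁ i).height = 1) (hh₂ : ∀ i, (P₂ i).height = 1)
    (hall₁ : ∀ P : Ideal B₁, P.IsPrime → P.height = 1 → algebraMap R B₁ π ∈ P → ∃ i, P = P₁ i)
    (hall₂ : ∀ P : Ideal B₂, P.IsPrime → P.height = 1 → algebraMap R B₂ π ∈ P → ∃ i, P = P₂ i)
    (hvert₁ : ∃ g : F, g ≠ 0 ∧
      ∀ i, (valuationSubringAt (K := F) (P₁ i) (hh₁ i)).valuation (u / g ^ m) = 1)
    (hvert₂ : ∃ g : F, g ≠ 0 ∧
      ∀ i, (valuationSubringAt (K := F) (P₂ i) (hh₂ i)).valuation (u / g ^ m) = 1) :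
    ∀ n : H21.ClosedPt B₁ π ⊕ H21.ClosedPt B₂ π,
      ∃ G : F, G ≠ 0 ∧ H47.UnitIn (H21.ptO B₁ B₂ π n) (u / G ^ m) := by
  obtain ⟨g₁, hg₁0, hg₁⟩ := hvert₁
  obtain ⟨g₂, hg₂0, hg₂⟩ := hvert₂
  refine exists_unitIn_ptO_div_pow B₁ B₂ π hU₁ hU₂ hu hm hdiv (fun P hP h1 hπP => ?_)
    (fun P hP h1 hπP => ?_)
  · obtain ⟨i, rfl⟩ := hall₁ P hP h1 hπP
    exact ⟨g₁, hg₁0, (valuation_eq_one_iff (hh₁ i)).mp (hg₁ i)⟩
  · obtain ⟨i, rfl⟩ := hall₂ P hP h1 hπP
    exact ⟨g₂, hg₂0, (valuation_eq_one_iff (hh₂ i)).mp (hg₂ i)⟩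

end TwoCharts

end Fermat.Agent.S36.H21
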