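/-
helper21 — S36, row (E4)/(r4): **the hypothesis `hE4` of helper69's two-chart skeleton
`S36.H69.geo36_two_charts`, VERBATIM**, from

* `hU₁ hU₂` : the local ring at every closed point of the special fibre of either chart is
  factorial (rows (M2)–(M4r2), shape (U));
* `hall₁ hall₂` : the height-one primes containing `π` are the listed `P₁ i` resp. `P₂ i`;
* `hVeq` : the two charts have the same vertical valuation rings;
* `hdivf` : the divisor hypothesis `m ∣ ord_w f` at every place `w` of `F2/K` (rows (D1)/(D1c)).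

`u1 := f ^ (q+1) * qK ^ (-s) * (g ^ m)⁻¹` is a unit at the three verticals by the hypothesis of
`hE4` itself, and `m ∣ ord_w u1` at every place since constants have order `0`.
-/
import Mathlib
import Fermat.Agent.S36.H21_StepTwoPlaces

set_option autoImplicit false
set_option linter.unusedSectionVars false
set_option linter.style.haveILetI false

namespace Fermat.Agent.S36.H21

open Fermat.Agent.S34 Fermat.Agent.S34.H56 Fermat.Agent.S34.H3 AlgebraicCurve

section PlaceLemma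

variable {k F : Type*} [Field k] [Field F] [Algebra k F]

/-- Nonzero constants have order zero at every place. -/
theorem ord_algebraMap_eq_zero_of_place (w : Place k F) {c : k} (hc : c ≠ 0) :
    w.ord (algebraMap k F c) = 0 := by
  have hc' : algebraMap k F c ≠ 0 := (map_ne_zero (algebraMap k F)).mpr hc
  rw [ord_eq_zero_iff_mem_and_inv_mem w hc']
  refine ⟨w.algebraMap_mem' c, ?_⟩
  rw [← map_inv₀]
  exact w.algebraMap_mem' c⁻¹

/-- `m ∣ ord_w f` implies `m ∣ ord_w (f ^ e * c ^ (-s) * (g ^ m)⁻¹)` for a constant `c ≠ 0`. -/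
theorem dvd_ord_renorm (w : Place k F) {f g : F} (hf : f ≠ 0) (hg : g ≠ 0) {c : k} (hc : c ≠ 0)
    {m : ℕ} (e : ℕ) (s : ℤ) (h : (m : ℤ) ∣ w.ord f) :
    (m : ℤ) ∣ w.ord (f ^ e * algebraMap k F c ^ (-s) * (g ^ m)⁻¹) := by
  have hc' : algebraMap k F c ≠ 0 := (map_ne_zero (algebraMap k F)).mpr hc
  rw [w.ord_mul (mul_ne_zero (pow_ne_zero _ hf) (zpow_ne_zero _ hc'))
      (inv_ne_zero (pow_ne_zero _ hg)),
    w.ord_mul (pow_ne_zero _ hf) (zpow_ne_zero _ hc'), w.ord_inv, w.ord_zpow,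
    ord_algebraMap_eq_zero_of_place w hc, ← zpow_natCast f, ← zpow_natCast g, w.ord_zpow,
    w.ord_zpow, mul_zero, add_zero]
  exact dvd_add (Dvd.dvd.mul_left h _) (dvd_neg.mpr (dvd_mul_right _ _))

end PlaceLemma

theorem valuation_eq_one_congr {F : Type*} [Field F] {V V' : ValuationSubring F} (h : V = V')
    (x : F) : V.valuation x = 1 ↔ V'.valuation x = 1 := by
  subst h; rfl

section TwoCharts

variable {R K0 F : Type*} [CommRing R] [IsDomain R] [IsDiscreteValuationRing R]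
  [Field K0] [Algebra R K0] [IsFractionRing R K0]
  [Field F] [Algebra R F] [Algebra K0 F] [IsScalarTower R K0 F]
  {B₁ B₂ : Subalgebra R F} [IsFractionRing B₁ F] [IsFractionRing B₂ F]
  [IsNoetherianRing B₁] [IsNoetherianRing B₂] [IsIntegrallyClosed B₁] [IsIntegrallyClosed B₂]
  {ι : Type*} (P₁ : ι → Ideal B₁) (P₂ : ι → Ideal B₂)
  [hP₁ : ∀ i, (P₁ i).IsPrime] [hP₂ : ∀ i, (P₂ i).IsPrime]
  (hh₁ : ∀ i, (P₁ i).height = 1) (hh₂ : ∀ i, (P₂ i).height = 1)

/-- **`hE4` of `S36.H69.geo36_two_charts`, verbatim** (for `ι := Fin 3`). -/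
theorem hE4_two_charts (π : R) [IsLocalization.Away π K0]
    (hVeq : ∀ i, valuationSubringAt (K := F) (P₁ i) (hh₁ i) =
      valuationSubringAt (K := F) (P₂ i) (hh₂ i))
    (hall₁ : ∀ P : Ideal B₁, P.IsPrime → P.height = 1 → algebraMap R B₁ π ∈ P → ∃ i, P = P₁ i)
    (hall₂ : ∀ P : Ideal B₂, P.IsPrime → P.height = 1 → algebraMap R B₂ π ∈ P → ∃ i, P = P₂ i)
    (hU₁ : ∀ (n : Ideal B₁) [n.IsPrime], n.IsMaximal → algebraMap R B₁ π ∈ n →
      UniqueFactorizationMonoid (Localization.AtPrime n))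
    (hU₂ : ∀ (n : Ideal B₂) [n.IsPrime], n.IsMaximal → algebraMap R B₂ π ∈ n →
      UniqueFactorizationMonoid (Localization.AtPrime n))
    {m : ℕ} (hm : 0 < m) {f : F} (hf : f ≠ 0)
    (hdivf : ∀ w : Place K0 F, (m : ℤ) ∣ w.ord f)
    {qK : K0} (hqK : qK ≠ 0) (q : ℕ) :
    ∀ (s : ℤ) (g : F), g ≠ 0 →
      (∀ i, (valuationSubringAt (K := F) (P₁ i) (hh₁ i)).valuation
        (f ^ (q + 1) * algebraMap K0 F qK ^ (-s) * (g ^ m)⁻¹) = 1) →
      ∃ G : H21.ClosedPt B₁ π ⊕ H21.ClosedPt B₂ π → F, (∀ n, G n ≠ 0) ∧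
        ∀ n, H47.UnitIn (H21.ptO B₁ B₂ π n)
          (f ^ (q + 1) * algebraMap K0 F qK ^ (-s) * (g ^ m)⁻¹ / G n ^ m) := by
  intro s g hg hV
  have hqF : algebraMap K0 F qK ≠ 0 := (map_ne_zero (algebraMap K0 F)).mpr hqK
  have hu : f ^ (q + 1) * algebraMap K0 F qK ^ (-s) * (g ^ m)⁻¹ ≠ 0 :=
    mul_ne_zero (mul_ne_zero (pow_ne_zero _ hf) (zpow_ne_zero _ hqF))
      (inv_ne_zero (pow_ne_zero _ hg))
  have key := exists_unitIn_ptO_div_pow_of_verticals B₁ B₂ π hU₁ hU₂ hu hm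
    (fun w => dvd_ord_renorm w hf hg hqK (q + 1) s (hdivf w)) P₁ P₂ hh₁ hh₂ hall₁ hall₂
    ⟨1, one_ne_zero, fun i => by rw [one_pow, div_one]; exact hV i⟩
    ⟨1, one_ne_zero, fun i => by
      rw [one_pow, div_one]; exact (valuation_eq_one_congr (hVeq i) _).mp (hV i)⟩
  choose G hG0 hG using key
  exact ⟨G, hG0, hG⟩

end TwoCharts

end Fermat.Agent.S36.H21
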