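import Mathlib
import Fermat.Agent.S36.H24_EData

/-!
# S36 / (M2-unr) : places of `X₀(N)` without elliptic points are points of `ℍ`, with `m = 1`

At a level `N` with `ν₂(N) = ν₃(N) = 0`:

* `exists_point_ordH_eq` : for every non-cuspidal place `Q` of `F_N / ℚ̄` there is `τ ∈ ℍ` with
  `ord_Q f = ord_τ (Θ f)` for all `0 ≠ f ∈ A = ℚ̄[j_d : d ∣ N]` (the factor `m` of the
  `S24` dictionary `place_fin` is `1`);
* `ord_jd_sub_eq` : hence the ramification of **every** `j_d = j(d τ)` (`d ∣ N`) at `Q` is that of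
  `J` at `d τ`: `ord_Q (j_d - b) = 3, 2, 1` for `b = 0`, `b = 1728`, other `b`.
  (`d = 1` is `H24.ord_jBar_sub_eq`; `d = q` is the `β`-degeneracy side of (M2-unr), with no
  Atkin–Lehner involution needed.)
-/

set_option autoImplicit false

noncomputable section

namespace Fermat.Agent.S36.H24

open AlgebraicCurve ModularCurve UpperHalfPlane
open Fermat.Agent.S24 Fermat.Agent.S24.H24 Fermat.Agent.S16.H24
open scoped MatrixGroups

/-- the local degree of `J` over the value `c`. -/
def eJ (c : ℂ) : ℕ := by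
  classical
  exact if c = 0 then 3 else if c = 1728 then 2 else 1

theorem eJ_pos (c : ℂ) : 0 < eJ c := by
  unfold eJ
  split_ifs <;> norm_num

/-- the order of `J - J τ` at `τ`. -/
theorem analyticOrderAt_J_sub_self (τ : ℍ) :
    analyticOrderAt (fun z : ℂ => H28.J (ofComplex z) - H28.J τ) (τ : ℂ) = (eJ (H28.J τ) : ℕ∞) := by
  classical
  unfold eJ
  by_cases h0 : H28.J τ = 0
  · rw [if_pos h0, h0]
    have := H8.analyticOrderAt_J_of_E₄_eq_zero τ ((H8.J_eq_zero_iff τ).mp h0)
    simpa using this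
  · rw [if_neg h0]
    by_cases h1 : H28.J τ = 1728
    · rw [if_pos h1, h1]
      exact H8.analyticOrderAt_J_sub_1728_of_E₆_eq_zero τ ((H8.J_eq_1728_iff τ).mp h1)
    · rw [if_neg h1]
      have := H8.analyticOrderAt_J_sub_generic τ h0 h1
      simpa using this

open Classical in
theorem eJ_iota (a : Qbar) :
    (eJ (H17.iota a) : ℤ) = (if a = 0 then 3 else if a = 1728 then 2 else 1 : ℤ) := by
  classical
  unfold eJ
  have h0 : H17.iota a = 0 ↔ a = 0 := by
    rw [← map_zero H17.iota]; exact H17.iota_injective.eq_iff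
  have h1 : H17.iota a = 1728 ↔ a = 1728 := by
    rw [← map_ofNat H17.iota 1728]; exact H17.iota_injective.eq_iff
  by_cases ha0 : a = 0
  · rw [if_pos ha0, if_pos (h0.mpr ha0)]; norm_num
  · rw [if_neg ha0, if_neg (fun h => ha0 (h0.mp h))]
    by_cases ha1 : a = 1728
    · rw [if_pos ha1, if_pos (h1.mpr ha1)]; norm_num
    · rw [if_neg ha1, if_neg (fun h => ha1 (h1.mp h))]; norm_num

section Places

variable (N : ℕ) [NeZero N]

/-- **`m = 1`.** At a level without elliptic points every non-cuspidal place is a point of `ℍ`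
and the order at the place is the analytic order at the point, on `A = ℚ̄[j_d : d ∣ N]`. -/
theorem exists_point_ordH_eq (h2 : nuTwo N = 0) (h3 : nuThree N = 0) (Q : Place Qbar (FN N))
    (hQ : 0 ≤ Q.ord (jBar N)) :
    ∃ τ : ℍ, ∀ f ∈ (H17.A N : Set (FN N)), f ≠ 0 → H76.ordH (H17.Theta N f) τ = Q.ord f := by
  classical
  have hM := H76.modInputs_final N
  have hData := rhData_FN N
  obtain ⟨a, ha⟩ : ∃ a : Qbar, 0 < Q.ord (jBar N - algebraMap Qbar (FN N) a) := by
    rcases hData.value Q with h | h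
    · omega
    · exact h
  obtain ⟨τ0, hτ0⟩ := H28.J_surjective (H17.iota a)
  obtain ⟨γ, m, hm, hval⟩ := hM.place_fin Q a τ0 hτ0 ha
  have hord : analyticOrderAt (fun z : ℂ => H28.J (ofComplex z) - H17.iota a) (τ0 : ℂ)
      = ((eJ (H17.iota a) : ℕ) : ℕ∞) := by
    have := analyticOrderAt_J_sub_self τ0
    rwa [hτ0] at this
  have h := hval _ (hM.sub_const_mem a) (H76.ModInputs.sub_const_ne_zero hData a)
  rw [H76.IsTheta.ordH_translate_of_eq_J_sub (Θ := H17.Theta N) H28.J_smul (hM.theta_sub_const a)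
    hord γ, ord_jBar_sub_eq N h2 h3 Q a ha, ← eJ_iota a] at h
  have hpos : (0 : ℤ) < (eJ (H17.iota a) : ℤ) := by exact_mod_cast eJ_pos _
  have hm1 : m = 1 := by
    have : (m - 1) * (eJ (H17.iota a) : ℤ) = 0 := by linear_combination -h
    rcases mul_eq_zero.mp this with h' | h'
    · omega
    · omega
  refine ⟨γ⁻¹ • τ0, fun f hf hf0 => ?_⟩
  rw [hval f hf hf0, hm1, one_mul]

end Places

/-! ### The functions `j_d`, `d ∣ N` -/

/-- the analytic order is equivariant under `τ ↦ d τ`. -/
theorem ordH_comp_mulD (G : ℍ → ℂ) (d : ℕ) [NeZero d] (τ : ℍ) :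
    H76.ordH (fun τ => G (H17.mulD d τ)) τ = H76.ordH G (H17.mulD d τ) := by
  unfold H76.ordH analyticOrderNatAt
  have hd0 : (d : ℂ) ≠ 0 := by exact_mod_cast NeZero.ne d
  let g : ℂ → ℂ := fun z => (d : ℂ) * z
  have hg : AnalyticAt ℂ g (τ : ℂ) := analyticAt_const.mul analyticAt_id
  have hg' : deriv g (τ : ℂ) ≠ 0 := by
    have : deriv g (τ : ℂ) = (d : ℂ) := by
      simp only [g]
      rw [deriv_const_mul _ differentiableAt_id, deriv_id'', mul_one]
    rw [this]
    exact hd0
  have hgτ : g (τ : ℂ) = ((H17.mulD d τ : ℍ) : ℂ) := by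
    simp [g, H17.mulD, H15.aff]
  have hev : ((fun τ => G (H17.mulD d τ)) ∘ ofComplex) =ᶠ[nhds (τ : ℂ)] (G ∘ ofComplex) ∘ g := by
    have hopen : IsOpen {z : ℂ | 0 < z.im} := isOpen_lt continuous_const Complex.continuous_im
    filter_upwards [hopen.mem_nhds τ.im_pos] with z hz
    have hz' : 0 < (g z).im := by
      simp only [g, Complex.mul_im, Complex.natCast_re, Complex.natCast_im, zero_mul, add_zero]
      exact mul_pos (by exact_mod_cast Nat.pos_of_ne_zero (NeZero.ne d)) hz
    simp only [Function.comp_apply]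
    rw [ofComplex_apply_of_im_pos hz, ofComplex_apply_of_im_pos hz']
    congr 1
    apply UpperHalfPlane.ext
    simp [g, H17.mulD, H15.aff]
  rw [analyticOrderAt_congr hev, analyticOrderAt_comp_of_deriv_ne_zero hg hg', hgτ]

section Places

variable (N : ℕ) [NeZero N]

theorem jd_sub_const_mem_A (d : ℕ) [NeZero d] (hd : d ∣ N) (b : Qbar) :
    jd N d hd - algebraMap Qbar (FN N) b ∈ H17.A N :=
  sub_mem (H17.jd_mem_A N d hd) (Subalgebra.algebraMap_mem _ b)

theorem Theta_jd_sub_const (d : ℕ) [NeZero d] (hd : d ∣ N) (b : Qbar) :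
    H17.Theta N (jd N d hd - algebraMap Qbar (FN N) b)
      = fun τ => H28.J (H17.mulD d τ) - H17.iota b := by
  have h1 : H17.Theta N (jd N d hd - algebraMap Qbar (FN N) b)
      = H17.ThetaHom N (⟨jd N d hd, H17.jd_mem_A N d hd⟩ - algebraMap Qbar (H17.A N) b) := rfl
  rw [h1, map_sub, H17.ThetaHom_apply, H17.ThetaHom_apply]
  show H17.Theta N (jd N d hd) - H17.Theta N (algebraMap Qbar (FN N) b) = _
  rw [H17.Theta_algebraMap]
  funext τ
  rw [Pi.sub_apply, H17.Theta_jd]

open Classical in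
/-- **The finite ramification of every `j_d` at a level without elliptic points.** For a
non-cuspidal place `Q` of `F_N`, `d ∣ N` and `b ∈ ℚ̄` with `Q` over `j_d = b`:
`ord_Q (j_d - b) = 3` (`b = 0`), `2` (`b = 1728`), `1` otherwise. -/
theorem ord_jd_sub_eq (h2 : nuTwo N = 0) (h3 : nuThree N = 0) (Q : Place Qbar (FN N))
    (hQ : 0 ≤ Q.ord (jBar N)) (d : ℕ) [NeZero d] (hd : d ∣ N) (b : Qbar)
    (hb : 0 < Q.ord (jd N d hd - algebraMap Qbar (FN N) b)) :
    Q.ord (jd N d hd - algebraMap Qbar (FN N) b) =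
      if b = 0 then 3 else if b = 1728 then 2 else 1 := by
  obtain ⟨τ, hτ⟩ := exists_point_ordH_eq N h2 h3 Q hQ
  have hne : jd N d hd - algebraMap Qbar (FN N) b ≠ 0 := by
    intro h0
    rw [h0, Place.ord_zero] at hb
    exact lt_irrefl _ hb
  have h := hτ _ (jd_sub_const_mem_A N d hd b) hne
  rw [Theta_jd_sub_const N d hd b] at h
  have h' : H76.ordH (fun τ => H28.J τ - H17.iota b) (H17.mulD d τ)
      = Q.ord (jd N d hd - algebraMap Qbar (FN N) b) := by
    rw [← h]
    exact (ordH_comp_mulD (fun τ => H28.J τ - H17.iota b) d τ).symm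
  -- the value of `J` at `d τ` is `ι b`
  have hval : H28.J (H17.mulD d τ) = H17.iota b := by
    by_contra hne'
    have h0 : analyticOrderAt ((fun τ => H28.J τ - H17.iota b) ∘ ofComplex)
        ((H17.mulD d τ : ℍ) : ℂ) = 0 := by
      rw [analyticOrderAt_eq_zero]
      right
      simp only [Function.comp_apply, ofComplex_apply]
      exact sub_ne_zero.mpr hne'
    have : H76.ordH (fun τ => H28.J τ - H17.iota b) (H17.mulD d τ) = 0 := by
      unfold H76.ordH analyticOrderNatAt
      rw [h0]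
      simp
    rw [this] at h'
    omega
  have hord := analyticOrderAt_J_sub_self (H17.mulD d τ)
  rw [hval] at hord
  have := H76.ordH_eq_of_analyticOrderAt (G := fun τ => H28.J τ - H17.iota b) hord
  rw [h', eJ_iota] at this
  exact this

end Places

end Fermat.Agent.S36.H24
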