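/-
helper97: S36, row (M4r2) MIDDLE CUSPS: the PRIME-IDEAL versions of `S36/H97_MidCuspBridge.lean`
(`exists_HE`, `exists_hE_of_midCusp`, `exists_hE_of_levelQ` never use maximality of `n`), and the
transfer of helper56's binder `hM4r2` along an injective ring hom WITHOUT integrality
(`n := φ⁻¹ n''` is prime, which is all the prime versions need).  This is what route (B) of
(I-main-E) uses: the base change `chartB A₁ J → chartB (cutOver A E) (bc J)` need not be integral.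
-/
import Mathlib
import Fermat.Agent.S36.H97_MidCuspBridge
import Fermat.Agent.S36.H97_MidCuspTransfer
import Fermat.Agent.S34.H83_L0Target
import Fermat.Agent.S36.H83_ThreeComponents

set_option autoImplicit false

noncomputable section

namespace Fermat.Agent.S36.H97

open Polynomial Finset Fermat.Agent.S36.H19

section LevelQPrime

variable {B₁ D₁ B D : Type*} [CommRing B₁] [CommRing D₁] [IsDomain D₁] [CommRing B]
  [CommRing D] [IsDomain D]

/-- **`(HE)` from the level-`qL` model.**  `red_c red_o : B₁ → D₁` the two components of the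
special fibre of the level-`qL` chart (`ker red_c ∩ ker red_o = (q)`), `s₁ = 1/w`, `v₁ = 1/v`
with `v = w ^ q` on the component `c` and `w = v ^ q` on the component `o`, and the two ratios
`E₁ = v / w ^ q`, `E₁' = w / v ^ q` in `B₁`.  Then, at a cusp `n` of the middle component of the
level-`q² L` chart `B`, `E - 1 ∈ q B_n`. -/
theorem exists_HE_prime (red_c red_o : B₁ →+* D₁) (q : ℕ) (hq : 2 ≤ q)
    (hinf : ∀ z : B₁, red_c z = 0 → red_o z = 0 → z ∈ Ideal.span {(q : B₁)})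
    (s₁ v₁ E₁ E₁' : B₁) (hE₁ : E₁ * v₁ = s₁ ^ q) (hE₁' : E₁' * s₁ = v₁ ^ q)
    (hcv : red_c v₁ = red_c s₁ ^ q) (hcs : red_c s₁ ≠ 0)
    (hos : red_o s₁ = red_o v₁ ^ q) (hov : red_o v₁ ≠ 0)
    (g : B₁ →+* B) (red₂ : B →+* D) (n : Ideal B) [hn : n.IsPrime]
    (hker : RingHom.ker red₂ ≤ n) (hs : g s₁ ∈ n)
    (h2v : red₂ (g v₁) = red₂ (g s₁) ^ q) (h2s : red₂ (g s₁) ≠ 0) :
    ∃ E ε σ : B, σ ∉ n ∧ E * g v₁ = g s₁ ^ q ∧ σ * (E - 1) = (q : B) * ε := by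
  have hnp : n.IsPrime := hn
  -- `red_c E₁ = 1`
  have hcE : red_c (E₁ - 1) = 0 := by
    have h := congrArg red_c hE₁
    rw [map_mul, map_pow, hcv] at h
    have h' : (red_c E₁ - 1) * red_c s₁ ^ q = 0 := by rw [sub_mul, h, one_mul, sub_self]
    rw [map_sub, map_one]
    exact (mul_eq_zero.1 h').resolve_right (pow_ne_zero _ hcs)
  -- `red_o E₁' = 1`
  have hoE : red_o (1 - E₁') = 0 := by
    have h := congrArg red_o hE₁'
    rw [map_mul, map_pow, hos] at h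
    have h' : (1 - red_o E₁') * red_o v₁ ^ q = 0 := by rw [sub_mul, h, one_mul, sub_self]
    rw [map_sub, map_one]
    exact (mul_eq_zero.1 h').resolve_right (pow_ne_zero _ hov)
  have hmem : (1 - E₁') * (E₁ - 1) ∈ Ideal.span {(q : B₁)} :=
    hinf _ (by rw [map_mul, hcE, mul_zero]) (by rw [map_mul, hoE, zero_mul])
  obtain ⟨ε₁, hε₁⟩ := Ideal.mem_span_singleton'.1 hmem
  refine ⟨g E₁, g ε₁, g (1 - E₁'), ?_, ?_, ?_⟩
  · -- `g E₁' ∈ n`
    have h := congrArg (fun z => red₂ (g z)) hE₁'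
    simp only [map_mul, map_pow] at h
    rw [h2v, ← pow_mul] at h
    have hqq : q * q = (q * q - 1) + 1 := by
      have : 1 ≤ q * q := Nat.one_le_iff_ne_zero.2 (by positivity)
      omega
    have h' : (red₂ (g E₁') - red₂ (g s₁) ^ (q * q - 1)) * red₂ (g s₁) = 0 := by
      rw [sub_mul, h, ← pow_succ, ← hqq, sub_self]
    have h'' : red₂ (g E₁' - g s₁ ^ (q * q - 1)) = 0 := by
      rw [map_sub, map_pow]
      exact (mul_eq_zero.1 h').resolve_right h2s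
    have h3 : g E₁' - g s₁ ^ (q * q - 1) ∈ n := hker ((RingHom.mem_ker).2 h'')
    have h4 : g s₁ ^ (q * q - 1) ∈ n := by
      have : q * q - 1 ≠ 0 := by
        have : 4 ≤ q * q := Nat.mul_le_mul hq hq
        omega
      exact Ideal.pow_mem_of_mem n hs _ (Nat.pos_of_ne_zero this)
    have h5 : g E₁' ∈ n := by simpa using add_mem h3 h4
    intro h6
    rw [map_sub, map_one] at h6
    exact hn.ne_top ((Ideal.eq_top_iff_one n).2 (by simpa using add_mem h6 h5))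
  · rw [← map_mul, hE₁, map_pow]
  · rw [← map_one g, ← map_sub, ← map_mul, ← hε₁, map_mul, map_natCast, mul_comm]

end LevelQPrime

section MainPrime

variable {B D K : Type*} [CommRing B] [IsDomain B] [IsIntegrallyClosed B]
  [Field K] [Algebra B K] [IsFractionRing B K] [CommRing D] [IsDomain D]

/-- **The middle cusps, one-ring form.**  `B` an integrally closed domain with fraction field `K`,
`red₂ : B → D` the reduction to the middle component, `n ⊇ ker red₂` a PRIME ideal containing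
`q`; `s = 1/w`, `s' = 1/u`, `vt = 1/v` in `B` with `red₂ s' = red₂ s ≠ 0`, `s ∈ n` (a cusp),
`s' ≠ s`; the two modular relations `Φ_q(w; v) = 0 = Φ_q(u; v)` in Kronecker form; and `(HE)`:
`E = v / w ^ q ∈ B` with `E - 1 ∈ q B_n`.  Then there is `θ ∈ ker red₂`, `θ ≠ 0`, with
`θ ^ (q - 1) / q` a unit at `n`: the hypothesis `hE` of `H83.ThreeComponents.localGen_middle`. -/
theorem exists_hE_of_midCusp_prime (red₂ : B →+* D) (q : ℕ) [hqp : Fact q.Prime] (r : ℕ → ℕ → ℤ)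
    (n : Ideal B) [hn : n.IsPrime] (hker : RingHom.ker red₂ ≤ n)
    (hqn : (q : B) ∈ n) (hq0 : (q : B) ≠ 0)
    (s s' vt : B) (hs : s ∈ n) (hred : red₂ s' = red₂ s) (hx : red₂ s ≠ 0) (hne : s' ≠ s)
    (hvt : vt ≠ 0)
    (E ε σ : B) (hσ : σ ∉ n) (hEv : E * vt = s ^ q) (hε : σ * (E - 1) = (q : B) * ε)
    (hΦ : PhiAt q r (algebraMap B K s)⁻¹ (algebraMap B K vt)⁻¹ = 0)
    (hΦ' : PhiAt q r (algebraMap B K s')⁻¹ (algebraMap B K vt)⁻¹ = 0) :
    ∃ θ : B, red₂ θ = 0 ∧ θ ≠ 0 ∧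
      ∃ e t : B, e ∉ n ∧ t ∉ n ∧ t * θ ^ (q - 1) = e * (q : B) := by
  classical
  have hnp : n.IsPrime := hn
  have hinj : Function.Injective (algebraMap B K) := IsFractionRing.injective B K
  have hs0 : s ≠ 0 := fun h => hx (by rw [h, map_zero])
  have hs'0 : s' ≠ 0 := fun h => hx (by rw [← hred, h, map_zero])
  have hsK : algebraMap B K s ≠ 0 := fun h => hs0 (hinj (by rw [h, map_zero]))
  have hs'K : algebraMap B K s' ≠ 0 := fun h => hs'0 (hinj (by rw [h, map_zero]))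
  have hvtK : algebraMap B K vt ≠ 0 := fun h => hvt (hinj (by rw [h, map_zero]))
  set f : B →+* K := algebraMap B K with hf
  set P : B[X] := Psi q r s E with hP
  -- the two relations, rescaled
  have h2 : (f vt)⁻¹ * f s ^ q = f E := by
    rw [← map_pow, ← hEv, map_mul]
    field_simp
  have hev1 : P.eval₂ f 1 = 0 := by
    rw [hP, eval₂_Psi q hqp.out.one_le r s E f (f s)⁻¹ (f vt)⁻¹ 1 (by field_simp) h2, hΦ, mul_zero]
  have hevρ : P.eval₂ f (f s' / f s) = 0 := by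
    rw [hP, eval₂_Psi q hqp.out.one_le r s E f (f s')⁻¹ (f vt)⁻¹ (f s' / f s) (by field_simp) h2, hΦ', mul_zero]
  have hP1 : P.eval 1 = 0 := by
    apply hinj
    rw [map_zero, ← hev1, Polynomial.eval₂_at_one]
  -- the leading coefficient is a unit at `n`
  obtain ⟨d, hd⟩ := coeff_Psi_top q hqp.out.one_le r s E
  have hE1 : E - 1 ∈ n := by
    have h : σ * (E - 1) ∈ n := by
      rw [hε]
      exact Ideal.mul_mem_right _ _ hqn
    exact (hnp.mem_or_mem h).resolve_left hσ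
  have hEn : E ∉ n := fun h =>
    hn.ne_top ((Ideal.eq_top_iff_one n).2 (by simpa using sub_mem h hE1))
  set lc : B := P.coeff (q + 1) with hlc
  have hlcn : lc ∉ n := by
    intro h
    rw [hd] at h
    have h' : E ^ (q + 1) ∈ n := by
      have h3 := sub_mem h (n.mul_mem_right d (n.mul_mem_right s hqn))
      simpa using h3
    exact hEn (hnp.mem_of_pow_mem _ h')
  have hlc0 : lc ≠ 0 := fun h => hlcn (h ▸ n.zero_mem)
  have hdeg : P.natDegree = q + 1 :=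
    le_antisymm (natDegree_Psi_le q r s E) (le_natDegree_of_ne_zero hlc0)
  have hlead : P.leadingCoeff = lc := by rw [leadingCoeff, hdeg]
  -- integrality of `ρ = s' / s`
  have hint : IsIntegral B (lc • (f s' / f s)) := by
    rw [← hlead]
    exact isIntegral_leadingCoeff_smul (p := P) (x := f s' / f s) (by rw [aeval_def]; exact hevρ)
  obtain ⟨b, hb⟩ := IsIntegrallyClosed.algebraMap_eq_of_integral hint
  have hb' : f b = f lc * (f s' / f s) := by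
    rw [← Algebra.smul_def]
    exact hb
  have hbK : f b * f s = f lc * f s' := by
    rw [hb']
    field_simp
  have hbs : b * s = lc * s' := by
    apply hinj
    rw [map_mul, map_mul]
    exact hbK
  set θ : B := b - lc with hθ
  have hθs : θ * s = lc * (s' - s) := by
    rw [hθ, sub_mul, hbs]
    ring
  have hθred : red₂ θ = 0 := by
    have h : red₂ θ * red₂ s = 0 := by
      rw [← map_mul, hθs, map_mul, map_sub, hred, sub_self, mul_zero]
    exact (mul_eq_zero.1 h).resolve_right hx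
  have hθ0 : θ ≠ 0 := by
    intro h
    rw [h, zero_mul] at hθs
    rcases mul_eq_zero.1 hθs.symm with h' | h'
    · exact hlc0 h'
    · exact hne (sub_eq_zero.1 h')
  have hθn : θ ∈ n := hker ((RingHom.mem_ker).2 hθred)
  refine ⟨θ, hθred, hθ0, ?_⟩
  -- the local ring
  let O := Localization.AtPrime n
  have hle : n.primeCompl ≤ nonZeroDivisors B := Ideal.primeCompl_le_nonZeroDivisors n
  have hOdom : IsDomain O := IsLocalization.isDomain_localization hle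
  have hainj : Function.Injective (algebraMap B O) := IsLocalization.injective O hle
  set a : B →+* O := algebraMap B O with ha
  have hunit : ∀ y : n.primeCompl, IsUnit (f y) := fun y =>
    IsUnit.mk0 _ (fun h => y.2 (by
      have : (y : B) = 0 := hinj (by rw [h, map_zero])
      rw [this]
      exact n.zero_mem))
  let φ : O →+* K := IsLocalization.lift (M := n.primeCompl) (S := O) hunit
  have hφa : ∀ x : B, φ (a x) = f x := fun x => IsLocalization.lift_eq hunit x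
  have hφinj : Function.Injective φ := by
    rw [IsLocalization.lift_injective_iff]
    intro x y
    exact ⟨fun h => by rw [hainj h], fun h => by rw [hinj h]⟩
  have hφcomp : φ.comp a = f := RingHom.ext hφa
  -- the data in `O`
  set ρ : O := IsLocalization.mk' O b (⟨lc, hlcn⟩ : n.primeCompl) with hρ
  set εO : O := IsLocalization.mk' O ε (⟨σ, hσ⟩ : n.primeCompl) with hεO
  have hρlc : ρ * a lc = a b := IsLocalization.mk'_spec O b (⟨lc, hlcn⟩ : n.primeCompl)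
  have hεσ : εO * a σ = a ε := IsLocalization.mk'_spec O ε (⟨σ, hσ⟩ : n.primeCompl)
  have hlcu : IsUnit (a lc) := (IsLocalization.AtPrime.isUnit_to_map_iff O n lc).2 hlcn
  have hσu : IsUnit (a σ) := (IsLocalization.AtPrime.isUnit_to_map_iff O n σ).2 hσ
  have hq0O : ((q : ℕ) : O) ≠ 0 := by
    intro h
    apply hq0
    apply hainj
    rw [map_natCast, map_zero]
    exact h
  have hqmO : ((q : ℕ) : O) ∈ IsLocalRing.maximalIdeal O := by
    have := (IsLocalization.AtPrime.to_map_mem_maximal_iff O n (q : B)).2 hqn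
    rwa [map_natCast] at this
  have hsO : a s ∈ IsLocalRing.maximalIdeal O :=
    (IsLocalization.AtPrime.to_map_mem_maximal_iff O n s).2 hs
  have hEO : a E = 1 + ((q : ℕ) : O) * εO := by
    have h := congrArg a hε
    rw [map_mul, map_mul, map_sub, map_one, map_natCast] at h
    have h3 : a σ * (a E - (1 + ((q : ℕ) : O) * εO)) = 0 := by
      have : a σ * (a E - (1 + ((q : ℕ) : O) * εO)) =
          a σ * (a E - 1) - ((q : ℕ) : O) * (εO * a σ) := by ring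
      rw [this, h, hεσ, sub_self]
    rcases mul_eq_zero.1 h3 with h' | h'
    · exact absurd h' hσu.ne_zero
    · exact sub_eq_zero.1 h'
  have hρ1lc : (ρ - 1) * a lc = a θ := by
    rw [sub_mul, hρlc, one_mul, hθ, map_sub]
  have hρm : ρ - 1 ∈ IsLocalRing.maximalIdeal O := by
    have h : (ρ - 1) * a lc ∈ IsLocalRing.maximalIdeal O := by
      rw [hρ1lc]
      exact (IsLocalization.AtPrime.to_map_mem_maximal_iff O n θ).2 hθn
    rcases (IsLocalRing.maximalIdeal.isMaximal O).isPrime.mem_or_mem h with h' | h'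
    · exact h'
    · exact absurd hlcu ((IsLocalRing.mem_maximalIdeal _).1 h')
  have hρne : ρ ≠ 1 := by
    intro h
    rw [h, sub_self, zero_mul] at hρ1lc
    exact hθ0 (hainj (by rw [← hρ1lc, map_zero]))
  have hφρ : φ ρ = f s' / f s := by
    have h := congrArg φ hρlc
    rw [map_mul, hφa, hφa] at h
    have hlcK : f lc ≠ 0 := fun h' => hlc0 (hinj (by rw [h', map_zero]))
    rw [eq_div_iff hsK]
    have : φ ρ * f s * f lc = f lc * f s' * 1 := by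
      rw [mul_right_comm, h, hbK, mul_one]
    have h5 : f lc * (φ ρ * f s) = f lc * f s' := by
      rw [mul_comm, this, mul_one]
    exact mul_left_cancel₀ hlcK h5
  have hPO : Psi q r (a s) (a E) = P.map a := (map_Psi a q r s E).symm
  have h1O : (Psi q r (a s) (a E)).eval 1 = 0 := by
    rw [hPO, Polynomial.eval_one_map, hP1, map_zero]
  have hρO : (Psi q r (a s) (a E)).eval ρ = 0 := by
    apply hφinj
    rw [map_zero, hPO, Polynomial.eval_map, Polynomial.hom_eval₂, hφcomp, hφρ]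
    exact hevρ
  obtain ⟨U₁, U₂, hU₁, hU₂, hU⟩ :=
    unit_relation q r (a s) (a E) εO hq0O hqmO hsO hEO ρ hρm hρne h1O hρO
  -- clearing denominators
  obtain ⟨a₁, t₁, h₁⟩ := IsLocalization.exists_mk'_eq n.primeCompl U₁
  obtain ⟨a₂, t₂, h₂⟩ := IsLocalization.exists_mk'_eq n.primeCompl U₂
  have ha₁ : a₁ ∉ n := by
    rw [← h₁] at hU₁
    exact (IsLocalization.AtPrime.isUnit_mk'_iff O n a₁ t₁).1 hU₁
  have ha₂ : a₂ ∉ n := by
    rw [← h₂] at hU₂
    exact (IsLocalization.AtPrime.isUnit_mk'_iff O n a₂ t₂).1 hU₂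
  have hU₁t : U₁ * a t₁ = a a₁ := by rw [← h₁]; exact IsLocalization.mk'_spec O a₁ t₁
  have hU₂t : U₂ * a t₂ = a a₂ := by rw [← h₂]; exact IsLocalization.mk'_spec O a₂ t₂
  refine ⟨a₂ * lc ^ (q - 1) * t₁, a₁ * t₂, ?_, ?_, ?_⟩
  · intro h
    rcases hnp.mem_or_mem h with h' | h'
    · rcases hnp.mem_or_mem h' with h'' | h''
      · exact ha₂ h''
      · exact hlcn (hnp.mem_of_pow_mem _ h'')
    · exact t₁.2 h'
  · intro h
    rcases hnp.mem_or_mem h with h' | h'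
    · exact ha₁ h'
    · exact t₂.2 h'
  · apply hainj
    have e1 : a (a₁ * t₂ * θ ^ (q - 1)) =
        ((ρ - 1) ^ (q - 1) * U₁) * (a lc ^ (q - 1) * a t₁ * a t₂) := by
      rw [map_mul, map_mul, map_pow, ← hρ1lc, ← hU₁t, mul_pow]
      ring
    have e2 : a (a₂ * lc ^ (q - 1) * t₁ * (q : B)) =
        (((q : ℕ) : O) * U₂) * (a lc ^ (q - 1) * a t₁ * a t₂) := by
      rw [map_mul, map_mul, map_mul, map_pow, map_natCast, ← hU₂t]
      ring
    rw [e1, e2, hU]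

end MainPrime

section CombinedPrime

variable {B₁ D₁ K₁ B D K : Type*} [CommRing B₁] [IsDomain B₁] [IsIntegrallyClosed B₁]
  [Field K₁] [Algebra B₁ K₁] [IsFractionRing B₁ K₁] [CommRing D₁] [IsDomain D₁]
  [CommRing B] [IsDomain B] [IsIntegrallyClosed B] [Field K] [Algebra B K] [IsFractionRing B K]
  [CommRing D] [IsDomain D]

/-- **The middle cusps, two-level form** (`exists_mul_eq_pow` twice, `exists_HE`,
`exists_hE_of_midCusp`).  `B₁` the chart of level `q L` with its two components `red_c`, `red_o`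
(`ker red_c ∩ ker red_o = (q)`), `s₁ = 1/w`, `v₁ = 1/v` in `B₁` (`v = w ^ q` on `c`, `w = v ^ q`
on `o`), `g : B₁ → B` the level map, `s' = 1/u ∈ B`; the relations `Φ(w; v) = 0 = Φ(v; w)` in
`Frac B₁` and `Φ(w; v) = 0 = Φ(u; v)` in `Frac B`. -/
theorem exists_hE_of_levelQ_prime (red_c red_o : B₁ →+* D₁) (q : ℕ) [hqp : Fact q.Prime]
    (r : ℕ → ℕ → ℤ)
    (hinf : ∀ z : B₁, red_c z = 0 → red_o z = 0 → z ∈ Ideal.span {(q : B₁)})
    (s₁ v₁ : B₁) (hcv : red_c v₁ = red_c s₁ ^ q) (hcs : red_c s₁ ≠ 0)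
    (hos : red_o s₁ = red_o v₁ ^ q) (hov : red_o v₁ ≠ 0)
    (hΦ₁ : PhiAt q r (algebraMap B₁ K₁ s₁)⁻¹ (algebraMap B₁ K₁ v₁)⁻¹ = 0)
    (hΦ₁' : PhiAt q r (algebraMap B₁ K₁ v₁)⁻¹ (algebraMap B₁ K₁ s₁)⁻¹ = 0)
    (g : B₁ →+* B) (red₂ : B →+* D) (n : Ideal B) [hn : n.IsPrime]
    (hker : RingHom.ker red₂ ≤ n) (hqn : (q : B) ∈ n) (hq0 : (q : B) ≠ 0)
    (s' : B) (hs : g s₁ ∈ n) (hred : red₂ s' = red₂ (g s₁)) (h2s : red₂ (g s₁) ≠ 0)
    (h2v : red₂ (g v₁) = red₂ (g s₁) ^ q) (hne : s' ≠ g s₁)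
    (hΦ : PhiAt q r (algebraMap B K (g s₁))⁻¹ (algebraMap B K (g v₁))⁻¹ = 0)
    (hΦ' : PhiAt q r (algebraMap B K s')⁻¹ (algebraMap B K (g v₁))⁻¹ = 0) :
    ∃ θ : B, red₂ θ = 0 ∧ θ ≠ 0 ∧
      ∃ e t : B, e ∉ n ∧ t ∉ n ∧ t * θ ^ (q - 1) = e * (q : B) := by
  have hs₁0 : s₁ ≠ 0 := fun h => hcs (by rw [h, map_zero])
  have hv₁0 : v₁ ≠ 0 := fun h => hov (by rw [h, map_zero])
  obtain ⟨E₁, hE₁⟩ := exists_mul_eq_pow (K := K₁) q hqp.out.one_le r s₁ v₁ hs₁0 hv₁0 hΦ₁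
  obtain ⟨E₁', hE₁'⟩ := exists_mul_eq_pow (K := K₁) q hqp.out.one_le r v₁ s₁ hv₁0 hs₁0 hΦ₁'
  obtain ⟨E, ε, σ, hσ, hEv, hε⟩ := exists_HE_prime red_c red_o q hqp.out.two_le hinf s₁ v₁ E₁ E₁' hE₁
    hE₁' hcv hcs hos hov g red₂ n hker hs h2v h2s
  have hgv0 : g v₁ ≠ 0 := fun h => by
    rw [h, map_zero] at h2v
    exact pow_ne_zero q h2s h2v.symm
  exact exists_hE_of_midCusp_prime (K := K) red₂ q r n hker hqn hq0 (g s₁) s' (g v₁) hs hred h2s hne
    hgv0 E ε σ hσ hEv hε hΦ hΦ'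

end CombinedPrime


section WrapPrime

open Fermat.Agent.S36.H83

variable {B₁ B D BM K₁ K : Type*} [CommRing B₁] [IsDomain B₁] [IsIntegrallyClosed B₁]
  [Field K₁] [Algebra B₁ K₁] [IsFractionRing B₁ K₁]
  [CommRing B] [IsDomain B] [IsIntegrallyClosed B] [Field K] [Algebra B K] [IsFractionRing B K]
  [CommRing D] [IsDomain D] [CommRing BM]
  {red₁' red₂' : B₁ →+* D} {ι' V' : BM →+* B₁} {rbar : BM →+* D} {W : D →+* D} {q : ℕ}
  [hqp : Fact q.Prime] {qB₁ : B₁}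
  {red₁ red₂ red₃ : B →+* D} {ιu ιv ιw : BM →+* B} {qB : B}

/-- **Middle cusps, `alpha` copy, at a PRIME `n ⊇ ker red₂`** (`g ∘ ι' = ιu`, `g ∘ V' = ιv`). -/
theorem exists_hE_midCusp_alpha_prime
    (h2 : S34.H83.TwoComponents red₁' red₂' ι' V' rbar W q qB₁)
    (h3 : ThreeComponents red₁ red₂ red₃ ιu ιv ιw rbar W q qB)
    (hqB₁ : qB₁ = (q : B₁)) (hqB : qB = (q : B)) (hq0 : (q : B) ≠ 0)
    (g : B₁ →+* B) (hgι : ∀ ψ, g (ι' ψ) = ιu ψ) (hgV : ∀ ψ, g (V' ψ) = ιv ψ)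
    (ψ₀ : BM) (hW : W (rbar ψ₀) = rbar ψ₀ ^ q) (hψ₀ : rbar ψ₀ ≠ 0) (hne : ιw ψ₀ ≠ ιu ψ₀)
    (r : ℕ → ℕ → ℤ)
    (hΦ₁ : PhiAt q r (algebraMap B₁ K₁ (ι' ψ₀))⁻¹ (algebraMap B₁ K₁ (V' ψ₀))⁻¹ = 0)
    (hΦ₁' : PhiAt q r (algebraMap B₁ K₁ (V' ψ₀))⁻¹ (algebraMap B₁ K₁ (ι' ψ₀))⁻¹ = 0)
    (hΦ : PhiAt q r (algebraMap B K (ιu ψ₀))⁻¹ (algebraMap B K (ιv ψ₀))⁻¹ = 0)
    (hΦ' : PhiAt q r (algebraMap B K (ιw ψ₀))⁻¹ (algebraMap B K (ιv ψ₀))⁻¹ = 0)
    (n : Ideal B) (hn : n.IsPrime) (hqn : qB ∈ n) (hker : RingHom.ker red₂ ≤ n)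
    (hcusp : ιu ψ₀ ∈ n) :
    ∃ θ : B, red₂ θ = 0 ∧ θ ≠ 0 ∧
      ∃ e t : B, e ∉ n ∧ t ∉ n ∧ t * θ ^ (q - 1) = e * qB := by
  have := hn
  have hinf : ∀ z : B₁, red₁' z = 0 → red₂' z = 0 → z ∈ Ideal.span {(q : B₁)} := by
    intro z hz1 hz2
    rw [← hqB₁]
    exact h2.hinf z hz1 hz2
  rw [hqB] at hqn ⊢
  refine exists_hE_of_levelQ_prime (K₁ := K₁) (K := K) red₁' red₂' q r hinf (ι' ψ₀) (V' ψ₀)
    (by rw [h2.h1V, h2.h1ι, hW]) (by rw [h2.h1ι]; exact hψ₀)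
    (by rw [h2.h2ι, h2.h2V, hW]) (by rw [h2.h2V]; exact hψ₀) hΦ₁ hΦ₁' g red₂ n hker hqn hq0
    (ιw ψ₀) (by rw [hgι]; exact hcusp) (by rw [hgι, h3.h2w, h3.h2u])
    (by rw [hgι, h3.h2u]; exact hψ₀) (by rw [hgV, hgι, h3.h2v, h3.h2u, hW])
    (by rw [hgι]; exact hne) (by rw [hgι, hgV]; exact hΦ) (by rw [hgV]; exact hΦ')

/-- **Middle cusps, `beta` copy, at a PRIME `n ⊇ ker red₂`** (`g ∘ ι' = ιv`, `g ∘ V' = ιw`). -/
theorem exists_hE_midCusp_beta_prime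
    (h2 : S34.H83.TwoComponents red₁' red₂' ι' V' rbar W q qB₁)
    (h3 : ThreeComponents red₁ red₂ red₃ ιu ιv ιw rbar W q qB)
    (hqB₁ : qB₁ = (q : B₁)) (hqB : qB = (q : B)) (hq0 : (q : B) ≠ 0)
    (g : B₁ →+* B) (hgι : ∀ ψ, g (ι' ψ) = ιv ψ) (hgV : ∀ ψ, g (V' ψ) = ιw ψ)
    (ψ₀ : BM) (hW : W (rbar ψ₀) = rbar ψ₀ ^ q) (hψ₀ : rbar ψ₀ ≠ 0) (hne : ιu ψ₀ ≠ ιw ψ₀)
    (r : ℕ → ℕ → ℤ)
    (hΦ₁ : PhiAt q r (algebraMap B₁ K₁ (V' ψ₀))⁻¹ (algebraMap B₁ K₁ (ι' ψ₀))⁻¹ = 0)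
    (hΦ₁' : PhiAt q r (algebraMap B₁ K₁ (ι' ψ₀))⁻¹ (algebraMap B₁ K₁ (V' ψ₀))⁻¹ = 0)
    (hΦ : PhiAt q r (algebraMap B K (ιw ψ₀))⁻¹ (algebraMap B K (ιv ψ₀))⁻¹ = 0)
    (hΦ' : PhiAt q r (algebraMap B K (ιu ψ₀))⁻¹ (algebraMap B K (ιv ψ₀))⁻¹ = 0)
    (n : Ideal B) (hn : n.IsPrime) (hqn : qB ∈ n) (hker : RingHom.ker red₂ ≤ n)
    (hcusp : ιw ψ₀ ∈ n) :
    ∃ θ : B, red₂ θ = 0 ∧ θ ≠ 0 ∧
      ∃ e t : B, e ∉ n ∧ t ∉ n ∧ t * θ ^ (q - 1) = e * qB := by
  have := hn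
  have hinf : ∀ z : B₁, red₂' z = 0 → red₁' z = 0 → z ∈ Ideal.span {(q : B₁)} := by
    intro z hz2 hz1
    rw [← hqB₁]
    exact h2.hinf z hz1 hz2
  rw [hqB] at hqn ⊢
  refine exists_hE_of_levelQ_prime (K₁ := K₁) (K := K) red₂' red₁' q r hinf (V' ψ₀) (ι' ψ₀)
    (by rw [h2.h2V, h2.h2ι, hW]) (by rw [h2.h2V]; exact hψ₀)
    (by rw [h2.h1ι, h2.h1V, hW]) (by rw [h2.h1ι]; exact hψ₀) hΦ₁ hΦ₁' g red₂ n hker hqn hq0
    (ιu ψ₀) (by rw [hgV]; exact hcusp) (by rw [hgV, h3.h2w, h3.h2u])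
    (by rw [hgV, h3.h2w]; exact hψ₀) (by rw [hgV, hgι, h3.h2v, h3.h2w, hW])
    (by rw [hgV]; exact hne) (by rw [hgι, hgV]; exact hΦ) (by rw [hgι]; exact hΦ')

omit [IsDomain B] [IsIntegrallyClosed B] [IsDomain D] hqp in
/-- On the middle component, a prime containing the product `ιu ψ₀ * ιv ψ₀ * ιw ψ₀`
(`= J₃⁻¹` for `ψ₀ = 1/j`) contains `ιu ψ₀` and `ιw ψ₀` (`W (rbar ψ₀) = rbar ψ₀ ^ q`). -/
theorem ιu_mem_of_mul_mem (h3 : ThreeComponents red₁ red₂ red₃ ιu ιv ιw rbar W q qB)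
    (ψ₀ : BM) (hW : W (rbar ψ₀) = rbar ψ₀ ^ q)
    (n : Ideal B) (hn : n.IsPrime) (hker : RingHom.ker red₂ ≤ n)
    (hc : ιu ψ₀ * ιv ψ₀ * ιw ψ₀ ∈ n) : ιu ψ₀ ∈ n ∧ ιw ψ₀ ∈ n := by
  have huw : ιu ψ₀ - ιw ψ₀ ∈ n := hker ((RingHom.mem_ker).2 (h3.red₂_sub ψ₀))
  have hvu : ιv ψ₀ - ιu ψ₀ ^ q ∈ n := by
    refine hker ((RingHom.mem_ker).2 ?_)
    rw [map_sub, map_pow, h3.h2v, h3.h2u, hW, sub_self]
  have hu : ιu ψ₀ ∈ n := by
    rcases hn.mem_or_mem hc with h | h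
    · rcases hn.mem_or_mem h with h' | h'
      · exact h'
      · -- `ιv ψ₀ ∈ n`, so `ιu ψ₀ ^ q ∈ n`
        have : ιu ψ₀ ^ q ∈ n := by
          have := sub_mem h' hvu
          simpa using this
        exact hn.mem_of_pow_mem _ this
    · have := add_mem huw h
      simpa using this
  refine ⟨hu, ?_⟩
  have := sub_mem hu huw
  simpa using this

end WrapPrime

section TransferPrime

variable {B B'' D : Type*} [CommRing B] [CommRing B''] [CommRing D]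

/-- **Transfer of the (M4r2) binder, no integrality**: if `hE` holds at every cuspidal PRIME of the
middle component of `B`, it holds at every cuspidal prime (in particular closed point) of the
middle component of `B''`. -/
theorem hM4r2_transfer_prime (φ : B →+* B'') (hφ : Function.Injective φ)
    (red₂ : B →+* D) (red₂'' : B'' →+* D) (hred : ∀ z, red₂'' (φ z) = red₂ z)
    (q : ℕ) (qB c : B)
    (hA1 : ∀ n : Ideal B, n.IsPrime → qB ∈ n → c ∈ n → RingHom.ker red₂ ≤ n →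
      ∃ θ : B, red₂ θ = 0 ∧ θ ≠ 0 ∧ ∃ e t : B, e ∉ n ∧ t ∉ n ∧ t * θ ^ (q - 1) = e * qB)
    (n'' : Ideal B'') (hn'' : n''.IsPrime) (hq : φ qB ∈ n'') (hc : φ c ∈ n'')
    (hker : RingHom.ker red₂'' ≤ n'') :
    ∃ θ : B'', red₂'' θ = 0 ∧ θ ≠ 0 ∧ ∃ e t : B'', e ∉ n'' ∧ t ∉ n'' ∧
      t * θ ^ (q - 1) = e * φ qB := by
  have hprime : (n''.comap φ).IsPrime := Ideal.comap_isPrime φ n''
  have hker' : RingHom.ker red₂ ≤ n''.comap φ := by
    intro z hz
    refine Ideal.mem_comap.2 (hker ((RingHom.mem_ker).2 ?_))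
    rw [hred]
    exact (RingHom.mem_ker).1 hz
  exact hE_map φ hφ red₂ red₂'' hred q qB n''
    (hA1 (n''.comap φ) hprime (Ideal.mem_comap.2 hq) (Ideal.mem_comap.2 hc) hker')

end TransferPrime

end Fermat.Agent.S36.H97
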