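import Mathlib
import Fermat.Agent.S36.H25_MidCuspInstA1
import Fermat.Agent.S36.H97_MidCuspPrime
import Fermat.Agent.S34.H95_ChartHint

/-!
# (M4r2)(I-main-A1), PRIME form + `coordB` spellings (helper25; S36)

Same binder block and same single hypothesis `h3` as `S36/H25_MidCuspInstA1.lean`.

* `hM4r2_A1_prime` : the `hA1` binder of `S36.H97.hM4r2_transfer_prime` (every PRIME `n` of chart 2
  with `q ∈ n`, `ιu ψ₀ * ιv ψ₀ * ιw ψ₀ ∈ n`, `ker red₂ ≤ n`), one call of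
  `S36.H97.exists_hE_midCusp_alpha_prime` after `S36.H97.ιu_mem_of_mul_mem`;
* `hM4r2_A1_prime_coordB` : the same with `c := S34.H95.coordB (J3N L)⁻¹`;
* `hM4r2_A1_coordB` : the maximal-ideal statement in the spelling of the `hA1` binder of
  `S36.H89T.hM4r2_chartBC` VERBATIM.
-/

set_option autoImplicit false
set_option linter.unusedSectionVars false
set_option linter.style.haveILetI false
set_option synthInstance.maxHeartbeats 400000

noncomputable section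

namespace Fermat.Agent.S36.H25

open ModularCurve Polynomial IsLocalRing Fermat.Agent.S28
open Fermat.Agent.S18 Fermat.Agent.S34 Fermat.Agent.S34.H55 Fermat.Agent.S34.H16
open Fermat.Agent.S36.H83

local notation "Qbar" => AlgebraicClosure ℚ

/-! ### The abstract prime-ideal statement (binders of `S36.H89W.cuspidal_inputs`) -/

section AbstractPrime

open Fermat.Agent.S36.H19

variable {B' B D BM K' K : Type*} [CommRing B'] [IsDomain B'] [IsIntegrallyClosed B']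
  [Field K'] [Algebra B' K'] [IsFractionRing B' K']
  [CommRing B] [IsDomain B] [IsIntegrallyClosed B]
  [Field K] [Algebra B K] [IsFractionRing B K] [CommRing D] [IsDomain D] [CommRing BM]
  {red₁' red₂' : B' →+* D} {ι' V' : BM →+* B'}
  {red₁ red₂ red₃ : B →+* D} {ιu ιv ιw : BM →+* B} {rbar : BM →+* D} {W : D →+* D}
  {q : ℕ} {qB' : B'} {qB : B}

/-- **Middle cusps at a PRIME**, in the binder list of `S36.H89W.cuspidal_inputs` (without `hD`;
`D` only a domain): one call of `S36.H97.exists_hE_midCusp_alpha_prime`. -/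
theorem midCusp_prime (h : S36.H83.ThreeComponents red₁ red₂ red₃ ιu ιv ιw rbar W q qB)
    (h' : S34.H83.TwoComponents red₁' red₂' ι' V' rbar W q qB') [hqp : Fact q.Prime]
    (hqB' : qB' = (q : B')) (hqB : qB = (q : B)) (hq0 : (q : B) ≠ 0)
    (α β : B' →+* B) (hαι : ∀ ψ, α (ι' ψ) = ιu ψ) (hαV : ∀ ψ, α (V' ψ) = ιv ψ)
    (hβι : ∀ ψ, β (ι' ψ) = ιv ψ) (hβV : ∀ ψ, β (V' ψ) = ιw ψ)
    (a b : K' →+* K) (ha : ∀ x, algebraMap B K (α x) = a (algebraMap B' K' x))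
    (hb : ∀ x, algebraMap B K (β x) = b (algebraMap B' K' x))
    (ψ₀ : BM) (hψ₀ : rbar ψ₀ ≠ 0) (hW : W (rbar ψ₀) = rbar ψ₀ ^ q) (hne : ιw ψ₀ ≠ ιu ψ₀)
    (r : ℕ → ℕ → ℤ) (hr : ∀ i j, r i j = r j i)
    (hΦ : PhiAt q r (algebraMap B' K' (ι' ψ₀))⁻¹ (algebraMap B' K' (V' ψ₀))⁻¹ = 0)
    (n : Ideal B) (hn : n.IsPrime) (hqn : qB ∈ n) (hJ : ιu ψ₀ * ιv ψ₀ * ιw ψ₀ ∈ n)
    (hk2 : RingHom.ker red₂ ≤ n) :
    ∃ θ : B, red₂ θ = 0 ∧ θ ≠ 0 ∧
      ∃ e t : B, e ∉ n ∧ t ∉ n ∧ t * θ ^ (q - 1) = e * qB := by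
  have hΦ' : PhiAt q r (algebraMap B' K' (V' ψ₀))⁻¹ (algebraMap B' K' (ι' ψ₀))⁻¹ = 0 := by
    rw [H89W.phiAt_symm q r hr]; exact hΦ
  have hΦu : PhiAt q r (algebraMap B K (ιu ψ₀))⁻¹ (algebraMap B K (ιv ψ₀))⁻¹ = 0 := by
    have := H89W.phiAt_inv_map α a ha q r (ι' ψ₀) (V' ψ₀) hΦ
    rwa [hαι, hαV] at this
  have hΦw : PhiAt q r (algebraMap B K (ιw ψ₀))⁻¹ (algebraMap B K (ιv ψ₀))⁻¹ = 0 := by
    have := H89W.phiAt_inv_map β b hb q r (V' ψ₀) (ι' ψ₀) hΦ'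
    rwa [hβι, hβV] at this
  have hcusp := (S36.H97.ιu_mem_of_mul_mem h ψ₀ hW n hn hk2 hJ).1
  exact S36.H97.exists_hE_midCusp_alpha_prime (K₁ := K') (K := K) h' h hqB' hqB hq0
    α hαι hαV ψ₀ hW hψ₀ hne r hΦ hΦ' hΦu hΦw n hn hqn hk2 hcusp

end AbstractPrime

section MidCuspA1Prime

variable (L : ℕ) [NeZero L] {q : ℕ} [hq : Fact q.Prime] (hqL : ¬ q ∣ L)
  (A : ValuationSubring Qbar) (hA : A.LiesOverPrime q)

local notation "kA" => IsLocalRing.ResidueField A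
local notation "A₁" => H45.A0 A q
local notation "L₁" => H45.unrCyclo q
local notation "F0" => modularFunctionFieldFullC (H45.unrCyclo q) L
local notation "F1" => modularFunctionFieldFullC (H45.unrCyclo q) (q * L)
local notation "F2" => modularFunctionFieldFullC (H45.unrCyclo q) (q * (q * L))
local notation "FkL" => modularFunctionFieldFullC (IsLocalRing.ResidueField A) L

/-- `coordB J₃⁻¹ = ιu ψ₀ * ιv ψ₀ * ιw ψ₀` in chart 2. -/
theorem coordB3_eq_mul :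
    S34.H95.coordB (R := A₁) (J3N L (q := q))⁻¹ =
      chartMap (eU L (q := q)) (eU_algebraMap L A) (huint2 L A) (psi0 L A) *
        chartMap (eV L (q := q)) (eV_algebraMap L A) (hvint2 L A) (psi0 L A) *
        chartMap (eW L (q := q)) (eW_algebraMap L A) (hwint2 L A) (psi0 L A) :=
  coordInv3_eq_mul L A

set_option maxHeartbeats 3200000 in
/-- **(M4r2)(I-main-A1), PRIME form** = the `hA1` binder of `S36.H97.hM4r2_transfer_prime` at the
real types (chart 2 of the level `q² L` over `A₁`), `c := ιu ψ₀ * ιv ψ₀ * ιw ψ₀ = J₃⁻¹`. -/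
theorem hM4r2_A1_prime
    {red₁ red₂ red₃ : ↥(H40.chartB A₁ (J3N L (q := q))⁻¹) →+*
        ↥(integralClosure (Algebra.adjoin kA {(S18.H16.jK kA L)⁻¹}) FkL)}
    (h3 : ThreeComponents red₁ red₂ red₃
        (chartMap (eU L (q := q)) (eU_algebraMap L A) (huint2 L A))
        (chartMap (eV L (q := q)) (eV_algebraMap L A) (hvint2 L A))
        (chartMap (eW L (q := q)) (eW_algebraMap L A) (hwint2 L A))
        (rbarB (Mod L hqL A hA) (hc2 L hqL A hA) (hcw2 L hqL A hA))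
        (WR (FrM L A hA) q (hFrx_inv L A hA)) q
        (algebraMap A₁ ↥(H40.chartB A₁ (J3N L (q := q))⁻¹) ((q : ℕ) : A₁))) :
    ∀ n : Ideal ↥(H40.chartB A₁ (J3N L (q := q))⁻¹), n.IsPrime →
      algebraMap A₁ ↥(H40.chartB A₁ (J3N L (q := q))⁻¹) ((q : ℕ) : A₁) ∈ n →
      chartMap (eU L (q := q)) (eU_algebraMap L A) (huint2 L A) (psi0 L A) *
        chartMap (eV L (q := q)) (eV_algebraMap L A) (hvint2 L A) (psi0 L A) *
        chartMap (eW L (q := q)) (eW_algebraMap L A) (hwint2 L A) (psi0 L A) ∈ n →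
      RingHom.ker red₂ ≤ n →
      ∃ θ : ↥(H40.chartB A₁ (J3N L (q := q))⁻¹), red₂ θ = 0 ∧ θ ≠ 0 ∧
        ∃ e t : ↥(H40.chartB A₁ (J3N L (q := q))⁻¹), e ∉ n ∧ t ∉ n ∧
          t * θ ^ (q - 1) =
            e * algebraMap A₁ ↥(H40.chartB A₁ (J3N L (q := q))⁻¹) ((q : ℕ) : A₁) := by
  intro n hn hqn hJ hk2
  haveI : NeZero q := ⟨hq.out.ne_zero⟩
  -- instances
  haveI : IsFractionRing ↥(H40.chartB A₁ (JN L (ℓ := q))⁻¹) F1 :=
    S34.H95.isFractionRing_chartB_JK_inv_A0 (A := A) (ℓ := q) (q * L) q (Dvd.intro L rfl)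
  haveI : IsIntegrallyClosed ↥(H40.chartB A₁ (JN L (ℓ := q))⁻¹) :=
    S34.H95.isIntegrallyClosed_chartB_JK_inv_A0 (A := A) (ℓ := q) (q * L) q (Dvd.intro L rfl)
  haveI : IsFractionRing ↥(H40.chartB A₁ (J3N L (q := q))⁻¹) F2 :=
    S36.H95.isFractionRing_chartB_J3K_inv_A0 (A := A) (ℓ := q) (q * (q * L)) q (hq2_dvd L)
  haveI : IsIntegrallyClosed ↥(H40.chartB A₁ (J3N L (q := q))⁻¹) :=
    S36.H95.isIntegrallyClosed_chartB_J3K_inv_A0 (A := A) (ℓ := q) (q * (q * L)) q (hq2_dvd L)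
  -- the level-`(L, q)` two-component structure on chart 2
  have hmp := S28.H16.hasModPoly q
  obtain ⟨D, hD⟩ := hmp
  have htc := S34.H55.exists_twoComponents_JK_inv L (ℓ := q) hqL A hA D hD
  obtain ⟨red₁', red₂', h'⟩ := htc
  -- the symmetric Kronecker remainder and the modular relation
  have hrr := exists_phiAt_rel_one q
  obtain ⟨r, hr, hrel⟩ := hrr
  have hΦ₁ : H19.PhiAt q r
      (algebraMap ↥(H40.chartB A₁ (JN L (ℓ := q))⁻¹) F1
        (chartMap (iotaMN L (ℓ := q)) (iotaMN_algebraMap L A) (hιint2 L A) (psi0 L A)))⁻¹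
      (algebraMap ↥(H40.chartB A₁ (JN L (ℓ := q))⁻¹) F1
        (chartMap (VMN L (ℓ := q)) (VMN_algebraMap L A) (hVint2 L A) (psi0 L A)))⁻¹ = 0 := by
    have e1 : algebraMap ↥(H40.chartB A₁ (JN L (ℓ := q))⁻¹) F1
        (chartMap (iotaMN L (ℓ := q)) (iotaMN_algebraMap L A) (hιint2 L A) (psi0 L A)) =
        (S18.H16.jK L₁ (q * L))⁻¹ := coe_uB L A
    have e2 : algebraMap ↥(H40.chartB A₁ (JN L (ℓ := q))⁻¹) F1
        (chartMap (VMN L (ℓ := q)) (VMN_algebraMap L A) (hVint2 L A) (psi0 L A)) =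
        (S18.H99.jdK L₁ (q * L) q (Dvd.intro L rfl))⁻¹ := coe_vB L A
    rw [e1, e2, inv_inv, inv_inv]
    exact (hrel L₁ (q * L) (Dvd.intro L rfl)).2
  have hq0 : ((q : ℕ) : ↥(H40.chartB A₁ (J3N L (q := q))⁻¹)) ≠ 0 := by
    intro h0
    have h1 : ((q : ℕ) : F2) = 0 := by
      have := congrArg (fun b : ↥(H40.chartB A₁ (J3N L (q := q))⁻¹) => (b : F2)) h0
      simpa using this
    haveI : CharZero F2 := charZero_of_injective_algebraMap (algebraMap L₁ F2).injective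
    exact hq.out.ne_zero (Nat.cast_eq_zero.mp h1)
  exact midCusp_prime (K' := F1) (K := F2) h3 h'
    (map_natCast _ q) (map_natCast _ q) hq0
    (alphaA1 L A) (betaA1 L A) (alphaA1_ι L A) (alphaA1_V L A) (betaA1_ι L A) (betaA1_V L A)
    (iotaMN (q * L) (ℓ := q)) (VMN (q * L) (ℓ := q)) (fun _ => rfl) (fun _ => rfl)
    (psi0 L A) (rbar_psi0_ne_zero L hqL A hA) (W_rbar_psi0 L hqL A hA)
    (ιw_psi0_ne_ιu_psi0 L A) r hr hΦ₁ n hn hqn hJ hk2

/-- the PRIME form with `c := S34.H95.coordB J₃⁻¹`. -/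
theorem hM4r2_A1_prime_coordB
    {red₁ red₂ red₃ : ↥(H40.chartB A₁ (J3N L (q := q))⁻¹) →+*
        ↥(integralClosure (Algebra.adjoin kA {(S18.H16.jK kA L)⁻¹}) FkL)}
    (h3 : ThreeComponents red₁ red₂ red₃
        (chartMap (eU L (q := q)) (eU_algebraMap L A) (huint2 L A))
        (chartMap (eV L (q := q)) (eV_algebraMap L A) (hvint2 L A))
        (chartMap (eW L (q := q)) (eW_algebraMap L A) (hwint2 L A))
        (rbarB (Mod L hqL A hA) (hc2 L hqL A hA) (hcw2 L hqL A hA))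
        (WR (FrM L A hA) q (hFrx_inv L A hA)) q
        (algebraMap A₁ ↥(H40.chartB A₁ (J3N L (q := q))⁻¹) ((q : ℕ) : A₁))) :
    ∀ n : Ideal ↥(H40.chartB A₁ (J3N L (q := q))⁻¹), n.IsPrime →
      algebraMap A₁ ↥(H40.chartB A₁ (J3N L (q := q))⁻¹) ((q : ℕ) : A₁) ∈ n →
      S34.H95.coordB (R := A₁) (J3N L (q := q))⁻¹ ∈ n →
      RingHom.ker red₂ ≤ n →
      ∃ θ : ↥(H40.chartB A₁ (J3N L (q := q))⁻¹), red₂ θ = 0 ∧ θ ≠ 0 ∧
        ∃ e t : ↥(H40.chartB A₁ (J3N L (q := q))⁻¹), e ∉ n ∧ t ∉ n ∧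
          t * θ ^ (q - 1) =
            e * algebraMap A₁ ↥(H40.chartB A₁ (J3N L (q := q))⁻¹) ((q : ℕ) : A₁) := by
  intro n hn hqn hJ hk2
  rw [coordB3_eq_mul L A] at hJ
  exact hM4r2_A1_prime L hqL A hA h3 n hn hqn hJ hk2

/-- the maximal-ideal form in the spelling of the `hA1` binder of `S36.H89T.hM4r2_chartBC`. -/
theorem hM4r2_A1_coordB
    {red₁ red₂ red₃ : ↥(H40.chartB A₁ (J3N L (q := q))⁻¹) →+*
        ↥(integralClosure (Algebra.adjoin kA {(S18.H16.jK kA L)⁻¹}) FkL)}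
    (h3 : ThreeComponents red₁ red₂ red₃
        (chartMap (eU L (q := q)) (eU_algebraMap L A) (huint2 L A))
        (chartMap (eV L (q := q)) (eV_algebraMap L A) (hvint2 L A))
        (chartMap (eW L (q := q)) (eW_algebraMap L A) (hwint2 L A))
        (rbarB (Mod L hqL A hA) (hc2 L hqL A hA) (hcw2 L hqL A hA))
        (WR (FrM L A hA) q (hFrx_inv L A hA)) q
        (algebraMap A₁ ↥(H40.chartB A₁ (J3N L (q := q))⁻¹) ((q : ℕ) : A₁))) :
    ∀ n : Ideal ↥(H40.chartB A₁ (J3N L (q := q))⁻¹), n.IsMaximal →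
      algebraMap A₁ ↥(H40.chartB A₁ (J3N L (q := q))⁻¹) ((q : ℕ) : A₁) ∈ n →
      S34.H95.coordB (R := A₁) (J3N L (q := q))⁻¹ ∈ n →
      RingHom.ker red₂ ≤ n →
      ∃ θ : ↥(H40.chartB A₁ (J3N L (q := q))⁻¹), red₂ θ = 0 ∧ θ ≠ 0 ∧
        ∃ e t : ↥(H40.chartB A₁ (J3N L (q := q))⁻¹), e ∉ n ∧ t ∉ n ∧
          t * θ ^ (q - 1) =
            e * algebraMap A₁ ↥(H40.chartB A₁ (J3N L (q := q))⁻¹) ((q : ℕ) : A₁) :=
  fun n hn hqn hJ hk2 => hM4r2_A1_prime_coordB L hqL A hA h3 n hn.isPrime hqn hJ hk2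

end MidCuspA1Prime

end Fermat.Agent.S36.H25
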