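import Mathlib

/-!
# S36 (M2), abstract half 1 (helper54): derivations preserve a rational local ring with principal
maximal ideal, and the resulting "pole lemma".

Setting (Mathlib only).  `k` a field, `O` a local `k`-algebra whose maximal ideal is generated by
one element `s` and whose residue field is `k` (e.g. the local ring `D_a` of the Dedekind component
ring at a closed point, `k` algebraically closed), `T` any commutative `O`-algebra (e.g. the Laurent
series field `k((t))` into which the component's function field embeds by `t`-expansions).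

* `derivation_mem_span_one`: a `k`-derivation `∂ : O → T` with `∂ s = 1` whose image spans a finitely
  generated `O`-submodule of `T` takes values in `O • 1` (Nakayama; no completion, no separability).
* `span_range_derivation_fg`: the finiteness hypothesis holds as soon as `Ω[O⁄k]` is a finite
  `O`-module (e.g. `O` essentially of finite type over `k`).
* `not_mem_range_of_ode` / `isUnit_of_ode`: the consumer form of row (M2)(A): if
  `θ δ = θ s * P - ρ ^ (q-1) * θ ρ` with `ρ ∈ O`, and `1 / P` lies in the maximal ideal of `O`, then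
  `δ ∉ O`; hence if `δ * y = R₀` with `y` a generator of the maximal ideal and `R₀ ∈ O`, then `R₀` is
  a unit of `O` ("thickness one").
-/

set_option autoImplicit false

namespace Fermat.Agent.S36.H54

open IsLocalRing

section Nakayama

variable {k O T : Type*} [Field k] [CommRing O] [IsLocalRing O] [Algebra k O]
  [CommRing T] [Algebra O T] [Algebra k T] [IsScalarTower k O T]

set_option linter.unusedSectionVars false

/-- Every element of a local `k`-algebra with residue field `k` and maximal ideal `(s)` is
`c + s * h` with `c ∈ k`. -/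
theorem exists_eq_algebraMap_add_mul (s : O) (hs : maximalIdeal O = Ideal.span {s})
    (hres : Function.Surjective (algebraMap k (ResidueField O))) (g : O) :
    ∃ (c : k) (h : O), g = algebraMap k O c + s * h := by
  obtain ⟨c, hc⟩ := hres (residue O g)
  have hmem : g - algebraMap k O c ∈ maximalIdeal O := by
    rw [← Ideal.Quotient.eq_zero_iff_mem]
    have h1 : residue O (g - algebraMap k O c) = 0 := by
      rw [map_sub, ← hc]
      have : residue O (algebraMap k O c) = algebraMap k (ResidueField O) c := by
        rw [IsScalarTower.algebraMap_apply k O (ResidueField O)]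
        rfl
      rw [this, sub_self]
    exact h1
  rw [hs, Ideal.mem_span_singleton'] at hmem
  obtain ⟨h, hh⟩ := hmem
  exact ⟨c, h, by rw [mul_comm, hh]; ring⟩

/-- **Derivations preserve `O`.**  A `k`-derivation `∂ : O → T` with `∂ s = 1`, whose image spans a
finitely generated `O`-submodule, has all its values in `O • 1`. -/
theorem derivation_mem_span_one (s : O) (hs : maximalIdeal O = Ideal.span {s})
    (hres : Function.Surjective (algebraMap k (ResidueField O)))
    (d : Derivation k O T) (h1 : d s = 1)
    (hfg : (Submodule.span O (Set.range d)).FG) (g : O) :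
    d g ∈ Submodule.span O {(1 : T)} := by
  set N : Submodule O T := Submodule.span O (Set.range d) with hN
  set N₀ : Submodule O T := Submodule.span O {(1 : T)} with hN₀
  have hle : N ≤ N₀ ⊔ maximalIdeal O • N := by
    rw [hN, Submodule.span_le]
    rintro _ ⟨g, rfl⟩
    obtain ⟨c, h, rfl⟩ := exists_eq_algebraMap_add_mul s hs hres g
    have hd : d (algebraMap k O c + s * h) = h • (1 : T) + s • d h := by
      rw [map_add, Derivation.map_algebraMap, zero_add, Derivation.leibniz, h1, add_comm]
    rw [SetLike.mem_coe, hd]
    refine Submodule.add_mem_sup ?_ ?_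
    · exact Submodule.smul_mem _ _ (Submodule.subset_span rfl)
    · refine Submodule.smul_mem_smul ?_ (Submodule.subset_span ⟨h, rfl⟩)
      rw [hs]; exact Ideal.subset_span rfl
  have hjac : maximalIdeal O ≤ Ideal.jacobson ⊥ := by
    rw [IsLocalRing.jacobson_eq_maximalIdeal ⊥ bot_ne_top]
  have := Submodule.le_of_le_smul_of_le_jacobson_bot hfg hjac hle
  exact this (Submodule.subset_span ⟨g, rfl⟩)

/-- The finiteness hypothesis of `derivation_mem_span_one` from finiteness of the Kähler
differentials. -/
theorem span_range_derivation_fg [Module.Finite O (Ω[O⁄k])] (d : Derivation k O T) :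
    (Submodule.span O (Set.range d)).FG := by
  have h : Submodule.span O (Set.range d) = LinearMap.range d.liftKaehlerDifferential := by
    have h2 : Set.range d = d.liftKaehlerDifferential '' Set.range (KaehlerDifferential.D k O) := by
      ext x
      constructor
      · rintro ⟨g, rfl⟩
        exact ⟨KaehlerDifferential.D k O g, ⟨g, rfl⟩, Derivation.liftKaehlerDifferential_comp_D d g⟩
      · rintro ⟨_, ⟨g, rfl⟩, rfl⟩
        exact ⟨g, (Derivation.liftKaehlerDifferential_comp_D d g).symm⟩
    rw [h2, ← Submodule.map_span, KaehlerDifferential.span_range_derivation, Submodule.map_top]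
  rw [h, ← Submodule.map_top]
  exact (Module.Finite.fg_top (R := O) (M := Ω[O⁄k])).map d.liftKaehlerDifferential

end Nakayama

section Consumer

set_option linter.unusedSectionVars false

variable {k O T : Type*} [Field k] [CommRing O] [IsLocalRing O] [Algebra k O]
  [Field T] [Algebra O T] [Algebra k T] [IsScalarTower k O T]

/-- The derivation `g ↦ θ g / θ s` of `O` with values in `T`. -/
noncomputable def derivDiv (θ : Derivation k T T) (s : O) : Derivation k O T :=
  (θ (algebraMap O T s))⁻¹ • θ.compAlgebraMap O

theorem derivDiv_apply (θ : Derivation k T T) (s g : O) :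
    derivDiv θ s g = (θ (algebraMap O T s))⁻¹ * θ (algebraMap O T g) := rfl

theorem derivDiv_self (θ : Derivation k T T) (s : O) (hθs : θ (algebraMap O T s) ≠ 0) :
    derivDiv θ s s = 1 := by
  rw [derivDiv_apply, inv_mul_cancel₀ hθs]

/-- `θ g / θ s ∈ O` for every `g ∈ O` (image in `T`). -/
theorem exists_algebraMap_eq_derivDiv (θ : Derivation k T T) (s : O)
    (hs : maximalIdeal O = Ideal.span {s})
    (hres : Function.Surjective (algebraMap k (ResidueField O)))
    (hθs : θ (algebraMap O T s) ≠ 0)
    (hfg : (Submodule.span O (Set.range (derivDiv θ s))).FG) (g : O) :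
    ∃ a : O, algebraMap O T a = (θ (algebraMap O T s))⁻¹ * θ (algebraMap O T g) := by
  have h := derivation_mem_span_one s hs hres (derivDiv θ s) (derivDiv_self θ s hθs) hfg g
  rw [Submodule.mem_span_singleton] at h
  obtain ⟨a, ha⟩ := h
  refine ⟨a, ?_⟩
  rw [← derivDiv_apply, ← ha, Algebra.smul_def, mul_one]

/-- **Pole lemma.**  If `θ δ = θ s * P - ρ ^ (q - 1) * θ ρ` with `ρ ∈ O` and `1 / P` lies in the
maximal ideal of `O`, then `δ ∉ O`. -/
theorem not_mem_range_of_ode (hinj : Function.Injective (algebraMap O T))
    (θ : Derivation k T T) (s : O) (hs : maximalIdeal O = Ideal.span {s})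
    (hres : Function.Surjective (algebraMap k (ResidueField O)))
    (hθs : θ (algebraMap O T s) ≠ 0)
    (hfg : (Submodule.span O (Set.range (derivDiv θ s))).FG)
    (δ P : T) (ρ : O) (q : ℕ)
    (hode : θ δ = θ (algebraMap O T s) * P - algebraMap O T ρ ^ (q - 1) * θ (algebraMap O T ρ))
    (hP : ∃ p ∈ maximalIdeal O, P * algebraMap O T p = 1) :
    δ ∉ Set.range (algebraMap O T) := by
  rintro ⟨g, rfl⟩
  obtain ⟨a, ha⟩ := exists_algebraMap_eq_derivDiv θ s hs hres hθs hfg g
  obtain ⟨b, hb⟩ := exists_algebraMap_eq_derivDiv θ s hs hres hθs hfg ρ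
  obtain ⟨p, hp, hPp⟩ := hP
  have hPeq : P = algebraMap O T (a + ρ ^ (q - 1) * b) := by
    rw [map_add, map_mul, map_pow, ha, hb, hode]
    field_simp
    ring
  rw [hPeq, ← map_mul, ← map_one (algebraMap O T)] at hPp
  have h1 : (a + ρ ^ (q - 1) * b) * p = 1 := hinj hPp
  have hu : IsUnit p := IsUnit.of_mul_eq_one _ (by rw [mul_comm]; exact h1)
  exact (IsLocalRing.mem_maximalIdeal p).mp hp hu

/-- **Thickness one, abstract form.**  In the situation of `not_mem_range_of_ode`, if `δ * y = R₀`
with `y` a generator of the maximal ideal of `O` and `R₀ ∈ O`, then `R₀` is a unit of `O`. -/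
theorem isUnit_of_ode (hinj : Function.Injective (algebraMap O T))
    (θ : Derivation k T T) (s : O) (hs : maximalIdeal O = Ideal.span {s})
    (hres : Function.Surjective (algebraMap k (ResidueField O)))
    (hθs : θ (algebraMap O T s) ≠ 0)
    (hfg : (Submodule.span O (Set.range (derivDiv θ s))).FG)
    (δ P : T) (ρ : O) (q : ℕ)
    (hode : θ δ = θ (algebraMap O T s) * P - algebraMap O T ρ ^ (q - 1) * θ (algebraMap O T ρ))
    (hP : ∃ p ∈ maximalIdeal O, P * algebraMap O T p = 1)
    (y R₀ : O) (hy : maximalIdeal O = Ideal.span {y})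
    (hrel : δ * algebraMap O T y = algebraMap O T R₀) : IsUnit R₀ := by
  by_contra hR
  have hmem : R₀ ∈ maximalIdeal O := (IsLocalRing.mem_maximalIdeal R₀).mpr hR
  rw [hy, Ideal.mem_span_singleton'] at hmem
  obtain ⟨R₁, hR₁⟩ := hmem
  have hy0 : algebraMap O T y ≠ 0 := by
    intro h0
    have hy0' : y = 0 := hinj (by rw [h0, map_zero])
    obtain ⟨p, hp, hPp⟩ := hP
    rw [hy, hy0', Ideal.mem_span_singleton'] at hp
    obtain ⟨c, hc⟩ := hp
    rw [← hc, mul_zero, map_zero, mul_zero] at hPp
    exact zero_ne_one hPp
  apply not_mem_range_of_ode hinj θ s hs hres hθs hfg δ P ρ q hode hP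
  refine ⟨R₁, ?_⟩
  have : δ * algebraMap O T y = algebraMap O T R₁ * algebraMap O T y := by
    rw [hrel, ← hR₁, map_mul]
  exact (mul_right_cancel₀ hy0 this).symm

end Consumer

end Fermat.Agent.S36.H54
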