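import Mathlib
import Fermat.Agent.CA.H26_DerivLocal
import Fermat.Agent.CA.H26_DerivPth
import Fermat.Agent.S36.H54_DerivPole

/-!
# S36 (M2e): the inputs `hθs`, `hfg`, `hs` of `H54.isUnit_of_ode` discharged (helper26)

Setting (Mathlib-level types only).  `k` a perfect field of characteristic `p`, `T` a field over `k`
with a `k`-derivation `θ` all of whose constants are `p`-th powers (`T = k((t))`, `θ = t d/dt`),
`s₀ : T` with `θ s₀ ≠ 0` (`s₀ = j̄`).  `D` a finitely generated `k`-algebra, `a` a prime, `O = D_a` a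
DVR with residue field `k`, embedded in `T` (`[Algebra O T]`, injective), every element of `O`
algebraic over `k(s₀)`, and `s₀` a ratio of elements of `O`.  `s : O` ANY uniformiser.  Then

* `theta_uniformiser_ne_zero` : `θ s ≠ 0`;
* `exists_algebraMap_eq_theta_div` : `θ x / θ s ∈ O` for all `x ∈ O` (`d/ds` preserves `O`);
* `span_range_derivDiv_fg` : the hypothesis `hfg` of `H54.isUnit_of_ode`;
* `isUnit_of_ode_dvr` : `H54.isUnit_of_ode` with only `hode`, `hP`, `hrel` left.
-/

set_option autoImplicit false
set_option linter.style.haveILetI false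

namespace Fermat.Agent.S36.H26

open IsLocalRing IntermediateField Fermat.Agent.CA.H26

section FracField

/-- The field of fractions of (the image of) `O` inside the field `T`, as an intermediate field. -/
def fracField (k O T : Type*) [Field k] [CommRing O] [Field T] [Algebra k O] [Algebra k T]
    [Algebra O T] [IsScalarTower k O T] : IntermediateField k T where
  carrier := {z | ∃ x y : O, z = algebraMap O T x / algebraMap O T y}
  mul_mem' := by
    rintro _ _ ⟨x, y, rfl⟩ ⟨x', y', rfl⟩
    exact ⟨x * x', y * y', by rw [map_mul, map_mul, div_mul_div_comm]⟩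
  one_mem' := ⟨1, 1, by simp⟩
  add_mem' := by
    rintro _ _ ⟨x, y, rfl⟩ ⟨x', y', rfl⟩
    by_cases hy : algebraMap O T y = 0
    · exact ⟨x', y', by rw [hy, div_zero, zero_add]⟩
    by_cases hy' : algebraMap O T y' = 0
    · exact ⟨x, y, by rw [hy', div_zero, add_zero]⟩
    exact ⟨x * y' + y * x', y * y', by
      simp only [map_add, map_mul]
      rw [div_add_div _ _ hy hy']⟩
  zero_mem' := ⟨0, 1, by simp⟩
  algebraMap_mem' := fun c => ⟨algebraMap k O c, 1, by
    rw [map_one, div_one, ← IsScalarTower.algebraMap_apply]⟩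
  inv_mem' := by
    rintro _ ⟨x, y, rfl⟩
    exact ⟨y, x, by rw [inv_div]⟩

variable {k O T : Type*} [Field k] [CommRing O] [Field T] [Algebra k O] [Algebra k T]
  [Algebra O T] [IsScalarTower k O T]

theorem mem_fracField {z : T} :
    z ∈ fracField k O T ↔ ∃ x y : O, z = algebraMap O T x / algebraMap O T y := Iff.rfl

theorem algebraMap_mem_fracField (x : O) : algebraMap O T x ∈ fracField k O T :=
  ⟨x, 1, by rw [map_one, div_one]⟩

/-- The `O`-algebra structure of `fracField k O T` (not an instance). -/
@[reducible] noncomputable def fracFieldAlgebra : Algebra O ↥(fracField k O T) :=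
  RingHom.toAlgebra ((algebraMap O T).codRestrict (fracField k O T) algebraMap_mem_fracField)

end FracField

section Main

variable {k T D O : Type*} [Field k] [Field T] [Algebra k T]
  (p : ℕ) [Fact p.Prime] [CharP k p] [PerfectRing k p]
  (θ : Derivation k T T)
  [CommRing D] [Algebra k D] [Algebra.FiniteType k D]
  [CommRing O] [IsDomain O] [IsDiscreteValuationRing O] [Algebra D O]
  (a : Ideal D) [a.IsPrime] [IsLocalization.AtPrime O a]
  [Algebra k O] [IsScalarTower k D O] [Algebra O T] [IsScalarTower k O T]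

omit [IsDomain O] [IsDiscreteValuationRing O] in
/-- `fracField k O T` is a fraction field of `O` (for the algebra structure `fracFieldAlgebra`). -/
theorem isFractionRing_fracField (hinj : Function.Injective (algebraMap O T)) :
    letI := fracFieldAlgebra (k := k) (O := O) (T := T)
    IsFractionRing O ↥(fracField k O T) := by
  letI := fracFieldAlgebra (k := k) (O := O) (T := T)
  haveI : FaithfulSMul O ↥(fracField k O T) := by
    rw [faithfulSMul_iff_algebraMap_injective]
    intro x y h
    exact hinj (congrArg Subtype.val h)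
  refine IsFractionRing.of_field (R := O) (K := ↥(fracField k O T)) ?_
  rintro ⟨z, x, y, rfl⟩
  exact ⟨x, y, Subtype.ext rfl⟩

omit [IsDomain O] [IsDiscreteValuationRing O] in
theorem isAlgebraic_of_mem_fracField {s₀ : T}
    (halg : ∀ x : O, IsAlgebraic (↥k⟮s₀⟯) (algebraMap O T x)) :
    ∀ z ∈ fracField k O T, IsAlgebraic (↥k⟮s₀⟯) z := by
  rintro _ ⟨x, y, rfl⟩
  rw [div_eq_mul_inv]
  exact (halg x).mul (halg y).inv

omit [IsDomain O] [IsDiscreteValuationRing O] in
/-- The residue-field hypothesis in the two spellings (`H54` ⟹ `CA.H26`). -/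
theorem exists_sub_mem_of_surjective [IsLocalRing O]
    (hres : Function.Surjective (algebraMap k (ResidueField O))) (x : O) :
    ∃ c : k, x - algebraMap k O c ∈ maximalIdeal O := by
  obtain ⟨c, hc⟩ := hres (residue O x)
  refine ⟨c, ?_⟩
  rw [← Ideal.Quotient.eq_zero_iff_mem]
  have h1 : residue O (x - algebraMap k O c) = 0 := by
    rw [map_sub, ← hc]
    have : residue O (algebraMap k O c) = algebraMap k (ResidueField O) c := by
      rw [IsScalarTower.algebraMap_apply k O (ResidueField O)]
      rfl
    rw [this, sub_self]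
  exact h1

include p in
/-- **(a)** `θ s ≠ 0` for every uniformiser `s` of `O`. -/
theorem theta_uniformiser_ne_zero (hinj : Function.Injective (algebraMap O T))
    (hconst : ∀ y : T, θ y = 0 → ∃ z : T, z ^ p = y)
    {s₀ : T} (hs₀ : θ s₀ ≠ 0) (hs₀mem : s₀ ∈ fracField k O T)
    (halg : ∀ x : O, IsAlgebraic (↥k⟮s₀⟯) (algebraMap O T x))
    {s : O} (hs : Irreducible s) : θ (algebraMap O T s) ≠ 0 := by
  letI := fracFieldAlgebra (k := k) (O := O) (T := T)
  haveI := isFractionRing_fracField (k := k) hinj
  have hle : k⟮s₀⟯ ≤ fracField k O T := by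
    rw [adjoin_simple_le_iff]
    exact hs₀mem
  exact deriv_ne_zero_of_irreducible θ p hs₀ hle (isAlgebraic_of_mem_fracField halg) hconst hs

include p a in
/-- **(b)** `d/ds` preserves `O`: `θ x / θ s ∈ O` for all `x ∈ O`. -/
theorem exists_algebraMap_eq_theta_div (hinj : Function.Injective (algebraMap O T))
    (hconst : ∀ y : T, θ y = 0 → ∃ z : T, z ^ p = y)
    {s₀ : T} (hs₀ : θ s₀ ≠ 0) (hs₀mem : s₀ ∈ fracField k O T)
    (halg : ∀ x : O, IsAlgebraic (↥k⟮s₀⟯) (algebraMap O T x))
    (hres : ∀ x : O, ∃ c : k, x - algebraMap k O c ∈ maximalIdeal O)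
    {s : O} (hs : Irreducible s) (x : O) :
    ∃ y : O, algebraMap O T y = θ (algebraMap O T x) / θ (algebraMap O T s) := by
  letI := fracFieldAlgebra (k := k) (O := O) (T := T)
  haveI := isFractionRing_fracField (k := k) hinj
  haveI : IsScalarTower k O ↥(fracField k O T) :=
    IsScalarTower.of_algebraMap_eq fun c => Subtype.ext (IsScalarTower.algebraMap_apply k O T c)
  have hθs := theta_uniformiser_ne_zero p θ hinj hconst hs₀ hs₀mem halg hs
  have hst0 : RatioStable θ s₀ (fracField k O T) :=
    ratioStable_of_isAlgebraic θ p hs₀ hs₀mem (isAlgebraic_of_mem_fracField halg)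
  have hst : RatioStable θ (algebraMap O T s) (fracField k O T) := by
    intro z hz
    have h1 := hst0 z hz
    have h2 := hst0 _ (algebraMap_mem_fracField (k := k) s)
    have : θ z / θ (algebraMap O T s) = (θ z / θ s₀) / (θ (algebraMap O T s) / θ s₀) := by
      field_simp
    rw [this]
    exact div_mem h1 h2
  have hdel : ratioDeriv hst (algebraMap O ↥(fracField k O T) s) = 1 :=
    ratioDeriv_self hst hθs (algebraMap_mem_fracField s)
  obtain ⟨y, hy⟩ := del_mem (k := k) (D := D) a hres hs (ratioDeriv hst) hdel x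
  exact ⟨y, (congrArg Subtype.val hy).symm⟩

include p a in
/-- **(c)** the finiteness hypothesis `hfg` of `H54.isUnit_of_ode`. -/
theorem span_range_derivDiv_fg (hinj : Function.Injective (algebraMap O T))
    (hconst : ∀ y : T, θ y = 0 → ∃ z : T, z ^ p = y)
    {s₀ : T} (hs₀ : θ s₀ ≠ 0) (hs₀mem : s₀ ∈ fracField k O T)
    (halg : ∀ x : O, IsAlgebraic (↥k⟮s₀⟯) (algebraMap O T x))
    (hres : ∀ x : O, ∃ c : k, x - algebraMap k O c ∈ maximalIdeal O)
    {s : O} (hs : Irreducible s) :
    (Submodule.span O (Set.range (H54.derivDiv θ s))).FG := by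
  have hθs := theta_uniformiser_ne_zero p θ hinj hconst hs₀ hs₀mem halg hs
  have h : Submodule.span O (Set.range (H54.derivDiv θ s)) = Submodule.span O {(1 : T)} := by
    apply le_antisymm
    · rw [Submodule.span_le]
      rintro _ ⟨g, rfl⟩
      obtain ⟨y, hy⟩ :=
        exists_algebraMap_eq_theta_div p θ a hinj hconst hs₀ hs₀mem halg hres hs g
      rw [SetLike.mem_coe, Submodule.mem_span_singleton]
      refine ⟨y, ?_⟩
      rw [H54.derivDiv_apply, Algebra.smul_def, mul_one, hy, div_eq_inv_mul]
    · rw [Submodule.span_le, Set.singleton_subset_iff]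
      exact Submodule.subset_span ⟨s, H54.derivDiv_self θ s hθs⟩
  rw [h]
  exact Submodule.fg_span_singleton _

include p a in
/-- **(d)** `H54.isUnit_of_ode` ("thickness one, abstract form") with `hθs`, `hfg` and the two
principal-maximal-ideal hypotheses discharged: `O = D_a` a DVR with residue field `k` inside `T`,
`s`, `y` uniformisers, `θ δ = θ s * P - ρ ^ (q - 1) * θ ρ`, `1 / P ∈ 𝔪`, `δ * y = R₀ ∈ O`.  Then `R₀`
is a unit. -/
theorem isUnit_of_ode_dvr (hinj : Function.Injective (algebraMap O T))
    (hconst : ∀ y : T, θ y = 0 → ∃ z : T, z ^ p = y)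
    {s₀ : T} (hs₀ : θ s₀ ≠ 0) (hs₀mem : s₀ ∈ fracField k O T)
    (halg : ∀ x : O, IsAlgebraic (↥k⟮s₀⟯) (algebraMap O T x))
    (hres : Function.Surjective (algebraMap k (ResidueField O)))
    {s : O} (hs : Irreducible s)
    (δ P : T) (ρ : O) (q : ℕ)
    (hode : θ δ = θ (algebraMap O T s) * P - algebraMap O T ρ ^ (q - 1) * θ (algebraMap O T ρ))
    (hP : ∃ p' ∈ maximalIdeal O, P * algebraMap O T p' = 1)
    {y : O} (hy : Irreducible y) (R₀ : O)
    (hrel : δ * algebraMap O T y = algebraMap O T R₀) : IsUnit R₀ :=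
  H54.isUnit_of_ode hinj θ s hs.maximalIdeal_eq hres
    (theta_uniformiser_ne_zero p θ hinj hconst hs₀ hs₀mem halg hs)
    (span_range_derivDiv_fg p θ a hinj hconst hs₀ hs₀mem halg
      (exists_sub_mem_of_surjective hres) hs)
    δ P ρ q hode hP y R₀ hy.maximalIdeal_eq hrel

end Main

end Fermat.Agent.S36.H26
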