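import Mathlib
import Fermat.Agent.S36.H26_OdeInputs
import Fermat.Agent.S36.H54_M2eContract

/-!
# S36 (M2e): `hθs` and `hdel` of `H54.thickness_one_of_intrinsic`, in the `MemLoc` vocabulary
(helper26)

`D` a Dedekind domain, finitely generated over a perfect field `k` of characteristic `p`, embedded
in a field `T` (`[Algebra D T]`, injective) which carries a `k`-derivation `θ` whose constants are
`p`-th powers (`T = k((t))`, `θ = t d/dt`: `S36.H26.hconst_thetaDer`).  `j₀ : D` with `θ j₀ ≠ 0` and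
`D` algebraic over `k(j₀)`.  `𝔞` a maximal ideal with residue field `k`, `sb ∈ 𝔞 \ 𝔞 ^ 2`.  Then

* `theta_ne_zero_of_not_mem_sq` : `θ sb ≠ 0`                                       (`hθs`);
* `memLoc_theta_div` : `∀ d : D, H54.MemLoc 𝔞 (θ d / θ sb)`                          (`hdel`).

No `Localization` type occurs in the statements; inside, `O := Localization.AtPrime 𝔞` and
`S36.H26.theta_uniformiser_ne_zero` / `exists_algebraMap_eq_theta_div` are applied.
-/

set_option autoImplicit false
set_option linter.style.haveILetI false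

namespace Fermat.Agent.S36.H26

open IsLocalRing IntermediateField

section Loc

variable {k D T : Type*} [Field k] [CommRing D] [IsDomain D] [Algebra k D]
  [Field T] [Algebra k T] [Algebra D T] [IsScalarTower k D T]

omit [IsDomain D] in
theorem isUnit_algebraMap_of_not_mem (hinj : Function.Injective (algebraMap D T))
    (𝔞 : Ideal D) [𝔞.IsPrime] (y : 𝔞.primeCompl) : IsUnit (algebraMap D T y) := by
  refine IsUnit.mk0 _ fun h0 => y.2 ?_
  have : (y : D) = 0 := hinj (by rw [h0, map_zero])
  rw [this]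
  exact 𝔞.zero_mem

/-- The algebra structure `D_𝔞 → T` (not an instance). -/
@[reducible] noncomputable def locAlgebra (hinj : Function.Injective (algebraMap D T))
    (𝔞 : Ideal D) [𝔞.IsPrime] : Algebra (Localization.AtPrime 𝔞) T :=
  (IsLocalization.lift (M := 𝔞.primeCompl) (S := Localization.AtPrime 𝔞)
    (isUnit_algebraMap_of_not_mem hinj 𝔞)).toAlgebra

end Loc

section Main

variable {k D T : Type*} [Field k] (p : ℕ) [Fact p.Prime] [CharP k p] [PerfectRing k p]
  [CommRing D] [IsDedekindDomain D] [Algebra k D] [Algebra.FiniteType k D]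
  [Field T] [Algebra k T] [Algebra D T] [IsScalarTower k D T]
  (θ : Derivation k T T)

include p in
/-- **`hθs` and `hdel` of `H54.thickness_one_of_intrinsic`** (both at once). -/
theorem theta_ne_zero_and_memLoc (hinj : Function.Injective (algebraMap D T))
    (hconst : ∀ y : T, θ y = 0 → ∃ z : T, z ^ p = y)
    {j₀ : D} (hj₀ : θ (algebraMap D T j₀) ≠ 0)
    (halg : ∀ d : D, IsAlgebraic (↥k⟮algebraMap D T j₀⟯) (algebraMap D T d))
    (𝔞 : Ideal D) [h𝔞 : 𝔞.IsMaximal] (h𝔞0 : 𝔞 ≠ ⊥)
    (hres : Function.Surjective (algebraMap k (D ⧸ 𝔞)))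
    {sb : D} (hsb : sb ∈ 𝔞) (hsb2 : sb ∉ 𝔞 ^ 2) :
    θ (algebraMap D T sb) ≠ 0 ∧
      ∀ d : D, H54.MemLoc 𝔞 (θ (algebraMap D T d) / θ (algebraMap D T sb)) := by
  haveI h𝔞p : 𝔞.IsPrime := h𝔞.isPrime
  let O := Localization.AtPrime 𝔞
  haveI : IsDiscreteValuationRing O :=
    IsLocalization.AtPrime.isDiscreteValuationRing_of_dedekind_domain D h𝔞0 O
  letI : Algebra O T := locAlgebra hinj 𝔞
  have hlift : ∀ d : D, algebraMap O T (algebraMap D O d) = algebraMap D T d := fun d =>
    IsLocalization.lift_eq _ d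
  haveI : IsScalarTower k O T := IsScalarTower.of_algebraMap_eq fun c => by
    rw [IsScalarTower.algebraMap_apply k D T, IsScalarTower.algebraMap_apply k D O, hlift]
  -- every element of `O` as a fraction
  have hfrac : ∀ x : O, ∃ (d : D) (u : D), u ∉ 𝔞 ∧
      algebraMap O T x * algebraMap D T u = algebraMap D T d := by
    intro x
    obtain ⟨d, u, rfl⟩ := IsLocalization.exists_mk'_eq 𝔞.primeCompl x
    refine ⟨d, u, u.2, ?_⟩
    rw [← hlift u, ← map_mul, IsLocalization.mk'_spec, hlift]
  have hne : ∀ u : D, u ∉ 𝔞 → algebraMap D T u ≠ 0 := fun u hu h0 => hu (by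
    have : u = 0 := hinj (by rw [h0, map_zero])
    rw [this]
    exact 𝔞.zero_mem)
  have hinjO : Function.Injective (algebraMap O T) := by
    refine (IsLocalization.lift_injective_iff (M := 𝔞.primeCompl) (S := O)
      (hg := isUnit_algebraMap_of_not_mem hinj 𝔞)).2 fun x y => ?_
    rw [(IsLocalization.injective O 𝔞.primeCompl_le_nonZeroDivisors).eq_iff, hinj.eq_iff]
  -- `s₀ := j₀`
  have hs₀mem : algebraMap D T j₀ ∈ fracField k O T :=
    ⟨algebraMap D O j₀, 1, by rw [hlift, map_one, div_one]⟩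
  have halgO : ∀ x : O, IsAlgebraic (↥k⟮algebraMap D T j₀⟯) (algebraMap O T x) := by
    intro x
    obtain ⟨d, u, hu, hdu⟩ := hfrac x
    have : algebraMap O T x = algebraMap D T d * (algebraMap D T u)⁻¹ := by
      rw [← hdu, mul_assoc, mul_inv_cancel₀ (hne u hu), mul_one]
    rw [this]
    exact (halg d).mul (halg u).inv
  -- the residue field
  have hresO : ∀ x : O, ∃ c : k, x - algebraMap k O c ∈ maximalIdeal O := by
    intro x
    obtain ⟨d, u, rfl⟩ := IsLocalization.exists_mk'_eq 𝔞.primeCompl x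
    letI := Ideal.Quotient.field 𝔞
    obtain ⟨c, hc⟩ := hres (Ideal.Quotient.mk 𝔞 d * (Ideal.Quotient.mk 𝔞 (u : D))⁻¹)
    refine ⟨c, ?_⟩
    have hu0 : Ideal.Quotient.mk 𝔞 (u : D) ≠ 0 := by
      rw [Ne, Ideal.Quotient.eq_zero_iff_mem]
      exact u.2
    have hmem : d - algebraMap k D c * u ∈ 𝔞 := by
      rw [← Ideal.Quotient.eq_zero_iff_mem, map_sub, map_mul]
      have : Ideal.Quotient.mk 𝔞 (algebraMap k D c) = algebraMap k (D ⧸ 𝔞) c := by
        rw [IsScalarTower.algebraMap_apply k D (D ⧸ 𝔞)]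
        rfl
      rw [this, hc, mul_assoc, inv_mul_cancel₀ hu0, mul_one, sub_self]
    have h1 : (IsLocalization.mk' O d u - algebraMap k O c) * algebraMap D O u =
        algebraMap D O (d - algebraMap k D c * u) := by
      rw [sub_mul, IsLocalization.mk'_spec, map_sub, map_mul,
        ← IsScalarTower.algebraMap_apply k D O]
    have h2 : algebraMap D O (d - algebraMap k D c * u) ∈ maximalIdeal O :=
      (IsLocalization.AtPrime.to_map_mem_maximal_iff O 𝔞 _).2 hmem
    rw [← h1] at h2
    refine ((maximalIdeal.isMaximal O).isPrime.mem_or_mem h2).resolve_right fun h3 => ?_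
    exact (IsLocalization.AtPrime.to_map_mem_maximal_iff O 𝔞 _).1 h3 |> u.2
  -- the uniformiser
  have hs : Irreducible (algebraMap D O sb) := by
    rw [IsDiscreteValuationRing.irreducible_iff_uniformizer]
    apply le_antisymm
    · rw [← IsLocalization.AtPrime.map_eq_maximalIdeal 𝔞 O, Ideal.map_le_iff_le_comap]
      intro w hw
      obtain ⟨t, ht, htw⟩ := S34.H83.exists_mul_mem_span_of_not_mem_sq h𝔞p hsb hsb2 hw
      obtain ⟨e, he⟩ := Ideal.mem_span_singleton'.1 htw
      have hu : IsUnit (algebraMap D O t) := IsLocalization.map_units O (⟨t, ht⟩ : 𝔞.primeCompl)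
      rw [Ideal.mem_comap, Ideal.mem_span_singleton']
      refine ⟨↑hu.unit⁻¹ * algebraMap D O e, ?_⟩
      rw [mul_assoc, ← map_mul, he, map_mul, ← mul_assoc]
      have : (↑hu.unit⁻¹ : O) * algebraMap D O t = 1 := by
        have := hu.unit.inv_mul
        rwa [IsUnit.unit_spec] at this
      rw [this, one_mul]
    · rw [Ideal.span_le, Set.singleton_subset_iff]
      exact (IsLocalization.AtPrime.to_map_mem_maximal_iff O 𝔞 sb).2 hsb
  have hθs : θ (algebraMap D T sb) ≠ 0 := by
    have := theta_uniformiser_ne_zero p θ hinjO hconst hj₀ hs₀mem halgO hs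
    rwa [hlift] at this
  refine ⟨hθs, fun d => ?_⟩
  obtain ⟨y, hy⟩ := exists_algebraMap_eq_theta_div p θ 𝔞 hinjO hconst hj₀ hs₀mem halgO hresO hs
    (algebraMap D O d)
  rw [hlift, hlift] at hy
  obtain ⟨c, u, hu, hcu⟩ := hfrac y
  exact ⟨c, u, hu, by rw [← hy, hcu]⟩

end Main

end Fermat.Agent.S36.H26
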