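import Mathlib
import Fermat.Agent.S28.H39_Laurent
import Fermat.Agent.S37.H59_FrobLaurent
import Fermat.Agent.S36.H26_OdeInputs

/-!
# S36 (M2e): the `θ`-constants of `k((t))` are `p`-th powers (helper26)

`k` a perfect field (or any perfect domain) of characteristic `p`, `θ = t d/dt` on `k((t))`
(`S28.thetaOp`, as a derivation `S28.H39.thetaDer'`).  Then `θ y = 0 ⟹ y = z ^ p` for some `z`:
the kernel of `θ` is `k((t^p))` (`S28.H39.thetaOp_eq_zero_iff_of_charP`), and
`qExpand p w = (coeffMap frob⁻¹ w) ^ p` (`S37.H59.pow_char_eq_qExpand_frobenius`).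

This is the hypothesis `hconst` of `CA.H26.deriv_ne_zero_of_irreducible` and of
`S36.H26.isUnit_of_ode_dvr`, at `T := LaurentSeries k`, `θ := S28.H39.thetaDer'`.
-/

set_option autoImplicit false
set_option linter.style.haveILetI false

namespace Fermat.Agent.S36.H26

open ModularCurve Fermat.Agent.S28

section PthPower

variable {k : Type*} [CommRing k] [IsDomain k] (p : ℕ) [Fact p.Prime] [CharP k p] [PerfectRing k p]

omit [IsDomain k] in
/-- Over a perfect ring of characteristic `p`, a series in `t^p` is a `p`-th power. -/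
theorem qExpand_eq_pow (w : LaurentSeries k) :
    qExpand k p w = (coeffMap ((frobeniusEquiv k p).symm : k →+* k) w) ^ p := by
  rw [S37.H59.pow_char_eq_qExpand_frobenius p, coeffMap_coeffMap]
  congr 1
  rw [coeffMap_congr (g := RingHom.id k) (RingHom.ext fun a => ?_) w, coeffMap_id]
  simp

/-- **`θ`-constants are `p`-th powers** (`thetaOp` form). -/
theorem exists_pow_eq_of_thetaOp_eq_zero (y : LaurentSeries k) (h : thetaOp y = 0) :
    ∃ z : LaurentSeries k, z ^ p = y := by
  have : NeZero p := ⟨(Fact.out : p.Prime).ne_zero⟩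
  obtain ⟨w, rfl⟩ := (H39.thetaOp_eq_zero_iff_of_charP p y).mp h
  exact ⟨_, (qExpand_eq_pow p w).symm⟩

/-- **`hconst` for `S28.H39.thetaDer'`.** -/
theorem hconst_thetaDer' (y : LaurentSeries k) (h : H39.thetaDer' y = 0) :
    ∃ z : LaurentSeries k, z ^ p = y :=
  exists_pow_eq_of_thetaOp_eq_zero p y h

/-- `hconst` for `S28.H39.thetaDer` (the spelling of `θ` that unifies with an abstract
`Derivation k T T`, `T := LaurentSeries k`). -/
theorem hconst_thetaDer (y : LaurentSeries k) (h : H39.thetaDer y = 0) :
    ∃ z : LaurentSeries k, z ^ p = y :=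
  exists_pow_eq_of_thetaOp_eq_zero p y h

end PthPower

section Laurent

open IsLocalRing IntermediateField

variable {k D O : Type*} [Field k] (p : ℕ) [Fact p.Prime] [CharP k p] [PerfectRing k p]
  [CommRing D] [Algebra k D] [Algebra.FiniteType k D]
  [CommRing O] [IsDomain O] [IsDiscreteValuationRing O] [Algebra D O]
  (a : Ideal D) [a.IsPrime] [IsLocalization.AtPrime O a]
  [Algebra k O] [IsScalarTower k D O] [Algebra O (LaurentSeries k)]

omit [IsDomain O] [IsDiscreteValuationRing O] in
/-- The scalar tower `k → O → k((t))` from the equation `algebraMap O _ (algebraMap k O c) = C c`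
(stated for the `Algebra k (LaurentSeries k)` instance Lean infers). -/
theorem isScalarTower_laurent
    (htower : ∀ c : k, algebraMap O (LaurentSeries k) (algebraMap k O c) = HahnSeries.C c) :
    @IsScalarTower k O (LaurentSeries k) _ _ Algebra.toSMul :=
  IsScalarTower.of_algebraMap_eq fun c => by rw [htower, H39.algebraMap_eq_C]

include p in
omit [CommRing D] [Algebra k D] [Algebra.FiniteType k D] [Algebra D O] [IsScalarTower k D O] in
/-- `θ s ≠ 0` for every uniformiser `s` of a DVR `O ⊆ k((t))` algebraic over `k(s₀)`,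
`θ = t d/dt`. -/
theorem thetaOp_uniformiser_ne_zero
    (htower : ∀ c : k, algebraMap O (LaurentSeries k) (algebraMap k O c) = HahnSeries.C c)
    (hinj : Function.Injective (algebraMap O (LaurentSeries k)))
    {s₀ : LaurentSeries k} (hs₀ : thetaOp s₀ ≠ 0)
    (hs₀mem : ∃ x y : O, s₀ = algebraMap O (LaurentSeries k) x / algebraMap O (LaurentSeries k) y)
    (halg : ∀ x : O, IsAlgebraic (↥k⟮s₀⟯) (algebraMap O (LaurentSeries k) x))
    {s : O} (hs : Irreducible s) : thetaOp (algebraMap O (LaurentSeries k) s) ≠ 0 := by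
  haveI := isScalarTower_laurent htower
  exact theta_uniformiser_ne_zero p H39.thetaDer hinj (hconst_thetaDer p) hs₀ hs₀mem halg hs

include p a in
/-- `d/ds` preserves `O = D_a ⊆ k((t))`: `θ x / θ s ∈ O` for `x ∈ O`, `s` a uniformiser. -/
theorem exists_algebraMap_eq_thetaOp_div
    (htower : ∀ c : k, algebraMap O (LaurentSeries k) (algebraMap k O c) = HahnSeries.C c)
    (hinj : Function.Injective (algebraMap O (LaurentSeries k)))
    {s₀ : LaurentSeries k} (hs₀ : thetaOp s₀ ≠ 0)
    (hs₀mem : ∃ x y : O, s₀ = algebraMap O (LaurentSeries k) x / algebraMap O (LaurentSeries k) y)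
    (halg : ∀ x : O, IsAlgebraic (↥k⟮s₀⟯) (algebraMap O (LaurentSeries k) x))
    (hres : Function.Surjective (algebraMap k (ResidueField O)))
    {s : O} (hs : Irreducible s) (x : O) :
    ∃ y : O, algebraMap O (LaurentSeries k) y =
      thetaOp (algebraMap O (LaurentSeries k) x) / thetaOp (algebraMap O (LaurentSeries k) s) := by
  haveI := isScalarTower_laurent htower
  exact exists_algebraMap_eq_theta_div p H39.thetaDer a hinj (hconst_thetaDer p) hs₀ hs₀mem halg
    (exists_sub_mem_of_surjective hres) hs x

include p a in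
/-- `H54.isUnit_of_ode` at `T := k((t))`, `θ := t d/dt`, `O = D_a` a DVR with residue field `k`,
with everything but `hode`, `hP`, `hrel` discharged. -/
theorem isUnit_of_ode_laurent
    (htower : ∀ c : k, algebraMap O (LaurentSeries k) (algebraMap k O c) = HahnSeries.C c)
    (hinj : Function.Injective (algebraMap O (LaurentSeries k)))
    {s₀ : LaurentSeries k} (hs₀ : thetaOp s₀ ≠ 0)
    (hs₀mem : ∃ x y : O, s₀ = algebraMap O (LaurentSeries k) x / algebraMap O (LaurentSeries k) y)
    (halg : ∀ x : O, IsAlgebraic (↥k⟮s₀⟯) (algebraMap O (LaurentSeries k) x))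
    (hres : Function.Surjective (algebraMap k (ResidueField O)))
    {s : O} (hs : Irreducible s)
    (δ P : LaurentSeries k) (ρ : O) (q : ℕ)
    (hode : thetaOp δ = thetaOp (algebraMap O (LaurentSeries k) s) * P -
      algebraMap O (LaurentSeries k) ρ ^ (q - 1) * thetaOp (algebraMap O (LaurentSeries k) ρ))
    (hP : ∃ p' ∈ maximalIdeal O, P * algebraMap O (LaurentSeries k) p' = 1)
    {y : O} (hy : Irreducible y) (R₀ : O)
    (hrel : δ * algebraMap O (LaurentSeries k) y = algebraMap O (LaurentSeries k) R₀) :
    IsUnit R₀ := by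
  haveI := isScalarTower_laurent htower
  exact isUnit_of_ode_dvr p H39.thetaDer a hinj (hconst_thetaDer p) hs₀ hs₀mem halg hres hs δ P ρ q
    hode hP hy R₀ hrel

end Laurent

end Fermat.Agent.S36.H26
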