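import Mathlib
import Fermat.Agent.S36.H26_OdeMemLoc
import Fermat.Agent.S36.H26_ThetaConst

/-!
# S36 (M2e): `hθs` and `hdel` of `H54.thickness_one_of_intrinsic` at `T := k((t))`, `θ := t d/dt`
(helper26)

`D` a Dedekind domain, finitely generated over a perfect field `k` of characteristic `p`
(`IsAlgClosed k` is enough), `[Algebra D (LaurentSeries k)]` injective with
`algebraMap D _ (algebraMap k D c) = C c` (the `t`-expansion), `j₀ : D` with `θ j₀ ≠ 0` and `D`
algebraic over `k(j₀)`, `𝔞` a maximal ideal with residue field `k`, `sb ∈ 𝔞 \ 𝔞 ^ 2`: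

* `thetaOp_ne_zero_and_memLoc` : `thetaOp sb ≠ 0 ∧ ∀ d, H54.MemLoc 𝔞 (thetaOp d / thetaOp sb)`,
  which is `hθs`, `hdel` of the contract for `θ := S28.H39.thetaDer` (`thetaDer x = thetaOp x` by
  `rfl`).
-/

set_option autoImplicit false
set_option linter.style.haveILetI false

namespace Fermat.Agent.S36.H26

open IsLocalRing IntermediateField ModularCurve Fermat.Agent.S28

variable {k D : Type*} [Field k] (p : ℕ) [Fact p.Prime] [CharP k p] [PerfectRing k p]
  [CommRing D] [IsDedekindDomain D] [Algebra k D] [Algebra.FiniteType k D]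
  [Algebra D (LaurentSeries k)]

include p in
/-- `hθs` and `hdel` of `H54.thickness_one_of_intrinsic` at `T := LaurentSeries k`,
`θ := S28.H39.thetaDer`. -/
theorem thetaOp_ne_zero_and_memLoc
    (htower : ∀ c : k, algebraMap D (LaurentSeries k) (algebraMap k D c) = HahnSeries.C c)
    (hinj : Function.Injective (algebraMap D (LaurentSeries k)))
    {j₀ : D} (hj₀ : thetaOp (algebraMap D (LaurentSeries k) j₀) ≠ 0)
    (halg : ∀ d : D, IsAlgebraic (↥k⟮algebraMap D (LaurentSeries k) j₀⟯)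
      (algebraMap D (LaurentSeries k) d))
    (𝔞 : Ideal D) [h𝔞 : 𝔞.IsMaximal] (h𝔞0 : 𝔞 ≠ ⊥)
    (hres : Function.Surjective (algebraMap k (D ⧸ 𝔞)))
    {sb : D} (hsb : sb ∈ 𝔞) (hsb2 : sb ∉ 𝔞 ^ 2) :
    thetaOp (algebraMap D (LaurentSeries k) sb) ≠ 0 ∧
      ∀ d : D, H54.MemLoc 𝔞 (thetaOp (algebraMap D (LaurentSeries k) d) /
        thetaOp (algebraMap D (LaurentSeries k) sb)) := by
  haveI : @IsScalarTower k D (LaurentSeries k) _ _ Algebra.toSMul :=
    IsScalarTower.of_algebraMap_eq fun c => by rw [htower, H39.algebraMap_eq_C]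
  exact theta_ne_zero_and_memLoc p H39.thetaDer hinj (hconst_thetaDer p) hj₀ halg 𝔞 h𝔞0 hres
    hsb hsb2

include p in
/-- The same, in the exact binder spelling of the contract (`θ := S28.H39.thetaDer`). -/
theorem thetaDer_ne_zero_and_memLoc
    (htower : ∀ c : k, algebraMap D (LaurentSeries k) (algebraMap k D c) = HahnSeries.C c)
    (hinj : Function.Injective (algebraMap D (LaurentSeries k)))
    {j₀ : D} (hj₀ : thetaOp (algebraMap D (LaurentSeries k) j₀) ≠ 0)
    (halg : ∀ d : D, IsAlgebraic (↥k⟮algebraMap D (LaurentSeries k) j₀⟯)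
      (algebraMap D (LaurentSeries k) d))
    (𝔞 : Ideal D) [h𝔞 : 𝔞.IsMaximal] (h𝔞0 : 𝔞 ≠ ⊥)
    (hres : Function.Surjective (algebraMap k (D ⧸ 𝔞)))
    {sb : D} (hsb : sb ∈ 𝔞) (hsb2 : sb ∉ 𝔞 ^ 2) :
    H39.thetaDer (algebraMap D (LaurentSeries k) sb) ≠ 0 ∧
      ∀ d : D, H54.MemLoc 𝔞 (H39.thetaDer (algebraMap D (LaurentSeries k) d) /
        H39.thetaDer (algebraMap D (LaurentSeries k) sb)) :=
  thetaOp_ne_zero_and_memLoc p htower hinj hj₀ halg 𝔞 h𝔞0 hres hsb hsb2

end Fermat.Agent.S36.H26
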