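import Mathlib
import Fermat.Agent.S34.H83_L1Inst
import Fermat.Agent.S36.H26_OdeMemLocLaurent

/-!
# S36 (M2e): `hθs` and `hdel` of the (M2e) contract for the REAL branch ring (helper26)

`k` algebraically closed of characteristic `p`, `Fk : IntermediateField k (LaurentSeries k)`
(`= modularFunctionFieldFullC kA M`), `w : Fk` transcendental with `Fk` finite separable over
`k(w)` (`w = j̄`), `D := integralClosure (Algebra.adjoin k {w}) Fk` the branch ring of
`S34.H83.TwoComponents` (`S34.H55.twoComponents_JK`).  All side conditions of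
`S36.H26.thetaDer_ne_zero_and_memLoc` are discharged:

* `surjective_algebraMap_quotient_of_isAlgClosed` : residue fields of closed points (Mathlib only);
* `isAlgebraic_adjoin_simple_map` : algebraicity over `k(w)` transported along `F →ₐ[k] T`;
* `finiteType_integralClosure_adjoin` : `Algebra.FiniteType k D` (from `S34.H83.fg_chartB`);
* `thetaDer_ne_zero_and_memLoc_branch` : for every maximal ideal `𝔞` of `D` and `sb ∈ 𝔞 \ 𝔞 ^ 2`:
  `θ sb ≠ 0 ∧ ∀ d : D, H54.MemLoc 𝔞 (θ d / θ sb)`, from `thetaOp w ≠ 0` ALONE.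
-/

set_option autoImplicit false
set_option linter.style.haveILetI false

namespace Fermat.Agent.S36.H26

open IsLocalRing IntermediateField Polynomial ModularCurve Fermat.Agent.S28 Fermat.Agent.S18

section Generic

/-- Closed points of a finite type algebra over an algebraically closed field have residue field
`k`. -/
theorem surjective_algebraMap_quotient_of_isAlgClosed {k D : Type*} [Field k] [IsAlgClosed k]
    [CommRing D] [Algebra k D] [Algebra.FiniteType k D] (𝔞 : Ideal D) [𝔞.IsMaximal] :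
    Function.Surjective (algebraMap k (D ⧸ 𝔞)) := by
  letI := Ideal.Quotient.field 𝔞
  haveI : Algebra.FiniteType k (D ⧸ 𝔞) :=
    Algebra.FiniteType.of_surjective (Ideal.Quotient.mkₐ k 𝔞) (Ideal.Quotient.mkₐ_surjective k 𝔞)
  haveI : Module.Finite k (D ⧸ 𝔞) := finite_of_finite_type_of_isJacobsonRing k (D ⧸ 𝔞)
  exact (IsAlgClosed.algebraMap_bijective_of_isIntegral).2

/-- Algebraicity over `k(w)` is transported along a `k`-algebra map of fields. -/
theorem isAlgebraic_adjoin_simple_map {k F T : Type*} [Field k] [Field F] [Field T] [Algebra k F]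
    [Algebra k T] (φ : F →ₐ[k] T) {w x : F} (h : IsAlgebraic (↥k⟮w⟯) x) :
    IsAlgebraic (↥k⟮φ w⟯) (φ x) := by
  obtain ⟨P, hP0, hP⟩ := h
  have hmem : ∀ y : ↥k⟮w⟯, φ (y : F) ∈ k⟮φ w⟯ := by
    intro y
    have h1 : φ (y : F) ∈ (k⟮w⟯).map φ := ⟨y, y.2, rfl⟩
    rwa [IntermediateField.adjoin_map, Set.image_singleton] at h1
  let g : (↥k⟮w⟯) →+* (↥k⟮φ w⟯) :=
    (φ.toRingHom.comp (algebraMap (↥k⟮w⟯) F)).codRestrict k⟮φ w⟯ hmem
  refine ⟨P.map g, (Polynomial.map_ne_zero_iff g.injective).2 hP0, ?_⟩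
  have hcomp : (algebraMap (↥k⟮φ w⟯) T).comp g = φ.toRingHom.comp (algebraMap (↥k⟮w⟯) F) := by
    ext y
    rfl
  have h2 := Polynomial.hom_eval₂ P (algebraMap (↥k⟮w⟯) F) (φ : F →+* T) x
  rw [aeval_def] at hP
  rw [hP, map_zero] at h2
  rw [aeval_def, eval₂_map, hcomp]
  exact h2.symm

end Generic

section Branch

variable {k Fk : Type*} [Field k] [Field Fk] [Algebra k Fk] (w : Fk)

/-- The branch ring is a `k`-algebra of finite type. -/
theorem finiteType_integralClosure_adjoin (hw : Transcendental k w)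
    [FiniteDimensional (↥k⟮w⟯) Fk] [Algebra.IsSeparable (↥k⟮w⟯) Fk] :
    Algebra.FiniteType k ↥(integralClosure (Algebra.adjoin k {w}) Fk) := by
  have h1 : Algebra.FiniteType k ↥(H40.chartB k w) :=
    S34.H83.finiteType_chartB (R := k) (K := k) w hw
  let e : ↥(H40.chartB k w) ≃ₐ[k] ↥(integralClosure (Algebra.adjoin k {w}) Fk) :=
    { toFun := fun x => ⟨x.1, x.2⟩
      invFun := fun x => ⟨x.1, x.2⟩
      left_inv := fun _ => rfl
      right_inv := fun _ => rfl
      map_mul' := fun _ _ => rfl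
      map_add' := fun _ _ => rfl
      commutes' := fun _ => rfl }
  exact Algebra.FiniteType.equiv h1 e

end Branch

section BranchLaurent

variable {k Fk : Type*} [Field k] [IsAlgClosed k] (p : ℕ) [Fact p.Prime] [CharP k p]
  [Field Fk] [Algebra k Fk] (φ : Fk →ₐ[k] LaurentSeries k) (w : Fk)

include p in
/-- **`hθs` and `hdel` of the (M2e) contract at the real branch ring.**
`Fk` a field with a `k`-embedding `φ` into `k((t))` (`Fk := ↥(modularFunctionFieldFullC kA M)`,
`φ := (modularFunctionFieldFullC kA M).val`), finite separable over `k(w)`, `thetaOp (φ w) ≠ 0`;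
`D := integralClosure k[w] in Fk` with any algebra structure `D → k((t))` which is `φ` (`hcoe`).
For every maximal ideal `𝔞` of `D` and every `sb ∈ 𝔞 \ 𝔞 ^ 2`: `θ sb ≠ 0` and `θ d / θ sb ∈ D_𝔞`
for all `d ∈ D`. -/
theorem thetaDer_ne_zero_and_memLoc_branch (hw : Transcendental k w)
    [FiniteDimensional (↥k⟮w⟯) Fk] [Algebra.IsSeparable (↥k⟮w⟯) Fk]
    [Algebra ↥(integralClosure (Algebra.adjoin k {w}) Fk) (LaurentSeries k)]
    (hcoe : ∀ d : ↥(integralClosure (Algebra.adjoin k {w}) Fk),
      algebraMap ↥(integralClosure (Algebra.adjoin k {w}) Fk) (LaurentSeries k) d = φ (d : Fk))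
    (hθw : thetaOp (φ w) ≠ 0)
    (𝔞 : Ideal ↥(integralClosure (Algebra.adjoin k {w}) Fk)) [h𝔞 : 𝔞.IsMaximal]
    {sb : ↥(integralClosure (Algebra.adjoin k {w}) Fk)} (hsb : sb ∈ 𝔞) (hsb2 : sb ∉ 𝔞 ^ 2) :
    H39.thetaDer (algebraMap ↥(integralClosure (Algebra.adjoin k {w}) Fk) (LaurentSeries k) sb) ≠ 0
      ∧ ∀ d : ↥(integralClosure (Algebra.adjoin k {w}) Fk),
        H54.MemLoc 𝔞 (H39.thetaDer
            (algebraMap ↥(integralClosure (Algebra.adjoin k {w}) Fk) (LaurentSeries k) d) /
          H39.thetaDer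
            (algebraMap ↥(integralClosure (Algebra.adjoin k {w}) Fk) (LaurentSeries k) sb)) := by
  haveI : IsDedekindDomain ↥(integralClosure (Algebra.adjoin k {w}) Fk) :=
    S18.H97.isDedekindDomain_intRing_of_isSeparable w hw
  haveI : Algebra.FiniteType k ↥(integralClosure (Algebra.adjoin k {w}) Fk) :=
    finiteType_integralClosure_adjoin w hw
  have hwmem : w ∈ integralClosure (Algebra.adjoin k {w}) Fk :=
    H40.self_mem_chartB (R := k) w
  have htower : ∀ c : k, algebraMap ↥(integralClosure (Algebra.adjoin k {w}) Fk)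
      (LaurentSeries k) (algebraMap k ↥(integralClosure (Algebra.adjoin k {w}) Fk) c) =
        HahnSeries.C c := by
    intro c
    have h1 : ((algebraMap k ↥(integralClosure (Algebra.adjoin k {w}) Fk) c :
        ↥(integralClosure (Algebra.adjoin k {w}) Fk)) : Fk) = algebraMap k Fk c := rfl
    rw [hcoe, h1]
    exact (φ.commutes c).trans (H39.algebraMap_eq_C c)
  have hinj : Function.Injective
      (algebraMap ↥(integralClosure (Algebra.adjoin k {w}) Fk) (LaurentSeries k)) := by
    intro x y hxy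
    rw [hcoe, hcoe] at hxy
    exact Subtype.ext (φ.injective hxy)
  have hj₀ : thetaOp (algebraMap ↥(integralClosure (Algebra.adjoin k {w}) Fk)
      (LaurentSeries k) ⟨w, hwmem⟩) ≠ 0 := by
    rw [hcoe]
    exact hθw
  have halg : ∀ d : ↥(integralClosure (Algebra.adjoin k {w}) Fk),
      IsAlgebraic (↥k⟮algebraMap ↥(integralClosure (Algebra.adjoin k {w}) Fk)
        (LaurentSeries k) ⟨w, hwmem⟩⟯)
        (algebraMap ↥(integralClosure (Algebra.adjoin k {w}) Fk) (LaurentSeries k) d) := by
    intro d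
    rw [hcoe, hcoe]
    exact isAlgebraic_adjoin_simple_map φ
      (Algebra.IsAlgebraic.isAlgebraic (R := ↥k⟮w⟯) (d : Fk))
  have h𝔞0 : 𝔞 ≠ ⊥ :=
    Ring.ne_bot_of_isMaximal_of_not_isField h𝔞
      (S34.H83.not_isField_integralClosure_adjoin w hw)
  exact thetaDer_ne_zero_and_memLoc p htower hinj hj₀ halg 𝔞 h𝔞0
    (surjective_algebraMap_quotient_of_isAlgClosed 𝔞) hsb hsb2

end BranchLaurent

end Fermat.Agent.S36.H26
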