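import Mathlib
import Fermat.Agent.S36.H26_BranchRing

/-!
# S36 (M2e): `H26_BranchRing` with the uniformiser hypothesis in ELEMENTARY form (helper26)

At the real types the unification of two spellings of `sb ∉ 𝔠 ^ 2` (the `Monoid (Ideal D)` instance
built from two different but defeq `CommRing D` instance paths) costs minutes.  Here the hypothesis
"`sb` is a uniformiser at `𝔠`" is taken in the elementary form
`hgen : ∀ w ∈ 𝔠, ∃ t e, t ∉ 𝔠 ∧ t * w = e * sb` (only `*` and `∈`), which the caller derives from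
`sb ∉ 𝔠 ^ 2` with `S34.H83.exists_mul_mem_span_of_not_mem_sq` in HIS OWN instance context.

* `not_mem_sq_of_gen` : `hgen` ⟹ `sb ∉ 𝔠 ^ 2` (Dedekind, `𝔠` maximal, `𝔠 ≠ ⊥`);
* `thetaDer_ne_zero_and_memLoc_branch_gen` : `thetaDer_ne_zero_and_memLoc_branch` with `hgen`.
-/

set_option autoImplicit false
set_option linter.style.haveILetI false

namespace Fermat.Agent.S36.H26

open IsLocalRing IntermediateField Polynomial ModularCurve Fermat.Agent.S28 Fermat.Agent.S18

/-- An element generating a nonzero maximal ideal `𝔠` of a Dedekind domain locally at `𝔠` is not in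
`𝔠 ^ 2`. -/
theorem not_mem_sq_of_gen {D : Type*} [CommRing D] [IsDedekindDomain D] (𝔠 : Ideal D)
    [h𝔠 : 𝔠.IsMaximal] (h0 : 𝔠 ≠ ⊥) {sb : D}
    (hgen : ∀ w ∈ 𝔠, ∃ t e : D, t ∉ 𝔠 ∧ t * w = e * sb) : sb ∉ 𝔠 ^ 2 := by
  intro hsb
  obtain ⟨θ, hθ, hθ2⟩ := S34.H83.exists_mem_not_mem_sq h𝔠.isPrime h0
  obtain ⟨t, e, ht, hte⟩ := hgen θ hθ
  apply hθ2
  -- `a * t + b = 1` with `b ∈ 𝔠`
  obtain ⟨a, b, hb, hab⟩ := h𝔠.exists_inv ht
  have h3 : θ = a * (t * θ) + b * θ := by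
    calc θ = (a * t + b) * θ := by rw [hab, one_mul]
      _ = a * (t * θ) + b * θ := by ring
  rw [h3, hte]
  refine Ideal.add_mem _ (Ideal.mul_mem_left _ _ (Ideal.mul_mem_left _ _ hsb)) ?_
  rw [pow_two]
  exact Ideal.mul_mem_mul hb hθ

section BranchLaurent

variable {k Fk : Type*} [Field k] [IsAlgClosed k] (p : ℕ) [Fact p.Prime] [CharP k p]
  [Field Fk] [Algebra k Fk] (φ : Fk →ₐ[k] LaurentSeries k) (w : Fk)

include p in
/-- `thetaDer_ne_zero_and_memLoc_branch` with the uniformiser hypothesis in elementary form. -/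
theorem thetaDer_ne_zero_and_memLoc_branch_gen (hw : Transcendental k w)
    [FiniteDimensional (↥k⟮w⟯) Fk] [Algebra.IsSeparable (↥k⟮w⟯) Fk]
    [Algebra ↥(integralClosure (Algebra.adjoin k {w}) Fk) (LaurentSeries k)]
    (hcoe : ∀ d : ↥(integralClosure (Algebra.adjoin k {w}) Fk),
      algebraMap ↥(integralClosure (Algebra.adjoin k {w}) Fk) (LaurentSeries k) d = φ (d : Fk))
    (hθw : thetaOp (φ w) ≠ 0)
    (𝔞 : Ideal ↥(integralClosure (Algebra.adjoin k {w}) Fk)) [h𝔞 : 𝔞.IsMaximal]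
    {sb : ↥(integralClosure (Algebra.adjoin k {w}) Fk)} (hsb : sb ∈ 𝔞)
    (hgen : ∀ x ∈ 𝔞, ∃ t e : ↥(integralClosure (Algebra.adjoin k {w}) Fk),
      t ∉ 𝔞 ∧ t * x = e * sb) :
    H39.thetaDer (algebraMap ↥(integralClosure (Algebra.adjoin k {w}) Fk) (LaurentSeries k) sb) ≠ 0
      ∧ ∀ d : ↥(integralClosure (Algebra.adjoin k {w}) Fk),
        H54.MemLoc 𝔞 (H39.thetaDer
            (algebraMap ↥(integralClosure (Algebra.adjoin k {w}) Fk) (LaurentSeries k) d) /
          H39.thetaDer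
            (algebraMap ↥(integralClosure (Algebra.adjoin k {w}) Fk) (LaurentSeries k) sb)) := by
  haveI : IsDedekindDomain ↥(integralClosure (Algebra.adjoin k {w}) Fk) :=
    S18.H97.isDedekindDomain_intRing_of_isSeparable w hw
  have h𝔞0 : 𝔞 ≠ ⊥ :=
    Ring.ne_bot_of_isMaximal_of_not_isField h𝔞
      (S34.H83.not_isField_integralClosure_adjoin w hw)
  exact thetaDer_ne_zero_and_memLoc_branch p φ w hw hcoe hθw 𝔞 hsb
    (not_mem_sq_of_gen 𝔞 h𝔞0 hgen)

end BranchLaurent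

end Fermat.Agent.S36.H26
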