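import Mathlib
import Fermat.Agent.S18.H16_FkInst
import Fermat.Agent.S36.H26_BranchRingGen
import Fermat.Agent.S36.H54_M2eSetup

/-!
# S36 (M2e), leaf (R-del) (helper26): `H54.HdelReal M A`

`Hdel` of `H54.exists_pair_of_crossing` at the real types of helper54's `S36/H54_M2eSetup`:
`D1 = integralClosure kA[j̄] Fk(M)`, `T = kA((t))` with the synthesised algebra structure,
`θ = S28.H39.thetaDer`.  For every maximal ideal `𝔠` of `D1` and every `sb ∈ 𝔠 \ 𝔠 ^ 2`:
`θ sb ≠ 0` and `θ d / θ sb ∈ (D1)_𝔠` for all `d ∈ D1`.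

One application of `S36.H26.thetaDer_ne_zero_and_memLoc_branch` (file `S36/H26_BranchRing`) with
`Fk := ↥(modularFunctionFieldFullC kA M)`, `φ := (modularFunctionFieldFullC kA M).val`,
`w := j̄ = S18.H16.jK kA M`; `thetaOp j̄ ≠ 0` from `S28.H39.thetaOp_Jconj_ne_zero`.
-/

set_option autoImplicit false
set_option linter.unusedSectionVars false
set_option linter.style.haveILetI false
set_option synthInstance.maxHeartbeats 400000
set_option maxHeartbeats 3200000

noncomputable section

namespace Fermat.Agent.S36.H26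

open ModularCurve IntermediateField Fermat.Agent.S28 Fermat.Agent.S18

local notation "Qbar" => AlgebraicClosure ℚ

variable (M : ℕ) [NeZero M] {ℓ : ℕ} [hℓ : Fact ℓ.Prime] (hℓM : ¬ ℓ ∣ M)
  (A : ValuationSubring Qbar) (hA : A.LiesOverPrime ℓ)

/-- `θ j̄ ≠ 0` in `k((t))` (any nontrivial commutative ring `k`). -/
theorem thetaOp_jqModC_ne_zero (k : Type*) [CommRing k] [Nontrivial k] :
    thetaOp (jqModC k) ≠ 0 := by
  rw [← H39.Jconj_one_one]
  exact H39.thetaOp_Jconj_ne_zero 1 1 (by simp)

include hℓM hA in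
/-- **(R-del)**: `Hdel` at the real types. -/
theorem hdelReal : H54.HdelReal M A := by
  intro 𝔠 h𝔠 sb hsb hsb2
  haveI := h𝔠
  haveI := H16.charP_k A hA
  haveI := H16.isAlgClosed_k A
  haveI := H16.finiteDimensional_Fk M hℓM A hA
  haveI := H16.isSeparable_Fk M hℓM A hA
  have htr := H16.transcendental_jk M A
  haveI hDed : IsDedekindDomain ↥(integralClosure (Algebra.adjoin (IsLocalRing.ResidueField A)
      {H16.jK (IsLocalRing.ResidueField A) M})
      ↥(modularFunctionFieldFullC (IsLocalRing.ResidueField A) M)) :=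
    S18.H97.isDedekindDomain_intRing_of_isSeparable (H16.jK (IsLocalRing.ResidueField A) M) htr
  -- the uniformiser hypothesis in elementary form, in the instance context of `HdelReal`
  have hgen : ∀ x ∈ 𝔠, ∃ t e : ↥(integralClosure (Algebra.adjoin (IsLocalRing.ResidueField A)
      {H16.jK (IsLocalRing.ResidueField A) M})
      ↥(modularFunctionFieldFullC (IsLocalRing.ResidueField A) M)), t ∉ 𝔠 ∧ t * x = e * sb := by
    intro x hx
    obtain ⟨t, ht, htx⟩ := S34.H83.exists_mul_mem_span_of_not_mem_sq h𝔠.isPrime hsb hsb2 hx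
    obtain ⟨e, he⟩ := Ideal.mem_span_singleton'.1 htx
    exact ⟨t, e, ht, he.symm⟩
  have hθ : thetaOp ((modularFunctionFieldFullC (IsLocalRing.ResidueField A) M).val
      (H16.jK (IsLocalRing.ResidueField A) M)) ≠ 0 :=
    thetaOp_jqModC_ne_zero (IsLocalRing.ResidueField A)
  exact thetaDer_ne_zero_and_memLoc_branch_gen ℓ
    (modularFunctionFieldFullC (IsLocalRing.ResidueField A) M).val
    (H16.jK (IsLocalRing.ResidueField A) M) htr (fun _ => rfl) hθ 𝔠 hsb hgen

end Fermat.Agent.S36.H26
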