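import Mathlib
import Fermat.Agent.S36.H54_M2eTC
import Fermat.Agent.S36.H62_PrincipalAll
import Fermat.Agent.S36.H84_PointClass
import Fermat.Agent.S35.H70_TwoComponentsBCPkg

/-!
# S36 / (M2e), helper27: (R-E) = the REAL second package of `H54.regular_of_transfer`

`B = chartB A₁ (JN M)` (chart 1 of level `(M, ℓ)` over `A₁ = A0 A ℓ`),
`B'' = chartB (cutOver A E) (JK ↥E (ℓ * M) ℓ _)`, `φ = S34.H95.chartBC_JK`, and ANY `E`-level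
package `red₁'' red₂''` in the output shape of `S35.H70.exists_twoComponentsE_JK`.

* `regularCrossings_of_unfolded`, `nodeGen_of_unfolded` : the unfolded output of
  `H54.regular_of_transfer` is `H62.RegularCrossings` and `H84.NodeGen`.
* `exists_unit_natCast_eq_mul` : `ℓ = π * unit` in `cutOver A E` when `𝔪 = (ℓ)` ((D1b)).
* `chartBC_JK_natCast` : `φ ℓ = π * u`, `u` a unit of `B''`.
* `regular_cutOver` : the unfolded output at every crossing point of `B''` from the four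
  real-types inputs `Hdel Hode HAs HOm` (+ `Hcusp`) of helper54's `H54_M2eTC`;
  `regularCrossings_cutOver'`, `nodeGen_cutOver` : the two end shapes.
-/

set_option autoImplicit false
set_option linter.unusedSectionVars false
set_option linter.style.haveILetI false
set_option synthInstance.maxHeartbeats 400000
set_option maxHeartbeats 3200000

noncomputable section

namespace Fermat.Agent.S36.H27

open ModularCurve IsLocalRing IntermediateField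
open Fermat.Agent.S18 Fermat.Agent.CA Fermat.Agent.S34 Fermat.Agent.S34.H83 Fermat.Agent.S36

/-! ### The two end shapes from the unfolded output -/

section Shapes

variable {B'' D : Type*} [CommRing B''] [CommRing D] {red₁'' red₂'' : B'' →+* D} {qB'' : B''}

/-- the unfolded output of `H54.regular_of_transfer` at every crossing point is
`H62.RegularCrossings`. -/
theorem regularCrossings_of_unfolded
    (h : ∀ n'' : Ideal B'', n''.IsMaximal → RingHom.ker red₁'' ≤ n'' → RingHom.ker red₂'' ≤ n'' →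
      ∃ x y R₀ : B'', red₁'' x = 0 ∧ red₂'' x ≠ 0 ∧ red₂'' y = 0 ∧ red₁'' y ≠ 0 ∧
        x * y = qB'' * R₀ ∧ R₀ ∉ n'' ∧
        (∀ z ∈ n'', ∃ t : B'', t ∉ n'' ∧ t * z ∈ Ideal.span {x, y}) ∧
        (∀ z : B'', red₁'' z = 0 → ∃ t : B'', t ∉ n'' ∧ t * z ∈ Ideal.span {x}) ∧
        (∀ z : B'', red₂'' z = 0 → ∃ t : B'', t ∉ n'' ∧ t * z ∈ Ideal.span {y})) :
    H62.RegularCrossings red₁'' red₂'' := by
  intro n'' hn'' hk₁ hk₂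
  obtain ⟨x, y, R₀, hx₁, hx₂, hy₂, hy₁, -, -, -, hP₁, hP₂⟩ := h n'' hn'' hk₁ hk₂
  exact ⟨⟨x, hx₁, hx₂, fun z hz => hP₁ z ((RingHom.mem_ker).1 hz)⟩,
    ⟨y, hy₂, hy₁, fun z hz => hP₂ z ((RingHom.mem_ker).1 hz)⟩⟩

/-- the unfolded output of `H54.regular_of_transfer` at every crossing point is `H84.NodeGen`. -/
theorem nodeGen_of_unfolded
    (h : ∀ n'' : Ideal B'', n''.IsMaximal → RingHom.ker red₁'' ≤ n'' → RingHom.ker red₂'' ≤ n'' →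
      ∃ x y R₀ : B'', red₁'' x = 0 ∧ red₂'' x ≠ 0 ∧ red₂'' y = 0 ∧ red₁'' y ≠ 0 ∧
        x * y = qB'' * R₀ ∧ R₀ ∉ n'' ∧
        (∀ z ∈ n'', ∃ t : B'', t ∉ n'' ∧ t * z ∈ Ideal.span {x, y}) ∧
        (∀ z : B'', red₁'' z = 0 → ∃ t : B'', t ∉ n'' ∧ t * z ∈ Ideal.span {x}) ∧
        (∀ z : B'', red₂'' z = 0 → ∃ t : B'', t ∉ n'' ∧ t * z ∈ Ideal.span {y})) :
    H84.NodeGen red₁'' red₂'' := by
  intro n'' hn'' hk₁ hk₂
  obtain ⟨x, y, R₀, hx₁, hx₂, hy₂, hy₁, -, -, -, hP₁, hP₂⟩ := h n'' hn'' hk₁ hk₂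
  exact ⟨⟨y, hy₁, hy₂, hP₂⟩, ⟨x, hx₂, hx₁, hP₁⟩⟩

end Shapes

/-! ### The real second package -/

local notation "Qbar" => AlgebraicClosure ℚ

variable (M : ℕ) [NeZero M] {ℓ : ℕ} [hℓ : Fact ℓ.Prime] (hℓM : ¬ ℓ ∣ M)
  (A : ValuationSubring Qbar) (hA : A.LiesOverPrime ℓ)
  (E : IntermediateField (H45.unrCyclo ℓ) Qbar) [FiniteDimensional (H45.unrCyclo ℓ) E]
  (π : ↥(H45.cutOver A E)) (hπ : maximalIdeal ↥(H45.cutOver A E) = Ideal.span {π})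

local notation "A₁" => H45.A0 A ℓ
local notation "L₁" => H45.unrCyclo ℓ

include hπ in
/-- `ℓ = π * unit` in `cutOver A E` when `cutOver A E` is unramified over `ℤ_(ℓ)`
(`hunr` = helper45's `S36.H45.maximalIdeal_cutOver_eq_span_natCast_of_fixed`). -/
theorem exists_unit_natCast_eq_mul
    (hunr : maximalIdeal ↥(H45.cutOver A E) = Ideal.span {((ℓ : ℕ) : ↥(H45.cutOver A E))}) :
    ∃ u₀ : (↥(H45.cutOver A E))ˣ, ((ℓ : ℕ) : ↥(H45.cutOver A E)) = π * (u₀ : ↥(H45.cutOver A E)) := by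
  have h : Ideal.span {π} = Ideal.span {((ℓ : ℕ) : ↥(H45.cutOver A E))} := hπ.symm.trans hunr
  obtain ⟨u₀, hu₀⟩ := Ideal.span_singleton_eq_span_singleton.1 h
  exact ⟨u₀, hu₀.symm⟩

/-- the base change of chart 1 maps `ℓ` to `π * u`, `u` a unit. -/
theorem chartBC_JK_natCast (u₀ : (↥(H45.cutOver A E))ˣ)
    (hu₀ : ((ℓ : ℕ) : ↥(H45.cutOver A E)) = π * (u₀ : ↥(H45.cutOver A E))) :
    H95.chartBC_JK (A := A) E (ℓ * M) ℓ (Dvd.intro M rfl)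
        (algebraMap A₁ ↥(H40.chartB A₁ (H55.JN M (ℓ := ℓ))) ((ℓ : ℕ) : A₁)) =
      algebraMap ↥(H45.cutOver A E)
          ↥(H40.chartB ↥(H45.cutOver A E) (H95.JK ↥E (ℓ * M) ℓ (Dvd.intro M rfl))) π *
        algebraMap ↥(H45.cutOver A E)
          ↥(H40.chartB ↥(H45.cutOver A E) (H95.JK ↥E (ℓ * M) ℓ (Dvd.intro M rfl)))
          (u₀ : ↥(H45.cutOver A E)) := by
  have h1 := H95.chartBC_algebraMap (A := A) E (ℓ * M) (H55.JN M (ℓ := ℓ))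
    (H95.JK ↥E (ℓ * M) ℓ (Dvd.intro M rfl)) (H95.baseChangeE_JK E (ℓ * M) ℓ (Dvd.intro M rfl))
    ((ℓ : ℕ) : A₁)
  have h2 : algebraMap A₁ ↥(H45.cutOver A E) ((ℓ : ℕ) : A₁) =
      ((ℓ : ℕ) : ↥(H45.cutOver A E)) := map_natCast _ _
  rw [h2, hu₀, map_mul] at h1
  exact h1

section Main

variable {D BM T k : Type*} [CommRing D] [IsDedekindDomain D] [CommRing BM] [Field T]
  [Algebra D T] [CommRing k] [Algebra k T]

/-- **(R-E): `H54.regular_of_transfer` at the real second package.**  `TC` the `A₁`-level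
package on chart 1, `TC''` ANY `E`-level package on the `cutOver A E`-chart in the output shape
of `S35.H70.exists_twoComponentsE_JK` (only `hred₁ hred₂ hinf` of `TC''` are used), `cutOver A E`
unramified. -/
theorem regular_cutOver_of_unit
    {red₁ red₂ : ↥(H40.chartB A₁ (H55.JN M (ℓ := ℓ))) →+* D}
    {ι V : BM →+* ↥(H40.chartB A₁ (H55.JN M (ℓ := ℓ)))}
    {rbar : BM →+* D} {W : D →+* D} {q : ℕ}
    {red₁'' red₂'' : ↥(H40.chartB ↥(H45.cutOver A E)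
      (H95.JK ↥E (ℓ * M) ℓ (Dvd.intro M rfl))) →+* D}
    (u₀ : (↥(H45.cutOver A E))ˣ)
    (hu₀ : ((ℓ : ℕ) : ↥(H45.cutOver A E)) = π * (u₀ : ↥(H45.cutOver A E)))
    (TC : TwoComponents red₁ red₂ ι V rbar W q
      (algebraMap A₁ ↥(H40.chartB A₁ (H55.JN M (ℓ := ℓ))) ((ℓ : ℕ) : A₁)))
    (hq : 2 ≤ q) (hD : ¬ IsField D)
    (hinj : Function.Injective (algebraMap D T))
    (W_T : T →+* T) (hWT : ∀ d : D, W_T (algebraMap D T d) = algebraMap D T (W d))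
    (θ : Derivation k T T) (Δb : T) (ψ₀ : BM)
    (Hdel : ∀ (𝔠 : Ideal D), 𝔠.IsMaximal → ∀ sb : D, sb ∈ 𝔠 → sb ∉ 𝔠 ^ 2 →
      θ (algebraMap D T sb) ≠ 0 ∧
        ∀ d : D, H54.MemLoc 𝔠 (θ (algebraMap D T d) / θ (algebraMap D T sb)))
    (Hode : ∀ (s s₁ : BM) (y R₀ : ↥(H40.chartB A₁ (H55.JN M (ℓ := ℓ)))),
      rbar s₁ ^ q = W (rbar s) →
      (V s - ι s₁ ^ q) * y =
        algebraMap A₁ ↥(H40.chartB A₁ (H55.JN M (ℓ := ℓ))) ((ℓ : ℕ) : A₁) * R₀ →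
      ∃ δ : T, δ * algebraMap D T (red₁ y) = algebraMap D T (red₁ R₀) ∧
        θ δ = W_T (θ (algebraMap D T (rbar s))) -
          algebraMap D T (rbar s₁) ^ (q - 1) * θ (algebraMap D T (rbar s₁)))
    (HAs : ∀ (𝔠 : Ideal D), 𝔠.IsMaximal → ∀ sb : D, sb ∈ 𝔠 → sb ∉ 𝔠 ^ 2 → rbar ψ₀ ∉ 𝔠 →
      ∃ cn cd : D, cn ∉ 𝔠 ∧ cd ∉ 𝔠 ∧
        θ (algebraMap D T sb) ^ 6 * algebraMap D T cd = Δb * algebraMap D T cn)
    (HOm : ∃ Ω : ↥(H40.chartB A₁ (H55.JN M (ℓ := ℓ))),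
      red₂ Ω = 0 ∧ W_T Δb * algebraMap D T (red₁ Ω) = Δb)
    (Hcusp : ∀ n : Ideal ↥(H40.chartB A₁ (H55.JN M (ℓ := ℓ))), n ≠ ⊤ →
      RingHom.ker red₁ ≤ n → RingHom.ker red₂ ≤ n → ι ψ₀ ∉ n ∧ V ψ₀ ∉ n)
    (hφ₁ : ∀ b, red₁'' (H95.chartBC_JK (A := A) E (ℓ * M) ℓ (Dvd.intro M rfl) b) = red₁ b)
    (hφ₂ : ∀ b, red₂'' (H95.chartBC_JK (A := A) E (ℓ * M) ℓ (Dvd.intro M rfl) b) = red₂ b)
    {ι'' V'' : BM →+* ↥(H40.chartB ↥(H45.cutOver A E)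
      (H95.JK ↥E (ℓ * M) ℓ (Dvd.intro M rfl)))}
    (TC'' : TwoComponents red₁'' red₂'' ι'' V'' rbar W q
      (algebraMap ↥(H45.cutOver A E)
        ↥(H40.chartB ↥(H45.cutOver A E) (H95.JK ↥E (ℓ * M) ℓ (Dvd.intro M rfl))) π))
    (n'' : Ideal ↥(H40.chartB ↥(H45.cutOver A E) (H95.JK ↥E (ℓ * M) ℓ (Dvd.intro M rfl))))
    (hn'' : n''.IsMaximal)
    (hk₁ : RingHom.ker red₁'' ≤ n'') (hk₂ : RingHom.ker red₂'' ≤ n'') :
    ∃ x y R₀ : ↥(H40.chartB ↥(H45.cutOver A E) (H95.JK ↥E (ℓ * M) ℓ (Dvd.intro M rfl))),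
      red₁'' x = 0 ∧ red₂'' x ≠ 0 ∧ red₂'' y = 0 ∧ red₁'' y ≠ 0 ∧
      x * y = algebraMap ↥(H45.cutOver A E)
        ↥(H40.chartB ↥(H45.cutOver A E) (H95.JK ↥E (ℓ * M) ℓ (Dvd.intro M rfl))) π * R₀ ∧
      R₀ ∉ n'' ∧
      (∀ z ∈ n'', ∃ t, t ∉ n'' ∧ t * z ∈ Ideal.span {x, y}) ∧
      (∀ z, red₁'' z = 0 → ∃ t, t ∉ n'' ∧ t * z ∈ Ideal.span {x}) ∧
      (∀ z, red₂'' z = 0 → ∃ t, t ∉ n'' ∧ t * z ∈ Ideal.span {y}) :=
  H54.regular_of_transfer (B := ↥(H40.chartB A₁ (H55.JN M (ℓ := ℓ))))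
    (B'' := ↥(H40.chartB ↥(H45.cutOver A E) (H95.JK ↥E (ℓ * M) ℓ (Dvd.intro M rfl))))
    (red₁ := red₁) (red₂ := red₂) (red₁'' := red₁'') (red₂'' := red₂'')
    (qB'' := algebraMap ↥(H45.cutOver A E)
      ↥(H40.chartB ↥(H45.cutOver A E) (H95.JK ↥E (ℓ * M) ℓ (Dvd.intro M rfl))) π)
    TC hq hD hinj W_T hWT θ Δb ψ₀ Hdel Hode HAs HOm Hcusp
    TC''.hred₁ TC''.hred₂ TC''.hinf
    (H95.chartBC_JK (A := A) E (ℓ * M) ℓ (Dvd.intro M rfl)) hφ₁ hφ₂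
    (algebraMap ↥(H45.cutOver A E)
      ↥(H40.chartB ↥(H45.cutOver A E) (H95.JK ↥E (ℓ * M) ℓ (Dvd.intro M rfl)))
      (u₀ : ↥(H45.cutOver A E)))
    (u₀.isUnit.map _) (chartBC_JK_natCast M A E π u₀ hu₀) n'' hn'' hk₁ hk₂

include hπ in
/-- **(R-E), the two END SHAPES of (M2) on the `cutOver A E`-chart 1** (`cutOver A E` unramified:
`hunr` = helper45's (D1b)). -/
theorem regularCrossings_nodeGen_cutOver
    {red₁ red₂ : ↥(H40.chartB A₁ (H55.JN M (ℓ := ℓ))) →+* D}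
    {ι V : BM →+* ↥(H40.chartB A₁ (H55.JN M (ℓ := ℓ)))}
    {rbar : BM →+* D} {W : D →+* D} {q : ℕ}
    {red₁'' red₂'' : ↥(H40.chartB ↥(H45.cutOver A E)
      (H95.JK ↥E (ℓ * M) ℓ (Dvd.intro M rfl))) →+* D}
    (hunr : maximalIdeal ↥(H45.cutOver A E) = Ideal.span {((ℓ : ℕ) : ↥(H45.cutOver A E))})
    (TC : TwoComponents red₁ red₂ ι V rbar W q
      (algebraMap A₁ ↥(H40.chartB A₁ (H55.JN M (ℓ := ℓ))) ((ℓ : ℕ) : A₁)))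
    (hq : 2 ≤ q) (hD : ¬ IsField D)
    (hinj : Function.Injective (algebraMap D T))
    (W_T : T →+* T) (hWT : ∀ d : D, W_T (algebraMap D T d) = algebraMap D T (W d))
    (θ : Derivation k T T) (Δb : T) (ψ₀ : BM)
    (Hdel : ∀ (𝔠 : Ideal D), 𝔠.IsMaximal → ∀ sb : D, sb ∈ 𝔠 → sb ∉ 𝔠 ^ 2 →
      θ (algebraMap D T sb) ≠ 0 ∧
        ∀ d : D, H54.MemLoc 𝔠 (θ (algebraMap D T d) / θ (algebraMap D T sb)))
    (Hode : ∀ (s s₁ : BM) (y R₀ : ↥(H40.chartB A₁ (H55.JN M (ℓ := ℓ)))),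
      rbar s₁ ^ q = W (rbar s) →
      (V s - ι s₁ ^ q) * y =
        algebraMap A₁ ↥(H40.chartB A₁ (H55.JN M (ℓ := ℓ))) ((ℓ : ℕ) : A₁) * R₀ →
      ∃ δ : T, δ * algebraMap D T (red₁ y) = algebraMap D T (red₁ R₀) ∧
        θ δ = W_T (θ (algebraMap D T (rbar s))) -
          algebraMap D T (rbar s₁) ^ (q - 1) * θ (algebraMap D T (rbar s₁)))
    (HAs : ∀ (𝔠 : Ideal D), 𝔠.IsMaximal → ∀ sb : D, sb ∈ 𝔠 → sb ∉ 𝔠 ^ 2 → rbar ψ₀ ∉ 𝔠 →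
      ∃ cn cd : D, cn ∉ 𝔠 ∧ cd ∉ 𝔠 ∧
        θ (algebraMap D T sb) ^ 6 * algebraMap D T cd = Δb * algebraMap D T cn)
    (HOm : ∃ Ω : ↥(H40.chartB A₁ (H55.JN M (ℓ := ℓ))),
      red₂ Ω = 0 ∧ W_T Δb * algebraMap D T (red₁ Ω) = Δb)
    (Hcusp : ∀ n : Ideal ↥(H40.chartB A₁ (H55.JN M (ℓ := ℓ))), n ≠ ⊤ →
      RingHom.ker red₁ ≤ n → RingHom.ker red₂ ≤ n → ι ψ₀ ∉ n ∧ V ψ₀ ∉ n)
    (hφ₁ : ∀ b, red₁'' (H95.chartBC_JK (A := A) E (ℓ * M) ℓ (Dvd.intro M rfl) b) = red₁ b)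
    (hφ₂ : ∀ b, red₂'' (H95.chartBC_JK (A := A) E (ℓ * M) ℓ (Dvd.intro M rfl) b) = red₂ b)
    {ι'' V'' : BM →+* ↥(H40.chartB ↥(H45.cutOver A E)
      (H95.JK ↥E (ℓ * M) ℓ (Dvd.intro M rfl)))}
    (TC'' : TwoComponents red₁'' red₂'' ι'' V'' rbar W q
      (algebraMap ↥(H45.cutOver A E)
        ↥(H40.chartB ↥(H45.cutOver A E) (H95.JK ↥E (ℓ * M) ℓ (Dvd.intro M rfl))) π)) :
    H62.RegularCrossings red₁'' red₂'' ∧ H84.NodeGen red₁'' red₂'' :=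
  (exists_unit_natCast_eq_mul A E π hπ hunr).elim fun u₀ hu₀ =>
    ⟨regularCrossings_of_unfolded (fun n'' hn'' hk₁ hk₂ =>
        regular_cutOver_of_unit M A E π u₀ hu₀ TC hq hD hinj W_T hWT θ Δb ψ₀ Hdel Hode HAs HOm
          Hcusp hφ₁ hφ₂ TC'' n'' hn'' hk₁ hk₂),
      nodeGen_of_unfolded (fun n'' hn'' hk₁ hk₂ =>
        regular_cutOver_of_unit M A E π u₀ hu₀ TC hq hD hinj W_T hWT θ Δb ψ₀ Hdel Hode HAs HOm
          Hcusp hφ₁ hφ₂ TC'' n'' hn'' hk₁ hk₂)⟩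

include hℓM hA hπ in
/-- **(R-E), one-call form**: the `E`-level package of `S35.H70.exists_twoComponentsE_JK`
(all nine outputs verbatim) TOGETHER WITH `H62.RegularCrossings` and `H84.NodeGen` for the same
`red₁'' red₂''`. -/
theorem exists_twoComponentsE_JK_regular
    {red₁ red₂ : ↥(H40.chartB A₁ (H55.JN M (ℓ := ℓ))) →+* D}
    {ι V : BM →+* ↥(H40.chartB A₁ (H55.JN M (ℓ := ℓ)))}
    {rbar : BM →+* D} {W : D →+* D} {q : ℕ}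
    (hunr : maximalIdeal ↥(H45.cutOver A E) = Ideal.span {((ℓ : ℕ) : ↥(H45.cutOver A E))})
    (TC : TwoComponents red₁ red₂ ι V rbar W q
      (algebraMap A₁ ↥(H40.chartB A₁ (H55.JN M (ℓ := ℓ))) ((ℓ : ℕ) : A₁)))
    (hq₁ : red₁ (algebraMap A₁ ↥(H40.chartB A₁ (H55.JN M (ℓ := ℓ))) ((ℓ : ℕ) : A₁)) = 0)
    (hq₂ : red₂ (algebraMap A₁ ↥(H40.chartB A₁ (H55.JN M (ℓ := ℓ))) ((ℓ : ℕ) : A₁)) = 0)
    (hJ₁ : red₁ ⟨H55.JN M (ℓ := ℓ), H40.self_mem_chartB _⟩ ≠ 0)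
    (hJ₂ : red₂ ⟨H55.JN M (ℓ := ℓ), H40.self_mem_chartB _⟩ ≠ 0)
    (hq : 2 ≤ q) (hD : ¬ IsField D)
    (hinj : Function.Injective (algebraMap D T))
    (W_T : T →+* T) (hWT : ∀ d : D, W_T (algebraMap D T d) = algebraMap D T (W d))
    (θ : Derivation k T T) (Δb : T) (ψ₀ : BM)
    (Hdel : ∀ (𝔠 : Ideal D), 𝔠.IsMaximal → ∀ sb : D, sb ∈ 𝔠 → sb ∉ 𝔠 ^ 2 →
      θ (algebraMap D T sb) ≠ 0 ∧
        ∀ d : D, H54.MemLoc 𝔠 (θ (algebraMap D T d) / θ (algebraMap D T sb)))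
    (Hode : ∀ (s s₁ : BM) (y R₀ : ↥(H40.chartB A₁ (H55.JN M (ℓ := ℓ)))),
      rbar s₁ ^ q = W (rbar s) →
      (V s - ι s₁ ^ q) * y =
        algebraMap A₁ ↥(H40.chartB A₁ (H55.JN M (ℓ := ℓ))) ((ℓ : ℕ) : A₁) * R₀ →
      ∃ δ : T, δ * algebraMap D T (red₁ y) = algebraMap D T (red₁ R₀) ∧
        θ δ = W_T (θ (algebraMap D T (rbar s))) -
          algebraMap D T (rbar s₁) ^ (q - 1) * θ (algebraMap D T (rbar s₁)))
    (HAs : ∀ (𝔠 : Ideal D), 𝔠.IsMaximal → ∀ sb : D, sb ∈ 𝔠 → sb ∉ 𝔠 ^ 2 → rbar ψ₀ ∉ 𝔠 →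
      ∃ cn cd : D, cn ∉ 𝔠 ∧ cd ∉ 𝔠 ∧
        θ (algebraMap D T sb) ^ 6 * algebraMap D T cd = Δb * algebraMap D T cn)
    (HOm : ∃ Ω : ↥(H40.chartB A₁ (H55.JN M (ℓ := ℓ))),
      red₂ Ω = 0 ∧ W_T Δb * algebraMap D T (red₁ Ω) = Δb)
    (Hcusp : ∀ n : Ideal ↥(H40.chartB A₁ (H55.JN M (ℓ := ℓ))), n ≠ ⊤ →
      RingHom.ker red₁ ≤ n → RingHom.ker red₂ ≤ n → ι ψ₀ ∉ n ∧ V ψ₀ ∉ n) :
    ∃ red₁'' red₂'' : ↥(H40.chartB ↥(H45.cutOver A E)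
        (H95.JK ↥E (ℓ * M) ℓ (Dvd.intro M rfl))) →+* D,
      ((∀ b, red₁'' (H95.chartBC_JK (A := A) E (ℓ * M) ℓ (Dvd.intro M rfl) b) = red₁ b) ∧
      (∀ b, red₂'' (H95.chartBC_JK (A := A) E (ℓ * M) ℓ (Dvd.intro M rfl) b) = red₂ b) ∧
      red₁'' (algebraMap ↥(H45.cutOver A E) _ π) = 0 ∧
      red₂'' (algebraMap ↥(H45.cutOver A E) _ π) = 0 ∧
      (∀ (a : ↥(H45.cutOver A E)) (c : A₁) (a' : ↥(H45.cutOver A E)),
        a = algebraMap A₁ ↥(H45.cutOver A E) c + π * a' →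
        red₁'' (algebraMap ↥(H45.cutOver A E) _ a) =
          red₁ (algebraMap A₁ ↥(H40.chartB A₁ (H55.JN M (ℓ := ℓ))) c)) ∧
      (∀ (a : ↥(H45.cutOver A E)) (c : A₁) (a' : ↥(H45.cutOver A E)),
        a = algebraMap A₁ ↥(H45.cutOver A E) c + π * a' →
        red₂'' (algebraMap ↥(H45.cutOver A E) _ a) =
          red₂ (algebraMap A₁ ↥(H40.chartB A₁ (H55.JN M (ℓ := ℓ))) c)) ∧
      red₁'' ⟨H95.JK ↥E (ℓ * M) ℓ (Dvd.intro M rfl), H40.self_mem_chartB _⟩ ≠ 0 ∧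
      red₂'' ⟨H95.JK ↥E (ℓ * M) ℓ (Dvd.intro M rfl), H40.self_mem_chartB _⟩ ≠ 0 ∧
      TwoComponents red₁'' red₂''
        ((H95.chartBC_JK (A := A) E (ℓ * M) ℓ (Dvd.intro M rfl)).comp ι)
        ((H95.chartBC_JK (A := A) E (ℓ * M) ℓ (Dvd.intro M rfl)).comp V) rbar W q
        (algebraMap ↥(H45.cutOver A E)
          ↥(H40.chartB ↥(H45.cutOver A E) (H95.JK ↥E (ℓ * M) ℓ (Dvd.intro M rfl))) π)) ∧
      H62.RegularCrossings red₁'' red₂'' ∧ H84.NodeGen red₁'' red₂'' :=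
  (S35.H70.exists_twoComponentsE_JK M hℓM A hA E π hπ TC hq₁ hq₂ hJ₁ hJ₂).elim
    fun r₁ h => h.elim fun r₂ h =>
      ⟨r₁, r₂, h, regularCrossings_nodeGen_cutOver M A E π hπ hunr TC hq hD hinj W_T hWT θ Δb ψ₀
        Hdel Hode HAs HOm Hcusp h.1 h.2.1 h.2.2.2.2.2.2.2.2⟩

end Main

end Fermat.Agent.S36.H27
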