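import Mathlib
import Fermat.Agent.S36.H54_M2eContract2
import Fermat.Agent.S36.H62_PrincipalAll

/-!
# S36 / (M2e), helper27: the transfer (C2-E) of the crossing-point data along a base change

`B` = the chart over the small base (`A₁ = A0 A ℓ`), `B''` = the chart over the big base
(`cutOver A E`), `φ : B →+* B''` the base-change map (`S34.H70.chartMapE`), `red_i'' ∘ φ = red_i`
(`S35.H70.redE_chartMapE`): the two charts have THE SAME branch ring `D`.  The data `x y R₀`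
of helper54's contract (C1) live on `B`; all conditions on them are statements in `D`, so they
pass to `B''` verbatim, and (C2) (`H54.thickness_one_of_not_mem`, `H54.ufm_of_not_mem`) runs on
`B''`.

* `mem_iff_map_mem`, `map_isMaximal_of_ker_le` : the point `𝔞 := red(n'')` of the branch.
* `CrossingData red₁ red₂ qB` : the output shape of (C1) + choice of `s` on the small chart.
* `thickness_one_of_crossingData`, `ufm_of_crossingData`, `regularCrossings_of_crossingData` :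
  the outputs on the big chart (`H62.RegularCrossings` = the end shape of (M2)).
-/

set_option autoImplicit false
set_option linter.style.haveILetI false

namespace Fermat.Agent.S36.H27

open Fermat.Agent.S34 Fermat.Agent.S36

section Point

variable {B D : Type*} [CommRing B] [CommRing D]

/-- a point of the chart containing the kernel of a (surjective) reduction is the preimage of
its image. -/
theorem mem_iff_map_mem (red : B →+* D) (hred : Function.Surjective red) (n : Ideal B)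
    (hk : RingHom.ker red ≤ n) (z : B) : z ∈ n ↔ red z ∈ n.map red := by
  constructor
  · exact fun hz => Ideal.mem_map_of_mem red hz
  · intro hz
    obtain ⟨w, hw, hwz⟩ := (Ideal.mem_map_iff_of_surjective red hred).1 hz
    have h1 : z - w ∈ RingHom.ker red := by
      rw [RingHom.mem_ker, map_sub, hwz, sub_self]
    have h2 : z = (z - w) + w := by ring
    rw [h2]
    exact n.add_mem (hk h1) hw

theorem map_isMaximal_of_ker_le (red : B →+* D) (hred : Function.Surjective red) (n : Ideal B)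
    [hn : n.IsMaximal] (hk : RingHom.ker red ≤ n) : (n.map red).IsMaximal := by
  rcases Ideal.map_eq_top_or_isMaximal_of_surjective red hred hn with h | h
  · exfalso
    have h1 : (1 : B) ∈ n := by
      rw [mem_iff_map_mem red hred n hk, h]
      exact Submodule.mem_top
    exact hn.ne_top ((Ideal.eq_top_iff_one n).2 h1)
  · exact h

end Point

section Transfer

variable {B B'' D : Type*} [CommRing B] [CommRing B''] [IsDomain B''] [CommRing D]
  [IsDedekindDomain D]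

/-- **Output shape of (C1) + the choice of `s` on the small chart**: at every crossing pair
`(𝔞, 𝔟)` of the branch ring, elements `x ∈ P₁`, `y ∈ P₂` with `x y = q R₀`, `x̄` a uniformiser
at `𝔟`, `ȳ` a uniformiser at `𝔞`, and `R̄₀ ∉ 𝔞`. -/
def CrossingData (red₁ red₂ : B →+* D) (qB : B) : Prop :=
  ∀ (n : Ideal B) (𝔞 𝔟 : Ideal D), n.IsMaximal → 𝔞.IsMaximal → 𝔟.IsMaximal →
    (∀ z : B, z ∈ n ↔ red₁ z ∈ 𝔞) → (∀ z : B, z ∈ n ↔ red₂ z ∈ 𝔟) →
    ∃ x y R₀ : B, red₁ x = 0 ∧ red₂ x ∈ 𝔟 ∧ red₂ x ∉ 𝔟 ^ 2 ∧ red₂ y = 0 ∧ red₁ y ∈ 𝔞 ∧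
      red₁ y ∉ 𝔞 ^ 2 ∧ x * y = qB * R₀ ∧ red₁ R₀ ∉ 𝔞

variable (φ : B →+* B'') {red₁ red₂ : B →+* D} {red₁'' red₂'' : B'' →+* D}
  {qB : B} {qB'' : B''}

/-- the crossing data of the small chart, at a crossing point `n''` of the big chart. -/
theorem exists_of_crossingData (h₁ : ∀ b, red₁'' (φ b) = red₁ b) (h₂ : ∀ b, red₂'' (φ b) = red₂ b)
    (hred₁ : Function.Surjective red₁)
    (c : B'') (hc : IsUnit c) (hq : φ qB = qB'' * c)
    (hred₁'' : Function.Surjective red₁'') (hred₂'' : Function.Surjective red₂'')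
    (hL1 : CrossingData red₁ red₂ qB)
    (n'' : Ideal B'') [hn'' : n''.IsMaximal] (hk₁ : RingHom.ker red₁'' ≤ n'')
    (hk₂ : RingHom.ker red₂'' ≤ n'') :
    ∃ x y R₀ : B'', red₁'' x = 0 ∧ red₂'' x ∈ n''.map red₂'' ∧ red₂'' x ∉ (n''.map red₂'') ^ 2 ∧
      red₂'' y = 0 ∧ red₁'' y ∈ n''.map red₁'' ∧ red₁'' y ∉ (n''.map red₁'') ^ 2 ∧
      x * y = qB'' * R₀ ∧ red₁'' R₀ ∉ n''.map red₁'' := by
  haveI h𝔞 : (n''.map red₁'').IsMaximal := map_isMaximal_of_ker_le red₁'' hred₁'' n'' hk₁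
  haveI h𝔟 : (n''.map red₂'').IsMaximal := map_isMaximal_of_ker_le red₂'' hred₂'' n'' hk₂
  have hn₁ : ∀ z : B, z ∈ n''.comap φ ↔ red₁ z ∈ n''.map red₁'' := fun z => by
    rw [Ideal.mem_comap, mem_iff_map_mem red₁'' hred₁'' n'' hk₁, h₁]
  have hn₂ : ∀ z : B, z ∈ n''.comap φ ↔ red₂ z ∈ n''.map red₂'' := fun z => by
    rw [Ideal.mem_comap, mem_iff_map_mem red₂'' hred₂'' n'' hk₂, h₂]
  have hnmax : (n''.comap φ).IsMaximal := by
    have : n''.comap φ = (n''.map red₁'').comap red₁ := by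
      ext z; rw [hn₁ z, Ideal.mem_comap]
    rw [this]
    exact Ideal.comap_isMaximal_of_surjective red₁ hred₁
  obtain ⟨x, y, R₀, hx₁, hx₂, hx₂', hy₂, hy₁, hy₁', hxy, hR₀⟩ :=
    hL1 (n''.comap φ) (n''.map red₁'') (n''.map red₂'') hnmax h𝔞 h𝔟 hn₁ hn₂
  refine ⟨φ x, φ y, c * φ R₀, by rw [h₁, hx₁], by rw [h₂]; exact hx₂, by rw [h₂]; exact hx₂',
    by rw [h₂, hy₂], by rw [h₁]; exact hy₁, by rw [h₁]; exact hy₁', ?_, ?_⟩
  · rw [← map_mul, hxy, map_mul, hq]; ring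
  · rw [map_mul, h₁]
    intro hmem
    rcases h𝔞.isPrime.mem_or_mem hmem with h | h
    · exact h𝔞.ne_top (Ideal.eq_top_of_isUnit_mem _ h (hc.map red₁''))
    · exact hR₀ h

/-- **(C2-E), thickness one at every crossing point of the big chart.** -/
theorem thickness_one_of_crossingData (h₁ : ∀ b, red₁'' (φ b) = red₁ b)
    (h₂ : ∀ b, red₂'' (φ b) = red₂ b) (hred₁ : Function.Surjective red₁)
    (c : B'') (hc : IsUnit c) (hq : φ qB = qB'' * c)
    (hred₁'' : Function.Surjective red₁'') (hred₂'' : Function.Surjective red₂'')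
    (hinf'' : ∀ z : B'', red₁'' z = 0 → red₂'' z = 0 → z ∈ Ideal.span {qB''})
    (hL1 : CrossingData red₁ red₂ qB)
    (n'' : Ideal B'') [hn'' : n''.IsMaximal] (hk₁ : RingHom.ker red₁'' ≤ n'')
    (hk₂ : RingHom.ker red₂'' ≤ n'') :
    ∃ x y R₀ : B'', red₁'' x = 0 ∧ red₂'' x ≠ 0 ∧ red₂'' y = 0 ∧ red₁'' y ≠ 0 ∧
      x * y = qB'' * R₀ ∧ R₀ ∉ n'' ∧
      (∀ z ∈ n'', ∃ t : B'', t ∉ n'' ∧ t * z ∈ Ideal.span {x, y}) ∧
      (∀ z : B'', red₁'' z = 0 → ∃ t : B'', t ∉ n'' ∧ x ∣ t * z) ∧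
      (∀ z : B'', red₂'' z = 0 → ∃ t : B'', t ∉ n'' ∧ y ∣ t * z) := by
  haveI h𝔞 : (n''.map red₁'').IsMaximal := map_isMaximal_of_ker_le red₁'' hred₁'' n'' hk₁
  haveI h𝔟 : (n''.map red₂'').IsMaximal := map_isMaximal_of_ker_le red₂'' hred₂'' n'' hk₂
  obtain ⟨x, y, R₀, hx₁, hx₂, hx₂', hy₂, hy₁, hy₁', hxy, hR₀⟩ :=
    exists_of_crossingData φ h₁ h₂ hred₁ c hc hq hred₁'' hred₂'' hL1 n'' hk₁ hk₂
  obtain ⟨hR, hgen, hP₁, hP₂⟩ := H54.thickness_one_of_not_mem hred₁'' hred₂'' hinf'' n''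
    (n''.map red₁'') (n''.map red₂'') (mem_iff_map_mem red₁'' hred₁'' n'' hk₁)
    (mem_iff_map_mem red₂'' hred₂'' n'' hk₂) hx₁ hx₂ hx₂' hy₂ hy₁ hy₁' hxy hR₀
  refine ⟨x, y, R₀, hx₁, ?_, hy₂, ?_, hxy, hR, hgen, hP₁, hP₂⟩
  · intro h0
    rw [h0] at hx₂'
    exact hx₂' (Ideal.zero_mem _)
  · intro h0
    rw [h0] at hy₁'
    exact hy₁' (Ideal.zero_mem _)

/-- **(C2-E), shape (U) of (E4)**: the local ring of the big chart at a crossing point is a UFD. -/
theorem ufm_of_crossingData [IsNoetherianRing B''] (h₁ : ∀ b, red₁'' (φ b) = red₁ b)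
    (h₂ : ∀ b, red₂'' (φ b) = red₂ b) (hred₁ : Function.Surjective red₁)
    (c : B'') (hc : IsUnit c) (hq : φ qB = qB'' * c)
    (hred₁'' : Function.Surjective red₁'') (hred₂'' : Function.Surjective red₂'')
    (hinf'' : ∀ z : B'', red₁'' z = 0 → red₂'' z = 0 → z ∈ Ideal.span {qB''})
    (hL1 : CrossingData red₁ red₂ qB)
    (n'' : Ideal B'') [hn'' : n''.IsMaximal] (hk₁ : RingHom.ker red₁'' ≤ n'')
    (hk₂ : RingHom.ker red₂'' ≤ n'') :
    UniqueFactorizationMonoid (Localization.AtPrime n'') := by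
  haveI h𝔞 : (n''.map red₁'').IsMaximal := map_isMaximal_of_ker_le red₁'' hred₁'' n'' hk₁
  haveI h𝔟 : (n''.map red₂'').IsMaximal := map_isMaximal_of_ker_le red₂'' hred₂'' n'' hk₂
  obtain ⟨x, y, R₀, hx₁, hx₂, hx₂', hy₂, hy₁, hy₁', hxy, hR₀⟩ :=
    exists_of_crossingData φ h₁ h₂ hred₁ c hc hq hred₁'' hred₂'' hL1 n'' hk₁ hk₂
  exact H54.ufm_of_not_mem hred₁'' hred₂'' hinf'' n''
    (n''.map red₁'') (n''.map red₂'') (mem_iff_map_mem red₁'' hred₁'' n'' hk₁)
    (mem_iff_map_mem red₂'' hred₂'' n'' hk₂) hx₁ hx₂ hx₂' hy₂ hy₁ hy₁' hxy hR₀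

/-- **(C2-E), END SHAPE of (M2) on the big chart** (`H62.RegularCrossings`). -/
theorem regularCrossings_of_crossingData (h₁ : ∀ b, red₁'' (φ b) = red₁ b)
    (h₂ : ∀ b, red₂'' (φ b) = red₂ b) (hred₁ : Function.Surjective red₁)
    (c : B'') (hc : IsUnit c) (hq : φ qB = qB'' * c)
    (hred₁'' : Function.Surjective red₁'') (hred₂'' : Function.Surjective red₂'')
    (hinf'' : ∀ z : B'', red₁'' z = 0 → red₂'' z = 0 → z ∈ Ideal.span {qB''})
    (hL1 : CrossingData red₁ red₂ qB) : H62.RegularCrossings red₁'' red₂'' := by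
  intro n'' hn'' hk₁ hk₂
  haveI := hn''
  obtain ⟨x, y, R₀, hx₁, hx₂, hy₂, hy₁, -, -, -, hP₁, hP₂⟩ :=
    thickness_one_of_crossingData φ h₁ h₂ hred₁ c hc hq hred₁'' hred₂'' hinf'' hL1 n'' hk₁ hk₂
  refine ⟨⟨x, hx₁, hx₂, fun z hz => ?_⟩, ⟨y, hy₂, hy₁, fun z hz => ?_⟩⟩
  · obtain ⟨t, ht, hd⟩ := hP₁ z ((RingHom.mem_ker).1 hz)
    exact ⟨t, ht, Ideal.mem_span_singleton.2 hd⟩
  · obtain ⟨t, ht, hd⟩ := hP₂ z ((RingHom.mem_ker).1 hz)
    exact ⟨t, ht, Ideal.mem_span_singleton.2 hd⟩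

end Transfer

end Fermat.Agent.S36.H27
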