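import Mathlib
import Fermat.Agent.S36.H27_M2eTransferE
import Fermat.Agent.S35.H70_TwoComponentsBCMain

/-!
# S36 / (M2e), helper27: the transfer (C2-E) at the real types

`A₁ = A0 A ℓ`, `A'' = cutOver A E` UNRAMIFIED (`𝔪 = (ℓ)`, helper45's (D1b)), charts
`B = chartB A₁ J₁`, `B'' = chartB A'' (baseChangeE J₁)`, `φ = S34.H70.chartMapE`,
`red_i'' = S35.H70.redE red_i`.  From the crossing data on `B` (`H27.CrossingData`, the output
of (C1) + choice of `s` at the `L₁`-level):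

* `regularCrossings_cutOver` : `H62.RegularCrossings (redE red₁) (redE red₂)`;
* `ufm_cutOver` : the local ring of `B''` at every crossing point is a UFD;
* `thickness_one_cutOver` : the full local output.
-/

set_option autoImplicit false
set_option linter.unusedSectionVars false
set_option linter.style.haveILetI false
set_option synthInstance.maxHeartbeats 400000
set_option maxHeartbeats 1600000

noncomputable section

namespace Fermat.Agent.S36.H27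

open ModularCurve IsLocalRing
open Fermat.Agent.S18 Fermat.Agent.CA Fermat.Agent.S34 Fermat.Agent.S36

local notation "Qbar" => AlgebraicClosure ℚ

variable {A : ValuationSubring Qbar} {ℓ : ℕ} (hℓ : ℓ.Prime) (hA : A.LiesOverPrime ℓ)
variable (E : IntermediateField (H45.unrCyclo ℓ) Qbar) (N : ℕ) [NeZero N]
variable (J₁ : ↥(modularFunctionFieldFullC ↥(H45.unrCyclo ℓ) N))
  (hπ : maximalIdeal ↥(H45.cutOver A E) = Ideal.span {((ℓ : ℕ) : ↥(H45.cutOver A E))})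
  (hN : S35.H70.GenBy (A := A) E N J₁)
  {R₀ : Type*} [CommRing R₀] [IsDedekindDomain R₀]
  {red₁ red₂ : ↥(H40.chartB ↥(H45.A0 A ℓ) J₁) →+* R₀}
  (hq₁ : red₁ (algebraMap ↥(H45.A0 A ℓ) ↥(H40.chartB ↥(H45.A0 A ℓ) J₁)
    ((ℓ : ℕ) : ↥(H45.A0 A ℓ))) = 0)
  (hq₂ : red₂ (algebraMap ↥(H45.A0 A ℓ) ↥(H40.chartB ↥(H45.A0 A ℓ) J₁)
    ((ℓ : ℕ) : ↥(H45.A0 A ℓ))) = 0)

/-- the base change of the chart maps `ℓ` to `ℓ`. -/
theorem chartMapE_natCast :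
    S34.H70.chartMapE (A := A) E N J₁
        (algebraMap ↥(H45.A0 A ℓ) ↥(H40.chartB ↥(H45.A0 A ℓ) J₁) ((ℓ : ℕ) : ↥(H45.A0 A ℓ))) =
      algebraMap ↥(H45.cutOver A E)
        ↥(H40.chartB ↥(H45.cutOver A E) (H45.baseChangeE E N J₁))
        ((ℓ : ℕ) : ↥(H45.cutOver A E)) * 1 := by
  rw [mul_one]
  have h := S34.H70.hcomp_inst (A := A) E N J₁ ((ℓ : ℕ) : ↥(H45.A0 A ℓ))
  have h2 : algebraMap ↥(H45.A0 A ℓ) ↥(H45.cutOver A E) ((ℓ : ℕ) : ↥(H45.A0 A ℓ)) =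
      ((ℓ : ℕ) : ↥(H45.cutOver A E)) := map_natCast _ _
  rw [h2] at h
  exact h

/-- **(C2-E) at the real types, END SHAPE of (M2)** on the `cutOver A E`-chart. -/
theorem regularCrossings_cutOver (hred₁ : Function.Surjective red₁)
    (hred₂ : Function.Surjective red₂)
    (hinf'' : ∀ z : ↥(H40.chartB ↥(H45.cutOver A E) (H45.baseChangeE E N J₁)),
      S35.H70.redE hℓ hA E N J₁ _ hπ hN red₁ hq₁ z = 0 →
      S35.H70.redE hℓ hA E N J₁ _ hπ hN red₂ hq₂ z = 0 →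
      z ∈ Ideal.span {algebraMap ↥(H45.cutOver A E)
        ↥(H40.chartB ↥(H45.cutOver A E) (H45.baseChangeE E N J₁))
        ((ℓ : ℕ) : ↥(H45.cutOver A E))})
    (hL1 : CrossingData red₁ red₂
      (algebraMap ↥(H45.A0 A ℓ) ↥(H40.chartB ↥(H45.A0 A ℓ) J₁) ((ℓ : ℕ) : ↥(H45.A0 A ℓ)))) :
    H62.RegularCrossings (S35.H70.redE hℓ hA E N J₁ _ hπ hN red₁ hq₁)
      (S35.H70.redE hℓ hA E N J₁ _ hπ hN red₂ hq₂) :=
  regularCrossings_of_crossingData (S34.H70.chartMapE (A := A) E N J₁)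
    (S35.H70.redE_chartMapE hℓ hA E N J₁ _ hπ hN red₁ hq₁)
    (S35.H70.redE_chartMapE hℓ hA E N J₁ _ hπ hN red₂ hq₂) hred₁ 1 isUnit_one
    (chartMapE_natCast E N J₁)
    (S35.H70.redE_surjective hℓ hA E N J₁ _ hπ hN red₁ hq₁ hred₁)
    (S35.H70.redE_surjective hℓ hA E N J₁ _ hπ hN red₂ hq₂ hred₂) hinf'' hL1

/-- **(C2-E) at the real types, shape (U) of (E4)**. -/
theorem ufm_cutOver
    [IsNoetherianRing ↥(H40.chartB ↥(H45.cutOver A E) (H45.baseChangeE E N J₁))]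
    (hred₁ : Function.Surjective red₁) (hred₂ : Function.Surjective red₂)
    (hinf'' : ∀ z : ↥(H40.chartB ↥(H45.cutOver A E) (H45.baseChangeE E N J₁)),
      S35.H70.redE hℓ hA E N J₁ _ hπ hN red₁ hq₁ z = 0 →
      S35.H70.redE hℓ hA E N J₁ _ hπ hN red₂ hq₂ z = 0 →
      z ∈ Ideal.span {algebraMap ↥(H45.cutOver A E)
        ↥(H40.chartB ↥(H45.cutOver A E) (H45.baseChangeE E N J₁))
        ((ℓ : ℕ) : ↥(H45.cutOver A E))})
    (hL1 : CrossingData red₁ red₂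
      (algebraMap ↥(H45.A0 A ℓ) ↥(H40.chartB ↥(H45.A0 A ℓ) J₁) ((ℓ : ℕ) : ↥(H45.A0 A ℓ))))
    (n'' : Ideal ↥(H40.chartB ↥(H45.cutOver A E) (H45.baseChangeE E N J₁))) [n''.IsMaximal]
    (hk₁ : RingHom.ker (S35.H70.redE hℓ hA E N J₁ _ hπ hN red₁ hq₁) ≤ n'')
    (hk₂ : RingHom.ker (S35.H70.redE hℓ hA E N J₁ _ hπ hN red₂ hq₂) ≤ n'') :
    UniqueFactorizationMonoid (Localization.AtPrime n'') :=
  ufm_of_crossingData (S34.H70.chartMapE (A := A) E N J₁)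
    (S35.H70.redE_chartMapE hℓ hA E N J₁ _ hπ hN red₁ hq₁)
    (S35.H70.redE_chartMapE hℓ hA E N J₁ _ hπ hN red₂ hq₂) hred₁ 1 isUnit_one
    (chartMapE_natCast E N J₁)
    (S35.H70.redE_surjective hℓ hA E N J₁ _ hπ hN red₁ hq₁ hred₁)
    (S35.H70.redE_surjective hℓ hA E N J₁ _ hπ hN red₂ hq₂ hred₂) hinf'' hL1 n'' hk₁ hk₂

/-- **(C2-E) at the real types, the full local output.** -/
theorem thickness_one_cutOver (hred₁ : Function.Surjective red₁)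
    (hred₂ : Function.Surjective red₂)
    (hinf'' : ∀ z : ↥(H40.chartB ↥(H45.cutOver A E) (H45.baseChangeE E N J₁)),
      S35.H70.redE hℓ hA E N J₁ _ hπ hN red₁ hq₁ z = 0 →
      S35.H70.redE hℓ hA E N J₁ _ hπ hN red₂ hq₂ z = 0 →
      z ∈ Ideal.span {algebraMap ↥(H45.cutOver A E)
        ↥(H40.chartB ↥(H45.cutOver A E) (H45.baseChangeE E N J₁))
        ((ℓ : ℕ) : ↥(H45.cutOver A E))})
    (hL1 : CrossingData red₁ red₂
      (algebraMap ↥(H45.A0 A ℓ) ↥(H40.chartB ↥(H45.A0 A ℓ) J₁) ((ℓ : ℕ) : ↥(H45.A0 A ℓ))))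
    (n'' : Ideal ↥(H40.chartB ↥(H45.cutOver A E) (H45.baseChangeE E N J₁))) [n''.IsMaximal]
    (hk₁ : RingHom.ker (S35.H70.redE hℓ hA E N J₁ _ hπ hN red₁ hq₁) ≤ n'')
    (hk₂ : RingHom.ker (S35.H70.redE hℓ hA E N J₁ _ hπ hN red₂ hq₂) ≤ n'') :
    ∃ x y R : ↥(H40.chartB ↥(H45.cutOver A E) (H45.baseChangeE E N J₁)),
      S35.H70.redE hℓ hA E N J₁ _ hπ hN red₁ hq₁ x = 0 ∧
      S35.H70.redE hℓ hA E N J₁ _ hπ hN red₂ hq₂ x ≠ 0 ∧
      S35.H70.redE hℓ hA E N J₁ _ hπ hN red₂ hq₂ y = 0 ∧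
      S35.H70.redE hℓ hA E N J₁ _ hπ hN red₁ hq₁ y ≠ 0 ∧
      x * y = algebraMap ↥(H45.cutOver A E)
        ↥(H40.chartB ↥(H45.cutOver A E) (H45.baseChangeE E N J₁))
        ((ℓ : ℕ) : ↥(H45.cutOver A E)) * R ∧ R ∉ n'' ∧
      (∀ z ∈ n'', ∃ t, t ∉ n'' ∧ t * z ∈ Ideal.span {x, y}) ∧
      (∀ z, S35.H70.redE hℓ hA E N J₁ _ hπ hN red₁ hq₁ z = 0 → ∃ t, t ∉ n'' ∧ x ∣ t * z) ∧
      (∀ z, S35.H70.redE hℓ hA E N J₁ _ hπ hN red₂ hq₂ z = 0 → ∃ t, t ∉ n'' ∧ y ∣ t * z) :=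
  thickness_one_of_crossingData (S34.H70.chartMapE (A := A) E N J₁)
    (S35.H70.redE_chartMapE hℓ hA E N J₁ _ hπ hN red₁ hq₁)
    (S35.H70.redE_chartMapE hℓ hA E N J₁ _ hπ hN red₂ hq₂) hred₁ 1 isUnit_one
    (chartMapE_natCast E N J₁)
    (S35.H70.redE_surjective hℓ hA E N J₁ _ hπ hN red₁ hq₁ hred₁)
    (S35.H70.redE_surjective hℓ hA E N J₁ _ hπ hN red₂ hq₂ hred₂) hinf'' hL1 n'' hk₁ hk₂

end Fermat.Agent.S36.H27
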