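import Mathlib
import Fermat.Agent.S34.H83_L0Target

/-!
# S36 / (M2-cusp) (helper27): no crossing point of the level-`(L, q)` model lies at a cusp

helper78's Note 6.  `u = ι(1/j)`, `v = V(1/j)` in the chart at infinity.  The Kronecker shape
`Φ_q = (X - Y^q)(X^q - Y) + q R`, bidegree of `R` at most `(q, q)`, divided by `(j j_q)^(q+1)`,
gives `u v ε = u^(q+1) + v^(q+1)` with `ε = 1 + (u v)^(q-1) - q ∑ r_ab u^(q-a) v^(q-b)`.  Then
`w := u^q / v` is integral (`w^(q+1) - ε w^q + u^(q²-1) = 0`), hence lies in the normal chart ring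
`B`; `red₁ w = 1` and `red₂ w = red₂ (v^(q²-1))`, so a proper ideal containing both kernels
cannot contain `v` (nor `u`).

* `rel_of_kronecker`      : the relation `u v ε = u^(q+1) + v^(q+1)` from the shape of `Φ_q`;
* `exists_mul_eq_pow`     : `∃ w ∈ B, w * v = u ^ q`;
* `not_mem_of_ker_le`     : `ker red₁ ≤ n`, `ker red₂ ≤ n`, `n ≠ ⊤` ⟹ `v ∉ n`;
* `not_mem_of_ker_le'`    : the same for `u`;
* `TwoComponents` forms   : `twoComponents_not_mem_V`, `twoComponents_not_mem_ι`.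
-/

set_option autoImplicit false

open Finset

namespace Fermat.Agent.S36.H27

/-! ### 1. The relation at infinity from the Kronecker shape -/

section Relation

variable {K : Type*} [CommRing K]

theorem pow_mul_pow_of_mul_eq_one {x u : K} (h : x * u = 1) {a n : ℕ} (ha : a ≤ n) :
    x ^ a * u ^ n = u ^ (n - a) := by
  have h1 : u ^ n = u ^ (n - a) * u ^ a := by rw [← pow_add, Nat.sub_add_cancel ha]
  rw [h1, mul_comm (u ^ (n - a)), ← mul_assoc, ← mul_pow, h, one_pow, one_mul]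

/-- the unit `ε` of the relation at infinity. -/
def epsAt (q : ℕ) (r : ℕ → ℕ → ℤ) (u v : K) : K :=
  1 + (u * v) ^ (q - 1) -
    (q : K) * ∑ a ∈ range (q + 1), ∑ b ∈ range (q + 1), (r a b : K) * u ^ (q - a) * v ^ (q - b)

/-- **the relation at infinity**: `u v ε = u^(q+1) + v^(q+1)` for `u = 1/x`, `v = 1/y`,
`Φ_q(x, y) = 0`, `Φ_q = (X - Y^q)(X^q - Y) + q ∑_{a,b ≤ q} r_ab X^a Y^b`. -/
theorem rel_of_kronecker (q : ℕ) (hq : 1 ≤ q) (r : ℕ → ℕ → ℤ) (x y u v : K) (hxu : x * u = 1)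
    (hyv : y * v = 1)
    (hΦ : (x - y ^ q) * (x ^ q - y) +
      (q : K) * ∑ a ∈ range (q + 1), ∑ b ∈ range (q + 1), (r a b : K) * x ^ a * y ^ b = 0) :
    u * v * epsAt q r u v = u ^ (q + 1) + v ^ (q + 1) := by
  have h1 : (x - y ^ q) * (u * v ^ q) = v ^ q - u := by
    have : (x - y ^ q) * (u * v ^ q) = (x * u) * v ^ q - (y * v) ^ q * u := by ring
    rw [this, hxu, hyv, one_pow, one_mul, one_mul]
  have h2 : (x ^ q - y) * (u ^ q * v) = v - u ^ q := by
    have : (x ^ q - y) * (u ^ q * v) = (x * u) ^ q * v - (y * v) * u ^ q := by ring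
    rw [this, hxu, hyv, one_pow, one_mul, one_mul]
  have h3 : ∀ a ∈ range (q + 1), ∀ b ∈ range (q + 1),
      (r a b : K) * x ^ a * y ^ b * (u ^ (q + 1) * v ^ (q + 1)) =
        u * v * ((r a b : K) * u ^ (q - a) * v ^ (q - b)) := by
    intro a ha b hb
    have ha' : a ≤ q := Nat.lt_succ_iff.1 (mem_range.1 ha)
    have hb' : b ≤ q := Nat.lt_succ_iff.1 (mem_range.1 hb)
    have e1 : x ^ a * u ^ (q + 1) = u ^ (q + 1 - a) :=
      pow_mul_pow_of_mul_eq_one hxu (le_trans ha' (Nat.le_succ q))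
    have e2 : y ^ b * v ^ (q + 1) = v ^ (q + 1 - b) :=
      pow_mul_pow_of_mul_eq_one hyv (le_trans hb' (Nat.le_succ q))
    have e3 : u ^ (q + 1 - a) = u * u ^ (q - a) := by
      rw [← pow_succ', Nat.succ_sub ha']
    have e4 : v ^ (q + 1 - b) = v * v ^ (q - b) := by
      rw [← pow_succ', Nat.succ_sub hb']
    calc (r a b : K) * x ^ a * y ^ b * (u ^ (q + 1) * v ^ (q + 1))
        = (r a b : K) * (x ^ a * u ^ (q + 1)) * (y ^ b * v ^ (q + 1)) := by ring
      _ = u * v * ((r a b : K) * u ^ (q - a) * v ^ (q - b)) := by rw [e1, e2, e3, e4]; ring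
  have h4 : (∑ a ∈ range (q + 1), ∑ b ∈ range (q + 1), (r a b : K) * x ^ a * y ^ b) *
      (u ^ (q + 1) * v ^ (q + 1)) =
      u * v * ∑ a ∈ range (q + 1), ∑ b ∈ range (q + 1), (r a b : K) * u ^ (q - a) * v ^ (q - b) := by
    rw [sum_mul, mul_sum]
    refine sum_congr rfl fun a ha => ?_
    rw [sum_mul, mul_sum]
    exact sum_congr rfl fun b hb => h3 a ha b hb
  have h5 : (u * v) ^ q = u * v * (u * v) ^ (q - 1) := by
    rw [← pow_succ', Nat.sub_add_cancel hq]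
  have h6 := congrArg (fun z => z * (u ^ (q + 1) * v ^ (q + 1))) hΦ
  simp only [zero_mul] at h6
  have h7 : ((x - y ^ q) * (x ^ q - y) +
      (q : K) * ∑ a ∈ range (q + 1), ∑ b ∈ range (q + 1), (r a b : K) * x ^ a * y ^ b) *
      (u ^ (q + 1) * v ^ (q + 1)) =
      ((x - y ^ q) * (u * v ^ q)) * ((x ^ q - y) * (u ^ q * v)) +
        (q : K) * ((∑ a ∈ range (q + 1), ∑ b ∈ range (q + 1), (r a b : K) * x ^ a * y ^ b) *
          (u ^ (q + 1) * v ^ (q + 1))) := by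
    ring
  rw [h7, h1, h2, h4] at h6
  unfold epsAt
  have h8 : (u * v) ^ q = u ^ q * v ^ q := mul_pow u v q
  linear_combination (-1 : K) * h6 - h5 + h8

end Relation

/-! ### 2. `w = u^q / v` lies in the normal chart ring -/

section Integral

variable {B : Type*} [CommRing B] [IsDomain B] [IsIntegrallyClosed B]

theorem exists_mul_eq_pow (q : ℕ) (hq : 1 ≤ q) (u v ε : B) (hv : v ≠ 0)
    (hrel : u * v * ε = u ^ (q + 1) + v ^ (q + 1)) : ∃ w : B, w * v = u ^ q := by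
  have hu : u ≠ 0 := by
    rintro rfl
    have h0 : (0 : B) ^ (q + 1) = 0 := zero_pow (Nat.succ_ne_zero q)
    rw [zero_mul, zero_mul, h0, zero_add] at hrel
    exact hv (pow_eq_zero_iff (Nat.succ_ne_zero q) |>.1 hrel.symm)
  let K := FractionRing B
  have hinj : Function.Injective (algebraMap B K) := IsFractionRing.injective B K
  set U : K := algebraMap B K u with hU
  set V : K := algebraMap B K v with hV
  set E : K := algebraMap B K ε with hE
  have hV0 : V ≠ 0 := fun h => hv (hinj (by rw [← hV, h, map_zero]))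
  have hU0 : U ≠ 0 := fun h => hu (hinj (by rw [← hU, h, map_zero]))
  have hrelK : U * V * E = U ^ (q + 1) + V ^ (q + 1) := by
    have := congrArg (algebraMap B K) hrel
    simpa [map_mul, map_add, map_pow] using this
  set w : K := U ^ q / V with hw
  have hwV : w * V = U ^ q := div_mul_cancel₀ _ hV0
  have hq2 : q * q ≠ 0 := Nat.mul_ne_zero (by omega) (by omega)
  have ha : U ^ (q * q - 1) * U = U ^ (q * q) := pow_sub_one_mul hq2 U
  have h1 : w ^ (q + 1) * V ^ (q + 1) = (U ^ q) ^ (q + 1) := by rw [← mul_pow, hwV]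
  have h2 : w ^ q * V ^ q = (U ^ q) ^ q := by rw [← mul_pow, hwV]
  have hkey : (w ^ (q + 1) - E * w ^ q + U ^ (q * q - 1)) * (V ^ (q + 1) * U) = 0 := by
    linear_combination U * h1 - E * V * U * h2 + V ^ (q + 1) * ha - U ^ (q * q) * hrelK
  have hzero : w ^ (q + 1) - E * w ^ q + U ^ (q * q - 1) = 0 := by
    rcases mul_eq_zero.1 hkey with h | h
    · exact h
    · exact absurd h (mul_ne_zero (pow_ne_zero _ hV0) hU0)
  have hint : IsIntegral B w := by
    refine ⟨Polynomial.X ^ (q + 1) - Polynomial.C ε * Polynomial.X ^ q +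
      Polynomial.C (u ^ (q * q - 1)), ?_, ?_⟩
    · have hdeg : (Polynomial.C ε * Polynomial.X ^ q - Polynomial.C (u ^ (q * q - 1)) :
          Polynomial B).degree < ((q + 1 : ℕ) : WithBot ℕ) := by
        refine lt_of_le_of_lt (Polynomial.degree_sub_le _ _) (max_lt ?_ ?_)
        · refine lt_of_le_of_lt (Polynomial.degree_C_mul_X_pow_le q ε) ?_
          exact_mod_cast Nat.lt_succ_self q
        · refine lt_of_le_of_lt Polynomial.degree_C_le ?_
          exact_mod_cast Nat.succ_pos q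
      have := Polynomial.monic_X_pow_sub hdeg
      have e : Polynomial.X ^ (q + 1) - Polynomial.C ε * Polynomial.X ^ q +
          Polynomial.C (u ^ (q * q - 1)) =
          Polynomial.X ^ (q + 1) - (Polynomial.C ε * Polynomial.X ^ q -
            Polynomial.C (u ^ (q * q - 1))) := by ring
      rw [e]; exact this
    · rw [Polynomial.eval₂_add, Polynomial.eval₂_sub, Polynomial.eval₂_mul, Polynomial.eval₂_pow,
        Polynomial.eval₂_pow, Polynomial.eval₂_X, Polynomial.eval₂_C, Polynomial.eval₂_C, map_pow]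
      exact hzero
  obtain ⟨w', hw'⟩ := IsIntegrallyClosed.isIntegral_iff.1 hint
  refine ⟨w', hinj ?_⟩
  rw [map_mul, map_pow, hw', hwV]

end Integral

/-! ### 3. No crossing point at a cusp -/

section Main

variable {B D : Type*} [CommRing B] [IsDomain B] [IsIntegrallyClosed B] [CommRing D] [IsDomain D]

/-- **(M2-cusp), abstract form**: a proper ideal containing both vertical kernels does not contain
`v`. -/
theorem not_mem_of_ker_le (red₁ red₂ : B →+* D) (q : ℕ) (hq : 2 ≤ q) (u v ε : B) (ψ : D)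
    (hψ : ψ ≠ 0) (h1u : red₁ u = ψ) (h1v : red₁ v = ψ ^ q) (h2u : red₂ u = ψ ^ q)
    (h2v : red₂ v = ψ) (hrel : u * v * ε = u ^ (q + 1) + v ^ (q + 1))
    (n : Ideal B) (hn : n ≠ ⊤) (hk1 : RingHom.ker red₁ ≤ n) (hk2 : RingHom.ker red₂ ≤ n) :
    v ∉ n := by
  intro hvn
  have hv0 : v ≠ 0 := by
    rintro rfl
    rw [map_zero] at h2v
    exact hψ h2v.symm
  obtain ⟨w, hw⟩ := exists_mul_eq_pow q (by omega) u v ε hv0 hrel
  -- `red₁ w = 1`
  have hw1 : w - 1 ∈ RingHom.ker red₁ := by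
    rw [RingHom.mem_ker, map_sub, map_one, sub_eq_zero]
    have h := congrArg red₁ hw
    rw [map_mul, map_pow, h1u, h1v] at h
    exact mul_right_cancel₀ (pow_ne_zero q hψ) (by rw [h, one_mul])
  -- `red₂ w = red₂ (v ^ (q * q - 1))`
  have hq2 : q * q ≠ 0 := Nat.mul_ne_zero (by omega) (by omega)
  have hw2 : w - v ^ (q * q - 1) ∈ RingHom.ker red₂ := by
    rw [RingHom.mem_ker, map_sub, map_pow, h2v, sub_eq_zero]
    have h := congrArg red₂ hw
    rw [map_mul, map_pow, h2u, h2v, ← pow_mul] at h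
    apply mul_right_cancel₀ hψ
    rw [h, pow_sub_one_mul hq2]
  have hvp : v ^ (q * q - 1) ∈ n := by
    have : q * q - 1 ≠ 0 := by
      have : 4 ≤ q * q := Nat.mul_le_mul hq hq
      omega
    exact Ideal.pow_mem_of_mem n hvn _ (Nat.pos_of_ne_zero this)
  have hwn : w ∈ n := by
    have := n.add_mem (hk2 hw2) hvp
    rwa [sub_add_cancel] at this
  have h1 : (1 : B) ∈ n := by
    have := n.sub_mem hwn (hk1 hw1)
    rwa [sub_sub_cancel] at this
  exact hn ((Ideal.eq_top_iff_one n).2 h1)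

/-- the same for `u` (symmetry `u ↔ v`, `red₁ ↔ red₂`). -/
theorem not_mem_of_ker_le' (red₁ red₂ : B →+* D) (q : ℕ) (hq : 2 ≤ q) (u v ε : B) (ψ : D)
    (hψ : ψ ≠ 0) (h1u : red₁ u = ψ) (h1v : red₁ v = ψ ^ q) (h2u : red₂ u = ψ ^ q)
    (h2v : red₂ v = ψ) (hrel : u * v * ε = u ^ (q + 1) + v ^ (q + 1))
    (n : Ideal B) (hn : n ≠ ⊤) (hk1 : RingHom.ker red₁ ≤ n) (hk2 : RingHom.ker red₂ ≤ n) :
    u ∉ n :=
  not_mem_of_ker_le red₂ red₁ q hq v u ε ψ hψ h2v h2u h1v h1u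
    (by rw [mul_comm v u, hrel, add_comm]) n hn hk2 hk1

end Main

/-! ### 4. `TwoComponents` form -/

section TwoComp

open Fermat.Agent.S34.H83

variable {B R BM : Type*} [CommRing B] [IsDomain B] [IsIntegrallyClosed B] [CommRing R]
  [IsDomain R] [CommRing BM]
  {red₁ red₂ : B →+* R} {ι V : BM →+* B} {rbar : BM →+* R} {W : R →+* R} {q : ℕ} {qB : B}

/-- **(M2-cusp) at a `TwoComponents` package**: `ψ₀` in the level-`L` chart ring with
`W (rbar ψ₀) = (rbar ψ₀)^q ≠ 0` (e.g. `ψ₀ = 1/j`), related by `ε`: no proper ideal containing both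
vertical kernels contains `V ψ₀`. -/
theorem twoComponents_not_mem_V (h : TwoComponents red₁ red₂ ι V rbar W q qB) (hq : 2 ≤ q)
    (ψ₀ : BM) (hψ : rbar ψ₀ ≠ 0) (hW : W (rbar ψ₀) = rbar ψ₀ ^ q) (ε : B)
    (hrel : ι ψ₀ * V ψ₀ * ε = ι ψ₀ ^ (q + 1) + V ψ₀ ^ (q + 1))
    (n : Ideal B) (hn : n ≠ ⊤) (hk1 : RingHom.ker red₁ ≤ n) (hk2 : RingHom.ker red₂ ≤ n) :
    V ψ₀ ∉ n :=
  not_mem_of_ker_le red₁ red₂ q hq (ι ψ₀) (V ψ₀) ε (rbar ψ₀) hψ (h.h1ι ψ₀)
    (by rw [h.h1V, hW]) (by rw [h.h2ι, hW]) (h.h2V ψ₀) hrel n hn hk1 hk2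

theorem twoComponents_not_mem_ι (h : TwoComponents red₁ red₂ ι V rbar W q qB) (hq : 2 ≤ q)
    (ψ₀ : BM) (hψ : rbar ψ₀ ≠ 0) (hW : W (rbar ψ₀) = rbar ψ₀ ^ q) (ε : B)
    (hrel : ι ψ₀ * V ψ₀ * ε = ι ψ₀ ^ (q + 1) + V ψ₀ ^ (q + 1))
    (n : Ideal B) (hn : n ≠ ⊤) (hk1 : RingHom.ker red₁ ≤ n) (hk2 : RingHom.ker red₂ ≤ n) :
    ι ψ₀ ∉ n :=
  not_mem_of_ker_le' red₁ red₂ q hq (ι ψ₀) (V ψ₀) ε (rbar ψ₀) hψ (h.h1ι ψ₀)
    (by rw [h.h1V, hW]) (by rw [h.h2ι, hW]) (h.h2V ψ₀) hrel n hn hk1 hk2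

end TwoComp

end Fermat.Agent.S36.H27
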