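import Mathlib
import Fermat.Agent.S36.H99_BridgeInfty

/-!
# S36 / (M2e)(A-exp) brick (helper27): the `q`-expansion principle for FRACTIONS

Extension of helper99's `S36.H99_GaussBridge` from `A`-integral expansions `c f = up z` to
fractional ones `c f * up b = up a`, `red b ≠ 0` (`a`, `b` arbitrary `A`-integral series, NOT
necessarily expansions of elements of the function field - e.g. `a = (θ s)(t^q)`, `b = (θ s)(t)`
for the function `ω_s = (1/q) d(V s)/d(ι s)`):

* `res1_mul_red_of_frac` : `f ∈ P.O1`, `c f * up b = up a`  ⟹  `P.res1 f * red b = red a`;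
* `mem_place_of_frac`    : `c f * up b = up a`, `red b ≠ 0`  ⟹  `f ∈ P.O1`;
* `exists_mem_place_res1_of_frac` : both, with a free name for the residue of `θ`;
* `exists_mem_placeInfty_of_frac` : the instance at the `∞`-place of `F_{ℓM}` over `V_M`
  (`S34.H55.PlaceInf`), twin of `S36.H99.exists_mem_placeInfty_of_up`;
* `isUnit_placeInfty_of_frac` : if moreover `red a ≠ 0` then `f⁻¹ ∈ P.O1` too.
-/

set_option autoImplicit false
set_option linter.unusedSectionVars false
set_option linter.style.haveILetI false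
set_option synthInstance.maxHeartbeats 400000

open Polynomial

noncomputable section

namespace Fermat.Agent.S36.H27

open Fermat.Agent.S18.H92 Fermat.Agent.CA.H99 Fermat.Agent.S36.H99

section RatioBridge

variable {L : Type*} [Field L] {k : Type*} [Field k] {A : ValuationSubring L} {π : A →+* k}
  (T : TwoGen A π)
  (F : IntermediateField L (LaurentSeries L)) (hF : F = T.FL)
  {F' : Type*} [Field F'] [Algebra (T.unitBall F hF) F']
  (c : F' →+* LaurentSeries L)
  (hc : ∀ v : T.unitBall F hF, c (algebraMap (T.unitBall F hF) F' v) = ((v : F) : LaurentSeries L))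
  (ι : T.unitBall F hF →+* LaurentSeries k)
  (hι : ∀ v : T.unitBall F hF, ι v = T.resFun ((v : F) : LaurentSeries L))
  {θ : F'} {Θ : LaurentSeries A} (hΘ : c θ = up A Θ)

include hc hι hΘ

variable {ϖ : T.unitBall F hF} (P : PlaceOver ϖ θ ι (T.red Θ))

/-- **(fraction bridge, residue)** -/
theorem res1_mul_red_of_frac (f : F') (hf : f ∈ P.O1) (a b : LaurentSeries A)
    (hab : c f * up A b = up A a) : P.res1 ⟨f, hf⟩ * T.red b = T.red a := by
  obtain ⟨a', s, hs, efs⟩ := P.exists_repr f hf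
  obtain ⟨βs, Ss, hβs, hs1, hs2⟩ := exists_integral_multiple T F hF c hc ι hι hΘ s
  obtain ⟨βa, Sa, hβa, ha1, ha2⟩ := exists_integral_multiple T F hF c hc ι hι hΘ a'
  have hr : P.res1 ⟨f, hf⟩ * s.eval₂ ι (T.red Θ) = a'.eval₂ ι (T.red Θ) := by
    rw [← P.res1_aeval s, ← P.res1_aeval a', ← map_mul]
    exact P.res1_congr _ _ efs
  have h3 : up A (a * Ss * βa) = up A (b * βs * Sa) := by
    rw [map_mul, map_mul, map_mul, map_mul, ← hs1, ← ha1, ← hab, ← efs, map_mul]
    ring
  have h4 := congrArg T.red (up_injective A h3)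
  rw [map_mul, map_mul, map_mul, map_mul, hs2, ha2] at h4
  have h6 : T.red βs * T.red βa ≠ 0 := mul_ne_zero hβs hβa
  have h5 : T.red a * s.eval₂ ι (T.red Θ) = T.red b * a'.eval₂ ι (T.red Θ) := by
    apply mul_left_cancel₀ h6
    rw [← sub_eq_zero] at h4 ⊢
    rw [← h4]; ring
  apply mul_right_cancel₀ hs
  rw [h5, ← hr]; ring

/-- **(fraction bridge, membership)** -/
theorem mem_place_of_frac (f : F') (a b : LaurentSeries A) (hb : T.red b ≠ 0)
    (hab : c f * up A b = up A a) : f ∈ P.O1 := by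
  by_contra hf
  have hfinv : f⁻¹ ∈ P.O1 := (P.mem_or_inv_mem f).resolve_left hf
  have hf0 : f ≠ 0 := by
    rintro rfl
    exact hf (Subring.zero_mem _)
  have hinv : c f⁻¹ * up A a = up A b := by
    rw [← hab, ← mul_assoc, ← map_mul, inv_mul_cancel₀ hf0, map_one, one_mul]
  have h1 := res1_mul_red_of_frac T F hF c hc ι hι hΘ P f⁻¹ hfinv b a hinv
  have hne : P.res1 ⟨f⁻¹, hfinv⟩ ≠ 0 := by
    intro h0
    rw [h0, zero_mul] at h1
    exact hb h1.symm
  have := P.inv_mem _ hfinv hne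
  rw [inv_inv] at this
  exact hf this

omit hΘ in
/-- **(fraction bridge)**, with a free name for the residue of `θ`. -/
theorem exists_mem_place_res1_of_frac {ϖ : T.unitBall F hF} {θb : LaurentSeries k}
    (hΘ : c θ = up A Θ) (hθb : θb = T.red Θ) (P : PlaceOver ϖ θ ι θb)
    (f : F') (a b : LaurentSeries A) (hb : T.red b ≠ 0) (hab : c f * up A b = up A a) :
    ∃ hf : f ∈ P.O1, P.res1 ⟨f, hf⟩ * T.red b = T.red a := by
  subst hθb
  exact ⟨mem_place_of_frac T F hF c hc ι hι hΘ P f a b hb hab,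
    res1_mul_red_of_frac T F hF c hc ι hι hΘ P f _ a b hab⟩

end RatioBridge

section L0

open ModularCurve IsLocalRing Fermat.Agent.S28
open Fermat.Agent.S18 Fermat.Agent.S34.H92 Fermat.Agent.S34.H16

local notation "Qbar" => AlgebraicClosure ℚ

variable (M : ℕ) [NeZero M] {ℓ : ℕ} [hℓ : Fact ℓ.Prime] (hℓM : ¬ ℓ ∣ M)
  (A : ValuationSubring Qbar) (hA : A.LiesOverPrime ℓ)

local notation "kA" => IsLocalRing.ResidueField A
local notation "A₁" => H45.A0 A ℓ
local notation "L₁" => H45.unrCyclo ℓ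
local notation "FM" => modularFunctionFieldFullC (H45.unrCyclo ℓ) M
local notation "FN" => modularFunctionFieldFullC (H45.unrCyclo ℓ) (ℓ * M)

/-- **The `q`-expansion principle for fractions at the `∞`-place of `F_{ℓM}`.** -/
theorem exists_mem_placeInfty_of_frac :
    letI := algebraVMFN M hℓM A hA
    ∀ (P : CA.H99.PlaceOver (L := ↥FN) (((ℓ : ℕ) : ↥(VM M hℓM A hA))) (S18.H16.jNK L₁ (ℓ * M))
        (resM M hℓM A hA) (resM M hℓM A hA (jMV M hℓM A hA) ^ ℓ))
      (f : FN) (a b : LaurentSeries A₁)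
      (_ : coeffMap (H45.resA0 A ℓ) b ≠ 0)
      (_ : (f : LaurentSeries L₁) * coeffMap (A₁).subtype b = coeffMap (A₁).subtype a),
      ∃ hf : f ∈ P.O1,
        P.res1 ⟨f, hf⟩ * coeffMap (H45.resA0 A ℓ) b = coeffMap (H45.resA0 A ℓ) a := by
  letI := algebraVMFN M hℓM A hA
  haveI : CharP kA ℓ := Fermat.Agent.S18.H92.charP_residueField A hA
  intro P f a b hb hab
  letI : Algebra ((twoGenA0 M hℓM A hA).unitBall FM (twoGenA0_FL M hℓM A hA)) FN :=
    algebraVMFN M hℓM A hA
  refine exists_mem_place_res1_of_frac (twoGenA0 M hℓM A hA) FM (twoGenA0_FL M hℓM A hA)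
    (F' := FN) (coeFN M) ?_ (resM M hℓM A hA) ?_
    (θ := S18.H16.jNK L₁ (ℓ * M)) (Θ := qExpand A₁ (ℓ * M) (jqModC A₁)) ?_ ?_ P f a b hb hab
  · intro v
    exact degAlgebra_algebraMap_coe L₁ M (ℓ * M) (dvd_level M) (v : FM)
  · intro v
    rfl
  · rw [coeFN_apply, S18.H16.coe_jNK]
    show _ = coeffMap (A₁).subtype (qExpand A₁ (ℓ * M) (jqModC A₁))
    rw [coeffMap_qExpand, coeffMap_jqModC]
  · show _ = coeffMap (H45.resA0 A ℓ) (qExpand A₁ (ℓ * M) (jqModC A₁))
    rw [coeffMap_qExpand, coeffMap_jqModC, resM_jMV]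
    rw [← S34.H36.qExpand_jd_char kA ℓ M]
    exact qExpand_qExpand (R := kA) (N := M) ℓ (jqModC kA)

/-- if moreover `red a ≠ 0`, `f` is a unit of the place. -/
theorem isUnit_placeInfty_of_frac :
    letI := algebraVMFN M hℓM A hA
    ∀ (P : CA.H99.PlaceOver (L := ↥FN) (((ℓ : ℕ) : ↥(VM M hℓM A hA))) (S18.H16.jNK L₁ (ℓ * M))
        (resM M hℓM A hA) (resM M hℓM A hA (jMV M hℓM A hA) ^ ℓ))
      (f : FN) (a b : LaurentSeries A₁)
      (_ : coeffMap (H45.resA0 A ℓ) b ≠ 0) (_ : coeffMap (H45.resA0 A ℓ) a ≠ 0)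
      (_ : (f : LaurentSeries L₁) * coeffMap (A₁).subtype b = coeffMap (A₁).subtype a),
      f ∈ P.O1 ∧ f⁻¹ ∈ P.O1 := by
  letI := algebraVMFN M hℓM A hA
  intro P f a b hb ha hab
  obtain ⟨hf, hres⟩ := exists_mem_placeInfty_of_frac M hℓM A hA P f a b hb hab
  refine ⟨hf, P.inv_mem _ hf ?_⟩
  intro h0
  rw [h0, zero_mul] at hres
  exact ha hres.symm

end L0

end Fermat.Agent.S36.H27
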