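/-
helper2 — S36 row (D1c): a constant field extension is unramified at every place.

* `exists_eq_uniformizer_mul_of_separable` (abstract core, `CA.H99` vocabulary): `O` a DVR with
  uniformiser `ϖ` and fraction field `K`, `L = K(θ)` with `θ` separable algebraic over a subfield
  `k0 ⊆ O`; then every valuation subring `V ⊇ O` of `L` in which `ϖ` is a non-unit has maximal
  ideal `ϖ V`.
* `exists_ord_algebraMap_eq_one` (generic, `S18.H95` `Extend` binder block): `K' / K` algebraic,
  characteristic `0`, `F' = K'[F]`: every place `v` of `F' / K'` has a uniformiser coming from `F`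
  (`= hunif` of `S34.H65.dvd_ord_of_dvd_ord_above`).
-/
import Mathlib
import Fermat.Agent.CA.H99_TwoPlacesThm
import Fermat.Agent.S18.H95_PlaceExt

set_option autoImplicit false
set_option linter.unusedSectionVars false
set_option linter.style.haveILetI false

noncomputable section

namespace Fermat.Agent.S36.H2

open Polynomial IsLocalRing AlgebraicCurve
open Fermat.Agent.CA Fermat.Agent.S18 Fermat.Agent.S24

section Core

variable {O : Type*} [CommRing O] [IsDomain O] [IsDiscreteValuationRing O]
variable {K : Type*} [Field K] [Algebra O K] [IsFractionRing O K]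
variable {L : Type*} [Field L] [Algebra O L] [Algebra K L] [IsScalarTower O K L]

/-- for `x ≠ 0`: `x` is a non-unit of `V` iff `x⁻¹ ∉ V`. -/
theorem mem_nonunits_iff_inv_not_mem (V : ValuationSubring L) {x : L} (hx : x ≠ 0) :
    x ∈ V.nonunits ↔ x⁻¹ ∉ V := by
  rw [ValuationSubring.mem_nonunits_iff, ← ValuationSubring.valuation_le_one_iff, map_inv₀,
    not_le]
  constructor
  · intro h
    exact (one_lt_inv₀ ((Valuation.pos_iff _).mpr hx)).mpr h
  · intro h
    exact (one_lt_inv₀ ((Valuation.pos_iff _).mpr hx)).mp h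

set_option maxHeartbeats 1600000 in
/-- **Abstract core.** -/
theorem exists_eq_uniformizer_mul_of_separable
    (k0 : Type*) [Field k0] [Algebra k0 O] [Algebra k0 L] [IsScalarTower k0 O L]
    {ϖ : O} (hϖ : maximalIdeal O = Ideal.span {ϖ})
    (θ : L) (hint : IsIntegral k0 θ) (hsep : (minpoly k0 θ).Separable)
    (hgen : Algebra.adjoin K {θ} = ⊤)
    (V : ValuationSubring L) (hOV : ∀ a : O, algebraMap O L a ∈ V)
    (hϖV : algebraMap O L ϖ ∈ V.nonunits) :
    ∀ y ∈ V.nonunits, ∃ z ∈ V, y = algebraMap O L ϖ * z := by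
  classical
  have hOL : Function.Injective (algebraMap O L) := S28.H98.algebraMap_injective_of_tower K
  haveI : Module.IsTorsionFree O L := Module.isTorsionFree_iff_algebraMap_injective.mpr hOL
  have hθO : IsIntegral O θ := hint.tower_top
  set f : O[X] := minpoly O θ with hfdef
  have hf : f.Monic := minpoly.monic hθO
  have hθ : aeval θ f = 0 := minpoly.aeval O θ
  have hmin : ∀ p : O[X], aeval θ p = 0 → f ∣ p :=
    fun p hp => minpoly.isIntegrallyClosed_dvd hθO hp
  -- separability of the reduction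
  have hF0 : aeval θ ((minpoly k0 θ).map (algebraMap k0 O)) = 0 := by
    rw [aeval_map_algebraMap]; exact minpoly.aeval k0 θ
  have hdvd : f ∣ (minpoly k0 θ).map (algebraMap k0 O) := hmin _ hF0
  have hsepf : (f.map (residue O)).Separable := by
    have h1 : (((minpoly k0 θ).map (algebraMap k0 O)).map (residue O)).Separable := by
      rw [Polynomial.map_map]; exact hsep.map
    exact h1.of_dvd (Polynomial.map_dvd _ hdvd)
  -- the residue field of `V`
  have hθV : θ ∈ V := H99.mem_valuationSubring_of_isIntegral V hOV hθO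
  have hS : ∀ p : O[X], aeval θ p ∈ V := H99.aeval_mem_valuationSubring V hOV hθV
  let ιV : O →+* V := (algebraMap O L).codRestrict V.toSubring hOV
  let ι : O →+* ResidueField V := (residue V).comp ιV
  have hι : ι ϖ = 0 := by
    obtain ⟨h1, h2⟩ := ValuationSubring.mem_nonunits_iff_exists_mem_maximalIdeal.mp hϖV
    exact (residue_eq_zero_iff _).mpr h2
  let θb : ResidueField V := residue V ⟨θ, hθV⟩
  let aevalV : O[X] →+* V :=
    ((aeval θ : O[X] →ₐ[O] L) : O[X] →+* L).codRestrict V.toSubring hS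
  have hres : ∀ p : O[X], residue V ⟨aeval θ p, hS p⟩ = p.eval₂ ι θb := by
    have h : (residue V).comp aevalV = Polynomial.eval₂RingHom ι θb := by
      apply Polynomial.ringHom_ext
      · intro a
        show residue V ⟨aeval θ (C a), _⟩ = (C a).eval₂ ι θb
        rw [eval₂_C]
        show residue V ⟨aeval θ (C a), _⟩ = residue V ⟨algebraMap O L a, hOV a⟩
        congr 1
        exact Subtype.ext (aeval_C θ a)
      · show residue V ⟨aeval θ X, _⟩ = (X : O[X]).eval₂ ι θb
        rw [eval₂_X]
        show residue V ⟨aeval θ X, _⟩ = residue V ⟨θ, hθV⟩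
        congr 1
        exact Subtype.ext (aeval_X θ)
    exact fun p => congrFun (congrArg DFunLike.coe h) p
  -- the irreducible factor of `f̄` killing `θb`
  letI : Algebra (ResidueField O) (ResidueField V) := (H99.resLift hϖ ι hι).toAlgebra
  have hfb : (f.map (residue O)).eval₂ (H99.resLift hϖ ι hι) θb = 0 := by
    rw [← H99.eval₂_eq_eval₂_map_residue hϖ ι hι, ← hres f]
    have : (⟨aeval θ f, hS f⟩ : V) = 0 := Subtype.ext hθ
    rw [this, map_zero]
  have hintb : IsIntegral (ResidueField O) θb := ⟨f.map (residue O), hf.map _, hfb⟩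
  have hgdvd : minpoly (ResidueField O) θb ∣ f.map (residue O) :=
    minpoly.dvd _ _ (by rw [aeval_def]; exact hfb)
  obtain ⟨hb, hhb⟩ := hgdvd
  obtain ⟨g, hg⟩ := Polynomial.map_surjective (residue O) residue_surjective
    (minpoly (ResidueField O) θb)
  obtain ⟨h, hh⟩ := Polynomial.map_surjective (residue O) residue_surjective hb
  have hfac : f.map (residue O) = g.map (residue O) * h.map (residue O) := by
    rw [hg, hh, hhb]
  have hirr : Irreducible (g.map (residue O)) := by
    rw [hg]; exact minpoly.irreducible hintb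
  have hcop : IsCoprime (g.map (residue O)) (h.map (residue O)) := by
    rw [hfac] at hsepf
    exact hsepf.isCoprime
  have hθb : g.eval₂ ι θb = 0 := by
    rw [H99.eval₂_eq_eval₂_map_residue hϖ ι hι, hg]
    have := minpoly.aeval (ResidueField O) θb
    rwa [aeval_def] at this
  obtain ⟨P⟩ := H99.nonempty_placeOver (K := K) hf hfac hirr hcop hϖ θ hθ hmin hgen ι hι θb hθb
  have hgV : aeval θ g ∈ V.nonunits := by
    rw [ValuationSubring.mem_nonunits_iff_exists_mem_maximalIdeal]
    refine ⟨hS g, ?_⟩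
    rw [← residue_eq_zero_iff, hres g, hθb]
  have heq : V.toSubring = P.O1 :=
    H99.eq_of_valuationSubring hf hirr hϖ θ hθ hι hθb P V hOV hϖV hgV
  intro y hy
  have hyV : y ∈ V := (ValuationSubring.mem_nonunits_iff_exists_mem_maximalIdeal.mp hy).1
  have hyO1 : y ∈ P.O1 := by rw [← heq]; exact hyV
  by_cases hres0 : P.res1 ⟨y, hyO1⟩ = 0
  · obtain ⟨z, hz, e⟩ := (P.res1_eq_zero_iff y hyO1).1 hres0
    refine ⟨z, ?_, e⟩
    show z ∈ V.toSubring
    rw [heq]; exact hz
  · exfalso
    have hy0 : y ≠ 0 := by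
      rintro rfl
      apply hres0
      have : (⟨0, hyO1⟩ : P.O1) = 0 := rfl
      rw [this, map_zero]
    have hinv : y⁻¹ ∈ P.O1 := P.inv_mem y hyO1 hres0
    have hinvV : y⁻¹ ∈ V := by
      show y⁻¹ ∈ V.toSubring
      rw [heq]; exact hinv
    exact (mem_nonunits_iff_inv_not_mem V hy0).mp hy hinvV

end Core

section Generic

variable {K F K' F' : Type*} [Field K] [Field F] [Algebra K F] [Field K'] [Field F']
  [Algebra K' F'] [Algebra K K'] [Algebra F F'] [Algebra K F'] [IsScalarTower K F F']
  [IsScalarTower K K' F']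

/-- `θ₁ ∈ K[θ]` gives `θ₁ ∈ F[θ]` after pushing to `F'`. -/
theorem algebraMap_mem_adjoin_of_mem_adjoin {θ θ₁ : K'} (h : θ₁ ∈ Algebra.adjoin K {θ}) :
    algebraMap K' F' θ₁ ∈ Algebra.adjoin F {algebraMap K' F' θ} := by
  rw [Algebra.adjoin_singleton_eq_range_aeval] at h
  obtain ⟨p, hp⟩ := h
  have hp' : aeval θ p = θ₁ := hp
  have h1 : algebraMap K' F' (aeval θ p) = aeval (algebraMap K' F' θ) p :=
    (aeval_algebraMap_apply F' θ p).symm
  have h2 : aeval (algebraMap K' F' θ) p
      = aeval (algebraMap K' F' θ) (p.map (algebraMap K F)) := (aeval_map_algebraMap F _ p).symm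
  rw [← hp', h1, h2]
  exact aeval_mem_adjoin_singleton _ _

/-- two algebraic constants lie in a common simple extension (primitive element theorem). -/
theorem exists_primitive_pair [Algebra.IsAlgebraic K K'] [CharZero K] (θ₁ θ₂ : K') :
    ∃ θ : K', θ₁ ∈ Algebra.adjoin K {θ} ∧ θ₂ ∈ Algebra.adjoin K {θ} := by
  classical
  set E : IntermediateField K K' := IntermediateField.adjoin K {θ₁, θ₂} with hE
  have hint : ∀ x ∈ ({θ₁, θ₂} : Set K'), IsIntegral K x :=
    fun x _ => (Algebra.IsAlgebraic.isAlgebraic x).isIntegral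
  haveI : FiniteDimensional K E :=
    IntermediateField.finiteDimensional_adjoin (K := K) (S := ({θ₁, θ₂} : Set K')) hint
  obtain ⟨α, hα⟩ := Field.exists_primitive_element K E
  have hαint : IsIntegral K α := (Algebra.IsAlgebraic.isAlgebraic α).isIntegral
  have htop : Algebra.adjoin K {α} = ⊤ := by
    have h := IntermediateField.adjoin_simple_toSubalgebra_of_isAlgebraic
      (Algebra.IsAlgebraic.isAlgebraic (R := K) α)
    rw [← h, hα, IntermediateField.top_toSubalgebra]
  have key : ∀ x : E, (x : K') ∈ Algebra.adjoin K {(α : K')} := by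
    intro x
    have hx : x ∈ Algebra.adjoin K {α} := by rw [htop]; trivial
    have h2 : (E.val : E →ₐ[K] K') x ∈ (Algebra.adjoin K {α}).map (E.val : E →ₐ[K] K') :=
      ⟨x, hx, rfl⟩
    rw [AlgHom.map_adjoin_singleton] at h2
    exact h2
  have h1 : θ₁ ∈ E := IntermediateField.subset_adjoin K _ (by simp)
  have h2 : θ₂ ∈ E := IntermediateField.subset_adjoin K _ (by simp)
  exact ⟨(α : K'), key ⟨θ₁, h1⟩, key ⟨θ₂, h2⟩⟩

/-- every element of `F' = K'[F]` lies in a simple extension `F[θ]`, `θ` a constant. -/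
theorem exists_mem_adjoin_simple [Algebra.IsAlgebraic K K'] [CharZero K]
    (hgen : Algebra.adjoin K' (Set.range (algebraMap F F')) = ⊤) (y : F') :
    ∃ θ : K', y ∈ Algebra.adjoin F {algebraMap K' F' θ} := by
  have hy : y ∈ Algebra.adjoin K' (Set.range (algebraMap F F')) := by rw [hgen]; trivial
  have hcomb : ∀ (θ₁ θ₂ : K') (y₁ y₂ : F'),
      y₁ ∈ Algebra.adjoin F {algebraMap K' F' θ₁} → y₂ ∈ Algebra.adjoin F {algebraMap K' F' θ₂} →
      ∃ θ : K', y₁ ∈ Algebra.adjoin F {algebraMap K' F' θ} ∧
        y₂ ∈ Algebra.adjoin F {algebraMap K' F' θ} := by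
    intro θ₁ θ₂ y₁ y₂ h₁ h₂
    obtain ⟨θ, hθ₁, hθ₂⟩ := exists_primitive_pair (K := K) θ₁ θ₂
    have hle₁ : Algebra.adjoin F {algebraMap K' F' θ₁} ≤ Algebra.adjoin F {algebraMap K' F' θ} :=
      Algebra.adjoin_le (Set.singleton_subset_iff.mpr
        (algebraMap_mem_adjoin_of_mem_adjoin (F := F) hθ₁))
    have hle₂ : Algebra.adjoin F {algebraMap K' F' θ₂} ≤ Algebra.adjoin F {algebraMap K' F' θ} :=
      Algebra.adjoin_le (Set.singleton_subset_iff.mpr
        (algebraMap_mem_adjoin_of_mem_adjoin (F := F) hθ₂))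
    exact ⟨θ, hle₁ h₁, hle₂ h₂⟩
  induction hy using Algebra.adjoin_induction with
  | mem x hx =>
    obtain ⟨x0, rfl⟩ := hx
    exact ⟨0, Subalgebra.algebraMap_mem _ x0⟩
  | algebraMap c => exact ⟨c, Algebra.subset_adjoin rfl⟩
  | add y₁ y₂ _ _ ih₁ ih₂ =>
    obtain ⟨θ₁, h₁⟩ := ih₁
    obtain ⟨θ₂, h₂⟩ := ih₂
    obtain ⟨θ, h₁', h₂'⟩ := hcomb θ₁ θ₂ y₁ y₂ h₁ h₂
    exact ⟨θ, add_mem h₁' h₂'⟩
  | mul y₁ y₂ _ _ ih₁ ih₂ =>
    obtain ⟨θ₁, h₁⟩ := ih₁
    obtain ⟨θ₂, h₂⟩ := ih₂
    obtain ⟨θ, h₁', h₂'⟩ := hcomb θ₁ θ₂ y₁ y₂ h₁ h₂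
    exact ⟨θ, mul_mem h₁' h₂'⟩

/-- constants are integral over `F`. -/
theorem isIntegral_algebraMap_const [Algebra.IsAlgebraic K K'] (θ : K') :
    IsIntegral F (algebraMap K' F' θ) := by
  have h0 : IsIntegral K θ := (Algebra.IsAlgebraic.isAlgebraic θ).isIntegral
  have h1 : IsIntegral K (algebraMap K' F' θ) := h0.map (IsScalarTower.toAlgHom K K' F')
  exact h1.tower_top

/-- `F' / F` is integral. -/
theorem isIntegral_of_gen [Algebra.IsAlgebraic K K'] [CharZero K]
    (hgen : Algebra.adjoin K' (Set.range (algebraMap F F')) = ⊤) (y : F') : IsIntegral F y := by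
  obtain ⟨θ, hθ⟩ := exists_mem_adjoin_simple (K := K) hgen y
  exact IsIntegral.of_mem_of_fg _
    (isIntegral_algebraMap_const (K := K) (F := F) θ).fg_adjoin_singleton y hθ

/-- a place of `F' / K'` is nontrivial on `F`. -/
theorem exists_ord_algebraMap_ne_zero [Algebra.IsAlgebraic K K'] [CharZero K]
    (hgen : Algebra.adjoin K' (Set.range (algebraMap F F')) = ⊤) (v : Place K' F') :
    ∃ f : F, f ≠ 0 ∧ v.ord (algebraMap F F' f) ≠ 0 := by
  by_contra hcon
  push Not at hcon
  obtain ⟨π, hπ0, hπ⟩ := H27.exists_ord_eq_one v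
  have hFV : ∀ a : F, algebraMap F F' a ∈ v.toValuationSubring := by
    intro a
    rcases eq_or_ne a 0 with rfl | ha
    · rw [map_zero]; exact zero_mem _
    · rw [H27.mem_toValuationSubring_of_ne_zero v ((_root_.map_ne_zero _).mpr ha), hcon a ha]
  have hmem : π⁻¹ ∈ v.toValuationSubring :=
    H99.mem_valuationSubring_of_isIntegral v.toValuationSubring hFV
      (isIntegral_of_gen (K := K) hgen π⁻¹)
  rw [H27.mem_toValuationSubring_of_ne_zero v (inv_ne_zero hπ0), Place.ord_inv, hπ] at hmem
  omega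

set_option maxHeartbeats 1600000 in
/-- **A constant field extension is unramified at every place**: `K' / K` algebraic,
characteristic `0`, `F' = K'[F]`; every place `v` of `F' / K'` has a uniformiser coming
from `F`. -/
theorem exists_ord_algebraMap_eq_one [Algebra.IsAlgebraic K K'] [CharZero K]
    (hgen : Algebra.adjoin K' (Set.range (algebraMap F F')) = ⊤) (v : Place K' F') :
    ∃ t : F, v.ord (algebraMap F F' t) = 1 := by
  classical
  have hnt := exists_ord_algebraMap_ne_zero (K := K) hgen v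
  set w : Place K F := H95.restrictPlace (K := K) v hnt with hw
  have hord : ∀ f : F, v.ord (algebraMap F F' f) = H95.ramIdx (K := K) v hnt * w.ord f :=
    H95.ord_algebraMap_eq (K := K) v hnt
  have he : 0 < H95.ramIdx (K := K) v hnt := H95.ramIdx_pos (K := K) v hnt
  obtain ⟨ϖ, hϖirr⟩ := IsDiscreteValuationRing.exists_irreducible w.toValuationSubring
  have hϖord : w.ord (ϖ : F) = 1 := w.ord_coe_irreducible hϖirr
  have hϖ0 : (ϖ : F) ≠ 0 := H27.coe_irreducible_ne_zero w hϖirr
  have hϖ : maximalIdeal w.toValuationSubring = Ideal.span {ϖ} := hϖirr.maximalIdeal_eq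
  obtain ⟨π, hπ0, hπ⟩ := H27.exists_ord_eq_one v
  obtain ⟨θ, hθ⟩ := exists_mem_adjoin_simple (K := K) hgen π
  set θ' : F' := algebraMap K' F' θ with hθ'
  have hθ'int : IsIntegral F θ' := isIntegral_algebraMap_const (K := K) (F := F) θ
  have hθ'intK : IsIntegral K θ' :=
    ((Algebra.IsAlgebraic.isAlgebraic θ).isIntegral : IsIntegral K θ).map
      (IsScalarTower.toAlgHom K K' F')
  -- the intermediate field `L = F(θ')`
  let L : IntermediateField F F' := IntermediateField.adjoin F {θ'}
  letI algOL : Algebra w.toValuationSubring L :=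
    ((algebraMap F L).comp w.toValuationSubring.subtype).toAlgebra
  haveI : IsScalarTower w.toValuationSubring F L := IsScalarTower.of_algebraMap_eq fun _ => rfl
  haveI : IsScalarTower K w.toValuationSubring L := IsScalarTower.of_algebraMap_eq fun a => by
    apply Subtype.ext
    show algebraMap K F' a = algebraMap F F' (algebraMap K F a)
    exact IsScalarTower.algebraMap_apply K F F' a
  haveI : IsScalarTower K L F' := IsScalarTower.of_algebraMap_eq fun _ => rfl
  let θL : L := IntermediateField.AdjoinSimple.gen F θ'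
  have hθLint : IsIntegral K θL := by
    have h : IsIntegral K (algebraMap L F' θL) := hθ'intK
    exact (isIntegral_algebraMap_iff (algebraMap L F').injective).mp h
  have hsep : (minpoly K θL).Separable := (minpoly.irreducible hθLint).separable
  have hgenL : Algebra.adjoin F {θL} = ⊤ := by
    have h := (IntermediateField.adjoin.powerBasis hθ'int).adjoin_gen_eq_top
    rwa [IntermediateField.adjoin.powerBasis_gen] at h
  let V : ValuationSubring L := v.toValuationSubring.comap (algebraMap L F')
  have hOV : ∀ a : w.toValuationSubring, algebraMap w.toValuationSubring L a ∈ V := by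
    intro a
    show algebraMap L F' (algebraMap w.toValuationSubring L a) ∈ v.toValuationSubring
    have : algebraMap L F' (algebraMap w.toValuationSubring L a) = algebraMap F F' (a : F) := rfl
    rw [this]
    exact (H95.mem_restrictPlace_iff (K := K) v hnt (a : F)).mp a.2
  have hϖF' : v.ord (algebraMap F F' (ϖ : F)) = H95.ramIdx (K := K) v hnt := by
    rw [hord, hϖord, mul_one]
  have hϖF'0 : algebraMap F F' (ϖ : F) ≠ 0 := (_root_.map_ne_zero _).mpr hϖ0
  have hϖL0 : algebraMap w.toValuationSubring L ϖ ≠ 0 := by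
    intro h
    apply hϖF'0
    have : algebraMap L F' (algebraMap w.toValuationSubring L ϖ) = algebraMap F F' (ϖ : F) := rfl
    rw [← this, h, map_zero]
  have hϖV : algebraMap w.toValuationSubring L ϖ ∈ V.nonunits := by
    rw [mem_nonunits_iff_inv_not_mem V hϖL0]
    intro hmem
    have hmem' : algebraMap L F' (algebraMap w.toValuationSubring L ϖ)⁻¹
        ∈ v.toValuationSubring := hmem
    have : algebraMap L F' (algebraMap w.toValuationSubring L ϖ)⁻¹
        = (algebraMap F F' (ϖ : F))⁻¹ := by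
      rw [map_inv₀]; rfl
    rw [this, H27.mem_toValuationSubring_of_ne_zero v (inv_ne_zero hϖF'0), Place.ord_inv,
      hϖF'] at hmem'
    omega
  -- `π` as an element of `L`
  have hπL : π ∈ L := IntermediateField.algebra_adjoin_le_adjoin F _ hθ
  let πL : L := ⟨π, hπL⟩
  have hπL0 : πL ≠ 0 := by
    intro h
    apply hπ0
    have : (πL : F') = 0 := by rw [h]; rfl
    exact this
  have hπV : πL ∈ V.nonunits := by
    rw [mem_nonunits_iff_inv_not_mem V hπL0]
    intro hmem
    have hmem' : algebraMap L F' πL⁻¹ ∈ v.toValuationSubring := hmem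
    have : algebraMap L F' πL⁻¹ = π⁻¹ := by
      rw [map_inv₀]; rfl
    rw [this, H27.mem_toValuationSubring_of_ne_zero v (inv_ne_zero hπ0), Place.ord_inv,
      hπ] at hmem'
    omega
  obtain ⟨z, hzV, hz⟩ := exists_eq_uniformizer_mul_of_separable (K := F) K hϖ θL hθLint hsep
    hgenL V hOV hϖV πL hπV
  have hzF' : π = algebraMap F F' (ϖ : F) * algebraMap L F' z := by
    have := congrArg (algebraMap L F') hz
    rw [map_mul] at this
    exact this
  have hz0 : algebraMap L F' z ≠ 0 := by
    intro h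
    apply hπ0
    rw [hzF', h, mul_zero]
  have hzord : 0 ≤ v.ord (algebraMap L F' z) :=
    (H27.mem_toValuationSubring_of_ne_zero v hz0).mp hzV
  have hsum : (1 : ℤ) = H95.ramIdx (K := K) v hnt + v.ord (algebraMap L F' z) := by
    rw [← hπ, hzF', Place.ord_mul v hϖF'0 hz0, hϖF']
  refine ⟨(ϖ : F), ?_⟩
  rw [hϖF']
  omega

end Generic

end Fermat.Agent.S36.H2
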