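/-
S36 (helper31): THE ABSTRACT KEY of row (T2) of helper78's S36 chain.

Setting of `S30.H57` (`Tate`, `tateRep`, `eigen`, `eigenRep`): `J` an abelian group acted on by a
group `G` through `ρJ` and by commuting operators `τ i`; `O` a `ℤ_[p]`-algebra.

* `Kolchin` section (Mathlib only): a group acting on a nontrivial module without `2`-torsion
  such that `(ρ g - 1)² = 0` for all `g` has a nonzero invariant vector
  (`exists_ne_zero_invariant`); this is the elementary substitute for Kolchin's theorem of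
  helper78's #3022 (anticommutation, vanishing of all triple products).
* `TateInv` section: if `O` is free over `ℤ_[p]`, an element of `O ⊗ T_p J` fixed by `G` has
  `G`-fixed coordinates in `T_p J` (`tensor_eq_zero_of_forall_tateRep_eq`); if the `G`-fixed
  elements of `J[p^k]` are killed by a fixed `N > 0` for all `k`, then `(T_p J)^G = 0`
  (`tate_eq_zero_of_invariant_of_bounded`).
* `not_forall_unipotent_of_bounded_invariants`: hence, if the eigenspace is nontrivial and without
  `2`-torsion, NOT all `g ∈ G` satisfy `(eigenRep g - 1)² = 0`.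
-/
import Mathlib
import Fermat.Agent.S30.H57_TateRep

set_option autoImplicit false

namespace Fermat.Agent.S36.H31

open scoped TensorProduct
open Fermat.Agent.S30.H57

/-! ### Kolchin substitute -/

section Kolchin

variable {S : Type*} [Ring S]

/-- expansion of `(a + b + ab)²` when `a² = b² = 0`. -/
theorem sq_expand (a b : S) (ha : a * a = 0) (hb : b * b = 0)
    (h : (a + b + a * b) * (a + b + a * b) = 0) :
    a * b + b * a + b * a * b + a * b * a + a * b * a * b = 0 := by
  have e : (a + b + a * b) * (a + b + a * b) =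
      a * b + b * a + b * a * b + a * b * a + a * b * a * b +
        (a * a + b * b + (a * a) * b + a * (b * b)) := by noncomm_ring
  rw [e, ha, hb] at h
  simpa using h

/-- the anticommutation and `aba = 0`, from the four sign variants. -/
theorem anticomm_of_sq (h2 : ∀ x : S, x + x = 0 → x = 0) (a b : S) (ha : a * a = 0)
    (hb : b * b = 0)
    (h1 : (a + b + a * b) * (a + b + a * b) = 0)
    (h2' : (-a + b + -a * b) * (-a + b + -a * b) = 0)
    (h3 : (a + -b + a * -b) * (a + -b + a * -b) = 0)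
    (h4 : (-a + -b + -a * -b) * (-a + -b + -a * -b) = 0) :
    a * b + b * a = 0 := by
  have hna : -a * -a = 0 := by rw [neg_mul_neg, ha]
  have hnb : -b * -b = 0 := by rw [neg_mul_neg, hb]
  have e1 := sq_expand a b ha hb h1
  have e2 := sq_expand (-a) b hna hb h2'
  have e3 := sq_expand a (-b) ha hnb h3
  have e4 := sq_expand (-a) (-b) hna hnb h4
  simp only [neg_mul, mul_neg, neg_neg] at e2 e3 e4
  -- x := ab + ba, y := bab, z := aba, w := abab
  have hw : a * b * a * b = 0 := by
    apply h2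
    apply h2
    have := congrArg₂ (· + ·) (congrArg₂ (· + ·) e1 e2) (congrArg₂ (· + ·) e3 e4)
    simp only [add_zero] at this
    rw [← this]
    abel
  apply h2
  have := congrArg₂ (· + ·) e1 e4
  simp only [add_zero] at this
  rw [hw] at this
  rw [← this]
  abel

end Kolchin

section KolchinModule

variable {R : Type*} [CommRing R] {Y : Type*} [AddCommGroup Y] [Module R Y]
  {G : Type*} [Group G] (ρ : G →* Module.End R Y)

/-- the nilpotent part `ρ g - 1`. -/
def nil (g : G) : Module.End R Y := ρ g - 1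

variable {ρ}

theorem nil_mul (g h : G) : nil ρ (g * h) = nil ρ g + nil ρ h + nil ρ g * nil ρ h := by
  unfold nil
  rw [map_mul]
  noncomm_ring

theorem nil_inv (hρ : ∀ g, nil ρ g * nil ρ g = 0) (g : G) : nil ρ g⁻¹ = - nil ρ g := by
  have h1 : ρ g⁻¹ * ρ g = 1 := by rw [← map_mul, inv_mul_cancel, map_one]
  have h2 : ρ g * (1 - nil ρ g) = 1 := by
    have := hρ g
    unfold nil at this ⊢
    have e : ρ g * (1 - (ρ g - 1)) = 1 - (ρ g - 1) * (ρ g - 1) := by noncomm_ring
    rw [e, this, sub_zero]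
  have h3 : ρ g⁻¹ = 1 - nil ρ g := by
    calc ρ g⁻¹ = ρ g⁻¹ * (ρ g * (1 - nil ρ g)) := by rw [h2, mul_one]
      _ = (ρ g⁻¹ * ρ g) * (1 - nil ρ g) := by rw [mul_assoc]
      _ = 1 - nil ρ g := by rw [h1, one_mul]
  unfold nil at h3 ⊢
  rw [h3]
  abel

/-- endomorphisms of a module without `2`-torsion have no `2`-torsion. -/
theorem end_two_torsion (h2 : ∀ y : Y, y + y = 0 → y = 0) (E : Module.End R Y)
    (hE : E + E = 0) : E = 0 :=
  LinearMap.ext fun y => h2 _ (by
    have := LinearMap.congr_fun hE y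
    simpa using this)

theorem nil_anticomm (h2 : ∀ y : Y, y + y = 0 → y = 0) (hρ : ∀ g, nil ρ g * nil ρ g = 0)
    (g h : G) : nil ρ g * nil ρ h + nil ρ h * nil ρ g = 0 := by
  refine anticomm_of_sq (end_two_torsion h2) (nil ρ g) (nil ρ h) (hρ g) (hρ h) ?_ ?_ ?_ ?_
  · rw [← nil_mul]; exact hρ _
  · rw [← nil_inv hρ g, ← nil_mul]; exact hρ _
  · rw [← nil_inv hρ h, ← nil_mul]; exact hρ _
  · rw [← nil_inv hρ g, ← nil_inv hρ h, ← nil_mul]; exact hρ _

/-- all triple products of the `ρ g - 1` vanish. -/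
theorem nil_triple (h2 : ∀ y : Y, y + y = 0 → y = 0) (hρ : ∀ g, nil ρ g * nil ρ g = 0)
    (g h k : G) : nil ρ g * nil ρ h * nil ρ k = 0 := by
  set a := nil ρ g with ha
  set b := nil ρ h with hb
  set c := nil ρ k with hc
  have hac : a * c + c * a = 0 := nil_anticomm h2 hρ g k
  have hbc : b * c + c * b = 0 := nil_anticomm h2 hρ h k
  have hgh : nil ρ (g * h) * c + c * nil ρ (g * h) = 0 := nil_anticomm h2 hρ (g * h) k
  rw [nil_mul] at hgh
  have hca : c * a = - (a * c) := eq_neg_of_add_eq_zero_right hac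
  have hcb : c * b = - (b * c) := eq_neg_of_add_eq_zero_right hbc
  -- expand: (a + b + ab) c + c (a + b + ab) = (ac + ca) + (bc + cb) + abc + cab
  have e : (a + b + a * b) * c + c * (a + b + a * b) =
      (a * c + c * a) + (b * c + c * b) + a * b * c + c * a * b := by noncomm_ring
  rw [e, hac, hbc, zero_add, zero_add] at hgh
  -- cab = abc
  have hcab : c * a * b = a * b * c := by
    rw [hca, neg_mul, mul_assoc, hcb, mul_neg, neg_neg, mul_assoc]
  rw [hcab] at hgh
  exact end_two_torsion h2 _ hgh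

/-- **Kolchin substitute**: a nonzero invariant vector. -/
theorem exists_ne_zero_invariant [Nontrivial Y] (h2 : ∀ y : Y, y + y = 0 → y = 0)
    (hρ : ∀ g, (ρ g - 1) * (ρ g - 1) = 0) : ∃ z : Y, z ≠ 0 ∧ ∀ g, ρ g z = z := by
  classical
  have hρ' : ∀ g, nil ρ g * nil ρ g = 0 := hρ
  have hinv : ∀ z : Y, (∀ k, nil ρ k z = 0) → ∀ g, ρ g z = z := by
    intro z hz g
    have := hz g
    unfold nil at this
    rw [LinearMap.sub_apply, Module.End.one_apply, sub_eq_zero] at this
    exact this
  obtain ⟨v, hv⟩ := exists_ne (0 : Y)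
  by_cases h1 : ∃ g h, nil ρ g (nil ρ h v) ≠ 0
  · obtain ⟨g, h, hgh⟩ := h1
    refine ⟨_, hgh, hinv _ fun k => ?_⟩
    have := LinearMap.congr_fun (nil_triple h2 hρ' k g h) v
    simpa [Module.End.mul_apply] using this
  · push Not at h1
    by_cases h3 : ∃ h, nil ρ h v ≠ 0
    · obtain ⟨h, hh⟩ := h3
      exact ⟨_, hh, hinv _ fun k => h1 k h⟩
    · push Not at h3
      exact ⟨v, hv, hinv v h3⟩

end KolchinModule

/-! ### Invariants of `O ⊗ T_p J` -/

section TateInv

variable {p : ℕ} [hp : Fact p.Prime] {J : Type*} [AddCommGroup J]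
  {O : Type*} [CommRing O] [Algebra ℤ_[p] O]
  {G : Type*} [Group G] (ρJ : G →* AddMonoid.End J)

/-- coordinates of `tateRep f z` with respect to a `ℤ_[p]`-basis of `O`. -/
theorem equivFinsupp_tateRep {κ : Type*} [DecidableEq κ] (b : Module.Basis κ ℤ_[p] O) (f : AddMonoid.End J)
    (z : O ⊗[ℤ_[p]] Tate p J) (i : κ) :
    TensorProduct.equivFinsuppOfBasisLeft b (tateRep p J O f z) i =
      Tate.map f (TensorProduct.equivFinsuppOfBasisLeft b z i) := by
  induction z using TensorProduct.induction_on with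
  | zero => rw [map_zero, map_zero, Finsupp.zero_apply, map_zero]
  | tmul a x =>
    rw [tateRep_tmul, TensorProduct.equivFinsuppOfBasisLeft_apply_tmul_apply,
      TensorProduct.equivFinsuppOfBasisLeft_apply_tmul_apply, map_smul]
  | add z₁ z₂ h₁ h₂ =>
    rw [map_add, map_add, Finsupp.add_apply, h₁, h₂, map_add, Finsupp.add_apply, map_add]

/-- If `O` is free over `ℤ_[p]` and `(T_p J)^G = 0` then `(O ⊗ T_p J)^G = 0`. -/
theorem tensor_eq_zero_of_forall_tateRep_eq [Module.Free ℤ_[p] O]
    (hT : ∀ t : Tate p J, (∀ g, Tate.map (ρJ g) t = t) → t = 0)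
    (z : O ⊗[ℤ_[p]] Tate p J) (hz : ∀ g, tateRep p J O (ρJ g) z = z) : z = 0 := by
  classical
  let b := Module.Free.chooseBasis ℤ_[p] O
  apply (TensorProduct.equivFinsuppOfBasisLeft b).injective
  rw [map_zero]
  ext i : 1
  rw [Finsupp.zero_apply]
  refine hT _ fun g => ?_
  rw [← equivFinsupp_tateRep b (ρJ g) z i, hz g]

/-- If the `G`-fixed elements of `J[p^k]` are killed by a fixed `N > 0` (all `k`), then
`(T_p J)^G = 0`. -/
theorem tate_eq_zero_of_invariant_of_bounded {N : ℕ} (hN : 0 < N)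
    (hgeo : ∀ (k : ℕ) (y : J), p ^ k • y = 0 → (∀ g, ρJ g y = y) → N • y = 0)
    (t : Tate p J) (ht : ∀ g, Tate.map (ρJ g) t = t) : t = 0 := by
  have h1 : (N : ℤ_[p]) • t = 0 := by
    ext k
    rw [Tate.natCast_smul_comp, Tate.zero_comp]
    refine hgeo k _ (Tate.pow_smul_comp t k) fun g => ?_
    exact (Tate.map_comp (ρJ g) t k).symm.trans (congrArg (fun x : Tate p J => x.comp k) (ht g))
  have hN0 : (N : ℤ_[p]) ≠ 0 := Nat.cast_ne_zero.mpr hN.ne'
  exact (smul_eq_zero.mp h1).resolve_left hN0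

end TateInv

/-! ### The key -/

section Key

variable {p : ℕ} [hp : Fact p.Prime] {J : Type*} [AddCommGroup J]
  {O : Type*} [CommRing O] [Algebra ℤ_[p] O] [Module.Free ℤ_[p] O]
  {ι : Type*} {τ : ι → AddMonoid.End J} {c : ι → O}
  {G : Type*} [Group G] (ρJ : G →* AddMonoid.End J) (hcomm : ∀ g i, Commute (ρJ g) (τ i))

/-- **(KEY36), abstract form.**  If the eigenspace is nontrivial without `2`-torsion and the
`I`-fixed elements of `J[p^k]` are killed by a fixed `N > 0` for all `k`, then NOT all `g ∈ I`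
act on the eigenspace with `(g - 1)² = 0`. -/
theorem not_forall_unipotent_of_bounded_invariants [Nontrivial (eigen p J O τ c)]
    (h2 : ∀ y : eigen p J O τ c, y + y = 0 → y = 0) (I : Subgroup G) {N : ℕ} (hN : 0 < N)
    (hgeo : ∀ (k : ℕ) (y : J), p ^ k • y = 0 → (∀ g ∈ I, ρJ g y = y) → N • y = 0) :
    ¬ ∀ g ∈ I, (eigenRep (p := p) (O := O) (c := c) ρJ hcomm g - 1) *
        (eigenRep (p := p) (O := O) (c := c) ρJ hcomm g - 1) = 0 := by
  intro hunip
  set ρ' : ↥I →* Module.End O (eigen p J O τ c) :=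
    (eigenRep (p := p) (O := O) (c := c) ρJ hcomm).comp I.subtype with hρ'
  obtain ⟨z, hz0, hz⟩ := exists_ne_zero_invariant (ρ := ρ') h2 (fun g => hunip g.1 g.2)
  apply hz0
  apply Subtype.ext
  rw [Submodule.coe_zero]
  refine tensor_eq_zero_of_forall_tateRep_eq (ρJ.comp I.subtype)
    (tate_eq_zero_of_invariant_of_bounded (ρJ.comp I.subtype) hN
      (fun k y hy hfix => hgeo k y hy fun g hg => hfix ⟨g, hg⟩)) (z : O ⊗[ℤ_[p]] Tate p J) ?_
  intro g
  have := congrArg Subtype.val (hz g)
  exact this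

end Key

end Fermat.Agent.S36.H31
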