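/-
S36 (helper31): ABSTRACT TOP ASSEMBLY (row (T2) of helper78's S36 chain, statement side).

* `Midpoint36 lam M S 𝒪₁ χ₁`: the S30/S35 midpoint (a nontrivial finite free `𝒪₁`-module `V` with
  a continuous `G_ℚ`-action `ρ` satisfying the quadratic relation at every good Frobenius) PLUS the
  clause (NU): for every prime `q ≠ lam` with `M.factorization q = 2` it is NOT the case that
  `(ρ τ - 1)² = 0` on `V` for all `τ` in all inertia groups above `q`.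
* `s36_of_midpoint36`: the exact conclusion of the frozen statement S36 (with `𝒪'' := 𝒪₁`)
  from `Midpoint36 lam M S 𝒪₁ ((algebraMap 𝒪' 𝒪₁).comp χ)`.

The hypotheses `hg`, `hchig`, `hMS`, `hlam2`, `hres` of the frozen S36 are consumed (or not needed)
by the PRODUCER of the midpoint, not here.
-/
import Mathlib
import Fermat.Agent.S30.H31_S30Assembly
import Fermat.Agent.S30.H10_DensityInst
import Fermat.Prelude.Def_GaloisRep_LocalConditions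

set_option autoImplicit false

namespace Fermat.Agent.S36.H31

open Polynomial Module

section Assembly

open CuspForm IsLocalRing Fermat.Agent.S30 Fermat.Agent.S30.H31

local notation "Qbar" => AlgebraicClosure ℚ
local notation "GQ" => (AlgebraicClosure ℚ ≃ₐ[ℚ] AlgebraicClosure ℚ)

/-- The midpoint of the S36 pipeline: the S30 midpoint without unramifiedness, plus (NU). -/
def Midpoint36 (lam M : ℕ) [NeZero M] (S : Finset ℕ) (𝒪₁ : Type) [CommRing 𝒪₁] [IsLocalRing 𝒪₁]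
    (χ₁ : heckeAlgebra M 2 (↑S : Set ℕ) →+* 𝒪₁) : Prop :=
  ∃ (V : Type) (_ : AddCommGroup V) (_ : Module 𝒪₁ V) (_ : Module.Free 𝒪₁ V)
    (_ : Module.Finite 𝒪₁ V) (ρ : GQ →* Module.End 𝒪₁ V),
    Nontrivial V ∧ GaloisActionIsAdicContinuous 𝒪₁ ρ ∧
    (∀ (ℓ : ℕ) (hℓ : ℓ.Prime) (hℓM : ¬ ℓ ∣ M) (hℓS : ℓ ∉ (↑S : Set ℕ)),
      ∀ A : ValuationSubring Qbar, A.LiesOverPrime ℓ →
        ∀ σ : GQ, A.IsFrobeniusAt σ ℓ →
          ρ σ * ρ σ = χ₁ (heckeAlgebra.T hℓ hℓM hℓS) • ρ σ - (ℓ : 𝒪₁) • (1 : Module.End 𝒪₁ V)) ∧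
    (∀ q : ℕ, q.Prime → q ≠ lam → M.factorization q = 2 →
      ¬ ∀ P : ValuationSubring Qbar, P.LiesOverPrime q →
          ∀ τ ∈ P.inertiaSubgroupIn ℚ, (ρ τ - 1) * (ρ τ - 1) = 0)

/-- coefficient comparison: `X² - tX + d = (X-1)²` forces `t = 2`, `d = 1`. -/
theorem eq_two_and_eq_one_of_quadratic_eq {O : Type*} [CommRing O] (t d : O)
    (h : (X ^ 2 - C t * X + C d : O[X]) = (X - 1) ^ 2) : t = 2 ∧ d = 1 := by
  have h0 := congrArg (fun f : O[X] => f.coeff 0) h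
  have h1 := congrArg (fun f : O[X] => f.coeff 1) h
  have e : ((X : O[X]) - 1) ^ 2 = X ^ 2 - C (2 : O) * X + C (1 : O) := by
    simp only [map_ofNat, map_one]; ring
  rw [e] at h0 h1
  simp only [coeff_add, coeff_sub, coeff_X_pow, coeff_C_mul, coeff_X_zero, coeff_C_zero,
    coeff_X_one, mul_zero, mul_one, sub_zero] at h0 h1
  constructor
  · have h1' : (0 : O) - t + coeff (C d) 1 = 0 - 2 + coeff (C (1 : O)) 1 := by
      simpa using h1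
    rw [coeff_C_of_ne_zero one_ne_zero, coeff_C_of_ne_zero one_ne_zero] at h1'
    linear_combination -h1'
  · simpa using h0

/-- **S36 from the midpoint** (with `𝒪'' := 𝒪₁`). -/
theorem s36_of_midpoint36 {M : ℕ} [NeZero M] (lam : ℕ) [Fact lam.Prime] (S : Finset ℕ)
    (hlamS : lam ∈ S)
    (𝒪' : Type) [CommRing 𝒪']
    (χ : CuspForm.heckeAlgebra M 2 (↑S : Set ℕ) →+* 𝒪')
    (𝒪₁ : Type) [CommRing 𝒪₁] [IsDomain 𝒪₁] [IsDiscreteValuationRing 𝒪₁]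
    [IsAdicComplete (IsLocalRing.maximalIdeal 𝒪₁) 𝒪₁] [Finite (IsLocalRing.ResidueField 𝒪₁)]
    [CharZero 𝒪₁] [Algebra 𝒪' 𝒪₁] [Module.Finite 𝒪' 𝒪₁] [IsLocalHom (algebraMap 𝒪' 𝒪₁)]
    (hinj : Function.Injective (algebraMap 𝒪' 𝒪₁))
    (hlam𝒪₁ : (lam : 𝒪₁) ∈ IsLocalRing.maximalIdeal 𝒪₁)
    (hmid : Midpoint36 lam M S 𝒪₁ ((algebraMap 𝒪' 𝒪₁).comp χ)) :
    ∃ (O'' : Type) (_ : CommRing O'') (_ : IsDomain O'') (_ : IsDiscreteValuationRing O'')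
      (_ : IsAdicComplete (IsLocalRing.maximalIdeal O'') O'')
      (_ : Finite (IsLocalRing.ResidueField O''))
      (_ : CharZero O'') (_ : Algebra 𝒪' O'') (_ : Module.Finite 𝒪' O'')
      (_ : IsLocalHom (algebraMap 𝒪' O'')),
      Function.Injective (algebraMap 𝒪' O'') ∧
      ∃ ρ : GaloisRepAdic O'',
        (∀ (ℓ : ℕ) (hℓ : ℓ.Prime) (hℓM : ¬ ℓ ∣ M) (hℓS : ℓ ∉ (↑S : Set ℕ)),
          ∀ A : ValuationSubring (AlgebraicClosure ℚ), A.LiesOverPrime ℓ →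
            ∀ σ : AlgebraicClosure ℚ ≃ₐ[ℚ] AlgebraicClosure ℚ, A.IsFrobeniusAt σ ℓ →
              LinearMap.charpoly (ρ.ρ σ) =
                X ^ 2 - C (algebraMap 𝒪' O'' (χ (CuspForm.heckeAlgebra.T hℓ hℓM hℓS))) * X
                  + C ((ℓ : O''))) ∧
        (∀ q : ℕ, q.Prime → q ≠ lam → M.factorization q = 2 → ¬ ρ.IsUnipotentOnInertiaAt q) := by
  classical
  obtain ⟨V, i1, i2, i3, i4, ρ, hnt, hcont, hfrob, hkey⟩ := hmid
  set χ₁ : CuspForm.heckeAlgebra M 2 (↑S : Set ℕ) →+* 𝒪₁ := (algebraMap 𝒪' 𝒪₁).comp χ with hχ₁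
  -- the bad set and the eigenvalue function
  set T : Finset ℕ := S ∪ M.primeFactors with hT
  have hpT : lam ∈ T := Finset.mem_union_left _ hlamS
  set c : ℕ → 𝒪₁ := fun ℓ =>
    if h : ℓ.Prime ∧ ¬ ℓ ∣ M ∧ ℓ ∉ (↑S : Set ℕ) then χ₁ (CuspForm.heckeAlgebra.T h.1 h.2.1 h.2.2)
    else 0 with hc
  have hgood : ∀ ℓ : ℕ, ℓ.Prime → ℓ ∉ T → ¬ ℓ ∣ M ∧ ℓ ∉ (↑S : Set ℕ) := by
    intro ℓ hℓ hℓT
    rw [hT, Finset.mem_union, not_or] at hℓT
    refine ⟨fun hdvd => hℓT.2 ?_, fun hS => hℓT.1 (Finset.mem_coe.mp hS)⟩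
    exact Nat.mem_primeFactors.mpr ⟨hℓ, hdvd, NeZero.ne M⟩
  have hnotT : ∀ ℓ : ℕ, ℓ.Prime → ¬ ℓ ∣ M → ℓ ∉ (↑S : Set ℕ) → ℓ ∉ T := by
    intro ℓ hℓ hℓN hℓS hℓT
    rw [hT, Finset.mem_union] at hℓT
    rcases hℓT with h | h
    · exact hℓS (Finset.mem_coe.mpr h)
    · exact hℓN (Nat.mem_primeFactors.mp h).2.1
  have hcval : ∀ (ℓ : ℕ) (hℓ : ℓ.Prime) (hℓN : ¬ ℓ ∣ M) (hℓS : ℓ ∉ (↑S : Set ℕ)),
      c ℓ = χ₁ (CuspForm.heckeAlgebra.T hℓ hℓN hℓS) := by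
    intro ℓ hℓ hℓN hℓS
    rw [hc]
    exact dif_pos ⟨hℓ, hℓN, hℓS⟩
  have hquadF : ∀ ℓ : ℕ, ℓ.Prime → ℓ ∉ T → ∀ A : ValuationSubring Qbar,
      A.LiesOverPrime ℓ → ∀ σ : GQ, A.IsFrobeniusAt σ ℓ →
          ρ σ * ρ σ = c ℓ • ρ σ - (ℓ : 𝒪₁) • (1 : Module.End 𝒪₁ V) := by
    intro ℓ hℓ hℓT A hA σ hσ
    obtain ⟨hℓN, hℓS⟩ := hgood ℓ hℓ hℓT
    rw [hcval ℓ hℓ hℓN hℓS]
    exact hfrob ℓ hℓ hℓN hℓS A hA σ hσ
  obtain ⟨t, hquad, htF⟩ :=
    H10.exists_trace_of_frobenius_quad lam hlam𝒪₁ ρ hcont T hpT c hquadF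
  set 𝔪 := IsLocalRing.maximalIdeal 𝒪₁ with h𝔪
  set d := H68.cycloAdic lam 𝔪 hlam𝒪₁ with hd
  obtain ⟨σ, hσ, hσc⟩ := exists_matrixRep_of_module (two_ne_zero : (2 : 𝒪₁) ≠ 0) ρ t d hquad
    complexConjugation complexConjugation_mul_self (H68.cycloAdic_complexConjugation lam 𝔪 hlam𝒪₁)
  obtain ⟨ϖ, hϖ⟩ := IsDiscreteValuationRing.exists_irreducible 𝒪₁
  have h𝔪ϖ : ∀ n : ℕ, 𝔪 ^ n = Ideal.span {ϖ ^ n} := by
    intro n
    rw [h𝔪, hϖ.maximalIdeal_eq, Ideal.span_singleton_pow]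
  -- continuity
  have hcontσ : GaloisActionIsAdicContinuous 𝒪₁ (linOfMatrix σ) := by
    intro n
    obtain ⟨L₁, hL₁f, hL₁⟩ := hcont n
    obtain ⟨L₂, hL₂f, hL₂⟩ := H68.cycloAdic_continuity lam 𝔪 hlam𝒪₁ n
    refine ⟨L₁ ⊔ L₂, IntermediateField.finiteDimensional_sup L₁ L₂, fun τ hτ v => ?_⟩
    have hτ₁ : ∀ x ∈ L₁, τ x = x := fun x hx => hτ x ((le_sup_left : L₁ ≤ L₁ ⊔ L₂) hx)
    have hτ₂ : ∀ x ∈ L₂, τ x = x := fun x hx => hτ x ((le_sup_right : L₂ ≤ L₁ ⊔ L₂) hx)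
    have h1 : ∀ v, ρ τ v - v ∈ Ideal.span {ϖ ^ n} • (⊤ : Submodule 𝒪₁ V) := by
      intro v
      rw [← h𝔪ϖ n]
      exact hL₁ τ hτ₁ v
    have h2 : ϖ ^ n ∣ ((d τ : 𝒪₁ˣ) : 𝒪₁) - 1 := by
      rw [← Ideal.mem_span_singleton, ← h𝔪ϖ n]
      exact H68.span_natCast_pow_le lam 𝔪 hlam𝒪₁ n (hL₂ τ hτ₂)
    have h3 := hσc (ϖ ^ n) τ h1 h2
    rw [h𝔪ϖ n]
    apply mem_smul_top_of_forall_mem
    intro i
    have h4 : (linOfMatrix σ τ v - v) i = ∑ j, (σ τ - 1) i j * v j := by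
      rw [linOfMatrix_apply, Pi.sub_apply, Matrix.toLin'_apply, Matrix.mulVec, dotProduct]
      have : v i = ∑ j, (1 : Matrix (Fin 2) (Fin 2) 𝒪₁) i j * v j := by
        simp [Matrix.one_apply]
      rw [this, ← Finset.sum_sub_distrib]
      refine Finset.sum_congr rfl fun j _ => ?_
      rw [Matrix.sub_apply, sub_mul]
    rw [h4]
    exact Ideal.sum_mem _ fun j _ =>
      Ideal.mul_mem_right _ _ (Ideal.mem_span_singleton.mpr (h3 i j))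
  refine ⟨𝒪₁, inferInstance, inferInstance, inferInstance, inferInstance, inferInstance,
    inferInstance, inferInstance, inferInstance, inferInstance, hinj, ?_⟩
  refine ⟨{ V := Fin 2 → 𝒪₁
            finrank_eq := by rw [Module.finrank_fin_fun]
            ρ := linOfMatrix σ
            isAdicContinuous := hcontσ }, ?_, ?_⟩
  · intro ℓ hℓ hℓN hℓS A hA τ hτ
    have hℓp : ℓ ≠ lam := by
      rintro rfl
      exact hℓS (Finset.mem_coe.mpr hlamS)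
    show LinearMap.charpoly (linOfMatrix σ τ) = _
    rw [linOfMatrix_apply, Matrix.charpoly_toLin', Matrix.charpoly_fin_two, (hσ τ).1, (hσ τ).2,
      htF ℓ hℓ (hnotT ℓ hℓ hℓN hℓS) A hA τ hτ, hcval ℓ hℓ hℓN hℓS, hd,
      H68.cycloAdic_frobenius lam 𝔪 hlam𝒪₁ hℓ hℓp hA hτ]
    rfl
  · intro q hq hqlam hfac hunip
    refine hkey q hq hqlam hfac fun P hP τ hτ => ?_
    have hcp : LinearMap.charpoly (linOfMatrix σ τ) =
        X ^ 2 - C (t τ) * X + C ((d τ : 𝒪₁ˣ) : 𝒪₁) := by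
      rw [linOfMatrix_apply, Matrix.charpoly_toLin', Matrix.charpoly_fin_two, (hσ τ).1,
        (hσ τ).2]
    have hu : LinearMap.charpoly (linOfMatrix σ τ) = (X - 1) ^ 2 := hunip P hP τ hτ
    obtain ⟨ht2, hd1⟩ := eq_two_and_eq_one_of_quadratic_eq (t τ) ((d τ : 𝒪₁ˣ) : 𝒪₁)
      (hcp.symm.trans hu)
    have hq2 := hquad τ
    rw [ht2, hd1] at hq2
    have : (ρ τ - 1) * (ρ τ - 1) = ρ τ * ρ τ - (2 : 𝒪₁) • ρ τ + 1 := by
      rw [two_smul]; noncomm_ring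
    rw [this, hq2, one_smul]
    abel

/-- **S36 from the midpoint, in the binder shape of the frozen statement** (the hypotheses
`hg`, `hchig`, `hMS`, `hlam2`, `hres` of S36 are consumed by the PRODUCER of the midpoint). -/
theorem s36_of_exists_midpoint36 {M : ℕ} [NeZero M] (lam : ℕ) [Fact lam.Prime] (S : Finset ℕ)
    (O' : Type) [CommRing O'] [IsDomain O'] [IsDiscreteValuationRing O']
    [IsAdicComplete (IsLocalRing.maximalIdeal O') O'] [Finite (IsLocalRing.ResidueField O')]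
    [CharZero O'] (hlamO' : (lam : O') ∈ IsLocalRing.maximalIdeal O')
    (χ : CuspForm.heckeAlgebra M 2 (↑S : Set ℕ) →+* O')
    (hlamS : lam ∈ S)
    (hmid : ∃ (O₁ : Type) (_ : CommRing O₁) (_ : IsDomain O₁) (_ : IsDiscreteValuationRing O₁)
      (_ : IsAdicComplete (IsLocalRing.maximalIdeal O₁) O₁)
      (_ : Finite (IsLocalRing.ResidueField O₁))
      (_ : CharZero O₁) (_ : Algebra O' O₁) (_ : Module.Finite O' O₁)
      (_ : IsLocalHom (algebraMap O' O₁)),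
      Function.Injective (algebraMap O' O₁) ∧
      Midpoint36 lam M S O₁ ((algebraMap O' O₁).comp χ)) :
    ∃ (O'' : Type) (_ : CommRing O'') (_ : IsDomain O'') (_ : IsDiscreteValuationRing O'')
      (_ : IsAdicComplete (IsLocalRing.maximalIdeal O'') O'')
      (_ : Finite (IsLocalRing.ResidueField O''))
      (_ : CharZero O'') (_ : Algebra O' O'') (_ : Module.Finite O' O'')
      (_ : IsLocalHom (algebraMap O' O'')),
      Function.Injective (algebraMap O' O'') ∧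
      ∃ ρ : GaloisRepAdic O'',
        (∀ (ℓ : ℕ) (hℓ : ℓ.Prime) (hℓM : ¬ ℓ ∣ M) (hℓS : ℓ ∉ (↑S : Set ℕ)),
          ∀ A : ValuationSubring (AlgebraicClosure ℚ), A.LiesOverPrime ℓ →
            ∀ σ : AlgebraicClosure ℚ ≃ₐ[ℚ] AlgebraicClosure ℚ, A.IsFrobeniusAt σ ℓ →
              LinearMap.charpoly (ρ.ρ σ) =
                X ^ 2 - C (algebraMap O' O'' (χ (CuspForm.heckeAlgebra.T hℓ hℓM hℓS))) * X
                  + C ((ℓ : O''))) ∧
        (∀ q : ℕ, q.Prime → q ≠ lam → M.factorization q = 2 → ¬ ρ.IsUnipotentOnInertiaAt q) := by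
  obtain ⟨O₁, i1, i2, i3, i4, i5, i6, i7, i8, i9, hinj, hmid⟩ := hmid
  have hlamO₁ : (lam : O₁) ∈ IsLocalRing.maximalIdeal O₁ := by
    have h1 : (algebraMap O' O₁) (lam : O') ∈ IsLocalRing.maximalIdeal O₁ := by
      rw [IsLocalRing.mem_maximalIdeal] at hlamO' ⊢
      intro hu
      exact hlamO' (isUnit_of_map_unit (algebraMap O' O₁) _ hu)
    simpa using h1
  exact s36_of_midpoint36 lam S hlamS O' χ O₁ hinj hlamO₁ hmid

end Assembly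

end Fermat.Agent.S36.H31
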