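/-
S36 (helper31): row (T2) of helper78's S36 chain, producer side, ABSTRACT in the degeneracy data.

* `midpoint36_of_inputs`: `H31.Midpoint36` from an abstract `G_ℚ`-module `J` with commuting Hecke
  operators (the inputs of `S35.H57.midpoint35_of_inputs`) where (KEY) is replaced by
  (KEY36): for every prime `q ≠ p` with `N.factorization q = 2` there are a valuation subring `P`
  above `q` and `c > 0` such that every `y ∈ J[p^k]` (any `k`) fixed by the inertia group of `P`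
  has `c • y = 0`.
* `midpoint36_of_new`: the same from the NEW-assembly data of `S35.H57.midpoint35_of_new`
  (families `V j` of lattice maps and `P j` of pushforwards with (A2)-(A4), a new eigenvector),
  with (A6) replaced by (IF-GEO36) on the common kernel of the `P j`.
-/
import Mathlib
import Fermat.Agent.S35.H57_NewAssembly
import Fermat.Agent.S36.H31_S36Assembly
import Fermat.Agent.S36.H31_Key36
import Fermat.Agent.S36.H31_ZpFree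

set_option autoImplicit false

namespace Fermat.Agent.S36.H31

open scoped TensorProduct
open Polynomial CuspForm IsLocalRing ModularCurve
open Fermat.Agent.S30 Fermat.Agent.S30.H57 Fermat.Agent.S29.H80 Fermat.Agent.S35.H57

local notation "Qbar" => AlgebraicClosure ℚ
local notation "GQ" => (AlgebraicClosure ℚ ≃ₐ[ℚ] AlgebraicClosure ℚ)

noncomputable section

/-- **`H31.Midpoint36` from an abstract Galois module with (KEY36).** -/
theorem midpoint36_of_inputs (p : ℕ) [hp : Fact p.Prime] (N : ℕ) [NeZero N] (S : Finset ℕ)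
    (𝒪₁ : Type) [CommRing 𝒪₁] [IsDomain 𝒪₁] [IsDiscreteValuationRing 𝒪₁]
    [IsAdicComplete (IsLocalRing.maximalIdeal 𝒪₁) 𝒪₁] [Finite (IsLocalRing.ResidueField 𝒪₁)]
    [CharZero 𝒪₁]
    (hp𝒪₁ : (p : 𝒪₁) ∈ IsLocalRing.maximalIdeal 𝒪₁)
    (χ₁ : CuspForm.heckeAlgebra N 2 (↑S : Set ℕ) →+* 𝒪₁)
    {J : Type} [AddCommGroup J] (ρJ : GQ →* AddMonoid.End J)
    (τ : GoodPrime N S → AddMonoid.End J) (hcomm : ∀ g ℓ, Commute (ρJ g) (τ ℓ))
    (hfin : Set.Finite {y : J | p • y = 0})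
    (hopen : ∀ n : ℕ, ∃ E : IntermediateField ℚ Qbar, FiniteDimensional ℚ E ∧
      ∀ σ : GQ, (∀ a ∈ E, σ a = a) → ∀ y : J, p ^ n • y = 0 → ρJ σ y = y)
    (hfrob : ∀ (ℓ : GoodPrime N S) (A : ValuationSubring Qbar), A.LiesOverPrime ℓ.1 →
      ∀ σ : GQ, A.IsFrobeniusAt σ ℓ.1 → ∀ y : J, (∃ n : ℕ, p ^ n • y = 0) →
        ρJ σ (ρJ σ y) - τ ℓ (ρJ σ y) + ℓ.1 • y = 0)
    (hne : letI : Algebra ℤ_[p] 𝒪₁ := (H83.zpTo p 𝒪₁ hp𝒪₁).toAlgebra
      ∃ m : 𝒪₁ ⊗[ℤ_[p]] Tate p J, m ≠ 0 ∧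
        ∀ ℓ : GoodPrime N S, tateRep p J 𝒪₁ (τ ℓ) m = eigenval N χ₁ ℓ • m)
    (hkey : ∀ q : ℕ, q.Prime → q ≠ p → N.factorization q = 2 →
      ∃ P : ValuationSubring Qbar, P.LiesOverPrime q ∧ ∃ c : ℕ, 0 < c ∧
        ∀ (k : ℕ) (y : J), p ^ k • y = 0 → (∀ g ∈ P.inertiaSubgroupIn ℚ, ρJ g y = y) →
          c • y = 0) :
    Midpoint36 p N S 𝒪₁ χ₁ := by
  classical
  letI : Algebra ℤ_[p] 𝒪₁ := (H83.zpTo p 𝒪₁ hp𝒪₁).toAlgebra
  have hpO : (p : 𝒪₁) ≠ 0 := Nat.cast_ne_zero.mpr hp.out.ne_zero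
  obtain ⟨hO1, hO2⟩ := finite_free_zp p 𝒪₁ hp𝒪₁
  have hT1 : Module.Finite ℤ_[p] (Tate p J) := Tate.finite_of_finite_torsion hfin
  have hT2 : Module.Free ℤ_[p] (Tate p J) := Tate.free_of_finite_torsion hfin
  have hM1 : Module.Free 𝒪₁ (𝒪₁ ⊗[ℤ_[p]] Tate p J) := inferInstance
  have hM2 : Module.Finite 𝒪₁ (𝒪₁ ⊗[ℤ_[p]] Tate p J) := inferInstance
  have hM3 : Module.IsTorsionFree 𝒪₁ (𝒪₁ ⊗[ℤ_[p]] Tate p J) := inferInstance
  set c : GoodPrime N S → 𝒪₁ := eigenval N χ₁ with hc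
  have hE1 : Module.Finite 𝒪₁ (eigen p J 𝒪₁ τ c) := inferInstance
  have hE2 : Module.IsTorsionFree 𝒪₁ (eigen p J 𝒪₁ τ c) := inferInstance
  have hE3 : Module.Free 𝒪₁ (eigen p J 𝒪₁ τ c) := inferInstance
  have hE4 : Nontrivial (eigen p J 𝒪₁ τ c) := by
    obtain ⟨m, hm0, hm⟩ := hne
    exact ⟨⟨⟨m, mem_eigen.mpr hm⟩, 0, fun h => hm0 (congrArg Subtype.val h)⟩⟩
  set ρ : GQ →* Module.End 𝒪₁ (eigen p J 𝒪₁ τ c) :=
    eigenRep (p := p) (O := 𝒪₁) (c := c) ρJ hcomm with hρ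
  have hcont : GaloisActionIsAdicContinuous 𝒪₁ ρ := by
    intro n
    obtain ⟨E, hE, hfix⟩ := hopen n
    refine ⟨E, hE, fun σ hσ v => ?_⟩
    obtain ⟨m', hm'⟩ := exists_eigenRep_sub_eq_smul (p := p) (O := 𝒪₁) (c := c) ρJ hcomm hpO n
      (fun y hy => hfix σ hσ y hy) v
    rw [hm']
    refine Submodule.smul_mem_smul ?_ Submodule.mem_top
    exact Ideal.pow_mem_pow hp𝒪₁ n
  -- no 2-torsion
  have h2 : ∀ y : eigen p J 𝒪₁ τ c, y + y = 0 → y = 0 := by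
    intro y hy
    have h : (2 : 𝒪₁) • y = 0 := by rw [two_smul]; exact hy
    exact (smul_eq_zero.mp h).resolve_left two_ne_zero
  refine ⟨eigen p J 𝒪₁ τ c, inferInstance, inferInstance, hE3, hE1, ρ, hE4, hcont, ?_, ?_⟩
  · intro ℓ hℓ hℓN hℓS A hA σ hσ
    exact eigenRep_quadratic (p := p) (O := 𝒪₁) (c := c) ρJ hcomm ⟨ℓ, hℓ, hℓN, hℓS⟩ ℓ
      (fun y hy => hfrob ⟨ℓ, hℓ, hℓN, hℓS⟩ A hA σ hσ y hy)
  · intro q hq hqp hfac hall
    obtain ⟨P, hP, cN, hcN, hgeo⟩ := hkey q hq hqp hfac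
    exact not_forall_unipotent_of_bounded_invariants (p := p) (O := 𝒪₁) (c := c) ρJ hcomm h2
      (P.inertiaSubgroupIn ℚ) hcN hgeo (fun g hg => hall P hP g hg)

/-- **NEW-assembly for S36 (abstract).** -/
theorem midpoint36_of_new {M : ℕ} [NeZero M] (p : ℕ) [hp : Fact p.Prime] (S : Finset ℕ)
    (hpS : p ∈ S)
    (𝒪₁ : Type) [CommRing 𝒪₁] [IsDomain 𝒪₁] [IsDiscreteValuationRing 𝒪₁]
    [IsAdicComplete (IsLocalRing.maximalIdeal 𝒪₁) 𝒪₁] [Finite (IsLocalRing.ResidueField 𝒪₁)]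
    [CharZero 𝒪₁]
    (hp𝒪₁ : (p : 𝒪₁) ∈ IsLocalRing.maximalIdeal 𝒪₁)
    (χ₁ : CuspForm.heckeAlgebra M 2 (↑S : Set ℕ) →+* 𝒪₁)
    -- Stage 2 (Eichler–Shimura) and finiteness on `JZero M`
    (hfrob : ∀ (ℓ : ℕ) (hℓ : ℓ.Prime), ¬ ℓ ∣ M * p → ∀ A : ValuationSubring Qbar,
      A.LiesOverPrime ℓ → ∀ σ : GQ, A.IsFrobeniusAt σ ℓ → ∀ x : JZero M,
        (∃ n : ℕ, p ^ n • x = 0) →
          σ • σ • x - heckeOperatorBar M ⟨ℓ, hℓ⟩ (σ • x) + ℓ • x = 0)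
    (hfin : Set.Finite {y : JZero M | p • y = 0})
    -- the degeneracy data
    {ι : Type} [Fintype ι] {L' : ι → Type} [∀ j, AddCommGroup (L' j)]
    [∀ j, IsAddTorsionFree (L' j)] (V : ∀ j, Lat M →ₗ[ℤ] L' j)
    {J' : ι → Type} [∀ j, AddCommGroup (J' j)] (P : ∀ j, JZero M →+ J' j)
    (hA2 : ∀ (j : ι) (σ : GQ) (y : JZero M), P j y = 0 → P j (σ • y) = 0)
    (hA3 : ∀ (ℓ : GoodPrime M S) (x : Lat M), (∀ j, V j x = 0) →
      ∀ j, V j (cohT M ⟨ℓ.1, ℓ.2.1⟩ x) = 0)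
    (hA4 : ∀ k : ℕ, ∃ lamN : Lat M →+ JZero M, (∀ x, p ^ k • lamN x = 0) ∧
      (∀ x, lamN x = 0 → ∃ y, x = p ^ k • y) ∧
      (∀ (l : Nat.Primes) (x : Lat M), lamN (cohT M l x) = heckeOperatorBar M l (lamN x)) ∧
      ∀ x, (∀ j, V j x = 0) → ∀ j, P j (lamN x) = 0)
    -- the new eigenvector
    (u : 𝒪₁ ⊗[ℤ] Lat M) (hu : u ≠ 0)
    (heig : ∀ ℓ : GoodPrime M S,
      (cohT M ⟨ℓ.1, ℓ.2.1⟩).baseChange 𝒪₁ u = eigenval M χ₁ ℓ • u)
    (hV : ∀ j, (V j).baseChange 𝒪₁ u = 0)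
    -- (IF-GEO36)
    (hA6 : ∀ q : ℕ, q.Prime → q ≠ p → M.factorization q = 2 →
      ∃ A : ValuationSubring Qbar, A.LiesOverPrime q ∧ ∃ c : ℕ, 0 < c ∧
        ∀ (k : ℕ) (y : JZero M), p ^ k • y = 0 →
          (∀ σ ∈ A.inertiaSubgroupIn ℚ, σ • y = y) → (∀ j, P j y = 0) → c • y = 0) :
    Midpoint36 p M S 𝒪₁ χ₁ := by
  classical
  letI : Algebra ℤ_[p] 𝒪₁ := (H83.zpTo p 𝒪₁ hp𝒪₁).toAlgebra
  have hinj : Function.Injective (algebraMap ℤ_[p] 𝒪₁) := H83.zpTo_injective p hp𝒪₁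
  -- the new subgroup
  set τ : GoodPrime M S → AddMonoid.End (JZero M) := heckeJ M S with hτ
  set J4 : AddSubgroup (JZero M) := newSub P τ with hJ4
  have hτ4 : ∀ ℓ, ∀ y ∈ J4, τ ℓ y ∈ J4 := fun ℓ y hy => hecke_mem_newSub P τ ℓ hy
  have hρ4 : ∀ σ, ∀ y ∈ J4, galJ M σ y ∈ J4 := fun σ y hy =>
    commute_mem_newSub P τ (galJ M σ) (fun ℓ => commute_galJ_heckeJ M S σ ℓ)
      (fun j y h => hA2 j σ y h) hy
  set ρ4 : GQ →* AddMonoid.End J4 := restrictRep J4 (galJ M) hρ4 with hρ4def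
  set τ4 : GoodPrime M S → AddMonoid.End J4 := fun ℓ => restrictEnd J4 (τ ℓ) (hτ4 ℓ) with hτ4def
  have hfin4 : Set.Finite {y : J4 | p • y = 0} := finite_torsion_subgroup J4 hfin
  refine midpoint36_of_inputs p M S 𝒪₁ hp𝒪₁ χ₁ ρ4 τ4 ?_ hfin4 ?_ ?_ ?_ ?_
  · -- commutation
    intro g ℓ
    exact commute_restrictEnd J4 (hρ4 g) (hτ4 ℓ) (commute_galJ_heckeJ M S g ℓ)
  · -- open stabilisers
    intro n
    obtain ⟨E, hE, hfix⟩ := exists_finite_fixing_torsion M hfin n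
    refine ⟨E, hE, fun σ hσ y hy => Subtype.ext ?_⟩
    exact hfix σ hσ y ((coe_nsmul_eq_zero_iff J4).mp hy)
  · -- Eichler–Shimura
    intro ℓ A hA σ hσ y hy
    have hdvd : ¬ ℓ.1 ∣ M * p := by
      intro h
      rcases (Nat.Prime.dvd_mul ℓ.2.1).mp h with h | h
      · exact ℓ.2.2.1 h
      · have : ℓ.1 = p := (Nat.prime_dvd_prime_iff_eq ℓ.2.1 hp.out).mp h
        exact ℓ.2.2.2 (this ▸ Finset.mem_coe.mpr hpS)
    obtain ⟨n, hn⟩ := hy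
    have := hfrob ℓ.1 ℓ.2.1 hdvd A hA σ hσ (y : JZero M)
      ⟨n, (coe_nsmul_eq_zero_iff J4).mp hn⟩
    apply Subtype.ext
    rw [AddSubgroup.coe_add, AddSubgroup.coe_sub, AddSubgroup.coe_nsmul]
    exact this
  · -- the eigenvector
    set L : Submodule ℤ (Lat M) := kerLat V with hL
    set θ : GoodPrime M S → Lat M →ₗ[ℤ] Lat M := fun ℓ => cohT M ⟨ℓ.1, ℓ.2.1⟩ with hθdef
    have hθ : ∀ ℓ, ∀ x ∈ L, θ ℓ x ∈ L := fun ℓ x hx =>
      (mem_kerLat V).mpr (hA3 ℓ x ((mem_kerLat V).mp hx))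
    have i1 : IsAddTorsionFree L :=
      Module.isTorsionFree_int_iff_isAddTorsionFree.mp inferInstance
    have i2 : Module.Finite ℤ L := inferInstance
    have i3 : Module.Free ℤ L := inferInstance
    have i4 : Module.Flat ℤ 𝒪₁ := inferInstance
    obtain ⟨lam, h0, hker, hT, hc⟩ := H12.exists_compatible_system (L := L) (J := J4) p
      hp.out.pos (fun ℓ : GoodPrime M S => ((θ ℓ).restrict (hθ ℓ)).toAddMonoidHom)
      (fun ℓ : GoodPrime M S => τ4 ℓ) (fun k => finite_torsion_pow hfin4 k) (by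
        intro k
        obtain ⟨lamN, h1, h2, h3, h4⟩ := hA4 k
        have hmem : ∀ x : L, lamN x ∈ J4 := fun x =>
          map_mem_newSub P τ lamN (fun ℓ => (θ ℓ).toAddMonoidHom)
            (fun ℓ x => h3 ⟨ℓ.1, ℓ.2.1⟩ x) L.toAddSubgroup (fun ℓ x hx => hθ ℓ x hx)
            (fun x hx j => h4 x ((mem_kerLat V).mp hx) j) x.2
        refine ⟨(lamN.comp L.subtype.toAddMonoidHom).codRestrict J4 hmem, ?_, ?_, ?_⟩
        · intro x
          apply Subtype.ext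
          rw [AddSubgroup.coe_nsmul]
          exact h1 x
        · intro x hx
          have hx' : lamN x = 0 := congrArg Subtype.val hx
          obtain ⟨y, hy⟩ := h2 x hx'
          have hyL : y ∈ L := mem_kerLat_of_nsmul_mem V (pow_ne_zero k hp.out.ne_zero)
            (hy ▸ x.2)
          exact ⟨⟨y, hyL⟩, Subtype.ext hy⟩
        · intro ℓ x
          apply Subtype.ext
          exact h3 ⟨ℓ.1, ℓ.2.1⟩ x)
    let b := Module.Free.chooseBasis ℤ L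
    obtain ⟨a, ha0, ha⟩ := exists_coordinates_kerLat V θ hθ (eigenval M χ₁) u hu heig hV b
    exact exists_eigenvector_tensor_tate hinj lam h0 hc hker
      (fun ℓ : GoodPrime M S => ((θ ℓ).restrict (hθ ℓ)).toAddMonoidHom) τ4
      (fun ℓ k x => hT k ℓ x) (eigenval M χ₁) b a ha0 (fun ℓ j => ha ℓ j)
  · -- (KEY36) from (IF-GEO36)
    intro q hq hqp hfac
    obtain ⟨A, hA, c, hc, hgeo⟩ := hA6 q hq hqp hfac
    refine ⟨A, hA, c, hc, fun k y hy hfix => ?_⟩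
    apply Subtype.ext
    rw [AddSubgroup.coe_nsmul, AddSubgroup.coe_zero]
    refine hgeo k (y : JZero M) ((coe_nsmul_eq_zero_iff J4).mp hy) (fun σ hσ => ?_)
      (fun j => apply_eq_zero_of_mem_newSub P τ y.2 j)
    have := congrArg Subtype.val (hfix σ hσ)
    exact this

end

end Fermat.Agent.S36.H31
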