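/-
S36, row (E5-bc), item (iv) (helper31): **the degeneracy maps `α`, `β = V_q` and the two norms
commute with the coefficient base change `H45.baseChangeE : F_{K1}(N) → F_E(N)`**
(`K1 = unrCyclo ℓ`, `E / K1` any intermediate field of `Qbar / K1`).

This is the seam between the `(M1)` places / `TowerValU` statements, which live over `K1`, and
helper18's `(E7)` top theorem `H18.GeoFn36E`, which lives over `↥E0`
(helper46's `(E5-bc)` transfer: `aE ∘ bc1 = bc2 ∘ a` and `NaE ∘ bc2 = bc1 ∘ Na`).

* `alphaK_baseChangeE`, `betaK_baseChangeE` : the maps (every pair of levels);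
* `norm_alpha_baseChangeE`, `norm_beta_baseChangeE` : the norms at the levels `(M, M * q)`
  (spelling of `H18.toBar_norm_alpha36 / _beta36`);
* `normAlphaK_baseChangeE`, `normBetaK_baseChangeE` : the `→*₀` forms of `H18_Geo36Base` at
  levels `(N1, N2)` with `N2 = N1 * q` as a hypothesis (so that both spellings `(q L) q` and
  `q (q L)` fit).

Proof: `toBar ↥E ∘ baseChangeE = toBar K1` (`H45.toBar_baseChangeE`), norm descent to `Qbar` at both
coefficient fields (`H18.toBar_norm_alpha36 / _beta36`), injectivity of `toBar`.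
-/
import Mathlib
import Fermat.Agent.S18.H45_CutOverField
import Fermat.Agent.S36.H18_Geo36Base
import Fermat.Agent.S36.H18_NormDesc36

set_option autoImplicit false
set_option linter.unusedSectionVars false
set_option linter.style.haveILetI false
set_option synthInstance.maxHeartbeats 400000

noncomputable section

namespace Fermat.Agent.S36.H31

open ModularCurve AlgebraicCurve HahnSeries IntermediateField
open Fermat.Agent.S18 Fermat.Agent.S34

local notation "Qbar" => AlgebraicClosure ℚ

variable {ℓ : ℕ} (E : IntermediateField (H45.unrCyclo ℓ) Qbar)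

/-! ### the maps -/

/-- Coefficient maps commute with `t ↦ t ^ n`. -/
theorem coeffMap_qExpand_eq {R S : Type*} [CommRing R] [CommRing S] (f : R →+* S) (n : ℕ)
    [NeZero n] (x : LaurentSeries R) :
    coeffMap f (qExpand R n x) = qExpand S n (coeffMap f x) := by
  ext k
  by_cases hk : (n : ℤ) ∣ k
  · obtain ⟨m, rfl⟩ := hk
    rw [coeffMap_coeff, qExpand_coeff_mul, qExpand_coeff_mul, coeffMap_coeff]
  · rw [coeffMap_coeff, qExpand_coeff_of_not_dvd n _ hk, qExpand_coeff_of_not_dvd n _ hk,
      map_zero]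

section Maps

variable (q N1 N2 : ℕ) [NeZero q] [NeZero N1] [NeZero N2] (hN : N1 ∣ N2) (hqN : q * N1 ∣ N2)

/-- `α` commutes with the coefficient base change. -/
theorem alphaK_baseChangeE (z : modularFunctionFieldFullC (H45.unrCyclo ℓ) N1) :
    H18.alphaK ↥E N1 N2 hN (H45.baseChangeE E N1 z) =
      H45.baseChangeE E N2 (H18.alphaK (H45.unrCyclo ℓ) N1 N2 hN z) := by
  apply Subtype.ext
  rw [H18.coe_alphaK, H45.coe_baseChangeE, H45.coe_baseChangeE, H18.coe_alphaK]

/-- `β = V_q` commutes with the coefficient base change. -/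
theorem betaK_baseChangeE (z : modularFunctionFieldFullC (H45.unrCyclo ℓ) N1) :
    H18.betaK ↥E q N1 N2 hqN (H45.baseChangeE E N1 z) =
      H45.baseChangeE E N2 (H18.betaK (H45.unrCyclo ℓ) q N1 N2 hqN z) := by
  apply Subtype.ext
  rw [H18.coe_betaK, H45.coe_baseChangeE, H45.coe_baseChangeE, H18.coe_betaK,
    coeffMap_qExpand_eq]

/-- `α ∘ bc₁ = bc₂ ∘ α` as ring homomorphisms. -/
theorem alphaK_comp_baseChangeE :
    (H18.alphaK ↥E N1 N2 hN).comp (H45.baseChangeE E N1) =
      (H45.baseChangeE E N2).comp (H18.alphaK (H45.unrCyclo ℓ) N1 N2 hN) :=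
  RingHom.ext fun z => alphaK_baseChangeE E N1 N2 hN z

/-- `β ∘ bc₁ = bc₂ ∘ β` as ring homomorphisms. -/
theorem betaK_comp_baseChangeE :
    (H18.betaK ↥E q N1 N2 hqN).comp (H45.baseChangeE E N1) =
      (H45.baseChangeE E N2).comp (H18.betaK (H45.unrCyclo ℓ) q N1 N2 hqN) :=
  RingHom.ext fun z => betaK_baseChangeE E q N1 N2 hqN z

end Maps

/-! ### the norms at the levels `(M, M * q)` -/

section Norms

variable (M q : ℕ) [NeZero M] [NeZero q]

/-- **The norm along `α` commutes with the coefficient base change** (levels `(M, M q)`). -/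
theorem norm_alpha_baseChangeE (x : modularFunctionFieldFullC (H45.unrCyclo ℓ) (M * q)) :
    (letI := H16.degAlgebra ↥E M (M * q) (dvd_mul_right M q);
      Algebra.norm (modularFunctionFieldFullC ↥E M) (H45.baseChangeE E (M * q) x)) =
    H45.baseChangeE E M
      (letI := H16.degAlgebra (H45.unrCyclo ℓ) M (M * q) (dvd_mul_right M q);
        Algebra.norm (modularFunctionFieldFullC (H45.unrCyclo ℓ) M) x) := by
  apply H99.toBar_injective ↥E M
  rw [H18.toBar_norm_alpha36 ↥E M q, H45.toBar_baseChangeE, H45.toBar_baseChangeE,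
    H18.toBar_norm_alpha36 (H45.unrCyclo ℓ) M q]

/-- **The norm along `β = V_q` commutes with the coefficient base change** (levels `(M, M q)`). -/
theorem norm_beta_baseChangeE (x : modularFunctionFieldFullC (H45.unrCyclo ℓ) (M * q)) :
    (letI := S35.H16.vAlgebra ↥E q M (M * q) (dvd_of_eq (mul_comm q M));
      Algebra.norm (modularFunctionFieldFullC ↥E M) (H45.baseChangeE E (M * q) x)) =
    H45.baseChangeE E M
      (letI := S35.H16.vAlgebra (H45.unrCyclo ℓ) q M (M * q) (dvd_of_eq (mul_comm q M));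
        Algebra.norm (modularFunctionFieldFullC (H45.unrCyclo ℓ) M) x) := by
  apply H99.toBar_injective ↥E M
  rw [H18.toBar_norm_beta36 ↥E M q, H45.toBar_baseChangeE, H45.toBar_baseChangeE,
    H18.toBar_norm_beta36 (H45.unrCyclo ℓ) M q]

end Norms

/-! ### the `→*₀` forms of `H18_Geo36Base`, variable levels -/

section NormsZ

variable (q N1 N2 : ℕ) [NeZero q] [NeZero N1] [NeZero N2] (hN : N1 ∣ N2) (hqN : q * N1 ∣ N2)

theorem baseChangeE_ne_zero {N : ℕ} [NeZero N]
    {x : modularFunctionFieldFullC (H45.unrCyclo ℓ) N} (hx : x ≠ 0) :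
    H45.baseChangeE E N x ≠ 0 := fun h =>
  hx (H45.baseChangeE_injective E N (h.trans (map_zero _).symm))

/-- **`normAlphaK` commutes with the coefficient base change** (`N2 = N1 * q`). -/
theorem normAlphaK_baseChangeE (h2 : N2 = N1 * q)
    (x : modularFunctionFieldFullC (H45.unrCyclo ℓ) N2) :
    H18.normAlphaK ↥E N1 N2 hN (H45.baseChangeE E N2 x) =
      H45.baseChangeE E N1 (H18.normAlphaK (H45.unrCyclo ℓ) N1 N2 hN x) := by
  subst h2
  by_cases hx : x = 0
  · rw [hx, map_zero, map_zero, map_zero, map_zero]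
  · rw [H18.normAlphaK_apply _ _ _ _ (baseChangeE_ne_zero E hx), H18.normAlphaK_apply _ _ _ _ hx]
    exact norm_alpha_baseChangeE E N1 q x

/-- **`normBetaK` commutes with the coefficient base change** (`N2 = N1 * q`). -/
theorem normBetaK_baseChangeE (h2 : N2 = N1 * q)
    (x : modularFunctionFieldFullC (H45.unrCyclo ℓ) N2) :
    H18.normBetaK ↥E q N1 N2 hqN (H45.baseChangeE E N2 x) =
      H45.baseChangeE E N1 (H18.normBetaK (H45.unrCyclo ℓ) q N1 N2 hqN x) := by
  subst h2
  by_cases hx : x = 0
  · rw [hx, map_zero, map_zero, map_zero, map_zero]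
  · rw [H18.normBetaK_apply _ _ _ _ _ (baseChangeE_ne_zero E hx),
      H18.normBetaK_apply _ _ _ _ _ hx]
    exact norm_beta_baseChangeE E N1 q x

/-- The same at the spelling `N1 = q * L`, `N2 = q * (q * L)` of `H57.Model36`. -/
theorem normAlphaK_baseChangeE_model (L : ℕ) [NeZero L]
    (x : modularFunctionFieldFullC (H45.unrCyclo ℓ) (q * (q * L))) :
    H18.normAlphaK ↥E (q * L) (q * (q * L)) (dvd_mul_left (q * L) q)
        (H45.baseChangeE E (q * (q * L)) x) =
      H45.baseChangeE E (q * L)
        (H18.normAlphaK (H45.unrCyclo ℓ) (q * L) (q * (q * L)) (dvd_mul_left (q * L) q) x) :=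
  normAlphaK_baseChangeE E q (q * L) (q * (q * L)) _ (mul_comm q (q * L)) x

theorem normBetaK_baseChangeE_model (L : ℕ) [NeZero L]
    (x : modularFunctionFieldFullC (H45.unrCyclo ℓ) (q * (q * L))) :
    H18.normBetaK ↥E q (q * L) (q * (q * L)) dvd_rfl (H45.baseChangeE E (q * (q * L)) x) =
      H45.baseChangeE E (q * L)
        (H18.normBetaK (H45.unrCyclo ℓ) q (q * L) (q * (q * L)) dvd_rfl x) :=
  normBetaK_baseChangeE E q (q * L) (q * (q * L)) _ (mul_comm q (q * L)) x

end NormsZ

end Fermat.Agent.S36.H31
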