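/-
S36 (helper31): a complete DVR `O` of characteristic zero with finite residue field, in which the
prime `p` is not a unit, is a finite free `ℤ_[p]`-module (for the canonical algebra structure
`H83.zpTo`).  Used to split `O ⊗[ℤ_[p]] T` as a finite direct sum of copies of `T`.
-/
import Mathlib
import Fermat.Agent.S30.H12_TopNakayama
import Fermat.Agent.S30.H83_ZpAlgebra

set_option autoImplicit false

namespace Fermat.Agent.S36.H31

open IsLocalRing Fermat.Agent.S30

/-- In a DVR the quotient by a nonzero principal ideal is finite when the residue field is. -/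
theorem finite_quotient_span_of_ne_zero {O : Type*} [CommRing O] [IsDomain O]
    [IsDiscreteValuationRing O] [Finite (ResidueField O)] {a : O} (ha : a ≠ 0) :
    Finite (O ⧸ Ideal.span {a}) := by
  obtain ⟨ϖ, hϖ⟩ := IsDiscreteValuationRing.exists_irreducible O
  have hs : Ideal.span {a} ≠ ⊥ := by
    simpa [Ideal.span_singleton_eq_bot] using ha
  obtain ⟨n, hn⟩ := IsDiscreteValuationRing.ideal_eq_span_pow_irreducible hs hϖ
  have h1 : Ideal.span {a} = maximalIdeal O ^ n := by
    rw [hn, hϖ.maximalIdeal_eq, Ideal.span_singleton_pow]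
  rw [h1]
  haveI : Finite (O ⧸ maximalIdeal O) := inferInstanceAs (Finite (ResidueField O))
  exact Ideal.finite_quotient_pow (IsNoetherian.noetherian (maximalIdeal O)) n

/-- **`O` is finite free over `ℤ_[p]`.** -/
theorem finite_free_zp (p : ℕ) [Fact p.Prime] (O : Type*) [CommRing O] [IsDomain O]
    [IsDiscreteValuationRing O] [IsAdicComplete (maximalIdeal O) O] [Finite (ResidueField O)]
    [CharZero O] (hpO : (p : O) ∈ maximalIdeal O) :
    letI : Algebra ℤ_[p] O := (H83.zpTo p O hpO).toAlgebra
    Module.Finite ℤ_[p] O ∧ Module.Free ℤ_[p] O := by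
  letI : Algebra ℤ_[p] O := (H83.zpTo p O hpO).toAlgebra
  have hp0 : (p : O) ≠ 0 := Nat.cast_ne_zero.mpr (Fact.out : p.Prime).ne_zero
  have hsmul : ∀ (a : ℤ_[p]) (x : O), a • x = H83.zpTo p O hpO a * x := fun a x => rfl
  have hpsmul : ∀ (n : ℕ) (x : O), ((p : ℤ_[p]) ^ n) • x = (p : O) ^ n * x := by
    intro n x
    rw [hsmul, map_pow, H83.zpTo_natCast]
  haveI : Finite (O ⧸ Ideal.span {(p : O)}) := finite_quotient_span_of_ne_zero hp0
  refine H12.finite_free_padicInt p (M := O)
    (Ideal.Quotient.mk (Ideal.span {(p : O)})).toAddMonoidHom (Set.toFinite _) ?_ ?_ ?_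
  · intro m hm
    have hm' : Ideal.Quotient.mk (Ideal.span {(p : O)}) m = 0 := hm
    rw [Ideal.Quotient.eq_zero_iff_mem, Ideal.mem_span_singleton] at hm'
    obtain ⟨m', rfl⟩ := hm'
    refine ⟨m', ?_⟩
    have := hpsmul 1 m'
    rw [pow_one, pow_one] at this
    exact this.symm
  · intro m hm
    have := hpsmul 1 m
    rw [pow_one, pow_one, hm] at this
    exact (mul_eq_zero.mp this.symm).resolve_left hp0
  · intro m hm
    have hH : IsHausdorff (maximalIdeal O) O := inferInstance
    refine hH.haus' m fun n => ?_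
    obtain ⟨m', hm'⟩ := hm n
    rw [SModEq.zero, hm', hpsmul, smul_eq_mul, Ideal.mul_top]
    exact Ideal.mul_mem_right _ _ (Ideal.pow_mem_pow hpO n)

end Fermat.Agent.S36.H31
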