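/-
S36 (M2), note 3: the ASSEMBLY "`Ω = ∂_ι (V s)` is a unit at every horizontal height-one prime"
in the chart vocabulary of S34 (`MemAt`, `IsUnitAt`, `valuationSubringAt`, `placeOfPrime`).

Inputs, each the literal output of a landed brick:
* `hres`     : `S36.H32.exists_poly_valuation_lt_one_at` (this seat) – internal;
* `htι, htV` : (Der-5) a uniformiser of `O_H` comes from the lower level along `ι`, resp. `V`
               (place form `ord = 1`);
* `hdtι …`   : (Der-1) + localisation at the lower level (`∂` preserves `O_{H'}`), only at `tι`, `tV`;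
* `hbι, hbV` : (Der-2) bounded denominators (`CA.H9.exists_mul_derivation_mem_of_finiteType`);
* `hprop`    : one-dimensionality (`CA.H32.deriv_eq_mul_of_isSeparable`).
-/
import Mathlib
import Fermat.Agent.S16.H85_LocalExpansion
import Fermat.Agent.S34.H3_PlacePrime
import Fermat.Agent.CA.H32_HorizontalUnit
import Fermat.Agent.S36.H32_HorizontalRes

set_option autoImplicit false

namespace Fermat.Agent.S36.H32

open Polynomial Fermat.Agent.S34.H56 Fermat.Agent.S34.H3 Fermat.Agent.CA.H42 AlgebraicCurve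

section General

variable {R k B K E : Type*} [CommRing R] [Field k] [CommRing B] [IsDomain B] [Field K]
  [Algebra B K] [IsFractionRing B K] [IsNoetherianRing B] [IsIntegrallyClosed B]
  [Algebra R k] [Algebra k K] [Algebra R B] [Algebra R K] [IsScalarTower R k K]
  [IsScalarTower R B K] [Field E] [Algebra k E] [CharZero k]

/-- **(Der-3) at a horizontal height-one prime of a chart**: a `k`-derivation of the function
field with bounded denominators at `p`, integral on one uniformiser, preserves `B_p`. -/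
theorem deriv_memAt (p : Ideal B) [hp : p.IsPrime] (h1 : p.height = 1)
    (hk : ∀ c : k, MemAt p (algebraMap k K c)) (j : B)
    (hint : ∀ b : B, IsIntegral (Algebra.adjoin R {algebraMap B K j}) (algebraMap B K b))
    (δ : Derivation k K K) {t : K} (ht : (placeOfPrime p h1 hk).ord t = 1)
    (hδt : MemAt p (δ t))
    (hbdd : ∃ d : K, d ≠ 0 ∧ ∀ x : K, MemAt p x → MemAt p (d * δ x)) :
    ∀ x : K, MemAt p x → MemAt p (δ x) := by
  obtain ⟨ϖ, hϖ, hϖt⟩ := S16.H85.exists_irreducible_of_ord_eq_one ht
  have hres := exists_poly_valuation_lt_one_at (R := R) p h1 hk j hint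
  have key := CA.H32.deriv_mem (placeOfPrime p h1 hk).toValuationSubring hk hres δ hϖ
    (by rw [hϖt]; exact hδt) hbdd
  exact key

/-- **Assembly**: `dι (V s)` is a unit at the horizontal height-one prime `p`. -/
theorem isUnitAt_horizontal (p : Ideal B) [hp : p.IsPrime] (h1 : p.height = 1)
    (hk : ∀ c : k, MemAt p (algebraMap k K c)) (j : B)
    (hint : ∀ b : B, IsIntegral (Algebra.adjoin R {algebraMap B K j}) (algebraMap B K b))
    (ι V : E →ₐ[k] K) (del : Derivation k E E) {s : E} (hs : del s = 1)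
    (dι dV : Derivation k K K)
    (hdι : ∀ x : E, dι (ι x) = ι (del x)) (hdV : ∀ x : E, dV (V x) = V (del x))
    (hprop : ∃ c : K, ∀ x : K, dV x = c * dι x)
    (hsι : MemAt p (ι s)) (hsV : MemAt p (V s))
    {tι : E} (htι : (placeOfPrime p h1 hk).ord (ι tι) = 1) (hdtι : MemAt p (ι (del tι)))
    {tV : E} (htV : (placeOfPrime p h1 hk).ord (V tV) = 1) (hdtV : MemAt p (V (del tV)))
    (hbι : ∃ d : K, d ≠ 0 ∧ ∀ x : K, MemAt p x → MemAt p (d * dι x))
    (hbV : ∃ d : K, d ≠ 0 ∧ ∀ x : K, MemAt p x → MemAt p (d * dV x)) :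
    IsUnitAt p (dι (V s)) ∧ dι (V s) * dV (ι s) = 1 ∧
      (∀ x : K, MemAt p x → MemAt p (dι x)) ∧ (∀ x : K, MemAt p x → MemAt p (dV x)) := by
  obtain ⟨ϖι, hϖι, hϖιt⟩ := S16.H85.exists_irreducible_of_ord_eq_one htι
  obtain ⟨ϖV, hϖV, hϖVt⟩ := S16.H85.exists_irreducible_of_ord_eq_one htV
  have hres := exists_poly_valuation_lt_one_at (R := R) p h1 hk j hint
  have key := CA.H32.horizontal_unit ι V del hs dι dV hdι hdV hprop
    (placeOfPrime p h1 hk).toValuationSubring hk hres hsι hsV hϖι hϖιt hdtι hϖV hϖVt hdtV hbι hbV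
  obtain ⟨h1', h2', -, -, h5, h6⟩ := key
  exact ⟨(valuation_eq_one_iff h1).mp h6, h5, h1', h2'⟩

end General

end Fermat.Agent.S36.H32
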