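/-
S36 (M2e), route #3361 step (2), `Place.ord` form of `CA.H32.valuation_sixfold_j`:
at a place `v` of `F / K` (char 0) with a unit derivation `∂` (i.e. `∂` preserves `𝒪_v` and
`∂ ϖ` is a unit for a uniformiser `ϖ`), the e-data
  `0 < ord j → ord j = 3`, `0 < ord (j - 1728) → ord (j - 1728) = 2`,
  `ord j = 0 → ord (j - 1728) = 0 → ∃ p, ord (p(j)) = 1`
give `ord (j ^ 4 * (j - 1728) ^ 3 / (∂ j) ^ 6) = 0`.
Also the ord-forms of (Der-4): `ord (∂ x) = ord x - 1` for `ord x ≠ 0`.
-/
import Mathlib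
import Fermat.Prelude.Def_AlgebraicCurve_DivisorClassGroup
import Fermat.Agent.CA.H32_SixfoldUnit

set_option autoImplicit false

namespace Fermat.Agent.S36.H32

open Polynomial AlgebraicCurve

variable {K F : Type*} [Field K] [Field F] [Algebra K F]

/-- `ord` to valuation: `v x = v ϖ ^ (ord x)`. -/
theorem valuation_eq_zpow_ord (v : Place K F) {ϖ : v.toValuationSubring} (hϖ : Irreducible ϖ)
    {x : F} (hx : x ≠ 0) :
    v.toValuationSubring.valuation x = v.toValuationSubring.valuation (ϖ : F) ^ (v.ord x) := by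
  obtain ⟨u, hu⟩ := v.exists_unit_mul_zpow hx hϖ
  have h1 : v.toValuationSubring.valuation ((u : v.toValuationSubring) : F) = 1 :=
    (v.toValuationSubring.valuation_eq_one_iff (u : v.toValuationSubring)).mp u.isUnit
  conv_lhs => rw [hu]
  rw [map_mul, h1, one_mul, map_zpow₀]

/-- valuation `1` means order `0`. -/
theorem ord_eq_zero_of_valuation_eq_one (v : Place K F) {x : F}
    (hx : v.toValuationSubring.valuation x = 1) : v.ord x = 0 := by
  have hxO : x ∈ v.toValuationSubring := (v.toValuationSubring.valuation_le_one_iff x).mp hx.le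
  have hu : IsUnit (⟨x, hxO⟩ : v.toValuationSubring) :=
    (v.toValuationSubring.valuation_eq_one_iff ⟨x, hxO⟩).mpr hx
  exact v.ord_coe_unit hu.unit

/-- order `0` of a nonzero element means valuation `1`. -/
theorem valuation_eq_one_of_ord_eq_zero (v : Place K F) {x : F} (hx0 : x ≠ 0)
    (hx : v.ord x = 0) : v.toValuationSubring.valuation x = 1 := by
  obtain ⟨ϖ, hϖ⟩ := IsDiscreteValuationRing.exists_irreducible v.toValuationSubring
  rw [valuation_eq_zpow_ord v hϖ hx0, hx, zpow_zero]

variable [CharZero K]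

/-- **(Der-4), ord form**: a unit derivation lowers every nonzero order by one. -/
theorem ord_deriv_eq_sub_one (v : Place K F) (δ : Derivation K F F)
    (hδ : ∀ x ∈ v.toValuationSubring, δ x ∈ v.toValuationSubring)
    {ϖ : v.toValuationSubring} (hϖ : Irreducible ϖ)
    (hδϖ1 : v.toValuationSubring.valuation (δ (ϖ : F)) = 1)
    {x : F} (hx0 : x ≠ 0) (hx : v.ord x ≠ 0) : v.ord (δ x) = v.ord x - 1 := by
  have hϖ0 : (ϖ : F) ≠ 0 := fun h => hϖ.ne_zero (Subtype.ext h)
  have hvϖ0 : v.toValuationSubring.valuation (ϖ : F) ≠ 0 := (v.toValuationSubring.valuation.ne_zero_iff).mpr hϖ0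
  have hvϖ1 : v.toValuationSubring.valuation (ϖ : F) < 1 := CA.H32.valuation_irreducible_lt_one v.toValuationSubring hϖ
  have hx1 : v.toValuationSubring.valuation x ≠ 1 := by
    intro h1
    exact hx (ord_eq_zero_of_valuation_eq_one v h1)
  have key := CA.H32.valuation_deriv_mul_uniformiser v.toValuationSubring v.algebraMap_mem' δ hϖ hδ hδϖ1 hx0 hx1
  have hδx0 : δ x ≠ 0 := by
    intro h0
    rw [h0, map_zero, zero_mul] at key
    exact ((v.toValuationSubring.valuation.ne_zero_iff).mpr hx0) key.symm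
  rw [valuation_eq_zpow_ord v hϖ hx0, valuation_eq_zpow_ord v hϖ hδx0,
    ← zpow_add_one₀ hvϖ0] at key
  have hinj := zpow_right_injective₀ (zero_lt_iff.mpr hvϖ0) hvϖ1.ne
  have := hinj key
  omega

/-- **The sixfold-differential lemma, `Place.ord` form.** -/
theorem ord_sixfold_eq_zero (v : Place K F) (δ : Derivation K F F)
    (hδ : ∀ x ∈ v.toValuationSubring, δ x ∈ v.toValuationSubring)
    {ϖ : v.toValuationSubring} (hϖ : Irreducible ϖ)
    (hδϖ1 : v.toValuationSubring.valuation (δ (ϖ : F)) = 1)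
    {j : F} (hj0 : j ≠ 0) (hj1 : j - 1728 ≠ 0) (hj : 0 ≤ v.ord j)
    (h3 : 0 < v.ord j → v.ord j = 3)
    (h2 : 0 < v.ord (j - 1728) → v.ord (j - 1728) = 2)
    (h1 : v.ord j = 0 → v.ord (j - 1728) = 0 → ∃ p : K[X], v.ord (aeval j p) = 1) :
    δ j ≠ 0 ∧ v.ord (j ^ 4 * (j - 1728) ^ 3 / (δ j) ^ 6) = 0 := by
  have hϖ0 : (ϖ : F) ≠ 0 := fun h => hϖ.ne_zero (Subtype.ext h)
  have hvϖ0 : v.toValuationSubring.valuation (ϖ : F) ≠ 0 := (v.toValuationSubring.valuation.ne_zero_iff).mpr hϖ0
  have hvϖ1 : v.toValuationSubring.valuation (ϖ : F) < 1 := CA.H32.valuation_irreducible_lt_one v.toValuationSubring hϖ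
  -- `j ∈ v.toValuationSubring`
  have hjO : j ∈ v.toValuationSubring := by
    rw [← v.toValuationSubring.valuation_le_one_iff, valuation_eq_zpow_ord v hϖ hj0]
    obtain ⟨n, hn⟩ := Int.eq_ofNat_of_zero_le hj
    rw [hn, zpow_natCast]
    exact pow_le_one' hvϖ1.le n
  have h1728 : (1728 : F) ∈ v.toValuationSubring := by
    have : algebraMap K F (1728 : K) = 1728 := map_ofNat _ 1728
    rw [← this]; exact v.algebraMap_mem' _
  have hj1O : j - 1728 ∈ v.toValuationSubring := v.toValuationSubring.sub_mem hjO h1728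
  have hj1nn : 0 ≤ v.ord (j - 1728) := by
    by_contra hneg
    have hlt : v.ord (j - 1728) < 0 := lt_of_not_ge hneg
    have hle : v.toValuationSubring.valuation (j - 1728) ≤ 1 := (v.toValuationSubring.valuation_le_one_iff _).mpr hj1O
    rw [valuation_eq_zpow_ord v hϖ hj1] at hle
    have : 1 < v.toValuationSubring.valuation (ϖ : F) ^ v.ord (j - 1728) :=
      one_lt_zpow_of_neg₀ (zero_lt_iff.mpr hvϖ0) hvϖ1 hlt
    exact absurd hle (not_le.mpr this)
  have hcase : v.toValuationSubring.valuation j = v.toValuationSubring.valuation (ϖ : F) ^ 3 ∨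
      v.toValuationSubring.valuation (j - 1728) = v.toValuationSubring.valuation (ϖ : F) ^ 2 ∨
      (v.toValuationSubring.valuation j = 1 ∧ v.toValuationSubring.valuation (j - 1728) = 1 ∧
        ∃ μ : K[X], v.toValuationSubring.valuation (aeval j μ) =
          v.toValuationSubring.valuation (ϖ : F)) := by
    rcases (lt_or_eq_of_le hj) with hpos | hzero
    · left
      rw [valuation_eq_zpow_ord v hϖ hj0, h3 hpos]; rfl
    · rcases (lt_or_eq_of_le hj1nn) with hpos1 | hzero1
      · right; left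
        rw [valuation_eq_zpow_ord v hϖ hj1, h2 hpos1]; rfl
      · right; right
        obtain ⟨p, hp⟩ := h1 hzero.symm hzero1.symm
        have hp0 : aeval j p ≠ 0 := by
          intro h0
          rw [h0, Place.ord_zero] at hp
          exact zero_ne_one hp
        refine ⟨valuation_eq_one_of_ord_eq_zero v hj0 hzero.symm,
          valuation_eq_one_of_ord_eq_zero v hj1 hzero1.symm, p, ?_⟩
        rw [valuation_eq_zpow_ord v hϖ hp0, hp, zpow_one]

  have hδj : δ j ≠ 0 := by
    intro h0
    have h6 := CA.H32.valuation_sixfold_j v.toValuationSubring v.algebraMap_mem' δ hϖ hδ hδϖ1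
      hjO hcase
    rw [h0, map_zero, zero_pow (by norm_num)] at h6
    exact ((v.toValuationSubring.valuation.ne_zero_iff).mpr
      (mul_ne_zero (pow_ne_zero 4 hj0) (pow_ne_zero 3 hj1))) h6
  refine ⟨hδj, ?_⟩
  apply ord_eq_zero_of_valuation_eq_one
  exact CA.H32.valuation_sixfold_div_eq_one v.toValuationSubring v.algebraMap_mem' δ hϖ hδ hδϖ1
    hjO hδj hcase

end Fermat.Agent.S36.H32
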