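/-
S36 (M2e), route #3361 step (2), chart vocabulary: at a HORIZONTAL height-one prime `p` of a chart
`B` (noetherian, integrally closed, integral over `R[j₀]`), a `k`-derivation `∂` of the function
field which preserves `B_p` and has `∂ s = 1` for some `s ∈ B_p` is a unit derivation, and with the
e-data in `ord` form at the place of `p` the sixfold quotient
`j ^ 4 * (j - 1728) ^ 3 / (∂ j) ^ 6` is a unit at `p`.
-/
import Mathlib
import Fermat.Agent.S34.H3_PlacePrime
import Fermat.Agent.S36.H32_HorizontalRes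
import Fermat.Agent.S36.H32_SixfoldPlace

set_option autoImplicit false

namespace Fermat.Agent.S36.H32

open Polynomial Fermat.Agent.S34.H56 Fermat.Agent.S34.H3 AlgebraicCurve

variable {R k B K : Type*} [CommRing R] [Field k] [CommRing B] [IsDomain B] [Field K]
  [Algebra B K] [IsFractionRing B K] [IsNoetherianRing B] [IsIntegrallyClosed B]
  [Algebra R k] [Algebra k K] [Algebra R B] [Algebra R K] [IsScalarTower R k K]
  [IsScalarTower R B K] [CharZero k]

/-- **(Der-4) at a horizontal prime of a chart**: `∂` preserving `B_p` with `∂ s = 1` is a unit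
derivation: `∂ ϖ` is a unit for EVERY uniformiser `ϖ`. -/
theorem valuation_deriv_uniformiser_at (p : Ideal B) [hp : p.IsPrime] (h1 : p.height = 1)
    (hk : ∀ c : k, MemAt p (algebraMap k K c)) (j₀ : B)
    (hint : ∀ b : B, IsIntegral (Algebra.adjoin R {algebraMap B K j₀}) (algebraMap B K b))
    (δ : Derivation k K K) (hδ : ∀ x : K, MemAt p x → MemAt p (δ x))
    {s : K} (hs : MemAt p s) (hδs : δ s = 1)
    {ϖ : (placeOfPrime p h1 hk).toValuationSubring} (hϖ : Irreducible ϖ) :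
    (placeOfPrime p h1 hk).toValuationSubring.valuation (δ (ϖ : K)) = 1 :=
  CA.H32.valuation_deriv_uniformiser_eq_one (placeOfPrime p h1 hk).toValuationSubring hk
    (exists_poly_valuation_lt_one_at (R := R) p h1 hk j₀ hint) δ hϖ hδ hs hδs

/-- ord form: `ord (∂ x) = ord x - 1` at a horizontal prime, for `ord x ≠ 0`. -/
theorem ord_deriv_at (p : Ideal B) [hp : p.IsPrime] (h1 : p.height = 1)
    (hk : ∀ c : k, MemAt p (algebraMap k K c)) (j₀ : B)
    (hint : ∀ b : B, IsIntegral (Algebra.adjoin R {algebraMap B K j₀}) (algebraMap B K b))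
    (δ : Derivation k K K) (hδ : ∀ x : K, MemAt p x → MemAt p (δ x))
    {s : K} (hs : MemAt p s) (hδs : δ s = 1)
    {x : K} (hx0 : x ≠ 0) (hx : (placeOfPrime p h1 hk).ord x ≠ 0) :
    (placeOfPrime p h1 hk).ord (δ x) = (placeOfPrime p h1 hk).ord x - 1 := by
  obtain ⟨ϖ, hϖ⟩ :=
    IsDiscreteValuationRing.exists_irreducible (placeOfPrime p h1 hk).toValuationSubring
  exact ord_deriv_eq_sub_one (placeOfPrime p h1 hk) δ hδ hϖ
    (valuation_deriv_uniformiser_at (R := R) p h1 hk j₀ hint δ hδ hs hδs hϖ) hx0 hx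

/-- **`A_s = j ^ 4 (j - 1728) ^ 3 / (∂ j) ^ 6` is a unit at the horizontal prime `p`.** -/
theorem isUnitAt_sixfold (p : Ideal B) [hp : p.IsPrime] (h1 : p.height = 1)
    (hk : ∀ c : k, MemAt p (algebraMap k K c)) (j₀ : B)
    (hint : ∀ b : B, IsIntegral (Algebra.adjoin R {algebraMap B K j₀}) (algebraMap B K b))
    (δ : Derivation k K K) (hδ : ∀ x : K, MemAt p x → MemAt p (δ x))
    {s : K} (hs : MemAt p s) (hδs : δ s = 1)
    {j : K} (hj0 : j ≠ 0) (hj1 : j - 1728 ≠ 0) (hj : MemAt p j)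
    (h3 : 0 < (placeOfPrime p h1 hk).ord j → (placeOfPrime p h1 hk).ord j = 3)
    (h2 : 0 < (placeOfPrime p h1 hk).ord (j - 1728) →
      (placeOfPrime p h1 hk).ord (j - 1728) = 2)
    (h1' : (placeOfPrime p h1 hk).ord j = 0 → (placeOfPrime p h1 hk).ord (j - 1728) = 0 →
      ∃ μ : k[X], (placeOfPrime p h1 hk).ord (aeval j μ) = 1) :
    δ j ≠ 0 ∧ IsUnitAt p (j ^ 4 * (j - 1728) ^ 3 / (δ j) ^ 6) := by
  obtain ⟨ϖ, hϖ⟩ :=
    IsDiscreteValuationRing.exists_irreducible (placeOfPrime p h1 hk).toValuationSubring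
  have hu := valuation_deriv_uniformiser_at (R := R) p h1 hk j₀ hint δ hδ hs hδs hϖ
  have hjnn : 0 ≤ (placeOfPrime p h1 hk).ord j :=
    (ord_placeOfPrime_nonneg_iff p h1 hk hj0).mpr hj
  obtain ⟨hδj, hord⟩ :=
    ord_sixfold_eq_zero (placeOfPrime p h1 hk) δ hδ hϖ hu hj0 hj1 hjnn h3 h2 h1'
  refine ⟨hδj, ?_⟩
  have hne : j ^ 4 * (j - 1728) ^ 3 / (δ j) ^ 6 ≠ 0 :=
    div_ne_zero (mul_ne_zero (pow_ne_zero 4 hj0) (pow_ne_zero 3 hj1)) (pow_ne_zero 6 hδj)
  exact (ord_placeOfPrime_eq_zero_iff p h1 hk hne).mp hord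

end Fermat.Agent.S36.H32
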