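/-
helper34 — S36 row (D1-asm), part 2: **norm descent at `q ∣ M`.**

The twin of helper18's `S35/H18_NormDesc` (`q ∤ M`, degree `q + 1`) at a prime `q ∣ M` (degree `q`,
helper16's `S36/H16_RelDegQ`): for a field `L ⊆ Qbar`, the coefficientwise embedding
`H99.toBar L _ : F_L(_) → FN _` intertwines the field norms `F_L(M q) → F_L(M)` of the two
degeneracy structures (`S34.H16.degAlgebra`, `S35.H16.vAlgebra`) with the norms along the prelude's
`heckeAlphaBar Qbar M q`, `heckeBetaBar Qbar M q` (= `S35.H86.normAlpha`, `normBeta`).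

* `finrank_alpha_dvd`, `finrank_beta_dvd` : `[FN (M q) : α (FN M)] = [FN (M q) : β (FN M)] = q`.
* `toBar_norm_alpha_dvd`, `toBar_norm_beta_dvd` : the two norm descents.
-/
import Mathlib
import Fermat.Agent.S35.H18_NormDesc
import Fermat.Agent.S36.H16_RelDegQ

set_option autoImplicit false
set_option linter.unusedSectionVars false
set_option linter.style.haveILetI false
set_option synthInstance.maxHeartbeats 400000

noncomputable section

namespace Fermat.Agent.S36.H34

open ModularCurve AlgebraicCurve HahnSeries Fermat.Agent.S18 Fermat.Agent.S34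

local notation "Qbar" => AlgebraicClosure ℚ

variable (L : Type) [Field L] [Algebra L Qbar] (M q : ℕ) [NeZero M] [NeZero q]

/-- `[FN (M q) : α (FN M)] = q` for a prime `q ∣ M`. -/
theorem finrank_alpha_dvd (hq : q.Prime) (hqM : q ∣ M) :
    letI := algebraAlong (heckeAlphaBar Qbar M q)
    Module.finrank (S24.FN M) (S24.FN (M * q)) = q := by
  letI a2 := algebraAlong (heckeAlphaBar Qbar M q)
  letI a1 := H16.degAlgebra Qbar M (M * q) (dvd_mul_right M q)
  have h := Fermat.Agent.S36.H16.finrank_fullC_prime_dvd Qbar M (M * q) (dvd_mul_right M q) q hq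
    hqM (mul_comm M q) (Fermat.Agent.S35.H18.natCast_ne_zero_L Qbar (M * q))
  refine Eq.trans ?_ h
  symm
  let i : modularFunctionFieldFullC Qbar M ≃+* S24.FN M :=
    (IntermediateField.equivOfEq (H99.fullC_Qbar_eq_bar M)).toRingEquiv
  let j : modularFunctionFieldFullC Qbar (M * q) ≃+* S24.FN (M * q) :=
    (IntermediateField.equivOfEq (H99.fullC_Qbar_eq_bar (M * q))).toRingEquiv
  refine Algebra.finrank_eq_of_equiv_equiv i j ?_
  apply RingHom.ext
  intro x
  apply Subtype.ext
  show ((heckeAlphaBar Qbar M q (i x) : S24.FN (M * q)) : LaurentSeries Qbar) =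
    ((algebraMap (modularFunctionFieldFullC Qbar M) (modularFunctionFieldFullC Qbar (M * q)) x :
      modularFunctionFieldFullC Qbar (M * q)) : LaurentSeries Qbar)
  rw [coe_heckeAlphaBar, H16.degAlgebra_algebraMap_coe]
  rfl

/-- `[FN (M q) : β (FN M)] = q` for a prime `q ∣ M`. -/
theorem finrank_beta_dvd (hq : q.Prime) (hqM : q ∣ M) :
    letI := algebraAlong (heckeBetaBar Qbar M q)
    Module.finrank (S24.FN M) (S24.FN (M * q)) = q := by
  letI a2 := algebraAlong (heckeBetaBar Qbar M q)
  letI a1 := S35.H16.vAlgebra Qbar q M (M * q) (dvd_of_eq (mul_comm q M))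
  have h := Fermat.Agent.S36.H16.finrank_vSub_dvd Qbar M (M * q) q hq hqM (mul_comm M q)
    (Fermat.Agent.S35.H18.natCast_ne_zero_L Qbar (M * q))
  refine Eq.trans ?_ h
  symm
  let i : modularFunctionFieldFullC Qbar M ≃+* S24.FN M :=
    (IntermediateField.equivOfEq (H99.fullC_Qbar_eq_bar M)).toRingEquiv
  let j : modularFunctionFieldFullC Qbar (M * q) ≃+* S24.FN (M * q) :=
    (IntermediateField.equivOfEq (H99.fullC_Qbar_eq_bar (M * q))).toRingEquiv
  refine Algebra.finrank_eq_of_equiv_equiv i j ?_
  apply RingHom.ext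
  intro x
  apply Subtype.ext
  show ((heckeBetaBar Qbar M q (i x) : S24.FN (M * q)) : LaurentSeries Qbar) =
    ((algebraMap (modularFunctionFieldFullC Qbar M) (modularFunctionFieldFullC Qbar (M * q)) x :
      modularFunctionFieldFullC Qbar (M * q)) : LaurentSeries Qbar)
  rw [coe_heckeBetaBar, S35.H16.vAlgebra_algebraMap_coe]
  rfl

/-- **Norm descent along `α`** at a prime `q ∣ M`. -/
theorem toBar_norm_alpha_dvd (hq : q.Prime) (hqM : q ∣ M)
    (x : modularFunctionFieldFullC L (M * q)) :
    (letI := H16.degAlgebra L M (M * q) (dvd_mul_right M q);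
      H99.toBar L M (Algebra.norm (modularFunctionFieldFullC L M) x)) =
    (letI := algebraAlong (heckeAlphaBar Qbar M q);
      Algebra.norm (S24.FN M) (H99.toBar L (M * q) x)) := by
  letI a1 := H16.degAlgebra L M (M * q) (dvd_mul_right M q)
  letI a2 := algebraAlong (heckeAlphaBar Qbar M q)
  have hfr := Fermat.Agent.S36.H16.finrank_fullC_prime_dvd L M (M * q) (dvd_mul_right M q) q hq
    hqM (mul_comm M q) (Fermat.Agent.S35.H18.natCast_ne_zero_L L (M * q))
  haveI : FiniteDimensional (modularFunctionFieldFullC L M)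
      (modularFunctionFieldFullC L (M * q)) := by
    apply Module.finite_of_finrank_pos
    rw [hfr]
    exact hq.pos
  have hdeg : Module.finrank (S24.FN M) (S24.FN (M * q)) =
      Module.finrank (modularFunctionFieldFullC L M) (modularFunctionFieldFullC L (M * q)) := by
    rw [hfr]
    exact finrank_alpha_dvd M q hq hqM
  exact ((Fermat.Agent.S29.H19.norm_baseChange (H99.toBar L M) (H99.toBar L (M * q))
    (Fermat.Agent.S35.H18.toBar_degAlgebra_algebraMap L M q) hdeg
    (Fermat.Agent.S35.H18.closure_alpha_toBar_eq_top L M q) x).1).symm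

/-- **Norm descent along `β`** at a prime `q ∣ M`. -/
theorem toBar_norm_beta_dvd (hq : q.Prime) (hqM : q ∣ M)
    (x : modularFunctionFieldFullC L (M * q)) :
    (letI := S35.H16.vAlgebra L q M (M * q) (dvd_of_eq (mul_comm q M));
      H99.toBar L M (Algebra.norm (modularFunctionFieldFullC L M) x)) =
    (letI := algebraAlong (heckeBetaBar Qbar M q);
      Algebra.norm (S24.FN M) (H99.toBar L (M * q) x)) := by
  letI a1 := S35.H16.vAlgebra L q M (M * q) (dvd_of_eq (mul_comm q M))
  letI a2 := algebraAlong (heckeBetaBar Qbar M q)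
  have hfr := Fermat.Agent.S36.H16.finrank_vSub_dvd L M (M * q) q hq hqM (mul_comm M q)
    (Fermat.Agent.S35.H18.natCast_ne_zero_L L (M * q))
  haveI : FiniteDimensional (modularFunctionFieldFullC L M)
      (modularFunctionFieldFullC L (M * q)) := by
    apply Module.finite_of_finrank_pos
    rw [hfr]
    exact hq.pos
  have hdeg : Module.finrank (S24.FN M) (S24.FN (M * q)) =
      Module.finrank (modularFunctionFieldFullC L M) (modularFunctionFieldFullC L (M * q)) := by
    rw [hfr]
    exact finrank_beta_dvd M q hq hqM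
  exact ((Fermat.Agent.S29.H19.norm_baseChange (H99.toBar L M) (H99.toBar L (M * q))
    (Fermat.Agent.S35.H18.toBar_vAlgebra_algebraMap L M q) hdeg
    (Fermat.Agent.S35.H18.closure_beta_toBar_eq_top L M q) x).1).symm

end Fermat.Agent.S36.H34
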