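/-
helper34 — S36 row (D1-asm), part 1: **coefficient field descent and `m`-th power descent.**

`K1 := H45.unrCyclo q`, `E : IntermediateField K1 Qbar` (ANY intermediate field, no finiteness),
`F_E := modularFunctionFieldFullC ↥E N`, `H99.toBar ↥E N : F_E →+* FN N`.

* `mem_range_toBar_of_coeff_mem` : an element of `FN N` all of whose Laurent coefficients lie in
  `E` comes from `F_E` (landed field descent `S29.H62.mem_laurentBaseChange_of_coeffMap_mem`).
* `mem_range_toBar_of_forall_fixed` : an element of `FN N` fixed by the arithmetic Galois action of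
  every `τ` fixing `E` pointwise comes from `F_E`.
* `exists_pow_descent` : if `x : F_E` and `toBar x = c · h ^ m` over `Qbar` (`c ≠ 0`, `h ≠ 0`,
  `m ≠ 0`), then `x = c0 · h0 ^ m` with `c0 : E`, `h0 : F_E` (NO enlargement of `E`).
-/
import Mathlib
import Fermat.Agent.S34.H34_DescTwin
import Fermat.Agent.S29.H62_BaseChangeField
import Fermat.Agent.S18.H99_F1Basics

set_option autoImplicit false
set_option linter.unusedSectionVars false
set_option linter.style.haveILetI false
set_option synthInstance.maxHeartbeats 400000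

namespace Fermat.Agent.S36.H34

open AlgebraicCurve ModularCurve IntermediateField HahnSeries
open Fermat.Agent.S18 Fermat.Agent.S24

noncomputable section

local notation "Qbar" => AlgebraicClosure ℚ

variable (N : ℕ) [NeZero N] {q : ℕ} (E : IntermediateField (H45.unrCyclo q) Qbar)

/-- **Coefficient field descent**: `g : FN N` with all Laurent coefficients in `E` lies in the
image of `F_E`. -/
theorem mem_range_toBar_of_coeff_mem (g : FN N)
    (hg : ∀ n : ℤ, (g : LaurentSeries Qbar).coeff n ∈ E) :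
    g ∈ Set.range (H99.toBar ↥E N) := by
  classical
  have hsupp : (Function.support fun n : ℤ =>
      (⟨(g : LaurentSeries Qbar).coeff n, hg n⟩ : ↥E)).IsPWO := by
    refine (g : LaurentSeries Qbar).isPWO_support.mono ?_
    intro n hn
    simp only [Function.mem_support, ne_eq] at hn ⊢
    intro h0
    apply hn
    exact Subtype.ext h0
  let x : LaurentSeries ↥E :=
    HahnSeries.mk (fun n : ℤ => (⟨(g : LaurentSeries Qbar).coeff n, hg n⟩ : ↥E)) hsupp
  have hx : coeffMap (algebraMap ↥E Qbar) x = (g : LaurentSeries Qbar) := by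
    ext n
    rw [coeffMap_coeff]
    rfl
  have hmem : x ∈ modularFunctionFieldFullC ↥E N := by
    rw [H99.fullC_eq_laurentBaseChange ↥E N]
    refine Fermat.Agent.S29.H62.mem_laurentBaseChange_of_coeffMap_mem (L := Qbar)
      (modularFunctionFieldFull N) ?_
    rw [hx]
    exact g.2
  exact ⟨⟨x, hmem⟩, Subtype.ext hx⟩

/-- An element of `FN N` fixed by the arithmetic Galois action of every `τ` fixing `E` pointwise
lies in the image of `F_E`. -/
theorem mem_range_toBar_of_forall_fixed (g : FN N)
    (hg : ∀ τ : Qbar ≃ₐ[ℚ] Qbar, (∀ a ∈ E, τ a = a) →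
      arithmeticGalois (modularFunctionFieldFull N) τ • g = g) :
    g ∈ Set.range (H99.toBar ↥E N) := by
  refine mem_range_toBar_of_coeff_mem N E g (fun n => ?_)
  refine Fermat.Agent.S34.H34.mem_of_forall_fixed E _ (fun τ hτ => ?_)
  have h1 := congrArg (fun z : FN N => (z : LaurentSeries Qbar).coeff n) (hg τ hτ)
  simp only [coe_arithmeticGalois_smul, coeffMap_coeff] at h1
  exact h1

/-! ### leading coefficients on `FN N` -/

/-- The leading Laurent coefficient of an element of `FN N`. -/
def lc (g : FN N) : Qbar := (g : LaurentSeries Qbar).leadingCoeff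

theorem lc_mul (a b : FN N) : lc N (a * b) = lc N a * lc N b := by
  unfold lc
  rw [show ((a * b : FN N) : LaurentSeries Qbar) =
    (a : LaurentSeries Qbar) * (b : LaurentSeries Qbar) from rfl, leadingCoeff_mul]

theorem lc_one : lc N (1 : FN N) = 1 := by
  unfold lc
  rw [show ((1 : FN N) : LaurentSeries Qbar) = 1 from rfl, leadingCoeff_one]

theorem lc_pow (a : FN N) (m : ℕ) : lc N (a ^ m) = lc N a ^ m := by
  induction m with
  | zero => rw [pow_zero, pow_zero, lc_one]
  | succ k ih => rw [pow_succ, pow_succ, lc_mul, ih]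

theorem lc_algebraMap (c : Qbar) : lc N (algebraMap Qbar (FN N) c) = c := by
  unfold lc
  rw [show ((algebraMap Qbar (FN N) c : FN N) : LaurentSeries Qbar) =
    algebraMap Qbar (LaurentSeries Qbar) c from rfl, algebraMap_laurentSeries_eq_single,
    leadingCoeff_of_single]

theorem lc_ne_zero {a : FN N} (ha : a ≠ 0) : lc N a ≠ 0 := by
  unfold lc
  rw [leadingCoeff_ne_zero]
  intro h0
  exact ha (Subtype.ext h0)

theorem lc_eq_coeff (a : FN N) :
    lc N a = (a : LaurentSeries Qbar).coeff (a : LaurentSeries Qbar).order := by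
  unfold lc
  rw [leadingCoeff_eq]

/-- The order of a Laurent series is unchanged by an injective coefficient map. -/
theorem order_coeffMap_of_injective {R S : Type*} [CommRing R] [CommRing S] (f : R →+* S)
    (hf : Function.Injective f) (x : LaurentSeries R) : (coeffMap f x).order = x.order := by
  rcases eq_or_ne x 0 with rfl | hx
  · simp only [map_zero, HahnSeries.order_zero]
  · have hfx : coeffMap f x ≠ 0 := by
      intro h0
      apply hx
      ext n
      have h1 := congrArg (fun z : LaurentSeries S => z.coeff n) h0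
      simp only [coeffMap_coeff, HahnSeries.coeff_zero] at h1
      rw [HahnSeries.coeff_zero]
      exact hf (by rw [h1, map_zero])
    apply le_antisymm
    · apply HahnSeries.order_le_of_coeff_ne_zero
      rw [coeffMap_coeff]
      intro h0
      exact hx (HahnSeries.coeff_order_eq_zero.1 (hf (by rw [h0, map_zero])))
    · apply HahnSeries.order_le_of_coeff_ne_zero
      intro h0
      apply hfx
      apply HahnSeries.coeff_order_eq_zero.1
      rw [coeffMap_coeff, h0, map_zero]

theorem lc_smul (τ : Qbar ≃ₐ[ℚ] Qbar) (a : FN N) :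
    lc N (arithmeticGalois (modularFunctionFieldFull N) τ • a) = τ (lc N a) := by
  rw [lc_eq_coeff, lc_eq_coeff, coe_arithmeticGalois_smul,
    order_coeffMap_of_injective _ (RingHom.injective _), coeffMap_coeff]
  rfl

theorem lc_toBar_mem (x : modularFunctionFieldFullC ↥E N) : lc N (H99.toBar ↥E N x) ∈ E := by
  rw [lc_eq_coeff, H99.coe_toBar, coeffMap_coeff]
  exact Subtype.mem _

theorem lc_div (a b : FN N) (hb : b ≠ 0) : lc N (a / b) = lc N a / lc N b := by
  rw [eq_div_iff (lc_ne_zero N hb), ← lc_mul, div_mul_cancel₀ _ hb]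

/-- An `m`-th root of unity of `FN N` with leading coefficient `1` is `1`. -/
theorem eq_one_of_pow_eq_one_of_lc {m : ℕ} (hm : m ≠ 0) (z : FN N) (hz : z ^ m = 1)
    (hlc : lc N z = 1) : z = 1 := by
  have hint : IsIntegral Qbar z := by
    refine ⟨Polynomial.X ^ m - 1, Polynomial.monic_X_pow_sub_C (1 : Qbar) hm, ?_⟩
    rw [Polynomial.eval₂_sub, Polynomial.eval₂_pow, Polynomial.eval₂_X, Polynomial.eval₂_one, hz,
      sub_self]
  have hdeg : (minpoly Qbar z).degree = 1 :=
    IsAlgClosed.degree_eq_one_of_irreducible Qbar (minpoly.irreducible hint)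
  obtain ⟨c, hc⟩ := minpoly.mem_range_of_degree_eq_one Qbar z hdeg
  rw [← hc, lc_algebraMap] at hlc
  rw [← hc, hlc, map_one]

/-- **`m`-th power descent** (no enlargement of `E`): if `x : F_E` becomes `c · h ^ m` over `Qbar`
(`c ≠ 0`, `h ≠ 0`, `m ≠ 0`), then already `x = c0 · h0 ^ m` with `c0 : E`, `h0 : F_E`. -/
theorem exists_pow_descent {m : ℕ} (hm : m ≠ 0) (x : modularFunctionFieldFullC ↥E N)
    (c : Qbar) (h : FN N) (hc : c ≠ 0) (hh : h ≠ 0)
    (hx : H99.toBar ↥E N x = algebraMap Qbar (FN N) c * h ^ m) :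
    ∃ (c0 : ↥E) (h0 : modularFunctionFieldFullC ↥E N), c0 ≠ 0 ∧ h0 ≠ 0 ∧
      x = algebraMap ↥E (modularFunctionFieldFullC ↥E N) c0 * h0 ^ m := by
  have ha0 : lc N h ≠ 0 := lc_ne_zero N hh
  have hinv0 : algebraMap Qbar (FN N) (lc N h)⁻¹ ≠ 0 := by
    intro h0
    exact inv_ne_zero ha0 ((algebraMap Qbar (FN N)).injective (by rw [h0, map_zero]))
  obtain ⟨h', hh'⟩ : ∃ h' : FN N, h' = algebraMap Qbar (FN N) (lc N h)⁻¹ * h := ⟨_, rfl⟩
  have hh'0 : h' ≠ 0 := by rw [hh']; exact mul_ne_zero hinv0 hh
  have hlc' : lc N h' = 1 := by rw [hh', lc_mul, lc_algebraMap, inv_mul_cancel₀ ha0]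
  obtain ⟨c', hc'⟩ : ∃ c' : Qbar, c' = c * lc N h ^ m := ⟨_, rfl⟩
  have hc'0 : c' ≠ 0 := by rw [hc']; exact mul_ne_zero hc (pow_ne_zero _ ha0)
  have hx' : H99.toBar ↥E N x = algebraMap Qbar (FN N) c' * h' ^ m := by
    rw [hx, hh', hc', mul_pow, ← map_pow, ← mul_assoc, ← map_mul, inv_pow, mul_assoc c,
      mul_inv_cancel₀ (pow_ne_zero _ ha0), mul_one]
  have hc'lc : lc N (H99.toBar ↥E N x) = c' := by
    rw [hx', lc_mul, lc_algebraMap, lc_pow, hlc', one_pow, mul_one]
  have hc'E : c' ∈ E := hc'lc ▸ lc_toBar_mem N E x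
  have halg0 : algebraMap Qbar (FN N) c' ≠ 0 := by
    intro h0
    exact hc'0 ((algebraMap Qbar (FN N)).injective (by rw [h0, map_zero]))
  have hfix : ∀ τ : Qbar ≃ₐ[ℚ] Qbar, (∀ a ∈ E, τ a = a) →
      arithmeticGalois (modularFunctionFieldFull N) τ • h' = h' := by
    intro τ hτ
    have h1 := Fermat.Agent.S34.H34.arithmeticGalois_smul_toBar N E τ hτ x
    rw [hx', smul_mul', smul_pow', SemilinearAut.smul_algebraMap, baseAut_arithmeticGalois] at h1
    have h2 : τ.toRingEquiv c' = c' := hτ c' hc'E
    rw [h2] at h1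
    have h3 : (arithmeticGalois (modularFunctionFieldFull N) τ • h') ^ m = h' ^ m :=
      mul_left_cancel₀ halg0 h1
    have h4 : (arithmeticGalois (modularFunctionFieldFull N) τ • h' / h') ^ m = 1 := by
      rw [div_pow, h3, div_self (pow_ne_zero _ hh'0)]
    have h5 := eq_one_of_pow_eq_one_of_lc N hm _ h4
      (by rw [lc_div N _ _ hh'0, lc_smul, hlc', map_one, div_one])
    exact (div_eq_one_iff_eq hh'0).1 h5
  obtain ⟨h0, hh0⟩ := mem_range_toBar_of_forall_fixed N E h' hfix
  refine ⟨⟨c', hc'E⟩, h0, ?_, ?_, ?_⟩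
  · intro h0'
    exact hc'0 (congrArg Subtype.val h0')
  · intro h0'
    apply hh'0
    rw [← hh0, h0', map_zero]
  · apply H99.toBar_injective ↥E N
    rw [map_mul, map_pow, H99.toBar_algebraMap, hh0, hx']
    rfl

end

end Fermat.Agent.S36.H34
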