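/-
helper34 — S36 row (D1-asm): **the final assembly of the descent row (D1) = `DESC36`.**

Consumer: helper18's `S36.H18.ifGeo36_of_geoFn36E` (hypothesis `hdesc`), i.e.
`S36.H18.Desc36 M0 q (p ^ k) A y` for every `p`-power torsion class `y` of `J₀((M0 q) q)` fixed by the
inertia group `I_A` and killed by both pushforwards to `J₀(M0 q)`.

* `fixedInertia hq hA` : the field of `I_A`-fixed elements of `Qbar`, as an intermediate field over
  `K1 := H45.unrCyclo q`.
* `desc36_of_level` : for ANY intermediate field `E0` finite over `K1`, pointwise `I_A`-fixed and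
  containing the Laurent coefficients of `f` (`div f = m D`, `[D] = y`), the class `y` satisfies
  `Desc36` with this `E0`: `f` descends to `F_{E0}` (field descent), and the two norm identities
  over `E0` follow from the `Qbar`-level ones (`S35.H86.exists_normAlpha/Beta_eq_of_push…_eq_zero`),
  the norm descent at `q ∣ M0 q` (`toBar_norm_alpha_dvd`, `toBar_norm_beta_dvd`) and the `m`-th
  power descent `exists_pow_descent` (no enlargement of `E0`).
* `desc36_of_fn` : the same from a `Qbar`-level representative `f` FIXED by `I_A` (the output of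
  helper11's (D1a)): `E0 := K1(finite set carrying f) ⊓ Qbar^{I_A}`.
* `desc36` : `hdesc` of `S36.H18.ifGeo36_of_geoFn36E` VERBATIM, from (D1a) as a named hypothesis.
-/
import Mathlib
import Fermat.Agent.S36.H34_PowDescent
import Fermat.Agent.S36.H34_NormDescQ
import Fermat.Agent.S36.H18_Geo36Top
import Fermat.Agent.S18.H45_InertiaBase

set_option autoImplicit false
set_option linter.unusedSectionVars false
set_option linter.style.haveILetI false
set_option synthInstance.maxHeartbeats 400000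
set_option maxHeartbeats 1600000

namespace Fermat.Agent.S36.H34

open AlgebraicCurve ModularCurve IntermediateField HahnSeries
open Fermat.Agent.S18 Fermat.Agent.S24 Fermat.Agent.S34

noncomputable section

local notation "Qbar" => AlgebraicClosure ℚ

/-- The field of elements of `Qbar` fixed by the inertia group of `A`, over `K1 = unrCyclo q`. -/
def fixedInertia {q : ℕ} {A : ValuationSubring Qbar} (hq : q.Prime) (hA : A.LiesOverPrime q) :
    IntermediateField (H45.unrCyclo q) Qbar where
  carrier := {x | ∀ σ ∈ A.inertiaSubgroupIn ℚ, σ x = x}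
  mul_mem' := fun {a b} ha hb σ hσ => by rw [map_mul, ha σ hσ, hb σ hσ]
  one_mem' := fun σ _ => map_one σ
  add_mem' := fun {a b} ha hb σ hσ => by rw [map_add, ha σ hσ, hb σ hσ]
  zero_mem' := fun σ _ => map_zero σ
  algebraMap_mem' := fun x σ hσ => H45.inertia_apply_unrCyclo hq hA hσ x
  inv_mem' := fun a ha σ hσ => by rw [map_inv₀, ha σ hσ]

theorem mem_fixedInertia {q : ℕ} {A : ValuationSubring Qbar} (hq : q.Prime)
    (hA : A.LiesOverPrime q) (x : Qbar) :
    x ∈ fixedInertia hq hA ↔ ∀ σ ∈ A.inertiaSubgroupIn ℚ, σ x = x := Iff.rfl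

variable (M0 q m : ℕ) [NeZero M0] [NeZero q]

/-- **(D1) at a given level `E0`.** -/
theorem desc36_of_level (hq : q.Prime) (hm : m ≠ 0) (A : ValuationSubring Qbar)
    (E0 : IntermediateField (H45.unrCyclo q) Qbar)
    (hfin : FiniteDimensional (H45.unrCyclo q) E0)
    (hfixE0 : ∀ σ ∈ A.inertiaSubgroupIn ℚ, ∀ x : E0, σ (x : Qbar) = x)
    (y : JZero ((M0 * q) * q))
    (D : Divisor.degZero (K := Qbar) (F := modularFunctionFieldBar ((M0 * q) * q)))
    (f : S24.FN ((M0 * q) * q)) (hf : f ≠ 0) (hDy : Pic0.mk D = y)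
    (hord : ∀ v : Place Qbar (S24.FN ((M0 * q) * q)),
      v.ord f = (m : ℤ) * (D : Divisor Qbar (modularFunctionFieldBar ((M0 * q) * q))) v)
    (hcoef : ∀ n : ℤ, (f : LaurentSeries Qbar).coeff n ∈ E0)
    (hα : S35.H86.pushAlpha (M0 * q) q y = 0) (hβ : S35.H86.pushBeta (M0 * q) q y = 0) :
    H18.Desc36 M0 q m A y := by
  obtain ⟨f0, hf0⟩ := mem_range_toBar_of_coeff_mem ((M0 * q) * q) E0 f hcoef
  refine ⟨E0, hfin, hfixE0, f0, D, ?_, hDy, ?_, ?_, ?_⟩
  · rintro rfl
    exact hf (by rw [← hf0, map_zero])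
  · intro v
    rw [hf0]
    exact hord v
  · obtain ⟨c, h, hc, hh, hN⟩ :=
      S35.H86.exists_normAlpha_eq_of_pushAlpha_eq_zero (N := M0 * q) (ℓ := q) D
        (by rw [hDy]; exact hα) hf hord
    have hnd := toBar_norm_alpha_dvd ↥E0 (M0 * q) q hq (dvd_mul_left q M0) f0
    rw [hf0] at hnd
    exact exists_pow_descent (M0 * q) E0 hm _ c h hc hh (hnd.trans hN)
  · obtain ⟨c, h, hc, hh, hN⟩ :=
      S35.H86.exists_normBeta_eq_of_pushBeta_eq_zero (N := M0 * q) (ℓ := q) D
        (by rw [hDy]; exact hβ) hf hord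
    have hnd := toBar_norm_beta_dvd ↥E0 (M0 * q) q hq (dvd_mul_left q M0) f0
    rw [hf0] at hnd
    exact exists_pow_descent (M0 * q) E0 hm _ c h hc hh (hnd.trans hN)

/-- **(D1) from a `Qbar`-level representative fixed by inertia** (= the output of (D1a)). -/
theorem desc36_of_fn (hq : q.Prime) (hm : m ≠ 0) (A : ValuationSubring Qbar)
    (hA : A.LiesOverPrime q) (y : JZero ((M0 * q) * q))
    (D : Divisor.degZero (K := Qbar) (F := modularFunctionFieldBar ((M0 * q) * q)))
    (f : S24.FN ((M0 * q) * q)) (hf : f ≠ 0) (hDy : Pic0.mk D = y)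
    (hord : ∀ v : Place Qbar (S24.FN ((M0 * q) * q)),
      v.ord f = (m : ℤ) * (D : Divisor Qbar (modularFunctionFieldBar ((M0 * q) * q))) v)
    (hfix : ∀ σ ∈ A.inertiaSubgroupIn ℚ,
      arithmeticGalois (modularFunctionFieldFull ((M0 * q) * q)) σ • f = f)
    (hα : S35.H86.pushAlpha (M0 * q) q y = 0) (hβ : S35.H86.pushBeta (M0 * q) q y = 0) :
    H18.Desc36 M0 q m A y := by
  classical
  obtain ⟨S, hS⟩ :=
    Fermat.Agent.S34.H34.exists_finset_forall_mem_range_toBar ((M0 * q) * q) q f
  obtain ⟨E1, hE1⟩ : ∃ E1 : IntermediateField (H45.unrCyclo q) Qbar,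
      E1 = IntermediateField.adjoin (H45.unrCyclo q) (S : Set Qbar) := ⟨_, rfl⟩
  have hE1fin : FiniteDimensional (H45.unrCyclo q) E1 := by
    rw [hE1]
    exact IntermediateField.finiteDimensional_adjoin
      (fun x _ => (Algebra.IsAlgebraic.isAlgebraic x).isIntegral)
  have hle : E1 ⊓ fixedInertia hq hA ≤ E1 := inf_le_left
  have hfin : FiniteDimensional (H45.unrCyclo q) ↥(E1 ⊓ fixedInertia hq hA) :=
    Module.Finite.of_injective (IntermediateField.inclusion hle).toLinearMap
      (IntermediateField.inclusion_injective hle)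
  obtain ⟨f1, hf1⟩ := hS E1 (fun a ha => by
    rw [hE1]
    exact IntermediateField.subset_adjoin _ _ (Finset.mem_coe.2 ha))
  refine desc36_of_level M0 q m hq hm A (E1 ⊓ fixedInertia hq hA) hfin
    (fun σ hσ x => x.2.2 σ hσ) y D f hf hDy hord (fun n => ⟨?_, ?_⟩) hα hβ
  · rw [← hf1, H99.coe_toBar, coeffMap_coeff]
    exact Subtype.mem _
  · intro σ hσ
    have h1 := congrArg (fun z : S24.FN ((M0 * q) * q) => (z : LaurentSeries Qbar).coeff n)
      (hfix σ hσ)
    simp only [coe_arithmeticGalois_smul, coeffMap_coeff] at h1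
    exact h1

/-- **`DESC36`** = the hypothesis `hdesc` of `S36.H18.ifGeo36_of_geoFn36E`, VERBATIM, from (D1a)
(helper11) as a named hypothesis: every `m`-torsion (`m = p ^ k`) class fixed by `I_A` has a
representative `D` and a function `f` FIXED by `I_A` with `div f = m D`. -/
theorem desc36 (p : ℕ) (hq : q.Prime) (hp : p ≠ 0)
    (hD1a : ∀ (k : ℕ) (A : ValuationSubring Qbar), A.LiesOverPrime q →
      ∀ y : JZero ((M0 * q) * q), (p ^ k) • y = 0 →
        (∀ σ ∈ A.inertiaSubgroupIn ℚ, σ • y = y) →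
        ∃ (D : Divisor.degZero (K := Qbar) (F := modularFunctionFieldBar ((M0 * q) * q)))
          (f : S24.FN ((M0 * q) * q)), f ≠ 0 ∧ Pic0.mk D = y ∧
          (∀ v : Place Qbar (S24.FN ((M0 * q) * q)),
            v.ord f = ((p ^ k : ℕ) : ℤ) *
              (D : Divisor Qbar (modularFunctionFieldBar ((M0 * q) * q))) v) ∧
          ∀ σ ∈ A.inertiaSubgroupIn ℚ,
            arithmeticGalois (modularFunctionFieldFull ((M0 * q) * q)) σ • f = f) :
    ∀ (k : ℕ) (A : ValuationSubring Qbar), A.LiesOverPrime q →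
      ∀ y : JZero ((M0 * q) * q), (p ^ k) • y = 0 →
        (∀ σ ∈ A.inertiaSubgroupIn ℚ, σ • y = y) →
        S35.H86.pushAlpha (M0 * q) q y = 0 → S35.H86.pushBeta (M0 * q) q y = 0 →
        H18.Desc36 M0 q (p ^ k) A y := by
  intro k A hA y hy hinv hα hβ
  obtain ⟨D, f, hf, hDy, hord, hfix⟩ := hD1a k A hA y hy hinv
  exact desc36_of_fn M0 q (p ^ k) hq (pow_ne_zero k hp) A hA y D f hf hDy hord hfix hα hβ

end

end Fermat.Agent.S36.H34
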