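import Fermat.Agent.S36.H39_NoCrossAtCusp
import Fermat.Agent.S34.H55_TwoComponentsGlue

/-!
# (M2-cusp), chart level (helper39)

The abstract core `S36.H39.mul_notMem_of_crossing` in the chart vocabulary of
`S34.H55.twoComponents` (`chartMap`, `rbarB`, `WR`): for the chart coordinate `c` of level `M`
(think `c = j⁻¹`) whose residue `w` is non-zero, with `Fr w = w ^ q`, and `w₁ = (ι c) ^ q / V c`,
`w₂ = (V c) ^ q / ι c` in the chart `B = chartB R0 u`: no prime of `B` containing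
`ker red₁ + ker red₂` contains `ι c * V c`.  Also the version after a further ring map
`f : B → B'` (base change of the chart), in the shape of `S35.H70.exists_twoComponents_chartBC`.
-/

set_option autoImplicit false
set_option linter.unusedSectionVars false

namespace Fermat.Agent.S36.H39

open Polynomial Fermat.Agent.S18 Fermat.Agent.S34.H55 Fermat.Agent.S34.H83

section Chart

variable {R0 k F1 Fk F : Type*} [CommRing R0] [Field k] [Field F1] [Algebra R0 F1]
  [Field Fk] [Algebra k Fk] [Field F] [Algebra R0 F]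
  {ϖ : R0} {π0 : R0 →+* k} {x1 θ : F1} {xb θb : Fk}

/-- the chart coordinate `c` as an element of the chart `chartB R0 c`. -/
noncomputable def coordC (c : F1) : ↥(H40.chartB R0 c) := ⟨c, H40.self_mem_chartB c⟩

@[simp] theorem coe_coordC (c : F1) : ((coordC (R0 := R0) c : ↥(H40.chartB R0 c)) : F1) = c := rfl

variable (M : H3.GaussModel ϖ π0 x1 θ xb θb) (ι V : F1 →+* F)
  (hι : ∀ r : R0, ι (algebraMap R0 F1 r) = algebraMap R0 F r)
  (hV : ∀ r : R0, V (algebraMap R0 F1 r) = algebraMap R0 F r)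
  {c : F1} {u : F} {w : Fk} (hc : c ∈ M.O1) (hcw : M.res1 ⟨c, hc⟩ = w)
  (Fr : Fk →ₐ[k] Fk) (q : ℕ) (hFrw : Fr w = w ^ q)
  (hιint : IsIntegral (Algebra.adjoin R0 {u}) (ι c))
  (hVint : IsIntegral (Algebra.adjoin R0 {u}) (V c))

theorem rbarB_coordC : ((rbarB M hc hcw (coordC c) :
    ↥(integralClosure (Algebra.adjoin k {w}) Fk)) : Fk) = w := by
  rw [coe_rbarB]
  exact hcw

theorem rbarB_coordC_ne_zero (hw0 : w ≠ 0) : rbarB M hc hcw (coordC c) ≠ 0 := by
  intro h
  apply hw0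
  rw [← rbarB_coordC M hc hcw, h]
  rfl

theorem WR_rbarB_coordC :
    WR Fr q hFrw (rbarB M hc hcw (coordC c)) = rbarB M hc hcw (coordC c) ^ q := by
  apply Subtype.ext
  rw [coe_WR, rbarB_coordC M hc hcw, hFrw]
  change w ^ q = ((rbarB M hc hcw (coordC c) : ↥(integralClosure (Algebra.adjoin k {w}) Fk)) : Fk) ^ q
  rw [rbarB_coordC M hc hcw]

/-- **(M2-cusp), chart level.** -/
theorem coord_mul_notMem_of_crossing
    {red₁ red₂ : ↥(H40.chartB R0 u) →+* ↥(integralClosure (Algebra.adjoin k {w}) Fk)}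
    {ϖB : ↥(H40.chartB R0 u)}
    (TC : TwoComponents red₁ red₂ (chartMap ι hι hιint) (chartMap V hV hVint)
      (rbarB M hc hcw) (WR Fr q hFrw) q ϖB)
    (hq : 2 ≤ q) (hw0 : w ≠ 0)
    (w₁ w₂ : ↥(H40.chartB R0 u))
    (h₁ : (w₁ : F) * V c = ι c ^ q) (h₂ : (w₂ : F) * ι c = V c ^ q)
    (n : Ideal ↥(H40.chartB R0 u)) [n.IsPrime]
    (h1 : RingHom.ker red₁ ≤ n) (h2 : RingHom.ker red₂ ≤ n) :
    chartMap ι hι hιint (coordC c) * chartMap V hV hVint (coordC c) ∉ n := by
  refine mul_notMem_of_crossing TC hq (coordC c) (rbarB_coordC_ne_zero M hc hcw hw0)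
    (WR_rbarB_coordC M hc hcw Fr q hFrw) w₁ w₂ ?_ ?_ n h1 h2
  · apply Subtype.ext
    exact h₁
  · apply Subtype.ext
    exact h₂

end Chart

section Comp

variable {B B' R BM : Type*} [CommRing B] [CommRing B'] [CommRing R] [IsDomain R] [CommRing BM]
  {red₁ red₂ : B' →+* R} {ι V : BM →+* B} {rbar : BM →+* R} {W : R →+* R} {q : ℕ} {qB : B'}

/-- The core after a ring map `f : B → B'` (e.g. the chart-to-chart base change `chartBC`):
`TwoComponents` on `B'` with degeneracy maps `f ∘ ι`, `f ∘ V`, and `w, w' ∈ B`. -/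
theorem mul_notMem_of_crossing_comp (f : B →+* B')
    (h : TwoComponents red₁ red₂ (f.comp ι) (f.comp V) rbar W q qB) (hq : 2 ≤ q)
    (ψ : BM) (hψ0 : rbar ψ ≠ 0) (hψW : W (rbar ψ) = rbar ψ ^ q)
    (w w' : B) (hw : w * V ψ = ι ψ ^ q) (hw' : w' * ι ψ = V ψ ^ q)
    (n : Ideal B') [n.IsPrime] (h1 : RingHom.ker red₁ ≤ n) (h2 : RingHom.ker red₂ ≤ n) :
    f (ι ψ * V ψ) ∉ n := by
  have e1 : f w * (f.comp V) ψ = (f.comp ι) ψ ^ q := by
    rw [RingHom.comp_apply, RingHom.comp_apply, ← map_mul, hw, map_pow]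
  have e2 : f w' * (f.comp ι) ψ = (f.comp V) ψ ^ q := by
    rw [RingHom.comp_apply, RingHom.comp_apply, ← map_mul, hw', map_pow]
  have := mul_notMem_of_crossing h hq ψ hψ0 hψW (f w) (f w') e1 e2 n h1 h2
  rwa [RingHom.comp_apply, RingHom.comp_apply, ← map_mul] at this

end Comp

end Fermat.Agent.S36.H39
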