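/-
helper35: S36, row (M4r2), leaf (I-e): the point-independent side facts of the middle-cusp
argument (`S36.H89W.midCusp_all`, `S36.H97.locGen_midCusp_alpha`) at the REAL types of
helper83's chart-2 `ThreeComponents` instance (`S36.H83.threeComponents_J3_inv_of_places`).

* generic: from a `ThreeComponents` structure, `hW : W (rbar ψ₀) = rbar ψ₀ ^ q` and
  `(rbar ψ₀ ^ q) ^ q ≠ rbar ψ₀` give `hne : ιw ψ₀ ≠ ιu ψ₀` (both orders);
* real types (`BM = chartB A₁ j⁻¹`, `D = kA[j̄⁻¹]^int ⊂ F_k(L)`, `rbar = rbarB ..`, `W = WR ..`):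
  `psi0 := coordC j⁻¹`, `rbar psi0 ≠ 0`, `W (rbar psi0) = rbar psi0 ^ q`,
  `(rbar psi0 ^ q) ^ q ≠ rbar psi0`, `¬ IsField D`, and `hne` for every `ThreeComponents`
  structure with this `rbar` and `W` (so for helper83's and, after `redE_chartMapE`, for
  helper70's base change to `cutOver A E`).
-/
import Fermat.Agent.S36.H83_L0ThreePre
import Fermat.Agent.S36.H39_NoCrossAtCuspChart
import Fermat.Agent.S35.H55_L0Pkg

set_option autoImplicit false
set_option linter.unusedSectionVars false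
set_option linter.style.haveILetI false
set_option synthInstance.maxHeartbeats 400000

noncomputable section

namespace Fermat.Agent.S36.H35MC

open ModularCurve Polynomial IsLocalRing Fermat.Agent.S28
open Fermat.Agent.S18 Fermat.Agent.S34.H92 Fermat.Agent.S34.H16 Fermat.Agent.S34.H55

/-! ### Generic: `hne` from the structure -/

section Generic

variable {B D BM : Type*} [CommRing B] [CommRing D] [CommRing BM]
  {red₁ red₂ red₃ : B →+* D} {ιu ιv ιw : BM →+* B} {rbar : BM →+* D} {W : D →+* D}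
  {q : ℕ} {qB : B}

/-- on the first component `ιw ψ₀` reduces to `W (W (rbar ψ₀)) = (rbar ψ₀ ^ q) ^ q` and `ιu ψ₀`
to `rbar ψ₀`; so `ιw ψ₀ ≠ ιu ψ₀` as soon as `rbar ψ₀` is not a root of `X ^ (q²) - X`. -/
theorem iw_ne_iu (h : S36.H83.ThreeComponents red₁ red₂ red₃ ιu ιv ιw rbar W q qB)
    (ψ₀ : BM) (hW : W (rbar ψ₀) = rbar ψ₀ ^ q) (hpp : (rbar ψ₀ ^ q) ^ q ≠ rbar ψ₀) :
    ιw ψ₀ ≠ ιu ψ₀ := by
  intro he
  apply hpp
  have h1 := h.h1w ψ₀
  rw [he, h.h1u, hW, map_pow, hW] at h1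
  exact h1.symm

theorem iu_ne_iw (h : S36.H83.ThreeComponents red₁ red₂ red₃ ιu ιv ιw rbar W q qB)
    (ψ₀ : BM) (hW : W (rbar ψ₀) = rbar ψ₀ ^ q) (hpp : (rbar ψ₀ ^ q) ^ q ≠ rbar ψ₀) :
    ιu ψ₀ ≠ ιw ψ₀ :=
  fun he => iw_ne_iu h ψ₀ hW hpp he.symm

end Generic

local notation "Qbar" => AlgebraicClosure ℚ

section Real

variable (L : ℕ) [NeZero L] {q : ℕ} [hq : Fact q.Prime] (hqL : ¬ q ∣ L)
  (A : ValuationSubring Qbar) (hA : A.LiesOverPrime q)

local notation "kA" => IsLocalRing.ResidueField A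
local notation "A₁" => H45.A0 A q
local notation "L₁" => H45.unrCyclo q
local notation "F0" => modularFunctionFieldFullC (H45.unrCyclo q) L
local notation "F2" => modularFunctionFieldFullC (H45.unrCyclo q) (q * (q * L))
local notation "FkL" => modularFunctionFieldFullC (IsLocalRing.ResidueField A) L

/-- the chart-2 coordinate `1/j` of the level-`L` chart `BM = chartB A₁ j⁻¹`. -/
def psi0 : ↥(H40.chartB A₁ (S18.H16.jK L₁ L)⁻¹) := S36.H39.coordC (S18.H16.jK L₁ L)⁻¹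

@[simp] theorem coe_psi0 : ((psi0 L A : ↥(H40.chartB A₁ (S18.H16.jK L₁ L)⁻¹)) : F0) =
    (S18.H16.jK L₁ L)⁻¹ := rfl

theorem jK_inv_kA_ne_zero : (S18.H16.jK kA L)⁻¹ ≠ 0 :=
  inv_ne_zero (S34.H99.jK_kA_ne_zero L A)

theorem transcendental_jK_inv_kA : Transcendental kA (S18.H16.jK kA L)⁻¹ := fun h =>
  S18.H16.transcendental_jK kA L (IsAlgebraic.inv_iff.mp h)

/-- `rbar ψ₀ = j̄⁻¹`. -/
theorem coe_rbar_psi0 :
    ((rbarB (Mod L hqL A hA) (hc2 L hqL A hA) (hcw2 L hqL A hA) (psi0 L A) :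
      ↥(integralClosure (Algebra.adjoin kA {(S18.H16.jK kA L)⁻¹}) FkL)) : FkL) =
      (S18.H16.jK kA L)⁻¹ :=
  S36.H39.rbarB_coordC (Mod L hqL A hA) (hc2 L hqL A hA) (hcw2 L hqL A hA)

/-- **`hψ₀`**. -/
theorem rbar_psi0_ne_zero :
    rbarB (Mod L hqL A hA) (hc2 L hqL A hA) (hcw2 L hqL A hA) (psi0 L A) ≠ 0 :=
  S36.H39.rbarB_coordC_ne_zero (Mod L hqL A hA) (hc2 L hqL A hA) (hcw2 L hqL A hA)
    (jK_inv_kA_ne_zero L A)

/-- **`hW`**. -/
theorem WR_rbar_psi0 :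
    WR (FrM L A hA) q (hFrx_inv L A hA)
      (rbarB (Mod L hqL A hA) (hc2 L hqL A hA) (hcw2 L hqL A hA) (psi0 L A)) =
      rbarB (Mod L hqL A hA) (hc2 L hqL A hA) (hcw2 L hqL A hA) (psi0 L A) ^ q :=
  S36.H39.WR_rbarB_coordC (Mod L hqL A hA) (hc2 L hqL A hA) (hcw2 L hqL A hA) (FrM L A hA) q
    (hFrx_inv L A hA)

/-- `(rbar ψ₀ ^ q) ^ q ≠ rbar ψ₀`: `j̄⁻¹` is transcendental over `kA`. -/
theorem pow_pow_rbar_psi0_ne :
    (rbarB (Mod L hqL A hA) (hc2 L hqL A hA) (hcw2 L hqL A hA) (psi0 L A) ^ q) ^ q ≠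
      rbarB (Mod L hqL A hA) (hc2 L hqL A hA) (hcw2 L hqL A hA) (psi0 L A) := by
  intro h
  have h1 := congrArg
    (fun z : ↥(integralClosure (Algebra.adjoin kA {(S18.H16.jK kA L)⁻¹}) FkL) => (z : FkL)) h
  simp only [SubmonoidClass.coe_pow] at h1
  rw [coe_rbar_psi0] at h1
  exact S35.H55.pow_pow_ne_self_of_transcendental (transcendental_jK_inv_kA L A)
    hq.out.two_le h1

/-- **`hD`**: the branch ring of chart 2 is not a field. -/
theorem not_isField_D :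
    ¬ IsField ↥(integralClosure (Algebra.adjoin kA {(S18.H16.jK kA L)⁻¹}) FkL) :=
  S34.H83.not_isField_integralClosure_adjoin _ (transcendental_jK_inv_kA L A)

/-- **`hne`** for every `ThreeComponents` structure over the real `rbar`, `W` of chart 2
(in particular helper83's `threeComponents_J3_inv_of_places`). -/
theorem iw_psi0_ne_iu_psi0 {B : Type*} [CommRing B]
    {red₁ red₂ red₃ : B →+* ↥(integralClosure (Algebra.adjoin kA {(S18.H16.jK kA L)⁻¹}) FkL)}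
    {ιu ιv ιw : ↥(H40.chartB A₁ (S18.H16.jK L₁ L)⁻¹) →+* B} {qB : B}
    (h : S36.H83.ThreeComponents red₁ red₂ red₃ ιu ιv ιw
      (rbarB (Mod L hqL A hA) (hc2 L hqL A hA) (hcw2 L hqL A hA))
      (WR (FrM L A hA) q (hFrx_inv L A hA)) q qB) :
    ιw (psi0 L A) ≠ ιu (psi0 L A) :=
  iw_ne_iu h (psi0 L A) (WR_rbar_psi0 L hqL A hA) (pow_pow_rbar_psi0_ne L hqL A hA)

/-- the honest statement `j(q² z)⁻¹ ≠ j(z)⁻¹` in `F₂` (no structure needed). -/
theorem eW_jK_inv_ne_eU_jK_inv :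
    S36.H83.eW L (q := q) (S18.H16.jK L₁ L)⁻¹ ≠ S36.H83.eU L (q := q) (S18.H16.jK L₁ L)⁻¹ := by
  intro h
  rw [map_inv₀, map_inv₀, inv_inj] at h
  have h1 := congrArg (fun x : F2 => (x : LaurentSeries L₁)) h
  simp only [S36.H83.coe_eW, S36.H83.coe_eU, S18.H16.coe_jK] at h1
  haveI : NeZero q := ⟨hq.out.ne_zero⟩
  have h2 := congrArg HahnSeries.order h1
  rw [H39.order_qExpand, H39.order_qExpand, H39.order_jqModC] at h2
  have hq2 : (2 : ℤ) ≤ (q : ℤ) := by exact_mod_cast hq.out.two_le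
  nlinarith

end Real

end Fermat.Agent.S36.H35MC
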