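/-
helper35: S36, row (M4r2), leaf (I-e), `cutOver A E` twins of `S36/H35_MidCuspFacts.lean`:
the side facts `hψ₀ hW hne` of the middle-cusp argument for the base-changed structures of
helper70 (`S36.H70.threeComponents_cutOver`, `S35.H70.twoComponents_cutOver`), whose level-`L`
reduction is `S35.H70.redE .. rbar hqM` with the SAME branch ring `D` and the same `W`.
`psi0E := chartMapE psi0` is the chart-2 coordinate `1/j` of the `A''`-chart of level `L`.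
-/
import Fermat.Agent.S36.H35_MidCuspFacts
import Fermat.Agent.S36.H70_ThreeComponentsBCMain

set_option autoImplicit false
set_option linter.unusedSectionVars false
set_option linter.style.haveILetI false
set_option synthInstance.maxHeartbeats 400000

noncomputable section

namespace Fermat.Agent.S36.H35MC

open ModularCurve Polynomial IsLocalRing Fermat.Agent.S28
open Fermat.Agent.S18 Fermat.Agent.S34.H92 Fermat.Agent.S34.H16 Fermat.Agent.S34.H55

local notation "Qbar" => AlgebraicClosure ℚ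

section RealE

variable (L : ℕ) [NeZero L] {q : ℕ} [hq : Fact q.Prime] (hqL : ¬ q ∣ L)
  (A : ValuationSubring Qbar) (hA : A.LiesOverPrime q)
  (E : IntermediateField (H45.unrCyclo q) Qbar)

local notation "kA" => IsLocalRing.ResidueField A
local notation "A₁" => H45.A0 A q
local notation "L₁" => H45.unrCyclo q
local notation "F0" => modularFunctionFieldFullC (H45.unrCyclo q) L
local notation "FkL" => modularFunctionFieldFullC (IsLocalRing.ResidueField A) L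
set_option quotPrecheck false in
local notation "D2" => ↥(integralClosure (Algebra.adjoin (IsLocalRing.ResidueField A)
  {(S18.H16.jK (IsLocalRing.ResidueField A) L)⁻¹})
  (modularFunctionFieldFullC (IsLocalRing.ResidueField A) L))

/-- **`hqM`** of `threeComponents_cutOver` / `twoComponents_cutOver` on chart 2 at level `L`. -/
theorem rbar_natCast_eq_zero :
    rbarB (Mod L hqL A hA) (hc2 L hqL A hA) (hcw2 L hqL A hA)
      (algebraMap A₁ ↥(H40.chartB A₁ (S18.H16.jK L₁ L)⁻¹) ((q : ℕ) : A₁)) = 0 := by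
  rw [map_natCast, map_natCast]
  exact S35.H55.natCast_branch_eq_zero L A hA _

/-- the chart-2 coordinate `1/j` of the `A''`-chart of level `L`. -/
def psi0E : ↥(H40.chartB ↥(H45.cutOver A E) (H45.baseChangeE E L (S18.H16.jK L₁ L)⁻¹)) :=
  S34.H70.chartMapE (A := A) E L (S18.H16.jK L₁ L)⁻¹ (psi0 L A)

theorem coe_psi0E :
    ((psi0E L A E : ↥(H40.chartB ↥(H45.cutOver A E)
      (H45.baseChangeE E L (S18.H16.jK L₁ L)⁻¹))) : ↥(modularFunctionFieldFullC ↥E L)) =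
      H45.baseChangeE E L (S18.H16.jK L₁ L)⁻¹ := rfl

/-- `rbarE ψ₀E = rbar ψ₀`. -/
theorem rbarE_psi0E
    (π : ↥(H45.cutOver A E)) (hπ : maximalIdeal ↥(H45.cutOver A E) = Ideal.span {π})
    (hM : S35.H70.GenBy (A := A) E L (S18.H16.jK L₁ L)⁻¹)
    (hqM : rbarB (Mod L hqL A hA) (hc2 L hqL A hA) (hcw2 L hqL A hA)
      (algebraMap A₁ ↥(H40.chartB A₁ (S18.H16.jK L₁ L)⁻¹) ((q : ℕ) : A₁)) = 0) :
    S35.H70.redE (R₀ := D2) hq.out hA E L (S18.H16.jK L₁ L)⁻¹ π hπ hM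
      (rbarB (Mod L hqL A hA) (hc2 L hqL A hA) (hcw2 L hqL A hA)) hqM (psi0E L A E) =
      rbarB (Mod L hqL A hA) (hc2 L hqL A hA) (hcw2 L hqL A hA) (psi0 L A) :=
  S35.H70.redE_chartMapE hq.out hA E L (S18.H16.jK L₁ L)⁻¹ π hπ hM _ hqM (psi0 L A)

/-- **`hψ₀`** over `cutOver A E`. -/
theorem rbarE_psi0E_ne_zero
    (π : ↥(H45.cutOver A E)) (hπ : maximalIdeal ↥(H45.cutOver A E) = Ideal.span {π})
    (hM : S35.H70.GenBy (A := A) E L (S18.H16.jK L₁ L)⁻¹)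
    (hqM : rbarB (Mod L hqL A hA) (hc2 L hqL A hA) (hcw2 L hqL A hA)
      (algebraMap A₁ ↥(H40.chartB A₁ (S18.H16.jK L₁ L)⁻¹) ((q : ℕ) : A₁)) = 0) :
    S35.H70.redE (R₀ := D2) hq.out hA E L (S18.H16.jK L₁ L)⁻¹ π hπ hM
      (rbarB (Mod L hqL A hA) (hc2 L hqL A hA) (hcw2 L hqL A hA)) hqM (psi0E L A E) ≠ 0 := by
  rw [rbarE_psi0E L hqL A hA E π hπ hM hqM]
  exact rbar_psi0_ne_zero L hqL A hA

/-- **`hW`** over `cutOver A E`. -/
theorem WR_rbarE_psi0E
    (π : ↥(H45.cutOver A E)) (hπ : maximalIdeal ↥(H45.cutOver A E) = Ideal.span {π})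
    (hM : S35.H70.GenBy (A := A) E L (S18.H16.jK L₁ L)⁻¹)
    (hqM : rbarB (Mod L hqL A hA) (hc2 L hqL A hA) (hcw2 L hqL A hA)
      (algebraMap A₁ ↥(H40.chartB A₁ (S18.H16.jK L₁ L)⁻¹) ((q : ℕ) : A₁)) = 0) :
    WR (FrM L A hA) q (hFrx_inv L A hA)
      (S35.H70.redE (R₀ := D2) hq.out hA E L (S18.H16.jK L₁ L)⁻¹ π hπ hM
        (rbarB (Mod L hqL A hA) (hc2 L hqL A hA) (hcw2 L hqL A hA)) hqM (psi0E L A E)) =
      S35.H70.redE (R₀ := D2) hq.out hA E L (S18.H16.jK L₁ L)⁻¹ π hπ hM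
        (rbarB (Mod L hqL A hA) (hc2 L hqL A hA) (hcw2 L hqL A hA)) hqM (psi0E L A E) ^ q := by
  rw [rbarE_psi0E L hqL A hA E π hπ hM hqM]
  exact WR_rbar_psi0 L hqL A hA

theorem pow_pow_rbarE_psi0E_ne
    (π : ↥(H45.cutOver A E)) (hπ : maximalIdeal ↥(H45.cutOver A E) = Ideal.span {π})
    (hM : S35.H70.GenBy (A := A) E L (S18.H16.jK L₁ L)⁻¹)
    (hqM : rbarB (Mod L hqL A hA) (hc2 L hqL A hA) (hcw2 L hqL A hA)
      (algebraMap A₁ ↥(H40.chartB A₁ (S18.H16.jK L₁ L)⁻¹) ((q : ℕ) : A₁)) = 0) :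
    (S35.H70.redE (R₀ := D2) hq.out hA E L (S18.H16.jK L₁ L)⁻¹ π hπ hM
        (rbarB (Mod L hqL A hA) (hc2 L hqL A hA) (hcw2 L hqL A hA)) hqM (psi0E L A E) ^ q) ^ q ≠
      S35.H70.redE (R₀ := D2) hq.out hA E L (S18.H16.jK L₁ L)⁻¹ π hπ hM
        (rbarB (Mod L hqL A hA) (hc2 L hqL A hA) (hcw2 L hqL A hA)) hqM (psi0E L A E) := by
  rw [rbarE_psi0E L hqL A hA E π hπ hM hqM]
  exact pow_pow_rbar_psi0_ne L hqL A hA

/-- **`hne`** for every `ThreeComponents` structure over the base-changed `rbarE` and the real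
`W` of chart 2 (in particular the output of `S36.H70.threeComponents_cutOver` applied to
helper83's instance). -/
theorem iw_psi0E_ne_iu_psi0E
    (π : ↥(H45.cutOver A E)) (hπ : maximalIdeal ↥(H45.cutOver A E) = Ideal.span {π})
    (hM : S35.H70.GenBy (A := A) E L (S18.H16.jK L₁ L)⁻¹)
    (hqM : rbarB (Mod L hqL A hA) (hc2 L hqL A hA) (hcw2 L hqL A hA)
      (algebraMap A₁ ↥(H40.chartB A₁ (S18.H16.jK L₁ L)⁻¹) ((q : ℕ) : A₁)) = 0)
    {B : Type*} [CommRing B]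
    {red₁ red₂ red₃ : B →+* ↥(integralClosure (Algebra.adjoin kA {(S18.H16.jK kA L)⁻¹}) FkL)}
    {ιu ιv ιw : ↥(H40.chartB ↥(H45.cutOver A E)
      (H45.baseChangeE E L (S18.H16.jK L₁ L)⁻¹)) →+* B} {qB : B}
    (h : S36.H83.ThreeComponents red₁ red₂ red₃ ιu ιv ιw
      (S35.H70.redE (R₀ := D2) hq.out hA E L (S18.H16.jK L₁ L)⁻¹ π hπ hM
        (rbarB (Mod L hqL A hA) (hc2 L hqL A hA) (hcw2 L hqL A hA)) hqM)
      (WR (FrM L A hA) q (hFrx_inv L A hA)) q qB) :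
    ιw (psi0E L A E) ≠ ιu (psi0E L A E) :=
  iw_ne_iu h (psi0E L A E) (WR_rbarE_psi0E L hqL A hA E π hπ hM hqM)
    (pow_pow_rbarE_psi0E_ne L hqL A hA E π hπ hM hqM)

end RealE

end Fermat.Agent.S36.H35MC
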