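import Mathlib
import Fermat.Agent.S34.H3_PlaceChart
import Fermat.Agent.S36.H36_ConstExtUnram

/-!
# S36, seam (D1c) → (E4) (helper36): the horizontal half of hypothesis `(D)` of `(E4)`

helper21's `(E4)` (`S36/H21_StepTwo`, `(IN-2)`) takes, at a closed point `n` of a chart `B`,
for every height-one prime `P ≤ n`:  `∃ g : F, g ≠ 0 ∧ S34.H56.IsUnitAt P (u / g ^ m)`.
For the HORIZONTAL primes (`π ∉ P`) this is a formal consequence of `(D1c)`:

* `exists_isUnitAt_div_pow_of_horizontal` (generic; the binder block of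
  `S34.H56.local_datum_of_places` / `S35.H12.exists_local_generator`: `R` the base ring,
  `k = R[1/π]`, `B` a noetherian integrally closed chart with fraction field `F`): if
  `m ∣ ord_w u` at every place `w` of `F / k`, then at every height-one prime `P` of `B` not
  containing `π` there is `g ≠ 0` with `u / g ^ m` a unit at `P` (`g` := a power of a uniformiser
  of the place of `P`; any residue degree).
* `exists_isUnitAt_div_pow_toBar` : the same at `k = L`, `F = modularFunctionFieldFullC L N` with
  the divisibility hypothesis at the `Qbar`-level places (what `(D1a)` gives), through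
  `H36.dvd_ord_of_dvd_ord_toBar`.
-/

set_option autoImplicit false
set_option linter.unusedSectionVars false
set_option linter.style.haveILetI false
set_option synthInstance.maxHeartbeats 400000

noncomputable section

namespace Fermat.Agent.S36.H36

open AlgebraicCurve ModularCurve
open Fermat.Agent.S24 Fermat.Agent.S18 Fermat.Agent.S34.H3 Fermat.Agent.S34.H56

local notation "Qbar" => AlgebraicClosure ℚ

section Generic

variable {R k B F : Type*} [CommRing R] [IsDomain R] [Field k] [Algebra R k]
  [CommRing B] [IsDomain B] [Field F] [Algebra B F] [IsFractionRing B F]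
  [Algebra R B] [Algebra k F] [Algebra R F] [IsScalarTower R B F] [IsScalarTower R k F]
  [IsNoetherianRing B] [IsIntegrallyClosed B]

/-- **Horizontal half of `(D)`.**  If `m` divides the order of `u` at the place of the horizontal
height-one prime `P`, then `u / g ^ m` is a unit at `P` for some `g ≠ 0`. -/
theorem exists_isUnitAt_div_pow_of_dvd_ord (π : R) [IsLocalization.Away π k]
    (P : Ideal B) [P.IsPrime] (h1 : P.height = 1) (hπP : algebraMap R B π ∉ P)
    {u : F} (hu : u ≠ 0) (m : ℕ)
    (hdiv : (m : ℤ) ∣ (placeOfHorizontalPrime (k := k) π P h1 hπP).ord u) :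
    ∃ g : F, g ≠ 0 ∧ IsUnitAt P (u / g ^ m) := by
  set w : Place k F := placeOfHorizontalPrime (k := k) π P h1 hπP with hw
  obtain ⟨c, hc⟩ := hdiv
  obtain ⟨ϖ, hϖ0, hϖ⟩ := H27.exists_ord_eq_one w
  have hg0 : ϖ ^ c ≠ 0 := zpow_ne_zero _ hϖ0
  have hgm0 : (ϖ ^ c) ^ m ≠ 0 := pow_ne_zero _ hg0
  refine ⟨ϖ ^ c, hg0, ?_⟩
  rw [← ord_placeOfHorizontalPrime_eq_zero_iff (k := k) π P h1 hπP (div_ne_zero hu hgm0)]
  show w.ord (u / (ϖ ^ c) ^ m) = 0
  rw [div_eq_mul_inv, w.ord_mul hu (inv_ne_zero hgm0), w.ord_inv, ← zpow_natCast, ← zpow_mul,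
    w.ord_zpow, hϖ, hc]
  ring

/-- **Horizontal half of `(D)`, from divisibility at all places of `F / k`.** -/
theorem exists_isUnitAt_div_pow_of_horizontal (π : R) [IsLocalization.Away π k]
    (P : Ideal B) [P.IsPrime] (h1 : P.height = 1) (hπP : algebraMap R B π ∉ P)
    {u : F} (hu : u ≠ 0) (m : ℕ) (hdiv : ∀ w : Place k F, (m : ℤ) ∣ w.ord u) :
    ∃ g : F, g ≠ 0 ∧ IsUnitAt P (u / g ^ m) :=
  exists_isUnitAt_div_pow_of_dvd_ord π P h1 hπP hu m (hdiv _)

end Generic

section Instance

variable (L : Type*) [Field L] [Algebra L Qbar] (N : ℕ) [NeZero N]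
  [Algebra L (FN N)] [IsScalarTower L Qbar (FN N)] [Algebra.IsAlgebraic L Qbar]
variable {R B : Type*} [CommRing R] [IsDomain R] [Algebra R L]
  [CommRing B] [IsDomain B] [Algebra B (modularFunctionFieldFullC L N)]
  [IsFractionRing B (modularFunctionFieldFullC L N)]
  [Algebra R B] [Algebra R (modularFunctionFieldFullC L N)]
  [IsScalarTower R B (modularFunctionFieldFullC L N)]
  [IsScalarTower R L (modularFunctionFieldFullC L N)]
  [IsNoetherianRing B] [IsIntegrallyClosed B]

/-- **Seam (D1a)+(D1c) → (E4)(D), horizontal primes.**  `B` a noetherian integrally closed chart of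
`F_L = modularFunctionFieldFullC L N` over `R`, `L = R[1/π]`; `f : F_L` whose orders at ALL places
of `FN N / Qbar` are divisible by `m`.  Then at every height-one prime `P` of `B` not containing
`π`, `f / g ^ m` is a unit at `P` for some `g ≠ 0`. -/
theorem exists_isUnitAt_div_pow_toBar (π : R) [IsLocalization.Away π L]
    (P : Ideal B) [P.IsPrime] (h1 : P.height = 1) (hπP : algebraMap R B π ∉ P)
    {f : modularFunctionFieldFullC L N} (hf : f ≠ 0) (m : ℕ)
    (hm : ∀ v : Place Qbar (FN N), (m : ℤ) ∣ v.ord (H99.toBar L N f)) :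
    ∃ g : modularFunctionFieldFullC L N, g ≠ 0 ∧ IsUnitAt P (f / g ^ m) :=
  exists_isUnitAt_div_pow_of_horizontal (k := L) π P h1 hπP hf m
    (fun w => dvd_ord_of_dvd_ord_toBar L N f (m : ℤ) hm w)

end Instance

end Fermat.Agent.S36.H36
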