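import Mathlib
import Fermat.Agent.S36.H36_HorizontalOrd

/-!
# S36, (M4-hell) horizontal step (helper36): from ramification data to the `(D)` shape

`u` integral at the horizontal height-one prime `P` and "every zero of `u` has order exactly
`e`" (the e-data shape of `S36.H13` / `S36.H2.hE_fullC`) give `g ≠ 0` with `u / g ^ e` a unit at
`P`.  Binder block of `S36.H36.exists_isUnitAt_div_pow_of_horizontal`.
-/

set_option autoImplicit false
set_option linter.unusedSectionVars false
set_option linter.style.haveILetI false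

noncomputable section

namespace Fermat.Agent.S36.H36

open AlgebraicCurve
open Fermat.Agent.S24 Fermat.Agent.S34.H3 Fermat.Agent.S34.H56

variable {R k B F : Type*} [CommRing R] [IsDomain R] [Field k] [Algebra R k]
  [CommRing B] [IsDomain B] [Field F] [Algebra B F] [IsFractionRing B F]
  [Algebra R B] [Algebra k F] [Algebra R F] [IsScalarTower R B F] [IsScalarTower R k F]
  [IsNoetherianRing B] [IsIntegrallyClosed B]

/-- The order of `u` at the place of a horizontal prime `P` is `0` or `e`, hence divisible by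
`e`, when `u` is integral at `P` and all zeros of `u` have order `e`. -/
theorem dvd_ord_placeOfHorizontalPrime_of_edata (π : R) [IsLocalization.Away π k]
    (P : Ideal B) [P.IsPrime] (h1 : P.height = 1) (hπP : algebraMap R B π ∉ P)
    {u : F} (hu : u ≠ 0) (huP : MemAt P u) (e : ℕ)
    (hE : ∀ v : Place k F, 0 < v.ord u → v.ord u = e) :
    (e : ℤ) ∣ (placeOfHorizontalPrime (k := k) π P h1 hπP).ord u := by
  have hnn : 0 ≤ (placeOfHorizontalPrime (k := k) π P h1 hπP).ord u :=
    (ord_placeOfHorizontalPrime_nonneg_iff (k := k) π P h1 hπP hu).mpr huP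
  rcases hnn.eq_or_lt with h0 | hpos
  · rw [← h0]
    exact dvd_zero _
  · rw [hE _ hpos]

/-- **(M4-hell), horizontal step.**  `u ∈ B_P`, all zeros of `u` of order `e`: then `u / g ^ e`
is a unit at the horizontal height-one prime `P` for some `g ≠ 0`. -/
theorem exists_isUnitAt_div_pow_of_edata (π : R) [IsLocalization.Away π k]
    (P : Ideal B) [P.IsPrime] (h1 : P.height = 1) (hπP : algebraMap R B π ∉ P)
    {u : F} (hu : u ≠ 0) (huP : MemAt P u) (e : ℕ)
    (hE : ∀ v : Place k F, 0 < v.ord u → v.ord u = e) :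
    ∃ g : F, g ≠ 0 ∧ IsUnitAt P (u / g ^ e) :=
  exists_isUnitAt_div_pow_of_dvd_ord π P h1 hπP hu e
    (dvd_ord_placeOfHorizontalPrime_of_edata π P h1 hπP hu huP e hE)

/-- Variant for `u = algebraMap B F b`, `b : B`. -/
theorem exists_isUnitAt_div_pow_of_edata_algebraMap (π : R) [IsLocalization.Away π k]
    (P : Ideal B) [P.IsPrime] (h1 : P.height = 1) (hπP : algebraMap R B π ∉ P)
    {b : B} (hb : b ≠ 0) (e : ℕ)
    (hE : ∀ v : Place k F, 0 < v.ord (algebraMap B F b) → v.ord (algebraMap B F b) = e) :
    ∃ g : F, g ≠ 0 ∧ IsUnitAt P (algebraMap B F b / g ^ e) := by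
  have hu : algebraMap B F b ≠ 0 := by
    intro h
    exact hb (IsFractionRing.injective B F (by rw [h, map_zero]))
  exact exists_isUnitAt_div_pow_of_edata π P h1 hπP hu
    (memAt_algebraMap P (Ideal.IsPrime.ne_top ‹_›) b) e hE

end Fermat.Agent.S36.H36
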