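/-
S36 / (Der-5) = (M2-unr) (helper37): both degeneracy maps `X₀(L q) → X₀(L)` are unramified at every
NON-CUSPIDAL place as soon as the level `L` has no elliptic points (e.g. a prime `r ≡ 11 (mod 12)`
divides `L`).  `K = Qbar`, `FN N = modularFunctionFieldBar N`, `α = heckeAlphaBar Qbar L q`,
`β = heckeBetaBar Qbar L q`.

* `exists_point` : at a level without elliptic points every non-cuspidal place `H` of `FN N` IS a
  point `τ₁ ∈ ℍ` with multiplicity one: `ordH (Θ f) τ₁ = H.ord f` for all `f ∈ A N = Qbar[j_d]`;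
* `exists_place_restrict` : generic restriction of a place along a `K`-embedding (with `e`);
* `exists_ord_alpha_eq_one`, `exists_ord_beta_eq_one` : the consumer shape
  `∃ t : FN L, H.ord (α t) = 1`, `∃ t : FN L, H.ord (β t) = 1`;
* `ord_alpha_eq`, `ord_beta_eq` : the full statement `H.ord (φ x) = w.ord x` for the restricted place.
-/
import Mathlib
import Fermat.Agent.S36.H37_NoElliptic
import Fermat.Agent.S37.H6_LevelDegree
import Fermat.Agent.S24.H25_Wire
import Fermat.Agent.S24.H27_PlaceOfValuation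
import Fermat.Agent.S24.H8_J3
import Fermat.Agent.S24.H37_PlaceOfOrd
import Fermat.Agent.S24.H8_J3Orbit

set_option autoImplicit false
set_option linter.style.haveILetI false

noncomputable section

namespace Fermat.Agent.S36.H37

open AlgebraicCurve ModularCurve IntermediateField UpperHalfPlane ModularGroup
open Fermat.Agent.S24
open scoped MatrixGroups

/-! ### Generic: restriction of a place along an embedding -/

section Generic

variable {K F F' : Type*} [Field K] [Field F] [Field F'] [Algebra K F] [Algebra K F']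

/-- Restriction of a place `H` of `F'` along a `K`-embedding `φ : F → F'`, with its ramification
index `e`: `H.ord (φ f) = e * w.ord f`. -/
theorem exists_place_restrict (φ : F →ₐ[K] F') (H : Place K F')
    (hnt : ∃ f : F, f ≠ 0 ∧ H.ord (φ f) ≠ 0) :
    ∃ (w : Place K F) (e : ℕ), 0 < e ∧ (∀ f : F, f ≠ 0 → H.ord (φ f) = e * w.ord f) ∧
      ∀ f : F, f ∈ w.toValuationSubring ↔ f = 0 ∨ 0 ≤ H.ord (φ f) := by
  have hinj : Function.Injective φ := φ.toRingHom.injective
  have hne : ∀ f : F, f ≠ 0 → φ f ≠ 0 := fun f hf h0 => hf (hinj (by rw [h0, map_zero]))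
  refine Fermat.Agent.S24.H37.exists_place_of_ord (K := K) (fun f => H.ord (φ f)) ?_ ?_ ?_ hnt
  · intro f g hf hg
    show H.ord (φ (f * g)) = _
    rw [map_mul]
    exact H.ord_mul (hne f hf) (hne g hg)
  · intro f g _ _ hfg
    show min (H.ord (φ f)) (H.ord (φ g)) ≤ H.ord (φ (f + g))
    rw [map_add]
    exact H27.min_ord_le_ord_add H (by rw [← map_add]; exact hne _ hfg)
  · intro a _
    show H.ord (φ (algebraMap K F a)) = 0
    rw [AlgHom.commutes]
    exact H27.ord_algebraMap H a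

end Generic

/-! ### Analytic order under `τ ↦ d τ` -/

theorem mulD_ofComplex_eq (d : ℕ) [NeZero d] {z : ℂ} (hz : 0 < z.im) :
    ((H17.mulD d (ofComplex z) : ℍ) : ℂ) = (d : ℂ) * z := by
  rw [H17.mulD, H15.coe_aff, ofComplex_apply_of_im_pos hz]
  simp

theorem ordH_comp_mulD (G : ℍ → ℂ) (d : ℕ) [NeZero d] (τ : ℍ) :
    H76.ordH (fun τ' => G (H17.mulD d τ')) τ = H76.ordH G (H17.mulD d τ) := by
  unfold H76.ordH analyticOrderNatAt
  have hd0 : (d : ℂ) ≠ 0 := by exact_mod_cast NeZero.ne d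
  have hdpos : (0 : ℝ) < d := by exact_mod_cast Nat.pos_of_ne_zero (NeZero.ne d)
  have hcoe : ((H17.mulD d τ : ℍ) : ℂ) = (d : ℂ) * (τ : ℂ) := by
    have := mulD_ofComplex_eq d (z := (τ : ℂ)) τ.im_pos
    rwa [ofComplex_apply] at this
  have hev : ((fun τ' => G (H17.mulD d τ')) ∘ ofComplex) =ᶠ[nhds (τ : ℂ)]
      ((G ∘ ofComplex) ∘ fun z : ℂ => (d : ℂ) * z) := by
    have hopen : {z : ℂ | 0 < z.im} ∈ nhds (τ : ℂ) :=
      (isOpen_lt continuous_const Complex.continuous_im).mem_nhds τ.im_pos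
    filter_upwards [hopen] with z hz
    simp only [Function.comp_apply]
    have hz' : 0 < ((d : ℂ) * z).im := by
      rw [show ((d : ℂ) * z).im = (d : ℝ) * z.im by simp]
      exact mul_pos hdpos hz
    congr 1
    apply UpperHalfPlane.ext
    rw [mulD_ofComplex_eq d hz, ofComplex_apply_of_im_pos hz']
  rw [analyticOrderAt_congr hev]
  have hm : AnalyticAt ℂ (fun z : ℂ => (d : ℂ) * z) (τ : ℂ) :=
    analyticAt_const.mul analyticAt_id
  have hderiv : deriv (fun z : ℂ => (d : ℂ) * z) (τ : ℂ) ≠ 0 := by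
    have : deriv (fun z : ℂ => (d : ℂ) * z) (τ : ℂ) = d := by
      simpa using (hasDerivAt_id (τ : ℂ)).const_mul (d : ℂ) |>.deriv
    rw [this]; exact hd0
  rw [analyticOrderAt_comp_of_deriv_ne_zero hm hderiv, hcoe]

/-! ### The generic analytic order of `J - c` -/

/-- the analytic order of `J - J τ₀` at `τ₀`, as a natural number: `3`, `2`, `1`. -/
theorem exists_analyticOrderAt_J_sub (τ₀ : ℍ) :
    ∃ n : ℕ, 0 < n ∧
      analyticOrderAt (fun z : ℂ => H28.J (ofComplex z) - H28.J τ₀) (τ₀ : ℂ) = n ∧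
      (H28.J τ₀ = 0 → n = 3) ∧ (H28.J τ₀ = 1728 → n = 2) ∧
      (H28.J τ₀ ≠ 0 → H28.J τ₀ ≠ 1728 → n = 1) := by
  by_cases h0 : H28.J τ₀ = 0
  · refine ⟨3, by norm_num, ?_, fun _ => rfl, fun h => ?_, fun h => absurd h0 h⟩
    · have := H8.analyticOrderAt_J_of_E₄_eq_zero τ₀ ((H8.J_eq_zero_iff τ₀).mp h0)
      rw [h0]
      simpa using this
    · rw [h0] at h; norm_num at h
  · by_cases h1 : H28.J τ₀ = 1728
    · refine ⟨2, by norm_num, ?_, fun h => absurd h h0, fun _ => rfl, fun _ h => absurd h1 h⟩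
      have := H8.analyticOrderAt_J_sub_1728_of_E₆_eq_zero τ₀ ((H8.J_eq_1728_iff τ₀).mp h1)
      rw [h1]
      exact_mod_cast this
    · refine ⟨1, by norm_num, ?_, fun h => absurd h h0, fun h => absurd h h1, fun _ _ => rfl⟩
      have := H8.analyticOrderAt_J_sub_generic τ₀ h0 h1
      exact_mod_cast this

/-! ### Non-cuspidal places are points of multiplicity one -/

variable (N : ℕ) [NeZero N]

/-- the order of `j - a` at a place over `j = a`, at a level without elliptic points, is the generic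
analytic order of `J - ι a`. -/
theorem ord_jBar_sub_eq_analyticOrder (h2 : nuTwo N = 0) (h3 : nuThree N = 0)
    (H : Place Qbar (FN N)) (a : Qbar)
    (ha : 0 < H.ord (jBar N - algebraMap Qbar (FN N) a)) (τ₀ : ℍ) (hτ₀ : H28.J τ₀ = H17.iota a)
    (n : ℕ)
    (hn : analyticOrderAt (fun z : ℂ => H28.J (ofComplex z) - H28.J τ₀) (τ₀ : ℂ) = n)
    (hn3 : H28.J τ₀ = 0 → n = 3) (hn2 : H28.J τ₀ = 1728 → n = 2)
    (hn1 : H28.J τ₀ ≠ 0 → H28.J τ₀ ≠ 1728 → n = 1) :
    H.ord (jBar N - algebraMap Qbar (FN N) a) = n := by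
  by_cases ha0 : a = 0
  · subst ha0
    have hJ : H28.J τ₀ = 0 := by rw [hτ₀, map_zero]
    rw [hn3 hJ]
    have hv' : 0 < H.ord (jBar N) := by simpa using ha
    have := ord_jBar_eq_three N h3 H hv'
    simpa using this
  · by_cases ha1 : a = 1728
    · subst ha1
      have hJ : H28.J τ₀ = 1728 := by rw [hτ₀]; exact map_ofNat H17.iota 1728
      rw [hn2 hJ]
      exact_mod_cast ord_jBar_sub_eq_two N h2 H ha
    · have hJ0 : H28.J τ₀ ≠ 0 := by
        rw [hτ₀]; exact fun h0 => ha0 (H17.iota_injective (by rw [h0, map_zero]))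
      have hJ1 : H28.J τ₀ ≠ 1728 := by
        rw [hτ₀]
        exact fun h1 => ha1 (H17.iota_injective (by rw [h1]; exact (map_ofNat H17.iota 1728).symm))
      rw [hn1 hJ0 hJ1]
      exact_mod_cast ord_jBar_sub_eq_one N H a ha0 ha1 ha

/-- **Places are points, with multiplicity one**, at a level without elliptic points. -/
theorem exists_point (h2 : nuTwo N = 0) (h3 : nuThree N = 0) (H : Place Qbar (FN N))
    (hH : 0 ≤ H.ord (jBar N)) :
    ∃ τ₁ : ℍ, ∀ f ∈ (H17.A N : Set (FN N)), f ≠ 0 → H76.ordH (H17.Theta N f) τ₁ = H.ord f := by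
  have hData := rhData N
  have h := H76.modInputs_final N
  rcases hData.value H with hneg | ⟨a, ha⟩
  · omega
  obtain ⟨τ₀, hτ₀⟩ := H28.J_surjective (H17.iota a)
  obtain ⟨γ, m, hm, hf⟩ := h.place_fin H a τ₀ hτ₀ ha
  have hne : jBar N - algebraMap Qbar (FN N) a ≠ 0 := by
    intro h0
    rw [h0] at ha
    simp at ha
  obtain ⟨n, hnpos, hn, hn3, hn2, hn1⟩ := exists_analyticOrderAt_J_sub τ₀
  have hord := ord_jBar_sub_eq_analyticOrder N h2 h3 H a ha τ₀ hτ₀ n hn hn3 hn2 hn1
  have hn' : analyticOrderAt (fun z : ℂ => H28.J (ofComplex z) - H17.iota a) (τ₀ : ℂ) = n := by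
    rw [← hτ₀]; exact hn
  have hT := H76.IsTheta.ordH_translate_of_eq_J_sub (Θ := H17.Theta N) H28.J_smul
    (h.theta_sub_const a) hn' γ
  rw [hf _ (h.sub_const_mem a) hne, hord] at hT
  have hm1 : m = 1 := by
    have hnZ : (0 : ℤ) < n := by exact_mod_cast hnpos
    nlinarith
  refine ⟨γ⁻¹ • τ₀, fun f hfA hf0 => ?_⟩
  rw [hf f hfA hf0, hm1, one_mul]

/-! ### The two degeneracy maps -/

variable (L q : ℕ) [NeZero L] [NeZero q]

theorem alpha_jBar_sub (a : Qbar) :
    heckeAlphaBar Qbar L q (jBar L - algebraMap Qbar (FN L) a) =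
      jBar (L * q) - algebraMap Qbar (FN (L * q)) a := by
  rw [map_sub, AlgHom.commutes, S37.H6.heckeAlphaBar_eq_levelIncl, S37.H6.levelIncl_jBar]

theorem beta_jBar_sub (a : Qbar) :
    heckeBetaBar Qbar L q (jBar L - algebraMap Qbar (FN L) a) =
      jd (L * q) q (dvd_mul_left q L) - algebraMap Qbar (FN (L * q)) a := by
  rw [map_sub, AlgHom.commutes, S37.H6.heckeBetaBar_jBar]

/-- **(Der-5), α-side, full form**: the restriction of a non-cuspidal place along `α` is
unramified. -/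
theorem ord_alpha_eq (h2 : nuTwo L = 0) (h3 : nuThree L = 0)
    (h2' : nuTwo (L * q) = 0) (h3' : nuThree (L * q) = 0)
    (H : Place Qbar (FN (L * q))) (hH : 0 ≤ H.ord (jBar (L * q))) :
    ∃ w : Place Qbar (FN L), (∀ x : FN L, H.ord (heckeAlphaBar Qbar L q x) = w.ord x) ∧
      ∀ x : FN L, x ∈ w.toValuationSubring ↔
        heckeAlphaBar Qbar L q x ∈ H.toValuationSubring := by
  have hData := rhData (L * q)
  have hαinj : Function.Injective (heckeAlphaBar Qbar L q) :=
    (heckeAlphaBar Qbar L q).toRingHom.injective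
  rcases hData.value H with hneg | ⟨a, ha⟩
  · omega
  have hne' : jBar (L * q) - algebraMap Qbar (FN (L * q)) a ≠ 0 := by
    intro h0; rw [h0] at ha; simp at ha
  have hne : jBar L - algebraMap Qbar (FN L) a ≠ 0 := by
    intro h0
    apply hne'
    rw [← alpha_jBar_sub, h0, map_zero]
  obtain ⟨w, e, he, hw, hmem⟩ := exists_place_restrict (heckeAlphaBar Qbar L q) H
    ⟨jBar L - algebraMap Qbar (FN L) a, hne, by rw [alpha_jBar_sub]; omega⟩
  -- compare the two ramification indices over the `j`-line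
  obtain ⟨τ₀, hτ₀⟩ := H28.J_surjective (H17.iota a)
  obtain ⟨n, hnpos, hn, hn3, hn2, hn1⟩ := exists_analyticOrderAt_J_sub τ₀
  have hordN := ord_jBar_sub_eq_analyticOrder (L * q) h2' h3' H a ha τ₀ hτ₀ n hn hn3 hn2 hn1
  have hrel := hw _ hne
  rw [alpha_jBar_sub, hordN] at hrel
  have hwpos : 0 < w.ord (jBar L - algebraMap Qbar (FN L) a) := by
    have hnZ : (0 : ℤ) < n := by exact_mod_cast hnpos
    have heZ : (0 : ℤ) < e := by exact_mod_cast he
    by_contra hcon
    rw [not_lt] at hcon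
    nlinarith
  have hordL := ord_jBar_sub_eq_analyticOrder L h2 h3 w a hwpos τ₀ hτ₀ n hn hn3 hn2 hn1
  rw [hordL] at hrel
  have he1 : (e : ℤ) = 1 := by
    have hnZ : (0 : ℤ) < n := by exact_mod_cast hnpos
    nlinarith
  refine ⟨w, fun x => ?_, fun x => ?_⟩
  · rcases eq_or_ne x 0 with rfl | hx
    · simp
    · rw [hw x hx, he1, one_mul]
  · rw [hmem x]
    rcases eq_or_ne x 0 with rfl | hx
    · simp
    · have hx' : heckeAlphaBar Qbar L q x ≠ 0 := fun h0 =>
        hx (hαinj (by rw [h0, map_zero]))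
      rw [H27.mem_toValuationSubring_of_ne_zero H hx']
      simp [hx]

/-- **(Der-5), α-side, consumer shape.** -/
theorem exists_ord_alpha_eq_one (h2 : nuTwo L = 0) (h3 : nuThree L = 0)
    (h2' : nuTwo (L * q) = 0) (h3' : nuThree (L * q) = 0)
    (H : Place Qbar (FN (L * q))) (hH : 0 ≤ H.ord (jBar (L * q))) :
    ∃ t : FN L, H.ord (heckeAlphaBar Qbar L q t) = 1 := by
  obtain ⟨w, hw, -⟩ := ord_alpha_eq L q h2 h3 h2' h3' H hH
  obtain ⟨t, -, ht⟩ := H27.exists_ord_eq_one w
  exact ⟨t, by rw [hw, ht]⟩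

/-- **(Der-5), β-side, full form**: the restriction of a non-cuspidal place along `β` is
unramified. -/
theorem ord_beta_eq (h2 : nuTwo L = 0) (h3 : nuThree L = 0)
    (h2' : nuTwo (L * q) = 0) (h3' : nuThree (L * q) = 0)
    (H : Place Qbar (FN (L * q))) (hH : 0 ≤ H.ord (jBar (L * q))) :
    ∃ w : Place Qbar (FN L), (∀ x : FN L, H.ord (heckeBetaBar Qbar L q x) = w.ord x) ∧
      ∀ x : FN L, x ∈ w.toValuationSubring ↔
        heckeBetaBar Qbar L q x ∈ H.toValuationSubring := by
  have hData := rhData (L * q)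
  obtain ⟨τ₁, hτ₁⟩ := exists_point (L * q) h2' h3' H hH
  obtain ⟨jq, hjq⟩ : ∃ x : FN (L * q), x = jd (L * q) q (dvd_mul_left q L) := ⟨_, rfl⟩
  have hβinj : Function.Injective (heckeBetaBar Qbar L q) :=
    (heckeBetaBar Qbar L q).toRingHom.injective
  -- `j_q` is transcendental, nonzero, and regular at `H`
  have htr : Transcendental Qbar jq := by
    have h1 : Transcendental Qbar (jBar L) := H40.transcendental_jBar L
    rw [hjq, ← S37.H6.heckeBetaBar_jBar]
    intro halg
    exact h1 ((isAlgebraic_algHom_iff (heckeBetaBar Qbar L q) hβinj).mp halg)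
  have hjq0 : jq ≠ 0 := by
    rintro h0
    exact htr (h0 ▸ isAlgebraic_zero)
  have hjqA : jq ∈ (H17.A (L * q) : Set (FN (L * q))) := by
    rw [hjq]; exact H17.jd_mem_A (L * q) q _
  have hreg : 0 ≤ H.ord jq := by
    rw [← hτ₁ jq hjqA hjq0]
    unfold H76.ordH
    exact Int.natCast_nonneg _
  have hres := H25.residueTrivial_of_deg_eq_one H (hData.deg_eq_one H)
  rcases H25.value_of_residueTrivial jq htr H hres with hneg | ⟨b, hb⟩
  · omega
  have hneb' : jq - algebraMap Qbar (FN (L * q)) b ≠ 0 := by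
    intro h0; rw [h0] at hb; simp at hb
  have hneb : jBar L - algebraMap Qbar (FN L) b ≠ 0 := by
    intro h0
    apply hneb'
    rw [hjq, ← beta_jBar_sub, h0, map_zero]
  obtain ⟨w, e, he, hw, hmem⟩ := exists_place_restrict (heckeBetaBar Qbar L q) H
    ⟨jBar L - algebraMap Qbar (FN L) b, hneb, by rw [beta_jBar_sub, ← hjq]; omega⟩
  -- the analytic side: `Θ (j_q - b) = J (q τ) - ι b`
  have hsubA : jq - algebraMap Qbar (FN (L * q)) b ∈ (H17.A (L * q) : Set (FN (L * q))) :=
    (H17.A (L * q)).sub_mem hjqA ((H17.A (L * q)).algebraMap_mem b)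
  have hΘ : H17.Theta (L * q) (jq - algebraMap Qbar (FN (L * q)) b) =
      fun τ => (fun τ' => H28.J τ' - H17.iota b) (H17.mulD q τ) := by
    have e1 : jq - algebraMap Qbar (FN (L * q)) b = jq + algebraMap Qbar (FN (L * q)) (-b) := by
      rw [map_neg, sub_eq_add_neg]
    rw [e1, H17.Theta_add (L * q) hjqA ((H17.A (L * q)).algebraMap_mem (-b)),
      H17.Theta_algebraMap]
    funext τ
    simp only [Pi.add_apply, map_neg]
    rw [hjq, H17.Theta_jd]
    ring
  have hordH := hτ₁ _ hsubA hneb'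
  rw [hΘ, ordH_comp_mulD (fun τ' => H28.J τ' - H17.iota b) q τ₁] at hordH
  set τ₂ : ℍ := H17.mulD q τ₁ with hτ₂
  -- `J τ₂ = ι b` because the order is positive
  have hJτ₂ : H28.J τ₂ = H17.iota b := by
    by_contra hcon
    have h0 := H8.analyticOrderAt_J_sub_eq_zero_of_ne (τ := τ₂) (a := H17.iota b) hcon
    have : H76.ordH (fun τ' => H28.J τ' - H17.iota b) τ₂ = 0 := by
      have := H76.ordH_eq_of_analyticOrderAt (G := fun τ' => H28.J τ' - H17.iota b) (τ := τ₂)
        (n := 0) (by simpa using h0)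
      simpa using this
    rw [this] at hordH
    omega
  obtain ⟨n, hnpos, hn, hn3, hn2, hn1⟩ := exists_analyticOrderAt_J_sub τ₂
  have hn' : analyticOrderAt (fun z : ℂ => H28.J (ofComplex z) - H17.iota b) (τ₂ : ℂ) = n := by
    rw [← hJτ₂]; exact hn
  have hordN : H.ord (jq - algebraMap Qbar (FN (L * q)) b) = n := by
    rw [← hordH]
    exact H76.ordH_eq_of_analyticOrderAt hn'
  have hrel := hw _ hneb
  rw [beta_jBar_sub, ← hjq, hordN] at hrel
  have hwpos : 0 < w.ord (jBar L - algebraMap Qbar (FN L) b) := by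
    have hnZ : (0 : ℤ) < n := by exact_mod_cast hnpos
    have heZ : (0 : ℤ) < e := by exact_mod_cast he
    by_contra hcon
    rw [not_lt] at hcon
    nlinarith
  have hordL := ord_jBar_sub_eq_analyticOrder L h2 h3 w b hwpos τ₂ hJτ₂ n hn hn3 hn2 hn1
  rw [hordL] at hrel
  have he1 : (e : ℤ) = 1 := by
    have hnZ : (0 : ℤ) < n := by exact_mod_cast hnpos
    nlinarith
  refine ⟨w, fun x => ?_, fun x => ?_⟩
  · rcases eq_or_ne x 0 with rfl | hx
    · simp
    · rw [hw x hx, he1, one_mul]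
  · rw [hmem x]
    rcases eq_or_ne x 0 with rfl | hx
    · simp
    · have hx' : heckeBetaBar Qbar L q x ≠ 0 := fun h0 =>
        hx (hβinj (by rw [h0, map_zero]))
      rw [H27.mem_toValuationSubring_of_ne_zero H hx']
      simp [hx]

/-- **(Der-5), β-side, consumer shape.** -/
theorem exists_ord_beta_eq_one (h2 : nuTwo L = 0) (h3 : nuThree L = 0)
    (h2' : nuTwo (L * q) = 0) (h3' : nuThree (L * q) = 0)
    (H : Place Qbar (FN (L * q))) (hH : 0 ≤ H.ord (jBar (L * q))) :
    ∃ t : FN L, H.ord (heckeBetaBar Qbar L q t) = 1 := by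
  obtain ⟨w, hw, -⟩ := ord_beta_eq L q h2 h3 h2' h3' H hH
  obtain ⟨t, -, ht⟩ := H27.exists_ord_eq_one w
  exact ⟨t, by rw [hw, ht]⟩

/-- **(Der-5) at a level divisible by a prime `r ≡ 11 (mod 12)`**: both degeneracy maps are
unramified at every non-cuspidal place. -/
theorem degeneracy_unramified_of_eleven_mod_twelve {r : ℕ} (hr : r.Prime) (hr12 : r % 12 = 11)
    (hrL : r ∣ L) (H : Place Qbar (FN (L * q))) (hH : 0 ≤ H.ord (jBar (L * q))) :
    (∃ t : FN L, H.ord (heckeAlphaBar Qbar L q t) = 1) ∧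
      ∃ t : FN L, H.ord (heckeBetaBar Qbar L q t) = 1 := by
  have hrN : r ∣ L * q := hrL.mul_right q
  exact ⟨exists_ord_alpha_eq_one L q (nuTwo_eq_zero_of_eleven_mod_twelve hr hr12 hrL)
      (nuThree_eq_zero_of_eleven_mod_twelve hr hr12 hrL)
      (nuTwo_eq_zero_of_eleven_mod_twelve hr hr12 hrN)
      (nuThree_eq_zero_of_eleven_mod_twelve hr hr12 hrN) H hH,
    exists_ord_beta_eq_one L q (nuTwo_eq_zero_of_eleven_mod_twelve hr hr12 hrL)
      (nuThree_eq_zero_of_eleven_mod_twelve hr hr12 hrL)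
      (nuTwo_eq_zero_of_eleven_mod_twelve hr hr12 hrN)
      (nuThree_eq_zero_of_eleven_mod_twelve hr hr12 hrN) H hH⟩

end Fermat.Agent.S36.H37
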