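/-
helper38 — S36 row (M2e), sub-row (A-hartogs) (helper78 #3338; second seat for helper54).

Abstract Hartogs step of Note 2 (A): `B` a noetherian integrally closed domain (a chart of the
level-`(L, q)` model, or the local ring `B_n` itself), `K = Frac B`, `n` a prime of `B` (the
closed point), `P1 P2` the vertical primes, `π` the uniformiser of the base (`π = q`), and
`ω : K` (`ω = ω_s = (1/q) d(V s)/d(ι s)`) such that

* `ω` is a unit at every horizontal height-one prime through `n`   [(A-hor)],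
* `ω` is a unit at `P1`                                            [(A-exp)],
* `ω⁻¹ ∈ P2 · B_{P2}` (e.g. `ω⁻¹ = q² · unit` at `P2`)             [(A-swap)].

Then `ω⁻¹ ∈ B_n`, more precisely `ω⁻¹ = z / t` with `t ∉ n`, `z ∈ P2`, `z ∉ P1`, and for every
ring hom `φ` out of `B` with kernel `P1` the residue of `ω` at `P1` times `φ z / φ t` is `1`
(the hypothesis `P * p = 1`, `p ∈ 𝔪`, of `S36.H54.isUnit_of_ode`).  At a closed point lying on
`P1` only, `ω` is a unit at `n` (Note 5, point 2).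

Everything "in the field" (`S34.H56.MemAt` / `S34.H56.IsUnitAt` vocabulary, no `Localization`
type in the statements); at the end the same statements for an abstract local ring `O`
(vocabulary of `S36.H54_RegFinish`).  Imports Mathlib + `S34.H56_Step3Chart` only.
-/
import Mathlib
import Fermat.Agent.S34.H56_Step3Chart

set_option autoImplicit false
set_option linter.unusedSectionVars false

namespace Fermat.Agent.S36.H38

open Fermat.Agent.S34 Fermat.Agent.S34.H56

section Chart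

variable {B K : Type*} [CommRing B] [IsDomain B] [Field K] [Algebra B K] [IsFractionRing B K]

/-- `x ∈ P · B_P` in the field: `x = a / b` with `a ∈ P`, `b ∉ P`. -/
def MemMaxAt (P : Ideal B) (x : K) : Prop :=
  ∃ a b : B, a ∈ P ∧ b ∉ P ∧ x * algebraMap B K b = algebraMap B K a

omit [IsDomain B] [IsFractionRing B K] in
theorem MemMaxAt.memAt {P : Ideal B} {x : K} (h : MemMaxAt P x) : MemAt P x := by
  obtain ⟨a, b, -, hb, hab⟩ := h
  exact ⟨a, b, hb, hab⟩

omit [IsDomain B] [IsFractionRing B K] in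
/-- `c * u` with `c ∈ P` and `u ∈ B_P` lies in `P · B_P`. -/
theorem memMaxAt_mul_of_mem {P : Ideal B} [P.IsPrime] {c : B} (hc : c ∈ P) {x : K}
    (hx : MemAt P x) : MemMaxAt P (algebraMap B K c * x) := by
  obtain ⟨a, b, hb, hab⟩ := hx
  refine ⟨c * a, b, P.mul_mem_right _ hc, hb, ?_⟩
  rw [map_mul, ← hab]; ring

omit [IsDomain B] [IsFractionRing B K] in
/-- The form produced by (A-swap): `ω⁻¹ = π ^ k * u` with `π ∈ P`, `0 < k`, `u ∈ B_P`. -/
theorem memMaxAt_of_eq_pow_mul {P : Ideal B} [P.IsPrime] {π : B} (hπ : π ∈ P) {k : ℕ}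
    (hk : 0 < k) {x u : K} (hu : MemAt P u) (hx : x = algebraMap B K π ^ k * u) :
    MemMaxAt P x := by
  rw [hx, ← map_pow]
  exact memMaxAt_mul_of_mem (P.pow_mem_of_mem hπ k hk) hu

variable [IsNoetherianRing B] [IsIntegrallyClosed B]

/-- **(A-hartogs), chart form.**  `ω` a unit at the horizontal height-one primes through `n` and
at `P1`, `ω⁻¹ ∈ P2 B_{P2}`  ⟹  `ω⁻¹ = z / t` with `t ∉ n`, `z ∈ P2` (if `P2 ≤ n`), `z ∉ P1`
(if `P1 ≤ n`). -/
theorem exists_inv_of_hartogs (n : Ideal B) [hn : n.IsPrime] (P1 P2 : Ideal B)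
    [hP1p : P1.IsPrime] [hP2p : P2.IsPrime] (π : B) (ω : K)
    (hvert : ∀ p : Ideal B, p.IsPrime → p.height = 1 → p ≤ n → π ∈ p → p = P1 ∨ p = P2)
    (hhor : ∀ p : Ideal B, p.IsPrime → p.height = 1 → p ≤ n → π ∉ p → IsUnitAt p ω)
    (hP1 : P1 ≤ n → IsUnitAt P1 ω)
    (hP2 : P2 ≤ n → MemMaxAt P2 ω⁻¹) :
    ∃ z t : B, t ∉ n ∧ ω⁻¹ * algebraMap B K t = algebraMap B K z ∧
      (P2 ≤ n → z ∈ P2) ∧ (P1 ≤ n → z ∉ P1) := by
  have hmem : MemAt n ω⁻¹ := by
    refine memAt_of_forall_height_one_le n ω⁻¹ fun p hp hp1 hle => ?_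
    by_cases hπ : π ∈ p
    · rcases hvert p hp hp1 hle hπ with rfl | rfl
      · exact (hP1 hle).inv.memAt
      · exact (hP2 hle).memAt
    · exact (hhor p hp hp1 hle hπ).inv.memAt
  obtain ⟨z, t, ht, hzt⟩ := hmem
  refine ⟨z, t, ht, hzt, fun hle => ?_, fun hle hz => ?_⟩
  · obtain ⟨a, b, ha, hb, hab⟩ := hP2 hle
    have hzb : z * b = a * t := by
      apply IsFractionRing.injective B K
      rw [map_mul, map_mul, ← hzt, ← hab]; ring
    have hzb' : z * b ∈ P2 := by rw [hzb]; exact P2.mul_mem_right _ ha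
    exact (hP2p.mem_or_mem hzb').resolve_right hb
  · have hω0 : ω ≠ 0 := (hP1 hle).ne_zero
    obtain ⟨a, b, ha, hb, hab⟩ := hP1 hle
    have htb : t * b = a * z := by
      apply IsFractionRing.injective B K
      rw [map_mul, map_mul, ← hab, ← hzt]
      field_simp
    have htb' : t * b ∈ P1 := by rw [htb]; exact P1.mul_mem_left _ hz
    rcases hP1p.mem_or_mem htb' with h | h
    · exact ht (hle h)
    · exact hb h

omit [IsNoetherianRing B] [IsIntegrallyClosed B] in
/-- **Residue identity.**  `φ` a ring hom with kernel `P1` into a field; `ω = a / b` a unit at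
`P1` (so `φ a / φ b` is the residue of `ω` at `P1`) and `ω⁻¹ = z / t` with `t ∉ P1`:
the residue of `ω` times `φ z / φ t` is `1`. -/
theorem residue_mul_eq_one {T : Type*} [Field T] (φ : B →+* T) (P1 : Ideal B)
    (hφ : ∀ x, φ x = 0 ↔ x ∈ P1) {ω : K} {a b z t : B} (ha : a ∉ P1) (hb : b ∉ P1)
    (ht : t ∉ P1) (hab : ω * algebraMap B K b = algebraMap B K a)
    (hzt : ω⁻¹ * algebraMap B K t = algebraMap B K z) :
    (φ a / φ b) * (φ z / φ t) = 1 := by
  have hω0 : ω ≠ 0 := by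
    rintro rfl
    rw [zero_mul] at hab
    have : a = 0 := (IsFractionRing.injective B K) (by rw [← hab, map_zero])
    exact ha (this ▸ P1.zero_mem)
  have haz : a * z = b * t := by
    apply IsFractionRing.injective B K
    rw [map_mul, map_mul, ← hab, ← hzt]
    field_simp
  have hφb : φ b ≠ 0 := fun h => hb ((hφ b).mp h)
  have hφt : φ t ≠ 0 := fun h => ht ((hφ t).mp h)
  have h := congrArg φ haz
  rw [map_mul, map_mul] at h
  rw [div_mul_div_comm, h]
  exact div_self (mul_ne_zero hφb hφt)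

omit [IsNoetherianRing B] [IsIntegrallyClosed B] in
/-- In the situation of `residue_mul_eq_one`, `φ z ≠ 0` (the residue of `ω` is finite). -/
theorem residue_ne_zero {T : Type*} [Field T] (φ : B →+* T) (P1 : Ideal B)
    (hφ : ∀ x, φ x = 0 ↔ x ∈ P1) {z : B} (hz : z ∉ P1) : φ z ≠ 0 :=
  fun h => hz ((hφ z).mp h)

/-- **(A-hartogs) at a closed point on `P1` only** (Note 5, point 2): if `P2` does not pass
through `n`, then `ω` is a unit at `n`. -/
theorem isUnitAt_of_hartogs (n : Ideal B) [hn : n.IsPrime] (P1 P2 : Ideal B) (π : B) (ω : K)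
    (hω : ω ≠ 0)
    (hvert : ∀ p : Ideal B, p.IsPrime → p.height = 1 → p ≤ n → π ∈ p → p = P1 ∨ p = P2)
    (hhor : ∀ p : Ideal B, p.IsPrime → p.height = 1 → p ≤ n → π ∉ p → IsUnitAt p ω)
    (hP1 : P1 ≤ n → IsUnitAt P1 ω) (hP2n : ¬ P2 ≤ n) : IsUnitAt n ω := by
  refine isUnitAt_of_forall_height_one_le n ω (fun p hp hp1 hle => ?_) hω
  by_cases hπ : π ∈ p
  · rcases hvert p hp hp1 hle hπ with rfl | rfl
    · exact hP1 hle
    · exact absurd hle hP2n
  · exact hhor p hp hp1 hle hπ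

/-- One-branch version with a single vertical prime through `n`. -/
theorem isUnitAt_of_hartogs_single (n : Ideal B) [hn : n.IsPrime] (P1 : Ideal B) (π : B) (ω : K)
    (hω : ω ≠ 0)
    (hvert : ∀ p : Ideal B, p.IsPrime → p.height = 1 → p ≤ n → π ∈ p → p = P1)
    (hhor : ∀ p : Ideal B, p.IsPrime → p.height = 1 → p ≤ n → π ∉ p → IsUnitAt p ω)
    (hP1 : P1 ≤ n → IsUnitAt P1 ω) : IsUnitAt n ω := by
  refine isUnitAt_of_forall_height_one_le n ω (fun p hp hp1 hle => ?_) hω
  by_cases hπ : π ∈ p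
  · obtain rfl := hvert p hp hp1 hle hπ
    exact hP1 hle
  · exact hhor p hp hp1 hle hπ

/-- If `ω` is a unit at `n` and `ω = a / b` with `b ∉ n`, then `a ∉ n`: numerators of a unit
are units (used to see that `red1 ω` is a unit of `D_a`). -/
theorem not_mem_of_isUnitAt {n : Ideal B} [hn : n.IsPrime] {ω : K} (h : IsUnitAt n ω) {a b : B}
    (hb : b ∉ n) (hab : ω * algebraMap B K b = algebraMap B K a) : a ∉ n := by
  obtain ⟨c, d, hc, hd, hcd⟩ := h
  intro ha
  have hω0 : ω ≠ 0 := by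
    rintro rfl
    rw [zero_mul] at hcd
    have : c = 0 := (IsFractionRing.injective B K) (by rw [← hcd, map_zero])
    exact hc (this ▸ n.zero_mem)
  have hd0 : algebraMap B K d ≠ 0 := fun h0 =>
    hd ((IsFractionRing.injective B K (by rw [h0, map_zero]) : d = 0) ▸ n.zero_mem)
  have hb0 : algebraMap B K b ≠ 0 := fun h0 =>
    hb ((IsFractionRing.injective B K (by rw [h0, map_zero]) : b = 0) ▸ n.zero_mem)
  have hcb : c * b = a * d := by
    apply IsFractionRing.injective B K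
    rw [map_mul, map_mul, ← hab, ← hcd]; ring
  have : c * b ∈ n := by rw [hcb]; exact n.mul_mem_right _ ha
  rcases hn.mem_or_mem this with h | h
  · exact hc h
  · exact hb h

end Chart

/-! ## The same for an abstract local ring `O` (vocabulary of `S36.H54_RegFinish`) -/

section Local

variable {O F : Type*} [CommRing O] [IsDomain O] [IsLocalRing O] [IsNoetherianRing O]
  [IsIntegrallyClosed O] [Field F] [Algebra O F] [IsFractionRing O F]

/-- **(A-hartogs), local form.**  `O` a normal noetherian local domain, `P1 P2` the height-one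
primes over `π`, `ω` a unit at all other height-one primes and at `P1`, `ω⁻¹ ∈ P2 O_{P2}`.
Then `ω⁻¹ = z ∈ O`, `z ∈ P2`, `z ∉ P1`, `z ∈ 𝔪`, and the image of `z` in `O ⧸ P1` is a
non-unit. -/
theorem exists_inv_mem_of_hartogs_local (P1 P2 : Ideal O) [hP1p : P1.IsPrime] [hP2p : P2.IsPrime]
    (π : O) (ω : F)
    (hvert : ∀ p : Ideal O, p.IsPrime → p.height = 1 → π ∈ p → p = P1 ∨ p = P2)
    (hhor : ∀ p : Ideal O, p.IsPrime → p.height = 1 → π ∉ p → IsUnitAt p ω)
    (hP1 : IsUnitAt P1 ω) (hP2 : MemMaxAt P2 ω⁻¹) :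
    ∃ z : O, ω * algebraMap O F z = 1 ∧ z ∈ P2 ∧ z ∉ P1 ∧ z ∈ IsLocalRing.maximalIdeal O ∧
      ¬ IsUnit (Ideal.Quotient.mk P1 z) := by
  have hω0 : ω ≠ 0 := hP1.ne_zero
  have hle1 : P1 ≤ IsLocalRing.maximalIdeal O := IsLocalRing.le_maximalIdeal hP1p.ne_top
  have hle2 : P2 ≤ IsLocalRing.maximalIdeal O := IsLocalRing.le_maximalIdeal hP2p.ne_top
  obtain ⟨z0, t, ht, hzt, hz2, hz1⟩ :=
    exists_inv_of_hartogs (IsLocalRing.maximalIdeal O) P1 P2 π ω
      (fun p hp hp1 _ hπ => hvert p hp hp1 hπ) (fun p hp hp1 _ hπ => hhor p hp hp1 hπ)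
      (fun _ => hP1) (fun _ => hP2)
  have htu : IsUnit t := by
    by_contra h
    exact ht ((IsLocalRing.mem_maximalIdeal t).mpr h)
  obtain ⟨u, rfl⟩ := htu
  refine ⟨z0 * ((u⁻¹ : Oˣ) : O), ?_, P2.mul_mem_right _ (hz2 hle2), ?_, ?_, ?_⟩
  · have hu : algebraMap O F (u : O) * algebraMap O F ((u⁻¹ : Oˣ) : O) = 1 := by
      rw [← map_mul, Units.mul_inv, map_one]
    have hu0 : algebraMap O F (u : O) ≠ 0 := left_ne_zero_of_mul_eq_one hu
    rw [map_mul, ← hzt]
    calc ω * (ω⁻¹ * algebraMap O F (u : O) * algebraMap O F ((u⁻¹ : Oˣ) : O))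
        = (ω * ω⁻¹) * (algebraMap O F (u : O) * algebraMap O F ((u⁻¹ : Oˣ) : O)) := by ring
      _ = 1 := by rw [hu, mul_inv_cancel₀ hω0, mul_one]
  · intro h
    apply hz1 hle1
    have : z0 = z0 * ((u⁻¹ : Oˣ) : O) * (u : O) := by
      rw [mul_assoc, Units.inv_mul, mul_one]
    rw [this]
    exact P1.mul_mem_right _ h
  · exact Ideal.mul_mem_right _ _ (hle2 (hz2 hle2))
  · intro hunit
    have hzm : z0 * ((u⁻¹ : Oˣ) : O) ∈ IsLocalRing.maximalIdeal O :=
      Ideal.mul_mem_right _ _ (hle2 (hz2 hle2))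
    obtain ⟨w', hw'⟩ := hunit.exists_right_inv
    obtain ⟨w, rfl⟩ := Ideal.Quotient.mk_surjective w'
    rw [← map_mul, ← map_one (Ideal.Quotient.mk P1), Ideal.Quotient.eq] at hw'
    have h1 : z0 * ((u⁻¹ : Oˣ) : O) * w - 1 ∈ IsLocalRing.maximalIdeal O := hle1 hw'
    have h2 : z0 * ((u⁻¹ : Oˣ) : O) * w ∈ IsLocalRing.maximalIdeal O :=
      Ideal.mul_mem_right _ _ hzm
    have h3 : (1 : O) ∈ IsLocalRing.maximalIdeal O := by
      have := Ideal.sub_mem _ h2 h1
      rwa [sub_sub_cancel] at this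
    exact (Ideal.ne_top_iff_one _).mp (IsLocalRing.maximalIdeal.isMaximal O).ne_top h3

/-- Local form of the one-branch statement: `ω` is (the image of) a unit of `O`. -/
theorem exists_unit_of_hartogs_local (P1 : Ideal O) (π : O) (ω : F) (hω : ω ≠ 0)
    (hvert : ∀ p : Ideal O, p.IsPrime → p.height = 1 → π ∈ p → p = P1)
    (hhor : ∀ p : Ideal O, p.IsPrime → p.height = 1 → π ∉ p → IsUnitAt p ω)
    (hP1 : IsUnitAt P1 ω) : ∃ u : Oˣ, algebraMap O F u = ω := by
  refine Fermat.Agent.CA.H42.exists_unit_of_forall_height_one ω hω fun p hp hp1 => ?_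
  by_cases hπ : π ∈ p
  · obtain rfl := hvert p hp hp1 hπ
    exact hP1
  · exact hhor p hp hp1 hπ

end Local

end Fermat.Agent.S36.H38
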