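import Fermat.Agent.S34.H83_L0Target

/-!
# (M2-cusp): no crossing point of the level-`(L, q)` model lies at infinity (helper39)

Abstract core, in the vocabulary of `S34.H83.TwoComponents`.

* `TwoComponents.symm` : the interface is symmetric under `(red₁, ι) ↔ (red₂, V)`.
* `iota_notMem_of_crossing`, `V_notMem_of_crossing` : if `ψ : BM` has `W (rbar ψ) = (rbar ψ) ^ q`
  (think `ψ = 1 / j`, whose reduction has coefficients in `𝔽_q`), and `w = (ι ψ) ^ q / V ψ` lies in
  `B`, then `ι ψ` lies in no prime containing `ker red₁ + ker red₂` (a crossing point).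
* `exists_mul_eq_pow_of_rel` : `w = u ^ q / v ∈ B` for `B` integrally closed, from the relation
  `u ^ (q + 1) + v ^ (q + 1) = u v ε` (the modular equation divided by `(j j_q) ^ (q + 1)`).
* `rel_of_modPolyShape` : that relation from the shape
  `Φ(x; y) = (x - y ^ q)(x ^ q - y) + q ∑ r_ab x ^ a y ^ b` (`a, b ≤ q`) at `x = 1 / v, y = 1 / u`.
-/

set_option autoImplicit false

namespace Fermat.Agent.S36.H39

open Fermat.Agent.S34.H83 Polynomial

section Core

variable {B R BM : Type*} [CommRing B] [CommRing R] [CommRing BM]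
  {red₁ red₂ : B →+* R} {ι V : BM →+* B} {rbar : BM →+* R} {W : R →+* R} {q : ℕ} {qB : B}

/-- The interface is symmetric under exchanging the two components. -/
theorem TwoComponents.symm (h : TwoComponents red₁ red₂ ι V rbar W q qB) :
    TwoComponents red₂ red₁ V ι rbar W q qB where
  hroot := h.hroot
  h1ι := h.h2V
  h1V := h.h2ι
  h2ι := h.h1V
  h2V := h.h1ι
  hrbar := h.hrbar
  hred₁ := h.hred₂
  hred₂ := h.hred₁
  hinf := fun z h2 h1 => h.hinf z h1 h2

variable [IsDomain R]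

/-- **No crossing point on `ι ψ = 0`.** -/
theorem iota_notMem_of_crossing (h : TwoComponents red₁ red₂ ι V rbar W q qB) (hq : 2 ≤ q)
    (ψ : BM) (hψ0 : rbar ψ ≠ 0) (hψW : W (rbar ψ) = rbar ψ ^ q)
    (w : B) (hw : w * V ψ = ι ψ ^ q)
    (n : Ideal B) [hn : n.IsPrime] (h1 : RingHom.ker red₁ ≤ n) (h2 : RingHom.ker red₂ ≤ n) :
    ι ψ ∉ n := by
  intro hu
  -- `red₁ w = 1`
  have e1 : red₁ w * W (rbar ψ) = W (rbar ψ) := by
    have := congrArg red₁ hw
    rw [map_mul, map_pow, h.h1V, h.h1ι] at this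
    rw [this, hψW]
  have hW0 : W (rbar ψ) ≠ 0 := by rw [hψW]; exact pow_ne_zero _ hψ0
  have hr1 : red₁ w = 1 := mul_right_cancel₀ hW0 (by rw [e1, one_mul])
  have hw1 : w - 1 ∈ n := h1 (by rw [RingHom.mem_ker, map_sub, hr1, map_one, sub_self])
  -- `u ∈ n ⟹ v ∈ n`
  have hv : V ψ ∈ n := by
    have : ι ψ - V ψ ^ q ∈ n :=
      h2 (by rw [RingHom.mem_ker, map_sub, map_pow, h.h2ι, h.h2V, hψW, sub_self])
    have hvq : V ψ ^ q ∈ n := by
      have := n.sub_mem hu this
      rwa [sub_sub_cancel] at this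
    exact hn.mem_of_pow_mem q hvq
  -- `red₂ w = ψbar ^ (q ^ 2 - 1)`
  obtain ⟨N, hN⟩ : ∃ N, q * q = (N + 1) + 1 := by
    obtain ⟨m, rfl⟩ := Nat.exists_eq_add_of_le hq
    exact ⟨m * m + 4 * m + 2, by ring⟩
  have e2 : red₂ w * rbar ψ = rbar ψ ^ (N + 1) * rbar ψ := by
    have := congrArg red₂ hw
    rw [map_mul, map_pow, h.h2V, h.h2ι, hψW, ← pow_mul, hN] at this
    rw [this, pow_succ]
  have hr2 : red₂ w = rbar ψ ^ (N + 1) := mul_right_cancel₀ hψ0 e2
  have hwn : w ∈ n := by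
    have : w - V ψ ^ (N + 1) ∈ n :=
      h2 (by rw [RingHom.mem_ker, map_sub, map_pow, h.h2V, hr2, sub_self])
    have hvN : V ψ ^ (N + 1) ∈ n := n.pow_mem_of_mem hv (N + 1) (Nat.succ_pos N)
    have := n.add_mem this hvN
    rwa [sub_add_cancel] at this
  have : (1 : B) ∈ n := by
    have := n.sub_mem hwn hw1
    rwa [sub_sub_cancel] at this
  exact hn.ne_top ((Ideal.eq_top_iff_one n).mpr this)

/-- **No crossing point on `V ψ = 0`.** -/
theorem V_notMem_of_crossing (h : TwoComponents red₁ red₂ ι V rbar W q qB) (hq : 2 ≤ q)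
    (ψ : BM) (hψ0 : rbar ψ ≠ 0) (hψW : W (rbar ψ) = rbar ψ ^ q)
    (w' : B) (hw' : w' * ι ψ = V ψ ^ q)
    (n : Ideal B) [n.IsPrime] (h1 : RingHom.ker red₁ ≤ n) (h2 : RingHom.ker red₂ ≤ n) :
    V ψ ∉ n :=
  iota_notMem_of_crossing (TwoComponents.symm h) hq ψ hψ0 hψW w' hw' n h2 h1

/-- Both at once: the product `ι ψ * V ψ` (`= J⁻¹` for `ψ = 1 / j`) lies in no crossing point. -/
theorem mul_notMem_of_crossing (h : TwoComponents red₁ red₂ ι V rbar W q qB) (hq : 2 ≤ q)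
    (ψ : BM) (hψ0 : rbar ψ ≠ 0) (hψW : W (rbar ψ) = rbar ψ ^ q)
    (w w' : B) (hw : w * V ψ = ι ψ ^ q) (hw' : w' * ι ψ = V ψ ^ q)
    (n : Ideal B) [hn : n.IsPrime] (h1 : RingHom.ker red₁ ≤ n) (h2 : RingHom.ker red₂ ≤ n) :
    ι ψ * V ψ ∉ n := by
  intro hmem
  rcases hn.mem_or_mem hmem with hu | hv
  · exact iota_notMem_of_crossing h hq ψ hψ0 hψW w hw n h1 h2 hu
  · exact V_notMem_of_crossing h hq ψ hψ0 hψW w' hw' n h1 h2 hv

end Core

section Integral

/-- `u ^ q / v ∈ B` from the relation `u ^ (q + 1) + v ^ (q + 1) = u v ε` (`F = Frac B`). -/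
theorem exists_mul_eq_pow_of_rel {B : Type*} (F : Type*) [CommRing B] [IsDomain B] [Field F]
    [Algebra B F] [IsFractionRing B F] [IsIntegrallyClosed B] {q : ℕ} (hq : 1 ≤ q) (u v ε : B)
    (hv : v ≠ 0) (hrel : u ^ (q + 1) + v ^ (q + 1) = u * v * ε) : ∃ w : B, w * v = u ^ q := by
  obtain ⟨N, hN⟩ : ∃ N, q * q = N + 1 := by
    obtain ⟨m, rfl⟩ := Nat.exists_eq_add_of_le hq
    exact ⟨m * m + 2 * m, by ring⟩
  have hinj : Function.Injective (algebraMap B F) := IsFractionRing.injective B F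
  set u' := algebraMap B F u with hu'
  set v' := algebraMap B F v with hv'
  set ε' := algebraMap B F ε with hε'
  have hv0 : v' ≠ 0 := fun h0 => hv (hinj (by rw [← hv', h0, map_zero]))
  have hrel' : u' ^ (q + 1) + v' ^ (q + 1) = u' * v' * ε' := by
    have := congrArg (algebraMap B F) hrel
    simpa only [map_add, map_pow, map_mul] using this
  set w : F := u' ^ q / v' with hwdef
  have hwv : w * v' = u' ^ q := div_mul_cancel₀ _ hv0
  -- the monic equation
  have hpoly : w ^ (q + 1) - ε' * w ^ q + u' ^ N = 0 := by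
    have hvq : v' ^ (q + 1) ≠ 0 := pow_ne_zero _ hv0
    apply mul_right_cancel₀ hvq
    have hqq : (u' ^ q) ^ q = u' ^ N * u' := by rw [← pow_mul, hN, pow_succ]
    have e1 : w ^ (q + 1) * v' ^ (q + 1) = u' ^ N * u' * u' ^ q := by
      rw [← mul_pow, hwv, pow_succ, hqq]
    have e2 : w ^ q * v' ^ (q + 1) = u' ^ N * u' * v' := by
      rw [pow_succ v', ← mul_assoc, ← mul_pow, hwv, hqq]
    rw [zero_mul, add_mul, sub_mul, mul_assoc, e1, e2]
    linear_combination (u' ^ N) * hrel'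
  have hint : IsIntegral B w := by
    refine ⟨X ^ (q + 1) - C ε * X ^ q + C (u ^ N), ?_, ?_⟩
    · have h1 : (X ^ (q + 1) - C ε * X ^ q + C (u ^ N) : B[X]) =
          X ^ (q + 1) + (- (C ε * X ^ q) + C (u ^ N)) := by ring
      rw [h1]
      refine monic_X_pow_add ?_
      refine lt_of_le_of_lt (degree_add_le _ _) (max_lt ?_ ?_)
      · rw [degree_neg]
        refine lt_of_le_of_lt (degree_C_mul_X_pow_le q ε) ?_
        exact_mod_cast Nat.lt_succ_self q
      · refine lt_of_le_of_lt degree_C_le ?_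
        exact_mod_cast Nat.succ_pos q
    · simp only [eval₂_add, eval₂_sub, eval₂_mul, eval₂_pow, eval₂_X, eval₂_C, map_pow]
      exact hpoly
  obtain ⟨w₀, hw₀⟩ := IsIntegrallyClosed.algebraMap_eq_of_integral hint
  refine ⟨w₀, hinj ?_⟩
  rw [map_mul, map_pow, hw₀]
  exact hwv

/-- The relation `u ^ (q + 1) + v ^ (q + 1) = u v ε` from the shape of the modular polynomial
`Φ(x; y) = (x - y ^ q)(x ^ q - y) + q ∑_{a, b ≤ q} r_ab x ^ a y ^ b`, at `x = 1 / v`, `y = 1 / u`. -/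
theorem rel_of_modPolyShape {B F : Type*} [CommRing B] [Field F] [Algebra B F]
    [IsFractionRing B F] {q : ℕ} (hq : 1 ≤ q) (u v : B) (x y : F)
    (hx : x * algebraMap B F v = 1) (hy : y * algebraMap B F u = 1) (r : ℕ → ℕ → ℤ)
    (hΦ : (x - y ^ q) * (x ^ q - y) + (q : F) *
      ∑ a ∈ Finset.range (q + 1), ∑ b ∈ Finset.range (q + 1), (r a b : F) * x ^ a * y ^ b = 0) :
    u ^ (q + 1) + v ^ (q + 1) = u * v * (1 + u ^ (q - 1) * v ^ (q - 1) - (q : B) *
      ∑ a ∈ Finset.range (q + 1), ∑ b ∈ Finset.range (q + 1),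
        (r a b : B) * v ^ (q - a) * u ^ (q - b)) := by
  have hinj : Function.Injective (algebraMap B F) := IsFractionRing.injective B F
  apply hinj
  simp only [map_add, map_pow, map_mul, map_sub, map_one, map_sum, map_natCast, map_intCast]
  set u' := algebraMap B F u with hu'
  set v' := algebraMap B F v with hv'
  obtain ⟨m, rfl⟩ : ∃ m, q = m + 1 := Nat.exists_eq_add_of_le' hq
  simp only [Nat.add_sub_cancel]
  -- multiply `hΦ` by `(u v) ^ (q + 1)`
  have k1 : (x - y ^ (m + 1)) * (u' ^ (m + 1) * v') = u' ^ (m + 1) - v' := by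
    have : y ^ (m + 1) * u' ^ (m + 1) = 1 := by rw [← mul_pow, hy, one_pow]
    linear_combination (u' ^ (m + 1)) * hx - v' * this
  have k2 : (x ^ (m + 1) - y) * (u' * v' ^ (m + 1)) = u' - v' ^ (m + 1) := by
    have : x ^ (m + 1) * v' ^ (m + 1) = 1 := by rw [← mul_pow, hx, one_pow]
    linear_combination u' * this - (v' ^ (m + 1)) * hy
  have k3 : ∀ a ∈ Finset.range (m + 1 + 1), x ^ a * v' ^ (m + 1 + 1) = v' * v' ^ (m + 1 - a) := by
    intro a ha
    have hle : a ≤ m + 1 := Nat.lt_succ_iff.mp (Finset.mem_range.mp ha)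
    have : m + 1 + 1 = a + (1 + (m + 1 - a)) := by omega
    rw [this, pow_add, ← mul_assoc, ← mul_pow, hx, one_pow, one_mul, pow_add, pow_one]
  have k4 : ∀ b ∈ Finset.range (m + 1 + 1), y ^ b * u' ^ (m + 1 + 1) = u' * u' ^ (m + 1 - b) := by
    intro b hb
    have hle : b ≤ m + 1 := Nat.lt_succ_iff.mp (Finset.mem_range.mp hb)
    have : m + 1 + 1 = b + (1 + (m + 1 - b)) := by omega
    rw [this, pow_add, ← mul_assoc, ← mul_pow, hy, one_pow, one_mul, pow_add, pow_one]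
  have k5 : (∑ a ∈ Finset.range (m + 1 + 1), ∑ b ∈ Finset.range (m + 1 + 1),
        (r a b : F) * x ^ a * y ^ b) * (u' ^ (m + 1 + 1) * v' ^ (m + 1 + 1)) =
      u' * v' * ∑ a ∈ Finset.range (m + 1 + 1), ∑ b ∈ Finset.range (m + 1 + 1),
        (r a b : F) * v' ^ (m + 1 - a) * u' ^ (m + 1 - b) := by
    rw [Finset.sum_mul, Finset.mul_sum]
    refine Finset.sum_congr rfl fun a ha => ?_
    rw [Finset.sum_mul, Finset.mul_sum]
    refine Finset.sum_congr rfl fun b hb => ?_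
    have e : (r a b : F) * x ^ a * y ^ b * (u' ^ (m + 1 + 1) * v' ^ (m + 1 + 1)) =
        (r a b : F) * (x ^ a * v' ^ (m + 1 + 1)) * (y ^ b * u' ^ (m + 1 + 1)) := by ring
    rw [e, k3 a ha, k4 b hb]
    ring
  have key := congrArg (· * (u' ^ (m + 1 + 1) * v' ^ (m + 1 + 1))) hΦ
  simp only [zero_mul, add_mul] at key
  have e6 : (x - y ^ (m + 1)) * (x ^ (m + 1) - y) * (u' ^ (m + 1 + 1) * v' ^ (m + 1 + 1)) =
      (u' ^ (m + 1) - v') * (u' - v' ^ (m + 1)) := by
    rw [← k1, ← k2]; ring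
  rw [e6, mul_assoc, k5] at key
  linear_combination key

end Integral

end Fermat.Agent.S36.H39
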