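import Mathlib
import Fermat.Agent.CA.H3_HasOrd
import Fermat.Agent.CA.H3_NormOrd

/-!
# S36 (moonshot), row (E3b): vertical orders, arithmetic + absorption (helper3)

Abstract setting: a field `F`, three valuation subrings `V 0, V 1, V 2` (the vertical valuations of
the level-`q² M₀` model: multiplicities `1, q-1, 1`), "uniformisers" `t i` (`t i` a unit at `V j`
for `j ≠ i`), a constant `qF` of orders `(1, q-1, 1)`, and a function `f` of orders `a i`.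

`CA.H3.HasOrd V t x n` : `x * t ^ (-n)` is a unit of `V` (order of `x` w.r.t. the uniformiser `t`).

`exists_unit_at_verticals` : from the two norm congruences
`a 0 + a 1 ≡ q * a 2`, `a 1 + a 2 ≡ q * a 0 (mod m)` there are `s : ℤ` and `g ≠ 0` with
`f ^ (q+1) * qF ^ (-s) * (g ^ m)⁻¹` a unit at all three `V i`.
-/

set_option autoImplicit false

namespace Fermat.Agent.S36.H3

open Fermat.Agent.CA.H3

variable {F : Type*} [Field F]

/-- **(E3b)** absorption of the vertical orders. -/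
theorem exists_unit_at_verticals (V : Fin 3 → ValuationSubring F) (t : Fin 3 → F)
    (ht0 : ∀ i, t i ≠ 0) (hsep : ∀ i j, i ≠ j → (V j).valuation (t i) = 1)
    (q : ℕ) (qF : F)
    (hq0 : HasOrd (V 0) (t 0) qF 1) (hq1 : HasOrd (V 1) (t 1) qF ((q : ℤ) - 1))
    (hq2 : HasOrd (V 2) (t 2) qF 1)
    (f : F) (a : Fin 3 → ℤ) (hfa : ∀ i, HasOrd (V i) (t i) f (a i)) (m : ℕ)
    (hα : (m : ℤ) ∣ a 0 + a 1 - q * a 2) (hβ : (m : ℤ) ∣ a 1 + a 2 - q * a 0) :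
    ∃ (s : ℤ) (g : F), g ≠ 0 ∧
      ∀ i, (V i).valuation (f ^ (q + 1) * qF ^ (-s) * (g ^ m)⁻¹) = 1 := by
  obtain ⟨x, hx⟩ := hα
  obtain ⟨y, hy⟩ := hβ
  -- the exponents
  set s : ℤ := ((q : ℤ) + 1) * a 0 with hs
  set b : Fin 3 → ℤ := ![0, q * y + x, y - x] with hb
  have e0 : ((q : ℤ) + 1) * a 0 - s * 1 - m * b 0 = 0 := by
    simp [hs, hb]
  have e1 : ((q : ℤ) + 1) * a 1 - s * ((q : ℤ) - 1) - m * b 1 = 0 := by
    have hb1 : b 1 = q * y + x := by simp [hb]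
    rw [hb1, hs]
    linear_combination ((q : ℤ) + 1) * hy + hx - hy
  have e2 : ((q : ℤ) + 1) * a 2 - s * 1 - m * b 2 = 0 := by
    have hb2 : b 2 = y - x := by simp [hb]
    rw [hb2, hs]
    linear_combination hy - hx
  -- the absorbing function
  set g : F := t 0 ^ b 0 * t 1 ^ b 1 * t 2 ^ b 2 with hg
  have hg0 : g ≠ 0 :=
    mul_ne_zero (mul_ne_zero (zpow_ne_zero _ (ht0 0)) (zpow_ne_zero _ (ht0 1)))
      (zpow_ne_zero _ (ht0 2))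
  have hunit : ∀ i j, i ≠ j → ∀ r : ℤ, (V j).valuation (t i ^ r) = 1 := by
    intro i j hij r
    rw [map_zpow₀, hsep i j hij, one_zpow]
  have hgord : ∀ i, HasOrd (V i) (t i) g (b i) := by
    intro i
    fin_cases i
    · have h1 : HasOrd (V 0) (t 0) (t 0 ^ b 0) (b 0) := by
        simpa using (HasOrd.self (V := V 0) (ht0 0)).zpow (ht0 0) (b 0)
      have h2 := HasOrd.of_unit (V := V 0) (t := t 0) (hunit 1 0 (by decide) (b 1))
      have h3 := HasOrd.of_unit (V := V 0) (t := t 0) (hunit 2 0 (by decide) (b 2))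
      simpa [hg] using ((h1.mul (ht0 0) h2).mul (ht0 0) h3)
    · have h1 := HasOrd.of_unit (V := V 1) (t := t 1) (hunit 0 1 (by decide) (b 0))
      have h2 : HasOrd (V 1) (t 1) (t 1 ^ b 1) (b 1) := by
        simpa using (HasOrd.self (V := V 1) (ht0 1)).zpow (ht0 1) (b 1)
      have h3 := HasOrd.of_unit (V := V 1) (t := t 1) (hunit 2 1 (by decide) (b 2))
      simpa [hg] using ((h1.mul (ht0 1) h2).mul (ht0 1) h3)
    · have h1 := HasOrd.of_unit (V := V 2) (t := t 2) (hunit 0 2 (by decide) (b 0))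
      have h2 := HasOrd.of_unit (V := V 2) (t := t 2) (hunit 1 2 (by decide) (b 1))
      have h3 : HasOrd (V 2) (t 2) (t 2 ^ b 2) (b 2) := by
        simpa using (HasOrd.self (V := V 2) (ht0 2)).zpow (ht0 2) (b 2)
      simpa [hg] using ((h1.mul (ht0 2) h2).mul (ht0 2) h3)
  refine ⟨s, g, hg0, ?_⟩
  have key : ∀ i (e : ℤ), HasOrd (V i) (t i) qF e →
      ((q : ℤ) + 1) * a i - s * e - m * b i = 0 →
      (V i).valuation (f ^ (q + 1) * qF ^ (-s) * (g ^ m)⁻¹) = 1 := by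
    intro i e hqe hzero
    have h1 : HasOrd (V i) (t i) (f ^ (q + 1)) (((q + 1 : ℕ) : ℤ) * a i) :=
      (hfa i).pow (ht0 i) (q + 1)
    have h2 : HasOrd (V i) (t i) (qF ^ (-s)) (-s * e) := hqe.zpow (ht0 i) (-s)
    have h3 : HasOrd (V i) (t i) (g ^ m)⁻¹ (-((m : ℤ) * b i)) :=
      ((hgord i).pow (ht0 i) m).inv
    have h4 := (h1.mul (ht0 i) h2).mul (ht0 i) h3
    refine HasOrd.unit_of_zero (h4.congr ?_)
    push_cast
    linarith
  intro i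
  fin_cases i
  · exact key 0 1 hq0 e0
  · exact key 1 ((q : ℤ) - 1) hq1 e1
  · exact key 2 1 hq2 e2

/-- **(E3) Step 1, assembled.**  `F` the upper function field with its three vertical valuations
`V 0, V 1, V 2` (multiplicities `1, q-1, 1`), uniformisers `t i`, the constant `qF` (the image of
the uniformiser of every DVR below).  Two subfields `Kα`, `Kβ` (the two copies of the lower modular
function field), each with its two vertical DVRs: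

* over `Oα₀` exactly `V 0` (`e = 1`) and `V 1` (`e = q-1`); over `Oα₁` exactly `V 2` (`e = 1`);
* over `Oβ₀` exactly `V 2` (`e = 1`) and `V 1` (`e = q-1`); over `Oβ₁` exactly `V 0` (`e = 1`).

If `N_α f = cα * hα ^ m` and `N_β f = cβ * hβ ^ m` with `cα`, `cβ` of equal orders at the two DVRs
below, then `f ^ (q+1) / (qF ^ s * g ^ m)` is a unit at all three `V i` for suitable `s`, `g`. -/
theorem exists_unit_at_verticals_of_norms
    {Kα Kβ Oα₀ Oα₁ Oβ₀ Oβ₁ : Type*}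
    [Field Kα] [Algebra Kα F] [FiniteDimensional Kα F] [Algebra.IsSeparable Kα F]
    [Field Kβ] [Algebra Kβ F] [FiniteDimensional Kβ F] [Algebra.IsSeparable Kβ F]
    [CommRing Oα₀] [IsDomain Oα₀] [IsDiscreteValuationRing Oα₀]
    [CommRing Oα₁] [IsDomain Oα₁] [IsDiscreteValuationRing Oα₁]
    [CommRing Oβ₀] [IsDomain Oβ₀] [IsDiscreteValuationRing Oβ₀]
    [CommRing Oβ₁] [IsDomain Oβ₁] [IsDiscreteValuationRing Oβ₁]
    [Algebra Oα₀ Kα] [IsFractionRing Oα₀ Kα] [Algebra Oα₁ Kα] [IsFractionRing Oα₁ Kα]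
    [Algebra Oβ₀ Kβ] [IsFractionRing Oβ₀ Kβ] [Algebra Oβ₁ Kβ] [IsFractionRing Oβ₁ Kβ]
    [Algebra Oα₀ F] [IsScalarTower Oα₀ Kα F] [Algebra Oα₁ F] [IsScalarTower Oα₁ Kα F]
    [Algebra Oβ₀ F] [IsScalarTower Oβ₀ Kβ F] [Algebra Oβ₁ F] [IsScalarTower Oβ₁ Kβ F]
    (V : Fin 3 → ValuationSubring F) (t : Fin 3 → F)
    (ht0 : ∀ i, t i ≠ 0) (hsep : ∀ i j, i ≠ j → (V j).valuation (t i) = 1)
    (q : ℕ) (hq2 : 2 ≤ q) (hdegα : Module.finrank Kα F = q) (hdegβ : Module.finrank Kβ F = q)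
    (qF : F)
    (hq0 : HasOrd (V 0) (t 0) qF 1) (hq1 : HasOrd (V 1) (t 1) qF ((q : ℤ) - 1))
    (hq2' : HasOrd (V 2) (t 2) qF 1)
    (hqV : ∀ i, (V i).valuation qF < 1)
    -- the four DVRs below
    {ϖα₀ : Oα₀} (hϖα₀ : Irreducible ϖα₀) (hmα₀ : algebraMap Oα₀ F ϖα₀ = qF)
    {ϖα₁ : Oα₁} (hϖα₁ : Irreducible ϖα₁) (hmα₁ : algebraMap Oα₁ F ϖα₁ = qF)
    {ϖβ₀ : Oβ₀} (hϖβ₀ : Irreducible ϖβ₀) (hmβ₀ : algebraMap Oβ₀ F ϖβ₀ = qF)
    {ϖβ₁ : Oβ₁} (hϖβ₁ : Irreducible ϖβ₁) (hmβ₁ : algebraMap Oβ₁ F ϖβ₁ = qF)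
    (hOα₀0 : ∀ c : Oα₀, algebraMap Oα₀ F c ∈ V 0) (hOα₀1 : ∀ c : Oα₀, algebraMap Oα₀ F c ∈ V 1)
    (hOβ₀2 : ∀ c : Oβ₀, algebraMap Oβ₀ F c ∈ V 2) (hOβ₀1 : ∀ c : Oβ₀, algebraMap Oβ₀ F c ∈ V 1)
    (hallα₀ : ∀ W : ValuationSubring F, (∀ c : Oα₀, algebraMap Oα₀ F c ∈ W) →
      qF ∈ W.nonunits → W = V 0 ∨ W = V 1)
    (hallα₁ : ∀ W : ValuationSubring F, (∀ c : Oα₁, algebraMap Oα₁ F c ∈ W) →
      qF ∈ W.nonunits → W = V 2)
    (hallβ₀ : ∀ W : ValuationSubring F, (∀ c : Oβ₀, algebraMap Oβ₀ F c ∈ W) →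
      qF ∈ W.nonunits → W = V 2 ∨ W = V 1)
    (hallβ₁ : ∀ W : ValuationSubring F, (∀ c : Oβ₁, algebraMap Oβ₁ F c ∈ W) →
      qF ∈ W.nonunits → W = V 0)
    -- the function and its two norm equations
    (f : F) (a : Fin 3 → ℤ) (hfa : ∀ i, HasOrd (V i) (t i) f (a i)) (m : ℕ)
    (cα hα : Kα) (hhα : hα ≠ 0) (κα : ℤ) (hcα₀ : UnitMulPow ϖα₀ cα κα)
    (hcα₁ : UnitMulPow ϖα₁ cα κα) (hNα : Algebra.norm Kα f = cα * hα ^ m)
    (cβ hβ : Kβ) (hhβ : hβ ≠ 0) (κβ : ℤ) (hcβ₀ : UnitMulPow ϖβ₀ cβ κβ)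
    (hcβ₁ : UnitMulPow ϖβ₁ cβ κβ) (hNβ : Algebra.norm Kβ f = cβ * hβ ^ m) :
    ∃ (s : ℤ) (g : F), g ≠ 0 ∧
      ∀ i, (V i).valuation (f ^ (q + 1) * qF ^ (-s) * (g ^ m)⁻¹) = 1 := by
  subst hmα₀
  have hα' : (m : ℤ) ∣ a 0 + a 1 - q * a 2 := by
    have := dvd_of_norm_eq_const_mul_pow (K := Kα) (L := F) hϖα₀ hϖα₁ (V 0) (V 1) (V 2)
      hOα₀0 hOα₀1 (hqV 0) (hqV 1) hallα₀ (by rw [hmα₁]; exact hallα₁)
      (t 0) (t 1) (t 2) (ht0 0) (ht0 1) (ht0 2) (hsep 0 1 (by decide)) (hsep 1 0 (by decide))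
      (by rw [hdegα]; exact hq2) hq0 (by rw [hdegα]; exact hq1) (by rw [hmα₁]; exact hq2')
      f (a 0) (a 1) (a 2) (hfa 0) (hfa 1) (hfa 2) cα hα hhα κα hcα₀ hcα₁ m hNα
    rwa [hdegα] at this
  have hβ' : (m : ℤ) ∣ a 1 + a 2 - q * a 0 := by
    have := dvd_of_norm_eq_const_mul_pow (K := Kβ) (L := F) hϖβ₀ hϖβ₁ (V 2) (V 1) (V 0)
      hOβ₀2 hOβ₀1 (by rw [hmβ₀]; exact hqV 2) (by rw [hmβ₀]; exact hqV 1)
      (by rw [hmβ₀]; exact hallβ₀) (by rw [hmβ₁]; exact hallβ₁)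
      (t 2) (t 1) (t 0) (ht0 2) (ht0 1) (ht0 0) (hsep 2 1 (by decide)) (hsep 1 2 (by decide))
      (by rw [hdegβ]; exact hq2) (by rw [hmβ₀]; exact hq2')
      (by rw [hdegβ, hmβ₀]; exact hq1) (by rw [hmβ₁]; exact hq0)
      f (a 2) (a 1) (a 0) (hfa 2) (hfa 1) (hfa 0) cβ hβ hhβ κβ hcβ₀ hcβ₁ m hNβ
    rw [hdegβ, add_comm] at this
    exact this
  exact exists_unit_at_verticals V t ht0 hsep q _ hq0 hq1 hq2' f a hfa m hα' hβ'

end Fermat.Agent.S36.H3
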