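/-
helper3 — S36 row (E3), (r2)-inst: FAST TWIN of the chain
`H3_StepOneReal → H3_StepOneRows → H3_StepOneLevelMaps` (95 s + 100 s + 61 s, serial) in ONE file
that does not import it: `hE3_of_incidenceF` (verbatim copy of the generic
`S36.H3.hE3_of_incidence`) and `hE3_of_levelMaps_fast` (SAME statement as
`S36.H3.hE3_of_levelMaps`), elaborated with helper85's three local shortcut instances (#3632).
Consumers may import either file; the statements are interchangeable.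
-/
import Mathlib
import Fermat.Agent.CA.H3_NormOrdVS
import Fermat.Agent.S36.H3_VertOrders
import Fermat.Agent.S36.H18_Geo36Consts
import Fermat.Agent.S36.H3_QOrders
import Fermat.Agent.S36.H47_IncidenceTable

set_option autoImplicit false
set_option linter.unusedSectionVars false
set_option linter.style.haveILetI false
set_option synthInstance.maxHeartbeats 400000
set_option maxHeartbeats 3200000

noncomputable section

namespace Fermat.Agent.S36.H3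

open ModularCurve IntermediateField
open Fermat.Agent.CA.H3 Fermat.Agent.S18 Fermat.Agent.S34 Fermat.Agent.S36.H18
  Fermat.Agent.S36.H83

section Generic

variable (K : Type) [Field K] [CharZero K] (q N1 N2 : ℕ) [NeZero q] [NeZero N1] [NeZero N2]
  (hN : N1 ∣ N2) (hqN : q * N1 ∣ N2)

set_option quotPrecheck false
local notation "F₁" => ↥(modularFunctionFieldFullC K N1)
local notation "F₂" => ↥(modularFunctionFieldFullC K N2)
local notation "aα" => alphaK K N1 N2 hN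
local notation "bβ" => betaK K q N1 N2 hqN
local notation "Nα" => normAlphaK K N1 N2 hN
local notation "Nβ" => normBetaK K q N1 N2 hqN
local notation "q₁" => algebraMap K F₁ ((q : ℕ) : K)
local notation "q₂" => algebraMap K F₂ ((q : ℕ) : K)

/-- **Step 1 at the real function fields, from the incidence table.** -/
theorem hE3_of_incidenceF (hq : q.Prime) (hqN1 : q ∣ N1) (hN2 : N2 = q * N1)
    (hNK : ((N2 : ℕ) : K) ≠ 0)
    (V : Fin 3 → ValuationSubring F₂) (WF WV : ValuationSubring F₁)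
    -- (W): `q` is a uniformiser at `WF`, `WV`; constants have equal orders
    (hWFq : WF.valuation q₁ < 1)
    (hWFπ : ∀ x : F₁, x ≠ 0 → ∃ n : ℤ, WF.valuation (x * q₁ ^ (-n)) = 1)
    (hWVq : WV.valuation q₁ < 1)
    (hWVπ : ∀ x : F₁, x ≠ 0 → ∃ n : ℤ, WV.valuation (x * q₁ ^ (-n)) = 1)
    (hconst : ∀ c : K, c ≠ 0 → ∃ κ : ℤ,
      WF.valuation (algebraMap K F₁ c * q₁ ^ (-κ)) = 1 ∧
      WV.valuation (algebraMap K F₁ c * q₁ ^ (-κ)) = 1)
    -- uniformisers of the three vertical valuations upstairs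
    (t : Fin 3 → F₂) (ht0 : ∀ i, t i ≠ 0)
    (hord : ∀ i (x : F₂), x ≠ 0 → ∃ n : ℤ, (V i).valuation (x * t i ^ (-n)) = 1)
    (hsep : ∀ i j, i ≠ j → (V j).valuation (t i) = 1)
    (hq0 : (V 0).valuation (q₂ * t 0 ^ (-(1 : ℤ))) = 1)
    (hq1 : (V 1).valuation (q₂ * t 1 ^ (-((q : ℤ) - 1))) = 1)
    (hq2 : (V 2).valuation (q₂ * t 2 ^ (-(1 : ℤ))) = 1)
    (hqV : ∀ i, (V i).valuation q₂ < 1)
    -- the incidence table
    (hWF0 : ∀ c ∈ WF, aα c ∈ V 0) (hWF1 : ∀ c ∈ WF, aα c ∈ V 1)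
    (hWV2 : ∀ c ∈ WV, bβ c ∈ V 2) (hWV1 : ∀ c ∈ WV, bβ c ∈ V 1)
    (hα₀ : ∀ W' : ValuationSubring F₂, (∀ c ∈ WF, aα c ∈ W') → q₂ ∈ W'.nonunits →
      W' = V 0 ∨ W' = V 1)
    (hα₁ : ∀ W' : ValuationSubring F₂, (∀ c ∈ WV, aα c ∈ W') → q₂ ∈ W'.nonunits → W' = V 2)
    (hβ₀ : ∀ W' : ValuationSubring F₂, (∀ c ∈ WV, bβ c ∈ W') → q₂ ∈ W'.nonunits →
      W' = V 2 ∨ W' = V 1)
    (hβ₁ : ∀ W' : ValuationSubring F₂, (∀ c ∈ WF, bβ c ∈ W') → q₂ ∈ W'.nonunits → W' = V 0)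
    (m : ℕ) (f : F₂) (hf : f ≠ 0)
    (hNα : ∃ (c : K) (h : F₁), c ≠ 0 ∧ h ≠ 0 ∧ Nα f = algebraMap K F₁ c * h ^ m)
    (hNβ : ∃ (c : K) (h : F₁), c ≠ 0 ∧ h ≠ 0 ∧ Nβ f = algebraMap K F₁ c * h ^ m) :
    ∃ (s : ℤ) (g : F₂), g ≠ 0 ∧
      ∀ i, (V i).valuation (f ^ (q + 1) * q₂ ^ (-s) * (g ^ m)⁻¹) = 1 := by
  obtain ⟨cα, hα, hcα, hhα, hNα⟩ := hNα
  obtain ⟨cβ, hβ, hcβ, hhβ, hNβ⟩ := hNβ
  rw [normAlphaK_apply K N1 N2 hN hf] at hNα
  rw [normBetaK_apply K q N1 N2 hqN hf] at hNβ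
  have hq2le : 2 ≤ q := hq.two_le
  have hq₁0 : q₁ ≠ 0 := (map_ne_zero _).mpr (Nat.cast_ne_zero.mpr hq.ne_zero)
  -- orders of `f`
  choose a ha using fun i => hord i f hf
  obtain ⟨κα, hκαF, hκαV⟩ := hconst cα hcα
  obtain ⟨κβ, hκβF, hκβV⟩ := hconst cβ hcβ
  haveI : CharZero F₁ := charZero_of_injective_algebraMap (algebraMap K F₁).injective
  -- the `α` congruence
  have hdvdα : (m : ℤ) ∣ a 0 + a 1 - q * a 2 := by
    letI := H16.degAlgebra K N1 N2 hN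
    haveI := H16.degAlgebra_isScalarTower K N1 N2 hN
    haveI : FiniteDimensional F₁ F₂ :=
      S36.H16.finiteDimensional_fullC_prime_dvd K N1 N2 hN q hq hqN1 hN2 hNK
    have hfr : Module.finrank F₁ F₂ = q :=
      S36.H16.finrank_fullC_prime_dvd K N1 N2 hN q hq hqN1 hN2 hNK
    have hq12 : algebraMap F₁ F₂ q₁ = q₂ :=
      (IsScalarTower.algebraMap_apply K F₁ F₂ _).symm
    have := dvd_of_norm_eq_const_mul_pow_vs (K := F₁) (L := F₂) WF WV q₁ hq₁0 hWFq hWFπ hWVq hWVπ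
      (V 0) (V 1) (V 2) hWF0 hWF1 (by rw [hq12]; exact hqV 0) (by rw [hq12]; exact hqV 1)
      (by rw [hq12]; exact hα₀) (by rw [hq12]; exact hα₁)
      (t 0) (t 1) (t 2) (ht0 0) (ht0 1) (ht0 2) (hsep 0 1 (by decide)) (hsep 1 0 (by decide))
      (by rw [hfr]; exact hq2le) (by rw [hq12]; exact hq0) (by rw [hq12, hfr]; exact hq1)
      (by rw [hq12]; exact hq2) f (a 0) (a 1) (a 2) (ha 0) (ha 1) (ha 2)
      (algebraMap K F₁ cα) hα hhα κα hκαF hκαV m hNα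
    rwa [hfr] at this
  -- the `β` congruence
  have hdvdβ : (m : ℤ) ∣ a 1 + a 2 - q * a 0 := by
    letI := S35.H16.vAlgebra K q N1 N2 hqN
    haveI := S35.H16.vAlgebra_isScalarTower K q N1 N2 hqN
    haveI : FiniteDimensional F₁ F₂ :=
      S36.H16.finiteDimensional_vSub_dvd K N1 N2 q hq hqN1 hN2 hNK
    have hfr : Module.finrank F₁ F₂ = q :=
      S36.H16.finrank_vSub_dvd K N1 N2 q hq hqN1 hN2 hNK
    have hq12 : algebraMap F₁ F₂ q₁ = q₂ :=
      (IsScalarTower.algebraMap_apply K F₁ F₂ _).symm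
    have := dvd_of_norm_eq_const_mul_pow_vs (K := F₁) (L := F₂) WV WF q₁ hq₁0 hWVq hWVπ hWFq hWFπ
      (V 2) (V 1) (V 0) hWV2 hWV1 (by rw [hq12]; exact hqV 2) (by rw [hq12]; exact hqV 1)
      (by rw [hq12]; exact hβ₀) (by rw [hq12]; exact hβ₁)
      (t 2) (t 1) (t 0) (ht0 2) (ht0 1) (ht0 0) (hsep 2 1 (by decide)) (hsep 1 2 (by decide))
      (by rw [hfr]; exact hq2le) (by rw [hq12]; exact hq2) (by rw [hq12, hfr]; exact hq1)
      (by rw [hq12]; exact hq0) f (a 2) (a 1) (a 0) (ha 2) (ha 1) (ha 0)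
      (algebraMap K F₁ cβ) hβ hhβ κβ hκβV hκβF m hNβ
    rw [hfr, add_comm] at this
    exact this
  exact exists_unit_at_verticals V t ht0 hsep q q₂ hq0 hq1 hq2 f a ha m hdvdα hdvdβ

end Generic

section Fast

open Fermat.Agent.S18.H45

local notation "Qbar" => AlgebraicClosure ℚ

variable (L q : ℕ) [NeZero L] [NeZero q] (hq : q.Prime)
  {A : ValuationSubring Qbar} (hA : A.LiesOverPrime q)
  (E0 : IntermediateField (unrCyclo q) Qbar) [FiniteDimensional (unrCyclo q) E0]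
  (hfix : ∀ σ ∈ A.inertiaSubgroupIn ℚ, ∀ x : E0, σ ((x : E0) : Qbar) = ((x : E0) : Qbar))

set_option quotPrecheck false
local notation "F₁" => ↥(modularFunctionFieldFullC ↥E0 (q * L))
local notation "F₂" => ↥(modularFunctionFieldFullC ↥E0 (q * (q * L)))
local notation "RR" => ↥(cutOver A E0)
local notation "aα" => alphaK ↥E0 (q * L) (q * (q * L)) (dvd_mul_left (q * L) q)
local notation "bβ" => betaK ↥E0 q (q * L) (q * (q * L)) dvd_rfl
local notation "Nα" => normAlphaK ↥E0 (q * L) (q * (q * L)) (dvd_mul_left (q * L) q)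
local notation "Nβ" => normBetaK ↥E0 q (q * L) (q * (q * L)) dvd_rfl
local notation "πq" => (((q : ℕ) : ↥(cutOver A E0)))
local notation "q₁" => algebraMap ↥E0 F₁ ((q : ℕ) : ↥E0)
local notation "q₂" => algebraMap ↥E0 F₂ ((q : ℕ) : ↥E0)

local instance (priority := 10000) shortcutAlgE (N : ℕ) [NeZero N] :
    Algebra ↥E0 ↥(modularFunctionFieldFullC ↥E0 N) :=
  SubalgebraClass.toAlgebra (modularFunctionFieldFullC ↥E0 N)
local instance (priority := 10000) shortcutAlg (N : ℕ) [NeZero N] :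
    Algebra ↥(cutOver A E0) ↥(modularFunctionFieldFullC ↥E0 N) :=
  Algebra.ofSubsemiring (cutOver A E0)
local instance (priority := 10000) shortcutTower (N : ℕ) [NeZero N] :
    IsScalarTower ↥(cutOver A E0) ↥E0 ↥(modularFunctionFieldFullC ↥E0 N) :=
  IsScalarTower.of_algebraMap_eq (fun _ => rfl)

set_option maxHeartbeats 6400000 in
include hq hA hfix in
/-- **(r2)-inst, fast twin of `S36.H3.hE3_of_levelMaps` (same statement).** -/
theorem hE3_of_levelMaps_fast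
    {B₁ : Subalgebra RR F₂} [IsFractionRing B₁ F₂] [IsNoetherianRing B₁] [IsIntegrallyClosed B₁]
    {B' : Type*} [CommRing B'] [IsDomain B'] [IsNoetherianRing B'] [IsIntegrallyClosed B']
    [Algebra B' F₁] [IsFractionRing B' F₁]
    (P₁ : Fin 3 → Ideal B₁) [hP₁ : ∀ i, (P₁ i).IsPrime] (hh₁ : ∀ i, (P₁ i).height = 1)
    (WF WV : ValuationSubring F₁)
    (hinj : Function.Injective P₁)
    -- (W) `WF`, `WV` lie over `R = cutOver A E0` and `q` is a uniformiser there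
    (hWFint : ∀ x : ↥E0, (cutOver A E0).valuation x ≤ 1 →
      WF.valuation (algebraMap ↥E0 F₁ x) ≤ 1)
    (hWFq : WF.valuation q₁ < 1)
    (hWFπ : ∀ x : F₁, x ≠ 0 → ∃ n : ℤ, WF.valuation (x * q₁ ^ (-n)) = 1)
    (hWVint : ∀ x : ↥E0, (cutOver A E0).valuation x ≤ 1 →
      WV.valuation (algebraMap ↥E0 F₁ x) ≤ 1)
    (hWVq : WV.valuation q₁ < 1)
    (hWVπ : ∀ x : F₁, x ≠ 0 → ∃ n : ℤ, WV.valuation (x * q₁ ^ (-n)) = 1)
    -- (E2) chart 1
    {D₁ BM₁ : Type*} [CommRing D₁] [Nontrivial D₁] [CommRing BM₁]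
    {red₁ red₂ red₃ : B₁ →+* D₁} {ιu ιv ιw : BM₁ →+* B₁} {rbar : BM₁ →+* D₁} {W : D₁ →+* D₁}
    (h₁ : ThreeComponents red₁ red₂ red₃ ιu ιv ιw rbar W q (algebraMap RR B₁ πq))
    (hq1 : red₁ (algebraMap RR B₁ πq) = 0) (hq2 : red₂ (algebraMap RR B₁ πq) = 0)
    (hq3 : red₃ (algebraMap RR B₁ πq) = 0)
    (hqm : ∃ s : B₁, red₂ s ≠ 0 ∧ s * algebraMap RR B₁ πq ∈ RingHom.ker red₂ ^ (q - 1))
    (hP₁0 : P₁ 0 = RingHom.ker red₁) (hP₁1 : P₁ 1 = RingHom.ker red₂)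
    (hP₁2 : P₁ 2 = RingHom.ker red₃)
    -- (E2-lvl) the level maps
    {red₁' red₂' : B' →+* D₁} {α β : B' →+* B₁}
    (hL : LevelMaps red₁ red₂ red₃ red₁' red₂' α β W) (hWinj : Function.Injective W)
    (haα : ∀ z, algebraMap B₁ F₂ (α z) = aα (algebraMap B' F₁ z))
    (hbβ : ∀ z, algebraMap B₁ F₂ (β z) = bβ (algebraMap B' F₁ z))
    (hintα : α.IsIntegral) (hintβ : β.IsIntegral)
    (P'F P'V : Ideal B') [hP'F : P'F.IsPrime] [hP'V : P'V.IsPrime]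
    (hF : P'F.height = 1) (hV : P'V.height = 1)
    (hP'F1 : P'F = RingHom.ker red₁') (hP'V2 : P'V = RingHom.ker red₂')
    (hWF : WF = H56.valuationSubringAt (K := F₁) P'F hF)
    (hWV : WV = H56.valuationSubringAt (K := F₁) P'V hV)
    {s₁ : B'} (hs11 : red₁' s₁ = 0) (hs12 : red₂' s₁ ≠ 0)
    (qB' : B') (hqB' : algebraMap B' F₁ qB' = q₁)
    (hαq : α qB' = algebraMap RR B₁ πq) (hβq : β qB' = algebraMap RR B₁ πq)
    (m : ℕ) :
    ∀ f : F₂, f ≠ 0 →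
      (∃ (c : ↥E0) (h : F₁), c ≠ 0 ∧ h ≠ 0 ∧ Nα f = algebraMap ↥E0 F₁ c * h ^ m) →
      (∃ (c : ↥E0) (h : F₁), c ≠ 0 ∧ h ≠ 0 ∧ Nβ f = algebraMap ↥E0 F₁ c * h ^ m) →
      ∃ (s : ℤ) (g : F₂), g ≠ 0 ∧
        ∀ i, (H56.valuationSubringAt (K := F₂) (P₁ i) (hh₁ i)).valuation
          (f ^ (q + 1) * q₂ ^ (-s) * (g ^ m)⁻¹) = 1 := by
  classical
  intro f hf hNα hNβ
  -- the incidence table
  obtain ⟨hWF0, hWF1, hWV2, hWV1, hα₀, hα₁, hβ₀, hβ₁⟩ :=
    S36.H47.incidence_table_of_levelMaps (F1 := F₁) (F2 := F₂) hL hWinj aα bβ haα hbβ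
      hintα hintβ P'F P'V hP'F1 hP'V2 hF hV s₁ hs11 hs12 P₁ hP₁0 hP₁1 hP₁2 hh₁
      qB' (algebraMap RR B₁ πq) hαq hβq hq1 hq2 hq3
      (fun P' hP' hqP' => by
        haveI := hP'
        exact h₁.ker_le_of_mem P' hqP')
      (fun i => H56.valuationSubringAt (K := F₂) (P₁ i) (hh₁ i)) WF WV (fun _ => rfl) hWF hWV
      q₁ q₂ hqB'
      (alphaK_algebraMap ↥E0 (q * L) (q * (q * L)) (dvd_mul_left (q * L) q) _)
      (betaK_algebraMap ↥E0 q (q * L) (q * (q * L)) dvd_rfl _)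
      hWFq hWFπ hWVq hWVπ
  -- uniformisers and the orders of `q`
  have hinc : ∀ j k, P₁ j ≤ P₁ k → j = k := by
    intro j k hjk
    haveI : (P₁ j).FiniteHeight := ⟨Or.inr (by rw [hh₁ j]; exact ENat.one_ne_top)⟩
    exact hinj (Ideal.eq_of_le_of_height_le _ hjk (by rw [hh₁ j, hh₁ k]))
  obtain ⟨t, ht0, hord, hsep, hτ⟩ := S36.H62.exists_uniformisers (K := F₂) P₁ hh₁ hinc
  have e : algebraMap B₁ F₂ (algebraMap RR B₁ πq) = q₂ := by
    rw [map_natCast, map_natCast, map_natCast]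
  have hq₂0 : q₂ ≠ 0 := by
    rw [map_natCast]
    have : CharZero F₂ := charZero_of_injective_algebraMap (algebraMap ↥E0 F₂).injective
    exact Nat.cast_ne_zero.2 hq.ne_zero
  have hπ0 : algebraMap RR B₁ πq ≠ 0 := by
    intro h0
    apply hq₂0
    rw [← e, h0, map_zero]
  obtain ⟨hq0', hq1', hq2', hqV'⟩ := qOrders_of_threeComponents (K := F₂) h₁ hq.one_lt.le hπ0
    hq1 hq2 hq3 hqm P₁ hh₁ hP₁0 hP₁1 hP₁2 t ht0 hord hsep hτ (qK := q₂) e.symm
  -- constants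
  have hNK : (((q * (q * L) : ℕ) : ℕ) : ↥E0) ≠ 0 :=
    Nat.cast_ne_zero.mpr (NeZero.ne (q * (q * L)))
  have hconst : ∀ c : ↥E0, c ≠ 0 → ∃ κ : ℤ,
      WF.valuation (algebraMap ↥E0 F₁ c * q₁ ^ (-κ)) = 1 ∧
      WV.valuation (algebraMap ↥E0 F₁ c * q₁ ^ (-κ)) = 1 := by
    intro c hc
    obtain ⟨κ, hκ⟩ := exists_zpow_valuation_eq_one hq hA E0 hfix hc
    refine ⟨κ, ?_, ?_⟩
    · have := valuation_algebraMap_eq_one_of_liesOver E0 WF hWFint hκ
      rwa [map_mul, map_zpow₀] at this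
    · have := valuation_algebraMap_eq_one_of_liesOver E0 WV hWVint hκ
      rwa [map_mul, map_zpow₀] at this
  exact hE3_of_incidenceF ↥E0 q (q * L) (q * (q * L)) (dvd_mul_left (q * L) q) dvd_rfl hq
    (dvd_mul_right q L) rfl hNK (fun i => H56.valuationSubringAt (K := F₂) (P₁ i) (hh₁ i))
    WF WV hWFq hWFπ hWVq hWVπ hconst t ht0 hord hsep hq0' hq1' hq2'
    hqV' hWF0 hWF1 hWV2 hWV1 hα₀ hα₁ hβ₀ hβ₁ m f hf hNα hNβ

end Fast

end Fermat.Agent.S36.H3
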