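/-
helper3 — S36 row (E7) helper: **`S36.H18.geoFn36E_of_rows` with its `hE3` binder DISCHARGED**
by `S36.H3.hE3_of_levelMaps_fast` (rows (E3) + (r2) + (E3-inc)).  Same binders as
`H18.geoFn36E_of_rows` minus `hE3`, plus the two (E2) facts
`hqm : ∃ s, red₂ s ≠ 0 ∧ s * q ∈ ker red₂ ^ (q - 1)` (helper70's `hq2''`) and
`hWinj : Function.Injective W` (`S36.H3.WR_injective` at the real types).
-/
import Mathlib
import Fermat.Agent.S36.H18_Geo36Rows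
import Fermat.Agent.S36.H3_StepOneFast

set_option autoImplicit false
set_option linter.unusedSectionVars false
set_option linter.style.haveILetI false
set_option synthInstance.maxHeartbeats 400000

noncomputable section

namespace Fermat.Agent.S36.H3

open ModularCurve AlgebraicCurve IntermediateField IsLocalRing
open Fermat.Agent.S18 Fermat.Agent.S18.H45 Fermat.Agent.S34 Fermat.Agent.S34.H47
open Fermat.Agent.S36.H18
open Fermat.Agent.S36.H83 Fermat.Agent.S36.H85 Fermat.Agent.S36.H46 Fermat.Agent.S36.H69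
open Fermat.Agent.S34.H83 Fermat.Agent.S35.H84

local notation "Qbar" => AlgebraicClosure ℚ

section Real

variable (L q : ℕ) [NeZero L] [NeZero q] (hq : q.Prime)
  {A : ValuationSubring Qbar} (hA : A.LiesOverPrime q)
  (E0 : IntermediateField (unrCyclo q) Qbar) [FiniteDimensional (unrCyclo q) E0]
  (hfix : ∀ σ ∈ A.inertiaSubgroupIn ℚ, ∀ x : E0, σ ((x : E0) : Qbar) = ((x : E0) : Qbar))

set_option quotPrecheck false
local notation "F₁" => ↥(modularFunctionFieldFullC ↥E0 (q * L))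
local notation "F₂" => ↥(modularFunctionFieldFullC ↥E0 (q * (q * L)))
local notation "RR" => ↥(cutOver A E0)
local notation "aα" => alphaK ↥E0 (q * L) (q * (q * L)) (dvd_mul_left (q * L) q)
local notation "bβ" => betaK ↥E0 q (q * L) (q * (q * L)) dvd_rfl
local notation "Nα" => normAlphaK ↥E0 (q * L) (q * (q * L)) (dvd_mul_left (q * L) q)
local notation "Nβ" => normBetaK ↥E0 q (q * L) (q * (q * L)) dvd_rfl
local notation "πq" => (((q : ℕ) : ↥(cutOver A E0)))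

set_option maxHeartbeats 6400000 in
include hq hA hfix in
/-- **`H18.geoFn36E_of_rows` without the `hE3` binder.** -/
theorem geoFn36E_of_rows_noE3 {p : ℕ} (hp : p.Prime) (hpq : p ≠ q) (k : ℕ)
    (J J' : F₂) (hJ' : J' = J⁻¹) (htr : Transcendental ↥E0 J) [FiniteDimensional ↥E0⟮J⟯ F₂]
    [Algebra.IsSeparable ↥E0⟮J⟯ F₂]
    [IsFractionRing ↥(H40.chartB RR J) F₂] [IsFractionRing ↥(H40.chartB RR J') F₂]
    [IsNoetherianRing ↥(H40.chartB RR J)] [IsNoetherianRing ↥(H40.chartB RR J')]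
    [IsIntegrallyClosed ↥(H40.chartB RR J)] [IsIntegrallyClosed ↥(H40.chartB RR J')]
    -- the level-`q L` chart below chart 1
    {B' : Type} [CommRing B'] [IsDomain B'] [Algebra B' F₁] [IsFractionRing B' F₁]
    [IsNoetherianRing B'] [IsIntegrallyClosed B'] [Algebra RR B'] [IsScalarTower RR B' F₁]
    -- chart 1: (E2) three components, level-`q L` two components, level maps
    {D BM BM' : Type*} [CommRing D] [IsDedekindDomain D] [CommRing BM] [CommRing BM']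
    (hD : ¬ IsField D)
    {red₁ red₂ red₃ : ↥(H40.chartB RR J) →+* D} {ιu ιv ιw : BM →+* ↥(H40.chartB RR J)}
    {rbar : BM →+* D} {W : D →+* D}
    (h₁ : ThreeComponents red₁ red₂ red₃ ιu ιv ιw rbar W q
      (algebraMap RR ↥(H40.chartB RR J) πq))
    (hq1 : red₁ (algebraMap RR ↥(H40.chartB RR J) πq) = 0)
    (hq2 : red₂ (algebraMap RR ↥(H40.chartB RR J) πq) = 0)
    (hq3 : red₃ (algebraMap RR ↥(H40.chartB RR J) πq) = 0)
    (hW2 : ∃ d : D, W (W d) ≠ d) (hW4 : ∃ d : D, W (W (W (W d))) ≠ d)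
    (hWq : ∀ r : D, ∃ r₂ : D, W r₂ = r ^ q)
    {red₁' red₂' : B' →+* D} {ι' V' : BM' →+* B'} {rbar' : BM' →+* D}
    (h' : TwoComponents red₁' red₂' ι' V' rbar' W q (algebraMap RR B' πq))
    (hq1' : red₁' (algebraMap RR B' πq) = 0) (hq2' : red₂' (algebraMap RR B' πq) = 0)
    {α β : B' →+* ↥(H40.chartB RR J)}
    (hL : LevelMaps red₁ red₂ red₃ red₁' red₂' α β W)
    (hintα : α.IsIntegral) (hintβ : β.IsIntegral)
    (haα : ∀ x, algebraMap ↥(H40.chartB RR J) F₂ (α x) = aα (algebraMap B' F₁ x))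
    (hbβ : ∀ x, algebraMap ↥(H40.chartB RR J) F₂ (β x) = bβ (algebraMap B' F₁ x))
    (hαR : ∀ c : RR, α (algebraMap RR B' c) = algebraMap RR ↥(H40.chartB RR J) c)
    (hβR : ∀ c : RR, β (algebraMap RR B' c) = algebraMap RR ↥(H40.chartB RR J) c)
    -- (M2), (M4) on chart 1
    (hM2 : S36.H62.RegularCrossings red₁' red₂')
    (hM4 : S36.H62.MiddleUnit red₁ red₂ red₃ q (algebraMap RR ↥(H40.chartB RR J) πq))
    -- chart 2: (E2) three components, cusps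
    {D₂ BM₂ : Type*} [CommRing D₂] [IsDedekindDomain D₂] [CommRing BM₂] (hD₂ : ¬ IsField D₂)
    {ρ₁ ρ₂ ρ₃ : ↥(H40.chartB RR J') →+* D₂} {κu κv κw : BM₂ →+* ↥(H40.chartB RR J')}
    {rbar₂ : BM₂ →+* D₂} {W₂ : D₂ →+* D₂}
    (h₂ : ThreeComponents ρ₁ ρ₂ ρ₃ κu κv κw rbar₂ W₂ q
      (algebraMap RR ↥(H40.chartB RR J') πq))
    (hr1 : ρ₁ (algebraMap RR ↥(H40.chartB RR J') πq) = 0)
    (hr2 : ρ₂ (algebraMap RR ↥(H40.chartB RR J') πq) = 0)
    (hr3 : ρ₃ (algebraMap RR ↥(H40.chartB RR J') πq) = 0)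
    (hW2' : ∃ d : D₂, W₂ (W₂ d) ≠ d) (hW4' : ∃ d : D₂, W₂ (W₂ (W₂ (W₂ d))) ≠ d)
    -- the three labelled vertical primes on each chart
    (P₁ : Fin 3 → Ideal ↥(H40.chartB RR J)) (P₂ : Fin 3 → Ideal ↥(H40.chartB RR J'))
    (e10 : P₁ 0 = RingHom.ker red₁) (e11 : P₁ 1 = RingHom.ker red₂)
    (e12 : P₁ 2 = RingHom.ker red₃)
    (e20 : P₂ 0 = RingHom.ker ρ₁) (e21 : P₂ 1 = RingHom.ker ρ₂) (e22 : P₂ 2 = RingHom.ker ρ₃)
    [hP₁ : ∀ i, (P₁ i).IsPrime] [hP₂ : ∀ i, (P₂ i).IsPrime]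
    (hh₁ : ∀ i, (P₁ i).height = 1) (hh₂ : ∀ i, (P₂ i).height = 1)
    (hVeq : ∀ i, H56.valuationSubringAt (K := F₂) (P₁ i) (hh₁ i) =
      H56.valuationSubringAt (K := F₂) (P₂ i) (hh₂ i))
    -- the two vertical primes of the level-`q L` chart
    (P'F P'V : Ideal B') [hP'F : P'F.IsPrime] [hP'V : P'V.IsPrime]
    (hF : P'F.height = 1) (hV : P'V.height = 1)
    (hP'F1 : P'F = RingHom.ker red₁') (hP'V2 : P'V = RingHom.ker red₂')
    -- (OVL-b) cusps of chart 2, (M4r2) middle cusps of chart 2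
    (hcusp : ∀ n₂ : H21.ClosedPt (H40.chartB RR J') πq,
      (⟨J', H40.self_mem_chartB J'⟩ : ↥(H40.chartB RR J')) ∈ n₂.1 →
      ∃ i₀ : Fin 3, ∀ i, P₂ i ≤ n₂.1 → i = i₀)
    (hM4r2 : ∀ n₂ : H21.ClosedPt (H40.chartB RR J') πq,
      (⟨J', H40.self_mem_chartB J'⟩ : ↥(H40.chartB RR J')) ∈ n₂.1 →
      RingHom.ker ρ₂ ≤ n₂.1 →
      ∃ θ : ↥(H40.chartB RR J'), ρ₂ θ = 0 ∧ θ ≠ 0 ∧
        ∃ e t : ↥(H40.chartB RR J'), e ∉ n₂.1 ∧ t ∉ n₂.1 ∧
          t * θ ^ (q - 1) = e * algebraMap RR ↥(H40.chartB RR J') πq)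
    -- (E5)/(E6) the two towers
    (HVa : TowerValU aα Nα q (H56.valuationSubringAt (K := F₂) (P₁ 0) (hh₁ 0))
      (H56.valuationSubringAt (K := F₂) (P₁ 1) (hh₁ 1))
      (H56.valuationSubringAt (K := F₂) (P₁ 2) (hh₁ 2))
      (H56.valuationSubringAt (K := F₁) P'F hF) (H56.valuationSubringAt (K := F₁) P'V hV))
    (HVb : TowerValU bβ Nβ q (H56.valuationSubringAt (K := F₂) (P₁ 2) (hh₁ 2))
      (H56.valuationSubringAt (K := F₂) (P₁ 1) (hh₁ 1))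
      (H56.valuationSubringAt (K := F₂) (P₁ 0) (hh₁ 0))
      (H56.valuationSubringAt (K := F₁) P'V hV) (H56.valuationSubringAt (K := F₁) P'F hF))
    -- (E2) extras consumed by (E3)
    (hqm : ∃ s : ↥(H40.chartB RR J), red₂ s ≠ 0 ∧
      s * algebraMap RR ↥(H40.chartB RR J) πq ∈ RingHom.ker red₂ ^ (q - 1))
    (hWinj : Function.Injective W) :
    GeoFn36E q (q * L) (q * (q * L)) (dvd_mul_left (q * L) q) dvd_rfl E0 (p ^ k)
      ((q + 1) * (q - 1) * (q ^ 2 - 1)) := by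
  -- the level-`q L` facts, as in `H18.geoFn36E_of_rows`
  obtain ⟨s₁, hs11, hs12⟩ := exists_red₁_eq_zero_red₂_ne_zero h' hq.two_le hD
  obtain ⟨s₂, hs22, hs21⟩ := exists_red₂_eq_zero_red₁_ne_zero h' hq.two_le hD
  have hAR : ∀ x ∈ cutOver A E0, ∃ r : RR, algebraMap RR ↥E0 r = x := fun x hx => ⟨⟨x, hx⟩, rfl⟩
  have hπF : algebraMap RR B' πq ∈ P'F := by rw [hP'F1]; exact (RingHom.mem_ker).mpr hq1'
  have hπV : algebraMap RR B' πq ∈ P'V := by rw [hP'V2]; exact (RingHom.mem_ker).mpr hq2'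
  have hredF : ∀ b ∈ P'F, ∃ s, s ∉ P'F ∧ algebraMap RR B' πq ∣ s * b := by
    rw [hP'F1]; exact hred_ker_red₁ h' ⟨s₂, hs22, hs21⟩
  have hredV : ∀ b ∈ P'V, ∃ s, s ∉ P'V ∧ algebraMap RR B' πq ∣ s * b := by
    rw [hP'V2]; exact hred_ker_red₂ h' ⟨s₁, hs11, hs12⟩
  obtain ⟨hWFint, hWFq, hWFπ⟩ := wfacts_of_hred (K := ↥E0) (F := F₁) (cutOver A E0) hAR πq
    P'F hF hπF hredF
  obtain ⟨hWVint, hWVq, hWVπ⟩ := wfacts_of_hred (K := ↥E0) (F := F₁) (cutOver A E0) hAR πq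
    P'V hV hπV hredV
  have hqB' : algebraMap B' F₁ (algebraMap RR B' πq) = algebraMap ↥E0 F₁ ((q : ℕ) : ↥E0) := by
    rw [map_natCast, map_natCast, map_natCast]
  have hE3 := hE3_of_levelMaps_fast L q hq hA E0 hfix (B₁ := H40.chartB RR J) (B' := B')
    P₁ hh₁ (H56.valuationSubringAt (K := F₁) P'F hF) (H56.valuationSubringAt (K := F₁) P'V hV)
    (S36.H61.vertFam_injective P₁ e10 e11 e12 h₁ hW2 hW4)
    hWFint hWFq hWFπ hWVint hWVq hWVπ h₁ hq1 hq2 hq3 hqm e10 e11 e12 hL hWinj haα hbβ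
    hintα hintβ P'F P'V hF hV hP'F1 hP'V2 rfl rfl hs11 hs12
    (algebraMap RR B' πq) hqB' (hαR πq) (hβR πq) (p ^ k)
  exact geoFn36E_of_rows L q hq hA E0 hfix hp hpq k J J' hJ' htr hD h₁ hq1 hq2 hq3 hW2 hW4 hWq
    h' hq1' hq2' hL hintα hintβ haα hbβ hαR hβR hM2 hM4 hD₂ h₂ hr1 hr2 hr3 hW2' hW4'
    P₁ P₂ e10 e11 e12 e20 e21 e22 hh₁ hh₂ hVeq P'F P'V hF hV hP'F1 hP'V2 hcusp hM4r2 HVa HVb hE3

end Real

end Fermat.Agent.S36.H3
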