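/-
helper3 — S36: **ONE `obtain` for the block `t ht0 hord hsep hq0 hq1 hq2 hqV`** of
`S36.H3.hE3_real`, `S36.H46.HVa_of_baseChangeE`, `S36.H46.HVb_of_baseChangeE` (rows (r2), (r3)):
uniformisers of the three vertical valuations `V i = valuationSubringAt (P i)` of a level-`q²`
chart together with the orders `(1, q - 1, 1)` of `q`, from the (E2) outputs
(`ThreeComponents`, `red_i q = 0`, `q ∈ P₂^((q-1))`).

* `exists_uniformisers_qOrders` : generic chart level (any spelling `qK` of the image of `qB`);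
* `exists_uniformisers_qOrders_real` : at `R = cutOver A E0`, `F₂ = F_{E0}(q (q L))`,
  `q₂ = algebraMap ↥E0 F₂ (q : ↥E0)`, any chart `B₁ : Subalgebra R F₂`.
-/
import Mathlib
import Fermat.Agent.S36.H3_QOrders
import Fermat.Agent.S18.H45_CutOverField

set_option autoImplicit false
set_option linter.unusedSectionVars false
set_option linter.style.haveILetI false

namespace Fermat.Agent.S36.H3

open Fermat.Agent.S34.H56 Fermat.Agent.S36.H83

section Generic

variable {B K : Type*} [CommRing B] [IsDomain B] [Field K] [Algebra B K] [IsFractionRing B K]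
  [IsNoetherianRing B] [IsIntegrallyClosed B]
  {D BM : Type*} [CommRing D] [Nontrivial D] [CommRing BM]
  {red₁ red₂ red₃ : B →+* D} {ιu ιv ιw : BM →+* B} {rbar : BM →+* D} {W : D →+* D}
  {q : ℕ} {qB : B}

/-- **Uniformisers of the three vertical valuations and the orders `(1, q - 1, 1)` of `q`**,
generic chart level. -/
theorem exists_uniformisers_qOrders
    (h : ThreeComponents red₁ red₂ red₃ ιu ιv ιw rbar W q qB) (hq : 1 ≤ q) (hqB0 : qB ≠ 0)
    (hq1 : red₁ qB = 0) (hq2 : red₂ qB = 0) (hq3 : red₃ qB = 0)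
    (hqm : ∃ s : B, red₂ s ≠ 0 ∧ s * qB ∈ RingHom.ker red₂ ^ (q - 1))
    (P : Fin 3 → Ideal B) [hP : ∀ i, (P i).IsPrime] (hh : ∀ i, (P i).height = 1)
    (hinj : Function.Injective P)
    (hP0 : P 0 = RingHom.ker red₁) (hP1 : P 1 = RingHom.ker red₂) (hP2 : P 2 = RingHom.ker red₃)
    {qK : K} (hqK : qK = algebraMap B K qB) :
    ∃ t : Fin 3 → K, (∀ i, t i ≠ 0) ∧
      (∀ i (x : K), x ≠ 0 → ∃ n : ℤ,
        (valuationSubringAt (K := K) (P i) (hh i)).valuation (x * t i ^ (-n)) = 1) ∧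
      (∀ i j, i ≠ j → (valuationSubringAt (K := K) (P j) (hh j)).valuation (t i) = 1) ∧
      (valuationSubringAt (K := K) (P 0) (hh 0)).valuation (qK * t 0 ^ (-(1 : ℤ))) = 1 ∧
      (valuationSubringAt (K := K) (P 1) (hh 1)).valuation
        (qK * t 1 ^ (-((q : ℤ) - 1))) = 1 ∧
      (valuationSubringAt (K := K) (P 2) (hh 2)).valuation (qK * t 2 ^ (-(1 : ℤ))) = 1 ∧
      ∀ i, (valuationSubringAt (K := K) (P i) (hh i)).valuation qK < 1 := by
  classical
  have hinc : ∀ j k, P j ≤ P k → j = k := by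
    intro j k hjk
    haveI : (P j).FiniteHeight := ⟨Or.inr (by rw [hh j]; exact ENat.one_ne_top)⟩
    exact hinj (Ideal.eq_of_le_of_height_le _ hjk (by rw [hh j, hh k]))
  obtain ⟨t, ht0, hord, hsep, hτ⟩ := S36.H62.exists_uniformisers (K := K) P hh hinc
  obtain ⟨hq0', hq1', hq2', hqV'⟩ := qOrders_of_threeComponents (K := K) h hq hqB0
    hq1 hq2 hq3 hqm P hh hP0 hP1 hP2 t ht0 hord hsep hτ hqK
  exact ⟨t, ht0, hord, hsep, hq0', hq1', hq2', hqV'⟩

end Generic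

section Real

open ModularCurve IntermediateField Fermat.Agent.S18 Fermat.Agent.S18.H45

local notation "Qbar" => AlgebraicClosure ℚ

noncomputable local instance (priority := 10000) shortcutPkgAlgE {q : ℕ} (E0 : IntermediateField (unrCyclo q) Qbar)
    (N : ℕ) [NeZero N] : Algebra ↥E0 ↥(modularFunctionFieldFullC ↥E0 N) :=
  SubalgebraClass.toAlgebra (modularFunctionFieldFullC ↥E0 N)
noncomputable local instance (priority := 10000) shortcutPkgAlg {q : ℕ} {A : ValuationSubring Qbar}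
    (E0 : IntermediateField (unrCyclo q) Qbar) (N : ℕ) [NeZero N] :
    Algebra ↥(cutOver A E0) ↥(modularFunctionFieldFullC ↥E0 N) :=
  Algebra.ofSubsemiring (cutOver A E0)

set_option synthInstance.maxHeartbeats 400000 in
set_option maxHeartbeats 3200000 in
/-- **The same at the real types** (`R = cutOver A E0`, any chart `B₁ : Subalgebra R F₂` of
`F₂ = F_{E0}(N)`): the block `t ht0 hord hsep hq0 hq1 hq2 hqV` verbatim. -/
theorem exists_uniformisers_qOrders_real (N q : ℕ) [NeZero N] (hq : q.Prime)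
    {A : ValuationSubring Qbar} (E0 : IntermediateField (unrCyclo q) Qbar)
    {B₁ : Subalgebra ↥(cutOver A E0) ↥(modularFunctionFieldFullC ↥E0 N)}
    [IsFractionRing B₁ ↥(modularFunctionFieldFullC ↥E0 N)] [IsNoetherianRing B₁]
    [IsIntegrallyClosed B₁]
    (P₁ : Fin 3 → Ideal B₁) [hP₁ : ∀ i, (P₁ i).IsPrime] (hh₁ : ∀ i, (P₁ i).height = 1)
    (hinj : Function.Injective P₁)
    {D₁ BM₁ : Type*} [CommRing D₁] [Nontrivial D₁] [CommRing BM₁]
    {red₁ red₂ red₃ : B₁ →+* D₁} {ιu ιv ιw : BM₁ →+* B₁} {rbar : BM₁ →+* D₁} {W : D₁ →+* D₁}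
    (h₁ : ThreeComponents red₁ red₂ red₃ ιu ιv ιw rbar W q
      (algebraMap ↥(cutOver A E0) B₁ ((q : ℕ) : ↥(cutOver A E0))))
    (hq1 : red₁ (algebraMap ↥(cutOver A E0) B₁ ((q : ℕ) : ↥(cutOver A E0))) = 0)
    (hq2 : red₂ (algebraMap ↥(cutOver A E0) B₁ ((q : ℕ) : ↥(cutOver A E0))) = 0)
    (hq3 : red₃ (algebraMap ↥(cutOver A E0) B₁ ((q : ℕ) : ↥(cutOver A E0))) = 0)
    (hqm : ∃ s : B₁, red₂ s ≠ 0 ∧
      s * algebraMap ↥(cutOver A E0) B₁ ((q : ℕ) : ↥(cutOver A E0)) ∈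
        RingHom.ker red₂ ^ (q - 1))
    (hP₁0 : P₁ 0 = RingHom.ker red₁) (hP₁1 : P₁ 1 = RingHom.ker red₂)
    (hP₁2 : P₁ 2 = RingHom.ker red₃) :
    ∃ t : Fin 3 → ↥(modularFunctionFieldFullC ↥E0 N), (∀ i, t i ≠ 0) ∧
      (∀ i (x : ↥(modularFunctionFieldFullC ↥E0 N)), x ≠ 0 → ∃ n : ℤ,
        (valuationSubringAt (K := ↥(modularFunctionFieldFullC ↥E0 N)) (P₁ i) (hh₁ i)).valuation
          (x * t i ^ (-n)) = 1) ∧
      (∀ i j, i ≠ j →
        (valuationSubringAt (K := ↥(modularFunctionFieldFullC ↥E0 N)) (P₁ j) (hh₁ j)).valuation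
          (t i) = 1) ∧
      (valuationSubringAt (K := ↥(modularFunctionFieldFullC ↥E0 N)) (P₁ 0) (hh₁ 0)).valuation
        (algebraMap ↥E0 ↥(modularFunctionFieldFullC ↥E0 N) ((q : ℕ) : ↥E0) *
          t 0 ^ (-(1 : ℤ))) = 1 ∧
      (valuationSubringAt (K := ↥(modularFunctionFieldFullC ↥E0 N)) (P₁ 1) (hh₁ 1)).valuation
        (algebraMap ↥E0 ↥(modularFunctionFieldFullC ↥E0 N) ((q : ℕ) : ↥E0) *
          t 1 ^ (-((q : ℤ) - 1))) = 1 ∧
      (valuationSubringAt (K := ↥(modularFunctionFieldFullC ↥E0 N)) (P₁ 2) (hh₁ 2)).valuation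
        (algebraMap ↥E0 ↥(modularFunctionFieldFullC ↥E0 N) ((q : ℕ) : ↥E0) *
          t 2 ^ (-(1 : ℤ))) = 1 ∧
      ∀ i, (valuationSubringAt (K := ↥(modularFunctionFieldFullC ↥E0 N)) (P₁ i) (hh₁ i)).valuation
        (algebraMap ↥E0 ↥(modularFunctionFieldFullC ↥E0 N) ((q : ℕ) : ↥E0)) < 1 := by
  have e : algebraMap B₁ ↥(modularFunctionFieldFullC ↥E0 N)
      (algebraMap ↥(cutOver A E0) B₁ ((q : ℕ) : ↥(cutOver A E0))) =
      algebraMap ↥E0 ↥(modularFunctionFieldFullC ↥E0 N) ((q : ℕ) : ↥E0) := by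
    rw [map_natCast, map_natCast, map_natCast]
  have hq₂0 : algebraMap ↥E0 ↥(modularFunctionFieldFullC ↥E0 N) ((q : ℕ) : ↥E0) ≠ 0 := by
    rw [map_natCast]
    have : CharZero ↥(modularFunctionFieldFullC ↥E0 N) :=
      charZero_of_injective_algebraMap
        (algebraMap ↥E0 ↥(modularFunctionFieldFullC ↥E0 N)).injective
    exact Nat.cast_ne_zero.2 hq.ne_zero
  have hπ0 : algebraMap ↥(cutOver A E0) B₁ ((q : ℕ) : ↥(cutOver A E0)) ≠ 0 := by
    intro h0
    apply hq₂0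
    rw [← e, h0, map_zero]
  exact exists_uniformisers_qOrders (K := ↥(modularFunctionFieldFullC ↥E0 N)) h₁ hq.one_lt.le
    hπ0 hq1 hq2 hq3 hqm P₁ hh₁ hinj hP₁0 hP₁1 hP₁2 e.symm

end Real

end Fermat.Agent.S36.H3
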