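/-
helper3 — S36 row (E3), sub-row (r2)-inst: **the `hE3` binder of
`S36.H18.geoFn36E_of_twoCharts` VERBATIM, in ONE CALL from the outputs of the rows**
(helper56's rows vocabulary, chart 1 only):

* (E7) context: `B₁ : Subalgebra (cutOver A E0) F₂`, `P₁ : Fin 3 → Ideal B₁`, `hh₁`, `hinj`,
  `WF WV` and the six `(W)` facts — the SAME binders as in `geoFn36E_of_twoCharts`;
* (E2) `h₁ : H83.ThreeComponents red₁ red₂ red₃ … q (algebraMap R B₁ q)`, `red_i q = 0`,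
  `P₁ i = ker red_i`, and `q ∈ P₂^((q-1))` in the form
  `∃ s, red₂ s ≠ 0 ∧ s * q ∈ ker red₂ ^ (q - 1)` (all four are outputs of
  `S36.H70.exists_threeComponents_chartBC_unram`);
* (E3-inc) the incidence table (eight facts), for `V i := valuationSubringAt (P₁ i)`.

Internally: uniformisers by `S36.H62.exists_uniformisers`, the orders `(1, q-1, 1)` of `q` by
`S36.H3.qOrders_of_threeComponents`, then `S36.H3.hE3_real`.
-/
import Mathlib
import Fermat.Agent.S36.H3_StepOneReal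
import Fermat.Agent.S36.H3_QOrders

set_option autoImplicit false
set_option linter.unusedSectionVars false
set_option linter.style.haveILetI false
set_option synthInstance.maxHeartbeats 400000
set_option maxHeartbeats 3200000

noncomputable section

namespace Fermat.Agent.S36.H3

open ModularCurve IntermediateField
open Fermat.Agent.S18 Fermat.Agent.S18.H45 Fermat.Agent.S34 Fermat.Agent.S36.H18
  Fermat.Agent.S36.H83

local notation "Qbar" => AlgebraicClosure ℚ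

section Rows

variable (L q : ℕ) [NeZero L] [NeZero q] (hq : q.Prime)
  {A : ValuationSubring Qbar} (hA : A.LiesOverPrime q)
  (E0 : IntermediateField (unrCyclo q) Qbar) [FiniteDimensional (unrCyclo q) E0]
  (hfix : ∀ σ ∈ A.inertiaSubgroupIn ℚ, ∀ x : E0, σ ((x : E0) : Qbar) = ((x : E0) : Qbar))

set_option quotPrecheck false
local notation "F₁" => ↥(modularFunctionFieldFullC ↥E0 (q * L))
local notation "F₂" => ↥(modularFunctionFieldFullC ↥E0 (q * (q * L)))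
local notation "RR" => ↥(cutOver A E0)
local notation "aα" => alphaK ↥E0 (q * L) (q * (q * L)) (dvd_mul_left (q * L) q)
local notation "bβ" => betaK ↥E0 q (q * L) (q * (q * L)) dvd_rfl
local notation "Nα" => normAlphaK ↥E0 (q * L) (q * (q * L)) (dvd_mul_left (q * L) q)
local notation "Nβ" => normBetaK ↥E0 q (q * L) (q * (q * L)) dvd_rfl
local notation "πq" => (((q : ℕ) : ↥(cutOver A E0)))
local notation "q₁" => algebraMap ↥E0 F₁ ((q : ℕ) : ↥E0)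
local notation "q₂" => algebraMap ↥E0 F₂ ((q : ℕ) : ↥E0)

set_option maxHeartbeats 6400000 in
include hq hA hfix in
/-- **(r2)-inst: `hE3` of `S36.H18.geoFn36E_of_twoCharts` from the rows, one call.** -/
theorem hE3_of_rows
    {B₁ : Subalgebra RR F₂} [IsFractionRing B₁ F₂] [IsNoetherianRing B₁] [IsIntegrallyClosed B₁]
    (P₁ : Fin 3 → Ideal B₁) [hP₁ : ∀ i, (P₁ i).IsPrime] (hh₁ : ∀ i, (P₁ i).height = 1)
    (WF WV : ValuationSubring F₁)
    (hinj : Function.Injective P₁)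
    -- (W) `WF`, `WV` lie over `R = cutOver A E0` and `q` is a uniformiser there
    (hWFint : ∀ x : ↥E0, (cutOver A E0).valuation x ≤ 1 →
      WF.valuation (algebraMap ↥E0 F₁ x) ≤ 1)
    (hWFq : WF.valuation q₁ < 1)
    (hWFπ : ∀ x : F₁, x ≠ 0 → ∃ n : ℤ, WF.valuation (x * q₁ ^ (-n)) = 1)
    (hWVint : ∀ x : ↥E0, (cutOver A E0).valuation x ≤ 1 →
      WV.valuation (algebraMap ↥E0 F₁ x) ≤ 1)
    (hWVq : WV.valuation q₁ < 1)
    (hWVπ : ∀ x : F₁, x ≠ 0 → ∃ n : ℤ, WV.valuation (x * q₁ ^ (-n)) = 1)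
    -- (E2) chart 1
    {D₁ BM₁ : Type*} [CommRing D₁] [Nontrivial D₁] [CommRing BM₁]
    {red₁ red₂ red₃ : B₁ →+* D₁} {ιu ιv ιw : BM₁ →+* B₁} {rbar : BM₁ →+* D₁} {W : D₁ →+* D₁}
    (h₁ : ThreeComponents red₁ red₂ red₃ ιu ιv ιw rbar W q (algebraMap RR B₁ πq))
    (hq1 : red₁ (algebraMap RR B₁ πq) = 0) (hq2 : red₂ (algebraMap RR B₁ πq) = 0)
    (hq3 : red₃ (algebraMap RR B₁ πq) = 0)
    (hqm : ∃ s : B₁, red₂ s ≠ 0 ∧ s * algebraMap RR B₁ πq ∈ RingHom.ker red₂ ^ (q - 1))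
    (hP₁0 : P₁ 0 = RingHom.ker red₁) (hP₁1 : P₁ 1 = RingHom.ker red₂)
    (hP₁2 : P₁ 2 = RingHom.ker red₃)
    -- (E3-inc) the incidence table
    (hWF0 : ∀ c ∈ WF, aα c ∈ H56.valuationSubringAt (K := F₂) (P₁ 0) (hh₁ 0))
    (hWF1 : ∀ c ∈ WF, aα c ∈ H56.valuationSubringAt (K := F₂) (P₁ 1) (hh₁ 1))
    (hWV2 : ∀ c ∈ WV, bβ c ∈ H56.valuationSubringAt (K := F₂) (P₁ 2) (hh₁ 2))
    (hWV1 : ∀ c ∈ WV, bβ c ∈ H56.valuationSubringAt (K := F₂) (P₁ 1) (hh₁ 1))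
    (hα₀ : ∀ W' : ValuationSubring F₂, (∀ c ∈ WF, aα c ∈ W') → q₂ ∈ W'.nonunits →
      W' = H56.valuationSubringAt (K := F₂) (P₁ 0) (hh₁ 0) ∨
        W' = H56.valuationSubringAt (K := F₂) (P₁ 1) (hh₁ 1))
    (hα₁ : ∀ W' : ValuationSubring F₂, (∀ c ∈ WV, aα c ∈ W') → q₂ ∈ W'.nonunits →
      W' = H56.valuationSubringAt (K := F₂) (P₁ 2) (hh₁ 2))
    (hβ₀ : ∀ W' : ValuationSubring F₂, (∀ c ∈ WV, bβ c ∈ W') → q₂ ∈ W'.nonunits →
      W' = H56.valuationSubringAt (K := F₂) (P₁ 2) (hh₁ 2) ∨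
        W' = H56.valuationSubringAt (K := F₂) (P₁ 1) (hh₁ 1))
    (hβ₁ : ∀ W' : ValuationSubring F₂, (∀ c ∈ WF, bβ c ∈ W') → q₂ ∈ W'.nonunits →
      W' = H56.valuationSubringAt (K := F₂) (P₁ 0) (hh₁ 0))
    (m : ℕ) :
    ∀ f : F₂, f ≠ 0 →
      (∃ (c : ↥E0) (h : F₁), c ≠ 0 ∧ h ≠ 0 ∧ Nα f = algebraMap ↥E0 F₁ c * h ^ m) →
      (∃ (c : ↥E0) (h : F₁), c ≠ 0 ∧ h ≠ 0 ∧ Nβ f = algebraMap ↥E0 F₁ c * h ^ m) →
      ∃ (s : ℤ) (g : F₂), g ≠ 0 ∧
        ∀ i, (H56.valuationSubringAt (K := F₂) (P₁ i) (hh₁ i)).valuation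
          (f ^ (q + 1) * q₂ ^ (-s) * (g ^ m)⁻¹) = 1 := by
  classical
  -- height-one primes are incomparable
  have hinc : ∀ j k, P₁ j ≤ P₁ k → j = k := by
    intro j k hjk
    haveI : (P₁ j).FiniteHeight := ⟨Or.inr (by rw [hh₁ j]; exact ENat.one_ne_top)⟩
    exact hinj (Ideal.eq_of_le_of_height_le _ hjk (by rw [hh₁ j, hh₁ k]))
  obtain ⟨t, ht0, hord, hsep, hτ⟩ := S36.H62.exists_uniformisers (K := F₂) P₁ hh₁ hinc
  -- `q` in the chart and in the field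
  have e : algebraMap B₁ F₂ (algebraMap RR B₁ πq) = q₂ := by
    rw [map_natCast, map_natCast, map_natCast]
  have hq₂0 : q₂ ≠ 0 := by
    rw [map_natCast]
    have : CharZero F₂ := charZero_of_injective_algebraMap (algebraMap ↥E0 F₂).injective
    exact Nat.cast_ne_zero.2 hq.ne_zero
  have hπ0 : algebraMap RR B₁ πq ≠ 0 := by
    intro h0
    apply hq₂0
    rw [← e, h0, map_zero]
  obtain ⟨hq0', hq1', hq2', hqV'⟩ := qOrders_of_threeComponents (K := F₂) h₁ hq.one_lt.le hπ0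
    hq1 hq2 hq3 hqm P₁ hh₁ hP₁0 hP₁1 hP₁2 t ht0 hord hsep hτ (qK := q₂) e.symm
  exact hE3_real L q hq hA E0 hfix
    (fun i => H56.valuationSubringAt (K := F₂) (P₁ i) (hh₁ i)) WF WV
    hWFint hWFq hWFπ hWVint hWVq hWVπ t ht0 hord hsep hq0' hq1' hq2' hqV'
    hWF0 hWF1 hWV2 hWV1 hα₀ hα₁ hβ₀ hβ₁ m

end Rows

end Fermat.Agent.S36.H3
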