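/-
helper3 — S36 row (E3), sub-row (r2)-inst, LAST MILE: **the `hE3` binder of
`S36.H18.geoFn36E_of_twoCharts` from (E2) + (E2-lvl) alone**: `S36.H3.hE3_of_rows` with its eight
incidence binders discharged by helper47's `S36.H47.incidence_table_of_levelMaps`.

Binder vocabulary = that of `S36.H69.geo36_two_charts_of_rows` / `S36.H56.hE4_of_rows`
(`h₁ hL hq1 hq2 hq3 hintα hintβ haα hbβ hP₁0 hP₁1 hP₁2 P'F P'V hF hV hP'F1 hP'V2 hWF hWV hs11 hs12`),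
plus `hqm` (`q ∈ P₂^((q-1))`, an output of `S36.H70.exists_threeComponents_chartBC_unram`),
`hWinj : Function.Injective W`, and the element `qB' : B'` with its three identities.
-/
import Mathlib
import Fermat.Agent.S36.H3_StepOneRows
import Fermat.Agent.S36.H47_IncidenceTable

set_option autoImplicit false
set_option linter.unusedSectionVars false
set_option linter.style.haveILetI false
set_option synthInstance.maxHeartbeats 400000
set_option maxHeartbeats 3200000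

noncomputable section

namespace Fermat.Agent.S36.H3

open ModularCurve IntermediateField
open Fermat.Agent.S18 Fermat.Agent.S18.H45 Fermat.Agent.S34 Fermat.Agent.S36.H18
  Fermat.Agent.S36.H83

local notation "Qbar" => AlgebraicClosure ℚ

section LevelMaps

variable (L q : ℕ) [NeZero L] [NeZero q] (hq : q.Prime)
  {A : ValuationSubring Qbar} (hA : A.LiesOverPrime q)
  (E0 : IntermediateField (unrCyclo q) Qbar) [FiniteDimensional (unrCyclo q) E0]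
  (hfix : ∀ σ ∈ A.inertiaSubgroupIn ℚ, ∀ x : E0, σ ((x : E0) : Qbar) = ((x : E0) : Qbar))

set_option quotPrecheck false
local notation "F₁" => ↥(modularFunctionFieldFullC ↥E0 (q * L))
local notation "F₂" => ↥(modularFunctionFieldFullC ↥E0 (q * (q * L)))
local notation "RR" => ↥(cutOver A E0)
local notation "aα" => alphaK ↥E0 (q * L) (q * (q * L)) (dvd_mul_left (q * L) q)
local notation "bβ" => betaK ↥E0 q (q * L) (q * (q * L)) dvd_rfl
local notation "Nα" => normAlphaK ↥E0 (q * L) (q * (q * L)) (dvd_mul_left (q * L) q)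
local notation "Nβ" => normBetaK ↥E0 q (q * L) (q * (q * L)) dvd_rfl
local notation "πq" => (((q : ℕ) : ↥(cutOver A E0)))
local notation "q₁" => algebraMap ↥E0 F₁ ((q : ℕ) : ↥E0)
local notation "q₂" => algebraMap ↥E0 F₂ ((q : ℕ) : ↥E0)

set_option maxHeartbeats 6400000 in
include hq hA hfix in
/-- **(r2)-inst, last mile: `hE3` of `S36.H18.geoFn36E_of_twoCharts` from (E2) + (E2-lvl).** -/
theorem hE3_of_levelMaps
    {B₁ : Subalgebra RR F₂} [IsFractionRing B₁ F₂] [IsNoetherianRing B₁] [IsIntegrallyClosed B₁]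
    {B' : Type*} [CommRing B'] [IsDomain B'] [IsNoetherianRing B'] [IsIntegrallyClosed B']
    [Algebra B' F₁] [IsFractionRing B' F₁]
    (P₁ : Fin 3 → Ideal B₁) [hP₁ : ∀ i, (P₁ i).IsPrime] (hh₁ : ∀ i, (P₁ i).height = 1)
    (WF WV : ValuationSubring F₁)
    (hinj : Function.Injective P₁)
    -- (W) `WF`, `WV` lie over `R = cutOver A E0` and `q` is a uniformiser there
    (hWFint : ∀ x : ↥E0, (cutOver A E0).valuation x ≤ 1 →
      WF.valuation (algebraMap ↥E0 F₁ x) ≤ 1)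
    (hWFq : WF.valuation q₁ < 1)
    (hWFπ : ∀ x : F₁, x ≠ 0 → ∃ n : ℤ, WF.valuation (x * q₁ ^ (-n)) = 1)
    (hWVint : ∀ x : ↥E0, (cutOver A E0).valuation x ≤ 1 →
      WV.valuation (algebraMap ↥E0 F₁ x) ≤ 1)
    (hWVq : WV.valuation q₁ < 1)
    (hWVπ : ∀ x : F₁, x ≠ 0 → ∃ n : ℤ, WV.valuation (x * q₁ ^ (-n)) = 1)
    -- (E2) chart 1
    {D₁ BM₁ : Type*} [CommRing D₁] [Nontrivial D₁] [CommRing BM₁]
    {red₁ red₂ red₃ : B₁ →+* D₁} {ιu ιv ιw : BM₁ →+* B₁} {rbar : BM₁ →+* D₁} {W : D₁ →+* D₁}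
    (h₁ : ThreeComponents red₁ red₂ red₃ ιu ιv ιw rbar W q (algebraMap RR B₁ πq))
    (hq1 : red₁ (algebraMap RR B₁ πq) = 0) (hq2 : red₂ (algebraMap RR B₁ πq) = 0)
    (hq3 : red₃ (algebraMap RR B₁ πq) = 0)
    (hqm : ∃ s : B₁, red₂ s ≠ 0 ∧ s * algebraMap RR B₁ πq ∈ RingHom.ker red₂ ^ (q - 1))
    (hP₁0 : P₁ 0 = RingHom.ker red₁) (hP₁1 : P₁ 1 = RingHom.ker red₂)
    (hP₁2 : P₁ 2 = RingHom.ker red₃)
    -- (E2-lvl) the level maps
    {red₁' red₂' : B' →+* D₁} {α β : B' →+* B₁}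
    (hL : LevelMaps red₁ red₂ red₃ red₁' red₂' α β W) (hWinj : Function.Injective W)
    (haα : ∀ z, algebraMap B₁ F₂ (α z) = aα (algebraMap B' F₁ z))
    (hbβ : ∀ z, algebraMap B₁ F₂ (β z) = bβ (algebraMap B' F₁ z))
    (hintα : α.IsIntegral) (hintβ : β.IsIntegral)
    (P'F P'V : Ideal B') [hP'F : P'F.IsPrime] [hP'V : P'V.IsPrime]
    (hF : P'F.height = 1) (hV : P'V.height = 1)
    (hP'F1 : P'F = RingHom.ker red₁') (hP'V2 : P'V = RingHom.ker red₂')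
    (hWF : WF = H56.valuationSubringAt (K := F₁) P'F hF)
    (hWV : WV = H56.valuationSubringAt (K := F₁) P'V hV)
    {s₁ : B'} (hs11 : red₁' s₁ = 0) (hs12 : red₂' s₁ ≠ 0)
    (qB' : B') (hqB' : algebraMap B' F₁ qB' = q₁)
    (hαq : α qB' = algebraMap RR B₁ πq) (hβq : β qB' = algebraMap RR B₁ πq)
    (m : ℕ) :
    ∀ f : F₂, f ≠ 0 →
      (∃ (c : ↥E0) (h : F₁), c ≠ 0 ∧ h ≠ 0 ∧ Nα f = algebraMap ↥E0 F₁ c * h ^ m) →
      (∃ (c : ↥E0) (h : F₁), c ≠ 0 ∧ h ≠ 0 ∧ Nβ f = algebraMap ↥E0 F₁ c * h ^ m) →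
      ∃ (s : ℤ) (g : F₂), g ≠ 0 ∧
        ∀ i, (H56.valuationSubringAt (K := F₂) (P₁ i) (hh₁ i)).valuation
          (f ^ (q + 1) * q₂ ^ (-s) * (g ^ m)⁻¹) = 1 := by
  obtain ⟨hWF0, hWF1, hWV2, hWV1, hα₀, hα₁, hβ₀, hβ₁⟩ :=
    S36.H47.incidence_table_of_levelMaps (F1 := F₁) (F2 := F₂) hL hWinj aα bβ haα hbβ
      hintα hintβ P'F P'V hP'F1 hP'V2 hF hV s₁ hs11 hs12 P₁ hP₁0 hP₁1 hP₁2 hh₁
      qB' (algebraMap RR B₁ πq) hαq hβq hq1 hq2 hq3
      (fun P' hP' hqP' => by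
        haveI := hP'
        exact h₁.ker_le_of_mem P' hqP')
      (fun i => H56.valuationSubringAt (K := F₂) (P₁ i) (hh₁ i)) WF WV (fun _ => rfl) hWF hWV
      q₁ q₂ hqB'
      (alphaK_algebraMap ↥E0 (q * L) (q * (q * L)) (dvd_mul_left (q * L) q) _)
      (betaK_algebraMap ↥E0 q (q * L) (q * (q * L)) dvd_rfl _)
      hWFq hWFπ hWVq hWVπ
  exact hE3_of_rows L q hq hA E0 hfix P₁ hh₁ WF WV hinj hWFint hWFq hWFπ hWVint hWVq hWVπ
    h₁ hq1 hq2 hq3 hqm hP₁0 hP₁1 hP₁2 hWF0 hWF1 hWV2 hWV1 hα₀ hα₁ hβ₀ hβ₁ m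

end LevelMaps

end Fermat.Agent.S36.H3
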