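import Mathlib
import Fermat.Agent.CA.H3_NormOrd
import Fermat.Agent.CA.H3_HasOrdGen
import Fermat.Agent.CA.H99_TwoPlacesThm
import Fermat.Agent.S36.H6_ThreePlaces

/-!
# S36 row (E3): Step 1 in the `(M1)` vocabulary (helper3)

Adapters from the landed place structures (`CA.H99.PlaceOver`, `S36.H6.PlaceOverRam`) to the
hypotheses of `CA.H3.dvd_of_norm_eq_const_mul_pow`:

* `valuation_lt_one_iff_of_place`, `hasOrd_generator_of_place` : structure-agnostic (bare subring +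
  reduction map with kernel `τ O1`): `τ` generates the non-units, so any other uniformiser `t` (e.g.
  those of `S36.H62.exists_uniformisers`) has `HasOrd V t τ 1`;
* `placeOver_hasOrd_uniformiser` : `HasOrd V t ϖ 1` at an unramified place;
* `placeOverRam_hasOrd_uniformiser` : `HasOrd V t ϖ e` at an Eisenstein place (`ϖ = u τ ^ e`);
* `dvd_of_norm_eq_of_places` : the vertical congruence `m ∣ a₁ + a₂ - [L:K] a₃` with the three places
  given as `PlaceOver` (`e = 1`) + `PlaceOverRam` (`e = [L:K] - 1`) over `O₀` and `PlaceOver` over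
  `O₁`, the "exactly these" statements in the `toSubring` form of
  `S36.H6.eq_or_eq_of_valuationSubring_ram` / `CA.H99.eq_of_valuationSubring`.
-/

set_option autoImplicit false
set_option linter.unusedSectionVars false

open Polynomial IsLocalRing

namespace Fermat.Agent.S36.H3

open Fermat.Agent.CA.H3 Fermat.Agent.CA.H99 Fermat.Agent.S36.H6

section Bare

variable {L Fk : Type*} [Field L] [Field Fk] (O1 : Subring L) (res1 : O1 →+* Fk) (τ : L)
  (hker : ∀ (y : L) (hy : y ∈ O1), res1 ⟨y, hy⟩ = 0 ↔ ∃ z ∈ O1, y = τ * z)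
  (hinv : ∀ (y : L) (hy : y ∈ O1), res1 ⟨y, hy⟩ ≠ 0 → y⁻¹ ∈ O1)
  (V : ValuationSubring L) (hV : ∀ y, y ∈ V ↔ y ∈ O1)

include hinv hV in
/-- `v y < 1 ↔ y ∈ O1` with residue `0` (structure-agnostic). -/
theorem valuation_lt_one_iff_of_place (y : L) :
    V.valuation y < 1 ↔ ∃ hy : y ∈ O1, res1 ⟨y, hy⟩ = 0 := by
  constructor
  · intro h
    have hy : y ∈ O1 := (hV y).1 ((V.valuation_le_one_iff y).mp h.le)
    refine ⟨hy, ?_⟩
    by_contra hne
    have hyi : y⁻¹ ∈ V := (hV _).2 (hinv y hy hne)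
    have h2 : V.valuation y⁻¹ ≤ 1 := (V.valuation_le_one_iff _).mpr hyi
    have hy0 : y ≠ 0 := by
      rintro rfl
      exact hne (by
        have : (⟨0, hy⟩ : O1) = 0 := rfl
        rw [this, map_zero])
    have hv0 : V.valuation y ≠ 0 := (Valuation.ne_zero_iff _).mpr hy0
    rw [map_inv₀, inv_le_one₀ (zero_lt_iff.mpr hv0)] at h2
    exact absurd h (not_lt.mpr h2)
  · rintro ⟨hy, h0⟩
    have hle : V.valuation y ≤ 1 := (V.valuation_le_one_iff y).mpr ((hV y).2 hy)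
    refine lt_of_le_of_ne hle ?_
    intro h1
    have hy0 : y ≠ 0 := by
      rintro rfl
      rw [map_zero] at h1
      exact zero_ne_one h1
    have hyi : y⁻¹ ∈ O1 := by
      refine (hV _).1 ((V.valuation_le_one_iff _).mp ?_)
      rw [map_inv₀, h1, inv_one]
    have h1' : (⟨y, hy⟩ : O1) * ⟨y⁻¹, hyi⟩ = 1 := Subtype.ext (mul_inv_cancel₀ hy0)
    have h2 := congrArg res1 h1'
    rw [map_mul, h0, zero_mul, map_one] at h2
    exact zero_ne_one h2

include hker hinv hV in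
/-- `τ` is a non-unit of `V`. -/
theorem valuation_generator_lt_one (hτ : τ ∈ O1) : V.valuation τ < 1 := by
  rw [valuation_lt_one_iff_of_place O1 res1 hinv V hV]
  exact ⟨hτ, (hker τ hτ).2 ⟨1, O1.one_mem, (mul_one τ).symm⟩⟩

include hker hinv hV in
/-- `τ` generates the non-units of `V`. -/
theorem valuation_mul_inv_generator_le_one (y : L) (hy : V.valuation y < 1) :
    V.valuation (y * τ⁻¹) ≤ 1 := by
  obtain ⟨hy1, h0⟩ := (valuation_lt_one_iff_of_place O1 res1 hinv V hV y).1 hy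
  obtain ⟨z, hz, rfl⟩ := (hker y hy1).1 h0
  by_cases hτ0 : τ = 0
  · rw [hτ0, zero_mul, zero_mul, map_zero]
    exact zero_le_one
  · rw [mul_comm τ z, mul_assoc, mul_inv_cancel₀ hτ0, mul_one]
    exact (V.valuation_le_one_iff z).mpr ((hV z).2 hz)

include hker hinv hV in
/-- **Any other uniformiser has `τ` of order `1`.** -/
theorem hasOrd_generator_of_place (hτ : τ ∈ O1) {t : L} (ht0 : t ≠ 0)
    (htV : V.valuation t < 1) {n : ℤ} (hn : HasOrd V t τ n) : HasOrd V t τ 1 :=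
  HasOrd.one_of_generator ht0 htV (valuation_generator_lt_one O1 res1 τ hker hinv V hV hτ)
    (valuation_mul_inv_generator_le_one O1 res1 τ hker hinv V hV) hn

end Bare

section Structures

variable {O : Type*} [CommRing O] {L : Type*} [Field L] [Algebra O L] {Fk : Type*} [Field Fk]

/-- the uniformiser of the base has order `1` at an unramified place, w.r.t. any uniformiser `t`. -/
theorem placeOver_hasOrd_uniformiser {ϖ : O} {θ : L} {ι : O →+* Fk} {θb : Fk}
    (P : PlaceOver ϖ θ ι θb) {t : L} (ht0 : t ≠ 0)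
    (htV : P.toValuationSubring.valuation t < 1) {n : ℤ}
    (hn : HasOrd P.toValuationSubring t (algebraMap O L ϖ) n) :
    HasOrd P.toValuationSubring t (algebraMap O L ϖ) 1 :=
  hasOrd_generator_of_place P.O1 P.res1 (algebraMap O L ϖ) P.res1_eq_zero_iff P.inv_mem
    P.toValuationSubring (fun _ => Iff.rfl) (P.algebraMap_mem ϖ) ht0 htV hn

/-- `ϖ` is a non-unit at an unramified place. -/
theorem placeOver_valuation_uniformiser_lt_one {ϖ : O} {θ : L} {ι : O →+* Fk} {θb : Fk}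
    (P : PlaceOver ϖ θ ι θb) : P.toValuationSubring.valuation (algebraMap O L ϖ) < 1 :=
  valuation_generator_lt_one P.O1 P.res1 (algebraMap O L ϖ) P.res1_eq_zero_iff P.inv_mem
    P.toValuationSubring (fun _ => Iff.rfl) (P.algebraMap_mem ϖ)

/-- the uniformiser of the base has order `e` at an Eisenstein place, w.r.t. any uniformiser. -/
theorem placeOverRam_hasOrd_uniformiser {ϖ : O} {θ τ : L} {e : ℕ} {ι : O →+* Fk} {θb : Fk}
    (P : PlaceOverRam ϖ θ τ e ι θb) (hϖ0 : algebraMap O L ϖ ≠ 0) {t : L} (ht0 : t ≠ 0)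
    (htV : P.toValuationSubring.valuation t < 1) {n : ℤ}
    (hn : HasOrd P.toValuationSubring t τ n) :
    HasOrd P.toValuationSubring t (algebraMap O L ϖ) e := by
  obtain ⟨u, hu, hui, hϖ⟩ := P.unif_eq
  have hV : ∀ y, y ∈ P.toValuationSubring ↔ y ∈ P.O1 := fun _ => Iff.rfl
  have hu1 : P.toValuationSubring.valuation u = 1 := by
    have h1 : P.toValuationSubring.valuation u ≤ 1 :=
      (P.toValuationSubring.valuation_le_one_iff u).mpr hu
    have h2 : P.toValuationSubring.valuation u⁻¹ ≤ 1 :=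
      (P.toValuationSubring.valuation_le_one_iff _).mpr hui
    have hu0 : u ≠ 0 := by
      rintro rfl
      rw [zero_mul] at hϖ
      exact hϖ0 hϖ
    have hv0 : P.toValuationSubring.valuation u ≠ 0 := (Valuation.ne_zero_iff _).mpr hu0
    rw [map_inv₀, inv_le_one₀ (zero_lt_iff.mpr hv0)] at h2
    exact le_antisymm h1 h2
  exact HasOrd.of_eq_unit_mul_pow ht0 htV
    (valuation_generator_lt_one P.O1 P.res1 τ P.res1_eq_zero_iff P.inv_mem
      P.toValuationSubring hV P.τ_mem)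
    (valuation_mul_inv_generator_le_one P.O1 P.res1 τ P.res1_eq_zero_iff P.inv_mem
      P.toValuationSubring hV) hn hu1 e hϖ

/-- `ϖ` is a non-unit at an Eisenstein place (`e ≥ 1`). -/
theorem placeOverRam_valuation_uniformiser_lt_one {ϖ : O} {θ τ : L} {e : ℕ} {ι : O →+* Fk}
    {θb : Fk} (P : PlaceOverRam ϖ θ τ e ι θb) (he : 1 ≤ e) :
    P.toValuationSubring.valuation (algebraMap O L ϖ) < 1 := by
  obtain ⟨u, hu, -, hϖ⟩ := P.unif_eq
  have hτ : P.toValuationSubring.valuation τ < 1 :=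
    valuation_generator_lt_one P.O1 P.res1 τ P.res1_eq_zero_iff P.inv_mem
      P.toValuationSubring (fun _ => Iff.rfl) P.τ_mem
  have hu1 : P.toValuationSubring.valuation u ≤ 1 :=
    (P.toValuationSubring.valuation_le_one_iff u).mpr hu
  rw [hϖ, map_mul, map_pow, mul_comm]
  exact mul_lt_one_of_lt_of_le (pow_lt_one' hτ (by omega)) hu1

end Structures

/-! ### The congruence in the `(M1)` vocabulary -/

section Congruence

variable {O₀ O₁ K L : Type*}
  [CommRing O₀] [IsDomain O₀] [IsDiscreteValuationRing O₀]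
  [CommRing O₁] [IsDomain O₁] [IsDiscreteValuationRing O₁]
  [Field K] [Algebra O₀ K] [IsFractionRing O₀ K] [Algebra O₁ K] [IsFractionRing O₁ K]
  [Field L] [Algebra K L] [Algebra O₀ L] [IsScalarTower O₀ K L] [Algebra O₁ L]
  [IsScalarTower O₁ K L] [FiniteDimensional K L] [Algebra.IsSeparable K L]
  {Fk₁ Fk₂ Fk₃ : Type*} [Field Fk₁] [Field Fk₂] [Field Fk₃]

/-- **The vertical congruence from one norm equation, in the `(M1)` vocabulary.**
Over `O₀`: the unramified place `P₁` and the Eisenstein place `P₂` (`e = [L:K] - 1`), and nothing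
else; over `O₁`: the single place `P₃`.  `t₁ t₂ t₃` any uniformisers of the three places
(`tᵢ` a non-unit at its place, `ϖ` resp. `τ` has SOME order w.r.t. it), `t₁` a unit at `P₂`, `t₂`
a unit at `P₁`. -/
theorem dvd_of_norm_eq_of_places {ϖ₀ : O₀} (hϖ₀ : Irreducible ϖ₀) {ϖ₁ : O₁}
    (hϖ₁ : Irreducible ϖ₁)
    {θ₁ θ₂ θ₃ τ : L} {ι₁ : O₀ →+* Fk₁} {θb₁ : Fk₁} {ι₂ : O₀ →+* Fk₂} {θb₂ : Fk₂}
    {ι₃ : O₁ →+* Fk₃} {θb₃ : Fk₃} {e : ℕ} (he : e + 1 = Module.finrank K L) (he1 : 1 ≤ e)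
    (P₁ : PlaceOver ϖ₀ θ₁ ι₁ θb₁) (P₂ : PlaceOverRam ϖ₀ θ₂ τ e ι₂ θb₂)
    (P₃ : PlaceOver ϖ₁ θ₃ ι₃ θb₃)
    (hall₀ : ∀ W : ValuationSubring L, (∀ c : O₀, algebraMap O₀ L c ∈ W) →
      algebraMap O₀ L ϖ₀ ∈ W.nonunits → W.toSubring = P₂.O1 ∨ W.toSubring = P₁.O1)
    (hall₁ : ∀ W : ValuationSubring L, (∀ c : O₁, algebraMap O₁ L c ∈ W) →
      algebraMap O₁ L ϖ₁ ∈ W.nonunits → W.toSubring = P₃.O1)
    (t₁ t₂ t₃ : L) (ht₁ : t₁ ≠ 0) (ht₂ : t₂ ≠ 0) (ht₃ : t₃ ≠ 0)
    (ht₁V : P₁.toValuationSubring.valuation t₁ < 1)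
    (ht₂V : P₂.toValuationSubring.valuation t₂ < 1)
    (ht₃V : P₃.toValuationSubring.valuation t₃ < 1)
    (hsep₁₂ : P₂.toValuationSubring.valuation t₁ = 1)
    (hsep₂₁ : P₁.toValuationSubring.valuation t₂ = 1)
    {n₁ n₂ n₃ : ℤ} (hn₁ : HasOrd P₁.toValuationSubring t₁ (algebraMap O₀ L ϖ₀) n₁)
    (hn₂ : HasOrd P₂.toValuationSubring t₂ τ n₂)
    (hn₃ : HasOrd P₃.toValuationSubring t₃ (algebraMap O₁ L ϖ₁) n₃)
    (f : L) (a₁ a₂ a₃ : ℤ) (hf₁ : HasOrd P₁.toValuationSubring t₁ f a₁)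
    (hf₂ : HasOrd P₂.toValuationSubring t₂ f a₂) (hf₃ : HasOrd P₃.toValuationSubring t₃ f a₃)
    (c h : K) (hh : h ≠ 0) (κ : ℤ) (hc₀ : UnitMulPow ϖ₀ c κ) (hc₁ : UnitMulPow ϖ₁ c κ) (m : ℕ)
    (hN : Algebra.norm K f = c * h ^ m) :
    (m : ℤ) ∣ a₁ + a₂ - (Module.finrank K L : ℤ) * a₃ := by
  have hn : 2 ≤ Module.finrank K L := by omega
  have hϖ₀L : algebraMap O₀ L ϖ₀ ≠ 0 := hn₁.ne_zero
  have hcast : ((e : ℕ) : ℤ) = (Module.finrank K L : ℤ) - 1 := by
    rw [← he]; push_cast; ring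
  refine dvd_of_norm_eq_const_mul_pow (K := K) hϖ₀ hϖ₁ P₁.toValuationSubring
    P₂.toValuationSubring P₃.toValuationSubring P₁.algebraMap_mem P₂.algebraMap_mem
    (placeOver_valuation_uniformiser_lt_one P₁)
    (placeOverRam_valuation_uniformiser_lt_one P₂ he1) ?_ ?_
    t₁ t₂ t₃ ht₁ ht₂ ht₃ hsep₁₂ hsep₂₁ hn (placeOver_hasOrd_uniformiser P₁ ht₁ ht₁V hn₁)
    ((placeOverRam_hasOrd_uniformiser P₂ hϖ₀L ht₂ ht₂V hn₂).congr hcast)
    (placeOver_hasOrd_uniformiser P₃ ht₃ ht₃V hn₃) f a₁ a₂ a₃ hf₁ hf₂ hf₃ c h hh κ hc₀ hc₁ m hN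
  · intro W h1 h2
    rcases hall₀ W h1 h2 with h | h
    · right
      exact ValuationSubring.toSubring_injective h
    · left
      exact ValuationSubring.toSubring_injective h
  · intro W h1 h2
    exact ValuationSubring.toSubring_injective (hall₁ W h1 h2)

end Congruence

end Fermat.Agent.S36.H3
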