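import Mathlib
import Fermat.Agent.CA.H3_NormOrdVS
import Fermat.Agent.S36.H3_VertOrders
import Fermat.Agent.S36.H18_Geo36Consts

/-!
# S36 row (E3), sub-row (r2): Step 1 at the real types (helper3)

`hE3_of_incidence` : the hypothesis `hE3` of `S36.H18.geoFn36E_of_radicalDatum`, over any
characteristic-zero constant field `K`, levels `N1 ∣ N2 = q * N1`, `q ∣ N1`, from

* `(W)`  : `q` is a uniformiser of the two vertical valuations `WF`, `WV` of `F₁ = F_K(N1)`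
  (`hWFq hWFπ hWVq hWVπ` of the skeleton) and every constant has the same order at both;
* uniformisers `t i` of the three vertical valuations `V i` of `F₂ = F_K(N2)`
  (`S36.H62.exists_uniformisers`: `ht0 hord hsep`), with `q` of orders `(1, q-1, 1)`;
* the INCIDENCE TABLE (row (M1)): along `α` exactly `V 0, V 1` over `WF` and exactly `V 2` over `WV`;
  along `β` exactly `V 2, V 1` over `WV` and exactly `V 0` over `WF`.

`hE3_real` : the same at `K = ↥E0`, `R = cutOver A E0`, the constants discharged from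
"`WF`, `WV` lie over `R`" (`hWFint`, `hWVint`): literally the `hE3` argument of
`S36.H18.geoFn36E_of_radicalDatum`.
-/

set_option autoImplicit false
set_option linter.unusedSectionVars false
set_option linter.style.haveILetI false
set_option synthInstance.maxHeartbeats 400000
set_option maxHeartbeats 3200000

noncomputable section

namespace Fermat.Agent.S36.H3

open ModularCurve IntermediateField
open Fermat.Agent.CA.H3 Fermat.Agent.S18 Fermat.Agent.S34 Fermat.Agent.S36.H18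

section Generic

variable (K : Type) [Field K] [CharZero K] (q N1 N2 : ℕ) [NeZero q] [NeZero N1] [NeZero N2]
  (hN : N1 ∣ N2) (hqN : q * N1 ∣ N2)

set_option quotPrecheck false
local notation "F₁" => ↥(modularFunctionFieldFullC K N1)
local notation "F₂" => ↥(modularFunctionFieldFullC K N2)
local notation "aα" => alphaK K N1 N2 hN
local notation "bβ" => betaK K q N1 N2 hqN
local notation "Nα" => normAlphaK K N1 N2 hN
local notation "Nβ" => normBetaK K q N1 N2 hqN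
local notation "q₁" => algebraMap K F₁ ((q : ℕ) : K)
local notation "q₂" => algebraMap K F₂ ((q : ℕ) : K)

/-- **Step 1 at the real function fields, from the incidence table.** -/
theorem hE3_of_incidence (hq : q.Prime) (hqN1 : q ∣ N1) (hN2 : N2 = q * N1)
    (hNK : ((N2 : ℕ) : K) ≠ 0)
    (V : Fin 3 → ValuationSubring F₂) (WF WV : ValuationSubring F₁)
    -- (W): `q` is a uniformiser at `WF`, `WV`; constants have equal orders
    (hWFq : WF.valuation q₁ < 1)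
    (hWFπ : ∀ x : F₁, x ≠ 0 → ∃ n : ℤ, WF.valuation (x * q₁ ^ (-n)) = 1)
    (hWVq : WV.valuation q₁ < 1)
    (hWVπ : ∀ x : F₁, x ≠ 0 → ∃ n : ℤ, WV.valuation (x * q₁ ^ (-n)) = 1)
    (hconst : ∀ c : K, c ≠ 0 → ∃ κ : ℤ,
      WF.valuation (algebraMap K F₁ c * q₁ ^ (-κ)) = 1 ∧
      WV.valuation (algebraMap K F₁ c * q₁ ^ (-κ)) = 1)
    -- uniformisers of the three vertical valuations upstairs
    (t : Fin 3 → F₂) (ht0 : ∀ i, t i ≠ 0)
    (hord : ∀ i (x : F₂), x ≠ 0 → ∃ n : ℤ, (V i).valuation (x * t i ^ (-n)) = 1)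
    (hsep : ∀ i j, i ≠ j → (V j).valuation (t i) = 1)
    (hq0 : (V 0).valuation (q₂ * t 0 ^ (-(1 : ℤ))) = 1)
    (hq1 : (V 1).valuation (q₂ * t 1 ^ (-((q : ℤ) - 1))) = 1)
    (hq2 : (V 2).valuation (q₂ * t 2 ^ (-(1 : ℤ))) = 1)
    (hqV : ∀ i, (V i).valuation q₂ < 1)
    -- the incidence table
    (hWF0 : ∀ c ∈ WF, aα c ∈ V 0) (hWF1 : ∀ c ∈ WF, aα c ∈ V 1)
    (hWV2 : ∀ c ∈ WV, bβ c ∈ V 2) (hWV1 : ∀ c ∈ WV, bβ c ∈ V 1)
    (hα₀ : ∀ W' : ValuationSubring F₂, (∀ c ∈ WF, aα c ∈ W') → q₂ ∈ W'.nonunits →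
      W' = V 0 ∨ W' = V 1)
    (hα₁ : ∀ W' : ValuationSubring F₂, (∀ c ∈ WV, aα c ∈ W') → q₂ ∈ W'.nonunits → W' = V 2)
    (hβ₀ : ∀ W' : ValuationSubring F₂, (∀ c ∈ WV, bβ c ∈ W') → q₂ ∈ W'.nonunits →
      W' = V 2 ∨ W' = V 1)
    (hβ₁ : ∀ W' : ValuationSubring F₂, (∀ c ∈ WF, bβ c ∈ W') → q₂ ∈ W'.nonunits → W' = V 0)
    (m : ℕ) (f : F₂) (hf : f ≠ 0)
    (hNα : ∃ (c : K) (h : F₁), c ≠ 0 ∧ h ≠ 0 ∧ Nα f = algebraMap K F₁ c * h ^ m)
    (hNβ : ∃ (c : K) (h : F₁), c ≠ 0 ∧ h ≠ 0 ∧ Nβ f = algebraMap K F₁ c * h ^ m) :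
    ∃ (s : ℤ) (g : F₂), g ≠ 0 ∧
      ∀ i, (V i).valuation (f ^ (q + 1) * q₂ ^ (-s) * (g ^ m)⁻¹) = 1 := by
  obtain ⟨cα, hα, hcα, hhα, hNα⟩ := hNα
  obtain ⟨cβ, hβ, hcβ, hhβ, hNβ⟩ := hNβ
  rw [normAlphaK_apply K N1 N2 hN hf] at hNα
  rw [normBetaK_apply K q N1 N2 hqN hf] at hNβ
  have hq2le : 2 ≤ q := hq.two_le
  have hq₁0 : q₁ ≠ 0 := (map_ne_zero _).mpr (Nat.cast_ne_zero.mpr hq.ne_zero)
  -- orders of `f`
  choose a ha using fun i => hord i f hf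
  obtain ⟨κα, hκαF, hκαV⟩ := hconst cα hcα
  obtain ⟨κβ, hκβF, hκβV⟩ := hconst cβ hcβ
  haveI : CharZero F₁ := charZero_of_injective_algebraMap (algebraMap K F₁).injective
  -- the `α` congruence
  have hdvdα : (m : ℤ) ∣ a 0 + a 1 - q * a 2 := by
    letI := H16.degAlgebra K N1 N2 hN
    haveI := H16.degAlgebra_isScalarTower K N1 N2 hN
    haveI : FiniteDimensional F₁ F₂ :=
      S36.H16.finiteDimensional_fullC_prime_dvd K N1 N2 hN q hq hqN1 hN2 hNK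
    have hfr : Module.finrank F₁ F₂ = q :=
      S36.H16.finrank_fullC_prime_dvd K N1 N2 hN q hq hqN1 hN2 hNK
    have hq12 : algebraMap F₁ F₂ q₁ = q₂ :=
      (IsScalarTower.algebraMap_apply K F₁ F₂ _).symm
    have := dvd_of_norm_eq_const_mul_pow_vs (K := F₁) (L := F₂) WF WV q₁ hq₁0 hWFq hWFπ hWVq hWVπ
      (V 0) (V 1) (V 2) hWF0 hWF1 (by rw [hq12]; exact hqV 0) (by rw [hq12]; exact hqV 1)
      (by rw [hq12]; exact hα₀) (by rw [hq12]; exact hα₁)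
      (t 0) (t 1) (t 2) (ht0 0) (ht0 1) (ht0 2) (hsep 0 1 (by decide)) (hsep 1 0 (by decide))
      (by rw [hfr]; exact hq2le) (by rw [hq12]; exact hq0) (by rw [hq12, hfr]; exact hq1)
      (by rw [hq12]; exact hq2) f (a 0) (a 1) (a 2) (ha 0) (ha 1) (ha 2)
      (algebraMap K F₁ cα) hα hhα κα hκαF hκαV m hNα
    rwa [hfr] at this
  -- the `β` congruence
  have hdvdβ : (m : ℤ) ∣ a 1 + a 2 - q * a 0 := by
    letI := S35.H16.vAlgebra K q N1 N2 hqN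
    haveI := S35.H16.vAlgebra_isScalarTower K q N1 N2 hqN
    haveI : FiniteDimensional F₁ F₂ :=
      S36.H16.finiteDimensional_vSub_dvd K N1 N2 q hq hqN1 hN2 hNK
    have hfr : Module.finrank F₁ F₂ = q :=
      S36.H16.finrank_vSub_dvd K N1 N2 q hq hqN1 hN2 hNK
    have hq12 : algebraMap F₁ F₂ q₁ = q₂ :=
      (IsScalarTower.algebraMap_apply K F₁ F₂ _).symm
    have := dvd_of_norm_eq_const_mul_pow_vs (K := F₁) (L := F₂) WV WF q₁ hq₁0 hWVq hWVπ hWFq hWFπ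
      (V 2) (V 1) (V 0) hWV2 hWV1 (by rw [hq12]; exact hqV 2) (by rw [hq12]; exact hqV 1)
      (by rw [hq12]; exact hβ₀) (by rw [hq12]; exact hβ₁)
      (t 2) (t 1) (t 0) (ht0 2) (ht0 1) (ht0 0) (hsep 2 1 (by decide)) (hsep 1 2 (by decide))
      (by rw [hfr]; exact hq2le) (by rw [hq12]; exact hq2) (by rw [hq12, hfr]; exact hq1)
      (by rw [hq12]; exact hq0) f (a 2) (a 1) (a 0) (ha 2) (ha 1) (ha 0)
      (algebraMap K F₁ cβ) hβ hhβ κβ hκβV hκβF m hNβ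
    rw [hfr, add_comm] at this
    exact this
  exact exists_unit_at_verticals V t ht0 hsep q q₂ hq0 hq1 hq2 f a ha m hdvdα hdvdβ

end Generic

section Real

open Fermat.Agent.S18.H45

local notation "Qbar" => AlgebraicClosure ℚ

variable (L q : ℕ) [NeZero L] [NeZero q] (hq : q.Prime)
  {A : ValuationSubring Qbar} (hA : A.LiesOverPrime q)
  (E0 : IntermediateField (unrCyclo q) Qbar) [FiniteDimensional (unrCyclo q) E0]
  (hfix : ∀ σ ∈ A.inertiaSubgroupIn ℚ, ∀ x : E0, σ ((x : E0) : Qbar) = ((x : E0) : Qbar))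

set_option quotPrecheck false
local notation "F₁" => ↥(modularFunctionFieldFullC ↥E0 (q * L))
local notation "F₂" => ↥(modularFunctionFieldFullC ↥E0 (q * (q * L)))
local notation "aα" => alphaK ↥E0 (q * L) (q * (q * L)) (dvd_mul_left (q * L) q)
local notation "bβ" => betaK ↥E0 q (q * L) (q * (q * L)) dvd_rfl
local notation "Nα" => normAlphaK ↥E0 (q * L) (q * (q * L)) (dvd_mul_left (q * L) q)
local notation "Nβ" => normBetaK ↥E0 q (q * L) (q * (q * L)) dvd_rfl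
local notation "q₁" => algebraMap ↥E0 F₁ ((q : ℕ) : ↥E0)
local notation "q₂" => algebraMap ↥E0 F₂ ((q : ℕ) : ↥E0)

include hq hA hfix in
/-- **(r2): the hypothesis `hE3` of `S36.H18.geoFn36E_of_radicalDatum`** (same binders for
`V WF WV hWFint hWFq hWFπ hWVint hWVq hWVπ`), from the uniformisers upstairs and the incidence
table of row (M1). -/
theorem hE3_real (V : Fin 3 → ValuationSubring F₂) (WF WV : ValuationSubring F₁)
    (hWFint : ∀ x : ↥E0, (cutOver A E0).valuation x ≤ 1 →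
      WF.valuation (algebraMap ↥E0 F₁ x) ≤ 1)
    (hWFq : WF.valuation q₁ < 1)
    (hWFπ : ∀ x : F₁, x ≠ 0 → ∃ n : ℤ, WF.valuation (x * q₁ ^ (-n)) = 1)
    (hWVint : ∀ x : ↥E0, (cutOver A E0).valuation x ≤ 1 →
      WV.valuation (algebraMap ↥E0 F₁ x) ≤ 1)
    (hWVq : WV.valuation q₁ < 1)
    (hWVπ : ∀ x : F₁, x ≠ 0 → ∃ n : ℤ, WV.valuation (x * q₁ ^ (-n)) = 1)
    (t : Fin 3 → F₂) (ht0 : ∀ i, t i ≠ 0)
    (hord : ∀ i (x : F₂), x ≠ 0 → ∃ n : ℤ, (V i).valuation (x * t i ^ (-n)) = 1)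
    (hsep : ∀ i j, i ≠ j → (V j).valuation (t i) = 1)
    (hq0 : (V 0).valuation (q₂ * t 0 ^ (-(1 : ℤ))) = 1)
    (hq1 : (V 1).valuation (q₂ * t 1 ^ (-((q : ℤ) - 1))) = 1)
    (hq2 : (V 2).valuation (q₂ * t 2 ^ (-(1 : ℤ))) = 1)
    (hqV : ∀ i, (V i).valuation q₂ < 1)
    (hWF0 : ∀ c ∈ WF, aα c ∈ V 0) (hWF1 : ∀ c ∈ WF, aα c ∈ V 1)
    (hWV2 : ∀ c ∈ WV, bβ c ∈ V 2) (hWV1 : ∀ c ∈ WV, bβ c ∈ V 1)
    (hα₀ : ∀ W' : ValuationSubring F₂, (∀ c ∈ WF, aα c ∈ W') → q₂ ∈ W'.nonunits →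
      W' = V 0 ∨ W' = V 1)
    (hα₁ : ∀ W' : ValuationSubring F₂, (∀ c ∈ WV, aα c ∈ W') → q₂ ∈ W'.nonunits → W' = V 2)
    (hβ₀ : ∀ W' : ValuationSubring F₂, (∀ c ∈ WV, bβ c ∈ W') → q₂ ∈ W'.nonunits →
      W' = V 2 ∨ W' = V 1)
    (hβ₁ : ∀ W' : ValuationSubring F₂, (∀ c ∈ WF, bβ c ∈ W') → q₂ ∈ W'.nonunits → W' = V 0)
    (m : ℕ) :
    ∀ f : F₂, f ≠ 0 →
      (∃ (c : ↥E0) (h : F₁), c ≠ 0 ∧ h ≠ 0 ∧ Nα f = algebraMap ↥E0 F₁ c * h ^ m) →
      (∃ (c : ↥E0) (h : F₁), c ≠ 0 ∧ h ≠ 0 ∧ Nβ f = algebraMap ↥E0 F₁ c * h ^ m) →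
      ∃ (s : ℤ) (g : F₂), g ≠ 0 ∧
        ∀ i, (V i).valuation (f ^ (q + 1) * q₂ ^ (-s) * (g ^ m)⁻¹) = 1 := by
  intro f hf hNα hNβ
  have hNK : (((q * (q * L) : ℕ) : ℕ) : ↥E0) ≠ 0 :=
    Nat.cast_ne_zero.mpr (NeZero.ne (q * (q * L)))
  have hconst : ∀ c : ↥E0, c ≠ 0 → ∃ κ : ℤ,
      WF.valuation (algebraMap ↥E0 F₁ c * q₁ ^ (-κ)) = 1 ∧
      WV.valuation (algebraMap ↥E0 F₁ c * q₁ ^ (-κ)) = 1 := by
    intro c hc
    obtain ⟨κ, hκ⟩ := exists_zpow_valuation_eq_one hq hA E0 hfix hc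
    refine ⟨κ, ?_, ?_⟩
    · have := valuation_algebraMap_eq_one_of_liesOver E0 WF hWFint hκ
      rwa [map_mul, map_zpow₀] at this
    · have := valuation_algebraMap_eq_one_of_liesOver E0 WV hWVint hκ
      rwa [map_mul, map_zpow₀] at this
  exact hE3_of_incidence ↥E0 q (q * L) (q * (q * L)) (dvd_mul_left (q * L) q) dvd_rfl hq
    (dvd_mul_right q L) rfl hNK V WF WV hWFq hWFπ hWVq hWVπ hconst t ht0 hord hsep hq0 hq1 hq2
    hqV hWF0 hWF1 hWV2 hWV1 hα₀ hα₁ hβ₀ hβ₁ m f hf hNα hNβ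

end Real

end Fermat.Agent.S36.H3
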