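/-
helper40: S36, row (E2-chart), FINAL.  The chart-side hypotheses `hua huc hub hwa hwc hwb` of
`S36.H83.threeComponents_J3_of_places` / `threeComponents_J3_inv_of_places` follow from the nine
transport facts of a `S36.H83.PlaceSide`: the residues of `J₃ = eU j * eV j * eW j` at the three
places are the monomials `j̄ ^ (1 + q + q²)`, `j̄ ^ (2 + q)`, `j̄ ^ (q² + q + 1)` (and the same for
`J₃⁻¹`, `j̄⁻¹`).  Consequently (E2) at the real types needs only the place side and (SAT):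
`threeComponents_J3_of_placeSide`, `threeComponents_J3_inv_of_placeSide`.
-/
import Fermat.Agent.S36.H83_L0ThreePre
import Fermat.Agent.S36.H40_ChartSide

set_option autoImplicit false
set_option linter.unusedSectionVars false
set_option linter.style.haveILetI false
set_option synthInstance.maxHeartbeats 400000

noncomputable section

namespace Fermat.Agent.S36.H40

open ModularCurve Polynomial IsLocalRing Fermat.Agent.S28
open Fermat.Agent.S18 Fermat.Agent.S34.H92 Fermat.Agent.S34.H16 Fermat.Agent.S34.H55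

local notation "Qbar" => AlgebraicClosure ℚ

section L0ThreeChartFinal

variable (L : ℕ) [NeZero L] {q : ℕ} [hq : Fact q.Prime] (hqL : ¬ q ∣ L)
  (A : ValuationSubring Qbar) (hA : A.LiesOverPrime q)

local notation "kA" => IsLocalRing.ResidueField A
local notation "A₁" => H45.A0 A q
local notation "L₁" => H45.unrCyclo q
local notation "F0" => modularFunctionFieldFullC (H45.unrCyclo q) L
local notation "F2" => modularFunctionFieldFullC (H45.unrCyclo q) (q * (q * L))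
local notation "FkL" => modularFunctionFieldFullC (IsLocalRing.ResidueField A) L

/-! ### Chart `J₃` -/

/-- `(hua, hwa)` at the real types. -/
theorem hua_hwa_J3 {Oa : Subring F2} {reda : Oa →+* LaurentSeries kA}
    {Oc : Subring F2} {redc : Oc →+* LaurentSeries kA}
    {Ob : Subring F2} {redb : Ob →+* LaurentSeries kA} {τ : F2}
    (P : S36.H83.PlaceSide L hqL A hA Oa reda Oc redc Ob redb τ) :
    ∃ hua : S36.H83.J3N L (q := q) ∈ Oa, ∃ γ : FkL,
      IsIntegral (Algebra.adjoin kA {S18.H16.jK kA L}) γ ∧ reda ⟨_, hua⟩ = inclk L A γ := by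
  have key := hu_hw_first (Mod L hqL A hA) (S36.H83.eU L (q := q)) (S36.H83.eV L (q := q))
    (S36.H83.eW L (q := q)) (inclk L A) Oa reda (FrM L A hA) q P.Hau P.Hav P.Haw
    (Mod L hqL A hA).x_mem (Mod L hqL A hA).res1_x (hFrx L A hA)
  obtain ⟨h, γ, hγ, e⟩ := key
  have hJ := S36.H83.J3N_eq_mul L (q := q)
  have hmem := h
  rw [← hJ] at hmem
  refine ⟨hmem, γ, hγ, ?_⟩
  have e2 : (⟨_, hmem⟩ : ↥Oa) = ⟨_, h⟩ := Subtype.ext hJ
  rw [e2, e]

/-- `(huc, hwc)` at the real types. -/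
theorem huc_hwc_J3 {Oa : Subring F2} {reda : Oa →+* LaurentSeries kA}
    {Oc : Subring F2} {redc : Oc →+* LaurentSeries kA}
    {Ob : Subring F2} {redb : Ob →+* LaurentSeries kA} {τ : F2}
    (P : S36.H83.PlaceSide L hqL A hA Oa reda Oc redc Ob redb τ) :
    ∃ huc : S36.H83.J3N L (q := q) ∈ Oc, ∃ γ : FkL,
      IsIntegral (Algebra.adjoin kA {S18.H16.jK kA L}) γ ∧ redc ⟨_, huc⟩ = inclk L A γ := by
  have key := hu_hw_middle (Mod L hqL A hA) (S36.H83.eU L (q := q)) (S36.H83.eV L (q := q))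
    (S36.H83.eW L (q := q)) (inclk L A) Oc redc (FrM L A hA) q P.Hcu P.Hcv P.Hcw
    (Mod L hqL A hA).x_mem (Mod L hqL A hA).res1_x (hFrx L A hA)
  obtain ⟨h, γ, hγ, e⟩ := key
  have hJ := S36.H83.J3N_eq_mul L (q := q)
  have hmem := h
  rw [← hJ] at hmem
  refine ⟨hmem, γ, hγ, ?_⟩
  have e2 : (⟨_, hmem⟩ : ↥Oc) = ⟨_, h⟩ := Subtype.ext hJ
  rw [e2, e]

/-- `(hub, hwb)` at the real types. -/
theorem hub_hwb_J3 {Oa : Subring F2} {reda : Oa →+* LaurentSeries kA}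
    {Oc : Subring F2} {redc : Oc →+* LaurentSeries kA}
    {Ob : Subring F2} {redb : Ob →+* LaurentSeries kA} {τ : F2}
    (P : S36.H83.PlaceSide L hqL A hA Oa reda Oc redc Ob redb τ) :
    ∃ hub : S36.H83.J3N L (q := q) ∈ Ob, ∃ γ : FkL,
      IsIntegral (Algebra.adjoin kA {S18.H16.jK kA L}) γ ∧ redb ⟨_, hub⟩ = inclk L A γ := by
  have key := hu_hw_third (Mod L hqL A hA) (S36.H83.eU L (q := q)) (S36.H83.eV L (q := q))
    (S36.H83.eW L (q := q)) (inclk L A) Ob redb (FrM L A hA) q P.Hbu P.Hbv P.Hbw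
    (Mod L hqL A hA).x_mem (Mod L hqL A hA).res1_x (hFrx L A hA)
  obtain ⟨h, γ, hγ, e⟩ := key
  have hJ := S36.H83.J3N_eq_mul L (q := q)
  have hmem := h
  rw [← hJ] at hmem
  refine ⟨hmem, γ, hγ, ?_⟩
  have e2 : (⟨_, hmem⟩ : ↥Ob) = ⟨_, h⟩ := Subtype.ext hJ
  rw [e2, e]

/-! ### Chart `J₃⁻¹` -/

/-- `(hua, hwa)` at the real types, chart `J₃⁻¹`. -/
theorem hua_hwa_J3_inv {Oa : Subring F2} {reda : Oa →+* LaurentSeries kA}
    {Oc : Subring F2} {redc : Oc →+* LaurentSeries kA}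
    {Ob : Subring F2} {redb : Ob →+* LaurentSeries kA} {τ : F2}
    (P : S36.H83.PlaceSide L hqL A hA Oa reda Oc redc Ob redb τ) :
    ∃ hua : (S36.H83.J3N L (q := q))⁻¹ ∈ Oa, ∃ γ : FkL,
      IsIntegral (Algebra.adjoin kA {(S18.H16.jK kA L)⁻¹}) γ ∧ reda ⟨_, hua⟩ = inclk L A γ := by
  have key := hu_hw_first (Mod L hqL A hA) (S36.H83.eU L (q := q)) (S36.H83.eV L (q := q))
    (S36.H83.eW L (q := q)) (inclk L A) Oa reda (FrM L A hA) q P.Hau P.Hav P.Haw
    (hc2 L hqL A hA) (hcw2 L hqL A hA) (hFrx_inv L A hA)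
  obtain ⟨h, γ, hγ, e⟩ := key
  have hJ := S36.H83.J3N_inv_eq_mul L (q := q)
  have hmem := h
  rw [← hJ] at hmem
  refine ⟨hmem, γ, hγ, ?_⟩
  have e2 : (⟨_, hmem⟩ : ↥Oa) = ⟨_, h⟩ := Subtype.ext hJ
  rw [e2, e]

/-- `(huc, hwc)` at the real types, chart `J₃⁻¹`. -/
theorem huc_hwc_J3_inv {Oa : Subring F2} {reda : Oa →+* LaurentSeries kA}
    {Oc : Subring F2} {redc : Oc →+* LaurentSeries kA}
    {Ob : Subring F2} {redb : Ob →+* LaurentSeries kA} {τ : F2}
    (P : S36.H83.PlaceSide L hqL A hA Oa reda Oc redc Ob redb τ) :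
    ∃ huc : (S36.H83.J3N L (q := q))⁻¹ ∈ Oc, ∃ γ : FkL,
      IsIntegral (Algebra.adjoin kA {(S18.H16.jK kA L)⁻¹}) γ ∧ redc ⟨_, huc⟩ = inclk L A γ := by
  have key := hu_hw_middle (Mod L hqL A hA) (S36.H83.eU L (q := q)) (S36.H83.eV L (q := q))
    (S36.H83.eW L (q := q)) (inclk L A) Oc redc (FrM L A hA) q P.Hcu P.Hcv P.Hcw
    (hc2 L hqL A hA) (hcw2 L hqL A hA) (hFrx_inv L A hA)
  obtain ⟨h, γ, hγ, e⟩ := key
  have hJ := S36.H83.J3N_inv_eq_mul L (q := q)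
  have hmem := h
  rw [← hJ] at hmem
  refine ⟨hmem, γ, hγ, ?_⟩
  have e2 : (⟨_, hmem⟩ : ↥Oc) = ⟨_, h⟩ := Subtype.ext hJ
  rw [e2, e]

/-- `(hub, hwb)` at the real types, chart `J₃⁻¹`. -/
theorem hub_hwb_J3_inv {Oa : Subring F2} {reda : Oa →+* LaurentSeries kA}
    {Oc : Subring F2} {redc : Oc →+* LaurentSeries kA}
    {Ob : Subring F2} {redb : Ob →+* LaurentSeries kA} {τ : F2}
    (P : S36.H83.PlaceSide L hqL A hA Oa reda Oc redc Ob redb τ) :
    ∃ hub : (S36.H83.J3N L (q := q))⁻¹ ∈ Ob, ∃ γ : FkL,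
      IsIntegral (Algebra.adjoin kA {(S18.H16.jK kA L)⁻¹}) γ ∧ redb ⟨_, hub⟩ = inclk L A γ := by
  have key := hu_hw_third (Mod L hqL A hA) (S36.H83.eU L (q := q)) (S36.H83.eV L (q := q))
    (S36.H83.eW L (q := q)) (inclk L A) Ob redb (FrM L A hA) q P.Hbu P.Hbv P.Hbw
    (hc2 L hqL A hA) (hcw2 L hqL A hA) (hFrx_inv L A hA)
  obtain ⟨h, γ, hγ, e⟩ := key
  have hJ := S36.H83.J3N_inv_eq_mul L (q := q)
  have hmem := h
  rw [← hJ] at hmem
  refine ⟨hmem, γ, hγ, ?_⟩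
  have e2 : (⟨_, hmem⟩ : ↥Ob) = ⟨_, h⟩ := Subtype.ext hJ
  rw [e2, e]

/-! ### (E2) at the real types from the place side and (SAT) only

The statements are those of `S36.H83.threeComponents_J3_of_places` /
`threeComponents_J3_inv_of_places` verbatim (`type_of%`: restating the conclusion costs a minute of
unification, instantiating it costs nothing):
`∃ red₁ red₂ red₃ : chartB A₁ J₃^{±1} →+* integralClosure kA[j̄^{±1}] FkL,`
`(∀ b (h : ↑b ∈ Oa), inclk (red₁ b) = reda ⟨b, h⟩) ∧ (… Oc, red₂, redc) ∧ (… Ob, red₃, redb) ∧`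
`red₁ q = 0 ∧ red₂ q = 0 ∧ red₃ q = 0 ∧ ThreeComponents red₁ red₂ red₃ (chartMap eU ..)`
`(chartMap eV ..) (chartMap eW ..) (rbarB Mod ..) (WR FrM q ..) q (algebraMap A₁ _ q)`. -/

/-- **(E2), chart `J₃`**: `ThreeComponents` from a `PlaceSide` and (SAT) alone. -/
theorem threeComponents_J3_of_placeSide {Oa : Subring F2} {reda : Oa →+* LaurentSeries kA}
    {Oc : Subring F2} {redc : Oc →+* LaurentSeries kA}
    {Ob : Subring F2} {redb : Ob →+* LaurentSeries kA} {τ : F2}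
    (P : S36.H83.PlaceSide L hqL A hA Oa reda Oc redc Ob redb τ)
    (hsatF : ∀ z : F2, z ∈ Oa → z ∈ Oc → z ∈ Ob →
      IsIntegral (Algebra.adjoin A₁ {S36.H83.J3N L (q := q)})
        (algebraMap A₁ F2 ((q : ℕ) : A₁) * z) →
      IsIntegral (Algebra.adjoin A₁ {S36.H83.J3N L (q := q)}) z) :
    type_of% (S36.H83.threeComponents_J3_of_places L hqL A hA P
      (hua_hwa_J3 L hqL A hA P).fst (huc_hwc_J3 L hqL A hA P).fst
      (hub_hwb_J3 L hqL A hA P).fst (hua_hwa_J3 L hqL A hA P).snd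
      (huc_hwc_J3 L hqL A hA P).snd (hub_hwb_J3 L hqL A hA P).snd hsatF) :=
  S36.H83.threeComponents_J3_of_places L hqL A hA P
    (hua_hwa_J3 L hqL A hA P).fst (huc_hwc_J3 L hqL A hA P).fst
    (hub_hwb_J3 L hqL A hA P).fst (hua_hwa_J3 L hqL A hA P).snd
    (huc_hwc_J3 L hqL A hA P).snd (hub_hwb_J3 L hqL A hA P).snd hsatF

/-- **(E2), chart `J₃⁻¹`**: `ThreeComponents` from a `PlaceSide` and (SAT) alone. -/
theorem threeComponents_J3_inv_of_placeSide {Oa : Subring F2} {reda : Oa →+* LaurentSeries kA}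
    {Oc : Subring F2} {redc : Oc →+* LaurentSeries kA}
    {Ob : Subring F2} {redb : Ob →+* LaurentSeries kA} {τ : F2}
    (P : S36.H83.PlaceSide L hqL A hA Oa reda Oc redc Ob redb τ)
    (hsatF : ∀ z : F2, z ∈ Oa → z ∈ Oc → z ∈ Ob →
      IsIntegral (Algebra.adjoin A₁ {(S36.H83.J3N L (q := q))⁻¹})
        (algebraMap A₁ F2 ((q : ℕ) : A₁) * z) →
      IsIntegral (Algebra.adjoin A₁ {(S36.H83.J3N L (q := q))⁻¹}) z) :
    type_of% (S36.H83.threeComponents_J3_inv_of_places L hqL A hA P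
      (hua_hwa_J3_inv L hqL A hA P).fst (huc_hwc_J3_inv L hqL A hA P).fst
      (hub_hwb_J3_inv L hqL A hA P).fst (hua_hwa_J3_inv L hqL A hA P).snd
      (huc_hwc_J3_inv L hqL A hA P).snd (hub_hwb_J3_inv L hqL A hA P).snd hsatF) :=
  S36.H83.threeComponents_J3_inv_of_places L hqL A hA P
    (hua_hwa_J3_inv L hqL A hA P).fst (huc_hwc_J3_inv L hqL A hA P).fst
    (hub_hwb_J3_inv L hqL A hA P).fst (hua_hwa_J3_inv L hqL A hA P).snd
    (huc_hwc_J3_inv L hqL A hA P).snd (hub_hwb_J3_inv L hqL A hA P).snd hsatF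

end L0ThreeChartFinal

end Fermat.Agent.S36.H40
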