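/-
helper41: S36 (M2e), the transversal pair at a crossing point in the `(s, s₁)` spelling
(requested by helper78 in the S36 registry; consumer: helper54's (M2e) assembly).

Setting: helper83's landed `S34.H83.TwoComponents red₁ red₂ ι V rbar W q qB` (level `(L, q)` chart
`B`, the two reductions `red₁ red₂ : B → R` onto the level-`L` special fibre ring, the two
degeneracy embeddings `ι V : BM → B`, `W` = the substitution `t ↦ t ^ q`).  A crossing point is a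
prime `n` of `B` containing both kernels; `𝔞`, `𝔟` are the corresponding primes of `R` on the two
branches (`z ∈ n ↔ red₁ z ∈ 𝔞`, `z ∈ n ↔ red₂ z ∈ 𝔟`).

For `s s₁ : BM` with `(rbar s₁) ^ q = W (rbar s)` (i.e. `rbar s₁ = ρ (sbar)`, the coefficientwise
inverse Frobenius of `sbar := rbar s`; NO Frobenius lift is needed, only this one element) put

  `x := V s - (ι s₁) ^ q`,   `y := ι s - (V s₁) ^ q`.

Then `red₁ x = 0`, `red₂ y = 0`, and with the explicit formulas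
  `red₂ x = sbar - (W (rbar s₁)) ^ q`   (`= sbar - (ρ² sbar) ^ (q²)`),
  `red₁ y = sbar - (W (rbar s₁)) ^ q`,
`red₂ x ∈ 𝔟 \ 𝔟²` as soon as `sbar ∈ 𝔟 \ 𝔟²`, `red₁ y ∈ 𝔞 \ 𝔞²` as soon as `sbar ∈ 𝔞 \ 𝔞²`,
`x, y ∈ n` and `x * y ∈ (qB)`.

Everything is elementary (Mathlib + the `TwoComponents` structure only).
-/
import Mathlib
import Fermat.Agent.S34.H83_L0Target

set_option autoImplicit false

namespace Fermat.Agent.S36.H41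

open Fermat.Agent.S34

variable {B R BM : Type*} [CommRing B] [CommRing R] [CommRing BM]
  {red₁ red₂ : B →+* R} {ι V : BM →+* B} {rbar : BM →+* R} {W : R →+* R} {q : ℕ} {qB : B}

/-- the transversal element on the first branch, `x = V s - (ι s₁) ^ q`. -/
def xOf (ι V : BM →+* B) (q : ℕ) (s s₁ : BM) : B := V s - ι s₁ ^ q

/-- the Atkin–Lehner mirror, `y = ι s - (V s₁) ^ q`. -/
def yOf (ι V : BM →+* B) (q : ℕ) (s s₁ : BM) : B := ι s - V s₁ ^ q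

section Formulas

/-- `red₁ x = 0`. -/
theorem red₁_xOf (h : H83.TwoComponents red₁ red₂ ι V rbar W q qB) {s s₁ : BM}
    (hs₁ : rbar s₁ ^ q = W (rbar s)) : red₁ (xOf ι V q s s₁) = 0 := by
  rw [xOf, map_sub, map_pow, h.h1V, h.h1ι, hs₁, sub_self]

/-- `red₂ x = sbar - (W (rbar s₁)) ^ q`. -/
theorem red₂_xOf (h : H83.TwoComponents red₁ red₂ ι V rbar W q qB) (s s₁ : BM) :
    red₂ (xOf ι V q s s₁) = rbar s - W (rbar s₁) ^ q := by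
  rw [xOf, map_sub, map_pow, h.h2V, h.h2ι]

/-- `red₂ y = 0`. -/
theorem red₂_yOf (h : H83.TwoComponents red₁ red₂ ι V rbar W q qB) {s s₁ : BM}
    (hs₁ : rbar s₁ ^ q = W (rbar s)) : red₂ (yOf ι V q s s₁) = 0 := by
  rw [yOf, map_sub, map_pow, h.h2ι, h.h2V, hs₁, sub_self]

/-- `red₁ y = sbar - (W (rbar s₁)) ^ q`. -/
theorem red₁_yOf (h : H83.TwoComponents red₁ red₂ ι V rbar W q qB) (s s₁ : BM) :
    red₁ (yOf ι V q s s₁) = rbar s - W (rbar s₁) ^ q := by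
  rw [yOf, map_sub, map_pow, h.h1ι, h.h1V]

/-- `x * y ∈ (qB)`. -/
theorem xOf_mul_yOf_mem (h : H83.TwoComponents red₁ red₂ ι V rbar W q qB) {s s₁ : BM}
    (hs₁ : rbar s₁ ^ q = W (rbar s)) :
    xOf ι V q s s₁ * yOf ι V q s s₁ ∈ Ideal.span {qB} :=
  h.hinf _ (by rw [map_mul, red₁_xOf h hs₁, zero_mul]) (by rw [map_mul, red₂_yOf h hs₁, mul_zero])

/-- `x * y = qB * R₀` for some `R₀ : B`. -/
theorem exists_xOf_mul_yOf_eq (h : H83.TwoComponents red₁ red₂ ι V rbar W q qB) {s s₁ : BM}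
    (hs₁ : rbar s₁ ^ q = W (rbar s)) :
    ∃ R₀ : B, xOf ι V q s s₁ * yOf ι V q s s₁ = qB * R₀ := by
  obtain ⟨c, hc⟩ := Ideal.mem_span_singleton'.1 (xOf_mul_yOf_mem h hs₁)
  exact ⟨c, by rw [← hc, mul_comm]⟩

/-- existence of `s₁` for a given `s` (from `hroot` and the surjectivity of `rbar`). -/
theorem exists_s₁ (h : H83.TwoComponents red₁ red₂ ι V rbar W q qB) (s : BM) :
    ∃ s₁ : BM, rbar s₁ ^ q = W (rbar s) := by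
  obtain ⟨r', hr'⟩ := h.hroot (rbar s)
  obtain ⟨s₁, rfl⟩ := h.hrbar r'
  exact ⟨s₁, hr'⟩

end Formulas

section Crossing

variable (n : Ideal B) (𝔞 𝔟 : Ideal R)

/-- `W` maps the branch-one prime `𝔞` into the branch-two prime `𝔟` at a crossing point. -/
theorem W_mem_of_mem_left (h : H83.TwoComponents red₁ red₂ ι V rbar W q qB)
    (hn₁ : ∀ z : B, z ∈ n ↔ red₁ z ∈ 𝔞) (hn₂ : ∀ z : B, z ∈ n ↔ red₂ z ∈ 𝔟)
    {θ : R} (hθ : θ ∈ 𝔞) : W θ ∈ 𝔟 := by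
  obtain ⟨ψ, rfl⟩ := h.hrbar θ
  have h1 : ι ψ ∈ n := (hn₁ _).2 (by rw [h.h1ι]; exact hθ)
  have h2 := (hn₂ _).1 h1
  rwa [h.h2ι] at h2

/-- `W` maps `𝔟` into `𝔞` at a crossing point. -/
theorem W_mem_of_mem_right (h : H83.TwoComponents red₁ red₂ ι V rbar W q qB)
    (hn₁ : ∀ z : B, z ∈ n ↔ red₁ z ∈ 𝔞) (hn₂ : ∀ z : B, z ∈ n ↔ red₂ z ∈ 𝔟)
    {θ : R} (hθ : θ ∈ 𝔟) : W θ ∈ 𝔞 := by
  obtain ⟨ψ, rfl⟩ := h.hrbar θ
  have h1 : V ψ ∈ n := (hn₂ _).2 (by rw [h.h2V]; exact hθ)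
  have h2 := (hn₁ _).1 h1
  rwa [h.h1V] at h2

/-- an element of `𝔭 \ 𝔭²` minus an element of `𝔭 ^ q` (`2 ≤ q`) is again in `𝔭 \ 𝔭²`. -/
theorem sub_pow_mem_not_mem_sq {𝔭 : Ideal R} {θ c : R} (hq : 2 ≤ q) (hθ : θ ∈ 𝔭)
    (hθ2 : θ ∉ 𝔭 ^ 2) (hc : c ∈ 𝔭) : θ - c ^ q ∈ 𝔭 ∧ θ - c ^ q ∉ 𝔭 ^ 2 := by
  have hcq : c ^ q ∈ 𝔭 ^ 2 := by
    have h2 : c ^ 2 ∈ 𝔭 ^ 2 := Ideal.pow_mem_pow hc 2
    have h3 : q = 2 + (q - 2) := by omega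
    rw [h3, pow_add]
    exact Ideal.mul_mem_right _ _ h2
  refine ⟨sub_mem hθ (Ideal.pow_le_self (by norm_num) hcq), fun hmem => hθ2 ?_⟩
  have := add_mem hmem hcq
  simpa using this

/-- **Transversal pair at a crossing point, `(s, s₁)` spelling.**
`n` a prime of `B` through both components, `𝔞`, `𝔟` its images on the two branches,
`sbar = rbar s` a uniformiser at `𝔞` and at `𝔟`, `rbar s₁ = ρ sbar`.  Then
`x = V s - (ι s₁)^q ∈ ker red₁`, `red₂ x = sbar - (W (rbar s₁))^q ∈ 𝔟 \ 𝔟²`,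
`y = ι s - (V s₁)^q ∈ ker red₂`, `red₁ y = sbar - (W (rbar s₁))^q ∈ 𝔞 \ 𝔞²`,
`x, y ∈ n`, `x * y ∈ (qB)`. -/
theorem transversal_pair (h : H83.TwoComponents red₁ red₂ ι V rbar W q qB) (hq : 2 ≤ q)
    (h𝔞 : 𝔞.IsPrime) (h𝔟 : 𝔟.IsPrime)
    (hn₁ : ∀ z : B, z ∈ n ↔ red₁ z ∈ 𝔞) (hn₂ : ∀ z : B, z ∈ n ↔ red₂ z ∈ 𝔟)
    {s s₁ : BM} (hs₁ : rbar s₁ ^ q = W (rbar s))
    (hsa : rbar s ∈ 𝔞) (hsa2 : rbar s ∉ 𝔞 ^ 2) (hsb : rbar s ∈ 𝔟) (hsb2 : rbar s ∉ 𝔟 ^ 2) :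
    red₁ (xOf ι V q s s₁) = 0 ∧
      red₂ (xOf ι V q s s₁) = rbar s - W (rbar s₁) ^ q ∧
      red₂ (xOf ι V q s s₁) ∈ 𝔟 ∧ red₂ (xOf ι V q s s₁) ∉ 𝔟 ^ 2 ∧
    red₂ (yOf ι V q s s₁) = 0 ∧
      red₁ (yOf ι V q s s₁) = rbar s - W (rbar s₁) ^ q ∧
      red₁ (yOf ι V q s s₁) ∈ 𝔞 ∧ red₁ (yOf ι V q s s₁) ∉ 𝔞 ^ 2 ∧
    xOf ι V q s s₁ ∈ n ∧ yOf ι V q s s₁ ∈ n ∧
    xOf ι V q s s₁ * yOf ι V q s s₁ ∈ Ideal.span {qB} := by
  have hq0 : q ≠ 0 := by omega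
  -- `rbar s₁ ∈ 𝔞` (from `sbar ∈ 𝔟`) and `rbar s₁ ∈ 𝔟` (from `sbar ∈ 𝔞`)
  have h1a : rbar s₁ ∈ 𝔞 := by
    have : rbar s₁ ^ q ∈ 𝔞 := by rw [hs₁]; exact W_mem_of_mem_right n 𝔞 𝔟 h hn₁ hn₂ hsb
    exact h𝔞.mem_of_pow_mem _ this
  have h1b : rbar s₁ ∈ 𝔟 := by
    have : rbar s₁ ^ q ∈ 𝔟 := by rw [hs₁]; exact W_mem_of_mem_left n 𝔞 𝔟 h hn₁ hn₂ hsa
    exact h𝔟.mem_of_pow_mem _ this
  have hWb : W (rbar s₁) ∈ 𝔟 := W_mem_of_mem_left n 𝔞 𝔟 h hn₁ hn₂ h1a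
  have hWa : W (rbar s₁) ∈ 𝔞 := W_mem_of_mem_right n 𝔞 𝔟 h hn₁ hn₂ h1b
  obtain ⟨hxb, hxb2⟩ := sub_pow_mem_not_mem_sq hq hsb hsb2 hWb
  obtain ⟨hya, hya2⟩ := sub_pow_mem_not_mem_sq hq hsa hsa2 hWa
  have hx1 := red₁_xOf h hs₁
  have hy2 := red₂_yOf h hs₁
  have hx2 := red₂_xOf h s s₁
  have hy1 := red₁_yOf h s s₁
  refine ⟨hx1, hx2, by rw [hx2]; exact hxb, by rw [hx2]; exact hxb2, hy2, hy1,
    by rw [hy1]; exact hya, by rw [hy1]; exact hya2, ?_, ?_, xOf_mul_yOf_mem h hs₁⟩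
  · exact (hn₁ _).2 (by rw [hx1]; exact 𝔞.zero_mem)
  · exact (hn₂ _).2 (by rw [hy2]; exact 𝔟.zero_mem)

/-- The same with `n` MAXIMAL through both kernels and `𝔞 := n.map red₁`, `𝔟 := n.map red₂`
(the spelling of `S34.H41.locGen` / `S34.H83.locGen_node`). -/
theorem transversal_pair_of_maximal [IsDedekindDomain R]
    (h : H83.TwoComponents red₁ red₂ ι V rbar W q qB)
    (hq : 2 ≤ q) (hn : n.IsMaximal)
    (hk₁ : ∀ z : B, red₁ z = 0 → z ∈ n) (hk₂ : ∀ z : B, red₂ z = 0 → z ∈ n)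
    {s s₁ : BM} (hs₁ : rbar s₁ ^ q = W (rbar s))
    (hsa : rbar s ∈ n.map red₁) (hsa2 : rbar s ∉ n.map red₁ ^ 2)
    (hsb : rbar s ∈ n.map red₂) (hsb2 : rbar s ∉ n.map red₂ ^ 2) :
    (n.map red₁).IsMaximal ∧ (n.map red₂).IsMaximal ∧
    red₁ (xOf ι V q s s₁) = 0 ∧
      red₂ (xOf ι V q s s₁) = rbar s - W (rbar s₁) ^ q ∧
      red₂ (xOf ι V q s s₁) ∈ n.map red₂ ∧ red₂ (xOf ι V q s s₁) ∉ n.map red₂ ^ 2 ∧
    red₂ (yOf ι V q s s₁) = 0 ∧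
      red₁ (yOf ι V q s s₁) = rbar s - W (rbar s₁) ^ q ∧
      red₁ (yOf ι V q s s₁) ∈ n.map red₁ ∧ red₁ (yOf ι V q s s₁) ∉ n.map red₁ ^ 2 ∧
    xOf ι V q s s₁ ∈ n ∧ yOf ι V q s s₁ ∈ n ∧
    xOf ι V q s s₁ * yOf ι V q s s₁ ∈ Ideal.span {qB} := by
  have hmax : ∀ (red : B →+* R), Function.Surjective red → (∀ z : B, red z = 0 → z ∈ n) →
      (Ideal.map red n).IsMaximal := by
    intro red hred hker
    rcases Ideal.map_eq_top_or_isMaximal_of_surjective red hred hn with h' | h'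
    · exfalso
      have : (1 : B) ∈ n := (H83.mem_iff_map_mem hred n hker 1).2 (by rw [h']; trivial)
      exact hn.isPrime.ne_top ((Ideal.eq_top_iff_one n).2 this)
    · exact h'
  have hm₁ := hmax red₁ h.hred₁ hk₁
  have hm₂ := hmax red₂ h.hred₂ hk₂
  exact ⟨hm₁, hm₂, transversal_pair n _ _ h hq hm₁.isPrime hm₂.isPrime
    (H83.mem_iff_map_mem h.hred₁ n hk₁) (H83.mem_iff_map_mem h.hred₂ n hk₂) hs₁
    hsa hsa2 hsb hsb2⟩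

/-- **Existence of a common uniformiser `s`** (CRT in the Dedekind ring `R`): for two maximal
ideals `𝔞`, `𝔟` of a Dedekind domain `R` (not a field) there is `θ ∈ R` with
`θ ∈ 𝔞 \ 𝔞²` and `θ ∈ 𝔟 \ 𝔟²`; hence (surjectivity of `rbar`) an `s : BM` with `rbar s = θ`. -/
theorem exists_common_uniformizer [IsDedekindDomain R]
    (h𝔞 : 𝔞.IsMaximal) (h𝔟 : 𝔟.IsMaximal) (h𝔞0 : 𝔞 ≠ ⊥) (h𝔟0 : 𝔟 ≠ ⊥) :
    ∃ θ : R, θ ∈ 𝔞 ∧ θ ∉ 𝔞 ^ 2 ∧ θ ∈ 𝔟 ∧ θ ∉ 𝔟 ^ 2 := by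
  obtain ⟨θa, hθa, hθa2⟩ := H83.exists_mem_not_mem_sq h𝔞.isPrime h𝔞0
  by_cases hab : 𝔞 = 𝔟
  · subst hab
    exact ⟨θa, hθa, hθa2, hθa, hθa2⟩
  obtain ⟨θb, hθb, hθb2⟩ := H83.exists_mem_not_mem_sq h𝔟.isPrime h𝔟0
  -- `𝔞²` and `𝔟²` are coprime: solve `θ ≡ θa mod 𝔞²`, `θ ≡ θb mod 𝔟²`
  have hcop : IsCoprime (𝔞 ^ 2) (𝔟 ^ 2) := by
    have h1 : IsCoprime 𝔞 𝔟 := by
      rw [Ideal.isCoprime_iff_sup_eq]
      exact h𝔞.coprime_of_ne h𝔟 hab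
    exact IsCoprime.pow h1
  rw [Ideal.isCoprime_iff_exists] at hcop
  obtain ⟨e, he, f, hf, hef⟩ := hcop
  -- `e ∈ 𝔞²`, `f ∈ 𝔟²`, `e + f = 1`; `θ := θa * f + θb * e`
  refine ⟨θa * f + θb * e, ?_, ?_, ?_, ?_⟩
  · exact add_mem (Ideal.mul_mem_right _ _ hθa)
      (Ideal.mul_mem_left _ _ (Ideal.pow_le_self (by norm_num) he))
  · intro hmem
    apply hθa2
    have h1 : θa * f + θb * e - θb * e ∈ 𝔞 ^ 2 :=
      sub_mem hmem (Ideal.mul_mem_left _ _ he)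
    have h2 : θa = (θa * f + θb * e - θb * e) + θa * e := by
      have : f = 1 - e := by rw [← hef]; ring
      rw [this]; ring
    rw [h2]
    exact add_mem h1 (Ideal.mul_mem_left _ _ he)
  · exact add_mem (Ideal.mul_mem_left _ _ (Ideal.pow_le_self (by norm_num) hf))
      (Ideal.mul_mem_right _ _ hθb)
  · intro hmem
    apply hθb2
    have h1 : θa * f + θb * e - θa * f ∈ 𝔟 ^ 2 :=
      sub_mem hmem (Ideal.mul_mem_left _ _ hf)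
    have h2 : θb = (θa * f + θb * e - θa * f) + θb * f := by
      have : e = 1 - f := by rw [← hef]; ring
      rw [this]; ring
    rw [h2]
    exact add_mem h1 (Ideal.mul_mem_left _ _ hf)

/-- **One-call form for the (M2e) assembly**: at a maximal ideal `n` of `B` through both
components there are `s s₁ : BM` with `rbar s₁ = ρ (rbar s)`, `rbar s` a uniformiser at both
branch points, and the transversal pair `x = V s - (ι s₁)^q`, `y = ι s - (V s₁)^q`. -/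
theorem exists_transversal_pair [IsDedekindDomain R]
    (h : H83.TwoComponents red₁ red₂ ι V rbar W q qB) (hq : 2 ≤ q) (hR : ¬ IsField R)
    (hn : n.IsMaximal)
    (hk₁ : ∀ z : B, red₁ z = 0 → z ∈ n) (hk₂ : ∀ z : B, red₂ z = 0 → z ∈ n) :
    ∃ s s₁ : BM, rbar s₁ ^ q = W (rbar s) ∧
      rbar s ∈ n.map red₁ ∧ rbar s ∉ n.map red₁ ^ 2 ∧
      rbar s ∈ n.map red₂ ∧ rbar s ∉ n.map red₂ ^ 2 ∧
      red₁ (xOf ι V q s s₁) = 0 ∧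
      red₂ (xOf ι V q s s₁) = rbar s - W (rbar s₁) ^ q ∧
      red₂ (xOf ι V q s s₁) ∈ n.map red₂ ∧ red₂ (xOf ι V q s s₁) ∉ n.map red₂ ^ 2 ∧
      red₂ (yOf ι V q s s₁) = 0 ∧
      red₁ (yOf ι V q s s₁) = rbar s - W (rbar s₁) ^ q ∧
      red₁ (yOf ι V q s s₁) ∈ n.map red₁ ∧ red₁ (yOf ι V q s s₁) ∉ n.map red₁ ^ 2 ∧
      xOf ι V q s s₁ ∈ n ∧ yOf ι V q s s₁ ∈ n ∧
      xOf ι V q s s₁ * yOf ι V q s s₁ ∈ Ideal.span {qB} := by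
  have hmax : ∀ (red : B →+* R), Function.Surjective red → (∀ z : B, red z = 0 → z ∈ n) →
      (Ideal.map red n).IsMaximal := by
    intro red hred hker
    rcases Ideal.map_eq_top_or_isMaximal_of_surjective red hred hn with h' | h'
    · exfalso
      have : (1 : B) ∈ n := (H83.mem_iff_map_mem hred n hker 1).2 (by rw [h']; trivial)
      exact hn.isPrime.ne_top ((Ideal.eq_top_iff_one n).2 this)
    · exact h'
  have hm₁ := hmax red₁ h.hred₁ hk₁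
  have hm₂ := hmax red₂ h.hred₂ hk₂
  obtain ⟨θ, ha, ha2, hb, hb2⟩ := exists_common_uniformizer (n.map red₁) (n.map red₂) hm₁ hm₂
    (Ring.ne_bot_of_isMaximal_of_not_isField hm₁ hR)
    (Ring.ne_bot_of_isMaximal_of_not_isField hm₂ hR)
  obtain ⟨s, rfl⟩ := h.hrbar θ
  obtain ⟨s₁, hs₁⟩ := exists_s₁ h s
  obtain ⟨-, -, hrest⟩ := transversal_pair_of_maximal n h hq hn hk₁ hk₂ hs₁ ha ha2 hb hb2
  exact ⟨s, s₁, hs₁, ha, ha2, hb, hb2, hrest⟩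

end Crossing

end Fermat.Agent.S36.H41
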