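/-
S36 / base layer (helper45): normalisation of constants over the unramified base.

`R := cutOver A E0` with `E0 / K1` finite and pointwise fixed by the frozen inertia group of `A`:
`R` is a DVR with uniformiser `ℓ` ((D1b), `H45_UnramifiedFixed`) and algebraically closed residue
field.  Hence every nonzero constant `c ∈ E0` is

    `c = ℓ ^ s * γ ^ m * w`,   `s : ℤ`, `γ ∈ Rˣ`, `w ∈ 1 + 𝔪_R`,

for every exponent `m ≠ 0` (row (r7) of the (E7) integration map: the constants of the two norm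
identities become `1`-units after absorbing `ℓ ^ s` and `γ ^ m`).

* `exists_pow_mul_oneUnit_of_isUnit` : generic (any local ring with algebraically closed residue
  field): a unit is an `m`-th power times a `1`-unit.
* `exists_zpow_mul_pow_mul_oneUnit_of_fixed` : the statement above.
* `valuation_sub_one_lt_one_of_sub_one_mem` : `w - 1 ∈ 𝔪_R → (cutOver A E0).valuation (w - 1) < 1`.
-/
import Mathlib
import Fermat.Agent.S36.H45_UnramifiedFixed

set_option autoImplicit false
set_option linter.unusedSectionVars false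
set_option linter.style.haveILetI false

namespace Fermat.Agent.S36.H45

open Fermat.Agent.S54 Fermat.Agent.S14.H54 Fermat.Agent.S18.H45
open IsLocalRing

noncomputable section

local notation "Qbar" => AlgebraicClosure ℚ

/-- In a local ring with algebraically closed residue field every unit is an `m`-th power of a
unit times a `1`-unit. -/
theorem exists_pow_mul_oneUnit_of_isUnit {R : Type*} [CommRing R] [IsLocalRing R]
    [IsAlgClosed (ResidueField R)] {m : ℕ} (hm : m ≠ 0) {u : R} (hu : IsUnit u) :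
    ∃ γ w : R, IsUnit γ ∧ w - 1 ∈ maximalIdeal R ∧ u = γ ^ m * w := by
  obtain ⟨z, hz⟩ := IsAlgClosed.exists_pow_nat_eq (residue R u) (Nat.pos_of_ne_zero hm)
  obtain ⟨γ, rfl⟩ := residue_surjective z
  have hu0 : residue R u ≠ 0 := by
    intro h0
    rw [residue_eq_zero_iff] at h0
    exact (mem_maximalIdeal u).mp h0 hu
  have hγ0 : residue R γ ≠ 0 := by
    intro h0
    rw [h0, zero_pow hm] at hz
    exact hu0 hz.symm
  have hγ : IsUnit γ := by
    by_contra hγn
    exact hγ0 ((residue_eq_zero_iff γ).mpr ((mem_maximalIdeal γ).mpr hγn))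
  obtain ⟨g, rfl⟩ := hγ
  refine ⟨(g : R), u * ((g⁻¹ : Rˣ) : R) ^ m, g.isUnit, ?_, ?_⟩
  · rw [← residue_eq_zero_iff, map_sub, map_one, map_mul, map_pow, ← hz, ← mul_pow, ← map_mul,
      Units.mul_inv, map_one, one_pow, sub_self]
  · rw [mul_comm u, ← mul_assoc, ← mul_pow, Units.mul_inv, one_pow, one_mul]

variable {A : ValuationSubring Qbar} {ℓ : ℕ} (hℓ : ℓ.Prime) (hA : A.LiesOverPrime ℓ)

variable (E0 : IntermediateField (unrCyclo ℓ) Qbar)

include hℓ hA in
/-- **Normalisation of constants.** Every nonzero `c ∈ E0` is `ℓ ^ s * γ ^ m * w` with `γ` a unit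
and `w` a `1`-unit of `A ∩ E0`. -/
theorem exists_zpow_mul_pow_mul_oneUnit_of_fixed [FiniteDimensional (unrCyclo ℓ) E0]
    (hfix : ∀ σ ∈ A.inertiaSubgroupIn ℚ, ∀ x : E0, σ ((x : E0) : Qbar) = ((x : E0) : Qbar))
    {m : ℕ} (hm : m ≠ 0) {c : E0} (hc : c ≠ 0) :
    ∃ (s : ℤ) (γ w : cutOver A E0), IsUnit γ ∧ w - 1 ∈ maximalIdeal (cutOver A E0) ∧
      c = ((ℓ : ℕ) : E0) ^ s * ((γ : cutOver A E0) : E0) ^ m * ((w : cutOver A E0) : E0) := by
  haveI : IsAlgClosed (ResidueField (cutOver A E0)) := isAlgClosed_residueField_cutOver hℓ hA E0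
  have hℓE : ((ℓ : ℕ) : E0) ≠ 0 := Nat.cast_ne_zero.mpr hℓ.ne_zero
  -- the integral case
  have key : ∀ x : cutOver A E0, x ≠ 0 →
      ∃ (n : ℕ) (γ w : cutOver A E0), IsUnit γ ∧ w - 1 ∈ maximalIdeal (cutOver A E0) ∧
        ((x : cutOver A E0) : E0)
          = ((ℓ : ℕ) : E0) ^ n * ((γ : cutOver A E0) : E0) ^ m * ((w : cutOver A E0) : E0) := by
    intro x hx
    obtain ⟨n, u, hxu⟩ := exists_unit_mul_natCast_pow_of_fixed hℓ hA E0 hfix hx
    obtain ⟨γ, w, hγ, hw, huw⟩ := exists_pow_mul_oneUnit_of_isUnit hm u.isUnit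
    refine ⟨n, γ, w, hγ, hw, ?_⟩
    subst hxu
    rw [huw]
    push_cast
    ring
  rcases (cutOver A E0).mem_or_inv_mem c with hcR | hcR
  · obtain ⟨n, γ, w, hγ, hw, e⟩ := key ⟨c, hcR⟩ (fun h => hc (congrArg Subtype.val h))
    exact ⟨(n : ℤ), γ, w, hγ, hw, by rw [zpow_natCast]; exact e⟩
  · have hc' : c⁻¹ ≠ 0 := inv_ne_zero hc
    obtain ⟨n, γ, w, hγ, hw, e⟩ := key ⟨c⁻¹, hcR⟩ (fun h => hc' (congrArg Subtype.val h))
    -- invert
    obtain ⟨g, rfl⟩ := hγ
    have hwU : IsUnit w := by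
      by_contra hwn
      have h1 : w ∈ maximalIdeal (cutOver A E0) := (mem_maximalIdeal w).mpr hwn
      have h2 : (1 : cutOver A E0) ∈ maximalIdeal (cutOver A E0) := by
        have h3 := (maximalIdeal (cutOver A E0)).sub_mem h1 hw
        have h4 : w - (w - 1) = 1 := by ring
        rw [h4] at h3
        exact h3
      exact (maximalIdeal.isMaximal (cutOver A E0)).ne_top
        ((Ideal.eq_top_iff_one _).mpr h2)
    obtain ⟨v, rfl⟩ := hwU
    refine ⟨-(n : ℤ), ((g⁻¹ : (cutOver A E0)ˣ) : cutOver A E0),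
      ((v⁻¹ : (cutOver A E0)ˣ) : cutOver A E0), (g⁻¹).isUnit, ?_, ?_⟩
    · -- `v⁻¹ - 1 = -(v - 1) * v⁻¹`
      have : ((v⁻¹ : (cutOver A E0)ˣ) : cutOver A E0) - 1
          = -(((v : (cutOver A E0)ˣ) : cutOver A E0) - 1) * ((v⁻¹ : (cutOver A E0)ˣ) : cutOver A E0) := by
        rw [neg_mul, sub_mul, Units.mul_inv]; ring
      rw [this]
      exact Ideal.mul_mem_right _ _ ((maximalIdeal (cutOver A E0)).neg_mem hw)
    · have hg : ((((g⁻¹ : (cutOver A E0)ˣ) : cutOver A E0) : E0))
          = (((g : (cutOver A E0)ˣ) : cutOver A E0) : E0)⁻¹ := by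
        have h : ((((g : (cutOver A E0)ˣ) : cutOver A E0)
            * ((g⁻¹ : (cutOver A E0)ˣ) : cutOver A E0) : cutOver A E0) : E0) = 1 := by
          rw [Units.mul_inv]; rfl
        push_cast at h
        exact eq_inv_of_mul_eq_one_right h
      have hv : ((((v⁻¹ : (cutOver A E0)ˣ) : cutOver A E0) : E0))
          = (((v : (cutOver A E0)ˣ) : cutOver A E0) : E0)⁻¹ := by
        have h : ((((v : (cutOver A E0)ˣ) : cutOver A E0)
            * ((v⁻¹ : (cutOver A E0)ˣ) : cutOver A E0) : cutOver A E0) : E0) = 1 := by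
          rw [Units.mul_inv]; rfl
        push_cast at h
        exact eq_inv_of_mul_eq_one_right h
      rw [hg, hv, zpow_neg, zpow_natCast, inv_pow, ← mul_inv, ← mul_inv, ← e, inv_inv]

/-- `1`-units of `A ∩ E0` in valuation form (the `OneU` shape of `S34.H47`). -/
theorem valuation_sub_one_lt_one_of_sub_one_mem {w : cutOver A E0}
    (hw : w - 1 ∈ maximalIdeal (cutOver A E0)) :
    (cutOver A E0).valuation (((w : cutOver A E0) : E0) - 1) < 1 := by
  have h1 : (((w : cutOver A E0) : E0) - 1) = (((w - 1 : cutOver A E0)) : E0) := by push_cast; rfl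
  rw [h1]
  exact (ValuationSubring.valuation_lt_one_iff (cutOver A E0) (w - 1)).mp hw

include hℓ hA in
/-- A `1`-unit of `A ∩ E0` stays a `1`-unit at every valuation subring `W` of an `E0`-algebra `F`
which contains `A ∩ E0` and in which `ℓ` is a non-unit (`W` "vertical").  The conclusion is
`S34.H47.OneU W (algebraMap E0 F w)` by definition. -/
theorem valuation_algebraMap_sub_one_lt_one_of_fixed [FiniteDimensional (unrCyclo ℓ) E0]
    (hfix : ∀ σ ∈ A.inertiaSubgroupIn ℚ, ∀ x : E0, σ ((x : E0) : Qbar) = ((x : E0) : Qbar))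
    {F : Type*} [Field F] [Algebra E0 F] (W : ValuationSubring F)
    (hW : ∀ x : cutOver A E0, W.valuation (algebraMap E0 F ((x : cutOver A E0) : E0)) ≤ 1)
    (hℓW : W.valuation (algebraMap E0 F ((ℓ : ℕ) : E0)) < 1)
    {w : cutOver A E0} (hw : w - 1 ∈ maximalIdeal (cutOver A E0)) :
    W.valuation (algebraMap E0 F ((w : cutOver A E0) : E0) - 1) < 1 := by
  rw [maximalIdeal_cutOver_eq_span_natCast_of_fixed hℓ hA E0 hfix, Ideal.mem_span_singleton] at hw
  obtain ⟨y, hy⟩ := hw
  have h1 : algebraMap E0 F ((w : cutOver A E0) : E0) - 1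
      = algebraMap E0 F ((ℓ : ℕ) : E0) * algebraMap E0 F ((y : cutOver A E0) : E0) := by
    rw [← map_one (algebraMap E0 F), ← map_sub, ← map_mul]
    congr 1
    have h2 := congrArg (fun t : cutOver A E0 => ((t : cutOver A E0) : E0)) hy
    simpa using h2
  rw [h1, map_mul]
  calc W.valuation (algebraMap E0 F ((ℓ : ℕ) : E0))
        * W.valuation (algebraMap E0 F ((y : cutOver A E0) : E0))
      ≤ W.valuation (algebraMap E0 F ((ℓ : ℕ) : E0)) * 1 := mul_le_mul' le_rfl (hW y)
    _ < 1 := by rw [mul_one]; exact hℓW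

end

end Fermat.Agent.S36.H45
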