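/-
S36 / base layer (helper45): the NORMCONST inputs of `S36.H69.geo36_two_charts_const`
(`hπ0`, `hπlt`, `hπ`, `hroot`) at the real types `K := ↥E0`, `A := cutOver A E0`, `πK := (ℓ : ↥E0)`,
in valuation form, verbatim.

* `natCast_ne_zero_E0`                      : `((ℓ : ℕ) : E0) ≠ 0`                              (`hπ0`)
* `valuation_natCast_lt_one`                : `(cutOver A E0).valuation (ℓ : E0) < 1`           (`hπlt`)
* `exists_zpow_valuation_mul_eq_one_of_fixed` :
    `∀ c ≠ 0, ∃ n : ℤ, (cutOver A E0).valuation (c * (ℓ : E0) ^ (-n)) = 1`                      (`hπ`)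
* `exists_valuation_div_pow_sub_one_lt_one` :
    `valuation c = 1 → ∃ c1, valuation c1 = 1 ∧ valuation (c / c1 ^ m - 1) < 1`                 (`hroot`)
-/
import Mathlib
import Fermat.Agent.S36.H45_ConstNormalise

set_option autoImplicit false
set_option linter.unusedSectionVars false
set_option linter.style.haveILetI false

namespace Fermat.Agent.S36.H45

open Fermat.Agent.S54 Fermat.Agent.S14.H54 Fermat.Agent.S18.H45
open IsLocalRing

noncomputable section

local notation "Qbar" => AlgebraicClosure ℚ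

variable {A : ValuationSubring Qbar} {ℓ : ℕ} (hℓ : ℓ.Prime) (hA : A.LiesOverPrime ℓ)

variable (E0 : IntermediateField (unrCyclo ℓ) Qbar)

include hℓ in
theorem natCast_ne_zero_E0 : ((ℓ : ℕ) : E0) ≠ 0 := Nat.cast_ne_zero.mpr hℓ.ne_zero

include hℓ hA in
/-- `ℓ` is a non-unit of `A ∩ E0` (any `E0`). -/
theorem valuation_natCast_lt_one : (cutOver A E0).valuation ((ℓ : ℕ) : E0) < 1 := by
  have h := natCast_mem_maximalIdeal_cutOver hℓ hA E0
  have h1 := (ValuationSubring.valuation_lt_one_iff (cutOver A E0) ((ℓ : ℕ) : cutOver A E0)).mp h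
  simpa using h1

/-- Units of `A ∩ E0` have valuation one. -/
theorem valuation_coe_unit_eq_one (u : (cutOver A E0)ˣ) :
    (cutOver A E0).valuation (((u : (cutOver A E0)ˣ) : cutOver A E0) : E0) = 1 :=
  (ValuationSubring.valuation_eq_one_iff (cutOver A E0) (u : cutOver A E0)).mp u.isUnit

include hℓ hA in
/-- `hπ` of NORMCONST: every nonzero constant has an `ℓ`-order. -/
theorem exists_zpow_valuation_mul_eq_one_of_fixed [FiniteDimensional (unrCyclo ℓ) E0]
    (hfix : ∀ σ ∈ A.inertiaSubgroupIn ℚ, ∀ x : E0, σ ((x : E0) : Qbar) = ((x : E0) : Qbar))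
    (c : E0) (hc : c ≠ 0) :
    ∃ n : ℤ, (cutOver A E0).valuation (c * ((ℓ : ℕ) : E0) ^ (-n)) = 1 := by
  have hℓE : ((ℓ : ℕ) : E0) ≠ 0 := natCast_ne_zero_E0 hℓ E0
  rcases (cutOver A E0).mem_or_inv_mem c with hcR | hcR
  · obtain ⟨n, u, hu⟩ := exists_unit_mul_natCast_pow_of_fixed hℓ hA E0 hfix
      (x := ⟨c, hcR⟩) (fun h => hc (congrArg Subtype.val h))
    refine ⟨(n : ℤ), ?_⟩
    have h1 : c = (((u : (cutOver A E0)ˣ) : cutOver A E0) : E0) * ((ℓ : ℕ) : E0) ^ n := by
      have := congrArg (fun t : cutOver A E0 => ((t : cutOver A E0) : E0)) hu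
      simpa using this
    have h2 : c * ((ℓ : ℕ) : E0) ^ (-(n : ℤ))
        = (((u : (cutOver A E0)ˣ) : cutOver A E0) : E0) := by
      rw [zpow_neg, zpow_natCast]
      nth_rewrite 1 [h1]
      rw [mul_assoc, mul_inv_cancel₀ (pow_ne_zero n hℓE), mul_one]
    rw [h2]
    exact valuation_coe_unit_eq_one E0 u
  · have hc' : c⁻¹ ≠ 0 := inv_ne_zero hc
    obtain ⟨n, u, hu⟩ := exists_unit_mul_natCast_pow_of_fixed hℓ hA E0 hfix
      (x := ⟨c⁻¹, hcR⟩) (fun h => hc' (congrArg Subtype.val h))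
    refine ⟨-(n : ℤ), ?_⟩
    have h1 : c⁻¹ = (((u : (cutOver A E0)ˣ) : cutOver A E0) : E0) * ((ℓ : ℕ) : E0) ^ n := by
      have := congrArg (fun t : cutOver A E0 => ((t : cutOver A E0) : E0)) hu
      simpa using this
    have hu0 : (((u : (cutOver A E0)ˣ) : cutOver A E0) : E0) ≠ 0 := by
      intro h0
      rw [h0, zero_mul] at h1
      exact hc' h1
    have h2 : c * ((ℓ : ℕ) : E0) ^ (-(-(n : ℤ)))
        = ((((u : (cutOver A E0)ˣ) : cutOver A E0) : E0))⁻¹ := by
      rw [neg_neg, zpow_natCast]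
      have h3 : c = ((((u : (cutOver A E0)ˣ) : cutOver A E0) : E0) * ((ℓ : ℕ) : E0) ^ n)⁻¹ := by
        rw [← h1, inv_inv]
      nth_rewrite 1 [h3]
      rw [mul_inv, mul_assoc, inv_mul_cancel₀ (pow_ne_zero n hℓE), mul_one]
    rw [h2, map_inv₀, valuation_coe_unit_eq_one E0 u, inv_one]

include hℓ hA in
/-- `hroot` of NORMCONST: units are `m`-th powers up to `1`-units (residue field alg. closed);
no finiteness and no inertia hypothesis needed. -/
theorem exists_valuation_div_pow_sub_one_lt_one {m : ℕ} (hm : m ≠ 0) (c : E0)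
    (hc : (cutOver A E0).valuation c = 1) :
    ∃ c1 : E0, (cutOver A E0).valuation c1 = 1 ∧
      (cutOver A E0).valuation (c / c1 ^ m - 1) < 1 := by
  haveI : IsAlgClosed (ResidueField (cutOver A E0)) := isAlgClosed_residueField_cutOver hℓ hA E0
  have hcR : c ∈ cutOver A E0 := ((cutOver A E0).valuation_le_one_iff c).mp hc.le
  have hcu : IsUnit (⟨c, hcR⟩ : cutOver A E0) :=
    (ValuationSubring.valuation_eq_one_iff (cutOver A E0) ⟨c, hcR⟩).mpr hc
  obtain ⟨γ, w, hγ, hw, huw⟩ := exists_pow_mul_oneUnit_of_isUnit hm hcu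
  obtain ⟨g, rfl⟩ := hγ
  refine ⟨(((g : (cutOver A E0)ˣ) : cutOver A E0) : E0), valuation_coe_unit_eq_one E0 g, ?_⟩
  have hg0 : (((g : (cutOver A E0)ˣ) : cutOver A E0) : E0) ≠ 0 := by
    intro h0
    have := valuation_coe_unit_eq_one E0 g
    rw [h0, map_zero] at this
    exact zero_ne_one this
  have h1 : c = (((g : (cutOver A E0)ˣ) : cutOver A E0) : E0) ^ m * ((w : cutOver A E0) : E0) := by
    have := congrArg (fun t : cutOver A E0 => ((t : cutOver A E0) : E0)) huw
    simpa using this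
  have h2 : c / (((g : (cutOver A E0)ˣ) : cutOver A E0) : E0) ^ m = ((w : cutOver A E0) : E0) := by
    rw [h1, mul_comm, mul_div_assoc, div_self (pow_ne_zero m hg0), mul_one]
  rw [h2]
  exact valuation_sub_one_lt_one_of_sub_one_mem E0 hw

end

end Fermat.Agent.S36.H45
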