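/-
S36 / base layer (helper45): "a vertical valuation subring extends `A ∩ E0`".

`W` a valuation subring of an `E0`-algebra `F` (a field) which contains the image of
`R := cutOver A E0` and in which `ℓ` is a non-unit.  Then, `R` being unramified ((D1b)),

* `valuation_algebraMap_lt_one_of_fixed` : `R.valuation x < 1 → W.valuation (algebraMap E0 F x) < 1`
  (= `hWFlt`, `hWVlt` of `S36.H69.geo36_two_charts_const` / `hWlt` of `S36.H46.hconstα_of_towerValU`);
* `valuation_algebraMap_eq_one_of_le`     : `R.valuation x = 1 → W.valuation (algebraMap E0 F x) = 1`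
  (= `hAWF`, `hAWV`; no inertia hypothesis needed);
* `valuation_algebraMap_le_one_of_le`     : `R.valuation x ≤ 1 → W.valuation (algebraMap E0 F x) ≤ 1`.
-/
import Mathlib
import Fermat.Agent.S36.H45_NormConstInputs

set_option autoImplicit false
set_option linter.unusedSectionVars false
set_option linter.style.haveILetI false

namespace Fermat.Agent.S36.H45

open Fermat.Agent.S54 Fermat.Agent.S14.H54 Fermat.Agent.S18.H45
open IsLocalRing

noncomputable section

local notation "Qbar" => AlgebraicClosure ℚ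

variable {A : ValuationSubring Qbar} {ℓ : ℕ} (hℓ : ℓ.Prime) (hA : A.LiesOverPrime ℓ)

variable (E0 : IntermediateField (unrCyclo ℓ) Qbar)

variable {F : Type*} [Field F] [Algebra E0 F] (W : ValuationSubring F)

theorem valuation_algebraMap_le_one_of_le
    (hW : ∀ x : cutOver A E0, W.valuation (algebraMap E0 F ((x : cutOver A E0) : E0)) ≤ 1)
    (x : E0) (hx : (cutOver A E0).valuation x ≤ 1) : W.valuation (algebraMap E0 F x) ≤ 1 :=
  hW ⟨x, ((cutOver A E0).valuation_le_one_iff x).mp hx⟩

/-- Units of `A ∩ E0` are units of `W`. -/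
theorem valuation_algebraMap_eq_one_of_le
    (hW : ∀ x : cutOver A E0, W.valuation (algebraMap E0 F ((x : cutOver A E0) : E0)) ≤ 1)
    (x : E0) (hx : (cutOver A E0).valuation x = 1) : W.valuation (algebraMap E0 F x) = 1 := by
  have hx0 : x ≠ 0 := by
    intro h0
    rw [h0, map_zero] at hx
    exact zero_ne_one hx
  have h1 : W.valuation (algebraMap E0 F x) ≤ 1 :=
    valuation_algebraMap_le_one_of_le E0 W hW x hx.le
  have hx' : (cutOver A E0).valuation x⁻¹ ≤ 1 := by rw [map_inv₀, hx, inv_one]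
  have h2 : W.valuation (algebraMap E0 F x⁻¹) ≤ 1 :=
    valuation_algebraMap_le_one_of_le E0 W hW x⁻¹ hx'
  rw [map_inv₀, map_inv₀] at h2
  have h0 : W.valuation (algebraMap E0 F x) ≠ 0 :=
    (W.valuation.ne_zero_iff).mpr ((map_ne_zero _).mpr hx0)
  have h3 : 1 ≤ W.valuation (algebraMap E0 F x) := (inv_le_one₀ (zero_lt_iff.mpr h0)).mp h2
  exact le_antisymm h1 h3

include hℓ hA in
/-- Non-units of `A ∩ E0` are non-units of `W` (uses that `ℓ` generates the maximal ideal). -/
theorem valuation_algebraMap_lt_one_of_fixed [FiniteDimensional (unrCyclo ℓ) E0]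
    (hfix : ∀ σ ∈ A.inertiaSubgroupIn ℚ, ∀ x : E0, σ ((x : E0) : Qbar) = ((x : E0) : Qbar))
    (hW : ∀ x : cutOver A E0, W.valuation (algebraMap E0 F ((x : cutOver A E0) : E0)) ≤ 1)
    (hℓW : W.valuation (algebraMap E0 F ((ℓ : ℕ) : E0)) < 1)
    (x : E0) (hx : (cutOver A E0).valuation x < 1) : W.valuation (algebraMap E0 F x) < 1 := by
  have hxR : x ∈ cutOver A E0 := ((cutOver A E0).valuation_le_one_iff x).mp hx.le
  have hxm : (⟨x, hxR⟩ : cutOver A E0) ∈ maximalIdeal (cutOver A E0) :=
    (ValuationSubring.valuation_lt_one_iff (cutOver A E0) ⟨x, hxR⟩).mpr hx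
  rw [maximalIdeal_cutOver_eq_span_natCast_of_fixed hℓ hA E0 hfix, Ideal.mem_span_singleton] at hxm
  obtain ⟨y, hy⟩ := hxm
  have h1 : x = ((ℓ : ℕ) : E0) * ((y : cutOver A E0) : E0) := by
    have := congrArg (fun t : cutOver A E0 => ((t : cutOver A E0) : E0)) hy
    simpa using this
  rw [h1, map_mul, map_mul]
  calc W.valuation (algebraMap E0 F ((ℓ : ℕ) : E0))
        * W.valuation (algebraMap E0 F ((y : cutOver A E0) : E0))
      ≤ W.valuation (algebraMap E0 F ((ℓ : ℕ) : E0)) * 1 := mul_le_mul' le_rfl (hW y)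
    _ < 1 := by rw [mul_one]; exact hℓW

end

end Fermat.Agent.S36.H45
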