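/-
S36 (Carayol), row (E5) (helper46): **producers of `PlaceBridge` and of the residue-field
inclusions**, structure-agnostic (bare `ResPlace` data, so that they apply verbatim to
`CA.H99.PlaceOver`, `CA.H99.PlaceOverU` and `S36.H6.PlaceOverRam`).

* `ResPlace.toValSub` : the valuation subring of a `ResPlace` with `y ∈ O1 ∨ y⁻¹ ∈ O1`;
  `placeBridge_toValSub`;
* `placeBridge_chart` : for a chart `B` (noetherian, integrally closed) and a height-one prime `p`
  which is the centre of the place (`b ∈ p ↔ res b = 0`):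
  `PlaceBridge R (H56.valuationSubringAt p h1)`   [via helper84's
  `S35.H84.valuationSubringAt_eq_of_centre`];
* `resUnits_le_of_repr` : `f = 1`: if the place `R` of `F2` is presented over `Q.O1` by a generator
  `θ` whose residue is the residue of an element `t` of `Q.O1`, every non-zero residue of `R` is a
  non-zero residue of `Q`   [`hsurj_s`, `hsurj_m` of `H46.towerValU_of_places`, `hQsRs` of
  `H46.exists_hG_three_coprime`].
-/
import Mathlib
import Fermat.Agent.S36.H46_PlaceBridge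
import Fermat.Agent.S35.H84_VertPlace

set_option autoImplicit false
set_option linter.unusedSectionVars false

namespace Fermat.Agent.S36.H46

open Polynomial Fermat.Agent.S34 Fermat.Agent.S34.H47 Fermat.Agent.S35 Fermat.Agent.S35.H46

section ToValSub

variable {F κ : Type*} [Field F] [Field κ]

/-- The valuation subring of a `ResPlace` whose ring is a valuation ring. -/
def toValSub (R : ResPlace F κ) (hval : ∀ y : F, y ∈ R.O1 ∨ y⁻¹ ∈ R.O1) : ValuationSubring F :=
  { R.O1 with mem_or_inv_mem' := hval }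

theorem mem_toValSub (R : ResPlace F κ) (hval : ∀ y : F, y ∈ R.O1 ∨ y⁻¹ ∈ R.O1) {y : F} :
    y ∈ toValSub R hval ↔ y ∈ R.O1 := Iff.rfl

/-- an element with zero residue is not a unit of the ring. -/
theorem inv_not_mem_of_res_eq_zero (R : ResPlace F κ) {y : F} (hy : y ∈ R.O1)
    (h0 : R.res ⟨y, hy⟩ = 0) (hy0 : y ≠ 0) : y⁻¹ ∉ R.O1 := by
  intro hinv
  have hmul : (⟨y, hy⟩ : R.O1) * ⟨y⁻¹, hinv⟩ = 1 := Subtype.ext (mul_inv_cancel₀ hy0)
  have h3 := congrArg R.res hmul
  rw [map_mul, map_one, h0, zero_mul] at h3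
  exact zero_ne_one h3

theorem placeBridge_toValSub (R : ResPlace F κ) (hval : ∀ y : F, y ∈ R.O1 ∨ y⁻¹ ∈ R.O1) :
    PlaceBridge R (toValSub R hval) where
  hO := fun _ => Iff.rfl
  hker := by
    intro y hy h0
    by_cases hy0 : y = 0
    · rw [hy0, map_zero]
      exact zero_lt_one
    · have h1 : (toValSub R hval).valuation y ≤ 1 :=
        ((toValSub R hval).valuation_le_one_iff y).mpr hy
      refine lt_of_le_of_ne h1 ?_
      intro h2
      have h3 : (toValSub R hval).valuation y⁻¹ ≤ 1 := by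
        rw [map_inv₀, h2, inv_one]
      exact inv_not_mem_of_res_eq_zero R hy h0 hy0
        (((toValSub R hval).valuation_le_one_iff y⁻¹).mp h3)

end ToValSub

section Chart

variable {B F : Type*} [CommRing B] [IsDomain B] [Field F] [Algebra B F] [IsFractionRing B F]
  [IsNoetherianRing B] [IsIntegrallyClosed B] {κ : Type*} [Field κ]

/-- **The place bridge at a vertical prime of a chart.** -/
theorem placeBridge_chart (p : Ideal B) [hp : p.IsPrime] (h1 : p.height = 1)
    (R : ResPlace F κ) (hval : ∀ y : F, y ∈ R.O1 ∨ y⁻¹ ∈ R.O1)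
    (hB : ∀ b : B, algebraMap B F b ∈ R.O1)
    (hred : ∀ b : B, b ∈ p ↔ R.res ⟨algebraMap B F b, hB b⟩ = 0) :
    PlaceBridge R (H56.valuationSubringAt (K := F) p h1) := by
  have b0 := placeBridge_toValSub R hval
  have e : H56.valuationSubringAt (K := F) p h1 = toValSub R hval := by
    refine H84.valuationSubringAt_eq_of_centre p h1 (toValSub R hval) hB (fun b => ?_)
    rw [hred b]
    constructor
    · intro h0
      exact b0.hker _ (hB b) h0
    · intro hlt
      exact b0.res_eq_zero (hB b) hlt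
  rw [e]
  exact b0

end Chart

section Surj

variable {F1 F2 κ : Type*} [Field F1] [Field F2] [Field κ]

/-- **`f = 1`: residues above are residues below.**  `R` is presented over the ring `Q.O1` of the
place below (`[Algebra Q.O1 F2]`) by `θ`, with reduction `p(θ) ↦ p^{res}(θb)`,
and `θb = res t` for some `t ∈ Q.O1`. -/
theorem resUnits_le_of_repr (Q : ResPlace F1 κ) (R : ResPlace F2 κ)
    [Algebra Q.O1 F2] (θ : F2) (t : Q.O1)
    (hres : ∀ p : (Q.O1)[X], ∃ h : aeval θ p ∈ R.O1, R.res ⟨aeval θ p, h⟩ = p.eval₂ Q.res (Q.res t))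
    (hrepr : ∀ y ∈ R.O1, ∃ p s : (Q.O1)[X], s.eval₂ Q.res (Q.res t) ≠ 0 ∧
      y * aeval θ s = aeval θ p) :
    ∀ s ∈ R.resUnits, s ∈ Q.resUnits := by
  rintro s ⟨y, hy, hys⟩
  obtain ⟨p, d, hd, e⟩ := hrepr y hy
  obtain ⟨hdm, hdr⟩ := hres d
  obtain ⟨hpm, hpr⟩ := hres p
  have hev : ∀ r : (Q.O1)[X], r.eval₂ Q.res (Q.res t) = Q.res (r.eval t) := by
    intro r
    have := Polynomial.hom_eval₂ r (RingHom.id Q.O1) Q.res t
    rw [RingHom.comp_id, eval₂_id] at this
    exact this.symm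
  -- `s * res (d t) = res (p t)`
  have h1 : R.res ⟨y, hy⟩ * R.res ⟨aeval θ d, hdm⟩ = R.res ⟨aeval θ p, hpm⟩ := by
    have : (⟨y, hy⟩ : R.O1) * ⟨aeval θ d, hdm⟩ = ⟨aeval θ p, hpm⟩ := Subtype.ext e
    rw [← map_mul, this]
  rw [hys, hdr, hpr, hev, hev] at h1
  rw [hev] at hd
  -- the quotient below
  have hdinv : ((d.eval t : Q.O1) : F1)⁻¹ ∈ Q.O1 := Q.inv_mem _ (d.eval t).2 hd
  have hd0 : ((d.eval t : Q.O1) : F1) ≠ 0 := by
    intro h0
    apply hd
    have : (d.eval t : Q.O1) = 0 := Subtype.ext h0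
    rw [this, map_zero]
  refine ⟨(p.eval t : Q.O1) * ((d.eval t : Q.O1) : F1)⁻¹, Q.O1.mul_mem (p.eval t).2 hdinv, ?_⟩
  have h2 : (⟨(p.eval t : Q.O1) * ((d.eval t : Q.O1) : F1)⁻¹, Q.O1.mul_mem (p.eval t).2 hdinv⟩
      : Q.O1) * (d.eval t) = p.eval t := by
    apply Subtype.ext
    show (p.eval t : Q.O1) * ((d.eval t : Q.O1) : F1)⁻¹ * ((d.eval t : Q.O1) : F1) = _
    rw [mul_assoc, inv_mul_cancel₀ hd0, mul_one]
  have h3 := congrArg Q.res h2
  rw [map_mul] at h3
  exact mul_right_cancel₀ hd (h3.trans h1.symm)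

end Surj

end Fermat.Agent.S36.H46
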