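/-
S36 (Carayol), row (E5) real-type seam (helper46): the hypotheses `hVs hVm hVi hWs hWi`
(`V.toSubring = P.O1`) of helper16's `S36.H16.towerValU_of_placeOver` at the vertical primes of a
chart: for a chart `B` (noetherian, integrally closed, `Frac B = F`), a height-one prime `p` and a
place (`ResPlace` with valuation ring) whose centre on `B` is `p`:

  `(H56.valuationSubringAt p h1).toSubring = R.O1`.
-/
import Mathlib
import Fermat.Agent.S36.H46_PlaceBridgeMk

set_option autoImplicit false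
set_option linter.unusedSectionVars false

namespace Fermat.Agent.S36.H46

open Fermat.Agent.S34 Fermat.Agent.S35 Fermat.Agent.S35.H46

variable {B F : Type*} [CommRing B] [IsDomain B] [Field F] [Algebra B F] [IsFractionRing B F]
  [IsNoetherianRing B] [IsIntegrallyClosed B] {κ : Type*} [Field κ]

/-- the valuation subring of a vertical prime is the valuation subring of the place centred
there. -/
theorem valuationSubringAt_eq_toValSub (p : Ideal B) [hp : p.IsPrime] (h1 : p.height = 1)
    (R : ResPlace F κ) (hval : ∀ y : F, y ∈ R.O1 ∨ y⁻¹ ∈ R.O1)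
    (hB : ∀ b : B, algebraMap B F b ∈ R.O1)
    (hred : ∀ b : B, b ∈ p ↔ R.res ⟨algebraMap B F b, hB b⟩ = 0) :
    H56.valuationSubringAt (K := F) p h1 = toValSub R hval := by
  have b0 := placeBridge_toValSub R hval
  refine H84.valuationSubringAt_eq_of_centre p h1 (toValSub R hval) hB (fun b => ?_)
  rw [hred b]
  exact ⟨fun h0 => b0.hker _ (hB b) h0, fun hlt => b0.res_eq_zero (hB b) hlt⟩

/-- **`V.toSubring = P.O1` at a vertical prime of a chart.** -/
theorem valuationSubringAt_toSubring_eq (p : Ideal B) [hp : p.IsPrime] (h1 : p.height = 1)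
    (R : ResPlace F κ) (hval : ∀ y : F, y ∈ R.O1 ∨ y⁻¹ ∈ R.O1)
    (hB : ∀ b : B, algebraMap B F b ∈ R.O1)
    (hred : ∀ b : B, b ∈ p ↔ R.res ⟨algebraMap B F b, hB b⟩ = 0) :
    (H56.valuationSubringAt (K := F) p h1).toSubring = R.O1 := by
  rw [valuationSubringAt_eq_toValSub p h1 R hval hB hred]
  rfl

/-- bare form (ring `O1`, reduction `res`, as in `PlaceOver` / `PlaceOverRam`). -/
theorem valuationSubringAt_toSubring_eq' (p : Ideal B) [hp : p.IsPrime] (h1 : p.height = 1)
    (O1 : Subring F) (res : O1 →+* κ)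
    (hinv : ∀ (y : F) (hy : y ∈ O1), res ⟨y, hy⟩ ≠ 0 → y⁻¹ ∈ O1)
    (hval : ∀ y : F, y ∈ O1 ∨ y⁻¹ ∈ O1)
    (hB : ∀ b : B, algebraMap B F b ∈ O1)
    (hred : ∀ b : B, b ∈ p ↔ res ⟨algebraMap B F b, hB b⟩ = 0) :
    (H56.valuationSubringAt (K := F) p h1).toSubring = O1 :=
  valuationSubringAt_toSubring_eq p h1 ⟨O1, res, hinv⟩ hval hB hred

end Fermat.Agent.S36.H46
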