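/-
helper46 -- S36 (Carayol), row (E5-bc), real types, **consumer form** of `S36.H46.dominates_chartE`
/ `denseIn_chartE`: the `A''`-chart is `chartB A'' J_E` for ANY coordinate `J_E` with
`hJ : baseChangeE E N J₁ = J_E` (e.g. `J_E = J3K ↥E ..`, `JK ↥E ..` and their inverses), the chart
map is helper95's `S34.H95.chartBC E N J₁ J_E hJ`, and the `A''`-level reduction is ANY ring hom `r`
with `r ∘ chartBC = red` (and `r π = 0` for `DenseIn`) -- the clauses output by
`S36.H70.exists_threeComponentsE_J3K(_inv)` and `S35.H70.exists_twoComponentsE_JK`.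
-/
import Mathlib
import Fermat.Agent.S36.H46_DominatesReal
import Fermat.Agent.S34.H95_ChartBC

set_option autoImplicit false
set_option linter.unusedSectionVars false
set_option linter.style.haveILetI false
set_option synthInstance.maxHeartbeats 400000
set_option maxHeartbeats 3200000

noncomputable section

namespace Fermat.Agent.S36.H46

open ModularCurve IsLocalRing
open Fermat.Agent.S18 Fermat.Agent.CA Fermat.Agent.S34 Fermat.Agent.S35.H70

local notation "Qbar" => AlgebraicClosure ℚ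

variable {A : ValuationSubring Qbar} {ℓ : ℕ} (hℓ : ℓ.Prime) (hA : A.LiesOverPrime ℓ)
variable (E : IntermediateField (H45.unrCyclo ℓ) Qbar) (N : ℕ) [NeZero N]
variable (J₁ : ↥(modularFunctionFieldFullC ↥(H45.unrCyclo ℓ) N))
  (J_E : ↥(modularFunctionFieldFullC ↥E N)) (hJ : H45.baseChangeE E N J₁ = J_E)

include hℓ hA in
/-- **The decomposition `C = chartBC B + π C`** of the `A''`-chart `chartB A'' J_E`. -/
theorem exists_eq_chartBC_add_mul
    (π : ↥(H45.cutOver A E)) (hπ : maximalIdeal ↥(H45.cutOver A E) = Ideal.span {π})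
    (h : GenBy (A := A) E N J₁)
    (z : ↥(H40.chartB ↥(H45.cutOver A E) J_E)) :
    ∃ (b : ↥(H40.chartB ↥(H45.A0 A ℓ) J₁)) (z' : ↥(H40.chartB ↥(H45.cutOver A E) J_E)),
      z = S34.H95.chartBC (A := A) E N J₁ J_E hJ b +
        algebraMap ↥(H45.cutOver A E) ↥(H40.chartB ↥(H45.cutOver A E) J_E) π * z' := by
  subst hJ
  obtain ⟨b, z', hz⟩ := exists_eq_chartMapE_add_mul hℓ hA E N J₁ π hπ h z
  exact ⟨b, z', hz⟩

variable {R₀ : Type*} [CommRing R₀]
  (red : ↥(H40.chartB ↥(H45.A0 A ℓ) J₁) →+* R₀)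
  (r : ↥(H40.chartB ↥(H45.cutOver A E) J_E) →+* R₀)
  (hcomp : ∀ b, r (S34.H95.chartBC (A := A) E N J₁ J_E hJ b) = red b)

variable [IsFractionRing ↥(H40.chartB ↥(H45.A0 A ℓ) J₁)
    ↥(modularFunctionFieldFullC ↥(H45.unrCyclo ℓ) N)]
  [IsNoetherianRing ↥(H40.chartB ↥(H45.A0 A ℓ) J₁)]
  [IsIntegrallyClosed ↥(H40.chartB ↥(H45.A0 A ℓ) J₁)]
  [IsFractionRing ↥(H40.chartB ↥(H45.cutOver A E) J_E) ↥(modularFunctionFieldFullC ↥E N)]
  [IsNoetherianRing ↥(H40.chartB ↥(H45.cutOver A E) J_E)]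
  [IsIntegrallyClosed ↥(H40.chartB ↥(H45.cutOver A E) J_E)]
  (P : Ideal ↥(H40.chartB ↥(H45.A0 A ℓ) J₁)) [P.IsPrime] (hP : P.height = 1)
  (hPker : P = RingHom.ker red)
  (Q : Ideal ↥(H40.chartB ↥(H45.cutOver A E) J_E)) [Q.IsPrime]
  (hQ : Q.height = 1) (hQker : Q = RingHom.ker r)

include hcomp hPker hQker in
theorem chartBC_mem_iff (b : ↥(H40.chartB ↥(H45.A0 A ℓ) J₁)) :
    S34.H95.chartBC (A := A) E N J₁ J_E hJ b ∈ Q ↔ b ∈ P := by
  rw [hPker, hQker, RingHom.mem_ker, RingHom.mem_ker, hcomp]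

include hcomp hPker hQker in
/-- **`Dominates` along the chart base change `chartBC`** (any `A''`-level reduction `r` extending
`red`). -/
theorem dominates_chartBC :
    Dominates (H45.baseChangeE E N)
      (H56.valuationSubringAt
        (K := ↥(modularFunctionFieldFullC ↥(H45.unrCyclo ℓ) N)) P hP)
      (H56.valuationSubringAt (K := ↥(modularFunctionFieldFullC ↥E N)) Q hQ) :=
  dominates_of_chart (S34.H95.chartBC (A := A) E N J₁ J_E hJ) (H45.baseChangeE E N)
    (fun _ => rfl) P hP Q hQ (chartBC_mem_iff E N J₁ J_E hJ red r hcomp P hPker Q hQker)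

include hℓ hA hcomp hPker hQker in
/-- **`DenseIn` along the chart base change `chartBC`** (trivial residue extension): needs
moreover `r π = 0` and the generation hypothesis `GenBy` of the decomposition. -/
theorem denseIn_chartBC
    (π : ↥(H45.cutOver A E)) (hπ : maximalIdeal ↥(H45.cutOver A E) = Ideal.span {π})
    (h : GenBy (A := A) E N J₁)
    (hrπ : r (algebraMap ↥(H45.cutOver A E) ↥(H40.chartB ↥(H45.cutOver A E) J_E) π) = 0) :
    DenseIn (H45.baseChangeE E N)
      (H56.valuationSubringAt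
        (K := ↥(modularFunctionFieldFullC ↥(H45.unrCyclo ℓ) N)) P hP)
      (H56.valuationSubringAt (K := ↥(modularFunctionFieldFullC ↥E N)) Q hQ) := by
  refine denseIn_of_chart (S34.H95.chartBC (A := A) E N J₁ J_E hJ) (H45.baseChangeE E N)
    (fun _ => rfl) P hP Q hQ (chartBC_mem_iff E N J₁ J_E hJ red r hcomp P hPker Q hQker)
    (algebraMap ↥(H45.cutOver A E) ↥(H40.chartB ↥(H45.cutOver A E) J_E) π) ?_
    (exists_eq_chartBC_add_mul hℓ hA E N J₁ J_E hJ π hπ h)
  rw [hQker, RingHom.mem_ker]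
  exact hrπ

end Fermat.Agent.S36.H46
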