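/-
S36 (Carayol), row (E5) "Step 3: norm reduction at the three places" (helper46): the ABSTRACT
three-place residue assembly, in the vocabulary of `S35/H46_G3Assembly`, `S35/H46_G3Inst`
(`ResPlace`, `HasRes`, `kummerS`).

`F` = function field of level `q² M₀` with its three vertical places `P₁ P₂ P₃`
(components `(2,0), (1,1), (0,2)`; `(e,f) = (1,1), (q-1,1), (1,q²)`), `FM` = function field of level
`q M₀` reached by the two norms `Nα Nβ`.  Over `α`: `P₁ (1,1)`, `P₂ (q-1,1)` lie over one place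
`Qa` and `P₃ (1,q)` over the other `Qb`; over `β`: `P₁ (1,q)` over `Qa'`, and `P₂ (q-1,1)`,
`P₃ (1,1)` over `Qb'`.  The four norm reductions

  `res_Qa (Nα u) = f₁ (res₁ u) * f₂ (res₂ u) ^ e`,   `res_Qb (Nα u) = f₃ (res₃ u)`,
  `res_Qa' (Nβ u) = g₁ (res₁ u)`,   `res_Qb' (Nβ u) = g₂ (res₂ u) ^ e * g₃ (res₃ u)`      (`e = q - 1`)

are hypotheses (`f₃ g₁` = the `q`-th power/coefficient-Frobenius maps of the purely inseparable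
residue extensions, the others = identifications).  If the residues of `Nα u`, `Nβ u` lie in
subgroups `Sa Sb Sa'` (`= kˣ · κˣᵐ`, from `N f = c hᵐ`) then `res₁ u ∈ S₁`, `res₃ u ∈ S₃`,
`(res₂ u) ^ e ∈ S₂` — four equations, three unknowns; the fourth equation is not used.
-/
import Mathlib
import Fermat.Agent.S35.H46_G3Inst

set_option autoImplicit false
set_option linter.unusedSectionVars false

namespace Fermat.Agent.S36.H46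

open Fermat.Agent.S35.H46 Fermat.Agent.S34.H47

section Three

variable {F FM : Type*} [Field F] [Field FM]
  {κ₁ κ₂ κ₃ κa κb κa' : Type*} [Field κ₁] [Field κ₂] [Field κ₃] [Field κa] [Field κb] [Field κa']

/-- **(E5), residue form.**  See the header. -/
theorem three_residues
    {P₁ : ResPlace F κ₁} {P₂ : ResPlace F κ₂} {P₃ : ResPlace F κ₃}
    {Qa : ResPlace FM κa} {Qb : ResPlace FM κb} {Qa' : ResPlace FM κa'}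
    (Nα Nβ : F →* FM) (e : ℕ)
    (f₁ : κ₁ˣ →* κaˣ) (f₂ : κ₂ˣ →* κaˣ) (f₃ : κ₃ˣ →* κbˣ) (g₁ : κ₁ˣ →* κa'ˣ)
    (S₁ : Subgroup κ₁ˣ) (S₂ : Subgroup κ₂ˣ) (S₃ : Subgroup κ₃ˣ)
    (Sa : Subgroup κaˣ) (Sb : Subgroup κbˣ) (Sa' : Subgroup κa'ˣ)
    -- transport of the subgroups along the residue-field maps
    (hf₃ : ∀ s, f₃ s ∈ Sb → s ∈ S₃) (hg₁ : ∀ s, g₁ s ∈ Sa' → s ∈ S₁)
    (hf₁ : ∀ s, s ∈ S₁ → f₁ s ∈ Sa) (hf₂ : ∀ s, f₂ s ∈ Sa → s ∈ S₂)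
    -- three of the four norm reductions
    (g2α₁ : ∀ u s₁ s₂, P₁.HasRes u s₁ → P₂.HasRes u s₂ →
      Qa.HasRes (Nα u) (f₁ s₁ * f₂ s₂ ^ e))
    (g2α₂ : ∀ u s₃, P₃.HasRes u s₃ → Qb.HasRes (Nα u) (f₃ s₃))
    (g2β₁ : ∀ u s₁, P₁.HasRes u s₁ → Qa'.HasRes (Nβ u) (g₁ s₁))
    {u : F} {s₁ : κ₁ˣ} {s₂ : κ₂ˣ} {s₃ : κ₃ˣ}
    (h₁ : P₁.HasRes u s₁) (h₂ : P₂.HasRes u s₂) (h₃ : P₃.HasRes u s₃)
    {ta : κaˣ} {tb : κbˣ} {ta' : κa'ˣ}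
    (hαa : Qa.HasRes (Nα u) ta) (hαb : Qb.HasRes (Nα u) tb) (hβa : Qa'.HasRes (Nβ u) ta')
    (hta : ta ∈ Sa) (htb : tb ∈ Sb) (hta' : ta' ∈ Sa') :
    s₁ ∈ S₁ ∧ s₂ ^ e ∈ S₂ ∧ s₃ ∈ S₃ := by
  have e₃ : f₃ s₃ = tb := (g2α₂ u s₃ h₃).unique hαb
  have e₁ : g₁ s₁ = ta' := (g2β₁ u s₁ h₁).unique hβa
  have e₂ : f₁ s₁ * f₂ s₂ ^ e = ta := (g2α₁ u s₁ s₂ h₁ h₂).unique hαa
  have m₃ : s₃ ∈ S₃ := hf₃ _ (e₃ ▸ htb)
  have m₁ : s₁ ∈ S₁ := hg₁ _ (e₁ ▸ hta')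
  refine ⟨m₁, ?_, m₃⟩
  apply hf₂
  rw [map_pow]
  have h4 : f₂ s₂ ^ e = (f₁ s₁)⁻¹ * ta := by rw [← e₂, inv_mul_cancel_left]
  rw [h4]
  exact Sa.mul_mem (Sa.inv_mem (hf₁ _ m₁)) hta

/-- the symmetric variant using the `β`-equation at the place below `P₂, P₃` instead of the
`α`-equation at the place below `P₁, P₂`. -/
theorem three_residues' {κb' : Type*} [Field κb']
    {P₁ : ResPlace F κ₁} {P₂ : ResPlace F κ₂} {P₃ : ResPlace F κ₃}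
    {Qb : ResPlace FM κb} {Qa' : ResPlace FM κa'} {Qb' : ResPlace FM κb'}
    (Nα Nβ : F →* FM) (e : ℕ)
    (f₃ : κ₃ˣ →* κbˣ) (g₁ : κ₁ˣ →* κa'ˣ) (g₂ : κ₂ˣ →* κb'ˣ) (g₃ : κ₃ˣ →* κb'ˣ)
    (S₁ : Subgroup κ₁ˣ) (S₂ : Subgroup κ₂ˣ) (S₃ : Subgroup κ₃ˣ)
    (Sb : Subgroup κbˣ) (Sa' : Subgroup κa'ˣ) (Sb' : Subgroup κb'ˣ)
    (hf₃ : ∀ s, f₃ s ∈ Sb → s ∈ S₃) (hg₁ : ∀ s, g₁ s ∈ Sa' → s ∈ S₁)
    (hg₃ : ∀ s, s ∈ S₃ → g₃ s ∈ Sb') (hg₂ : ∀ s, g₂ s ∈ Sb' → s ∈ S₂)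
    (g2α₂ : ∀ u s₃, P₃.HasRes u s₃ → Qb.HasRes (Nα u) (f₃ s₃))
    (g2β₁ : ∀ u s₁, P₁.HasRes u s₁ → Qa'.HasRes (Nβ u) (g₁ s₁))
    (g2β₂ : ∀ u s₂ s₃, P₂.HasRes u s₂ → P₃.HasRes u s₃ →
      Qb'.HasRes (Nβ u) (g₂ s₂ ^ e * g₃ s₃))
    {u : F} {s₁ : κ₁ˣ} {s₂ : κ₂ˣ} {s₃ : κ₃ˣ}
    (h₁ : P₁.HasRes u s₁) (h₂ : P₂.HasRes u s₂) (h₃ : P₃.HasRes u s₃)
    {tb : κbˣ} {ta' : κa'ˣ} {tb' : κb'ˣ}
    (hαb : Qb.HasRes (Nα u) tb) (hβa : Qa'.HasRes (Nβ u) ta') (hβb : Qb'.HasRes (Nβ u) tb')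
    (htb : tb ∈ Sb) (hta' : ta' ∈ Sa') (htb' : tb' ∈ Sb') :
    s₁ ∈ S₁ ∧ s₂ ^ e ∈ S₂ ∧ s₃ ∈ S₃ := by
  have e₃ : f₃ s₃ = tb := (g2α₂ u s₃ h₃).unique hαb
  have e₁ : g₁ s₁ = ta' := (g2β₁ u s₁ h₁).unique hβa
  have e₂ : g₂ s₂ ^ e * g₃ s₃ = tb' := (g2β₂ u s₂ s₃ h₂ h₃).unique hβb
  have m₃ : s₃ ∈ S₃ := hf₃ _ (e₃ ▸ htb)
  have m₁ : s₁ ∈ S₁ := hg₁ _ (e₁ ▸ hta')
  refine ⟨m₁, ?_, m₃⟩
  apply hg₂
  rw [map_pow]
  have h4 : g₂ s₂ ^ e = tb' * (g₃ s₃)⁻¹ := by rw [← e₂, mul_inv_cancel_right]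
  rw [h4]
  exact Sb'.mul_mem htb' (Sb'.inv_mem (hg₃ _ m₃))

end Three


/-! ### the common-residue-field form (helper16's output shape) -/

section Common

variable {F FM κF : Type*} [Field F] [Field FM] [Field κF]

/-- **(E5), residue form, all residues in ONE field `κF`** (`= LaurentSeries kA` in the instance),
in the output shape of helper16's `S36.H16.hasRes_norm_ram_pair` / `hasRes_norm_insep`:
`P₂` the place with `e = q - 1 = e`, `P₁`, `P₃` the two multiplicity-one places, `φb` the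
coefficient Frobenius (`z ^ q = F' (φb z)`), `S` a subgroup with `φb s ∈ S → s ∈ S`. -/
theorem three_residues_frob {P₁ P₂ P₃ : ResPlace F κF} {Qa Qb Qa' : ResPlace FM κF}
    (Nα Nβ : F →* FM) (e : ℕ) (φb : κF →+* κF) (S : Subgroup κFˣ)
    (hSφ : ∀ s, Units.map (φb : κF →* κF) s ∈ S → s ∈ S)
    (g2α₁ : ∀ u s₂ s₁, P₂.HasRes u s₂ → P₁.HasRes u s₁ → Qa.HasRes (Nα u) (s₂ ^ e * s₁))
    (g2α₂ : ∀ u s₃, P₃.HasRes u s₃ → Qb.HasRes (Nα u) (Units.map (φb : κF →* κF) s₃))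
    (g2β₁ : ∀ u s₁, P₁.HasRes u s₁ → Qa'.HasRes (Nβ u) (Units.map (φb : κF →* κF) s₁))
    {u : F} {s₁ s₂ s₃ : κFˣ}
    (h₁ : P₁.HasRes u s₁) (h₂ : P₂.HasRes u s₂) (h₃ : P₃.HasRes u s₃)
    {ta tb ta' : κFˣ}
    (hαa : Qa.HasRes (Nα u) ta) (hαb : Qb.HasRes (Nα u) tb) (hβa : Qa'.HasRes (Nβ u) ta')
    (hta : ta ∈ S) (htb : tb ∈ S) (hta' : ta' ∈ S) :
    s₁ ∈ S ∧ s₂ ^ e ∈ S ∧ s₃ ∈ S :=
  three_residues Nα Nβ e (MonoidHom.id κFˣ) (MonoidHom.id κFˣ)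
    (Units.map (φb : κF →* κF)) (Units.map (φb : κF →* κF)) S S S S S S
    hSφ hSφ (fun _ h => h) (fun _ h => h)
    (fun u s₁ s₂ k₁ k₂ => by
      have := g2α₁ u s₂ s₁ k₂ k₁
      rwa [mul_comm] at this)
    g2α₂ g2β₁ h₁ h₂ h₃ hαa hαb hβa hta htb hta'

end Common


/-! ### the producer of `ta ∈ S`: residues of `N u = c * h ^ m` -/

section NormConst

variable {FM κF k : Type*} [Field FM] [Field κF] [Field k]

/-- **The residue of a unit of the form `c * h ^ m` lies in `kˣ · κˣᵐ`.**  `PM` a place with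
uniformiser `π` (`hunif`: every non-zero `x` is `π ^ n` times a unit with a residue; `hπ`: a power
`π ^ n` with a non-zero residue has `n = 0`), `c` a "constant" (`hc`: `c = π ^ a` times a unit with
constant residue).  If `y = c * h ^ m` has a non-zero residue `t`, then `t ∈ kummerS ιk PM m`.
(The valuations of `c` and of `h ^ m` cancel: `a + m n = 0`.) -/
theorem mem_kummerS_of_eq_const_mul_pow {PM : ResPlace FM κF} (ιk : k →+* κF) {π : FM}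
    (hπ0 : π ≠ 0)
    (hunif : ∀ x : FM, x ≠ 0 → ∃ (n : ℤ) (s : κFˣ), PM.HasRes (x * π ^ (-n)) s)
    (hπ : ∀ (n : ℤ) (s : κFˣ), PM.HasRes (π ^ n) s → n = 0)
    {y c h : FM} {m : ℕ} {t : κFˣ} (hy : PM.HasRes y t)
    (hc : ∃ (a : ℤ) (r : kˣ), PM.HasRes (c * π ^ (-a)) (Units.map (ιk : k →* κF) r))
    (hh0 : h ≠ 0) (hnorm : y = c * h ^ m) : t ∈ kummerS ιk PM m := by
  obtain ⟨a, r, hcr⟩ := hc
  obtain ⟨n, s, hhs⟩ := hunif h hh0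
  have h1 : PM.HasRes ((c * π ^ (-a)) * (h * π ^ (-n)) ^ m)
      (Units.map (ιk : k →* κF) r * s ^ m) := hcr.mul (hhs.pow m)
  have hA : π ^ (-a) = (π ^ a)⁻¹ := zpow_neg π a
  have hB : π ^ (-n) = (π ^ n)⁻¹ := zpow_neg π n
  have hAB : π ^ (a + (m : ℤ) * n) = π ^ a * (π ^ n) ^ m := by
    rw [zpow_add₀ hπ0, mul_comm (m : ℤ) n, zpow_mul, zpow_natCast]
  have hA0 : π ^ a ≠ 0 := zpow_ne_zero _ hπ0
  have hB0 : π ^ n ≠ 0 := zpow_ne_zero _ hπ0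
  have h2 : y = ((c * π ^ (-a)) * (h * π ^ (-n)) ^ m) * π ^ (a + (m : ℤ) * n) := by
    rw [hnorm, hA, hB, hAB, mul_pow, inv_pow]
    field_simp
  have h10 : (c * π ^ (-a)) * (h * π ^ (-n)) ^ m ≠ 0 := h1.ne_zero
  have h3 : π ^ (a + (m : ℤ) * n) = y / ((c * π ^ (-a)) * (h * π ^ (-n)) ^ m) := by
    rw [h2, mul_div_cancel_left₀ _ h10]
  have h4 : PM.HasRes (π ^ (a + (m : ℤ) * n)) (t / (Units.map (ιk : k →* κF) r * s ^ m)) := by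
    rw [h3]
    exact hy.div h1
  have h5 : a + (m : ℤ) * n = 0 := hπ _ _ h4
  rw [h5, zpow_zero, mul_one] at h2
  have h6 : t = Units.map (ιk : k →* κF) r * s ^ m := by
    have h7 := h1
    rw [← h2] at h7
    exact hy.unique h7
  rw [h6]
  exact mul_pow_mem_kummerS r hhs.mem_resUnits

end NormConst

/-! ### the pull-back property for the `q`-th power map -/

section Frobenius

variable {κ κ' k : Type*} [Field κ] [Field κ'] [Field k]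

/-- **Pull-back of `kˣ · κˣᵐ` along a purely inseparable residue extension.**  `j : κ' →+* κ` an
embedding with `κ ^ q ⊆ j κ'` (`hq`), `N : κˣ →* κ'ˣ` the norm, `j (N s) = s ^ q`; `U' ⊆ κ'ˣ` and
`U ⊆ κˣ` the residue-unit groups with `j⁻¹`-compatibility: every element of `U'` is `N` of an
element of `U` (`hU`); constants: `ι' c = N (ι (ρ c))`-type surjectivity (`hconst`).
If `N s ∈ kˣ · U'ᵐ` then `s ∈ kˣ · Uᵐ`. -/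
theorem mem_of_norm_mem (N : κˣ →* κ'ˣ) (hN : Function.Injective N)
    (C : Subgroup κˣ) (C' : Subgroup κ'ˣ) (U : Subgroup κˣ) (U' : Subgroup κ'ˣ)
    (hC : ∀ c' ∈ C', ∃ c ∈ C, N c = c') (hU : ∀ t' ∈ U', ∃ t ∈ U, N t = t') (m : ℕ) {s : κˣ}
    (hs : N s ∈ C' ⊔ U'.map (powMonoidHom m)) : s ∈ C ⊔ U.map (powMonoidHom m) := by
  obtain ⟨c', hc', z, ⟨t', ht', rfl⟩, hcz⟩ := Subgroup.mem_sup.mp hs
  obtain ⟨c, hc, rfl⟩ := hC c' hc'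
  obtain ⟨t, ht, rfl⟩ := hU t' ht'
  have h1 : N s = N (c * t ^ m) := by
    rw [map_mul, map_pow, ← hcz]; rfl
  rw [hN h1]
  exact Subgroup.mem_sup.mpr ⟨c, hc, t ^ m, ⟨t, ht, rfl⟩, rfl⟩

end Frobenius


/-! ### the `kummerS` form -/

section KummerForm

variable {F FM κF k : Type*} [Field F] [Field FM] [Field κF] [Field k]

/-- **(E5), residue form with `S = kˣ · (residue units)ᵐ` at every place.**  All residues in one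
field `κF`; `φb` the coefficient Frobenius, acting on constants through the surjective `σk`.
Place-level inputs (from the three-place L0): `R₁`, `R₂` have the same residue field as `Qa`
(`hQa₁ hQa₂`), `R₃` over `Qb` and `R₁` over `Qa'` are purely inseparable of degree `q`
(`hQb₃ hQa'₁`: every residue unit below is `φb` of a residue unit above). -/
theorem three_residues_kummerS {R₁ R₂ R₃ : ResPlace F κF} {Qa Qb Qa' : ResPlace FM κF}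
    (ιk : k →+* κF) (σk : k →+* k) (φb : κF →+* κF) (m e : ℕ)
    (hφbk : ∀ c : k, φb (ιk c) = ιk (σk c)) (hσ : Function.Surjective σk)
    (hQa₁ : ∀ t ∈ R₁.resUnits, t ∈ Qa.resUnits) (hQa₂ : ∀ t ∈ Qa.resUnits, t ∈ R₂.resUnits)
    (hQb₃ : ∀ t ∈ Qb.resUnits, ∃ t' ∈ R₃.resUnits, Units.map (φb : κF →* κF) t' = t)
    (hQa'₁ : ∀ t ∈ Qa'.resUnits, ∃ t' ∈ R₁.resUnits, Units.map (φb : κF →* κF) t' = t)
    (Nα Nβ : F →* FM)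
    (g2α₁ : ∀ u s₂ s₁, R₂.HasRes u s₂ → R₁.HasRes u s₁ → Qa.HasRes (Nα u) (s₂ ^ e * s₁))
    (g2α₂ : ∀ u s₃, R₃.HasRes u s₃ → Qb.HasRes (Nα u) (Units.map (φb : κF →* κF) s₃))
    (g2β₁ : ∀ u s₁, R₁.HasRes u s₁ → Qa'.HasRes (Nβ u) (Units.map (φb : κF →* κF) s₁))
    {u : F} {s₁ s₂ s₃ : κFˣ}
    (h₁ : R₁.HasRes u s₁) (h₂ : R₂.HasRes u s₂) (h₃ : R₃.HasRes u s₃)
    (hta : s₂ ^ e * s₁ ∈ kummerS ιk Qa m)
    (htb : Units.map (φb : κF →* κF) s₃ ∈ kummerS ιk Qb m)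
    (hta' : Units.map (φb : κF →* κF) s₁ ∈ kummerS ιk Qa' m) :
    s₁ ∈ kummerS ιk R₁ m ∧ s₂ ^ e ∈ kummerS ιk R₂ m ∧ s₃ ∈ kummerS ιk R₃ m := by
  have hinj : Function.Injective (Units.map (φb : κF →* κF)) := by
    intro x y hxy
    apply Units.ext
    have := congrArg Units.val hxy
    simp only [Units.coe_map, MonoidHom.coe_coe] at this
    exact φb.injective this
  have hC : ∀ c' ∈ (Units.map (ιk : k →* κF)).range,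
      ∃ c ∈ (Units.map (ιk : k →* κF)).range, Units.map (φb : κF →* κF) c = c' := by
    rintro _ ⟨x, rfl⟩
    obtain ⟨x₀, hx₀⟩ := hσ (x : k)
    have hx₀0 : x₀ ≠ 0 := by
      intro h0
      rw [h0, map_zero] at hx₀
      exact x.ne_zero hx₀.symm
    refine ⟨Units.map (ιk : k →* κF) (Units.mk0 x₀ hx₀0), ⟨_, rfl⟩, ?_⟩
    apply Units.ext
    simp only [Units.coe_map, MonoidHom.coe_coe, Units.val_mk0]
    rw [hφbk, hx₀]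
  have hmono : ∀ {U U' : Subgroup κFˣ}, (∀ t ∈ U, t ∈ U') → ∀ s,
      s ∈ (Units.map (ιk : k →* κF)).range ⊔ U.map (powMonoidHom m) →
      s ∈ (Units.map (ιk : k →* κF)).range ⊔ U'.map (powMonoidHom m) := by
    intro U U' hUU' s hs
    exact (sup_le_sup_left (Subgroup.map_mono (fun t ht => hUU' t ht)) _) hs
  exact three_residues Nα Nβ e (MonoidHom.id κFˣ) (MonoidHom.id κFˣ)
    (Units.map (φb : κF →* κF)) (Units.map (φb : κF →* κF))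
    (kummerS ιk R₁ m) (kummerS ιk R₂ m) (kummerS ιk R₃ m)
    (kummerS ιk Qa m) (kummerS ιk Qb m) (kummerS ιk Qa' m)
    (fun s hs => mem_of_norm_mem _ hinj _ _ _ _ hC hQb₃ m hs)
    (fun s hs => mem_of_norm_mem _ hinj _ _ _ _ hC hQa'₁ m hs)
    (fun s hs => hmono hQa₁ s hs) (fun s hs => hmono hQa₂ s hs)
    (fun u s₁ s₂ k₁ k₂ => by
      have := g2α₁ u s₂ s₁ k₂ k₁
      rwa [mul_comm] at this)
    g2α₂ g2β₁ h₁ h₂ h₃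
    (by
      have := g2α₁ u s₂ s₁ h₂ h₁
      rwa [mul_comm] at this)
    (g2α₂ u s₃ h₃) (g2β₁ u s₁ h₁)
    (by rwa [mul_comm] at hta) htb hta'

end KummerForm

/-! ### root extraction at the three places -/

section Roots

variable {F : Type*} [Field F] {κ₁ κ₂ κ₃ k : Type*} [Field κ₁] [Field κ₂] [Field κ₃] [Field k]

/-- **(E5), root form**: with `S_i = kˣ · (residue units of P_i)ᵐ` and `k` `m`-divisible, the
function `u ^ e` is at each of the three places the `m`-th power of a unit modulo `1`-units. -/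
theorem three_roots {P₁ : ResPlace F κ₁} {P₂ : ResPlace F κ₂} {P₃ : ResPlace F κ₃}
    (ι₁ : k →+* κ₁) (ι₂ : k →+* κ₂) (ι₃ : k →+* κ₃) (m e : ℕ)
    (hkroot : ∀ c : kˣ, ∃ c0 : kˣ, c0 ^ m = c)
    (hk₁ : ∀ c : kˣ, Units.map (ι₁ : k →* κ₁) c ∈ P₁.resUnits)
    (hk₂ : ∀ c : kˣ, Units.map (ι₂ : k →* κ₂) c ∈ P₂.resUnits)
    (hk₃ : ∀ c : kˣ, Units.map (ι₃ : k →* κ₃) c ∈ P₃.resUnits)
    {u : F} {s₁ : κ₁ˣ} {s₂ : κ₂ˣ} {s₃ : κ₃ˣ}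
    (h₁ : P₁.HasRes u s₁) (h₂ : P₂.HasRes u s₂) (h₃ : P₃.HasRes u s₃)
    (m₁ : s₁ ∈ kummerS ι₁ P₁ m) (m₂ : s₂ ^ e ∈ kummerS ι₂ P₂ m) (m₃ : s₃ ∈ kummerS ι₃ P₃ m) :
    (∃ (G : F) (t : κ₁ˣ), P₁.HasRes G t ∧ P₁.HasRes (u ^ e / G ^ m) 1) ∧
    (∃ (G : F) (t : κ₂ˣ), P₂.HasRes G t ∧ P₂.HasRes (u ^ e / G ^ m) 1) ∧
    (∃ (G : F) (t : κ₃ˣ), P₃.HasRes G t ∧ P₃.HasRes (u ^ e / G ^ m) 1) := by
  refine ⟨?_, ?_, ?_⟩
  · exact exists_root_of_hasRes (kummerS ι₁ P₁ m)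
      (fun s hs => exists_root_of_mem_kummerS hkroot hk₁ (fun t ht => ht) hs)
      ((kummerS ι₁ P₁ m).pow_mem m₁ e) (h₁.pow e)
  · exact exists_root_of_hasRes (kummerS ι₂ P₂ m)
      (fun s hs => exists_root_of_mem_kummerS hkroot hk₂ (fun t ht => ht) hs) m₂ (h₂.pow e)
  · exact exists_root_of_hasRes (kummerS ι₃ P₃ m)
      (fun s hs => exists_root_of_mem_kummerS hkroot hk₃ (fun t ht => ht) hs)
      ((kummerS ι₃ P₃ m).pow_mem m₃ e) (h₃.pow e)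

/-- **(E5), valuation form** (input shape of `S35.H62.exists_simultaneous_root` with
`κ := Fin 3`): `V i` the valuation rings of the three vertical components, identified with the
places (`hO i`, `hker i`: the place bridge). -/
theorem three_roots_oneU {P₁ : ResPlace F κ₁} {P₂ : ResPlace F κ₂} {P₃ : ResPlace F κ₃}
    (V₁ V₂ V₃ : ValuationSubring F)
    (hO₁ : ∀ y, y ∈ P₁.O1 → y ∈ V₁) (hO₂ : ∀ y, y ∈ P₂.O1 → y ∈ V₂) (hO₃ : ∀ y, y ∈ P₃.O1 → y ∈ V₃)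
    (hker₁ : ∀ (y : F) (hy : y ∈ P₁.O1), P₁.res ⟨y, hy⟩ = 0 → V₁.valuation y < 1)
    (hker₂ : ∀ (y : F) (hy : y ∈ P₂.O1), P₂.res ⟨y, hy⟩ = 0 → V₂.valuation y < 1)
    (hker₃ : ∀ (y : F) (hy : y ∈ P₃.O1), P₃.res ⟨y, hy⟩ = 0 → V₃.valuation y < 1)
    (ι₁ : k →+* κ₁) (ι₂ : k →+* κ₂) (ι₃ : k →+* κ₃) (m e : ℕ)
    (hkroot : ∀ c : kˣ, ∃ c0 : kˣ, c0 ^ m = c)
    (hk₁ : ∀ c : kˣ, Units.map (ι₁ : k →* κ₁) c ∈ P₁.resUnits)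
    (hk₂ : ∀ c : kˣ, Units.map (ι₂ : k →* κ₂) c ∈ P₂.resUnits)
    (hk₃ : ∀ c : kˣ, Units.map (ι₃ : k →* κ₃) c ∈ P₃.resUnits)
    {u : F} {s₁ : κ₁ˣ} {s₂ : κ₂ˣ} {s₃ : κ₃ˣ}
    (h₁ : P₁.HasRes u s₁) (h₂ : P₂.HasRes u s₂) (h₃ : P₃.HasRes u s₃)
    (m₁ : s₁ ∈ kummerS ι₁ P₁ m) (m₂ : s₂ ^ e ∈ kummerS ι₂ P₂ m) (m₃ : s₃ ∈ kummerS ι₃ P₃ m) :
    (∃ G : F, V₁.valuation G = 1 ∧ OneU V₁ (u ^ e / G ^ m)) ∧
    (∃ G : F, V₂.valuation G = 1 ∧ OneU V₂ (u ^ e / G ^ m)) ∧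
    (∃ G : F, V₃.valuation G = 1 ∧ OneU V₃ (u ^ e / G ^ m)) := by
  obtain ⟨⟨G₁, t₁, hG₁, r₁⟩, ⟨G₂, t₂, hG₂, r₂⟩, ⟨G₃, t₃, hG₃, r₃⟩⟩ :=
    three_roots ι₁ ι₂ ι₃ m e hkroot hk₁ hk₂ hk₃ h₁ h₂ h₃ m₁ m₂ m₃
  exact ⟨⟨G₁, valuation_eq_one_of_hasRes hO₁ hG₁, oneU_of_hasRes_one hker₁ r₁⟩,
    ⟨G₂, valuation_eq_one_of_hasRes hO₂ hG₂, oneU_of_hasRes_one hker₂ r₂⟩,
    ⟨G₃, valuation_eq_one_of_hasRes hO₃ hG₃, oneU_of_hasRes_one hker₃ r₃⟩⟩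

end Roots

end Fermat.Agent.S36.H46
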