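/-
S36 (Carayol), row (E5) "Step 3" (helper46): **the three-place residue assembly WITHOUT any
`q`-th-root / Frobenius-descent input**, using only `gcd (q, m) = 1`.

All residues in ONE field `κ`.  Three places `Rs Rm Ri` (`= V 0, V 1, V 2`) of the top field,
the places below in helper16's shapes (`Qi`, `Qi'` = the places below the purely inseparable
places WITH THE TWISTED REDUCTION, so that "lies over" is an honest inclusion of residue fields):

  `α` : `Qs.HasRes (Nα u) (sm ^ e * ss)`,   `Qi.HasRes (Nα u) (si ^ q)`,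
  `β` : `Qi'.HasRes (Nβ u) (ss ^ q)`.

If the three residues of the norms lie in `kˣ · (residue units below)ᵐ` (from `N u = c hᵐ`), then
  `ss, si ∈ kˣ · (residue units)ᵐ` and `sm ^ e ∈ kˣ · (residue units)ᵐ`:
indeed `si ^ q ∈ S` (lies over) and `si ^ m ∈ S` (trivially), and `q`, `m` are coprime.

`exists_hG_three_coprime` : the chart form (ONE `G` with `u ^ e ≡ G ^ m` at the three vertical
primes), with the place bridges as `PlaceBridge`s.
-/
import Mathlib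
import Fermat.Agent.S36.H46_ThreeResidues
import Fermat.Agent.S36.H46_PlaceBridge
import Fermat.Agent.S35.H62_Approx

set_option autoImplicit false
set_option linter.unusedSectionVars false

namespace Fermat.Agent.S36.H46

open Fermat.Agent.S34 Fermat.Agent.S34.H47 Fermat.Agent.S35 Fermat.Agent.S35.H46

section Coprime

/-- in a group: `x ^ q ∈ S`, `x ^ m ∈ S`, `gcd (q, m) = 1` ⟹ `x ∈ S`. -/
theorem mem_of_pow_mem_of_coprime {G : Type*} [CommGroup G] (S : Subgroup G) {q m : ℕ}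
    (hqm : Nat.Coprime q m) {x : G} (hq : x ^ q ∈ S) (hm : x ^ m ∈ S) : x ∈ S := by
  have h1 : x ^ ((q : ℤ) * Nat.gcdA q m + (m : ℤ) * Nat.gcdB q m) = x := by
    have := Nat.gcd_eq_gcd_ab q m
    rw [hqm] at this
    rw [← this]
    simp
  rw [← h1, zpow_add, zpow_mul, zpow_mul, zpow_natCast, zpow_natCast]
  exact S.mul_mem (S.zpow_mem hq _) (S.zpow_mem hm _)

variable {F FM κ k : Type*} [Field F] [Field FM] [Field κ] [Field k]

/-- `kummerS` is monotone in the group of residue units. -/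
theorem kummerS_mono {F' : Type*} [Field F'] (ιk : k →+* κ) {Q : ResPlace FM κ}
    {R : ResPlace F' κ} (m : ℕ) (h : ∀ t ∈ Q.resUnits, t ∈ R.resUnits) {s : κˣ}
    (hs : s ∈ kummerS ιk Q m) : s ∈ kummerS ιk R m :=
  (sup_le_sup_left (Subgroup.map_mono (fun t ht => h t ht)) _) hs

/-- the `m`-th power of a residue unit lies in `kummerS`. -/
theorem pow_mem_kummerS (ιk : k →+* κ) {R : ResPlace F κ} (m : ℕ) {s : κˣ}
    (hs : s ∈ R.resUnits) : s ^ m ∈ kummerS ιk R m := by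
  have := mul_pow_mem_kummerS (ιk := ιk) (m := m) (1 : kˣ) hs
  rwa [map_one, one_mul] at this

/-- **(E5), residue form, coprime version.** -/
theorem three_residues_coprime {Rs Rm Ri : ResPlace F κ} {Qs Qi Qi' : ResPlace FM κ}
    (ιk : k →+* κ) (m e q : ℕ) (hqm : Nat.Coprime q m)
    (hQsRs : ∀ t ∈ Rs.resUnits, t ∈ Qs.resUnits) (hQsRm : ∀ t ∈ Qs.resUnits, t ∈ Rm.resUnits)
    (hQiRi : ∀ t ∈ Qi.resUnits, t ∈ Ri.resUnits) (hQi'Rs : ∀ t ∈ Qi'.resUnits, t ∈ Rs.resUnits)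
    {ss sm si : κˣ} (hs : ss ∈ Rs.resUnits) (hi : si ∈ Ri.resUnits)
    (hta : sm ^ e * ss ∈ kummerS ιk Qs m) (htb : si ^ q ∈ kummerS ιk Qi m)
    (hta' : ss ^ q ∈ kummerS ιk Qi' m) :
    ss ∈ kummerS ιk Rs m ∧ sm ^ e ∈ kummerS ιk Rm m ∧ si ∈ kummerS ιk Ri m := by
  have m_i : si ∈ kummerS ιk Ri m :=
    mem_of_pow_mem_of_coprime _ hqm (kummerS_mono ιk m hQiRi htb)
      (pow_mem_kummerS ιk m hi)
  have m_s : ss ∈ kummerS ιk Rs m :=
    mem_of_pow_mem_of_coprime _ hqm (kummerS_mono ιk m hQi'Rs hta')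
      (pow_mem_kummerS ιk m hs)
  refine ⟨m_s, ?_, m_i⟩
  have h1 : sm ^ e * ss ∈ kummerS ιk Rm m := kummerS_mono ιk m hQsRm hta
  have h2 : ss ∈ kummerS ιk Rm m := kummerS_mono ιk m hQsRm (kummerS_mono ιk m hQsRs m_s)
  have h3 := (kummerS ιk Rm m).mul_mem h1 ((kummerS ιk Rm m).inv_mem h2)
  rwa [mul_inv_cancel_right] at h3

end Coprime

section Chart

variable {B F : Type*} [CommRing B] [IsDomain B] [Field F] [Algebra B F] [IsFractionRing B F]
  [IsNoetherianRing B] [IsIntegrallyClosed B]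
  {FM κ k : Type*} [Field FM] [Field κ] [Field k]

/-- **(E5), per-place roots in valuation form, coprime version.**  `R 0 = Rs`, `R 1 = Rm`,
`R 2 = Ri` with respect to `α`. -/
theorem three_roots_oneU_coprime (V : Fin 3 → ValuationSubring F) (R : Fin 3 → ResPlace F κ)
    (bV : ∀ j, PlaceBridge (R j) (V j))
    {Qs Qi Qi' : ResPlace FM κ}
    (ιk : k →+* κ) (m e q : ℕ) (hqm : Nat.Coprime q m)
    (hkroot : ∀ c : kˣ, ∃ c0 : kˣ, c0 ^ m = c)
    (hk : ∀ j (c : kˣ), Units.map (ιk : k →* κ) c ∈ (R j).resUnits)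
    (hQsRs : ∀ t ∈ (R 0).resUnits, t ∈ Qs.resUnits)
    (hQsRm : ∀ t ∈ Qs.resUnits, t ∈ (R 1).resUnits)
    (hQiRi : ∀ t ∈ Qi.resUnits, t ∈ (R 2).resUnits)
    (hQi'Rs : ∀ t ∈ Qi'.resUnits, t ∈ (R 0).resUnits)
    (Nα Nβ : F → FM)
    (g2s : ∀ u sm ss, (R 1).HasRes u sm → (R 0).HasRes u ss → Qs.HasRes (Nα u) (sm ^ e * ss))
    (g2i : ∀ u t, (R 2).HasRes u t → Qi.HasRes (Nα u) (t ^ q))
    (g2i' : ∀ u t, (R 0).HasRes u t → Qi'.HasRes (Nβ u) (t ^ q))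
    {u : F} (hu : ∀ j, (V j).valuation u = 1)
    (hta : ∀ t, Qs.HasRes (Nα u) t → t ∈ kummerS ιk Qs m)
    (htb : ∀ t, Qi.HasRes (Nα u) t → t ∈ kummerS ιk Qi m)
    (hta' : ∀ t, Qi'.HasRes (Nβ u) t → t ∈ kummerS ιk Qi' m) :
    ∀ j, ∃ G : F, (V j).valuation G = 1 ∧ OneU (V j) (u ^ e / G ^ m) := by
  obtain ⟨ss, hs⟩ := (bV 0).exists_hasRes (hu 0)
  obtain ⟨sm, hm⟩ := (bV 1).exists_hasRes (hu 1)
  obtain ⟨si, hi⟩ := (bV 2).exists_hasRes (hu 2)
  obtain ⟨m₁, m₂, m₃⟩ := three_residues_coprime ιk m e q hqm hQsRs hQsRm hQiRi hQi'Rs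
    hs.mem_resUnits hi.mem_resUnits (hta _ (g2s u sm ss hm hs)) (htb _ (g2i u si hi))
    (hta' _ (g2i' u ss hs))
  obtain ⟨r₁, r₂, r₃⟩ := three_roots_oneU (V 0) (V 1) (V 2)
    (fun y hy => ((bV 0).hO y).mp hy) (fun y hy => ((bV 1).hO y).mp hy)
    (fun y hy => ((bV 2).hO y).mp hy)
    (bV 0).hker (bV 1).hker (bV 2).hker ιk ιk ιk m e hkroot (hk 0) (hk 1) (hk 2) hs hm hi m₁ m₂ m₃
  intro j
  fin_cases j
  · exact r₁
  · exact r₂
  · exact r₃

/-- **(E5), chart form, coprime version.** -/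
theorem exists_hG_three_coprime (P : Fin 3 → Ideal B) [hP : ∀ j, (P j).IsPrime]
    (hh : ∀ j, (P j).height = 1) (hinc : ∀ i j, P i ≤ P j → i = j)
    (R : Fin 3 → ResPlace F κ)
    (bV : ∀ j, PlaceBridge (R j) (H56.valuationSubringAt (K := F) (P j) (hh j)))
    {Qs Qi Qi' : ResPlace FM κ}
    (ιk : k →+* κ) (m e q : ℕ) (hqm : Nat.Coprime q m)
    (hkroot : ∀ c : kˣ, ∃ c0 : kˣ, c0 ^ m = c)
    (hk : ∀ j (c : kˣ), Units.map (ιk : k →* κ) c ∈ (R j).resUnits)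
    (hQsRs : ∀ t ∈ (R 0).resUnits, t ∈ Qs.resUnits)
    (hQsRm : ∀ t ∈ Qs.resUnits, t ∈ (R 1).resUnits)
    (hQiRi : ∀ t ∈ Qi.resUnits, t ∈ (R 2).resUnits)
    (hQi'Rs : ∀ t ∈ Qi'.resUnits, t ∈ (R 0).resUnits)
    (Nα Nβ : F → FM)
    (g2s : ∀ u sm ss, (R 1).HasRes u sm → (R 0).HasRes u ss → Qs.HasRes (Nα u) (sm ^ e * ss))
    (g2i : ∀ u t, (R 2).HasRes u t → Qi.HasRes (Nα u) (t ^ q))
    (g2i' : ∀ u t, (R 0).HasRes u t → Qi'.HasRes (Nβ u) (t ^ q))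
    {u : F} (hu : ∀ j, (H56.valuationSubringAt (K := F) (P j) (hh j)).valuation u = 1)
    (hta : ∀ t, Qs.HasRes (Nα u) t → t ∈ kummerS ιk Qs m)
    (htb : ∀ t, Qi.HasRes (Nα u) t → t ∈ kummerS ιk Qi m)
    (hta' : ∀ t, Qi'.HasRes (Nβ u) t → t ∈ kummerS ιk Qi' m) :
    ∃ G : F, G ≠ 0 ∧
      (∀ j, (H56.valuationSubringAt (K := F) (P j) (hh j)).valuation G = 1) ∧
      ∀ j, OneU (H56.valuationSubringAt (K := F) (P j) (hh j)) (u ^ e / G ^ m) := by
  have key := three_roots_oneU_coprime (fun j => H56.valuationSubringAt (K := F) (P j) (hh j)) R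
    bV ιk m e q hqm hkroot hk hQsRs hQsRm hQiRi hQi'Rs Nα Nβ g2s g2i g2i' hu hta htb hta'
  exact H62.exists_simultaneous_root P hh hinc (u ^ e) m key

end Chart

end Fermat.Agent.S36.H46
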