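/-
S36 (Carayol), row (E5) (helper46): **the hypothesis `hE5` of helper69's skeleton
`S36.H69.geo36_of_radicalDatum`, VERBATIM**, from the `ResPlace`-level data of (M1)/(E5):

  `∀ u, (∀ i, (V i).valuation u = 1) → (∃ c h, c ≠ 0 ∧ h ≠ 0 ∧ Na u = c * h ^ m) →
     (∃ c h, c ≠ 0 ∧ h ≠ 0 ∧ Nb u = c * h ^ m) →
     ∃ G ≠ 0, (∀ j, (V j).valuation G = 1) ∧ ∀ j, OneU (V j) (u ^ (q - 1) / G ^ m)`

with `V j := H56.valuationSubringAt (P j) (hh j)` the three vertical primes of a chart.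
Combines `H46.exists_hG_three_coprime` (assembly, only `gcd (q, m) = 1`) with
`H46.mem_kummerS_of_eq_const_mul_pow` (residue of `N u = c * h ^ m` lies in `kˣ · κˣᵐ`) at the
three places below (`Qs`; `Qi`, `Qi'` with the twisted reductions), each with the uniformiser
`π = algebraMap K F1 qK` (`e = 1` at level `q L`).
-/
import Mathlib
import Fermat.Agent.S36.H46_ThreeCoprime
import Fermat.Agent.S36.H46_NormConst

set_option autoImplicit false
set_option linter.unusedSectionVars false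

namespace Fermat.Agent.S36.H46

open Fermat.Agent.S34 Fermat.Agent.S34.H47 Fermat.Agent.S35 Fermat.Agent.S35.H46

section E5

variable {B F2 : Type*} [CommRing B] [IsDomain B] [Field F2] [Algebra B F2] [IsFractionRing B F2]
  [IsNoetherianRing B] [IsIntegrallyClosed B]
  {K F1 κ k : Type*} [Field K] [Field F1] [Algebra K F1] [Field κ] [Field k]

/-- The data of a place `Q` of `F1` (level `q L`) needed to put the residue of `c * h ^ m` into
`kummerS`: `π` is a uniformiser and the constants of `K` are `π ^ a` times a unit with constant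
residue. -/
structure ConstPlace (ιk : k →+* κ) (Q : ResPlace F1 κ) (π : F1) : Prop where
  hπ0 : π ≠ 0
  hunif : ∀ x : F1, x ≠ 0 → ∃ (n : ℤ) (s : κˣ), Q.HasRes (x * π ^ (-n)) s
  hπ : ∀ (n : ℤ) (s : κˣ), Q.HasRes (π ^ n) s → n = 0
  hconst : ∀ c : K, c ≠ 0 →
    ∃ (a : ℤ) (r : kˣ), Q.HasRes (algebraMap K F1 c * π ^ (-a)) (Units.map (ιk : k →* κ) r)

theorem ConstPlace.mem_kummerS {ιk : k →+* κ} {Q : ResPlace F1 κ} {π : F1}
    (H : ConstPlace (K := K) ιk Q π) {m : ℕ} {y : F1} {t : κˣ} (hy : Q.HasRes y t)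
    (hN : ∃ (c : K) (h : F1), c ≠ 0 ∧ h ≠ 0 ∧ y = algebraMap K F1 c * h ^ m) :
    t ∈ kummerS ιk Q m := by
  obtain ⟨c, h, hc, hh, e⟩ := hN
  exact mem_kummerS_of_eq_const_mul_pow ιk H.hπ0 H.hunif H.hπ hy (H.hconst c hc) hh e

/-- **Producer of `ConstPlace`** from a place bridge to a discrete valuation subring `W` with
uniformiser `π = algebraMap K F1 qK` (`e = 1`), `A` the valuation subring of the constant field
with the same uniformiser `qK`, and "units of `A` have constant residues". -/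
theorem constPlace_of_bridge (ιk : k →+* κ) {Q : ResPlace F1 κ} {W : ValuationSubring F1}
    (b : PlaceBridge Q W) (A : ValuationSubring K) {qK : K} (hqK0 : qK ≠ 0)
    (hπlt : W.valuation (algebraMap K F1 qK) < 1)
    (hπW : ∀ x : F1, x ≠ 0 → ∃ n : ℤ, W.valuation (x * (algebraMap K F1 qK) ^ (-n)) = 1)
    (hπA : ∀ c : K, c ≠ 0 → ∃ n : ℤ, A.valuation (c * qK ^ (-n)) = 1)
    (hres : ∀ c0 : K, A.valuation c0 = 1 →
      ∃ r : kˣ, Q.HasRes (algebraMap K F1 c0) (Units.map (ιk : k →* κ) r)) :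
    ConstPlace (K := K) ιk Q (algebraMap K F1 qK) where
  hπ0 := (map_ne_zero _).mpr hqK0
  hunif := by
    intro x hx
    obtain ⟨n, hn⟩ := hπW x hx
    obtain ⟨s, hs⟩ := b.exists_hasRes hn
    exact ⟨n, s, hs⟩
  hπ := by
    intro n s hs
    exact zpow_eq_zero_of_valuation_eq_one W hπlt ((map_ne_zero _).mpr hqK0)
      (b.valuation_eq_one hs)
  hconst := by
    intro c hc
    obtain ⟨a, ha⟩ := hπA c hc
    obtain ⟨r, hr⟩ := hres _ ha
    refine ⟨a, r, ?_⟩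
    rwa [map_mul, map_zpow₀] at hr

/-- **`hE5` of `S36.H69.geo36_of_radicalDatum`, verbatim.** -/
theorem hE5_of_places (P : Fin 3 → Ideal B) [hP : ∀ j, (P j).IsPrime]
    (hh : ∀ j, (P j).height = 1) (hinc : ∀ i j, P i ≤ P j → i = j)
    (R : Fin 3 → ResPlace F2 κ)
    (bV : ∀ j, PlaceBridge (R j) (H56.valuationSubringAt (K := F2) (P j) (hh j)))
    {Qs Qi Qi' : ResPlace F1 κ}
    (ιk : k →+* κ) (m q : ℕ) (hqm : Nat.Coprime q m)
    (hkroot : ∀ c : kˣ, ∃ c0 : kˣ, c0 ^ m = c)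
    (hk : ∀ j (c : kˣ), Units.map (ιk : k →* κ) c ∈ (R j).resUnits)
    (hQsRs : ∀ t ∈ (R 0).resUnits, t ∈ Qs.resUnits)
    (hQsRm : ∀ t ∈ Qs.resUnits, t ∈ (R 1).resUnits)
    (hQiRi : ∀ t ∈ Qi.resUnits, t ∈ (R 2).resUnits)
    (hQi'Rs : ∀ t ∈ Qi'.resUnits, t ∈ (R 0).resUnits)
    (Na Nb : F2 →*₀ F1)
    (g2s : ∀ u sm ss, (R 1).HasRes u sm → (R 0).HasRes u ss →
      Qs.HasRes (Na u) (sm ^ (q - 1) * ss))
    (g2i : ∀ u t, (R 2).HasRes u t → Qi.HasRes (Na u) (t ^ q))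
    (g2i' : ∀ u t, (R 0).HasRes u t → Qi'.HasRes (Nb u) (t ^ q))
    {π : F1} (cQs : ConstPlace (K := K) ιk Qs π) (cQi : ConstPlace (K := K) ιk Qi π)
    (cQi' : ConstPlace (K := K) ιk Qi' π) :
    ∀ u : F2, (∀ i, (H56.valuationSubringAt (K := F2) (P i) (hh i)).valuation u = 1) →
      (∃ (c : K) (h : F1), c ≠ 0 ∧ h ≠ 0 ∧ Na u = algebraMap K F1 c * h ^ m) →
      (∃ (c : K) (h : F1), c ≠ 0 ∧ h ≠ 0 ∧ Nb u = algebraMap K F1 c * h ^ m) →
      ∃ G : F2, G ≠ 0 ∧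
        (∀ j, (H56.valuationSubringAt (K := F2) (P j) (hh j)).valuation G = 1) ∧
        ∀ j, OneU (H56.valuationSubringAt (K := F2) (P j) (hh j)) (u ^ (q - 1) / G ^ m) := by
  intro u hu hNa hNb
  exact exists_hG_three_coprime P hh hinc R bV ιk m (q - 1) q hqm hkroot hk hQsRs hQsRm hQiRi
    hQi'Rs Na Nb g2s g2i g2i' hu
    (fun t ht => cQs.mem_kummerS ht hNa) (fun t ht => cQi.mem_kummerS ht hNa)
    (fun t ht => cQi'.mem_kummerS ht hNb)

end E5

end Fermat.Agent.S36.H46
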