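/-
S36 (Carayol), rows (E5)/(E7a) (helper46): **helper69's skeleton `S36.H69.geo36_of_radicalDatum`
with the hypothesis `hE5` DISCHARGED** by `H46.hE5_of_towerValU` (Step 3 at the valuation level),
at the price of the single arithmetic hypothesis `hqm : Nat.Coprime q m` (`m = p ^ k`, `p ≠ q`).
All other binders verbatim, in the same order.
-/
import Mathlib
import Fermat.Agent.S36.H69_Geo36Skeleton
import Fermat.Agent.S36.H46_E5Val

set_option autoImplicit false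
set_option linter.unusedSectionVars false

namespace Fermat.Agent.S36.H46

open Fermat.Agent.S34.H47 Fermat.Agent.S36.H85

variable {K F1 F2 : Type*} [Field K] [Field F1] [Field F2] [Algebra K F1] [Algebra K F2]
  {ν : Type*} {k : Type*} [Field k]
  {a b : F1 →+* F2} {Na Nb : F2 →*₀ F1} {q m : ℕ}
  {V : Fin 3 → ValuationSubring F2} {WF WV : ValuationSubring F1}
  {O : ν → Subring F2} {Thr : ν → Fin 3 → Prop}

/-- **(E7a) without `hE5`.** -/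
theorem geo36_of_radicalDatum_noE5 (hq : 0 < q) (hm : 0 < m) (hqm : Nat.Coprime q m)
    {qK : K} (hqK : qK ≠ 0) {d : ℕ}
    (hNaK : ∀ c : K, Na (algebraMap K F2 c) = algebraMap K F1 c ^ d)
    (hNbK : ∀ c : K, Nb (algebraMap K F2 c) = algebraMap K F1 c ^ d)
    (U : K → Prop)
    (hUF : ∀ c, U c → OneU WF (algebraMap K F1 c))
    (hUV : ∀ c, U c → OneU WV (algebraMap K F1 c))
    (HVa : TowerValU a Na q (V 0) (V 1) (V 2) WF WV)
    (HVb : TowerValU b Nb q (V 2) (V 1) (V 0) WV WF)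
    {ζ : F1} (hζ : IsPrimitiveRoot ζ m) (hζF : WF.valuation ζ ≤ 1) (hζV : WV.valuation ζ ≤ 1)
    (hab : a ζ = b ζ)
    (hOV : ∀ n i, Thr n i → ∀ x : F2, UnitIn (O n) x → (V i).valuation x = 1)
    (happrox : ∀ T' : Fin 3 → F2, (∀ i, (V i).valuation (T' i) = 1) →
      ∃ Ψ : F2, Ψ ≠ 0 ∧ ∀ i, OneU (V i) (Ψ / T' i))
    (hbr : ∀ n i, Thr n i → ∀ u' G' T' : F2, G' ≠ 0 → T' ≠ 0 → UnitIn (O n) (u' / G' ^ m) →
      OneU (V i) (u' / T' ^ m) → ∃ Λ : F2, UnitIn (O n) Λ ∧ OneU (V i) (Λ * G' / T'))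
    (hpt : ∀ ca cb : K, U ca → U cb → ∀ n, (∃ i₀, ∀ i, Thr n i → i = i₀) ∨
      ((∀ i, Thr n i) ∧
        TripleLoc a b Na Nb q m V WF WV ζ (algebraMap K F1 ca) (algebraMap K F1 cb) k (O n) ∧
        TripleLift m V (O n)))
    (crit : ∀ u : F2, u ≠ 0 → RadDatum O V Thr u m →
      ∃ (c : K) (g : F2), u = algebraMap K F2 c * g ^ m)
    {f : F2} (hf : f ≠ 0)
    (hNα : ∃ (c : K) (h : F1), c ≠ 0 ∧ h ≠ 0 ∧ Na f = algebraMap K F1 c * h ^ m)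
    (hNβ : ∃ (c : K) (h : F1), c ≠ 0 ∧ h ≠ 0 ∧ Nb f = algebraMap K F1 c * h ^ m)
    (hE3 : ∃ (s : ℤ) (g : F2), g ≠ 0 ∧
      ∀ i, (V i).valuation (f ^ (q + 1) * algebraMap K F2 qK ^ (-s) * (g ^ m)⁻¹) = 1)
    (hE4 : ∀ (s : ℤ) (g : F2), g ≠ 0 →
      (∀ i, (V i).valuation (f ^ (q + 1) * algebraMap K F2 qK ^ (-s) * (g ^ m)⁻¹) = 1) →
      ∃ G : ν → F2, (∀ n, G n ≠ 0) ∧
        ∀ n, UnitIn (O n) (f ^ (q + 1) * algebraMap K F2 qK ^ (-s) * (g ^ m)⁻¹ / G n ^ m))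
    (hconstα : ∀ (u : F2) (c : K) (h : F1), (∀ i, (V i).valuation u = 1) → c ≠ 0 → h ≠ 0 →
      Na u = algebraMap K F1 c * h ^ m →
      ∃ (c1 : K) (h1 : F1), U c1 ∧ Na u = algebraMap K F1 c1 * h1 ^ m)
    (hconstβ : ∀ (u : F2) (c : K) (h : F1), (∀ i, (V i).valuation u = 1) → c ≠ 0 → h ≠ 0 →
      Nb u = algebraMap K F1 c * h ^ m →
      ∃ (c1 : K) (h1 : F1), U c1 ∧ Nb u = algebraMap K F1 c1 * h1 ^ m) :
    ∃ (c : K) (w : F2), c ≠ 0 ∧ w ≠ 0 ∧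
      f ^ ((q + 1) * (q - 1) * (q ^ 2 - 1)) = algebraMap K F2 c * w ^ m :=
  H69.geo36_of_radicalDatum (k := k) hq hm hqK hNaK hNbK U hUF hUV HVa HVb hζ hζF hζV hab hOV
    happrox hbr hpt crit hf hNα hNβ hE3 hE4
    (hE5_of_towerValU hm hqm HVa HVb U hUF hUV happrox hconstα hconstβ) hconstα hconstβ

end Fermat.Agent.S36.H46
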