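/-
helper46 -- S36 (Carayol), rows (E5)/(E7a): helper69's two-chart end theorems
`S36.H69.geo36_two_charts_ex` and `S36.H69.geo36_two_charts_const` WITH THE BINDER `hE5` DELETED.

`hE5` is a theorem (`S36.H46.hE5_of_towerValU`): it follows from the two `TowerValU` packages
`HVa`, `HVb`, weak approximation at the three vertical valuations (`S36.H84.happrox_chart`), the
normalisation of constants (`S36.H69.hconst_of_normConst`) and `gcd (q, m) = 1` -- all of which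
the two-chart theorems already have among their hypotheses (`hmq : Nat.Coprime m q`).

Every other binder is verbatim, in the same order; same conclusions.
-/
import Mathlib
import Fermat.Agent.S36.H69_Geo36Ex
import Fermat.Agent.S36.H46_E5Val

set_option autoImplicit false
set_option linter.unusedSectionVars false
set_option linter.unusedVariables false

namespace Fermat.Agent.S36.H46

open Fermat.Agent.S34 Fermat.Agent.S34.H47 Fermat.Agent.S35 Fermat.Agent.S36.H85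
  Fermat.Agent.S36.H69

section TwoChartsNoE5

universe w

variable {R F2 : Type*} [CommRing R] [IsDomain R] [IsDiscreteValuationRing R]
  [Field F2] [Algebra R F2]
  {B₁ B₂ : Subalgebra R F2} [IsFractionRing B₁ F2] [IsFractionRing B₂ F2]
  [IsNoetherianRing B₁] [IsNoetherianRing B₂] [IsIntegrallyClosed B₁] [IsIntegrallyClosed B₂]
  {π : R} (P₁ : Fin 3 → Ideal B₁) (P₂ : Fin 3 → Ideal B₂)
  [hP₁ : ∀ i, (P₁ i).IsPrime] [hP₂ : ∀ i, (P₂ i).IsPrime]
  (hh₁ : ∀ i, (P₁ i).height = 1) (hh₂ : ∀ i, (P₂ i).height = 1)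
  {K F1 : Type*} [Field K] [Field F1] [Algebra K F1] [Algebra K F2]
  {a b : F1 →+* F2} {Na Nb : F2 →*₀ F1} {q m : ℕ}
  {WF WV : ValuationSubring F1}

/-- **`hE5` of the two-chart skeletons is a theorem**: with `V i := valuationSubringAt (P₁ i)`,
`U := NormalisedConst A WF WV`. -/
theorem hE5_two_charts (hm : 0 < m)
    (hmq : Nat.Coprime m q) (hinj : Function.Injective P₁)
    (A : ValuationSubring K)
    (hWFlt : ∀ x : K, A.valuation x < 1 → WF.valuation (algebraMap K F1 x) < 1)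
    (hWVlt : ∀ x : K, A.valuation x < 1 → WV.valuation (algebraMap K F1 x) < 1)
    {πK : K} (hπ0 : πK ≠ 0) (hπlt : A.valuation πK < 1)
    (hπ : ∀ c : K, c ≠ 0 → ∃ n : ℤ, A.valuation (c * πK ^ (-n)) = 1)
    (hπWF : ∀ x : F1, x ≠ 0 → ∃ n : ℤ, WF.valuation (x * (algebraMap K F1 πK) ^ (-n)) = 1)
    (hπWV : ∀ x : F1, x ≠ 0 → ∃ n : ℤ, WV.valuation (x * (algebraMap K F1 πK) ^ (-n)) = 1)
    (hAWF : ∀ x : K, A.valuation x = 1 → WF.valuation (algebraMap K F1 x) = 1)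
    (hAWV : ∀ x : K, A.valuation x = 1 → WV.valuation (algebraMap K F1 x) = 1)
    (hroot : ∀ c : K, A.valuation c = 1 →
      ∃ c1 : K, A.valuation c1 = 1 ∧ A.valuation (c / c1 ^ m - 1) < 1)
    (HVa : TowerValU a Na q (H56.valuationSubringAt (K := F2) (P₁ 0) (hh₁ 0))
      (H56.valuationSubringAt (K := F2) (P₁ 1) (hh₁ 1))
      (H56.valuationSubringAt (K := F2) (P₁ 2) (hh₁ 2)) WF WV)
    (HVb : TowerValU b Nb q (H56.valuationSubringAt (K := F2) (P₁ 2) (hh₁ 2))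
      (H56.valuationSubringAt (K := F2) (P₁ 1) (hh₁ 1))
      (H56.valuationSubringAt (K := F2) (P₁ 0) (hh₁ 0)) WV WF) :
    ∀ u : F2,
      (∀ i, (H56.valuationSubringAt (K := F2) (P₁ i) (hh₁ i)).valuation u = 1) →
      (∃ (c : K) (h : F1), c ≠ 0 ∧ h ≠ 0 ∧ Na u = algebraMap K F1 c * h ^ m) →
      (∃ (c : K) (h : F1), c ≠ 0 ∧ h ≠ 0 ∧ Nb u = algebraMap K F1 c * h ^ m) →
      ∃ G : F2, G ≠ 0 ∧
        (∀ j, (H56.valuationSubringAt (K := F2) (P₁ j) (hh₁ j)).valuation G = 1) ∧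
        ∀ j, OneU (H56.valuationSubringAt (K := F2) (P₁ j) (hh₁ j)) (u ^ (q - 1) / G ^ m) :=
  hE5_of_towerValU (K := K)
    (V := fun i => H56.valuationSubringAt (K := F2) (P₁ i) (hh₁ i)) hm hmq.symm HVa HVb
    (NormalisedConst A WF WV) (fun c hc => hc.2.1) (fun c hc => hc.2.2)
    (H84.happrox_chart P₁ hh₁ hinj)
    (fun u c h hu hc hh hN =>
      hconst_of_normConst HVa A hWFlt hWVlt hπ0 hπlt hπ hπWF hAWF hroot u c h (hu 0) (hu 1)
        hc hh hN)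
    (fun u c h hu hc hh hN => by
      obtain ⟨c1, h1, ⟨hA, hV, hF⟩, hN1⟩ :=
        hconst_of_normConst HVb A hWVlt hWFlt hπ0 hπlt hπ hπWV hAWV hroot u c h (hu 2) (hu 1)
          hc hh hN
      exact ⟨c1, h1, ⟨hA, hF, hV⟩, hN1⟩)

/-- **(E7a) The two-chart skeleton, `_ex` form, constants normalised by NORMCONST, WITHOUT
`hE5`.**  = `S36.H69.geo36_two_charts_ex` with the binder `hE5` deleted; every other binder
verbatim in the same order. -/
theorem geo36_two_charts_ex_noE5 (hq : 0 < q) (hm : 0 < m)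
    -- the two-chart model
    (hqπ : π ∣ (q : R)) (hmq : Nat.Coprime m q) (hinj : Function.Injective P₁)
    (hVeq : ∀ i, H56.valuationSubringAt (K := F2) (P₁ i) (hh₁ i) =
      H56.valuationSubringAt (K := F2) (P₂ i) (hh₂ i))
    (hbranch₁ : ∀ i, IsIntegrallyClosed (B₁ ⧸ P₁ i))
    (hbranch₂ : ∀ i, IsIntegrallyClosed (B₂ ⧸ P₂ i))
    -- constants
    {qK : K} (hqK : qK ≠ 0) {d : ℕ}
    (hNaK : ∀ c : K, Na (algebraMap K F2 c) = algebraMap K F1 c ^ d)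
    (hNbK : ∀ c : K, Nb (algebraMap K F2 c) = algebraMap K F1 c ^ d)
    -- NORMCONST inputs
    (A : ValuationSubring K)
    (hWFlt : ∀ x : K, A.valuation x < 1 → WF.valuation (algebraMap K F1 x) < 1)
    (hWVlt : ∀ x : K, A.valuation x < 1 → WV.valuation (algebraMap K F1 x) < 1)
    {πK : K} (hπ0 : πK ≠ 0) (hπlt : A.valuation πK < 1)
    (hπ : ∀ c : K, c ≠ 0 → ∃ n : ℤ, A.valuation (c * πK ^ (-n)) = 1)
    (hπWF : ∀ x : F1, x ≠ 0 → ∃ n : ℤ, WF.valuation (x * (algebraMap K F1 πK) ^ (-n)) = 1)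
    (hπWV : ∀ x : F1, x ≠ 0 → ∃ n : ℤ, WV.valuation (x * (algebraMap K F1 πK) ^ (-n)) = 1)
    (hAWF : ∀ x : K, A.valuation x = 1 → WF.valuation (algebraMap K F1 x) = 1)
    (hAWV : ∀ x : K, A.valuation x = 1 → WV.valuation (algebraMap K F1 x) = 1)
    (hroot : ∀ c : K, A.valuation c = 1 →
      ∃ c1 : K, A.valuation c1 = 1 ∧ A.valuation (c / c1 ^ m - 1) < 1)
    -- (E5)/(E6) global tower data
    (HVa : TowerValU a Na q (H56.valuationSubringAt (K := F2) (P₁ 0) (hh₁ 0))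
      (H56.valuationSubringAt (K := F2) (P₁ 1) (hh₁ 1))
      (H56.valuationSubringAt (K := F2) (P₁ 2) (hh₁ 2)) WF WV)
    (HVb : TowerValU b Nb q (H56.valuationSubringAt (K := F2) (P₁ 2) (hh₁ 2))
      (H56.valuationSubringAt (K := F2) (P₁ 1) (hh₁ 1))
      (H56.valuationSubringAt (K := F2) (P₁ 0) (hh₁ 0)) WV WF)
    {ζ : F1} (hζ : IsPrimitiveRoot ζ m) (hζF : WF.valuation ζ ≤ 1) (hζV : WV.valuation ζ ≤ 1)
    (hab : a ζ = b ζ)
    -- (E6) point classification + local tower data at the triple points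
    (hpt : ∀ ca cb : K, NormalisedConst A WF WV ca → NormalisedConst A WF WV cb → ∀ n,
      (∃ i₀, ∀ i, H21.primeThr (π := π) P₁ P₂ n i → i = i₀) ∨
      ((∀ i, H21.primeThr (π := π) P₁ P₂ n i) ∧ ∃ (k : Type w) (_ : Field k),
        TripleLoc a b Na Nb q m (fun i => H56.valuationSubringAt (K := F2) (P₁ i) (hh₁ i))
          WF WV ζ (algebraMap K F1 ca) (algebraMap K F1 cb) k (H21.ptO B₁ B₂ π n)))
    -- (E1) the radical Kummer criterion
    (crit : ∀ u : F2, u ≠ 0 →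
      RadDatum (H21.ptO B₁ B₂ π) (fun i => H56.valuationSubringAt (K := F2) (P₁ i) (hh₁ i))
        (H21.primeThr (π := π) P₁ P₂) u m →
      ∃ (c : K) (g : F2), u = algebraMap K F2 c * g ^ m)
    -- the function and its two norm identities
    {f : F2} (hf : f ≠ 0)
    (hNα : ∃ (c : K) (h : F1), c ≠ 0 ∧ h ≠ 0 ∧ Na f = algebraMap K F1 c * h ^ m)
    (hNβ : ∃ (c : K) (h : F1), c ≠ 0 ∧ h ≠ 0 ∧ Nb f = algebraMap K F1 c * h ^ m)
    -- (E3)
    (hE3 : ∃ (s : ℤ) (g : F2), g ≠ 0 ∧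
      ∀ i, (H56.valuationSubringAt (K := F2) (P₁ i) (hh₁ i)).valuation
        (f ^ (q + 1) * algebraMap K F2 qK ^ (-s) * (g ^ m)⁻¹) = 1)
    -- (E4)
    (hE4 : ∀ (s : ℤ) (g : F2), g ≠ 0 →
      (∀ i, (H56.valuationSubringAt (K := F2) (P₁ i) (hh₁ i)).valuation
        (f ^ (q + 1) * algebraMap K F2 qK ^ (-s) * (g ^ m)⁻¹) = 1) →
      ∃ G : H21.ClosedPt B₁ π ⊕ H21.ClosedPt B₂ π → F2, (∀ n, G n ≠ 0) ∧
        ∀ n, UnitIn (H21.ptO B₁ B₂ π n)
          (f ^ (q + 1) * algebraMap K F2 qK ^ (-s) * (g ^ m)⁻¹ / G n ^ m)) :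
    ∃ (c : K) (w : F2), c ≠ 0 ∧ w ≠ 0 ∧
      f ^ ((q + 1) * (q - 1) * (q ^ 2 - 1)) = algebraMap K F2 c * w ^ m :=
  geo36_two_charts_ex.{w} P₁ P₂ hh₁ hh₂ hq hm hqπ hmq hinj hVeq hbranch₁ hbranch₂ hqK hNaK hNbK A
    hWFlt hWVlt hπ0 hπlt hπ hπWF hπWV hAWF hAWV hroot HVa HVb hζ hζF hζV hab hpt crit hf hNα hNβ
    hE3 hE4
    (hE5_two_charts P₁ hh₁ hm hmq hinj A hWFlt hWVlt hπ0 hπlt hπ hπWF hπWV hAWF hAWV hroot
      HVa HVb)

end TwoChartsNoE5

section TwoChartsConstNoE5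

variable {R F2 : Type*} [CommRing R] [IsDomain R] [IsDiscreteValuationRing R]
  [Field F2] [Algebra R F2]
  {B₁ B₂ : Subalgebra R F2} [IsFractionRing B₁ F2] [IsFractionRing B₂ F2]
  [IsNoetherianRing B₁] [IsNoetherianRing B₂] [IsIntegrallyClosed B₁] [IsIntegrallyClosed B₂]
  {π : R} (P₁ : Fin 3 → Ideal B₁) (P₂ : Fin 3 → Ideal B₂)
  [hP₁ : ∀ i, (P₁ i).IsPrime] [hP₂ : ∀ i, (P₂ i).IsPrime]
  (hh₁ : ∀ i, (P₁ i).height = 1) (hh₂ : ∀ i, (P₂ i).height = 1)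
  {K F1 k : Type*} [Field K] [Field F1] [Field k] [Algebra K F1] [Algebra K F2]
  {a b : F1 →+* F2} {Na Nb : F2 →*₀ F1} {q m : ℕ}
  {WF WV : ValuationSubring F1}

/-- **(E7a'') The two-chart skeleton (fixed residue field `k`), constants normalised by
NORMCONST, WITHOUT `hE5`.**  = `S36.H69.geo36_two_charts_const` with the binder `hE5` deleted. -/
theorem geo36_two_charts_const_noE5 (hq : 0 < q) (hm : 0 < m)
    -- the two-chart model
    (hqπ : π ∣ (q : R)) (hmq : Nat.Coprime m q) (hinj : Function.Injective P₁)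
    (hVeq : ∀ i, H56.valuationSubringAt (K := F2) (P₁ i) (hh₁ i) =
      H56.valuationSubringAt (K := F2) (P₂ i) (hh₂ i))
    (hbranch₁ : ∀ i, IsIntegrallyClosed (B₁ ⧸ P₁ i))
    (hbranch₂ : ∀ i, IsIntegrallyClosed (B₂ ⧸ P₂ i))
    -- constants
    {qK : K} (hqK : qK ≠ 0) {d : ℕ}
    (hNaK : ∀ c : K, Na (algebraMap K F2 c) = algebraMap K F1 c ^ d)
    (hNbK : ∀ c : K, Nb (algebraMap K F2 c) = algebraMap K F1 c ^ d)
    -- NORMCONST inputs
    (A : ValuationSubring K)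
    (hWFlt : ∀ x : K, A.valuation x < 1 → WF.valuation (algebraMap K F1 x) < 1)
    (hWVlt : ∀ x : K, A.valuation x < 1 → WV.valuation (algebraMap K F1 x) < 1)
    {πK : K} (hπ0 : πK ≠ 0) (hπlt : A.valuation πK < 1)
    (hπ : ∀ c : K, c ≠ 0 → ∃ n : ℤ, A.valuation (c * πK ^ (-n)) = 1)
    (hπWF : ∀ x : F1, x ≠ 0 → ∃ n : ℤ, WF.valuation (x * (algebraMap K F1 πK) ^ (-n)) = 1)
    (hπWV : ∀ x : F1, x ≠ 0 → ∃ n : ℤ, WV.valuation (x * (algebraMap K F1 πK) ^ (-n)) = 1)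
    (hAWF : ∀ x : K, A.valuation x = 1 → WF.valuation (algebraMap K F1 x) = 1)
    (hAWV : ∀ x : K, A.valuation x = 1 → WV.valuation (algebraMap K F1 x) = 1)
    (hroot : ∀ c : K, A.valuation c = 1 →
      ∃ c1 : K, A.valuation c1 = 1 ∧ A.valuation (c / c1 ^ m - 1) < 1)
    -- (E5)/(E6) global tower data
    (HVa : TowerValU a Na q (H56.valuationSubringAt (K := F2) (P₁ 0) (hh₁ 0))
      (H56.valuationSubringAt (K := F2) (P₁ 1) (hh₁ 1))
      (H56.valuationSubringAt (K := F2) (P₁ 2) (hh₁ 2)) WF WV)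
    (HVb : TowerValU b Nb q (H56.valuationSubringAt (K := F2) (P₁ 2) (hh₁ 2))
      (H56.valuationSubringAt (K := F2) (P₁ 1) (hh₁ 1))
      (H56.valuationSubringAt (K := F2) (P₁ 0) (hh₁ 0)) WV WF)
    {ζ : F1} (hζ : IsPrimitiveRoot ζ m) (hζF : WF.valuation ζ ≤ 1) (hζV : WV.valuation ζ ≤ 1)
    (hab : a ζ = b ζ)
    -- (E6) point classification + local tower data at the triple points
    (hpt : ∀ ca cb : K, NormalisedConst A WF WV ca → NormalisedConst A WF WV cb → ∀ n,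
      (∃ i₀, ∀ i, H21.primeThr (π := π) P₁ P₂ n i → i = i₀) ∨
      ((∀ i, H21.primeThr (π := π) P₁ P₂ n i) ∧
        TripleLoc a b Na Nb q m (fun i => H56.valuationSubringAt (K := F2) (P₁ i) (hh₁ i))
          WF WV ζ (algebraMap K F1 ca) (algebraMap K F1 cb) k (H21.ptO B₁ B₂ π n)))
    -- (E1) the radical Kummer criterion
    (crit : ∀ u : F2, u ≠ 0 →
      RadDatum (H21.ptO B₁ B₂ π) (fun i => H56.valuationSubringAt (K := F2) (P₁ i) (hh₁ i))
        (H21.primeThr (π := π) P₁ P₂) u m →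
      ∃ (c : K) (g : F2), u = algebraMap K F2 c * g ^ m)
    -- the function and its two norm identities
    {f : F2} (hf : f ≠ 0)
    (hNα : ∃ (c : K) (h : F1), c ≠ 0 ∧ h ≠ 0 ∧ Na f = algebraMap K F1 c * h ^ m)
    (hNβ : ∃ (c : K) (h : F1), c ≠ 0 ∧ h ≠ 0 ∧ Nb f = algebraMap K F1 c * h ^ m)
    -- (E3)
    (hE3 : ∃ (s : ℤ) (g : F2), g ≠ 0 ∧
      ∀ i, (H56.valuationSubringAt (K := F2) (P₁ i) (hh₁ i)).valuation
        (f ^ (q + 1) * algebraMap K F2 qK ^ (-s) * (g ^ m)⁻¹) = 1)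
    -- (E4)
    (hE4 : ∀ (s : ℤ) (g : F2), g ≠ 0 →
      (∀ i, (H56.valuationSubringAt (K := F2) (P₁ i) (hh₁ i)).valuation
        (f ^ (q + 1) * algebraMap K F2 qK ^ (-s) * (g ^ m)⁻¹) = 1) →
      ∃ G : H21.ClosedPt B₁ π ⊕ H21.ClosedPt B₂ π → F2, (∀ n, G n ≠ 0) ∧
        ∀ n, UnitIn (H21.ptO B₁ B₂ π n)
          (f ^ (q + 1) * algebraMap K F2 qK ^ (-s) * (g ^ m)⁻¹ / G n ^ m)) :
    ∃ (c : K) (w : F2), c ≠ 0 ∧ w ≠ 0 ∧
      f ^ ((q + 1) * (q - 1) * (q ^ 2 - 1)) = algebraMap K F2 c * w ^ m :=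
  geo36_two_charts_const (k := k) P₁ P₂ hh₁ hh₂ hq hm hqπ hmq hinj hVeq hbranch₁ hbranch₂ hqK
    hNaK hNbK A hWFlt hWVlt hπ0 hπlt hπ hπWF hπWV hAWF hAWV hroot HVa HVb hζ hζF hζV hab hpt crit
    hf hNα hNβ hE3 hE4
    (hE5_two_charts P₁ hh₁ hm hmq hinj A hWFlt hWVlt hπ0 hπlt hπ hπWF hπWV hAWF hAWV hroot
      HVa HVb)

end TwoChartsConstNoE5

end Fermat.Agent.S36.H46
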