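/-
S36 (Carayol), rows (E5)/(E6) seam (helper46): `H85.GlueRelsAt` from the UNIT form `TowerValU` of
the tower data (twin of helper85's `H85.glueRelsAt_of_towers`), so that helper85's
`H85.radDatum_of_relations` can be fed from `H46.towerValU_of_places`; and the global lifts
`exists_global_pair` for both towers at once.
-/
import Mathlib
import Fermat.Agent.S36.H85_GlueRel
import Fermat.Agent.S36.H46_TowerValU

set_option autoImplicit false
set_option linter.unusedSectionVars false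

namespace Fermat.Agent.S36.H46

open Fermat.Agent.S34.H47 Fermat.Agent.S36.H85

section Rel

variable {F1 F2 : Type*} [Field F1] [Field F2] {k : Type*} [Field k]
  {a b : F1 →+* F2} {Na Nb : F2 →*₀ F1} {q m : ℕ}
  {V : Fin 3 → ValuationSubring F2} {WF WV : ValuationSubring F1}

/-- `TowerValU` (twice) + `TripleLoc` + the global lifts + `G` a unit at the three valuations give
the two gluing relations (twin of `H85.glueRelsAt_of_towers`). -/
theorem glueRelsAt_of_towersU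
    (HVa : TowerValU a Na q (V 0) (V 1) (V 2) WF WV)
    (HVb : TowerValU b Nb q (V 2) (V 1) (V 0) WV WF)
    {ζ ca cb : F1} (hab : a ζ = b ζ)
    {O : Subring F2} (HL : TripleLoc a b Na Nb q m V WF WV ζ ca cb k O)
    {u : F2} {T : Fin 3 → F2}
    {ha hb : F1} (hNa : Na u = ca * ha ^ m) (hNb : Nb u = cb * hb ^ m)
    {ts tm ti : F1} {js ji : ℕ}
    (hts : OneU (V 0) (T 0 / a ts)) (htm : OneU (V 1) (T 1 / a tm))
    (hti : OneU (V 2) (T 2 ^ q / a ti))
    (hjs : OneU WF (ha / (ts * tm ^ (q - 1)) / ζ ^ js)) (hji : OneU WV (ha / ti / ζ ^ ji))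
    {ts' tm' ti' : F1} {js' ji' : ℕ}
    (hts' : OneU (V 2) (T 2 / b ts')) (htm' : OneU (V 1) (T 1 / b tm'))
    (hti' : OneU (V 0) (T 0 ^ q / b ti'))
    (hjs' : OneU WV (hb / (ts' * tm' ^ (q - 1)) / ζ ^ js')) (hji' : OneU WF (hb / ti' / ζ ^ ji'))
    {G : F2} (hG0 : G ≠ 0) (hG : UnitIn O (u / G ^ m)) (hGV : ∀ i, (V i).valuation G = 1) :
    GlueRelsAt V O k (a ζ) q js ji js' ji' G T := by
  obtain ⟨O'a, O'b, ev, eva, evb, HLa, HLb, hζa, hζb, hca, hcb⟩ := HL
  have hzO : UnitIn O (a ζ) := by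
    refine ⟨HLa.haO ζ hζa.1, ?_, (map_ne_zero a).mpr hζa.2.2⟩
    rw [← map_inv₀]
    exact HLa.haO _ hζa.2.1
  refine ⟨ev, hzO, ?_, fun av hav hμ => ?_⟩
  · intro i x hx h
    fin_cases i
    · exact HLa.hevs x hx h
    · exact HLa.hevm x hx h
    · exact HLa.hevi x hx h
  · have R1 := glue_relU HVa HLa hζa hNa hca hts htm hti hjs hji hG0 hG (hGV 0) (hGV 1) (hGV 2)
      (hav 0) (hav 1) (hav 2) (hμ 0) (hμ 1) (hμ 2)
    have R2 := glue_relU HVb HLb hζb hNb hcb hts' htm' hti' hjs' hji' hG0 hG (hGV 2) (hGV 1)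
      (hGV 0) (hav 2) (hav 1) (hav 0) (hμ 2) (hμ 1) (hμ 0)
    have e1 : eva ⟨ζ, hζa.1⟩ = ev ⟨a ζ, hzO.1⟩ := (HLa.hev ζ hζa.1 hzO.1).symm
    have e2 : evb ⟨ζ, hζb.1⟩ = ev ⟨a ζ, hzO.1⟩ := by
      have hbz : b ζ ∈ O := by rw [← hab]; exact hzO.1
      rw [← HLb.hev ζ hζb.1 hbz]
      exact ev_congr ev hab.symm _ _
    rw [e1] at R1
    rw [e2] at R2
    exact ⟨R1, R2⟩

/-- `G` is a unit at the valuations through the point: from `u / G ^ m ∈ Oˣ`, `u` a unit at `V i`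
and `Oˣ ⊆ (V i)ˣ`. -/
theorem valuation_eq_one_of_unitIn_div_pow {O : Subring F2} {W : ValuationSubring F2}
    (hOW : ∀ x : F2, UnitIn O x → W.valuation x = 1) (hm : 0 < m) {u G : F2}
    (hu : W.valuation u = 1) (hG : UnitIn O (u / G ^ m)) : W.valuation G = 1 := by
  apply valuation_eq_one_of_pow hm
  have h1 := hOW _ hG
  rw [map_div₀, hu] at h1
  rw [one_div, inv_eq_one] at h1
  exact h1

end Rel

end Fermat.Agent.S36.H46
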