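/-
S36 (Carayol), seam (E3) → (E5)/(E6) → (E7a) (helper46): **NORMCONST in the shape of helper69's
skeleton** `S36.H69.geo36_of_radicalDatum` (hypotheses `hconstα`, `hconstβ`, predicate
`U c := OneU A c`, "`c` is a `1`-unit of the DVR `A` of the constant field").

* `TowerValU.valuation_norm_eq_one` : the norm of a unit at `Vs`, `Vm` is a unit at `Ws`
  (from the fields of `TowerValU` only);
* `exists_const_oneU_mul_pow'` : NORMCONST with `OneU A c'` exported;
* `oneU_algebraMap_of_oneU` : `hUF`, `hUV`;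
* `hconst_of_towerValU` : `hconstα` / `hconstβ` VERBATIM (up to the choice of the two indices).
-/
import Mathlib
import Fermat.Agent.S36.H46_NormConst
import Fermat.Agent.S36.H46_TowerValU

set_option autoImplicit false
set_option linter.unusedSectionVars false

namespace Fermat.Agent.S36.H46

open Fermat.Agent.S34.H47 Fermat.Agent.S36.H85

section NormUnit

variable {F1 F2 : Type*} [Field F1] [Field F2]
  {a : F1 →+* F2} {Na : F2 →*₀ F1} {q : ℕ}
  {Vs Vm Vi : ValuationSubring F2} {Ws Wi : ValuationSubring F1}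

/-- units above come from units below (from `haVs` only). -/
theorem valuation_eq_one_of_map_oneU {W : ValuationSubring F1} {V : ValuationSubring F2}
    (haV : ∀ x, OneU W x → OneU V (a x)) {x : F1} (hx : V.valuation (a x) = 1) :
    W.valuation x = 1 := by
  have key : ∀ z : F1, V.valuation (a z) = 1 → ¬ W.valuation z < 1 := by
    intro z hz hlt
    have h1 : OneU W (1 + z) := by
      unfold OneU
      rwa [add_sub_cancel_left]
    have h2 := haV _ h1
    unfold OneU at h2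
    rw [map_add, map_one, add_sub_cancel_left, hz] at h2
    exact lt_irrefl _ h2
  have hx0 : x ≠ 0 := by
    rintro rfl
    rw [map_zero, map_zero] at hx
    exact zero_ne_one hx
  have h1 := key x hx
  have h2 : ¬ W.valuation x⁻¹ < 1 := by
    apply key
    rw [map_inv₀, map_inv₀, hx, inv_one]
  rw [map_inv₀] at h2
  have hv0 : 0 < W.valuation x := zero_lt_iff.mpr ((Valuation.ne_zero_iff _).mpr hx0)
  apply le_antisymm
  · by_contra hgt
    rw [not_le] at hgt
    exact h2 ((inv_lt_one₀ hv0).mpr hgt)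
  · exact not_lt.mp h1

/-- **The norm of a unit at `Vs`, `Vm` is a unit at `Ws`.** -/
theorem TowerValU.valuation_norm_eq_one (H : TowerValU a Na q Vs Vm Vi Ws Wi) {u : F2}
    (hs : Vs.valuation u = 1) (hm : Vm.valuation u = 1) : Ws.valuation (Na u) = 1 := by
  obtain ⟨x1, h1⟩ := H.hls u hs
  obtain ⟨x2, h2⟩ := H.hlm u hm
  have v1 : Vs.valuation (a x1) = 1 := by
    have := h1.valuation_eq_one
    rw [map_div₀, hs] at this
    rw [one_div, inv_eq_one] at this
    exact this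
  have v2 : Vm.valuation (a x2) = 1 := by
    have := h2.valuation_eq_one
    rw [map_div₀, hm] at this
    rw [one_div, inv_eq_one] at this
    exact this
  have w1 : Ws.valuation x1 = 1 := valuation_eq_one_of_map_oneU H.haVs v1
  have w2 : Ws.valuation x2 = 1 := valuation_eq_one_of_map_oneU H.haVm v2
  have h3 := (H.hNs u x1 x2 hs hm h1 h2).valuation_eq_one
  rw [map_div₀, map_mul, map_pow, w1, w2, one_pow, one_mul, div_one] at h3
  exact h3

end NormUnit

section NormConst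

variable {K F1 : Type*} [Field K] [Field F1] [Algebra K F1]

/-- **NORMCONST**, with the normalised constant a `1`-unit of `A` (and `h'` explicit). -/
theorem exists_const_oneU_mul_pow' (A : ValuationSubring K)
    (W : ValuationSubring F1)
    (hWlt : ∀ x : K, A.valuation x < 1 → W.valuation (algebraMap K F1 x) < 1)
    {π : K} (hπ0 : π ≠ 0) (hπlt : A.valuation π < 1)
    (hπ : ∀ c : K, c ≠ 0 → ∃ n : ℤ, A.valuation (c * π ^ (-n)) = 1)
    (hπW : ∀ x : F1, x ≠ 0 → ∃ n : ℤ, W.valuation (x * (algebraMap K F1 π) ^ (-n)) = 1)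
    (hAW : ∀ x : K, A.valuation x = 1 → W.valuation (algebraMap K F1 x) = 1)
    (m : ℕ)
    (hroot : ∀ c : K, A.valuation c = 1 →
      ∃ c1 : K, A.valuation c1 = 1 ∧ A.valuation (c / c1 ^ m - 1) < 1)
    {y : F1} (hy : W.valuation y = 1) {c : K} {h : F1} (hc : c ≠ 0) (hh : h ≠ 0)
    (hyc : y = algebraMap K F1 c * h ^ m) :
    ∃ (c' : K) (h' : F1), c' ≠ 0 ∧ h' ≠ 0 ∧ y = algebraMap K F1 c' * h' ^ m ∧ OneU A c' := by
  set πF : F1 := algebraMap K F1 π with hπF
  have hπF0 : πF ≠ 0 := by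
    rw [hπF]
    exact (map_ne_zero _).mpr hπ0
  have hπFlt : W.valuation πF < 1 := hWlt π hπlt
  obtain ⟨n, hn⟩ := hπ c hc
  obtain ⟨k, hk⟩ := hπW h hh
  set c0 : K := c * π ^ (-n) with hc0
  set h0 : F1 := h * πF ^ (-k) with hh0
  have hc00 : c0 ≠ 0 := mul_ne_zero hc (zpow_ne_zero _ hπ0)
  have hh00 : h0 ≠ 0 := mul_ne_zero hh (zpow_ne_zero _ hπF0)
  -- `y = c0 * h0 ^ m * πF ^ (n + m k)`
  have hpow : πF ^ (-n) * πF ^ (-((m : ℤ) * k)) * πF ^ (n + (m : ℤ) * k) = 1 := by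
    rw [← zpow_add₀ hπF0, ← zpow_add₀ hπF0]
    have h1 : -n + -((m : ℤ) * k) + (n + (m : ℤ) * k) = 0 := by ring
    rw [h1, zpow_zero]
  have hh0m : h0 ^ m = h ^ m * πF ^ (-((m : ℤ) * k)) := by
    rw [hh0, mul_pow, ← zpow_natCast (πF ^ (-k)) m, ← zpow_mul]
    congr 2
    ring
  have hc0F : algebraMap K F1 c0 = algebraMap K F1 c * πF ^ (-n) := by
    rw [hc0, map_mul, map_zpow₀]
  have e1 : y = algebraMap K F1 c0 * h0 ^ m * πF ^ (n + (m : ℤ) * k) := by
    rw [hc0F, hh0m, hyc]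
    linear_combination (-(algebraMap K F1 c * h ^ m)) * hpow
  clear_value c0 h0
  have hv : W.valuation (πF ^ (n + (m : ℤ) * k)) = 1 := by
    have h1 := congrArg W.valuation e1
    rw [hy, map_mul, map_mul, map_pow, hAW c0 hn, hk, one_pow, one_mul, one_mul] at h1
    exact h1.symm
  have hz : n + (m : ℤ) * k = 0 := zpow_eq_zero_of_valuation_eq_one W hπFlt hπF0 hv
  rw [hz, zpow_zero, mul_one] at e1
  obtain ⟨c1, hc1, hc1'⟩ := hroot c0 hn
  have hc10 : c1 ≠ 0 := by
    rintro rfl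
    rw [map_zero] at hc1
    exact zero_ne_one hc1
  have hc1m : c1 ^ m ≠ 0 := pow_ne_zero m hc10
  refine ⟨c0 / c1 ^ m, algebraMap K F1 c1 * h0, div_ne_zero hc00 hc1m,
    mul_ne_zero ((map_ne_zero _).mpr hc10) hh00, ?_, hc1'⟩
  · rw [e1, map_div₀, map_pow, mul_pow]
    have : (algebraMap K F1 c1) ^ m ≠ 0 := pow_ne_zero m ((map_ne_zero _).mpr hc10)
    field_simp


/-- `1`-units of the constants are `1`-units at every valuation above (`hUF`, `hUV`). -/
theorem oneU_algebraMap_of_oneU (A : ValuationSubring K) (W : ValuationSubring F1)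
    (hWlt : ∀ x : K, A.valuation x < 1 → W.valuation (algebraMap K F1 x) < 1) {c : K}
    (hc : OneU A c) : OneU W (algebraMap K F1 c) := by
  unfold OneU at hc ⊢
  have := hWlt _ hc
  rwa [map_sub, map_one] at this

end NormConst

section Skeleton

variable {K F1 F2 : Type*} [Field K] [Field F1] [Field F2] [Algebra K F1]
  {a : F1 →+* F2} {Na : F2 →*₀ F1} {q : ℕ}
  {Vs Vm Vi : ValuationSubring F2} {Ws Wi : ValuationSubring F1}

/-- **`hconstα` / `hconstβ` of `S36.H69.geo36_of_radicalDatum`**, with `U c := OneU A c`.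
For `α`: `(Vs, Vm, Vi | Ws, Wi) = (V 0, V 1, V 2 | WF, WV)`; for `β`: `(V 2, V 1, V 0 | WV, WF)`. -/
theorem hconst_of_towerValU (H : TowerValU a Na q Vs Vm Vi Ws Wi) (A : ValuationSubring K)
    (hWlt : ∀ x : K, A.valuation x < 1 → Ws.valuation (algebraMap K F1 x) < 1)
    {π : K} (hπ0 : π ≠ 0) (hπlt : A.valuation π < 1)
    (hπ : ∀ c : K, c ≠ 0 → ∃ n : ℤ, A.valuation (c * π ^ (-n)) = 1)
    (hπW : ∀ x : F1, x ≠ 0 → ∃ n : ℤ, Ws.valuation (x * (algebraMap K F1 π) ^ (-n)) = 1)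
    (hAW : ∀ x : K, A.valuation x = 1 → Ws.valuation (algebraMap K F1 x) = 1)
    (m : ℕ)
    (hroot : ∀ c : K, A.valuation c = 1 →
      ∃ c1 : K, A.valuation c1 = 1 ∧ A.valuation (c / c1 ^ m - 1) < 1) :
    ∀ (u : F2) (c : K) (h : F1), Vs.valuation u = 1 → Vm.valuation u = 1 → c ≠ 0 → h ≠ 0 →
      Na u = algebraMap K F1 c * h ^ m →
      ∃ (c1 : K) (h1 : F1), OneU A c1 ∧ Na u = algebraMap K F1 c1 * h1 ^ m := by
  intro u c h hs hm hc hh hN
  obtain ⟨c', h', -, -, e, hU⟩ := exists_const_oneU_mul_pow' A Ws hWlt hπ0 hπlt hπ hπW hAW m hroot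
    (H.valuation_norm_eq_one hs hm) hc hh hN
  exact ⟨c', h', hU, e⟩

end Skeleton

section SkeletonFin

variable {K F1 F2 : Type*} [Field K] [Field F1] [Field F2] [Algebra K F1]
  {a b : F1 →+* F2} {Na Nb : F2 →*₀ F1} {q : ℕ}
  {V : Fin 3 → ValuationSubring F2} {WF WV : ValuationSubring F1}

/-- **`hconstα` of `S36.H69.geo36_of_radicalDatum`, VERBATIM** (`U := fun c => OneU A c`). -/
theorem hconstα_of_towerValU (HVa : TowerValU a Na q (V 0) (V 1) (V 2) WF WV)
    (A : ValuationSubring K)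
    (hWlt : ∀ x : K, A.valuation x < 1 → WF.valuation (algebraMap K F1 x) < 1)
    {π : K} (hπ0 : π ≠ 0) (hπlt : A.valuation π < 1)
    (hπ : ∀ c : K, c ≠ 0 → ∃ n : ℤ, A.valuation (c * π ^ (-n)) = 1)
    (hπW : ∀ x : F1, x ≠ 0 → ∃ n : ℤ, WF.valuation (x * (algebraMap K F1 π) ^ (-n)) = 1)
    (hAW : ∀ x : K, A.valuation x = 1 → WF.valuation (algebraMap K F1 x) = 1)
    (m : ℕ)
    (hroot : ∀ c : K, A.valuation c = 1 →
      ∃ c1 : K, A.valuation c1 = 1 ∧ A.valuation (c / c1 ^ m - 1) < 1) :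
    ∀ (u : F2) (c : K) (h : F1), (∀ i, (V i).valuation u = 1) → c ≠ 0 → h ≠ 0 →
      Na u = algebraMap K F1 c * h ^ m →
      ∃ (c1 : K) (h1 : F1), (fun c => OneU A c) c1 ∧ Na u = algebraMap K F1 c1 * h1 ^ m :=
  fun u c h hu hc hh hN =>
    hconst_of_towerValU HVa A hWlt hπ0 hπlt hπ hπW hAW m hroot u c h (hu 0) (hu 1) hc hh hN

/-- **`hconstβ` of `S36.H69.geo36_of_radicalDatum`, VERBATIM** (`U := fun c => OneU A c`). -/
theorem hconstβ_of_towerValU (HVb : TowerValU b Nb q (V 2) (V 1) (V 0) WV WF)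
    (A : ValuationSubring K)
    (hWlt : ∀ x : K, A.valuation x < 1 → WV.valuation (algebraMap K F1 x) < 1)
    {π : K} (hπ0 : π ≠ 0) (hπlt : A.valuation π < 1)
    (hπ : ∀ c : K, c ≠ 0 → ∃ n : ℤ, A.valuation (c * π ^ (-n)) = 1)
    (hπW : ∀ x : F1, x ≠ 0 → ∃ n : ℤ, WV.valuation (x * (algebraMap K F1 π) ^ (-n)) = 1)
    (hAW : ∀ x : K, A.valuation x = 1 → WV.valuation (algebraMap K F1 x) = 1)
    (m : ℕ)
    (hroot : ∀ c : K, A.valuation c = 1 →
      ∃ c1 : K, A.valuation c1 = 1 ∧ A.valuation (c / c1 ^ m - 1) < 1) :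
    ∀ (u : F2) (c : K) (h : F1), (∀ i, (V i).valuation u = 1) → c ≠ 0 → h ≠ 0 →
      Nb u = algebraMap K F1 c * h ^ m →
      ∃ (c1 : K) (h1 : F1), (fun c => OneU A c) c1 ∧ Nb u = algebraMap K F1 c1 * h1 ^ m :=
  fun u c h hu hc hh hN =>
    hconst_of_towerValU HVb A hWlt hπ0 hπlt hπ hπW hAW m hroot u c h (hu 2) (hu 1) hc hh hN

end SkeletonFin

end Fermat.Agent.S36.H46
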