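/-
S36 (Carayol), row (E5) "Step 3: norm reduction at the three places" (helper46): the CHART form
of the output of Step 3.

`B` a chart of the level-`q² M₀` model (noetherian integrally closed domain, `Frac B = F`),
`P : Fin 3 → Ideal B` its three vertical primes (height one, pairwise incomparable), `R j` the three
`ResPlace`s of `F` (`R 0`: `e = f = 1` over `Qa` for `α`, purely inseparable over `Qa'` for `β`;
`R 1`: the middle place, `e = q - 1`; `R 2`: purely inseparable over `Qb` for `α`), identified with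
the valuation rings of the `P j` (place bridge `hO`, `hker`).  From the four norm reductions
(helper16's `S36.H16.hasRes_norm_ram_pair / hasRes_norm_insep` shapes) and
`Nα u = cα * hα ^ m`, `Nβ u = cβ * hβ ^ m` (in the residue form `hta htb hta'`):

  ONE `G ≠ 0`, a unit at the three places, with `u ^ e ≡ G ^ m` modulo `1`-units at all three.

This is `hT` of helper85's `S36.H85.radDatum_of_glue` (`T k := G`, `u := u ^ e`).
-/
import Mathlib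
import Fermat.Agent.S36.H46_ThreeResidues
import Fermat.Agent.S35.H62_Approx

set_option autoImplicit false
set_option linter.unusedSectionVars false

namespace Fermat.Agent.S36.H46

open Fermat.Agent.S34 Fermat.Agent.S34.H47 Fermat.Agent.S35 Fermat.Agent.S35.H46

section Chart

variable {B F : Type*} [CommRing B] [IsDomain B] [Field F] [Algebra B F] [IsFractionRing B F]
  [IsNoetherianRing B] [IsIntegrallyClosed B]
  {FM κF k : Type*} [Field FM] [Field κF] [Field k]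

/-- **(E5), per-place roots in valuation form, for a family of valuation rings indexed by
`Fin 3`.** -/
theorem three_roots_oneU_fin (V : Fin 3 → ValuationSubring F) (R : Fin 3 → ResPlace F κF)
    (hO : ∀ j y, y ∈ (R j).O1 ↔ y ∈ V j)
    (hker : ∀ j (y : F) (hy : y ∈ (R j).O1), (R j).res ⟨y, hy⟩ = 0 → (V j).valuation y < 1)
    {Qa Qb Qa' : ResPlace FM κF}
    (ιk : k →+* κF) (σk : k →+* k) (φb : κF →+* κF) (m e : ℕ)
    (hkroot : ∀ c : kˣ, ∃ c0 : kˣ, c0 ^ m = c)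
    (hφbk : ∀ c : k, φb (ιk c) = ιk (σk c)) (hσ : Function.Surjective σk)
    (hk : ∀ j (c : kˣ), Units.map (ιk : k →* κF) c ∈ (R j).resUnits)
    (hQa₁ : ∀ t ∈ (R 0).resUnits, t ∈ Qa.resUnits)
    (hQa₂ : ∀ t ∈ Qa.resUnits, t ∈ (R 1).resUnits)
    (hQb₃ : ∀ t ∈ Qb.resUnits, ∃ t' ∈ (R 2).resUnits, Units.map (φb : κF →* κF) t' = t)
    (hQa'₁ : ∀ t ∈ Qa'.resUnits, ∃ t' ∈ (R 0).resUnits, Units.map (φb : κF →* κF) t' = t)
    (Nα Nβ : F →* FM)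
    (g2α₁ : ∀ u s₂ s₁, (R 1).HasRes u s₂ → (R 0).HasRes u s₁ →
      Qa.HasRes (Nα u) (s₂ ^ e * s₁))
    (g2α₂ : ∀ u s₃, (R 2).HasRes u s₃ → Qb.HasRes (Nα u) (Units.map (φb : κF →* κF) s₃))
    (g2β₁ : ∀ u s₁, (R 0).HasRes u s₁ → Qa'.HasRes (Nβ u) (Units.map (φb : κF →* κF) s₁))
    {u : F} (hu : ∀ j, (V j).valuation u = 1)
    (hta : ∀ t, Qa.HasRes (Nα u) t → t ∈ kummerS ιk Qa m)
    (htb : ∀ t, Qb.HasRes (Nα u) t → t ∈ kummerS ιk Qb m)
    (hta' : ∀ t, Qa'.HasRes (Nβ u) t → t ∈ kummerS ιk Qa' m) :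
    ∀ j, ∃ G : F, (V j).valuation G = 1 ∧ OneU (V j) (u ^ e / G ^ m) := by
  obtain ⟨s₁, h₁⟩ := ResPlace.exists_hasRes_of_valuation_eq_one (hO 0) (hu 0)
  obtain ⟨s₂, h₂⟩ := ResPlace.exists_hasRes_of_valuation_eq_one (hO 1) (hu 1)
  obtain ⟨s₃, h₃⟩ := ResPlace.exists_hasRes_of_valuation_eq_one (hO 2) (hu 2)
  have ka := g2α₁ u s₂ s₁ h₂ h₁
  have kb := g2α₂ u s₃ h₃
  have ka' := g2β₁ u s₁ h₁
  obtain ⟨m₁, m₂, m₃⟩ := three_residues_kummerS ιk σk φb m e hφbk hσ hQa₁ hQa₂ hQb₃ hQa'₁ Nα Nβ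
    g2α₁ g2α₂ g2β₁ h₁ h₂ h₃ (hta _ ka) (htb _ kb) (hta' _ ka')
  obtain ⟨r₁, r₂, r₃⟩ := three_roots_oneU (V 0) (V 1) (V 2)
    (fun y hy => (hO 0 y).mp hy) (fun y hy => (hO 1 y).mp hy) (fun y hy => (hO 2 y).mp hy)
    (hker 0) (hker 1) (hker 2) ιk ιk ιk m e hkroot (hk 0) (hk 1) (hk 2) h₁ h₂ h₃ m₁ m₂ m₃
  intro j
  fin_cases j
  · exact r₁
  · exact r₂
  · exact r₃

/-- **(E5), chart form.** -/
theorem exists_hG_three (P : Fin 3 → Ideal B) [hP : ∀ j, (P j).IsPrime]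
    (hh : ∀ j, (P j).height = 1) (hinc : ∀ i j, P i ≤ P j → i = j)
    (R : Fin 3 → ResPlace F κF)
    (hO : ∀ j y, y ∈ (R j).O1 ↔ y ∈ H56.valuationSubringAt (K := F) (P j) (hh j))
    (hker : ∀ j (y : F) (hy : y ∈ (R j).O1), (R j).res ⟨y, hy⟩ = 0 →
      (H56.valuationSubringAt (K := F) (P j) (hh j)).valuation y < 1)
    {Qa Qb Qa' : ResPlace FM κF}
    (ιk : k →+* κF) (σk : k →+* k) (φb : κF →+* κF) (m e : ℕ)
    (hkroot : ∀ c : kˣ, ∃ c0 : kˣ, c0 ^ m = c)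
    (hφbk : ∀ c : k, φb (ιk c) = ιk (σk c)) (hσ : Function.Surjective σk)
    (hk : ∀ j (c : kˣ), Units.map (ιk : k →* κF) c ∈ (R j).resUnits)
    (hQa₁ : ∀ t ∈ (R 0).resUnits, t ∈ Qa.resUnits)
    (hQa₂ : ∀ t ∈ Qa.resUnits, t ∈ (R 1).resUnits)
    (hQb₃ : ∀ t ∈ Qb.resUnits, ∃ t' ∈ (R 2).resUnits, Units.map (φb : κF →* κF) t' = t)
    (hQa'₁ : ∀ t ∈ Qa'.resUnits, ∃ t' ∈ (R 0).resUnits, Units.map (φb : κF →* κF) t' = t)
    (Nα Nβ : F →* FM)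
    (g2α₁ : ∀ u s₂ s₁, (R 1).HasRes u s₂ → (R 0).HasRes u s₁ →
      Qa.HasRes (Nα u) (s₂ ^ e * s₁))
    (g2α₂ : ∀ u s₃, (R 2).HasRes u s₃ → Qb.HasRes (Nα u) (Units.map (φb : κF →* κF) s₃))
    (g2β₁ : ∀ u s₁, (R 0).HasRes u s₁ → Qa'.HasRes (Nβ u) (Units.map (φb : κF →* κF) s₁))
    {u : F} (hu : ∀ j, (H56.valuationSubringAt (K := F) (P j) (hh j)).valuation u = 1)
    (hta : ∀ t, Qa.HasRes (Nα u) t → t ∈ kummerS ιk Qa m)
    (htb : ∀ t, Qb.HasRes (Nα u) t → t ∈ kummerS ιk Qb m)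
    (hta' : ∀ t, Qa'.HasRes (Nβ u) t → t ∈ kummerS ιk Qa' m) :
    ∃ G : F, G ≠ 0 ∧
      (∀ j, (H56.valuationSubringAt (K := F) (P j) (hh j)).valuation G = 1) ∧
      ∀ j, OneU (H56.valuationSubringAt (K := F) (P j) (hh j)) (u ^ e / G ^ m) := by
  have key := three_roots_oneU_fin (fun j => H56.valuationSubringAt (K := F) (P j) (hh j)) R hO hker
    ιk σk φb m e hkroot hφbk hσ hk hQa₁ hQa₂ hQb₃ hQa'₁ Nα Nβ g2α₁ g2α₂ g2β₁ hu hta htb hta'
  exact H62.exists_simultaneous_root P hh hinc (u ^ e) m key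

end Chart

end Fermat.Agent.S36.H46
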