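/-
S36, row (E1), the (E2) → (E1) adapter (helper47): from the `ThreeComponents` package of a chart
`B` of level `q² L` (helper83, `S36.H83`) to the vertical-prime hypotheses of the chart-level
criterion `S36.H67.kummer_descent_pow_rad` (helper67):

  `hπP`, `IsPrime`, `hred₀` (at the first / third component), `hmult` (with `p := q`),
  `hsat`, `hall`, and (spare) `hconn` from one triple point.

Everything is abstract in the chart `B` (any commutative ring), so it applies verbatim to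
`chartB R J` and to `chartB R J⁻¹` with `qB := algebraMap R B π`.

Extra inputs beyond the structure (all true at the real types):
* `[IsDomain D]`;
* `hqP : ∀ i, qB ∈ P i`          (`q` lies in the three vertical primes);
* `hinc : ∀ i j, i ≠ j → ¬ P j ≤ P i`   (the three vertical primes are pairwise incomparable);
* `hq2 : ∃ t, red₂ t ≠ 0 ∧ t * qB ∈ ker red₂ ^ (q - 1)`   (`q ∈ P₂^((q-1))`, only for `hsat`).
The family `P : Fin 3 → Ideal B` is arbitrary with `P 0 = ker red₁`, `P 1 = ker red₂`,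
`P 2 = ker red₃`.
-/
import Mathlib
import Fermat.Agent.S36.H83_ThreeComponents

set_option autoImplicit false
set_option linter.unusedSectionVars false

namespace Fermat.Agent.S36.H47

open Fermat.Agent.S36.H83

section Adapter

variable {B D BM : Type*} [CommRing B] [CommRing D] [IsDomain D] [CommRing BM]
  {red₁ red₂ red₃ : B →+* D} {ιu ιv ιw : BM →+* B} {rbar : BM →+* D} {W : D →+* D}
  {q : ℕ} {qB : B}
  (P : Fin 3 → Ideal B)

/-- Each of the three vertical ideals is prime (kernel of a map to a domain). -/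
theorem isPrime_of_three (hP0 : P 0 = RingHom.ker red₁) (hP1 : P 1 = RingHom.ker red₂)
    (hP2 : P 2 = RingHom.ker red₃) : ∀ i, (P i).IsPrime := by
  intro i
  fin_cases i
  · show (P 0).IsPrime
    rw [hP0]; exact RingHom.ker_isPrime red₁
  · show (P 1).IsPrime
    rw [hP1]; exact RingHom.ker_isPrime red₂
  · show (P 2).IsPrime
    rw [hP2]; exact RingHom.ker_isPrime red₃

/-- an element of `P j` outside `P i` -/
theorem exists_mem_not_mem {i j : Fin 3} (hinc : ¬ P j ≤ P i) : ∃ x, x ∈ P j ∧ x ∉ P i := by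
  obtain ⟨x, hx, hxi⟩ := Set.not_subset.1 hinc
  exact ⟨x, hx, hxi⟩

variable {P}

/-- **`q` generates `P₁` at the generic point of `C₁`**: `hred₀` of `kummer_descent_pow_rad`
with `k₀ := 0`. -/
theorem hred_first (h : ThreeComponents red₁ red₂ red₃ ιu ιv ιw rbar W q qB)
    (hP0 : P 0 = RingHom.ker red₁) (hP1 : P 1 = RingHom.ker red₂) (hP2 : P 2 = RingHom.ker red₃)
    (hinc : ∀ i j : Fin 3, i ≠ j → ¬ P j ≤ P i) :
    ∀ b ∈ P 0, ∃ s, s ∉ P 0 ∧ qB ∣ s * b := by
  have hprime := isPrime_of_three P hP0 hP1 hP2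
  intro b hb
  obtain ⟨x₂, hx₂, hx₂0⟩ := exists_mem_not_mem P (hinc 0 1 (by decide))
  obtain ⟨x₃, hx₃, hx₃0⟩ := exists_mem_not_mem P (hinc 0 2 (by decide))
  refine ⟨x₂ ^ (q - 1) * x₃, fun hmem => ?_, ?_⟩
  · rcases (hprime 0).mem_or_mem hmem with h' | h'
    · exact hx₂0 ((hprime 0).mem_of_pow_mem _ h')
    · exact hx₃0 h'
  · rw [hP0] at hb
    rw [hP1] at hx₂
    rw [hP2] at hx₃
    have := h.mul_mem_span ((RingHom.mem_ker).1 hb) (Ideal.pow_mem_pow hx₂ (q - 1))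
      ((RingHom.mem_ker).1 hx₃)
    have e : x₂ ^ (q - 1) * x₃ * b = b * x₂ ^ (q - 1) * x₃ := by ring
    rw [e]
    exact Ideal.mem_span_singleton.1 this

/-- **`q` generates `P₃` at the generic point of `C₃`**. -/
theorem hred_third (h : ThreeComponents red₁ red₂ red₃ ιu ιv ιw rbar W q qB)
    (hP0 : P 0 = RingHom.ker red₁) (hP1 : P 1 = RingHom.ker red₂) (hP2 : P 2 = RingHom.ker red₃)
    (hinc : ∀ i j : Fin 3, i ≠ j → ¬ P j ≤ P i) :
    ∀ b ∈ P 2, ∃ s, s ∉ P 2 ∧ qB ∣ s * b := by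
  have hprime := isPrime_of_three P hP0 hP1 hP2
  intro b hb
  obtain ⟨x₁, hx₁, hx₁2⟩ := exists_mem_not_mem P (hinc 2 0 (by decide))
  obtain ⟨x₂, hx₂, hx₂2⟩ := exists_mem_not_mem P (hinc 2 1 (by decide))
  refine ⟨x₁ * x₂ ^ (q - 1), fun hmem => ?_, ?_⟩
  · rcases (hprime 2).mem_or_mem hmem with h' | h'
    · exact hx₁2 h'
    · exact hx₂2 ((hprime 2).mem_of_pow_mem _ h')
  · rw [hP2] at hb
    rw [hP0] at hx₁
    rw [hP1] at hx₂
    have := h.mul_mem_span ((RingHom.mem_ker).1 hx₁) (Ideal.pow_mem_pow hx₂ (q - 1))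
      ((RingHom.mem_ker).1 hb)
    exact Ideal.mem_span_singleton.1 this

/-- **`P₂^(q-1)` lies in `q B` at the generic point of `C₂`** (multiplicity `q - 1`). -/
theorem hmult_middle (h : ThreeComponents red₁ red₂ red₃ ιu ιv ιw rbar W q qB)
    (hP0 : P 0 = RingHom.ker red₁) (hP1 : P 1 = RingHom.ker red₂) (hP2 : P 2 = RingHom.ker red₃)
    (hinc : ∀ i j : Fin 3, i ≠ j → ¬ P j ≤ P i) :
    ∀ b ∈ P 1, ∃ s, s ∉ P 1 ∧ qB ∣ s * b ^ (q - 1) := by
  have hprime := isPrime_of_three P hP0 hP1 hP2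
  intro b hb
  obtain ⟨x₁, hx₁, hx₁1⟩ := exists_mem_not_mem P (hinc 1 0 (by decide))
  obtain ⟨x₃, hx₃, hx₃1⟩ := exists_mem_not_mem P (hinc 1 2 (by decide))
  refine ⟨x₁ * x₃, fun hmem => ?_, ?_⟩
  · rcases (hprime 1).mem_or_mem hmem with h' | h'
    · exact hx₁1 h'
    · exact hx₃1 h'
  · rw [hP1] at hb
    rw [hP0] at hx₁
    rw [hP2] at hx₃
    have := h.mul_mem_span ((RingHom.mem_ker).1 hx₁) (Ideal.pow_mem_pow hb (q - 1))
      ((RingHom.mem_ker).1 hx₃)
    have e : x₁ * x₃ * b ^ (q - 1) = x₁ * b ^ (q - 1) * x₃ := by ring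
    rw [e]
    exact Ideal.mem_span_singleton.1 this

/-- **`hmult` of `kummer_descent_pow_rad` with `p := q`**: every component has multiplicity
`≤ q`. -/
theorem hmult_of_three (h : ThreeComponents red₁ red₂ red₃ ιu ιv ιw rbar W q qB) (hq : 0 < q)
    (hP0 : P 0 = RingHom.ker red₁) (hP1 : P 1 = RingHom.ker red₂) (hP2 : P 2 = RingHom.ker red₃)
    (hinc : ∀ i j : Fin 3, i ≠ j → ¬ P j ≤ P i) :
    ∀ i, ∀ b ∈ P i, ∃ s, s ∉ P i ∧ qB ∣ s * b ^ q := by
  obtain ⟨q0, rfl⟩ : ∃ q0, q = q0 + 1 := ⟨q - 1, by omega⟩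
  intro i
  fin_cases i
  · intro b hb
    obtain ⟨s, hs, hd⟩ := hred_first h hP0 hP1 hP2 hinc b hb
    refine ⟨s, hs, ?_⟩
    have e : s * b ^ (q0 + 1) = s * b * b ^ q0 := by ring
    rw [e]
    exact Dvd.dvd.mul_right hd _
  · intro b hb
    obtain ⟨s, hs, hd⟩ := hmult_middle h hP0 hP1 hP2 hinc b hb
    refine ⟨s, hs, ?_⟩
    rw [Nat.add_sub_cancel] at hd
    have e : s * b ^ (q0 + 1) = s * b ^ q0 * b := by ring
    rw [e]
    exact Dvd.dvd.mul_right hd _
  · intro b hb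
    obtain ⟨s, hs, hd⟩ := hred_third h hP0 hP1 hP2 hinc b hb
    refine ⟨s, hs, ?_⟩
    have e : s * b ^ (q0 + 1) = s * b * b ^ q0 := by ring
    rw [e]
    exact Dvd.dvd.mul_right hd _

/-- **`hsat` of `kummer_descent_pow_rad`**: `q B` is saturated with respect to the three vertical
primes.  Uses `hq2 : q ∈ P₂^((q-1))` (helper70's extra hypothesis). -/
theorem hsat_of_three (h : ThreeComponents red₁ red₂ red₃ ιu ιv ιw rbar W q qB)
    (hP0 : P 0 = RingHom.ker red₁) (hP1 : P 1 = RingHom.ker red₂) (hP2 : P 2 = RingHom.ker red₃)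
    (hqP : ∀ i, qB ∈ P i)
    (hq2 : ∃ t : B, red₂ t ≠ 0 ∧ t * qB ∈ RingHom.ker red₂ ^ (q - 1)) :
    ∀ b : B, (∀ i, ∃ s, s ∉ P i ∧ qB ∣ s * b) → qB ∣ b := by
  have hprime := isPrime_of_three P hP0 hP1 hP2
  intro b hb
  obtain ⟨s₁, hs₁, hd₁⟩ := hb 0
  obtain ⟨s₂, hs₂, d₂, hd₂⟩ := hb 1
  obtain ⟨s₃, hs₃, hd₃⟩ := hb 2
  have hb1 : b ∈ P 0 := by
    have : s₁ * b ∈ P 0 := Ideal.mem_of_dvd _ hd₁ (hqP 0)
    rcases (hprime 0).mem_or_mem this with h' | h'
    · exact absurd h' hs₁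
    · exact h'
  have hb3 : b ∈ P 2 := by
    have : s₃ * b ∈ P 2 := Ideal.mem_of_dvd _ hd₃ (hqP 2)
    rcases (hprime 2).mem_or_mem this with h' | h'
    · exact absurd h' hs₃
    · exact h'
  rw [hP0] at hb1
  rw [hP2] at hb3
  obtain ⟨t, ht, htq⟩ := hq2
  have hs₂' : red₂ s₂ ≠ 0 := by
    intro h0
    apply hs₂
    rw [hP1]
    exact (RingHom.mem_ker).2 h0
  have hmem : b ∈ Ideal.span {qB} := by
    refine h.hsat b ((RingHom.mem_ker).1 hb1) ((RingHom.mem_ker).1 hb3)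
      ⟨t * s₂, by rw [map_mul]; exact mul_ne_zero ht hs₂', ?_⟩
    have e : t * s₂ * b = t * qB * d₂ := by rw [mul_assoc, hd₂]; ring
    rw [e]
    exact Ideal.mul_mem_right _ _ htq
  exact Ideal.mem_span_singleton.1 hmem

/-- **`hall` of `kummer_descent_pow_rad`**: every closed point of the special fibre lies on one of
the three components. -/
theorem hall_of_three (h : ThreeComponents red₁ red₂ red₃ ιu ιv ιw rbar W q qB)
    (hP0 : P 0 = RingHom.ker red₁) (hP1 : P 1 = RingHom.ker red₂) (hP2 : P 2 = RingHom.ker red₃) :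
    ∀ n : Ideal B, n.IsMaximal → qB ∈ n → ∃ k, P k ≤ n := by
  intro n hn hqn
  have := hn.isPrime
  rcases h.ker_le_of_mem n hqn with h' | h' | h'
  · exact ⟨0, by rw [hP0]; exact h'⟩
  · exact ⟨1, by rw [hP1]; exact h'⟩
  · exact ⟨2, by rw [hP2]; exact h'⟩

end Adapter

section Conn

variable {B₁ B₂ : Type*} [CommRing B₁] [CommRing B₂] {ι : Type*}

/-- **Connectedness from one triple point** (spare of `hconn_of_no_split_mult`): if some closed
point of chart 1 lies on ALL the vertical components, the `hconn` clause of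
`kummer_descent_pow_rad` holds. -/
theorem hconn_of_triple (P₁ : ι → Ideal B₁) (P₂ : ι → Ideal B₂)
    (htriple : ∃ n : Ideal B₁, n.IsMaximal ∧ ∀ k, P₁ k ≤ n) :
    ∀ c : ι → ℕ,
      (∀ n : Ideal B₁, n.IsMaximal → ∀ k k', P₁ k ≤ n → P₁ k' ≤ n → c k = c k') →
      (∀ n : Ideal B₂, n.IsMaximal → ∀ k k', P₂ k ≤ n → P₂ k' ≤ n → c k = c k') →
      ∀ k k', c k = c k' := by
  obtain ⟨n, hn, hall⟩ := htriple
  intro c h₁ _ k k'
  exact h₁ n hn k k' (hall k) (hall k')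

end Conn

end Fermat.Agent.S36.H47
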