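/-
S36, row (E1) (helper47): **the chart-level criterion `crit36` from two `ThreeComponents`
packages** (charts `J`, `J⁻¹`) = `S36.H67.kummer_descent_pow_rad` (helper67) with its
vertical-prime hypotheses `hmult₁`, `hmult₂`, `hred₀`, `hsat₁`, `hsat₂`, `hall₁`, `hall₂`
discharged by the adapter `S36.H47_CritOfThree` from helper83's structure `S36.H83.ThreeComponents`.

What is left as hypotheses: the constants (`hcl`, `hl`, `hlu`, `hζ`, `hroot`, `π ∣ q`), the heights,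
`hπP`, the incomparability `hinc`, `hq2` (`q ∈ P₂^((q-1))`, helper70), the overlap block
(`P₁₂`, `hcomp`, `hsat₁₂`) and the connectedness `hconn` (helper67's `hconn_of_no_split_mult`,
or `H47.hconn_of_triple` from one triple point: `crit36_of_three_of_triple`).
-/
import Fermat.Agent.S36.H47_CritOfThree
import Fermat.Agent.S36.H67_KummerPowRad

set_option autoImplicit false
set_option linter.unusedSectionVars false

open Polynomial IntermediateField Fermat.Agent.S18 Fermat.Agent.S34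

namespace Fermat.Agent.S36.H47

universe v

/-- **`crit36` at the chart level from two `ThreeComponents` packages**, connectedness as a
hypothesis. -/
theorem crit36_of_three
    {R : Type*} [CommRing R] [IsDomain R] [IsDiscreteValuationRing R]
    {K : Type*} [Field K] [Algebra R K] [IsFractionRing R K]
    {F : Type v} [Field F] [Algebra R F] [Algebra K F] [IsScalarTower R K F]
    (J : F) (htr : Transcendental K J) [FiniteDimensional K⟮J⟯ F] [Algebra.IsSeparable K⟮J⟯ F]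
    [IsFractionRing ↥(H40.chartB R J) F] [IsFractionRing ↥(H40.chartB R J⁻¹) F]
    [IsNoetherianRing ↥(H40.chartB R J)] [IsIntegrallyClosed ↥(H40.chartB R J)]
    (hcl : ∀ z : F, IsAlgebraic K z → z ∈ (algebraMap K F).range)
    (π : R) (hπ : Irreducible π)
    {l : ℕ} (hl : l.Prime) (hlu : IsUnit ((l : ℕ) : R)) {ζ : R} (hζ : IsPrimitiveRoot ζ l)
    (hroot : ∀ r : R, IsUnit r → ∃ γ : R, IsUnit γ ∧ π ∣ γ ^ l * r - 1)
    {q : ℕ} (hq : q.Prime) (hql : q ≠ l) (hπq : π ∣ ((q : ℕ) : R))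
    {D BM : Type*} [CommRing D] [IsDomain D] [CommRing BM]
    {r₁ r₂ r₃ : ↥(H40.chartB R J) →+* D} {ιu ιv ιw : BM →+* ↥(H40.chartB R J)} {rbar : BM →+* D}
    {W : D →+* D}
    (h1 : Fermat.Agent.S36.H83.ThreeComponents r₁ r₂ r₃ ιu ιv ιw rbar W q
      (algebraMap R ↥(H40.chartB R J) π))
    {D' BM' : Type*} [CommRing D'] [IsDomain D'] [CommRing BM']
    {s₁ s₂ s₃ : ↥(H40.chartB R J⁻¹) →+* D'} {κu κv κw : BM' →+* ↥(H40.chartB R J⁻¹)}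
    {sbar : BM' →+* D'} {W' : D' →+* D'}
    (h2 : Fermat.Agent.S36.H83.ThreeComponents s₁ s₂ s₃ κu κv κw sbar W' q
      (algebraMap R ↥(H40.chartB R J⁻¹) π))
    (P₁ : Fin 3 → Ideal ↥(H40.chartB R J)) (P₂ : Fin 3 → Ideal ↥(H40.chartB R J⁻¹))
    (P₁₂ : Fin 3 → Ideal ↥(Fermat.Agent.S34.H83.chart12 R J))
    (e10 : P₁ 0 = RingHom.ker r₁) (e11 : P₁ 1 = RingHom.ker r₂) (e12 : P₁ 2 = RingHom.ker r₃)
    (e20 : P₂ 0 = RingHom.ker s₁) (e21 : P₂ 1 = RingHom.ker s₂) (e22 : P₂ 2 = RingHom.ker s₃)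
    [hP₁ : ∀ i, (P₁ i).IsPrime] [hP₂ : ∀ i, (P₂ i).IsPrime] [hP₁₂ : ∀ k, (P₁₂ k).IsPrime]
    (hh₁ : ∀ k, (P₁ k).height = 1) (hh₂ : ∀ k, (P₂ k).height = 1)
    (hπP₁ : ∀ i, algebraMap R ↥(H40.chartB R J) π ∈ P₁ i)
    (hπP₂ : ∀ i, algebraMap R ↥(H40.chartB R J⁻¹) π ∈ P₂ i)
    (hπP₁₂ : ∀ i, algebraMap R ↥(Fermat.Agent.S34.H83.chart12 R J) π ∈ P₁₂ i)
    (hinc₁ : ∀ i j : Fin 3, i ≠ j → ¬ P₁ j ≤ P₁ i) (hinc₂ : ∀ i j : Fin 3, i ≠ j → ¬ P₂ j ≤ P₂ i)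
    (hq2₁ : ∃ t, r₂ t ≠ 0 ∧ t * algebraMap R ↥(H40.chartB R J) π ∈ RingHom.ker r₂ ^ (q - 1))
    (hq2₂ : ∃ t, s₂ t ≠ 0 ∧ t * algebraMap R ↥(H40.chartB R J⁻¹) π ∈ RingHom.ker s₂ ^ (q - 1))
    (hcomp₁ : ∀ k, ∀ s : ↥(H40.chartB R J), s ∉ P₁ k →
      Subalgebra.inclusion (Fermat.Agent.S34.H83.chartB_le_chart12 (R := R) J) s ∉ P₁₂ k)
    (hcomp₂ : ∀ k, ∀ s : ↥(H40.chartB R J⁻¹), s ∉ P₂ k →
      Subalgebra.inclusion (Fermat.Agent.S34.H83.chartB_inv_le_chart12 (R := R) J) s ∉ P₁₂ k)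
    (hsat₁₂ : ∀ b : ↥(Fermat.Agent.S34.H83.chart12 R J),
      (∀ k, ∃ s, s ∉ P₁₂ k ∧ algebraMap R ↥(Fermat.Agent.S34.H83.chart12 R J) π ∣ s * b) →
      algebraMap R ↥(Fermat.Agent.S34.H83.chart12 R J) π ∣ b)
    (hconn : ∀ c : Fin 3 → ℕ,
      (∀ n : Ideal ↥(H40.chartB R J), n.IsMaximal → ∀ k k', P₁ k ≤ n → P₁ k' ≤ n → c k = c k') →
      (∀ n : Ideal ↥(H40.chartB R J⁻¹), n.IsMaximal → ∀ k k', P₂ k ≤ n → P₂ k' ≤ n →
        c k = c k') →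
      ∀ k k', c k = c k') :
    ∀ (k : ℕ) (u : F), u ≠ 0 →
      Fermat.Agent.S36.H67.RadDatum (H21.ptO (H40.chartB R J) (H40.chartB R J⁻¹) π)
        (fun k => H56.valuationSubringAt (K := F) (P₁ k) (hh₁ k))
        (H21.primeThr (π := π) P₁ P₂) u (l ^ k) →
      ∃ (c : K) (g : F), u = algebraMap K F c * g ^ (l ^ k) :=
  Fermat.Agent.S36.H67.kummer_descent_pow_rad J htr hcl π hπ hl hlu hζ hroot hq hql hπq P₁ P₂ P₁₂
    hh₁ hh₂ hπP₁ hπP₂ hπP₁₂ hcomp₁ hcomp₂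
    (hmult_of_three h1 hq.pos e10 e11 e12 hinc₁)
    (hmult_of_three h2 hq.pos e20 e21 e22 hinc₂)
    0 (hred_first h1 e10 e11 e12 hinc₁)
    (hsat_of_three h1 e10 e11 e12 hπP₁ hq2₁)
    (hsat_of_three h2 e20 e21 e22 hπP₂ hq2₂)
    hsat₁₂
    (hall_of_three h1 e10 e11 e12)
    (hall_of_three h2 e20 e21 e22)
    hconn

end Fermat.Agent.S36.H47
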