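import Mathlib
import Fermat.Agent.S35.H90_ALField
import Fermat.Agent.S18.H8_FullCBridge
import Fermat.Agent.S18.H16_FKGen
import Fermat.Agent.S34.H16_RelDeg
import Fermat.Agent.S34.H36_VSub

/-!
# S36 / (M2e) sub-row (A-swap), part 1 (helper48): the Atkin–Lehner involution `w_q` of
`F_{M q} = K(j(t^d) : d ∣ M q)` over an ARBITRARY field `K` with a ring hom to `ℂ`

`q` prime, `q ∤ M`, `N = M * q` (or `q * M`).  There is a `K`-algebra automorphism `w` of
`modularFunctionFieldFullC K N` with `w ∘ w = id` which exchanges the two degeneracy embeddings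
`ι` (level inclusion, identity on Laurent series) and `V` (`t ↦ t ^ q`) of
`modularFunctionFieldFullC K M`:

  `w (ι x) = V x`,   `w (V x) = ι x`.

Construction: descend helper90's analytic involution `S35.H90.alEquiv` of `FC (M * q)` along the
coefficient embedding `K((t)) → ℂ((t))` (generators `j`, `j_N` go to generators `j_q`, `j_M`).
-/

set_option autoImplicit false
set_option linter.unusedSectionVars false
set_option linter.style.haveILetI false
set_option synthInstance.maxHeartbeats 400000

noncomputable section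

namespace Fermat.Agent.S36.H48

open ModularCurve HahnSeries Fermat.Agent Fermat.Agent.S18

section Emb

variable (K : Type) [Field K] (σ : K →+* ℂ) (N : ℕ) [NeZero N]

/-- The coefficient embedding `K(j(t^d) : d ∣ N) → FC N` along `σ : K →+* ℂ`. -/
def embC : modularFunctionFieldFullC K N →+* S29.H25.FC N :=
  ((H8.fullCEquiv ℂ N : modularFunctionFieldFullC ℂ N ≃ₐ[ℂ] S29.H25.FC N) :
    modularFunctionFieldFullC ℂ N →+* S29.H25.FC N).comp (H8.fullCMap σ N)

theorem coe_embC (x : modularFunctionFieldFullC K N) :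
    ((embC K σ N x : S29.H25.FC N) : LaurentSeries ℂ) = coeffMap σ (x : LaurentSeries K) := by
  show ((H8.fullCEquiv ℂ N (H8.fullCMap σ N x) : S29.H25.FC N) : LaurentSeries ℂ) = _
  rw [H8.coe_fullCEquiv, H8.coe_fullCMap]

theorem embC_injective : Function.Injective (embC K σ N) := (embC K σ N).injective

theorem embC_algebraMap (c : K) :
    embC K σ N (algebraMap K (modularFunctionFieldFullC K N) c) =
      algebraMap ℂ (S29.H25.FC N) (σ c) := by
  apply Subtype.ext
  rw [coe_embC]
  exact H8.coeffMap_algebraMap' σ c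

end Emb

section Swap

open Fermat.Agent.S41.H72 (ALData)

variable (K : Type) [Field K] (σ : K →+* ℂ) (M q : ℕ) [NeZero M] [NeZero q]

local notation "FKM" => modularFunctionFieldFullC K M
local notation "FKN" => modularFunctionFieldFullC K (M * q)

/-- the level inclusion `F_M ⊆ F_{M q}` (identity on Laurent series). -/
def inclK : FKM →+* FKN :=
  @algebraMap FKM FKN _ _ (S34.H16.degAlgebra K M (M * q) (dvd_mul_right M q))

theorem coe_inclK (x : FKM) : ((inclK K M q x : FKN) : LaurentSeries K) = (x : LaurentSeries K) :=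
  S34.H16.degAlgebra_algebraMap_coe K M (M * q) (dvd_mul_right M q) x

/-- the substitution `t ↦ t ^ q`, `F_M → F_{M q}`. -/
def vsubK : FKM →+* FKN :=
  (S34.H36.vSub K q M (M * q) (dvd_of_eq (mul_comm q M)) : FKM →ₐ[K] FKN)

theorem coe_vsubK (x : FKM) :
    ((vsubK K M q x : FKN) : LaurentSeries K) = qExpand K q (x : LaurentSeries K) :=
  S34.H36.coe_vSub K q M (M * q) (dvd_of_eq (mul_comm q M)) x

theorem embC_inclK (x : FKM) :
    embC K σ (M * q) (inclK K M q x) = heckeAlphaBar ℂ M q (embC K σ M x) := by
  apply Subtype.ext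
  rw [coe_embC, coe_inclK, coe_heckeAlphaBar, coe_embC]

theorem embC_vsubK (x : FKM) :
    embC K σ (M * q) (vsubK K M q x) = heckeBetaBar ℂ M q (embC K σ M x) := by
  apply Subtype.ext
  rw [coe_embC, coe_vsubK]
  show _ = qExpand ℂ q ((embC K σ M x : S29.H25.FC M) : LaurentSeries ℂ)
  rw [coe_embC, ModularCurve.coeffMap_qExpand]

include σ in
theorem natCast_ne_zero_of_ringHom (n : ℕ) [NeZero n] : ((n : ℕ) : K) ≠ 0 := by
  intro h
  have h2 := congrArg σ h
  rw [map_natCast, map_zero] at h2
  exact NeZero.ne n (by exact_mod_cast h2)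

theorem inclK_jK : inclK K M q (H16.jK K M) = H16.jK K (M * q) := by
  apply Subtype.ext
  rw [coe_inclK, H16.coe_jK, H16.coe_jK]

theorem vsubK_jNK : vsubK K M q (H16.jNK K M) = H16.jNK K (M * q) := by
  apply Subtype.ext
  rw [coe_vsubK, H16.coe_jNK, H16.coe_jNK, qExpand_qExpand]
  exact ModularCurve.qExpand_congr (R := K) (mul_comm q M) _

variable (D : ALData M q) (hq : q.Prime)

/-- the analytic involution, as a ring hom. -/
def wC : S29.H25.FC (M * q) →+* S29.H25.FC (M * q) := (S35.H90.alHomC D hq : _ →ₐ[ℂ] _)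

theorem wC_wC (x : S29.H25.FC (M * q)) : wC M q D hq (wC M q D hq x) = x :=
  S35.H90.alHomC_alHomC D hq x

theorem wC_alpha (f : S29.H25.FC M) :
    wC M q D hq (heckeAlphaBar ℂ M q f) = heckeBetaBar ℂ M q f :=
  S35.H90.beta_eq_al_alpha D hq f

theorem wC_beta (f : S29.H25.FC M) :
    wC M q D hq (heckeBetaBar ℂ M q f) = heckeAlphaBar ℂ M q f := by
  rw [← wC_alpha M q D hq f, wC_wC]

theorem wC_algebraMap (c : ℂ) :
    wC M q D hq (algebraMap ℂ (S29.H25.FC (M * q)) c) = algebraMap ℂ (S29.H25.FC (M * q)) c :=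
  (S35.H90.alHomC D hq).commutes c

theorem wC_embC_inclK (x : FKM) :
    wC M q D hq (embC K σ (M * q) (inclK K M q x)) = embC K σ (M * q) (vsubK K M q x) := by
  rw [embC_inclK, wC_alpha, embC_vsubK]

theorem wC_embC_vsubK (x : FKM) :
    wC M q D hq (embC K σ (M * q) (vsubK K M q x)) = embC K σ (M * q) (inclK K M q x) := by
  rw [embC_vsubK, wC_beta, embC_inclK]

/-- the subfield of `F_{M q}` of elements whose `w`-translate is again `K`-rational. -/
def swapSub : IntermediateField K FKN :=
  Subfield.toIntermediateField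
    ((embC K σ (M * q)).fieldRange.comap ((wC M q D hq).comp (embC K σ (M * q))))
    (fun c => by
      rw [Subfield.mem_comap, RingHom.comp_apply, embC_algebraMap, wC_algebraMap,
        ← embC_algebraMap]
      exact ⟨_, rfl⟩)

theorem mem_swapSub (x : FKN) :
    x ∈ swapSub K σ M q D hq ↔
      wC M q D hq (embC K σ (M * q) x) ∈ (embC K σ (M * q)).fieldRange := Iff.rfl

theorem swapSub_eq_top : swapSub K σ M q D hq = ⊤ := by
  rw [eq_top_iff, ← H16.adjoin_pair_eq_top_gen (M * q) K (natCast_ne_zero_of_ringHom K σ (M * q)),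
    IntermediateField.adjoin_le_iff]
  rintro x (rfl | rfl)
  · rw [SetLike.mem_coe, mem_swapSub, ← inclK_jK, wC_embC_inclK]
    exact ⟨_, rfl⟩
  · rw [SetLike.mem_coe, mem_swapSub, ← vsubK_jNK, wC_embC_vsubK]
    exact ⟨_, rfl⟩

theorem exists_embC_eq_wC (x : FKN) :
    ∃ y : FKN, embC K σ (M * q) y = wC M q D hq (embC K σ (M * q) x) := by
  have hx : x ∈ swapSub K σ M q D hq := by
    rw [swapSub_eq_top]; exact IntermediateField.mem_top
  exact (mem_swapSub K σ M q D hq x).mp hx

/-- the underlying function of the descended involution. -/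
def swapFun (x : FKN) : FKN := Classical.choose (exists_embC_eq_wC K σ M q D hq x)

theorem embC_swapFun (x : FKN) :
    embC K σ (M * q) (swapFun K σ M q D hq x) = wC M q D hq (embC K σ (M * q) x) :=
  Classical.choose_spec (exists_embC_eq_wC K σ M q D hq x)

/-- the descended Atkin–Lehner endomorphism of `F_{M q}` over `K`. -/
def swapHom : FKN →ₐ[K] FKN where
  toFun := swapFun K σ M q D hq
  map_one' := embC_injective K σ (M * q) (by
    rw [embC_swapFun]; simp only [map_one])
  map_mul' x y := embC_injective K σ (M * q) (by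
    rw [embC_swapFun]; simp only [map_mul, embC_swapFun])
  map_zero' := embC_injective K σ (M * q) (by
    rw [embC_swapFun]; simp only [map_zero])
  map_add' x y := embC_injective K σ (M * q) (by
    rw [embC_swapFun]; simp only [map_add, embC_swapFun])
  commutes' c := embC_injective K σ (M * q) (by
    rw [embC_swapFun, embC_algebraMap, wC_algebraMap])

theorem embC_swapHom (x : FKN) :
    embC K σ (M * q) (swapHom K σ M q D hq x) = wC M q D hq (embC K σ (M * q) x) :=
  embC_swapFun K σ M q D hq x

theorem swapHom_swapHom (x : FKN) : swapHom K σ M q D hq (swapHom K σ M q D hq x) = x := by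
  apply embC_injective K σ (M * q)
  rw [embC_swapHom, embC_swapHom, wC_wC]

theorem swapHom_inclK (x : FKM) : swapHom K σ M q D hq (inclK K M q x) = vsubK K M q x := by
  apply embC_injective K σ (M * q)
  rw [embC_swapHom, wC_embC_inclK]

theorem swapHom_vsubK (x : FKM) : swapHom K σ M q D hq (vsubK K M q x) = inclK K M q x := by
  apply embC_injective K σ (M * q)
  rw [embC_swapHom, wC_embC_vsubK]

/-- **The Atkin–Lehner involution `w_q` of `F_{M q}` over `K`.** -/
def swapEquiv : FKN ≃ₐ[K] FKN :=
  AlgEquiv.ofAlgHom (swapHom K σ M q D hq) (swapHom K σ M q D hq)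
    (AlgHom.ext fun x => swapHom_swapHom K σ M q D hq x)
    (AlgHom.ext fun x => swapHom_swapHom K σ M q D hq x)

@[simp] theorem swapEquiv_apply (x : FKN) :
    swapEquiv K σ M q D hq x = swapHom K σ M q D hq x := rfl

@[simp] theorem swapEquiv_symm_apply (x : FKN) :
    (swapEquiv K σ M q D hq).symm x = swapHom K σ M q D hq x := rfl

end Swap

section Final

open Fermat.Agent.S41.H72 (ALData nonempty_alData)

variable (K : Type) [Field K] (σ : K →+* ℂ) (M q : ℕ) [NeZero M] [NeZero q]

include σ in
/-- **(A-swap), existence**: for `q` prime, `q ∤ M`, and any field `K` with a ring hom to `ℂ`,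
the function field `F_{M q}` over `K` has a `K`-algebra involution exchanging the two degeneracy
embeddings of `F_M`. -/
theorem exists_alSwap (hq : q.Prime) (hqM : ¬ q ∣ M) :
    ∃ w : modularFunctionFieldFullC K (M * q) ≃ₐ[K] modularFunctionFieldFullC K (M * q),
      (∀ y, w (w y) = y) ∧ (∀ y, w.symm y = w y) ∧
      (∀ x : modularFunctionFieldFullC K M, w (inclK K M q x) = vsubK K M q x) ∧
      (∀ x : modularFunctionFieldFullC K M, w (vsubK K M q x) = inclK K M q x) := by
  obtain ⟨D⟩ := nonempty_alData ((Nat.Prime.coprime_iff_not_dvd hq).mpr hqM)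
  exact ⟨swapEquiv K σ M q D hq, swapHom_swapHom K σ M q D hq, fun _ => rfl,
    swapHom_inclK K σ M q D hq, swapHom_vsubK K σ M q D hq⟩

include σ in
/-- **(A-swap), existence, variable level** `N = q * M` (the spelling of `S34.H55.iotaMN`,
`S34.H55.VMN`): the two embeddings are `algebraMap` of `S34.H16.degAlgebra K M N _` and
`S34.H36.vSub K q M N _` (any proofs of the divisibilities). -/
theorem exists_alSwap_level (N : ℕ) [NeZero N] (hq : q.Prime) (hqM : ¬ q ∣ M) (hN : N = q * M)
    (hMN : M ∣ N) (hqMN : q * M ∣ N) :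
    ∃ w : modularFunctionFieldFullC K N ≃ₐ[K] modularFunctionFieldFullC K N,
      (∀ y, w (w y) = y) ∧ (∀ y, w.symm y = w y) ∧
      (∀ x : modularFunctionFieldFullC K M,
        w (@algebraMap _ _ _ _ (S34.H16.degAlgebra K M N hMN) x) = S34.H36.vSub K q M N hqMN x) ∧
      (∀ x : modularFunctionFieldFullC K M,
        w (S34.H36.vSub K q M N hqMN x) = @algebraMap _ _ _ _ (S34.H16.degAlgebra K M N hMN) x) := by
  have h : N = M * q := hN.trans (mul_comm q M)
  subst h
  exact exists_alSwap K σ M q hq hqM

include σ in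
/-- coefficient form (independent of the bundled degeneracy maps): `w` sends an element of
`F_N` whose Laurent series lies in `F_M` to its `t ↦ t^q` substitute, and conversely. -/
theorem exists_alSwap_coe (N : ℕ) [NeZero N] (hq : q.Prime) (hqM : ¬ q ∣ M) (hN : N = q * M) :
    ∃ w : modularFunctionFieldFullC K N ≃ₐ[K] modularFunctionFieldFullC K N,
      (∀ y, w (w y) = y) ∧
      (∀ (x : modularFunctionFieldFullC K M) (y : modularFunctionFieldFullC K N),
        (y : LaurentSeries K) = (x : LaurentSeries K) →
          ((w y : modularFunctionFieldFullC K N) : LaurentSeries K)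
            = qExpand K q (x : LaurentSeries K)) ∧
      (∀ (x : modularFunctionFieldFullC K M) (y : modularFunctionFieldFullC K N),
        (y : LaurentSeries K) = qExpand K q (x : LaurentSeries K) →
          ((w y : modularFunctionFieldFullC K N) : LaurentSeries K) = (x : LaurentSeries K)) := by
  have hMN : M ∣ N := hN ▸ Dvd.intro_left q rfl
  have hqMN : q * M ∣ N := dvd_of_eq hN.symm
  obtain ⟨w, hww, -, h1, h2⟩ := exists_alSwap_level K σ M q N hq hqM hN hMN hqMN
  refine ⟨w, hww, fun x y hy => ?_, fun x y hy => ?_⟩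
  · have : y = @algebraMap _ _ _ _ (S34.H16.degAlgebra K M N hMN) x := by
      apply Subtype.ext
      rw [hy]
      exact (S34.H16.degAlgebra_algebraMap_coe K M N hMN x).symm
    rw [this, h1, S34.H36.coe_vSub]
  · have : y = S34.H36.vSub K q M N hqMN x := by
      apply Subtype.ext
      rw [hy, S34.H36.coe_vSub]
    rw [this, h2]
    exact S34.H16.degAlgebra_algebraMap_coe K M N hMN x

end Final

end Fermat.Agent.S36.H48
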