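import Mathlib

/-!
# S36 / (M2e) sub-row (A-swap), part 2 (helper48): an involution exchanging two parameters inverts
the ratio of the two normalised derivations

`F/K` fields, `w : F ≃ₐ[K] F`, `a b : F` with `w a = b`, `w b = a`; `δ` a `K`-derivation of `F` with
`δ a = 1`.  If the derivations of `F/K` are determined by their value at `b` (e.g. `F` separable
algebraic over `K(b)`), then `Ω := δ b` satisfies `Ω ≠ 0` and `w Ω = Ω⁻¹`.

[Instance: `F = F_{Lq}`, `a = ι s`, `b = V s`, `w` the Atkin–Lehner involution, `δ = ∂/∂(ι s)`,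
`Ω = q ω_s`; hence `w ω_s = 1 / (q² ω_s)`.]

Also: the generic lemma "an automorphism exchanges two valuation rings" from an `exactly two`
hypothesis and one witness.
-/

set_option autoImplicit false

namespace Fermat.Agent.S36.H48

section Deriv

variable {K F : Type*} [Field K] [Field F] [Algebra K F]

/-- The conjugate `w ∘ δ ∘ w⁻¹` of a derivation by a `K`-algebra automorphism. -/
def conjDer (w : F ≃ₐ[K] F) (δ : Derivation K F F) : Derivation K F F where
  toFun x := w (δ (w.symm x))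
  map_add' x y := by simp only [map_add]
  map_smul' c x := by
    show w (δ (w.symm (c • x))) = c • w (δ (w.symm x))
    rw [map_smul, Derivation.map_smul, map_smul]
  map_one_eq_zero' := by
    show w (δ (w.symm 1)) = 0
    rw [map_one, Derivation.map_one_eq_zero, map_zero]
  leibniz' x y := by
    show w (δ (w.symm (x * y))) = x • w (δ (w.symm y)) + y • w (δ (w.symm x))
    rw [map_mul, Derivation.leibniz, map_add, smul_eq_mul, smul_eq_mul, map_mul, map_mul,
      AlgEquiv.apply_symm_apply, AlgEquiv.apply_symm_apply, smul_eq_mul, smul_eq_mul]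

theorem conjDer_apply (w : F ≃ₐ[K] F) (δ : Derivation K F F) (x : F) :
    conjDer w δ x = w (δ (w.symm x)) := rfl

/-- **(A-swap), derivation part.** -/
theorem swap_deriv_ratio (w : F ≃ₐ[K] F) (a b : F) (hab : w a = b) (hba : w b = a)
    (δ : Derivation K F F) (hδ : δ a = 1)
    (huniq : ∀ D : Derivation K F F, D b = 0 → D = 0) :
    δ b * w (δ b) = 1 ∧ δ b ≠ 0 ∧ w (δ b) = (δ b)⁻¹ := by
  have hsa : w.symm b = a := by rw [← hab, AlgEquiv.symm_apply_apply]
  have hsb : w.symm a = b := by rw [← hba, AlgEquiv.symm_apply_apply]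
  have h1 : conjDer w δ b = 1 := by rw [conjDer_apply, hsa, hδ, map_one]
  have h0 : δ - δ b • conjDer w δ = 0 := by
    apply huniq
    rw [Derivation.sub_apply, Derivation.smul_apply, h1, smul_eq_mul, mul_one, sub_self]
  have h2 : δ a = δ b * conjDer w δ a := by
    have := congrArg (fun D : Derivation K F F => D a) h0
    simp only [Derivation.sub_apply, Derivation.smul_apply, smul_eq_mul,
      Derivation.coe_zero, Pi.zero_apply] at this
    exact sub_eq_zero.mp this
  rw [hδ, conjDer_apply, hsb] at h2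
  have hne : δ b ≠ 0 := fun h => by rw [h, zero_mul] at h2; exact one_ne_zero h2
  exact ⟨h2.symm, hne, eq_inv_of_mul_eq_one_right h2.symm⟩

/-- Corollary in the `Ω = ℓ ω` normalisation: if `δ b = ℓ * ω` with `ℓ ∈ K`, then
`ω⁻¹ = ℓ² * w ω`. -/
theorem swap_omega (w : F ≃ₐ[K] F) (a b : F) (hab : w a = b) (hba : w b = a)
    (δ : Derivation K F F) (hδ : δ a = 1)
    (huniq : ∀ D : Derivation K F F, D b = 0 → D = 0)
    (c : K) (ω : F) (hω : δ b = algebraMap K F c * ω) :
    ω ≠ 0 ∧ w ω ≠ 0 ∧ ω⁻¹ = algebraMap K F c ^ 2 * w ω := by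
  obtain ⟨h1, h2, -⟩ := swap_deriv_ratio w a b hab hba δ hδ huniq
  rw [hω, map_mul, AlgEquiv.commutes] at h1
  have hc : algebraMap K F c ≠ 0 := fun h => by rw [hω, h, zero_mul] at h2; exact h2 rfl
  have hω0 : ω ≠ 0 := fun h => by rw [hω, h, mul_zero] at h2; exact h2 rfl
  have hwω : w ω ≠ 0 := fun h => by rw [h, mul_zero, mul_zero] at h1; exact zero_ne_one h1
  refine ⟨hω0, hwω, ?_⟩
  rw [inv_eq_iff_eq_inv, ← one_div, eq_div_iff (mul_ne_zero (pow_ne_zero 2 hc) hwω), ← h1]
  ring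

end Deriv

section Valuation

variable {F : Type*} [Field F]

theorem mem_nonunits_iff_inv_notMem (V : ValuationSubring F) (x : F) :
    x ∈ V.nonunits ↔ x = 0 ∨ x⁻¹ ∉ V := by
  rw [ValuationSubring.mem_nonunits_iff]
  by_cases hx : x = 0
  · simp [hx]
  · have h1 : x⁻¹ ∈ V ↔ V.valuation x⁻¹ ≤ 1 := (V.valuation_le_one_iff _).symm
    have hv : V.valuation x ≠ 0 := (Valuation.ne_zero_iff _).mpr hx
    rw [h1, map_inv₀, inv_le_one₀ (zero_lt_iff.mpr hv), not_le]
    simp [hx]

theorem mem_nonunits_comap_iff (V : ValuationSubring F) (e : F ≃+* F) (y : F) :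
    y ∈ (V.comap (e : F →+* F)).nonunits ↔ e y ∈ V.nonunits := by
  rw [mem_nonunits_iff_inv_notMem, mem_nonunits_iff_inv_notMem, ValuationSubring.mem_comap]
  show y = 0 ∨ e y⁻¹ ∉ V ↔ e y = 0 ∨ (e y)⁻¹ ∉ V
  rw [map_inv₀, map_eq_zero_iff e e.injective]

/-- **An automorphism exchanges two valuation rings**: if the valuation rings of `F` containing a
set `S` in which `π` is a non-unit are exactly `V₁` and `O₂`, if `w⁻¹ S ⊆ V₁`, `w⁻¹ π` is a
non-unit of `V₁`, and if some non-unit `z` of `V₁` has `w z` not a non-unit of `V₁`, then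
`w V₁ = O₂`. -/
theorem mem_iff_of_exactly_two (w : F ≃+* F) (V₁ : ValuationSubring F) (O₂ : Subring F)
    (S : Set F) (π : F)
    (hex : ∀ V : ValuationSubring F, (∀ s ∈ S, s ∈ V) → π ∈ V.nonunits →
      V.toSubring = V₁.toSubring ∨ V.toSubring = O₂)
    (hS : ∀ s ∈ S, w.symm s ∈ V₁) (hπ : w.symm π ∈ V₁.nonunits)
    (z : F) (hz : z ∈ V₁.nonunits) (hwz : w z ∉ V₁.nonunits) :
    ∀ x, w x ∈ O₂ ↔ x ∈ V₁ := by
  set V' : ValuationSubring F := V₁.comap (w.symm : F →+* F) with hV'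
  have hmem : ∀ y, y ∈ V' ↔ w.symm y ∈ V₁ := fun y => ValuationSubring.mem_comap
  have hnon : ∀ y, y ∈ V'.nonunits ↔ w.symm y ∈ V₁.nonunits :=
    fun y => mem_nonunits_comap_iff V₁ w.symm y
  rcases hex V' (fun s hs => (hmem s).mpr (hS s hs)) ((hnon π).mpr hπ) with h | h
  · exfalso
    have hVV : V' = V₁ := ValuationSubring.toSubring_injective h
    apply hwz
    rw [← hVV, hnon, RingEquiv.symm_apply_apply]
    exact hz
  · intro x
    rw [← h]
    show w x ∈ V' ↔ x ∈ V₁
    rw [hmem, RingEquiv.symm_apply_apply]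

/-- units correspond as well. -/
theorem unit_of_mem_iff (w : F ≃+* F) (V₁ : ValuationSubring F) (O₂ : Subring F)
    (h : ∀ x, w x ∈ O₂ ↔ x ∈ V₁) {x : F} (hx : x ∈ V₁) (hx' : x⁻¹ ∈ V₁) :
    w x ∈ O₂ ∧ (w x)⁻¹ ∈ O₂ := by
  refine ⟨(h x).mpr hx, ?_⟩
  rw [← map_inv₀]
  exact (h x⁻¹).mpr hx'

end Valuation

end Fermat.Agent.S36.H48
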