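/-
helper49 — S36, row (M4-real), group (G5) (hedge, RULING 7): the level-`L` inputs `hpt` of
`S36.H9.middleUnit_of_rows` at the `ThreeComponents` level, GENERIC.

For a closed point `n` of the middle component (`ker red₂ ≤ n`) of the level `q² L` chart `B`,
the contraction `b := ιw⁻¹ n` to the level-`L` chart `BM` is `rbar⁻¹ (red₂ n)` (`h2w`), hence a
closed point of `BM`; its residue field is generated by constants as soon as that of the
corresponding point of `D` is; and `b = (π, s')` locally, `s'` a lift of a uniformiser of `D` at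
`red₂ n` (`ker rbar = (π)`, `D` Dedekind).
-/
import Mathlib
import Fermat.Agent.S36.H83_ThreeComponents

set_option autoImplicit false

namespace Fermat.Agent.S36.H49

open Fermat.Agent.S34.H83 Fermat.Agent.S36.H83

section Generic

variable {R BM B D : Type*} [CommRing R] [CommRing BM] [CommRing B] [CommRing D]
  [IsDedekindDomain D] [Algebra R BM]
  {red₁ red₂ red₃ : B →+* D} {ιu ιv ιw : BM →+* B} {rbar : BM →+* D} {W : D →+* D}
  {q : ℕ} {qB : B}

/-- `ιw χ ∈ n ↔ rbar χ ∈ red₂ n` for a maximal `n ⊇ ker red₂`. -/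
theorem iw_mem_iff (h3 : ThreeComponents red₁ red₂ red₃ ιu ιv ιw rbar W q qB)
    (n : Ideal B) (hker : RingHom.ker red₂ ≤ n) (χ : BM) :
    ιw χ ∈ n ↔ rbar χ ∈ Ideal.map red₂ n := by
  rw [mem_iff_map_mem h3.hred₂ n (fun z hz => hker ((RingHom.mem_ker).2 hz)) (ιw χ), h3.h2w]

/-- `ιw⁻¹ n = rbar⁻¹ (red₂ n)`. -/
theorem comap_iw_eq (h3 : ThreeComponents red₁ red₂ red₃ ιu ιv ιw rbar W q qB)
    (n : Ideal B) (hker : RingHom.ker red₂ ≤ n) :
    n.comap ιw = (Ideal.map red₂ n).comap rbar := by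
  ext χ
  rw [Ideal.mem_comap, Ideal.mem_comap]
  exact iw_mem_iff h3 n hker χ

/-- The contraction of a closed point of the middle component to level `L` is a closed point. -/
theorem isMaximal_comap_iw (h3 : ThreeComponents red₁ red₂ red₃ ιu ιv ιw rbar W q qB)
    (hD : ¬ IsField D) (n : Ideal B) (hn : n.IsMaximal) (hker : RingHom.ker red₂ ≤ n) :
    (n.comap ιw).IsMaximal := by
  obtain ⟨hm, -, -⟩ := map_isMaximal_of_ker_le h3.hred₂ hD n hn hker
  rw [comap_iw_eq h3 n hker]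
  exact Ideal.comap_isMaximal_of_surjective rbar h3.hrbar

/-- **(G5), generic**: the three clauses of `hpt` of `S36.H9.middleUnit_of_rows` at a closed
point `n` of the middle component. -/
theorem hpt_of_levelL (h3 : ThreeComponents red₁ red₂ red₃ ιu ιv ιw rbar W q qB)
    (hD : ¬ IsField D) (π : R)
    (hkerM : RingHom.ker rbar = Ideal.span {algebraMap R BM π})
    (hc : ∀ r : R, ιu (algebraMap R BM r) = ιw (algebraMap R BM r))
    (hres : ∀ m : Ideal D, m.IsMaximal → ∀ d : D, ∃ r : R, d - rbar (algebraMap R BM r) ∈ m)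
    (n : Ideal B) (hn : n.IsMaximal) (hker : RingHom.ker red₂ ≤ n) :
    (n.comap ιw).IsMaximal ∧ (∀ χ : BM, ∃ c : BM, ιu c = ιw c ∧ ιw (χ - c) ∈ n) ∧
      ∃ s' : BM, ιw s' ∈ n ∧ ∀ χ : BM, ιw χ ∈ n →
        ∃ a χ₁ χ₂ : BM, ιw a ∉ n ∧ a * χ = s' * χ₁ + algebraMap R BM π * χ₂ := by
  obtain ⟨hm, h0, -⟩ := map_isMaximal_of_ker_le h3.hred₂ hD n hn hker
  refine ⟨isMaximal_comap_iw h3 hD n hn hker, ?_, ?_⟩
  · intro χ
    obtain ⟨r, hr⟩ := hres _ hm (rbar χ)
    refine ⟨algebraMap R BM r, hc r, ?_⟩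
    rw [iw_mem_iff h3 n hker, map_sub]
    exact hr
  · obtain ⟨θ, hθ, hθ2⟩ := exists_mem_not_mem_sq hm.isPrime h0
    obtain ⟨s', rfl⟩ := h3.hrbar θ
    refine ⟨s', (iw_mem_iff h3 n hker s').2 hθ, ?_⟩
    intro χ hχ
    obtain ⟨tb, htb, htw⟩ := exists_mul_mem_span_of_not_mem_sq hm.isPrime hθ hθ2
      ((iw_mem_iff h3 n hker χ).1 hχ)
    obtain ⟨a, rfl⟩ := h3.hrbar tb
    obtain ⟨cb, hcb⟩ := Ideal.mem_span_singleton'.1 htw
    obtain ⟨χ₁, rfl⟩ := h3.hrbar cb
    have hk : a * χ - s' * χ₁ ∈ RingHom.ker rbar := by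
      rw [RingHom.mem_ker, map_sub, map_mul, map_mul, ← hcb, mul_comm (rbar χ₁), sub_self]
    rw [hkerM] at hk
    obtain ⟨χ₂, hχ₂⟩ := Ideal.mem_span_singleton'.1 hk
    refine ⟨a, χ₁, χ₂, fun ha => htb ((iw_mem_iff h3 n hker a).1 ha), ?_⟩
    rw [mul_comm (algebraMap R BM π), hχ₂]
    ring

end Generic

end Fermat.Agent.S36.H49
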