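/-
helper65: S36, row (M4) — the middle component `C₂` of the special fibre at level `q² L`,
RIGID half (points at which the value of the chosen `j`-type function is not `0`, `1728`).

Pure commutative algebra on top of `H83.ThreeComponents`:

* `exists_add_pow_prime_expand` : `(w + θ)^q = w^q + θ^q + q θ a`, `a = w^(q-1) + θ a'`.
* `red_mul_sq_eq` : **the residue identity of `θ^(q-1)/q` on the middle component, without places,
  valuations, normality or `t`-expansions.**  `u ≠ w` two roots of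
  `p = (X^q - v)(X - v^q) + q R` (Kronecker shape of `Φ_q(X, v)`), `red u = red w = Y`,
  `red v = Y^q`, `red q = 0`.  If `t (u - w)^(q-1) = c q` then
  `red c · x̄² = - red t · T̄`, `x̄ = Y - Y^(q²)`, `T̄ = Y^(q-1) x̄² - R̄(Y) + x̄ R̄'(Y)`.
* `not_mem_of_identity` : with an identity `T̄^m G = (x̄²)^m H`, `m` even (for `Φ_q`: `m = 6`,
  `G = Y⁴ (Y-1728)³ Ū`, `H = Y^(4q) (Y^q - 1728)³`, `Ū` the reduction of
  `q¹² Δ(qτ)/Δ(τ)`), `red c` is a unit wherever `H` and `red t` are.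
* `ThreeComponents.hE_middle_of_kronecker`, `ThreeComponents.locGen_middle_of_kronecker` :
  the hypothesis `hE` of `H83.ThreeComponents.locGen_middle`, resp. its conclusion
  `n B_n = (θ, τ)`, `θ = ιu ψ - ιw ψ`, at every point `n` of the middle component lying neither on
  `C₁` nor on `C₃`.
-/
import Mathlib
import Fermat.Agent.S36.H83_ThreeComponents

set_option autoImplicit false

open Polynomial

namespace Fermat.Agent.S36.H65

section Binomial

variable {B : Type*} [CommRing B] [IsDomain B]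

/-- `(w + θ)^q = w^q + θ^q + q θ a` with `a ≡ w^(q-1)` modulo `θ`. -/
theorem exists_add_pow_prime_expand {q : ℕ} (hq : q.Prime) (hqB : (q : B) ≠ 0) (w θ : B) :
    ∃ a a' : B, (w + θ) ^ q = w ^ q + θ ^ q + (q : B) * θ * a ∧ a = w ^ (q - 1) + θ * a' := by
  obtain ⟨r, hr⟩ := exists_add_pow_prime_eq hq (C w : B[X]) (X : B[X])
  set A : B[X] := C w * r with hA
  have h1 : (C w + X : B[X]) ^ q = C w ^ q + X ^ q + C (q : B) * (X * A) := by
    rw [hr, hA, C_eq_natCast]; ring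
  -- differentiate and cancel `q`
  have h2 : C (q : B) * (C w + X : B[X]) ^ (q - 1) =
      C (q : B) * (X ^ (q - 1) + (A + X * derivative A)) := by
    have h3 := congrArg derivative h1
    rw [derivative_pow] at h3
    simp only [derivative_add, derivative_C, derivative_X, zero_add, mul_one, derivative_mul,
      derivative_pow, one_mul, ← C_pow] at h3
    rw [h3]
    simp only [C_eq_natCast]
    ring
  have hC : (C (q : B) : B[X]) ≠ 0 := by
    rw [Ne, C_eq_zero]; exact hqB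
  have h4 := mul_left_cancel₀ hC h2
  have h5 := congrArg (eval 0) h4
  have hq1 : q - 1 ≠ 0 := by have := hq.two_le; omega
  simp only [eval_pow, eval_add, eval_C, eval_X, add_zero, eval_mul, zero_mul,
    zero_pow hq1, zero_add] at h5
  obtain ⟨k, hk⟩ := Polynomial.sub_dvd_eval_sub θ 0 A
  refine ⟨A.eval θ, k, ?_, ?_⟩
  · have h6 := congrArg (eval θ) h1
    simp only [eval_pow, eval_add, eval_C, eval_X, eval_mul] at h6
    rw [h6]; ring
  · rw [h5]
    have : A.eval θ = A.eval 0 + (θ - 0) * k := by rw [← hk]; ring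
    rw [this]; ring

end Binomial

section Residue

variable {B D : Type*} [CommRing B] [IsDomain B] [CommRing D]

/-- **The residue identity on the middle component.** -/
theorem red_mul_sq_eq (red : B →+* D) {q : ℕ} (hq : q.Prime) (hqB : (q : B) ≠ 0)
    (hqD : (q : D) = 0) {u v w : B} {Y : D} (hu : red u = Y) (hw : red w = Y)
    (hv : red v = Y ^ q) (huw : u ≠ w) {p Rv : B[X]}
    (hK : p = (X ^ q - C v) * (X - C (v ^ q)) + C (q : B) * Rv)
    (hpu : p.eval u = 0) (hpw : p.eval w = 0) {c t : B}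
    (hct : t * (u - w) ^ (q - 1) = c * (q : B)) :
    red c * (Y - Y ^ (q * q)) ^ 2 =
      -(red t * (Y ^ (q - 1) * (Y - Y ^ (q * q)) ^ 2 - (Rv.map red).eval Y
          + (Y - Y ^ (q * q)) * (derivative (Rv.map red)).eval Y)) := by
  obtain ⟨m, rfl⟩ : ∃ m, q = m + 1 := ⟨q - 1, by have := hq.two_le; omega⟩
  simp only [Nat.add_sub_cancel] at hct ⊢
  set θ : B := u - w with hθ
  have huθ : u = w + θ := by rw [hθ]; ring
  have hθ0 : θ ≠ 0 := sub_ne_zero.2 huw
  obtain ⟨a, a', ha, haa'⟩ := exists_add_pow_prime_expand hq hqB w θ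
  simp only [Nat.add_sub_cancel] at haa'
  obtain ⟨k, hk⟩ := Polynomial.binomExpansion Rv w θ
  set x : B := w - v ^ (m + 1) with hx
  set y' : B := w ^ (m + 1) - v with hy'
  set ρ : B := (derivative Rv).eval w + k * θ with hρ
  -- the two root conditions, spelled out
  have hw0 : y' * x + ((m + 1 : ℕ) : B) * Rv.eval w = 0 := by
    have := hpw
    rw [hK] at this
    simpa using this
  have hu0 : ((w + θ) ^ (m + 1) - v) * (w + θ - v ^ (m + 1)) +
      ((m + 1 : ℕ) : B) * Rv.eval (w + θ) = 0 := by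
    have := hpu
    rw [hK, huθ] at this
    simpa using this
  -- divide the difference by `θ`
  have hE : y' + θ ^ m * (x + θ) + ((m + 1 : ℕ) : B) * (a * (x + θ) + ρ) = 0 := by
    apply mul_left_cancel₀ hθ0
    rw [mul_zero]
    have e : θ * (y' + θ ^ m * (x + θ) + ((m + 1 : ℕ) : B) * (a * (x + θ) + ρ)) =
        (((w ^ (m + 1) + θ ^ (m + 1) + ((m + 1 : ℕ) : B) * θ * a) - v) * (w + θ - v ^ (m + 1)) +
          ((m + 1 : ℕ) : B) * (Rv.eval w + (derivative Rv).eval w * θ + k * θ ^ 2)) -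
        (y' * x + ((m + 1 : ℕ) : B) * Rv.eval w) := by
      rw [hx, hy', hρ]; ring
    rw [e, ← ha, ← hk, hu0, hw0, sub_zero]
  -- multiply by `t x` and divide by `q`
  have hF : -(t * Rv.eval w) + c * x * (x + θ) + t * x * (a * (x + θ) + ρ) = 0 := by
    apply mul_left_cancel₀ hqB
    rw [mul_zero]
    have e : ((m + 1 : ℕ) : B) * (-(t * Rv.eval w) + c * x * (x + θ) + t * x * (a * (x + θ) + ρ)) =
        t * x * (y' + θ ^ m * (x + θ) + ((m + 1 : ℕ) : B) * (a * (x + θ) + ρ))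
          - t * (y' * x + ((m + 1 : ℕ) : B) * Rv.eval w)
          - x * (x + θ) * (t * θ ^ m - c * ((m + 1 : ℕ) : B)) := by
      ring
    rw [e, hE, hw0, hct]; ring
  -- reduce
  have hrθ : red θ = 0 := by rw [hθ, map_sub, hu, hw, sub_self]
  have hrx : red x = Y - Y ^ ((m + 1) * (m + 1)) := by
    rw [hx, map_sub, map_pow, hv, hw, ← pow_mul]
  have hra : red a = Y ^ m := by
    rw [haa', map_add, map_mul, hrθ, zero_mul, add_zero, map_pow, hw]
  have hrR : red (Rv.eval w) = (Rv.map red).eval Y := by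
    rw [← hw, Polynomial.eval_map_apply]
  have hrρ : red ρ = (derivative (Rv.map red)).eval Y := by
    rw [hρ, map_add, map_mul, hrθ, mul_zero, add_zero, derivative_map, ← hw,
      Polynomial.eval_map_apply]
  have hG := congrArg red hF
  simp only [map_add, map_neg, map_mul, map_zero, hrθ, hrx, hra, hrR, hrρ, add_zero] at hG
  linear_combination hG

end Residue

section Unit

variable {D : Type*} [CommRing D] [IsDomain D]

/-- From `c̄ x̄² = - t̄ T̄` and an identity `T̄^m G = (x̄²)^m H` with `m` even: `c̄` is a unit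
wherever `t̄` and `H` are. -/
theorem not_mem_of_identity (nbar : Ideal D) [nbar.IsPrime] {cbar tbar xbar Tbar G H : D} {m : ℕ}
    (hm : Even m) (hm0 : m ≠ 0) (h1 : cbar * xbar ^ 2 = -(tbar * Tbar)) (hx : xbar ≠ 0)
    (hId : Tbar ^ m * G = (xbar ^ 2) ^ m * H) (hH : H ∉ nbar) (ht : tbar ∉ nbar) :
    cbar ∉ nbar := by
  intro hc
  have h2 : cbar ^ m * (xbar ^ 2) ^ m = tbar ^ m * Tbar ^ m := by
    rw [← mul_pow, h1, hm.neg_pow, mul_pow]
  have h3 : (xbar ^ 2) ^ m * (cbar ^ m * G) = (xbar ^ 2) ^ m * (tbar ^ m * H) := by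
    have e1 : (xbar ^ 2) ^ m * (cbar ^ m * G) = (cbar ^ m * (xbar ^ 2) ^ m) * G := by ring
    have e2 : (xbar ^ 2) ^ m * (tbar ^ m * H) = tbar ^ m * ((xbar ^ 2) ^ m * H) := by ring
    rw [e1, e2, ← hId, h2]; ring
  have h4 := mul_left_cancel₀ (pow_ne_zero _ (pow_ne_zero _ hx)) h3
  have h5 : cbar ^ m * G ∈ nbar :=
    Ideal.mul_mem_right _ _ (Ideal.pow_mem_of_mem _ hc _ (Nat.pos_of_ne_zero hm0))
  rw [h4] at h5
  rcases Ideal.IsPrime.mem_or_mem inferInstance h5 with h6 | h6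
  · exact ht (Ideal.IsPrime.mem_of_pow_mem inferInstance _ h6)
  · exact hH h6

end Unit


section Wrapper

open Fermat.Agent.S36.H83

variable {B D BM : Type*} [CommRing B] [IsDomain B] [CommRing D] [IsDedekindDomain D] [CommRing BM]
  {red₁ red₂ red₃ : B →+* D} {ιu ιv ιw : BM →+* B} {rbar : BM →+* D} {W : D →+* D}
  {q : ℕ} {qB : B}

/-- **(M4), rigid half: the hypothesis `hE` of `H83.ThreeComponents.locGen_middle`.**
`ψ : BM` (think of `j` or `j(d ·)`), `θ = ιu ψ - ιw ψ`, `Y = rbar ψ`, `W Y = Y ^ q`;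
`p = Φ_q(X, ιv ψ)` in Kronecker shape with roots `ιu ψ ≠ ιw ψ`; an identity
`T̄ ^ m G = (x̄²) ^ m H` in `D`, `m` even, `H` a unit at the point. -/
theorem hE_middle_of_kronecker
    (h : ThreeComponents red₁ red₂ red₃ ιu ιv ιw rbar W q qB) (hq : q.Prime)
    (hqB : qB = (q : B)) (hq0 : (q : B) ≠ 0) (hqD : (q : D) = 0)
    (n : Ideal B) (hn : n.IsMaximal)
    (h1 : ∃ s : B, red₁ s = 0 ∧ s ∉ n) (h3 : ∃ s : B, red₃ s = 0 ∧ s ∉ n)
    (hker : RingHom.ker red₂ ≤ n)
    (ψ : BM) (hW : W (rbar ψ) = rbar ψ ^ q) (hne : ιu ψ ≠ ιw ψ)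
    {p Rv : B[X]} (hK : p = (X ^ q - C (ιv ψ)) * (X - C (ιv ψ ^ q)) + C (q : B) * Rv)
    (hpu : p.eval (ιu ψ) = 0) (hpw : p.eval (ιw ψ) = 0)
    (hx : rbar ψ - rbar ψ ^ (q * q) ≠ 0) {G H : D} {m : ℕ} (hm : Even m) (hm0 : m ≠ 0)
    (hId : (rbar ψ ^ (q - 1) * (rbar ψ - rbar ψ ^ (q * q)) ^ 2 - (Rv.map red₂).eval (rbar ψ)
        + (rbar ψ - rbar ψ ^ (q * q)) * (derivative (Rv.map red₂)).eval (rbar ψ)) ^ m * G =
      ((rbar ψ - rbar ψ ^ (q * q)) ^ 2) ^ m * H)
    (hH : H ∉ Ideal.map red₂ n) :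
    ∃ e t : B, e ∉ n ∧ t ∉ n ∧ t * (ιu ψ - ιw ψ) ^ (q - 1) = e * qB := by
  have hnprime : n.IsPrime := hn.isPrime
  have hmem : (ιu ψ - ιw ψ) ^ (q - 1) ∈ RingHom.ker red₂ ^ (q - 1) :=
    Ideal.pow_mem_pow ((RingHom.mem_ker).2 (h.red₂_sub ψ)) _
  obtain ⟨t, htn, ht⟩ := h.localDvd_middle n hn h1 h3 _ hmem
  obtain ⟨c, hc⟩ := Ideal.mem_span_singleton'.1 ht
  refine ⟨c, t, ?_, htn, hc.symm⟩
  have hprime : (Ideal.map red₂ n).IsPrime := Ideal.map_isPrime_of_surjective h.hred₂ hker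
  have hiff : ∀ z : B, red₂ z ∈ Ideal.map red₂ n → z ∈ n := by
    intro z hz
    obtain ⟨z', hz'n, hz'⟩ := (Ideal.mem_map_iff_of_surjective red₂ h.hred₂).1 hz
    have : z - z' ∈ n := hker (by rw [RingHom.mem_ker, map_sub, hz', sub_self])
    have e : z = (z - z') + z' := by ring
    rw [e]
    exact add_mem this hz'n
  have hct : t * (ιu ψ - ιw ψ) ^ (q - 1) = c * (q : B) := by rw [← hqB, hc]
  have hid := red_mul_sq_eq red₂ hq hq0 hqD (h.h2u ψ) (h.h2w ψ) (by rw [h.h2v, hW]) hne hK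
    hpu hpw hct
  have := not_mem_of_identity (Ideal.map red₂ n) hm hm0 hid hx hId hH (fun hh => htn (hiff t hh))
  exact fun hcn => this (Ideal.mem_map_of_mem red₂ hcn)

/-- **(M4), rigid half: `n B_n = (θ, τ)` at the points of the middle component only.** -/
theorem locGen_middle_of_kronecker
    (h : ThreeComponents red₁ red₂ red₃ ιu ιv ιw rbar W q qB) (hq : q.Prime)
    (hqB : qB = (q : B)) (hq0 : (q : B) ≠ 0) (hqD : (q : D) = 0) (hD : ¬ IsField D)
    (n : Ideal B) (hn : n.IsMaximal) (hqn : qB ∈ n)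
    (h1 : ∃ s : B, red₁ s = 0 ∧ s ∉ n) (h3 : ∃ s : B, red₃ s = 0 ∧ s ∉ n)
    (ψ : BM) (hW : W (rbar ψ) = rbar ψ ^ q) (hne : ιu ψ ≠ ιw ψ)
    {p Rv : B[X]} (hK : p = (X ^ q - C (ιv ψ)) * (X - C (ιv ψ ^ q)) + C (q : B) * Rv)
    (hpu : p.eval (ιu ψ) = 0) (hpw : p.eval (ιw ψ) = 0)
    (hx : rbar ψ - rbar ψ ^ (q * q) ≠ 0) {G H : D} {m : ℕ} (hm : Even m) (hm0 : m ≠ 0)
    (hId : (rbar ψ ^ (q - 1) * (rbar ψ - rbar ψ ^ (q * q)) ^ 2 - (Rv.map red₂).eval (rbar ψ)
        + (rbar ψ - rbar ψ ^ (q * q)) * (derivative (Rv.map red₂)).eval (rbar ψ)) ^ m * G =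
      ((rbar ψ - rbar ψ ^ (q * q)) ^ 2) ^ m * H)
    (hH : H ∉ Ideal.map red₂ n) :
    ∃ τ ∈ n, ∀ z ∈ n, ∃ t : B, t ∉ n ∧ t * z ∈ Ideal.span {ιu ψ - ιw ψ, τ} :=
  h.locGen_middle hq.two_le hD n hn hqn h1 h3 (h.red₂_sub ψ) (sub_ne_zero.2 hne)
    (hE_middle_of_kronecker h hq hqB hq0 hqD n hn h1 h3 (h.ker_le_middle n hn hqn h1 h3) ψ hW hne
      hK hpu hpw hx hm hm0 hId hH)

end Wrapper

end Fermat.Agent.S36.H65
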