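import Mathlib
import Fermat.Agent.S36.H83_L0ThreePre
import Fermat.Agent.S36.H17_RegQTC
import Fermat.Agent.S34.H16_RelSwap
import Fermat.Agent.S36.H65_MiddleKronecker

/-!
S36 / (M4-K) (helper6): the Kronecker inputs of `H65.exists_rigid_pair` /
`H65.hE_middle_of_kronecker` / `H65.locGen_middle_of_kronecker` AT THE REAL TYPES, for `ψ := j` on
chart 1 (`u = J₃`) of level `q² L` over `A₁` (the chart of `S36.H83.threeComponents_J3_of_places`).

`B₁ = chartB A₁ J₃ ⊆ F₂`, `BM₁ = chartB A₁ j ⊆ F₀`, `D₁ = integralClosure kA[j̄] FkL`,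
`ιu ιv ιw = chartMap eU / eV / eW`, `rbar = rbarB Mod`, `W = WR FrM`; `ψ = psiJ` the coordinate `j`:

* `hK_J3` : `Φ_q.map (evalAt v) = (X^q - C v)(X - C (v^q)) + C q * Rk.map (evalAt v)`, `v = ιv ψ`;
* `hpu_J3`, `hpw_J3` : `ιu ψ = j`, `ιw ψ = j_{q²}` are roots; `hne_J3` : they are different;
* `hW_J3` : `W (rbar ψ) = rbar ψ ^ q`; `hx_J3` : `rbar ψ - rbar ψ ^ (q * q) ≠ 0`;
* `hqD_J3` : `(q : D₁) = 0`; `hq0_J3` : `(q : B₁) ≠ 0`; `hqB_J3` : `algebraMap A₁ B₁ q = (q : B₁)`.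
-/

set_option autoImplicit false
set_option linter.unusedSectionVars false
set_option linter.style.haveILetI false
set_option synthInstance.maxHeartbeats 400000

noncomputable section

namespace Fermat.Agent.S36.H6

open ModularCurve Polynomial IsLocalRing Fermat.Agent.S28
open Fermat.Agent.S18 Fermat.Agent.S34.H92 Fermat.Agent.S34.H16 Fermat.Agent.S34.H55
open Fermat.Agent.S36.H83 Fermat.Agent.S36.H17

local notation "Qbar" => AlgebraicClosure ℚ

/-! ### generic: roots in a subalgebra of a field -/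

section Generic

variable {R0 F : Type*} [CommRing R0] [Field F] [Algebra R0 F]

/-- a relation `Φ(v, u) = 0` in the ambient field is a root statement in the subalgebra. -/
theorem eval_map_evalAt_eq_zero_of_val (B : Subalgebra R0 F) (Φ : ℤ[X][X]) (v u : B)
    (h : Φ.eval₂ (evalAt (v : F)) (u : F) = 0) : (Φ.map (evalAt v)).eval u = 0 := by
  apply Subtype.ext
  rw [eval_map_evalAt]
  have h1 := Polynomial.hom_eval₂ Φ (evalAt v) (B.val : B →+* F) u
  rw [comp_evalAt] at h1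
  exact h1.trans h

/-- `map_kron` at `f := evalAt v`. -/
theorem map_kron_evalAt {A : Type*} [CommRing A] (q : ℕ) [Fact q.Prime] [NeZero q]
    (Rk : ℤ[X][X]) (v : A) :
    (kronMain q + C (C (q : ℤ)) * Rk).map (evalAt v) =
      ((X : A[X]) ^ q - C v) * ((X : A[X]) - C (v ^ q)) + C ((q : ℕ) : A) * Rk.map (evalAt v) := by
  rw [map_kron, evalAt_X]

/-- a subalgebra of an algebra over a field of characteristic `q` has `q = 0`. -/
theorem natCast_eq_zero_of_charP_base {k Fk R : Type*} [Field k] [Field Fk] [Algebra k Fk]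
    (q : ℕ) [CharP k q] [CommRing R] [Algebra R Fk] (D : Subalgebra R Fk) :
    ((q : ℕ) : D) = 0 := by
  apply Subtype.ext
  have h1 : ((q : ℕ) : Fk) = algebraMap k Fk ((q : ℕ) : k) := (map_natCast _ _).symm
  rw [SubringClass.coe_natCast, h1, CharP.cast_eq_zero, map_zero]
  rfl

end Generic

section GenericGlue

open Fermat.Agent.S18

variable {R0 k F1 Fk : Type*} [CommRing R0] [Field k] [Field F1] [Algebra R0 F1]
  [Field Fk] [Algebra k Fk]
  {ϖ : R0} {π0 : R0 →+* k} {x1 θ : F1} {xb θb : Fk}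

/-- `rbar` of the chart coordinate is its residue. -/
theorem coe_rbarB_self (M : H3.GaussModel ϖ π0 x1 θ xb θb) {c : F1} (hc : c ∈ M.O1) {w : Fk}
    (hcw : M.res1 ⟨c, hc⟩ = w) :
    ((rbarB M hc hcw ⟨c, H40.self_mem_chartB c⟩ :
      ↥(integralClosure (Algebra.adjoin k {w}) Fk)) : Fk) = w := by
  rw [coe_rbarB]
  exact hcw

/-- `W (rbar c) = (rbar c)^q` for the chart coordinate `c`. -/
theorem WR_rbarB_self (M : H3.GaussModel ϖ π0 x1 θ xb θb) {c : F1} (hc : c ∈ M.O1) {w : Fk}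
    (hcw : M.res1 ⟨c, hc⟩ = w) (Fr : Fk →ₐ[k] Fk) (q : ℕ) (hFrw : Fr w = w ^ q) :
    WR Fr q hFrw (rbarB M hc hcw ⟨c, H40.self_mem_chartB c⟩) =
      rbarB M hc hcw ⟨c, H40.self_mem_chartB c⟩ ^ q := by
  apply Subtype.ext
  rw [coe_WR, SubmonoidClass.coe_pow, coe_rbarB_self]
  exact hFrw

end GenericGlue

section MiddleKron

variable (L : ℕ) [NeZero L] (q : ℕ) [hq : Fact q.Prime] (hqL : ¬ q ∣ L)
  (A : ValuationSubring Qbar) (hA : A.LiesOverPrime q)

local notation "kA" => IsLocalRing.ResidueField A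
local notation "A₁" => H45.A0 A q
local notation "L₁" => H45.unrCyclo q
local notation "F0" => modularFunctionFieldFullC (H45.unrCyclo q) L
local notation "F2" => modularFunctionFieldFullC (H45.unrCyclo q) (q * (q * L))
local notation "FkL" => modularFunctionFieldFullC (IsLocalRing.ResidueField A) L

/-- the coordinate `j` of chart 1 of level `L`. -/
def psiJ : ↥(H40.chartB A₁ (S18.H16.jK L₁ L)) :=
  ⟨S18.H16.jK L₁ L, H40.self_mem_chartB _⟩

/-- `ιu` of `threeComponents_J3_of_places`. -/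
abbrev iU1 : ↥(H40.chartB A₁ (S18.H16.jK L₁ L)) →+* ↥(H40.chartB A₁ (J3N L (q := q))) :=
  chartMap (eU L (q := q)) (eU_algebraMap L A) (huint1 L A)

/-- `ιv` of `threeComponents_J3_of_places`. -/
abbrev iV1 : ↥(H40.chartB A₁ (S18.H16.jK L₁ L)) →+* ↥(H40.chartB A₁ (J3N L (q := q))) :=
  chartMap (eV L (q := q)) (eV_algebraMap L A) (hvint1 L A)

/-- `ιw` of `threeComponents_J3_of_places`. -/
abbrev iW1 : ↥(H40.chartB A₁ (S18.H16.jK L₁ L)) →+* ↥(H40.chartB A₁ (J3N L (q := q))) :=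
  chartMap (eW L (q := q)) (eW_algebraMap L A) (hwint1 L A)

theorem coe_iU1_psiJ : ((iU1 L q A (psiJ L q A) : ↥(H40.chartB A₁ (J3N L (q := q)))) : F2) =
    S18.H16.jK L₁ (q * (q * L)) := eU_jK L

theorem coe_iV1_psiJ : ((iV1 L q A (psiJ L q A) : ↥(H40.chartB A₁ (J3N L (q := q)))) : F2) =
    S18.H99.jdK L₁ (q * (q * L)) q (Dvd.intro (q * L) rfl) := eV_jK L

theorem coe_iW1_psiJ : ((iW1 L q A (psiJ L q A) : ↥(H40.chartB A₁ (J3N L (q := q)))) : F2) =
    S18.H99.jdK L₁ (q * (q * L)) (q * q) (hq2_dvd L) := eW_jK L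

/-- **`hK`**: the Kronecker shape of `Φ_q(X, v)`, `v = ιv j = j_q`, over the chart. -/
theorem hK_J3 (D : ModularPolynomialData q) (Rk : ℤ[X][X])
    (hRk : D.Φ = kronMain q + C (C (q : ℤ)) * Rk) :
    D.Φ.map (evalAt (iV1 L q A (psiJ L q A))) =
      (((X : (↥(H40.chartB A₁ (J3N L (q := q))))[X]) ^ q - C (iV1 L q A (psiJ L q A))) *
        ((X : (↥(H40.chartB A₁ (J3N L (q := q))))[X]) - C (iV1 L q A (psiJ L q A) ^ q)) +
        C ((q : ℕ) : ↥(H40.chartB A₁ (J3N L (q := q)))) *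
          Rk.map (evalAt (iV1 L q A (psiJ L q A))) :
        (↥(H40.chartB A₁ (J3N L (q := q))))[X]) := by
  rw [hRk]
  exact map_kron_evalAt q Rk (iV1 L q A (psiJ L q A))

/-- **`hpu`**: `ιu j = j` is a root of `Φ_q(X, j_q)`. -/
theorem hpu_J3 (D : ModularPolynomialData q)
    (hD : ∀ (k : Type) [Field k] (ζ : kˣ), IsPrimitiveRoot ζ q → RootsAt k q ζ D.Φ) :
    (D.Φ.map (evalAt (iV1 L q A (psiJ L q A)))).eval (iU1 L q A (psiJ L q A)) = 0 := by
  apply eval_map_evalAt_eq_zero_of_val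
  rw [coe_iU1_psiJ, coe_iV1_psiJ]
  have h := relFK_swap L₁ (q * (q * L)) q D hD 1 q (one_mul q).symm (one_dvd _)
    (Dvd.intro (q * L) rfl)
  rw [S18.H99.jdK_one] at h
  refine (S28.H50.eval₂_hom_congr ?_ D.Φ _).trans h
  rw [evalAt_X, evalF_X]

/-- **`hpw`**: `ιw j = j_{q²}` is a root of `Φ_q(X, j_q)`. -/
theorem hpw_J3 (D : ModularPolynomialData q) :
    (D.Φ.map (evalAt (iV1 L q A (psiJ L q A)))).eval (iW1 L q A (psiJ L q A)) = 0 := by
  apply eval_map_evalAt_eq_zero_of_val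
  rw [coe_iW1_psiJ, coe_iV1_psiJ]
  have h := relFK L₁ (q * (q * L)) q D q (q * q) rfl (Dvd.intro (q * L) rfl) (hq2_dvd L)
  refine (S28.H50.eval₂_hom_congr ?_ D.Φ _).trans h
  rw [evalAt_X, evalF_X]

/-- **`hne`**: `j ≠ j_{q²}`. -/
theorem hne_J3 : iU1 L q A (psiJ L q A) ≠ iW1 L q A (psiJ L q A) := by
  intro h
  have h0 := congrArg (fun x : ↥(H40.chartB A₁ (J3N L (q := q))) => (x : F2)) h
  simp only [coe_iU1_psiJ, coe_iW1_psiJ] at h0
  have h1 := congrArg (fun x : F2 => ((x : LaurentSeries L₁)).order) h0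
  simp only [S18.H16.coe_jK, S18.H99.coe_jdK, S28.H39.order_qExpand, S28.H39.order_jqModC] at h1
  have hq2 := hq.out.two_le
  have h2 : ((q * q : ℕ) : ℤ) = 1 := by linarith
  have h3 : q * q = 1 := by exact_mod_cast h2
  nlinarith

/-- the value `rbar j = j̄`. -/
theorem coe_rbarB_psiJ :
    ((rbarB (Mod L hqL A hA) (Mod L hqL A hA).x_mem (Mod L hqL A hA).res1_x (psiJ L q A) :
      ↥(integralClosure (Algebra.adjoin kA {S18.H16.jK kA L}) FkL)) : FkL) = S18.H16.jK kA L := by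
  exact coe_rbarB_self (Mod L hqL A hA) (Mod L hqL A hA).x_mem (Mod L hqL A hA).res1_x

/-- **`hW`**: `W (rbar j) = (rbar j)^q`. -/
theorem hW_J3 :
    WR (FrM L A hA) q (hFrx L A hA)
        (rbarB (Mod L hqL A hA) (Mod L hqL A hA).x_mem (Mod L hqL A hA).res1_x (psiJ L q A)) =
      rbarB (Mod L hqL A hA) (Mod L hqL A hA).x_mem (Mod L hqL A hA).res1_x (psiJ L q A) ^ q := by
  exact WR_rbarB_self (Mod L hqL A hA) (Mod L hqL A hA).x_mem (Mod L hqL A hA).res1_x
    (FrM L A hA) q (hFrx L A hA)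

/-- **`hx`**: `j̄ - j̄^(q²) ≠ 0`. -/
theorem hx_J3 :
    rbarB (Mod L hqL A hA) (Mod L hqL A hA).x_mem (Mod L hqL A hA).res1_x (psiJ L q A) -
      rbarB (Mod L hqL A hA) (Mod L hqL A hA).x_mem (Mod L hqL A hA).res1_x (psiJ L q A) ^ (q * q)
        ≠ 0 := by
  intro h
  have h0 := congrArg (fun x : ↥(integralClosure (Algebra.adjoin kA {S18.H16.jK kA L}) FkL) =>
    (x : FkL)) h
  simp only [AddSubgroupClass.coe_sub, SubmonoidClass.coe_pow, ZeroMemClass.coe_zero,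
    coe_rbarB_psiJ] at h0
  have h1 : S18.H16.jK kA L = S18.H16.jK kA L ^ (q * q) := sub_eq_zero.1 h0
  have h2 := congrArg (fun x : FkL => ((x : LaurentSeries kA)).order) h1
  simp only [SubmonoidClass.coe_pow, S18.H16.coe_jK, HahnSeries.order_pow,
    S28.H39.order_jqModC, nsmul_eq_mul] at h2
  have hq2 := hq.out.two_le
  have h3 : ((q * q : ℕ) : ℤ) = 1 := by linarith
  have h4 : q * q = 1 := by exact_mod_cast h3
  nlinarith

include hA in
/-- **`hqD`**: `q = 0` in `D₁`. -/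
theorem hqD_J3 :
    ((q : ℕ) : ↥(integralClosure (Algebra.adjoin kA {S18.H16.jK kA L}) FkL)) = 0 := by
  haveI : CharP kA q := S18.H92.charP_residueField A hA
  exact natCast_eq_zero_of_charP_base (k := kA) q _

/-- **`hq0`**: `q ≠ 0` in the chart. -/
theorem hq0_J3 : ((q : ℕ) : ↥(H40.chartB A₁ (J3N L (q := q)))) ≠ 0 := by
  intro h
  have h0 := congrArg (fun x : ↥(H40.chartB A₁ (J3N L (q := q))) => (x : F2)) h
  simp only [SubringClass.coe_natCast, ZeroMemClass.coe_zero] at h0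
  exact (Nat.cast_ne_zero.2 hq.out.ne_zero) h0

/-- **`hqB`**: the `qB` of `threeComponents_J3_of_places` is `(q : B₁)`. -/
theorem hqB_J3 : algebraMap A₁ ↥(H40.chartB A₁ (J3N L (q := q))) ((q : ℕ) : A₁) =
    ((q : ℕ) : ↥(H40.chartB A₁ (J3N L (q := q)))) := map_natCast _ _

/-! ### seam check: `H65.locGen_middle_of_kronecker` at the real types -/

set_option maxHeartbeats 1600000 in
/-- **(M4), rigid half, chart 1 of level `q² L`, `ψ = j`**: `H65.locGen_middle_of_kronecker` with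
all Kronecker inputs discharged; what is left are the `ThreeComponents` package `h` (output of
`S36.H83.threeComponents_J3_of_places`), the point data and helper17's identity `hId` with
`Rv := Rk.map (evalAt (ιv j))`. -/
theorem locGen_middle_J3 (D : ModularPolynomialData q)
    (hD : ∀ (k : Type) [Field k] (ζ : kˣ), IsPrimitiveRoot ζ q → RootsAt k q ζ D.Φ)
    (Rk : ℤ[X][X]) (hRk : D.Φ = kronMain q + C (C (q : ℤ)) * Rk)
    [IsDedekindDomain ↥(integralClosure (Algebra.adjoin kA {S18.H16.jK kA L}) FkL)]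
    {red₁ red₂ red₃ : ↥(H40.chartB A₁ (J3N L (q := q))) →+*
      ↥(integralClosure (Algebra.adjoin kA {S18.H16.jK kA L}) FkL)}
    (h : ThreeComponents red₁ red₂ red₃ (iU1 L q A) (iV1 L q A) (iW1 L q A)
      (rbarB (Mod L hqL A hA) (Mod L hqL A hA).x_mem (Mod L hqL A hA).res1_x)
      (WR (FrM L A hA) q (hFrx L A hA)) q
      (algebraMap A₁ ↥(H40.chartB A₁ (J3N L (q := q))) ((q : ℕ) : A₁)))
    (hDf : ¬ IsField ↥(integralClosure (Algebra.adjoin kA {S18.H16.jK kA L}) FkL))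
    (n : Ideal ↥(H40.chartB A₁ (J3N L (q := q)))) (hn : n.IsMaximal)
    (hqn : algebraMap A₁ ↥(H40.chartB A₁ (J3N L (q := q))) ((q : ℕ) : A₁) ∈ n)
    (h1 : ∃ s, red₁ s = 0 ∧ s ∉ n) (h3 : ∃ s, red₃ s = 0 ∧ s ∉ n)
    {G H : ↥(integralClosure (Algebra.adjoin kA {S18.H16.jK kA L}) FkL)} {m : ℕ}
    (hm : Even m) (hm0 : m ≠ 0)
    (hId : (rbarB (Mod L hqL A hA) (Mod L hqL A hA).x_mem (Mod L hqL A hA).res1_x (psiJ L q A)
          ^ (q - 1) *
        (rbarB (Mod L hqL A hA) (Mod L hqL A hA).x_mem (Mod L hqL A hA).res1_x (psiJ L q A) -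
          rbarB (Mod L hqL A hA) (Mod L hqL A hA).x_mem (Mod L hqL A hA).res1_x (psiJ L q A)
            ^ (q * q)) ^ 2
        - ((Rk.map (evalAt (iV1 L q A (psiJ L q A)))).map red₂).eval
            (rbarB (Mod L hqL A hA) (Mod L hqL A hA).x_mem (Mod L hqL A hA).res1_x (psiJ L q A))
        + (rbarB (Mod L hqL A hA) (Mod L hqL A hA).x_mem (Mod L hqL A hA).res1_x (psiJ L q A) -
          rbarB (Mod L hqL A hA) (Mod L hqL A hA).x_mem (Mod L hqL A hA).res1_x (psiJ L q A)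
            ^ (q * q)) *
          (derivative ((Rk.map (evalAt (iV1 L q A (psiJ L q A)))).map red₂)).eval
            (rbarB (Mod L hqL A hA) (Mod L hqL A hA).x_mem (Mod L hqL A hA).res1_x
              (psiJ L q A))) ^ m * G =
      ((rbarB (Mod L hqL A hA) (Mod L hqL A hA).x_mem (Mod L hqL A hA).res1_x (psiJ L q A) -
          rbarB (Mod L hqL A hA) (Mod L hqL A hA).x_mem (Mod L hqL A hA).res1_x (psiJ L q A)
            ^ (q * q)) ^ 2) ^ m * H)
    (hH : H ∉ Ideal.map red₂ n) :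
    ∃ τ ∈ n, ∀ z ∈ n, ∃ t : ↥(H40.chartB A₁ (J3N L (q := q))), t ∉ n ∧
      t * z ∈ Ideal.span {iU1 L q A (psiJ L q A) - iW1 L q A (psiJ L q A), τ} :=
  S36.H65.locGen_middle_of_kronecker h hq.out (hqB_J3 L q A) (hq0_J3 L q A) (hqD_J3 L q A hA) hDf
    n hn hqn h1 h3 (psiJ L q A) (hW_J3 L q hqL A hA) (hne_J3 L q A)
    (hK_J3 L q A D Rk hRk) (hpu_J3 L q A D hD) (hpw_J3 L q A D)
    (hx_J3 L q hqL A hA) hm hm0 hId hH

end MiddleKron

end Fermat.Agent.S36.H6
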