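/-
helper49 — S36, row (M4-real), group (G5) (hedge, RULING 7): the level-`L` inputs of
`S36.H9.middleUnit_of_rows` AT THE REAL TYPES (chart 1, `ψ = j`).

`BM₁ = chartB A₁ (jK L₁ L)`, `D₁ = integralClosure kA[j̄] FkL`, `rbar = rbarB Mod`,
`R := A₁ = H45.A0 A q`, `π := (q : A₁)`; `ιu ιv ιw := g.comp iU1 / iV1 / iW1` for ANY ring hom
`g` out of the `A₁`-level chart of level `q² L` (at the E-level: `g := chartBC_J3K`), exactly as in
helper72's `S36.H72.middleKron_of_injective`.

* `hD_J`   : `¬ IsField D₁`;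
* `hkerM_J`: `ker rbar = span {algebraMap A₁ BM₁ (q : A₁)}`;
* `rbarM_algebraMap` : `rbar (algebraMap A₁ BM₁ r) = algebraMap kA D₁ (resA0 r)`;
* `hres_J` : closed points of `D₁` have residue field generated by constants from `A₁`;
* `hconst_J`: `ιu`, `ιw` agree on constants; `hq_J` : `ι (algebraMap A₁ BM₁ q) = (q : B)`;
* `hpt_J`  : **the binder `hpt` of `S36.H9.middleUnit_of_rows` VERBATIM** (without using `5 ≤ q`
  nor the side conditions `h1 h3`).
-/
import Mathlib
import Fermat.Agent.S36.H49_LevelLGoodRed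
import Fermat.Agent.S36.H6_MiddleKronInst
import Fermat.Agent.S36.H92_AsVertPrime
import Fermat.Agent.S36.H26_BranchRing

set_option autoImplicit false
set_option linter.unusedSectionVars false
set_option linter.style.haveILetI false
set_option synthInstance.maxHeartbeats 400000

noncomputable section

namespace Fermat.Agent.S36.H49

open ModularCurve Polynomial IsLocalRing Fermat.Agent.S28
open Fermat.Agent.S18 Fermat.Agent.S34.H92 Fermat.Agent.S34.H16 Fermat.Agent.S34.H55
open Fermat.Agent.S36.H83 Fermat.Agent.S36.H6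

local notation "Qbar" => AlgebraicClosure ℚ

section GenericRes

/-- Closed points of a finite type algebra over an algebraically closed field `k`: every residue
class is represented by a constant coming from any ring `R` mapping onto `k`. -/
theorem exists_sub_algebraMap_mem {k D R : Type*} [Field k] [IsAlgClosed k] [CommRing D]
    [Algebra k D] [Algebra.FiniteType k D] [CommRing R] (π0 : R →+* k)
    (hπ0 : Function.Surjective π0) (m : Ideal D) (hm : m.IsMaximal) (d : D) :
    ∃ r : R, d - algebraMap k D (π0 r) ∈ m := by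
  haveI := hm
  obtain ⟨c, hc⟩ := S36.H26.surjective_algebraMap_quotient_of_isAlgClosed (k := k) m
    (Ideal.Quotient.mk m d)
  obtain ⟨r, rfl⟩ := hπ0 c
  refine ⟨r, ?_⟩
  rw [← Ideal.Quotient.eq_zero_iff_mem, map_sub, ← hc]
  exact sub_self _

end GenericRes

section Inst

variable (L : ℕ) [NeZero L] (q : ℕ) [hq : Fact q.Prime] (hqL : ¬ q ∣ L)
  (A : ValuationSubring Qbar) (hA : A.LiesOverPrime q)

local notation "kA" => IsLocalRing.ResidueField A
local notation "A₁" => H45.A0 A q
local notation "L₁" => H45.unrCyclo q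
local notation "F0" => modularFunctionFieldFullC (H45.unrCyclo q) L
local notation "F2" => modularFunctionFieldFullC (H45.unrCyclo q) (q * (q * L))
local notation "FkL" => modularFunctionFieldFullC (IsLocalRing.ResidueField A) L
set_option quotPrecheck false in
local notation "BM₁" => ↥(H40.chartB (H45.A0 A q) (S18.H16.jK (H45.unrCyclo q) L))
set_option quotPrecheck false in
local notation "B₁" => ↥(H40.chartB (H45.A0 A q) (J3N L (q := q)))
set_option quotPrecheck false in
local notation "D₁" =>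
  ↥(integralClosure (Algebra.adjoin (IsLocalRing.ResidueField A)
    {S18.H16.jK (IsLocalRing.ResidueField A) L})
    (modularFunctionFieldFullC (IsLocalRing.ResidueField A) L))
set_option quotPrecheck false in
local notation "rbarM" =>
  rbarB (Mod L hqL A hA) (Mod L hqL A hA).x_mem (Mod L hqL A hA).res1_x

/-- **`hD`**: the branch ring of chart 1 is not a field. -/
theorem hD_J : ¬ IsField D₁ :=
  S34.H83.not_isField_integralClosure_adjoin _ (S18.H16.transcendental_jK kA L)

include hA in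
/-- **`hkerM`**: `ker rbar = (q)` on the level-`L` chart. -/
theorem hkerM_J :
    RingHom.ker (rbarM) = Ideal.span {algebraMap A₁ BM₁ ((q : ℕ) : A₁)} := by
  apply le_antisymm
  · intro b hb
    obtain ⟨b', hb'⟩ := S36.H92.exists_mul_of_rbarM_eq_zero L hqL A hA b ((RingHom.mem_ker).1 hb)
    rw [hb']
    exact Ideal.mul_mem_right _ _ (Ideal.subset_span rfl)
  · rw [Ideal.span_singleton_le_iff_mem, RingHom.mem_ker]
    exact S36.H92.rbarM_natCast L hqL A hA

/-- `rbar` on constants. -/
theorem rbarM_algebraMap (r : A₁) :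
    rbarM (algebraMap A₁ BM₁ r) = algebraMap kA D₁ (H45.resA0 A q r) := by
  apply Subtype.ext
  rw [coe_rbarB]
  exact (Mod L hqL A hA).res1_algebraMap r

include hA hqL in
/-- the branch ring is of finite type over `kA`. -/
theorem finiteType_D_J : Algebra.FiniteType kA D₁ := by
  haveI := S18.H16.isAlgClosed_k A
  haveI := S18.H16.finiteDimensional_Fk L hqL A hA
  haveI := S18.H16.isSeparable_Fk L hqL A hA
  exact S36.H26.finiteType_integralClosure_adjoin (S18.H16.jK kA L)
    (S18.H16.transcendental_jK kA L)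

include hA hqL in
/-- closed points of `D₁` have residue field `kA = resA0 (A₁)`. -/
theorem hres0_J (m : Ideal D₁) (hm : m.IsMaximal) (d : D₁) :
    ∃ r : A₁, d - algebraMap kA D₁ (H45.resA0 A q r) ∈ m := by
  haveI := S18.H16.isAlgClosed_k A
  haveI : Algebra.FiniteType kA D₁ := finiteType_D_J L q hqL A hA
  exact exists_sub_algebraMap_mem (H45.resA0 A q) (H45.resA0_surjective hq.out hA) m hm d

include hA in
set_option maxHeartbeats 2000000 in
/-- **`hres`**: the residue field of a closed point of `D₁` is generated by constants of `A₁`. -/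
theorem hres_J (m : Ideal D₁) (hm : m.IsMaximal) (d : D₁) :
    ∃ r : A₁, d - rbarM (algebraMap A₁ BM₁ r) ∈ m := by
  obtain ⟨r, hr⟩ := hres0_J L q hqL A hA m hm d
  refine ⟨r, ?_⟩
  have e := rbarM_algebraMap L q hqL A hA r
  rw [e]
  exact hr

/-- `ιu` and `ιw` agree on the constants of `A₁` (for any further ring hom `g`). -/
theorem hconst_J {B : Type*} [CommRing B] (g : B₁ →+* B) (r : A₁) :
    (g.comp (iU1 L q A)) (algebraMap A₁ BM₁ r) = (g.comp (iW1 L q A)) (algebraMap A₁ BM₁ r) := by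
  have h1 : iU1 L q A (algebraMap A₁ BM₁ r) = algebraMap A₁ B₁ r :=
    Subtype.ext (eU_algebraMap L A r)
  have h2 : iW1 L q A (algebraMap A₁ BM₁ r) = algebraMap A₁ B₁ r :=
    Subtype.ext (eW_algebraMap L A r)
  rw [RingHom.comp_apply, RingHom.comp_apply, h1, h2]

/-- **`hqu`, `hqw`** for any ring hom `ι` out of the level-`L` chart. -/
theorem hq_J {B : Type*} [CommRing B] (ι : BM₁ →+* B) :
    ι (algebraMap A₁ BM₁ ((q : ℕ) : A₁)) = ((q : ℕ) : B) := by
  rw [map_natCast, map_natCast]

include hA in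
/-- **(G5) at the real types: the binder `hpt` of `S36.H9.middleUnit_of_rows`**, for the
`ThreeComponents` package of chart 1 pushed along any ring hom `g` (`g := RingHom.id _` at the
`A₁`-level, `g := S36.H95.chartBC_J3K ..` at the E-level). -/
theorem hpt_J {B : Type*} [CommRing B] (g : B₁ →+* B)
    [IsDedekindDomain D₁]
    {red₁ red₂ red₃ : B →+* D₁} {qB : B}
    (h3 : ThreeComponents red₁ red₂ red₃ (g.comp (iU1 L q A)) (g.comp (iV1 L q A))
      (g.comp (iW1 L q A)) (rbarM) (WR (FrM L A hA) q (hFrx L A hA)) q qB)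
    (n : Ideal B) (hn : n.IsMaximal) (hker : RingHom.ker red₂ ≤ n) :
    (n.comap (g.comp (iW1 L q A))).IsMaximal ∧
      (∀ χ : BM₁, ∃ c : BM₁, (g.comp (iU1 L q A)) c = (g.comp (iW1 L q A)) c ∧
        (g.comp (iW1 L q A)) (χ - c) ∈ n) ∧
      ∃ s' : BM₁, (g.comp (iW1 L q A)) s' ∈ n ∧ ∀ χ : BM₁, (g.comp (iW1 L q A)) χ ∈ n →
        ∃ a χ₁ χ₂ : BM₁, (g.comp (iW1 L q A)) a ∉ n ∧
          a * χ = s' * χ₁ + algebraMap A₁ BM₁ ((q : ℕ) : A₁) * χ₂ :=
  hpt_of_levelL (R := A₁) h3 (hD_J L A) ((q : ℕ) : A₁) (hkerM_J L q hqL A hA)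
    (hconst_J L q A g) (hres_J L q hqL A hA) n hn hker

include hA in
/-- `hpt_J` in the binder shape of `S36.H9.middleUnit_of_rows` VERBATIM
(`R := A₁`, `π := (q : A₁)`, `ιu ιv ιw := g.comp iU1 / iV1 / iW1`). -/
theorem hpt_J_verbatim {B : Type*} [CommRing B] (g : B₁ →+* B)
    [IsDedekindDomain D₁]
    {red₁ red₂ red₃ : B →+* D₁} {qB : B}
    (h3 : ThreeComponents red₁ red₂ red₃ (g.comp (iU1 L q A)) (g.comp (iV1 L q A))
      (g.comp (iW1 L q A)) (rbarM) (WR (FrM L A hA) q (hFrx L A hA)) q qB) :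
    5 ≤ q → ∀ n : Ideal B, n.IsMaximal → RingHom.ker red₂ ≤ n →
      (∃ s : B, red₁ s = 0 ∧ s ∉ n) → (∃ s : B, red₃ s = 0 ∧ s ∉ n) →
      (n.comap (g.comp (iW1 L q A))).IsMaximal ∧
      (∀ χ : BM₁, ∃ c : BM₁, (g.comp (iU1 L q A)) c = (g.comp (iW1 L q A)) c ∧
        (g.comp (iW1 L q A)) (χ - c) ∈ n) ∧
      ∃ s' : BM₁, (g.comp (iW1 L q A)) s' ∈ n ∧ ∀ χ : BM₁, (g.comp (iW1 L q A)) χ ∈ n →
        ∃ a χ₁ χ₂ : BM₁, (g.comp (iW1 L q A)) a ∉ n ∧
          a * χ = s' * χ₁ + algebraMap A₁ BM₁ ((q : ℕ) : A₁) * χ₂ :=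
  fun _ n hn hker _ _ => hpt_J L q hqL A hA g h3 n hn hker

/-- **`hqu`, `hqw`** with `qB` spelled as the image of `q` from any base ring `R''` of `B`
(`R'' := cutOver A E` at the E-level, `R'' := A₁` at the `A₁`-level). -/
theorem hq_J' {B R'' : Type*} [CommRing B] [CommRing R''] [Algebra R'' B] (ι : BM₁ →+* B) :
    ι (algebraMap A₁ BM₁ ((q : ℕ) : A₁)) = algebraMap R'' B ((q : ℕ) : R'') := by
  rw [hq_J, map_natCast]

end Inst

end Fermat.Agent.S36.H49
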