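/-
helper54 — S36 row (M2e), CLOSED: every crossing point of the E-level chart 1 of level `(M, ℓ)`
is regular, with NO analytic hypothesis left.  Binders: the L0 package of chart 1
(`S35.H55.exists_l0Pkg`: `Pi P0 red₁ red₂ hTC hF`), an auxiliary prime `r ≡ 11 mod 12`, `r ∣ M`
(no elliptic points at level `M`), the base `E` with uniformiser `π`, `ℓ = π u₀`.

* `hAsReal`        : `HAsReal M A` (helper92's `H92.HAsReal_of_aux` + `hdelReal`).
* `regular_redE`   : (S1) spelling of Ruling 8 — `H62.RegularCrossings ∧ H84.NodeGen` for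
  `(S35.H70.redE .. red₁ _, S35.H70.redE .. red₂ _)`.
* `regular_E_closed` : (S2) spelling — for ANY `red₁'' red₂''` with `red_i'' ∘ chartBC_JK = red_i`
  and a `TwoComponents` structure over `π`.
-/
import Mathlib
import Fermat.Agent.S36.H54_M2eRedE
import Fermat.Agent.S36.H92_AsUnitInst

set_option autoImplicit false
set_option linter.unusedSectionVars false
set_option linter.style.haveILetI false
set_option synthInstance.maxHeartbeats 400000
set_option maxHeartbeats 1600000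

noncomputable section

namespace Fermat.Agent.S36.H54

open ModularCurve Polynomial IsLocalRing Fermat.Agent.S28
open Fermat.Agent.S18 Fermat.Agent.S34 Fermat.Agent.S34.H92 Fermat.Agent.S34.H16
open Fermat.Agent.S34.H55 Fermat.Agent.S34.H83

local notation "Qbar" => AlgebraicClosure ℚ

section Closed

variable (M : ℕ) [NeZero M] {ℓ : ℕ} [hℓ : Fact ℓ.Prime] (hℓM : ¬ ℓ ∣ M)
  (A : ValuationSubring Qbar) (hA : A.LiesOverPrime ℓ)

local notation "kA" => IsLocalRing.ResidueField A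
local notation "A₁" => H45.A0 A ℓ
local notation "L₁" => H45.unrCyclo ℓ
local notation "FkM" => modularFunctionFieldFullC (IsLocalRing.ResidueField A) M
local notation "B1" => H40.chartB (H45.A0 A ℓ) (JN M (ℓ := ℓ))
local notation "D1" =>
  integralClosure (Algebra.adjoin (IsLocalRing.ResidueField A)
    {S18.H16.jK (IsLocalRing.ResidueField A) M})
    (modularFunctionFieldFullC (IsLocalRing.ResidueField A) M)

include hℓM hA in
/-- **(R-As), closed.** -/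
theorem hAsReal {r : ℕ} (hr : r.Prime) (hr12 : r % 12 = 11) (hrM : r ∣ M)
    (hrbar : Function.Surjective
      (rbarB (Mod M hℓM A hA) (Mod M hℓM A hA).x_mem (Mod M hℓM A hA).res1_x)) :
    HAsReal M A :=
  S36.H92.HAsReal_of_aux M hℓM A hA hr hr12 hrM hrbar (hdelReal M hℓM A hA)

/-- **(M2e), CLOSED, (S1) spelling.** -/
theorem regular_redE {r : ℕ} (hr : r.Prime) (hr12 : r % 12 = 11) (hrM : r ∣ M)
    (Pi : PlaceInf M hℓM A hA) (P0 : PlaceZero M hℓM A hA)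
    {red₁ red₂ : B1 →+* D1}
    (hTC : TwoComponents red₁ red₂
      (chartMap (iotaMN M (ℓ := ℓ)) (iotaMN_algebraMap M A) (hιint1 M A))
      (chartMap (VMN M (ℓ := ℓ)) (VMN_algebraMap M A) (hVint1 M A))
      (rbarB (Mod M hℓM A hA) (Mod M hℓM A hA).x_mem (Mod M hℓM A hA).res1_x)
      (WR (FrM M A hA) ℓ (hFrx M A hA)) ℓ
      (algebraMap A₁ B1 ((ℓ : ℕ) : A₁)))
    (hF : S35.H55.L0ChartFacts M hℓM A hA Pi P0 red₁ red₂)
    (E : IntermediateField (H45.unrCyclo ℓ) Qbar)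
    (π : ↥(H45.cutOver A E)) (hπ : maximalIdeal ↥(H45.cutOver A E) = Ideal.span {π})
    (u₀ : ↥(H45.cutOver A E)) (hu₀ : IsUnit u₀)
    (hℓπ : ((ℓ : ℕ) : ↥(H45.cutOver A E)) = π * u₀)
    (hN : S35.H70.GenBy (A := A) E (ℓ * M) (JN M (ℓ := ℓ)))
    (hq₁ : red₁ (algebraMap A₁ B1 ((ℓ : ℕ) : A₁)) = 0)
    (hq₂ : red₂ (algebraMap A₁ B1 ((ℓ : ℕ) : A₁)) = 0) :
    H62.RegularCrossings
        (S35.H70.redE hℓ.out hA E (ℓ * M) (JN M (ℓ := ℓ)) π hπ hN red₁ hq₁)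
        (S35.H70.redE hℓ.out hA E (ℓ * M) (JN M (ℓ := ℓ)) π hπ hN red₂ hq₂) ∧
      H84.NodeGen
        (S35.H70.redE hℓ.out hA E (ℓ * M) (JN M (ℓ := ℓ)) π hπ hN red₁ hq₁)
        (S35.H70.redE hℓ.out hA E (ℓ * M) (JN M (ℓ := ℓ)) π hπ hN red₂ hq₂) :=
  regular_redE_of_HAs M hℓM A hA (hAsReal M hℓM A hA hr hr12 hrM hTC.hrbar) Pi P0 hTC hF E π hπ
    u₀ hu₀ hℓπ hN hq₁ hq₂

/-- **(M2e), CLOSED, (S2) spelling.** -/
theorem regular_E_closed {r : ℕ} (hr : r.Prime) (hr12 : r % 12 = 11) (hrM : r ∣ M)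
    (Pi : PlaceInf M hℓM A hA) (P0 : PlaceZero M hℓM A hA)
    {red₁ red₂ : B1 →+* D1}
    (hTC : TwoComponents red₁ red₂
      (chartMap (iotaMN M (ℓ := ℓ)) (iotaMN_algebraMap M A) (hιint1 M A))
      (chartMap (VMN M (ℓ := ℓ)) (VMN_algebraMap M A) (hVint1 M A))
      (rbarB (Mod M hℓM A hA) (Mod M hℓM A hA).x_mem (Mod M hℓM A hA).res1_x)
      (WR (FrM M A hA) ℓ (hFrx M A hA)) ℓ
      (algebraMap A₁ B1 ((ℓ : ℕ) : A₁)))
    (hF : S35.H55.L0ChartFacts M hℓM A hA Pi P0 red₁ red₂)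
    (E : IntermediateField (H45.unrCyclo ℓ) Qbar)
    (π u₀ : ↥(H45.cutOver A E)) (hu₀ : IsUnit u₀)
    (hℓπ : ((ℓ : ℕ) : ↥(H45.cutOver A E)) = π * u₀)
    {red₁'' red₂'' : ↥(H40.chartB ↥(H45.cutOver A E)
        (H95.JK ↥E (ℓ * M) ℓ (Dvd.intro M rfl))) →+* D1}
    (hc₁ : ∀ b, red₁'' (H95.chartBC_JK (A := A) E (ℓ * M) ℓ (Dvd.intro M rfl) b) = red₁ b)
    (hc₂ : ∀ b, red₂'' (H95.chartBC_JK (A := A) E (ℓ * M) ℓ (Dvd.intro M rfl) b) = red₂ b)
    {BM'' : Type*} [CommRing BM'']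
    {ι'' V'' : BM'' →+* ↥(H40.chartB ↥(H45.cutOver A E)
        (H95.JK ↥E (ℓ * M) ℓ (Dvd.intro M rfl)))}
    {rbar'' : BM'' →+* D1} {W'' : D1 →+* D1} {qn : ℕ}
    (hTC'' : TwoComponents red₁'' red₂'' ι'' V'' rbar'' W'' qn
      (algebraMap ↥(H45.cutOver A E)
        ↥(H40.chartB ↥(H45.cutOver A E) (H95.JK ↥E (ℓ * M) ℓ (Dvd.intro M rfl))) π)) :
    H62.RegularCrossings red₁'' red₂'' ∧ H84.NodeGen red₁'' red₂'' :=
  regular_E_of_HAs M hℓM A hA (hAsReal M hℓM A hA hr hr12 hrM hTC.hrbar) Pi P0 hTC hF E π u₀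
    hu₀ hℓπ hc₁ hc₂ hTC''

end Closed

end Fermat.Agent.S36.H54
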