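/-
helper54 — S36 row (M2e), leaf (R-del): `HdelReal M A` from helper26's
`S36.H26.thetaDer_ne_zero_and_memLoc_branch`.
-/
import Mathlib
import Fermat.Agent.S36.H54_M2eSetup
import Fermat.Agent.S36.H26_BranchRing
import Fermat.Agent.S18.H16_FkInst

set_option autoImplicit false
set_option linter.unusedSectionVars false
set_option linter.style.haveILetI false
set_option synthInstance.maxHeartbeats 400000
set_option maxHeartbeats 6400000

noncomputable section

namespace Fermat.Agent.S36.H54

open ModularCurve Polynomial IsLocalRing Fermat.Agent.S28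
open Fermat.Agent.S18 Fermat.Agent.S34 Fermat.Agent.S34.H55

local notation "Qbar" => AlgebraicClosure ℚ

section Hdel

variable (M : ℕ) [NeZero M] {ℓ : ℕ} [hℓ : Fact ℓ.Prime] (hℓM : ¬ ℓ ∣ M)
  (A : ValuationSubring Qbar) (hA : A.LiesOverPrime ℓ)

local notation "kA" => IsLocalRing.ResidueField A
local notation "FkM" => modularFunctionFieldFullC (IsLocalRing.ResidueField A) M

include hℓM hA in
/-- **(R-del)**: `Hdel` at the real types. -/
theorem hdelReal : HdelReal M A := by
  haveI := S18.H16.isAlgClosed_k A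
  haveI := S18.H16.charP_k A hA
  haveI := S18.H16.finiteDimensional_Fk M hℓM A hA
  haveI := S18.H16.isSeparable_Fk M hℓM A hA
  have hθw : thetaOp ((inclk M A) (S18.H16.jK kA M)) ≠ 0 := by
    show thetaOp ((S18.H16.jK kA M : FkM) : LaurentSeries kA) ≠ 0
    rw [S18.H16.coe_jK, ← S28.H39.Jconj_one_one]
    exact S28.H39.thetaOp_Jconj_ne_zero 1 1 (by rw [Nat.cast_one]; exact one_ne_zero)
  intro 𝔠 h𝔠 sb hsb hsb2
  haveI := h𝔠
  exact S36.H26.thetaDer_ne_zero_and_memLoc_branch ℓ (inclk M A) (S18.H16.jK kA M)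
    (S18.H16.transcendental_jk M A) (fun d => rfl) hθw 𝔠 hsb hsb2

end Hdel

end Fermat.Agent.S36.H54
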