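import Mathlib

/-!
# S36 (M2), abstract half 2 (helper54): from `x * y = π * unit` to principal vertical primes and a
two-generator maximal ideal ("thickness one ⇒ regular").

`O` a domain, `P1 P2` ideals with `P1 ⊓ P2 ≤ (π)` (TwoComponents: `π O = P1 ∩ P2`), `x ∈ P1`,
`y ∈ P2`, `x * y = π * R₀` with `R₀` a unit.  Then `P1 = (x)` and `P2 = (y)` (no normality needed).
If moreover `O` is local and the maximal ideal is `P2 + (x)` (i.e. `O / P2` is local with maximal
ideal generated by the image of `x`: the transversality statement), then `𝔪 = (x, y)`.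
-/

set_option autoImplicit false

namespace Fermat.Agent.S36.H54

open IsLocalRing

variable {O : Type*} [CommRing O] [IsDomain O]

set_option linter.unusedSectionVars false

/-- `P2 = (y)` from `x * y = π * unit`, `x ∈ P1`, `y ∈ P2`, `P1 ∩ P2 ≤ (π)`. -/
theorem eq_span_right_of_mul_eq (π x y R₀ : O) (P1 P2 : Ideal O) (hx : x ∈ P1) (hy : y ∈ P2)
    (hcap : P1 ⊓ P2 ≤ Ideal.span {π}) (hxy : x * y = π * R₀) (hR : IsUnit R₀) (hπ : π ≠ 0) :
    P2 = Ideal.span {y} := by
  obtain ⟨u, rfl⟩ := hR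
  have hx0 : x ≠ 0 := by
    rintro rfl
    rw [zero_mul] at hxy
    exact mul_ne_zero hπ u.ne_zero hxy.symm
  refine le_antisymm (fun z hz => ?_) ((Ideal.span_singleton_le_iff_mem _).mpr hy)
  have hzx : z * x ∈ P1 ⊓ P2 := ⟨Ideal.mul_mem_left _ _ hx, Ideal.mul_mem_right _ _ hz⟩
  obtain ⟨c, hc⟩ := Ideal.mem_span_singleton'.mp (hcap hzx)
  have hπeq : π = x * y * ↑u⁻¹ := by rw [hxy, mul_assoc, Units.mul_inv, mul_one]
  rw [Ideal.mem_span_singleton']
  refine ⟨c * ↑u⁻¹, ?_⟩
  apply mul_right_cancel₀ hx0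
  rw [← hc, hπeq]
  ring

/-- `P1 = (x)`, the symmetric statement. -/
theorem eq_span_left_of_mul_eq (π x y R₀ : O) (P1 P2 : Ideal O) (hx : x ∈ P1) (hy : y ∈ P2)
    (hcap : P1 ⊓ P2 ≤ Ideal.span {π}) (hxy : x * y = π * R₀) (hR : IsUnit R₀) (hπ : π ≠ 0) :
    P1 = Ideal.span {x} :=
  eq_span_right_of_mul_eq π y x R₀ P2 P1 hy hx (by rwa [inf_comm]) (by rwa [mul_comm]) hR hπ

/-- **Thickness one ⇒ two-generator maximal ideal.** -/
theorem maximalIdeal_eq_span_pair [IsLocalRing O] (π x y R₀ : O) (P1 P2 : Ideal O)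
    (hx : x ∈ P1) (hy : y ∈ P2) (hcap : P1 ⊓ P2 ≤ Ideal.span {π}) (hxy : x * y = π * R₀)
    (hR : IsUnit R₀) (hπ : π ≠ 0) (hmax : maximalIdeal O = P2 ⊔ Ideal.span {x}) :
    maximalIdeal O = Ideal.span {x, y} := by
  rw [hmax, eq_span_right_of_mul_eq π x y R₀ P1 P2 hx hy hcap hxy hR hπ, sup_comm,
    ← Ideal.span_union, Set.singleton_union]

/-- The transversality hypothesis `𝔪 = P2 + (x)` from a surjection `red : O → D` with kernel `P2`
onto a local ring whose maximal ideal is generated by `red x`. -/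
theorem maximalIdeal_eq_sup_of_surjective [IsLocalRing O] {D : Type*} [CommRing D] [IsLocalRing D]
    (red : O →+* D) (hred : Function.Surjective red) (P2 : Ideal O) (hker : RingHom.ker red = P2)
    (x : O) (hD : maximalIdeal D = Ideal.span {red x}) :
    maximalIdeal O = P2 ⊔ Ideal.span {x} := by
  have hcomap : maximalIdeal O = (maximalIdeal D).comap red := by
    have hmax : ((maximalIdeal D).comap red).IsMaximal :=
      Ideal.comap_isMaximal_of_surjective red hred
    exact (IsLocalRing.eq_maximalIdeal hmax).symm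
  rw [hcomap, hD, ← Set.image_singleton, ← Ideal.map_span, Ideal.comap_map_of_surjective red hred,
    ← RingHom.ker_eq_comap_bot, hker, sup_comm]

/-- Consumer shape of row (M2): `∃ x y, x ∈ P1 ∧ y ∈ P2 ∧ x * y = π * unit ∧ 𝔪 = (x, y)`, together
with principality of both vertical primes. -/
theorem exists_pair_of_isUnit [IsLocalRing O] {D : Type*} [CommRing D] [IsLocalRing D]
    (π x y R₀ : O) (P1 P2 : Ideal O) (hx : x ∈ P1) (hy : y ∈ P2)
    (hcap : P1 ⊓ P2 ≤ Ideal.span {π}) (hxy : x * y = π * R₀) (hR : IsUnit R₀) (hπ : π ≠ 0)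
    (red : O →+* D) (hred : Function.Surjective red) (hker : RingHom.ker red = P2)
    (hD : maximalIdeal D = Ideal.span {red x}) :
    ∃ x y u : O, x ∈ P1 ∧ y ∈ P2 ∧ IsUnit u ∧ x * y = π * u ∧
      P1 = Ideal.span {x} ∧ P2 = Ideal.span {y} ∧ maximalIdeal O = Ideal.span {x, y} :=
  ⟨x, y, R₀, hx, hy, hR, hxy,
    eq_span_left_of_mul_eq π x y R₀ P1 P2 hx hy hcap hxy hR hπ,
    eq_span_right_of_mul_eq π x y R₀ P1 P2 hx hy hcap hxy hR hπ,
    maximalIdeal_eq_span_pair π x y R₀ P1 P2 hx hy hcap hxy hR hπ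
      (maximalIdeal_eq_sup_of_surjective red hred P2 hker x hD)⟩

end Fermat.Agent.S36.H54
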