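/-
helper56 — S36 row (E4)/(r4) AT THE REAL TYPES: the hypothesis `hE4` of helper18's
`S36.H18.geoFn36E_of_twoCharts`, VERBATIM, from the chart-level outputs of the rows
(binder block of `geoFn36E_of_twoCharts`: `K := ↥E0`, `R := ↥(cutOver A E0)`, `π := (q : R)`,
`F₂ := F_K(q (q L))`, `B₁ B₂ : Subalgebra R F₂` the two charts, `m := p ^ k`).

* chart 1: (E2) `ThreeComponents`, (E2-lvl) `LevelMaps` + integrality, (M2) `RegularCrossings`,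
  (M4) `MiddleUnit` (through `H62.heightOne_localGen_all`);
* chart 2: (E2) `ThreeComponents`, (OVL-a), (OVL-b), (M4r2);
* the horizontal orders come from the `Qbar`-level divisibility hypothesis of `hE4` itself through
  (D1c) `S36.H36.dvd_ord_of_dvd_ord_toBar`; `E0 = R[1/q]` because `q` is a uniformiser of
  `R = cutOver A E0` ((D1b), `S36.H45.irreducible_natCast_cutOver_of_fixed`).
-/
import Mathlib
import Fermat.Agent.S36.H18_Geo36TwoCharts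
import Fermat.Agent.S36.H36_HorizontalOrd
import Fermat.Agent.S36.H56_StepTwoRows
import Fermat.Agent.S34.H56_CoordGlue

set_option autoImplicit false
set_option linter.unusedSectionVars false
set_option linter.style.haveILetI false
set_option synthInstance.maxHeartbeats 400000

noncomputable section

namespace Fermat.Agent.S36.H56

open ModularCurve AlgebraicCurve IntermediateField
open Fermat.Agent.S18 Fermat.Agent.S18.H45 Fermat.Agent.S34 Fermat.Agent.S34.H47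
open Fermat.Agent.S36.H83

local notation "Qbar" => AlgebraicClosure ℚ

section Real

variable (L q : ℕ) [NeZero L] [NeZero q] (hq : q.Prime)
  {A : ValuationSubring Qbar} (hA : A.LiesOverPrime q)
  (E0 : IntermediateField (unrCyclo q) Qbar) [FiniteDimensional (unrCyclo q) E0]
  (hfix : ∀ σ ∈ A.inertiaSubgroupIn ℚ, ∀ x : E0, σ ((x : E0) : Qbar) = ((x : E0) : Qbar))

set_option quotPrecheck false
local notation "F₂" => ↥(modularFunctionFieldFullC ↥E0 (q * (q * L)))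
local notation "RR" => ↥(cutOver A E0)
local notation "πq" => (((q : ℕ) : ↥(cutOver A E0)))

include hq hA hfix in
/-- `E0 = R[1/q]` for `R = cutOver A E0` (`q` is a uniformiser of the DVR `R`). -/
theorem isLocalization_away_natCast_cutOver : IsLocalization.Away πq ↥E0 := by
  haveI := isDiscreteValuationRing_cutOver hq hA E0
  exact S34.H56.isLocalization_away_of_dvr
    (S36.H45.irreducible_natCast_cutOver_of_fixed hq hA E0 hfix)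

set_option maxHeartbeats 1600000 in
include hq hA hfix in
/-- **`hE4` of `S36.H18.geoFn36E_of_twoCharts`, verbatim, from the row outputs.** -/
theorem hE4_real {p : ℕ} (k : ℕ)
    {B₁ B₂ : Subalgebra RR F₂} [IsFractionRing B₁ F₂] [IsFractionRing B₂ F₂]
    [IsNoetherianRing B₁] [IsNoetherianRing B₂] [IsIntegrallyClosed B₁] [IsIntegrallyClosed B₂]
    (P₁ : Fin 3 → Ideal B₁) (P₂ : Fin 3 → Ideal B₂)
    [hP₁ : ∀ i, (P₁ i).IsPrime] [hP₂ : ∀ i, (P₂ i).IsPrime]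
    (hh₁ : ∀ i, (P₁ i).height = 1) (hh₂ : ∀ i, (P₂ i).height = 1)
    (hVeq : ∀ i, H56.valuationSubringAt (K := F₂) (P₁ i) (hh₁ i) =
      H56.valuationSubringAt (K := F₂) (P₂ i) (hh₂ i))
    -- chart 1
    {D₁ BM₁ B₁' : Type*} [CommRing D₁] [IsDedekindDomain D₁] [CommRing BM₁] [CommRing B₁']
    {red₁ red₂ red₃ : B₁ →+* D₁} {ιu ιv ιw : BM₁ →+* B₁} {rbar : BM₁ →+* D₁} {W : D₁ →+* D₁}
    {red₁' red₂' : B₁' →+* D₁} {α β : B₁' →+* B₁}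
    (h₁ : ThreeComponents red₁ red₂ red₃ ιu ιv ιw rbar W q (algebraMap RR B₁ πq))
    (hL : LevelMaps red₁ red₂ red₃ red₁' red₂' α β W) (hD₁ : ¬ IsField D₁)
    (hπ₁ : algebraMap RR B₁ πq ≠ 0) (hq1 : red₁ (algebraMap RR B₁ πq) = 0)
    (hq2 : red₂ (algebraMap RR B₁ πq) = 0) (hq3 : red₃ (algebraMap RR B₁ πq) = 0)
    {q₁ : B₁'} (hαq : α q₁ = algebraMap RR B₁ πq) (hβq : β q₁ = algebraMap RR B₁ πq)
    (hq₁1 : red₁' q₁ = 0) (hq₁2 : red₂' q₁ = 0)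
    (hα : α.IsIntegral) (hβ : β.IsIntegral)
    (hW2 : ∃ d : D₁, W (W d) ≠ d) (hW4 : ∃ d : D₁, W (W (W (W d))) ≠ d)
    (hM2 : H62.RegularCrossings red₁' red₂')
    (hM4 : H62.MiddleUnit red₁ red₂ red₃ q (algebraMap RR B₁ πq))
    (hP₁0 : P₁ 0 = RingHom.ker red₁) (hP₁1 : P₁ 1 = RingHom.ker red₂)
    (hP₁2 : P₁ 2 = RingHom.ker red₃)
    -- chart 2
    {D₂ BM₂ : Type*} [CommRing D₂] [IsDedekindDomain D₂] [CommRing BM₂]
    {ρ₁ ρ₂ ρ₃ : B₂ →+* D₂} {κu κv κw : BM₂ →+* B₂} {rbar₂ : BM₂ →+* D₂} {W₂ : D₂ →+* D₂}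
    (h₂ : ThreeComponents ρ₁ ρ₂ ρ₃ κu κv κw rbar₂ W₂ q (algebraMap RR B₂ πq))
    (hD₂ : ¬ IsField D₂)
    (hπ₂ : algebraMap RR B₂ πq ≠ 0) (hr1 : ρ₁ (algebraMap RR B₂ πq) = 0)
    (hr2 : ρ₂ (algebraMap RR B₂ πq) = 0) (hr3 : ρ₃ (algebraMap RR B₂ πq) = 0)
    (hP₂0 : P₂ 0 = RingHom.ker ρ₁) (hP₂1 : P₂ 1 = RingHom.ker ρ₂)
    (hP₂2 : P₂ 2 = RingHom.ker ρ₃)
    (C : H21.ClosedPt B₂ πq → Prop)
    (hovl : ∀ n₂ : H21.ClosedPt B₂ πq, ¬ C n₂ → ∃ n₁ : H21.ClosedPt B₁ πq,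
      H21.ptO B₁ B₂ πq (Sum.inl n₁) = H21.ptO B₁ B₂ πq (Sum.inr n₂))
    (hcusp : ∀ n₂ : H21.ClosedPt B₂ πq, C n₂ → ∃ i₀ : Fin 3, ∀ i, P₂ i ≤ n₂.1 → i = i₀)
    (hM4r2 : ∀ n₂ : H21.ClosedPt B₂ πq, C n₂ → RingHom.ker ρ₂ ≤ n₂.1 →
      ∃ θ : B₂, ρ₂ θ = 0 ∧ θ ≠ 0 ∧
        ∃ e t : B₂, e ∉ n₂.1 ∧ t ∉ n₂.1 ∧ t * θ ^ (q - 1) = e * algebraMap RR B₂ πq) :
    ∀ f : F₂, f ≠ 0 →
      (∀ v : Place Qbar (S24.FN (q * (q * L))),
        ((p ^ k : ℕ) : ℤ) ∣ v.ord (H99.toBar ↥E0 (q * (q * L)) f)) →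
      ∀ (s : ℤ) (g : F₂), g ≠ 0 →
      (∀ i, (H56.valuationSubringAt (K := F₂) (P₁ i) (hh₁ i)).valuation
        (f ^ (q + 1) * algebraMap ↥E0 F₂ ((q : ℕ) : ↥E0) ^ (-s) * (g ^ (p ^ k))⁻¹) = 1) →
      ∃ G : H21.ClosedPt B₁ πq ⊕ H21.ClosedPt B₂ πq → F₂, (∀ n, G n ≠ 0) ∧
        ∀ n, UnitIn (H21.ptO B₁ B₂ πq n)
          (f ^ (q + 1) * algebraMap ↥E0 F₂ ((q : ℕ) : ↥E0) ^ (-s) * (g ^ (p ^ k))⁻¹ /
            G n ^ (p ^ k)) := by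
  intro f hf hdiv
  haveI : IsLocalization.Away πq ↥E0 := isLocalization_away_natCast_cutOver q hq hA E0 hfix
  have hqK : (((q : ℕ) : ↥E0)) ≠ 0 := Nat.cast_ne_zero.mpr hq.ne_zero
  exact hE4_of_rows (K := ↥E0) (q := q) (m := p ^ k) P₁ P₂ hh₁ hh₂ hVeq h₁ hL hD₁ hq.two_le
    hπ₁ hq1 hq2 hq3
    hαq hβq hq₁1 hq₁2 hα hβ hW2 hW4 hM2 hM4 hP₁0 hP₁1 hP₁2 h₂ hD₂ hπ₂ hr1 hr2 hr3 hP₂0 hP₂1 hP₂2
    C hovl hcusp hM4r2 hf hqK
    (fun w => S36.H36.dvd_ord_of_dvd_ord_toBar ↥E0 (q * (q * L)) f _ hdiv w)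

end Real

end Fermat.Agent.S36.H56
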