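/-
helper56 — S36 row (E4)/(r4) at the real types, chart level: `hE4_real` specialised to the two
charts `B₁ = chartB R J₃`, `B₂ = chartB R J₃⁻¹` (`R = cutOver A E0`, `J₃ = j(z) j(qz) j(q²z)` at
level `N = q (q L)`), with "cuspidal" `C n₂ := J₃⁻¹ ∈ n₂` and the overlap hypothesis `hovl`
DISCHARGED by helper62's `H62.hovl_chartB` (DVR, algebraically closed residue field, chart 2 of
finite type).

The charts enter as variables `B₁ B₂` with equations `hB₁ : B₁ = chartB R J₃`,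
`hB₂ : B₂ = chartB R J₃⁻¹` (call with `rfl`), only to keep the elaboration of the statements fast
(each occurrence of `chartB (cutOver A E0) _` costs a 5 s instance search).
-/
import Mathlib
import Fermat.Agent.S36.H56_StepTwoReal
import Fermat.Agent.S36.H62_ChartGlueInst
import Fermat.Agent.S36.H95_CoordJ3Inst

set_option autoImplicit false
set_option linter.unusedSectionVars false
set_option linter.style.haveILetI false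
set_option synthInstance.maxHeartbeats 400000

noncomputable section

namespace Fermat.Agent.S36.H56

open ModularCurve AlgebraicCurve IntermediateField
open Fermat.Agent.S18 Fermat.Agent.S18.H45 Fermat.Agent.S34 Fermat.Agent.S34.H47
open Fermat.Agent.S36.H83

local notation "Qbar" => AlgebraicClosure ℚ

section Real

variable (L q : ℕ) [NeZero L] [NeZero q] (hq : q.Prime)
  {A : ValuationSubring Qbar} (hA : A.LiesOverPrime q)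
  (E0 : IntermediateField (unrCyclo q) Qbar) [FiniteDimensional (unrCyclo q) E0]
  (hfix : ∀ σ ∈ A.inertiaSubgroupIn ℚ, ∀ x : E0, σ ((x : E0) : Qbar) = ((x : E0) : Qbar))
  (hq2 : q * q ∣ q * (q * L))

set_option quotPrecheck false
local notation "F₂" => ↥(modularFunctionFieldFullC ↥E0 (q * (q * L)))
local notation "RR" => ↥(cutOver A E0)
local notation "πq" => (((q : ℕ) : ↥(cutOver A E0)))
local notation "J₃" => S36.H83.J3K ↥E0 (q * (q * L)) q hq2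

set_option maxHeartbeats 1600000 in
include hq hA hfix in
/-- **(OVL-a) at the real types**: a closed point of chart 2 not containing `J₃⁻¹` has the local
ring of a closed point of chart 1. -/
theorem hovl_real {B₁ B₂ : Subalgebra RR F₂}
    (hB₁ : B₁ = H40.chartB (cutOver A E0) J₃) (hB₂ : B₂ = H40.chartB (cutOver A E0) J₃⁻¹)
    [IsFractionRing ↥B₁ F₂] [IsFractionRing ↥B₂ F₂]
    [IsIntegrallyClosed ↥B₁] [IsIntegrallyClosed ↥B₂]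
    (Jinv : ↥B₂) (hJinv : (Jinv : F₂) = J₃⁻¹) :
    ∀ n₂ : H21.ClosedPt B₂ πq, ¬ (Jinv ∈ n₂.1) →
      ∃ n₁ : H21.ClosedPt B₁ πq,
        H21.ptO B₁ B₂ πq (Sum.inl n₁) = H21.ptO B₁ B₂ πq (Sum.inr n₂) := by
  subst hB₁ hB₂
  haveI := isDiscreteValuationRing_cutOver hq hA E0
  haveI := isAlgClosed_residueField_cutOver hq hA E0
  haveI := S36.H83.finiteDimensional_J3K_inv ↥E0 (q * (q * L)) q hq2
    (H99.natCast_ne_zero₀ (q * (q * L)) ↥E0)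
  haveI := S36.H83.isSeparable_J3K_inv ↥E0 (q * (q * L)) q hq2
  haveI : Algebra.FiniteType RR ↥(H40.chartB (cutOver A E0) J₃⁻¹) :=
    S34.H83.finiteType_chartB (R := RR) (K := ↥E0) J₃⁻¹
      (S36.H83.transcendental_J3K_inv ↥E0 (q * (q * L)) q hq2)
  have hJ : Jinv = ⟨J₃⁻¹, H40.self_mem_chartB J₃⁻¹⟩ := Subtype.ext hJinv
  subst hJ
  exact S36.H62.hovl_chartB (R := RR) J₃ (S36.H83.J3K_ne_zero ↥E0 (q * (q * L)) q hq2) πq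
    (S36.H45.irreducible_natCast_cutOver_of_fixed hq hA E0 hfix)

set_option maxHeartbeats 1600000 in
include hq hA hfix in
/-- **`hE4` of `S36.H18.geoFn36E_of_twoCharts` at `B₁ := chartB R J₃`, `B₂ := chartB R J₃⁻¹`**,
with the overlap discharged; cuspidal points of chart 2 := those containing `J₃⁻¹`. -/
theorem hE4_real_chartB {p : ℕ} (k : ℕ) {B₁ B₂ : Subalgebra RR F₂}
    (hB₁ : B₁ = H40.chartB (cutOver A E0) J₃) (hB₂ : B₂ = H40.chartB (cutOver A E0) J₃⁻¹)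
    [IsFractionRing ↥B₁ F₂] [IsFractionRing ↥B₂ F₂]
    [IsNoetherianRing ↥B₁] [IsNoetherianRing ↥B₂]
    [IsIntegrallyClosed ↥B₁] [IsIntegrallyClosed ↥B₂]
    (Jinv : ↥B₂) (hJinv : (Jinv : F₂) = J₃⁻¹)
    (P₁ : Fin 3 → Ideal ↥B₁) (P₂ : Fin 3 → Ideal ↥B₂)
    [hP₁ : ∀ i, (P₁ i).IsPrime] [hP₂ : ∀ i, (P₂ i).IsPrime]
    (hh₁ : ∀ i, (P₁ i).height = 1) (hh₂ : ∀ i, (P₂ i).height = 1)
    (hVeq : ∀ i, H56.valuationSubringAt (K := F₂) (P₁ i) (hh₁ i) =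
      H56.valuationSubringAt (K := F₂) (P₂ i) (hh₂ i))
    -- chart 1
    {D₁ BM₁ B₁' : Type*} [CommRing D₁] [IsDedekindDomain D₁] [CommRing BM₁] [CommRing B₁']
    {red₁ red₂ red₃ : ↥B₁ →+* D₁} {ιu ιv ιw : BM₁ →+* ↥B₁} {rbar : BM₁ →+* D₁}
    {W : D₁ →+* D₁} {red₁' red₂' : B₁' →+* D₁} {α β : B₁' →+* ↥B₁}
    (h₁ : ThreeComponents red₁ red₂ red₃ ιu ιv ιw rbar W q (algebraMap RR ↥B₁ πq))
    (hL : LevelMaps red₁ red₂ red₃ red₁' red₂' α β W) (hD₁ : ¬ IsField D₁)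
    (hπ₁ : algebraMap RR ↥B₁ πq ≠ 0) (hq1 : red₁ (algebraMap RR ↥B₁ πq) = 0)
    (hq2' : red₂ (algebraMap RR ↥B₁ πq) = 0) (hq3 : red₃ (algebraMap RR ↥B₁ πq) = 0)
    {q₁ : B₁'} (hαq : α q₁ = algebraMap RR ↥B₁ πq) (hβq : β q₁ = algebraMap RR ↥B₁ πq)
    (hq₁1 : red₁' q₁ = 0) (hq₁2 : red₂' q₁ = 0)
    (hα : α.IsIntegral) (hβ : β.IsIntegral)
    (hW2 : ∃ d : D₁, W (W d) ≠ d) (hW4 : ∃ d : D₁, W (W (W (W d))) ≠ d)
    (hM2 : H62.RegularCrossings red₁' red₂')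
    (hM4 : H62.MiddleUnit red₁ red₂ red₃ q (algebraMap RR ↥B₁ πq))
    (hP₁0 : P₁ 0 = RingHom.ker red₁) (hP₁1 : P₁ 1 = RingHom.ker red₂)
    (hP₁2 : P₁ 2 = RingHom.ker red₃)
    -- chart 2
    {D₂ BM₂ : Type*} [CommRing D₂] [IsDedekindDomain D₂] [CommRing BM₂]
    {ρ₁ ρ₂ ρ₃ : ↥B₂ →+* D₂} {κu κv κw : BM₂ →+* ↥B₂} {rbar₂ : BM₂ →+* D₂} {W₂ : D₂ →+* D₂}
    (h₂ : ThreeComponents ρ₁ ρ₂ ρ₃ κu κv κw rbar₂ W₂ q (algebraMap RR ↥B₂ πq))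
    (hD₂ : ¬ IsField D₂)
    (hπ₂ : algebraMap RR ↥B₂ πq ≠ 0) (hr1 : ρ₁ (algebraMap RR ↥B₂ πq) = 0)
    (hr2 : ρ₂ (algebraMap RR ↥B₂ πq) = 0) (hr3 : ρ₃ (algebraMap RR ↥B₂ πq) = 0)
    (hP₂0 : P₂ 0 = RingHom.ker ρ₁) (hP₂1 : P₂ 1 = RingHom.ker ρ₂)
    (hP₂2 : P₂ 2 = RingHom.ker ρ₃)
    (hcusp : ∀ n₂ : H21.ClosedPt B₂ πq, Jinv ∈ n₂.1 →
      ∃ i₀ : Fin 3, ∀ i, P₂ i ≤ n₂.1 → i = i₀)
    (hM4r2 : ∀ n₂ : H21.ClosedPt B₂ πq, Jinv ∈ n₂.1 → RingHom.ker ρ₂ ≤ n₂.1 →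
      ∃ θ : ↥B₂, ρ₂ θ = 0 ∧ θ ≠ 0 ∧
        ∃ e t : ↥B₂, e ∉ n₂.1 ∧ t ∉ n₂.1 ∧ t * θ ^ (q - 1) = e * algebraMap RR ↥B₂ πq) :
    ∀ f : F₂, f ≠ 0 →
      (∀ v : Place Qbar (S24.FN (q * (q * L))),
        ((p ^ k : ℕ) : ℤ) ∣ v.ord (H99.toBar ↥E0 (q * (q * L)) f)) →
      ∀ (s : ℤ) (g : F₂), g ≠ 0 →
      (∀ i, (H56.valuationSubringAt (K := F₂) (P₁ i) (hh₁ i)).valuation
        (f ^ (q + 1) * algebraMap ↥E0 F₂ ((q : ℕ) : ↥E0) ^ (-s) * (g ^ (p ^ k))⁻¹) = 1) →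
      ∃ G : H21.ClosedPt B₁ πq ⊕ H21.ClosedPt B₂ πq → F₂, (∀ n, G n ≠ 0) ∧
        ∀ n, UnitIn (H21.ptO B₁ B₂ πq n)
          (f ^ (q + 1) * algebraMap ↥E0 F₂ ((q : ℕ) : ↥E0) ^ (-s) * (g ^ (p ^ k))⁻¹ /
            G n ^ (p ^ k)) :=
  hE4_real L q hq hA E0 hfix k P₁ P₂ hh₁ hh₂ hVeq h₁ hL hD₁ hπ₁ hq1 hq2' hq3 hαq hβq
    hq₁1 hq₁2 hα hβ hW2 hW4 hM2 hM4 hP₁0 hP₁1 hP₁2 h₂ hD₂ hπ₂ hr1 hr2 hr3 hP₂0 hP₂1 hP₂2
    (fun n₂ => Jinv ∈ n₂.1)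
    (hovl_real L q hq hA E0 hfix hq2 hB₁ hB₂ Jinv hJinv) hcusp hM4r2

end Real

end Fermat.Agent.S36.H56
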