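/-
helper56 — S36 row (E4), instance-side glue over helper83's `ThreeComponents` package:

`hprinc` ("every height-one prime through the closed point `n` is principal at `n`", the input (P)
of `S36.H56.exists_unitIn_div_pow` / `S36.H21.exists_unitIn_div_pow_of_principal`) at EVERY closed
point of the special fibre of a chart of level `q² L`, from the outputs of the local rows:

* points on `C₁` only / on `C₃` only: `x := q` (`ThreeComponents.localGen_first / localGen_third`),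
  no input;
* points on `C₂` only: (M4)/(M4r2) in the shape `hE` of `ThreeComponents.localGen_middle`
  (`θ ∈ P₂`, `θ^(q-1) / q` a unit at `n`);
* points on `C₁` and another component: (M3) = a local generator of `P₁` at `n`;
* points on `C₃` and `C₂` but not on `C₁` (none at the real types, by the point classification):
  a local generator of `P₃` at `n`.

All through ONE call of `S36.H62.heightOne_localGen_of_localGen` (one branch with a local generator
⟹ `B_n` regular ⟹ UFD).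
-/
import Mathlib
import Fermat.Agent.S36.H56_StepTwoCharts
import Fermat.Agent.S36.H62_M3Chart
import Fermat.Agent.S36.H61_HorizontalOrd

set_option autoImplicit false
set_option linter.unusedSectionVars false
set_option linter.style.haveILetI false

namespace Fermat.Agent.S36.H56

open Fermat.Agent Fermat.Agent.S36.H83

section OneBranch

variable {B D : Type*} [CommRing B] [IsDomain B] [IsNoetherianRing B]
  [CommRing D] [IsDedekindDomain D]

/-- **One branch with a local generator ⟹ (P) at `n`** (`PrincipalAt` spelling of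
`H62.heightOne_localGen_of_localGen`). -/
theorem principalAt_of_branch {red : B →+* D} (hred : Function.Surjective red)
    (hD : ¬ IsField D) (n : Ideal B) (hn : n.IsMaximal) (hker : RingHom.ker red ≤ n) {x : B}
    (hx0 : x ≠ 0) (hxk : red x = 0)
    (hx : ∀ z ∈ RingHom.ker red, ∃ t : B, t ∉ n ∧ t * z ∈ Ideal.span {x}) :
    ∀ p : Ideal B, p.IsPrime → p.height = 1 → p ≤ n → PrincipalAt n p := by
  intro p hp h1 hpn
  haveI := hp
  exact H62.heightOne_localGen_of_localGen hred hD n hn hker hx0 hxk hx p hpn h1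

end OneBranch

section Three

variable {B D BM : Type*} [CommRing B] [IsDomain B] [IsNoetherianRing B]
  [CommRing D] [IsDedekindDomain D] [CommRing BM]
  {red₁ red₂ red₃ : B →+* D} {ιu ιv ιw : BM →+* B} {rbar : BM →+* D} {W : D →+* D}
  {q : ℕ} {qB : B}

/-- An element of `ker red` outside `n` when `ker red` is not contained in `n`. -/
theorem exists_ker_not_mem {red : B →+* D} {n : Ideal B} (h : ¬ RingHom.ker red ≤ n) :
    ∃ s : B, red s = 0 ∧ s ∉ n := by
  obtain ⟨s, hs, hsn⟩ := Set.not_subset.1 h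
  exact ⟨s, (RingHom.mem_ker).1 hs, hsn⟩

/-- **(P) at every closed point of the special fibre, over `ThreeComponents`.**
`hq1 hq3 : q ∈ P₁, P₃`; the three hypotheses `h1 h3 h2` are the outputs of (M3), (M3)-mirror and
(M4)/(M4r2) at the points where they are needed. -/
theorem principalAt_of_threeComponents
    (h : ThreeComponents red₁ red₂ red₃ ιu ιv ιw rbar W q qB) (hD : ¬ IsField D) (hq : 2 ≤ q)
    (hqB : qB ≠ 0) (hq1 : red₁ qB = 0) (hq3 : red₃ qB = 0)
    (n : Ideal B) (hn : n.IsMaximal) (hqn : qB ∈ n)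
    (h1 : RingHom.ker red₁ ≤ n → (RingHom.ker red₂ ≤ n ∨ RingHom.ker red₃ ≤ n) →
      ∃ x : B, x ≠ 0 ∧ red₁ x = 0 ∧
        ∀ z ∈ RingHom.ker red₁, ∃ t : B, t ∉ n ∧ t * z ∈ Ideal.span {x})
    (h3 : RingHom.ker red₃ ≤ n → RingHom.ker red₂ ≤ n → ¬ RingHom.ker red₁ ≤ n →
      ∃ x : B, x ≠ 0 ∧ red₃ x = 0 ∧
        ∀ z ∈ RingHom.ker red₃, ∃ t : B, t ∉ n ∧ t * z ∈ Ideal.span {x})
    (h2 : RingHom.ker red₂ ≤ n → ¬ RingHom.ker red₁ ≤ n → ¬ RingHom.ker red₃ ≤ n →
      ∃ θ : B, red₂ θ = 0 ∧ θ ≠ 0 ∧ ∃ e t : B, e ∉ n ∧ t ∉ n ∧ t * θ ^ (q - 1) = e * qB) :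
    ∀ p : Ideal B, p.IsPrime → p.height = 1 → p ≤ n → PrincipalAt n p := by
  haveI : n.IsPrime := hn.isPrime
  by_cases c1 : RingHom.ker red₁ ≤ n
  · by_cases c23 : RingHom.ker red₂ ≤ n ∨ RingHom.ker red₃ ≤ n
    · obtain ⟨x, hx0, hxk, hx⟩ := h1 c1 c23
      exact principalAt_of_branch h.hred₁ hD n hn c1 hx0 hxk hx
    · push Not at c23
      exact principalAt_of_branch h.hred₁ hD n hn c1 hqB hq1
        (h.localGen_first n hn (exists_ker_not_mem c23.1) (exists_ker_not_mem c23.2))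
  · by_cases c3 : RingHom.ker red₃ ≤ n
    · by_cases c2 : RingHom.ker red₂ ≤ n
      · obtain ⟨x, hx0, hxk, hx⟩ := h3 c3 c2 c1
        exact principalAt_of_branch h.hred₃ hD n hn c3 hx0 hxk hx
      · exact principalAt_of_branch h.hred₃ hD n hn c3 hqB hq3
          (h.localGen_third n hn (exists_ker_not_mem c1) (exists_ker_not_mem c2))
    · have c2 : RingHom.ker red₂ ≤ n := by
        haveI : Nontrivial D := inferInstance
        rcases h.ker_le_of_mem n hqn with h' | h' | h'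
        · exact absurd h' c1
        · exact h'
        · exact absurd h' c3
      obtain ⟨θ, hθ, hθ0, hE⟩ := h2 c2 c1 c3
      exact principalAt_of_branch h.hred₂ hD n hn c2 hθ0 hθ
        (h.localGen_middle hq n hn (exists_ker_not_mem c1) (exists_ker_not_mem c3) hθ hθ0 hE)

/-- **Same, using the point classification** (`H84_PointClass`: a closed point lies on at most one
vertical component or on all three): only (M3) at the triple points and (M4)/(M4r2) at the
`C₂`-only points are needed. -/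
theorem principalAt_of_threeComponents_of_class
    (h : ThreeComponents red₁ red₂ red₃ ιu ιv ιw rbar W q qB) (hD : ¬ IsField D) (hq : 2 ≤ q)
    (hqB : qB ≠ 0) (hq1 : red₁ qB = 0) (hq3 : red₃ qB = 0)
    (n : Ideal B) (hn : n.IsMaximal) (hqn : qB ∈ n)
    (hclass : (RingHom.ker red₁ ≤ n ∧ RingHom.ker red₂ ≤ n ∧ RingHom.ker red₃ ≤ n) ∨
      (¬ RingHom.ker red₂ ≤ n ∧ ¬ RingHom.ker red₃ ≤ n) ∨
      (¬ RingHom.ker red₁ ≤ n ∧ ¬ RingHom.ker red₃ ≤ n) ∨
      (¬ RingHom.ker red₁ ≤ n ∧ ¬ RingHom.ker red₂ ≤ n))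
    (h1 : RingHom.ker red₁ ≤ n → RingHom.ker red₂ ≤ n → RingHom.ker red₃ ≤ n →
      ∃ x : B, x ≠ 0 ∧ red₁ x = 0 ∧
        ∀ z ∈ RingHom.ker red₁, ∃ t : B, t ∉ n ∧ t * z ∈ Ideal.span {x})
    (h2 : RingHom.ker red₂ ≤ n → ¬ RingHom.ker red₁ ≤ n → ¬ RingHom.ker red₃ ≤ n →
      ∃ θ : B, red₂ θ = 0 ∧ θ ≠ 0 ∧ ∃ e t : B, e ∉ n ∧ t ∉ n ∧ t * θ ^ (q - 1) = e * qB) :
    ∀ p : Ideal B, p.IsPrime → p.height = 1 → p ≤ n → PrincipalAt n p := by
  refine principalAt_of_threeComponents h hD hq hqB hq1 hq3 n hn hqn (fun c1 c23 => ?_)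
    (fun c3 c2 c1 => ?_) h2
  · rcases hclass with ⟨_, c2, c3⟩ | ⟨n2, n3⟩ | ⟨n1, _⟩ | ⟨n1, _⟩
    · exact h1 c1 c2 c3
    · rcases c23 with c | c
      · exact absurd c n2
      · exact absurd c n3
    · exact absurd c1 n1
    · exact absurd c1 n1
  · rcases hclass with ⟨c1', _, _⟩ | ⟨n2, _⟩ | ⟨_, n3⟩ | ⟨_, n2⟩
    · exact absurd c1' c1
    · exact absurd c2 n2
    · exact absurd c3 n3
    · exact absurd c2 n2

end Three

/-! ### Orders: the vertical height-one primes are the three kernels; one-call Step 2 -/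

section Vertical

variable {B D BM : Type*} [CommRing B] [IsDomain B] [CommRing D] [IsDomain D] [CommRing BM]
  {red₁ red₂ red₃ : B →+* D} {ιu ιv ιw : BM →+* B} {rbar : BM →+* D} {W : D →+* D}
  {q : ℕ} {qB : B}

/-- A nonzero prime contained in a height-one prime is equal to it. -/
theorem eq_of_le_of_height_one {Q P : Ideal B} [Q.IsPrime] [P.IsPrime] (hQ : Q ≠ ⊥)
    (hQP : Q ≤ P) (h1 : P.height = 1) : P = Q := by
  by_contra hne
  have hlt : Q < P := lt_of_le_of_ne hQP (fun h => hne h.symm)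
  haveI : P.FiniteHeight := ⟨Or.inr (by rw [h1]; exact ENat.one_ne_top)⟩
  have h2 : Q.height < P.height := Ideal.height_strict_mono_of_isPrime_of_isPrime hlt
  rw [h1] at h2
  exact hQ (Ideal.height_eq_zero_iff_eq_bot.1 (Order.lt_one_iff.1 h2))

/-- **The vertical height-one primes are the three kernels.** -/
theorem eq_ker_of_height_one (h : ThreeComponents red₁ red₂ red₃ ιu ιv ιw rbar W q qB)
    (hqB : qB ≠ 0) (hq1 : red₁ qB = 0) (hq2 : red₂ qB = 0) (hq3 : red₃ qB = 0)
    (P : Ideal B) [hP : P.IsPrime] (h1 : P.height = 1) (hqP : qB ∈ P) :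
    P = RingHom.ker red₁ ∨ P = RingHom.ker red₂ ∨ P = RingHom.ker red₃ := by
  have hne : ∀ red : B →+* D, red qB = 0 → RingHom.ker red ≠ ⊥ := by
    intro red hred hbot
    have : qB ∈ RingHom.ker red := (RingHom.mem_ker).2 hred
    rw [hbot] at this
    exact hqB ((Ideal.mem_bot).1 this)
  haveI : (RingHom.ker red₁).IsPrime := RingHom.ker_isPrime red₁
  haveI : (RingHom.ker red₂).IsPrime := RingHom.ker_isPrime red₂
  haveI : (RingHom.ker red₃).IsPrime := RingHom.ker_isPrime red₃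
  rcases h.ker_le_of_mem P hqP with h' | h' | h'
  · exact Or.inl (eq_of_le_of_height_one (hne red₁ hq1) h' h1)
  · exact Or.inr (Or.inl (eq_of_le_of_height_one (hne red₂ hq2) h' h1))
  · exact Or.inr (Or.inr (eq_of_le_of_height_one (hne red₃ hq3) h' h1))

end Vertical

section OneCall

variable {R k B F D BM : Type*} [CommRing R] [IsDomain R] [Field k] [Algebra R k]
  [CommRing B] [IsDomain B] [Field F] [Algebra B F] [IsFractionRing B F]
  [Algebra R B] [Algebra k F] [Algebra R F] [IsScalarTower R B F] [IsScalarTower R k F]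
  [IsNoetherianRing B] [IsIntegrallyClosed B]
  [CommRing D] [IsDedekindDomain D] [CommRing BM]
  {red₁ red₂ red₃ : B →+* D} {ιu ιv ιw : BM →+* B} {rbar : BM →+* D} {W : D →+* D} {q : ℕ}

/-- **(D) at a closed point over `ThreeComponents`**: `u` a unit at those of the three vertical
primes that pass through `n` (row (E3), after absorption) and `m ∣ ord_w u` at every place of the
generic fibre (rows (D1)/(D1c)) give the order input of Step 2 at every height-one prime through
`n`. -/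
theorem exists_isUnitAt_div_pow_of_three (π : R) [IsLocalization.Away π k]
    (h : ThreeComponents red₁ red₂ red₃ ιu ιv ιw rbar W q (algebraMap R B π))
    (hπB : algebraMap R B π ≠ 0) (hq1 : red₁ (algebraMap R B π) = 0)
    (hq2 : red₂ (algebraMap R B π) = 0) (hq3 : red₃ (algebraMap R B π) = 0)
    (n : Ideal B) {u : F} (hu : u ≠ 0) {m : ℕ}
    (hv1 : RingHom.ker red₁ ≤ n → S34.H56.IsUnitAt (K := F) (RingHom.ker red₁) u)
    (hv2 : RingHom.ker red₂ ≤ n → S34.H56.IsUnitAt (K := F) (RingHom.ker red₂) u)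
    (hv3 : RingHom.ker red₃ ≤ n → S34.H56.IsUnitAt (K := F) (RingHom.ker red₃) u)
    (hhor : ∀ w : AlgebraicCurve.Place k F, (m : ℤ) ∣ w.ord u) :
    ∀ P : Ideal B, P.IsPrime → P.height = 1 → P ≤ n →
      ∃ g : F, g ≠ 0 ∧ S34.H56.IsUnitAt P (u / g ^ m) := by
  refine H61.exists_isUnitAt_div_pow_of_places (k := k) π n hu (fun P hP h1 hPn hπP => ?_) hhor
  haveI := hP
  rcases eq_ker_of_height_one h hπB hq1 hq2 hq3 P h1 hπP with rfl | rfl | rfl
  · exact hv1 hPn
  · exact hv2 hPn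
  · exact hv3 hPn

/-- **Step 2 at a closed point of the special fibre, ONE CALL over `ThreeComponents`**:
(M3) (`h1`, `h3`), (M4)/(M4r2) (`h2`), (E3) (`hv1 hv2 hv3`), (D1)/(D1c) (`hhor`) ⟹ the pair
`hG0`/`hG` of `H85.radDatum_of_towers` at `n`. -/
theorem exists_unitIn_div_pow_of_three (π : R) [IsLocalization.Away π k]
    (h : ThreeComponents red₁ red₂ red₃ ιu ιv ιw rbar W q (algebraMap R B π))
    (hD : ¬ IsField D) (hq : 2 ≤ q)
    (hπB : algebraMap R B π ≠ 0) (hq1 : red₁ (algebraMap R B π) = 0)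
    (hq2 : red₂ (algebraMap R B π) = 0) (hq3 : red₃ (algebraMap R B π) = 0)
    (n : Ideal B) (hn : n.IsMaximal) (hqn : algebraMap R B π ∈ n)
    (h1 : RingHom.ker red₁ ≤ n → (RingHom.ker red₂ ≤ n ∨ RingHom.ker red₃ ≤ n) →
      ∃ x : B, x ≠ 0 ∧ red₁ x = 0 ∧
        ∀ z ∈ RingHom.ker red₁, ∃ t : B, t ∉ n ∧ t * z ∈ Ideal.span {x})
    (h3 : RingHom.ker red₃ ≤ n → RingHom.ker red₂ ≤ n → ¬ RingHom.ker red₁ ≤ n →
      ∃ x : B, x ≠ 0 ∧ red₃ x = 0 ∧
        ∀ z ∈ RingHom.ker red₃, ∃ t : B, t ∉ n ∧ t * z ∈ Ideal.span {x})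
    (h2 : RingHom.ker red₂ ≤ n → ¬ RingHom.ker red₁ ≤ n → ¬ RingHom.ker red₃ ≤ n →
      ∃ θ : B, red₂ θ = 0 ∧ θ ≠ 0 ∧
        ∃ e t : B, e ∉ n ∧ t ∉ n ∧ t * θ ^ (q - 1) = e * algebraMap R B π)
    {u : F} (hu : u ≠ 0) (m : ℕ)
    (hv1 : RingHom.ker red₁ ≤ n → S34.H56.IsUnitAt (K := F) (RingHom.ker red₁) u)
    (hv2 : RingHom.ker red₂ ≤ n → S34.H56.IsUnitAt (K := F) (RingHom.ker red₂) u)
    (hv3 : RingHom.ker red₃ ≤ n → S34.H56.IsUnitAt (K := F) (RingHom.ker red₃) u)
    (hhor : ∀ w : AlgebraicCurve.Place k F, (m : ℤ) ∣ w.ord u) :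
    haveI := hn.isPrime
    ∃ G : F, G ≠ 0 ∧ S34.H47.UnitIn (S34.H21.locSubring (F := F) n) (u / G ^ m) := by
  haveI := hn.isPrime
  exact exists_unitIn_div_pow_of_principal n u hu m
    (principalAt_of_threeComponents h hD hq hπB hq1 hq3 n hn hqn h1 h3 h2)
    (exists_isUnitAt_div_pow_of_three (k := k) π h hπB hq1 hq2 hq3 n hu hv1 hv2 hv3 hhor)

end OneCall

end Fermat.Agent.S36.H56
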