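/-
S36 (helper57), row (T2): the frozen statement S36 from the two remaining inputs

* (IF-GEO36): for `q ∤ M0`, `p ≠ q`, at level `(M0 q) q`: some place `A` of `Qbar` over `q` and some
  `c ≠ 0` such that every `p`-power torsion point of `J₀((M0 q) q)` which is fixed by the inertia
  group at `A` and killed by `α_*`, `β_* : J₀((M0 q) q) → J₀(M0 q)` is killed by `c`;
* (N36-β): a lattice model of `β_* : J₀(N q) → J₀(N)` for `q ∣ N` (`HasLatModel`).

All other inputs are theorems on main: row N1 (`S35.H10.exists_eigenvector_all`), newness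
(`S35.H49.baseChange_eq_zero_of_isNewform`), the lattice model of `α_*` (`S36.H90.verA'`),
Stage 2 (`S37.result`), the Kolchin substitute (`S36.H16`), the NEW-assembly
(`midpoint36_of_new`) and `s36_of_midpoint36`.
-/
import Mathlib
import Fermat.Agent.S36.H57_S36Wiring
import Fermat.Agent.S35.H10_EigenAll
import Fermat.Agent.S37

set_option autoImplicit false
set_option linter.style.haveILetI false

namespace Fermat.Agent.S36.H57

open scoped TensorProduct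
open Polynomial CuspForm IsLocalRing ModularCurve AlgebraicCurve
open Fermat.Agent.S30 Fermat.Agent.S30.H57 Fermat.Agent.S29.H80
open Fermat.Agent.S35

local notation "Qbar" => AlgebraicClosure ℚ
local notation "GQ" => (AlgebraicClosure ℚ ≃ₐ[ℚ] AlgebraicClosure ℚ)

noncomputable section

/-- (IF-GEO36) in the shape `(N, q)`, `q ∥ N`, from the shape `((M0 q), q)`, `q ∤ M0`. -/
theorem geo36_reshape {p : ℕ}
    (hGEO36 : ∀ (M0 q : ℕ) [NeZero M0] [NeZero q], q.Prime → ¬ q ∣ M0 → p ≠ q →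
      ∃ A : ValuationSubring Qbar, A.LiesOverPrime q ∧ ∃ c : ℕ, c ≠ 0 ∧
        ∀ y : JZero ((M0 * q) * q), (∃ k : ℕ, p ^ k • y = 0) →
          H86.pushAlpha (M0 * q) q y = 0 → H86.pushBeta (M0 * q) q y = 0 →
          (∀ σ ∈ A.inertiaSubgroupIn ℚ, σ • y = y) → c • y = 0)
    (N q : ℕ) [NeZero N] [NeZero q] (hq : q.Prime) (hqN : q ∣ N) (hq2 : ¬ q ^ 2 ∣ N)
    (hqp : q ≠ p) :
    ∃ A : ValuationSubring Qbar, A.LiesOverPrime q ∧ ∃ c : ℕ, c ≠ 0 ∧
      ∀ y : JZero (N * q), (∃ k : ℕ, p ^ k • y = 0) → H86.pushAlpha N q y = 0 →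
        H86.pushBeta N q y = 0 → (∀ σ ∈ A.inertiaSubgroupIn ℚ, σ • y = y) → c • y = 0 := by
  obtain ⟨M0, hM0⟩ := hqN
  have hN : N = M0 * q := by rw [hM0, mul_comm]
  subst hN
  haveI : NeZero M0 := ⟨fun h0 => NeZero.ne (M0 * q) (by rw [h0, zero_mul])⟩
  have hqM0 : ¬ q ∣ M0 := by
    intro h
    apply hq2
    rw [sq]
    exact Nat.mul_dvd_mul h (dvd_refl q)
  exact hGEO36 M0 q hq hqM0 (Ne.symm hqp)

/-- **The frozen S36 from (IF-GEO36) and (N36-β).** -/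
theorem s36_of_geo36
    (hGEO36 : ∀ (M0 q : ℕ) [NeZero M0] [NeZero q], q.Prime → ¬ q ∣ M0 → ∀ p : ℕ, p.Prime →
      p ≠ q →
      ∃ A : ValuationSubring Qbar, A.LiesOverPrime q ∧ ∃ c : ℕ, c ≠ 0 ∧
        ∀ y : JZero ((M0 * q) * q), (∃ k : ℕ, p ^ k • y = 0) →
          H86.pushAlpha (M0 * q) q y = 0 → H86.pushBeta (M0 * q) q y = 0 →
          (∀ σ ∈ A.inertiaSubgroupIn ℚ, σ • y = y) → c • y = 0)
    (hB36 : ∀ (N q : ℕ) [NeZero N] [NeZero q], q.Prime → q ∣ N →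
      HasLatModel N q (H86.pushBeta N q))
    {M : ℕ} [NeZero M] {g : CuspForm (CongruenceSubgroup.Gamma0 M) 2} (hg : g.IsNewform)
    (lam : ℕ) [Fact lam.Prime]
    (S : Finset ℕ)
    (O' : Type) [CommRing O'] [IsDomain O'] [IsDiscreteValuationRing O']
    [IsAdicComplete (IsLocalRing.maximalIdeal O') O'] [Finite (IsLocalRing.ResidueField O')]
    [CharZero O'] (hlamO' : (lam : O') ∈ IsLocalRing.maximalIdeal O')
    (hlam2 : lam ≠ 2)
    (chig : CuspForm.heckeAlgebra M 2 (↑S : Set ℕ) →+* ℂ)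
    (hchig : ∀ (ℓ : ℕ) (hℓ : ℓ.Prime) (hℓM : ¬ ℓ ∣ M) (hℓS : ℓ ∉ (↑S : Set ℕ)),
      chig (CuspForm.heckeAlgebra.T hℓ hℓM hℓS) = ModularFormClass.qCoeff g ℓ)
    (iota : chig.range →+* O')
    (hlamS : lam ∈ S) (hMS : ∀ q : ℕ, q.Prime → q ∣ M → q ∈ S) :
    ∃ (O'' : Type) (_ : CommRing O'') (_ : IsDomain O'') (_ : IsDiscreteValuationRing O'')
      (_ : IsAdicComplete (IsLocalRing.maximalIdeal O'') O'')
      (_ : Finite (IsLocalRing.ResidueField O''))
      (_ : CharZero O'') (_ : Algebra O' O'') (_ : Module.Finite O' O'')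
      (_ : IsLocalHom (algebraMap O' O'')),
      Function.Injective (algebraMap O' O'') ∧
      ∃ ρ : GaloisRepAdic O'',
        (∀ (ℓ : ℕ) (hℓ : ℓ.Prime) (hℓM : ¬ ℓ ∣ M) (hℓS : ℓ ∉ (↑S : Set ℕ)),
          ∀ A : ValuationSubring (AlgebraicClosure ℚ), A.LiesOverPrime ℓ →
            ∀ σ : AlgebraicClosure ℚ ≃ₐ[ℚ] AlgebraicClosure ℚ, A.IsFrobeniusAt σ ℓ →
              LinearMap.charpoly (ρ.ρ σ) =
                X ^ 2 - C (algebraMap O' O''
                  ((iota.comp chig.rangeRestrict) (CuspForm.heckeAlgebra.T hℓ hℓM hℓS))) * X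
                  + C ((ℓ : O''))) ∧
        (∀ q : ℕ, q.Prime → q ≠ lam → M.factorization q = 2 →
          ¬ ρ.IsUnipotentOnInertiaAt q) := by
  obtain ⟨O₁, i1, i2, i3, i4, i5, i6, i7, i8, i9, hinj, iota₁, χ₁, _, _, hχ1, hcompat, u, hu0, _, _,
    hueig, _⟩ := H10.exists_eigenvector_all hg.1 S hMS O' chig hchig iota
  have hlamO₁ : (lam : O₁) ∈ IsLocalRing.maximalIdeal O₁ := by
    have h1 : (algebraMap O' O₁) (lam : O') ∈ IsLocalRing.maximalIdeal O₁ := by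
      rw [IsLocalRing.mem_maximalIdeal] at hlamO' ⊢
      intro hu
      exact hlamO' (isUnit_of_map_unit (algebraMap O' O₁) _ hu)
    simpa using h1
  have hlamp : lam.Prime := Fact.out
  refine s36_of_new_eigenvector hg lam S hlamS hlam2 O' (iota.comp chig.rangeRestrict) O₁ hinj
    hlamO₁ χ₁ hcompat hχ1 u hu0 hueig (fun hcomm => Fermat.Agent.S37.result M lam hcomm) ?_ ?_
  · intro N q _ _ hq hqN _
    exact hB36 N q hq hqN
  · intro N q _ _ hq hqN hq2 hqlam _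
    exact geo36_reshape (p := lam)
      (fun M0 q _ _ hq hqM0 hpq => hGEO36 M0 q hq hqM0 lam hlamp hpq) N q hq hqN hq2 hqlam

/-- Variant: (IF-GEO36) in helper78's TARGET shape (`c` uniform in the place `A`). -/
theorem s36_of_geo36' 
    (hGEO36 : ∀ (M0 q : ℕ) [NeZero M0] [NeZero q], q.Prime → ¬ q ∣ M0 → ∀ p : ℕ, p.Prime →
      p ≠ q → ∃ c : ℕ, 0 < c ∧
        ∀ (k : ℕ) (A : ValuationSubring Qbar), A.LiesOverPrime q →
          ∀ y : JZero ((M0 * q) * q), p ^ k • y = 0 →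
          (∀ σ ∈ A.inertiaSubgroupIn ℚ, σ • y = y) →
          H86.pushAlpha (M0 * q) q y = 0 → H86.pushBeta (M0 * q) q y = 0 → c • y = 0)
    (hB36 : ∀ (N q : ℕ) [NeZero N] [NeZero q], q.Prime → q ∣ N →
      HasLatModel N q (H86.pushBeta N q))
    {M : ℕ} [NeZero M] {g : CuspForm (CongruenceSubgroup.Gamma0 M) 2} (hg : g.IsNewform)
    (lam : ℕ) [Fact lam.Prime]
    (S : Finset ℕ)
    (O' : Type) [CommRing O'] [IsDomain O'] [IsDiscreteValuationRing O']
    [IsAdicComplete (IsLocalRing.maximalIdeal O') O'] [Finite (IsLocalRing.ResidueField O')]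
    [CharZero O'] (hlamO' : (lam : O') ∈ IsLocalRing.maximalIdeal O')
    (hlam2 : lam ≠ 2)
    (chig : CuspForm.heckeAlgebra M 2 (↑S : Set ℕ) →+* ℂ)
    (hchig : ∀ (ℓ : ℕ) (hℓ : ℓ.Prime) (hℓM : ¬ ℓ ∣ M) (hℓS : ℓ ∉ (↑S : Set ℕ)),
      chig (CuspForm.heckeAlgebra.T hℓ hℓM hℓS) = ModularFormClass.qCoeff g ℓ)
    (iota : chig.range →+* O')
    (hlamS : lam ∈ S) (hMS : ∀ q : ℕ, q.Prime → q ∣ M → q ∈ S) :
    ∃ (O'' : Type) (_ : CommRing O'') (_ : IsDomain O'') (_ : IsDiscreteValuationRing O'')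
      (_ : IsAdicComplete (IsLocalRing.maximalIdeal O'') O'')
      (_ : Finite (IsLocalRing.ResidueField O''))
      (_ : CharZero O'') (_ : Algebra O' O'') (_ : Module.Finite O' O'')
      (_ : IsLocalHom (algebraMap O' O'')),
      Function.Injective (algebraMap O' O'') ∧
      ∃ ρ : GaloisRepAdic O'',
        (∀ (ℓ : ℕ) (hℓ : ℓ.Prime) (hℓM : ¬ ℓ ∣ M) (hℓS : ℓ ∉ (↑S : Set ℕ)),
          ∀ A : ValuationSubring (AlgebraicClosure ℚ), A.LiesOverPrime ℓ →
            ∀ σ : AlgebraicClosure ℚ ≃ₐ[ℚ] AlgebraicClosure ℚ, A.IsFrobeniusAt σ ℓ →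
              LinearMap.charpoly (ρ.ρ σ) =
                X ^ 2 - C (algebraMap O' O''
                  ((iota.comp chig.rangeRestrict) (CuspForm.heckeAlgebra.T hℓ hℓM hℓS))) * X
                  + C ((ℓ : O''))) ∧
        (∀ q : ℕ, q.Prime → q ≠ lam → M.factorization q = 2 →
          ¬ ρ.IsUnipotentOnInertiaAt q) := by
  refine s36_of_geo36 ?_ hB36 hg lam S O' hlamO' hlam2 chig hchig iota hlamS hMS
  intro M0 q _ _ hq hqM0 p hp hpq
  obtain ⟨c, hc, h⟩ := hGEO36 M0 q hq hqM0 p hp hpq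
  obtain ⟨A, hA⟩ := Fermat.Agent.S14.H54.exists_liesOverPrime_place hq
  refine ⟨A, hA, c, hc.ne', fun y hy ha hb hfix => ?_⟩
  obtain ⟨k, hk⟩ := hy
  exact h k A hA y hk hfix ha hb

end

end Fermat.Agent.S36.H57
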