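/-
S36 (helper57), row (T2), top adapter: the frozen statement S36 from

* helper18's constant `S36.H18.IfGeo36 M0 q p` (for all `q ∤ M0`, `p ≠ q` primes), and
* the BETA package in additive/`lamW` spelling: for all `N`, `q` prime with `q ∣ N` a map
  `VB : Lat (N q) →+ Lat N` commuting with the `T_ℓ`, `ℓ ∤ N q`, and with
  `lamW_N (VB x) = β_* (lamW_{N q} x)`.
-/
import Mathlib
import Fermat.Agent.S36.H57_S36OfGeo
import Fermat.Agent.S36.H18_Geo36Top

set_option autoImplicit false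
set_option linter.style.haveILetI false

namespace Fermat.Agent.S36.H57

open scoped TensorProduct
open Polynomial CuspForm IsLocalRing ModularCurve AlgebraicCurve
open Fermat.Agent.S30 Fermat.Agent.S30.H57 Fermat.Agent.S29.H80
open Fermat.Agent.S35
open Fermat.Agent.S41.H85 (heckeTPar)

local notation "Qbar" => AlgebraicClosure ℚ
local notation "GQ" => (AlgebraicClosure ℚ ≃ₐ[ℚ] AlgebraicClosure ℚ)

noncomputable section

attribute [local instance] Fermat.Agent.S29.H85.merAlgebra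

/-- **The frozen S36 from `IfGeo36` and the beta package.** -/
theorem s36_of_ifGeo36
    (hGEO : ∀ (M0 q : ℕ) [NeZero M0] [NeZero q], q.Prime → ¬ q ∣ M0 → ∀ p : ℕ, p.Prime →
      p ≠ q → S36.H18.IfGeo36 M0 q p)
    (hB : ∀ (N q : ℕ) [NeZero N] [NeZero q], q.Prime → q ∣ N →
      ∃ VB : Lat (N * q) →+ Lat N,
        (∀ (ℓ : ℕ) (hℓ : ℓ.Prime) (hℓN : ¬ ℓ ∣ N * q) (x : Lat (N * q)),
          VB (heckeTPar ℤ ℤ hℓ hℓN x)
            = heckeTPar ℤ ℤ hℓ (fun h' => hℓN (Dvd.dvd.mul_right h' q)) (VB x)) ∧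
        (∀ (n : ℕ) (hn : 0 < n) (x : Lat (N * q)),
          S29.H65.lamW (S29.H85.kummerSetupFinal N hn) hn (VB x)
            = H90.betaPush N q (S29.H65.lamW (S29.H85.kummerSetupFinal (N * q) hn) hn x)))
    {M : ℕ} [NeZero M] {g : CuspForm (CongruenceSubgroup.Gamma0 M) 2} (hg : g.IsNewform)
    (lam : ℕ) [Fact lam.Prime]
    (S : Finset ℕ)
    (O' : Type) [CommRing O'] [IsDomain O'] [IsDiscreteValuationRing O']
    [IsAdicComplete (IsLocalRing.maximalIdeal O') O'] [Finite (IsLocalRing.ResidueField O')]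
    [CharZero O'] (hlamO' : (lam : O') ∈ IsLocalRing.maximalIdeal O')
    (hlam2 : lam ≠ 2)
    (chig : CuspForm.heckeAlgebra M 2 (↑S : Set ℕ) →+* ℂ)
    (hchig : ∀ (ℓ : ℕ) (hℓ : ℓ.Prime) (hℓM : ¬ ℓ ∣ M) (hℓS : ℓ ∉ (↑S : Set ℕ)),
      chig (CuspForm.heckeAlgebra.T hℓ hℓM hℓS) = ModularFormClass.qCoeff g ℓ)
    (iota : chig.range →+* O')
    (hlamS : lam ∈ S) (hMS : ∀ q : ℕ, q.Prime → q ∣ M → q ∈ S) :
    ∃ (O'' : Type) (_ : CommRing O'') (_ : IsDomain O'') (_ : IsDiscreteValuationRing O'')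
      (_ : IsAdicComplete (IsLocalRing.maximalIdeal O'') O'')
      (_ : Finite (IsLocalRing.ResidueField O''))
      (_ : CharZero O'') (_ : Algebra O' O'') (_ : Module.Finite O' O'')
      (_ : IsLocalHom (algebraMap O' O'')),
      Function.Injective (algebraMap O' O'') ∧
      ∃ ρ : GaloisRepAdic O'',
        (∀ (ℓ : ℕ) (hℓ : ℓ.Prime) (hℓM : ¬ ℓ ∣ M) (hℓS : ℓ ∉ (↑S : Set ℕ)),
          ∀ A : ValuationSubring (AlgebraicClosure ℚ), A.LiesOverPrime ℓ →
            ∀ σ : AlgebraicClosure ℚ ≃ₐ[ℚ] AlgebraicClosure ℚ, A.IsFrobeniusAt σ ℓ →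
              LinearMap.charpoly (ρ.ρ σ) =
                X ^ 2 - C (algebraMap O' O''
                  ((iota.comp chig.rangeRestrict) (CuspForm.heckeAlgebra.T hℓ hℓM hℓS))) * X
                  + C ((ℓ : O''))) ∧
        (∀ q : ℕ, q.Prime → q ≠ lam → M.factorization q = 2 →
          ¬ ρ.IsUnipotentOnInertiaAt q) := by
  refine s36_of_geo36' (fun M0 q _ _ hq hqM0 p hp hpq => hGEO M0 q hq hqM0 p hp hpq) ?_
    hg lam S O' hlamO' hlam2 chig hchig iota hlamS hMS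
  intro N q _ _ hq hqN
  obtain ⟨VB, h1, h2⟩ := hB N q hq hqN
  exact hasLatModel_pushBeta_of_lamW N q VB h1 h2

end

end Fermat.Agent.S36.H57
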