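/-
helper96: S36, row (E2-lvl), ABSTRACT HALF: `S36.H83.LevelMaps` from field-level facts.

Twin of `S36.H83.threeComponents_of_incl` / `S34.H55.twoComponents_of_incl` for the two level maps
`a b : F1 →+* F2` (`f(z) ↦ f(z)`, `f(z) ↦ f(qz)`) between the level-`q` chart `B' = chartB R0 c'`
and the level-`q²` chart `B = chartB R0 u`.

Input: the two places `(Oi, redi)`, `(O0, red0)` of `F1` and the three places `(Oa, reda)`,
`(Oc, redc)`, `(Ob, redb)` of `F2`, all with values in one big field `κ ⊇ incl Fk`, a ring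
endomorphism `ρ` of `κ` inducing `Fr` on `Fk`, and the six place-level facts
`reda ∘ a = redi`, `redc ∘ a = redi`, `redb ∘ a = ρ ∘ red0`, `reda ∘ b = ρ ∘ redi`,
`redc ∘ b = red0`, `redb ∘ b = red0`.

Output: `LevelMaps red₁ red₂ red₃ red₁' red₂' (chartMap a ..) (chartMap b ..) (WR Fr q ..)` for ANY
chart reductions `red_i`, `red_i'` which restrict the place reductions (the first conjuncts of the
outputs of `threeComponents_of_incl` and `twoComponents_of_incl`).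

Also: the generic `chartMap` lemmas (`chartMap_algebraMap`, `chartMap_comp`).
-/
import Fermat.Agent.S34.H55_TwoComponentsGlue
import Fermat.Agent.S36.H83_LevelMaps

set_option autoImplicit false
set_option linter.unusedSectionVars false

namespace Fermat.Agent.S36.H96

open Fermat.Agent.S18 Fermat.Agent.S34.H55

section ChartMap

variable {R0 F1 F2 F3 : Type*} [CommRing R0] [Field F1] [Algebra R0 F1] [Field F2]
  [Algebra R0 F2] [Field F3] [Algebra R0 F3]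

/-- `chartMap` commutes with the structure maps. -/
theorem chartMap_algebraMap (f : F1 →+* F2)
    (hf : ∀ r : R0, f (algebraMap R0 F1 r) = algebraMap R0 F2 r)
    {c : F1} {u : F2} (hint : IsIntegral (Algebra.adjoin R0 {u}) (f c)) (r : R0) :
    chartMap f hf hint (algebraMap R0 ↥(H40.chartB R0 c) r) =
      algebraMap R0 ↥(H40.chartB R0 u) r :=
  Subtype.ext (hf r)

/-- `chartMap` is functorial. -/
theorem chartMap_comp (f : F1 →+* F2)
    (hf : ∀ r : R0, f (algebraMap R0 F1 r) = algebraMap R0 F2 r)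
    (g : F2 →+* F3) (hg : ∀ r : R0, g (algebraMap R0 F2 r) = algebraMap R0 F3 r)
    (h : F1 →+* F3) (hh : ∀ r : R0, h (algebraMap R0 F1 r) = algebraMap R0 F3 r)
    (hgf : ∀ x, g (f x) = h x)
    {c : F1} {u : F2} {v : F3} (hintf : IsIntegral (Algebra.adjoin R0 {u}) (f c))
    (hintg : IsIntegral (Algebra.adjoin R0 {v}) (g u))
    (hinth : IsIntegral (Algebra.adjoin R0 {v}) (h c)) (x : ↥(H40.chartB R0 c)) :
    chartMap g hg hintg (chartMap f hf hintf x) = chartMap h hh hinth x :=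
  Subtype.ext (hgf x)

end ChartMap

section OfIncl

variable {R0 k Fk κ F1 F2 : Type*} [CommRing R0] [Field k] [Field Fk] [Algebra k Fk] [Field κ]
  [Algebra k κ] [Field F1] [Algebra R0 F1] [Field F2] [Algebra R0 F2]

/-- **`LevelMaps` from the six place-level facts.** -/
theorem levelMaps_of_incl (incl : Fk →ₐ[k] κ) (ρ : κ →+* κ) (Fr : Fk →ₐ[k] Fk)
    (hρ : ∀ γ : Fk, ρ (incl γ) = incl (Fr γ))
    (a b : F1 →+* F2)
    (ha : ∀ r : R0, a (algebraMap R0 F1 r) = algebraMap R0 F2 r)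
    (hb : ∀ r : R0, b (algebraMap R0 F1 r) = algebraMap R0 F2 r)
    -- the two places of `F1`
    (Oi : Subring F1) (redi : Oi →+* κ) (O0 : Subring F1) (red0 : O0 →+* κ)
    -- the three places of `F2`
    (Oa : Subring F2) (reda : Oa →+* κ) (Oc : Subring F2) (redc : Oc →+* κ)
    (Ob : Subring F2) (redb : Ob →+* κ)
    -- the six place-level facts
    (Haa : ∀ (y : F1) (hy : y ∈ Oi), ∃ h : a y ∈ Oa, reda ⟨a y, h⟩ = redi ⟨y, hy⟩)
    (Hca : ∀ (y : F1) (hy : y ∈ Oi), ∃ h : a y ∈ Oc, redc ⟨a y, h⟩ = redi ⟨y, hy⟩)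
    (Hba : ∀ (y : F1) (hy : y ∈ O0), ∃ h : a y ∈ Ob, redb ⟨a y, h⟩ = ρ (red0 ⟨y, hy⟩))
    (Hab : ∀ (y : F1) (hy : y ∈ Oi), ∃ h : b y ∈ Oa, reda ⟨b y, h⟩ = ρ (redi ⟨y, hy⟩))
    (Hcb : ∀ (y : F1) (hy : y ∈ O0), ∃ h : b y ∈ Oc, redc ⟨b y, h⟩ = red0 ⟨y, hy⟩)
    (Hbb : ∀ (y : F1) (hy : y ∈ O0), ∃ h : b y ∈ Ob, redb ⟨b y, h⟩ = red0 ⟨y, hy⟩)
    -- the charts
    {c' : F1} {u : F2} {w : Fk} (q : ℕ) (hFrw : Fr w = w ^ q)
    (hinta : IsIntegral (Algebra.adjoin R0 {u}) (a c'))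
    (hintb : IsIntegral (Algebra.adjoin R0 {u}) (b c'))
    (hBi : ∀ z : ↥(H40.chartB R0 c'), (z : F1) ∈ Oi)
    (hB0 : ∀ z : ↥(H40.chartB R0 c'), (z : F1) ∈ O0)
    -- the chart reductions restrict the place reductions
    (red₁ red₂ red₃ : ↥(H40.chartB R0 u) →+* ↥(integralClosure (Algebra.adjoin k {w}) Fk))
    (red₁' red₂' : ↥(H40.chartB R0 c') →+* ↥(integralClosure (Algebra.adjoin k {w}) Fk))
    (h1 : ∀ (x : ↥(H40.chartB R0 u)) (h : (x : F2) ∈ Oa),
      incl ((red₁ x : ↥(integralClosure (Algebra.adjoin k {w}) Fk)) : Fk) = reda ⟨x, h⟩)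
    (h2 : ∀ (x : ↥(H40.chartB R0 u)) (h : (x : F2) ∈ Oc),
      incl ((red₂ x : ↥(integralClosure (Algebra.adjoin k {w}) Fk)) : Fk) = redc ⟨x, h⟩)
    (h3 : ∀ (x : ↥(H40.chartB R0 u)) (h : (x : F2) ∈ Ob),
      incl ((red₃ x : ↥(integralClosure (Algebra.adjoin k {w}) Fk)) : Fk) = redb ⟨x, h⟩)
    (h1' : ∀ (z : ↥(H40.chartB R0 c')) (h : (z : F1) ∈ Oi),
      incl ((red₁' z : ↥(integralClosure (Algebra.adjoin k {w}) Fk)) : Fk) = redi ⟨z, h⟩)
    (h2' : ∀ (z : ↥(H40.chartB R0 c')) (h : (z : F1) ∈ O0),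
      incl ((red₂' z : ↥(integralClosure (Algebra.adjoin k {w}) Fk)) : Fk) = red0 ⟨z, h⟩) :
    H83.LevelMaps red₁ red₂ red₃ red₁' red₂' (chartMap a ha hinta) (chartMap b hb hintb)
      (WR Fr q hFrw) := by
  have hinj : Function.Injective incl := incl.toRingHom.injective
  have hext : ∀ x y : ↥(integralClosure (Algebra.adjoin k {w}) Fk),
      incl (x : Fk) = incl (y : Fk) → x = y := fun x y h => Subtype.ext (hinj h)
  refine ⟨?_, ?_, ?_, ?_, ?_, ?_⟩
  · intro z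
    apply hext
    obtain ⟨h, hh⟩ := Haa (z : F1) (hBi z)
    rw [h1 _ h, h1' z (hBi z)]
    exact hh
  · intro z
    apply hext
    obtain ⟨h, hh⟩ := Hab (z : F1) (hBi z)
    rw [h1 _ h, coe_WR, ← hρ, h1' z (hBi z)]
    exact hh
  · intro z
    apply hext
    obtain ⟨h, hh⟩ := Hca (z : F1) (hBi z)
    rw [h2 _ h, h1' z (hBi z)]
    exact hh
  · intro z
    apply hext
    obtain ⟨h, hh⟩ := Hcb (z : F1) (hB0 z)
    rw [h2 _ h, h2' z (hB0 z)]
    exact hh
  · intro z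
    apply hext
    obtain ⟨h, hh⟩ := Hba (z : F1) (hB0 z)
    rw [h3 _ h, coe_WR, ← hρ, h2' z (hB0 z)]
    exact hh
  · intro z
    apply hext
    obtain ⟨h, hh⟩ := Hbb (z : F1) (hB0 z)
    rw [h3 _ h, h2' z (hB0 z)]
    exact hh

end OfIncl

end Fermat.Agent.S36.H96
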