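/-
helper9 — S36, row (M4), sub-row (M4-23) (helper78 Note 7, item 2): the primes `q ∈ {2, 3}`.

For `q ∈ {2, 3}` the value `j = 0 = 1728` is supersingular, so a closed point of the level-`q² L`
model lying on the middle component `C₂` only cannot have `Ȳ = 0` (`Y = rbar j`).  Here this is
proved without any moduli theory, from helper17's identity on the middle component
(`S36.H17.middle_identity`):

  `T̄^6 · (Y^4 (Y-1728)^3 Ū) = ((Y - Y^(q²))²)^6 · (Y^(4q) (Y^q - 1728)^3)`   in `D`.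

* (b) `eq_of_pow_mul_eq_pow_mul` / `not_mem_of_sixth_identity` (Mathlib only): in a domain `D`
  with a prime `n̄`, `1728 = 0`, `Ū ∉ n̄`, `T̄ = P(Y)` for a polynomial `P` over a field `k ⊆ D`:
  if `Y ∈ n̄`, comparing the exact powers of `Y` gives `6 μ + 7 = 12 + 7 q`, impossible for
  `q = 2, 3`.
* adapter `middlePoly` / `aeval_middlePoly` : helper17's `T`-expression is `aeval Y` of a
  polynomial over `k`.
* (a) `not_mem_of_mul_eq_pow` (Krull's principal ideal theorem, no normality): at a point `n` of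
  `C₂` only, an element `U₂` with `U₂ · Ω₂ = q^k` and `red₂ U₂ ≠ 0` is a unit at `n`
  (`U₂ ∉ n`), hence `red₂ U₂ ∉ red₂(n)`.
* `rbar_not_mem_map_of_small_q`, `H_not_mem_map_of_small_q` : the assembly; the second one is
  the hypothesis `hH` of `S36.H65.hE_middle_of_kronecker` / `locGen_middle_of_kronecker`.
-/
import Mathlib
import Fermat.Agent.S36.H17_OmegaTC
import Fermat.Agent.S36.H83_ThreeComponents

set_option autoImplicit false
set_option linter.unusedSectionVars false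

noncomputable section

namespace Fermat.Agent.S36.H9

open Polynomial

/-! ### (b) the parity lemma (Mathlib only) -/

section Parity

variable {D : Type*} [CommRing D] [IsDomain D]

/-- Comparison of exact orders: `Y ∈ n̄`, `Y ≠ 0`, `a b ∉ n̄`, `Y^m a = Y^n b` ⟹ `m = n`. -/
theorem eq_of_pow_mul_eq_pow_mul (nbar : Ideal D) [nbar.IsPrime] {Y a b : D}
    (hY : Y ∈ nbar) (hY0 : Y ≠ 0) (ha : a ∉ nbar) (hb : b ∉ nbar) {m n : ℕ}
    (h : Y ^ m * a = Y ^ n * b) : m = n := by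
  have key : ∀ {m n : ℕ} {a b : D}, a ∉ nbar → Y ^ m * a = Y ^ n * b → ¬ m < n := by
    intro m n a b ha h hlt
    obtain ⟨d, rfl⟩ := Nat.exists_eq_add_of_lt hlt
    have h1 : Y ^ m * a = Y ^ m * (Y ^ (d + 1) * b) := by rw [h]; ring
    have h2 := mul_left_cancel₀ (pow_ne_zero m hY0) h1
    apply ha
    rw [h2]
    exact Ideal.mul_mem_right _ _ (Ideal.pow_mem_of_mem _ hY _ (Nat.succ_pos d))
  rcases lt_trichotomy m n with hlt | heq | hgt
  · exact absurd hlt (key ha h)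
  · exact heq
  · exact absurd hgt (key hb h.symm)

variable {k : Type*} [Field k] [Algebra k D]

/-- The value at `Y ∈ n̄` of a polynomial over `k` with nonzero constant term is a unit at
`n̄`. -/
theorem aeval_not_mem_of_coeff_zero_ne_zero (nbar : Ideal D) [hn : nbar.IsPrime] {Y : D}
    (hY : Y ∈ nbar) {P : k[X]} (hP : P.coeff 0 ≠ 0) : aeval Y P ∉ nbar := by
  intro hmem
  have h1 : aeval Y P = aeval Y P.divX * Y + algebraMap k D (P.coeff 0) := by
    conv_lhs => rw [← Polynomial.divX_mul_X_add P]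
    simp
  have h2 : algebraMap k D (P.coeff 0) ∈ nbar := by
    have : algebraMap k D (P.coeff 0) = aeval Y P - aeval Y P.divX * Y := by rw [h1]; ring
    rw [this]
    exact nbar.sub_mem hmem (nbar.mul_mem_left _ hY)
  have h3 : (1 : D) ∈ nbar := by
    have : (1 : D) = algebraMap k D (P.coeff 0)⁻¹ * algebraMap k D (P.coeff 0) := by
      rw [← map_mul, inv_mul_cancel₀ hP, map_one]
    rw [this]
    exact nbar.mul_mem_left _ h2
  exact hn.ne_top ((Ideal.eq_top_iff_one _).2 h3)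

/-- **(b)** If `1728 = 0` in `D`, `6 ∤ 5 + 7 q`, `Ū ∉ n̄` and the sixth-power identity holds with
`T̄ = P(Y)`, `P ∈ k[X]`, then `Y ∉ n̄`. -/
theorem not_mem_of_sixth_identity (nbar : Ideal D) [hn : nbar.IsPrime] {q : ℕ} (hq2 : 2 ≤ q)
    (hq6 : ¬ 6 ∣ 5 + 7 * q) (h1728 : (1728 : D) = 0) {Y Ubar : D} (hY0 : Y ≠ 0)
    (hU : Ubar ∉ nbar) (P : k[X])
    (hId : (aeval Y P) ^ 6 * (Y ^ 4 * (Y - 1728) ^ 3 * Ubar) =
      ((Y - Y ^ (q * q)) ^ 2) ^ 6 * (Y ^ (4 * q) * (Y ^ q - 1728) ^ 3)) :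
    Y ∉ nbar := by
  intro hY
  have h1n : (1 : D) ∉ nbar := fun h => hn.ne_top ((Ideal.eq_top_iff_one _).2 h)
  -- `Y - Y^(q²) = Y e`, `e = 1 - Y^(q² - 1)` a unit at `n̄`
  obtain ⟨r, hr⟩ : ∃ r, q * q = r + 1 + 1 := by
    have h4 : 4 ≤ q * q := by nlinarith
    exact ⟨q * q - 2, by omega⟩
  set e : D := 1 - Y ^ (r + 1) with he
  have hen : e ∉ nbar := by
    intro h
    apply h1n
    have : (1 : D) = e + Y ^ (r + 1) := by rw [he]; ring
    rw [this]
    exact nbar.add_mem h (Ideal.pow_mem_of_mem _ hY _ (Nat.succ_pos r))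
  have he0 : e ≠ 0 := fun h => hen (h ▸ nbar.zero_mem)
  have hYe : Y - Y ^ (q * q) = Y * e := by rw [hr, he]; ring
  have hRHS : ((Y - Y ^ (q * q)) ^ 2) ^ 6 * (Y ^ (4 * q) * (Y ^ q - 1728) ^ 3) =
      Y ^ (12 + 7 * q) * e ^ 12 := by
    rw [hYe, h1728, sub_zero]; ring
  -- `P ≠ 0`
  have hP0 : P ≠ 0 := by
    rintro rfl
    rw [map_zero, zero_pow (by norm_num), zero_mul, hRHS] at hId
    exact mul_ne_zero (pow_ne_zero _ hY0) (pow_ne_zero _ he0) hId.symm
  obtain ⟨P1, hP1, hdvd⟩ := Polynomial.exists_eq_pow_rootMultiplicity_mul_and_not_dvd P hP0 0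
  rw [C_0, sub_zero] at hP1 hdvd
  have hc : P1.coeff 0 ≠ 0 := fun h => hdvd (Polynomial.X_dvd_iff.2 h)
  have ha1 := aeval_not_mem_of_coeff_zero_ne_zero (k := k) nbar hY hc
  set μ := P.rootMultiplicity 0 with hμ
  have hLHS : (aeval Y P) ^ 6 * (Y ^ 4 * (Y - 1728) ^ 3 * Ubar) =
      Y ^ (6 * μ + 7) * ((aeval Y P1) ^ 6 * Ubar) := by
    conv_lhs => rw [hP1]
    rw [map_mul, map_pow, aeval_X, h1728, sub_zero]; ring
  rw [hLHS, hRHS] at hId
  have hne : (aeval Y P1) ^ 6 * Ubar ∉ nbar := by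
    intro h
    rcases hn.mem_or_mem h with h' | h'
    · exact ha1 (hn.mem_of_pow_mem _ h')
    · exact hU h'
  have he12 : e ^ 12 ∉ nbar := fun h => hen (hn.mem_of_pow_mem _ h)
  have := eq_of_pow_mul_eq_pow_mul nbar hY hY0 hne he12 hId
  exact hq6 ⟨μ, by omega⟩

/-- `1728 = 0` in a `k`-algebra when `k` has characteristic `2` or `3`. -/
theorem ofNat_1728_eq_zero (k : Type*) [Field k] (D : Type*) [CommRing D] [Algebra k D]
    (q : ℕ) [CharP k q] (hq23 : q = 2 ∨ q = 3) : (1728 : D) = 0 := by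
  have h1 : ((1728 : ℕ) : k) = 0 := by
    rw [CharP.cast_eq_zero_iff k q]
    rcases hq23 with rfl | rfl <;> norm_num
  have h2 : (1728 : D) = algebraMap k D ((1728 : ℕ) : k) := by
    rw [map_natCast]; norm_num
  rw [h2, h1, map_zero]

theorem not_six_dvd_of_small {q : ℕ} (hq23 : q = 2 ∨ q = 3) : ¬ 6 ∣ 5 + 7 * q := by
  rcases hq23 with rfl | rfl <;> omega

end Parity

/-! ### The adapter: helper17's `T`-expression is a polynomial in `Y` over `k` -/

section Adapter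

variable {k : Type*} [Field k] (q : ℕ) [hq : Fact q.Prime] [CharP k q]
  {D : Type*} [CommRing D] [Algebra k D]

/-- the polynomial `T(X) = X^(q-1) z² - N + z N'`, `z = X - X^(q²)`, `N = R(X, X^q)`. -/
def middlePoly (Rk : ℤ[X][X]) : k[X] :=
  X ^ (q - 1) * (X - X ^ (q * q)) ^ 2 - Rk.eval₂ (H17.expandHom (k := k) q) X
    + (X - X ^ (q * q)) * (derivative Rk).eval₂ (H17.expandHom (k := k) q) X

theorem aeval_comp_expandHom (Y : D) :
    ((aeval Y : k[X] →ₐ[k] D) : k[X] →+* D).comp (H17.expandHom (k := k) q) =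
      H17.evalAt (Y ^ q) := by
  apply Polynomial.ringHom_ext'
  · exact RingHom.ext_int _ _
  · simp [H17.evalAt, H17.expandHom]

theorem aeval_eval₂_expandHom (Y : D) (P : ℤ[X][X]) :
    aeval Y (P.eval₂ (H17.expandHom (k := k) q) X) = P.eval₂ (H17.evalAt (Y ^ q)) Y := by
  have := Polynomial.hom_eval₂ P (H17.expandHom (k := k) q)
    ((aeval Y : k[X] →ₐ[k] D) : k[X] →+* D) X
  simp only [RingHom.coe_coe, aeval_X] at this
  rw [this, aeval_comp_expandHom]

theorem aeval_middlePoly (Y : D) (Rk : ℤ[X][X]) :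
    aeval Y (middlePoly (k := k) q Rk) =
      Y ^ (q - 1) * (Y - Y ^ (q * q)) ^ 2 - Rk.eval₂ (H17.evalAt (Y ^ q)) Y
        + (Y - Y ^ (q * q)) * (derivative Rk).eval₂ (H17.evalAt (Y ^ q)) Y := by
  simp only [middlePoly, map_add, map_sub, map_mul, map_pow, aeval_X, aeval_eval₂_expandHom]

end Adapter

/-! ### (a) Krull: a divisor of a power of `q` which is a unit at the middle vertical prime is a
unit at every point of the middle component only -/

section Krull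

open Fermat.Agent.S36.H83

variable {B D BM : Type*} [CommRing B] [IsDomain B] [IsNoetherianRing B] [CommRing D] [IsDomain D]
  [CommRing BM]
  {red₁ red₂ red₃ : B →+* D} {ιu ιv ιw : BM →+* B} {rbar : BM →+* D} {W : D →+* D}
  {q : ℕ} {qB : B}

/-- **(a)** `n` a prime of `B` lying neither on `C₁` nor on `C₃`; `U₂ · Ω₂ = q^k`,
`red₂ U₂ ≠ 0`.  Then `U₂ ∉ n`. -/
theorem not_mem_of_mul_eq_pow (h : ThreeComponents red₁ red₂ red₃ ιu ιv ιw rbar W q qB)
    (hqB0 : qB ≠ 0) (hqD : red₂ qB = 0) (n : Ideal B) [hn : n.IsPrime]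
    (h1 : ∃ s : B, red₁ s = 0 ∧ s ∉ n) (h3 : ∃ s : B, red₃ s = 0 ∧ s ∉ n)
    {U₂ Om₂ : B} {k : ℕ} (hUOm : U₂ * Om₂ = qB ^ k) (hU : red₂ U₂ ≠ 0) : U₂ ∉ n := by
  intro hUn
  obtain ⟨s₁, hs₁, hs₁n⟩ := h1
  obtain ⟨s₃, hs₃, hs₃n⟩ := h3
  obtain ⟨p, hpmin, hpn⟩ :=
    Ideal.exists_minimalPrimes_le ((Ideal.span_singleton_le_iff_mem n).2 hUn)
  have hp : p.IsPrime := hpmin.1.1
  have hUp : U₂ ∈ p := (Ideal.span_singleton_le_iff_mem p).1 hpmin.1.2
  have hht : p.height ≤ 1 :=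
    Ideal.height_le_one_of_isPrincipal_of_mem_minimalPrimes (Ideal.span {U₂}) p hpmin
  -- `q ∈ p`
  have hqp : qB ∈ p := by
    have : qB ^ k ∈ p := by rw [← hUOm]; exact p.mul_mem_right _ hUp
    exact hp.mem_of_pow_mem _ this
  have hP2 : (RingHom.ker red₂).IsPrime := RingHom.ker_isPrime red₂
  have hP2bot : RingHom.ker red₂ ≠ ⊥ := by
    intro hbot
    have : qB ∈ RingHom.ker red₂ := (RingHom.mem_ker).2 hqD
    rw [hbot, Ideal.mem_bot] at this
    exact hqB0 this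
  rcases h.ker_le_of_mem p hqp with h' | h' | h'
  · exact hs₁n (hpn (h' ((RingHom.mem_ker).2 hs₁)))
  · -- `ker red₂ ≤ p`, height one: equality
    have hne : RingHom.ker red₂ ≠ p := by
      intro heq
      exact hU ((RingHom.mem_ker).1 (heq ▸ hUp))
    have hlt : RingHom.ker red₂ < p := lt_of_le_of_ne h' hne
    have h2 := Ideal.height_add_one_le_of_lt_of_isPrime hlt
    have h3 : (RingHom.ker red₂).height + 1 ≤ 1 := h2.trans hht
    have h4 : (RingHom.ker red₂).height = 0 := by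
      have : (RingHom.ker red₂).height + 1 ≤ 0 + 1 := by simpa using h3
      exact le_antisymm ((ENat.add_le_add_iff_right (by simp)).1 this) (by simp)
    exact hP2bot (Ideal.height_eq_zero_iff_eq_bot.1 h4)
  · exact hs₃n (hpn (h' ((RingHom.mem_ker).2 hs₃)))

/-- The reduction of an element outside `n ⊇ ker red₂` is outside `red₂(n)`. -/
theorem red_not_mem_map_of_not_mem (h : ThreeComponents red₁ red₂ red₃ ιu ιv ιw rbar W q qB)
    (n : Ideal B) (hker : RingHom.ker red₂ ≤ n) {z : B} (hz : z ∉ n) :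
    red₂ z ∉ Ideal.map red₂ n := by
  intro hmem
  obtain ⟨z', hz'n, hz'⟩ := (Ideal.mem_map_iff_of_surjective red₂ h.hred₂).1 hmem
  have : z - z' ∈ n := hker (by rw [RingHom.mem_ker, map_sub, hz', sub_self])
  apply hz
  have e : z = (z - z') + z' := by ring
  rw [e]
  exact add_mem this hz'n

end Krull

/-! ### Assembly -/

section Assembly

open Fermat.Agent.S34.H83 Fermat.Agent.S36.H83

variable {k : Type*} [Field k] (q : ℕ) [hq : Fact q.Prime] [CharP k q]
  {B' B D BM : Type*} [CommRing B'] [IsDomain B'] [CommRing B] [IsDomain B] [IsNoetherianRing B]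
  [CommRing D] [IsDedekindDomain D] [Algebra k D] [CommRing BM]
  {red₁' red₂' : B' →+* D} {ι V : BM →+* B'} {rbar : BM →+* D} {W : D →+* D} {qB' : B'}
  {red₁ red₂ red₃ : B →+* D} {ιu ιv ιw : BM →+* B} {qB : B}

/-- **(M4-23).** `q ∈ {2, 3}`: at a closed point of the level-`q²` chart lying on the middle
component only, `Y = rbar ψ` is a unit (`ψ` the `j`-function of level `L`).

Level `q`: helper17's setting (`TwoComponents`, Kronecker relation `hrel`, sixth-power identity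
`hid`, `U * Om = q^12`).  Level `q²`: `ThreeComponents` and a ring hom `φ : B' → B` (the chart map
`β`) with `red₂ ∘ φ = red₂'` (`H83.LevelMaps.h2β`). -/
theorem rbar_not_mem_map_of_small_q (hq23 : q = 2 ∨ q = 3)
    (h' : TwoComponents red₁' red₂' ι V rbar W q qB') (hq0' : (q : B') ≠ 0)
    (ψ : BM) (hW : W (rbar ψ) = rbar ψ ^ q)
    (hY : Function.Injective (aeval (R := k) (rbar ψ)))
    (Rk : ℤ[X][X]) (U : B')
    (hrel : (V ψ - ι ψ ^ q) * (V ψ ^ q - ι ψ) +
      (q : B') * Rk.eval₂ (H17.evalAt (ι ψ)) (V ψ) = 0)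
    (hid : H17.phiXVal Rk q (H17.evalAt (ι ψ)) (V ψ) ^ 6 * (V ψ ^ 4 * (V ψ - 1728) ^ 3) * U =
      (q : B') ^ 6 * (H17.phiYVal Rk q (H17.evalAt (ι ψ)) (V ψ) ^ 6 *
        (ι ψ ^ 4 * (ι ψ - 1728) ^ 3)))
    (Om : B') (hUOm : U * Om = (q : B') ^ 12)
    (h : ThreeComponents red₁ red₂ red₃ ιu ιv ιw rbar W q qB) (hqB : qB = (q : B))
    (hq0 : (q : B) ≠ 0) (φ : B' →+* B) (hφ : ∀ z, red₂ (φ z) = red₂' z)
    (n : Ideal B) (hn : n.IsMaximal) (hqn : qB ∈ n)
    (h1 : ∃ s : B, red₁ s = 0 ∧ s ∉ n) (h3 : ∃ s : B, red₃ s = 0 ∧ s ∉ n) :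
    rbar ψ ∉ Ideal.map red₂ n := by
  have hnprime : n.IsPrime := hn.isPrime
  have hqD : ((q : ℕ) : D) = 0 := H17.natCast_eq_zero_of_algebra k q D
  have hker : RingHom.ker red₂ ≤ n := h.ker_le_middle n hn hqn h1 h3
  have hprime : (Ideal.map red₂ n).IsPrime := Ideal.map_isPrime_of_surjective h.hred₂ hker
  -- (a): `red₂' U ∉ red₂(n)`
  have hU0 : red₂' U ≠ 0 := H17.red₂_U_ne_zero (k := k) q h' hq0' ψ hW hY Rk U hrel hid
  have hUφ : φ U * φ Om = qB ^ 12 := by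
    rw [← map_mul, hUOm, map_pow, map_natCast, hqB]
  have hUn : φ U ∉ n :=
    not_mem_of_mul_eq_pow h (by rw [hqB]; exact hq0)
      (by rw [hqB, map_natCast]; exact hqD) n h1 h3 hUφ (by rw [hφ]; exact hU0)
  have hUbar : red₂' U ∉ Ideal.map red₂ n := by
    rw [← hφ]
    exact red_not_mem_map_of_not_mem h n hker hUn
  -- (b)
  have hmid := H17.middle_identity q h' hq0' ψ hW Rk U hrel hid hqD
  rw [← aeval_middlePoly (k := k) q (rbar ψ) Rk] at hmid
  have hY0 : rbar ψ ≠ 0 := by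
    have := H17.Y_ne_const (k := k) ψ hY 0
    simpa using this
  exact not_mem_of_sixth_identity (k := k) (Ideal.map red₂ n) hq.out.two_le
    (not_six_dvd_of_small hq23) (ofNat_1728_eq_zero k D q hq23) hY0 hUbar
    (middlePoly (k := k) q Rk) hmid

/-- **(M4-23), consumer form**: the hypothesis `hH` of `S36.H65.hE_middle_of_kronecker` for
`q ∈ {2, 3}`, `H = Y^(4q) (Y^q - 1728)^3`. -/
theorem H_not_mem_map_of_small_q (hq23 : q = 2 ∨ q = 3)
    (h' : TwoComponents red₁' red₂' ι V rbar W q qB') (hq0' : (q : B') ≠ 0)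
    (ψ : BM) (hW : W (rbar ψ) = rbar ψ ^ q)
    (hY : Function.Injective (aeval (R := k) (rbar ψ)))
    (Rk : ℤ[X][X]) (U : B')
    (hrel : (V ψ - ι ψ ^ q) * (V ψ ^ q - ι ψ) +
      (q : B') * Rk.eval₂ (H17.evalAt (ι ψ)) (V ψ) = 0)
    (hid : H17.phiXVal Rk q (H17.evalAt (ι ψ)) (V ψ) ^ 6 * (V ψ ^ 4 * (V ψ - 1728) ^ 3) * U =
      (q : B') ^ 6 * (H17.phiYVal Rk q (H17.evalAt (ι ψ)) (V ψ) ^ 6 *
        (ι ψ ^ 4 * (ι ψ - 1728) ^ 3)))
    (Om : B') (hUOm : U * Om = (q : B') ^ 12)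
    (h : ThreeComponents red₁ red₂ red₃ ιu ιv ιw rbar W q qB) (hqB : qB = (q : B))
    (hq0 : (q : B) ≠ 0) (φ : B' →+* B) (hφ : ∀ z, red₂ (φ z) = red₂' z)
    (n : Ideal B) (hn : n.IsMaximal) (hqn : qB ∈ n)
    (h1 : ∃ s : B, red₁ s = 0 ∧ s ∉ n) (h3 : ∃ s : B, red₃ s = 0 ∧ s ∉ n) :
    rbar ψ ^ (4 * q) * (rbar ψ ^ q - 1728) ^ 3 ∉ Ideal.map red₂ n := by
  have hYn := rbar_not_mem_map_of_small_q (k := k) q hq23 h' hq0' ψ hW hY Rk U hrel hid Om hUOm
    h hqB hq0 φ hφ n hn hqn h1 h3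
  have hker : RingHom.ker red₂ ≤ n := h.ker_le_middle n hn hqn h1 h3
  have hprime : (Ideal.map red₂ n).IsPrime := Ideal.map_isPrime_of_surjective h.hred₂ hker
  rw [ofNat_1728_eq_zero k D q hq23, sub_zero]
  intro hmem
  rcases hprime.mem_or_mem hmem with h'' | h''
  · exact hYn (hprime.mem_of_pow_mem _ h'')
  · exact hYn (hprime.mem_of_pow_mem _ (hprime.mem_of_pow_mem _ h''))

end Assembly

end Fermat.Agent.S36.H9
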