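/-
helper9 — S36, row (M4-inst), `ThreeComponents`-level assembly (helper78 registry v3, hedge):
`H62.MiddleUnit red₁ red₂ red₃ q qB` on a chart of level `q² L` WITHOUT cusps (chart 1) from the
landed rows, by the case split of coordination Note 7 (item 0) on `Y := rbar ψ` (`ψ = j`) at
`n̄ := red₂(n)`, `n` a closed point lying on the middle component only:

* (i)  `Y ∉ n̄`, `Y - 1728 ∉ n̄` : RIGID half, `H65.hE_middle_of_kronecker` with helper17's
       `H17.middle_identity` (`θ := ιu ψ - ιw ψ`);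
* (ii) `Y - c₀ ∈ n̄`, `c₀ ∈ {0, 1728}`, `q ≥ 5` : ELLIPTIC half,
       `H85.hE_middle_elliptic_of_places` with `(e, EG, K) = (3, 4, 4(q-1))` resp.
       `(2, 3, 3(q-1))` (`θ := ιu s' - ιw s'`, `s'` a local parameter of level `L`);
* (iii) `q ∈ {2, 3}` : `H9.H_not_mem_map_of_small_q` puts every point in the rigid half.

Nothing is proved here at the real types; the binders are exactly those of the rows cited.
-/
import Mathlib
import Fermat.Agent.S36.H9_MiddleSmallQ
import Fermat.Agent.S36.H85_EllipticPower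
import Fermat.Agent.S36.H62_PrincipalAll

set_option autoImplicit false
set_option linter.unusedSectionVars false
set_option linter.style.haveILetI false

noncomputable section

namespace Fermat.Agent.S36.H9

open Polynomial AlgebraicCurve Fermat.Agent.S34.H83 Fermat.Agent.S36.H83

/-! ### Characteristic `q` bookkeeping in `D` -/

section CharQ

/-- `Y^q - 1728 = (Y - 1728)^q` in a `κ`-algebra, `κ` of characteristic `q`. -/
theorem pow_sub_1728 (κ : Type*) [Field κ] (q : ℕ) [hq : Fact q.Prime] [CharP κ q]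
    (D : Type*) [CommRing D] [IsDomain D] [Algebra κ D] (Y : D) :
    Y ^ q - 1728 = (Y - 1728) ^ q := by
  haveI : CharP D q := charP_of_injective_algebraMap (algebraMap κ D).injective q
  have h1 : (1728 : D) ^ q = 1728 := by
    have := map_natCast (frobenius D q) 1728
    rw [frobenius_def] at this
    exact_mod_cast this
  rw [sub_pow_char, h1]

/-- `1728` is a unit at every proper ideal when `q ≥ 5`. -/
theorem ofNat_1728_not_mem (κ : Type*) [Field κ] (q : ℕ) [hq : Fact q.Prime] [CharP κ q]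
    (D : Type*) [CommRing D] [IsDomain D] [Algebra κ D] (hq5 : 5 ≤ q) (nbar : Ideal D)
    (hn : nbar ≠ ⊤) : (1728 : D) ∉ nbar := by
  intro hmem
  have h1 : ((1728 : ℕ) : κ) ≠ 0 := by
    rw [Ne, CharP.cast_eq_zero_iff κ q]
    intro hdvd
    have h2 : q ∣ 2 ^ 6 * 3 ^ 3 := by norm_num; exact hdvd
    rcases (Nat.Prime.dvd_mul hq.out).1 h2 with h | h
    · have := (Nat.prime_dvd_prime_iff_eq hq.out Nat.prime_two).1 (hq.out.dvd_of_dvd_pow h)
      omega
    · have := (Nat.prime_dvd_prime_iff_eq hq.out Nat.prime_three).1 (hq.out.dvd_of_dvd_pow h)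
      omega
  have h2 : (1728 : D) = algebraMap κ D ((1728 : ℕ) : κ) := by
    rw [map_natCast]; norm_num
  apply hn
  rw [Ideal.eq_top_iff_one]
  have : (1 : D) = algebraMap κ D (((1728 : ℕ) : κ)⁻¹) * (1728 : D) := by
    rw [h2, ← map_mul, inv_mul_cancel₀ h1, map_one]
  rw [this]
  exact nbar.mul_mem_left _ hmem

end CharQ

/-! ### The assembly -/

section Rows

variable {κ : Type*} [Field κ] (q : ℕ) [hq : Fact q.Prime] [CharP κ q]
  {R K BM F : Type*} [CommRing R] [IsDomain R] [Field K] [Algebra R K]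
  [CommRing BM] [IsDomain BM] [Field F] [Algebra BM F] [IsFractionRing BM F]
  [Algebra R BM] [Algebra K F] [Algebra R F] [IsScalarTower R BM F] [IsScalarTower R K F]
  [IsNoetherianRing BM] [IsIntegrallyClosed BM]
  {B' B D : Type*} [CommRing B'] [IsDomain B'] [CommRing B] [IsDomain B] [IsNoetherianRing B]
  [CommRing D] [IsDedekindDomain D] [Algebra κ D]
  {red₁' red₂' : B' →+* D} {ι V : BM →+* B'} {rbar : BM →+* D} {W : D →+* D} {qB' : B'}
  {red₁ red₂ red₃ : B →+* D} {ιu ιv ιw : BM →+* B} {qB : B}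

/-- **(M4-inst) at the `ThreeComponents` level.**

Level `q² L`: `h3`, with `qB = q ≠ 0`.  Level `q L`: helper17's block (`h2`, `Rk U Om hrel hid
hUOm`, `hY`), and a ring hom `φ : B' → B` with `red₂ ∘ φ = red₂'` (`LevelMaps.h2β`).  Kronecker
inputs at level `q² L` (helper72's dry run): `hne hpu hpw`.  For `q ≥ 5`, the level-`L` inputs of
`H85.hE_middle_elliptic_of_places`: `π`, `hkerM`, `hqu hqw`, the e-data `hE0` (`3 ∣ ord_v ψ`),
`hE1` (`2 ∣ ord_v (ψ - 1728)`), and at every closed point `n` of `C₂` only: `ιw⁻¹ n` maximal,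
constants generate its residue field, `ιw⁻¹ n = (π, s')` locally. -/
theorem middleUnit_of_rows
    (h3 : ThreeComponents red₁ red₂ red₃ ιu ιv ιw rbar W q qB) (hqB : qB = (q : B))
    (hq0 : (q : B) ≠ 0)
    (h2 : TwoComponents red₁' red₂' ι V rbar W q qB') (hq0' : (q : B') ≠ 0)
    (φ : B' →+* B) (hφ : ∀ z, red₂ (φ z) = red₂' z)
    (ψ : BM) (hW : W (rbar ψ) = rbar ψ ^ q)
    (hY : Function.Injective (aeval (R := κ) (rbar ψ)))
    (Rk : ℤ[X][X]) (U : B')
    (hrel : (V ψ - ι ψ ^ q) * (V ψ ^ q - ι ψ) +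
      (q : B') * Rk.eval₂ (H17.evalAt (ι ψ)) (V ψ) = 0)
    (hid : H17.phiXVal Rk q (H17.evalAt (ι ψ)) (V ψ) ^ 6 * (V ψ ^ 4 * (V ψ - 1728) ^ 3) * U =
      (q : B') ^ 6 * (H17.phiYVal Rk q (H17.evalAt (ι ψ)) (V ψ) ^ 6 *
        (ι ψ ^ 4 * (ι ψ - 1728) ^ 3)))
    (Om : B') (hUOm : U * Om = (q : B') ^ 12)
    (hne : ιu ψ ≠ ιw ψ)
    (hpu : ((H17.kronMain q + C (C (q : ℤ)) * Rk).map (H17.evalAt (ιv ψ))).eval (ιu ψ) = 0)
    (hpw : ((H17.kronMain q + C (C (q : ℤ)) * Rk).map (H17.evalAt (ιv ψ))).eval (ιw ψ) = 0)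
    -- level `L`, used for `q ≥ 5` only
    (hD : ¬ IsField D) (π : R) [IsLocalization.Away π K]
    (hkerM : RingHom.ker rbar = Ideal.span {algebraMap R BM π})
    (hqu : ιu (algebraMap R BM π) = qB) (hqw : ιw (algebraMap R BM π) = qB)
    (hE0 : 5 ≤ q → ∀ v : Place K F, 0 < v.ord (algebraMap BM F (ψ - 0)) →
      ((3 : ℕ) : ℤ) ∣ v.ord (algebraMap BM F (ψ - 0)))
    (hE1 : 5 ≤ q → ∀ v : Place K F, 0 < v.ord (algebraMap BM F (ψ - 1728)) →
      ((2 : ℕ) : ℤ) ∣ v.ord (algebraMap BM F (ψ - 1728)))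
    (hpt : 5 ≤ q → ∀ n : Ideal B, n.IsMaximal → RingHom.ker red₂ ≤ n →
      (∃ s : B, red₁ s = 0 ∧ s ∉ n) → (∃ s : B, red₃ s = 0 ∧ s ∉ n) →
      (n.comap ιw).IsMaximal ∧ (∀ χ : BM, ∃ c : BM, ιu c = ιw c ∧ ιw (χ - c) ∈ n) ∧
      ∃ s' : BM, ιw s' ∈ n ∧ ∀ χ : BM, ιw χ ∈ n →
        ∃ a χ₁ χ₂ : BM, ιw a ∉ n ∧ a * χ = s' * χ₁ + algebraMap R BM π * χ₂) :
    H62.MiddleUnit red₁ red₂ red₃ q qB := by
  intro n hn hker h1 h3'
  have hnprime : n.IsPrime := hn.isPrime
  have hqD : ((q : ℕ) : D) = 0 := H17.natCast_eq_zero_of_algebra κ q D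
  have hqB0 : qB ≠ 0 := by rw [hqB]; exact hq0
  have hrq : red₂ qB = 0 := by rw [hqB, map_natCast]; exact hqD
  have hqn : qB ∈ n := hker ((RingHom.mem_ker).2 hrq)
  have hprime : (Ideal.map red₂ n).IsPrime := Ideal.map_isPrime_of_surjective h3.hred₂ hker
  set nbar : Ideal D := Ideal.map red₂ n with hnbar
  -- the rigid data
  have hx : rbar ψ - rbar ψ ^ (q * q) ≠ 0 := by
    have := H17.Y_pow_sub_ne_zero (k := κ) q ψ hY
    rw [← pow_mul] at this
    intro h0
    apply this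
    rw [← neg_sub, h0, neg_zero]
  have hK := H17.map_kron q Rk (H17.evalAt (ιv ψ))
  rw [H17.evalAt_X] at hK
  have hId : (rbar ψ ^ (q - 1) * (rbar ψ - rbar ψ ^ (q * q)) ^ 2
        - ((Rk.map (H17.evalAt (ιv ψ))).map red₂).eval (rbar ψ)
        + (rbar ψ - rbar ψ ^ (q * q)) *
          (derivative ((Rk.map (H17.evalAt (ιv ψ))).map red₂)).eval (rbar ψ)) ^ 6 *
      (rbar ψ ^ 4 * (rbar ψ - 1728) ^ 3 * red₂' U) =
      ((rbar ψ - rbar ψ ^ (q * q)) ^ 2) ^ 6 * (rbar ψ ^ (4 * q) * (rbar ψ ^ q - 1728) ^ 3) := by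
    rw [H17.eval_map_map_evalAt, H17.derivative_map_map_evalAt, (h3.h2v ψ).trans hW]
    exact H17.middle_identity q h2 hq0' ψ hW Rk U hrel hid hqD
  have h6 : Even 6 := by decide
  -- the rigid half, given `H ∉ n̄`
  have rigid : rbar ψ ^ (4 * q) * (rbar ψ ^ q - 1728) ^ 3 ∉ nbar →
      ∃ θ : B, red₂ θ = 0 ∧ θ ≠ 0 ∧ ∃ e t : B, e ∉ n ∧ t ∉ n ∧ t * θ ^ (q - 1) = e * qB := by
    intro hH
    exact ⟨ιu ψ - ιw ψ, h3.red₂_sub ψ, sub_ne_zero.2 hne,
      H65.hE_middle_of_kronecker h3 hq.out hqB hq0 hqD n hn h1 h3' hker ψ hW hne hK hpu hpw hx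
        h6 (by norm_num) hId hH⟩
  -- `q = 2`, `q = 3`, or `q ≥ 5`
  have hq2 := hq.out.two_le
  have hcases : q = 2 ∨ q = 3 ∨ 5 ≤ q := by
    rcases Nat.lt_or_ge q 5 with h | h
    · interval_cases q
      · exact Or.inl rfl
      · exact Or.inr (Or.inl rfl)
      · exact absurd hq.out (by norm_num)
    · exact Or.inr (Or.inr h)
  have small : (q = 2 ∨ q = 3) →
      ∃ θ : B, red₂ θ = 0 ∧ θ ≠ 0 ∧ ∃ e t : B, e ∉ n ∧ t ∉ n ∧ t * θ ^ (q - 1) = e * qB :=
    fun hq23 => rigid (H_not_mem_map_of_small_q (k := κ) q hq23 h2 hq0' ψ hW hY Rk U hrel hid Om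
      hUOm h3 hqB hq0 φ hφ n hn hqn h1 h3')
  rcases hcases with h2' | h3'' | hq5
  · exact small (Or.inl h2')
  · exact small (Or.inr h3'')
  -- `q ≥ 5`
  have h1728 : (1728 : D) ∉ nbar := ofNat_1728_not_mem κ q D hq5 nbar hprime.ne_top
  have hpow : rbar ψ ^ q - 1728 = (rbar ψ - 1728) ^ q := pow_sub_1728 κ q D (rbar ψ)
  by_cases hY0 : rbar ψ ∈ nbar
  · -- elliptic over `0`
    obtain ⟨hb, hconst, s', hs', hreg⟩ := hpt hq5 n hn hker h1 h3'
    obtain ⟨tj, cj, htj, hj, hII⟩ := H65.exists_rigid_pair h3 hq.out hqB hq0 hqD n hn h1 h3' ψ hW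
      hne hK hpu hpw hx h6 hId
    have hYq : rbar ψ ^ q - 1728 ∉ nbar := by
      intro hmem
      apply h1728
      have : (1728 : D) = rbar ψ ^ q - (rbar ψ ^ q - 1728) := by ring
      rw [this]
      exact nbar.sub_mem (Ideal.pow_mem_of_mem _ hY0 _ hq.out.pos) hmem
    have hZ : rbar (ψ - 0) = rbar ψ := by rw [sub_zero]
    have hZ0 : rbar (ψ - 0) ≠ 0 := by
      rw [hZ]
      have := H17.Y_ne_const (k := κ) ψ hY 0
      simpa using this
    obtain ⟨e', t, he', ht, hE⟩ := H85.hE_middle_elliptic_of_places (k := K) (F := F) h3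
      (by omega) hqB0 hrq n hn h1 h3' hker π hD hkerM hb hqu hqw hs' hconst hreg ψ htj hj
      (m := 6) (by norm_num) hII (c₀ := 0) (e := 3) (EG := 4) (K := 4 * (q - 1)) (by norm_num)
      (by rw [map_zero, map_zero]) (hE0 hq5)
      (by ring)
      (G' := (rbar ψ - 1728) ^ 3 * red₂' U) (H' := (rbar ψ ^ q - 1728) ^ 3)
      (by
        rw [hZ]
        have : 4 + 4 * (q - 1) = 4 * q := by omega
        rw [this])
      (by rw [hZ]; ring)
      (fun hmem => hYq (hprime.mem_of_pow_mem _ hmem)) hZ0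
    refine ⟨ιu s' - ιw s', h3.red₂_sub s', ?_, e', t, he', ht, hE⟩
    intro h0
    rw [h0, zero_pow (by omega), mul_zero] at hE
    have : e' = 0 := by
      rcases mul_eq_zero.1 hE.symm with h | h
      · exact h
      · exact absurd h hqB0
    exact he' (this ▸ n.zero_mem)
  · by_cases hY1 : rbar ψ - 1728 ∈ nbar
    · -- elliptic over `1728`
      obtain ⟨hb, hconst, s', hs', hreg⟩ := hpt hq5 n hn hker h1 h3'
      obtain ⟨tj, cj, htj, hj, hII⟩ := H65.exists_rigid_pair h3 hq.out hqB hq0 hqD n hn h1 h3' ψ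
        hW hne hK hpu hpw hx h6 hId
      have hZ : rbar (ψ - 1728) = rbar ψ - 1728 := by rw [map_sub, map_ofNat]
      have hZ0 : rbar (ψ - 1728) ≠ 0 := by
        rw [hZ]
        have := H17.Y_ne_const (k := κ) ψ hY 1728
        intro h0
        apply this
        rw [map_ofNat]
        exact sub_eq_zero.1 h0
      obtain ⟨e', t, he', ht, hE⟩ := H85.hE_middle_elliptic_of_places (k := K) (F := F) h3
        (by omega) hqB0 hrq n hn h1 h3' hker π hD hkerM hb hqu hqw hs' hconst hreg ψ htj hj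
        (m := 6) (by norm_num) hII (c₀ := 1728) (e := 2) (EG := 3) (K := 3 * (q - 1))
        (by norm_num) (by rw [map_ofNat, map_ofNat]) (hE1 hq5)
        (by ring)
        (G' := rbar ψ ^ 4 * red₂' U) (H' := rbar ψ ^ (4 * q))
        (by
          rw [hZ, hpow, ← pow_mul]
          have : 3 + 3 * (q - 1) = q * 3 := by omega
          rw [this]; ring)
        (by rw [hZ]; ring)
        (fun hmem => hY0 (hprime.mem_of_pow_mem _ hmem)) hZ0
      refine ⟨ιu s' - ιw s', h3.red₂_sub s', ?_, e', t, he', ht, hE⟩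
      intro h0
      rw [h0, zero_pow (by omega), mul_zero] at hE
      have : e' = 0 := by
        rcases mul_eq_zero.1 hE.symm with h | h
        · exact h
        · exact absurd h hqB0
      exact he' (this ▸ n.zero_mem)
    · -- rigid
      apply rigid
      rw [hpow]
      intro hmem
      rcases hprime.mem_or_mem hmem with h | h
      · exact hY0 (hprime.mem_of_pow_mem _ h)
      · exact hY1 (hprime.mem_of_pow_mem _ (hprime.mem_of_pow_mem _ h))

end Rows

end Fermat.Agent.S36.H9
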