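/-
helper9 — S36, row (M4-real) (helper78 RULING 7): `H62.MiddleUnit` AT THE REAL TYPES, chart 1 of
level `q² L` over `A'' = cutOver A E` = ONE application of `H9.middleUnit_of_rows`.

* `B  := chartB (cutOver A E) J_E`, `J_E = baseChangeE (J3N L)` (helper70's consumer form
  `S36.H70.exists_threeComponents_chartBC_unram`: degeneracy maps `chartBC ∘ ιu/ιv/ιw`, the level-`L`
  chart `BM = chartB A₁ j` of the `A₁`-level structure is KEPT, so `R := A₁`, `K := L₁`, `π := q`);
* `B' := chartB (cutOver A E) (JK E (q L) q)` (`S35.H70.exists_twoComponentsE_JK` vocabulary).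

DISCHARGED here: `hqB hq0 hq0'`, `ψ := j`, `hW hY`, helper17's block `Rk U hrel hid Om hUOm`
(PUSHED along `chartBC_JK` from the `A₁`-level `H17.exists_chart_data_JK`: `rel_push`, `id_push`),
helper6's Kronecker inputs `hne hpu hpw` (PUSHED along `chartBC` from `H6.hne_J3 hpu_J3 hpw_J3`:
`root_push`), `hD`, `IsLocalization.Away q L₁`, `hqu hqw`, the instance block of `BM`, and the e-data
`hE0 hE1` (helper2's `H2.hE_fullC_of_aux` at an auxiliary prime `r ≡ 11 mod 12`, `r ∣ L`).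

NAMED BINDERS LEFT: (G3) `φ hφ`; (G5) `hkerM`, `hpt`.
-/
import Mathlib
import Fermat.Agent.S36.H9_MiddleUnitRows
import Fermat.Agent.S36.H6_MiddleKronInst
import Fermat.Agent.S36.H17_OmegaInst
import Fermat.Agent.S36.H2_EDataE0Shape
import Fermat.Agent.S34.H95_ChartBC
import Fermat.Agent.S34.H95_CoordJInst
import Fermat.Agent.S36.H96_LevelMapsAbs

set_option autoImplicit false
set_option linter.unusedSectionVars false
set_option linter.style.haveILetI false
set_option synthInstance.maxHeartbeats 400000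
set_option maxHeartbeats 3200000

noncomputable section

namespace Fermat.Agent.S36.H9

open ModularCurve Polynomial IsLocalRing AlgebraicCurve Fermat.Agent.S28
open Fermat.Agent.S18 Fermat.Agent.S34.H92 Fermat.Agent.S34.H16 Fermat.Agent.S34.H55
open Fermat.Agent.S34.H83 Fermat.Agent.S36.H83 Fermat.Agent.S36.H17

local notation "Qbar" => AlgebraicClosure ℚ

/-! ### Pushing the Kronecker data along a ring hom -/

section Push

variable {A A' : Type*} [CommRing A] [CommRing A'] (g : A →+* A') (q : ℕ) (Rk : ℤ[X][X])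

theorem rel_push (v w : A)
    (h : (w - v ^ q) * (w ^ q - v) + (q : A) * Rk.eval₂ (evalAt v) w = 0) :
    (g w - g v ^ q) * (g w ^ q - g v) + (q : A') * Rk.eval₂ (evalAt (g v)) (g w) = 0 := by
  have h0 := congrArg g h
  rw [map_zero, map_add, map_mul, map_mul, map_sub, map_sub, map_pow, map_pow, map_natCast,
    Polynomial.hom_eval₂, comp_evalAt] at h0
  exact h0

theorem id_push (v w U : A)
    (h : phiXVal Rk q (evalAt v) w ^ 6 * (w ^ 4 * (w - 1728) ^ 3) * U =
      (q : A) ^ 6 * (phiYVal Rk q (evalAt v) w ^ 6 * (v ^ 4 * (v - 1728) ^ 3))) :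
    phiXVal Rk q (evalAt (g v)) (g w) ^ 6 * (g w ^ 4 * (g w - 1728) ^ 3) * g U =
      (q : A') ^ 6 * (phiYVal Rk q (evalAt (g v)) (g w) ^ 6 * (g v ^ 4 * (g v - 1728) ^ 3)) := by
  have h0 := congrArg g h
  have h1728 : g 1728 = 1728 := map_ofNat g 1728
  simp only [map_mul, map_pow, map_sub, map_natCast, map_phiXVal, map_phiYVal, comp_evalAt,
    h1728] at h0
  exact h0

theorem root_push (P : ℤ[X][X]) (v u : A) (h : (P.map (evalAt v)).eval u = 0) :
    (P.map (evalAt (g v))).eval (g u) = 0 := by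
  rw [Polynomial.eval_map, ← comp_evalAt, ← Polynomial.hom_eval₂, ← Polynomial.eval_map, h,
    map_zero]

end Push

/-! ### The real types -/

section Real

variable (L : ℕ) [NeZero L] (q : ℕ) [hq : Fact q.Prime] (hqL : ¬ q ∣ L)
  (A : ValuationSubring Qbar) (hA : A.LiesOverPrime q)
  (E : IntermediateField (H45.unrCyclo q) Qbar)

local notation "kA" => IsLocalRing.ResidueField A
local notation "A₁" => H45.A0 A q
local notation "L₁" => H45.unrCyclo q
local notation "AE" => H45.cutOver A E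
local notation "F0" => modularFunctionFieldFullC (H45.unrCyclo q) L
local notation "F1" => modularFunctionFieldFullC (H45.unrCyclo q) (q * L)
local notation "F2" => modularFunctionFieldFullC (H45.unrCyclo q) (q * (q * L))
local notation "EE" => (E : Type)
local notation "F1E" => modularFunctionFieldFullC (E : Type) (q * L)
local notation "F2E" => modularFunctionFieldFullC (E : Type) (q * (q * L))
local notation "FkL" => modularFunctionFieldFullC (IsLocalRing.ResidueField A) L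
local notation "DL" => integralClosure
  (Algebra.adjoin (IsLocalRing.ResidueField A) {S18.H16.jK (IsLocalRing.ResidueField A) L})
  (modularFunctionFieldFullC (IsLocalRing.ResidueField A) L)
local notation "BM" => H40.chartB (H45.A0 A q) (S18.H16.jK (H45.unrCyclo q) L)

/-! #### The level-`L` chart `BM = chartB A₁ j` -/

theorem isFractionRing_BM : IsFractionRing ↥BM F0 := by
  haveI := S18.H16.finiteDimensional_fullC_gen L L₁ (Nat.cast_ne_zero.mpr (NeZero.ne _))
  exact S34.H3.isFractionRing_chartB (K := L₁) (S18.H16.jK L₁ L)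

theorem isIntegrallyClosed_BM : IsIntegrallyClosed ↥BM := by
  haveI := S18.H16.finiteDimensional_fullC_gen L L₁ (Nat.cast_ne_zero.mpr (NeZero.ne _))
  exact S34.H3.isIntegrallyClosed_chartB (K := L₁) (S18.H16.jK L₁ L)

include hA in
theorem isNoetherianRing_BM : IsNoetherianRing ↥BM := by
  haveI := H45.isDiscreteValuationRing_A0 hq.out hA
  haveI := S18.H16.finiteDimensional_fullC_gen L L₁ (Nat.cast_ne_zero.mpr (NeZero.ne _))
  haveI := S18.H16.isSeparable_fullC_gen L L₁ (Nat.cast_ne_zero.mpr (NeZero.ne _))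
  exact S34.H95.isNoetherianRing_chartB (K := L₁) (S18.H16.jK L₁ L)
    (S18.H16.transcendental_jK L₁ L)

/-- the e-data over `j = 0` in the shape of `middleUnit_of_rows`. -/
theorem hE0_real {r : ℕ} (hr : r.Prime) (hr12 : r % 12 = 11) (hrL : r ∣ L)
    (v : Place L₁ F0)
    (hv : 0 < v.ord (algebraMap ↥BM F0 (H6.psiJ L q A - 0))) :
    ((3 : ℕ) : ℤ) ∣ v.ord (algebraMap ↥BM F0 (H6.psiJ L q A - 0)) := by
  have hE := S36.H2.hE_fullC_of_aux L₁ L hr hr12 hrL v
  have e1 : algebraMap ↥BM F0 (H6.psiJ L q A - 0) = S18.H16.jK L₁ L := by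
    rw [sub_zero]; rfl
  rw [e1] at hv ⊢
  rw [(hE hv.le).1 hv]
  exact dvd_refl _

/-- the e-data over `j = 1728` in the shape of `middleUnit_of_rows`. -/
theorem hE1_real {r : ℕ} (hr : r.Prime) (hr12 : r % 12 = 11) (hrL : r ∣ L)
    (v : Place L₁ F0)
    (hv : 0 < v.ord (algebraMap ↥BM F0 (H6.psiJ L q A - 1728))) :
    ((2 : ℕ) : ℤ) ∣ v.ord (algebraMap ↥BM F0 (H6.psiJ L q A - 1728)) := by
  have hE := S36.H2.hE_fullC_of_aux L₁ L hr hr12 hrL v
  have e1 : algebraMap ↥BM F0 (H6.psiJ L q A - 1728) =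
      S18.H16.jK L₁ L - algebraMap L₁ F0 1728 := by
    rw [map_sub, map_ofNat, map_ofNat]; rfl
  rw [e1] at hv ⊢
  have hj : 0 ≤ v.ord (S18.H16.jK L₁ L) := by
    by_cases hj0 : S18.H16.jK L₁ L = 0
    · rw [hj0, Place.ord_zero]
    · rw [S34.H3.ord_nonneg_iff_mem v hj0]
      have hne : S18.H16.jK L₁ L - algebraMap L₁ F0 1728 ≠ 0 := by
        intro h0
        rw [h0, Place.ord_zero] at hv
        exact lt_irrefl _ hv
      have h1 : S18.H16.jK L₁ L - algebraMap L₁ F0 1728 ∈ v.toValuationSubring :=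
        (S34.H3.ord_nonneg_iff_mem v hne).1 hv.le
      have : S18.H16.jK L₁ L =
          (S18.H16.jK L₁ L - algebraMap L₁ F0 1728) + algebraMap L₁ F0 1728 := by ring
      rw [this]
      exact v.toValuationSubring.add_mem _ _ h1 (v.algebraMap_mem' _)
  rw [(hE hj).2.1 hv]
  exact dvd_refl _

theorem natCast_ne_zero_subalgebra {R F : Type*} [CommRing R] [Field F] [CharZero F]
    [Algebra R F] (S : Subalgebra R F) {n : ℕ} (hn : n ≠ 0) : ((n : ℕ) : S) ≠ 0 := by
  intro h
  have h0 := congrArg (fun x : S => (x : F)) h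
  simp only [SubringClass.coe_natCast, ZeroMemClass.coe_zero] at h0
  exact (Nat.cast_ne_zero.2 hn) h0

set_option maxHeartbeats 6400000 in
/-- **(M4-real)**: `H62.MiddleUnit` on the `E`-level chart 1 of level `q² L`, in the argument shape
`hM4` of `S36.H56.hE4_of_rows` / `H62.heightOne_localGen_all`.

Inputs: the two `E`-level structures `h3` (helper70's `exists_threeComponents_chartBC_unram`
vocabulary) and `h2` (`S35.H70.exists_twoComponentsE_JK` vocabulary); an auxiliary prime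
`r ≡ 11 mod 12` dividing `L`; and the named groups
* (G3) `φ hφ` : a ring hom from the level-`qL` chart with `red₂ ∘ φ = red₂'` (`LevelMaps.h2β`);
* (G5) `hkerM hpt` : good reduction of the level-`L` chart and the closed points of `C₂` only. -/
theorem middleUnit_real
    (J_E : F2E) (hJ : H45.baseChangeE E (q * (q * L)) (J3N L (q := q)) = J_E)
    [IsNoetherianRing ↥(H40.chartB AE J_E)]
    {red₁ red₂ red₃ : ↥(H40.chartB AE J_E) →+* ↥DL}
    (h3 : ThreeComponents red₁ red₂ red₃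
      ((S34.H95.chartBC (A := A) E (q * (q * L)) (J3N L (q := q)) J_E hJ).comp (H6.iU1 L q A)) ((S34.H95.chartBC (A := A) E (q * (q * L)) (J3N L (q := q)) J_E hJ).comp (H6.iV1 L q A)) ((S34.H95.chartBC (A := A) E (q * (q * L)) (J3N L (q := q)) J_E hJ).comp (H6.iW1 L q A))
      (rbarB (Mod L hqL A hA) (Mod L hqL A hA).x_mem (Mod L hqL A hA).res1_x)
      (WR (FrM L A hA) q (hFrx L A hA)) q
      (algebraMap AE ↥(H40.chartB AE J_E) ((q : ℕ) : AE)))
    {red₁' red₂' : ↥(H40.chartB AE (S34.H95.JK ↥E (q * L) q (Dvd.intro L rfl))) →+* ↥DL}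
    {qB' : ↥(H40.chartB AE (S34.H95.JK ↥E (q * L) q (Dvd.intro L rfl)))}
    (h2 : TwoComponents red₁' red₂'
      ((S34.H95.chartBC_JK (A := A) E (q * L) q (Dvd.intro L rfl)).comp (chartMap (iotaMN L (ℓ := q)) (iotaMN_algebraMap L A) (hιint1 L A)))
      ((S34.H95.chartBC_JK (A := A) E (q * L) q (Dvd.intro L rfl)).comp (chartMap (VMN L (ℓ := q)) (VMN_algebraMap L A) (hVint1 L A)))
      (rbarB (Mod L hqL A hA) (Mod L hqL A hA).x_mem (Mod L hqL A hA).res1_x)
      (WR (FrM L A hA) q (hFrx L A hA)) q qB')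
    -- the auxiliary prime (no elliptic points at level `L`)
    {r : ℕ} (hr : r.Prime) (hr12 : r % 12 = 11) (hrL : r ∣ L)
    -- (G3)
    (φ : ↥(H40.chartB AE (S34.H95.JK ↥E (q * L) q (Dvd.intro L rfl))) →+* ↥(H40.chartB AE J_E))
    (hφ : ∀ z, red₂ (φ z) = red₂' z)
    -- (G5)
    (hkerM : RingHom.ker (rbarB (Mod L hqL A hA) (Mod L hqL A hA).x_mem (Mod L hqL A hA).res1_x) =
      Ideal.span {algebraMap A₁ ↥BM ((q : ℕ) : A₁)})
    (hpt : 5 ≤ q → ∀ n : Ideal ↥(H40.chartB AE J_E), n.IsMaximal → RingHom.ker red₂ ≤ n →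
      (∃ s : ↥(H40.chartB AE J_E), red₁ s = 0 ∧ s ∉ n) →
      (∃ s : ↥(H40.chartB AE J_E), red₃ s = 0 ∧ s ∉ n) →
      (n.comap ((S34.H95.chartBC (A := A) E (q * (q * L)) (J3N L (q := q)) J_E hJ).comp (H6.iW1 L q A))).IsMaximal ∧
      (∀ χ : ↥BM, ∃ c : ↥BM, ((S34.H95.chartBC (A := A) E (q * (q * L)) (J3N L (q := q)) J_E hJ).comp (H6.iU1 L q A)) c = ((S34.H95.chartBC (A := A) E (q * (q * L)) (J3N L (q := q)) J_E hJ).comp (H6.iW1 L q A)) c ∧
        ((S34.H95.chartBC (A := A) E (q * (q * L)) (J3N L (q := q)) J_E hJ).comp (H6.iW1 L q A)) (χ - c) ∈ n) ∧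
      ∃ s' : ↥BM, ((S34.H95.chartBC (A := A) E (q * (q * L)) (J3N L (q := q)) J_E hJ).comp (H6.iW1 L q A)) s' ∈ n ∧
        ∀ χ : ↥BM, ((S34.H95.chartBC (A := A) E (q * (q * L)) (J3N L (q := q)) J_E hJ).comp (H6.iW1 L q A)) χ ∈ n →
          ∃ a χ₁ χ₂ : ↥BM, ((S34.H95.chartBC (A := A) E (q * (q * L)) (J3N L (q := q)) J_E hJ).comp (H6.iW1 L q A)) a ∉ n ∧
            a * χ = s' * χ₁ + algebraMap A₁ ↥BM ((q : ℕ) : A₁) * χ₂) :
    H62.MiddleUnit red₁ red₂ red₃ q (algebraMap AE ↥(H40.chartB AE J_E) ((q : ℕ) : AE)) := by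
  classical
  haveI : CharP kA q := S18.H16.charP_k A hA
  haveI := S18.H16.isAlgClosed_k A
  haveI := S18.H16.finiteDimensional_Fk L hqL A hA
  haveI := S18.H16.isSeparable_Fk L hqL A hA
  haveI hDed : IsDedekindDomain ↥DL :=
    S18.H97.isDedekindDomain_intRing_of_isSeparable (S18.H16.jK kA L)
      (S18.H16.transcendental_jk L A)
  haveI := isFractionRing_BM L q A
  haveI := isIntegrallyClosed_BM L q A
  haveI := isNoetherianRing_BM L q A hA
  haveI := H45.isDiscreteValuationRing_A0 hq.out hA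
  haveI : IsLocalization.Away ((q : ℕ) : A₁) L₁ :=
    S34.H56.isLocalization_away_of_dvr (k := L₁) (H45.irreducible_natCast_A0 hq.out hA)
  obtain ⟨D, hD, -⟩ := S18.H16.exists_modPoly_gen q
  obtain ⟨Rk, hRk⟩ := exists_kroneckerR q D hD
  obtain ⟨U, Om, -, -, hrel, hid, hUOm⟩ := exists_chart_data_JK L A D Rk hRk
  have hq0 : ((q : ℕ) : ↥(H40.chartB AE J_E)) ≠ 0 :=
    natCast_ne_zero_subalgebra _ hq.out.ne_zero
  have hq0' : ((q : ℕ) : ↥(H40.chartB AE (S34.H95.JK ↥E (q * L) q (Dvd.intro L rfl)))) ≠ 0 :=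
    natCast_ne_zero_subalgebra _ hq.out.ne_zero
  have hDf : ¬ IsField ↥DL :=
    S34.H83.not_isField_integralClosure_adjoin (S18.H16.jK kA L) (S18.H16.transcendental_jk L A)
  have hne : ((S34.H95.chartBC (A := A) E (q * (q * L)) (J3N L (q := q)) J_E hJ).comp (H6.iU1 L q A)) (H6.psiJ L q A) ≠ ((S34.H95.chartBC (A := A) E (q * (q * L)) (J3N L (q := q)) J_E hJ).comp (H6.iW1 L q A)) (H6.psiJ L q A) :=
    fun h => H6.hne_J3 L q A (S34.H95.chartBC_injective E _ _ _ hJ h)
  have hpu₀ : ((kronMain q + C (C (q : ℤ)) * Rk).map (evalAt (H6.iV1 L q A (H6.psiJ L q A)))).eval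
      (H6.iU1 L q A (H6.psiJ L q A)) = 0 := by
    rw [← hRk]; exact H6.hpu_J3 L q A D hD
  have hpw₀ : ((kronMain q + C (C (q : ℤ)) * Rk).map (evalAt (H6.iV1 L q A (H6.psiJ L q A)))).eval
      (H6.iW1 L q A (H6.psiJ L q A)) = 0 := by
    rw [← hRk]; exact H6.hpw_J3 L q A D
  have hqu : ((S34.H95.chartBC (A := A) E (q * (q * L)) (J3N L (q := q)) J_E hJ).comp (H6.iU1 L q A)) (algebraMap A₁ ↥BM ((q : ℕ) : A₁)) =
      algebraMap AE ↥(H40.chartB AE J_E) ((q : ℕ) : AE) := by
    rw [RingHom.comp_apply, S36.H96.chartMap_algebraMap, S34.H95.chartBC_algebraMap, map_natCast]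
  have hqw : ((S34.H95.chartBC (A := A) E (q * (q * L)) (J3N L (q := q)) J_E hJ).comp (H6.iW1 L q A)) (algebraMap A₁ ↥BM ((q : ℕ) : A₁)) =
      algebraMap AE ↥(H40.chartB AE J_E) ((q : ℕ) : AE) := by
    rw [RingHom.comp_apply, S36.H96.chartMap_algebraMap, S34.H95.chartBC_algebraMap, map_natCast]
  have key := middleUnit_of_rows (κ := kA) q (R := A₁) (K := L₁) (F := F0) h3 (map_natCast _ _)
    hq0 h2 hq0' φ hφ (H6.psiJ L q A) (H6.hW_J3 L q hqL A hA) (hY_psi0 L hqL A hA) Rk ((S34.H95.chartBC_JK (A := A) E (q * L) q (Dvd.intro L rfl)) U)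
    (rel_push (S34.H95.chartBC_JK (A := A) E (q * L) q (Dvd.intro L rfl)) q Rk _ _ hrel) (id_push (S34.H95.chartBC_JK (A := A) E (q * L) q (Dvd.intro L rfl)) q Rk _ _ _ hid) ((S34.H95.chartBC_JK (A := A) E (q * L) q (Dvd.intro L rfl)) Om)
    (by rw [← map_mul, hUOm, map_pow, map_natCast]) hne
    (root_push (S34.H95.chartBC (A := A) E (q * (q * L)) (J3N L (q := q)) J_E hJ) _ _ _ hpu₀) (root_push (S34.H95.chartBC (A := A) E (q * (q * L)) (J3N L (q := q)) J_E hJ) _ _ _ hpw₀) hDf ((q : ℕ) : A₁) hkerM hqu hqw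
    (fun _ v hv => hE0_real L q A hr hr12 hrL v hv)
    (fun _ v hv => hE1_real L q A hr hr12 hrL v hv) hpt
  exact key

end Real

end Fermat.Agent.S36.H9
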