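/-
helper9 — S36, row (M4-real), v2 (helper78 RULING 8, form (S2)): `H9.middleUnit_real` with the
level-`qL` chart ALSO in the generic form `(J_E') (hJ' : baseChangeE E (q L) (JN L) = J_E')`
(degeneracy maps `chartBC .. hJ' ∘ ι`, `chartBC .. hJ' ∘ V`) instead of the literal `JK` chart.
At `hJ := rfl`, `hJ' := rfl` this is the (S1) spelling up to `S35.H70.chartBC_eq_chartMapE`.
-/
import Mathlib
import Fermat.Agent.S36.H9_MiddleUnitReal

set_option autoImplicit false
set_option linter.unusedSectionVars false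
set_option linter.style.haveILetI false
set_option synthInstance.maxHeartbeats 400000
set_option maxHeartbeats 3200000

noncomputable section

namespace Fermat.Agent.S36.H9

open ModularCurve Polynomial IsLocalRing AlgebraicCurve Fermat.Agent.S28
open Fermat.Agent.S18 Fermat.Agent.S34.H92 Fermat.Agent.S34.H16 Fermat.Agent.S34.H55
open Fermat.Agent.S34.H83 Fermat.Agent.S36.H83 Fermat.Agent.S36.H17

local notation "Qbar" => AlgebraicClosure ℚ

section Real

variable (L : ℕ) [NeZero L] (q : ℕ) [hq : Fact q.Prime] (hqL : ¬ q ∣ L)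
  (A : ValuationSubring Qbar) (hA : A.LiesOverPrime q)
  (E : IntermediateField (H45.unrCyclo q) Qbar)

local notation "kA" => IsLocalRing.ResidueField A
local notation "A₁" => H45.A0 A q
local notation "L₁" => H45.unrCyclo q
local notation "AE" => H45.cutOver A E
local notation "F0" => modularFunctionFieldFullC (H45.unrCyclo q) L
local notation "F1E" => modularFunctionFieldFullC (E : Type) (q * L)
local notation "F2E" => modularFunctionFieldFullC (E : Type) (q * (q * L))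
local notation "FkL" => modularFunctionFieldFullC (IsLocalRing.ResidueField A) L
local notation "DL" => integralClosure
  (Algebra.adjoin (IsLocalRing.ResidueField A) {S18.H16.jK (IsLocalRing.ResidueField A) L})
  (modularFunctionFieldFullC (IsLocalRing.ResidueField A) L)
local notation "BM" => H40.chartB (H45.A0 A q) (S18.H16.jK (H45.unrCyclo q) L)

set_option maxHeartbeats 6400000 in
/-- **(M4-real)**: `H62.MiddleUnit` on the `E`-level chart 1 of level `q² L`, in the argument shape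
`hM4` of `S36.H56.hE4_of_rows` / `H62.heightOne_localGen_all`.

Inputs: the two `E`-level structures `h3` (helper70's `exists_threeComponents_chartBC_unram`
vocabulary) and `h2` (`S35.H70.exists_twoComponentsE_JK` vocabulary); an auxiliary prime
`r ≡ 11 mod 12` dividing `L`; and the named groups
* (G3) `φ hφ` : a ring hom from the level-`qL` chart with `red₂ ∘ φ = red₂'` (`LevelMaps.h2β`);
* (G5) `hkerM hpt` : good reduction of the level-`L` chart and the closed points of `C₂` only. -/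
theorem middleUnit_real_S2
    (J_E : F2E) (hJ : H45.baseChangeE E (q * (q * L)) (J3N L (q := q)) = J_E)
    [IsNoetherianRing ↥(H40.chartB AE J_E)]
    {red₁ red₂ red₃ : ↥(H40.chartB AE J_E) →+* ↥DL}
    (h3 : ThreeComponents red₁ red₂ red₃
      ((S34.H95.chartBC (A := A) E (q * (q * L)) (J3N L (q := q)) J_E hJ).comp (H6.iU1 L q A)) ((S34.H95.chartBC (A := A) E (q * (q * L)) (J3N L (q := q)) J_E hJ).comp (H6.iV1 L q A)) ((S34.H95.chartBC (A := A) E (q * (q * L)) (J3N L (q := q)) J_E hJ).comp (H6.iW1 L q A))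
      (rbarB (Mod L hqL A hA) (Mod L hqL A hA).x_mem (Mod L hqL A hA).res1_x)
      (WR (FrM L A hA) q (hFrx L A hA)) q
      (algebraMap AE ↥(H40.chartB AE J_E) ((q : ℕ) : AE)))
    (J_E' : F1E) (hJ' : H45.baseChangeE E (q * L) (JN L (ℓ := q)) = J_E')
    {red₁' red₂' : ↥(H40.chartB AE J_E') →+* ↥DL}
    {qB' : ↥(H40.chartB AE J_E')}
    (h2 : TwoComponents red₁' red₂'
      ((S34.H95.chartBC (A := A) E (q * L) (JN L (ℓ := q)) J_E' hJ').comp (chartMap (iotaMN L (ℓ := q)) (iotaMN_algebraMap L A) (hιint1 L A)))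
      ((S34.H95.chartBC (A := A) E (q * L) (JN L (ℓ := q)) J_E' hJ').comp (chartMap (VMN L (ℓ := q)) (VMN_algebraMap L A) (hVint1 L A)))
      (rbarB (Mod L hqL A hA) (Mod L hqL A hA).x_mem (Mod L hqL A hA).res1_x)
      (WR (FrM L A hA) q (hFrx L A hA)) q qB')
    -- the auxiliary prime (no elliptic points at level `L`)
    {r : ℕ} (hr : r.Prime) (hr12 : r % 12 = 11) (hrL : r ∣ L)
    -- (G3)
    (φ : ↥(H40.chartB AE J_E') →+* ↥(H40.chartB AE J_E))
    (hφ : ∀ z, red₂ (φ z) = red₂' z)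
    -- (G5)
    (hkerM : RingHom.ker (rbarB (Mod L hqL A hA) (Mod L hqL A hA).x_mem (Mod L hqL A hA).res1_x) =
      Ideal.span {algebraMap A₁ ↥BM ((q : ℕ) : A₁)})
    (hpt : 5 ≤ q → ∀ n : Ideal ↥(H40.chartB AE J_E), n.IsMaximal → RingHom.ker red₂ ≤ n →
      (∃ s : ↥(H40.chartB AE J_E), red₁ s = 0 ∧ s ∉ n) →
      (∃ s : ↥(H40.chartB AE J_E), red₃ s = 0 ∧ s ∉ n) →
      (n.comap ((S34.H95.chartBC (A := A) E (q * (q * L)) (J3N L (q := q)) J_E hJ).comp (H6.iW1 L q A))).IsMaximal ∧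
      (∀ χ : ↥BM, ∃ c : ↥BM, ((S34.H95.chartBC (A := A) E (q * (q * L)) (J3N L (q := q)) J_E hJ).comp (H6.iU1 L q A)) c = ((S34.H95.chartBC (A := A) E (q * (q * L)) (J3N L (q := q)) J_E hJ).comp (H6.iW1 L q A)) c ∧
        ((S34.H95.chartBC (A := A) E (q * (q * L)) (J3N L (q := q)) J_E hJ).comp (H6.iW1 L q A)) (χ - c) ∈ n) ∧
      ∃ s' : ↥BM, ((S34.H95.chartBC (A := A) E (q * (q * L)) (J3N L (q := q)) J_E hJ).comp (H6.iW1 L q A)) s' ∈ n ∧
        ∀ χ : ↥BM, ((S34.H95.chartBC (A := A) E (q * (q * L)) (J3N L (q := q)) J_E hJ).comp (H6.iW1 L q A)) χ ∈ n →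
          ∃ a χ₁ χ₂ : ↥BM, ((S34.H95.chartBC (A := A) E (q * (q * L)) (J3N L (q := q)) J_E hJ).comp (H6.iW1 L q A)) a ∉ n ∧
            a * χ = s' * χ₁ + algebraMap A₁ ↥BM ((q : ℕ) : A₁) * χ₂) :
    H62.MiddleUnit red₁ red₂ red₃ q (algebraMap AE ↥(H40.chartB AE J_E) ((q : ℕ) : AE)) := by
  classical
  haveI : CharP kA q := S18.H16.charP_k A hA
  haveI := S18.H16.isAlgClosed_k A
  haveI := S18.H16.finiteDimensional_Fk L hqL A hA
  haveI := S18.H16.isSeparable_Fk L hqL A hA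
  haveI hDed : IsDedekindDomain ↥DL :=
    S18.H97.isDedekindDomain_intRing_of_isSeparable (S18.H16.jK kA L)
      (S18.H16.transcendental_jk L A)
  haveI := isFractionRing_BM L q A
  haveI := isIntegrallyClosed_BM L q A
  haveI := isNoetherianRing_BM L q A hA
  haveI := H45.isDiscreteValuationRing_A0 hq.out hA
  haveI : IsLocalization.Away ((q : ℕ) : A₁) L₁ :=
    S34.H56.isLocalization_away_of_dvr (k := L₁) (H45.irreducible_natCast_A0 hq.out hA)
  obtain ⟨D, hD, -⟩ := S18.H16.exists_modPoly_gen q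
  obtain ⟨Rk, hRk⟩ := exists_kroneckerR q D hD
  obtain ⟨U, Om, -, -, hrel, hid, hUOm⟩ := exists_chart_data_JK L A D Rk hRk
  have hq0 : ((q : ℕ) : ↥(H40.chartB AE J_E)) ≠ 0 :=
    natCast_ne_zero_subalgebra _ hq.out.ne_zero
  have hq0' : ((q : ℕ) : ↥(H40.chartB AE J_E')) ≠ 0 :=
    natCast_ne_zero_subalgebra _ hq.out.ne_zero
  have hDf : ¬ IsField ↥DL :=
    S34.H83.not_isField_integralClosure_adjoin (S18.H16.jK kA L) (S18.H16.transcendental_jk L A)
  have hne : ((S34.H95.chartBC (A := A) E (q * (q * L)) (J3N L (q := q)) J_E hJ).comp (H6.iU1 L q A)) (H6.psiJ L q A) ≠ ((S34.H95.chartBC (A := A) E (q * (q * L)) (J3N L (q := q)) J_E hJ).comp (H6.iW1 L q A)) (H6.psiJ L q A) :=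
    fun h => H6.hne_J3 L q A (S34.H95.chartBC_injective E _ _ _ hJ h)
  have hpu₀ : ((kronMain q + C (C (q : ℤ)) * Rk).map (evalAt (H6.iV1 L q A (H6.psiJ L q A)))).eval
      (H6.iU1 L q A (H6.psiJ L q A)) = 0 := by
    rw [← hRk]; exact H6.hpu_J3 L q A D hD
  have hpw₀ : ((kronMain q + C (C (q : ℤ)) * Rk).map (evalAt (H6.iV1 L q A (H6.psiJ L q A)))).eval
      (H6.iW1 L q A (H6.psiJ L q A)) = 0 := by
    rw [← hRk]; exact H6.hpw_J3 L q A D
  have hqu : ((S34.H95.chartBC (A := A) E (q * (q * L)) (J3N L (q := q)) J_E hJ).comp (H6.iU1 L q A)) (algebraMap A₁ ↥BM ((q : ℕ) : A₁)) =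
      algebraMap AE ↥(H40.chartB AE J_E) ((q : ℕ) : AE) := by
    rw [RingHom.comp_apply, S36.H96.chartMap_algebraMap, S34.H95.chartBC_algebraMap, map_natCast]
  have hqw : ((S34.H95.chartBC (A := A) E (q * (q * L)) (J3N L (q := q)) J_E hJ).comp (H6.iW1 L q A)) (algebraMap A₁ ↥BM ((q : ℕ) : A₁)) =
      algebraMap AE ↥(H40.chartB AE J_E) ((q : ℕ) : AE) := by
    rw [RingHom.comp_apply, S36.H96.chartMap_algebraMap, S34.H95.chartBC_algebraMap, map_natCast]
  have key := middleUnit_of_rows (κ := kA) q (R := A₁) (K := L₁) (F := F0) h3 (map_natCast _ _)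
    hq0 h2 hq0' φ hφ (H6.psiJ L q A) (H6.hW_J3 L q hqL A hA) (hY_psi0 L hqL A hA) Rk ((S34.H95.chartBC (A := A) E (q * L) (JN L (ℓ := q)) J_E' hJ') U)
    (rel_push (S34.H95.chartBC (A := A) E (q * L) (JN L (ℓ := q)) J_E' hJ') q Rk _ _ hrel) (id_push (S34.H95.chartBC (A := A) E (q * L) (JN L (ℓ := q)) J_E' hJ') q Rk _ _ _ hid) ((S34.H95.chartBC (A := A) E (q * L) (JN L (ℓ := q)) J_E' hJ') Om)
    (by rw [← map_mul, hUOm, map_pow, map_natCast]) hne
    (root_push (S34.H95.chartBC (A := A) E (q * (q * L)) (J3N L (q := q)) J_E hJ) _ _ _ hpu₀) (root_push (S34.H95.chartBC (A := A) E (q * (q * L)) (J3N L (q := q)) J_E hJ) _ _ _ hpw₀) hDf ((q : ℕ) : A₁) hkerM hqu hqw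
    (fun _ v hv => hE0_real L q A hr hr12 hrL v hv)
    (fun _ v hv => hE1_real L q A hr hr12 hrL v hv) hpt
  exact key

end Real

end Fermat.Agent.S36.H9
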