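/-
helper9 — S36, row (M4-real), FINAL: `H9.middleUnit_real_S2` with the level-`L` group (G5)
DISCHARGED by helper49's `S36.H49.hkerM_J` / `hpt_J_verbatim`.  What is left are the two `E`-level
structures `h3` (helper70) and `h2` (S35.H70), the auxiliary prime `r`, and `φ hφ` (`LevelMaps.h2β`).
Form (S2) of RULING 8; at `hJ := rfl`, `hJ' := rfl` it is the (S1) spelling up to
`S35.H70.chartBC_eq_chartMapE`.
-/
import Mathlib
import Fermat.Agent.S36.H9_MiddleUnitRealS2
import Fermat.Agent.S36.H49_LevelLGoodRedInst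

set_option autoImplicit false
set_option linter.unusedSectionVars false
set_option linter.style.haveILetI false
set_option synthInstance.maxHeartbeats 400000
set_option maxHeartbeats 3200000

noncomputable section

namespace Fermat.Agent.S36.H9

open ModularCurve Polynomial IsLocalRing AlgebraicCurve Fermat.Agent.S28
open Fermat.Agent.S18 Fermat.Agent.S34.H92 Fermat.Agent.S34.H16 Fermat.Agent.S34.H55
open Fermat.Agent.S34.H83 Fermat.Agent.S36.H83 Fermat.Agent.S36.H17

local notation "Qbar" => AlgebraicClosure ℚ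

section Real

variable (L : ℕ) [NeZero L] (q : ℕ) [hq : Fact q.Prime] (hqL : ¬ q ∣ L)
  (A : ValuationSubring Qbar) (hA : A.LiesOverPrime q)
  (E : IntermediateField (H45.unrCyclo q) Qbar)

local notation "kA" => IsLocalRing.ResidueField A
local notation "A₁" => H45.A0 A q
local notation "L₁" => H45.unrCyclo q
local notation "AE" => H45.cutOver A E
local notation "F0" => modularFunctionFieldFullC (H45.unrCyclo q) L
local notation "F1E" => modularFunctionFieldFullC (E : Type) (q * L)
local notation "F2E" => modularFunctionFieldFullC (E : Type) (q * (q * L))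
local notation "FkL" => modularFunctionFieldFullC (IsLocalRing.ResidueField A) L
local notation "DL" => integralClosure
  (Algebra.adjoin (IsLocalRing.ResidueField A) {S18.H16.jK (IsLocalRing.ResidueField A) L})
  (modularFunctionFieldFullC (IsLocalRing.ResidueField A) L)
local notation "BM" => H40.chartB (H45.A0 A q) (S18.H16.jK (H45.unrCyclo q) L)

set_option maxHeartbeats 6400000 in
/-- **(M4-real), FINAL**: `H62.MiddleUnit` on the `E`-level chart 1 of level `q² L`, in the argument
shape `hM4` of `S36.H56.hE4_of_rows` / `H62.heightOne_localGen_all`, form (S2) of RULING 8 at both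
levels.  Inputs: the two `E`-level structures `h3`, `h2`; the auxiliary prime `r ≡ 11 mod 12`,
`r ∣ L`; and (G3) a ring hom `φ` from the level-`qL` chart with `red₂ ∘ φ = red₂'`
(`φ := β''`, `hφ := hL.h2β` of the `E`-level `LevelMaps`).  (G5) is helper49's
`H49.hkerM_J` / `H49.hpt_J_verbatim`. -/
theorem middleUnit_real_final
    (J_E : F2E) (hJ : H45.baseChangeE E (q * (q * L)) (J3N L (q := q)) = J_E)
    [IsNoetherianRing ↥(H40.chartB AE J_E)]
    {red₁ red₂ red₃ : ↥(H40.chartB AE J_E) →+* ↥DL}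
    (h3 : ThreeComponents red₁ red₂ red₃
      ((S34.H95.chartBC (A := A) E (q * (q * L)) (J3N L (q := q)) J_E hJ).comp (H6.iU1 L q A)) ((S34.H95.chartBC (A := A) E (q * (q * L)) (J3N L (q := q)) J_E hJ).comp (H6.iV1 L q A)) ((S34.H95.chartBC (A := A) E (q * (q * L)) (J3N L (q := q)) J_E hJ).comp (H6.iW1 L q A))
      (rbarB (Mod L hqL A hA) (Mod L hqL A hA).x_mem (Mod L hqL A hA).res1_x)
      (WR (FrM L A hA) q (hFrx L A hA)) q
      (algebraMap AE ↥(H40.chartB AE J_E) ((q : ℕ) : AE)))
    (J_E' : F1E) (hJ' : H45.baseChangeE E (q * L) (JN L (ℓ := q)) = J_E')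
    {red₁' red₂' : ↥(H40.chartB AE J_E') →+* ↥DL}
    {qB' : ↥(H40.chartB AE J_E')}
    (h2 : TwoComponents red₁' red₂'
      ((S34.H95.chartBC (A := A) E (q * L) (JN L (ℓ := q)) J_E' hJ').comp (chartMap (iotaMN L (ℓ := q)) (iotaMN_algebraMap L A) (hιint1 L A)))
      ((S34.H95.chartBC (A := A) E (q * L) (JN L (ℓ := q)) J_E' hJ').comp (chartMap (VMN L (ℓ := q)) (VMN_algebraMap L A) (hVint1 L A)))
      (rbarB (Mod L hqL A hA) (Mod L hqL A hA).x_mem (Mod L hqL A hA).res1_x)
      (WR (FrM L A hA) q (hFrx L A hA)) q qB')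
    -- the auxiliary prime (no elliptic points at level `L`)
    {r : ℕ} (hr : r.Prime) (hr12 : r % 12 = 11) (hrL : r ∣ L)
    -- (G3)
    (φ : ↥(H40.chartB AE J_E') →+* ↥(H40.chartB AE J_E))
    (hφ : ∀ z, red₂ (φ z) = red₂' z) :
    H62.MiddleUnit red₁ red₂ red₃ q (algebraMap AE ↥(H40.chartB AE J_E) ((q : ℕ) : AE)) := by
  haveI := S18.H16.isAlgClosed_k A
  haveI := S18.H16.finiteDimensional_Fk L hqL A hA
  haveI := S18.H16.isSeparable_Fk L hqL A hA
  haveI hDed : IsDedekindDomain ↥DL :=
    S18.H97.isDedekindDomain_intRing_of_isSeparable (S18.H16.jK kA L)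
      (S18.H16.transcendental_jk L A)
  have hpt := S36.H49.hpt_J_verbatim L q hqL A hA
    (S34.H95.chartBC (A := A) E (q * (q * L)) (J3N L (q := q)) J_E hJ) h3
  exact middleUnit_real_S2 L q hqL A hA E J_E hJ h3 J_E' hJ' h2 hr hr12 hrL φ hφ
    (S36.H49.hkerM_J L q hqL A hA) hpt

end Real

end Fermat.Agent.S36.H9
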