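/-
helper9 — S36, row (M4-real), FINAL in the (S1) SPELLING of RULING 8: charts
`chartB (cutOver A E) (baseChangeE E N (J3N L))`, `chartB (cutOver A E) (baseChangeE E M (JN L))`,
degeneracy maps `chartMapE ∘ ι•` (helper70's `threeComponents_cutOver_left` /
`S35.H70.twoComponents_cutOver_left` verbatim), ANY reductions (so `redE ..` plug in).
= `H9.middleUnit_real_final` at `hJ := rfl`, `hJ' := rfl` + `S35.H70.chartBC_eq_chartMapE`.
-/
import Mathlib
import Fermat.Agent.S36.H9_MiddleUnitRealFinal
import Fermat.Agent.S35.H70_TwoComponentsBCFinal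

set_option autoImplicit false
set_option linter.unusedSectionVars false
set_option linter.style.haveILetI false
set_option synthInstance.maxHeartbeats 400000
set_option maxHeartbeats 3200000

noncomputable section

namespace Fermat.Agent.S36.H9

open ModularCurve Polynomial IsLocalRing AlgebraicCurve Fermat.Agent.S28
open Fermat.Agent.S18 Fermat.Agent.S34.H92 Fermat.Agent.S34.H16 Fermat.Agent.S34.H55
open Fermat.Agent.S34.H83 Fermat.Agent.S36.H83 Fermat.Agent.S36.H17

local notation "Qbar" => AlgebraicClosure ℚ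

section Real

variable (L : ℕ) [NeZero L] (q : ℕ) [hq : Fact q.Prime] (hqL : ¬ q ∣ L)
  (A : ValuationSubring Qbar) (hA : A.LiesOverPrime q)
  (E : IntermediateField (H45.unrCyclo q) Qbar)

local notation "kA" => IsLocalRing.ResidueField A
local notation "A₁" => H45.A0 A q
local notation "L₁" => H45.unrCyclo q
local notation "AE" => H45.cutOver A E
local notation "F0" => modularFunctionFieldFullC (H45.unrCyclo q) L
local notation "F1E" => modularFunctionFieldFullC (E : Type) (q * L)
local notation "F2E" => modularFunctionFieldFullC (E : Type) (q * (q * L))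
local notation "FkL" => modularFunctionFieldFullC (IsLocalRing.ResidueField A) L
local notation "DL" => integralClosure
  (Algebra.adjoin (IsLocalRing.ResidueField A) {S18.H16.jK (IsLocalRing.ResidueField A) L})
  (modularFunctionFieldFullC (IsLocalRing.ResidueField A) L)
local notation "BM" => H40.chartB (H45.A0 A q) (S18.H16.jK (H45.unrCyclo q) L)

set_option maxHeartbeats 6400000 in
/-- **(M4-real), FINAL, (S1) spelling.** -/
theorem middleUnit_real_S1
    [IsNoetherianRing ↥(H40.chartB AE (H45.baseChangeE E (q * (q * L)) (J3N L (q := q))))]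
    {red₁ red₂ red₃ :
      ↥(H40.chartB AE (H45.baseChangeE E (q * (q * L)) (J3N L (q := q)))) →+* ↥DL}
    (h3 : ThreeComponents red₁ red₂ red₃
      ((S34.H70.chartMapE (A := A) E (q * (q * L)) (J3N L (q := q))).comp (H6.iU1 L q A))
      ((S34.H70.chartMapE (A := A) E (q * (q * L)) (J3N L (q := q))).comp (H6.iV1 L q A))
      ((S34.H70.chartMapE (A := A) E (q * (q * L)) (J3N L (q := q))).comp (H6.iW1 L q A))
      (rbarB (Mod L hqL A hA) (Mod L hqL A hA).x_mem (Mod L hqL A hA).res1_x)
      (WR (FrM L A hA) q (hFrx L A hA)) q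
      (algebraMap AE ↥(H40.chartB AE (H45.baseChangeE E (q * (q * L)) (J3N L (q := q))))
        ((q : ℕ) : AE)))
    {red₁' red₂' : ↥(H40.chartB AE (H45.baseChangeE E (q * L) (JN L (ℓ := q)))) →+* ↥DL}
    {qB' : ↥(H40.chartB AE (H45.baseChangeE E (q * L) (JN L (ℓ := q))))}
    (h2 : TwoComponents red₁' red₂'
      ((S34.H70.chartMapE (A := A) E (q * L) (JN L (ℓ := q))).comp
        (chartMap (iotaMN L (ℓ := q)) (iotaMN_algebraMap L A) (hιint1 L A)))
      ((S34.H70.chartMapE (A := A) E (q * L) (JN L (ℓ := q))).comp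
        (chartMap (VMN L (ℓ := q)) (VMN_algebraMap L A) (hVint1 L A)))
      (rbarB (Mod L hqL A hA) (Mod L hqL A hA).x_mem (Mod L hqL A hA).res1_x)
      (WR (FrM L A hA) q (hFrx L A hA)) q qB')
    {r : ℕ} (hr : r.Prime) (hr12 : r % 12 = 11) (hrL : r ∣ L)
    (φ : ↥(H40.chartB AE (H45.baseChangeE E (q * L) (JN L (ℓ := q)))) →+*
      ↥(H40.chartB AE (H45.baseChangeE E (q * (q * L)) (J3N L (q := q)))))
    (hφ : ∀ z, red₂ (φ z) = red₂' z) :
    H62.MiddleUnit red₁ red₂ red₃ q
      (algebraMap AE ↥(H40.chartB AE (H45.baseChangeE E (q * (q * L)) (J3N L (q := q))))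
        ((q : ℕ) : AE)) := by
  have e3 := S35.H70.chartBC_eq_chartMapE (A := A) E (q * (q * L)) (J3N L (q := q)) rfl
  have e2 := S35.H70.chartBC_eq_chartMapE (A := A) E (q * L) (JN L (ℓ := q)) rfl
  rw [← e3] at h3
  rw [← e2] at h2
  exact middleUnit_real_final L q hqL A hA E _ rfl h3 _ rfl h2 hr hr12 hrL φ hφ

end Real

end Fermat.Agent.S36.H9
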