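import Fermat.Agent.S36.H70_ThreeComponentsS1
import Fermat.Agent.S36.H92_M2eTop
import Fermat.Agent.S36.H83_LevelMapsES1
import Fermat.Agent.S36.H9_MiddleUnitRealS1
import Fermat.Agent.S36.H16_R3Heights
import Fermat.Agent.S36.H95_InstS1
import Fermat.Agent.S36.H70_HW4Inst
import Fermat.Agent.S36.H71_FrobRoot

/-!
# S36, (E7) block CHART-1 (helper61; helper18 #3712 (1)): the chart-1 data of
`H18.geoFn36E_of_rows` in the (S1) spelling

Binders = the `A₁`-level data of the top (`S36/H18_Model36`), nothing hidden: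
* `r₁ r₂ r₃ hq₁ hq₂ hq₃` + the conjuncts `c₁ c₂ c₃`, `TC₁E` of `S36.H70.threeComponentsS1_J3K`;
* `r₁' r₂'` + `TC' : TwoComponents ..`, `hF' : S35.H55.L0ChartFacts L hqL A hA Pi P0 r₁' r₂'`
  (= the output of `S35.H55.exists_l0ChartFacts_JK L hqL A hA Pi P0`);
* the auxiliary prime `r ∣ L`, `r % 12 = 11`.
E-level reductions, literally:
`red_i := S35.H70.redE hq.out hA E0 (q*(q*L)) (J3N L) (q : R) hunr (S36.H70.genBy_J3N L A hA E0 hunr) r_i hq_i`,
`red_j' := S35.H70.redE hq.out hA E0 (q*L) (JN L) (q : R) hunr (S35.H70.genBy_JN L hqL A hA E0) r_j' hF'.red_j_ell`.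

* `chart1_block_S1` : `∃ α β : chartB R (bc M (JN L)) →+* chartB R (bc N (J3N L)),
  hL ∧ hintα ∧ hintβ ∧ haα ∧ hbβ ∧ hαR ∧ hβR ∧ hM2 ∧ hM4`;
* `chart1_side_S1` : `hD ∧ hq1 ∧ hq2 ∧ hq3 ∧ hW2 ∧ hW4 ∧ hWq ∧ h' ∧ hq1' ∧ hq2'` (no `α β`).
-/

set_option autoImplicit false
set_option linter.unusedSectionVars false
set_option linter.style.haveILetI false
set_option synthInstance.maxHeartbeats 400000
set_option maxHeartbeats 3200000

noncomputable section

namespace Fermat.Agent.S36.H61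

open ModularCurve Polynomial IsLocalRing IntermediateField Fermat.Agent.S28
open Fermat.Agent.S18 Fermat.Agent.S34 Fermat.Agent.S34.H55 Fermat.Agent.S36.H83
open Fermat.Agent.S34.H83

local notation "Qbar" => AlgebraicClosure ℚ

section Chart1

variable (L : ℕ) [NeZero L] {q : ℕ} [hq : Fact q.Prime] (hqL : ¬ q ∣ L)
  (A : ValuationSubring Qbar) (hA : A.LiesOverPrime q)
  (E0 : IntermediateField (H45.unrCyclo q) Qbar) [FiniteDimensional (H45.unrCyclo q) E0]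

set_option quotPrecheck false
local notation "kA" => IsLocalRing.ResidueField A
local notation "A₁" => H45.A0 A q
local notation "L₁" => H45.unrCyclo q
local notation "RR" => ↥(H45.cutOver A E0)
local notation "F1" => modularFunctionFieldFullC (H45.unrCyclo q) (q * L)
local notation "F2" => modularFunctionFieldFullC (H45.unrCyclo q) (q * (q * L))
local notation "F1E" => modularFunctionFieldFullC ↥E0 (q * L)
local notation "F2E" => modularFunctionFieldFullC ↥E0 (q * (q * L))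
local notation "FkL" => modularFunctionFieldFullC (IsLocalRing.ResidueField A) L
local notation "DL" => integralClosure
  (Algebra.adjoin (IsLocalRing.ResidueField A) {S18.H16.jK (IsLocalRing.ResidueField A) L})
  (modularFunctionFieldFullC (IsLocalRing.ResidueField A) L)
local notation "B3" => H40.chartB (H45.A0 A q) (J3N L (q := q))
local notation "B2" => H40.chartB (H45.A0 A q) (JN L (ℓ := q))
local notation "B3E" => H40.chartB ↥(H45.cutOver A E0)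
  (H45.baseChangeE E0 (q * (q * L)) (J3N L (q := q)))
local notation "B2E" => H40.chartB ↥(H45.cutOver A E0)
  (H45.baseChangeE E0 (q * L) (JN L (ℓ := q)))
local notation "πq" => (((q : ℕ) : ↥(H45.cutOver A E0)))

local instance (priority := 10000) shortcutAlgE61 (N : ℕ) [NeZero N] :
    Algebra ↥E0 ↥(modularFunctionFieldFullC ↥E0 N) :=
  SubalgebraClass.toAlgebra (modularFunctionFieldFullC ↥E0 N)
local instance (priority := 10000) shortcutAlg61 (N : ℕ) [NeZero N] :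
    Algebra ↥(H45.cutOver A E0) ↥(modularFunctionFieldFullC ↥E0 N) :=
  Algebra.ofSubsemiring (H45.cutOver A E0)
local instance (priority := 10000) shortcutTower61 (N : ℕ) [NeZero N] :
    IsScalarTower ↥(H45.cutOver A E0) ↥E0 ↥(modularFunctionFieldFullC ↥E0 N) :=
  IsScalarTower.of_algebraMap_eq (fun _ => rfl)

set_option maxHeartbeats 12800000 in
/-- **CHART-1 block, the part with the level maps**: `hL hintα hintβ haα hbβ hαR hβR hM2 hM4` of
`H18.geoFn36E_of_rows` for one pair `α β`. -/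
theorem chart1_block_S1 (Pi : PlaceInf L hqL A hA) (P0 : PlaceZero L hqL A hA)
    (PA : S36.H55.PlaceA L hqL A hA P0) (PB : S36.H55.PlaceB L hqL A hA Pi)
    (PC : S36.H55.PlaceC L hqL A hA Pi)
    -- the `A₁`-level package of level `q (q L)`, chart `J₃`
    {r₁ r₂ r₃ : ↥B3 →+* ↥DL}
    (c₁ : ∀ (b : ↥B3) (h : (b : F2) ∈ S36.H55.QO1 L hqL A hA PB),
      inclk L A ((r₁ b : ↥DL) : FkL) = S36.H55.Qres1 L hqL A hA PB ⟨b, h⟩)
    (c₂ : ∀ (b : ↥B3) (h : (b : F2) ∈ S36.H55.RO1 L hqL A hA PC),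
      inclk L A ((r₂ b : ↥DL) : FkL) = S36.H55.Rres1 L hqL A hA PC ⟨b, h⟩)
    (c₃ : ∀ (b : ↥B3) (h : (b : F2) ∈ S36.H55.QO1 L hqL A hA PA),
      inclk L A ((r₃ b : ↥DL) : FkL) = S36.H55.Qres1 L hqL A hA PA ⟨b, h⟩)
    (hq₁ : r₁ (algebraMap A₁ ↥B3 ((q : ℕ) : A₁)) = 0)
    (hq₂ : r₂ (algebraMap A₁ ↥B3 ((q : ℕ) : A₁)) = 0)
    (hq₃ : r₃ (algebraMap A₁ ↥B3 ((q : ℕ) : A₁)) = 0)
    (hunr : maximalIdeal RR = Ideal.span {πq})
    (TC₁E : ThreeComponents
      (S35.H70.redE hq.out hA E0 (q * (q * L)) (J3N L (q := q)) πq hunr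
        (S36.H70.genBy_J3N L A hA E0 hunr) r₁ hq₁)
      (S35.H70.redE hq.out hA E0 (q * (q * L)) (J3N L (q := q)) πq hunr
        (S36.H70.genBy_J3N L A hA E0 hunr) r₂ hq₂)
      (S35.H70.redE hq.out hA E0 (q * (q * L)) (J3N L (q := q)) πq hunr
        (S36.H70.genBy_J3N L A hA E0 hunr) r₃ hq₃)
      ((S34.H70.chartMapE (A := A) E0 (q * (q * L)) (J3N L (q := q))).comp
        (chartMap (eU L (q := q)) (eU_algebraMap L A) (huint1 L A)))
      ((S34.H70.chartMapE (A := A) E0 (q * (q * L)) (J3N L (q := q))).comp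
        (chartMap (eV L (q := q)) (eV_algebraMap L A) (hvint1 L A)))
      ((S34.H70.chartMapE (A := A) E0 (q * (q * L)) (J3N L (q := q))).comp
        (chartMap (eW L (q := q)) (eW_algebraMap L A) (hwint1 L A)))
      (rbarB (Mod L hqL A hA) (Mod L hqL A hA).x_mem (Mod L hqL A hA).res1_x)
      (WR (FrM L A hA) q (hFrx L A hA)) q
      (algebraMap RR ↥B3E πq))
    -- the `A₁`-level package of level `q L`, chart `J`
    {r₁' r₂' : ↥B2 →+* ↥DL}
    (TC' : TwoComponents r₁' r₂'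
      (chartMap (iotaMN L (ℓ := q)) (iotaMN_algebraMap L A) (hιint1 L A))
      (chartMap (VMN L (ℓ := q)) (VMN_algebraMap L A) (hVint1 L A))
      (rbarB (Mod L hqL A hA) (Mod L hqL A hA).x_mem (Mod L hqL A hA).res1_x)
      (WR (FrM L A hA) q (hFrx L A hA)) q
      (algebraMap A₁ ↥B2 ((q : ℕ) : A₁)))
    (hF' : S35.H55.L0ChartFacts L hqL A hA Pi P0 r₁' r₂')
    {r : ℕ} (hr : r.Prime) (hr12 : r % 12 = 11) (hrL : r ∣ L) :
    ∃ α β : ↥B2E →+* ↥B3E,
      LevelMaps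
        (S35.H70.redE hq.out hA E0 (q * (q * L)) (J3N L (q := q)) πq hunr
          (S36.H70.genBy_J3N L A hA E0 hunr) r₁ hq₁)
        (S35.H70.redE hq.out hA E0 (q * (q * L)) (J3N L (q := q)) πq hunr
          (S36.H70.genBy_J3N L A hA E0 hunr) r₂ hq₂)
        (S35.H70.redE hq.out hA E0 (q * (q * L)) (J3N L (q := q)) πq hunr
          (S36.H70.genBy_J3N L A hA E0 hunr) r₃ hq₃)
        (S35.H70.redE hq.out hA E0 (q * L) (JN L (ℓ := q)) πq hunr
          (S35.H70.genBy_JN L hqL A hA E0) r₁' hF'.red₁_ell)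
        (S35.H70.redE hq.out hA E0 (q * L) (JN L (ℓ := q)) πq hunr
          (S35.H70.genBy_JN L hqL A hA E0) r₂' hF'.red₂_ell)
        α β (WR (FrM L A hA) q (hFrx L A hA)) ∧
      α.IsIntegral ∧ β.IsIntegral ∧
      (∀ x, algebraMap ↥B3E F2E (α x) =
        S36.H18.alphaK ↥E0 (q * L) (q * (q * L)) (dvd_mul_left (q * L) q)
          (algebraMap ↥B2E F1E x)) ∧
      (∀ x, algebraMap ↥B3E F2E (β x) =
        S36.H18.betaK ↥E0 q (q * L) (q * (q * L)) dvd_rfl (algebraMap ↥B2E F1E x)) ∧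
      (∀ c : RR, α (algebraMap RR ↥B2E c) = algebraMap RR ↥B3E c) ∧
      (∀ c : RR, β (algebraMap RR ↥B2E c) = algebraMap RR ↥B3E c) ∧
      S36.H62.RegularCrossings
        (S35.H70.redE hq.out hA E0 (q * L) (JN L (ℓ := q)) πq hunr
          (S35.H70.genBy_JN L hqL A hA E0) r₁' hF'.red₁_ell)
        (S35.H70.redE hq.out hA E0 (q * L) (JN L (ℓ := q)) πq hunr
          (S35.H70.genBy_JN L hqL A hA E0) r₂' hF'.red₂_ell) ∧
      S36.H62.MiddleUnit
        (S35.H70.redE hq.out hA E0 (q * (q * L)) (J3N L (q := q)) πq hunr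
          (S36.H70.genBy_J3N L A hA E0 hunr) r₁ hq₁)
        (S35.H70.redE hq.out hA E0 (q * (q * L)) (J3N L (q := q)) πq hunr
          (S36.H70.genBy_J3N L A hA E0 hunr) r₂ hq₂)
        (S35.H70.redE hq.out hA E0 (q * (q * L)) (J3N L (q := q)) πq hunr
          (S36.H70.genBy_J3N L A hA E0 hunr) r₃ hq₃)
        q (algebraMap RR ↥B3E πq) := by
  haveI := S36.H95.isNoetherianRing_chartB_bc_J3N L hA E0
  -- the level-`q L` package at the E-level
  have TC'E := S35.H70.twoComponents_cutOver_left hq.out hA E0 (q * L) (JN L (ℓ := q)) πq hunr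
    (S35.H70.genBy_JN L hqL A hA E0) TC' hF'.red₁_ell hF'.red₂_ell
  -- the clauses of `redE`
  have hc : ∀ {R₀ : Type _} [CommRing R₀] (N : ℕ) [NeZero N]
      (J : ↥(modularFunctionFieldFullC ↥(H45.unrCyclo q) N))
      (h : S35.H70.GenBy (A := A) E0 N J) (r : ↥(H40.chartB A₁ J) →+* R₀)
      (hr : r (algebraMap A₁ ↥(H40.chartB A₁ J) ((q : ℕ) : A₁)) = 0)
      (b : ↥(H40.chartB A₁ J)),
      S35.H70.redE hq.out hA E0 N J πq hunr h r hr
        (S34.H95.chartBC (A := A) E0 N J (H45.baseChangeE E0 N J) rfl b) = r b := by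
    intro R₀ _ N _ J h r hr b
    rw [S35.H70.chartBC_eq_chartMapE]
    exact S35.H70.redE_chartMapE hq.out hA E0 N J _ hunr h r hr b
  -- the `A₁`-level level maps
  have LM := S36.H96.levelMaps_J3 L hqL A hA Pi P0 PA PB PC r₁ r₂ r₃ r₁' r₂' c₁ c₂ c₃
    (fun b _ => hF'.res_inf b) (fun b _ => hF'.res_zero b)
  -- the E-level level maps
  have key := S36.H83.exists_levelMapsE_S1 L hqL A hA E0 πq hunr
    (S36.H70.genBy_J3N L A hA E0 hunr)
    (H45.baseChangeE E0 (q * (q * L)) (J3N L (q := q))) rfl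
    (H45.baseChangeE E0 (q * L) (JN L (ℓ := q))) rfl LM hq₁ hq₂ hq₃ hF'.red₁_ell hF'.red₂_ell
    (S35.H70.redE hq.out hA E0 (q * (q * L)) (J3N L (q := q)) πq hunr
      (S36.H70.genBy_J3N L A hA E0 hunr) r₁ hq₁)
    (S35.H70.redE hq.out hA E0 (q * (q * L)) (J3N L (q := q)) πq hunr
      (S36.H70.genBy_J3N L A hA E0 hunr) r₂ hq₂)
    (S35.H70.redE hq.out hA E0 (q * (q * L)) (J3N L (q := q)) πq hunr
      (S36.H70.genBy_J3N L A hA E0 hunr) r₃ hq₃)
    (hc _ _ _ r₁ hq₁) (hc _ _ _ r₂ hq₂) (hc _ _ _ r₃ hq₃)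
    (S35.H70.redE_pi hq.out hA E0 (q * (q * L)) _ _ hunr _ r₁ hq₁)
    (S35.H70.redE_pi hq.out hA E0 (q * (q * L)) _ _ hunr _ r₂ hq₂)
    (S35.H70.redE_pi hq.out hA E0 (q * (q * L)) _ _ hunr _ r₃ hq₃)
    (S35.H70.redE hq.out hA E0 (q * L) (JN L (ℓ := q)) πq hunr
      (S35.H70.genBy_JN L hqL A hA E0) r₁' hF'.red₁_ell)
    (S35.H70.redE hq.out hA E0 (q * L) (JN L (ℓ := q)) πq hunr
      (S35.H70.genBy_JN L hqL A hA E0) r₂' hF'.red₂_ell)
    (hc _ _ _ r₁' hF'.red₁_ell) (hc _ _ _ r₂' hF'.red₂_ell)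
    (S35.H70.redE_pi hq.out hA E0 (q * L) _ _ hunr _ r₁' hF'.red₁_ell)
    (S35.H70.redE_pi hq.out hA E0 (q * L) _ _ hunr _ r₂' hF'.red₂_ell)
  -- (M2)
  have hM2 := (S36.H92.regular_redE_unram L hqL A hA hr hr12 hrL Pi P0 TC' hF' E0 hunr).1
  exact key.elim fun α h => h.elim fun β h =>
    ⟨α, β, h.1, h.2.2.2.2.2.2.2.1, h.2.2.2.2.2.2.2.2, h.2.2.2.2.2.1, h.2.2.2.2.2.2.1,
      h.2.2.2.1, h.2.2.2.2.1, hM2,
      S36.H9.middleUnit_real_S1 L q hqL A hA E0 TC₁E TC'E hr hr12 hrL β (fun z => h.1.h2β z)⟩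

set_option maxHeartbeats 6400000 in
/-- **CHART-1 block, the side facts** (no level maps): `hD hq1 hq2 hq3 hW2 hW4 hWq h' hq1' hq2'` of
`H18.geoFn36E_of_rows`, in this order. -/
theorem chart1_side_S1 (Pi : PlaceInf L hqL A hA) (P0 : PlaceZero L hqL A hA)
    {r₁ r₂ r₃ : ↥B3 →+* ↥DL}
    (hq₁ : r₁ (algebraMap A₁ ↥B3 ((q : ℕ) : A₁)) = 0)
    (hq₂ : r₂ (algebraMap A₁ ↥B3 ((q : ℕ) : A₁)) = 0)
    (hq₃ : r₃ (algebraMap A₁ ↥B3 ((q : ℕ) : A₁)) = 0)
    (hunr : maximalIdeal RR = Ideal.span {πq})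
    {r₁' r₂' : ↥B2 →+* ↥DL}
    (TC' : TwoComponents r₁' r₂'
      (chartMap (iotaMN L (ℓ := q)) (iotaMN_algebraMap L A) (hιint1 L A))
      (chartMap (VMN L (ℓ := q)) (VMN_algebraMap L A) (hVint1 L A))
      (rbarB (Mod L hqL A hA) (Mod L hqL A hA).x_mem (Mod L hqL A hA).res1_x)
      (WR (FrM L A hA) q (hFrx L A hA)) q
      (algebraMap A₁ ↥B2 ((q : ℕ) : A₁)))
    (hF' : S35.H55.L0ChartFacts L hqL A hA Pi P0 r₁' r₂') :
    (¬ IsField ↥DL) ∧
    (S35.H70.redE hq.out hA E0 (q * (q * L)) (J3N L (q := q)) πq hunr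
        (S36.H70.genBy_J3N L A hA E0 hunr) r₁ hq₁) (algebraMap RR ↥B3E πq) = 0 ∧
    (S35.H70.redE hq.out hA E0 (q * (q * L)) (J3N L (q := q)) πq hunr
        (S36.H70.genBy_J3N L A hA E0 hunr) r₂ hq₂) (algebraMap RR ↥B3E πq) = 0 ∧
    (S35.H70.redE hq.out hA E0 (q * (q * L)) (J3N L (q := q)) πq hunr
        (S36.H70.genBy_J3N L A hA E0 hunr) r₃ hq₃) (algebraMap RR ↥B3E πq) = 0 ∧
    (∃ d : ↥DL, WR (FrM L A hA) q (hFrx L A hA) (WR (FrM L A hA) q (hFrx L A hA) d) ≠ d) ∧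
    (∃ d : ↥DL, WR (FrM L A hA) q (hFrx L A hA) (WR (FrM L A hA) q (hFrx L A hA)
      (WR (FrM L A hA) q (hFrx L A hA) (WR (FrM L A hA) q (hFrx L A hA) d))) ≠ d) ∧
    (∀ x : ↥DL, ∃ x₂ : ↥DL, WR (FrM L A hA) q (hFrx L A hA) x₂ = x ^ q) ∧
    TwoComponents
      (S35.H70.redE hq.out hA E0 (q * L) (JN L (ℓ := q)) πq hunr
        (S35.H70.genBy_JN L hqL A hA E0) r₁' hF'.red₁_ell)
      (S35.H70.redE hq.out hA E0 (q * L) (JN L (ℓ := q)) πq hunr
        (S35.H70.genBy_JN L hqL A hA E0) r₂' hF'.red₂_ell)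
      ((S34.H70.chartMapE (A := A) E0 (q * L) (JN L (ℓ := q))).comp
        (chartMap (iotaMN L (ℓ := q)) (iotaMN_algebraMap L A) (hιint1 L A)))
      ((S34.H70.chartMapE (A := A) E0 (q * L) (JN L (ℓ := q))).comp
        (chartMap (VMN L (ℓ := q)) (VMN_algebraMap L A) (hVint1 L A)))
      (rbarB (Mod L hqL A hA) (Mod L hqL A hA).x_mem (Mod L hqL A hA).res1_x)
      (WR (FrM L A hA) q (hFrx L A hA)) q
      (algebraMap RR ↥B2E πq) ∧
    (S35.H70.redE hq.out hA E0 (q * L) (JN L (ℓ := q)) πq hunr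
        (S35.H70.genBy_JN L hqL A hA E0) r₁' hF'.red₁_ell) (algebraMap RR ↥B2E πq) = 0 ∧
    (S35.H70.redE hq.out hA E0 (q * L) (JN L (ℓ := q)) πq hunr
        (S35.H70.genBy_JN L hqL A hA E0) r₂' hF'.red₂_ell) (algebraMap RR ↥B2E πq) = 0 :=
  ⟨hF'.notField,
    S35.H70.redE_pi hq.out hA E0 (q * (q * L)) _ _ hunr _ r₁ hq₁,
    S35.H70.redE_pi hq.out hA E0 (q * (q * L)) _ _ hunr _ r₂ hq₂,
    S35.H70.redE_pi hq.out hA E0 (q * (q * L)) _ _ hunr _ r₃ hq₃,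
    S36.H70.hW2_J3K L A hA, S36.H70.hW4_J3K L A hA,
    fun x => S36.H71.exists_WR_eq_pow_jK L hA x,
    S35.H70.twoComponents_cutOver_left hq.out hA E0 (q * L) (JN L (ℓ := q)) πq hunr
      (S35.H70.genBy_JN L hqL A hA E0) TC' hF'.red₁_ell hF'.red₂_ell,
    S35.H70.redE_pi hq.out hA E0 (q * L) _ _ hunr _ r₁' hF'.red₁_ell,
    S35.H70.redE_pi hq.out hA E0 (q * L) _ _ hunr _ r₂' hF'.red₂_ell⟩

end Chart1

end Fermat.Agent.S36.H61
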