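/-
helper61 — S36 row (E7)/(r1), part 2: **`crit36` at the real types.**

`R := H45.cutOver A E0` (`E0` a finite extension of `K1 = unrCyclo q` inside `Qbar`, UNRAMIFIED at
`A`: `hun : maximalIdeal R = (q)`, helper45's `(D1b)` export), `K := ↥E0`,
`F := modularFunctionFieldFullC ↥E0 N` (`q² ∣ N`), `J := S36.H83.J3K ↥E0 N q hq2 =
j(z) j(qz) j(q²z)`, `π := (q : R)`, `B₁ := chartB R J`, `B₂ := chartB R J⁻¹`.

`crit36_real` : every base-ring / function-field hypothesis of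
`S36.H61.crit36_of_threeComponents` is discharged at the concrete types (DVR, uniformiser `q`,
residue field algebraically closed, `J₃` transcendental, `F / K(J₃)` finite separable, the two
charts noetherian normal with fraction field `F`, `E0` algebraically closed in `F`, `l ≠ q` a unit,
primitive `l`-th root of unity, `l`-th roots modulo `q`).  What is left = the two
`ThreeComponents` packages over `R` (row (E2): `TC₁` on `B₁`, `TC₂` on `B₂`, with `CharP D q`,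
`W² ≠ id`, `W⁴ ≠ id`) and the identification of the two labellings `hV` (row (E2)/(M1)).

`hun` is produced from helper45's `hfix` (`E0` pointwise fixed by the inertia group of `A`) by
`S36.H45.maximalIdeal_cutOver_eq_span_natCast_of_fixed hq hA E0 hfix`; the six chart instances by
helper95's `S36.H95.isNoetherianRing_chartB_J3K(_inv)`, `isIntegrallyClosed_chartB_J3K(_inv)`,
`isFractionRing_chartB_J3K(_inv)`; the heights by `S36.H61.vertFam_height`.
-/
import Mathlib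
import Fermat.Agent.S36.H61_Crit36Three
import Fermat.Agent.S36.H95_CoordJ3Inst
import Fermat.Agent.S34.H47_BaseRing
import Fermat.Agent.CA.H92_LaurentConst
import Fermat.Agent.S18.H45_CutOverPoint

set_option autoImplicit false
set_option linter.unusedSectionVars false
set_option linter.style.haveILetI false
set_option synthInstance.maxHeartbeats 400000
set_option maxHeartbeats 3200000

noncomputable section

namespace Fermat.Agent.S36.H61

open ModularCurve HahnSeries IntermediateField IsLocalRing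
open Fermat.Agent.S18 Fermat.Agent.S18.H45

local notation "Qbar" => AlgebraicClosure ℚ

variable {A : ValuationSubring Qbar} {q : ℕ} (hq : q.Prime) (hA : A.LiesOverPrime q)
variable (E0 : IntermediateField (unrCyclo q) Qbar) [FiniteDimensional (unrCyclo q) E0]
variable (N : ℕ) [NeZero N] [NeZero q] (hq2 : q * q ∣ N)

include hq hA in
/-- **`crit36` at the real types** (unramified base `R = cutOver A E0`, coordinate `J₃`). -/
theorem crit36_real
    (hun : maximalIdeal (cutOver A E0) = Ideal.span {((q : ℕ) : cutOver A E0)})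
    {D BM : Type*} [CommRing D] [IsDomain D] [CommRing BM]
    {r₁ r₂ r₃ : ↥(H40.chartB (cutOver A E0) (S36.H83.J3K ↥E0 N q hq2)) →+* D}
    {ιu ιv ιw : BM →+* ↥(H40.chartB (cutOver A E0) (S36.H83.J3K ↥E0 N q hq2))}
    {rbar : BM →+* D} {W : D →+* D}
    {qB₁ : ↥(H40.chartB (cutOver A E0) (S36.H83.J3K ↥E0 N q hq2))}
    (hqB₁ : qB₁ = algebraMap (cutOver A E0)
      ↥(H40.chartB (cutOver A E0) (S36.H83.J3K ↥E0 N q hq2)) ((q : ℕ) : cutOver A E0))
    (TC₁ : S36.H83.ThreeComponents r₁ r₂ r₃ ιu ιv ιw rbar W q qB₁)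
    (hq₁ : r₁ qB₁ = 0) (hq₂ : r₂ qB₁ = 0) (hq₃ : r₃ qB₁ = 0)
    (hW2 : ∃ d : D, W (W d) ≠ d) (hW4 : ∃ d : D, W (W (W (W d))) ≠ d)
    {D' BM' : Type*} [CommRing D'] [IsDomain D'] [CommRing BM']
    {s₁ s₂ s₃ : ↥(H40.chartB (cutOver A E0) (S36.H83.J3K ↥E0 N q hq2)⁻¹) →+* D'}
    {κu κv κw : BM' →+* ↥(H40.chartB (cutOver A E0) (S36.H83.J3K ↥E0 N q hq2)⁻¹)}
    {sbar : BM' →+* D'} {W' : D' →+* D'}
    {qB₂ : ↥(H40.chartB (cutOver A E0) (S36.H83.J3K ↥E0 N q hq2)⁻¹)}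
    (hqB₂ : qB₂ = algebraMap (cutOver A E0)
      ↥(H40.chartB (cutOver A E0) (S36.H83.J3K ↥E0 N q hq2)⁻¹) ((q : ℕ) : cutOver A E0))
    (TC₂ : S36.H83.ThreeComponents s₁ s₂ s₃ κu κv κw sbar W' q qB₂)
    (hq₁' : s₁ qB₂ = 0) (hq₂' : s₂ qB₂ = 0) (hq₃' : s₃ qB₂ = 0)
    (hW2' : ∃ d : D', W' (W' d) ≠ d) (hW4' : ∃ d : D', W' (W' (W' (W' d))) ≠ d)
    (P₁ : Fin 3 → Ideal ↥(H40.chartB (cutOver A E0) (S36.H83.J3K ↥E0 N q hq2)))
    (P₂ : Fin 3 → Ideal ↥(H40.chartB (cutOver A E0) (S36.H83.J3K ↥E0 N q hq2)⁻¹))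
    (e10 : P₁ 0 = RingHom.ker r₁) (e11 : P₁ 1 = RingHom.ker r₂) (e12 : P₁ 2 = RingHom.ker r₃)
    (e20 : P₂ 0 = RingHom.ker s₁) (e21 : P₂ 1 = RingHom.ker s₂) (e22 : P₂ 2 = RingHom.ker s₃)
    [hP₁ : ∀ i, (P₁ i).IsPrime] [hP₂ : ∀ i, (P₂ i).IsPrime]
    [hN₁ : IsNoetherianRing ↥(H40.chartB (cutOver A E0) (S36.H83.J3K ↥E0 N q hq2))]
    [hI₁ : IsIntegrallyClosed ↥(H40.chartB (cutOver A E0) (S36.H83.J3K ↥E0 N q hq2))]
    [hF₁ : IsFractionRing ↥(H40.chartB (cutOver A E0) (S36.H83.J3K ↥E0 N q hq2))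
      (modularFunctionFieldFullC ↥E0 N)]
    [hN₂ : IsNoetherianRing ↥(H40.chartB (cutOver A E0) (S36.H83.J3K ↥E0 N q hq2)⁻¹)]
    [hI₂ : IsIntegrallyClosed ↥(H40.chartB (cutOver A E0) (S36.H83.J3K ↥E0 N q hq2)⁻¹)]
    [hF₂ : IsFractionRing ↥(H40.chartB (cutOver A E0) (S36.H83.J3K ↥E0 N q hq2)⁻¹)
      (modularFunctionFieldFullC ↥E0 N)]
    (hh₁ : ∀ i, (P₁ i).height = 1) (hh₂ : ∀ i, (P₂ i).height = 1)
    (hV : ∀ i, S34.H56.valuationSubringAt (K := modularFunctionFieldFullC ↥E0 N) (P₁ i) (hh₁ i) =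
      S34.H56.valuationSubringAt (K := modularFunctionFieldFullC ↥E0 N) (P₂ i) (hh₂ i))
    {l : ℕ} (hl : l.Prime) (hlq : l ≠ q) :
    ∀ (k : ℕ) (u : modularFunctionFieldFullC ↥E0 N), u ≠ 0 →
      S36.H67.RadDatum
        (S34.H21.ptO (H40.chartB (cutOver A E0) (S36.H83.J3K ↥E0 N q hq2))
          (H40.chartB (cutOver A E0) (S36.H83.J3K ↥E0 N q hq2)⁻¹) ((q : ℕ) : cutOver A E0))
        (fun i => S34.H56.valuationSubringAt (K := modularFunctionFieldFullC ↥E0 N) (P₁ i)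
          (hh₁ i))
        (S34.H21.primeThr (π := ((q : ℕ) : cutOver A E0)) P₁ P₂) u (l ^ k) →
      ∃ (c : ↥E0) (g : modularFunctionFieldFullC ↥E0 N),
        u = algebraMap ↥E0 (modularFunctionFieldFullC ↥E0 N) c * g ^ (l ^ k) := by
  haveI := isDiscreteValuationRing_cutOver hq hA E0
  haveI := isAlgClosed_residueField_cutOver hq hA E0
  haveI := S36.H83.finiteDimensional_J3K ↥E0 N q hq2 (H99.natCast_ne_zero₀ N ↥E0)
  haveI := S36.H83.isSeparable_J3K ↥E0 N q hq2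
  have hπ : Irreducible ((q : ℕ) : cutOver A E0) :=
    irreducible_of_maximalIdeal_cutOver_eq hq hA E0 hun
  have hnd : ¬ q ∣ l := fun h => hlq ((Nat.prime_dvd_prime_iff_eq hq hl).mp h).symm
  obtain ⟨ζ, hζ⟩ := S34.H47.exists_isPrimitiveRoot_cutOver (A := A) E0 hl.ne_zero hnd
  have hlu := S34.H47.isUnit_natCast_cutOver hq hA E0 hnd
  have hcl : ∀ z : modularFunctionFieldFullC ↥E0 N, IsAlgebraic ↥E0 z →
      z ∈ (algebraMap ↥E0 (modularFunctionFieldFullC ↥E0 N)).range := fun z hz =>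
    Fermat.Agent.CA.H92.mem_range_of_isAlgebraic_intermediateField
      (modularFunctionFieldFullC ↥E0 N) z hz
  subst hqB₁ hqB₂
  have key := crit36_of_threeComponents (R := cutOver A E0) (K := ↥E0)
    (S36.H83.J3K ↥E0 N q hq2) (S36.H83.transcendental_J3K ↥E0 N q hq2)
    ((q : ℕ) : cutOver A E0) hπ hcl hl hlu hζ
    (fun r hr => S34.H47.exists_root_mod hun hl.pos r hr) hq hlq.symm (dvd_refl _)
    TC₁ hq₁ hq₂ hq₃ hW2 hW4 TC₂ hq₁' hq₂' hq₃' hW2' hW4' P₁ P₂ e10 e11 e12 e20 e21 e22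
    hh₁ hh₂ hV
  exact key

end Fermat.Agent.S36.H61
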