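import Fermat.Agent.S36.H61_HVFinal
import Fermat.Agent.S36.H61_Crit36Real

/-!
# S36, row (r1) (helper61), final form: `crit36` from the (E2) packages, `hV` discharged

`S36.H61.crit36_real` with `hV := S36.H61.hVeq_of_placeSide` and `hW2 hW4 := S36.H62.hW2_hW4_JK(_inv)`:
the `crit` binder of `S36.H18.geoFn36E_of_twoCharts` at
`B₁ := chartB (cutOver A E0) J₃`, `B₂ := chartB (cutOver A E0) J₃⁻¹`,
`J₃ := S36.H83.J3K ↥E0 (q * (q * L)) q _`, from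
* helper83's `PlaceSide` package and the conclusions of `S36.H83.threeComponents_J3K(_inv)`,
* the conclusion of helper70's `S36.H70.exists_threeComponents_chartBC_unram` on both charts.
-/

set_option autoImplicit false
set_option linter.unusedSectionVars false
set_option linter.style.haveILetI false
set_option synthInstance.maxHeartbeats 400000
set_option maxHeartbeats 3200000

noncomputable section

namespace Fermat.Agent.S36.H61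

open ModularCurve Polynomial IsLocalRing IntermediateField Fermat.Agent.S28
open Fermat.Agent.S18 Fermat.Agent.S34 Fermat.Agent.S34.H55 Fermat.Agent.S36.H83

local notation "Qbar" => AlgebraicClosure ℚ

section Final

variable (L : ℕ) [NeZero L] {q : ℕ} [hq : Fact q.Prime] (hqL : ¬ q ∣ L)
  (A : ValuationSubring Qbar) (hA : A.LiesOverPrime q)

local notation "kA" => IsLocalRing.ResidueField A
local notation "A₁" => H45.A0 A q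
local notation "L₁" => H45.unrCyclo q
local notation "F2" => modularFunctionFieldFullC (H45.unrCyclo q) (q * (q * L))
local notation "FkL" => modularFunctionFieldFullC (IsLocalRing.ResidueField A) L

set_option maxHeartbeats 6400000 in
/-- **`crit36` at the real types from the (E2) packages** (`hV`, `hW2`, `hW4`, all instances
discharged). -/
theorem crit36_of_placeSide
    {Oa : Subring F2} {reda : Oa →+* LaurentSeries kA}
    {Oc : Subring F2} {redc : Oc →+* LaurentSeries kA}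
    {Ob : Subring F2} {redb : Ob →+* LaurentSeries kA} {τ : F2}
    (P : PlaceSide L hqL A hA Oa reda Oc redc Ob redb τ)
    (inv_a : ∀ (y : F2) (hy : y ∈ Oa), reda ⟨y, hy⟩ ≠ 0 → y⁻¹ ∈ Oa)
    (mem_a : ∀ y : F2, y ∈ Oa ∨ y⁻¹ ∈ Oa)
    (mem_c : ∀ y : F2, y ∈ Oc ∨ y⁻¹ ∈ Oc)
    (inv_b : ∀ (y : F2) (hy : y ∈ Ob), redb ⟨y, hy⟩ ≠ 0 → y⁻¹ ∈ Ob)
    (mem_b : ∀ y : F2, y ∈ Ob ∨ y⁻¹ ∈ Ob)
    -- the `A₁`-level package, chart `J₃`
    {r₁ r₂ r₃ : ↥(H40.chartB A₁ (J3N L (q := q))) →+*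
      ↥(integralClosure (Algebra.adjoin kA {S18.H16.jK kA L}) FkL)}
    (c₁ : ∀ (b : ↥(H40.chartB A₁ (J3N L (q := q)))) (h : (b : F2) ∈ Oa),
      inclk L A ((r₁ b : ↥(integralClosure (Algebra.adjoin kA {S18.H16.jK kA L}) FkL)) : FkL) =
        reda ⟨b, h⟩)
    (c₂ : ∀ (b : ↥(H40.chartB A₁ (J3N L (q := q)))) (h : (b : F2) ∈ Oc),
      inclk L A ((r₂ b : ↥(integralClosure (Algebra.adjoin kA {S18.H16.jK kA L}) FkL)) : FkL) =
        redc ⟨b, h⟩)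
    (c₃ : ∀ (b : ↥(H40.chartB A₁ (J3N L (q := q)))) (h : (b : F2) ∈ Ob),
      inclk L A ((r₃ b : ↥(integralClosure (Algebra.adjoin kA {S18.H16.jK kA L}) FkL)) : FkL) =
        redb ⟨b, h⟩)
    (hq₁ : r₁ (algebraMap A₁ ↥(H40.chartB A₁ (J3N L (q := q))) ((q : ℕ) : A₁)) = 0)
    (hq₂ : r₂ (algebraMap A₁ ↥(H40.chartB A₁ (J3N L (q := q))) ((q : ℕ) : A₁)) = 0)
    (hq₃ : r₃ (algebraMap A₁ ↥(H40.chartB A₁ (J3N L (q := q))) ((q : ℕ) : A₁)) = 0)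
    (TC₁ : ThreeComponents r₁ r₂ r₃
      (chartMap (eU L (q := q)) (eU_algebraMap L A) (huint1 L A))
      (chartMap (eV L (q := q)) (eV_algebraMap L A) (hvint1 L A))
      (chartMap (eW L (q := q)) (eW_algebraMap L A) (hwint1 L A))
      (rbarB (Mod L hqL A hA) (Mod L hqL A hA).x_mem (Mod L hqL A hA).res1_x)
      (WR (FrM L A hA) q (hFrx L A hA)) q
      (algebraMap A₁ ↥(H40.chartB A₁ (J3N L (q := q))) ((q : ℕ) : A₁)))
    -- the `A₁`-level package, chart `J₃⁻¹`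
    {s₁ s₂ s₃ : ↥(H40.chartB A₁ (J3N L (q := q))⁻¹) →+*
      ↥(integralClosure (Algebra.adjoin kA {(S18.H16.jK kA L)⁻¹}) FkL)}
    (d₁ : ∀ (b : ↥(H40.chartB A₁ (J3N L (q := q))⁻¹)) (h : (b : F2) ∈ Oa),
      inclk L A ((s₁ b : ↥(integralClosure (Algebra.adjoin kA {(S18.H16.jK kA L)⁻¹}) FkL)) : FkL) =
        reda ⟨b, h⟩)
    (d₂ : ∀ (b : ↥(H40.chartB A₁ (J3N L (q := q))⁻¹)) (h : (b : F2) ∈ Oc),
      inclk L A ((s₂ b : ↥(integralClosure (Algebra.adjoin kA {(S18.H16.jK kA L)⁻¹}) FkL)) : FkL) =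
        redc ⟨b, h⟩)
    (d₃ : ∀ (b : ↥(H40.chartB A₁ (J3N L (q := q))⁻¹)) (h : (b : F2) ∈ Ob),
      inclk L A ((s₃ b : ↥(integralClosure (Algebra.adjoin kA {(S18.H16.jK kA L)⁻¹}) FkL)) : FkL) =
        redb ⟨b, h⟩)
    (hq₁' : s₁ (algebraMap A₁ ↥(H40.chartB A₁ (J3N L (q := q))⁻¹) ((q : ℕ) : A₁)) = 0)
    (hq₂' : s₂ (algebraMap A₁ ↥(H40.chartB A₁ (J3N L (q := q))⁻¹) ((q : ℕ) : A₁)) = 0)
    (hq₃' : s₃ (algebraMap A₁ ↥(H40.chartB A₁ (J3N L (q := q))⁻¹) ((q : ℕ) : A₁)) = 0)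
    (TC₂ : ThreeComponents s₁ s₂ s₃
      (chartMap (eU L (q := q)) (eU_algebraMap L A) (huint2 L A))
      (chartMap (eV L (q := q)) (eV_algebraMap L A) (hvint2 L A))
      (chartMap (eW L (q := q)) (eW_algebraMap L A) (hwint2 L A))
      (rbarB (Mod L hqL A hA) (hc2 L hqL A hA) (hcw2 L hqL A hA))
      (WR (FrM L A hA) q (hFrx_inv L A hA)) q
      (algebraMap A₁ ↥(H40.chartB A₁ (J3N L (q := q))⁻¹) ((q : ℕ) : A₁)))
    -- the `cutOver A E0`-level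
    (E0 : IntermediateField (H45.unrCyclo q) Qbar) [FiniteDimensional (H45.unrCyclo q) E0]
    (hunr : maximalIdeal ↥(H45.cutOver A E0) = Ideal.span {((q : ℕ) : ↥(H45.cutOver A E0))})
    (hJ : H45.baseChangeE E0 (q * (q * L)) (J3N L (q := q)) =
      S36.H83.J3K ↥E0 (q * (q * L)) q (hq2_dvd L))
    (hJ' : H45.baseChangeE E0 (q * (q * L)) (J3N L (q := q))⁻¹ =
      (S36.H83.J3K ↥E0 (q * (q * L)) q (hq2_dvd L))⁻¹)
    {r₁'' r₂'' r₃'' : ↥(H40.chartB ↥(H45.cutOver A E0)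
        (S36.H83.J3K ↥E0 (q * (q * L)) q (hq2_dvd L))) →+*
      ↥(integralClosure (Algebra.adjoin kA {S18.H16.jK kA L}) FkL)}
    {s₁'' s₂'' s₃'' : ↥(H40.chartB ↥(H45.cutOver A E0)
        (S36.H83.J3K ↥E0 (q * (q * L)) q (hq2_dvd L))⁻¹) →+*
      ↥(integralClosure (Algebra.adjoin kA {(S18.H16.jK kA L)⁻¹}) FkL)}
    (hc₁ : ∀ b, r₁'' (S34.H95.chartBC (A := A) E0 (q * (q * L)) (J3N L (q := q))
      (S36.H83.J3K ↥E0 (q * (q * L)) q (hq2_dvd L)) hJ b) = r₁ b)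
    (hc₂ : ∀ b, r₂'' (S34.H95.chartBC (A := A) E0 (q * (q * L)) (J3N L (q := q))
      (S36.H83.J3K ↥E0 (q * (q * L)) q (hq2_dvd L)) hJ b) = r₂ b)
    (hc₃ : ∀ b, r₃'' (S34.H95.chartBC (A := A) E0 (q * (q * L)) (J3N L (q := q))
      (S36.H83.J3K ↥E0 (q * (q * L)) q (hq2_dvd L)) hJ b) = r₃ b)
    (hl₁ : r₁'' (algebraMap ↥(H45.cutOver A E0)
      ↥(H40.chartB ↥(H45.cutOver A E0) (S36.H83.J3K ↥E0 (q * (q * L)) q (hq2_dvd L)))
      ((q : ℕ) : ↥(H45.cutOver A E0))) = 0)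
    (hl₂ : r₂'' (algebraMap ↥(H45.cutOver A E0)
      ↥(H40.chartB ↥(H45.cutOver A E0) (S36.H83.J3K ↥E0 (q * (q * L)) q (hq2_dvd L)))
      ((q : ℕ) : ↥(H45.cutOver A E0))) = 0)
    (hl₃ : r₃'' (algebraMap ↥(H45.cutOver A E0)
      ↥(H40.chartB ↥(H45.cutOver A E0) (S36.H83.J3K ↥E0 (q * (q * L)) q (hq2_dvd L)))
      ((q : ℕ) : ↥(H45.cutOver A E0))) = 0)
    (hd₁ : ∀ b, s₁'' (S34.H95.chartBC (A := A) E0 (q * (q * L)) (J3N L (q := q))⁻¹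
      (S36.H83.J3K ↥E0 (q * (q * L)) q (hq2_dvd L))⁻¹ hJ' b) = s₁ b)
    (hd₂ : ∀ b, s₂'' (S34.H95.chartBC (A := A) E0 (q * (q * L)) (J3N L (q := q))⁻¹
      (S36.H83.J3K ↥E0 (q * (q * L)) q (hq2_dvd L))⁻¹ hJ' b) = s₂ b)
    (hd₃ : ∀ b, s₃'' (S34.H95.chartBC (A := A) E0 (q * (q * L)) (J3N L (q := q))⁻¹
      (S36.H83.J3K ↥E0 (q * (q * L)) q (hq2_dvd L))⁻¹ hJ' b) = s₃ b)
    (hl₁' : s₁'' (algebraMap ↥(H45.cutOver A E0)
      ↥(H40.chartB ↥(H45.cutOver A E0) (S36.H83.J3K ↥E0 (q * (q * L)) q (hq2_dvd L))⁻¹)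
      ((q : ℕ) : ↥(H45.cutOver A E0))) = 0)
    (hl₂' : s₂'' (algebraMap ↥(H45.cutOver A E0)
      ↥(H40.chartB ↥(H45.cutOver A E0) (S36.H83.J3K ↥E0 (q * (q * L)) q (hq2_dvd L))⁻¹)
      ((q : ℕ) : ↥(H45.cutOver A E0))) = 0)
    (hl₃' : s₃'' (algebraMap ↥(H45.cutOver A E0)
      ↥(H40.chartB ↥(H45.cutOver A E0) (S36.H83.J3K ↥E0 (q * (q * L)) q (hq2_dvd L))⁻¹)
      ((q : ℕ) : ↥(H45.cutOver A E0))) = 0)
    -- the labelled families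
    (P₁ : Fin 3 → Ideal ↥(H40.chartB ↥(H45.cutOver A E0)
      (S36.H83.J3K ↥E0 (q * (q * L)) q (hq2_dvd L))))
    (P₂ : Fin 3 → Ideal ↥(H40.chartB ↥(H45.cutOver A E0)
      (S36.H83.J3K ↥E0 (q * (q * L)) q (hq2_dvd L))⁻¹))
    (e10 : P₁ 0 = RingHom.ker r₁'') (e11 : P₁ 1 = RingHom.ker r₂'') (e12 : P₁ 2 = RingHom.ker r₃'')
    (e20 : P₂ 0 = RingHom.ker s₁'') (e21 : P₂ 1 = RingHom.ker s₂'') (e22 : P₂ 2 = RingHom.ker s₃'')
    [hP₁ : ∀ i, (P₁ i).IsPrime] [hP₂ : ∀ i, (P₂ i).IsPrime]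
    (hh₁ : ∀ i, (P₁ i).height = 1) (hh₂ : ∀ i, (P₂ i).height = 1)
    -- the `cutOver A E0`-level `ThreeComponents` packages
    {BM₁ BM₂ : Type*} [CommRing BM₁] [CommRing BM₂]
    {ιu₁ ιv₁ ιw₁ : BM₁ →+* ↥(H40.chartB ↥(H45.cutOver A E0)
      (S36.H83.J3K ↥E0 (q * (q * L)) q (hq2_dvd L)))}
    {rbar₁ : BM₁ →+* ↥(integralClosure (Algebra.adjoin kA {S18.H16.jK kA L}) FkL)}
    (TC₁'' : ThreeComponents r₁'' r₂'' r₃'' ιu₁ ιv₁ ιw₁ rbar₁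
      (WR (FrM L A hA) q (hFrx L A hA)) q
      (algebraMap ↥(H45.cutOver A E0)
        ↥(H40.chartB ↥(H45.cutOver A E0) (S36.H83.J3K ↥E0 (q * (q * L)) q (hq2_dvd L)))
        ((q : ℕ) : ↥(H45.cutOver A E0))))
    {ιu₂ ιv₂ ιw₂ : BM₂ →+* ↥(H40.chartB ↥(H45.cutOver A E0)
      (S36.H83.J3K ↥E0 (q * (q * L)) q (hq2_dvd L))⁻¹)}
    {rbar₂ : BM₂ →+* ↥(integralClosure (Algebra.adjoin kA {(S18.H16.jK kA L)⁻¹}) FkL)}
    (TC₂'' : ThreeComponents s₁'' s₂'' s₃'' ιu₂ ιv₂ ιw₂ rbar₂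
      (WR (FrM L A hA) q (hFrx_inv L A hA)) q
      (algebraMap ↥(H45.cutOver A E0)
        ↥(H40.chartB ↥(H45.cutOver A E0) (S36.H83.J3K ↥E0 (q * (q * L)) q (hq2_dvd L))⁻¹)
        ((q : ℕ) : ↥(H45.cutOver A E0))))
    {l : ℕ} (hl : l.Prime) (hlq : l ≠ q) :
    haveI := S36.H95.isNoetherianRing_chartB_J3K hq.out hA E0 (q * (q * L)) q (hq2_dvd L)
    haveI := S36.H95.isIntegrallyClosed_chartB_J3K (A := A) E0 (q * (q * L)) q (hq2_dvd L)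
    haveI := S36.H95.isFractionRing_chartB_J3K (A := A) E0 (q * (q * L)) q (hq2_dvd L)
    haveI := S36.H95.isNoetherianRing_chartB_J3K_inv hq.out hA E0 (q * (q * L)) q (hq2_dvd L)
    haveI := S36.H95.isIntegrallyClosed_chartB_J3K_inv (A := A) E0 (q * (q * L)) q (hq2_dvd L)
    haveI := S36.H95.isFractionRing_chartB_J3K_inv (A := A) E0 (q * (q * L)) q (hq2_dvd L)
    ∀ (k : ℕ) (u : ↥(modularFunctionFieldFullC ↥E0 (q * (q * L)))), u ≠ 0 →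
      S36.H67.RadDatum
        (S34.H21.ptO
          (H40.chartB ↥(H45.cutOver A E0) (S36.H83.J3K ↥E0 (q * (q * L)) q (hq2_dvd L)))
          (H40.chartB ↥(H45.cutOver A E0) (S36.H83.J3K ↥E0 (q * (q * L)) q (hq2_dvd L))⁻¹)
          ((q : ℕ) : ↥(H45.cutOver A E0)))
        (fun i => S34.H56.valuationSubringAt
          (K := ↥(modularFunctionFieldFullC ↥E0 (q * (q * L)))) (P₁ i) (hh₁ i))
        (S34.H21.primeThr (π := ((q : ℕ) : ↥(H45.cutOver A E0))) P₁ P₂) u (l ^ k) →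
      ∃ (c : ↥E0) (g : ↥(modularFunctionFieldFullC ↥E0 (q * (q * L)))),
        u = algebraMap ↥E0 ↥(modularFunctionFieldFullC ↥E0 (q * (q * L))) c * g ^ (l ^ k) := by
  haveI := S36.H95.isNoetherianRing_chartB_J3K hq.out hA E0 (q * (q * L)) q (hq2_dvd L)
  haveI := S36.H95.isIntegrallyClosed_chartB_J3K (A := A) E0 (q * (q * L)) q (hq2_dvd L)
  haveI := S36.H95.isFractionRing_chartB_J3K (A := A) E0 (q * (q * L)) q (hq2_dvd L)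
  haveI := S36.H95.isNoetherianRing_chartB_J3K_inv hq.out hA E0 (q * (q * L)) q (hq2_dvd L)
  haveI := S36.H95.isIntegrallyClosed_chartB_J3K_inv (A := A) E0 (q * (q * L)) q (hq2_dvd L)
  haveI := S36.H95.isFractionRing_chartB_J3K_inv (A := A) E0 (q * (q * L)) q (hq2_dvd L)
  have hW := S36.H62.hW2_hW4_JK L A hA
  have hW' := S36.H62.hW2_hW4_JK_inv L A hA
  have hV := hVeq_of_placeSide L hqL A hA P inv_a mem_a mem_c inv_b mem_b c₁ c₂ c₃ hq₁ hq₂ hq₃ TC₁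
    d₁ d₂ d₃ hq₁' hq₂' hq₃' TC₂ E0 hunr hJ hJ' hc₁ hc₂ hc₃ hl₁ hl₂ hl₃ hd₁ hd₂ hd₃ hl₁' hl₂' hl₃'
    P₁ P₂ e10 e11 e12 e20 e21 e22 hh₁ hh₂
  have key := crit36_real hq.out hA E0 (q * (q * L)) (hq2_dvd L) hunr rfl TC₁'' hl₁ hl₂ hl₃
    hW.1 hW.2 rfl TC₂'' hl₁' hl₂' hl₃' hW'.1 hW'.2 P₁ P₂ e10 e11 e12 e20 e21 e22 hh₁ hh₂ hV
    hl hlq
  exact key

end Final

end Fermat.Agent.S36.H61
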