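import Fermat.Agent.S36.H61_Crit36Final

/-!
# S36, rows (r1) + (E2-hV) (helper61): the chart-spelling-agnostic forms

helper69's seam alert: at the `cutOver A E0`-level the chart coordinates are spelled either
`H45.baseChangeE E0 N (J3N L)` / `H45.baseChangeE E0 N (J3N L)⁻¹` (S1) or literally
`S36.H83.J3K ↥E0 N q _` / `(S36.H83.J3K ↥E0 N q _)⁻¹` (S3); the two are only propositionally equal.
Here `crit36_real`, `hVeq_of_placeSide`, `crit36_of_placeSide` are restated for ARBITRARY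
`J_E J_E'` with `hJ : baseChangeE E0 N (J3N L) = J_E`, `hJ' : baseChangeE E0 N (J3N L)⁻¹ = J_E'`
(resp. `J_E = J₃`, `J_E' = J₃⁻¹`), the six chart instances being binders.  (S1) = `hJ := rfl`,
(S3) = `hJ := S36.H95.baseChangeE_J3K ..`.
-/

set_option autoImplicit false
set_option linter.unusedSectionVars false
set_option linter.style.haveILetI false
set_option synthInstance.maxHeartbeats 400000
set_option maxHeartbeats 3200000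

noncomputable section

namespace Fermat.Agent.S36.H61

section RealOfEq

open ModularCurve HahnSeries IntermediateField IsLocalRing
open Fermat.Agent.S18 Fermat.Agent.S18.H45

local notation "Qbar" => AlgebraicClosure ℚ

variable {A : ValuationSubring Qbar} {q : ℕ} (hq : q.Prime) (hA : A.LiesOverPrime q)
variable (E0 : IntermediateField (unrCyclo q) Qbar) [FiniteDimensional (unrCyclo q) E0]
variable (N : ℕ) [NeZero N] [NeZero q] (hq2 : q * q ∣ N)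

include hq hA in
/-- **`crit36_real` for ANY spelling of the two chart coordinates** (`J_E = J₃`, `J_E' = J₃⁻¹`
propositionally, e.g. `J_E := H45.baseChangeE E0 N (J3K K1 ..)`,
`J_E' := H45.baseChangeE E0 N (J3K K1 ..)⁻¹`). -/
theorem crit36_real_of_eq
    (J_E J_E' : ↥(modularFunctionFieldFullC ↥E0 N))
    (hJE : J_E = S36.H83.J3K ↥E0 N q hq2) (hJE' : J_E' = (S36.H83.J3K ↥E0 N q hq2)⁻¹)
    (hun : maximalIdeal (cutOver A E0) = Ideal.span {((q : ℕ) : cutOver A E0)})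
    {D BM : Type*} [CommRing D] [IsDomain D] [CommRing BM]
    {r₁ r₂ r₃ : ↥(H40.chartB (cutOver A E0) J_E) →+* D}
    {ιu ιv ιw : BM →+* ↥(H40.chartB (cutOver A E0) J_E)}
    {rbar : BM →+* D} {W : D →+* D}
    {qB₁ : ↥(H40.chartB (cutOver A E0) J_E)}
    (hqB₁ : qB₁ = algebraMap (cutOver A E0)
      ↥(H40.chartB (cutOver A E0) J_E) ((q : ℕ) : cutOver A E0))
    (TC₁ : S36.H83.ThreeComponents r₁ r₂ r₃ ιu ιv ιw rbar W q qB₁)
    (hq₁ : r₁ qB₁ = 0) (hq₂ : r₂ qB₁ = 0) (hq₃ : r₃ qB₁ = 0)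
    (hW2 : ∃ d : D, W (W d) ≠ d) (hW4 : ∃ d : D, W (W (W (W d))) ≠ d)
    {D' BM' : Type*} [CommRing D'] [IsDomain D'] [CommRing BM']
    {s₁ s₂ s₃ : ↥(H40.chartB (cutOver A E0) J_E') →+* D'}
    {κu κv κw : BM' →+* ↥(H40.chartB (cutOver A E0) J_E')}
    {sbar : BM' →+* D'} {W' : D' →+* D'}
    {qB₂ : ↥(H40.chartB (cutOver A E0) J_E')}
    (hqB₂ : qB₂ = algebraMap (cutOver A E0)
      ↥(H40.chartB (cutOver A E0) J_E') ((q : ℕ) : cutOver A E0))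
    (TC₂ : S36.H83.ThreeComponents s₁ s₂ s₃ κu κv κw sbar W' q qB₂)
    (hq₁' : s₁ qB₂ = 0) (hq₂' : s₂ qB₂ = 0) (hq₃' : s₃ qB₂ = 0)
    (hW2' : ∃ d : D', W' (W' d) ≠ d) (hW4' : ∃ d : D', W' (W' (W' (W' d))) ≠ d)
    (P₁ : Fin 3 → Ideal ↥(H40.chartB (cutOver A E0) J_E))
    (P₂ : Fin 3 → Ideal ↥(H40.chartB (cutOver A E0) J_E'))
    (e10 : P₁ 0 = RingHom.ker r₁) (e11 : P₁ 1 = RingHom.ker r₂) (e12 : P₁ 2 = RingHom.ker r₃)
    (e20 : P₂ 0 = RingHom.ker s₁) (e21 : P₂ 1 = RingHom.ker s₂) (e22 : P₂ 2 = RingHom.ker s₃)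
    [hP₁ : ∀ i, (P₁ i).IsPrime] [hP₂ : ∀ i, (P₂ i).IsPrime]
    [hN₁ : IsNoetherianRing ↥(H40.chartB (cutOver A E0) J_E)]
    [hI₁ : IsIntegrallyClosed ↥(H40.chartB (cutOver A E0) J_E)]
    [hF₁ : IsFractionRing ↥(H40.chartB (cutOver A E0) J_E)
      (modularFunctionFieldFullC ↥E0 N)]
    [hN₂ : IsNoetherianRing ↥(H40.chartB (cutOver A E0) J_E')]
    [hI₂ : IsIntegrallyClosed ↥(H40.chartB (cutOver A E0) J_E')]
    [hF₂ : IsFractionRing ↥(H40.chartB (cutOver A E0) J_E')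
      (modularFunctionFieldFullC ↥E0 N)]
    (hh₁ : ∀ i, (P₁ i).height = 1) (hh₂ : ∀ i, (P₂ i).height = 1)
    (hV : ∀ i, S34.H56.valuationSubringAt (K := modularFunctionFieldFullC ↥E0 N) (P₁ i) (hh₁ i) =
      S34.H56.valuationSubringAt (K := modularFunctionFieldFullC ↥E0 N) (P₂ i) (hh₂ i))
    {l : ℕ} (hl : l.Prime) (hlq : l ≠ q) :
    ∀ (k : ℕ) (u : modularFunctionFieldFullC ↥E0 N), u ≠ 0 →
      S36.H67.RadDatum
        (S34.H21.ptO (H40.chartB (cutOver A E0) J_E)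
          (H40.chartB (cutOver A E0) J_E') ((q : ℕ) : cutOver A E0))
        (fun i => S34.H56.valuationSubringAt (K := modularFunctionFieldFullC ↥E0 N) (P₁ i)
          (hh₁ i))
        (S34.H21.primeThr (π := ((q : ℕ) : cutOver A E0)) P₁ P₂) u (l ^ k) →
      ∃ (c : ↥E0) (g : modularFunctionFieldFullC ↥E0 N),
        u = algebraMap ↥E0 (modularFunctionFieldFullC ↥E0 N) c * g ^ (l ^ k) := by
  subst hJE hJE'
  have key := crit36_real hq hA E0 N hq2 hun hqB₁ TC₁ hq₁ hq₂ hq₃ hW2 hW4 hqB₂ TC₂ hq₁' hq₂' hq₃'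
    hW2' hW4' P₁ P₂ e10 e11 e12 e20 e21 e22 hh₁ hh₂ hV hl hlq
  exact key

end RealOfEq

section Final

open ModularCurve Polynomial IsLocalRing IntermediateField Fermat.Agent.S28
open Fermat.Agent.S18 Fermat.Agent.S34 Fermat.Agent.S34.H55 Fermat.Agent.S36.H83

local notation "Qbar" => AlgebraicClosure ℚ

variable (L : ℕ) [NeZero L] {q : ℕ} [hq : Fact q.Prime] (hqL : ¬ q ∣ L)
  (A : ValuationSubring Qbar) (hA : A.LiesOverPrime q)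

local notation "kA" => IsLocalRing.ResidueField A
local notation "A₁" => H45.A0 A q
local notation "L₁" => H45.unrCyclo q
local notation "F2" => modularFunctionFieldFullC (H45.unrCyclo q) (q * (q * L))
local notation "FkL" => modularFunctionFieldFullC (IsLocalRing.ResidueField A) L

set_option maxHeartbeats 6400000 in
/-- **`hVeq` from the (E2) packages, any spelling of the `E0`-level chart coordinates.** -/
theorem hVeq_of_placeSide_gen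
    {Oa : Subring F2} {reda : Oa →+* LaurentSeries kA}
    {Oc : Subring F2} {redc : Oc →+* LaurentSeries kA}
    {Ob : Subring F2} {redb : Ob →+* LaurentSeries kA} {τ : F2}
    (P : PlaceSide L hqL A hA Oa reda Oc redc Ob redb τ)
    (inv_a : ∀ (y : F2) (hy : y ∈ Oa), reda ⟨y, hy⟩ ≠ 0 → y⁻¹ ∈ Oa)
    (mem_a : ∀ y : F2, y ∈ Oa ∨ y⁻¹ ∈ Oa)
    (mem_c : ∀ y : F2, y ∈ Oc ∨ y⁻¹ ∈ Oc)
    (inv_b : ∀ (y : F2) (hy : y ∈ Ob), redb ⟨y, hy⟩ ≠ 0 → y⁻¹ ∈ Ob)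
    (mem_b : ∀ y : F2, y ∈ Ob ∨ y⁻¹ ∈ Ob)
    -- the `A₁`-level package, chart `J₃`
    {r₁ r₂ r₃ : ↥(H40.chartB A₁ (J3N L (q := q))) →+*
      ↥(integralClosure (Algebra.adjoin kA {S18.H16.jK kA L}) FkL)}
    (c₁ : ∀ (b : ↥(H40.chartB A₁ (J3N L (q := q)))) (h : (b : F2) ∈ Oa),
      inclk L A ((r₁ b : ↥(integralClosure (Algebra.adjoin kA {S18.H16.jK kA L}) FkL)) : FkL) =
        reda ⟨b, h⟩)
    (c₂ : ∀ (b : ↥(H40.chartB A₁ (J3N L (q := q)))) (h : (b : F2) ∈ Oc),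
      inclk L A ((r₂ b : ↥(integralClosure (Algebra.adjoin kA {S18.H16.jK kA L}) FkL)) : FkL) =
        redc ⟨b, h⟩)
    (c₃ : ∀ (b : ↥(H40.chartB A₁ (J3N L (q := q)))) (h : (b : F2) ∈ Ob),
      inclk L A ((r₃ b : ↥(integralClosure (Algebra.adjoin kA {S18.H16.jK kA L}) FkL)) : FkL) =
        redb ⟨b, h⟩)
    (hq₁ : r₁ (algebraMap A₁ ↥(H40.chartB A₁ (J3N L (q := q))) ((q : ℕ) : A₁)) = 0)
    (hq₂ : r₂ (algebraMap A₁ ↥(H40.chartB A₁ (J3N L (q := q))) ((q : ℕ) : A₁)) = 0)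
    (hq₃ : r₃ (algebraMap A₁ ↥(H40.chartB A₁ (J3N L (q := q))) ((q : ℕ) : A₁)) = 0)
    (TC₁ : ThreeComponents r₁ r₂ r₃
      (chartMap (eU L (q := q)) (eU_algebraMap L A) (huint1 L A))
      (chartMap (eV L (q := q)) (eV_algebraMap L A) (hvint1 L A))
      (chartMap (eW L (q := q)) (eW_algebraMap L A) (hwint1 L A))
      (rbarB (Mod L hqL A hA) (Mod L hqL A hA).x_mem (Mod L hqL A hA).res1_x)
      (WR (FrM L A hA) q (hFrx L A hA)) q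
      (algebraMap A₁ ↥(H40.chartB A₁ (J3N L (q := q))) ((q : ℕ) : A₁)))
    -- the `A₁`-level package, chart `J₃⁻¹`
    {s₁ s₂ s₃ : ↥(H40.chartB A₁ (J3N L (q := q))⁻¹) →+*
      ↥(integralClosure (Algebra.adjoin kA {(S18.H16.jK kA L)⁻¹}) FkL)}
    (d₁ : ∀ (b : ↥(H40.chartB A₁ (J3N L (q := q))⁻¹)) (h : (b : F2) ∈ Oa),
      inclk L A ((s₁ b : ↥(integralClosure (Algebra.adjoin kA {(S18.H16.jK kA L)⁻¹}) FkL)) : FkL) =
        reda ⟨b, h⟩)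
    (d₂ : ∀ (b : ↥(H40.chartB A₁ (J3N L (q := q))⁻¹)) (h : (b : F2) ∈ Oc),
      inclk L A ((s₂ b : ↥(integralClosure (Algebra.adjoin kA {(S18.H16.jK kA L)⁻¹}) FkL)) : FkL) =
        redc ⟨b, h⟩)
    (d₃ : ∀ (b : ↥(H40.chartB A₁ (J3N L (q := q))⁻¹)) (h : (b : F2) ∈ Ob),
      inclk L A ((s₃ b : ↥(integralClosure (Algebra.adjoin kA {(S18.H16.jK kA L)⁻¹}) FkL)) : FkL) =
        redb ⟨b, h⟩)
    (hq₁' : s₁ (algebraMap A₁ ↥(H40.chartB A₁ (J3N L (q := q))⁻¹) ((q : ℕ) : A₁)) = 0)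
    (hq₂' : s₂ (algebraMap A₁ ↥(H40.chartB A₁ (J3N L (q := q))⁻¹) ((q : ℕ) : A₁)) = 0)
    (hq₃' : s₃ (algebraMap A₁ ↥(H40.chartB A₁ (J3N L (q := q))⁻¹) ((q : ℕ) : A₁)) = 0)
    (TC₂ : ThreeComponents s₁ s₂ s₃
      (chartMap (eU L (q := q)) (eU_algebraMap L A) (huint2 L A))
      (chartMap (eV L (q := q)) (eV_algebraMap L A) (hvint2 L A))
      (chartMap (eW L (q := q)) (eW_algebraMap L A) (hwint2 L A))
      (rbarB (Mod L hqL A hA) (hc2 L hqL A hA) (hcw2 L hqL A hA))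
      (WR (FrM L A hA) q (hFrx_inv L A hA)) q
      (algebraMap A₁ ↥(H40.chartB A₁ (J3N L (q := q))⁻¹) ((q : ℕ) : A₁)))
    -- the `cutOver A E0`-level
    (E0 : IntermediateField (H45.unrCyclo q) Qbar) [FiniteDimensional (H45.unrCyclo q) E0]
    (hunr : maximalIdeal ↥(H45.cutOver A E0) = Ideal.span {((q : ℕ) : ↥(H45.cutOver A E0))})
    (J_E J_E' : ↥(modularFunctionFieldFullC ↥E0 (q * (q * L))))
    [IsFractionRing ↥(H40.chartB ↥(H45.cutOver A E0) J_E) ↥(modularFunctionFieldFullC ↥E0 (q * (q * L)))]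
    [IsNoetherianRing ↥(H40.chartB ↥(H45.cutOver A E0) J_E)]
    [IsIntegrallyClosed ↥(H40.chartB ↥(H45.cutOver A E0) J_E)]
    [IsFractionRing ↥(H40.chartB ↥(H45.cutOver A E0) J_E') ↥(modularFunctionFieldFullC ↥E0 (q * (q * L)))]
    [IsNoetherianRing ↥(H40.chartB ↥(H45.cutOver A E0) J_E')]
    [IsIntegrallyClosed ↥(H40.chartB ↥(H45.cutOver A E0) J_E')]
    (hJ : H45.baseChangeE E0 (q * (q * L)) (J3N L (q := q)) =
      J_E)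
    (hJ' : H45.baseChangeE E0 (q * (q * L)) (J3N L (q := q))⁻¹ =
      J_E')
    {r₁'' r₂'' r₃'' : ↥(H40.chartB ↥(H45.cutOver A E0)
        J_E) →+*
      ↥(integralClosure (Algebra.adjoin kA {S18.H16.jK kA L}) FkL)}
    {s₁'' s₂'' s₃'' : ↥(H40.chartB ↥(H45.cutOver A E0)
        J_E') →+*
      ↥(integralClosure (Algebra.adjoin kA {(S18.H16.jK kA L)⁻¹}) FkL)}
    (hc₁ : ∀ b, r₁'' (S34.H95.chartBC (A := A) E0 (q * (q * L)) (J3N L (q := q))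
      J_E hJ b) = r₁ b)
    (hc₂ : ∀ b, r₂'' (S34.H95.chartBC (A := A) E0 (q * (q * L)) (J3N L (q := q))
      J_E hJ b) = r₂ b)
    (hc₃ : ∀ b, r₃'' (S34.H95.chartBC (A := A) E0 (q * (q * L)) (J3N L (q := q))
      J_E hJ b) = r₃ b)
    (hl₁ : r₁'' (algebraMap ↥(H45.cutOver A E0)
      ↥(H40.chartB ↥(H45.cutOver A E0) J_E)
      ((q : ℕ) : ↥(H45.cutOver A E0))) = 0)
    (hl₂ : r₂'' (algebraMap ↥(H45.cutOver A E0)
      ↥(H40.chartB ↥(H45.cutOver A E0) J_E)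
      ((q : ℕ) : ↥(H45.cutOver A E0))) = 0)
    (hl₃ : r₃'' (algebraMap ↥(H45.cutOver A E0)
      ↥(H40.chartB ↥(H45.cutOver A E0) J_E)
      ((q : ℕ) : ↥(H45.cutOver A E0))) = 0)
    (hd₁ : ∀ b, s₁'' (S34.H95.chartBC (A := A) E0 (q * (q * L)) (J3N L (q := q))⁻¹
      J_E' hJ' b) = s₁ b)
    (hd₂ : ∀ b, s₂'' (S34.H95.chartBC (A := A) E0 (q * (q * L)) (J3N L (q := q))⁻¹
      J_E' hJ' b) = s₂ b)
    (hd₃ : ∀ b, s₃'' (S34.H95.chartBC (A := A) E0 (q * (q * L)) (J3N L (q := q))⁻¹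
      J_E' hJ' b) = s₃ b)
    (hl₁' : s₁'' (algebraMap ↥(H45.cutOver A E0)
      ↥(H40.chartB ↥(H45.cutOver A E0) J_E')
      ((q : ℕ) : ↥(H45.cutOver A E0))) = 0)
    (hl₂' : s₂'' (algebraMap ↥(H45.cutOver A E0)
      ↥(H40.chartB ↥(H45.cutOver A E0) J_E')
      ((q : ℕ) : ↥(H45.cutOver A E0))) = 0)
    (hl₃' : s₃'' (algebraMap ↥(H45.cutOver A E0)
      ↥(H40.chartB ↥(H45.cutOver A E0) J_E')
      ((q : ℕ) : ↥(H45.cutOver A E0))) = 0)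
    -- the labelled families
    (P₁ : Fin 3 → Ideal ↥(H40.chartB ↥(H45.cutOver A E0)
      J_E))
    (P₂ : Fin 3 → Ideal ↥(H40.chartB ↥(H45.cutOver A E0)
      J_E'))
    (e10 : P₁ 0 = RingHom.ker r₁'') (e11 : P₁ 1 = RingHom.ker r₂'') (e12 : P₁ 2 = RingHom.ker r₃'')
    (e20 : P₂ 0 = RingHom.ker s₁'') (e21 : P₂ 1 = RingHom.ker s₂'') (e22 : P₂ 2 = RingHom.ker s₃'')
    [hP₁ : ∀ i, (P₁ i).IsPrime] [hP₂ : ∀ i, (P₂ i).IsPrime]
    (hh₁ : ∀ i, (P₁ i).height = 1) (hh₂ : ∀ i, (P₂ i).height = 1)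
 :
    ∀ i, H56.valuationSubringAt (K := ↥(modularFunctionFieldFullC ↥E0 (q * (q * L))))
        (P₁ i) (hh₁ i) =
      H56.valuationSubringAt (K := ↥(modularFunctionFieldFullC ↥E0 (q * (q * L))))
        (P₂ i) (hh₂ i) := by
  have e : J_E = S36.H83.J3K ↥E0 (q * (q * L)) q (hq2_dvd L) :=
    hJ.symm.trans (S36.H95.baseChangeE_J3K E0 (q * (q * L)) q (hq2_dvd L))
  have e' : J_E' = (S36.H83.J3K ↥E0 (q * (q * L)) q (hq2_dvd L))⁻¹ :=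
    hJ'.symm.trans (S36.H95.baseChangeE_J3K_inv E0 (q * (q * L)) q (hq2_dvd L))
  subst e e'
  have key := hVeq_of_placeSide L hqL A hA P inv_a mem_a mem_c inv_b mem_b c₁ c₂ c₃ hq₁ hq₂ hq₃ TC₁
    d₁ d₂ d₃ hq₁' hq₂' hq₃' TC₂ E0 hunr hJ hJ' hc₁ hc₂ hc₃ hl₁ hl₂ hl₃ hd₁ hd₂ hd₃ hl₁' hl₂' hl₃'
    P₁ P₂ e10 e11 e12 e20 e21 e22 hh₁ hh₂
  exact key

set_option maxHeartbeats 6400000 in
/-- **`crit36` from the (E2) packages, any spelling of the `E0`-level chart coordinates.** -/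
theorem crit36_of_placeSide_gen
    {Oa : Subring F2} {reda : Oa →+* LaurentSeries kA}
    {Oc : Subring F2} {redc : Oc →+* LaurentSeries kA}
    {Ob : Subring F2} {redb : Ob →+* LaurentSeries kA} {τ : F2}
    (P : PlaceSide L hqL A hA Oa reda Oc redc Ob redb τ)
    (inv_a : ∀ (y : F2) (hy : y ∈ Oa), reda ⟨y, hy⟩ ≠ 0 → y⁻¹ ∈ Oa)
    (mem_a : ∀ y : F2, y ∈ Oa ∨ y⁻¹ ∈ Oa)
    (mem_c : ∀ y : F2, y ∈ Oc ∨ y⁻¹ ∈ Oc)
    (inv_b : ∀ (y : F2) (hy : y ∈ Ob), redb ⟨y, hy⟩ ≠ 0 → y⁻¹ ∈ Ob)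
    (mem_b : ∀ y : F2, y ∈ Ob ∨ y⁻¹ ∈ Ob)
    -- the `A₁`-level package, chart `J₃`
    {r₁ r₂ r₃ : ↥(H40.chartB A₁ (J3N L (q := q))) →+*
      ↥(integralClosure (Algebra.adjoin kA {S18.H16.jK kA L}) FkL)}
    (c₁ : ∀ (b : ↥(H40.chartB A₁ (J3N L (q := q)))) (h : (b : F2) ∈ Oa),
      inclk L A ((r₁ b : ↥(integralClosure (Algebra.adjoin kA {S18.H16.jK kA L}) FkL)) : FkL) =
        reda ⟨b, h⟩)
    (c₂ : ∀ (b : ↥(H40.chartB A₁ (J3N L (q := q)))) (h : (b : F2) ∈ Oc),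
      inclk L A ((r₂ b : ↥(integralClosure (Algebra.adjoin kA {S18.H16.jK kA L}) FkL)) : FkL) =
        redc ⟨b, h⟩)
    (c₃ : ∀ (b : ↥(H40.chartB A₁ (J3N L (q := q)))) (h : (b : F2) ∈ Ob),
      inclk L A ((r₃ b : ↥(integralClosure (Algebra.adjoin kA {S18.H16.jK kA L}) FkL)) : FkL) =
        redb ⟨b, h⟩)
    (hq₁ : r₁ (algebraMap A₁ ↥(H40.chartB A₁ (J3N L (q := q))) ((q : ℕ) : A₁)) = 0)
    (hq₂ : r₂ (algebraMap A₁ ↥(H40.chartB A₁ (J3N L (q := q))) ((q : ℕ) : A₁)) = 0)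
    (hq₃ : r₃ (algebraMap A₁ ↥(H40.chartB A₁ (J3N L (q := q))) ((q : ℕ) : A₁)) = 0)
    (TC₁ : ThreeComponents r₁ r₂ r₃
      (chartMap (eU L (q := q)) (eU_algebraMap L A) (huint1 L A))
      (chartMap (eV L (q := q)) (eV_algebraMap L A) (hvint1 L A))
      (chartMap (eW L (q := q)) (eW_algebraMap L A) (hwint1 L A))
      (rbarB (Mod L hqL A hA) (Mod L hqL A hA).x_mem (Mod L hqL A hA).res1_x)
      (WR (FrM L A hA) q (hFrx L A hA)) q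
      (algebraMap A₁ ↥(H40.chartB A₁ (J3N L (q := q))) ((q : ℕ) : A₁)))
    -- the `A₁`-level package, chart `J₃⁻¹`
    {s₁ s₂ s₃ : ↥(H40.chartB A₁ (J3N L (q := q))⁻¹) →+*
      ↥(integralClosure (Algebra.adjoin kA {(S18.H16.jK kA L)⁻¹}) FkL)}
    (d₁ : ∀ (b : ↥(H40.chartB A₁ (J3N L (q := q))⁻¹)) (h : (b : F2) ∈ Oa),
      inclk L A ((s₁ b : ↥(integralClosure (Algebra.adjoin kA {(S18.H16.jK kA L)⁻¹}) FkL)) : FkL) =
        reda ⟨b, h⟩)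
    (d₂ : ∀ (b : ↥(H40.chartB A₁ (J3N L (q := q))⁻¹)) (h : (b : F2) ∈ Oc),
      inclk L A ((s₂ b : ↥(integralClosure (Algebra.adjoin kA {(S18.H16.jK kA L)⁻¹}) FkL)) : FkL) =
        redc ⟨b, h⟩)
    (d₃ : ∀ (b : ↥(H40.chartB A₁ (J3N L (q := q))⁻¹)) (h : (b : F2) ∈ Ob),
      inclk L A ((s₃ b : ↥(integralClosure (Algebra.adjoin kA {(S18.H16.jK kA L)⁻¹}) FkL)) : FkL) =
        redb ⟨b, h⟩)
    (hq₁' : s₁ (algebraMap A₁ ↥(H40.chartB A₁ (J3N L (q := q))⁻¹) ((q : ℕ) : A₁)) = 0)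
    (hq₂' : s₂ (algebraMap A₁ ↥(H40.chartB A₁ (J3N L (q := q))⁻¹) ((q : ℕ) : A₁)) = 0)
    (hq₃' : s₃ (algebraMap A₁ ↥(H40.chartB A₁ (J3N L (q := q))⁻¹) ((q : ℕ) : A₁)) = 0)
    (TC₂ : ThreeComponents s₁ s₂ s₃
      (chartMap (eU L (q := q)) (eU_algebraMap L A) (huint2 L A))
      (chartMap (eV L (q := q)) (eV_algebraMap L A) (hvint2 L A))
      (chartMap (eW L (q := q)) (eW_algebraMap L A) (hwint2 L A))
      (rbarB (Mod L hqL A hA) (hc2 L hqL A hA) (hcw2 L hqL A hA))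
      (WR (FrM L A hA) q (hFrx_inv L A hA)) q
      (algebraMap A₁ ↥(H40.chartB A₁ (J3N L (q := q))⁻¹) ((q : ℕ) : A₁)))
    -- the `cutOver A E0`-level
    (E0 : IntermediateField (H45.unrCyclo q) Qbar) [FiniteDimensional (H45.unrCyclo q) E0]
    (hunr : maximalIdeal ↥(H45.cutOver A E0) = Ideal.span {((q : ℕ) : ↥(H45.cutOver A E0))})
    (J_E J_E' : ↥(modularFunctionFieldFullC ↥E0 (q * (q * L))))
    [IsFractionRing ↥(H40.chartB ↥(H45.cutOver A E0) J_E) ↥(modularFunctionFieldFullC ↥E0 (q * (q * L)))]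
    [IsNoetherianRing ↥(H40.chartB ↥(H45.cutOver A E0) J_E)]
    [IsIntegrallyClosed ↥(H40.chartB ↥(H45.cutOver A E0) J_E)]
    [IsFractionRing ↥(H40.chartB ↥(H45.cutOver A E0) J_E') ↥(modularFunctionFieldFullC ↥E0 (q * (q * L)))]
    [IsNoetherianRing ↥(H40.chartB ↥(H45.cutOver A E0) J_E')]
    [IsIntegrallyClosed ↥(H40.chartB ↥(H45.cutOver A E0) J_E')]
    (hJ : H45.baseChangeE E0 (q * (q * L)) (J3N L (q := q)) =
      J_E)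
    (hJ' : H45.baseChangeE E0 (q * (q * L)) (J3N L (q := q))⁻¹ =
      J_E')
    {r₁'' r₂'' r₃'' : ↥(H40.chartB ↥(H45.cutOver A E0)
        J_E) →+*
      ↥(integralClosure (Algebra.adjoin kA {S18.H16.jK kA L}) FkL)}
    {s₁'' s₂'' s₃'' : ↥(H40.chartB ↥(H45.cutOver A E0)
        J_E') →+*
      ↥(integralClosure (Algebra.adjoin kA {(S18.H16.jK kA L)⁻¹}) FkL)}
    (hc₁ : ∀ b, r₁'' (S34.H95.chartBC (A := A) E0 (q * (q * L)) (J3N L (q := q))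
      J_E hJ b) = r₁ b)
    (hc₂ : ∀ b, r₂'' (S34.H95.chartBC (A := A) E0 (q * (q * L)) (J3N L (q := q))
      J_E hJ b) = r₂ b)
    (hc₃ : ∀ b, r₃'' (S34.H95.chartBC (A := A) E0 (q * (q * L)) (J3N L (q := q))
      J_E hJ b) = r₃ b)
    (hl₁ : r₁'' (algebraMap ↥(H45.cutOver A E0)
      ↥(H40.chartB ↥(H45.cutOver A E0) J_E)
      ((q : ℕ) : ↥(H45.cutOver A E0))) = 0)
    (hl₂ : r₂'' (algebraMap ↥(H45.cutOver A E0)
      ↥(H40.chartB ↥(H45.cutOver A E0) J_E)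
      ((q : ℕ) : ↥(H45.cutOver A E0))) = 0)
    (hl₃ : r₃'' (algebraMap ↥(H45.cutOver A E0)
      ↥(H40.chartB ↥(H45.cutOver A E0) J_E)
      ((q : ℕ) : ↥(H45.cutOver A E0))) = 0)
    (hd₁ : ∀ b, s₁'' (S34.H95.chartBC (A := A) E0 (q * (q * L)) (J3N L (q := q))⁻¹
      J_E' hJ' b) = s₁ b)
    (hd₂ : ∀ b, s₂'' (S34.H95.chartBC (A := A) E0 (q * (q * L)) (J3N L (q := q))⁻¹
      J_E' hJ' b) = s₂ b)
    (hd₃ : ∀ b, s₃'' (S34.H95.chartBC (A := A) E0 (q * (q * L)) (J3N L (q := q))⁻¹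
      J_E' hJ' b) = s₃ b)
    (hl₁' : s₁'' (algebraMap ↥(H45.cutOver A E0)
      ↥(H40.chartB ↥(H45.cutOver A E0) J_E')
      ((q : ℕ) : ↥(H45.cutOver A E0))) = 0)
    (hl₂' : s₂'' (algebraMap ↥(H45.cutOver A E0)
      ↥(H40.chartB ↥(H45.cutOver A E0) J_E')
      ((q : ℕ) : ↥(H45.cutOver A E0))) = 0)
    (hl₃' : s₃'' (algebraMap ↥(H45.cutOver A E0)
      ↥(H40.chartB ↥(H45.cutOver A E0) J_E')
      ((q : ℕ) : ↥(H45.cutOver A E0))) = 0)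
    -- the labelled families
    (P₁ : Fin 3 → Ideal ↥(H40.chartB ↥(H45.cutOver A E0)
      J_E))
    (P₂ : Fin 3 → Ideal ↥(H40.chartB ↥(H45.cutOver A E0)
      J_E'))
    (e10 : P₁ 0 = RingHom.ker r₁'') (e11 : P₁ 1 = RingHom.ker r₂'') (e12 : P₁ 2 = RingHom.ker r₃'')
    (e20 : P₂ 0 = RingHom.ker s₁'') (e21 : P₂ 1 = RingHom.ker s₂'') (e22 : P₂ 2 = RingHom.ker s₃'')
    [hP₁ : ∀ i, (P₁ i).IsPrime] [hP₂ : ∀ i, (P₂ i).IsPrime]
    (hh₁ : ∀ i, (P₁ i).height = 1) (hh₂ : ∀ i, (P₂ i).height = 1)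
    -- the `cutOver A E0`-level `ThreeComponents` packages
    {BM₁ BM₂ : Type*} [CommRing BM₁] [CommRing BM₂]
    {ιu₁ ιv₁ ιw₁ : BM₁ →+* ↥(H40.chartB ↥(H45.cutOver A E0)
      J_E)}
    {rbar₁ : BM₁ →+* ↥(integralClosure (Algebra.adjoin kA {S18.H16.jK kA L}) FkL)}
    (TC₁'' : ThreeComponents r₁'' r₂'' r₃'' ιu₁ ιv₁ ιw₁ rbar₁
      (WR (FrM L A hA) q (hFrx L A hA)) q
      (algebraMap ↥(H45.cutOver A E0)
        ↥(H40.chartB ↥(H45.cutOver A E0) J_E)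
        ((q : ℕ) : ↥(H45.cutOver A E0))))
    {ιu₂ ιv₂ ιw₂ : BM₂ →+* ↥(H40.chartB ↥(H45.cutOver A E0)
      J_E')}
    {rbar₂ : BM₂ →+* ↥(integralClosure (Algebra.adjoin kA {(S18.H16.jK kA L)⁻¹}) FkL)}
    (TC₂'' : ThreeComponents s₁'' s₂'' s₃'' ιu₂ ιv₂ ιw₂ rbar₂
      (WR (FrM L A hA) q (hFrx_inv L A hA)) q
      (algebraMap ↥(H45.cutOver A E0)
        ↥(H40.chartB ↥(H45.cutOver A E0) J_E')
        ((q : ℕ) : ↥(H45.cutOver A E0))))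
    {l : ℕ} (hl : l.Prime) (hlq : l ≠ q) :
    ∀ (k : ℕ) (u : ↥(modularFunctionFieldFullC ↥E0 (q * (q * L)))), u ≠ 0 →
      S36.H67.RadDatum
        (S34.H21.ptO (H40.chartB ↥(H45.cutOver A E0) J_E) (H40.chartB ↥(H45.cutOver A E0) J_E')
          ((q : ℕ) : ↥(H45.cutOver A E0)))
        (fun i => S34.H56.valuationSubringAt
          (K := ↥(modularFunctionFieldFullC ↥E0 (q * (q * L)))) (P₁ i) (hh₁ i))
        (S34.H21.primeThr (π := ((q : ℕ) : ↥(H45.cutOver A E0))) P₁ P₂) u (l ^ k) →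
      ∃ (c : ↥E0) (g : ↥(modularFunctionFieldFullC ↥E0 (q * (q * L)))),
        u = algebraMap ↥E0 ↥(modularFunctionFieldFullC ↥E0 (q * (q * L))) c * g ^ (l ^ k) := by
  have e : J_E = S36.H83.J3K ↥E0 (q * (q * L)) q (hq2_dvd L) :=
    hJ.symm.trans (S36.H95.baseChangeE_J3K E0 (q * (q * L)) q (hq2_dvd L))
  have e' : J_E' = (S36.H83.J3K ↥E0 (q * (q * L)) q (hq2_dvd L))⁻¹ :=
    hJ'.symm.trans (S36.H95.baseChangeE_J3K_inv E0 (q * (q * L)) q (hq2_dvd L))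
  subst e e'
  have key := crit36_of_placeSide L hqL A hA P inv_a mem_a mem_c inv_b mem_b c₁ c₂ c₃ hq₁ hq₂ hq₃
    TC₁ d₁ d₂ d₃ hq₁' hq₂' hq₃' TC₂ E0 hunr hJ hJ' hc₁ hc₂ hc₃ hl₁ hl₂ hl₃ hd₁ hd₂ hd₃
    hl₁' hl₂' hl₃' P₁ P₂ e10 e11 e12 e20 e21 e22 hh₁ hh₂ TC₁'' TC₂'' hl hlq
  exact key

end Final

end Fermat.Agent.S36.H61
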