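/-
helper62 — S36: the inputs `hW2 : ∃ d, W (W d) ≠ d`, `hW4 : ∃ d, W (W (W (W d))) ≠ d` of
`H62.heightOne_localGen_all` / `H56.hE4_of_rows` / `H61.crit36_real` / `H40.VertOfThree`
(the vertical components are pairwise distinct), generic and at the real types
`W := WR (FrM L A hA) q (hFrx ..)` (chart `j`) and `WR (FrM ..) q (hFrx_inv ..)` (chart `j⁻¹`).
-/
import Mathlib
import Fermat.Agent.S34.H55_L0Final

set_option autoImplicit false
set_option linter.unusedSectionVars false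
set_option synthInstance.maxHeartbeats 400000

namespace Fermat.Agent.S36.H62

open Fermat.Agent.S18 Fermat.Agent.S34

section Generic

variable {D : Type*} [CommRing D] [IsDomain D]

/-- `W d = d ^ q` with `d` nonzero and not a root of unity: `W ∘ W` moves `d`. -/
theorem iter_two_ne_of_pow (W : D →+* D) {q : ℕ} (hq : 2 ≤ q) {d : D} (hWd : W d = d ^ q)
    (hd0 : d ≠ 0) (hd1 : ∀ n : ℕ, 0 < n → d ^ n ≠ 1) : W (W d) ≠ d := by
  rw [hWd, map_pow, hWd, ← pow_mul]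
  intro h
  have hpos : 0 < q * q - 1 := by
    have : 4 ≤ q * q := Nat.mul_le_mul hq hq
    omega
  have h2 : d * (d ^ (q * q - 1) - 1) = 0 := by
    rw [mul_sub, mul_one, ← pow_succ', Nat.sub_add_cancel (by omega : 1 ≤ q * q), h, sub_self]
  rcases mul_eq_zero.1 h2 with h3 | h3
  · exact hd0 h3
  · exact hd1 _ hpos (sub_eq_zero.1 h3)

/-- `W d = d ^ q` with `d` nonzero and not a root of unity: `W⁴` moves `d`. -/
theorem iter_four_ne_of_pow (W : D →+* D) {q : ℕ} (hq : 2 ≤ q) {d : D} (hWd : W d = d ^ q)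
    (hd0 : d ≠ 0) (hd1 : ∀ n : ℕ, 0 < n → d ^ n ≠ 1) : W (W (W (W d))) ≠ d := by
  have hW2 : W (W d) = d ^ (q * q) := by rw [hWd, map_pow, hWd, ← pow_mul]
  have hq2 : 2 ≤ q * q := by
    have : 4 ≤ q * q := Nat.mul_le_mul hq hq
    omega
  have hW2' : (W.comp W) d = d ^ (q * q) := hW2
  exact iter_two_ne_of_pow (W.comp W) hq2 hW2' hd0 hd1

end Generic

section WR

variable {k Fk : Type*} [Field k] [Field Fk] [Algebra k Fk]

/-- The chart coordinate `w` as an element of the integral closure of `k[w]`. -/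
noncomputable def coordD (w : Fk) : ↥(integralClosure (Algebra.adjoin k {w}) Fk) :=
  ⟨w, (isIntegral_algebraMap (R := Algebra.adjoin k {w}) (A := Fk)
    (x := ⟨w, Algebra.subset_adjoin (Set.mem_singleton w)⟩))⟩

@[simp] theorem coe_coordD (w : Fk) :
    ((coordD (k := k) w : ↥(integralClosure (Algebra.adjoin k {w}) Fk)) : Fk) = w := rfl

theorem WR_coordD (Fr : Fk →ₐ[k] Fk) {w : Fk} (q : ℕ) (hFrw : Fr w = w ^ q) :
    H55.WR Fr q hFrw (coordD w) = coordD w ^ q := by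
  apply Subtype.ext
  rw [H55.coe_WR]
  exact hFrw

theorem coordD_ne_zero {w : Fk} (hw : Transcendental k w) : coordD (k := k) w ≠ 0 := by
  intro h
  apply hw
  have : w = 0 := congrArg Subtype.val h
  rw [this]
  exact isAlgebraic_zero

theorem coordD_pow_ne_one {w : Fk} (hw : Transcendental k w) (n : ℕ) (hn : 0 < n) :
    coordD (k := k) w ^ n ≠ 1 := by
  intro h
  apply hw
  have h1 : w ^ n = 1 := by
    have := congrArg Subtype.val h
    simpa using this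
  refine ⟨Polynomial.X ^ n - Polynomial.C 1, Polynomial.X_pow_sub_C_ne_zero hn 1, ?_⟩
  simp [h1]

/-- **`hW2 ∧ hW4`, generic `WR` form**: for a transcendental chart coordinate `w` with
`Fr w = w ^ q`, `q ≥ 2`. -/
theorem hW2_hW4_WR (Fr : Fk →ₐ[k] Fk) {w : Fk} (q : ℕ) (hq : 2 ≤ q) (hFrw : Fr w = w ^ q)
    (hw : Transcendental k w) :
    (∃ d, H55.WR Fr q hFrw (H55.WR Fr q hFrw d) ≠ d) ∧
      ∃ d, H55.WR Fr q hFrw (H55.WR Fr q hFrw (H55.WR Fr q hFrw (H55.WR Fr q hFrw d))) ≠ d :=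
  ⟨⟨coordD w, iter_two_ne_of_pow _ hq (WR_coordD Fr q hFrw) (coordD_ne_zero hw)
      (coordD_pow_ne_one hw)⟩,
    ⟨coordD w, iter_four_ne_of_pow _ hq (WR_coordD Fr q hFrw) (coordD_ne_zero hw)
      (coordD_pow_ne_one hw)⟩⟩

end WR

section RealTypes

local notation "Qbar" => AlgebraicClosure ℚ

variable (M : ℕ) [NeZero M] {ℓ : ℕ} [hℓ : Fact ℓ.Prime]
  (A : ValuationSubring Qbar) (hA : A.LiesOverPrime ℓ)

local notation "kA" => IsLocalRing.ResidueField A

/-- `hW2 ∧ hW4` at the real types, chart `j`. -/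
theorem hW2_hW4_JK :
    (∃ d, H55.WR (H55.FrM M A hA) ℓ (H55.hFrx M A hA)
        (H55.WR (H55.FrM M A hA) ℓ (H55.hFrx M A hA) d) ≠ d) ∧
      ∃ d, H55.WR (H55.FrM M A hA) ℓ (H55.hFrx M A hA)
        (H55.WR (H55.FrM M A hA) ℓ (H55.hFrx M A hA)
          (H55.WR (H55.FrM M A hA) ℓ (H55.hFrx M A hA)
            (H55.WR (H55.FrM M A hA) ℓ (H55.hFrx M A hA) d))) ≠ d :=
  hW2_hW4_WR (H55.FrM M A hA) ℓ hℓ.out.two_le (H55.hFrx M A hA) (H16.transcendental_jK kA M)

/-- `hW2 ∧ hW4` at the real types, chart `j⁻¹`. -/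
theorem hW2_hW4_JK_inv :
    (∃ d, H55.WR (H55.FrM M A hA) ℓ (H55.hFrx_inv M A hA)
        (H55.WR (H55.FrM M A hA) ℓ (H55.hFrx_inv M A hA) d) ≠ d) ∧
      ∃ d, H55.WR (H55.FrM M A hA) ℓ (H55.hFrx_inv M A hA)
        (H55.WR (H55.FrM M A hA) ℓ (H55.hFrx_inv M A hA)
          (H55.WR (H55.FrM M A hA) ℓ (H55.hFrx_inv M A hA)
            (H55.WR (H55.FrM M A hA) ℓ (H55.hFrx_inv M A hA) d))) ≠ d :=
  hW2_hW4_WR (H55.FrM M A hA) ℓ hℓ.out.two_le (H55.hFrx_inv M A hA)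
    (fun h => H16.transcendental_jK kA M (by simpa using h.inv))

end RealTypes

end Fermat.Agent.S36.H62
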