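import Fermat.Agent.S36.H61_HVPlaces
import Fermat.Agent.S36.H61_Crit36Three
import Fermat.Agent.S36.H83_L0ThreeChart
import Fermat.Agent.S36.H62_WIter
import Fermat.Agent.S35.H18_VertDict

/-!
# S36, seam (E2-hV) (helper61), final form: `hVeq` of `S36.H18.geoFn36E_of_twoCharts` /
`hV` of `S36.H61.crit36_real` from the (E2) packages

Inputs, in the output shapes of their producers:
* helper83's place-side package `S36.H83.PlaceSide` (+ `inv_mem`, `mem_or_inv_mem` of the three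
  places);
* the `A₁`-level reductions `r_i`, `s_i` of the two charts `chartB A₁ J₃^(±1)` with their
  place-compatibility clauses, `red_i q = 0` and `ThreeComponents`
  (= the conclusion of `S36.H83.threeComponents_J3K(_inv)`);
* ANY extensions `r_i''`, `s_i''` to the two `cutOver A E0`-charts along `S34.H95.chartBC` killing
  `q` (= clauses 1-6 of `S36.H70.exists_threeComponents_chartBC_unram`);
* the labelled families `P₁ P₂ : Fin 3 → Ideal` with `P₁ i = ker r_i''`, `P₂ i = ker s_i''`.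
Output: `∀ i, V_{P₁ i} = V_{P₂ i}`.
-/

set_option autoImplicit false
set_option linter.unusedSectionVars false
set_option linter.style.haveILetI false
set_option synthInstance.maxHeartbeats 400000
set_option maxHeartbeats 3200000

noncomputable section

namespace Fermat.Agent.S36.H61

open ModularCurve Polynomial IsLocalRing IntermediateField Fermat.Agent.S28
open Fermat.Agent.S18 Fermat.Agent.S34 Fermat.Agent.S34.H55 Fermat.Agent.S36.H83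

local notation "Qbar" => AlgebraicClosure ℚ

section Final

variable (L : ℕ) [NeZero L] {q : ℕ} [hq : Fact q.Prime] (hqL : ¬ q ∣ L)
  (A : ValuationSubring Qbar) (hA : A.LiesOverPrime q)

local notation "kA" => IsLocalRing.ResidueField A
local notation "A₁" => H45.A0 A q
local notation "L₁" => H45.unrCyclo q
local notation "F2" => modularFunctionFieldFullC (H45.unrCyclo q) (q * (q * L))
local notation "FkL" => modularFunctionFieldFullC (IsLocalRing.ResidueField A) L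

/-- `q ≠ 0` in the `A₁`-chart `J₃`. -/
theorem natCast_chart_J3N_ne_zero :
    algebraMap A₁ ↥(H40.chartB A₁ (J3N L (q := q))) ((q : ℕ) : A₁) ≠ 0 := by
  intro h
  apply hϖ0_F2 L A (q := q)
  have := congrArg (algebraMap ↥(H40.chartB A₁ (J3N L (q := q))) F2) h
  rw [map_zero, ← IsScalarTower.algebraMap_apply] at this
  exact this

/-- `q ≠ 0` in the `A₁`-chart `J₃⁻¹`. -/
theorem natCast_chart_J3N_inv_ne_zero :
    algebraMap A₁ ↥(H40.chartB A₁ (J3N L (q := q))⁻¹) ((q : ℕ) : A₁) ≠ 0 := by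
  intro h
  apply hϖ0_F2 L A (q := q)
  have := congrArg (algebraMap ↥(H40.chartB A₁ (J3N L (q := q))⁻¹) F2) h
  rw [map_zero, ← IsScalarTower.algebraMap_apply] at this
  exact this

set_option maxHeartbeats 6400000 in
/-- **`hVeq` from the (E2) packages.** -/
theorem hVeq_of_placeSide
    {Oa : Subring F2} {reda : Oa →+* LaurentSeries kA}
    {Oc : Subring F2} {redc : Oc →+* LaurentSeries kA}
    {Ob : Subring F2} {redb : Ob →+* LaurentSeries kA} {τ : F2}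
    (P : PlaceSide L hqL A hA Oa reda Oc redc Ob redb τ)
    (inv_a : ∀ (y : F2) (hy : y ∈ Oa), reda ⟨y, hy⟩ ≠ 0 → y⁻¹ ∈ Oa)
    (mem_a : ∀ y : F2, y ∈ Oa ∨ y⁻¹ ∈ Oa)
    (mem_c : ∀ y : F2, y ∈ Oc ∨ y⁻¹ ∈ Oc)
    (inv_b : ∀ (y : F2) (hy : y ∈ Ob), redb ⟨y, hy⟩ ≠ 0 → y⁻¹ ∈ Ob)
    (mem_b : ∀ y : F2, y ∈ Ob ∨ y⁻¹ ∈ Ob)
    -- the `A₁`-level package, chart `J₃`
    {r₁ r₂ r₃ : ↥(H40.chartB A₁ (J3N L (q := q))) →+*
      ↥(integralClosure (Algebra.adjoin kA {S18.H16.jK kA L}) FkL)}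
    (c₁ : ∀ (b : ↥(H40.chartB A₁ (J3N L (q := q)))) (h : (b : F2) ∈ Oa),
      inclk L A ((r₁ b : ↥(integralClosure (Algebra.adjoin kA {S18.H16.jK kA L}) FkL)) : FkL) =
        reda ⟨b, h⟩)
    (c₂ : ∀ (b : ↥(H40.chartB A₁ (J3N L (q := q)))) (h : (b : F2) ∈ Oc),
      inclk L A ((r₂ b : ↥(integralClosure (Algebra.adjoin kA {S18.H16.jK kA L}) FkL)) : FkL) =
        redc ⟨b, h⟩)
    (c₃ : ∀ (b : ↥(H40.chartB A₁ (J3N L (q := q)))) (h : (b : F2) ∈ Ob),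
      inclk L A ((r₃ b : ↥(integralClosure (Algebra.adjoin kA {S18.H16.jK kA L}) FkL)) : FkL) =
        redb ⟨b, h⟩)
    (hq₁ : r₁ (algebraMap A₁ ↥(H40.chartB A₁ (J3N L (q := q))) ((q : ℕ) : A₁)) = 0)
    (hq₂ : r₂ (algebraMap A₁ ↥(H40.chartB A₁ (J3N L (q := q))) ((q : ℕ) : A₁)) = 0)
    (hq₃ : r₃ (algebraMap A₁ ↥(H40.chartB A₁ (J3N L (q := q))) ((q : ℕ) : A₁)) = 0)
    (TC₁ : ThreeComponents r₁ r₂ r₃
      (chartMap (eU L (q := q)) (eU_algebraMap L A) (huint1 L A))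
      (chartMap (eV L (q := q)) (eV_algebraMap L A) (hvint1 L A))
      (chartMap (eW L (q := q)) (eW_algebraMap L A) (hwint1 L A))
      (rbarB (Mod L hqL A hA) (Mod L hqL A hA).x_mem (Mod L hqL A hA).res1_x)
      (WR (FrM L A hA) q (hFrx L A hA)) q
      (algebraMap A₁ ↥(H40.chartB A₁ (J3N L (q := q))) ((q : ℕ) : A₁)))
    -- the `A₁`-level package, chart `J₃⁻¹`
    {s₁ s₂ s₃ : ↥(H40.chartB A₁ (J3N L (q := q))⁻¹) →+*
      ↥(integralClosure (Algebra.adjoin kA {(S18.H16.jK kA L)⁻¹}) FkL)}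
    (d₁ : ∀ (b : ↥(H40.chartB A₁ (J3N L (q := q))⁻¹)) (h : (b : F2) ∈ Oa),
      inclk L A ((s₁ b : ↥(integralClosure (Algebra.adjoin kA {(S18.H16.jK kA L)⁻¹}) FkL)) : FkL) =
        reda ⟨b, h⟩)
    (d₂ : ∀ (b : ↥(H40.chartB A₁ (J3N L (q := q))⁻¹)) (h : (b : F2) ∈ Oc),
      inclk L A ((s₂ b : ↥(integralClosure (Algebra.adjoin kA {(S18.H16.jK kA L)⁻¹}) FkL)) : FkL) =
        redc ⟨b, h⟩)
    (d₃ : ∀ (b : ↥(H40.chartB A₁ (J3N L (q := q))⁻¹)) (h : (b : F2) ∈ Ob),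
      inclk L A ((s₃ b : ↥(integralClosure (Algebra.adjoin kA {(S18.H16.jK kA L)⁻¹}) FkL)) : FkL) =
        redb ⟨b, h⟩)
    (hq₁' : s₁ (algebraMap A₁ ↥(H40.chartB A₁ (J3N L (q := q))⁻¹) ((q : ℕ) : A₁)) = 0)
    (hq₂' : s₂ (algebraMap A₁ ↥(H40.chartB A₁ (J3N L (q := q))⁻¹) ((q : ℕ) : A₁)) = 0)
    (hq₃' : s₃ (algebraMap A₁ ↥(H40.chartB A₁ (J3N L (q := q))⁻¹) ((q : ℕ) : A₁)) = 0)
    (TC₂ : ThreeComponents s₁ s₂ s₃
      (chartMap (eU L (q := q)) (eU_algebraMap L A) (huint2 L A))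
      (chartMap (eV L (q := q)) (eV_algebraMap L A) (hvint2 L A))
      (chartMap (eW L (q := q)) (eW_algebraMap L A) (hwint2 L A))
      (rbarB (Mod L hqL A hA) (hc2 L hqL A hA) (hcw2 L hqL A hA))
      (WR (FrM L A hA) q (hFrx_inv L A hA)) q
      (algebraMap A₁ ↥(H40.chartB A₁ (J3N L (q := q))⁻¹) ((q : ℕ) : A₁)))
    -- the `cutOver A E0`-level
    (E0 : IntermediateField (H45.unrCyclo q) Qbar) [FiniteDimensional (H45.unrCyclo q) E0]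
    (hunr : maximalIdeal ↥(H45.cutOver A E0) = Ideal.span {((q : ℕ) : ↥(H45.cutOver A E0))})
    (hJ : H45.baseChangeE E0 (q * (q * L)) (J3N L (q := q)) =
      S36.H83.J3K ↥E0 (q * (q * L)) q (hq2_dvd L))
    (hJ' : H45.baseChangeE E0 (q * (q * L)) (J3N L (q := q))⁻¹ =
      (S36.H83.J3K ↥E0 (q * (q * L)) q (hq2_dvd L))⁻¹)
    {r₁'' r₂'' r₃'' : ↥(H40.chartB ↥(H45.cutOver A E0)
        (S36.H83.J3K ↥E0 (q * (q * L)) q (hq2_dvd L))) →+*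
      ↥(integralClosure (Algebra.adjoin kA {S18.H16.jK kA L}) FkL)}
    {s₁'' s₂'' s₃'' : ↥(H40.chartB ↥(H45.cutOver A E0)
        (S36.H83.J3K ↥E0 (q * (q * L)) q (hq2_dvd L))⁻¹) →+*
      ↥(integralClosure (Algebra.adjoin kA {(S18.H16.jK kA L)⁻¹}) FkL)}
    (hc₁ : ∀ b, r₁'' (S34.H95.chartBC (A := A) E0 (q * (q * L)) (J3N L (q := q))
      (S36.H83.J3K ↥E0 (q * (q * L)) q (hq2_dvd L)) hJ b) = r₁ b)
    (hc₂ : ∀ b, r₂'' (S34.H95.chartBC (A := A) E0 (q * (q * L)) (J3N L (q := q))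
      (S36.H83.J3K ↥E0 (q * (q * L)) q (hq2_dvd L)) hJ b) = r₂ b)
    (hc₃ : ∀ b, r₃'' (S34.H95.chartBC (A := A) E0 (q * (q * L)) (J3N L (q := q))
      (S36.H83.J3K ↥E0 (q * (q * L)) q (hq2_dvd L)) hJ b) = r₃ b)
    (hl₁ : r₁'' (algebraMap ↥(H45.cutOver A E0)
      ↥(H40.chartB ↥(H45.cutOver A E0) (S36.H83.J3K ↥E0 (q * (q * L)) q (hq2_dvd L)))
      ((q : ℕ) : ↥(H45.cutOver A E0))) = 0)
    (hl₂ : r₂'' (algebraMap ↥(H45.cutOver A E0)
      ↥(H40.chartB ↥(H45.cutOver A E0) (S36.H83.J3K ↥E0 (q * (q * L)) q (hq2_dvd L)))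
      ((q : ℕ) : ↥(H45.cutOver A E0))) = 0)
    (hl₃ : r₃'' (algebraMap ↥(H45.cutOver A E0)
      ↥(H40.chartB ↥(H45.cutOver A E0) (S36.H83.J3K ↥E0 (q * (q * L)) q (hq2_dvd L)))
      ((q : ℕ) : ↥(H45.cutOver A E0))) = 0)
    (hd₁ : ∀ b, s₁'' (S34.H95.chartBC (A := A) E0 (q * (q * L)) (J3N L (q := q))⁻¹
      (S36.H83.J3K ↥E0 (q * (q * L)) q (hq2_dvd L))⁻¹ hJ' b) = s₁ b)
    (hd₂ : ∀ b, s₂'' (S34.H95.chartBC (A := A) E0 (q * (q * L)) (J3N L (q := q))⁻¹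
      (S36.H83.J3K ↥E0 (q * (q * L)) q (hq2_dvd L))⁻¹ hJ' b) = s₂ b)
    (hd₃ : ∀ b, s₃'' (S34.H95.chartBC (A := A) E0 (q * (q * L)) (J3N L (q := q))⁻¹
      (S36.H83.J3K ↥E0 (q * (q * L)) q (hq2_dvd L))⁻¹ hJ' b) = s₃ b)
    (hl₁' : s₁'' (algebraMap ↥(H45.cutOver A E0)
      ↥(H40.chartB ↥(H45.cutOver A E0) (S36.H83.J3K ↥E0 (q * (q * L)) q (hq2_dvd L))⁻¹)
      ((q : ℕ) : ↥(H45.cutOver A E0))) = 0)
    (hl₂' : s₂'' (algebraMap ↥(H45.cutOver A E0)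
      ↥(H40.chartB ↥(H45.cutOver A E0) (S36.H83.J3K ↥E0 (q * (q * L)) q (hq2_dvd L))⁻¹)
      ((q : ℕ) : ↥(H45.cutOver A E0))) = 0)
    (hl₃' : s₃'' (algebraMap ↥(H45.cutOver A E0)
      ↥(H40.chartB ↥(H45.cutOver A E0) (S36.H83.J3K ↥E0 (q * (q * L)) q (hq2_dvd L))⁻¹)
      ((q : ℕ) : ↥(H45.cutOver A E0))) = 0)
    -- the labelled families
    (P₁ : Fin 3 → Ideal ↥(H40.chartB ↥(H45.cutOver A E0)
      (S36.H83.J3K ↥E0 (q * (q * L)) q (hq2_dvd L))))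
    (P₂ : Fin 3 → Ideal ↥(H40.chartB ↥(H45.cutOver A E0)
      (S36.H83.J3K ↥E0 (q * (q * L)) q (hq2_dvd L))⁻¹))
    (e10 : P₁ 0 = RingHom.ker r₁'') (e11 : P₁ 1 = RingHom.ker r₂'') (e12 : P₁ 2 = RingHom.ker r₃'')
    (e20 : P₂ 0 = RingHom.ker s₁'') (e21 : P₂ 1 = RingHom.ker s₂'') (e22 : P₂ 2 = RingHom.ker s₃'')
    [hP₁ : ∀ i, (P₁ i).IsPrime] [hP₂ : ∀ i, (P₂ i).IsPrime]
    (hh₁ : ∀ i, (P₁ i).height = 1) (hh₂ : ∀ i, (P₂ i).height = 1) :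
    haveI := S36.H95.isNoetherianRing_chartB_J3K hq.out hA E0 (q * (q * L)) q (hq2_dvd L)
    haveI := S36.H95.isIntegrallyClosed_chartB_J3K (A := A) E0 (q * (q * L)) q (hq2_dvd L)
    haveI := S36.H95.isFractionRing_chartB_J3K (A := A) E0 (q * (q * L)) q (hq2_dvd L)
    haveI := S36.H95.isNoetherianRing_chartB_J3K_inv hq.out hA E0 (q * (q * L)) q (hq2_dvd L)
    haveI := S36.H95.isIntegrallyClosed_chartB_J3K_inv (A := A) E0 (q * (q * L)) q (hq2_dvd L)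
    haveI := S36.H95.isFractionRing_chartB_J3K_inv (A := A) E0 (q * (q * L)) q (hq2_dvd L)
    ∀ i, H56.valuationSubringAt (K := ↥(modularFunctionFieldFullC ↥E0 (q * (q * L))))
        (P₁ i) (hh₁ i) =
      H56.valuationSubringAt (K := ↥(modularFunctionFieldFullC ↥E0 (q * (q * L))))
        (P₂ i) (hh₂ i) := by
  haveI := S36.H95.isNoetherianRing_chartB_J3K_A0 (A := A) hq.out hA (q * (q * L)) q (hq2_dvd L)
  haveI := S36.H95.isNoetherianRing_chartB_J3K_inv_A0 (A := A) hq.out hA (q * (q * L)) q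
    (hq2_dvd L)
  haveI := S36.H95.isNoetherianRing_chartB_J3K hq.out hA E0 (q * (q * L)) q (hq2_dvd L)
  haveI := S36.H95.isIntegrallyClosed_chartB_J3K (A := A) E0 (q * (q * L)) q (hq2_dvd L)
  haveI := S36.H95.isFractionRing_chartB_J3K (A := A) E0 (q * (q * L)) q (hq2_dvd L)
  haveI := S36.H95.isNoetherianRing_chartB_J3K_inv hq.out hA E0 (q * (q * L)) q (hq2_dvd L)
  haveI := S36.H95.isIntegrallyClosed_chartB_J3K_inv (A := A) E0 (q * (q * L)) q (hq2_dvd L)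
  haveI := S36.H95.isFractionRing_chartB_J3K_inv (A := A) E0 (q * (q * L)) q (hq2_dvd L)
  -- heights at the `A₁`-level
  have hW := S36.H62.hW2_hW4_JK L A hA
  have hW' := S36.H62.hW2_hW4_JK_inv L A hA
  have hht₁ := vertFam_height ![RingHom.ker r₁, RingHom.ker r₂, RingHom.ker r₃] rfl rfl rfl
    TC₁ hq₁ hq₂ hq₃ hW.1 hW.2 (natCast_chart_J3N_ne_zero L A)
  have hht₂ := vertFam_height ![RingHom.ker s₁, RingHom.ker s₂, RingHom.ker s₃] rfl rfl rfl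
    TC₂ hq₁' hq₂' hq₃' hW'.1 hW'.2 (natCast_chart_J3N_inv_ne_zero L A)
  have h10 : (RingHom.ker r₁).height = 1 := hht₁ 0
  have h11 : (RingHom.ker r₂).height = 1 := hht₁ 1
  have h12 : (RingHom.ker r₃).height = 1 := hht₁ 2
  have h20 : (RingHom.ker s₁).height = 1 := hht₂ 0
  have h21 : (RingHom.ker s₂).height = 1 := hht₂ 1
  have h22 : (RingHom.ker s₃).height = 1 := hht₂ 2
  haveI i10 : (RingHom.ker r₁'').IsPrime := e10 ▸ hP₁ 0
  haveI i11 : (RingHom.ker r₂'').IsPrime := e11 ▸ hP₁ 1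
  haveI i12 : (RingHom.ker r₃'').IsPrime := e12 ▸ hP₁ 2
  haveI i20 : (RingHom.ker s₁'').IsPrime := e20 ▸ hP₂ 0
  haveI i21 : (RingHom.ker s₂'').IsPrime := e21 ▸ hP₂ 1
  haveI i22 : (RingHom.ker s₃'').IsPrime := e22 ▸ hP₂ 2
  haveI j10 : (RingHom.ker r₁).IsPrime := RingHom.ker_isPrime r₁
  haveI j11 : (RingHom.ker r₂).IsPrime := RingHom.ker_isPrime r₂
  haveI j12 : (RingHom.ker r₃).IsPrime := RingHom.ker_isPrime r₃
  haveI j20 : (RingHom.ker s₁).IsPrime := RingHom.ker_isPrime s₁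
  haveI j21 : (RingHom.ker s₂).IsPrime := RingHom.ker_isPrime s₂
  haveI j22 : (RingHom.ker s₃).IsPrime := RingHom.ker_isPrime s₃
  intro i
  fin_cases i
  · show H56.valuationSubringAt (P₁ 0) (hh₁ 0) = H56.valuationSubringAt (P₂ 0) (hh₂ 0)
    have k₁ : (RingHom.ker r₁'').height = 1 := e10 ▸ hh₁ 0
    have k₂ : (RingHom.ker s₁'').height = 1 := e20 ▸ hh₂ 0
    rw [S35.H18.valuationSubringAt_congr e10 (hh₁ 0) k₁,
      S35.H18.valuationSubringAt_congr e20 (hh₂ 0) k₂]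
    exact valuationSubringAt_ker_eq_E_of_place L A hA E0 hunr Oa reda inv_a mem_a P.hOica
      (fun c => (P.hconsta c).1) (hu_hw_a1 L hqL A hA P).1 (hu_hw_a2 L hqL A hA P).1
      c₁ d₁ hJ hJ' hc₁ hd₁ hl₁ hl₁' h10 h20 k₁ k₂
  · show H56.valuationSubringAt (P₁ 1) (hh₁ 1) = H56.valuationSubringAt (P₂ 1) (hh₂ 1)
    have k₁ : (RingHom.ker r₂'').height = 1 := e11 ▸ hh₁ 1
    have k₂ : (RingHom.ker s₂'').height = 1 := e21 ▸ hh₂ 1
    rw [S35.H18.valuationSubringAt_congr e11 (hh₁ 1) k₁,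
      S35.H18.valuationSubringAt_congr e21 (hh₂ 1) k₂]
    exact valuationSubringAt_ker_eq_E_of_place L A hA E0 hunr Oc redc P.hinvc mem_c P.hOicc
      (fun c => (P.hconstc c).1) (hu_hw_c1 L hqL A hA P).1 (hu_hw_c2 L hqL A hA P).1
      c₂ d₂ hJ hJ' hc₂ hd₂ hl₂ hl₂' h11 h21 k₁ k₂
  · show H56.valuationSubringAt (P₁ 2) (hh₁ 2) = H56.valuationSubringAt (P₂ 2) (hh₂ 2)
    have k₁ : (RingHom.ker r₃'').height = 1 := e12 ▸ hh₁ 2
    have k₂ : (RingHom.ker s₃'').height = 1 := e22 ▸ hh₂ 2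
    rw [S35.H18.valuationSubringAt_congr e12 (hh₁ 2) k₁,
      S35.H18.valuationSubringAt_congr e22 (hh₂ 2) k₂]
    exact valuationSubringAt_ker_eq_E_of_place L A hA E0 hunr Ob redb inv_b mem_b P.hOicb
      (fun c => (P.hconstb c).1) (hu_hw_b1 L hqL A hA P).1 (hu_hw_b2 L hqL A hA P).1
      c₃ d₃ hJ hJ' hc₃ hd₃ hl₃ hl₃' h12 h22 k₁ k₂

end Final

end Fermat.Agent.S36.H61
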