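import Fermat.Agent.S36.H61_HVReal
import Fermat.Agent.S36.H83_L0ThreePre
import Fermat.Agent.S36.H70_GenByUnram

/-!
# S36, seam (E2-hV) (helper61): `hV` at the `cutOver A E0`-level from ONE place of
`F₂ = FullC L₁ (q * (q * L))`, in the clause shapes of helper83's
`S36.H83.threeComponents_J3K(_inv)` and helper70's `S36.H70.exists_threeComponents_chartBC_unram`

A bare place `(O1, res1)` of `F₂` (`PB`, `PC` or `PA` of helper55) containing the constants `A₁` and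
both `J₃`, `J₃⁻¹`; reductions `r`, `s` of the two `A₁`-charts induced by it
(`inclk (r b) = res1 b`, `inclk (s b) = res1 b`); ANY extensions `r''`, `s''` to the two
`cutOver A E0`-charts along `S34.H95.chartBC` which kill `q`.  Then
`V_{ker r''} = V_{ker s''}` in `F_{E0}(q * (q * L))`.
-/

set_option autoImplicit false
set_option linter.unusedSectionVars false
set_option linter.style.haveILetI false
set_option synthInstance.maxHeartbeats 400000
set_option maxHeartbeats 3200000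

noncomputable section

namespace Fermat.Agent.S36.H61

open ModularCurve Polynomial IsLocalRing IntermediateField Fermat.Agent.S28
open Fermat.Agent.S18 Fermat.Agent.S34 Fermat.Agent.S34.H55 Fermat.Agent.S36.H83

local notation "Qbar" => AlgebraicClosure ℚ

section Places

variable (L : ℕ) [NeZero L] {q : ℕ} [hq : Fact q.Prime] (hqL : ¬ q ∣ L)
  (A : ValuationSubring Qbar) (hA : A.LiesOverPrime q)

local notation "kA" => IsLocalRing.ResidueField A
local notation "A₁" => H45.A0 A q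
local notation "L₁" => H45.unrCyclo q
local notation "F2" => modularFunctionFieldFullC (H45.unrCyclo q) (q * (q * L))
local notation "FkL" => modularFunctionFieldFullC (IsLocalRing.ResidueField A) L

include hA in
/-- **`hV` at the `A₁`-level**: the two charts `chartB A₁ J₃`, `chartB A₁ J₃⁻¹` and one bare place
of `F₂` inducing `r` and `s`. -/
theorem valuationSubringAt_ker_eq_A1_of_place
    (O1 : Subring F2) (res1 : O1 →+* LaurentSeries kA)
    (inv_mem : ∀ (y : F2) (hy : y ∈ O1), res1 ⟨y, hy⟩ ≠ 0 → y⁻¹ ∈ O1)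
    (mem_or_inv_mem : ∀ y : F2, y ∈ O1 ∨ y⁻¹ ∈ O1)
    (hOic : ∀ y : F2, IsIntegral O1 y → y ∈ O1)
    (hconst : ∀ c : A₁, algebraMap A₁ F2 c ∈ O1)
    (hu : J3N L (q := q) ∈ O1) (hu' : (J3N L (q := q))⁻¹ ∈ O1)
    {r : ↥(H40.chartB A₁ (J3N L (q := q))) →+*
      ↥(integralClosure (Algebra.adjoin kA {S18.H16.jK kA L}) FkL)}
    {s : ↥(H40.chartB A₁ (J3N L (q := q))⁻¹) →+*
      ↥(integralClosure (Algebra.adjoin kA {(S18.H16.jK kA L)⁻¹}) FkL)}
    (hr : ∀ (b : ↥(H40.chartB A₁ (J3N L (q := q)))) (h : (b : F2) ∈ O1),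
      inclk L A ((r b : ↥(integralClosure (Algebra.adjoin kA {S18.H16.jK kA L}) FkL)) : FkL) =
        res1 ⟨b, h⟩)
    (hs : ∀ (b : ↥(H40.chartB A₁ (J3N L (q := q))⁻¹)) (h : (b : F2) ∈ O1),
      inclk L A ((s b : ↥(integralClosure (Algebra.adjoin kA {(S18.H16.jK kA L)⁻¹}) FkL)) : FkL) =
        res1 ⟨b, h⟩)
    [(RingHom.ker r).IsPrime] [(RingHom.ker s).IsPrime]
    (h₁ : (RingHom.ker r).height = 1) (h₂ : (RingHom.ker s).height = 1) :
    haveI := S36.H95.isNoetherianRing_chartB_J3K_A0 (A := A) hq.out hA (q * (q * L)) q (hq2_dvd L)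
    haveI := S36.H95.isIntegrallyClosed_chartB_J3K_A0 (A := A) (ℓ := q) (q * (q * L)) q (hq2_dvd L)
    haveI := S36.H95.isFractionRing_chartB_J3K_A0 (A := A) (ℓ := q) (q * (q * L)) q (hq2_dvd L)
    haveI := S36.H95.isNoetherianRing_chartB_J3K_inv_A0 (A := A) hq.out hA (q * (q * L)) q
      (hq2_dvd L)
    haveI := S36.H95.isIntegrallyClosed_chartB_J3K_inv_A0 (A := A) (ℓ := q) (q * (q * L)) q
      (hq2_dvd L)
    haveI := S36.H95.isFractionRing_chartB_J3K_inv_A0 (A := A) (ℓ := q) (q * (q * L)) q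
      (hq2_dvd L)
    H56.valuationSubringAt (K := F2) (RingHom.ker r) h₁ =
      H56.valuationSubringAt (K := F2) (RingHom.ker s) h₂ := by
  haveI := S36.H95.isNoetherianRing_chartB_J3K_A0 (A := A) hq.out hA (q * (q * L)) q (hq2_dvd L)
  haveI := S36.H95.isIntegrallyClosed_chartB_J3K_A0 (A := A) (ℓ := q) (q * (q * L)) q (hq2_dvd L)
  haveI := S36.H95.isFractionRing_chartB_J3K_A0 (A := A) (ℓ := q) (q * (q * L)) q (hq2_dvd L)
  haveI := S36.H95.isNoetherianRing_chartB_J3K_inv_A0 (A := A) hq.out hA (q * (q * L)) q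
    (hq2_dvd L)
  haveI := S36.H95.isIntegrallyClosed_chartB_J3K_inv_A0 (A := A) (ℓ := q) (q * (q * L)) q
    (hq2_dvd L)
  haveI := S36.H95.isFractionRing_chartB_J3K_inv_A0 (A := A) (ℓ := q) (q * (q * L)) q
    (hq2_dvd L)
  have hB : ∀ b : ↥(H40.chartB A₁ (J3N L (q := q))),
      algebraMap ↥(H40.chartB A₁ (J3N L (q := q))) F2 b ∈ O1 := fun b =>
    S18.H55T.mem_of_isIntegral_adjoin_of_closed O1 hOic hconst hu b.2
  have hB' : ∀ b : ↥(H40.chartB A₁ (J3N L (q := q))⁻¹),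
      algebraMap ↥(H40.chartB A₁ (J3N L (q := q))⁻¹) F2 b ∈ O1 := fun b =>
    S18.H55T.mem_of_isIntegral_adjoin_of_closed O1 hOic hconst hu' b.2
  have key := valuationSubringAt_ker_eq_of_common_place (L := F2)
    ((inclk L A : FkL →ₐ[kA] LaurentSeries kA) : FkL →+* LaurentSeries kA) O1 res1 inv_mem
    mem_or_inv_mem
    ((integralClosure (Algebra.adjoin kA {S18.H16.jK kA L}) FkL).val :
      ↥(integralClosure (Algebra.adjoin kA {S18.H16.jK kA L}) FkL) →+* FkL)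
    Subtype.val_injective
    ((integralClosure (Algebra.adjoin kA {(S18.H16.jK kA L)⁻¹}) FkL).val :
      ↥(integralClosure (Algebra.adjoin kA {(S18.H16.jK kA L)⁻¹}) FkL) →+* FkL)
    Subtype.val_injective r s hB (fun b h => hr b h) hB' (fun b h => hs b h) h₁ h₂
  exact key

include hA in
/-- **`hV` at the `cutOver A E0`-level from one place of `F₂`** (`E0` unramified: `hunr`), in the
clause shapes of `S36.H83.threeComponents_J3K(_inv)` (`hr hs`) and
`S36.H70.exists_threeComponents_chartBC_unram` (`hcr hcs hqr hqs`). -/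
theorem valuationSubringAt_ker_eq_E_of_place
    (E0 : IntermediateField (H45.unrCyclo q) Qbar) [FiniteDimensional (H45.unrCyclo q) E0]
    (hunr : maximalIdeal ↥(H45.cutOver A E0) = Ideal.span {((q : ℕ) : ↥(H45.cutOver A E0))})
    (O1 : Subring F2) (res1 : O1 →+* LaurentSeries kA)
    (inv_mem : ∀ (y : F2) (hy : y ∈ O1), res1 ⟨y, hy⟩ ≠ 0 → y⁻¹ ∈ O1)
    (mem_or_inv_mem : ∀ y : F2, y ∈ O1 ∨ y⁻¹ ∈ O1)
    (hOic : ∀ y : F2, IsIntegral O1 y → y ∈ O1)
    (hconst : ∀ c : A₁, algebraMap A₁ F2 c ∈ O1)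
    (hu : J3N L (q := q) ∈ O1) (hu' : (J3N L (q := q))⁻¹ ∈ O1)
    {r : ↥(H40.chartB A₁ (J3N L (q := q))) →+*
      ↥(integralClosure (Algebra.adjoin kA {S18.H16.jK kA L}) FkL)}
    {s : ↥(H40.chartB A₁ (J3N L (q := q))⁻¹) →+*
      ↥(integralClosure (Algebra.adjoin kA {(S18.H16.jK kA L)⁻¹}) FkL)}
    (hr : ∀ (b : ↥(H40.chartB A₁ (J3N L (q := q)))) (h : (b : F2) ∈ O1),
      inclk L A ((r b : ↥(integralClosure (Algebra.adjoin kA {S18.H16.jK kA L}) FkL)) : FkL) =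
        res1 ⟨b, h⟩)
    (hs : ∀ (b : ↥(H40.chartB A₁ (J3N L (q := q))⁻¹)) (h : (b : F2) ∈ O1),
      inclk L A ((s b : ↥(integralClosure (Algebra.adjoin kA {(S18.H16.jK kA L)⁻¹}) FkL)) : FkL) =
        res1 ⟨b, h⟩)
    (hJ : H45.baseChangeE E0 (q * (q * L)) (J3N L (q := q)) =
      S36.H83.J3K ↥E0 (q * (q * L)) q (hq2_dvd L))
    (hJ' : H45.baseChangeE E0 (q * (q * L)) (J3N L (q := q))⁻¹ =
      (S36.H83.J3K ↥E0 (q * (q * L)) q (hq2_dvd L))⁻¹)
    {r'' : ↥(H40.chartB ↥(H45.cutOver A E0) (S36.H83.J3K ↥E0 (q * (q * L)) q (hq2_dvd L))) →+*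
      ↥(integralClosure (Algebra.adjoin kA {S18.H16.jK kA L}) FkL)}
    {s'' : ↥(H40.chartB ↥(H45.cutOver A E0) (S36.H83.J3K ↥E0 (q * (q * L)) q (hq2_dvd L))⁻¹) →+*
      ↥(integralClosure (Algebra.adjoin kA {(S18.H16.jK kA L)⁻¹}) FkL)}
    (hcr : ∀ b, r'' (S34.H95.chartBC (A := A) E0 (q * (q * L)) (J3N L (q := q))
      (S36.H83.J3K ↥E0 (q * (q * L)) q (hq2_dvd L)) hJ b) = r b)
    (hcs : ∀ b, s'' (S34.H95.chartBC (A := A) E0 (q * (q * L)) (J3N L (q := q))⁻¹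
      (S36.H83.J3K ↥E0 (q * (q * L)) q (hq2_dvd L))⁻¹ hJ' b) = s b)
    (hqr : r'' (algebraMap ↥(H45.cutOver A E0)
      ↥(H40.chartB ↥(H45.cutOver A E0) (S36.H83.J3K ↥E0 (q * (q * L)) q (hq2_dvd L)))
      ((q : ℕ) : ↥(H45.cutOver A E0))) = 0)
    (hqs : s'' (algebraMap ↥(H45.cutOver A E0)
      ↥(H40.chartB ↥(H45.cutOver A E0) (S36.H83.J3K ↥E0 (q * (q * L)) q (hq2_dvd L))⁻¹)
      ((q : ℕ) : ↥(H45.cutOver A E0))) = 0)
    [(RingHom.ker r).IsPrime] [(RingHom.ker s).IsPrime]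
    [(RingHom.ker r'').IsPrime] [(RingHom.ker s'').IsPrime]
    (h₁ : (RingHom.ker r).height = 1) (h₂ : (RingHom.ker s).height = 1)
    (k₁ : (RingHom.ker r'').height = 1) (k₂ : (RingHom.ker s'').height = 1) :
    haveI := S36.H95.isNoetherianRing_chartB_J3K hq.out hA E0 (q * (q * L)) q (hq2_dvd L)
    haveI := S36.H95.isIntegrallyClosed_chartB_J3K (A := A) E0 (q * (q * L)) q (hq2_dvd L)
    haveI := S36.H95.isFractionRing_chartB_J3K (A := A) E0 (q * (q * L)) q (hq2_dvd L)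
    haveI := S36.H95.isNoetherianRing_chartB_J3K_inv hq.out hA E0 (q * (q * L)) q (hq2_dvd L)
    haveI := S36.H95.isIntegrallyClosed_chartB_J3K_inv (A := A) E0 (q * (q * L)) q (hq2_dvd L)
    haveI := S36.H95.isFractionRing_chartB_J3K_inv (A := A) E0 (q * (q * L)) q (hq2_dvd L)
    H56.valuationSubringAt (K := ↥(modularFunctionFieldFullC ↥E0 (q * (q * L))))
        (RingHom.ker r'') k₁ =
      H56.valuationSubringAt (K := ↥(modularFunctionFieldFullC ↥E0 (q * (q * L))))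
        (RingHom.ker s'') k₂ := by
  haveI := S36.H95.isNoetherianRing_chartB_J3K_A0 (A := A) hq.out hA (q * (q * L)) q (hq2_dvd L)
  haveI := S36.H95.isIntegrallyClosed_chartB_J3K_A0 (A := A) (ℓ := q) (q * (q * L)) q (hq2_dvd L)
  haveI := S36.H95.isFractionRing_chartB_J3K_A0 (A := A) (ℓ := q) (q * (q * L)) q (hq2_dvd L)
  haveI := S36.H95.isNoetherianRing_chartB_J3K_inv_A0 (A := A) hq.out hA (q * (q * L)) q
    (hq2_dvd L)
  haveI := S36.H95.isIntegrallyClosed_chartB_J3K_inv_A0 (A := A) (ℓ := q) (q * (q * L)) q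
    (hq2_dvd L)
  haveI := S36.H95.isFractionRing_chartB_J3K_inv_A0 (A := A) (ℓ := q) (q * (q * L)) q
    (hq2_dvd L)
  haveI := S36.H95.isNoetherianRing_chartB_J3K hq.out hA E0 (q * (q * L)) q (hq2_dvd L)
  haveI := S36.H95.isIntegrallyClosed_chartB_J3K (A := A) E0 (q * (q * L)) q (hq2_dvd L)
  haveI := S36.H95.isFractionRing_chartB_J3K (A := A) E0 (q * (q * L)) q (hq2_dvd L)
  haveI := S36.H95.isNoetherianRing_chartB_J3K_inv hq.out hA E0 (q * (q * L)) q (hq2_dvd L)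
  haveI := S36.H95.isIntegrallyClosed_chartB_J3K_inv (A := A) E0 (q * (q * L)) q (hq2_dvd L)
  haveI := S36.H95.isFractionRing_chartB_J3K_inv (A := A) E0 (q * (q * L)) q (hq2_dvd L)
  haveI := S36.H83.finiteDimensional_J3K (H45.unrCyclo q) (q * (q * L)) q (hq2_dvd L)
    (H99.natCast_ne_zero₀ (q * (q * L)) (H45.unrCyclo q))
  have hGen : S35.H70.GenBy (A := A) E0 (q * (q * L)) (J3N L (q := q)) :=
    S36.H70.genBy_of_unram hq.out hA E0 (q * (q * L)) (J3N L (q := q)) hunr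
  have hVA := valuationSubringAt_ker_eq_A1_of_place L A hA O1 res1 inv_mem mem_or_inv_mem hOic
    hconst hu hu' hr hs h₁ h₂
  have key := valuationSubringAt_ker_eq_cutOver hq.out hA E0 (q * (q * L))
    (J3N L (q := q)) (J3N L (q := q))⁻¹
    (S36.H83.J3K ↥E0 (q * (q * L)) q (hq2_dvd L)) (S36.H83.J3K ↥E0 (q * (q * L)) q (hq2_dvd L))⁻¹
    hJ hJ' ((q : ℕ) : ↥(H45.cutOver A E0)) hunr hGen r s r'' s'' hcr hcs hqr hqs h₁ h₂ k₁ k₂ hVA
  exact key

end Places

end Fermat.Agent.S36.H61
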