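import Fermat.Agent.S36.H61_HVTransfer
import Fermat.Agent.S35.H70_TwoComponentsBCInst
import Fermat.Agent.S36.H95_CoordJ3Inst

/-!
# S36, seam (E2-hV) (helper61), real types

`A₁ := A0 A ℓ`, `A'' := cutOver A E`, `F1 := fullC (unrCyclo ℓ) N`, `F_E := fullC ↥E N`.
For two chart coordinates `J₁ J₂ : F1` (in practice `J₂ = J₁⁻¹`) with `E`-level coordinates
`J_E = bc J₁`, `J_E' = bc J₂`:

* `exists_eq_chartBC_add_mul` : `chartB A'' J_E = chartBC (chartB A₁ J₁) + π · chartB A'' J_E`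
  (from `GenBy`).
* `valuationSubringAt_eq_cutOver` : if `P₁ ⊆ chartB A₁ J₁`, `P₂ ⊆ chartB A₁ J₂` (height one) have
  the same valuation ring in `F1`, and `Q₁ ⊆ chartB A'' J_E`, `Q₂ ⊆ chartB A'' J_E'` (height one)
  contain `π` and contract to `P₁`, `P₂` along `chartBC`, then `Q₁`, `Q₂` have the same valuation
  ring in `F_E`.
* `valuationSubringAt_ker_eq_cutOver` : the same for kernels of reductions `r'' s''` which extend
  `r s` along `chartBC` and kill `π` (= the clauses of helper70's base change, e.g.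
  `S35.H70.redE`): **the `hV` of `S36.H61.crit36_real`.**
-/

set_option autoImplicit false
set_option linter.unusedSectionVars false
set_option linter.style.haveILetI false
set_option synthInstance.maxHeartbeats 400000
set_option maxHeartbeats 3200000

noncomputable section

namespace Fermat.Agent.S36.H61

open ModularCurve HahnSeries IsLocalRing IntermediateField
open Fermat.Agent.S18 Fermat.Agent.CA Fermat.Agent.S34

local notation "Qbar" => AlgebraicClosure ℚ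

variable {A : ValuationSubring Qbar} {ℓ : ℕ} (hℓ : ℓ.Prime) (hA : A.LiesOverPrime ℓ)
variable (E : IntermediateField (H45.unrCyclo ℓ) Qbar) (N : ℕ) [NeZero N]

include hℓ hA in
/-- `chartB A'' J_E = chartBC (chartB A₁ J₁) + π · chartB A'' J_E`. -/
theorem exists_eq_chartBC_add_mul
    (J₁ : ↥(modularFunctionFieldFullC ↥(H45.unrCyclo ℓ) N))
    (J_E : ↥(modularFunctionFieldFullC ↥E N)) (hJ : H45.baseChangeE E N J₁ = J_E)
    (π : ↥(H45.cutOver A E)) (hπ : maximalIdeal ↥(H45.cutOver A E) = Ideal.span {π})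
    (hN : S35.H70.GenBy (A := A) E N J₁)
    (z : ↥(H40.chartB ↥(H45.cutOver A E) J_E)) :
    ∃ b : ↥(H40.chartB ↥(H45.A0 A ℓ) J₁), ∃ z' : ↥(H40.chartB ↥(H45.cutOver A E) J_E),
      z = S34.H95.chartBC (A := A) E N J₁ J_E hJ b +
        algebraMap ↥(H45.cutOver A E) ↥(H40.chartB ↥(H45.cutOver A E) J_E) π * z' := by
  subst hJ
  letI := S34.H70.algA0FE (A := A) E N
  letI := S34.H70.algSubFE (A := A) E N (H40.chartB ↥(H45.A0 A ℓ) J₁)
  haveI := S34.H70.isScalarTower_A0_cutOver_FE (A := A) (q := ℓ) E N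
  haveI := S34.H70.isScalarTower_A0_sub_FE (A := A) (q := ℓ) E N (H40.chartB ↥(H45.A0 A ℓ) J₁)
  have hz : (z : ↥(modularFunctionFieldFullC ↥E N)) ∈
      H79.genRing ↥(H45.cutOver A E) ↥(H40.chartB ↥(H45.A0 A ℓ) J₁)
        ↥(modularFunctionFieldFullC ↥E N) :=
    (S35.H70.mem_chartB_iff_mem_genRing (A := A) E N J₁ hN _).mp z.2
  obtain ⟨b, r', hr', hrr⟩ := H79.exists_add_mul_of_mem_genRing
    (A₁ := ↥(H45.A0 A ℓ)) (B := ↥(H40.chartB ↥(H45.A0 A ℓ) J₁)) π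
    (S34.H70.h1_inst hℓ hA E π hπ) hz
  refine ⟨b, ⟨r', (S35.H70.mem_chartB_iff_mem_genRing (A := A) E N J₁ hN _).mpr hr'⟩, ?_⟩
  apply Subtype.ext
  rw [hrr]
  rfl

include hℓ hA in
/-- **`hV` at the `cutOver A E`-level from `hV` at the `A0 A ℓ`-level** (prime-ideal form). -/
theorem valuationSubringAt_eq_cutOver
    (J₁ J₂ : ↥(modularFunctionFieldFullC ↥(H45.unrCyclo ℓ) N))
    (J_E J_E' : ↥(modularFunctionFieldFullC ↥E N))
    (hJ : H45.baseChangeE E N J₁ = J_E) (hJ' : H45.baseChangeE E N J₂ = J_E')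
    (π : ↥(H45.cutOver A E)) (hπ : maximalIdeal ↥(H45.cutOver A E) = Ideal.span {π})
    (hN : S35.H70.GenBy (A := A) E N J₁)
    [IsFractionRing ↥(H40.chartB ↥(H45.A0 A ℓ) J₁) ↥(modularFunctionFieldFullC ↥(H45.unrCyclo ℓ) N)]
    [IsNoetherianRing ↥(H40.chartB ↥(H45.A0 A ℓ) J₁)]
    [IsIntegrallyClosed ↥(H40.chartB ↥(H45.A0 A ℓ) J₁)]
    [IsFractionRing ↥(H40.chartB ↥(H45.A0 A ℓ) J₂) ↥(modularFunctionFieldFullC ↥(H45.unrCyclo ℓ) N)]
    [IsNoetherianRing ↥(H40.chartB ↥(H45.A0 A ℓ) J₂)]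
    [IsIntegrallyClosed ↥(H40.chartB ↥(H45.A0 A ℓ) J₂)]
    [IsFractionRing ↥(H40.chartB ↥(H45.cutOver A E) J_E) ↥(modularFunctionFieldFullC ↥E N)]
    [IsNoetherianRing ↥(H40.chartB ↥(H45.cutOver A E) J_E)]
    [IsIntegrallyClosed ↥(H40.chartB ↥(H45.cutOver A E) J_E)]
    [IsFractionRing ↥(H40.chartB ↥(H45.cutOver A E) J_E') ↥(modularFunctionFieldFullC ↥E N)]
    [IsNoetherianRing ↥(H40.chartB ↥(H45.cutOver A E) J_E')]
    [IsIntegrallyClosed ↥(H40.chartB ↥(H45.cutOver A E) J_E')]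
    (P₁ : Ideal ↥(H40.chartB ↥(H45.A0 A ℓ) J₁)) [P₁.IsPrime] (h₁ : P₁.height = 1)
    (P₂ : Ideal ↥(H40.chartB ↥(H45.A0 A ℓ) J₂)) [P₂.IsPrime] (h₂ : P₂.height = 1)
    (Q₁ : Ideal ↥(H40.chartB ↥(H45.cutOver A E) J_E)) [Q₁.IsPrime] (k₁ : Q₁.height = 1)
    (Q₂ : Ideal ↥(H40.chartB ↥(H45.cutOver A E) J_E')) [Q₂.IsPrime] (k₂ : Q₂.height = 1)
    (hc₁ : ∀ b, S34.H95.chartBC (A := A) E N J₁ J_E hJ b ∈ Q₁ ↔ b ∈ P₁)
    (hc₂ : ∀ b, S34.H95.chartBC (A := A) E N J₂ J_E' hJ' b ∈ Q₂ ↔ b ∈ P₂)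
    (hπ₁ : algebraMap ↥(H45.cutOver A E) ↥(H40.chartB ↥(H45.cutOver A E) J_E) π ∈ Q₁)
    (hπ₂ : algebraMap ↥(H45.cutOver A E) ↥(H40.chartB ↥(H45.cutOver A E) J_E') π ∈ Q₂)
    (hV : H56.valuationSubringAt (K := ↥(modularFunctionFieldFullC ↥(H45.unrCyclo ℓ) N)) P₁ h₁ =
      H56.valuationSubringAt (K := ↥(modularFunctionFieldFullC ↥(H45.unrCyclo ℓ) N)) P₂ h₂) :
    H56.valuationSubringAt (K := ↥(modularFunctionFieldFullC ↥E N)) Q₁ k₁ =
      H56.valuationSubringAt (K := ↥(modularFunctionFieldFullC ↥E N)) Q₂ k₂ := by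
  have hgen : ∀ z : ↥(H40.chartB ↥(H45.cutOver A E) J_E),
      algebraMap ↥(H40.chartB ↥(H45.cutOver A E) J_E) ↥(modularFunctionFieldFullC ↥E N) z ∈
        Subring.closure
          (Set.range (fun b : ↥(H40.chartB ↥(H45.A0 A ℓ) J₁) =>
              H45.baseChangeE E N
                (algebraMap ↥(H40.chartB ↥(H45.A0 A ℓ) J₁)
                  ↥(modularFunctionFieldFullC ↥(H45.unrCyclo ℓ) N) b)) ∪
            Set.range (algebraMap ↥(H45.cutOver A E) ↥(modularFunctionFieldFullC ↥E N))) := by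
    intro z
    subst hJ
    exact (hN _).mp z.2
  have key := valuationSubringAt_eq_of_gen (H45.baseChangeE E N)
    (S34.H95.chartBC (A := A) E N J₁ J_E hJ) (fun b => rfl)
    (S34.H95.chartBC (A := A) E N J₂ J_E' hJ') (fun b => rfl)
    P₁ h₁ P₂ h₂ Q₁ k₁ Q₂ k₂ hc₁ hc₂ hV
    (Set.range (algebraMap ↥(H45.cutOver A E) ↥(modularFunctionFieldFullC ↥E N)))
    (by
      rintro x ⟨a, rfl⟩
      exact ⟨algebraMap ↥(H45.cutOver A E) ↥(H40.chartB ↥(H45.cutOver A E) J_E') a, rfl⟩)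
    hgen
    (algebraMap ↥(H45.cutOver A E) ↥(H40.chartB ↥(H45.cutOver A E) J_E) π)
    (algebraMap ↥(H45.cutOver A E) ↥(H40.chartB ↥(H45.cutOver A E) J_E') π) rfl hπ₁ hπ₂
    (fun z => exists_eq_chartBC_add_mul hℓ hA E N J₁ J_E hJ π hπ hN z)
  exact key

include hℓ hA in
/-- **`hV` at the `cutOver A E`-level, kernel form**: `r'' s''` ANY ring homs on the `A''`-charts
extending `r s` along `chartBC` and killing `π` (e.g. `S35.H70.redE`, or the `red''` of a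
`exists_threeComponents…` package with its `hcomp` clause). -/
theorem valuationSubringAt_ker_eq_cutOver
    (J₁ J₂ : ↥(modularFunctionFieldFullC ↥(H45.unrCyclo ℓ) N))
    (J_E J_E' : ↥(modularFunctionFieldFullC ↥E N))
    (hJ : H45.baseChangeE E N J₁ = J_E) (hJ' : H45.baseChangeE E N J₂ = J_E')
    (π : ↥(H45.cutOver A E)) (hπ : maximalIdeal ↥(H45.cutOver A E) = Ideal.span {π})
    (hN : S35.H70.GenBy (A := A) E N J₁)
    [IsFractionRing ↥(H40.chartB ↥(H45.A0 A ℓ) J₁) ↥(modularFunctionFieldFullC ↥(H45.unrCyclo ℓ) N)]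
    [IsNoetherianRing ↥(H40.chartB ↥(H45.A0 A ℓ) J₁)]
    [IsIntegrallyClosed ↥(H40.chartB ↥(H45.A0 A ℓ) J₁)]
    [IsFractionRing ↥(H40.chartB ↥(H45.A0 A ℓ) J₂) ↥(modularFunctionFieldFullC ↥(H45.unrCyclo ℓ) N)]
    [IsNoetherianRing ↥(H40.chartB ↥(H45.A0 A ℓ) J₂)]
    [IsIntegrallyClosed ↥(H40.chartB ↥(H45.A0 A ℓ) J₂)]
    [IsFractionRing ↥(H40.chartB ↥(H45.cutOver A E) J_E) ↥(modularFunctionFieldFullC ↥E N)]
    [IsNoetherianRing ↥(H40.chartB ↥(H45.cutOver A E) J_E)]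
    [IsIntegrallyClosed ↥(H40.chartB ↥(H45.cutOver A E) J_E)]
    [IsFractionRing ↥(H40.chartB ↥(H45.cutOver A E) J_E') ↥(modularFunctionFieldFullC ↥E N)]
    [IsNoetherianRing ↥(H40.chartB ↥(H45.cutOver A E) J_E')]
    [IsIntegrallyClosed ↥(H40.chartB ↥(H45.cutOver A E) J_E')]
    {R₀ R₀' : Type*} [CommRing R₀] [CommRing R₀']
    (r : ↥(H40.chartB ↥(H45.A0 A ℓ) J₁) →+* R₀) (s : ↥(H40.chartB ↥(H45.A0 A ℓ) J₂) →+* R₀')
    (r'' : ↥(H40.chartB ↥(H45.cutOver A E) J_E) →+* R₀)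
    (s'' : ↥(H40.chartB ↥(H45.cutOver A E) J_E') →+* R₀')
    (hcr : ∀ b, r'' (S34.H95.chartBC (A := A) E N J₁ J_E hJ b) = r b)
    (hcs : ∀ b, s'' (S34.H95.chartBC (A := A) E N J₂ J_E' hJ' b) = s b)
    (hπr : r'' (algebraMap ↥(H45.cutOver A E) ↥(H40.chartB ↥(H45.cutOver A E) J_E) π) = 0)
    (hπs : s'' (algebraMap ↥(H45.cutOver A E) ↥(H40.chartB ↥(H45.cutOver A E) J_E') π) = 0)
    [(RingHom.ker r).IsPrime] [(RingHom.ker s).IsPrime]
    [(RingHom.ker r'').IsPrime] [(RingHom.ker s'').IsPrime]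
    (h₁ : (RingHom.ker r).height = 1) (h₂ : (RingHom.ker s).height = 1)
    (k₁ : (RingHom.ker r'').height = 1) (k₂ : (RingHom.ker s'').height = 1)
    (hV : H56.valuationSubringAt (K := ↥(modularFunctionFieldFullC ↥(H45.unrCyclo ℓ) N))
        (RingHom.ker r) h₁ =
      H56.valuationSubringAt (K := ↥(modularFunctionFieldFullC ↥(H45.unrCyclo ℓ) N))
        (RingHom.ker s) h₂) :
    H56.valuationSubringAt (K := ↥(modularFunctionFieldFullC ↥E N)) (RingHom.ker r'') k₁ =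
      H56.valuationSubringAt (K := ↥(modularFunctionFieldFullC ↥E N)) (RingHom.ker s'') k₂ := by
  have key := valuationSubringAt_eq_cutOver hℓ hA E N J₁ J₂ J_E J_E' hJ hJ' π hπ hN
    (RingHom.ker r) h₁ (RingHom.ker s) h₂ (RingHom.ker r'') k₁ (RingHom.ker s'') k₂
    (fun b => by rw [RingHom.mem_ker, RingHom.mem_ker, hcr])
    (fun b => by rw [RingHom.mem_ker, RingHom.mem_ker, hcs])
    (RingHom.mem_ker.mpr hπr) (RingHom.mem_ker.mpr hπs) hV
  exact key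

/-! ### At the coordinate `J₃ = S36.H83.J3K` (all chart instances discharged) -/

section J3

variable (q : ℕ) [NeZero q] (hq2 : q * q ∣ N) [FiniteDimensional (H45.unrCyclo ℓ) E]

include hℓ hA in
/-- **`hV` of `S36.H61.crit36_real`, one index**: `r s` reductions of the `A₁`-charts
`chartB A₁ J₃`, `chartB A₁ J₃⁻¹` with the same valuation ring, `r'' s''` ANY extensions to the
`A''`-charts `chartB A'' J₃`, `chartB A'' J₃⁻¹` along helper95's `chartBC_J3K(_inv)` which kill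
`π`. -/
theorem valuationSubringAt_ker_eq_J3K
    (π : ↥(H45.cutOver A E)) (hπ : maximalIdeal ↥(H45.cutOver A E) = Ideal.span {π})
    (hN : S35.H70.GenBy (A := A) E N (S36.H83.J3K (H45.unrCyclo ℓ) N q hq2))
    {R₀ R₀' : Type*} [CommRing R₀] [CommRing R₀']
    (r : ↥(H40.chartB ↥(H45.A0 A ℓ) (S36.H83.J3K (H45.unrCyclo ℓ) N q hq2)) →+* R₀)
    (s : ↥(H40.chartB ↥(H45.A0 A ℓ) (S36.H83.J3K (H45.unrCyclo ℓ) N q hq2)⁻¹) →+* R₀')
    (r'' : ↥(H40.chartB ↥(H45.cutOver A E) (S36.H83.J3K ↥E N q hq2)) →+* R₀)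
    (s'' : ↥(H40.chartB ↥(H45.cutOver A E) (S36.H83.J3K ↥E N q hq2)⁻¹) →+* R₀')
    (hcr : ∀ b, r'' (S36.H95.chartBC_J3K (A := A) E N q hq2 b) = r b)
    (hcs : ∀ b, s'' (S36.H95.chartBC_J3K_inv (A := A) E N q hq2 b) = s b)
    (hπr : r'' (algebraMap ↥(H45.cutOver A E)
      ↥(H40.chartB ↥(H45.cutOver A E) (S36.H83.J3K ↥E N q hq2)) π) = 0)
    (hπs : s'' (algebraMap ↥(H45.cutOver A E)
      ↥(H40.chartB ↥(H45.cutOver A E) (S36.H83.J3K ↥E N q hq2)⁻¹) π) = 0)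
    [(RingHom.ker r).IsPrime] [(RingHom.ker s).IsPrime]
    [(RingHom.ker r'').IsPrime] [(RingHom.ker s'').IsPrime]
    (h₁ : (RingHom.ker r).height = 1) (h₂ : (RingHom.ker s).height = 1)
    (k₁ : (RingHom.ker r'').height = 1) (k₂ : (RingHom.ker s'').height = 1) :
    haveI := S36.H95.isNoetherianRing_chartB_J3K_A0 (A := A) hℓ hA N q hq2
    haveI := S36.H95.isIntegrallyClosed_chartB_J3K_A0 (A := A) (ℓ := ℓ) N q hq2
    haveI := S36.H95.isFractionRing_chartB_J3K_A0 (A := A) (ℓ := ℓ) N q hq2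
    haveI := S36.H95.isNoetherianRing_chartB_J3K_inv_A0 (A := A) hℓ hA N q hq2
    haveI := S36.H95.isIntegrallyClosed_chartB_J3K_inv_A0 (A := A) (ℓ := ℓ) N q hq2
    haveI := S36.H95.isFractionRing_chartB_J3K_inv_A0 (A := A) (ℓ := ℓ) N q hq2
    haveI := S36.H95.isNoetherianRing_chartB_J3K hℓ hA E N q hq2
    haveI := S36.H95.isIntegrallyClosed_chartB_J3K (A := A) E N q hq2
    haveI := S36.H95.isFractionRing_chartB_J3K (A := A) E N q hq2
    haveI := S36.H95.isNoetherianRing_chartB_J3K_inv hℓ hA E N q hq2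
    haveI := S36.H95.isIntegrallyClosed_chartB_J3K_inv (A := A) E N q hq2
    haveI := S36.H95.isFractionRing_chartB_J3K_inv (A := A) E N q hq2
    H56.valuationSubringAt (K := ↥(modularFunctionFieldFullC ↥(H45.unrCyclo ℓ) N))
        (RingHom.ker r) h₁ =
      H56.valuationSubringAt (K := ↥(modularFunctionFieldFullC ↥(H45.unrCyclo ℓ) N))
        (RingHom.ker s) h₂ →
    H56.valuationSubringAt (K := ↥(modularFunctionFieldFullC ↥E N)) (RingHom.ker r'') k₁ =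
      H56.valuationSubringAt (K := ↥(modularFunctionFieldFullC ↥E N)) (RingHom.ker s'') k₂ := by
  haveI := S36.H95.isNoetherianRing_chartB_J3K_A0 (A := A) hℓ hA N q hq2
  haveI := S36.H95.isIntegrallyClosed_chartB_J3K_A0 (A := A) (ℓ := ℓ) N q hq2
  haveI := S36.H95.isFractionRing_chartB_J3K_A0 (A := A) (ℓ := ℓ) N q hq2
  haveI := S36.H95.isNoetherianRing_chartB_J3K_inv_A0 (A := A) hℓ hA N q hq2
  haveI := S36.H95.isIntegrallyClosed_chartB_J3K_inv_A0 (A := A) (ℓ := ℓ) N q hq2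
  haveI := S36.H95.isFractionRing_chartB_J3K_inv_A0 (A := A) (ℓ := ℓ) N q hq2
  haveI := S36.H95.isNoetherianRing_chartB_J3K hℓ hA E N q hq2
  haveI := S36.H95.isIntegrallyClosed_chartB_J3K (A := A) E N q hq2
  haveI := S36.H95.isFractionRing_chartB_J3K (A := A) E N q hq2
  haveI := S36.H95.isNoetherianRing_chartB_J3K_inv hℓ hA E N q hq2
  haveI := S36.H95.isIntegrallyClosed_chartB_J3K_inv (A := A) E N q hq2
  haveI := S36.H95.isFractionRing_chartB_J3K_inv (A := A) E N q hq2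
  intro hV
  have key := valuationSubringAt_ker_eq_cutOver hℓ hA E N
    (S36.H83.J3K (H45.unrCyclo ℓ) N q hq2) (S36.H83.J3K (H45.unrCyclo ℓ) N q hq2)⁻¹
    (S36.H83.J3K ↥E N q hq2) (S36.H83.J3K ↥E N q hq2)⁻¹
    (S36.H95.baseChangeE_J3K E N q hq2) (S36.H95.baseChangeE_J3K_inv E N q hq2)
    π hπ hN r s r'' s'' hcr hcs hπr hπs h₁ h₂ k₁ k₂ hV
  exact key

end J3

end Fermat.Agent.S36.H61
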