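import Fermat.Agent.S36.H61_Crit36Gen
import Fermat.Agent.S35.H70_TwoComponentsBCFinal

/-!
# S36, seam (E2-hV) (helper61): `hVeq` in the (S1) spelling of the top

Charts `chartB R (bc N (J3N L))`, `chartB R (bc N (J3N L)⁻¹)` (`bc := H45.baseChangeE E0`,
`R := cutOver A E0`), reductions LITERALLY `S35.H70.redE .. r_i hq_i`, `S35.H70.redE .. s_i hq_i'`:
`hVeq_redE` = `hVeq_of_placeSide_gen` at `hJ := rfl`, `hJ' := rfl`, the clauses discharged by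
`S35.H70.redE_chartMapE`, `S35.H70.redE_pi`.
-/

set_option autoImplicit false
set_option linter.unusedSectionVars false
set_option linter.style.haveILetI false
set_option synthInstance.maxHeartbeats 400000
set_option maxHeartbeats 3200000

noncomputable section

namespace Fermat.Agent.S36.H61

open ModularCurve Polynomial IsLocalRing IntermediateField Fermat.Agent.S28
open Fermat.Agent.S18 Fermat.Agent.S34 Fermat.Agent.S34.H55 Fermat.Agent.S36.H83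

local notation "Qbar" => AlgebraicClosure ℚ

section S1

variable (L : ℕ) [NeZero L] {q : ℕ} [hq : Fact q.Prime] (hqL : ¬ q ∣ L)
  (A : ValuationSubring Qbar) (hA : A.LiesOverPrime q)

local notation "kA" => IsLocalRing.ResidueField A
local notation "A₁" => H45.A0 A q
local notation "L₁" => H45.unrCyclo q
local notation "F2" => modularFunctionFieldFullC (H45.unrCyclo q) (q * (q * L))
local notation "FkL" => modularFunctionFieldFullC (IsLocalRing.ResidueField A) L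

set_option maxHeartbeats 6400000 in
/-- **`hVeq` in the (S1) spelling, reductions `S35.H70.redE`.** -/
theorem hVeq_redE
    {Oa : Subring F2} {reda : Oa →+* LaurentSeries kA}
    {Oc : Subring F2} {redc : Oc →+* LaurentSeries kA}
    {Ob : Subring F2} {redb : Ob →+* LaurentSeries kA} {τ : F2}
    (P : PlaceSide L hqL A hA Oa reda Oc redc Ob redb τ)
    (inv_a : ∀ (y : F2) (hy : y ∈ Oa), reda ⟨y, hy⟩ ≠ 0 → y⁻¹ ∈ Oa)
    (mem_a : ∀ y : F2, y ∈ Oa ∨ y⁻¹ ∈ Oa)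
    (mem_c : ∀ y : F2, y ∈ Oc ∨ y⁻¹ ∈ Oc)
    (inv_b : ∀ (y : F2) (hy : y ∈ Ob), redb ⟨y, hy⟩ ≠ 0 → y⁻¹ ∈ Ob)
    (mem_b : ∀ y : F2, y ∈ Ob ∨ y⁻¹ ∈ Ob)
    -- the `A₁`-level package, chart `J₃`
    {r₁ r₂ r₃ : ↥(H40.chartB A₁ (J3N L (q := q))) →+*
      ↥(integralClosure (Algebra.adjoin kA {S18.H16.jK kA L}) FkL)}
    (c₁ : ∀ (b : ↥(H40.chartB A₁ (J3N L (q := q)))) (h : (b : F2) ∈ Oa),
      inclk L A ((r₁ b : ↥(integralClosure (Algebra.adjoin kA {S18.H16.jK kA L}) FkL)) : FkL) =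
        reda ⟨b, h⟩)
    (c₂ : ∀ (b : ↥(H40.chartB A₁ (J3N L (q := q)))) (h : (b : F2) ∈ Oc),
      inclk L A ((r₂ b : ↥(integralClosure (Algebra.adjoin kA {S18.H16.jK kA L}) FkL)) : FkL) =
        redc ⟨b, h⟩)
    (c₃ : ∀ (b : ↥(H40.chartB A₁ (J3N L (q := q)))) (h : (b : F2) ∈ Ob),
      inclk L A ((r₃ b : ↥(integralClosure (Algebra.adjoin kA {S18.H16.jK kA L}) FkL)) : FkL) =
        redb ⟨b, h⟩)
    (hq₁ : r₁ (algebraMap A₁ ↥(H40.chartB A₁ (J3N L (q := q))) ((q : ℕ) : A₁)) = 0)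
    (hq₂ : r₂ (algebraMap A₁ ↥(H40.chartB A₁ (J3N L (q := q))) ((q : ℕ) : A₁)) = 0)
    (hq₃ : r₃ (algebraMap A₁ ↥(H40.chartB A₁ (J3N L (q := q))) ((q : ℕ) : A₁)) = 0)
    (TC₁ : ThreeComponents r₁ r₂ r₃
      (chartMap (eU L (q := q)) (eU_algebraMap L A) (huint1 L A))
      (chartMap (eV L (q := q)) (eV_algebraMap L A) (hvint1 L A))
      (chartMap (eW L (q := q)) (eW_algebraMap L A) (hwint1 L A))
      (rbarB (Mod L hqL A hA) (Mod L hqL A hA).x_mem (Mod L hqL A hA).res1_x)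
      (WR (FrM L A hA) q (hFrx L A hA)) q
      (algebraMap A₁ ↥(H40.chartB A₁ (J3N L (q := q))) ((q : ℕ) : A₁)))
    -- the `A₁`-level package, chart `J₃⁻¹`
    {s₁ s₂ s₃ : ↥(H40.chartB A₁ (J3N L (q := q))⁻¹) →+*
      ↥(integralClosure (Algebra.adjoin kA {(S18.H16.jK kA L)⁻¹}) FkL)}
    (d₁ : ∀ (b : ↥(H40.chartB A₁ (J3N L (q := q))⁻¹)) (h : (b : F2) ∈ Oa),
      inclk L A ((s₁ b : ↥(integralClosure (Algebra.adjoin kA {(S18.H16.jK kA L)⁻¹}) FkL)) : FkL) =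
        reda ⟨b, h⟩)
    (d₂ : ∀ (b : ↥(H40.chartB A₁ (J3N L (q := q))⁻¹)) (h : (b : F2) ∈ Oc),
      inclk L A ((s₂ b : ↥(integralClosure (Algebra.adjoin kA {(S18.H16.jK kA L)⁻¹}) FkL)) : FkL) =
        redc ⟨b, h⟩)
    (d₃ : ∀ (b : ↥(H40.chartB A₁ (J3N L (q := q))⁻¹)) (h : (b : F2) ∈ Ob),
      inclk L A ((s₃ b : ↥(integralClosure (Algebra.adjoin kA {(S18.H16.jK kA L)⁻¹}) FkL)) : FkL) =
        redb ⟨b, h⟩)
    (hq₁' : s₁ (algebraMap A₁ ↥(H40.chartB A₁ (J3N L (q := q))⁻¹) ((q : ℕ) : A₁)) = 0)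
    (hq₂' : s₂ (algebraMap A₁ ↥(H40.chartB A₁ (J3N L (q := q))⁻¹) ((q : ℕ) : A₁)) = 0)
    (hq₃' : s₃ (algebraMap A₁ ↥(H40.chartB A₁ (J3N L (q := q))⁻¹) ((q : ℕ) : A₁)) = 0)
    (TC₂ : ThreeComponents s₁ s₂ s₃
      (chartMap (eU L (q := q)) (eU_algebraMap L A) (huint2 L A))
      (chartMap (eV L (q := q)) (eV_algebraMap L A) (hvint2 L A))
      (chartMap (eW L (q := q)) (eW_algebraMap L A) (hwint2 L A))
      (rbarB (Mod L hqL A hA) (hc2 L hqL A hA) (hcw2 L hqL A hA))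
      (WR (FrM L A hA) q (hFrx_inv L A hA)) q
      (algebraMap A₁ ↥(H40.chartB A₁ (J3N L (q := q))⁻¹) ((q : ℕ) : A₁)))
    -- the `cutOver A E0`-level, (S1) spelling
    (E0 : IntermediateField (H45.unrCyclo q) Qbar) [FiniteDimensional (H45.unrCyclo q) E0]
    (hunr : maximalIdeal ↥(H45.cutOver A E0) = Ideal.span {((q : ℕ) : ↥(H45.cutOver A E0))})
    [IsFractionRing ↥(H40.chartB ↥(H45.cutOver A E0) (H45.baseChangeE E0 (q * (q * L)) (J3N L (q := q)))) ↥(modularFunctionFieldFullC ↥E0 (q * (q * L)))]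
    [IsNoetherianRing ↥(H40.chartB ↥(H45.cutOver A E0) (H45.baseChangeE E0 (q * (q * L)) (J3N L (q := q))))]
    [IsIntegrallyClosed ↥(H40.chartB ↥(H45.cutOver A E0) (H45.baseChangeE E0 (q * (q * L)) (J3N L (q := q))))]
    [IsFractionRing ↥(H40.chartB ↥(H45.cutOver A E0) (H45.baseChangeE E0 (q * (q * L)) (J3N L (q := q))⁻¹)) ↥(modularFunctionFieldFullC ↥E0 (q * (q * L)))]
    [IsNoetherianRing ↥(H40.chartB ↥(H45.cutOver A E0) (H45.baseChangeE E0 (q * (q * L)) (J3N L (q := q))⁻¹))]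
    [IsIntegrallyClosed ↥(H40.chartB ↥(H45.cutOver A E0) (H45.baseChangeE E0 (q * (q * L)) (J3N L (q := q))⁻¹))]
    (hN : S35.H70.GenBy (A := A) E0 (q * (q * L)) (J3N L (q := q)))
    (hN' : S35.H70.GenBy (A := A) E0 (q * (q * L)) (J3N L (q := q))⁻¹)
    (P₁ : Fin 3 → Ideal ↥(H40.chartB ↥(H45.cutOver A E0) (H45.baseChangeE E0 (q * (q * L)) (J3N L (q := q)))))
    (P₂ : Fin 3 → Ideal ↥(H40.chartB ↥(H45.cutOver A E0) (H45.baseChangeE E0 (q * (q * L)) (J3N L (q := q))⁻¹)))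
    (e10 : P₁ 0 = RingHom.ker (S35.H70.redE hq.out hA E0 (q * (q * L)) (J3N L (q := q)) ((q : ℕ) : ↥(H45.cutOver A E0)) hunr hN r₁ hq₁))
    (e11 : P₁ 1 = RingHom.ker (S35.H70.redE hq.out hA E0 (q * (q * L)) (J3N L (q := q)) ((q : ℕ) : ↥(H45.cutOver A E0)) hunr hN r₂ hq₂))
    (e12 : P₁ 2 = RingHom.ker (S35.H70.redE hq.out hA E0 (q * (q * L)) (J3N L (q := q)) ((q : ℕ) : ↥(H45.cutOver A E0)) hunr hN r₃ hq₃))
    (e20 : P₂ 0 = RingHom.ker (S35.H70.redE hq.out hA E0 (q * (q * L)) (J3N L (q := q))⁻¹ ((q : ℕ) : ↥(H45.cutOver A E0)) hunr hN' s₁ hq₁'))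
    (e21 : P₂ 1 = RingHom.ker (S35.H70.redE hq.out hA E0 (q * (q * L)) (J3N L (q := q))⁻¹ ((q : ℕ) : ↥(H45.cutOver A E0)) hunr hN' s₂ hq₂'))
    (e22 : P₂ 2 = RingHom.ker (S35.H70.redE hq.out hA E0 (q * (q * L)) (J3N L (q := q))⁻¹ ((q : ℕ) : ↥(H45.cutOver A E0)) hunr hN' s₃ hq₃'))
    [hP₁ : ∀ i, (P₁ i).IsPrime] [hP₂ : ∀ i, (P₂ i).IsPrime]
    (hh₁ : ∀ i, (P₁ i).height = 1) (hh₂ : ∀ i, (P₂ i).height = 1) :
    ∀ i, H56.valuationSubringAt (K := ↥(modularFunctionFieldFullC ↥E0 (q * (q * L)))) (P₁ i) (hh₁ i) =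
      H56.valuationSubringAt (K := ↥(modularFunctionFieldFullC ↥E0 (q * (q * L)))) (P₂ i) (hh₂ i) := by
  have hc : ∀ {R₀ : Type _} [CommRing R₀] (J : ↥(modularFunctionFieldFullC ↥(H45.unrCyclo q) (q * (q * L))))
      (h : S35.H70.GenBy (A := A) E0 (q * (q * L)) J) (r : ↥(H40.chartB A₁ J) →+* R₀)
      (hr : r (algebraMap A₁ ↥(H40.chartB A₁ J) ((q : ℕ) : A₁)) = 0)
      (b : ↥(H40.chartB A₁ J)),
      S35.H70.redE hq.out hA E0 (q * (q * L)) J ((q : ℕ) : ↥(H45.cutOver A E0)) hunr h r hr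
        (S34.H95.chartBC (A := A) E0 (q * (q * L)) J (H45.baseChangeE E0 (q * (q * L)) J) rfl b) = r b := by
    intro R₀ _ J h r hr b
    rw [S35.H70.chartBC_eq_chartMapE]
    exact S35.H70.redE_chartMapE hq.out hA E0 (q * (q * L)) J _ hunr h r hr b
  have key := hVeq_of_placeSide_gen L hqL A hA P inv_a mem_a mem_c inv_b mem_b c₁ c₂ c₃ hq₁ hq₂ hq₃
    TC₁ d₁ d₂ d₃ hq₁' hq₂' hq₃' TC₂ E0 hunr (H45.baseChangeE E0 (q * (q * L)) (J3N L (q := q))) (H45.baseChangeE E0 (q * (q * L)) (J3N L (q := q))⁻¹) rfl rfl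
    (hc _ hN r₁ hq₁) (hc _ hN r₂ hq₂) (hc _ hN r₃ hq₃)
    (S35.H70.redE_pi hq.out hA E0 (q * (q * L)) _ _ hunr hN r₁ hq₁)
    (S35.H70.redE_pi hq.out hA E0 (q * (q * L)) _ _ hunr hN r₂ hq₂)
    (S35.H70.redE_pi hq.out hA E0 (q * (q * L)) _ _ hunr hN r₃ hq₃)
    (hc _ hN' s₁ hq₁') (hc _ hN' s₂ hq₂') (hc _ hN' s₃ hq₃')
    (S35.H70.redE_pi hq.out hA E0 (q * (q * L)) _ _ hunr hN' s₁ hq₁')
    (S35.H70.redE_pi hq.out hA E0 (q * (q * L)) _ _ hunr hN' s₂ hq₂')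
    (S35.H70.redE_pi hq.out hA E0 (q * (q * L)) _ _ hunr hN' s₃ hq₃')
    P₁ P₂ e10 e11 e12 e20 e21 e22 hh₁ hh₂
  exact key

end S1

end Fermat.Agent.S36.H61
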