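import Fermat.Agent.S36.H61_HVS1Final

/-!
# S36, seam test (E2-hV) x (E2)-(S1) (helper61)

`hVeq_S1_seam`: the two `obtain`s from `S36.H70.threeComponentsS1_J3K` and
`S36.H70.threeComponentsS1_J3K_inv` feed `S36.H61.hVeq_S1` VERBATIM (no adapter): for the reductions
handed out by helper70's (S1) packages, ANY labelled families `P₁ P₂` with
`P₁ i = ker (redE .. r_i hq_i)`, `P₂ i = ker (redE .. s_i hq_i')` have equal valuation subrings.
Nothing needs to import this file; it documents the call shape for `S36/H18_Model36`.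
-/

set_option autoImplicit false
set_option linter.unusedSectionVars false
set_option linter.style.haveILetI false
set_option synthInstance.maxHeartbeats 400000
set_option maxHeartbeats 3200000

noncomputable section

namespace Fermat.Agent.S36.H61

open ModularCurve Polynomial IsLocalRing IntermediateField Fermat.Agent.S28
open Fermat.Agent.S18 Fermat.Agent.S34 Fermat.Agent.S34.H55 Fermat.Agent.S36.H83

local notation "Qbar" => AlgebraicClosure ℚ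

section Seam

variable (L : ℕ) [NeZero L] {q : ℕ} [hq : Fact q.Prime] (hqL : ¬ q ∣ L)
  (A : ValuationSubring Qbar) (hA : A.LiesOverPrime q)

local notation "kA" => IsLocalRing.ResidueField A
local notation "A₁" => H45.A0 A q
local notation "L₁" => H45.unrCyclo q
local notation "F2" => modularFunctionFieldFullC (H45.unrCyclo q) (q * (q * L))
local notation "FkL" => modularFunctionFieldFullC (IsLocalRing.ResidueField A) L

set_option maxHeartbeats 6400000 in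
/-- **Seam test**: helper70's (S1) packages feed `hVeq_S1` verbatim. -/
theorem hVeq_S1_seam (Pi : PlaceInf L hqL A hA) (P0 : PlaceZero L hqL A hA)
    (PA : S36.H55.PlaceA L hqL A hA P0) (PB : S36.H55.PlaceB L hqL A hA Pi)
    (PC : S36.H55.PlaceC L hqL A hA Pi)
    (E0 : IntermediateField (H45.unrCyclo q) Qbar) [FiniteDimensional (H45.unrCyclo q) E0]
    (hunr : maximalIdeal ↥(H45.cutOver A E0) = Ideal.span {((q : ℕ) : ↥(H45.cutOver A E0))})
    [IsFractionRing ↥(H40.chartB ↥(H45.cutOver A E0) (H45.baseChangeE E0 (q * (q * L)) (J3N L (q := q)))) ↥(modularFunctionFieldFullC ↥E0 (q * (q * L)))]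
    [IsNoetherianRing ↥(H40.chartB ↥(H45.cutOver A E0) (H45.baseChangeE E0 (q * (q * L)) (J3N L (q := q))))]
    [IsIntegrallyClosed ↥(H40.chartB ↥(H45.cutOver A E0) (H45.baseChangeE E0 (q * (q * L)) (J3N L (q := q))))]
    [IsFractionRing ↥(H40.chartB ↥(H45.cutOver A E0) (H45.baseChangeE E0 (q * (q * L)) (J3N L (q := q))⁻¹)) ↥(modularFunctionFieldFullC ↥E0 (q * (q * L)))]
    [IsNoetherianRing ↥(H40.chartB ↥(H45.cutOver A E0) (H45.baseChangeE E0 (q * (q * L)) (J3N L (q := q))⁻¹))]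
    [IsIntegrallyClosed ↥(H40.chartB ↥(H45.cutOver A E0) (H45.baseChangeE E0 (q * (q * L)) (J3N L (q := q))⁻¹))] :
    ∃ (r₁ r₂ r₃ : ↥(H40.chartB A₁ (J3N L (q := q))) →+*
        ↥(integralClosure (Algebra.adjoin kA {S18.H16.jK kA L}) FkL))
      (hq₁ : r₁ (algebraMap A₁ ↥(H40.chartB A₁ (J3N L (q := q))) ((q : ℕ) : A₁)) = 0)
      (hq₂ : r₂ (algebraMap A₁ ↥(H40.chartB A₁ (J3N L (q := q))) ((q : ℕ) : A₁)) = 0)
      (hq₃ : r₃ (algebraMap A₁ ↥(H40.chartB A₁ (J3N L (q := q))) ((q : ℕ) : A₁)) = 0)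
      (s₁ s₂ s₃ : ↥(H40.chartB A₁ (J3N L (q := q))⁻¹) →+*
        ↥(integralClosure (Algebra.adjoin kA {(S18.H16.jK kA L)⁻¹}) FkL))
      (hq₁' : s₁ (algebraMap A₁ ↥(H40.chartB A₁ (J3N L (q := q))⁻¹) ((q : ℕ) : A₁)) = 0)
      (hq₂' : s₂ (algebraMap A₁ ↥(H40.chartB A₁ (J3N L (q := q))⁻¹) ((q : ℕ) : A₁)) = 0)
      (hq₃' : s₃ (algebraMap A₁ ↥(H40.chartB A₁ (J3N L (q := q))⁻¹) ((q : ℕ) : A₁)) = 0),
      ∀ (P₁ : Fin 3 → Ideal ↥(H40.chartB ↥(H45.cutOver A E0) (H45.baseChangeE E0 (q * (q * L)) (J3N L (q := q)))))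
        (P₂ : Fin 3 → Ideal ↥(H40.chartB ↥(H45.cutOver A E0) (H45.baseChangeE E0 (q * (q * L)) (J3N L (q := q))⁻¹)))
        (_ : P₁ 0 = RingHom.ker (S35.H70.redE hq.out hA E0 (q * (q * L)) (J3N L (q := q)) ((q : ℕ) : ↥(H45.cutOver A E0)) hunr (S36.H70.genBy_J3N L A hA E0 hunr) r₁ hq₁))
        (_ : P₁ 1 = RingHom.ker (S35.H70.redE hq.out hA E0 (q * (q * L)) (J3N L (q := q)) ((q : ℕ) : ↥(H45.cutOver A E0)) hunr (S36.H70.genBy_J3N L A hA E0 hunr) r₂ hq₂))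
        (_ : P₁ 2 = RingHom.ker (S35.H70.redE hq.out hA E0 (q * (q * L)) (J3N L (q := q)) ((q : ℕ) : ↥(H45.cutOver A E0)) hunr (S36.H70.genBy_J3N L A hA E0 hunr) r₃ hq₃))
        (_ : P₂ 0 = RingHom.ker (S35.H70.redE hq.out hA E0 (q * (q * L)) (J3N L (q := q))⁻¹ ((q : ℕ) : ↥(H45.cutOver A E0)) hunr (S36.H70.genBy_J3N_inv L A hA E0 hunr) s₁ hq₁'))
        (_ : P₂ 1 = RingHom.ker (S35.H70.redE hq.out hA E0 (q * (q * L)) (J3N L (q := q))⁻¹ ((q : ℕ) : ↥(H45.cutOver A E0)) hunr (S36.H70.genBy_J3N_inv L A hA E0 hunr) s₂ hq₂'))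
        (_ : P₂ 2 = RingHom.ker (S35.H70.redE hq.out hA E0 (q * (q * L)) (J3N L (q := q))⁻¹ ((q : ℕ) : ↥(H45.cutOver A E0)) hunr (S36.H70.genBy_J3N_inv L A hA E0 hunr) s₃ hq₃'))
        [∀ i, (P₁ i).IsPrime] [∀ i, (P₂ i).IsPrime]
        (hh₁ : ∀ i, (P₁ i).height = 1) (hh₂ : ∀ i, (P₂ i).height = 1),
        ∀ i, H56.valuationSubringAt (K := ↥(modularFunctionFieldFullC ↥E0 (q * (q * L)))) (P₁ i) (hh₁ i) =
          H56.valuationSubringAt (K := ↥(modularFunctionFieldFullC ↥E0 (q * (q * L)))) (P₂ i) (hh₂ i) := by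
  have k1 := S36.H70.threeComponentsS1_J3K L hqL A hA Pi P0 PA PB PC E0 hunr
  have k2 := S36.H70.threeComponentsS1_J3K_inv L hqL A hA Pi P0 PA PB PC E0 hunr
  exact k1.elim fun r₁ h => h.elim fun r₂ h => h.elim fun r₃ h => h.elim fun hq₁ h =>
    h.elim fun hq₂ h => h.elim fun hq₃ h1 =>
    k2.elim fun s₁ h => h.elim fun s₂ h => h.elim fun s₃ h => h.elim fun hq₁' h =>
    h.elim fun hq₂' h => h.elim fun hq₃' h2 =>
    ⟨r₁, r₂, r₃, hq₁, hq₂, hq₃, s₁, s₂, s₃, hq₁', hq₂', hq₃',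
      fun P₁ P₂ e10 e11 e12 e20 e21 e22 _ _ hh₁ hh₂ =>
        hVeq_S1 L hqL A hA Pi P0 PA PB PC h1.1 h1.2.1 h1.2.2.1 hq₁ hq₂ hq₃ h1.2.2.2.2.1
          h2.1 h2.2.1 h2.2.2.1 hq₁' hq₂' hq₃' h2.2.2.2.2.1 E0 hunr P₁ P₂
          e10 e11 e12 e20 e21 e22 hh₁ hh₂⟩

end Seam

end Fermat.Agent.S36.H61
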