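import Fermat.Agent.S36.H67_ValBridge

/-!
# S36, seam (E2-hV) (helper61), generic part: transfer of `V_{P₁} = V_{P₂}` along a base change

Two charts `B₁ B₂` of a field `F₁` and two charts `C₁ C₂` of a bigger field `FE`
(`bc : F₁ →+* FE`), with chart maps `ψᵢ : Bᵢ →+* Cᵢ` over `bc`.  Height-one primes `Pᵢ ⊆ Bᵢ`,
`Qᵢ ⊆ Cᵢ` with `ψᵢ⁻¹ Qᵢ = Pᵢ`.  If `C₁` is generated (as a ring, inside `FE`) by `bc B₁` and a set
`S` of elements of `C₂` ("the constants"), and `C₁ = ψ₁ B₁ + π C₁` with `π ∈ Q₁ ∩ Q₂`, then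
`V_{P₁} = V_{P₂}` implies `V_{Q₁} = V_{Q₂}`.

This is the `hV` of `S36.H67.kummer_descent_pow_of_mult_fam` / `S36.H61.crit36_real` at the
`cutOver A E`-level from the same statement at the `A0 A ℓ`-level (where both reductions come
from one place), with `ψ := S34.H70.chartMapE`, `Q := ker (S35.H70.redE red)`.
-/

set_option autoImplicit false
set_option linter.unusedSectionVars false

open Fermat.Agent.S34

namespace Fermat.Agent.S36.H61

section Transfer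

variable {F₁ FE : Type*} [Field F₁] [Field FE] (bc : F₁ →+* FE)
  {B₁ B₂ C₁ C₂ : Type*}
  [CommRing B₁] [IsDomain B₁] [Algebra B₁ F₁] [IsFractionRing B₁ F₁]
  [IsNoetherianRing B₁] [IsIntegrallyClosed B₁]
  [CommRing B₂] [IsDomain B₂] [Algebra B₂ F₁] [IsFractionRing B₂ F₁]
  [IsNoetherianRing B₂] [IsIntegrallyClosed B₂]
  [CommRing C₁] [IsDomain C₁] [Algebra C₁ FE] [IsFractionRing C₁ FE]
  [IsNoetherianRing C₁] [IsIntegrallyClosed C₁]
  [CommRing C₂] [IsDomain C₂] [Algebra C₂ FE] [IsFractionRing C₂ FE]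
  [IsNoetherianRing C₂] [IsIntegrallyClosed C₂]

/-- `MemAt` is transported by a chart map over `bc`. -/
theorem memAt_map (ψ₂ : B₂ →+* C₂)
    (hψ₂ : ∀ b, algebraMap C₂ FE (ψ₂ b) = bc (algebraMap B₂ F₁ b))
    (P₂ : Ideal B₂) (Q₂ : Ideal C₂) (hc₂ : ∀ b, ψ₂ b ∈ Q₂ → b ∈ P₂) {x : F₁}
    (hx : H56.MemAt P₂ x) : H56.MemAt Q₂ (bc x) := by
  obtain ⟨a, s, hs, has⟩ := hx
  refine ⟨ψ₂ a, ψ₂ s, fun h => hs (hc₂ s h), ?_⟩
  rw [hψ₂, hψ₂, ← map_mul, has]

/-- `IsUnitAt` is transported by a chart map over `bc`. -/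
theorem isUnitAt_map (ψ₂ : B₂ →+* C₂)
    (hψ₂ : ∀ b, algebraMap C₂ FE (ψ₂ b) = bc (algebraMap B₂ F₁ b))
    (P₂ : Ideal B₂) (Q₂ : Ideal C₂) (hc₂ : ∀ b, ψ₂ b ∈ Q₂ → b ∈ P₂) {x : F₁}
    (hx : H56.IsUnitAt P₂ x) : H56.IsUnitAt Q₂ (bc x) := by
  obtain ⟨a, s, ha, hs, has⟩ := hx
  refine ⟨ψ₂ a, ψ₂ s, fun h => ha (hc₂ a h), fun h => hs (hc₂ s h), ?_⟩
  rw [hψ₂, hψ₂, ← map_mul, has]

/-- an element of valuation `< 1` at `P₂` goes to an element of valuation `< 1` at `Q₂`. -/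
theorem valuation_map_lt_one (ψ₂ : B₂ →+* C₂)
    (hψ₂ : ∀ b, algebraMap C₂ FE (ψ₂ b) = bc (algebraMap B₂ F₁ b))
    (P₂ : Ideal B₂) [P₂.IsPrime] (h₂ : P₂.height = 1)
    (Q₂ : Ideal C₂) [Q₂.IsPrime] (k₂ : Q₂.height = 1)
    (hc₂ : ∀ b, ψ₂ b ∈ Q₂ ↔ b ∈ P₂) {x : F₁}
    (hx : (H56.valuationSubringAt (K := F₁) P₂ h₂).valuation x < 1) :
    (H56.valuationSubringAt (K := FE) Q₂ k₂).valuation (bc x) < 1 := by
  have hmem : x ∈ H56.valuationSubringAt (K := F₁) P₂ h₂ :=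
    ((H56.valuationSubringAt (K := F₁) P₂ h₂).valuation_le_one_iff x).mp hx.le
  obtain ⟨a, s, hs, has⟩ := (H56.mem_valuationSubringAt h₂).mp hmem
  -- `v₂ s = 1`
  have hs1 : (H56.valuationSubringAt (K := F₁) P₂ h₂).valuation (algebraMap B₂ F₁ s) = 1 := by
    have hle : (H56.valuationSubringAt (K := F₁) P₂ h₂).valuation (algebraMap B₂ F₁ s) ≤ 1 :=
      ((H56.valuationSubringAt (K := F₁) P₂ h₂).valuation_le_one_iff _).mpr
        (H56.algebraMap_mem_valuationSubringAt h₂ s)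
    refine le_antisymm hle (not_lt.mp fun hlt => hs ?_)
    exact (H56.algebraMap_mem_nonunits_iff h₂ s).mp hlt
  -- `a ∈ P₂`
  have haP : a ∈ P₂ := by
    rw [← H56.algebraMap_mem_nonunits_iff (K := F₁) h₂ a, ← has, map_mul, hs1, mul_one]
    exact hx
  -- transport
  have hsQ : ψ₂ s ∉ Q₂ := fun h => hs ((hc₂ s).mp h)
  have haQ : ψ₂ a ∈ Q₂ := (hc₂ a).mpr haP
  have hs1' : (H56.valuationSubringAt (K := FE) Q₂ k₂).valuation (algebraMap C₂ FE (ψ₂ s)) = 1 := by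
    have hle : (H56.valuationSubringAt (K := FE) Q₂ k₂).valuation (algebraMap C₂ FE (ψ₂ s)) ≤ 1 :=
      ((H56.valuationSubringAt (K := FE) Q₂ k₂).valuation_le_one_iff _).mpr
        (H56.algebraMap_mem_valuationSubringAt k₂ (ψ₂ s))
    refine le_antisymm hle (not_lt.mp fun hlt => hsQ ?_)
    exact (H56.algebraMap_mem_nonunits_iff k₂ (ψ₂ s)).mp hlt
  have ha' : (H56.valuationSubringAt (K := FE) Q₂ k₂).valuation (algebraMap C₂ FE (ψ₂ a)) < 1 :=
    (H56.algebraMap_mem_nonunits_iff k₂ (ψ₂ a)).mpr haQ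
  have e : bc x * algebraMap C₂ FE (ψ₂ s) = algebraMap C₂ FE (ψ₂ a) := by
    rw [hψ₂, hψ₂, ← map_mul, has]
  rw [← e, map_mul, hs1', mul_one] at ha'
  exact ha'

/-- **Transfer of `V_{P₁} = V_{P₂}` to the base-changed charts.** -/
theorem valuationSubringAt_eq_of_gen
    (ψ₁ : B₁ →+* C₁) (hψ₁ : ∀ b, algebraMap C₁ FE (ψ₁ b) = bc (algebraMap B₁ F₁ b))
    (ψ₂ : B₂ →+* C₂) (hψ₂ : ∀ b, algebraMap C₂ FE (ψ₂ b) = bc (algebraMap B₂ F₁ b))
    (P₁ : Ideal B₁) [P₁.IsPrime] (h₁ : P₁.height = 1)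
    (P₂ : Ideal B₂) [P₂.IsPrime] (h₂ : P₂.height = 1)
    (Q₁ : Ideal C₁) [Q₁.IsPrime] (k₁ : Q₁.height = 1)
    (Q₂ : Ideal C₂) [Q₂.IsPrime] (k₂ : Q₂.height = 1)
    (hc₁ : ∀ b, ψ₁ b ∈ Q₁ ↔ b ∈ P₁) (hc₂ : ∀ b, ψ₂ b ∈ Q₂ ↔ b ∈ P₂)
    (hV : H56.valuationSubringAt (K := F₁) P₁ h₁ = H56.valuationSubringAt (K := F₁) P₂ h₂)
    (S : Set FE) (hS₂ : ∀ x ∈ S, ∃ c : C₂, algebraMap C₂ FE c = x)
    (hgen₁ : ∀ z : C₁, algebraMap C₁ FE z ∈
      Subring.closure (Set.range (fun b : B₁ => bc (algebraMap B₁ F₁ b)) ∪ S))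
    (π₁ : C₁) (π₂ : C₂) (hπ : algebraMap C₁ FE π₁ = algebraMap C₂ FE π₂)
    (hπ₁ : π₁ ∈ Q₁) (hπ₂ : π₂ ∈ Q₂)
    (hdec₁ : ∀ z : C₁, ∃ b : B₁, ∃ z' : C₁, z = ψ₁ b + π₁ * z') :
    H56.valuationSubringAt (K := FE) Q₁ k₁ = H56.valuationSubringAt (K := FE) Q₂ k₂ := by
  set W := H56.valuationSubringAt (K := FE) Q₂ k₂ with hW
  -- `C₁ ⊆ W`
  have hgenW : Subring.closure (Set.range (fun b : B₁ => bc (algebraMap B₁ F₁ b)) ∪ S) ≤
      W.toSubring := by
    rw [Subring.closure_le]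
    rintro x (⟨b, rfl⟩ | hx)
    · have hb : algebraMap B₁ F₁ b ∈ H56.valuationSubringAt (K := F₁) P₂ h₂ := by
        rw [← hV]
        exact H56.algebraMap_mem_valuationSubringAt h₁ b
      exact (H56.mem_valuationSubringAt k₂).mpr
        (memAt_map bc ψ₂ hψ₂ P₂ Q₂ (fun b h => (hc₂ b).mp h)
          ((H56.mem_valuationSubringAt h₂).mp hb))
    · obtain ⟨c, rfl⟩ := hS₂ x hx
      exact H56.algebraMap_mem_valuationSubringAt k₂ c
  have hB : ∀ z : C₁, algebraMap C₁ FE z ∈ W := fun z => hgenW (hgen₁ z)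
  -- the key equivalence on `ψ₁ B₁`
  have hkey : ∀ b : B₁, W.valuation (bc (algebraMap B₁ F₁ b)) < 1 ↔ b ∈ P₁ := by
    intro b
    constructor
    · intro hlt
      by_contra hb
      have hu : H56.IsUnitAt P₁ (algebraMap B₁ F₁ b) :=
        H56.isUnitAt_algebraMap hb (Ideal.IsPrime.ne_top ‹_›)
      have h1 : (H56.valuationSubringAt (K := F₁) P₁ h₁).valuation (algebraMap B₁ F₁ b) = 1 :=
        (H56.valuation_eq_one_iff h₁).mpr hu
      rw [hV] at h1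
      have hu₂ : H56.IsUnitAt P₂ (algebraMap B₁ F₁ b) := (H56.valuation_eq_one_iff h₂).mp h1
      have hu₂' : H56.IsUnitAt Q₂ (bc (algebraMap B₁ F₁ b)) :=
        isUnitAt_map bc ψ₂ hψ₂ P₂ Q₂ (fun b h => (hc₂ b).mp h) hu₂
      have : W.valuation (bc (algebraMap B₁ F₁ b)) = 1 := (H56.valuation_eq_one_iff k₂).mpr hu₂'
      rw [this] at hlt
      exact lt_irrefl _ hlt
    · intro hb
      have h1 : (H56.valuationSubringAt (K := F₁) P₁ h₁).valuation (algebraMap B₁ F₁ b) < 1 :=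
        (H56.algebraMap_mem_nonunits_iff h₁ b).mpr hb
      rw [hV] at h1
      exact valuation_map_lt_one bc ψ₂ hψ₂ P₂ h₂ Q₂ k₂ hc₂ h1
  have hπW : W.valuation (algebraMap C₁ FE π₁) < 1 := by
    rw [hπ]
    exact (H56.algebraMap_mem_nonunits_iff k₂ π₂).mpr hπ₂
  refine H67.valuationSubringAt_eq_of_centre W Q₁ k₁ hB fun z => ?_
  obtain ⟨b, z', rfl⟩ := hdec₁ z
  have hz' : W.valuation (algebraMap C₁ FE (π₁ * z')) < 1 := by
    rw [map_mul, map_mul]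
    have : W.valuation (algebraMap C₁ FE z') ≤ 1 := (W.valuation_le_one_iff _).mpr (hB z')
    exact lt_of_le_of_lt (mul_le_of_le_one_right' this) hπW
  have hmemQ : ψ₁ b + π₁ * z' ∈ Q₁ ↔ ψ₁ b ∈ Q₁ := by
    have hπz : π₁ * z' ∈ Q₁ := Ideal.mul_mem_right _ _ hπ₁
    constructor
    · intro h
      have := Q₁.sub_mem h hπz
      rwa [add_sub_cancel_right] at this
    · intro h
      exact Q₁.add_mem h hπz
  rw [hmemQ, hc₁, ← hkey, map_add, hψ₁]
  constructor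
  · intro h
    exact lt_of_le_of_lt (Valuation.map_add _ _ _) (max_lt h hz')
  · intro h
    have e : bc (algebraMap B₁ F₁ b) =
        (bc (algebraMap B₁ F₁ b) + algebraMap C₁ FE (π₁ * z')) - algebraMap C₁ FE (π₁ * z') := by
      ring
    rw [e]
    exact lt_of_le_of_lt (Valuation.map_sub _ _ _) (max_lt h hz')

end Transfer

/-! ### The level below: two charts, one bare place, reductions with values in subrings of the
residue field of the place (the clause shape of `S36.H83.threeComponents_of_incl`) -/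

section CommonPlace

variable {L : Type*} [Field L]
  {B B' : Type*} [CommRing B] [IsDomain B] [Algebra B L] [IsFractionRing B L]
  [IsNoetherianRing B] [IsIntegrallyClosed B]
  [CommRing B'] [IsDomain B'] [Algebra B' L] [IsFractionRing B' L]
  [IsNoetherianRing B'] [IsIntegrallyClosed B']

/-- **`V_{ker red} = V_{ker red'}`** for reductions `red : B →+* D`, `red' : B' →+* D'` of two
charts of `L` which are both induced by ONE bare place `(O1, res1)` of `L`: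
`incl (cD (red b)) = res1 b` and `incl (cD' (red' b')) = res1 b'` with `cD : D →+* Fk`,
`cD' : D' →+* Fk`, `incl : Fk →+* κ` injective. -/
theorem valuationSubringAt_ker_eq_of_common_place
    {Fk κ : Type*} [Field Fk] [Field κ] (incl : Fk →+* κ)
    (O1 : Subring L) (res1 : O1 →+* κ)
    (inv_mem : ∀ (y : L) (hy : y ∈ O1), res1 ⟨y, hy⟩ ≠ 0 → y⁻¹ ∈ O1)
    (mem_or_inv_mem : ∀ y : L, y ∈ O1 ∨ y⁻¹ ∈ O1)
    {D D' : Type*} [CommRing D] [CommRing D']
    (cD : D →+* Fk) (hcD : Function.Injective cD) (cD' : D' →+* Fk) (hcD' : Function.Injective cD')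
    (red : B →+* D) (red' : B' →+* D')
    (hB : ∀ b : B, algebraMap B L b ∈ O1)
    (hval : ∀ (b : B) (h : algebraMap B L b ∈ O1),
      incl (cD (red b)) = res1 ⟨algebraMap B L b, h⟩)
    (hB' : ∀ b : B', algebraMap B' L b ∈ O1)
    (hval' : ∀ (b : B') (h : algebraMap B' L b ∈ O1),
      incl (cD' (red' b)) = res1 ⟨algebraMap B' L b, h⟩)
    [(RingHom.ker red).IsPrime] [(RingHom.ker red').IsPrime]
    (h1 : (RingHom.ker red).height = 1) (h1' : (RingHom.ker red').height = 1) :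
    H56.valuationSubringAt (K := L) (RingHom.ker red) h1 =
      H56.valuationSubringAt (K := L) (RingHom.ker red') h1' := by
  refine H67.valuationSubringAt_eq_of_common_res O1 res1 inv_mem mem_or_inv_mem
    (RingHom.ker red) h1 hB (fun b => ?_) (RingHom.ker red') h1' hB' (fun b => ?_)
  · rw [RingHom.mem_ker, ← hval b (hB b), map_eq_zero_iff incl incl.injective,
      map_eq_zero_iff cD hcD]
  · rw [RingHom.mem_ker, ← hval' b (hB' b), map_eq_zero_iff incl incl.injective,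
      map_eq_zero_iff cD' hcD']

end CommonPlace

end Fermat.Agent.S36.H61
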