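import Fermat.Agent.S36.H61_HVS1Final
import Fermat.Agent.S36.H46_HVaReal
import Fermat.Agent.S36.H16_R3Heights
import Fermat.Agent.S36.H35_BranchRings
import Fermat.Agent.S36.H70_HW4Inst
import Fermat.Agent.S36.H3_WRInjective
import Fermat.Agent.S36.H70_NatCastNeZero
import Fermat.Agent.S35.H70_TwoComponentsBCL0

/-!
# S36, (E7) block LABELS (helper61, insurance twin of helper18 #3712 (2)), (S1) spelling

For ANY labelled families `P₁ P₂ : Fin 3 → Ideal` with `P₁ i = ker (redE .. r_i hq_i)`,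
`P₂ i = ker (redE .. s_i hs_i)` and `P'F = ker (redE .. r₁' _)`, `P'V = ker (redE .. r₂' _)`:
`labels_S1 : ∃ (hh₁ : ∀ i, (P₁ i).height = 1) (hh₂ : ∀ i, (P₂ i).height = 1)
  (hF : P'F.height = 1) (hV : P'V.height = 1), hVeq ∧ HVa ∧ HVb`
= the binders `hh₁ hh₂ hVeq hF hV HVa HVb` of `S36.H18.geoFn36E_of_rows` /
`S36.H3.geoFn36E_of_rows_noE3` (heights stated ONCE, so that the proofs inside the
`valuationSubringAt`'s agree by construction).

Binders = the `A₁`-level data of the top (conjuncts of `S36.H70.threeComponentsS1_J3K(_inv)` and of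
`S35.H55.exists_l0ChartFacts_JK`) + the level maps `α β` with the clauses of
`S36.H61.chart1_block_S1`.
-/

set_option autoImplicit false
set_option linter.unusedSectionVars false
set_option linter.style.haveILetI false
set_option synthInstance.maxHeartbeats 400000
set_option maxHeartbeats 3200000

noncomputable section

namespace Fermat.Agent.S36.H61

open ModularCurve Polynomial IsLocalRing IntermediateField Fermat.Agent.S28
open Fermat.Agent.S18 Fermat.Agent.S34 Fermat.Agent.S34.H55 Fermat.Agent.S36.H83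
open Fermat.Agent.S34.H83 Fermat.Agent.S36.H46 Fermat.Agent.S36.H18

local notation "Qbar" => AlgebraicClosure ℚ

section Labels

variable (L : ℕ) [NeZero L] {q : ℕ} [hq : Fact q.Prime] (hqL : ¬ q ∣ L)
  (A : ValuationSubring Qbar) (hA : A.LiesOverPrime q)
  (E0 : IntermediateField (H45.unrCyclo q) Qbar) [FiniteDimensional (H45.unrCyclo q) E0]

set_option quotPrecheck false
local notation "kA" => IsLocalRing.ResidueField A
local notation "A₁" => H45.A0 A q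
local notation "L₁" => H45.unrCyclo q
local notation "RR" => ↥(H45.cutOver A E0)
local notation "F1" => modularFunctionFieldFullC (H45.unrCyclo q) (q * L)
local notation "F2" => modularFunctionFieldFullC (H45.unrCyclo q) (q * (q * L))
local notation "F1E" => modularFunctionFieldFullC ↥E0 (q * L)
local notation "F2E" => modularFunctionFieldFullC ↥E0 (q * (q * L))
local notation "FkL" => modularFunctionFieldFullC (IsLocalRing.ResidueField A) L
local notation "DL" => integralClosure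
  (Algebra.adjoin (IsLocalRing.ResidueField A) {S18.H16.jK (IsLocalRing.ResidueField A) L})
  (modularFunctionFieldFullC (IsLocalRing.ResidueField A) L)
local notation "DL'" => integralClosure
  (Algebra.adjoin (IsLocalRing.ResidueField A) {(S18.H16.jK (IsLocalRing.ResidueField A) L)⁻¹})
  (modularFunctionFieldFullC (IsLocalRing.ResidueField A) L)
local notation "B3" => H40.chartB (H45.A0 A q) (J3N L (q := q))
local notation "B3'" => H40.chartB (H45.A0 A q) (J3N L (q := q))⁻¹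
local notation "B2" => H40.chartB (H45.A0 A q) (JN L (ℓ := q))
local notation "B3E" => H40.chartB ↥(H45.cutOver A E0)
  (H45.baseChangeE E0 (q * (q * L)) (J3N L (q := q)))
local notation "B3E'" => H40.chartB ↥(H45.cutOver A E0)
  (H45.baseChangeE E0 (q * (q * L)) (J3N L (q := q))⁻¹)
local notation "B2E" => H40.chartB ↥(H45.cutOver A E0)
  (H45.baseChangeE E0 (q * L) (JN L (ℓ := q)))
local notation "πq" => (((q : ℕ) : ↥(H45.cutOver A E0)))
local notation "aα" => S36.H18.alphaK ↥E0 (q * L) (q * (q * L)) (dvd_mul_left (q * L) q)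
local notation "bβ" => S36.H18.betaK ↥E0 q (q * L) (q * (q * L)) dvd_rfl
local notation "Nα" => S36.H18.normAlphaK ↥E0 (q * L) (q * (q * L)) (dvd_mul_left (q * L) q)
local notation "Nβ" => S36.H18.normBetaK ↥E0 q (q * L) (q * (q * L)) dvd_rfl

local instance (priority := 10000) shortcutAlgE61b (N : ℕ) [NeZero N] :
    Algebra ↥E0 ↥(modularFunctionFieldFullC ↥E0 N) :=
  SubalgebraClass.toAlgebra (modularFunctionFieldFullC ↥E0 N)
local instance (priority := 10000) shortcutAlg61b (N : ℕ) [NeZero N] :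
    Algebra ↥(H45.cutOver A E0) ↥(modularFunctionFieldFullC ↥E0 N) :=
  Algebra.ofSubsemiring (H45.cutOver A E0)
local instance (priority := 10000) shortcutTower61b (N : ℕ) [NeZero N] :
    IsScalarTower ↥(H45.cutOver A E0) ↥E0 ↥(modularFunctionFieldFullC ↥E0 N) :=
  IsScalarTower.of_algebraMap_eq (fun _ => rfl)

set_option maxHeartbeats 12800000 in
/-- **LABELS block, (S1) spelling**: heights, `hVeq`, `HVa`, `HVb` of `H18.geoFn36E_of_rows`. -/
theorem labels_S1 (Pi : PlaceInf L hqL A hA) (P0 : PlaceZero L hqL A hA)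
    (PA : S36.H55.PlaceA L hqL A hA P0) (PB : S36.H55.PlaceB L hqL A hA Pi)
    (PC : S36.H55.PlaceC L hqL A hA Pi)
    (Dm : ModularPolynomialData q)
    (hDm : ∀ (k : Type) [Field k] (ζ : kˣ), IsPrimitiveRoot ζ q → RootsAt k q ζ Dm.Φ)
    [IsFractionRing ↥B3E ↥F2E] [IsNoetherianRing ↥B3E] [IsIntegrallyClosed ↥B3E]
    [IsFractionRing ↥B3E' ↥F2E] [IsNoetherianRing ↥B3E'] [IsIntegrallyClosed ↥B3E']
    [IsFractionRing ↥B2E ↥F1E] [IsNoetherianRing ↥B2E] [IsIntegrallyClosed ↥B2E]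
    (hunr : maximalIdeal RR = Ideal.span {πq})
    -- chart 1, `A₁`-level (conjuncts of `S36.H70.threeComponentsS1_J3K`)
    {r₁ r₂ r₃ : ↥B3 →+* ↥DL}
    (c₁ : ∀ (b : ↥B3) (h : (b : F2) ∈ S36.H55.QO1 L hqL A hA PB),
      inclk L A ((r₁ b : ↥DL) : FkL) = S36.H55.Qres1 L hqL A hA PB ⟨b, h⟩)
    (c₂ : ∀ (b : ↥B3) (h : (b : F2) ∈ S36.H55.RO1 L hqL A hA PC),
      inclk L A ((r₂ b : ↥DL) : FkL) = S36.H55.Rres1 L hqL A hA PC ⟨b, h⟩)
    (c₃ : ∀ (b : ↥B3) (h : (b : F2) ∈ S36.H55.QO1 L hqL A hA PA),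
      inclk L A ((r₃ b : ↥DL) : FkL) = S36.H55.Qres1 L hqL A hA PA ⟨b, h⟩)
    (hq₁ : r₁ (algebraMap A₁ ↥B3 ((q : ℕ) : A₁)) = 0)
    (hq₂ : r₂ (algebraMap A₁ ↥B3 ((q : ℕ) : A₁)) = 0)
    (hq₃ : r₃ (algebraMap A₁ ↥B3 ((q : ℕ) : A₁)) = 0)
    (TC₁ : ThreeComponents r₁ r₂ r₃
      (chartMap (eU L (q := q)) (eU_algebraMap L A) (huint1 L A))
      (chartMap (eV L (q := q)) (eV_algebraMap L A) (hvint1 L A))
      (chartMap (eW L (q := q)) (eW_algebraMap L A) (hwint1 L A))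
      (rbarB (Mod L hqL A hA) (Mod L hqL A hA).x_mem (Mod L hqL A hA).res1_x)
      (WR (FrM L A hA) q (hFrx L A hA)) q
      (algebraMap A₁ ↥B3 ((q : ℕ) : A₁)))
    (hqmE : ∃ t : ↥B3E,
      (S35.H70.redE hq.out hA E0 (q * (q * L)) (J3N L (q := q)) πq hunr
        (S36.H70.genBy_J3N L A hA E0 hunr) r₂ hq₂) t ≠ 0 ∧
      t * algebraMap RR ↥B3E πq ∈
        RingHom.ker (S35.H70.redE hq.out hA E0 (q * (q * L)) (J3N L (q := q)) πq hunr
          (S36.H70.genBy_J3N L A hA E0 hunr) r₂ hq₂) ^ (q - 1))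
    (TC₁E : ThreeComponents
      (S35.H70.redE hq.out hA E0 (q * (q * L)) (J3N L (q := q)) πq hunr
        (S36.H70.genBy_J3N L A hA E0 hunr) r₁ hq₁)
      (S35.H70.redE hq.out hA E0 (q * (q * L)) (J3N L (q := q)) πq hunr
        (S36.H70.genBy_J3N L A hA E0 hunr) r₂ hq₂)
      (S35.H70.redE hq.out hA E0 (q * (q * L)) (J3N L (q := q)) πq hunr
        (S36.H70.genBy_J3N L A hA E0 hunr) r₃ hq₃)
      ((S34.H70.chartMapE (A := A) E0 (q * (q * L)) (J3N L (q := q))).comp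
        (chartMap (eU L (q := q)) (eU_algebraMap L A) (huint1 L A)))
      ((S34.H70.chartMapE (A := A) E0 (q * (q * L)) (J3N L (q := q))).comp
        (chartMap (eV L (q := q)) (eV_algebraMap L A) (hvint1 L A)))
      ((S34.H70.chartMapE (A := A) E0 (q * (q * L)) (J3N L (q := q))).comp
        (chartMap (eW L (q := q)) (eW_algebraMap L A) (hwint1 L A)))
      (rbarB (Mod L hqL A hA) (Mod L hqL A hA).x_mem (Mod L hqL A hA).res1_x)
      (WR (FrM L A hA) q (hFrx L A hA)) q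
      (algebraMap RR ↥B3E πq))
    -- chart 2, `A₁`-level (conjuncts of `S36.H70.threeComponentsS1_J3K_inv`)
    {s₁ s₂ s₃ : ↥B3' →+* ↥DL'}
    (d₁ : ∀ (b : ↥B3') (h : (b : F2) ∈ S36.H55.QO1 L hqL A hA PB),
      inclk L A ((s₁ b : ↥DL') : FkL) = S36.H55.Qres1 L hqL A hA PB ⟨b, h⟩)
    (d₂ : ∀ (b : ↥B3') (h : (b : F2) ∈ S36.H55.RO1 L hqL A hA PC),
      inclk L A ((s₂ b : ↥DL') : FkL) = S36.H55.Rres1 L hqL A hA PC ⟨b, h⟩)
    (d₃ : ∀ (b : ↥B3') (h : (b : F2) ∈ S36.H55.QO1 L hqL A hA PA),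
      inclk L A ((s₃ b : ↥DL') : FkL) = S36.H55.Qres1 L hqL A hA PA ⟨b, h⟩)
    (hs₁ : s₁ (algebraMap A₁ ↥B3' ((q : ℕ) : A₁)) = 0)
    (hs₂ : s₂ (algebraMap A₁ ↥B3' ((q : ℕ) : A₁)) = 0)
    (hs₃ : s₃ (algebraMap A₁ ↥B3' ((q : ℕ) : A₁)) = 0)
    (TC₂ : ThreeComponents s₁ s₂ s₃
      (chartMap (eU L (q := q)) (eU_algebraMap L A) (huint2 L A))
      (chartMap (eV L (q := q)) (eV_algebraMap L A) (hvint2 L A))
      (chartMap (eW L (q := q)) (eW_algebraMap L A) (hwint2 L A))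
      (rbarB (Mod L hqL A hA) (hc2 L hqL A hA) (hcw2 L hqL A hA))
      (WR (FrM L A hA) q (hFrx_inv L A hA)) q
      (algebraMap A₁ ↥B3' ((q : ℕ) : A₁)))
    (TC₂E : ThreeComponents
      (S35.H70.redE hq.out hA E0 (q * (q * L)) (J3N L (q := q))⁻¹ πq hunr
        (S36.H70.genBy_J3N_inv L A hA E0 hunr) s₁ hs₁)
      (S35.H70.redE hq.out hA E0 (q * (q * L)) (J3N L (q := q))⁻¹ πq hunr
        (S36.H70.genBy_J3N_inv L A hA E0 hunr) s₂ hs₂)
      (S35.H70.redE hq.out hA E0 (q * (q * L)) (J3N L (q := q))⁻¹ πq hunr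
        (S36.H70.genBy_J3N_inv L A hA E0 hunr) s₃ hs₃)
      ((S34.H70.chartMapE (A := A) E0 (q * (q * L)) (J3N L (q := q))⁻¹).comp
        (chartMap (eU L (q := q)) (eU_algebraMap L A) (huint2 L A)))
      ((S34.H70.chartMapE (A := A) E0 (q * (q * L)) (J3N L (q := q))⁻¹).comp
        (chartMap (eV L (q := q)) (eV_algebraMap L A) (hvint2 L A)))
      ((S34.H70.chartMapE (A := A) E0 (q * (q * L)) (J3N L (q := q))⁻¹).comp
        (chartMap (eW L (q := q)) (eW_algebraMap L A) (hwint2 L A)))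
      (rbarB (Mod L hqL A hA) (hc2 L hqL A hA) (hcw2 L hqL A hA))
      (WR (FrM L A hA) q (hFrx_inv L A hA)) q
      (algebraMap RR ↥B3E' πq))
    -- level `q L`, `A₁`-level (`S35.H55.exists_l0ChartFacts_JK`)
    {r₁' r₂' : ↥B2 →+* ↥DL}
    (TC' : TwoComponents r₁' r₂'
      (chartMap (iotaMN L (ℓ := q)) (iotaMN_algebraMap L A) (hιint1 L A))
      (chartMap (VMN L (ℓ := q)) (VMN_algebraMap L A) (hVint1 L A))
      (rbarB (Mod L hqL A hA) (Mod L hqL A hA).x_mem (Mod L hqL A hA).res1_x)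
      (WR (FrM L A hA) q (hFrx L A hA)) q
      (algebraMap A₁ ↥B2 ((q : ℕ) : A₁)))
    (hF' : S35.H55.L0ChartFacts L hqL A hA Pi P0 r₁' r₂')
    -- the level maps (clauses of `chart1_block_S1`)
    {α β : ↥B2E →+* ↥B3E}
    (hL : LevelMaps
      (S35.H70.redE hq.out hA E0 (q * (q * L)) (J3N L (q := q)) πq hunr
        (S36.H70.genBy_J3N L A hA E0 hunr) r₁ hq₁)
      (S35.H70.redE hq.out hA E0 (q * (q * L)) (J3N L (q := q)) πq hunr
        (S36.H70.genBy_J3N L A hA E0 hunr) r₂ hq₂)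
      (S35.H70.redE hq.out hA E0 (q * (q * L)) (J3N L (q := q)) πq hunr
        (S36.H70.genBy_J3N L A hA E0 hunr) r₃ hq₃)
      (S35.H70.redE hq.out hA E0 (q * L) (JN L (ℓ := q)) πq hunr
        (S35.H70.genBy_JN L hqL A hA E0) r₁' hF'.red₁_ell)
      (S35.H70.redE hq.out hA E0 (q * L) (JN L (ℓ := q)) πq hunr
        (S35.H70.genBy_JN L hqL A hA E0) r₂' hF'.red₂_ell)
      α β (WR (FrM L A hA) q (hFrx L A hA)))
    (hintα : α.IsIntegral) (hintβ : β.IsIntegral)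
    (haα : ∀ x, algebraMap ↥B3E F2E (α x) = aα (algebraMap ↥B2E F1E x))
    (hbβ : ∀ x, algebraMap ↥B3E F2E (β x) = bβ (algebraMap ↥B2E F1E x))
    (hαR : ∀ c : RR, α (algebraMap RR ↥B2E c) = algebraMap RR ↥B3E c)
    (hβR : ∀ c : RR, β (algebraMap RR ↥B2E c) = algebraMap RR ↥B3E c)
    -- the labels
    (P₁ : Fin 3 → Ideal ↥B3E) (P₂ : Fin 3 → Ideal ↥B3E')
    (e10 : P₁ 0 = RingHom.ker (S35.H70.redE hq.out hA E0 (q * (q * L)) (J3N L (q := q)) πq hunr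
      (S36.H70.genBy_J3N L A hA E0 hunr) r₁ hq₁))
    (e11 : P₁ 1 = RingHom.ker (S35.H70.redE hq.out hA E0 (q * (q * L)) (J3N L (q := q)) πq hunr
      (S36.H70.genBy_J3N L A hA E0 hunr) r₂ hq₂))
    (e12 : P₁ 2 = RingHom.ker (S35.H70.redE hq.out hA E0 (q * (q * L)) (J3N L (q := q)) πq hunr
      (S36.H70.genBy_J3N L A hA E0 hunr) r₃ hq₃))
    (e20 : P₂ 0 = RingHom.ker (S35.H70.redE hq.out hA E0 (q * (q * L)) (J3N L (q := q))⁻¹ πq hunr
      (S36.H70.genBy_J3N_inv L A hA E0 hunr) s₁ hs₁))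
    (e21 : P₂ 1 = RingHom.ker (S35.H70.redE hq.out hA E0 (q * (q * L)) (J3N L (q := q))⁻¹ πq hunr
      (S36.H70.genBy_J3N_inv L A hA E0 hunr) s₂ hs₂))
    (e22 : P₂ 2 = RingHom.ker (S35.H70.redE hq.out hA E0 (q * (q * L)) (J3N L (q := q))⁻¹ πq hunr
      (S36.H70.genBy_J3N_inv L A hA E0 hunr) s₃ hs₃))
    [hP₁ : ∀ i, (P₁ i).IsPrime] [hP₂ : ∀ i, (P₂ i).IsPrime]
    (P'F P'V : Ideal ↥B2E) [hP'F : P'F.IsPrime] [hP'V : P'V.IsPrime]
    (hP'F1 : P'F = RingHom.ker (S35.H70.redE hq.out hA E0 (q * L) (JN L (ℓ := q)) πq hunr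
      (S35.H70.genBy_JN L hqL A hA E0) r₁' hF'.red₁_ell))
    (hP'V2 : P'V = RingHom.ker (S35.H70.redE hq.out hA E0 (q * L) (JN L (ℓ := q)) πq hunr
      (S35.H70.genBy_JN L hqL A hA E0) r₂' hF'.red₂_ell)) :
    ∃ (hh₁ : ∀ i, (P₁ i).height = 1) (hh₂ : ∀ i, (P₂ i).height = 1)
      (hF : P'F.height = 1) (hV : P'V.height = 1),
      (∀ i, H56.valuationSubringAt (K := ↥F2E) (P₁ i) (hh₁ i) =
        H56.valuationSubringAt (K := ↥F2E) (P₂ i) (hh₂ i)) ∧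
      TowerValU aα Nα q (H56.valuationSubringAt (K := ↥F2E) (P₁ 0) (hh₁ 0))
        (H56.valuationSubringAt (K := ↥F2E) (P₁ 1) (hh₁ 1))
        (H56.valuationSubringAt (K := ↥F2E) (P₁ 2) (hh₁ 2))
        (H56.valuationSubringAt (K := ↥F1E) P'F hF) (H56.valuationSubringAt (K := ↥F1E) P'V hV) ∧
      TowerValU bβ Nβ q (H56.valuationSubringAt (K := ↥F2E) (P₁ 2) (hh₁ 2))
        (H56.valuationSubringAt (K := ↥F2E) (P₁ 1) (hh₁ 1))
        (H56.valuationSubringAt (K := ↥F2E) (P₁ 0) (hh₁ 0))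
        (H56.valuationSubringAt (K := ↥F1E) P'V hV) (H56.valuationSubringAt (K := ↥F1E) P'F hF) := by
  haveI := S36.H35BR.isDedekindDomain_D1 L hqL A hA
  haveI := S36.H35BR.isDedekindDomain_D2 L hqL A hA
  -- `q ≠ 0` in the three E-level charts
  have hq0 : algebraMap RR ↥B3E πq ≠ 0 :=
    S36.H70.algebraMap_natCast_ne_zero E0 (q * (q * L)) B3E hq.out.ne_zero
  have hq0' : algebraMap RR ↥B3E' πq ≠ 0 :=
    S36.H70.algebraMap_natCast_ne_zero E0 (q * (q * L)) B3E' hq.out.ne_zero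
  have hq0'' : algebraMap RR ↥B2E πq ≠ 0 :=
    S36.H70.algebraMap_natCast_ne_zero E0 (q * L) B2E hq.out.ne_zero
  -- `red q = 0`
  have hqE₁ := S35.H70.redE_pi hq.out hA E0 (q * (q * L)) _ _ hunr
    (S36.H70.genBy_J3N L A hA E0 hunr) r₁ hq₁
  have hqE₂ := S35.H70.redE_pi hq.out hA E0 (q * (q * L)) _ _ hunr
    (S36.H70.genBy_J3N L A hA E0 hunr) r₂ hq₂
  have hqE₃ := S35.H70.redE_pi hq.out hA E0 (q * (q * L)) _ _ hunr
    (S36.H70.genBy_J3N L A hA E0 hunr) r₃ hq₃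
  have hsE₁ := S35.H70.redE_pi hq.out hA E0 (q * (q * L)) _ _ hunr
    (S36.H70.genBy_J3N_inv L A hA E0 hunr) s₁ hs₁
  have hsE₂ := S35.H70.redE_pi hq.out hA E0 (q * (q * L)) _ _ hunr
    (S36.H70.genBy_J3N_inv L A hA E0 hunr) s₂ hs₂
  have hsE₃ := S35.H70.redE_pi hq.out hA E0 (q * (q * L)) _ _ hunr
    (S36.H70.genBy_J3N_inv L A hA E0 hunr) s₃ hs₃
  have hqE₁' := S35.H70.redE_pi hq.out hA E0 (q * L) _ _ hunr
    (S35.H70.genBy_JN L hqL A hA E0) r₁' hF'.red₁_ell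
  have hqE₂' := S35.H70.redE_pi hq.out hA E0 (q * L) _ _ hunr
    (S35.H70.genBy_JN L hqL A hA E0) r₂' hF'.red₂_ell
  -- E-level heights
  have hh₁ : ∀ i, (P₁ i).height = 1 :=
    vertFam_height P₁ e10 e11 e12 TC₁E hqE₁ hqE₂ hqE₃ (S36.H70.hW2_J3K L A hA)
      (S36.H70.hW4_J3K L A hA) hq0
  have hh₂ : ∀ i, (P₂ i).height = 1 :=
    vertFam_height P₂ e20 e21 e22 TC₂E hsE₁ hsE₂ hsE₃ (S36.H70.hW2_J3K_inv L A hA)
      (S36.H70.hW4_J3K_inv L A hA) hq0'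
  have TC'E := S35.H70.twoComponents_cutOver_left hq.out hA E0 (q * L) (JN L (ℓ := q)) πq hunr
    (S35.H70.genBy_JN L hqL A hA E0) TC' hF'.red₁_ell hF'.red₂_ell
  have hD : ¬ IsField ↥DL := hF'.notField
  have sep₁ := S35.H84.exists_red₁_eq_zero_red₂_ne_zero TC'E hq.out.two_le hD
  have sep₂ := S35.H84.exists_red₂_eq_zero_red₁_ne_zero TC'E hq.out.two_le hD
  have hF : P'F.height = 1 := by
    rw [hP'F1]
    exact S36.H16.height_ker₁_eq_one_of_two TC'E hq0'' hqE₁' hqE₂' sep₁ sep₂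
  have hV : P'V.height = 1 := by
    rw [hP'V2]
    exact S36.H16.height_ker₂_eq_one_of_two TC'E hq0'' hqE₁' hqE₂' sep₁ sep₂
  -- `A₁`-level heights
  have k₁ := S36.H16.height_ker_J3N₁ L A hA TC₁ hq₁
  have k₂ := S36.H16.height_ker_J3N₂ L A hA TC₁ hq₂
  have k₃ := S36.H16.height_ker_J3N₃ L A hA TC₁ hq₃
  haveI := S34.H95.isNoetherianRing_chartB_JK_A0 (A := A) hq.out hA (q * L) q (Dvd.intro L rfl)
  have k₁' : (RingHom.ker r₁').height = 1 :=
    S36.H16.height_ker₁_eq_one_of_two TC' (S36.H16.algebraMap_q_ne_zero_JN L A) hF'.red₁_ell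
      hF'.red₂_ell hF'.sep₁ hF'.sep₂
  have k₂' : (RingHom.ker r₂').height = 1 :=
    S36.H16.height_ker₂_eq_one_of_two TC' (S36.H16.algebraMap_q_ne_zero_JN L A) hF'.red₁_ell
      hF'.red₂_ell hF'.sep₁ hF'.sep₂
  have hinj : Function.Injective P₁ :=
    vertFam_injective P₁ e10 e11 e12 TC₁E (S36.H70.hW2_J3K L A hA) (S36.H70.hW4_J3K L A hA)
  have hVeq := hVeq_S1 L hqL A hA Pi P0 PA PB PC c₁ c₂ c₃ hq₁ hq₂ hq₃ TC₁ d₁ d₂ d₃ hs₁ hs₂ hs₃
    TC₂ E0 hunr P₁ P₂ e10 e11 e12 e20 e21 e22 hh₁ hh₂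
  have HV := S36.H46.HVab_real L hqL A hA Pi P0 PA PB PC E0 Dm hDm hunr r₁ r₂ r₃ c₁ c₂ c₃
    r₁' r₂' (fun b _ => hF'.res_inf b) (fun b _ => hF'.res_zero b) k₁ k₂ k₃ k₁' k₂' hD
    TC₁E hqE₁ hqE₂ hqE₃ hqmE TC'E hqE₁' hqE₂' hL
    (S36.H3.WR_injective (FrM L A hA) q (hFrx L A hA)) hintα hintβ haα hbβ hαR hβR
    P₁ e10 e11 e12 hh₁ hinj P'F P'V hF hV hP'F1 hP'V2
    (S35.H70.redE_chartMapE hq.out hA E0 (q * (q * L)) _ _ hunr
      (S36.H70.genBy_J3N L A hA E0 hunr) r₁ hq₁)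
    (S35.H70.redE_chartMapE hq.out hA E0 (q * (q * L)) _ _ hunr
      (S36.H70.genBy_J3N L A hA E0 hunr) r₂ hq₂)
    (S35.H70.redE_chartMapE hq.out hA E0 (q * (q * L)) _ _ hunr
      (S36.H70.genBy_J3N L A hA E0 hunr) r₃ hq₃)
    (S35.H70.redE_chartMapE hq.out hA E0 (q * L) _ _ hunr
      (S35.H70.genBy_JN L hqL A hA E0) r₁' hF'.red₁_ell)
    (S35.H70.redE_chartMapE hq.out hA E0 (q * L) _ _ hunr
      (S35.H70.genBy_JN L hqL A hA E0) r₂' hF'.red₂_ell)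
  exact ⟨hh₁, hh₂, hF, hV, hVeq, HV.1, HV.2⟩

end Labels

end Fermat.Agent.S36.H61
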