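/-
helper62 — S36 (OVL-a), spelling-independent `chartB` form: the two charts are
`B₁ = H40.chartB R J`, `B₂ = H40.chartB R J'` for ANY two elements `J J' : F` with `J * J' = 1`
(so `J' := J⁻¹`, or `J := bc J₁`, `J' := bc J₁⁻¹` for a field homomorphism `bc`, both fit without
rewriting the chart types).
-/
import Mathlib
import Fermat.Agent.S36.H62_ChartGlueInst

set_option autoImplicit false

namespace Fermat.Agent.S36.H62

open Fermat.Agent.S18 Fermat.Agent.S34 IsLocalRing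

section Pair

variable {R : Type*} [CommRing R] [IsDomain R] [IsDiscreteValuationRing R]
  {F : Type*} [Field F] [Algebra R F]
  (J J' : F) [IsFractionRing ↥(H40.chartB R J) F] [IsFractionRing ↥(H40.chartB R J') F]
  [IsIntegrallyClosed ↥(H40.chartB R J)] [IsIntegrallyClosed ↥(H40.chartB R J')]
  [Algebra.FiniteType R ↥(H40.chartB R J')] [IsAlgClosed (ResidueField R)]

/-- **(OVL-a)(i), pair form.** -/
theorem hovl_chartB_pair (hJJ' : J * J' = 1) (π : R) (hπ : Irreducible π) :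
    ∀ n₂ : H21.ClosedPt (H40.chartB R J') π,
      ¬ ((⟨J', H40.self_mem_chartB J'⟩ : ↥(H40.chartB R J')) ∈ n₂.1) →
      ∃ n₁ : H21.ClosedPt (H40.chartB R J) π,
        H21.ptO (H40.chartB R J) (H40.chartB R J') π (Sum.inl n₁) =
          H21.ptO (H40.chartB R J) (H40.chartB R J') π (Sum.inr n₂) :=
  hovl_two_charts (H40.chartB R J) (H40.chartB R J') π hπ
    ⟨J, H40.self_mem_chartB J⟩ ⟨J', H40.self_mem_chartB J'⟩ hJJ'
    (fun b => H40.mem_chartB.1 b.2) (fun b => H40.mem_chartB.1 b.2)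
    (fun n b => hres_closedPt (H40.chartB R J') hπ n b)

variable [IsNoetherianRing ↥(H40.chartB R J)] [IsNoetherianRing ↥(H40.chartB R J')]

/-- **(OVL-a)(iii), pair form.** -/
theorem hoverlap_chartB_pair (hJJ' : J * J' = 1) (π : R) (hπ : Irreducible π) {κ : Type*}
    (P₁ : κ → Ideal ↥(H40.chartB R J)) (P₂ : κ → Ideal ↥(H40.chartB R J'))
    [hP₁ : ∀ i, (P₁ i).IsPrime] [hP₂ : ∀ i, (P₂ i).IsPrime]
    (hh₁ : ∀ i, (P₁ i).height = 1) (hh₂ : ∀ i, (P₂ i).height = 1)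
    (hVeq : ∀ i, H56.valuationSubringAt (K := F) (P₁ i) (hh₁ i) =
      H56.valuationSubringAt (K := F) (P₂ i) (hh₂ i)) :
    ∀ n : H21.ClosedPt (H40.chartB R J') π,
      (⟨J', H40.self_mem_chartB J'⟩ : ↥(H40.chartB R J')) ∉ n.1 →
      ∃ n1 : H21.ClosedPt (H40.chartB R J) π,
        H21.ptO (H40.chartB R J) (H40.chartB R J') π (Sum.inl n1) =
          H21.ptO (H40.chartB R J) (H40.chartB R J') π (Sum.inr n) ∧
        ∀ i, P₁ i ≤ n1.1 ↔ P₂ i ≤ n.1 :=
  hoverlap_two_charts (H40.chartB R J) (H40.chartB R J') π P₁ P₂ hh₁ hh₂ hVeq hπ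
    ⟨J, H40.self_mem_chartB J⟩ ⟨J', H40.self_mem_chartB J'⟩ hJJ'
    (fun b => H40.mem_chartB.1 b.2) (fun b => H40.mem_chartB.1 b.2)
    (fun n b => hres_closedPt (H40.chartB R J') hπ n b)

end Pair

section BaseChange

/-! The `(S1)` spelling: `J := bc J₁`, `J' := bc J₁⁻¹` for a ring homomorphism `bc` of fields. -/

variable {F₀ F : Type*} [Field F₀] [Field F]

theorem map_mul_map_inv_eq_one (bc : F₀ →+* F) {J₁ : F₀} (hJ₁ : J₁ ≠ 0) :
    bc J₁ * bc J₁⁻¹ = 1 := by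
  rw [← map_mul, mul_inv_cancel₀ hJ₁, map_one]

end BaseChange

end Fermat.Agent.S36.H62
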