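/-
helper62 — S36 (OVL-a) at the real types in the `(S2)`-generic spelling of RULING 8: the two
E-level charts are `chartB (cutOver A E) J_E`, `chartB (cutOver A E) J_E'` for ANY `J_E J_E'` with
`J_E = J3K ↥E N q hq2`, `J_E' = (J3K ↥E N q hq2)⁻¹` (propositionally).  At
`J_E := baseChangeE E N (J3K L₁ N q hq2)`, `J_E' := baseChangeE E N (J3K L₁ N q hq2)⁻¹`
(`h := S36.H95.baseChangeE_J3K ..`, `h' := S36.H95.baseChangeE_J3K_inv ..`) this is the `(S1)`
spelling; at `rfl rfl` it is the literal `(S3)` spelling of `H62_ChartGlueReal`.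
-/
import Mathlib
import Fermat.Agent.S36.H62_ChartGlueReal
import Fermat.Agent.S36.H62_ChartGluePair

set_option autoImplicit false
set_option linter.unusedSectionVars false
set_option linter.style.haveILetI false
set_option synthInstance.maxHeartbeats 400000

noncomputable section

namespace Fermat.Agent.S36.H62

open ModularCurve HahnSeries IntermediateField IsLocalRing
open Fermat.Agent.S18 Fermat.Agent.S18.H45 Fermat.Agent.S34 Fermat.Agent.S36.H83

local notation "Qbar" => AlgebraicClosure ℚ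

variable {A : ValuationSubring Qbar} {ℓ : ℕ} (hℓ : ℓ.Prime) (hA : A.LiesOverPrime ℓ)
variable (E : IntermediateField (unrCyclo ℓ) Qbar) (N : ℕ) [NeZero N]
variable (q : ℕ) [NeZero q] (hq2 : q * q ∣ N)
variable [FiniteDimensional (unrCyclo ℓ) E]

/-- helper85's elaboration shortcuts (local; they unfold to the terms instance search finds). -/
local instance (priority := 10000) shortcutAlgE62 (N : ℕ) [NeZero N] :
    Algebra ↥E ↥(modularFunctionFieldFullC ↥E N) :=
  SubalgebraClass.toAlgebra (modularFunctionFieldFullC ↥E N)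

local instance (priority := 10000) shortcutAlg62 (N : ℕ) [NeZero N] :
    Algebra ↥(cutOver A E) ↥(modularFunctionFieldFullC ↥E N) :=
  Algebra.ofSubsemiring (cutOver A E)

variable (J_E J_E' : ↥(modularFunctionFieldFullC ↥E N))

include hℓ hA in
theorem finiteType_chartB_of_eq_J3K (h : J_E = J3K ↥E N q hq2) :
    Algebra.FiniteType ↥(cutOver A E) ↥(H40.chartB (cutOver A E) J_E) := by
  subst h
  exact finiteType_chartB_J3K hℓ hA E N q hq2

include hℓ hA in
theorem finiteType_chartB_of_eq_J3K_inv (h' : J_E' = (J3K ↥E N q hq2)⁻¹) :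
    Algebra.FiniteType ↥(cutOver A E) ↥(H40.chartB (cutOver A E) J_E') := by
  subst h'
  exact finiteType_chartB_J3K_inv hℓ hA E N q hq2

include hℓ hA in
/-- Rationality of the closed points of chart 1, any spelling of the coordinate. -/
theorem hres_of_eq_J3K (h : J_E = J3K ↥E N q hq2) (π : ↥(cutOver A E)) (hπ : Irreducible π)
    (n : H21.ClosedPt (H40.chartB (cutOver A E) J_E) π)
    (b : ↥(H40.chartB (cutOver A E) J_E)) :
    ∃ c : ↥(cutOver A E), b - algebraMap ↥(cutOver A E) _ c ∈ n.1 := by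
  subst h
  exact hres_J3K hℓ hA E N q hq2 π hπ n b

include hℓ hA in
/-- Rationality of the closed points of chart 2, any spelling of the coordinate. -/
theorem hres_of_eq_J3K_inv (h' : J_E' = (J3K ↥E N q hq2)⁻¹) (π : ↥(cutOver A E))
    (hπ : Irreducible π) (n : H21.ClosedPt (H40.chartB (cutOver A E) J_E') π)
    (b : ↥(H40.chartB (cutOver A E) J_E')) :
    ∃ c : ↥(cutOver A E), b - algebraMap ↥(cutOver A E) _ c ∈ n.1 := by
  subst h'
  exact hres_J3K_inv hℓ hA E N q hq2 π hπ n b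

variable
  [IsFractionRing ↥(H40.chartB (cutOver A E) J_E) (modularFunctionFieldFullC ↥E N)]
  [IsFractionRing ↥(H40.chartB (cutOver A E) J_E') (modularFunctionFieldFullC ↥E N)]
  [IsIntegrallyClosed ↥(H40.chartB (cutOver A E) J_E)]
  [IsIntegrallyClosed ↥(H40.chartB (cutOver A E) J_E')]

include hℓ hA in
/-- **(OVL-a)(i), real types, any spelling of the two coordinates.** -/
theorem hovl_of_eq_J3K (h : J_E = J3K ↥E N q hq2) (h' : J_E' = (J3K ↥E N q hq2)⁻¹)
    (π : ↥(cutOver A E)) (hπ : Irreducible π) :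
    ∀ n₂ : H21.ClosedPt (H40.chartB (cutOver A E) J_E') π,
      ¬ ((⟨J_E', H40.self_mem_chartB _⟩ : ↥(H40.chartB (cutOver A E) J_E')) ∈ n₂.1) →
      ∃ n₁ : H21.ClosedPt (H40.chartB (cutOver A E) J_E) π,
        H21.ptO (H40.chartB (cutOver A E) J_E) (H40.chartB (cutOver A E) J_E') π (Sum.inl n₁) =
          H21.ptO (H40.chartB (cutOver A E) J_E) (H40.chartB (cutOver A E) J_E') π
            (Sum.inr n₂) := by
  haveI := isDiscreteValuationRing_cutOver hℓ hA E
  haveI := isAlgClosed_residueField_cutOver hℓ hA E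
  haveI := finiteType_chartB_of_eq_J3K_inv hℓ hA E N q hq2 J_E' h'
  refine hovl_chartB_pair J_E J_E' ?_ π hπ
  rw [h, h']
  exact mul_inv_cancel₀ (J3K_ne_zero E N q hq2)

variable [IsNoetherianRing ↥(H40.chartB (cutOver A E) J_E)]
  [IsNoetherianRing ↥(H40.chartB (cutOver A E) J_E')]

include hℓ hA in
/-- **(OVL-a)(iii), real types, any spelling of the two coordinates.** -/
theorem hoverlap_of_eq_J3K (h : J_E = J3K ↥E N q hq2) (h' : J_E' = (J3K ↥E N q hq2)⁻¹)
    (π : ↥(cutOver A E)) (hπ : Irreducible π) {κ : Type*}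
    (P₁ : κ → Ideal ↥(H40.chartB (cutOver A E) J_E))
    (P₂ : κ → Ideal ↥(H40.chartB (cutOver A E) J_E'))
    [hP₁ : ∀ i, (P₁ i).IsPrime] [hP₂ : ∀ i, (P₂ i).IsPrime]
    (hh₁ : ∀ i, (P₁ i).height = 1) (hh₂ : ∀ i, (P₂ i).height = 1)
    (hVeq : ∀ i, H56.valuationSubringAt (K := ↥(modularFunctionFieldFullC ↥E N)) (P₁ i) (hh₁ i) =
      H56.valuationSubringAt (K := ↥(modularFunctionFieldFullC ↥E N)) (P₂ i) (hh₂ i)) :
    ∀ n : H21.ClosedPt (H40.chartB (cutOver A E) J_E') π,
      (⟨J_E', H40.self_mem_chartB _⟩ : ↥(H40.chartB (cutOver A E) J_E')) ∉ n.1 →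
      ∃ n1 : H21.ClosedPt (H40.chartB (cutOver A E) J_E) π,
        H21.ptO (H40.chartB (cutOver A E) J_E) (H40.chartB (cutOver A E) J_E') π (Sum.inl n1) =
          H21.ptO (H40.chartB (cutOver A E) J_E) (H40.chartB (cutOver A E) J_E') π
            (Sum.inr n) ∧
        ∀ i, P₁ i ≤ n1.1 ↔ P₂ i ≤ n.1 := by
  haveI := isDiscreteValuationRing_cutOver hℓ hA E
  haveI := isAlgClosed_residueField_cutOver hℓ hA E
  haveI := finiteType_chartB_of_eq_J3K_inv hℓ hA E N q hq2 J_E' h'
  refine hoverlap_chartB_pair J_E J_E' ?_ π hπ P₁ P₂ hh₁ hh₂ hVeq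
  rw [h, h']
  exact mul_inv_cancel₀ (J3K_ne_zero E N q hq2)

end Fermat.Agent.S36.H62
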