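/-
helper62 — S36 (M2e), "Route 2" for Note 2 (A): the pole of `P_s` without `ω_s`.

Abstract pieces (Mathlib + helper54's landed `S36.H54_DerivPole`):

* `not_mem_range_of_ode_pow` / `isUnit_of_ode_pow`: helper54's pole lemma / thickness-one lemma
  with the pole hypothesis on a POWER of `P`:  `P ^ N * p = 1`, `p ∈ 𝔪`
  (so `P` need not lie in the fraction field of `O`).
* `exists_pow_mul_eq_one_of_identities`: in `T = k((t))` with the substitution `W_T : f ↦ f(t^q)`:
  from `Θ ^ N = Db * As` (`Θ = θ s̄`, `Db = Δ̄`, `As = Ā_s`), `W_T Db * Om = Db`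
  (`Om = red₁ Ω = Δ̄ / W_T Δ̄`), `As` and `W_T As` units of `O`, `Om ∈ 𝔪`:
  `(W_T Θ / Θ) ^ N * p = 1` with `p ∈ 𝔪`.
* `isUnit_of_ode_of_identities`: the two combined = thickness one from the ODE + the identities.
-/
import Mathlib
import Fermat.Agent.S36.H54_DerivPole

set_option autoImplicit false

namespace Fermat.Agent.S36.H62

open IsLocalRing Fermat.Agent.S36.H54

section OdePow

variable {k O T : Type*} [Field k] [CommRing O] [IsLocalRing O] [Algebra k O]
  [Field T] [Algebra O T] [Algebra k T] [IsScalarTower k O T]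

/-- **Pole lemma, power form.**  If `θ δ = θ s * P - ρ ^ (q - 1) * θ ρ` with `ρ ∈ O` and
`P ^ N * p = 1` for some `p ∈ 𝔪`, then `δ ∉ O`. -/
theorem not_mem_range_of_ode_pow (hinj : Function.Injective (algebraMap O T))
    (θ : Derivation k T T) (s : O) (hs : maximalIdeal O = Ideal.span {s})
    (hres : Function.Surjective (algebraMap k (ResidueField O)))
    (hθs : θ (algebraMap O T s) ≠ 0)
    (hfg : (Submodule.span O (Set.range (derivDiv θ s))).FG)
    (δ P : T) (ρ : O) (q : ℕ)
    (hode : θ δ = θ (algebraMap O T s) * P - algebraMap O T ρ ^ (q - 1) * θ (algebraMap O T ρ))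
    (N : ℕ)
    (hP : ∃ p ∈ maximalIdeal O, P ^ N * algebraMap O T p = 1) :
    δ ∉ Set.range (algebraMap O T) := by
  rintro ⟨g, rfl⟩
  obtain ⟨a, ha⟩ := exists_algebraMap_eq_derivDiv θ s hs hres hθs hfg g
  obtain ⟨b, hb⟩ := exists_algebraMap_eq_derivDiv θ s hs hres hθs hfg ρ
  obtain ⟨p, hp, hPp⟩ := hP
  have hPeq : P = algebraMap O T (a + ρ ^ (q - 1) * b) := by
    rw [map_add, map_mul, map_pow, ha, hb, hode]
    field_simp
    ring
  rw [hPeq, ← map_pow, ← map_mul, ← map_one (algebraMap O T)] at hPp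
  have h1 : (a + ρ ^ (q - 1) * b) ^ N * p = 1 := hinj hPp
  have hu : IsUnit p := IsUnit.of_mul_eq_one _ (by rw [mul_comm]; exact h1)
  exact (IsLocalRing.mem_maximalIdeal p).mp hp hu

/-- **Thickness one, power form.** -/
theorem isUnit_of_ode_pow (hinj : Function.Injective (algebraMap O T))
    (θ : Derivation k T T) (s : O) (hs : maximalIdeal O = Ideal.span {s})
    (hres : Function.Surjective (algebraMap k (ResidueField O)))
    (hθs : θ (algebraMap O T s) ≠ 0)
    (hfg : (Submodule.span O (Set.range (derivDiv θ s))).FG)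
    (δ P : T) (ρ : O) (q : ℕ)
    (hode : θ δ = θ (algebraMap O T s) * P - algebraMap O T ρ ^ (q - 1) * θ (algebraMap O T ρ))
    (N : ℕ)
    (hP : ∃ p ∈ maximalIdeal O, P ^ N * algebraMap O T p = 1)
    (y R₀ : O) (hy : maximalIdeal O = Ideal.span {y})
    (hrel : δ * algebraMap O T y = algebraMap O T R₀) : IsUnit R₀ := by
  by_contra hR
  have hmem : R₀ ∈ maximalIdeal O := (IsLocalRing.mem_maximalIdeal R₀).mpr hR
  rw [hy, Ideal.mem_span_singleton'] at hmem
  obtain ⟨R₁, hR₁⟩ := hmem
  have hy0 : algebraMap O T y ≠ 0 := by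
    intro h0
    have hy0' : y = 0 := hinj (by rw [h0, map_zero])
    obtain ⟨p, hp, hPp⟩ := hP
    rw [hy, hy0', Ideal.mem_span_singleton'] at hp
    obtain ⟨c, hc⟩ := hp
    rw [← hc, mul_zero, map_zero, mul_zero] at hPp
    exact zero_ne_one hPp
  apply not_mem_range_of_ode_pow hinj θ s hs hres hθs hfg δ P ρ q hode N hP
  refine ⟨R₁, ?_⟩
  have : δ * algebraMap O T y = algebraMap O T R₁ * algebraMap O T y := by
    rw [hrel, ← hR₁, map_mul]
  exact (mul_right_cancel₀ hy0 this).symm

end OdePow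

section Identities

variable {O T : Type*} [CommRing O] [IsLocalRing O] [Field T] [Algebra O T]

/-- **The pole of `P_s = W_T Θ / Θ` from the level-`L` unit `A_s` and `Ω`.** -/
theorem exists_pow_mul_eq_one_of_identities (WT : T →+* T) (N : ℕ)
    (Θ Db As : T) (hΘ : Θ ≠ 0) (hDb : Db ≠ 0)
    (h1 : Θ ^ N = Db * As)
    (ω u u' : O) (hω : ω ∈ maximalIdeal O) (hu : IsUnit u) (hu' : IsUnit u')
    (h2 : WT Db * algebraMap O T ω = Db)
    (hAs : As = algebraMap O T u) (hWAs : WT As = algebraMap O T u') :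
    ∃ p ∈ maximalIdeal O, (WT Θ / Θ) ^ N * algebraMap O T p = 1 := by
  obtain ⟨v', hv'⟩ := hu'.exists_right_inv
  refine ⟨ω * (u * v'), Ideal.mul_mem_right _ _ hω, ?_⟩
  have huT : algebraMap O T u ≠ 0 := (hu.map (algebraMap O T)).ne_zero
  have hΘN : Θ ^ N ≠ 0 := pow_ne_zero _ hΘ
  have hW : WT Θ ^ N = WT Db * algebraMap O T u' := by
    rw [← map_pow, h1, map_mul, hWAs]
  have hv'T : algebraMap O T u' * algebraMap O T v' = 1 := by
    rw [← map_mul, hv', map_one]
  rw [div_pow, hW, h1, hAs, map_mul, map_mul]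
  rw [div_mul_eq_mul_div, div_eq_one_iff_eq (mul_ne_zero hDb huT)]
  calc WT Db * algebraMap O T u' * (algebraMap O T ω * (algebraMap O T u * algebraMap O T v'))
      = (WT Db * algebraMap O T ω) * algebraMap O T u *
          (algebraMap O T u' * algebraMap O T v') := by ring
    _ = Db * algebraMap O T u := by rw [h2, hv'T, mul_one]

end Identities

section Combined

variable {k O T : Type*} [Field k] [CommRing O] [IsLocalRing O] [Algebra k O]
  [Field T] [Algebra O T] [Algebra k T] [IsScalarTower k O T]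

/-- **Thickness one from the ODE and the `Ω`/`A_s` identities** (Route 2 for Note 2 (A)).
`θ δ = W_T (θ s) - ρ ^ (q-1) θ ρ` (the ODE mod `q`), `(θ s) ^ N = Db * As`,
`W_T Db * red₁ Ω = Db`, `As`, `W_T As` units of `O`, `red₁ Ω ∈ 𝔪`, `δ * y = R₀`. -/
theorem isUnit_of_ode_of_identities (hinj : Function.Injective (algebraMap O T))
    (θ : Derivation k T T) (s : O) (hs : maximalIdeal O = Ideal.span {s})
    (hres : Function.Surjective (algebraMap k (ResidueField O)))
    (hθs : θ (algebraMap O T s) ≠ 0)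
    (hfg : (Submodule.span O (Set.range (derivDiv θ s))).FG)
    (WT : T →+* T) (δ : T) (ρ : O) (q : ℕ)
    (hode : θ δ = WT (θ (algebraMap O T s)) -
      algebraMap O T ρ ^ (q - 1) * θ (algebraMap O T ρ))
    (N : ℕ) (Db As : T) (hDb : Db ≠ 0)
    (h1 : θ (algebraMap O T s) ^ N = Db * As)
    (ω u u' : O) (hω : ω ∈ maximalIdeal O) (hu : IsUnit u) (hu' : IsUnit u')
    (h2 : WT Db * algebraMap O T ω = Db)
    (hAs : As = algebraMap O T u) (hWAs : WT As = algebraMap O T u')
    (y R₀ : O) (hy : maximalIdeal O = Ideal.span {y})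
    (hrel : δ * algebraMap O T y = algebraMap O T R₀) : IsUnit R₀ := by
  have hP := exists_pow_mul_eq_one_of_identities WT N (θ (algebraMap O T s)) Db As hθs hDb h1
    ω u u' hω hu hu' h2 hAs hWAs
  refine isUnit_of_ode_pow hinj θ s hs hres hθs hfg δ
    (WT (θ (algebraMap O T s)) / θ (algebraMap O T s)) ρ q ?_ N hP y R₀ hy hrel
  rw [hode, mul_div_cancel₀ _ hθs]

end Combined

end Fermat.Agent.S36.H62
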