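import Mathlib
import Fermat.Agent.S29.H32_LocalEll

/-!
# S36 / (M2-unr), part 0 (helper63): `Γ₀(N)` has no elliptic elements when a prime
`r ≡ 11 (mod 12)` divides `N`

* `NoEll N` : no element of `Γ₀(N)` has trace `0`, `1` or `-1`;
* `noEll_of_prime_dvd` : `r` prime, `r % 12 = 11`, `r ∣ N` ⟹ `NoEll N`;
* `NoEll.mono` : `N ∣ N'` ⟹ `NoEll N → NoEll N'`;
* `NoEll.ellOrder_eq_one` : then `H32.ellOrder (Gamma0 N) τ = 1` for every `τ`.
-/

set_option autoImplicit false

namespace Fermat.Agent.S36.H63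

open CongruenceSubgroup UpperHalfPlane
open scoped MatrixGroups

/-- `Γ₀(N)` has no element of trace `0`, `1`, `-1` (no elliptic elements). -/
def NoEll (N : ℕ) : Prop :=
  ∀ γ ∈ Gamma0 N, γ.1.trace ≠ 0 ∧ γ.1.trace ≠ 1 ∧ γ.1.trace ≠ -1

theorem NoEll.mono {N N' : ℕ} (h : N ∣ N') (hN : NoEll N) : NoEll N' := by
  intro γ hγ
  apply hN γ
  rw [Gamma0_mem] at hγ ⊢
  have h1 : ((γ 1 0 : ℤ) : ZMod N') = 0 := hγ
  rw [ZMod.intCast_zmod_eq_zero_iff_dvd] at h1 ⊢
  exact (Int.natCast_dvd_natCast.mpr h).trans h1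

/-- the two relations satisfied by the entries of an element of `Γ₀(N)`, read modulo a prime
divisor `r` of `N`. -/
theorem entries_mod {N r : ℕ} (hrN : r ∣ N) {γ : SL(2, ℤ)} (hγ : γ ∈ Gamma0 N) :
    ((γ 0 0 : ℤ) : ZMod r) * ((γ 1 1 : ℤ) : ZMod r) = 1 := by
  rw [Gamma0_mem] at hγ
  have h1 : ((γ 1 0 : ℤ) : ZMod N) = 0 := hγ
  rw [ZMod.intCast_zmod_eq_zero_iff_dvd] at h1
  have h2 : ((γ 1 0 : ℤ) : ZMod r) = 0 := by
    rw [ZMod.intCast_zmod_eq_zero_iff_dvd]
    exact (Int.natCast_dvd_natCast.mpr hrN).trans h1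
  have hdet : (γ 0 0 : ℤ) * γ 1 1 - γ 0 1 * γ 1 0 = 1 := by
    have := γ.det_coe
    rw [Matrix.det_fin_two] at this
    exact this
  have := congrArg (Int.cast : ℤ → ZMod r) hdet
  push_cast at this
  rw [h2, mul_zero, sub_zero] at this
  exact this

theorem noEll_of_prime_dvd {N r : ℕ} (hr : r.Prime) (hr12 : r % 12 = 11) (hrN : r ∣ N) :
    NoEll N := by
  have : Fact r.Prime := ⟨hr⟩
  intro γ hγ
  have hmul := entries_mod hrN hγ
  have htr : γ.1.trace = γ 0 0 + γ 1 1 := by
    rw [Matrix.trace_fin_two]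
  set a : ZMod r := ((γ 0 0 : ℤ) : ZMod r) with ha
  set d : ZMod r := ((γ 1 1 : ℤ) : ZMod r) with hd
  have h3 : (3 : ZMod r) ≠ 0 := by
    intro h
    have h' : ((3 : ℕ) : ZMod r) = 0 := by exact_mod_cast h
    rw [ZMod.natCast_eq_zero_iff] at h'
    have := (Nat.prime_dvd_prime_iff_eq hr Nat.prime_three).mp h'
    omega
  -- a root of `x^2 + x + 1` has order `3` in the unit group, of order `r - 1`
  have key3 : ∀ x : ZMod r, x ^ 2 + x + 1 = 0 → False := by
    intro x hx
    have hx3 : x ^ 3 = 1 := by linear_combination (x - 1) * hx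
    have hx1 : x ≠ 1 := by
      rintro rfl
      apply h3
      linear_combination hx
    have hx0 : x ≠ 0 := by
      rintro rfl
      simp at hx3
    let u : (ZMod r)ˣ := Units.mk0 x hx0
    have hu3 : u ^ 3 = 1 := by
      apply Units.ext
      simpa [u] using hx3
    have hu1 : u ≠ 1 := by
      intro h
      apply hx1
      have := congrArg Units.val h
      simpa [u] using this
    have hord : orderOf u = 3 := orderOf_eq_prime hu3 hu1
    have hdvd : orderOf u ∣ Fintype.card (ZMod r)ˣ := orderOf_dvd_card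
    rw [hord, ZMod.card_units_eq_totient, Nat.totient_prime hr] at hdvd
    omega
  refine ⟨fun h0 => ?_, fun h1 => ?_, fun h1 => ?_⟩
  · -- trace 0: `a^2 = -1`
    have hda : d = -a := by
      have : (γ 0 0 : ℤ) + γ 1 1 = 0 := by rw [← htr]; exact h0
      have := congrArg (Int.cast : ℤ → ZMod r) this
      push_cast at this
      rw [← ha, ← hd] at this
      linear_combination this
    have hsq : IsSquare (-1 : ZMod r) := ⟨a, by rw [hda] at hmul; linear_combination hmul⟩
    have := ZMod.exists_sq_eq_neg_one_iff.mp hsq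
    omega
  · -- trace 1: `x = -a` is a root of `x^2 + x + 1`
    have hda : d = 1 - a := by
      have : (γ 0 0 : ℤ) + γ 1 1 = 1 := by rw [← htr]; exact h1
      have := congrArg (Int.cast : ℤ → ZMod r) this
      push_cast at this
      rw [← ha, ← hd] at this
      linear_combination this
    apply key3 (-a)
    rw [hda] at hmul
    linear_combination -hmul
  · -- trace -1: `x = a` is a root of `x^2 + x + 1`
    have hda : d = -1 - a := by
      have : (γ 0 0 : ℤ) + γ 1 1 = -1 := by rw [← htr]; exact h1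
      have := congrArg (Int.cast : ℤ → ZMod r) this
      push_cast at this
      rw [← ha, ← hd] at this
      linear_combination this
    apply key3 a
    rw [hda] at hmul
    linear_combination -hmul

open Fermat.Agent.S29 in
theorem NoEll.ellOrder_eq_one {N : ℕ} (hN : NoEll N) (τ : ℍ) :
    H32.ellOrder (Gamma0 N) τ = 1 := by
  unfold H32.ellOrder
  rw [if_neg, if_neg]
  · rintro ⟨γ, hγ, -, h | h⟩
    · exact (hN γ hγ).2.1 h
    · exact (hN γ hγ).2.2 h
  · rintro ⟨γ, hγ, -, h⟩
    exact (hN γ hγ).1 h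

end Fermat.Agent.S36.H63
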