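import Fermat.Agent.S29.H25_PointsFinal
import Fermat.Agent.S29.H47_NormAnBeta
import Fermat.Agent.S29.H90_NormAn
import Fermat.Agent.S36.H63_NoElliptic

/-!
# S36 / (M2-unr), part 1 (helper63): over `ℂ`, the two degeneracy maps are unramified at the
non-cuspidal places when the lower level has no elliptic points

`N` a level with `NoEll N` (e.g. a prime `r ≡ 11 (12)` divides `N`).

* `merOrd_scaleMer` : `merOrd τ (scaleMer ℓ Φ) = merOrd (ℓ τ) Φ`;
* `ramAt_eq_one` : `H25.ramAt N τ = 1` for every `τ : ℍ`, i.e.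
  `merOrd τ (thetaC N f) = (placeAt N τ).ord f`;
* `exists_point_alphaC`, `exists_point_betaC` : for every place `v` of `FC (N * ℓ) / ℂ` at which
  `j` is finite there is a point `τ` with
  `v.ord (α t) = (placeAt N τ).ord t` resp. `v.ord (β t) = (placeAt N τ).ord t` for all `t : FC N`.
-/

set_option autoImplicit false
noncomputable section
namespace Fermat.Agent.S36.H63
open UpperHalfPlane ModularCurve AlgebraicCurve IntermediateField
open Fermat.Agent.S24 Fermat.Agent.S29 Fermat.Agent.S29.H25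
open Fermat.Agent.S24.H81 (Hol Mer ordNat merOrd)
open Fermat.Agent.S24.H17 (mulD)
open scoped MatrixGroups Manifold

/-! ### orders under `τ ↦ ℓ τ` -/

theorem ordNat_comp_mulD {g : ℍ → ℂ} (ℓ : ℕ) [NeZero ℓ] (τ0 : ℍ) :
    ordNat τ0 (fun τ => g (mulD ℓ τ)) = ordNat (mulD ℓ τ0) g := by
  unfold ordNat analyticOrderNatAt
  have hℓ : (ℓ : ℂ) ≠ 0 := by exact_mod_cast NeZero.ne ℓ
  have hℓpos : (0 : ℝ) < (ℓ : ℝ) := by exact_mod_cast Nat.pos_of_ne_zero (NeZero.ne ℓ)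
  have hev : ((fun τ => g (mulD ℓ τ)) ∘ ofComplex) =ᶠ[nhds (τ0 : ℂ)]
      ((g ∘ ofComplex) ∘ fun z : ℂ => (ℓ : ℂ) * z) := by
    filter_upwards [isOpen_upperHalfPlaneSet.mem_nhds τ0.im_pos] with z hz
    have hz' : 0 < ((ℓ : ℂ) * z).im := by
      rw [Complex.mul_im]
      simp only [Complex.natCast_re, Complex.natCast_im, zero_mul, add_zero]
      exact mul_pos hℓpos hz
    simp only [Function.comp_apply]
    congr 1
    apply UpperHalfPlane.ext
    rw [ofComplex_apply_of_im_pos hz', ofComplex_apply_of_im_pos hz]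
    simp [H15.coe_aff]
  rw [analyticOrderAt_congr hev,
    analyticOrderAt_comp_of_deriv_ne_zero (by fun_prop) (by
      have : deriv (fun z : ℂ => (ℓ : ℂ) * z) (τ0 : ℂ) = ℓ := by
        simp
      rw [this]
      exact hℓ)]
  congr 2
  simp [H15.coe_aff]

theorem ordNat_scaleHol (ℓ : ℕ) [NeZero ℓ] (g : Hol) (τ0 : ℍ) :
    ordNat τ0 ((H47.scaleHol ℓ g : Hol) : ℍ → ℂ) = ordNat (mulD ℓ τ0) (g : ℍ → ℂ) :=
  ordNat_comp_mulD ℓ τ0

/-- transport of orders under `scaleMer`. -/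
theorem merOrd_scaleMer (ℓ : ℕ) [NeZero ℓ] (τ0 : ℍ) (x : Mer) :
    merOrd τ0 (H47.scaleMer ℓ x) = merOrd (mulD ℓ τ0) x := by
  by_cases hx : x = 0
  · subst hx
    simp [merOrd]
  obtain ⟨g, h, hh, rfl⟩ := H25.exists_eq_div x
  have hg : g ≠ 0 := by
    rintro rfl
    simp at hx
  have hg' : H47.scaleHol ℓ g ≠ 0 := fun h0 =>
    hg (H47.scaleHol_injective ℓ (by rw [h0, map_zero]))
  have hh' : H47.scaleHol ℓ h ≠ 0 := fun h0 =>
    hh (H47.scaleHol_injective ℓ (by rw [h0, map_zero]))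
  rw [H47.scaleMer_div, H25.merOrd_div τ0 hg' hh', H25.merOrd_div (mulD ℓ τ0) hg hh,
    ordNat_scaleHol, ordNat_scaleHol]

/-! ### the order of `J - a` at a point only depends on `a` -/

theorem analyticOrderNatAt_J_sub_const_eq {τ τ' : ℍ} {a : ℂ} (h : H28.J τ = a)
    (h' : H28.J τ' = a) :
    analyticOrderNatAt (fun z : ℂ => H28.J (ofComplex z) - a) (τ : ℂ) =
      analyticOrderNatAt (fun z : ℂ => H28.J (ofComplex z) - a) (τ' : ℂ) := by
  by_cases h0 : a = 0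
  · subst h0
    have e1 := H8.analyticOrderAt_J_of_E₄_eq_zero τ ((H8.J_eq_zero_iff τ).mp h)
    have e2 := H8.analyticOrderAt_J_of_E₄_eq_zero τ' ((H8.J_eq_zero_iff τ').mp h')
    simp only [sub_zero]
    rw [analyticOrderNatAt, analyticOrderNatAt, e1, e2]
  by_cases h1 : a = 1728
  · subst h1
    have e1 := H8.analyticOrderAt_J_sub_1728_of_E₆_eq_zero τ ((H8.J_eq_1728_iff τ).mp h)
    have e2 := H8.analyticOrderAt_J_sub_1728_of_E₆_eq_zero τ' ((H8.J_eq_1728_iff τ').mp h')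
    rw [analyticOrderNatAt, analyticOrderNatAt, e1, e2]
  · have e1 := H8.analyticOrderAt_J_sub_generic τ (by rw [h]; exact h0) (by rw [h]; exact h1)
    have e2 := H8.analyticOrderAt_J_sub_generic τ' (by rw [h']; exact h0) (by rw [h']; exact h1)
    rw [h] at e1
    rw [h'] at e2
    rw [analyticOrderNatAt, analyticOrderNatAt, e1, e2]

variable (N : ℕ) [NeZero N]

theorem merOrd_thetaC_jC_sub (a : ℂ) (τ : ℍ) :
    merOrd τ (thetaC N (jC N - algebraMap ℂ (FC N) a)) =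
      (analyticOrderNatAt (fun z : ℂ => H28.J (ofComplex z) - a) (τ : ℂ) : ℤ) := by
  rw [merOrd_thetaC_of_mem N (jC_sub_const_mem_AC N a) (jC_sub_const_ne_zero N a),
    ordNat_ThetaC_jC_sub]

/-- **No elliptic points: `ℍ → X₀(N)` is unramified everywhere.** -/
theorem ramAt_eq_one (hN : NoEll N) (τ : ℍ) : ramAt N τ = 1 := by
  set w := placeAt N τ with hw
  obtain ⟨τ2, -, hord2⟩ := exists_point_of_place N w (ord_placeAt_jC_nonneg N τ)
  set u : FC N := jC N - algebraMap ℂ (FC N) (H28.J τ) with hu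
  have hu0 : u ≠ 0 := jC_sub_const_ne_zero N _
  have h1 : 0 < w.ord u := ord_placeAt_jC_sub_pos N τ
  have h2 := hord2 u hu0
  rw [hN.ellOrder_eq_one τ2, Nat.cast_one, one_mul, hu, merOrd_thetaC_jC_sub] at h2
  -- `J τ2 = J τ`
  have hJ : H28.J τ2 = H28.J τ := by
    by_contra hne
    have h0 := H8.analyticOrderAt_J_sub_eq_zero_of_ne hne
    rw [analyticOrderNatAt, h0] at h2
    rw [← hu] at h2
    simp at h2
    omega
  have h3 := merOrd_thetaC_eq N τ hu0
  rw [hu, merOrd_thetaC_jC_sub, analyticOrderNatAt_J_sub_const_eq rfl hJ, h2, ← hw, ← hu] at h3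
  have h4 : ((ramAt N τ : ℤ) - 1) * w.ord u = 0 := by linarith
  rcases mul_eq_zero.mp h4 with h5 | h5
  · have : (ramAt N τ : ℤ) = 1 := by linarith
    exact_mod_cast this
  · omega

/-- with no elliptic points, the order at `placeAt N τ` is the analytic order at `τ`. -/
theorem merOrd_thetaC_eq_ord (hN : NoEll N) (τ : ℍ) {f : FC N} (hf : f ≠ 0) :
    merOrd τ (thetaC N f) = (placeAt N τ).ord f := by
  rw [merOrd_thetaC_eq N τ hf, ramAt_eq_one N hN τ, Nat.cast_one, one_mul]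

variable (ℓ : ℕ) [NeZero ℓ]

/-- **(M2-unr) over `ℂ`, `α`.** -/
theorem exists_point_alphaC (hN : NoEll N) (v : Place ℂ (FC (N * ℓ)))
    (hv : 0 ≤ v.ord (jC (N * ℓ))) :
    ∃ τ : ℍ, ∀ t : FC N, t ≠ 0 →
      v.ord (heckeAlphaBar ℂ N ℓ t) = (placeAt N τ).ord t := by
  obtain ⟨τ1, -, hord⟩ := exists_point_of_place (N * ℓ) v hv
  have hN' : NoEll (N * ℓ) := hN.mono (dvd_mul_right N ℓ)
  refine ⟨τ1, fun t ht => ?_⟩
  have ht' : heckeAlphaBar ℂ N ℓ t ≠ 0 := (map_ne_zero (heckeAlphaBar ℂ N ℓ)).mpr ht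
  have h := hord _ ht'
  rw [hN'.ellOrder_eq_one τ1, Nat.cast_one, one_mul, H90.thetaC_alpha,
    merOrd_thetaC_eq_ord N hN τ1 ht] at h
  exact h.symm

/-- **(M2-unr) over `ℂ`, `β`.** -/
theorem exists_point_betaC (hN : NoEll N) (v : Place ℂ (FC (N * ℓ)))
    (hv : 0 ≤ v.ord (jC (N * ℓ))) :
    ∃ τ : ℍ, ∀ t : FC N, t ≠ 0 →
      v.ord (heckeBetaBar ℂ N ℓ t) = (placeAt N τ).ord t := by
  obtain ⟨τ1, -, hord⟩ := exists_point_of_place (N * ℓ) v hv
  have hN' : NoEll (N * ℓ) := hN.mono (dvd_mul_right N ℓ)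
  refine ⟨mulD ℓ τ1, fun t ht => ?_⟩
  have ht' : heckeBetaBar ℂ N ℓ t ≠ 0 := (map_ne_zero (heckeBetaBar ℂ N ℓ)).mpr ht
  have h := hord _ ht'
  rw [hN'.ellOrder_eq_one τ1, Nat.cast_one, one_mul, H47.thetaC_heckeBetaBar, merOrd_scaleMer,
    merOrd_thetaC_eq_ord N hN (mulD ℓ τ1) ht] at h
  exact h.symm

end Fermat.Agent.S36.H63
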