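import Fermat.Agent.S29.H62_BcHeckeNat
import Fermat.Agent.S29.H87_LevelMaps
import Fermat.Agent.S36.H63_DegeneracyUnramC

/-!
# S36 / (M2-unr) (helper63): the two degeneracy maps `X₀(N ℓ) → X₀(N)` are unramified at every
non-cuspidal place when `Γ₀(N)` has no elliptic elements — over `Qbar`

`N` a level with `NoEll N` (`noEll_of_prime_dvd`: a prime `r ≡ 11 (mod 12)` divides `N`),
`ℓ ≥ 1` arbitrary (no primality, no coprimality).  For `φ = heckeAlphaBar Qbar N ℓ`
(the inclusion `F_N ⊆ F_{Nℓ}`, `= H87.inclHom`) and `φ = heckeBetaBar Qbar N ℓ`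
(`f(q) ↦ f(q^ℓ)`, `= H87.expHom`), every place `v` of `FN (N ℓ) / Qbar` with `0 ≤ v.ord j` and
every place `w` of `FN N / Qbar` under `v` along `φ`:

* `ord_alpha_eq_of_above`, `ord_beta_eq_of_above` : `v.ord (φ t) = w.ord t` for all `t : FN N`
  (ramification index one);
* `exists_unif_alpha_of_above`, `exists_unif_beta_of_above` : the `hunif` form
  `∃ t, v.ord (φ t) = 1`;
* `ord_inclHom_eq_of_above`, `ord_expHom_eq_of_above` : the same in the `S29.H87` spelling.
-/

set_option autoImplicit false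
noncomputable section
namespace Fermat.Agent.S36.H63
open UpperHalfPlane ModularCurve AlgebraicCurve IntermediateField
open Fermat.Agent.S24 Fermat.Agent.S29 Fermat.Agent.S29.H25
open scoped MatrixGroups Manifold

attribute [local instance] H62.algebraQbarComplex H62.isScalarTower_qbar_complex

variable (N : ℕ) [NeZero N]

/-- the base change of `j` is `j`. -/
theorem constExtJ_ι_jBar : (H62.constExtJ N).ι (jBar N) = jC N := by
  apply Subtype.ext
  exact H62.coeffMap_tower_coeffEmb (k := Qbar) (L := ℂ) jq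

section Generic

variable {N}
variable {M' : ℕ} [NeZero M']
  (φQ : FN N →ₐ[Qbar] FN M') (φC : FC N →ₐ[ℂ] FC M')
  (hφ : ∀ x : FN N, (H62.constExtJ M').ι (φQ x) = φC ((H62.constExtJ N).ι x))

include hφ in
/-- **Descent of "ramification index one" from `ℂ` to `Qbar`.**  If over `ℂ` the place above `v`
restricts along `φC` to the order function of a place `u` of `FC N`, then over `Qbar` the place
`v` has ramification index one over every place `w` below it along `φQ`. -/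
theorem ord_eq_of_above_of_complex (v : Place Qbar (FN M'))
    (hC : ∀ vC : Place ℂ (FC M'), (H62.constExtJ M').Lies vC v →
      ∃ u : Place ℂ (FC N), ∀ t : FC N, t ≠ 0 → vC.ord (φC t) = u.ord t)
    (w : Place Qbar (FN N))
    (hvw : ∀ x : FN N, x ∈ w.toValuationSubring ↔ φQ x ∈ v.toValuationSubring) (t : FN N) :
    v.ord (φQ t) = w.ord t := by
  have hD' := H62.degOne_constExtJ M'
  have hD := H62.degOne_constExtJ N
  set vC : Place ℂ (FC M') := H20.ConstExt.ext hD' v with hvC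
  have hlies : (H62.constExtJ M').Lies vC v := H20.ConstExt.lies_ext hD' v
  obtain ⟨u, hu⟩ := hC vC hlies
  -- the restriction of `u` to `FN N` computes `v.ord ∘ φQ`
  have hkey : ∀ x : FN N, u.ord ((H62.constExtJ N).ι x) = v.ord (φQ x) := by
    intro x
    by_cases hx : x = 0
    · subst hx
      simp [Place.ord_zero]
    have hx' : (H62.constExtJ N).ι x ≠ 0 := (H62.constExtJ N).ι_ne_zero hx
    rw [← hu _ hx', ← hφ x]
    exact hlies (φQ x)
  -- `v.ord ∘ φQ` is nontrivial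
  obtain ⟨π, hπ0, hπ⟩ := H27.exists_ord_eq_one w
  have hπv : 0 < v.ord (φQ π) := by
    have hφπ0 : φQ π ≠ 0 := (map_ne_zero φQ).mpr hπ0
    have h1 : π⁻¹ ∉ w.toValuationSubring := by
      rw [H27.mem_toValuationSubring_of_ne_zero w (inv_ne_zero hπ0), w.ord_inv, hπ]
      omega
    rw [hvw, map_inv₀, H27.mem_toValuationSubring_of_ne_zero v (inv_ne_zero hφπ0),
      v.ord_inv] at h1
    omega
  obtain ⟨w', hw'⟩ := (H62.constExtJ N).exists_lies_of_nontrivial (fun v₀ => hD.resTriv v₀) u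
    ⟨π, by rw [hkey π]; omega⟩
  -- `w' = w`
  have hww' : w = w' := by
    apply H27.eq_of_forall_ord_nonneg
    intro f hf h0
    have h1 : f ∈ w.toValuationSubring := (H27.mem_toValuationSubring_of_ne_zero w hf).mpr h0
    rw [hvw] at h1
    have hφf0 : φQ f ≠ 0 := (map_ne_zero φQ).mpr hf
    rw [H27.mem_toValuationSubring_of_ne_zero v hφf0] at h1
    rw [← hw' f, hkey f]
    exact h1
  rw [hww', ← hw' t, hkey t]

end Generic

variable (ℓ : ℕ) [NeZero ℓ]

/-- the place of `FC (N ℓ)` above a non-cuspidal place is non-cuspidal. -/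
theorem ord_jC_nonneg_of_lies {v : Place Qbar (FN (N * ℓ))} (hv : 0 ≤ v.ord (jBar (N * ℓ)))
    {vC : Place ℂ (FC (N * ℓ))} (h : (H62.constExtJ (N * ℓ)).Lies vC v) :
    0 ≤ vC.ord (jC (N * ℓ)) := by
  rw [← constExtJ_ι_jBar, h (jBar (N * ℓ))]
  exact hv

/-- **(M2-unr), `α`.**  `e(v | w) = 1` for the inclusion `F_N ⊆ F_{Nℓ}` at every non-cuspidal
place, when `Γ₀(N)` has no elliptic elements. -/
theorem ord_alpha_eq_of_above (hN : NoEll N) (v : Place Qbar (FN (N * ℓ)))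
    (hv : 0 ≤ v.ord (jBar (N * ℓ))) (w : Place Qbar (FN N))
    (hvw : ∀ x : FN N, x ∈ w.toValuationSubring ↔
      heckeAlphaBar Qbar N ℓ x ∈ v.toValuationSubring) (t : FN N) :
    v.ord (heckeAlphaBar Qbar N ℓ t) = w.ord t :=
  ord_eq_of_above_of_complex (heckeAlphaBar Qbar N ℓ) (heckeAlphaBar ℂ N ℓ)
    (fun x => H62.constExtJ_ι_heckeAlphaBar N ℓ x) v
    (fun vC hvC => by
      obtain ⟨τ, hτ⟩ := exists_point_alphaC N ℓ hN vC (ord_jC_nonneg_of_lies N ℓ hv hvC)
      exact ⟨placeAt N τ, hτ⟩) w hvw t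

/-- **(M2-unr), `β`.**  `e(v | w) = 1` for `f(q) ↦ f(q^ℓ) : F_N → F_{Nℓ}` at every non-cuspidal
place, when `Γ₀(N)` has no elliptic elements. -/
theorem ord_beta_eq_of_above (hN : NoEll N) (v : Place Qbar (FN (N * ℓ)))
    (hv : 0 ≤ v.ord (jBar (N * ℓ))) (w : Place Qbar (FN N))
    (hvw : ∀ x : FN N, x ∈ w.toValuationSubring ↔
      heckeBetaBar Qbar N ℓ x ∈ v.toValuationSubring) (t : FN N) :
    v.ord (heckeBetaBar Qbar N ℓ t) = w.ord t :=
  ord_eq_of_above_of_complex (heckeBetaBar Qbar N ℓ) (heckeBetaBar ℂ N ℓ)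
    (fun x => H62.constExtJ_ι_heckeBetaBar N ℓ x) v
    (fun vC hvC => by
      obtain ⟨τ, hτ⟩ := exists_point_betaC N ℓ hN vC (ord_jC_nonneg_of_lies N ℓ hv hvC)
      exact ⟨placeAt N τ, hτ⟩) w hvw t

/-- `hunif` form for `α`. -/
theorem exists_unif_alpha_of_above (hN : NoEll N) (v : Place Qbar (FN (N * ℓ)))
    (hv : 0 ≤ v.ord (jBar (N * ℓ))) (w : Place Qbar (FN N))
    (hvw : ∀ x : FN N, x ∈ w.toValuationSubring ↔
      heckeAlphaBar Qbar N ℓ x ∈ v.toValuationSubring) :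
    ∃ t : FN N, v.ord (heckeAlphaBar Qbar N ℓ t) = 1 := by
  obtain ⟨π, -, hπ⟩ := H27.exists_ord_eq_one w
  exact ⟨π, by rw [ord_alpha_eq_of_above N ℓ hN v hv w hvw, hπ]⟩

/-- `hunif` form for `β`. -/
theorem exists_unif_beta_of_above (hN : NoEll N) (v : Place Qbar (FN (N * ℓ)))
    (hv : 0 ≤ v.ord (jBar (N * ℓ))) (w : Place Qbar (FN N))
    (hvw : ∀ x : FN N, x ∈ w.toValuationSubring ↔
      heckeBetaBar Qbar N ℓ x ∈ v.toValuationSubring) :
    ∃ t : FN N, v.ord (heckeBetaBar Qbar N ℓ t) = 1 := by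
  obtain ⟨π, -, hπ⟩ := H27.exists_ord_eq_one w
  exact ⟨π, by rw [ord_beta_eq_of_above N ℓ hN v hv w hvw, hπ]⟩

/-- the same in the `S29.H87` spelling (`inclHom`). -/
theorem ord_inclHom_eq_of_above (hN : NoEll N) (v : Place Qbar (FN (N * ℓ)))
    (hv : 0 ≤ v.ord (jBar (N * ℓ))) (w : Place Qbar (FN N))
    (hvw : ∀ x : FN N, x ∈ w.toValuationSubring ↔
      H87.inclHom Qbar N (N * ℓ) (dvd_mul_right N ℓ) x ∈ v.toValuationSubring) (t : FN N) :
    v.ord (H87.inclHom Qbar N (N * ℓ) (dvd_mul_right N ℓ) t) = w.ord t := by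
  rw [← H87.heckeAlphaBar_eq_inclHom] at hvw ⊢
  exact ord_alpha_eq_of_above N ℓ hN v hv w hvw t

/-- the same in the `S29.H87` spelling (`expHom`). -/
theorem ord_expHom_eq_of_above (hN : NoEll N) (v : Place Qbar (FN (N * ℓ)))
    (hv : 0 ≤ v.ord (jBar (N * ℓ))) (w : Place Qbar (FN N))
    (hvw : ∀ x : FN N, x ∈ w.toValuationSubring ↔
      H87.expHom Qbar ℓ N (N * ℓ) dvd_rfl x ∈ v.toValuationSubring) (t : FN N) :
    v.ord (H87.expHom Qbar ℓ N (N * ℓ) dvd_rfl t) = w.ord t := by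
  rw [← H87.heckeBetaBar_eq_expHom] at hvw ⊢
  exact ord_beta_eq_of_above N ℓ hN v hv w hvw t

end Fermat.Agent.S36.H63
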