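import Fermat.Agent.S36.H63_DegeneracyUnram
import Fermat.Agent.S37.H8_HeckeInputs

/-!
# S36 / (M2-unr) = (Der-5), consumer forms (helper63)

The statements of `H63_DegeneracyUnram` without a named place below `v`, in the prelude vocabulary
(`Place.restrictAlong`, `Place.ramificationIndexAlong`): for `NoEll N` (e.g. a prime
`r ≡ 11 (mod 12)` divides `N`), any `ℓ ≥ 1` and every place `v` of `FN (N ℓ) / Qbar` with
`0 ≤ v.ord j`:

* `exists_unif_alpha`, `exists_unif_beta` : `∃ t : FN N, v.ord (φ t) = 1`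
  (`φ = heckeAlphaBar Qbar N ℓ`, `heckeBetaBar Qbar N ℓ`) — coordinator's consumer shape (a), (b);
* `ramificationIndexAlong_alpha_eq_one`, `ramificationIndexAlong_beta_eq_one`;
* `ord_alpha_eq_restrictAlong`, `ord_beta_eq_restrictAlong` : `v.ord (φ t) = (v|_φ).ord t`.
-/

set_option autoImplicit false
noncomputable section
namespace Fermat.Agent.S36.H63
open ModularCurve AlgebraicCurve
open Fermat.Agent.S24

section Generic

variable {K F F' : Type*} [Field K] [Field F] [Field F'] [Algebra K F] [Algebra K F']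

theorem mem_restrictAlong_iff (φ : F →ₐ[K] F') (hφ : φ.toRingHom.IsIntegral) (v : Place K F')
    (x : F) : x ∈ (v.restrictAlong φ hφ).toValuationSubring ↔ φ x ∈ v.toValuationSubring :=
  Iff.rfl

theorem ramificationIndexAlong_eq_one_of_ord_eq (φ : F →ₐ[K] F') (hφ : φ.toRingHom.IsIntegral)
    (v : Place K F') (h : ∀ t : F, v.ord (φ t) = (v.restrictAlong φ hφ).ord t) :
    Place.ramificationIndexAlong φ v = 1 := by
  obtain ⟨π, -, hπ⟩ := H27.exists_ord_eq_one (v.restrictAlong φ hφ)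
  have h1 := Place.ord_restrictAlong φ hφ v π
  rw [h π, hπ, mul_one] at h1
  exact_mod_cast h1.symm

end Generic

variable (N : ℕ) [NeZero N] (ℓ : ℕ) [NeZero ℓ]

theorem ord_alpha_eq_restrictAlong (hN : NoEll N) (v : Place Qbar (FN (N * ℓ)))
    (hv : 0 ≤ v.ord (jBar (N * ℓ))) (t : FN N) :
    v.ord (heckeAlphaBar Qbar N ℓ t) =
      (v.restrictAlong (heckeAlphaBar Qbar N ℓ) (S37.H8.heckeAlphaBarIntegral N ℓ)).ord t :=
  ord_alpha_eq_of_above N ℓ hN v hv _ (fun x => mem_restrictAlong_iff _ _ v x) t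

theorem ord_beta_eq_restrictAlong (hN : NoEll N) (v : Place Qbar (FN (N * ℓ)))
    (hv : 0 ≤ v.ord (jBar (N * ℓ))) (t : FN N) :
    v.ord (heckeBetaBar Qbar N ℓ t) =
      (v.restrictAlong (heckeBetaBar Qbar N ℓ) (S37.H8.heckeBetaBarIntegral N ℓ)).ord t :=
  ord_beta_eq_of_above N ℓ hN v hv _ (fun x => mem_restrictAlong_iff _ _ v x) t

/-- **(Der-5)(a)**: a uniformiser of level `N` stays a uniformiser at every non-cuspidal place of
level `N ℓ`, along the inclusion. -/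
theorem exists_unif_alpha (hN : NoEll N) (v : Place Qbar (FN (N * ℓ)))
    (hv : 0 ≤ v.ord (jBar (N * ℓ))) :
    ∃ t : FN N, v.ord (heckeAlphaBar Qbar N ℓ t) = 1 :=
  exists_unif_alpha_of_above N ℓ hN v hv
    (v.restrictAlong (heckeAlphaBar Qbar N ℓ) (S37.H8.heckeAlphaBarIntegral N ℓ))
    (fun x => mem_restrictAlong_iff _ (S37.H8.heckeAlphaBarIntegral N ℓ) v x)

/-- **(Der-5)(b)**: the same along `f(q) ↦ f(q^ℓ)`. -/
theorem exists_unif_beta (hN : NoEll N) (v : Place Qbar (FN (N * ℓ)))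
    (hv : 0 ≤ v.ord (jBar (N * ℓ))) :
    ∃ t : FN N, v.ord (heckeBetaBar Qbar N ℓ t) = 1 :=
  exists_unif_beta_of_above N ℓ hN v hv
    (v.restrictAlong (heckeBetaBar Qbar N ℓ) (S37.H8.heckeBetaBarIntegral N ℓ))
    (fun x => mem_restrictAlong_iff _ (S37.H8.heckeBetaBarIntegral N ℓ) v x)

theorem ramificationIndexAlong_alpha_eq_one (hN : NoEll N) (v : Place Qbar (FN (N * ℓ)))
    (hv : 0 ≤ v.ord (jBar (N * ℓ))) :
    Place.ramificationIndexAlong (heckeAlphaBar Qbar N ℓ) v = 1 :=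
  ramificationIndexAlong_eq_one_of_ord_eq _ (S37.H8.heckeAlphaBarIntegral N ℓ) v
    (ord_alpha_eq_restrictAlong N ℓ hN v hv)

theorem ramificationIndexAlong_beta_eq_one (hN : NoEll N) (v : Place Qbar (FN (N * ℓ)))
    (hv : 0 ≤ v.ord (jBar (N * ℓ))) :
    Place.ramificationIndexAlong (heckeBetaBar Qbar N ℓ) v = 1 :=
  ramificationIndexAlong_eq_one_of_ord_eq _ (S37.H8.heckeBetaBarIntegral N ℓ) v
    (ord_beta_eq_restrictAlong N ℓ hN v hv)

/-- the instance used by `(M2)`: `r` prime, `r ≡ 11 (mod 12)`, `r ∣ L`; levels `L` and `L * q`. -/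
theorem exists_unif_alpha_of_prime_dvd {r : ℕ} (hr : r.Prime) (hr12 : r % 12 = 11)
    (hrN : r ∣ N) (v : Place Qbar (FN (N * ℓ))) (hv : 0 ≤ v.ord (jBar (N * ℓ))) :
    ∃ t : FN N, v.ord (heckeAlphaBar Qbar N ℓ t) = 1 :=
  exists_unif_alpha N ℓ (noEll_of_prime_dvd hr hr12 hrN) v hv

theorem exists_unif_beta_of_prime_dvd {r : ℕ} (hr : r.Prime) (hr12 : r % 12 = 11)
    (hrN : r ∣ N) (v : Place Qbar (FN (N * ℓ))) (hv : 0 ≤ v.ord (jBar (N * ℓ))) :
    ∃ t : FN N, v.ord (heckeBetaBar Qbar N ℓ t) = 1 :=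
  exists_unif_beta N ℓ (noEll_of_prime_dvd hr hr12 hrN) v hv

end Fermat.Agent.S36.H63
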