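/-
helper65: S36, row (M4) — adapters around `H65_MiddleKronecker` / `H65_MiddleElliptic`.

* `hId_of_sixth_power` : the identity `T̄^6 G = (x̄²)^6 H` needed by `hE_middle_of_kronecker` /
  `exists_rigid_pair`, from helper17's sixth-power identity
  `Φ_X(w,v)^6 · w^4 (w-1728)^3 · U = q^6 · Φ_Y(w,v)^6 · v^4 (v-1728)^3` in the chart (the SAME
  hypothesis shape as `S36.H17.not_mem_of_crossing`: `hid`, `hPhiY`), pushed to level `q²`.
* `ThreeComponents.localGen_middle_two`, `locGen_middle_two` : for `q = 2` the middle component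
  has multiplicity one: `q` generates `P₂` at every point of `C₂` off `C₁`, `C₃`.
-/
import Mathlib
import Fermat.Agent.S36.H65_MiddleKronecker

set_option autoImplicit false
set_option linter.unusedSectionVars false
set_option linter.unusedVariables false

open Polynomial

namespace Fermat.Agent.S36.H65

section Sixth

variable {B D : Type*} [CommRing B] [IsDomain B] [CommRing D]

omit [IsDomain B] in
/-- bookkeeping step of `hId_of_sixth_power`, isolated. -/
theorem sixth_aux (Tb Y Ub xb Yq : D)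
    (h2 : Tb ^ 6 * (Y ^ 4 * (Y - 1728) ^ 3) * Ub =
      xb ^ 6 * ((-xb) ^ 6 * (Yq ^ 4 * (Yq - 1728) ^ 3))) :
    Tb ^ 6 * (Y ^ 4 * (Y - 1728) ^ 3 * Ub) = (xb ^ 2) ^ 6 * (Yq ^ 4 * (Yq - 1728) ^ 3) := by
  linear_combination h2

/-- From the sixth-power identity in the chart to the identity in `D` in the shape of
`hE_middle_of_kronecker` (`m = 6`, `G = Y^4 (Y-1728)^3 Ū`, `H = (Y^q)^4 (Y^q-1728)^3`). -/
theorem hId_of_sixth_power (red : B →+* D) {q : ℕ} (hq2 : 2 ≤ q) (hqB : (q : B) ≠ 0)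
    (hqD : (q : D) = 0) {v w PhiY U : B} {Y : D} (hw : red w = Y) (hv : red v = Y ^ q)
    {p Rv : B[X]} (hK : p = (X ^ q - C v) * (X - C (v ^ q)) + C (q : B) * Rv)
    (hpw : p.eval w = 0) (hPhiY : red PhiY = -red (w - v ^ q))
    (hid : (derivative p).eval w ^ 6 * (w ^ 4 * (w - 1728) ^ 3) * U =
      (q : B) ^ 6 * (PhiY ^ 6 * (v ^ 4 * (v - 1728) ^ 3))) :
    (Y ^ (q - 1) * (Y - Y ^ (q * q)) ^ 2 - (Rv.map red).eval Y
        + (Y - Y ^ (q * q)) * (derivative (Rv.map red)).eval Y) ^ 6 *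
        (Y ^ 4 * (Y - 1728) ^ 3 * red U) =
      ((Y - Y ^ (q * q)) ^ 2) ^ 6 * ((Y ^ q) ^ 4 * (Y ^ q - 1728) ^ 3) := by
  obtain ⟨m, rfl⟩ : ∃ m, q = m + 1 := ⟨q - 1, by omega⟩
  simp only [Nat.add_sub_cancel]
  set x : B := w - v ^ (m + 1) with hx
  set y' : B := w ^ (m + 1) - v with hy'
  have hw0 : y' * x + ((m + 1 : ℕ) : B) * Rv.eval w = 0 := by
    have := hpw
    rw [hK] at this
    simpa using this
  -- `Φ_X(w,v) = q w^m x + y' + q R'(w)`
  have hPhiX : (derivative p).eval w =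
      ((m + 1 : ℕ) : B) * w ^ m * x + y' + ((m + 1 : ℕ) : B) * (derivative Rv).eval w := by
    rw [hK]
    simp only [derivative_add, derivative_mul, derivative_sub, derivative_X_pow, derivative_C,
      derivative_X, sub_zero, eval_add, eval_mul, eval_sub, eval_pow, eval_X, eval_C,
      Nat.add_sub_cancel, Nat.cast_add, Nat.cast_one, mul_one, zero_mul, zero_add]
    rw [hx, hy']
  set Tt : B := w ^ m * x ^ 2 - Rv.eval w + x * (derivative Rv).eval w with hTt
  have hxPhi : x * (derivative p).eval w = ((m + 1 : ℕ) : B) * Tt := by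
    rw [hPhiX, hTt]
    linear_combination hw0
  have h1 : ((m + 1 : ℕ) : B) ^ 6 * (Tt ^ 6 * (w ^ 4 * (w - 1728) ^ 3) * U) =
      ((m + 1 : ℕ) : B) ^ 6 * (x ^ 6 * (PhiY ^ 6 * (v ^ 4 * (v - 1728) ^ 3))) := by
    have : (x * (derivative p).eval w) ^ 6 * (w ^ 4 * (w - 1728) ^ 3) * U =
        x ^ 6 * (((m + 1 : ℕ) : B) ^ 6 * (PhiY ^ 6 * (v ^ 4 * (v - 1728) ^ 3))) := by
      rw [← hid]; ring
    rw [hxPhi] at this
    linear_combination this
  have h2 := congrArg red (mul_left_cancel₀ (pow_ne_zero 6 hqB) h1)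
  have hrx : red x = Y - Y ^ ((m + 1) * (m + 1)) := by
    rw [hx, map_sub, map_pow, hv, hw, ← pow_mul]
  have hrT : red Tt = Y ^ m * (Y - Y ^ ((m + 1) * (m + 1))) ^ 2 - (Rv.map red).eval Y
      + (Y - Y ^ ((m + 1) * (m + 1))) * (derivative (Rv.map red)).eval Y := by
    rw [hTt, map_add, map_sub, map_mul, map_mul, map_pow, map_pow, hrx, hw, derivative_map,
      ← hw, Polynomial.eval_map_apply, Polynomial.eval_map_apply]
  have h1728 : red (1728 : B) = 1728 := map_ofNat red 1728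
  rw [← hrT, ← hrx]
  simp only [map_mul, map_pow, map_sub, hPhiY, hw, hv, h1728] at h2
  exact sixth_aux _ _ _ _ _ h2

end Sixth

section Two

open Fermat.Agent.S36.H83

variable {B D BM : Type*} [CommRing B] [CommRing D] [IsDedekindDomain D] [CommRing BM]
  {red₁ red₂ red₃ : B →+* D} {ιu ιv ιw : BM →+* B} {rbar : BM →+* D} {W : D →+* D} {qB : B}

/-- **`q = 2`**: the middle component has multiplicity `q - 1 = 1`, so `q` generates `P₂` at every
point lying neither on `C₁` nor on `C₃`. -/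
theorem localGen_middle_two (h : ThreeComponents red₁ red₂ red₃ ιu ιv ιw rbar W 2 qB)
    (n : Ideal B) (hn : n.IsMaximal)
    (h1 : ∃ s : B, red₁ s = 0 ∧ s ∉ n) (h3 : ∃ s : B, red₃ s = 0 ∧ s ∉ n) :
    ∀ z ∈ RingHom.ker red₂, ∃ t : B, t ∉ n ∧ t * z ∈ Ideal.span {qB} := by
  intro z hz
  have := h.localDvd_middle n hn h1 h3 z (by simpa using hz)
  exact this

/-- **`q = 2`, points on `C₂` only: `n B_n = (q, τ)`.** -/
theorem locGen_middle_two (h : ThreeComponents red₁ red₂ red₃ ιu ιv ιw rbar W 2 qB)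
    (hD : ¬ IsField D) (n : Ideal B) (hn : n.IsMaximal) (hqn : qB ∈ n)
    (h1 : ∃ s : B, red₁ s = 0 ∧ s ∉ n) (h3 : ∃ s : B, red₃ s = 0 ∧ s ∉ n) :
    ∃ τ ∈ n, ∀ z ∈ n, ∃ t : B, t ∉ n ∧ t * z ∈ Ideal.span {qB, τ} :=
  exists_locGen_of_localGen h.hred₂ hD n hn (h.ker_le_middle n hn hqn h1 h3)
    (localGen_middle_two h n hn h1 h3)

end Two

end Fermat.Agent.S36.H65
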