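/-
helper65: S36, row (M4) — the middle component `C₂` at level `q² L`, ELLIPTIC half: the points
of `C₂` (off `C₁`, `C₃`) at which the `j`-type function `ψ` takes the value `0` or `1728`, where
`θ_ψ = ιu ψ - ιw ψ` has a horizontal zero and one has to use `θ_s` for a local parameter `s`
of level `L`.  Pure commutative algebra on top of `H83.ThreeComponents`:

* `exists_mul_mem_of_le_sup_smul` : Nakayama in multiplier form (`J ≤ I ⊔ n J`, `J` f.g.
  `⟹ ∃ r ∉ n, r J ⊆ I`).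
* `theta_mul`, `theta_pow` : Leibniz rules for `θ_ψ := ιu ψ - ιw ψ`.
* `exists_mul_theta_mem` : **every `θ_φ` lies in `(q, θ_s)` locally at `n`** as soon as the
  level-`L` point `b` under `n` has `b = (q, s)` locally and residue field generated by constants.
* `red_pow_identity` : from `λ θ_ψ = β θ_s + α q` the residues of `θ_ψ^(q-1)/q`, `θ_s^(q-1)/q`
  differ by `(β̄ / λ̄)^(q-1)`  (`q ≥ 3`).
* `not_mem_of_monomial` : the order bookkeeping in `D`, multiplier form, no valuations.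
* `hE_middle_elliptic` : the hypothesis `hE` of `H83.ThreeComponents.locGen_middle` for `θ_s`.
-/
import Mathlib
import Fermat.Agent.S36.H65_MiddleKronecker

set_option autoImplicit false

namespace Fermat.Agent.S36.H65

section Nakayama

variable {B : Type*} [CommRing B]

/-- Nakayama's lemma, multiplier form: `I ≤ J`, `J` finitely generated, `J ≤ I ⊔ n J` with `n`
a proper ideal: some `r ∉ n` (indeed `r ≡ 1` modulo `n`) multiplies `J` into `I`. -/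
theorem exists_mul_mem_of_le_sup_smul {n I J : Ideal B} (hn : n ≠ ⊤) (hJ : J.FG)
    (hle : J ≤ I ⊔ n * J) : ∃ r : B, r ∉ n ∧ ∀ z ∈ J, r * z ∈ I := by
  set N : Submodule B (B ⧸ I) := Submodule.map (Submodule.mkQ I) J with hN
  have hNfg : N.FG := Submodule.FG.map (Submodule.mkQ I) hJ
  have hNle : N ≤ n • N := by
    rw [hN, ← Submodule.map_smul'']
    intro y hy
    obtain ⟨z, hz, rfl⟩ := hy
    obtain ⟨i, hi, w, hw, rfl⟩ := Submodule.mem_sup.1 (hle hz)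
    refine ⟨w, by rwa [Ideal.smul_eq_mul], ?_⟩
    rw [map_add]
    have : Submodule.mkQ I i = 0 := by
      rw [Submodule.mkQ_apply, Submodule.Quotient.mk_eq_zero]; exact hi
    rw [this, zero_add]
  obtain ⟨r, hr1, hr⟩ :=
    Submodule.exists_sub_one_mem_and_smul_eq_zero_of_fg_of_le_smul n N hNfg hNle
  refine ⟨r, fun hrn => hn ((Ideal.eq_top_iff_one n).2 ?_), fun z hz => ?_⟩
  · have : (1 : B) = r - (r - 1) := by ring
    rw [this]; exact sub_mem hrn hr1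
  · have h1 := hr (Submodule.mkQ I z) ⟨z, hz, rfl⟩
    rw [← map_smul, Submodule.mkQ_apply, Submodule.Quotient.mk_eq_zero, smul_eq_mul] at h1
    exact h1

end Nakayama


section Leibniz

variable {B BM : Type*} [CommRing B] [CommRing BM] (ιu ιw : BM →+* B)

/-- Leibniz rule for `θ_ψ = ιu ψ - ιw ψ`. -/
theorem theta_mul (f g : BM) :
    ιu (f * g) - ιw (f * g) = ιu f * (ιu g - ιw g) + ιw g * (ιu f - ιw f) := by
  rw [map_mul, map_mul]; ring

/-- `θ_(s^e) = θ_s · ∑_{i<e} (ιu s)^i (ιw s)^(e-1-i)`. -/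
theorem theta_pow (s : BM) (e : ℕ) :
    ιu (s ^ e) - ιw (s ^ e) =
      (∑ i ∈ Finset.range e, ιu s ^ i * ιw s ^ (e - 1 - i)) * (ιu s - ιw s) := by
  rw [map_pow, map_pow, (Commute.all (ιu s) (ιw s)).geom_sum₂_mul]

/-- the reduction of the geometric sum is `e s̄^(e-1)`. -/
theorem red_geom_sum {D : Type*} [CommRing D] (red : B →+* D) {x y : B} {sb : D}
    (hx : red x = sb) (hy : red y = sb) (e : ℕ) :
    red (∑ i ∈ Finset.range e, x ^ i * y ^ (e - 1 - i)) = (e : D) * sb ^ (e - 1) := by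
  rw [map_sum]
  have : ∀ i ∈ Finset.range e, red (x ^ i * y ^ (e - 1 - i)) = sb ^ (e - 1) := by
    intro i hi
    have hi' : i < e := Finset.mem_range.1 hi
    rw [map_mul, map_pow, map_pow, hx, hy, ← pow_add]
    congr 1; omega
  rw [Finset.sum_congr rfl this, Finset.sum_const, Finset.card_range, nsmul_eq_mul]

end Leibniz

section Step1

variable {B BM : Type*} [CommRing B] [CommRing BM] (ιu ιw : BM →+* B)

/-- **Every `θ_φ` lies in `(q, θ_s)` locally at `n`.**  `b := ιw⁻¹ n` has `b = (q, s)` locally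
(`hreg`) and residue field generated by constants (`hconst`). -/
theorem exists_mul_theta_mem [IsNoetherianRing B] (n : Ideal B) (hn : n.IsMaximal)
    (hθn : ∀ φ : BM, ιu φ - ιw φ ∈ n) {qM s : BM} (hqq : ιu qM = ιw qM) (hs : ιw s ∈ n)
    (hconst : ∀ ψ : BM, ∃ c : BM, ιu c = ιw c ∧ ιw (ψ - c) ∈ n)
    (hreg : ∀ ψ : BM, ιw ψ ∈ n → ∃ a ψ₁ ψ₂ : BM, ιw a ∉ n ∧ a * ψ = s * ψ₁ + qM * ψ₂) :
    ∃ r : B, r ∉ n ∧ ∀ φ : BM, r * (ιu φ - ιw φ) ∈ Ideal.span {ιw qM, ιu s - ιw s} := by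
  set I : Ideal B := Ideal.span {ιw qM, ιu s - ιw s} with hI
  set J : Ideal B := I ⊔ Ideal.span (Set.range fun φ : BM => ιu φ - ιw φ) with hJ
  have hθJ : ∀ φ : BM, ιu φ - ιw φ ∈ J := fun φ =>
    Ideal.mem_sup_right (Ideal.subset_span ⟨φ, rfl⟩)
  have hqI : ιw qM ∈ I := Ideal.subset_span (by simp)
  have hsI : ιu s - ιw s ∈ I := Ideal.subset_span (by simp)
  have hJfg : J.FG := IsNoetherian.noetherian J
  have hsu : ιu s ∈ n := by
    have : ιu s = (ιu s - ιw s) + ιw s := by ring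
    rw [this]; exact add_mem (hθn s) hs
  have hle : J ≤ I ⊔ n * J := by
    refine sup_le le_sup_left (Ideal.span_le.2 ?_)
    rintro _ ⟨φ, rfl⟩
    obtain ⟨c, hc, hcn⟩ := hconst φ
    set ψ := φ - c with hψ
    have hθψ : ιu φ - ιw φ = ιu ψ - ιw ψ := by
      rw [hψ, map_sub, map_sub, hc]; ring
    obtain ⟨a, ψ₁, ψ₂, han, hrel⟩ := hreg ψ hcn
    have hau : ιu a ∉ n := by
      intro h
      apply han
      have : ιw a = ιu a - (ιu a - ιw a) := by ring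
      rw [this]; exact sub_mem h (hθn a)
    -- `a_u θ_ψ ∈ I ⊔ n J`
    have key : ιu a * (ιu ψ - ιw ψ) ∈ I ⊔ n * J := by
      have e1 := theta_mul ιu ιw a ψ
      have e2 : ιu (a * ψ) - ιw (a * ψ) =
          (ιu s * (ιu ψ₁ - ιw ψ₁) + ιw ψ₁ * (ιu s - ιw s)) +
            (ιu qM * (ιu ψ₂ - ιw ψ₂) + ιw ψ₂ * (ιu qM - ιw qM)) := by
        rw [hrel, map_add, map_add, ← theta_mul, ← theta_mul]; ring
      have e3 : ιu a * (ιu ψ - ιw ψ) =
          (ιw ψ₁ * (ιu s - ιw s) + ιw qM * (ιu ψ₂ - ιw ψ₂)) +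
            (ιu s * (ιu ψ₁ - ιw ψ₁) + (-(ιw ψ)) * (ιu a - ιw a)) := by
        have := e1.symm.trans e2
        rw [hqq, sub_self, mul_zero, add_zero] at this
        linear_combination this
      rw [e3]
      refine Submodule.add_mem_sup (add_mem (Ideal.mul_mem_left _ _ hsI)
        (Ideal.mul_mem_right _ _ hqI)) (add_mem ?_ ?_)
      · exact Ideal.mul_mem_mul hsu (hθJ ψ₁)
      · exact Ideal.mul_mem_mul (neg_mem hcn) (hθJ a)
    obtain ⟨y, i, hi, hyi⟩ := hn.exists_inv hau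
    have e4 : ιu φ - ιw φ = y * (ιu a * (ιu ψ - ιw ψ)) + i * (ιu ψ - ιw ψ) := by
      rw [hθψ]; linear_combination (-(ιu ψ - ιw ψ)) * hyi
    show ιu φ - ιw φ ∈ I ⊔ n * J
    rw [e4]
    exact add_mem (Ideal.mul_mem_left _ _ key)
      (Ideal.mem_sup_right (Ideal.mul_mem_mul hi (hθJ ψ)))
  obtain ⟨r, hrn, hr⟩ := exists_mul_mem_of_le_sup_smul hn.ne_top hJfg hle
  exact ⟨r, hrn, fun φ => hr _ (hθJ φ)⟩

end Step1


section Step3

variable {B D : Type*} [CommRing B] [IsDomain B] [CommRing D]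

/-- From `λ θ_j = β θ_s + α q` (and `q ≥ 3`): the residues of `θ_j^(q-1)/q` and `θ_s^(q-1)/q`
differ by `(β̄ / λ̄)^(q-1)`. -/
theorem red_pow_identity (red : B →+* D) {q : ℕ} (hq3 : 3 ≤ q)
    {qB θj θs lam β α tj cj ts cs : B} (hq0 : qB ≠ 0) (hrq : red qB = 0) (hrs : red θs = 0)
    (hrel : lam * θj = β * θs + α * qB) (hj : tj * θj ^ (q - 1) = cj * qB)
    (hs : ts * θs ^ (q - 1) = cs * qB) :
    red ts * red lam ^ (q - 1) * red cj = red tj * red β ^ (q - 1) * red cs := by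
  set x : B := β * θs + α * qB with hx
  set y : B := β * θs with hy
  set Z : B := ∑ i ∈ Finset.range (q - 1), x ^ i * y ^ (q - 1 - 1 - i) with hZ
  have hgeom : Z * (x - y) = x ^ (q - 1) - y ^ (q - 1) :=
    (Commute.all x y).geom_sum₂_mul (q - 1)
  have hxy : x - y = α * qB := by rw [hx, hy]; ring
  have hrx : red x = 0 := by rw [hx, map_add, map_mul, map_mul, hrs, hrq, mul_zero, mul_zero,
    add_zero]
  have hry : red y = 0 := by rw [hy, map_mul, hrs, mul_zero]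
  have hrZ : red Z = 0 := by
    rw [hZ, map_sum]
    refine Finset.sum_eq_zero fun i hi => ?_
    have hi' : i < q - 1 := Finset.mem_range.1 hi
    rw [map_mul, map_pow, map_pow, hrx, hry]
    rcases Nat.eq_zero_or_pos i with h0 | h0
    · have : q - 1 - 1 - i ≠ 0 := by omega
      rw [zero_pow this, mul_zero]
    · rw [zero_pow (by omega), zero_mul]
  have h1 : ts * lam ^ (q - 1) * cj * qB = ts * tj * x ^ (q - 1) := by
    have : x = lam * θj := hrel.symm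
    rw [this, mul_pow]
    linear_combination (ts * lam ^ (q - 1)) * (-hj)
  have h2 : tj * β ^ (q - 1) * cs * qB = ts * tj * y ^ (q - 1) := by
    rw [hy, mul_pow]
    linear_combination (tj * β ^ (q - 1)) * (-hs)
  have h3 : qB * (ts * lam ^ (q - 1) * cj) = qB * (tj * β ^ (q - 1) * cs + ts * tj * Z * α) := by
    have e : x ^ (q - 1) = y ^ (q - 1) + Z * (α * qB) := by rw [← hxy, hgeom]; ring
    rw [e] at h1
    linear_combination h1 - h2
  have h4 := congrArg red (mul_left_cancel₀ hq0 h3)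
  simp only [map_add, map_mul, map_pow, hrZ, mul_zero, zero_mul, add_zero] at h4
  exact h4

end Step3

section Step4

variable {D : Type*} [CommRing D] [IsDomain D]

/-- **Order bookkeeping without valuations.**  `(I)` compares the residues of `θ_j^(q-1)/q` and
`θ_s^(q-1)/q`; `(II)` is the rigid identity; `Z = Y - c₀ = (ε̄/ā) s̄^e`, `H = Z^(EG+K) H'`,
`G = Z^EG G'` and `e K = (q-1) m (e-1)` (for `j`: `m = 6`, `(e, EG, K) = (3, 4, 4(q-1))` at `0`,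
`(2, 3, 3(q-1))` at `1728`).  Then `c̄s` is a unit at `nbar`. -/
theorem not_mem_of_monomial (nbar : Ideal D) [hp : nbar.IsPrime] {q m e EG K : ℕ} (hm0 : m ≠ 0)
    (he : e ≠ 0)
    (hexp : e * K = (q - 1) * m * (e - 1))
    {tsb lamb cjb tjb βb csb G H G' H' Z ab εb sb γ : D}
    (hI : tsb * lamb ^ (q - 1) * cjb = tjb * βb ^ (q - 1) * csb)
    (hII : cjb ^ m * G = tjb ^ m * H)
    (hβ : ab * βb = sb ^ (e - 1) * γ) (hH : H = Z ^ (EG + K) * H') (hG : G = Z ^ EG * G')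
    (hZ : ab * Z = εb * sb ^ e) (hZ0 : Z ≠ 0) (htj : tjb ≠ 0)
    (hts : tsb ∉ nbar) (hlam : lamb ∉ nbar) (hab : ab ∉ nbar) (hε : εb ∉ nbar)
    (hH' : H' ∉ nbar) : csb ∉ nbar := by
  intro hcs
  have hab0 : ab ≠ 0 := fun h => hab (h ▸ nbar.zero_mem)
  have hs0 : sb ≠ 0 := by
    intro h
    rw [h, zero_pow he, mul_zero] at hZ
    rcases mul_eq_zero.1 hZ with h' | h'
    · exact hab0 h'
    · exact hZ0 h'
  -- `(ts λ^(q-1))^m H = β^((q-1) m) cs^m G`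
  have h1 : (tsb * lamb ^ (q - 1)) ^ m * H = βb ^ ((q - 1) * m) * csb ^ m * G := by
    have e1 : (tsb * lamb ^ (q - 1)) ^ m * (tjb ^ m * H) =
        tjb ^ m * (βb ^ ((q - 1) * m) * csb ^ m * G) := by
      rw [← hII, pow_mul]
      have := congrArg (· ^ m) hI
      simp only [mul_pow] at this
      linear_combination G * this
    have e2 : tjb ^ m * ((tsb * lamb ^ (q - 1)) ^ m * H) =
        tjb ^ m * (βb ^ ((q - 1) * m) * csb ^ m * G) := by rw [← e1]; ring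
    exact mul_left_cancel₀ (pow_ne_zero _ htj) e2
  have h2 : ab ^ ((q - 1) * m) * (tsb * lamb ^ (q - 1)) ^ m * εb ^ K * H' =
      ab ^ K * γ ^ ((q - 1) * m) * csb ^ m * G' := by
    have e3 : (Z ^ EG * sb ^ (e * K)) *
          (ab ^ ((q - 1) * m) * (tsb * lamb ^ (q - 1)) ^ m * εb ^ K * H') =
        (Z ^ EG * sb ^ (e * K)) * (ab ^ K * γ ^ ((q - 1) * m) * csb ^ m * G') := by
      have hZK : ab ^ K * Z ^ K = εb ^ K * sb ^ (e * K) := by
        rw [← mul_pow, hZ, mul_pow, ← pow_mul]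
      have hβP : ab ^ ((q - 1) * m) * βb ^ ((q - 1) * m) =
          sb ^ (e * K) * γ ^ ((q - 1) * m) := by
        rw [← mul_pow, hβ, mul_pow, ← pow_mul, hexp]
        congr 2; ring
      rw [hH, hG] at h1
      have h1' : (tsb * lamb ^ (q - 1)) ^ m * (Z ^ EG * Z ^ K * H') =
          βb ^ ((q - 1) * m) * csb ^ m * (Z ^ EG * G') := by rw [← pow_add]; exact h1
      linear_combination (ab ^ ((q - 1) * m) * ab ^ K) * h1' +
        ((tsb * lamb ^ (q - 1)) ^ m * Z ^ EG * H' * ab ^ ((q - 1) * m)) * (-hZK) +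
        (csb ^ m * Z ^ EG * G' * ab ^ K) * hβP
    exact mul_left_cancel₀ (mul_ne_zero (pow_ne_zero _ hZ0) (pow_ne_zero _ hs0)) e3
  have h3 : ab ^ ((q - 1) * m) * (tsb * lamb ^ (q - 1)) ^ m * εb ^ K * H' ∈ nbar := by
    rw [h2]
    exact Ideal.mul_mem_right _ _ (Ideal.mul_mem_left _ _
      (Ideal.pow_mem_of_mem _ hcs _ (Nat.pos_of_ne_zero hm0)))
  have hnm : ∀ {a b : D}, a ∉ nbar → b ∉ nbar → a * b ∉ nbar := fun ha hb hab' =>
    (hp.mem_or_mem hab').elim ha hb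
  have hpw : ∀ {a : D} (k : ℕ), a ∉ nbar → a ^ k ∉ nbar := fun k ha hk =>
    ha (hp.mem_of_pow_mem _ hk)
  exact hnm (hnm (hnm (hpw _ hab) (hpw _ (hnm hts (hpw _ hlam)))) (hpw _ hε)) hH' h3

end Step4


section Assembly

open Fermat.Agent.S36.H83 Polynomial

variable {B D BM : Type*} [CommRing B] [IsDomain B] [CommRing D] [IsDedekindDomain D]
  [CommRing BM] {red₁ red₂ red₃ : B →+* D} {ιu ιv ιw : BM →+* B} {rbar : BM →+* D} {W : D →+* D}
  {q : ℕ} {qB : B}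

omit [IsDomain B] [IsDedekindDomain D] in
/-- `z ∉ n ⟹ red z ∉ map red n` for `red` onto with kernel inside `n`. -/
theorem not_mem_map_of_not_mem {red : B →+* D} (hred : Function.Surjective red) {n : Ideal B}
    (hker : RingHom.ker red ≤ n) {z : B} (hz : z ∉ n) : red z ∉ Ideal.map red n := by
  intro h
  obtain ⟨z', hz'n, hz'⟩ := (Ideal.mem_map_iff_of_surjective red hred).1 h
  have : z - z' ∈ n := hker (by rw [RingHom.mem_ker, map_sub, hz', sub_self])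
  have e : z = (z - z') + z' := by ring
  rw [e] at hz
  exact hz (add_mem this hz'n)

/-- **The rigid pair**: `t ∉ n`, `t θ_ψ^(q-1) = c q` and `c̄^m G = t̄^m H`, from the Kronecker shape
and the identity `T̄^m G = (x̄²)^m H`. -/
theorem exists_rigid_pair
    (h : ThreeComponents red₁ red₂ red₃ ιu ιv ιw rbar W q qB) (hq : q.Prime)
    (hqB : qB = (q : B)) (hq0 : (q : B) ≠ 0) (hqD : (q : D) = 0)
    (n : Ideal B) (hn : n.IsMaximal)
    (h1 : ∃ s : B, red₁ s = 0 ∧ s ∉ n) (h3 : ∃ s : B, red₃ s = 0 ∧ s ∉ n)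
    (ψ : BM) (hW : W (rbar ψ) = rbar ψ ^ q) (hne : ιu ψ ≠ ιw ψ)
    {p Rv : B[X]} (hK : p = (X ^ q - C (ιv ψ)) * (X - C (ιv ψ ^ q)) + C (q : B) * Rv)
    (hpu : p.eval (ιu ψ) = 0) (hpw : p.eval (ιw ψ) = 0)
    (hx : rbar ψ - rbar ψ ^ (q * q) ≠ 0) {G H : D} {m : ℕ} (hm : Even m)
    (hId : (rbar ψ ^ (q - 1) * (rbar ψ - rbar ψ ^ (q * q)) ^ 2 - (Rv.map red₂).eval (rbar ψ)
        + (rbar ψ - rbar ψ ^ (q * q)) * (derivative (Rv.map red₂)).eval (rbar ψ)) ^ m * G =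
      ((rbar ψ - rbar ψ ^ (q * q)) ^ 2) ^ m * H) :
    ∃ t c : B, t ∉ n ∧ t * (ιu ψ - ιw ψ) ^ (q - 1) = c * qB ∧
      red₂ c ^ m * G = red₂ t ^ m * H := by
  have hmem : (ιu ψ - ιw ψ) ^ (q - 1) ∈ RingHom.ker red₂ ^ (q - 1) :=
    Ideal.pow_mem_pow ((RingHom.mem_ker).2 (h.red₂_sub ψ)) _
  obtain ⟨t, htn, ht⟩ := h.localDvd_middle n hn h1 h3 _ hmem
  obtain ⟨c, hc⟩ := Ideal.mem_span_singleton'.1 ht
  refine ⟨t, c, htn, hc.symm, ?_⟩
  have hct : t * (ιu ψ - ιw ψ) ^ (q - 1) = c * (q : B) := by rw [← hqB, hc]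
  have hid := red_mul_sq_eq red₂ hq hq0 hqD (h.h2u ψ) (h.h2w ψ) (by rw [h.h2v, hW]) hne hK
    hpu hpw hct
  set xb : D := rbar ψ - rbar ψ ^ (q * q) with hxb
  set Tb : D := rbar ψ ^ (q - 1) * xb ^ 2 - (Rv.map red₂).eval (rbar ψ)
        + xb * (derivative (Rv.map red₂)).eval (rbar ψ) with hTb
  have h2 : red₂ c ^ m * (xb ^ 2) ^ m = red₂ t ^ m * Tb ^ m := by
    rw [← mul_pow, hid, hm.neg_pow, mul_pow]
  have h3' : (xb ^ 2) ^ m * (red₂ c ^ m * G) = (xb ^ 2) ^ m * (red₂ t ^ m * H) := by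
    linear_combination G * h2 + (red₂ t ^ m) * hId
  exact mul_left_cancel₀ (pow_ne_zero _ (pow_ne_zero _ hx)) h3'

/-- **(M4), elliptic half: the hypothesis `hE` of `H83.ThreeComponents.locGen_middle` for
`θ_s' = ιu s' - ιw s'`**, `s'` a local parameter of level `L` at the point `b` under `n`
(`hreg`: `b = (q, s')` locally; `hconst`: residue field generated by constants), at a point where
the `j`-type function `ψ` satisfies `a (ψ - c₀) = ε s^e` with `a, ε` units at `b`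
(`e = 3` over `0`, `e = 2` over `1728`), given the rigid pair `(tj, cj)` of `ψ`. -/
theorem hE_middle_elliptic [IsNoetherianRing B]
    (h : ThreeComponents red₁ red₂ red₃ ιu ιv ιw rbar W q qB) (hq3 : 3 ≤ q)
    (hqB0 : qB ≠ 0) (hrq : red₂ qB = 0) (n : Ideal B) (hn : n.IsMaximal)
    (h1 : ∃ s : B, red₁ s = 0 ∧ s ∉ n) (h3 : ∃ s : B, red₃ s = 0 ∧ s ∉ n)
    (hker : RingHom.ker red₂ ≤ n)
    {qM s' : BM} (hqu : ιu qM = qB) (hqw : ιw qM = qB) (hs' : ιw s' ∈ n)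
    (hconst : ∀ ψ : BM, ∃ c : BM, ιu c = ιw c ∧ ιw (ψ - c) ∈ n)
    (hreg : ∀ ψ : BM, ιw ψ ∈ n → ∃ a ψ₁ ψ₂ : BM, ιw a ∉ n ∧ a * ψ = s' * ψ₁ + qM * ψ₂)
    (ψ : BM) {tj cj : B} (htj : tj ∉ n) (hj : tj * (ιu ψ - ιw ψ) ^ (q - 1) = cj * qB)
    {G H : D} {m : ℕ} (hm0 : m ≠ 0) (hII : red₂ cj ^ m * G = red₂ tj ^ m * H)
    {a ε s c₀ : BM} {e EG K : ℕ} (he : e ≠ 0) (hc₀ : ιu c₀ = ιw c₀) (ha : ιw a ∉ n)
    (hε : ιw ε ∉ n) (hell : a * (ψ - c₀) = ε * s ^ e)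
    (hexp : e * K = (q - 1) * m * (e - 1)) {G' H' : D}
    (hH : H = rbar (ψ - c₀) ^ (EG + K) * H') (hG : G = rbar (ψ - c₀) ^ EG * G')
    (hH' : H' ∉ Ideal.map red₂ n) (hZ0 : rbar (ψ - c₀) ≠ 0) :
    ∃ e' t : B, e' ∉ n ∧ t ∉ n ∧ t * (ιu s' - ιw s') ^ (q - 1) = e' * qB := by
  have hnprime : n.IsPrime := hn.isPrime
  have hθn : ∀ φ : BM, ιu φ - ιw φ ∈ n := fun φ => hker ((RingHom.mem_ker).2 (h.red₂_sub φ))
  have hprime : (Ideal.map red₂ n).IsPrime := Ideal.map_isPrime_of_surjective h.hred₂ hker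
  have hnm : ∀ {z : B}, z ∉ n → red₂ z ∉ Ideal.map red₂ n := fun hz =>
    not_mem_map_of_not_mem h.hred₂ hker hz
  -- Step 1
  obtain ⟨r, hrn, hr⟩ := exists_mul_theta_mem ιu ιw n hn hθn (hqu.trans hqw.symm) hs' hconst hreg
  rw [hqw] at hr
  obtain ⟨αa, βa, hra⟩ := Ideal.mem_span_pair.1 (hr a)
  obtain ⟨αs, βs, hrs⟩ := Ideal.mem_span_pair.1 (hr s)
  obtain ⟨αε, βε, hrε⟩ := Ideal.mem_span_pair.1 (hr ε)
  -- the pair of `θ_s'`
  have hmem : (ιu s' - ιw s') ^ (q - 1) ∈ RingHom.ker red₂ ^ (q - 1) :=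
    Ideal.pow_mem_pow ((RingHom.mem_ker).2 (h.red₂_sub s')) _
  obtain ⟨t', ht'n, ht'⟩ := h.localDvd_middle n hn h1 h3 _ hmem
  obtain ⟨c', hc'⟩ := Ideal.mem_span_singleton'.1 ht'
  refine ⟨c', t', ?_, ht'n, hc'.symm⟩
  -- Step 2: the relation `λ θ_ψ = β θ_s' + α q`
  set S : B := ∑ i ∈ Finset.range e, ιu s ^ i * ιw s ^ (e - 1 - i) with hS
  set θ' : B := ιu s' - ιw s' with hθ'
  have hψc : ιu (ψ - c₀) - ιw (ψ - c₀) = ιu ψ - ιw ψ := by
    rw [map_sub, map_sub, hc₀]; ring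
  have hrel0 : ιu a * (ιu ψ - ιw ψ) + ιw (ψ - c₀) * (ιu a - ιw a) =
      ιu ε * (S * (ιu s - ιw s)) + ιw (s ^ e) * (ιu ε - ιw ε) := by
    rw [← hψc, ← theta_mul, hell, theta_mul, theta_pow]
  set lam : B := r * ιu a with hlam
  set β : B := -(ιw (ψ - c₀)) * βa + ιu ε * S * βs + ιw (s ^ e) * βε with hβ
  set α : B := -(ιw (ψ - c₀)) * αa + ιu ε * S * αs + ιw (s ^ e) * αε with hα
  have hrel : lam * (ιu ψ - ιw ψ) = β * θ' + α * qB := by
    rw [hlam, hβ, hα]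
    linear_combination r * hrel0 + (ιw (ψ - c₀)) * hra - (ιu ε * S) * hrs - (ιw (s ^ e)) * hrε
  -- Step 3
  have hI := red_pow_identity red₂ hq3 hqB0 hrq (h.red₂_sub s') hrel hj hc'.symm
  -- Step 4
  have hau : ιu a ∉ n := by
    intro h'
    apply ha
    have : ιw a = ιu a - (ιu a - ιw a) := by ring
    rw [this]; exact sub_mem h' (hθn a)
  have hlamn : lam ∉ n := fun h' => (hnprime.mem_or_mem h').elim hrn hau
  have hrS : red₂ S = (e : D) * rbar s ^ (e - 1) := red_geom_sum red₂ (h.h2u s) (h.h2w s) e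
  have hrβ : rbar a * red₂ β = rbar s ^ (e - 1) *
      (-(rbar ε) * rbar s * red₂ βa + rbar a * rbar ε * (e : D) * red₂ βs
        + rbar a * rbar s * red₂ βε) := by
    have hZ' : rbar a * rbar (ψ - c₀) = rbar ε * rbar s ^ e := by
      rw [← map_mul, hell, map_mul, map_pow]
    have hse : rbar s ^ e = rbar s ^ (e - 1) * rbar s := by
      rw [← pow_succ]; congr 1; omega
    rw [hβ]
    simp only [map_add, map_mul, map_neg, h.h2w, h.h2u, hrS, map_pow]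
    rw [hse] at hZ' ⊢
    linear_combination (-(red₂ βa)) * hZ'
  have hZ : rbar a * rbar (ψ - c₀) = rbar ε * rbar s ^ e := by
    rw [← map_mul, hell, map_mul, map_pow]
  have hfin := not_mem_of_monomial (Ideal.map red₂ n) hm0 he hexp hI hII hrβ hH hG hZ hZ0
    (fun h0 => hnm htj (h0 ▸ (Ideal.map red₂ n).zero_mem))
    (hnm ht'n) (hnm hlamn) (by rw [← h.h2w a]; exact hnm ha) (by rw [← h.h2w ε]; exact hnm hε) hH'
  exact fun hc'n => hfin (Ideal.mem_map_of_mem red₂ hc'n)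

/-- **(M4), elliptic half: `n B_n = (θ_s', τ)`.** -/
theorem locGen_middle_elliptic [IsNoetherianRing B]
    (h : ThreeComponents red₁ red₂ red₃ ιu ιv ιw rbar W q qB) (hq3 : 3 ≤ q)
    (hqB0 : qB ≠ 0) (hrq : red₂ qB = 0) (hD : ¬ IsField D) (n : Ideal B) (hn : n.IsMaximal)
    (hqn : qB ∈ n)
    (h1 : ∃ s : B, red₁ s = 0 ∧ s ∉ n) (h3 : ∃ s : B, red₃ s = 0 ∧ s ∉ n)
    {qM s' : BM} (hqu : ιu qM = qB) (hqw : ιw qM = qB) (hs' : ιw s' ∈ n)
    (hs'0 : ιu s' ≠ ιw s')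
    (hconst : ∀ ψ : BM, ∃ c : BM, ιu c = ιw c ∧ ιw (ψ - c) ∈ n)
    (hreg : ∀ ψ : BM, ιw ψ ∈ n → ∃ a ψ₁ ψ₂ : BM, ιw a ∉ n ∧ a * ψ = s' * ψ₁ + qM * ψ₂)
    (ψ : BM) {tj cj : B} (htj : tj ∉ n) (hj : tj * (ιu ψ - ιw ψ) ^ (q - 1) = cj * qB)
    {G H : D} {m : ℕ} (hm0 : m ≠ 0) (hII : red₂ cj ^ m * G = red₂ tj ^ m * H)
    {a ε s c₀ : BM} {e EG K : ℕ} (he : e ≠ 0) (hc₀ : ιu c₀ = ιw c₀) (ha : ιw a ∉ n)
    (hε : ιw ε ∉ n) (hell : a * (ψ - c₀) = ε * s ^ e)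
    (hexp : e * K = (q - 1) * m * (e - 1)) {G' H' : D}
    (hH : H = rbar (ψ - c₀) ^ (EG + K) * H') (hG : G = rbar (ψ - c₀) ^ EG * G')
    (hH' : H' ∉ Ideal.map red₂ n) (hZ0 : rbar (ψ - c₀) ≠ 0) :
    ∃ τ ∈ n, ∀ z ∈ n, ∃ t : B, t ∉ n ∧ t * z ∈ Ideal.span {ιu s' - ιw s', τ} :=
  h.locGen_middle (by omega) hD n hn hqn h1 h3 (h.red₂_sub s') (sub_ne_zero.2 hs'0)
    (hE_middle_elliptic h hq3 hqB0 hrq n hn h1 h3 (h.ker_le_middle n hn hqn h1 h3) hqu hqw hs'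
      hconst hreg ψ htj hj hm0 hII he hc₀ ha hε hell hexp hH hG hH' hZ0)

end Assembly

end Fermat.Agent.S36.H65
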