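import Mathlib
import Fermat.Agent.S36.H46_TowerValBC
import Fermat.Agent.S35.H70_TwoComponentsBCFinal

/-!
# S36 (E5-bc), real types: `Dominates` / `DenseIn` along the chart-to-chart base change (helper67)

helper46's `H46_TowerValE0.towerValU_alpha_of_baseChange` / `towerValU_beta_of_baseChange` need
five `Dominates bc (VL) (V)` and three `DenseIn bc (VL) (V)` where `VL = V_(P)` on an `A₁`-chart
`chartB A₁ J₁` (`A₁ = A0 A ℓ`, over `L₁ = unrCyclo ℓ`), `V = V_(Q)` on the `A''`-chart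
`chartB A'' J_E` (`A'' = cutOver A E`, `J_E = baseChangeE E N J₁`), `bc = H45.baseChangeE E N`.

This file instantiates helper46's generic producers `H46.dominates_of_chart` /
`H46.denseIn_of_chart` at these real types, for ANY level `N` and ANY chart coordinate `J₁`
(so both for the level `N₂` charts of `V 0, V 1, V 2` and the level `N₁` charts of `WF, WV`).

* `exists_eq_chartMapE_add_mul`, `exists_eq_chartBC_add_mul` : `C = ψ B + π C` at the real charts,
  from helper40's (a)' = `S35.H70.GenBy` (the decomposition `hdec`).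
* `dominates_chartBC`, `denseIn_chartBC` : general height-one primes `P ⊆ B`, `Q ⊆ C` with
  `chartBC b ∈ Q ↔ b ∈ P` (consumer form `(J₁, J_E, hJ)` and helper95's `S34.H95.chartBC`).
* `dominates_chartBC_ker`, `denseIn_chartBC_ker` : `P = ker red`, `Q = ker red''` with
  `red'' (chartBC b) = red b` and `red'' π = 0` = exactly the output shape of
  `S36.H70.exists_threeComponents_chartBC(_unram)` / `S35.H70.exists_twoComponents_chartBC`.
* `dominates_chartMapE_redE`, `denseIn_chartMapE_redE` : the `S35.H70.redE` spelling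
  (`J_E := baseChangeE E N J₁`, `ψ := S34.H70.chartMapE`, `Q := ker (redE red)`).
-/

set_option autoImplicit false
set_option linter.unusedSectionVars false
set_option linter.style.haveILetI false
set_option synthInstance.maxHeartbeats 400000
set_option maxHeartbeats 3200000

noncomputable section

namespace Fermat.Agent.S36.H67

open ModularCurve IsLocalRing
open Fermat.Agent.S18 Fermat.Agent.CA Fermat.Agent.CA.H79 Fermat.Agent.S34
open Fermat.Agent.S35.H70 Fermat.Agent.S36.H46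

local notation "Qbar" => AlgebraicClosure ℚ

variable {A : ValuationSubring Qbar} {ℓ : ℕ} (hℓ : ℓ.Prime) (hA : A.LiesOverPrime ℓ)
variable (E : IntermediateField (H45.unrCyclo ℓ) Qbar) (N : ℕ) [NeZero N]
variable (J₁ : ↥(modularFunctionFieldFullC ↥(H45.unrCyclo ℓ) N))

/-! ### The decomposition `C = ψ B + π C` at the real charts -/

include hℓ hA in
/-- **`hdec` at the real types** (`ψ := S34.H70.chartMapE`): every element of the `A''`-chart is
`ψ b + π z'`, from `GenBy`. -/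
theorem exists_eq_chartMapE_add_mul
    (π : ↥(H45.cutOver A E)) (hπ : maximalIdeal ↥(H45.cutOver A E) = Ideal.span {π})
    (h : GenBy (A := A) E N J₁)
    (z : ↥(H40.chartB ↥(H45.cutOver A E) (H45.baseChangeE E N J₁))) :
    ∃ (b : ↥(H40.chartB ↥(H45.A0 A ℓ) J₁))
      (z' : ↥(H40.chartB ↥(H45.cutOver A E) (H45.baseChangeE E N J₁))),
      z = S34.H70.chartMapE (A := A) E N J₁ b +
        algebraMap ↥(H45.cutOver A E)
          ↥(H40.chartB ↥(H45.cutOver A E) (H45.baseChangeE E N J₁)) π * z' := by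
  letI := S34.H70.algA0FE (A := A) E N
  letI := S34.H70.algSubFE (A := A) E N (H40.chartB ↥(H45.A0 A ℓ) J₁)
  haveI := S34.H70.isScalarTower_A0_cutOver_FE (A := A) (q := ℓ) E N
  haveI := S34.H70.isScalarTower_A0_sub_FE (A := A) (q := ℓ) E N (H40.chartB ↥(H45.A0 A ℓ) J₁)
  have hz : (z : ↥(modularFunctionFieldFullC ↥E N)) ∈
      H79.genRing ↥(H45.cutOver A E) ↥(H40.chartB ↥(H45.A0 A ℓ) J₁)
        ↥(modularFunctionFieldFullC ↥E N) :=
    (mem_chartB_iff_mem_genRing (A := A) E N J₁ h _).1 z.2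
  obtain ⟨b, r', hr', hrr⟩ := H79.exists_add_mul_of_mem_genRing (A₁ := ↥(H45.A0 A ℓ))
    (B := ↥(H40.chartB ↥(H45.A0 A ℓ) J₁)) π (S34.H70.h1_inst hℓ hA E π hπ) hz
  refine ⟨b, ⟨r', (mem_chartB_iff_mem_genRing (A := A) E N J₁ h _).2 hr'⟩, Subtype.ext ?_⟩
  exact hrr

variable (J_E : ↥(modularFunctionFieldFullC ↥E N)) (hJ : H45.baseChangeE E N J₁ = J_E)

include hℓ hA in
/-- **`hdec`, consumer form** (`ψ := S34.H95.chartBC E N J₁ J_E hJ`). -/
theorem exists_eq_chartBC_add_mul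
    (π : ↥(H45.cutOver A E)) (hπ : maximalIdeal ↥(H45.cutOver A E) = Ideal.span {π})
    (h : GenBy (A := A) E N J₁)
    (z : ↥(H40.chartB ↥(H45.cutOver A E) J_E)) :
    ∃ (b : ↥(H40.chartB ↥(H45.A0 A ℓ) J₁)) (z' : ↥(H40.chartB ↥(H45.cutOver A E) J_E)),
      z = S34.H95.chartBC (A := A) E N J₁ J_E hJ b +
        algebraMap ↥(H45.cutOver A E) ↥(H40.chartB ↥(H45.cutOver A E) J_E) π * z' := by
  subst hJ
  rw [chartBC_eq_chartMapE]
  exact exists_eq_chartMapE_add_mul hℓ hA E N J₁ π hπ h z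

/-! ### `Dominates` / `DenseIn`, consumer form -/

section Prime

variable [IsFractionRing ↥(H40.chartB ↥(H45.A0 A ℓ) J₁)
    ↥(modularFunctionFieldFullC ↥(H45.unrCyclo ℓ) N)]
  [IsNoetherianRing ↥(H40.chartB ↥(H45.A0 A ℓ) J₁)]
  [IsIntegrallyClosed ↥(H40.chartB ↥(H45.A0 A ℓ) J₁)]
  [IsFractionRing ↥(H40.chartB ↥(H45.cutOver A E) J_E) ↥(modularFunctionFieldFullC ↥E N)]
  [IsNoetherianRing ↥(H40.chartB ↥(H45.cutOver A E) J_E)]
  [IsIntegrallyClosed ↥(H40.chartB ↥(H45.cutOver A E) J_E)]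
  (P : Ideal ↥(H40.chartB ↥(H45.A0 A ℓ) J₁)) [hPp : P.IsPrime] (hP : P.height = 1)
  (Q : Ideal ↥(H40.chartB ↥(H45.cutOver A E) J_E)) [hQp : Q.IsPrime] (hQ : Q.height = 1)

/-- **`Dominates` at the real charts**: `V_(Q)` (E-level chart) dominates `V_(P)` (`A₁`-chart)
along `baseChangeE E N`, as soon as `chartBC⁻¹ Q = P`. -/
theorem dominates_chartBC
    (hPQ : ∀ b, S34.H95.chartBC (A := A) E N J₁ J_E hJ b ∈ Q ↔ b ∈ P) :
    Dominates (H45.baseChangeE E N)
      (H56.valuationSubringAt (K := ↥(modularFunctionFieldFullC ↥(H45.unrCyclo ℓ) N)) P hP)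
      (H56.valuationSubringAt (K := ↥(modularFunctionFieldFullC ↥E N)) Q hQ) :=
  dominates_of_chart (S34.H95.chartBC (A := A) E N J₁ J_E hJ) (H45.baseChangeE E N)
    (fun _ => rfl) P hP Q hQ hPQ

include hℓ hA in
/-- **`DenseIn` at the real charts**: moreover `π ∈ Q` (`π` a uniformiser of `A''`) and `GenBy`. -/
theorem denseIn_chartBC
    (π : ↥(H45.cutOver A E)) (hπ : maximalIdeal ↥(H45.cutOver A E) = Ideal.span {π})
    (h : GenBy (A := A) E N J₁)
    (hPQ : ∀ b, S34.H95.chartBC (A := A) E N J₁ J_E hJ b ∈ Q ↔ b ∈ P)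
    (hπQ : algebraMap ↥(H45.cutOver A E) ↥(H40.chartB ↥(H45.cutOver A E) J_E) π ∈ Q) :
    DenseIn (H45.baseChangeE E N)
      (H56.valuationSubringAt (K := ↥(modularFunctionFieldFullC ↥(H45.unrCyclo ℓ) N)) P hP)
      (H56.valuationSubringAt (K := ↥(modularFunctionFieldFullC ↥E N)) Q hQ) :=
  denseIn_of_chart (S34.H95.chartBC (A := A) E N J₁ J_E hJ) (H45.baseChangeE E N)
    (fun _ => rfl) P hP Q hQ hPQ _ hπQ
    (exists_eq_chartBC_add_mul hℓ hA E N J₁ J_E hJ π hπ h)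

end Prime

/-! ### Kernel form: the output shape of `exists_threeComponents_chartBC(_unram)` -/

section Ker

variable [IsFractionRing ↥(H40.chartB ↥(H45.A0 A ℓ) J₁)
    ↥(modularFunctionFieldFullC ↥(H45.unrCyclo ℓ) N)]
  [IsNoetherianRing ↥(H40.chartB ↥(H45.A0 A ℓ) J₁)]
  [IsIntegrallyClosed ↥(H40.chartB ↥(H45.A0 A ℓ) J₁)]
  [IsFractionRing ↥(H40.chartB ↥(H45.cutOver A E) J_E) ↥(modularFunctionFieldFullC ↥E N)]
  [IsNoetherianRing ↥(H40.chartB ↥(H45.cutOver A E) J_E)]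
  [IsIntegrallyClosed ↥(H40.chartB ↥(H45.cutOver A E) J_E)]
  {R₀ : Type*} [CommRing R₀]
  (red : ↥(H40.chartB ↥(H45.A0 A ℓ) J₁) →+* R₀)
  (red'' : ↥(H40.chartB ↥(H45.cutOver A E) J_E) →+* R₀)
  [hPp : (RingHom.ker red).IsPrime] (hP : (RingHom.ker red).height = 1)
  [hQp : (RingHom.ker red'').IsPrime] (hQ : (RingHom.ker red'').height = 1)

theorem chartBC_mem_ker_iff
    (h1 : ∀ b, red'' (S34.H95.chartBC (A := A) E N J₁ J_E hJ b) = red b)
    (b : ↥(H40.chartB ↥(H45.A0 A ℓ) J₁)) :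
    S34.H95.chartBC (A := A) E N J₁ J_E hJ b ∈ RingHom.ker red'' ↔ b ∈ RingHom.ker red := by
  rw [RingHom.mem_ker, RingHom.mem_ker, h1]

/-- **`Dominates`, kernel form**: `red'' ∘ chartBC = red`. -/
theorem dominates_chartBC_ker
    (h1 : ∀ b, red'' (S34.H95.chartBC (A := A) E N J₁ J_E hJ b) = red b) :
    Dominates (H45.baseChangeE E N)
      (H56.valuationSubringAt (K := ↥(modularFunctionFieldFullC ↥(H45.unrCyclo ℓ) N))
        (RingHom.ker red) hP)
      (H56.valuationSubringAt (K := ↥(modularFunctionFieldFullC ↥E N)) (RingHom.ker red'') hQ) :=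
  dominates_chartBC E N J₁ J_E hJ (RingHom.ker red) hP (RingHom.ker red'') hQ
    (chartBC_mem_ker_iff E N J₁ J_E hJ red red'' h1)

include hℓ hA in
/-- **`DenseIn`, kernel form**: `red'' ∘ chartBC = red`, `red'' π = 0`, `GenBy`. -/
theorem denseIn_chartBC_ker
    (π : ↥(H45.cutOver A E)) (hπ : maximalIdeal ↥(H45.cutOver A E) = Ideal.span {π})
    (h : GenBy (A := A) E N J₁)
    (h1 : ∀ b, red'' (S34.H95.chartBC (A := A) E N J₁ J_E hJ b) = red b)
    (hπ0 : red'' (algebraMap ↥(H45.cutOver A E) ↥(H40.chartB ↥(H45.cutOver A E) J_E) π) = 0) :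
    DenseIn (H45.baseChangeE E N)
      (H56.valuationSubringAt (K := ↥(modularFunctionFieldFullC ↥(H45.unrCyclo ℓ) N))
        (RingHom.ker red) hP)
      (H56.valuationSubringAt (K := ↥(modularFunctionFieldFullC ↥E N)) (RingHom.ker red'') hQ) :=
  denseIn_chartBC hℓ hA E N J₁ J_E hJ (RingHom.ker red) hP (RingHom.ker red'') hQ π hπ h
    (chartBC_mem_ker_iff E N J₁ J_E hJ red red'' h1) ((RingHom.mem_ker).2 hπ0)

end Ker

/-! ### The `S35.H70.redE` spelling -/

section RedE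

variable [IsFractionRing ↥(H40.chartB ↥(H45.A0 A ℓ) J₁)
    ↥(modularFunctionFieldFullC ↥(H45.unrCyclo ℓ) N)]
  [IsNoetherianRing ↥(H40.chartB ↥(H45.A0 A ℓ) J₁)]
  [IsIntegrallyClosed ↥(H40.chartB ↥(H45.A0 A ℓ) J₁)]
  [IsFractionRing ↥(H40.chartB ↥(H45.cutOver A E) (H45.baseChangeE E N J₁))
    ↥(modularFunctionFieldFullC ↥E N)]
  [IsNoetherianRing ↥(H40.chartB ↥(H45.cutOver A E) (H45.baseChangeE E N J₁))]
  [IsIntegrallyClosed ↥(H40.chartB ↥(H45.cutOver A E) (H45.baseChangeE E N J₁))]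
  (π : ↥(H45.cutOver A E)) (hπ : maximalIdeal ↥(H45.cutOver A E) = Ideal.span {π})
  (h : GenBy (A := A) E N J₁) {R₀ : Type*} [CommRing R₀]
  (red : ↥(H40.chartB ↥(H45.A0 A ℓ) J₁) →+* R₀)
  (hq : red (algebraMap ↥(H45.A0 A ℓ) ↥(H40.chartB ↥(H45.A0 A ℓ) J₁)
    ((ℓ : ℕ) : ↥(H45.A0 A ℓ))) = 0)
  [hPp : (RingHom.ker red).IsPrime] (hP : (RingHom.ker red).height = 1)
  [hQp : (RingHom.ker (redE hℓ hA E N J₁ π hπ h red hq)).IsPrime]
  (hQ : (RingHom.ker (redE hℓ hA E N J₁ π hπ h red hq)).height = 1)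

/-- **`Dominates` for `Q = ker (redE red)`.** -/
theorem dominates_chartMapE_redE :
    Dominates (H45.baseChangeE E N)
      (H56.valuationSubringAt (K := ↥(modularFunctionFieldFullC ↥(H45.unrCyclo ℓ) N))
        (RingHom.ker red) hP)
      (H56.valuationSubringAt (K := ↥(modularFunctionFieldFullC ↥E N))
        (RingHom.ker (redE hℓ hA E N J₁ π hπ h red hq)) hQ) :=
  dominates_of_chart (S34.H70.chartMapE (A := A) E N J₁) (H45.baseChangeE E N)
    (fun _ => rfl) (RingHom.ker red) hP _ hQ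
    (fun b => by rw [RingHom.mem_ker, RingHom.mem_ker, redE_chartMapE])

/-- **`DenseIn` for `Q = ker (redE red)`.** -/
theorem denseIn_chartMapE_redE :
    DenseIn (H45.baseChangeE E N)
      (H56.valuationSubringAt (K := ↥(modularFunctionFieldFullC ↥(H45.unrCyclo ℓ) N))
        (RingHom.ker red) hP)
      (H56.valuationSubringAt (K := ↥(modularFunctionFieldFullC ↥E N))
        (RingHom.ker (redE hℓ hA E N J₁ π hπ h red hq)) hQ) :=
  denseIn_of_chart (S34.H70.chartMapE (A := A) E N J₁) (H45.baseChangeE E N)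
    (fun _ => rfl) (RingHom.ker red) hP _ hQ
    (fun b => by rw [RingHom.mem_ker, RingHom.mem_ker, redE_chartMapE])
    (algebraMap ↥(H45.cutOver A E)
      ↥(H40.chartB ↥(H45.cutOver A E) (H45.baseChangeE E N J₁)) π)
    ((RingHom.mem_ker).2 (redE_pi hℓ hA E N J₁ π hπ h red hq))
    (exists_eq_chartMapE_add_mul hℓ hA E N J₁ π hπ h)

end RedE

end Fermat.Agent.S36.H67
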