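import Fermat.Agent.S36.H67_ValBridge

/-!
# S36 (E2-hV), part (b): transfer of `V_(P₁) = V_(P₂)` along a base change of charts (helper67)

Level-1 charts `B₁ B₂` (fraction field `F1`), base-changed charts `C₁ C₂` (fraction field `FE`),
`bc : F1 →+* FE`, `ψ_i : B_i →+* C_i` over `bc`, height-one primes `P_i ⊆ B_i`, `Q_i ⊆ C_i` with
`ψ_i b ∈ Q_i ↔ b ∈ P_i`.  If `C₁` is generated by `ψ₁ B₁` and constants lying in `C₂`, and
`C₁ = ψ₁ B₁ + π C₁` with `π ∈ Q₁`, `π ∈ Q₂ C₂_(Q₂)`, then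

  `V_(P₁) = V_(P₂)  ⟹  V_(Q₁) = V_(Q₂)`.

Proof: `W := V_(Q₂)` contains `bc B₁` (because `B₁ ⊆ V_(P₁) = V_(P₂)`) and the constants, hence
`C₁`; its centre on `C₁` is `Q₁` by the decomposition `z = ψ₁ b + π z'`; conclude with
`valuationSubringAt_eq_of_centre`.
-/

set_option autoImplicit false
set_option linter.unusedSectionVars false

open Fermat.Agent.S34 Fermat.Agent.CA.H69

namespace Fermat.Agent.S36.H67

section Transfer

variable {F1 FE : Type*} [Field F1] [Field FE] (bc : F1 →+* FE)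
  {B₂ : Type*} [CommRing B₂] [IsDomain B₂] [Algebra B₂ F1] [IsFractionRing B₂ F1]
  [IsNoetherianRing B₂] [IsIntegrallyClosed B₂]
  {C₂ : Type*} [CommRing C₂] [IsDomain C₂] [Algebra C₂ FE] [IsFractionRing C₂ FE]
  [IsNoetherianRing C₂] [IsIntegrallyClosed C₂]
  (ψ₂ : B₂ →+* C₂) (hψ₂ : ∀ b, algebraMap C₂ FE (ψ₂ b) = bc (algebraMap B₂ F1 b))
  (P₂ : Ideal B₂) [hP₂ : P₂.IsPrime] (hh₂ : P₂.height = 1)
  (Q₂ : Ideal C₂) [hQ₂ : Q₂.IsPrime] (hk₂ : Q₂.height = 1)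
  (hPQ₂ : ∀ b, ψ₂ b ∈ Q₂ ↔ b ∈ P₂)

include hψ₂ hPQ₂ in
/-- `bc` maps `V_(P₂)` into `V_(Q₂)`, and the elements of valuation `< 1` correspond. -/
theorem bc_mem_valuationSubringAt {x : F1} (hx : x ∈ H56.valuationSubringAt (K := F1) P₂ hh₂) :
    bc x ∈ H56.valuationSubringAt (K := FE) Q₂ hk₂ ∧
      ((H56.valuationSubringAt (K := FE) Q₂ hk₂).valuation (bc x) < 1 ↔
        (H56.valuationSubringAt (K := F1) P₂ hh₂).valuation x < 1) := by
  obtain ⟨a, s, hs, has⟩ := hx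
  have hs' : ψ₂ s ∉ Q₂ := fun h => hs ((hPQ₂ s).1 h)
  have heq : bc x * algebraMap C₂ FE (ψ₂ s) = algebraMap C₂ FE (ψ₂ a) := by
    rw [hψ₂, hψ₂, ← map_mul, has]
  have hmem : bc x ∈ H56.valuationSubringAt (K := FE) Q₂ hk₂ := ⟨ψ₂ a, ψ₂ s, hs', heq⟩
  refine ⟨hmem, ?_⟩
  -- valuations of the denominators are `1`
  have hs1 : (H56.valuationSubringAt (K := F1) P₂ hh₂).valuation (algebraMap B₂ F1 s) = 1 := by
    have hle : (H56.valuationSubringAt (K := F1) P₂ hh₂).valuation (algebraMap B₂ F1 s) ≤ 1 :=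
      ((H56.valuationSubringAt (K := F1) P₂ hh₂).valuation_le_one_iff _).mpr
        (H56.algebraMap_mem_valuationSubringAt hh₂ s)
    rcases lt_or_eq_of_le hle with h | h
    · exact absurd ((H56.algebraMap_mem_nonunits_iff hh₂ s).mp h) hs
    · exact h
  have hs1' : (H56.valuationSubringAt (K := FE) Q₂ hk₂).valuation (algebraMap C₂ FE (ψ₂ s)) = 1 := by
    have hle : (H56.valuationSubringAt (K := FE) Q₂ hk₂).valuation (algebraMap C₂ FE (ψ₂ s)) ≤ 1 :=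
      ((H56.valuationSubringAt (K := FE) Q₂ hk₂).valuation_le_one_iff _).mpr
        (H56.algebraMap_mem_valuationSubringAt hk₂ (ψ₂ s))
    rcases lt_or_eq_of_le hle with h | h
    · exact absurd ((H56.algebraMap_mem_nonunits_iff hk₂ (ψ₂ s)).mp h) hs'
    · exact h
  have h1 : (H56.valuationSubringAt (K := FE) Q₂ hk₂).valuation (bc x) =
      (H56.valuationSubringAt (K := FE) Q₂ hk₂).valuation (algebraMap C₂ FE (ψ₂ a)) := by
    rw [← heq, map_mul, hs1', mul_one]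
  have h2 : (H56.valuationSubringAt (K := F1) P₂ hh₂).valuation x =
      (H56.valuationSubringAt (K := F1) P₂ hh₂).valuation (algebraMap B₂ F1 a) := by
    rw [← has, map_mul, hs1, mul_one]
  rw [h1, h2, H56.algebraMap_mem_nonunits_iff hk₂, H56.algebraMap_mem_nonunits_iff hh₂]
  exact hPQ₂ a

variable {B₁ : Type*} [CommRing B₁] [IsDomain B₁] [Algebra B₁ F1] [IsFractionRing B₁ F1]
  [IsNoetherianRing B₁] [IsIntegrallyClosed B₁]
  {C₁ : Type*} [CommRing C₁] [IsDomain C₁] [Algebra C₁ FE] [IsFractionRing C₁ FE]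
  [IsNoetherianRing C₁] [IsIntegrallyClosed C₁]
  (ψ₁ : B₁ →+* C₁) (hψ₁ : ∀ b, algebraMap C₁ FE (ψ₁ b) = bc (algebraMap B₁ F1 b))
  (P₁ : Ideal B₁) [hP₁ : P₁.IsPrime] (hh₁ : P₁.height = 1)
  (Q₁ : Ideal C₁) [hQ₁ : Q₁.IsPrime] (hk₁ : Q₁.height = 1)
  (hPQ₁ : ∀ b, ψ₁ b ∈ Q₁ ↔ b ∈ P₁)

include hψ₁ hψ₂ hPQ₁ hPQ₂ in
/-- **(E2-hV)(b): the generic transfer.**  `S` = the constants (a subset of `FE` contained in
`C₂`, generating `C₁` together with `bc B₁`); `π₁ ∈ Q₁` with `C₁ = ψ₁ B₁ + π₁ C₁`, of valuation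
`< 1` at `Q₂`. -/
theorem valuationSubringAt_eq_transfer (S : Set FE)
    (hgen₁ : ∀ z : C₁, algebraMap C₁ FE z ∈
      Subring.closure (Set.range (fun b : B₁ => bc (algebraMap B₁ F1 b)) ∪ S))
    (hS₂ : ∀ x ∈ S, ∃ c : C₂, algebraMap C₂ FE c = x)
    (π₁ : C₁) (hπQ₁ : π₁ ∈ Q₁)
    (hπW : (H56.valuationSubringAt (K := FE) Q₂ hk₂).valuation (algebraMap C₁ FE π₁) < 1)
    (hdec₁ : ∀ z : C₁, ∃ (b : B₁) (z' : C₁), z = ψ₁ b + π₁ * z')
    (hV : H56.valuationSubringAt (K := F1) P₁ hh₁ = H56.valuationSubringAt (K := F1) P₂ hh₂) :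
    H56.valuationSubringAt (K := FE) Q₁ hk₁ = H56.valuationSubringAt (K := FE) Q₂ hk₂ := by
  set W := H56.valuationSubringAt (K := FE) Q₂ hk₂ with hW
  -- (1) `bc B₁ ⊆ W`, with the centre
  have h1 : ∀ b : B₁, bc (algebraMap B₁ F1 b) ∈ W ∧
      (W.valuation (bc (algebraMap B₁ F1 b)) < 1 ↔ b ∈ P₁) := by
    intro b
    have hb : algebraMap B₁ F1 b ∈ H56.valuationSubringAt (K := F1) P₂ hh₂ := by
      rw [← hV]
      exact H56.algebraMap_mem_valuationSubringAt hh₁ b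
    obtain ⟨hm, hv⟩ := bc_mem_valuationSubringAt bc ψ₂ hψ₂ P₂ hh₂ Q₂ hk₂ hPQ₂ hb
    refine ⟨hm, hv.trans ?_⟩
    rw [← H56.algebraMap_mem_nonunits_iff (K := F1) hh₁ b]
    exact (H21.valuation_lt_one_congr hV _).symm
  -- (2) `C₁ ⊆ W`
  have h2 : ∀ z : C₁, algebraMap C₁ FE z ∈ W := by
    intro z
    have hle : Subring.closure (Set.range (fun b : B₁ => bc (algebraMap B₁ F1 b)) ∪ S) ≤
        W.toSubring := by
      rw [Subring.closure_le]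
      rintro x (⟨b, rfl⟩ | hx)
      · exact (h1 b).1
      · obtain ⟨c, rfl⟩ := hS₂ x hx
        exact H56.algebraMap_mem_valuationSubringAt hk₂ c
    exact hle (hgen₁ z)
  -- (3) the centre of `W` on `C₁` is `Q₁`
  have h3 : ∀ z : C₁, z ∈ Q₁ ↔ W.valuation (algebraMap C₁ FE z) < 1 := by
    intro z
    obtain ⟨b, z', rfl⟩ := hdec₁ z
    have hπz : W.valuation (algebraMap C₁ FE (π₁ * z')) < 1 := by
      rw [map_mul, map_mul]
      exact mul_lt_one_of_nonneg_of_lt_one_left zero_le hπW ((W.valuation_le_one_iff _).2 (h2 z'))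
    have hπzQ : π₁ * z' ∈ Q₁ := Q₁.mul_mem_right _ hπQ₁
    have hb : W.valuation (algebraMap C₁ FE (ψ₁ b)) < 1 ↔ b ∈ P₁ := by
      rw [hψ₁]; exact (h1 b).2
    constructor
    · intro hz
      have hψb : ψ₁ b ∈ Q₁ := by
        have := Q₁.sub_mem hz hπzQ
        rwa [add_sub_cancel_right] at this
      rw [map_add]
      exact Valuation.map_add_lt _ (hb.2 ((hPQ₁ b).1 hψb)) hπz
    · intro hz
      have hψb : W.valuation (algebraMap C₁ FE (ψ₁ b)) < 1 := by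
        have e : algebraMap C₁ FE (ψ₁ b) =
            algebraMap C₁ FE (ψ₁ b + π₁ * z') - algebraMap C₁ FE (π₁ * z') := by
          rw [map_add]; ring
        rw [e]
        exact Valuation.map_sub_lt _ hz hπz
      exact Q₁.add_mem ((hPQ₁ b).2 (hb.1 hψb)) hπzQ
  exact valuationSubringAt_eq_of_centre W Q₁ hk₁ h2 h3

end Transfer

section TransferSubalgebra

variable {F1 FE : Type*} [Field F1] [Field FE] (bc : F1 →+* FE)
  {B₁ : Type*} [CommRing B₁] [IsDomain B₁] [Algebra B₁ F1] [IsFractionRing B₁ F1]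
  [IsNoetherianRing B₁] [IsIntegrallyClosed B₁]
  {B₂ : Type*} [CommRing B₂] [IsDomain B₂] [Algebra B₂ F1] [IsFractionRing B₂ F1]
  [IsNoetherianRing B₂] [IsIntegrallyClosed B₂]
  {R' : Type*} [CommRing R'] [Algebra R' FE]
  {C₁ C₂ : Subalgebra R' FE} [IsFractionRing C₁ FE] [IsFractionRing C₂ FE]
  [IsNoetherianRing C₁] [IsNoetherianRing C₂] [IsIntegrallyClosed C₁] [IsIntegrallyClosed C₂]

/-- **(E2-hV)(b), chart form**: the `E`-charts are subalgebras `C₁ C₂ ⊆ FE` over the base ring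
`R'`, the constants are `R'`, `π : R'` the uniformiser.  Hypotheses in the shapes of
`S35.H70.GenBy` (`hgen₁`), `S35.H70.exists_eq_add_mul` (`hdec₁`), `redE_chartMapE` (`hPQ`),
`redE_pi_mul` (`hπQ`). -/
theorem valuationSubringAt_eq_transfer_subalgebra
    (ψ₁ : B₁ →+* C₁) (hψ₁ : ∀ b, ((ψ₁ b : C₁) : FE) = bc (algebraMap B₁ F1 b))
    (ψ₂ : B₂ →+* C₂) (hψ₂ : ∀ b, ((ψ₂ b : C₂) : FE) = bc (algebraMap B₂ F1 b))
    (P₁ : Ideal B₁) [hP₁ : P₁.IsPrime] (hh₁ : P₁.height = 1)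
    (P₂ : Ideal B₂) [hP₂ : P₂.IsPrime] (hh₂ : P₂.height = 1)
    (Q₁ : Ideal C₁) [hQ₁ : Q₁.IsPrime] (hk₁ : Q₁.height = 1)
    (Q₂ : Ideal C₂) [hQ₂ : Q₂.IsPrime] (hk₂ : Q₂.height = 1)
    (hPQ₁ : ∀ b, ψ₁ b ∈ Q₁ ↔ b ∈ P₁) (hPQ₂ : ∀ b, ψ₂ b ∈ Q₂ ↔ b ∈ P₂)
    (hgen₁ : ∀ z : FE, z ∈ C₁ → z ∈ Subring.closure
      (Set.range (fun b : B₁ => bc (algebraMap B₁ F1 b)) ∪ Set.range (algebraMap R' FE)))
    (π : R') (hπQ₁ : algebraMap R' C₁ π ∈ Q₁) (hπQ₂ : algebraMap R' C₂ π ∈ Q₂)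
    (hdec₁ : ∀ z : C₁, ∃ (b : B₁) (z' : C₁), z = ψ₁ b + algebraMap R' C₁ π * z')
    (hV : H56.valuationSubringAt (K := F1) P₁ hh₁ = H56.valuationSubringAt (K := F1) P₂ hh₂) :
    H56.valuationSubringAt (K := FE) Q₁ hk₁ = H56.valuationSubringAt (K := FE) Q₂ hk₂ := by
  refine valuationSubringAt_eq_transfer bc ψ₂ hψ₂ P₂ hh₂ Q₂ hk₂ hPQ₂ ψ₁ hψ₁ P₁ hh₁ Q₁ hk₁ hPQ₁
    (Set.range (algebraMap R' FE)) (fun z => hgen₁ _ z.2) ?_ (algebraMap R' C₁ π) hπQ₁ ?_ hdec₁ hV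
  · rintro x ⟨r, rfl⟩
    exact ⟨algebraMap R' C₂ r, rfl⟩
  · have : algebraMap C₁ FE (algebraMap R' C₁ π) = algebraMap C₂ FE (algebraMap R' C₂ π) := rfl
    rw [this, H56.algebraMap_mem_nonunits_iff hk₂]
    exact hπQ₂

end TransferSubalgebra

end Fermat.Agent.S36.H67
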