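/-
S36 / row (r5) = (E6) at the chart level, helper84: **`hpt` for one chart**, assembled.

For a closed point `n` of the special fibre of the level-`q² L` chart `B`:
either at most one vertical prime passes through `n`, or all three do and we have the local tower
data `S36.H85.TripleLoc` with residue field `k = R ⧸ (π)`.

Inputs: the level maps (`S36.H83.LevelMaps`, row (E2)), surjectivity of the reductions,
`D ^ q ⊆ W D`, 'exactly three' vertical primes, the node generators (`NodeGen`, row (M2)),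
integrality of `B` over `B'` along both degeneracy maps, `Na, Nb` = the field norms, and
rationality of the closed points (`hresB`, `hresB'` = `S34.H83.hres_of_isAlgClosed`).

Assembled from `point_class` (H84_PointClass), `tripleLoc_of_charts` (H84_TripleLocCharts),
`S36.H71.hNunit_alpha / hNunit_beta`, `S36.H71.hls_of_compat / hli_of_compat`.
-/
import Mathlib
import Fermat.Agent.S36.H84_PointClass
import Fermat.Agent.S36.H84_TripleLocCharts
import Fermat.Agent.S36.H71_NormUnitAbove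

set_option autoImplicit false
set_option linter.unusedSectionVars false
set_option linter.style.haveILetI false

namespace Fermat.Agent.S36.H84

open Fermat.Agent.S34 Fermat.Agent.S34.H47 Fermat.Agent.S36

section HptChart

variable {R B' F1 B F2 D : Type*} [CommRing R]
  [CommRing B'] [IsDomain B'] [Field F1] [Algebra B' F1] [IsFractionRing B' F1]
  [IsNoetherianRing B'] [IsIntegrallyClosed B']
  [CommRing B] [IsDomain B] [Field F2] [Algebra B F2] [IsFractionRing B F2]
  [IsNoetherianRing B] [IsIntegrallyClosed B]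
  [CommRing D] [IsDomain D]
  [Algebra R F1] [Algebra R F2] [Algebra R B] [IsScalarTower R B F2]
  [Algebra R B'] [IsScalarTower R B' F1]

/-- units of the base ring are units of every local ring of the chart. -/
theorem unitIn_base_unit (n' : Ideal B') [hn' : n'.IsPrime] (r : Rˣ) :
    UnitIn (H21.locSubring (F := F1) n') (algebraMap R F1 r) := by
  refine ⟨algebraMap_base_mem_locSubring n' _, ?_, ?_⟩
  · have h1 : (algebraMap R F1 r)⁻¹ = algebraMap R F1 ((r⁻¹ : Rˣ) : R) := by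
      have h2 : algebraMap R F1 r * algebraMap R F1 ((r⁻¹ : Rˣ) : R) = 1 := by
        rw [← map_mul, Units.mul_inv, map_one]
      exact (eq_inv_of_mul_eq_one_right h2).symm
    rw [h1]
    exact algebraMap_base_mem_locSubring n' _
  · intro h0
    have h2 : algebraMap R F1 r * algebraMap R F1 ((r⁻¹ : Rˣ) : R) = 1 := by
      rw [← map_mul, Units.mul_inv, map_one]
    rw [h0, zero_mul] at h2
    exact zero_ne_one h2

/-- **`hpt` for one chart.** -/
theorem hpt_chart (a b : F1 →+* F2) (Na Nb : F2 →*₀ F1)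
    (hfda : letI := a.toAlgebra; FiniteDimensional F1 F2)
    (hNa : ∀ x : F2, Na x = (letI := a.toAlgebra; Algebra.norm F1 x))
    (hfdb : letI := b.toAlgebra; FiniteDimensional F1 F2)
    (hNb : ∀ x : F2, Nb x = (letI := b.toAlgebra; Algebra.norm F1 x))
    (α β : B' →+* B)
    (hα : ∀ x', algebraMap B F2 (α x') = a (algebraMap B' F1 x'))
    (hβ : ∀ x', algebraMap B F2 (β x') = b (algebraMap B' F1 x'))
    (hαint : ∀ x : B, α.IsIntegralElem x) (hβint : ∀ x : B, β.IsIntegralElem x)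
    (haR : ∀ c : R, a (algebraMap R F1 c) = algebraMap R F2 c)
    (hbR : ∀ c : R, b (algebraMap R F1 c) = algebraMap R F2 c)
    (red₁ red₂ red₃ : B →+* D) (red₁' red₂' : B' →+* D) (W : D →+* D)
    (hL : H83.LevelMaps red₁ red₂ red₃ red₁' red₂' α β W)
    (hred₁ : Function.Surjective red₁) (hred₂ : Function.Surjective red₂)
    (hred₃ : Function.Surjective red₃)
    (hred₁' : Function.Surjective red₁') (hred₂' : Function.Surjective red₂')
    {q m : ℕ} (hq : 0 < q) (hm : 0 < m) (hW : ∀ r : D, ∃ r₂ : D, W r₂ = r ^ q)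
    (π : R) [hπ : (Ideal.span {π}).IsMaximal]
    (hαπ : α (algebraMap R B' π) = algebraMap R B π)
    (hβπ : β (algebraMap R B' π) = algebraMap R B π)
    (hπ₁' : red₁' (algebraMap R B' π) = 0) (hπ₂' : red₂' (algebraMap R B' π) = 0)
    (h3 : ∀ P : Ideal B, P.IsPrime → algebraMap R B π ∈ P →
      RingHom.ker red₁ ≤ P ∨ RingHom.ker red₂ ≤ P ∨ RingHom.ker red₃ ≤ P)
    (hk1 : RingHom.ker red₁ ≠ ⊥) (hk2 : RingHom.ker red₂ ≠ ⊥) (hk3 : RingHom.ker red₃ ≠ ⊥)
    (hnode : NodeGen red₁' red₂')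
    (P : Fin 3 → Ideal B) [hP : ∀ i, (P i).IsPrime] (hh : ∀ i, (P i).height = 1)
    (hP0 : P 0 = RingHom.ker red₁) (hP1 : P 1 = RingHom.ker red₂)
    (hP2 : P 2 = RingHom.ker red₃)
    (P'F P'V : Ideal B') [P'F.IsPrime] [P'V.IsPrime] (hF : P'F.height = 1) (hV : P'V.height = 1)
    (hP'F : P'F = RingHom.ker red₁') (hP'V : P'V = RingHom.ker red₂')
    {V : Fin 3 → ValuationSubring F2} {WF WV : ValuationSubring F1}
    (hVeq : ∀ i, V i = H56.valuationSubringAt (K := F2) (P i) (hh i))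
    (hWF : WF = H56.valuationSubringAt (K := F1) P'F hF)
    (hWV : WV = H56.valuationSubringAt (K := F1) P'V hV)
    (hresB : ∀ n : Ideal B, n.IsMaximal → algebraMap R B π ∈ n →
      ∀ x : B, ∃ c : R, x - algebraMap R B c ∈ n)
    (hresB' : ∀ n' : Ideal B', n'.IsMaximal → algebraMap R B' π ∈ n' →
      ∀ x : B', ∃ c : R, x - algebraMap R B' c ∈ n')
    {ζ ca cb : F1} (hζu : ∃ r : Rˣ, ζ = algebraMap R F1 r)
    (hcau : ∃ r : Rˣ, ca = algebraMap R F1 r) (hcbu : ∃ r : Rˣ, cb = algebraMap R F1 r)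
    (n : Ideal B) [hn : n.IsMaximal] (hπn : algebraMap R B π ∈ n) :
    letI : Field (R ⧸ Ideal.span {π}) := Ideal.Quotient.field _
    (∃ i₀, ∀ i, P i ≤ n → i = i₀) ∨
      ((∀ i, P i ≤ n) ∧
        H85.TripleLoc a b Na Nb q m V WF WV ζ ca cb (R ⧸ Ideal.span {π})
          (H21.locSubring (F := F2) n)) := by
  letI : Field (R ⧸ Ideal.span {π}) := Ideal.Quotient.field _
  rcases point_class red₁ red₂ red₃ red₁' red₂' α β W hL hred₁ hred₂ hred₃ hred₁' hred₂' q hq hW
      (algebraMap R B π) (algebraMap R B' π) hαπ hβπ hπ₁' hπ₂' h3 hk1 hk2 hk3 hnode P hP0 hP1 hP2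
      n hn with h | hall
  · exact Or.inl h
  refine Or.inr ⟨hall, ?_⟩
  have h1n : RingHom.ker red₁ ≤ n := hP0 ▸ hall 0
  have h2n : RingHom.ker red₂ ≤ n := hP1 ▸ hall 1
  have h3n : RingHom.ker red₃ ≤ n := hP2 ▸ hall 2
  -- the two points below
  obtain ⟨𝔞, h𝔞, hn𝔞⟩ := exists_maximal_image red₁ hred₁ n hn h1n
  obtain ⟨𝔟, h𝔟, hn𝔟⟩ := exists_maximal_image red₃ hred₃ n hn h3n
  have hna_eq : n.comap α = Ideal.comap red₁' 𝔞 := by
    ext z
    rw [Ideal.mem_comap, Ideal.mem_comap, hn𝔞, hL.h1α]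
  have hnb_eq : n.comap β = Ideal.comap red₂' 𝔟 := by
    ext z
    rw [Ideal.mem_comap, Ideal.mem_comap, hn𝔟, hL.h3β]
  haveI hna_max : (n.comap α).IsMaximal := by
    rw [hna_eq]; exact Ideal.comap_isMaximal_of_surjective red₁' hred₁'
  haveI hnb_max : (n.comap β).IsMaximal := by
    rw [hnb_eq]; exact Ideal.comap_isMaximal_of_surjective red₂' hred₂'
  haveI hnp : n.IsPrime := hn.isPrime
  -- incidences below
  have hFa : RingHom.ker red₁' ≤ n.comap α := fun z hz =>
    h1n ((RingHom.mem_ker).2 (hL.α_mem_ker₁₂ ((RingHom.mem_ker).1 hz)).1)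
  have hVa : RingHom.ker red₂' ≤ n.comap α := fun z hz =>
    h3n ((RingHom.mem_ker).2 (hL.α_mem_ker₃ ((RingHom.mem_ker).1 hz)))
  have hFb : RingHom.ker red₁' ≤ n.comap β := fun z hz =>
    h1n ((RingHom.mem_ker).2 (hL.β_mem_ker₁ ((RingHom.mem_ker).1 hz)))
  have hVb : RingHom.ker red₂' ≤ n.comap β := fun z hz =>
    h2n ((RingHom.mem_ker).2 (hL.β_mem_ker₂₃ ((RingHom.mem_ker).1 hz)).1)
  obtain ⟨⟨y', hy1, hy2, hy'⟩, -⟩ := hnode (n.comap α) hna_max hFa hVa
  obtain ⟨-, ⟨x', hx2, hx1, hx'⟩⟩ := hnode (n.comap β) hnb_max hFb hVb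
  -- norms of units
  have hNua := H71.hNunit_alpha a Na hfda hNa α hα hαint red₁ red₂ red₃ red₁' red₂' W q hq
    (algebraMap R B π) (algebraMap R B' π) hαπ h3 hk1 hk2 hL.h1α hL.h2α hL.h3α hred₂' hW n
    (n.comap α) rfl hVa hπ₂' y' hy1 hy2 hy'
  have hNub := H71.hNunit_beta b Nb hfdb hNb β hβ hβint red₁ red₂ red₃ red₁' red₂' W q hq
    (algebraMap R B π) (algebraMap R B' π) hβπ h3 hk2 hk3 hL.h1β hL.h2β hL.h3β hred₁' hW n
    (n.comap β) rfl hFb hπ₁' x' hx2 hx1 hx'
  -- liftings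
  have lift1 : ∀ (φ : B' →+* B) (red : B →+* D) (red' : B' →+* D) (Q : Ideal B)
      (hQ : Q = RingHom.ker red) (c : ∀ z, red (φ z) = red' z) (hs : Function.Surjective red')
      (x : B), ∃ x' : B', φ x' - x ∈ Q := by
    intro φ red red' Q hQ c hs x
    obtain ⟨x', hx'⟩ := H71.hls_of_compat φ red red' c hs x
    exact ⟨x', by rw [hQ, RingHom.mem_ker, map_sub, hx', sub_self]⟩
  have liftq : ∀ (φ : B' →+* B) (red : B →+* D) (red' : B' →+* D) (Q : Ideal B)
      (hQ : Q = RingHom.ker red) (c : ∀ z, red (φ z) = W (red' z))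
      (hs : Function.Surjective red') (x : B), ∃ x' : B', φ x' - x ^ q ∈ Q := by
    intro φ red red' Q hQ c hs x
    obtain ⟨x', hx'⟩ := H71.hli_of_compat φ red red' W q c hs hW x
    exact ⟨x', by rw [hQ, RingHom.mem_ker, map_sub, hx', map_pow, sub_self]⟩
  -- `π` below
  have hπa : algebraMap R B' π ∈ n.comap α := by
    rw [Ideal.mem_comap, hαπ]; exact hπn
  have hπb : algebraMap R B' π ∈ n.comap β := by
    rw [Ideal.mem_comap, hβπ]; exact hπn
  obtain ⟨rζ, rfl⟩ := hζu
  obtain ⟨rca, rfl⟩ := hcau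
  obtain ⟨rcb, rfl⟩ := hcbu
  exact tripleLoc_of_charts a b Na Nb α β hα hβ haR hbR n (n.comap α) (n.comap β)
    (fun _ => Ideal.mem_comap) (fun _ => Ideal.mem_comap) P hh hall P'F P'V hF hV
    (hP'F ▸ hFa) (hP'V ▸ hVa) (hP'F ▸ hFb) (hP'V ▸ hVb) hVeq hWF hWV hm
    (lift1 α red₁ red₁' (P 0) hP0 hL.h1α hred₁') (lift1 α red₂ red₁' (P 1) hP1 hL.h2α hred₁')
    (liftq α red₃ red₂' (P 2) hP2 hL.h3α hred₂')
    (lift1 β red₃ red₂' (P 2) hP2 hL.h3β hred₂') (lift1 β red₂ red₂' (P 1) hP1 hL.h2β hred₂')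
    (liftq β red₁ red₁' (P 0) hP0 hL.h1β hred₁')
    hNua hNub π
    (fun c => algebraMap_base_mem_locSubring n c)
    (fun c => algebraMap_base_mem_locSubring (n.comap α) c)
    (fun c => algebraMap_base_mem_locSubring (n.comap β) c)
    (by
      rw [IsScalarTower.algebraMap_apply R B F2]
      exact not_unitIn_algebraMap_of_mem n hπn)
    (hres_locSubring n π hπn (hresB n hn hπn))
    (hres_locSubring (n.comap α) π hπa (hresB' _ hna_max hπa))
    (hres_locSubring (n.comap β) π hπb (hresB' _ hnb_max hπb))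
    (unitIn_base_unit _ rζ) (unitIn_base_unit _ rζ) (unitIn_base_unit _ rca)
    (unitIn_base_unit _ rcb)

end HptChart

end Fermat.Agent.S36.H84
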