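/-
helper69 -- S36 (Carayol), row (E7), SEAM (r5) → (E7a): **the `hpt` hypothesis of
`S36.H69.geo36_two_charts_const` from the landed chart-level producers**

* `S36.H85.hpt_of_levelMaps_fixed` (helper85; chart 1 only, residue field `R ⧸ (π)`),
* `S36.H85.hpt_two_charts_of_first` (helper85; chart 2 through the overlap + the cuspidal points),
* `S36.H84.unitIn_base_unit` (helper84; the constants `ζ ca cb` are images of units of `R`).

`hpt_const_of_levelMaps` has EXACTLY the conclusion shape of the `hpt` binder of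
`geo36_two_charts_const` at `k := R ⧸ Ideal.span {π}`; `geo36_two_charts_of_levelMaps` is that
skeleton with `hpt` discharged.
-/
import Mathlib
import Fermat.Agent.S36.H69_Geo36Final
import Fermat.Agent.S36.H85_HptFixed
import Fermat.Agent.S36.H85_HptTwoCharts
import Fermat.Agent.S36.H84_HptChart

set_option autoImplicit false
set_option linter.unusedSectionVars false
set_option linter.unusedVariables false
set_option linter.style.haveILetI false

namespace Fermat.Agent.S36.H69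

open Fermat.Agent.S34 Fermat.Agent.S34.H47 Fermat.Agent.S35 Fermat.Agent.S36.H85
  Fermat.Agent.S36.H46

section Hpt

variable {R F2 : Type*} [CommRing R] [IsDomain R] [IsDiscreteValuationRing R]
  [Field F2] [Algebra R F2]
  {B₁ B₂ : Subalgebra R F2} [IsFractionRing B₁ F2] [IsFractionRing B₂ F2]
  [IsNoetherianRing B₁] [IsNoetherianRing B₂] [IsIntegrallyClosed B₁] [IsIntegrallyClosed B₂]
  {π : R} [hπmax : (Ideal.span {π}).IsMaximal]
  (P₁ : Fin 3 → Ideal B₁) (P₂ : Fin 3 → Ideal B₂)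
  [hP₁ : ∀ i, (P₁ i).IsPrime] [hP₂ : ∀ i, (P₂ i).IsPrime]
  (hh₁ : ∀ i, (P₁ i).height = 1) (hh₂ : ∀ i, (P₂ i).height = 1)
  {B' F1 D : Type*} [CommRing B'] [IsDomain B'] [Field F1] [Algebra B' F1] [IsFractionRing B' F1]
  [IsNoetherianRing B'] [IsIntegrallyClosed B']
  [Algebra R F1] [Algebra R B'] [IsScalarTower R B' F1]
  [CommRing D] [IsDomain D]
  {K : Type*} [Field K] [Algebra K F1] [Algebra R K] [IsScalarTower R K F1]
  {red₁ red₂ red₃ : B₁ →+* D} {red₁' red₂' : B' →+* D} {α β : B' →+* B₁} {W : D →+* D}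
  {a b : F1 →+* F2} {Na Nb : F2 →*₀ F1} {q m : ℕ}
  {WF WV : ValuationSubring F1}

/-- **`hpt` of `geo36_two_charts_const` from the chart-level rows.** -/
theorem hpt_const_of_levelMaps
    (h : H83.LevelMaps red₁ red₂ red₃ red₁' red₂' α β W) (hq : 0 < q) (hm : 0 < m)
    (hqα : α (algebraMap R B' π) = algebraMap R B₁ π)
    (hqβ : β (algebraMap R B' π) = algebraMap R B₁ π)
    (hthree : ∀ P : Ideal B₁, P.IsPrime → algebraMap R B₁ π ∈ P →
      RingHom.ker red₁ ≤ P ∨ RingHom.ker red₂ ≤ P ∨ RingHom.ker red₃ ≤ P)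
    (hred₁' : Function.Surjective red₁') (hred₂' : Function.Surjective red₂')
    (hW : ∀ r : D, ∃ r₂ : D, W r₂ = r ^ q)
    (hq1' : red₁' (algebraMap R B' π) = 0) (hq2' : red₂' (algebraMap R B' π) = 0)
    (hintα : α.IsIntegral) (hintβ : β.IsIntegral)
    {s₁ : B'} (hs11 : red₁' s₁ = 0) (hs12 : red₂' s₁ ≠ 0)
    {s₂ : B'} (hs22 : red₂' s₂ = 0) (hs21 : red₁' s₂ ≠ 0)
    (haα : ∀ x, algebraMap B₁ F2 (α x) = a (algebraMap B' F1 x))
    (hbβ : ∀ x, algebraMap B₁ F2 (β x) = b (algebraMap B' F1 x))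
    (hαR : ∀ c : R, α (algebraMap R B' c) = algebraMap R B₁ c)
    (hβR : ∀ c : R, β (algebraMap R B' c) = algebraMap R B₁ c)
    (hfda : letI := a.toAlgebra; FiniteDimensional F1 F2)
    (hNa : ∀ x : F2, Na x = (letI := a.toAlgebra; Algebra.norm F1 x))
    (hfdb : letI := b.toAlgebra; FiniteDimensional F1 F2)
    (hNb : ∀ x : F2, Nb x = (letI := b.toAlgebra; Algebra.norm F1 x))
    (hP0 : P₁ 0 = RingHom.ker red₁) (hP1 : P₁ 1 = RingHom.ker red₂)
    (hP2 : P₁ 2 = RingHom.ker red₃)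
    (P'F P'V : Ideal B') [hP'F : P'F.IsPrime] [hP'V : P'V.IsPrime]
    (hF : P'F.height = 1) (hV : P'V.height = 1)
    (hP'F1 : P'F = RingHom.ker red₁') (hP'V2 : P'V = RingHom.ker red₂')
    (hWF : WF = H56.valuationSubringAt (K := F1) P'F hF)
    (hWV : WV = H56.valuationSubringAt (K := F1) P'V hV)
    -- the constants are images of units of `R`
    (A : ValuationSubring K)
    (hAunit : ∀ c : K, A.valuation c = 1 → ∃ r : Rˣ, c = algebraMap R K r)
    {ζK : K} (hζK : A.valuation ζK = 1)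
    -- rationality of the closed points of chart 1
    (hresB : ∀ n1 : H21.ClosedPt B₁ π, ∀ x : B₁, ∃ c : R, x - algebraMap R B₁ c ∈ n1.1)
    -- chart 2: cuspidal points and the overlap
    (J₂ : B₂)
    (hcusp : ∀ n : H21.ClosedPt B₂ π, J₂ ∈ n.1 → ∃ i₀, ∀ i, P₂ i ≤ n.1 → i = i₀)
    (hoverlap : ∀ n : H21.ClosedPt B₂ π, J₂ ∉ n.1 → ∃ n1 : H21.ClosedPt B₁ π,
      H21.ptO B₁ B₂ π (Sum.inl n1) = H21.ptO B₁ B₂ π (Sum.inr n) ∧
      ∀ i, P₁ i ≤ n1.1 ↔ P₂ i ≤ n.1) :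
    letI : Field (R ⧸ Ideal.span {π}) := Ideal.Quotient.field _
    ∀ ca cb : K, NormalisedConst A WF WV ca → NormalisedConst A WF WV cb → ∀ n,
      (∃ i₀, ∀ i, H21.primeThr (π := π) P₁ P₂ n i → i = i₀) ∨
      ((∀ i, H21.primeThr (π := π) P₁ P₂ n i) ∧
        TripleLoc a b Na Nb q m (fun i => H56.valuationSubringAt (K := F2) (P₁ i) (hh₁ i))
          WF WV (algebraMap K F1 ζK) (algebraMap K F1 ca) (algebraMap K F1 cb)
          (R ⧸ Ideal.span {π}) (H21.ptO B₁ B₂ π n)) := by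
  letI : Field (R ⧸ Ideal.span {π}) := Ideal.Quotient.field _
  intro ca cb hca hcb
  -- the three constants are units of every local ring below
  have hunit : ∀ c : K, A.valuation c = 1 → ∀ (n' : Ideal B') [n'.IsPrime],
      UnitIn (H21.locSubring (F := F1) n') (algebraMap K F1 c) := by
    intro c hc n' _
    obtain ⟨r, rfl⟩ := hAunit c hc
    rw [← IsScalarTower.algebraMap_apply R K F1]
    exact H84.unitIn_base_unit n' r
  refine hpt_two_charts_of_first P₁ P₂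
    (fun O => TripleLoc a b Na Nb q m
      (fun i => H56.valuationSubringAt (K := F2) (P₁ i) (hh₁ i)) WF WV (algebraMap K F1 ζK)
      (algebraMap K F1 ca) (algebraMap K F1 cb) (R ⧸ Ideal.span {π}) O) J₂ ?_ hcusp hoverlap
  intro n1
  haveI := n1.2.1
  exact hpt_of_levelMaps_fixed h hq hm hqα hqβ hthree hred₁' hred₂' hW hq1' hq2' hintα hintβ
    hs11 hs12 hs22 hs21 a b haα hbβ hαR hβR Na Nb hfda hNa hfdb hNb P₁ hh₁ hP0 hP1 hP2 P'F P'V
    hF hV hP'F1 hP'V2 (fun _ => rfl) hWF hWV π (hunit ζK hζK) (hunit ca hca.1) (hunit cb hcb.1)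
    n1.1 n1.2.2 (hresB n1)

/-- **(E7a) + (r5): the two-chart skeleton with `hpt` discharged by the chart-level rows.**
Remaining inputs: the model block, the constants, NORMCONST, the two `TowerValU`, the `LevelMaps`
block of (r5), `crit` (E1), `hE3` (E3), `hE4` (E4). -/
theorem geo36_two_charts_of_levelMaps
    {K' : Type*} [Field K'] [Algebra K' F1] [Algebra K' F2] [Algebra R K'] [IsScalarTower R K' F1]
    (hq : 0 < q) (hm : 0 < m)
    -- the two-chart model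
    (hqπ : π ∣ (q : R)) (hmq : Nat.Coprime m q) (hinj : Function.Injective P₁)
    (hVeq : ∀ i, H56.valuationSubringAt (K := F2) (P₁ i) (hh₁ i) =
      H56.valuationSubringAt (K := F2) (P₂ i) (hh₂ i))
    (hbranch₁ : ∀ i, IsIntegrallyClosed (B₁ ⧸ P₁ i))
    (hbranch₂ : ∀ i, IsIntegrallyClosed (B₂ ⧸ P₂ i))
    -- constants
    {qK : K'} (hqK : qK ≠ 0) {d : ℕ}
    (hNaK : ∀ c : K', Na (algebraMap K' F2 c) = algebraMap K' F1 c ^ d)
    (hNbK : ∀ c : K', Nb (algebraMap K' F2 c) = algebraMap K' F1 c ^ d)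
    -- NORMCONST inputs
    (A : ValuationSubring K')
    (hWFlt : ∀ x : K', A.valuation x < 1 → WF.valuation (algebraMap K' F1 x) < 1)
    (hWVlt : ∀ x : K', A.valuation x < 1 → WV.valuation (algebraMap K' F1 x) < 1)
    {πK : K'} (hπ0 : πK ≠ 0) (hπlt : A.valuation πK < 1)
    (hπ : ∀ c : K', c ≠ 0 → ∃ n : ℤ, A.valuation (c * πK ^ (-n)) = 1)
    (hπWF : ∀ x : F1, x ≠ 0 → ∃ n : ℤ, WF.valuation (x * (algebraMap K' F1 πK) ^ (-n)) = 1)
    (hπWV : ∀ x : F1, x ≠ 0 → ∃ n : ℤ, WV.valuation (x * (algebraMap K' F1 πK) ^ (-n)) = 1)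
    (hAWF : ∀ x : K', A.valuation x = 1 → WF.valuation (algebraMap K' F1 x) = 1)
    (hAWV : ∀ x : K', A.valuation x = 1 → WV.valuation (algebraMap K' F1 x) = 1)
    (hroot : ∀ c : K', A.valuation c = 1 →
      ∃ c1 : K', A.valuation c1 = 1 ∧ A.valuation (c / c1 ^ m - 1) < 1)
    -- (E5)/(E6) global tower data
    (HVa : TowerValU a Na q (H56.valuationSubringAt (K := F2) (P₁ 0) (hh₁ 0))
      (H56.valuationSubringAt (K := F2) (P₁ 1) (hh₁ 1))
      (H56.valuationSubringAt (K := F2) (P₁ 2) (hh₁ 2)) WF WV)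
    (HVb : TowerValU b Nb q (H56.valuationSubringAt (K := F2) (P₁ 2) (hh₁ 2))
      (H56.valuationSubringAt (K := F2) (P₁ 1) (hh₁ 1))
      (H56.valuationSubringAt (K := F2) (P₁ 0) (hh₁ 0)) WV WF)
    {ζK : K'} (hζ : IsPrimitiveRoot ζK m) (hζA : A.valuation ζK = 1)
    (hab : a (algebraMap K' F1 ζK) = b (algebraMap K' F1 ζK))
    -- (r5): the level maps on chart 1
    (h : H83.LevelMaps red₁ red₂ red₃ red₁' red₂' α β W)
    (hqα : α (algebraMap R B' π) = algebraMap R B₁ π)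
    (hqβ : β (algebraMap R B' π) = algebraMap R B₁ π)
    (hthree : ∀ P : Ideal B₁, P.IsPrime → algebraMap R B₁ π ∈ P →
      RingHom.ker red₁ ≤ P ∨ RingHom.ker red₂ ≤ P ∨ RingHom.ker red₃ ≤ P)
    (hred₁' : Function.Surjective red₁') (hred₂' : Function.Surjective red₂')
    (hW : ∀ r : D, ∃ r₂ : D, W r₂ = r ^ q)
    (hq1' : red₁' (algebraMap R B' π) = 0) (hq2' : red₂' (algebraMap R B' π) = 0)
    (hintα : α.IsIntegral) (hintβ : β.IsIntegral)
    {s₁ : B'} (hs11 : red₁' s₁ = 0) (hs12 : red₂' s₁ ≠ 0)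
    {s₂ : B'} (hs22 : red₂' s₂ = 0) (hs21 : red₁' s₂ ≠ 0)
    (haα : ∀ x, algebraMap B₁ F2 (α x) = a (algebraMap B' F1 x))
    (hbβ : ∀ x, algebraMap B₁ F2 (β x) = b (algebraMap B' F1 x))
    (hαR : ∀ c : R, α (algebraMap R B' c) = algebraMap R B₁ c)
    (hβR : ∀ c : R, β (algebraMap R B' c) = algebraMap R B₁ c)
    (hfda : letI := a.toAlgebra; FiniteDimensional F1 F2)
    (hNa : ∀ x : F2, Na x = (letI := a.toAlgebra; Algebra.norm F1 x))
    (hfdb : letI := b.toAlgebra; FiniteDimensional F1 F2)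
    (hNb : ∀ x : F2, Nb x = (letI := b.toAlgebra; Algebra.norm F1 x))
    (hP0 : P₁ 0 = RingHom.ker red₁) (hP1 : P₁ 1 = RingHom.ker red₂)
    (hP2 : P₁ 2 = RingHom.ker red₃)
    (P'F P'V : Ideal B') [hP'F : P'F.IsPrime] [hP'V : P'V.IsPrime]
    (hF : P'F.height = 1) (hV : P'V.height = 1)
    (hP'F1 : P'F = RingHom.ker red₁') (hP'V2 : P'V = RingHom.ker red₂')
    (hWF : WF = H56.valuationSubringAt (K := F1) P'F hF)
    (hWV : WV = H56.valuationSubringAt (K := F1) P'V hV)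
    (hAunit : ∀ c : K', A.valuation c = 1 → ∃ r : Rˣ, c = algebraMap R K' r)
    (hresB : ∀ n1 : H21.ClosedPt B₁ π, ∀ x : B₁, ∃ c : R, x - algebraMap R B₁ c ∈ n1.1)
    (J₂ : B₂)
    (hcusp : ∀ n : H21.ClosedPt B₂ π, J₂ ∈ n.1 → ∃ i₀, ∀ i, P₂ i ≤ n.1 → i = i₀)
    (hoverlap : ∀ n : H21.ClosedPt B₂ π, J₂ ∉ n.1 → ∃ n1 : H21.ClosedPt B₁ π,
      H21.ptO B₁ B₂ π (Sum.inl n1) = H21.ptO B₁ B₂ π (Sum.inr n) ∧
      ∀ i, P₁ i ≤ n1.1 ↔ P₂ i ≤ n.1)
    -- (E1) the radical Kummer criterion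
    (crit : ∀ u : F2, u ≠ 0 →
      RadDatum (H21.ptO B₁ B₂ π) (fun i => H56.valuationSubringAt (K := F2) (P₁ i) (hh₁ i))
        (H21.primeThr (π := π) P₁ P₂) u m →
      ∃ (c : K') (g : F2), u = algebraMap K' F2 c * g ^ m)
    -- the function and its two norm identities
    {f : F2} (hf : f ≠ 0)
    (hNα : ∃ (c : K') (h : F1), c ≠ 0 ∧ h ≠ 0 ∧ Na f = algebraMap K' F1 c * h ^ m)
    (hNβ : ∃ (c : K') (h : F1), c ≠ 0 ∧ h ≠ 0 ∧ Nb f = algebraMap K' F1 c * h ^ m)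
    -- (E3)
    (hE3 : ∃ (s : ℤ) (g : F2), g ≠ 0 ∧
      ∀ i, (H56.valuationSubringAt (K := F2) (P₁ i) (hh₁ i)).valuation
        (f ^ (q + 1) * algebraMap K' F2 qK ^ (-s) * (g ^ m)⁻¹) = 1)
    -- (E4)
    (hE4 : ∀ (s : ℤ) (g : F2), g ≠ 0 →
      (∀ i, (H56.valuationSubringAt (K := F2) (P₁ i) (hh₁ i)).valuation
        (f ^ (q + 1) * algebraMap K' F2 qK ^ (-s) * (g ^ m)⁻¹) = 1) →
      ∃ G : H21.ClosedPt B₁ π ⊕ H21.ClosedPt B₂ π → F2, (∀ n, G n ≠ 0) ∧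
        ∀ n, UnitIn (H21.ptO B₁ B₂ π n)
          (f ^ (q + 1) * algebraMap K' F2 qK ^ (-s) * (g ^ m)⁻¹ / G n ^ m)) :
    ∃ (c : K') (w : F2), c ≠ 0 ∧ w ≠ 0 ∧
      f ^ ((q + 1) * (q - 1) * (q ^ 2 - 1)) = algebraMap K' F2 c * w ^ m := by
  letI : Field (R ⧸ Ideal.span {π}) := Ideal.Quotient.field _
  have hpt := hpt_const_of_levelMaps (K := K') (a := a) (b := b) (Na := Na) (Nb := Nb)
    (WF := WF) (WV := WV) P₁ P₂ hh₁ h hq hm hqα hqβ hthree hred₁' hred₂' hW hq1' hq2'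
    hintα hintβ hs11 hs12 hs22 hs21 haα hbβ hαR hβR hfda hNa hfdb hNb hP0 hP1 hP2 P'F P'V hF hV
    hP'F1 hP'V2 hWF hWV A hAunit hζA hresB J₂ hcusp hoverlap
  have hm0 : m ≠ 0 := hm.ne'
  have hζm : (algebraMap K' F1 ζK) ^ m = 1 := by
    rw [← map_pow, hζ.pow_eq_one, map_one]
  have hle : ∀ Wv : ValuationSubring F1, Wv.valuation (algebraMap K' F1 ζK) ≤ 1 := fun Wv => by
    have h1 : Wv.valuation (algebraMap K' F1 ζK) ^ m = 1 := by rw [← map_pow, hζm, map_one]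
    exact le_of_eq ((pow_eq_one_iff_of_nonneg zero_le hm0).mp h1)
  exact geo36_two_charts_final P₁ P₂ hh₁ hh₂ hq hm hqπ hmq hinj hVeq hbranch₁ hbranch₂ hqK hNaK
    hNbK A hWFlt hWVlt hπ0 hπlt hπ hπWF hπWV hAWF hAWV hroot HVa HVb
    (hζ.map_of_injective (algebraMap K' F1).injective) (hle WF) (hle WV) hab
    (fun ca cb hca hcb n => (hpt ca cb hca hcb n).imp id fun ⟨hall, hloc⟩ =>
      ⟨hall, R ⧸ Ideal.span {π}, inferInstance, hloc⟩)
    crit hf hNα hNβ hE3 hE4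

end Hpt

end Fermat.Agent.S36.H69
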