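/-
S36, row (r5) (helper85), the points AT INFINITY of chart 2 (helper71's seam warning #3456 (b)):
**at a prime `n` of the level `q² L` chart `B₂ = chartB R J₃⁻¹` containing `J₃⁻¹`, at most one of
the three vertical primes passes through `n`** (= the left disjunct of `hpt`), from the level
`q L` statement "no crossing point at infinity" ((M2-cusp), helper25/helper39), WITHOUT any
integrality of the chart maps `α β : B₂' →+* B₂`.

`u = 1/j`, `v = 1/j_q`, `w = 1/j_{q²}` (all in `B₂`), `J₃⁻¹ = u v w`, `α (J'⁻¹) = u v`,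
`β (J'⁻¹) = v w`; the Kronecker relations `u v ε = u^(q+1) + v^(q+1)`,
`v w ε' = v^(q+1) + w^(q+1)` give `u ∈ n ↔ v ∈ n ↔ w ∈ n`.
-/
import Mathlib
import Fermat.Agent.S36.H83_LevelMaps

set_option autoImplicit false

namespace Fermat.Agent.S36.H85

open Fermat.Agent.S36

section Kronecker

variable {B : Type*} [CommRing B]

/-- From a relation `u v ε = u^(N+1) + v^(N+1)`: `u ∈ n ↔ v ∈ n` for every prime `n`. -/
theorem mem_iff_of_kronecker {u v ε : B} {N : ℕ} (hrel : u * v * ε = u ^ (N + 1) + v ^ (N + 1))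
    (n : Ideal B) [hn : n.IsPrime] : u ∈ n ↔ v ∈ n := by
  constructor
  · intro hu
    have h1 : v ^ (N + 1) = u * v * ε - u ^ (N + 1) := by rw [hrel]; ring
    have h2 : v ^ (N + 1) ∈ n := by
      rw [h1]
      refine n.sub_mem ?_ ?_
      · rw [mul_assoc]; exact n.mul_mem_right _ hu
      · rw [pow_succ]; exact n.mul_mem_left _ hu
    exact hn.mem_of_pow_mem _ h2
  · intro hv
    have h1 : u ^ (N + 1) = u * v * ε - v ^ (N + 1) := by rw [hrel]; ring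
    have h2 : u ^ (N + 1) ∈ n := by
      rw [h1]
      refine n.sub_mem ?_ ?_
      · rw [mul_comm u v, mul_assoc]; exact n.mul_mem_right _ hv
      · rw [pow_succ]; exact n.mul_mem_left _ hv
    exact hn.mem_of_pow_mem _ h2

end Kronecker

section Cusp

variable {B' B D : Type*} [CommRing B'] [CommRing B] [CommRing D]
  {red₁ red₂ red₃ : B →+* D} {red₁' red₂' : B' →+* D} {α β : B' →+* B} {W : D →+* D}

/-- **No two components through a point at infinity of the level `q² L` chart.** -/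
theorem not_two_of_cusp (h : H83.LevelMaps red₁ red₂ red₃ red₁' red₂' α β W)
    {Jinv u v w : B} {Jinv' : B'} (hJ : Jinv = u * v * w) (hαJ : α Jinv' = u * v)
    (hβJ : β Jinv' = v * w)
    (hcusp' : ∀ n' : Ideal B', n'.IsPrime → RingHom.ker red₁' ≤ n' → RingHom.ker red₂' ≤ n' →
      Jinv' ∉ n')
    (n : Ideal B) [hn : n.IsPrime] (huv : u ∈ n ↔ v ∈ n) (hvw : v ∈ n ↔ w ∈ n)
    (hJn : Jinv ∈ n) :
    ¬ (RingHom.ker red₁ ≤ n ∧ RingHom.ker red₂ ≤ n) ∧
    ¬ (RingHom.ker red₁ ≤ n ∧ RingHom.ker red₃ ≤ n) ∧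
    ¬ (RingHom.ker red₂ ≤ n ∧ RingHom.ker red₃ ≤ n) := by
  -- `u, v, w ∈ n`
  have hv : v ∈ n := by
    rw [hJ] at hJn
    rcases hn.mem_or_mem hJn with h1 | h1
    · rcases hn.mem_or_mem h1 with h2 | h2
      · exact huv.1 h2
      · exact h2
    · exact hvw.2 h1
  have hαn : Jinv' ∈ n.comap α := by
    rw [Ideal.mem_comap, hαJ]; exact n.mul_mem_left _ hv
  have hβn : Jinv' ∈ n.comap β := by
    rw [Ideal.mem_comap, hβJ]; exact n.mul_mem_right _ hv
  have hα1 : RingHom.ker red₁ ≤ n ∨ RingHom.ker red₂ ≤ n → RingHom.ker red₁' ≤ n.comap α := by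
    intro h12 z hz
    rw [RingHom.mem_ker] at hz
    rcases h12 with h1 | h2
    · exact h1 ((RingHom.mem_ker).2 (h.α_mem_ker₁₂ hz).1)
    · exact h2 ((RingHom.mem_ker).2 (h.α_mem_ker₁₂ hz).2)
  have hα2 : RingHom.ker red₃ ≤ n → RingHom.ker red₂' ≤ n.comap α := by
    intro h3 z hz
    rw [RingHom.mem_ker] at hz
    exact h3 ((RingHom.mem_ker).2 (h.α_mem_ker₃ hz))
  have hβ1 : RingHom.ker red₁ ≤ n → RingHom.ker red₁' ≤ n.comap β := by
    intro h1 z hz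
    rw [RingHom.mem_ker] at hz
    exact h1 ((RingHom.mem_ker).2 (h.β_mem_ker₁ hz))
  have hβ2 : RingHom.ker red₂ ≤ n ∨ RingHom.ker red₃ ≤ n → RingHom.ker red₂' ≤ n.comap β := by
    intro h23 z hz
    rw [RingHom.mem_ker] at hz
    rcases h23 with h2 | h3
    · exact h2 ((RingHom.mem_ker).2 (h.β_mem_ker₂₃ hz).1)
    · exact h3 ((RingHom.mem_ker).2 (h.β_mem_ker₂₃ hz).2)
  refine ⟨fun ⟨h1, h2⟩ => ?_, fun ⟨h1, h3⟩ => ?_, fun ⟨h2, h3⟩ => ?_⟩
  · exact hcusp' _ (Ideal.comap_isPrime β n) (hβ1 h1) (hβ2 (Or.inl h2)) hβn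
  · exact hcusp' _ (Ideal.comap_isPrime α n) (hα1 (Or.inl h1)) (hα2 h3) hαn
  · exact hcusp' _ (Ideal.comap_isPrime α n) (hα1 (Or.inr h2)) (hα2 h3) hαn

/-- **The left disjunct of `hpt` at a point at infinity.** -/
theorem exists_unique_branch_of_cusp (h : H83.LevelMaps red₁ red₂ red₃ red₁' red₂' α β W)
    {Jinv u v w : B} {Jinv' : B'} (hJ : Jinv = u * v * w) (hαJ : α Jinv' = u * v)
    (hβJ : β Jinv' = v * w)
    (hcusp' : ∀ n' : Ideal B', n'.IsPrime → RingHom.ker red₁' ≤ n' → RingHom.ker red₂' ≤ n' →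
      Jinv' ∉ n')
    (P : Fin 3 → Ideal B) (hP0 : P 0 = RingHom.ker red₁) (hP1 : P 1 = RingHom.ker red₂)
    (hP2 : P 2 = RingHom.ker red₃)
    (n : Ideal B) [hn : n.IsPrime] (huv : u ∈ n ↔ v ∈ n) (hvw : v ∈ n ↔ w ∈ n)
    (hJn : Jinv ∈ n) : ∃ i₀, ∀ i, P i ≤ n → i = i₀ := by
  obtain ⟨n12, n13, n23⟩ := not_two_of_cusp h hJ hαJ hβJ hcusp' n huv hvw hJn
  rw [← hP0, ← hP1] at n12
  rw [← hP0, ← hP2] at n13
  rw [← hP1, ← hP2] at n23
  have key : ∀ i j : Fin 3, i ≠ j → P i ≤ n → P j ≤ n → False := by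
    intro i j hij hi hj
    fin_cases i <;> fin_cases j
    · exact hij rfl
    · exact n12 ⟨hi, hj⟩
    · exact n13 ⟨hi, hj⟩
    · exact n12 ⟨hj, hi⟩
    · exact hij rfl
    · exact n23 ⟨hi, hj⟩
    · exact n13 ⟨hj, hi⟩
    · exact n23 ⟨hj, hi⟩
    · exact hij rfl
  by_cases hex : ∃ i, P i ≤ n
  · obtain ⟨i₀, hi₀⟩ := hex
    exact ⟨i₀, fun i hi => by_contra fun hne => key i i₀ hne hi hi₀⟩
  · exact ⟨0, fun i hi => absurd ⟨i, hi⟩ hex⟩

end Cusp

end Fermat.Agent.S36.H85
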