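/-
S36, row (r5) (helper85): **the hypothesis `hpt` of `S36.H69.geo36_two_charts_final` /
`S36.H18.geoFn36E_of_twoCharts` as ONE CALL**, from the rows:

* chart 1 (`J`): `H83.LevelMaps` + integrality of the level maps + the binder list of
  `H85.hpt_of_levelMaps_fixed` (no (M2) input);
* chart 2 (`J⁻¹`), points at infinity: `H83.LevelMaps` on chart 2 (identities only), the level
  `q L` statement (M2-cusp) `hcusp'` (= `S36.H39.mul_notMem_of_crossing`), the two Kronecker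
  relations, `J₃⁻¹ = u v w`  (`H85.exists_unique_branch_of_cusp`);
* chart 2, finite points: (OVL-a) `S36.H62.hoverlap_two_charts` (`hJ hint₁ hint₂ hres₂ hVeq`);
* constants: `A = ` image of `R` in `K` (`hAR`), so constants of valuation `1` are units of `R`.

Exports: `unitIn_locSubring_const`, `hpt_chart1_of_rows`, `hcusp_of_rows`, `hpt_of_rows`
(general constants), `hpt_of_rows_normalised` (the binder of `geo36_two_charts_final` VERBATIM).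
-/
import Mathlib
import Fermat.Agent.S36.H85_HptFixed
import Fermat.Agent.S36.H85_CuspClass
import Fermat.Agent.S36.H85_HptTwoCharts
import Fermat.Agent.S36.H62_ChartGlueInc
import Fermat.Agent.S36.H69_Geo36Const

set_option autoImplicit false
set_option linter.unusedSectionVars false
set_option linter.unusedVariables false
set_option linter.style.haveILetI false

namespace Fermat.Agent.S36.H85

open Fermat.Agent.S34 Fermat.Agent.S34.H47 Fermat.Agent.S36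

universe u

section Const

variable {R K B' F1 : Type*} [CommRing R] [Field K] [Algebra R K]
  [CommRing B'] [IsDomain B'] [Field F1] [Algebra B' F1] [IsFractionRing B' F1]
  [Algebra R B'] [Algebra R F1] [Algebra K F1] [IsScalarTower R B' F1] [IsScalarTower R K F1]

/-- A constant of valuation `1` (`A` = the image of `R` in `K`) is a unit of every local ring of
a chart over `R`. -/
theorem unitIn_locSubring_const (A : ValuationSubring K)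
    (hAR : ∀ x ∈ A, ∃ r : R, algebraMap R K r = x) {c : K} (hc : A.valuation c = 1)
    (n' : Ideal B') [hn' : n'.IsPrime] :
    UnitIn (H21.locSubring (F := F1) n') (algebraMap K F1 c) := by
  have hc0 : c ≠ 0 := by
    intro h0
    rw [h0, map_zero] at hc
    exact zero_ne_one hc
  have hcA : c ∈ A := by
    rw [← A.valuation_le_one_iff, hc]
  have hciA : c⁻¹ ∈ A := by
    rw [← A.valuation_le_one_iff, map_inv₀, hc, inv_one]
  obtain ⟨r, hr⟩ := hAR c hcA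
  obtain ⟨r', hr'⟩ := hAR c⁻¹ hciA
  have e : ∀ (x : K) (s : R), algebraMap R K s = x →
      algebraMap K F1 x = algebraMap B' F1 (algebraMap R B' s) := by
    intro x s hs
    rw [← hs, ← IsScalarTower.algebraMap_apply R K F1, IsScalarTower.algebraMap_apply R B' F1]
  refine ⟨?_, ?_, ?_⟩
  · rw [e c r hr]
    exact H21.algebraMap_mem_locSubring n' _
  · rw [← map_inv₀, e c⁻¹ r' hr']
    exact H21.algebraMap_mem_locSubring n' _
  · exact (map_ne_zero (algebraMap K F1)).2 hc0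

end Const

section Rows

variable {R : Type u} {F2 : Type*} [CommRing R] [IsDomain R] [IsDiscreteValuationRing R]
  [Field F2] [Algebra R F2]
  (B₁ B₂ : Subalgebra R F2) [IsFractionRing B₁ F2] [IsFractionRing B₂ F2]
  [IsNoetherianRing B₁] [IsNoetherianRing B₂] [IsIntegrallyClosed B₁] [IsIntegrallyClosed B₂]
  (π : R)
  (P₁ : Fin 3 → Ideal B₁) (P₂ : Fin 3 → Ideal B₂)
  [hP₁ : ∀ i, (P₁ i).IsPrime] [hP₂ : ∀ i, (P₂ i).IsPrime]
  (hh₁ : ∀ i, (P₁ i).height = 1) (hh₂ : ∀ i, (P₂ i).height = 1)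
  {B' F1 : Type*} [CommRing B'] [IsDomain B'] [Field F1] [Algebra B' F1] [IsFractionRing B' F1]
  [IsNoetherianRing B'] [IsIntegrallyClosed B'] [Algebra R F1] [Algebra R B']
  [IsScalarTower R B' F1]
  {D : Type*} [CommRing D] [IsDomain D]
  {red₁ red₂ red₃ : B₁ →+* D} {red₁' red₂' : B' →+* D} {α β : B' →+* B₁} {W : D →+* D}
  {B₂' D₂ : Type*} [CommRing B₂'] [CommRing D₂]
  {ρ₁ ρ₂ ρ₃ : B₂ →+* D₂} {ρ₁' ρ₂' : B₂' →+* D₂} {α₂ β₂ : B₂' →+* B₂} {W₂ : D₂ →+* D₂}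

/-- **`hpt` at the closed points of chart 1**, residue field `R ⧸ (π)`. -/
theorem hpt_chart1_of_rows (hπ : Irreducible π)
    (h : H83.LevelMaps red₁ red₂ red₃ red₁' red₂' α β W) {q m : ℕ} (hq : 0 < q) (hm : 0 < m)
    {qB : B₁} {qB' : B'} (hqα : α qB' = qB) (hqβ : β qB' = qB)
    (hthree : ∀ P : Ideal B₁, P.IsPrime → qB ∈ P →
      RingHom.ker red₁ ≤ P ∨ RingHom.ker red₂ ≤ P ∨ RingHom.ker red₃ ≤ P)
    (hred₁' : Function.Surjective red₁') (hred₂' : Function.Surjective red₂')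
    (hW : ∀ r : D, ∃ r₂ : D, W r₂ = r ^ q)
    (hq1' : red₁' qB' = 0) (hq2' : red₂' qB' = 0)
    (hintα : α.IsIntegral) (hintβ : β.IsIntegral)
    {s₁ : B'} (hs11 : red₁' s₁ = 0) (hs12 : red₂' s₁ ≠ 0)
    {s₂ : B'} (hs22 : red₂' s₂ = 0) (hs21 : red₁' s₂ ≠ 0)
    (a b : F1 →+* F2)
    (haα : ∀ x, algebraMap B₁ F2 (α x) = a (algebraMap B' F1 x))
    (hbβ : ∀ x, algebraMap B₁ F2 (β x) = b (algebraMap B' F1 x))
    (hαR : ∀ c : R, α (algebraMap R B' c) = algebraMap R B₁ c)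
    (hβR : ∀ c : R, β (algebraMap R B' c) = algebraMap R B₁ c)
    (Na Nb : F2 →*₀ F1)
    (hfda : letI := a.toAlgebra; FiniteDimensional F1 F2)
    (hNa : ∀ x : F2, Na x = (letI := a.toAlgebra; Algebra.norm F1 x))
    (hfdb : letI := b.toAlgebra; FiniteDimensional F1 F2)
    (hNb : ∀ x : F2, Nb x = (letI := b.toAlgebra; Algebra.norm F1 x))
    (hP0 : P₁ 0 = RingHom.ker red₁) (hP1 : P₁ 1 = RingHom.ker red₂)
    (hP2 : P₁ 2 = RingHom.ker red₃)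
    (P'F P'V : Ideal B') [hP'F : P'F.IsPrime] [hP'V : P'V.IsPrime]
    (hF : P'F.height = 1) (hV : P'V.height = 1)
    (hP'F1 : P'F = RingHom.ker red₁') (hP'V2 : P'V = RingHom.ker red₂')
    {WF WV : ValuationSubring F1}
    (hWF : WF = H56.valuationSubringAt (K := F1) P'F hF)
    (hWV : WV = H56.valuationSubringAt (K := F1) P'V hV)
    (hres₁ : ∀ n : H21.ClosedPt B₁ π, ∀ b : B₁, ∃ c : R, b - algebraMap R B₁ c ∈ n.1)
    {ζ ca cb : F1}
    (hζ : ∀ (n' : Ideal B') [n'.IsPrime], UnitIn (H21.locSubring (F := F1) n') ζ)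
    (hca : ∀ (n' : Ideal B') [n'.IsPrime], UnitIn (H21.locSubring (F := F1) n') ca)
    (hcb : ∀ (n' : Ideal B') [n'.IsPrime], UnitIn (H21.locSubring (F := F1) n') cb)
    (n1 : H21.ClosedPt B₁ π) :
    (∃ i₀, ∀ i, P₁ i ≤ n1.1 → i = i₀) ∨
      ((∀ i, P₁ i ≤ n1.1) ∧ ∃ (κ : Type u) (_ : Field κ),
        TripleLoc a b Na Nb q m (fun i => H56.valuationSubringAt (K := F2) (P₁ i) (hh₁ i))
          WF WV ζ ca cb κ (H21.ptO B₁ B₂ π (Sum.inl n1))) := by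
  haveI hπmax : (Ideal.span {π}).IsMaximal := PrincipalIdealRing.isMaximal_of_irreducible hπ
  haveI hn1 : n1.1.IsMaximal := n1.2.1
  have key := hpt_of_levelMaps_fixed (R := R) (F1 := F1) (F2 := F2) h hq hm hqα hqβ hthree
    hred₁' hred₂' hW hq1' hq2' hintα hintβ hs11 hs12 hs22 hs21 a b haα hbβ hαR hβR Na Nb hfda hNa
    hfdb hNb P₁ hh₁ hP0 hP1 hP2 P'F P'V hF hV hP'F1 hP'V2
    (V := fun i => H56.valuationSubringAt (K := F2) (P₁ i) (hh₁ i)) (fun i => rfl) hWF hWV π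
    hζ hca hcb n1.1 n1.2.2 (hres₁ n1)
  rcases key with h1 | ⟨hall, hT⟩
  · exact Or.inl h1
  · exact Or.inr ⟨hall, R ⧸ Ideal.span {π}, Ideal.Quotient.field _, hT⟩

/-- **The left disjunct of `hpt` at the points at infinity of chart 2.** -/
theorem hcusp_of_rows (h₂ : H83.LevelMaps ρ₁ ρ₂ ρ₃ ρ₁' ρ₂' α₂ β₂ W₂)
    {Jinv u v w ε ε' : B₂} {Jinv' : B₂'} {N N' : ℕ}
    (hJuvw : Jinv = u * v * w) (hαJ : α₂ Jinv' = u * v) (hβJ : β₂ Jinv' = v * w)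
    (hreluv : u * v * ε = u ^ (N + 1) + v ^ (N + 1))
    (hrelvw : v * w * ε' = v ^ (N' + 1) + w ^ (N' + 1))
    (hcusp' : ∀ n' : Ideal B₂', n'.IsPrime → RingHom.ker ρ₁' ≤ n' → RingHom.ker ρ₂' ≤ n' →
      Jinv' ∉ n')
    (hQ0 : P₂ 0 = RingHom.ker ρ₁) (hQ1 : P₂ 1 = RingHom.ker ρ₂) (hQ2 : P₂ 2 = RingHom.ker ρ₃)
    (n : H21.ClosedPt B₂ π) (hJn : Jinv ∈ n.1) : ∃ i₀, ∀ i, P₂ i ≤ n.1 → i = i₀ := by
  haveI : n.1.IsPrime := n.2.1.isPrime
  exact exists_unique_branch_of_cusp h₂ hJuvw hαJ hβJ hcusp' P₂ hQ0 hQ1 hQ2 n.1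
    (mem_iff_of_kronecker hreluv n.1) (mem_iff_of_kronecker hrelvw n.1) hJn

/-- **`hpt` for the two-chart model, general constants `ζ ca cb : F1`** (units of every local
ring of the level `q L` chart 1). -/
theorem hpt_of_rows (hπ : Irreducible π)
    -- chart 1
    (h : H83.LevelMaps red₁ red₂ red₃ red₁' red₂' α β W) {q m : ℕ} (hq : 0 < q) (hm : 0 < m)
    {qB : B₁} {qB' : B'} (hqα : α qB' = qB) (hqβ : β qB' = qB)
    (hthree : ∀ P : Ideal B₁, P.IsPrime → qB ∈ P →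
      RingHom.ker red₁ ≤ P ∨ RingHom.ker red₂ ≤ P ∨ RingHom.ker red₃ ≤ P)
    (hred₁' : Function.Surjective red₁') (hred₂' : Function.Surjective red₂')
    (hW : ∀ r : D, ∃ r₂ : D, W r₂ = r ^ q)
    (hq1' : red₁' qB' = 0) (hq2' : red₂' qB' = 0)
    (hintα : α.IsIntegral) (hintβ : β.IsIntegral)
    {s₁ : B'} (hs11 : red₁' s₁ = 0) (hs12 : red₂' s₁ ≠ 0)
    {s₂ : B'} (hs22 : red₂' s₂ = 0) (hs21 : red₁' s₂ ≠ 0)
    (a b : F1 →+* F2)
    (haα : ∀ x, algebraMap B₁ F2 (α x) = a (algebraMap B' F1 x))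
    (hbβ : ∀ x, algebraMap B₁ F2 (β x) = b (algebraMap B' F1 x))
    (hαR : ∀ c : R, α (algebraMap R B' c) = algebraMap R B₁ c)
    (hβR : ∀ c : R, β (algebraMap R B' c) = algebraMap R B₁ c)
    (Na Nb : F2 →*₀ F1)
    (hfda : letI := a.toAlgebra; FiniteDimensional F1 F2)
    (hNa : ∀ x : F2, Na x = (letI := a.toAlgebra; Algebra.norm F1 x))
    (hfdb : letI := b.toAlgebra; FiniteDimensional F1 F2)
    (hNb : ∀ x : F2, Nb x = (letI := b.toAlgebra; Algebra.norm F1 x))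
    (hP0 : P₁ 0 = RingHom.ker red₁) (hP1 : P₁ 1 = RingHom.ker red₂)
    (hP2 : P₁ 2 = RingHom.ker red₃)
    (P'F P'V : Ideal B') [hP'F : P'F.IsPrime] [hP'V : P'V.IsPrime]
    (hF : P'F.height = 1) (hV : P'V.height = 1)
    (hP'F1 : P'F = RingHom.ker red₁') (hP'V2 : P'V = RingHom.ker red₂')
    {WF WV : ValuationSubring F1}
    (hWF : WF = H56.valuationSubringAt (K := F1) P'F hF)
    (hWV : WV = H56.valuationSubringAt (K := F1) P'V hV)
    (hres₁ : ∀ n : H21.ClosedPt B₁ π, ∀ b : B₁, ∃ c : R, b - algebraMap R B₁ c ∈ n.1)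
    -- chart 2, points at infinity
    (h₂ : H83.LevelMaps ρ₁ ρ₂ ρ₃ ρ₁' ρ₂' α₂ β₂ W₂)
    {Jinv u v w ε ε' : B₂} {Jinv' : B₂'} {N N' : ℕ}
    (hJuvw : Jinv = u * v * w) (hαJ : α₂ Jinv' = u * v) (hβJ : β₂ Jinv' = v * w)
    (hreluv : u * v * ε = u ^ (N + 1) + v ^ (N + 1))
    (hrelvw : v * w * ε' = v ^ (N' + 1) + w ^ (N' + 1))
    (hcusp' : ∀ n' : Ideal B₂', n'.IsPrime → RingHom.ker ρ₁' ≤ n' → RingHom.ker ρ₂' ≤ n' →
      Jinv' ∉ n')
    (hQ0 : P₂ 0 = RingHom.ker ρ₁) (hQ1 : P₂ 1 = RingHom.ker ρ₂) (hQ2 : P₂ 2 = RingHom.ker ρ₃)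
    -- chart 2, finite points: (OVL-a)
    (hVeq : ∀ i, H56.valuationSubringAt (K := F2) (P₁ i) (hh₁ i) =
      H56.valuationSubringAt (K := F2) (P₂ i) (hh₂ i))
    (J₁ : B₁) (hJ : (J₁ : F2) * (Jinv : F2) = 1)
    (hint₁ : ∀ b : B₁, IsIntegral (Algebra.adjoin R {(J₁ : F2)}) (b : F2))
    (hint₂ : ∀ b : B₂, IsIntegral (Algebra.adjoin R {(Jinv : F2)}) (b : F2))
    (hres₂ : ∀ n : H21.ClosedPt B₂ π, ∀ b : B₂, ∃ c : R, b - algebraMap R B₂ c ∈ n.1)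
    -- constants
    {ζ ca cb : F1}
    (hζ : ∀ (n' : Ideal B') [n'.IsPrime], UnitIn (H21.locSubring (F := F1) n') ζ)
    (hca : ∀ (n' : Ideal B') [n'.IsPrime], UnitIn (H21.locSubring (F := F1) n') ca)
    (hcb : ∀ (n' : Ideal B') [n'.IsPrime], UnitIn (H21.locSubring (F := F1) n') cb) :
    ∀ n, (∃ i₀, ∀ i, H21.primeThr (π := π) P₁ P₂ n i → i = i₀) ∨
      ((∀ i, H21.primeThr (π := π) P₁ P₂ n i) ∧ ∃ (κ : Type u) (_ : Field κ),
        TripleLoc a b Na Nb q m (fun i => H56.valuationSubringAt (K := F2) (P₁ i) (hh₁ i))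
          WF WV ζ ca cb κ (H21.ptO B₁ B₂ π n)) :=
  hpt_two_charts_of_first P₁ P₂
    (fun O => ∃ (κ : Type u) (_ : Field κ),
      TripleLoc a b Na Nb q m (fun i => H56.valuationSubringAt (K := F2) (P₁ i) (hh₁ i))
        WF WV ζ ca cb κ O) Jinv
    (fun n1 => hpt_chart1_of_rows B₁ B₂ π P₁ hh₁ hπ h hq hm hqα hqβ hthree hred₁' hred₂' hW hq1'
      hq2' hintα hintβ hs11 hs12 hs22 hs21 a b haα hbβ hαR hβR Na Nb hfda hNa hfdb hNb hP0 hP1
      hP2 P'F P'V hF hV hP'F1 hP'V2 hWF hWV hres₁ hζ hca hcb n1)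
    (fun n hJn => hcusp_of_rows B₂ π P₂ h₂ hJuvw hαJ hβJ hreluv hrelvw hcusp' hQ0 hQ1 hQ2 n hJn)
    (H62.hoverlap_two_charts B₁ B₂ π P₁ P₂ hh₁ hh₂ hVeq hπ J₁ Jinv hJ hint₁ hint₂ hres₂)

section RowsConst

variable {K : Type*} [Field K] [Algebra R K] [Algebra K F1] [IsScalarTower R K F1]

/-- **`hpt` for the two-chart model, constants from `K`** (`A` = the image of `R` in `K`): the
`hpt` binder of `S36.H18.geoFn36E_of_twoCharts` (without its unused `IsPrimitiveRoot` premise). -/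
theorem hpt_of_rows_const (hπ : Irreducible π)
    -- chart 1
    (h : H83.LevelMaps red₁ red₂ red₃ red₁' red₂' α β W) {q m : ℕ} (hq : 0 < q) (hm : 0 < m)
    {qB : B₁} {qB' : B'} (hqα : α qB' = qB) (hqβ : β qB' = qB)
    (hthree : ∀ P : Ideal B₁, P.IsPrime → qB ∈ P →
      RingHom.ker red₁ ≤ P ∨ RingHom.ker red₂ ≤ P ∨ RingHom.ker red₃ ≤ P)
    (hred₁' : Function.Surjective red₁') (hred₂' : Function.Surjective red₂')
    (hW : ∀ r : D, ∃ r₂ : D, W r₂ = r ^ q)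
    (hq1' : red₁' qB' = 0) (hq2' : red₂' qB' = 0)
    (hintα : α.IsIntegral) (hintβ : β.IsIntegral)
    {s₁ : B'} (hs11 : red₁' s₁ = 0) (hs12 : red₂' s₁ ≠ 0)
    {s₂ : B'} (hs22 : red₂' s₂ = 0) (hs21 : red₁' s₂ ≠ 0)
    (a b : F1 →+* F2)
    (haα : ∀ x, algebraMap B₁ F2 (α x) = a (algebraMap B' F1 x))
    (hbβ : ∀ x, algebraMap B₁ F2 (β x) = b (algebraMap B' F1 x))
    (hαR : ∀ c : R, α (algebraMap R B' c) = algebraMap R B₁ c)
    (hβR : ∀ c : R, β (algebraMap R B' c) = algebraMap R B₁ c)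
    (Na Nb : F2 →*₀ F1)
    (hfda : letI := a.toAlgebra; FiniteDimensional F1 F2)
    (hNa : ∀ x : F2, Na x = (letI := a.toAlgebra; Algebra.norm F1 x))
    (hfdb : letI := b.toAlgebra; FiniteDimensional F1 F2)
    (hNb : ∀ x : F2, Nb x = (letI := b.toAlgebra; Algebra.norm F1 x))
    (hP0 : P₁ 0 = RingHom.ker red₁) (hP1 : P₁ 1 = RingHom.ker red₂)
    (hP2 : P₁ 2 = RingHom.ker red₃)
    (P'F P'V : Ideal B') [hP'F : P'F.IsPrime] [hP'V : P'V.IsPrime]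
    (hF : P'F.height = 1) (hV : P'V.height = 1)
    (hP'F1 : P'F = RingHom.ker red₁') (hP'V2 : P'V = RingHom.ker red₂')
    {WF WV : ValuationSubring F1}
    (hWF : WF = H56.valuationSubringAt (K := F1) P'F hF)
    (hWV : WV = H56.valuationSubringAt (K := F1) P'V hV)
    (hres₁ : ∀ n : H21.ClosedPt B₁ π, ∀ b : B₁, ∃ c : R, b - algebraMap R B₁ c ∈ n.1)
    -- chart 2, points at infinity
    (h₂ : H83.LevelMaps ρ₁ ρ₂ ρ₃ ρ₁' ρ₂' α₂ β₂ W₂)
    {Jinv u v w ε ε' : B₂} {Jinv' : B₂'} {N N' : ℕ}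
    (hJuvw : Jinv = u * v * w) (hαJ : α₂ Jinv' = u * v) (hβJ : β₂ Jinv' = v * w)
    (hreluv : u * v * ε = u ^ (N + 1) + v ^ (N + 1))
    (hrelvw : v * w * ε' = v ^ (N' + 1) + w ^ (N' + 1))
    (hcusp' : ∀ n' : Ideal B₂', n'.IsPrime → RingHom.ker ρ₁' ≤ n' → RingHom.ker ρ₂' ≤ n' →
      Jinv' ∉ n')
    (hQ0 : P₂ 0 = RingHom.ker ρ₁) (hQ1 : P₂ 1 = RingHom.ker ρ₂) (hQ2 : P₂ 2 = RingHom.ker ρ₃)
    -- chart 2, finite points: (OVL-a)
    (hVeq : ∀ i, H56.valuationSubringAt (K := F2) (P₁ i) (hh₁ i) =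
      H56.valuationSubringAt (K := F2) (P₂ i) (hh₂ i))
    (J₁ : B₁) (hJ : (J₁ : F2) * (Jinv : F2) = 1)
    (hint₁ : ∀ b : B₁, IsIntegral (Algebra.adjoin R {(J₁ : F2)}) (b : F2))
    (hint₂ : ∀ b : B₂, IsIntegral (Algebra.adjoin R {(Jinv : F2)}) (b : F2))
    (hres₂ : ∀ n : H21.ClosedPt B₂ π, ∀ b : B₂, ∃ c : R, b - algebraMap R B₂ c ∈ n.1)
    -- constants
    (A : ValuationSubring K) (hAR : ∀ x ∈ A, ∃ r : R, algebraMap R K r = x) :
    ∀ ζ : K, A.valuation ζ = 1 → ∀ ca cb : K, A.valuation ca = 1 → A.valuation cb = 1 → ∀ n,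
      (∃ i₀, ∀ i, H21.primeThr (π := π) P₁ P₂ n i → i = i₀) ∨
      ((∀ i, H21.primeThr (π := π) P₁ P₂ n i) ∧ ∃ (κ : Type u) (_ : Field κ),
        TripleLoc a b Na Nb q m (fun i => H56.valuationSubringAt (K := F2) (P₁ i) (hh₁ i))
          WF WV (algebraMap K F1 ζ) (algebraMap K F1 ca) (algebraMap K F1 cb) κ
          (H21.ptO B₁ B₂ π n)) :=
  fun ζ hζ ca cb hca hcb =>
    hpt_of_rows B₁ B₂ π P₁ P₂ hh₁ hh₂ hπ h hq hm hqα hqβ hthree hred₁' hred₂' hW hq1' hq2' hintα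
      hintβ hs11 hs12 hs22 hs21 a b haα hbβ hαR hβR Na Nb hfda hNa hfdb hNb hP0 hP1 hP2 P'F P'V hF
      hV hP'F1 hP'V2 hWF hWV hres₁ h₂ hJuvw hαJ hβJ hreluv hrelvw hcusp' hQ0 hQ1 hQ2 hVeq J₁ hJ
      hint₁ hint₂ hres₂
      (fun n' _ => unitIn_locSubring_const (R := R) A hAR hζ n')
      (fun n' _ => unitIn_locSubring_const (R := R) A hAR hca n')
      (fun n' _ => unitIn_locSubring_const (R := R) A hAR hcb n')

/-- **The `hpt` binder of `S36.H18.geoFn36E_of_twoCharts` VERBATIM** (and, for each `ζ`, that of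
`S36.H69.geo36_two_charts_final`). -/
theorem hpt_of_rows_normalised (hπ : Irreducible π)
    -- chart 1
    (h : H83.LevelMaps red₁ red₂ red₃ red₁' red₂' α β W) {q m : ℕ} (hq : 0 < q) (hm : 0 < m)
    {qB : B₁} {qB' : B'} (hqα : α qB' = qB) (hqβ : β qB' = qB)
    (hthree : ∀ P : Ideal B₁, P.IsPrime → qB ∈ P →
      RingHom.ker red₁ ≤ P ∨ RingHom.ker red₂ ≤ P ∨ RingHom.ker red₃ ≤ P)
    (hred₁' : Function.Surjective red₁') (hred₂' : Function.Surjective red₂')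
    (hW : ∀ r : D, ∃ r₂ : D, W r₂ = r ^ q)
    (hq1' : red₁' qB' = 0) (hq2' : red₂' qB' = 0)
    (hintα : α.IsIntegral) (hintβ : β.IsIntegral)
    {s₁ : B'} (hs11 : red₁' s₁ = 0) (hs12 : red₂' s₁ ≠ 0)
    {s₂ : B'} (hs22 : red₂' s₂ = 0) (hs21 : red₁' s₂ ≠ 0)
    (a b : F1 →+* F2)
    (haα : ∀ x, algebraMap B₁ F2 (α x) = a (algebraMap B' F1 x))
    (hbβ : ∀ x, algebraMap B₁ F2 (β x) = b (algebraMap B' F1 x))
    (hαR : ∀ c : R, α (algebraMap R B' c) = algebraMap R B₁ c)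
    (hβR : ∀ c : R, β (algebraMap R B' c) = algebraMap R B₁ c)
    (Na Nb : F2 →*₀ F1)
    (hfda : letI := a.toAlgebra; FiniteDimensional F1 F2)
    (hNa : ∀ x : F2, Na x = (letI := a.toAlgebra; Algebra.norm F1 x))
    (hfdb : letI := b.toAlgebra; FiniteDimensional F1 F2)
    (hNb : ∀ x : F2, Nb x = (letI := b.toAlgebra; Algebra.norm F1 x))
    (hP0 : P₁ 0 = RingHom.ker red₁) (hP1 : P₁ 1 = RingHom.ker red₂)
    (hP2 : P₁ 2 = RingHom.ker red₃)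
    (P'F P'V : Ideal B') [hP'F : P'F.IsPrime] [hP'V : P'V.IsPrime]
    (hF : P'F.height = 1) (hV : P'V.height = 1)
    (hP'F1 : P'F = RingHom.ker red₁') (hP'V2 : P'V = RingHom.ker red₂')
    {WF WV : ValuationSubring F1}
    (hWF : WF = H56.valuationSubringAt (K := F1) P'F hF)
    (hWV : WV = H56.valuationSubringAt (K := F1) P'V hV)
    (hres₁ : ∀ n : H21.ClosedPt B₁ π, ∀ b : B₁, ∃ c : R, b - algebraMap R B₁ c ∈ n.1)
    -- chart 2, points at infinity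
    (h₂ : H83.LevelMaps ρ₁ ρ₂ ρ₃ ρ₁' ρ₂' α₂ β₂ W₂)
    {Jinv u v w ε ε' : B₂} {Jinv' : B₂'} {N N' : ℕ}
    (hJuvw : Jinv = u * v * w) (hαJ : α₂ Jinv' = u * v) (hβJ : β₂ Jinv' = v * w)
    (hreluv : u * v * ε = u ^ (N + 1) + v ^ (N + 1))
    (hrelvw : v * w * ε' = v ^ (N' + 1) + w ^ (N' + 1))
    (hcusp' : ∀ n' : Ideal B₂', n'.IsPrime → RingHom.ker ρ₁' ≤ n' → RingHom.ker ρ₂' ≤ n' →
      Jinv' ∉ n')
    (hQ0 : P₂ 0 = RingHom.ker ρ₁) (hQ1 : P₂ 1 = RingHom.ker ρ₂) (hQ2 : P₂ 2 = RingHom.ker ρ₃)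
    -- chart 2, finite points: (OVL-a)
    (hVeq : ∀ i, H56.valuationSubringAt (K := F2) (P₁ i) (hh₁ i) =
      H56.valuationSubringAt (K := F2) (P₂ i) (hh₂ i))
    (J₁ : B₁) (hJ : (J₁ : F2) * (Jinv : F2) = 1)
    (hint₁ : ∀ b : B₁, IsIntegral (Algebra.adjoin R {(J₁ : F2)}) (b : F2))
    (hint₂ : ∀ b : B₂, IsIntegral (Algebra.adjoin R {(Jinv : F2)}) (b : F2))
    (hres₂ : ∀ n : H21.ClosedPt B₂ π, ∀ b : B₂, ∃ c : R, b - algebraMap R B₂ c ∈ n.1)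
    -- constants
    (A : ValuationSubring K) (hAR : ∀ x ∈ A, ∃ r : R, algebraMap R K r = x) :
    ∀ ζ : K, IsPrimitiveRoot ζ m → A.valuation ζ = 1 →
      ∀ ca cb : K, H69.NormalisedConst A WF WV ca → H69.NormalisedConst A WF WV cb → ∀ n,
      (∃ i₀, ∀ i, H21.primeThr (π := π) P₁ P₂ n i → i = i₀) ∨
      ((∀ i, H21.primeThr (π := π) P₁ P₂ n i) ∧ ∃ (κ : Type u) (_ : Field κ),
        TripleLoc a b Na Nb q m (fun i => H56.valuationSubringAt (K := F2) (P₁ i) (hh₁ i))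
          WF WV (algebraMap K F1 ζ) (algebraMap K F1 ca) (algebraMap K F1 cb) κ
          (H21.ptO B₁ B₂ π n)) :=
  fun ζ _ hζ ca cb hca hcb =>
    hpt_of_rows_const B₁ B₂ π P₁ P₂ hh₁ hh₂ hπ h hq hm hqα hqβ hthree hred₁' hred₂' hW hq1' hq2'
      hintα hintβ hs11 hs12 hs22 hs21 a b haα hbβ hαR hβR Na Nb hfda hNa hfdb hNb hP0 hP1 hP2 P'F
      P'V hF hV hP'F1 hP'V2 hWF hWV hres₁ h₂ hJuvw hαJ hβJ hreluv hrelvw hcusp' hQ0 hQ1 hQ2 hVeq J₁
      hJ hint₁ hint₂ hres₂ A hAR ζ hζ ca cb hca.1 hcb.1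

end RowsConst

end Rows

end Fermat.Agent.S36.H85
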