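/-
helper69 -- S36 (Carayol), row (E7), SEAM (r4)+(r5)+(OVL-a)+(OVL-b) → (E7a): **the two-chart
skeleton from the rows, with `hcusp` and `hoverlap` derived ONCE from their row inputs**

* `hcusp`    := `S36.H85.hcusp_of_rows` (chart-2 `LevelMaps`, `J₃⁻¹ = u v w`, the two Kronecker
  relations, (M2-cusp) `hcusp'` at level `q L`),
* `hoverlap` := `S36.H62.hoverlap_two_charts` (`J₁ J₂ = 1`, both charts integral over `R[J^{±1}]`,
  rationality of the closed points of chart 2),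

and fed to BOTH `hpt` (r5) and `hE4` (r4) of `S36.H69.geo36_two_charts_of_rows`.
-/
import Mathlib
import Fermat.Agent.S36.H69_Geo36Rows
import Fermat.Agent.S36.H85_HptRows

set_option autoImplicit false
set_option linter.unusedSectionVars false
set_option linter.unusedVariables false
set_option linter.style.haveILetI false

namespace Fermat.Agent.S36.H69

open Fermat.Agent.S34 Fermat.Agent.S34.H47 Fermat.Agent.S35 Fermat.Agent.S36.H85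
  Fermat.Agent.S36.H46 Fermat.Agent.S36.H83 AlgebraicCurve

section Rows2

variable {R F2 : Type*} [CommRing R] [IsDomain R] [IsDiscreteValuationRing R]
  [Field F2] [Algebra R F2]
  {B₁ B₂ : Subalgebra R F2} [IsFractionRing B₁ F2] [IsFractionRing B₂ F2]
  [IsNoetherianRing B₁] [IsNoetherianRing B₂] [IsIntegrallyClosed B₁] [IsIntegrallyClosed B₂]
  {π : R}
  (P₁ : Fin 3 → Ideal B₁) (P₂ : Fin 3 → Ideal B₂)
  [hP₁ : ∀ i, (P₁ i).IsPrime] [hP₂ : ∀ i, (P₂ i).IsPrime]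
  (hh₁ : ∀ i, (P₁ i).height = 1) (hh₂ : ∀ i, (P₂ i).height = 1)
  {B' F1 : Type*} [CommRing B'] [IsDomain B'] [Field F1] [Algebra B' F1] [IsFractionRing B' F1]
  [IsNoetherianRing B'] [IsIntegrallyClosed B']
  [Algebra R F1] [Algebra R B'] [IsScalarTower R B' F1]
  {K : Type*} [Field K] [Algebra K F1] [Algebra K F2] [Algebra R K] [IsScalarTower R K F1]
  [IsScalarTower R K F2] [IsLocalization.Away π K]
  {D₁ BM₁ : Type*} [CommRing D₁] [IsDedekindDomain D₁] [CommRing BM₁]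
  {red₁ red₂ red₃ : B₁ →+* D₁} {ιu ιv ιw : BM₁ →+* B₁} {rbar : BM₁ →+* D₁} {W : D₁ →+* D₁}
  {red₁' red₂' : B' →+* D₁} {α β : B' →+* B₁}
  {D₂ BM₂ : Type*} [CommRing D₂] [IsDedekindDomain D₂] [CommRing BM₂]
  {ρ₁ ρ₂ ρ₃ : B₂ →+* D₂} {κu κv κw : BM₂ →+* B₂} {rbar₂ : BM₂ →+* D₂} {W₂ : D₂ →+* D₂}
  {B₂' : Type*} [CommRing B₂'] {ρ₁' ρ₂' : B₂' →+* D₂} {α₂ β₂ : B₂' →+* B₂}
  {a b : F1 →+* F2} {Na Nb : F2 →*₀ F1} {q m : ℕ}
  {WF WV : ValuationSubring F1}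

/-- **(E7a) + (r4) + (r5) + (OVL-a) + (OVL-b): the two-chart skeleton from the rows**, `hcusp` and
`hoverlap` derived from their row inputs. -/
theorem geo36_two_charts_of_rows' (hπirr : Irreducible π) (hq2le : 2 ≤ q) (hm : 0 < m)
    -- the two-chart model
    (hqπ : π ∣ (q : R)) (hmq : Nat.Coprime m q) (hinj : Function.Injective P₁)
    (hVeq : ∀ i, H56.valuationSubringAt (K := F2) (P₁ i) (hh₁ i) =
      H56.valuationSubringAt (K := F2) (P₂ i) (hh₂ i))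
    (hbranch₁ : ∀ i, IsIntegrallyClosed (B₁ ⧸ P₁ i))
    (hbranch₂ : ∀ i, IsIntegrallyClosed (B₂ ⧸ P₂ i))
    -- constants
    {qK : K} (hqK : qK ≠ 0) {d : ℕ}
    (hNaK : ∀ c : K, Na (algebraMap K F2 c) = algebraMap K F1 c ^ d)
    (hNbK : ∀ c : K, Nb (algebraMap K F2 c) = algebraMap K F1 c ^ d)
    -- NORMCONST inputs
    (A : ValuationSubring K)
    (hWFlt : ∀ x : K, A.valuation x < 1 → WF.valuation (algebraMap K F1 x) < 1)
    (hWVlt : ∀ x : K, A.valuation x < 1 → WV.valuation (algebraMap K F1 x) < 1)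
    {πK : K} (hπ0 : πK ≠ 0) (hπlt : A.valuation πK < 1)
    (hπ : ∀ c : K, c ≠ 0 → ∃ n : ℤ, A.valuation (c * πK ^ (-n)) = 1)
    (hπWF : ∀ x : F1, x ≠ 0 → ∃ n : ℤ, WF.valuation (x * (algebraMap K F1 πK) ^ (-n)) = 1)
    (hπWV : ∀ x : F1, x ≠ 0 → ∃ n : ℤ, WV.valuation (x * (algebraMap K F1 πK) ^ (-n)) = 1)
    (hAWF : ∀ x : K, A.valuation x = 1 → WF.valuation (algebraMap K F1 x) = 1)
    (hAWV : ∀ x : K, A.valuation x = 1 → WV.valuation (algebraMap K F1 x) = 1)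
    (hroot : ∀ c : K, A.valuation c = 1 →
      ∃ c1 : K, A.valuation c1 = 1 ∧ A.valuation (c / c1 ^ m - 1) < 1)
    (hAunit : ∀ c : K, A.valuation c = 1 → ∃ r : Rˣ, c = algebraMap R K r)
    -- (E5)/(E6) global tower data
    (HVa : TowerValU a Na q (H56.valuationSubringAt (K := F2) (P₁ 0) (hh₁ 0))
      (H56.valuationSubringAt (K := F2) (P₁ 1) (hh₁ 1))
      (H56.valuationSubringAt (K := F2) (P₁ 2) (hh₁ 2)) WF WV)
    (HVb : TowerValU b Nb q (H56.valuationSubringAt (K := F2) (P₁ 2) (hh₁ 2))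
      (H56.valuationSubringAt (K := F2) (P₁ 1) (hh₁ 1))
      (H56.valuationSubringAt (K := F2) (P₁ 0) (hh₁ 0)) WV WF)
    {ζK : K} (hζ : IsPrimitiveRoot ζK m) (hζA : A.valuation ζK = 1)
    (hab : a (algebraMap K F1 ζK) = b (algebraMap K F1 ζK))
    -- (E2) chart 1: three components + level maps
    (h₁ : ThreeComponents red₁ red₂ red₃ ιu ιv ιw rbar W q (algebraMap R B₁ π))
    (hL : LevelMaps red₁ red₂ red₃ red₁' red₂' α β W) (hD₁ : ¬ IsField D₁)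
    (hπ₁ : algebraMap R B₁ π ≠ 0) (hq1 : red₁ (algebraMap R B₁ π) = 0)
    (hq2 : red₂ (algebraMap R B₁ π) = 0) (hq3 : red₃ (algebraMap R B₁ π) = 0)
    (hred₁' : Function.Surjective red₁') (hred₂' : Function.Surjective red₂')
    (hW : ∀ r : D₁, ∃ r₂ : D₁, W r₂ = r ^ q)
    (hW2 : ∃ d : D₁, W (W d) ≠ d) (hW4 : ∃ d : D₁, W (W (W (W d))) ≠ d)
    (hq1' : red₁' (algebraMap R B' π) = 0) (hq2' : red₂' (algebraMap R B' π) = 0)
    (hintα : α.IsIntegral) (hintβ : β.IsIntegral)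
    {s₁ : B'} (hs11 : red₁' s₁ = 0) (hs12 : red₂' s₁ ≠ 0)
    {s₂ : B'} (hs22 : red₂' s₂ = 0) (hs21 : red₁' s₂ ≠ 0)
    (haα : ∀ x, algebraMap B₁ F2 (α x) = a (algebraMap B' F1 x))
    (hbβ : ∀ x, algebraMap B₁ F2 (β x) = b (algebraMap B' F1 x))
    (hαR : ∀ c : R, α (algebraMap R B' c) = algebraMap R B₁ c)
    (hβR : ∀ c : R, β (algebraMap R B' c) = algebraMap R B₁ c)
    (hfda : letI := a.toAlgebra; FiniteDimensional F1 F2)
    (hNa : ∀ x : F2, Na x = (letI := a.toAlgebra; Algebra.norm F1 x))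
    (hfdb : letI := b.toAlgebra; FiniteDimensional F1 F2)
    (hNb : ∀ x : F2, Nb x = (letI := b.toAlgebra; Algebra.norm F1 x))
    (hP₁0 : P₁ 0 = RingHom.ker red₁) (hP₁1 : P₁ 1 = RingHom.ker red₂)
    (hP₁2 : P₁ 2 = RingHom.ker red₃)
    (P'F P'V : Ideal B') [hP'F : P'F.IsPrime] [hP'V : P'V.IsPrime]
    (hF : P'F.height = 1) (hV : P'V.height = 1)
    (hP'F1 : P'F = RingHom.ker red₁') (hP'V2 : P'V = RingHom.ker red₂')
    (hWF : WF = H56.valuationSubringAt (K := F1) P'F hF)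
    (hWV : WV = H56.valuationSubringAt (K := F1) P'V hV)
    (hresB : ∀ n1 : H21.ClosedPt B₁ π, ∀ x : B₁, ∃ c : R, x - algebraMap R B₁ c ∈ n1.1)
    -- (M2), (M4) on chart 1
    (hM2 : H62.RegularCrossings red₁' red₂')
    (hM4 : H62.MiddleUnit red₁ red₂ red₃ q (algebraMap R B₁ π))
    -- (E2) chart 2
    (h₂ : ThreeComponents ρ₁ ρ₂ ρ₃ κu κv κw rbar₂ W₂ q (algebraMap R B₂ π))
    (hD₂ : ¬ IsField D₂)
    (hπ₂ : algebraMap R B₂ π ≠ 0) (hr1 : ρ₁ (algebraMap R B₂ π) = 0)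
    (hr2 : ρ₂ (algebraMap R B₂ π) = 0) (hr3 : ρ₃ (algebraMap R B₂ π) = 0)
    (hP₂0 : P₂ 0 = RingHom.ker ρ₁) (hP₂1 : P₂ 1 = RingHom.ker ρ₂)
    (hP₂2 : P₂ 2 = RingHom.ker ρ₃)
    -- (OVL-b) chart 2, points at infinity
    (hL₂ : LevelMaps ρ₁ ρ₂ ρ₃ ρ₁' ρ₂' α₂ β₂ W₂)
    {Jinv u v w ε ε' : B₂} {Jinv' : B₂'} {N N' : ℕ}
    (hJuvw : Jinv = u * v * w) (hαJ : α₂ Jinv' = u * v) (hβJ : β₂ Jinv' = v * w)
    (hreluv : u * v * ε = u ^ (N + 1) + v ^ (N + 1))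
    (hrelvw : v * w * ε' = v ^ (N' + 1) + w ^ (N' + 1))
    (hcusp' : ∀ n' : Ideal B₂', n'.IsPrime → RingHom.ker ρ₁' ≤ n' → RingHom.ker ρ₂' ≤ n' →
      Jinv' ∉ n')
    -- (OVL-a) chart 2, finite points
    (J₁ : B₁) (hJ : (J₁ : F2) * (Jinv : F2) = 1)
    (hint₁ : ∀ x : B₁, IsIntegral (Algebra.adjoin R {(J₁ : F2)}) (x : F2))
    (hint₂ : ∀ x : B₂, IsIntegral (Algebra.adjoin R {(Jinv : F2)}) (x : F2))
    (hres₂ : ∀ n : H21.ClosedPt B₂ π, ∀ x : B₂, ∃ c : R, x - algebraMap R B₂ c ∈ n.1)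
    -- (M4r2) the middle cusps of chart 2
    (hM4r2 : ∀ n₂ : H21.ClosedPt B₂ π, Jinv ∈ n₂.1 → RingHom.ker ρ₂ ≤ n₂.1 →
      ∃ θ : B₂, ρ₂ θ = 0 ∧ θ ≠ 0 ∧
        ∃ e t : B₂, e ∉ n₂.1 ∧ t ∉ n₂.1 ∧ t * θ ^ (q - 1) = e * algebraMap R B₂ π)
    -- (E1) the radical Kummer criterion
    (crit : ∀ u : F2, u ≠ 0 →
      RadDatum (H21.ptO B₁ B₂ π) (fun i => H56.valuationSubringAt (K := F2) (P₁ i) (hh₁ i))
        (H21.primeThr (π := π) P₁ P₂) u m →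
      ∃ (c : K) (g : F2), u = algebraMap K F2 c * g ^ m)
    -- the function, its two norm identities and its horizontal orders
    {f : F2} (hf : f ≠ 0)
    (hNα : ∃ (c : K) (h : F1), c ≠ 0 ∧ h ≠ 0 ∧ Na f = algebraMap K F1 c * h ^ m)
    (hNβ : ∃ (c : K) (h : F1), c ≠ 0 ∧ h ≠ 0 ∧ Nb f = algebraMap K F1 c * h ^ m)
    (hhor : ∀ w : Place K F2, (m : ℤ) ∣ w.ord f)
    -- (E3)
    (hE3 : ∃ (s : ℤ) (g : F2), g ≠ 0 ∧
      ∀ i, (H56.valuationSubringAt (K := F2) (P₁ i) (hh₁ i)).valuation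
        (f ^ (q + 1) * algebraMap K F2 qK ^ (-s) * (g ^ m)⁻¹) = 1) :
    ∃ (c : K) (w : F2), c ≠ 0 ∧ w ≠ 0 ∧
      f ^ ((q + 1) * (q - 1) * (q ^ 2 - 1)) = algebraMap K F2 c * w ^ m := by
  haveI hπmax : (Ideal.span {π}).IsMaximal := PrincipalIdealRing.isMaximal_of_irreducible hπirr
  have hcusp : ∀ n : H21.ClosedPt B₂ π, Jinv ∈ n.1 → ∃ i₀, ∀ i, P₂ i ≤ n.1 → i = i₀ :=
    fun n hJn => hcusp_of_rows B₂ π P₂ hL₂ hJuvw hαJ hβJ hreluv hrelvw hcusp' hP₂0 hP₂1 hP₂2 n hJn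
  have hoverlap := H62.hoverlap_two_charts B₁ B₂ π P₁ P₂ hh₁ hh₂ hVeq hπirr J₁ Jinv hJ hint₁
    hint₂ hres₂
  exact geo36_two_charts_of_rows (K := K) P₁ P₂ hh₁ hh₂ hq2le hm hqπ hmq hinj hVeq hbranch₁
    hbranch₂ hqK hNaK hNbK A hWFlt hWVlt hπ0 hπlt hπ hπWF hπWV hAWF hAWV hroot hAunit HVa HVb hζ
    hζA hab h₁ hL hD₁ hπ₁ hq1 hq2 hq3 hred₁' hred₂' hW hW2 hW4 hq1' hq2' hintα hintβ hs11 hs12
    hs22 hs21 haα hbβ hαR hβR hfda hNa hfdb hNb hP₁0 hP₁1 hP₁2 P'F P'V hF hV hP'F1 hP'V2 hWF hWV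
    hresB hM2 hM4 h₂ hD₂ hπ₂ hr1 hr2 hr3 hP₂0 hP₂1 hP₂2 Jinv hcusp hoverlap hM4r2 crit hf hNα hNβ
    hhor hE3

end Rows2

end Fermat.Agent.S36.H69
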