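/-
helper69 -- S36 (Carayol), row (E7): **the `chartB`-level master theorem**

`geo36_chartB_of_rows` = `S36.H69.geo36_two_charts_of_rows'` at the pair of charts
`B₁ = chartB R J`, `B₂ = chartB R J⁻¹` (integral closures of `R[J]`, `R[J⁻¹]` in `F₂`) over a DVR `R`
with algebraically closed residue field, fraction field `K`, `J` transcendental over `K`,
`F₂ / K(J)` finite separable, `m = l ^ k`:

* model block: `hinj` (`S36.H61.vertFam_injective`), `hbranch₁ hbranch₂`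
  (`S36.H69.hbranch_of_threeComponents`), `π ≠ 0` in both charts;
* (OVL-a): `J₁ := J`, `Jinv := J⁻¹`, `hint₁ hint₂` (definition of `chartB`), `hres₁ hres₂`
  (`S36.H62.hres_closedPt`, finite type + algebraically closed residue field);
* (E1): `crit := S36.H61.crit36_of_threeComponents`;
* `IsLocalization.Away π K` (`S34.H56.isLocalization_away_of_dvr`), `hAunit` from
  `A = ` image of `R`.

What remains = the constants / NORMCONST block, `hVeq`, the two `TowerValU`, the (E2) packages on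
both charts with the level `q L` facts, (M2) (M4) (M4r2), (OVL-b) row inputs, `hhor`, `hE3`.
-/
import Mathlib
import Fermat.Agent.S36.H69_Geo36Rows2
import Fermat.Agent.S36.H69_BranchNormal
import Fermat.Agent.S36.H61_Crit36Three
import Fermat.Agent.S36.H62_ChartGlueInst
import Fermat.Agent.S34.H56_CoordGlue

set_option autoImplicit false
set_option linter.unusedSectionVars false
set_option linter.unusedVariables false
set_option linter.style.haveILetI false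

namespace Fermat.Agent.S36.H69

open Fermat.Agent.S18 Fermat.Agent.S34 Fermat.Agent.S34.H47 Fermat.Agent.S35
  Fermat.Agent.S36.H85 Fermat.Agent.S36.H46 Fermat.Agent.S36.H83 AlgebraicCurve
  IntermediateField

universe v

section Units

variable {R K : Type*} [CommRing R] [Field K] [Algebra R K]

/-- If `A` is the image of `R` in `K` (and `R → K` is injective), constants of valuation `1` are
images of units of `R`. -/
theorem hAunit_of_hAR (hinj : Function.Injective (algebraMap R K)) (A : ValuationSubring K)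
    (hAR : ∀ x ∈ A, ∃ r : R, algebraMap R K r = x) :
    ∀ c : K, A.valuation c = 1 → ∃ r : Rˣ, c = algebraMap R K r := by
  intro c hc
  have hc0 : c ≠ 0 := by
    intro h0
    rw [h0, map_zero] at hc
    exact zero_ne_one hc
  have hcA : c ∈ A := by
    rw [← A.valuation_le_one_iff, hc]
  have hciA : c⁻¹ ∈ A := by
    rw [← A.valuation_le_one_iff, map_inv₀, hc, inv_one]
  obtain ⟨r, hr⟩ := hAR c hcA
  obtain ⟨r', hr'⟩ := hAR c⁻¹ hciA
  have hrr' : r * r' = 1 := by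
    apply hinj
    rw [map_mul, hr, hr', map_one, mul_inv_cancel₀ hc0]
  exact ⟨⟨r, r', hrr', by rw [mul_comm]; exact hrr'⟩, hr.symm⟩

end Units

section ChartB

variable {R : Type*} [CommRing R] [IsDomain R] [IsDiscreteValuationRing R]
  [IsAlgClosed (IsLocalRing.ResidueField R)]
  {K : Type*} [Field K] [Algebra R K] [IsFractionRing R K]
  {F2 : Type v} [Field F2] [Algebra R F2] [Algebra K F2] [IsScalarTower R K F2]
  (J : F2) (htr : Transcendental K J) [FiniteDimensional K⟮J⟯ F2] [Algebra.IsSeparable K⟮J⟯ F2]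
  {π : R} (hπirr : Irreducible π)
  [IsFractionRing ↥(H40.chartB R J) F2] [IsFractionRing ↥(H40.chartB R J⁻¹) F2]
  [IsNoetherianRing ↥(H40.chartB R J)] [IsNoetherianRing ↥(H40.chartB R J⁻¹)]
  [IsIntegrallyClosed ↥(H40.chartB R J)] [IsIntegrallyClosed ↥(H40.chartB R J⁻¹)]
  [Algebra.FiniteType R ↥(H40.chartB R J)] [Algebra.FiniteType R ↥(H40.chartB R J⁻¹)]
  (P₁ : Fin 3 → Ideal ↥(H40.chartB R J)) (P₂ : Fin 3 → Ideal ↥(H40.chartB R J⁻¹))
  [hP₁ : ∀ i, (P₁ i).IsPrime] [hP₂ : ∀ i, (P₂ i).IsPrime]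
  (hh₁ : ∀ i, (P₁ i).height = 1) (hh₂ : ∀ i, (P₂ i).height = 1)
  {B' F1 : Type*} [CommRing B'] [IsDomain B'] [Field F1] [Algebra B' F1] [IsFractionRing B' F1]
  [IsNoetherianRing B'] [IsIntegrallyClosed B']
  [Algebra R F1] [Algebra R B'] [IsScalarTower R B' F1]
  [Algebra K F1] [IsScalarTower R K F1]
  {D₁ BM₁ : Type*} [CommRing D₁] [IsDedekindDomain D₁] [CommRing BM₁]
  {red₁ red₂ red₃ : ↥(H40.chartB R J) →+* D₁} {ιu ιv ιw : BM₁ →+* ↥(H40.chartB R J)}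
  {rbar : BM₁ →+* D₁} {W : D₁ →+* D₁}
  {red₁' red₂' : B' →+* D₁} {α β : B' →+* ↥(H40.chartB R J)}
  {D₂ BM₂ : Type*} [CommRing D₂] [IsDedekindDomain D₂] [CommRing BM₂]
  {ρ₁ ρ₂ ρ₃ : ↥(H40.chartB R J⁻¹) →+* D₂} {κu κv κw : BM₂ →+* ↥(H40.chartB R J⁻¹)}
  {rbar₂ : BM₂ →+* D₂} {W₂ : D₂ →+* D₂}
  {B₂' : Type*} [CommRing B₂'] {ρ₁' ρ₂' : B₂' →+* D₂} {α₂ β₂ : B₂' →+* ↥(H40.chartB R J⁻¹)}
  {a b : F1 →+* F2} {Na Nb : F2 →*₀ F1} {q l : ℕ}
  {WF WV : ValuationSubring F1}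

include htr hπirr in
/-- **The `chartB`-level master theorem of (E7)**: everything about the pair of charts
`chartB R J`, `chartB R J⁻¹` that does not depend on the modular interpretation is discharged. -/
theorem geo36_chartB_of_rows (hq : q.Prime) (hl : l.Prime) (hql : q ≠ l) (k : ℕ)
    (hqπ : π ∣ (q : R))
    -- base-ring inputs of the Kummer criterion (E1)
    (hcl : ∀ z : F2, IsAlgebraic K z → z ∈ (algebraMap K F2).range)
    (hlu : IsUnit ((l : ℕ) : R)) {ζl : R} (hζl : IsPrimitiveRoot ζl l)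
    (hrootR : ∀ r : R, IsUnit r → ∃ γ : R, IsUnit γ ∧ π ∣ γ ^ l * r - 1)
    -- the identification of the labellings of the two charts
    (hVeq : ∀ i, H56.valuationSubringAt (K := F2) (P₁ i) (hh₁ i) =
      H56.valuationSubringAt (K := F2) (P₂ i) (hh₂ i))
    -- constants
    {qK : K} (hqK : qK ≠ 0) {d : ℕ}
    (hNaK : ∀ c : K, Na (algebraMap K F2 c) = algebraMap K F1 c ^ d)
    (hNbK : ∀ c : K, Nb (algebraMap K F2 c) = algebraMap K F1 c ^ d)
    -- NORMCONST inputs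
    (A : ValuationSubring K) (hAR : ∀ x ∈ A, ∃ r : R, algebraMap R K r = x)
    (hWFlt : ∀ x : K, A.valuation x < 1 → WF.valuation (algebraMap K F1 x) < 1)
    (hWVlt : ∀ x : K, A.valuation x < 1 → WV.valuation (algebraMap K F1 x) < 1)
    {πK : K} (hπ0 : πK ≠ 0) (hπlt : A.valuation πK < 1)
    (hπ : ∀ c : K, c ≠ 0 → ∃ n : ℤ, A.valuation (c * πK ^ (-n)) = 1)
    (hπWF : ∀ x : F1, x ≠ 0 → ∃ n : ℤ, WF.valuation (x * (algebraMap K F1 πK) ^ (-n)) = 1)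
    (hπWV : ∀ x : F1, x ≠ 0 → ∃ n : ℤ, WV.valuation (x * (algebraMap K F1 πK) ^ (-n)) = 1)
    (hAWF : ∀ x : K, A.valuation x = 1 → WF.valuation (algebraMap K F1 x) = 1)
    (hAWV : ∀ x : K, A.valuation x = 1 → WV.valuation (algebraMap K F1 x) = 1)
    (hroot : ∀ c : K, A.valuation c = 1 →
      ∃ c1 : K, A.valuation c1 = 1 ∧ A.valuation (c / c1 ^ (l ^ k) - 1) < 1)
    -- (E5)/(E6) global tower data
    (HVa : TowerValU a Na q (H56.valuationSubringAt (K := F2) (P₁ 0) (hh₁ 0))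
      (H56.valuationSubringAt (K := F2) (P₁ 1) (hh₁ 1))
      (H56.valuationSubringAt (K := F2) (P₁ 2) (hh₁ 2)) WF WV)
    (HVb : TowerValU b Nb q (H56.valuationSubringAt (K := F2) (P₁ 2) (hh₁ 2))
      (H56.valuationSubringAt (K := F2) (P₁ 1) (hh₁ 1))
      (H56.valuationSubringAt (K := F2) (P₁ 0) (hh₁ 0)) WV WF)
    {ζK : K} (hζ : IsPrimitiveRoot ζK (l ^ k)) (hζA : A.valuation ζK = 1)
    (hab : a (algebraMap K F1 ζK) = b (algebraMap K F1 ζK))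
    -- (E2) chart 1: three components + level maps
    (h₁ : ThreeComponents red₁ red₂ red₃ ιu ιv ιw rbar W q
      (algebraMap R ↥(H40.chartB R J) π))
    (hL : LevelMaps red₁ red₂ red₃ red₁' red₂' α β W) (hD₁ : ¬ IsField D₁)
    (hq1 : red₁ (algebraMap R ↥(H40.chartB R J) π) = 0)
    (hq2 : red₂ (algebraMap R ↥(H40.chartB R J) π) = 0)
    (hq3 : red₃ (algebraMap R ↥(H40.chartB R J) π) = 0)
    (hred₁' : Function.Surjective red₁') (hred₂' : Function.Surjective red₂')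
    (hW : ∀ r : D₁, ∃ r₂ : D₁, W r₂ = r ^ q)
    (hW2 : ∃ d : D₁, W (W d) ≠ d) (hW4 : ∃ d : D₁, W (W (W (W d))) ≠ d)
    (hq1' : red₁' (algebraMap R B' π) = 0) (hq2' : red₂' (algebraMap R B' π) = 0)
    (hintα : α.IsIntegral) (hintβ : β.IsIntegral)
    {s₁ : B'} (hs11 : red₁' s₁ = 0) (hs12 : red₂' s₁ ≠ 0)
    {s₂ : B'} (hs22 : red₂' s₂ = 0) (hs21 : red₁' s₂ ≠ 0)
    (haα : ∀ x, algebraMap ↥(H40.chartB R J) F2 (α x) = a (algebraMap B' F1 x))
    (hbβ : ∀ x, algebraMap ↥(H40.chartB R J) F2 (β x) = b (algebraMap B' F1 x))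
    (hαR : ∀ c : R, α (algebraMap R B' c) = algebraMap R ↥(H40.chartB R J) c)
    (hβR : ∀ c : R, β (algebraMap R B' c) = algebraMap R ↥(H40.chartB R J) c)
    (hfda : letI := a.toAlgebra; FiniteDimensional F1 F2)
    (hNa : ∀ x : F2, Na x = (letI := a.toAlgebra; Algebra.norm F1 x))
    (hfdb : letI := b.toAlgebra; FiniteDimensional F1 F2)
    (hNb : ∀ x : F2, Nb x = (letI := b.toAlgebra; Algebra.norm F1 x))
    (e10 : P₁ 0 = RingHom.ker red₁) (e11 : P₁ 1 = RingHom.ker red₂)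
    (e12 : P₁ 2 = RingHom.ker red₃)
    (P'F P'V : Ideal B') [hP'F : P'F.IsPrime] [hP'V : P'V.IsPrime]
    (hF : P'F.height = 1) (hV : P'V.height = 1)
    (hP'F1 : P'F = RingHom.ker red₁') (hP'V2 : P'V = RingHom.ker red₂')
    (hWF : WF = H56.valuationSubringAt (K := F1) P'F hF)
    (hWV : WV = H56.valuationSubringAt (K := F1) P'V hV)
    -- (M2), (M4) on chart 1
    (hM2 : H62.RegularCrossings red₁' red₂')
    (hM4 : H62.MiddleUnit red₁ red₂ red₃ q (algebraMap R ↥(H40.chartB R J) π))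
    -- (E2) chart 2
    (h₂ : ThreeComponents ρ₁ ρ₂ ρ₃ κu κv κw rbar₂ W₂ q (algebraMap R ↥(H40.chartB R J⁻¹) π))
    (hD₂ : ¬ IsField D₂)
    (hr1 : ρ₁ (algebraMap R ↥(H40.chartB R J⁻¹) π) = 0)
    (hr2 : ρ₂ (algebraMap R ↥(H40.chartB R J⁻¹) π) = 0)
    (hr3 : ρ₃ (algebraMap R ↥(H40.chartB R J⁻¹) π) = 0)
    (hW2' : ∃ d : D₂, W₂ (W₂ d) ≠ d) (hW4' : ∃ d : D₂, W₂ (W₂ (W₂ (W₂ d))) ≠ d)
    (e20 : P₂ 0 = RingHom.ker ρ₁) (e21 : P₂ 1 = RingHom.ker ρ₂)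
    (e22 : P₂ 2 = RingHom.ker ρ₃)
    -- (OVL-b) chart 2, points at infinity
    (hL₂ : LevelMaps ρ₁ ρ₂ ρ₃ ρ₁' ρ₂' α₂ β₂ W₂)
    {u v w ε ε' : ↥(H40.chartB R J⁻¹)} {Jinv' : B₂'} {N N' : ℕ}
    (hJuvw : (⟨J⁻¹, H40.self_mem_chartB J⁻¹⟩ : ↥(H40.chartB R J⁻¹)) = u * v * w)
    (hαJ : α₂ Jinv' = u * v) (hβJ : β₂ Jinv' = v * w)
    (hreluv : u * v * ε = u ^ (N + 1) + v ^ (N + 1))
    (hrelvw : v * w * ε' = v ^ (N' + 1) + w ^ (N' + 1))
    (hcusp' : ∀ n' : Ideal B₂', n'.IsPrime → RingHom.ker ρ₁' ≤ n' → RingHom.ker ρ₂' ≤ n' →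
      Jinv' ∉ n')
    -- (M4r2) the middle cusps of chart 2
    (hM4r2 : ∀ n₂ : H21.ClosedPt (H40.chartB R J⁻¹) π,
      (⟨J⁻¹, H40.self_mem_chartB J⁻¹⟩ : ↥(H40.chartB R J⁻¹)) ∈ n₂.1 → RingHom.ker ρ₂ ≤ n₂.1 →
      ∃ θ : ↥(H40.chartB R J⁻¹), ρ₂ θ = 0 ∧ θ ≠ 0 ∧
        ∃ e t : ↥(H40.chartB R J⁻¹), e ∉ n₂.1 ∧ t ∉ n₂.1 ∧
          t * θ ^ (q - 1) = e * algebraMap R ↥(H40.chartB R J⁻¹) π)
    -- the function, its two norm identities and its horizontal orders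
    {f : F2} (hf : f ≠ 0)
    (hNα : ∃ (c : K) (h : F1), c ≠ 0 ∧ h ≠ 0 ∧ Na f = algebraMap K F1 c * h ^ (l ^ k))
    (hNβ : ∃ (c : K) (h : F1), c ≠ 0 ∧ h ≠ 0 ∧ Nb f = algebraMap K F1 c * h ^ (l ^ k))
    (hhor : ∀ w : Place K F2, ((l ^ k : ℕ) : ℤ) ∣ w.ord f)
    -- (E3)
    (hE3 : ∃ (s : ℤ) (g : F2), g ≠ 0 ∧
      ∀ i, (H56.valuationSubringAt (K := F2) (P₁ i) (hh₁ i)).valuation
        (f ^ (q + 1) * algebraMap K F2 qK ^ (-s) * (g ^ (l ^ k))⁻¹) = 1) :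
    ∃ (c : K) (w : F2), c ≠ 0 ∧ w ≠ 0 ∧
      f ^ ((q + 1) * (q - 1) * (q ^ 2 - 1)) = algebraMap K F2 c * w ^ (l ^ k) := by
  haveI : IsLocalization.Away π K := S34.H56.isLocalization_away_of_dvr hπirr
  have hJ0 : J ≠ 0 := fun h0 => htr (h0 ▸ isAlgebraic_zero)
  have hRK : Function.Injective (algebraMap R K) := IsFractionRing.injective R K
  have hRF : Function.Injective (algebraMap R F2) := by
    rw [IsScalarTower.algebraMap_eq R K F2]
    exact (algebraMap K F2).injective.comp hRK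
  have hπ₁ : algebraMap R ↥(H40.chartB R J) π ≠ 0 := by
    intro h0
    apply hπirr.ne_zero
    apply hRF
    rw [map_zero, IsScalarTower.algebraMap_apply R ↥(H40.chartB R J) F2, h0, map_zero]
  have hπ₂ : algebraMap R ↥(H40.chartB R J⁻¹) π ≠ 0 := by
    intro h0
    apply hπirr.ne_zero
    apply hRF
    rw [map_zero, IsScalarTower.algebraMap_apply R ↥(H40.chartB R J⁻¹) F2, h0, map_zero]
  have hm : 0 < l ^ k := pow_pos hl.pos k
  have hmq : Nat.Coprime (l ^ k) q :=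
    Nat.Coprime.pow_left k ((Nat.coprime_primes hl hq).mpr hql.symm)
  have crit := S36.H61.crit36_of_threeComponents (K := K) J htr π hπirr hcl hl hlu hζl hrootR hq
    hql hqπ h₁ hq1 hq2 hq3 hW2 hW4 h₂ hr1 hr2 hr3 hW2' hW4' P₁ P₂ e10 e11 e12 e20 e21 e22 hh₁ hh₂
    hVeq k
  exact geo36_two_charts_of_rows' (K := K) P₁ P₂ hh₁ hh₂ hπirr hq.two_le hm hqπ hmq
    (S36.H61.vertFam_injective P₁ e10 e11 e12 h₁ hW2 hW4) hVeq
    (hbranch_of_threeComponents h₁ P₁ e10 e11 e12)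
    (hbranch_of_threeComponents h₂ P₂ e20 e21 e22)
    hqK hNaK hNbK A hWFlt hWVlt hπ0 hπlt hπ hπWF hπWV hAWF hAWV hroot
    (hAunit_of_hAR hRK A hAR) HVa HVb hζ hζA hab h₁ hL hD₁ hπ₁ hq1 hq2 hq3 hred₁' hred₂' hW hW2
    hW4 hq1' hq2' hintα hintβ hs11 hs12 hs22 hs21 haα hbβ hαR hβR hfda hNa hfdb hNb e10 e11 e12
    P'F P'V hF hV hP'F1 hP'V2 hWF hWV
    (fun n x => H62.hres_closedPt (H40.chartB R J) hπirr n x)
    hM2 hM4 h₂ hD₂ hπ₂ hr1 hr2 hr3 e20 e21 e22 hL₂ hJuvw hαJ hβJ hreluv hrelvw hcusp'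
    ⟨J, H40.self_mem_chartB J⟩ (mul_inv_cancel₀ hJ0)
    (fun x => H40.mem_chartB.1 x.2) (fun x => H40.mem_chartB.1 x.2)
    (fun n x => H62.hres_closedPt (H40.chartB R J⁻¹) hπirr n x)
    hM4r2 crit hf hNα hNβ hhor hE3

end ChartB

end Fermat.Agent.S36.H69
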