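/-
helper69 -- S36 (Carayol), row (E7), real types: **the NORMCONST inputs on the constant field**
`K = ↥E0`, `A := cutOver A E0` (an unramified finite extension of `unrCyclo ℓ` cut out by the
inertia group), uniformiser `πK := (ℓ : ↥E0)`.

These are the four hypotheses `hπ0 hπlt hπ hroot` of
`S36.H69.geo36_two_charts_final` (= of helper46's `S36.H46.exists_const_oneU_mul_pow`), in
valuation form, from helper45's `(D1b)` exports
(`S36.H45.exists_zpow_mul_pow_mul_oneUnit_of_fixed`).
-/
import Mathlib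
import Fermat.Agent.S36.H45_ConstNormalise

set_option autoImplicit false
set_option linter.unusedSectionVars false

namespace Fermat.Agent.S36.H69

open Fermat.Agent.S18.H45 Fermat.Agent.S36.H45
open IsLocalRing

noncomputable section

local notation "Qbar" => AlgebraicClosure ℚ

variable {A : ValuationSubring Qbar} {ℓ : ℕ} (hℓ : ℓ.Prime) (hA : A.LiesOverPrime ℓ)
  (E0 : IntermediateField (unrCyclo ℓ) Qbar)

/-- a unit of the valuation ring has valuation `1`. -/
theorem valuation_coe_eq_one_of_isUnit {K : Type*} [Field K] (V : ValuationSubring K) {γ : V}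
    (hγ : IsUnit γ) : V.valuation ((γ : V) : K) = 1 :=
  (V.valuation_eq_one_iff γ).mp hγ

/-- a `1`-unit of the valuation ring has valuation `1`. -/
theorem valuation_coe_eq_one_of_sub_one_mem {K : Type*} [Field K] (V : ValuationSubring K)
    {w : V} (hw : w - 1 ∈ maximalIdeal V) : V.valuation ((w : V) : K) = 1 := by
  have h1 : V.valuation (((w - 1 : V)) : K) < 1 := (V.valuation_lt_one_iff (w - 1)).mp hw
  have h2 : ((w : V) : K) = (((w - 1 : V)) : K) + 1 := by push_cast; ring
  rw [h2]
  have h3 : V.valuation (1 : K) = 1 := map_one _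
  have h4 : V.valuation (((w - 1 : V)) : K) < V.valuation (1 : K) := by rw [h3]; exact h1
  rw [Valuation.map_add_eq_of_lt_right V.valuation h4, h3]

include hℓ hA in
/-- `ℓ` is a non-unit of `A ∩ E0`. -/
theorem valuation_natCast_cutOver_lt_one :
    (cutOver A E0).valuation (((ℓ : ℕ) : E0)) < 1 := by
  have hmem : (((ℓ : ℕ) : cutOver A E0)) ∈ maximalIdeal (cutOver A E0) := by
    have hirr := S18.H45.natCast_mem_maximalIdeal_cutOver hℓ hA E0
    exact hirr
  have := (ValuationSubring.valuation_lt_one_iff (cutOver A E0) ((ℓ : ℕ) : cutOver A E0)).mp hmem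
  simpa using this

include hℓ hA in
/-- **The NORMCONST inputs `hπ0 hπlt hπ hroot` at the real types.** -/
theorem normConst_inputs_cutOver [FiniteDimensional (unrCyclo ℓ) E0]
    (hfix : ∀ σ ∈ A.inertiaSubgroupIn ℚ, ∀ x : E0, σ ((x : E0) : Qbar) = ((x : E0) : Qbar))
    {m : ℕ} (hm : m ≠ 0) :
    (((ℓ : ℕ) : E0) ≠ 0) ∧ (cutOver A E0).valuation (((ℓ : ℕ) : E0)) < 1 ∧
    (∀ c : E0, c ≠ 0 → ∃ n : ℤ, (cutOver A E0).valuation (c * ((ℓ : ℕ) : E0) ^ (-n)) = 1) ∧
    (∀ c : E0, (cutOver A E0).valuation c = 1 →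
      ∃ c1 : E0, (cutOver A E0).valuation c1 = 1 ∧
        (cutOver A E0).valuation (c / c1 ^ m - 1) < 1) := by
  have hℓE : ((ℓ : ℕ) : E0) ≠ 0 := Nat.cast_ne_zero.mpr hℓ.ne_zero
  have hlt := valuation_natCast_cutOver_lt_one hℓ hA E0
  refine ⟨hℓE, hlt, ?_, ?_⟩
  · intro c hc
    obtain ⟨s, γ, w, hγ, hw, e⟩ := exists_zpow_mul_pow_mul_oneUnit_of_fixed hℓ hA E0 hfix hm hc
    refine ⟨s, ?_⟩
    have e2 : c * ((ℓ : ℕ) : E0) ^ (-s) = ((γ : cutOver A E0) : E0) ^ m *
        ((w : cutOver A E0) : E0) := by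
      rw [e, zpow_neg]
      field_simp
    rw [e2, map_mul, map_pow, valuation_coe_eq_one_of_isUnit _ hγ,
      valuation_coe_eq_one_of_sub_one_mem _ hw, one_pow, one_mul]
  · intro c hc1
    have hc : c ≠ 0 := by
      rintro rfl
      rw [map_zero] at hc1
      exact zero_ne_one hc1
    obtain ⟨s, γ, w, hγ, hw, e⟩ := exists_zpow_mul_pow_mul_oneUnit_of_fixed hℓ hA E0 hfix hm hc
    have hvγ := valuation_coe_eq_one_of_isUnit (cutOver A E0) hγ
    have hvw := valuation_coe_eq_one_of_sub_one_mem (cutOver A E0) hw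
    -- `s = 0`
    have hs : (cutOver A E0).valuation (((ℓ : ℕ) : E0) ^ s) = 1 := by
      have h1 := congrArg (cutOver A E0).valuation e
      rw [hc1, map_mul, map_mul, map_pow, hvγ, hvw, one_pow, mul_one, mul_one] at h1
      exact h1.symm
    have hs0 : s = 0 := by
      rw [map_zpow₀] at hs
      have hv0 : (cutOver A E0).valuation (((ℓ : ℕ) : E0)) ≠ 0 :=
        (Valuation.ne_zero_iff _).mpr hℓE
      have hpos : 0 < (cutOver A E0).valuation (((ℓ : ℕ) : E0)) := zero_lt_iff.mpr hv0
      by_contra hn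
      rcases lt_or_gt_of_ne hn with hneg | hpos'
      · have h1 : ((cutOver A E0).valuation (((ℓ : ℕ) : E0))) ^ (-s) < 1 := by
          obtain ⟨k, hk⟩ : ∃ k : ℕ, -s = (k : ℤ) := ⟨(-s).toNat, by omega⟩
          rw [hk, zpow_natCast]
          have hk0 : k ≠ 0 := by
            rintro rfl
            simp at hk
            omega
          exact pow_lt_one₀ (le_of_lt hpos) hlt hk0
        rw [zpow_neg, hs, inv_one] at h1
        exact lt_irrefl _ h1
      · have h1 : ((cutOver A E0).valuation (((ℓ : ℕ) : E0))) ^ s < 1 := by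
          obtain ⟨k, hk⟩ : ∃ k : ℕ, s = (k : ℤ) := ⟨s.toNat, by omega⟩
          rw [hk, zpow_natCast]
          have hk0 : k ≠ 0 := by
            rintro rfl
            simp at hk
            omega
          exact pow_lt_one₀ (le_of_lt hpos) hlt hk0
        rw [hs] at h1
        exact lt_irrefl _ h1
    refine ⟨((γ : cutOver A E0) : E0), hvγ, ?_⟩
    have hγ0 : ((γ : cutOver A E0) : E0) ≠ 0 := by
      intro h0
      rw [h0, map_zero] at hvγ
      exact zero_ne_one hvγ
    have e3 : c / ((γ : cutOver A E0) : E0) ^ m - 1 = ((w : cutOver A E0) : E0) - 1 := by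
      rw [e, hs0, zpow_zero, one_mul]
      field_simp
    rw [e3]
    exact valuation_sub_one_lt_one_of_sub_one_mem E0 hw

end

end Fermat.Agent.S36.H69
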