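/-
helper69 -- S36 (Carayol), row (E7), real types: **the constants block of
`S36.H69.geo36_two_charts_final` for helper18's real-types maps**
`alphaK betaK : F_K(N1) →+* F_K(N2)`, `normAlphaK normBetaK : F_K(N2) →*₀ F_K(N1)`
(`S36/H18_Geo36Base`), over ANY coefficient field `K`:

* `alphaK_algebraMap`, `betaK_algebraMap` : both maps fix the constants;
* `normAlphaK_algebraMap`, `normBetaK_algebraMap` : `hNaK`, `hNbK` (norm of a constant = its
  `d`-th power, `d` the degree) — need the degree to be finite;
* `alphaK_eq_betaK_algebraMap` : `hab`;
* `isPrimitiveRoot_algebraMap`, `valuation_le_one_of_pow_eq_one` : `hζ`, `hζF`, `hζV`.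
-/
import Mathlib
import Fermat.Agent.S36.H18_Geo36Base

set_option autoImplicit false
set_option linter.unusedSectionVars false
set_option linter.style.haveILetI false
set_option synthInstance.maxHeartbeats 400000

noncomputable section

namespace Fermat.Agent.S36.H69

open ModularCurve
open Fermat.Agent.S34 Fermat.Agent.S36.H18

section Maps

variable (K : Type) [Field K] (q N1 N2 : ℕ) [NeZero q] [NeZero N1] [NeZero N2]
  (hN : N1 ∣ N2) (hqN : q * N1 ∣ N2)

/-- `α` fixes the constants. -/
theorem alphaK_algebraMap (c : K) :
    alphaK K N1 N2 hN (algebraMap K (modularFunctionFieldFullC K N1) c) =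
      algebraMap K (modularFunctionFieldFullC K N2) c := by
  letI := H16.degAlgebra K N1 N2 hN
  haveI := H16.degAlgebra_isScalarTower K N1 N2 hN
  exact (IsScalarTower.algebraMap_apply K (modularFunctionFieldFullC K N1)
    (modularFunctionFieldFullC K N2) c).symm

/-- `β = V_q` fixes the constants. -/
theorem betaK_algebraMap (c : K) :
    betaK K q N1 N2 hqN (algebraMap K (modularFunctionFieldFullC K N1) c) =
      algebraMap K (modularFunctionFieldFullC K N2) c := by
  letI := S35.H16.vAlgebra K q N1 N2 hqN
  haveI := S35.H16.vAlgebra_isScalarTower K q N1 N2 hqN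
  exact (IsScalarTower.algebraMap_apply K (modularFunctionFieldFullC K N1)
    (modularFunctionFieldFullC K N2) c).symm

/-- `hab`: the two maps agree on constants. -/
theorem alphaK_eq_betaK_algebraMap (c : K) :
    alphaK K N1 N2 hN (algebraMap K (modularFunctionFieldFullC K N1) c) =
      betaK K q N1 N2 hqN (algebraMap K (modularFunctionFieldFullC K N1) c) := by
  rw [alphaK_algebraMap, betaK_algebraMap]

/-- `hNaK`: the norm along `α` of a constant is its `d`-th power, `d` the degree. -/
theorem normAlphaK_algebraMap
    (hfd : letI := H16.degAlgebra K N1 N2 hN;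
      FiniteDimensional (modularFunctionFieldFullC K N1) (modularFunctionFieldFullC K N2))
    (c : K) :
    normAlphaK K N1 N2 hN (algebraMap K (modularFunctionFieldFullC K N2) c) =
      algebraMap K (modularFunctionFieldFullC K N1) c ^
        (letI := H16.degAlgebra K N1 N2 hN;
          Module.finrank (modularFunctionFieldFullC K N1) (modularFunctionFieldFullC K N2)) := by
  letI := H16.degAlgebra K N1 N2 hN
  haveI := H16.degAlgebra_isScalarTower K N1 N2 hN
  haveI := hfd
  show normZ (algebraMap K (modularFunctionFieldFullC K N2) c) = _
  rw [normZ_eq_norm, IsScalarTower.algebraMap_apply K (modularFunctionFieldFullC K N1)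
    (modularFunctionFieldFullC K N2) c, Algebra.norm_algebraMap]

/-- `hNbK`: the norm along `β` of a constant is its `d`-th power, `d` the degree. -/
theorem normBetaK_algebraMap
    (hfd : letI := S35.H16.vAlgebra K q N1 N2 hqN;
      FiniteDimensional (modularFunctionFieldFullC K N1) (modularFunctionFieldFullC K N2))
    (c : K) :
    normBetaK K q N1 N2 hqN (algebraMap K (modularFunctionFieldFullC K N2) c) =
      algebraMap K (modularFunctionFieldFullC K N1) c ^
        (letI := S35.H16.vAlgebra K q N1 N2 hqN;
          Module.finrank (modularFunctionFieldFullC K N1) (modularFunctionFieldFullC K N2)) := by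
  letI := S35.H16.vAlgebra K q N1 N2 hqN
  haveI := S35.H16.vAlgebra_isScalarTower K q N1 N2 hqN
  haveI := hfd
  show normZ (algebraMap K (modularFunctionFieldFullC K N2) c) = _
  rw [normZ_eq_norm, IsScalarTower.algebraMap_apply K (modularFunctionFieldFullC K N1)
    (modularFunctionFieldFullC K N2) c, Algebra.norm_algebraMap]

end Maps

section Roots

variable {K F : Type*} [Field K] [Field F] [Algebra K F]

/-- `hζ`: a primitive root of the constant field stays primitive in the function field. -/
theorem isPrimitiveRoot_algebraMap {ζ : K} {m : ℕ} (hζ : IsPrimitiveRoot ζ m) :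
    IsPrimitiveRoot (algebraMap K F ζ) m :=
  hζ.map_of_injective (algebraMap K F).injective

/-- `hζF`, `hζV`: a root of unity is integral at every valuation ring. -/
theorem valuation_le_one_of_pow_eq_one (W : ValuationSubring F) {z : F} {m : ℕ} (hm : 0 < m)
    (hz : z ^ m = 1) : W.valuation z ≤ 1 := by
  have h1 : W.valuation z ^ m = 1 := by rw [← map_pow, hz, map_one]
  exact le_of_eq ((pow_eq_one_iff_of_nonneg zero_le hm.ne').mp h1)

end Roots

end Fermat.Agent.S36.H69
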