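/-
helper69 — S36 row (E7), second seat: **the labels block of `H18.geoFn36E_of_rows` in the (S1)
spelling** (charts `chartB R (bc N (J3N L))`, `chartB R (bc N (J3N L)⁻¹)`, `chartB R (bc M (JN L))`,
`R = cutOver A E0`, `bc = H45.baseChangeE E0`, `N = q (q L)`, `M = q L`, reductions
`S35.H70.redE`), i.e. the tail binders

  `hh₁ hh₂ hVeq hF hV HVa HVb hE3`

of `geoFn36E_of_rows`, from
* the `A₁`-level outputs of helper70's `S36.H70.threeComponentsS1_J3K(_inv)` (both charts),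
* the `A₁`-level outputs of helper55's `S34.H55.twoComponents_JK` (level `q L`) with
  `red_i' q = 0`,
* the E-level level maps `α β` (conclusion of helper83's `H83.exists_levelMapsE_S1` at the
  `redE`'s).

Inside: E-level `ThreeComponents`/`TwoComponents` (`threeComponents_cutOver_left`,
`twoComponents_cutOver_left`), heights (`H61.vertFam_height`, `H16.height_ker*_of_two`),
`H61.hVeq_S1`, `H46.HVab_of_chartBC` fed with helper16's `towerValU_*_J3N_of_components`,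
`H3.hE3_of_levelMaps_fast` fed with `H69.wfacts_of_hred`.
-/
import Mathlib
import Fermat.Agent.S36.H70_ThreeComponentsS1
import Fermat.Agent.S36.H95_InstS1
import Fermat.Agent.S36.H61_HVS1Final
import Fermat.Agent.S36.H46_HVaGen
import Fermat.Agent.S36.H16_R3Heights
import Fermat.Agent.S36.H3_StepOneFast
import Fermat.Agent.S36.H3_WRInjective
import Fermat.Agent.S36.H61_Crit36Three
import Fermat.Agent.S36.H35_BranchRings
import Fermat.Agent.S35.H70_TwoComponentsBCFinal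
import Fermat.Agent.S35.H70_TwoComponentsBCL0

set_option autoImplicit false
set_option linter.unusedSectionVars false
set_option linter.style.haveILetI false
set_option synthInstance.maxHeartbeats 400000
set_option maxHeartbeats 6400000

noncomputable section

namespace Fermat.Agent.S36.H69

open ModularCurve Polynomial IsLocalRing IntermediateField Fermat.Agent.S28
open Fermat.Agent.S18 Fermat.Agent.S34 Fermat.Agent.S34.H55 Fermat.Agent.S36.H83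
open Fermat.Agent.S36.H18 Fermat.Agent.S36.H46

local notation "Qbar" => AlgebraicClosure ℚ

section Labels

variable (L : ℕ) [NeZero L] {q : ℕ} [hq : Fact q.Prime] (hqL : ¬ q ∣ L)
  (A : ValuationSubring Qbar) (hA : A.LiesOverPrime q)
  (E0 : IntermediateField (H45.unrCyclo q) Qbar) [FiniteDimensional (H45.unrCyclo q) E0]

set_option quotPrecheck false
local notation "kA" => IsLocalRing.ResidueField A
local notation "A₁" => H45.A0 A q
local notation "L₁" => H45.unrCyclo q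
local notation "F1" => modularFunctionFieldFullC (H45.unrCyclo q) (q * L)
local notation "F2" => modularFunctionFieldFullC (H45.unrCyclo q) (q * (q * L))
local notation "FkL" => modularFunctionFieldFullC (IsLocalRing.ResidueField A) L
local notation "D1" => ↥(integralClosure (Algebra.adjoin kA {S18.H16.jK kA L}) FkL)
local notation "D2" => ↥(integralClosure (Algebra.adjoin kA {(S18.H16.jK kA L)⁻¹}) FkL)
local notation "F₁" => ↥(modularFunctionFieldFullC ↥E0 (q * L))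
local notation "F₂" => ↥(modularFunctionFieldFullC ↥E0 (q * (q * L)))
local notation "RR" => ↥(H45.cutOver A E0)
local notation "πq" => (((q : ℕ) : ↥(H45.cutOver A E0)))
local notation "BE1" => ↥(H40.chartB ↥(H45.cutOver A E0)
  (H45.baseChangeE E0 (q * (q * L)) (J3N L (q := q))))
local notation "BE2" => ↥(H40.chartB ↥(H45.cutOver A E0)
  (H45.baseChangeE E0 (q * (q * L)) (J3N L (q := q))⁻¹))
local notation "BE'" => ↥(H40.chartB ↥(H45.cutOver A E0)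
  (H45.baseChangeE E0 (q * L) (JN L (ℓ := q))))
local notation "aα" => alphaK ↥E0 (q * L) (q * (q * L)) (dvd_mul_left (q * L) q)
local notation "bβ" => betaK ↥E0 q (q * L) (q * (q * L)) dvd_rfl
local notation "Nα" => normAlphaK ↥E0 (q * L) (q * (q * L)) (dvd_mul_left (q * L) q)
local notation "Nβ" => normBetaK ↥E0 q (q * L) (q * (q * L)) dvd_rfl

attribute [local instance] S36.H55.algPO1F2

/-- helper85's elaboration shortcuts (#3632): local, reducible, equal to what the search finds. -/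
local instance (priority := 10000) shortcutAlgE69 (N : ℕ) [NeZero N] :
    Algebra ↥E0 ↥(modularFunctionFieldFullC ↥E0 N) :=
  SubalgebraClass.toAlgebra (modularFunctionFieldFullC ↥E0 N)

local instance (priority := 10000) shortcutAlg69 (N : ℕ) [NeZero N] :
    Algebra ↥(H45.cutOver A E0) ↥(modularFunctionFieldFullC ↥E0 N) :=
  Algebra.ofSubsemiring (H45.cutOver A E0)

local instance (priority := 10000) shortcutTower69 (N : ℕ) [NeZero N] :
    IsScalarTower ↥(H45.cutOver A E0) ↥E0 ↥(modularFunctionFieldFullC ↥E0 N) :=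
  IsScalarTower.of_algebraMap_eq (fun _ => rfl)

/-- **The labels block of `geoFn36E_of_rows`, (S1) spelling.** -/
theorem labels_S1
    (hfix : ∀ σ ∈ A.inertiaSubgroupIn ℚ, ∀ x : E0, σ ((x : E0) : Qbar) = ((x : E0) : Qbar))
    (hunr : maximalIdeal ↥(H45.cutOver A E0) = Ideal.span {((q : ℕ) : ↥(H45.cutOver A E0))})
    (Pi : PlaceInf L hqL A hA) (P0 : PlaceZero L hqL A hA)
    (MD : ModularPolynomialData q)
    (hMD : ∀ (k : Type) [Field k] (ζ : kˣ), IsPrimitiveRoot ζ q → RootsAt k q ζ MD.Φ)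
    (PA : S36.H55.PlaceA L hqL A hA P0) (PB : S36.H55.PlaceB L hqL A hA Pi)
    (PC : S36.H55.PlaceC L hqL A hA Pi)
    -- the `A₁`-level package, chart `J₃`
    {r₁ r₂ r₃ : ↥(H40.chartB A₁ (J3N L (q := q))) →+* D1}
    (c₁ : ∀ (b : ↥(H40.chartB A₁ (J3N L (q := q)))) (h : (b : F2) ∈ S36.H55.QO1 L hqL A hA PB),
      inclk L A ((r₁ b : D1) : FkL) = S36.H55.Qres1 L hqL A hA PB ⟨b, h⟩)
    (c₂ : ∀ (b : ↥(H40.chartB A₁ (J3N L (q := q)))) (h : (b : F2) ∈ S36.H55.RO1 L hqL A hA PC),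
      inclk L A ((r₂ b : D1) : FkL) = S36.H55.Rres1 L hqL A hA PC ⟨b, h⟩)
    (c₃ : ∀ (b : ↥(H40.chartB A₁ (J3N L (q := q)))) (h : (b : F2) ∈ S36.H55.QO1 L hqL A hA PA),
      inclk L A ((r₃ b : D1) : FkL) = S36.H55.Qres1 L hqL A hA PA ⟨b, h⟩)
    (hq₁ : r₁ (algebraMap A₁ ↥(H40.chartB A₁ (J3N L (q := q))) ((q : ℕ) : A₁)) = 0)
    (hq₂ : r₂ (algebraMap A₁ ↥(H40.chartB A₁ (J3N L (q := q))) ((q : ℕ) : A₁)) = 0)
    (hq₃ : r₃ (algebraMap A₁ ↥(H40.chartB A₁ (J3N L (q := q))) ((q : ℕ) : A₁)) = 0)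
    (hqm : ∃ t : ↥(H40.chartB A₁ (J3N L (q := q))), r₂ t ≠ 0 ∧
      t * algebraMap A₁ ↥(H40.chartB A₁ (J3N L (q := q))) ((q : ℕ) : A₁) ∈
        RingHom.ker r₂ ^ (q - 1))
    (TC₁ : ThreeComponents r₁ r₂ r₃
      (chartMap (eU L (q := q)) (eU_algebraMap L A) (huint1 L A))
      (chartMap (eV L (q := q)) (eV_algebraMap L A) (hvint1 L A))
      (chartMap (eW L (q := q)) (eW_algebraMap L A) (hwint1 L A))
      (rbarB (Mod L hqL A hA) (Mod L hqL A hA).x_mem (Mod L hqL A hA).res1_x)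
      (WR (FrM L A hA) q (hFrx L A hA)) q
      (algebraMap A₁ ↥(H40.chartB A₁ (J3N L (q := q))) ((q : ℕ) : A₁)))
    -- the `A₁`-level package, chart `J₃⁻¹`
    {s₁ s₂ s₃ : ↥(H40.chartB A₁ (J3N L (q := q))⁻¹) →+* D2}
    (d₁ : ∀ (b : ↥(H40.chartB A₁ (J3N L (q := q))⁻¹)) (h : (b : F2) ∈ S36.H55.QO1 L hqL A hA PB),
      inclk L A ((s₁ b : D2) : FkL) = S36.H55.Qres1 L hqL A hA PB ⟨b, h⟩)
    (d₂ : ∀ (b : ↥(H40.chartB A₁ (J3N L (q := q))⁻¹)) (h : (b : F2) ∈ S36.H55.RO1 L hqL A hA PC),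
      inclk L A ((s₂ b : D2) : FkL) = S36.H55.Rres1 L hqL A hA PC ⟨b, h⟩)
    (d₃ : ∀ (b : ↥(H40.chartB A₁ (J3N L (q := q))⁻¹)) (h : (b : F2) ∈ S36.H55.QO1 L hqL A hA PA),
      inclk L A ((s₃ b : D2) : FkL) = S36.H55.Qres1 L hqL A hA PA ⟨b, h⟩)
    (hq₁' : s₁ (algebraMap A₁ ↥(H40.chartB A₁ (J3N L (q := q))⁻¹) ((q : ℕ) : A₁)) = 0)
    (hq₂' : s₂ (algebraMap A₁ ↥(H40.chartB A₁ (J3N L (q := q))⁻¹) ((q : ℕ) : A₁)) = 0)
    (hq₃' : s₃ (algebraMap A₁ ↥(H40.chartB A₁ (J3N L (q := q))⁻¹) ((q : ℕ) : A₁)) = 0)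
    (hqm' : ∃ t : ↥(H40.chartB A₁ (J3N L (q := q))⁻¹), s₂ t ≠ 0 ∧
      t * algebraMap A₁ ↥(H40.chartB A₁ (J3N L (q := q))⁻¹) ((q : ℕ) : A₁) ∈
        RingHom.ker s₂ ^ (q - 1))
    (TC₂ : ThreeComponents s₁ s₂ s₃
      (chartMap (eU L (q := q)) (eU_algebraMap L A) (huint2 L A))
      (chartMap (eV L (q := q)) (eV_algebraMap L A) (hvint2 L A))
      (chartMap (eW L (q := q)) (eW_algebraMap L A) (hwint2 L A))
      (rbarB (Mod L hqL A hA) (hc2 L hqL A hA) (hcw2 L hqL A hA))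
      (WR (FrM L A hA) q (hFrx_inv L A hA)) q
      (algebraMap A₁ ↥(H40.chartB A₁ (J3N L (q := q))⁻¹) ((q : ℕ) : A₁)))
    -- the `A₁`-level package, level `q L`, chart `j j_q`
    {r₁' r₂' : ↥(H40.chartB A₁ (JN L (ℓ := q))) →+* D1}
    (h₁' : ∀ (b : ↥(H40.chartB A₁ (JN L (ℓ := q)))) (h : (b : F1) ∈ PO1 L hqL A hA Pi),
      inclk L A ((r₁' b : D1) : FkL) = Pres1 L hqL A hA Pi ⟨b, h⟩)
    (h₂' : ∀ (b : ↥(H40.chartB A₁ (JN L (ℓ := q)))) (h : (b : F1) ∈ PO1 L hqL A hA P0),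
      inclk L A ((r₂' b : D1) : FkL) = Pres1 L hqL A hA P0 ⟨b, h⟩)
    (hℓ₁ : r₁' (algebraMap A₁ ↥(H40.chartB A₁ (JN L (ℓ := q))) ((q : ℕ) : A₁)) = 0)
    (hℓ₂ : r₂' (algebraMap A₁ ↥(H40.chartB A₁ (JN L (ℓ := q))) ((q : ℕ) : A₁)) = 0)
    (TC' : S34.H83.TwoComponents r₁' r₂'
      (chartMap (iotaMN L (ℓ := q)) (iotaMN_algebraMap L A) (hιint1 L A))
      (chartMap (VMN L (ℓ := q)) (VMN_algebraMap L A) (hVint1 L A))
      (rbarB (Mod L hqL A hA) (Mod L hqL A hA).x_mem (Mod L hqL A hA).res1_x)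
      (WR (FrM L A hA) q (hFrx L A hA)) q
      (algebraMap A₁ ↥(H40.chartB A₁ (JN L (ℓ := q))) ((q : ℕ) : A₁)))
    -- the six chart instances (helper95's `H95_InstS1`) + the level-`q L` chart
    [IsFractionRing BE1 F₂] [IsNoetherianRing BE1] [IsIntegrallyClosed BE1]
    [IsFractionRing BE2 F₂] [IsNoetherianRing BE2] [IsIntegrallyClosed BE2]
    [IsFractionRing BE' F₁] [IsNoetherianRing BE'] [IsIntegrallyClosed BE']
    -- the E-level level maps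
    {α β : BE' →+* BE1}
    (hL : LevelMaps
      (S35.H70.redE hq.out hA E0 (q * (q * L)) (J3N L (q := q)) πq hunr
        (S36.H70.genBy_J3N L A hA E0 hunr) r₁ hq₁)
      (S35.H70.redE hq.out hA E0 (q * (q * L)) (J3N L (q := q)) πq hunr
        (S36.H70.genBy_J3N L A hA E0 hunr) r₂ hq₂)
      (S35.H70.redE hq.out hA E0 (q * (q * L)) (J3N L (q := q)) πq hunr
        (S36.H70.genBy_J3N L A hA E0 hunr) r₃ hq₃)
      (S35.H70.redE hq.out hA E0 (q * L) (JN L (ℓ := q)) πq hunr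
        (S35.H70.genBy_JN L hqL A hA E0) r₁' hℓ₁)
      (S35.H70.redE hq.out hA E0 (q * L) (JN L (ℓ := q)) πq hunr
        (S35.H70.genBy_JN L hqL A hA E0) r₂' hℓ₂)
      α β (WR (FrM L A hA) q (hFrx L A hA)))
    (hintα : α.IsIntegral) (hintβ : β.IsIntegral)
    (haα : ∀ x, algebraMap BE1 F₂ (α x) = aα (algebraMap BE' F₁ x))
    (hbβ : ∀ x, algebraMap BE1 F₂ (β x) = bβ (algebraMap BE' F₁ x))
    (hαR : ∀ c : RR, α (algebraMap RR BE' c) = algebraMap RR BE1 c)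
    (hβR : ∀ c : RR, β (algebraMap RR BE' c) = algebraMap RR BE1 c)
    -- the labelled primes
    (P₁ : Fin 3 → Ideal BE1) (P₂ : Fin 3 → Ideal BE2)
    (e10 : P₁ 0 = RingHom.ker (S35.H70.redE hq.out hA E0 (q * (q * L)) (J3N L (q := q)) πq hunr
      (S36.H70.genBy_J3N L A hA E0 hunr) r₁ hq₁))
    (e11 : P₁ 1 = RingHom.ker (S35.H70.redE hq.out hA E0 (q * (q * L)) (J3N L (q := q)) πq hunr
      (S36.H70.genBy_J3N L A hA E0 hunr) r₂ hq₂))
    (e12 : P₁ 2 = RingHom.ker (S35.H70.redE hq.out hA E0 (q * (q * L)) (J3N L (q := q)) πq hunr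
      (S36.H70.genBy_J3N L A hA E0 hunr) r₃ hq₃))
    (e20 : P₂ 0 = RingHom.ker (S35.H70.redE hq.out hA E0 (q * (q * L)) (J3N L (q := q))⁻¹ πq hunr
      (S36.H70.genBy_J3N_inv L A hA E0 hunr) s₁ hq₁'))
    (e21 : P₂ 1 = RingHom.ker (S35.H70.redE hq.out hA E0 (q * (q * L)) (J3N L (q := q))⁻¹ πq hunr
      (S36.H70.genBy_J3N_inv L A hA E0 hunr) s₂ hq₂'))
    (e22 : P₂ 2 = RingHom.ker (S35.H70.redE hq.out hA E0 (q * (q * L)) (J3N L (q := q))⁻¹ πq hunr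
      (S36.H70.genBy_J3N_inv L A hA E0 hunr) s₃ hq₃'))
    [hP₁ : ∀ i, (P₁ i).IsPrime] [hP₂ : ∀ i, (P₂ i).IsPrime]
    (P'F P'V : Ideal BE') [hP'F : P'F.IsPrime] [hP'V : P'V.IsPrime]
    (hP'F1 : P'F = RingHom.ker (S35.H70.redE hq.out hA E0 (q * L) (JN L (ℓ := q)) πq hunr
      (S35.H70.genBy_JN L hqL A hA E0) r₁' hℓ₁))
    (hP'V2 : P'V = RingHom.ker (S35.H70.redE hq.out hA E0 (q * L) (JN L (ℓ := q)) πq hunr
      (S35.H70.genBy_JN L hqL A hA E0) r₂' hℓ₂))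
    (m : ℕ) :
    ∃ (hh₁ : ∀ i, (P₁ i).height = 1) (hh₂ : ∀ i, (P₂ i).height = 1)
      (hF : P'F.height = 1) (hV : P'V.height = 1),
      (∀ i, H56.valuationSubringAt (K := F₂) (P₁ i) (hh₁ i) =
        H56.valuationSubringAt (K := F₂) (P₂ i) (hh₂ i)) ∧
      TowerValU aα Nα q (H56.valuationSubringAt (K := F₂) (P₁ 0) (hh₁ 0))
        (H56.valuationSubringAt (K := F₂) (P₁ 1) (hh₁ 1))
        (H56.valuationSubringAt (K := F₂) (P₁ 2) (hh₁ 2))
        (H56.valuationSubringAt (K := F₁) P'F hF) (H56.valuationSubringAt (K := F₁) P'V hV) ∧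
      TowerValU bβ Nβ q (H56.valuationSubringAt (K := F₂) (P₁ 2) (hh₁ 2))
        (H56.valuationSubringAt (K := F₂) (P₁ 1) (hh₁ 1))
        (H56.valuationSubringAt (K := F₂) (P₁ 0) (hh₁ 0))
        (H56.valuationSubringAt (K := F₁) P'V hV) (H56.valuationSubringAt (K := F₁) P'F hF) ∧
      (∀ f : F₂, f ≠ 0 →
        (∃ (c : ↥E0) (h : F₁), c ≠ 0 ∧ h ≠ 0 ∧ Nα f = algebraMap ↥E0 F₁ c * h ^ m) →
        (∃ (c : ↥E0) (h : F₁), c ≠ 0 ∧ h ≠ 0 ∧ Nβ f = algebraMap ↥E0 F₁ c * h ^ m) →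
        ∃ (s : ℤ) (g : F₂), g ≠ 0 ∧
          ∀ i, (H56.valuationSubringAt (K := F₂) (P₁ i) (hh₁ i)).valuation
            (f ^ (q + 1) * algebraMap ↥E0 F₂ ((q : ℕ) : ↥E0) ^ (-s) * (g ^ m)⁻¹) = 1) := by
  classical
  haveI : NeZero q := ⟨hq.out.ne_zero⟩
  haveI := S36.H35BR.isDedekindDomain_D1 L hqL A hA
  haveI := S36.H35BR.isDedekindDomain_D2 L hqL A hA
  have hD : ¬ IsField D1 := S36.H35BR.not_isField_D1 L A
  -- the E-level packages
  have hN := S36.H70.genBy_J3N L A hA E0 hunr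
  have hN' := S36.H70.genBy_J3N_inv L A hA E0 hunr
  have hM := S35.H70.genBy_JN L hqL A hA E0
  have h₁E := S36.H70.threeComponents_cutOver_left hq.out hA E0 (q * (q * L)) (J3N L (q := q))
    πq hunr hN TC₁ hqm hq₁ hq₂ hq₃
  have h₂E := S36.H70.threeComponents_cutOver_left hq.out hA E0 (q * (q * L)) (J3N L (q := q))⁻¹
    πq hunr hN' TC₂ hqm' hq₁' hq₂' hq₃'
  have hqmE := S36.H70.hq2_cutOver hq.out hA E0 (q * (q * L)) (J3N L (q := q)) hN hunr hq₂ hqm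
  have h'E := S35.H70.twoComponents_cutOver_left hq.out hA E0 (q * L) (JN L (ℓ := q))
    πq hunr hM TC' hℓ₁ hℓ₂
  have hq1E := S35.H70.redE_pi hq.out hA E0 (q * (q * L)) (J3N L (q := q)) πq hunr hN r₁ hq₁
  have hq2E := S35.H70.redE_pi hq.out hA E0 (q * (q * L)) (J3N L (q := q)) πq hunr hN r₂ hq₂
  have hq3E := S35.H70.redE_pi hq.out hA E0 (q * (q * L)) (J3N L (q := q)) πq hunr hN r₃ hq₃
  have hr1E := S35.H70.redE_pi hq.out hA E0 (q * (q * L)) (J3N L (q := q))⁻¹ πq hunr hN' s₁ hq₁'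
  have hr2E := S35.H70.redE_pi hq.out hA E0 (q * (q * L)) (J3N L (q := q))⁻¹ πq hunr hN' s₂ hq₂'
  have hr3E := S35.H70.redE_pi hq.out hA E0 (q * (q * L)) (J3N L (q := q))⁻¹ πq hunr hN' s₃ hq₃'
  have hq1'E := S35.H70.redE_pi hq.out hA E0 (q * L) (JN L (ℓ := q)) πq hunr hM r₁' hℓ₁
  have hq2'E := S35.H70.redE_pi hq.out hA E0 (q * L) (JN L (ℓ := q)) πq hunr hM r₂' hℓ₂
  -- `q ≠ 0` in the three charts
  have hq0₁ : algebraMap RR BE1 πq ≠ 0 :=
    S36.H70.algebraMap_natCast_ne_zero E0 (q * (q * L)) _ hq.out.ne_zero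
  have hq0₂ : algebraMap RR BE2 πq ≠ 0 :=
    S36.H70.algebraMap_natCast_ne_zero E0 (q * (q * L)) _ hq.out.ne_zero
  have hq0' : algebraMap RR BE' πq ≠ 0 :=
    S36.H70.algebraMap_natCast_ne_zero E0 (q * L) _ hq.out.ne_zero
  -- heights
  have hW2 := hW2_jK L A hA
  have hW4 := hW4_jK L A hA
  have hW2' := hW2_jK_inv L A hA
  have hW4' := hW4_jK_inv L A hA
  have hh₁ : ∀ i, (P₁ i).height = 1 := fun i =>
    S36.H61.vertFam_height P₁ e10 e11 e12 h₁E hq1E hq2E hq3E hW2 hW4 hq0₁ i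
  have hh₂ : ∀ i, (P₂ i).height = 1 := fun i =>
    S36.H61.vertFam_height P₂ e20 e21 e22 h₂E hr1E hr2E hr3E hW2' hW4' hq0₂ i
  have hne₁ := S35.H84.exists_red₁_eq_zero_red₂_ne_zero h'E hq.out.two_le hD
  have hne₂ := S35.H84.exists_red₂_eq_zero_red₁_ne_zero h'E hq.out.two_le hD
  have hF : P'F.height = 1 := by
    rw [hP'F1]
    exact S36.H16.height_ker₁_eq_one_of_two h'E hq0' hq1'E hq2'E hne₁ hne₂
  have hV : P'V.height = 1 := by
    rw [hP'V2]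
    exact S36.H16.height_ker₂_eq_one_of_two h'E hq0' hq1'E hq2'E hne₁ hne₂
  have hinj := S36.H61.vertFam_injective P₁ e10 e11 e12 h₁E hW2 hW4
  have hWinj := S36.H3.WR_injective (FrM L A hA) q (hFrx L A hA)
  refine ⟨hh₁, hh₂, hF, hV, ?_, ?_⟩
  · -- hVeq
    exact S36.H61.hVeq_S1 L hqL A hA Pi P0 PA PB PC c₁ c₂ c₃ hq₁ hq₂ hq₃ TC₁ d₁ d₂ d₃
      hq₁' hq₂' hq₃' TC₂ E0 hunr P₁ P₂ e10 e11 e12 e20 e21 e22 hh₁ hh₂
  -- the `A₁`-level instances
  haveI := S36.H95.isNoetherianRing_chartB_J3K_A0 (A := A) hq.out hA (q * (q * L)) q (hq2_dvd L)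
  haveI := S36.H95.isIntegrallyClosed_chartB_J3K_A0 (A := A) (ℓ := q) (q * (q * L)) q (hq2_dvd L)
  haveI := S36.H95.isFractionRing_chartB_J3K_A0 (A := A) (ℓ := q) (q * (q * L)) q (hq2_dvd L)
  haveI := S34.H95.isNoetherianRing_chartB_JK_A0 (A := A) hq.out hA (q * L) q (Dvd.intro L rfl)
  haveI := S34.H95.isIntegrallyClosed_chartB_JK_A0 (A := A) (ℓ := q) (q * L) q (Dvd.intro L rfl)
  haveI := S34.H95.isFractionRing_chartB_JK_A0 (A := A) (ℓ := q) (q * L) q (Dvd.intro L rfl)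
  haveI := RingHom.ker_isPrime r₁
  haveI := RingHom.ker_isPrime r₂
  haveI := RingHom.ker_isPrime r₃
  haveI := RingHom.ker_isPrime r₁'
  haveI := RingHom.ker_isPrime r₂'
  have hc : ∀ {R₀ : Type _} [CommRing R₀] (N : ℕ) [NeZero N]
      (J : ↥(modularFunctionFieldFullC ↥(H45.unrCyclo q) N))
      (h : S35.H70.GenBy (A := A) E0 N J) (r : ↥(H40.chartB A₁ J) →+* R₀)
      (hr : r (algebraMap A₁ ↥(H40.chartB A₁ J) ((q : ℕ) : A₁)) = 0) (b : ↥(H40.chartB A₁ J)),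
      S35.H70.redE hq.out hA E0 N J πq hunr h r hr
        (S34.H95.chartBC (A := A) E0 N J (H45.baseChangeE E0 N J) rfl b) = r b := by
    intro R₀ _ N _ J h r hr b
    rw [S35.H70.chartBC_eq_chartMapE]
    exact S35.H70.redE_chartMapE hq.out hA E0 N J _ hunr h r hr b
  have HV := S36.H46.HVab_of_chartBC L q hq.out hA E0
    (J3N L (q := q)) (H45.baseChangeE E0 (q * (q * L)) (J3N L (q := q))) rfl
    (JN L (ℓ := q)) (H45.baseChangeE E0 (q * L) (JN L (ℓ := q))) rfl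
    hunr hN hD h₁E hq1E hq2E hq3E hqmE h'E hq1'E hq2'E hL hWinj hintα hintβ haα hbβ hαR hβR
    P₁ e10 e11 e12 hh₁ hinj P'F P'V hF hV hP'F1 hP'V2
    (hc _ _ hN r₁ hq₁) (hc _ _ hN r₂ hq₂) (hc _ _ hN r₃ hq₃)
    (hc _ _ hM r₁' hℓ₁) (hc _ _ hM r₂' hℓ₂)
    (S36.H16.height_ker_J3N₁ L A hA TC₁ hq₁) (S36.H16.height_ker_J3N₂ L A hA TC₁ hq₂)
    (S36.H16.height_ker_J3N₃ L A hA TC₁ hq₃)
    (S36.H16.height_ker_JN₁ L hqL A hA Pi P0 r₁' r₂' h₁' h₂' TC')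
    (S36.H16.height_ker_JN₂ L hqL A hA Pi P0 r₁' r₂' h₁' h₂' TC')
    (S36.H16.towerValU_alpha_J3N_of_components L hqL A hA Pi P0 MD hMD PA PB PC r₁ r₂ r₃
      hq₁ hq₂ hq₃ c₁ c₂ c₃ TC₁ r₁' r₂' h₁' h₂' TC')
    (S36.H16.towerValU_beta_J3N_of_components L hqL A hA Pi P0 MD hMD PA PB PC r₁ r₂ r₃
      hq₁ hq₂ hq₃ c₁ c₂ c₃ TC₁ r₁' r₂' h₁' h₂' TC')
  refine ⟨HV.1, HV.2, ?_⟩
  -- hE3
  have hs := hne₁
  have hAR : ∀ x ∈ H45.cutOver A E0, ∃ r : RR, algebraMap RR ↥E0 r = x :=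
    fun x hx => ⟨⟨x, hx⟩, rfl⟩
  have hπF : algebraMap RR BE' πq ∈ P'F := by rw [hP'F1]; exact (RingHom.mem_ker).mpr hq1'E
  have hπV : algebraMap RR BE' πq ∈ P'V := by rw [hP'V2]; exact (RingHom.mem_ker).mpr hq2'E
  have hredF : ∀ b ∈ P'F, ∃ s, s ∉ P'F ∧ algebraMap RR BE' πq ∣ s * b := by
    rw [hP'F1]; exact S35.H84.hred_ker_red₁ h'E hne₂
  have hredV : ∀ b ∈ P'V, ∃ s, s ∉ P'V ∧ algebraMap RR BE' πq ∣ s * b := by
    rw [hP'V2]; exact S35.H84.hred_ker_red₂ h'E hne₁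
  have hWFall := wfacts_of_hred (K := ↥E0) (F := F₁) (H45.cutOver A E0) hAR πq P'F hF hπF hredF
  have hWVall := wfacts_of_hred (K := ↥E0) (F := F₁) (H45.cutOver A E0) hAR πq P'V hV hπV hredV
  have hqB' : algebraMap BE' F₁ (algebraMap RR BE' πq) = algebraMap ↥E0 F₁ ((q : ℕ) : ↥E0) := by
    rw [map_natCast, map_natCast, map_natCast]
  exact hs.elim fun s₁ hs₁ =>
    S36.H3.hE3_of_levelMaps_fast L q hq.out hA E0 hfix P₁ hh₁
      (H56.valuationSubringAt (K := F₁) P'F hF) (H56.valuationSubringAt (K := F₁) P'V hV) hinj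
      hWFall.1 hWFall.2.1 hWFall.2.2 hWVall.1 hWVall.2.1 hWVall.2.2
      h₁E hq1E hq2E hq3E hqmE e10 e11 e12 hL hWinj haα hbβ hintα hintβ
      P'F P'V hF hV hP'F1 hP'V2 rfl rfl hs₁.1 hs₁.2
      (algebraMap RR BE' πq) hqB' (hαR πq) (hβR πq) m

end Labels

end Fermat.Agent.S36.H69
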