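/-
helper69 -- S36 (Carayol), row (E7), block (W): **the facts about the vertical valuation rings
`WF`, `WV` of the level-`qL` model, from `S34.H83.TwoComponents`** (the landed E-level package
`S35.H70.exists_twoComponentsE_JK` at `(L, q)` over `R = cutOver A E0`).

`S35.H84.vertTC red₁ red₂ true = ker red₁`, `.. false = ker red₂` are the two vertical primes of
the chart, of height one (`S35.H84.height_vertTC'`) and reduced (`S35.H84.hred_ker_red₁/₂`);
`S36.H69.wfacts_of_hred` applies.
-/
import Mathlib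
import Fermat.Agent.S36.H69_WFacts
import Fermat.Agent.S35.H84_TwoCompNe

set_option autoImplicit false
set_option linter.unusedSectionVars false
set_option linter.style.haveILetI false

namespace Fermat.Agent.S36.H69

open Fermat.Agent.S34 Fermat.Agent.S34.H56 Fermat.Agent.S34.H83 Fermat.Agent.S35.H84

section TC

variable {R K B F : Type*} [CommRing R] [Field K] [Algebra R K]
  [CommRing B] [IsDomain B] [Field F] [Algebra B F] [IsFractionRing B F]
  [IsNoetherianRing B] [IsIntegrallyClosed B]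
  [Algebra R B] [Algebra R F] [Algebra K F] [IsScalarTower R B F] [IsScalarTower R K F]
  {D BM : Type*} [CommRing D] [IsDedekindDomain D] [CommRing BM]
  {red₁ red₂ : B →+* D} {ι V : BM →+* B} {rbar : BM →+* D} {W : D →+* D} {q : ℕ} {π : R}

/-- `hred` at both vertical primes. -/
theorem hred_vertTC (h : TwoComponents red₁ red₂ ι V rbar W q (algebraMap R B π))
    (hq : 2 ≤ q) (hD : ¬ IsField D) (k : Bool) :
    ∀ b ∈ vertTC red₁ red₂ k, ∃ s, s ∉ vertTC red₁ red₂ k ∧ algebraMap R B π ∣ s * b := by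
  cases k
  · exact hred_ker_red₂ h (exists_red₁_eq_zero_red₂_ne_zero h hq hD)
  · exact hred_ker_red₁ h (exists_red₂_eq_zero_red₁_ne_zero h hq hD)

/-- `π` lies in both vertical primes. -/
theorem pi_mem_vertTC (hπ₁ : red₁ (algebraMap R B π) = 0) (hπ₂ : red₂ (algebraMap R B π) = 0)
    (k : Bool) : algebraMap R B π ∈ vertTC red₁ red₂ k := by
  cases k
  · exact (RingHom.mem_ker).mpr hπ₂
  · exact (RingHom.mem_ker).mpr hπ₁

/-- **Block (W) from `TwoComponents`**, for `W := valuationSubringAt (vertTC red₁ red₂ k)`: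
`W` contains `A`, `π` is a non-unit of `W`, `π` is a uniformiser of `W`. -/
theorem wfacts_of_twoComponents (h : TwoComponents red₁ red₂ ι V rbar W q (algebraMap R B π))
    (hπ0 : algebraMap R B π ≠ 0) (hπ₁ : red₁ (algebraMap R B π) = 0)
    (hπ₂ : red₂ (algebraMap R B π) = 0) (hq : 2 ≤ q) (hD : ¬ IsField D)
    (A : ValuationSubring K) (hAR : ∀ x ∈ A, ∃ r : R, algebraMap R K r = x) (k : Bool) :
    (∀ x : K, A.valuation x ≤ 1 →
      (valuationSubringAt (K := F) (vertTC red₁ red₂ k)
        (height_vertTC' h hπ0 hπ₁ hπ₂ hq hD k)).valuation (algebraMap K F x) ≤ 1) ∧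
    (valuationSubringAt (K := F) (vertTC red₁ red₂ k)
      (height_vertTC' h hπ0 hπ₁ hπ₂ hq hD k)).valuation
        (algebraMap K F (algebraMap R K π)) < 1 ∧
    (∀ x : F, x ≠ 0 → ∃ n : ℤ,
      (valuationSubringAt (K := F) (vertTC red₁ red₂ k)
        (height_vertTC' h hπ0 hπ₁ hπ₂ hq hD k)).valuation
          (x * algebraMap K F (algebraMap R K π) ^ (-n)) = 1) :=
  wfacts_of_hred A hAR π (vertTC red₁ red₂ k) (height_vertTC' h hπ0 hπ₁ hπ₂ hq hD k)
    (pi_mem_vertTC hπ₁ hπ₂ k) (hred_vertTC h hq hD k)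

end TC

end Fermat.Agent.S36.H69
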