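/-
helper69 -- S36 (Carayol), row (E7), leaf (W-chart) (helper18 #3438): **generic chart-level
producer of the (W) facts**, in the `R`-only vocabulary.

`R` a base ring with `π : R`, `B'` a noetherian integrally closed domain `R`-algebra with fraction
field `F1`, `P'` a height-one prime of `B'` with `π ∈ P'`, REDUCED along `P'`
(`hred : ∀ b ∈ P', ∃ s ∉ P', π ∣ s * b`), `W := H56.valuationSubringAt P' h1`.  Then
(i) `R` lands in `W`, (ii) `π` is a non-unit of `W`, (iii) `π` is a uniformiser of `W`.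

(The `K`/`A`-vocabulary twins, `wfacts_of_hred`, `hWlt_of_hred`, `hAW_of_hred`, are in
`S36/H69_WFacts`; the `TwoComponents` corollary in `S36/H69_WFactsTC`.)
-/
import Mathlib
import Fermat.Agent.S36.H69_WFactsTC

set_option autoImplicit false
set_option linter.unusedSectionVars false
set_option linter.style.haveILetI false

namespace Fermat.Agent.S36.H69

open Fermat.Agent.S34 Fermat.Agent.S34.H56 Fermat.Agent.S34.H83 Fermat.Agent.S35.H84

section VertUniformiser

variable {R B' F1 : Type*} [CommRing R]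
  [CommRing B'] [IsDomain B'] [Field F1] [Algebra B' F1] [IsFractionRing B' F1]
  [IsNoetherianRing B'] [IsIntegrallyClosed B']
  [Algebra R B'] [Algebra R F1] [IsScalarTower R B' F1]

/-- **(W-chart).** -/
theorem vert_uniformiser_facts (π : R) (P' : Ideal B') [hP' : P'.IsPrime] (h1 : P'.height = 1)
    (hπP' : algebraMap R B' π ∈ P')
    (hred : ∀ b ∈ P', ∃ s, s ∉ P' ∧ algebraMap R B' π ∣ s * b) :
    (∀ r : R, (valuationSubringAt (K := F1) P' h1).valuation (algebraMap R F1 r) ≤ 1) ∧
    (valuationSubringAt (K := F1) P' h1).valuation (algebraMap R F1 π) < 1 ∧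
    (∀ x : F1, x ≠ 0 → ∃ n : ℤ,
      (valuationSubringAt (K := F1) P' h1).valuation (x * algebraMap R F1 π ^ (-n)) = 1) := by
  refine ⟨fun r => ?_, ?_, fun x hx => ?_⟩
  · rw [IsScalarTower.algebraMap_apply R B' F1]
    exact ((valuationSubringAt (K := F1) P' h1).valuation_le_one_iff _).mpr
      (algebraMap_mem_valuationSubringAt h1 _)
  · rw [IsScalarTower.algebraMap_apply R B' F1]
    exact (algebraMap_mem_nonunits_iff h1 _).mpr hπP'
  · rw [IsScalarTower.algebraMap_apply R B' F1]
    exact exists_zpow_valuation_eq_one_of_hred P' h1 _ hπP' hred x hx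

variable {D BM : Type*} [CommRing D] [IsDedekindDomain D] [CommRing BM]
  {red₁ red₂ : B' →+* D} {ι V : BM →+* B'} {rbar : BM →+* D} {W : D →+* D} {q : ℕ} {π : R}

/-- **(W-chart) for the two vertical primes of a `TwoComponents` chart** (`k = true`: `ker red₁`,
`k = false`: `ker red₂`). -/
theorem vert_uniformiser_facts_of_twoComponents
    (h : TwoComponents red₁ red₂ ι V rbar W q (algebraMap R B' π))
    (hπ0 : algebraMap R B' π ≠ 0) (hπ₁ : red₁ (algebraMap R B' π) = 0)
    (hπ₂ : red₂ (algebraMap R B' π) = 0) (hq : 2 ≤ q) (hD : ¬ IsField D) (k : Bool) :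
    (∀ r : R, (valuationSubringAt (K := F1) (vertTC red₁ red₂ k)
      (height_vertTC' h hπ0 hπ₁ hπ₂ hq hD k)).valuation (algebraMap R F1 r) ≤ 1) ∧
    (valuationSubringAt (K := F1) (vertTC red₁ red₂ k)
      (height_vertTC' h hπ0 hπ₁ hπ₂ hq hD k)).valuation (algebraMap R F1 π) < 1 ∧
    (∀ x : F1, x ≠ 0 → ∃ n : ℤ,
      (valuationSubringAt (K := F1) (vertTC red₁ red₂ k)
        (height_vertTC' h hπ0 hπ₁ hπ₂ hq hD k)).valuation
          (x * algebraMap R F1 π ^ (-n)) = 1) :=
  vert_uniformiser_facts π (vertTC red₁ red₂ k) (height_vertTC' h hπ0 hπ₁ hπ₂ hq hD k)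
    (pi_mem_vertTC hπ₁ hπ₂ k) (hred_vertTC h hq hD k)

end VertUniformiser

end Fermat.Agent.S36.H69
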