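/-
helper69 -- S36 (Carayol), row (E7), block (W) **at the real types**: the six facts
`hWFint hWFq hWFπ hWVint hWVq hWVπ` of `S36.H18.geoFn36E_of_twoCharts` for
`WF := valuationSubringAt (ker ρ₁')`, `WV := valuationSubringAt (ker ρ₂')`, the two vertical
valuation rings of the level `N = q L` chart `B' = chartB (cutOver A E0) (JK ↥E0 N q _)`, from any
`S34.H83.TwoComponents` package on `B'` (e.g. `S35.H70.exists_twoComponentsE_JK`).

`S35.H84.vertTC ρ₁' ρ₂' true = ker ρ₁'`, `.. false = ker ρ₂'` definitionally.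
-/
import Mathlib
import Fermat.Agent.S36.H69_WFactsTC
import Fermat.Agent.S34.H95_CoordJInst

set_option autoImplicit false
set_option linter.unusedSectionVars false
set_option linter.style.haveILetI false
set_option synthInstance.maxHeartbeats 400000
set_option maxHeartbeats 1600000

noncomputable section

namespace Fermat.Agent.S36.H69

open ModularCurve IntermediateField
open Fermat.Agent.S18 Fermat.Agent.S18.H45 Fermat.Agent.S34 Fermat.Agent.S34.H56
  Fermat.Agent.S34.H83 Fermat.Agent.S35.H84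

section Gen

variable {R K B F : Type*} [CommRing R] [Field K] [Algebra R K]
  [CommRing B] [IsDomain B] [Field F] [Algebra B F] [IsFractionRing B F]
  [IsNoetherianRing B] [IsIntegrallyClosed B]
  [Algebra R B] [Algebra R F] [Algebra K F] [IsScalarTower R B F] [IsScalarTower R K F]
  {D BM : Type*} [CommRing D] [IsDedekindDomain D] [CommRing BM]
  {red₁ red₂ : B →+* D} {ι V : BM →+* B} {rbar : BM →+* D} {W : D →+* D} {q : ℕ} {π : R}

/-- `wfacts_of_twoComponents` with the uniformiser named in `K`. -/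
theorem wfacts_of_twoComponents' (h : TwoComponents red₁ red₂ ι V rbar W q (algebraMap R B π))
    (hπ0 : algebraMap R B π ≠ 0) (hπ₁ : red₁ (algebraMap R B π) = 0)
    (hπ₂ : red₂ (algebraMap R B π) = 0) (hq : 2 ≤ q) (hD : ¬ IsField D)
    (A : ValuationSubring K) (hAR : ∀ x ∈ A, ∃ r : R, algebraMap R K r = x)
    {πK : K} (hπK : algebraMap R K π = πK) (k : Bool) :
    (∀ x : K, A.valuation x ≤ 1 →
      (valuationSubringAt (K := F) (vertTC red₁ red₂ k)
        (height_vertTC' h hπ0 hπ₁ hπ₂ hq hD k)).valuation (algebraMap K F x) ≤ 1) ∧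
    (valuationSubringAt (K := F) (vertTC red₁ red₂ k)
      (height_vertTC' h hπ0 hπ₁ hπ₂ hq hD k)).valuation (algebraMap K F πK) < 1 ∧
    (∀ x : F, x ≠ 0 → ∃ n : ℤ,
      (valuationSubringAt (K := F) (vertTC red₁ red₂ k)
        (height_vertTC' h hπ0 hπ₁ hπ₂ hq hD k)).valuation
          (x * algebraMap K F πK ^ (-n)) = 1) := by
  subst hπK
  exact wfacts_of_twoComponents h hπ0 hπ₁ hπ₂ hq hD A hAR k

/-- Block (W) for a prime known to be `ker red₁` (any height proof): the shape of the binders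
`P'F hF hP'F1 hWF` of `S36.H85.hpt_of_rows` / `S36.H69.geo36_two_charts_of_rows`. -/
theorem wfacts_ker₁ (h : TwoComponents red₁ red₂ ι V rbar W q (algebraMap R B π))
    (hπ0 : algebraMap R B π ≠ 0) (hπ₁ : red₁ (algebraMap R B π) = 0)
    (hπ₂ : red₂ (algebraMap R B π) = 0) (hq : 2 ≤ q) (hD : ¬ IsField D)
    (A : ValuationSubring K) (hAR : ∀ x ∈ A, ∃ r : R, algebraMap R K r = x)
    {πK : K} (hπK : algebraMap R K π = πK)
    (P' : Ideal B) [hP' : P'.IsPrime] (hF : P'.height = 1) (hP'1 : P' = RingHom.ker red₁) :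
    (∀ x : K, A.valuation x ≤ 1 →
      (valuationSubringAt (K := F) P' hF).valuation (algebraMap K F x) ≤ 1) ∧
    (valuationSubringAt (K := F) P' hF).valuation (algebraMap K F πK) < 1 ∧
    (∀ x : F, x ≠ 0 → ∃ n : ℤ,
      (valuationSubringAt (K := F) P' hF).valuation (x * algebraMap K F πK ^ (-n)) = 1) := by
  subst hP'1
  exact wfacts_of_twoComponents' h hπ0 hπ₁ hπ₂ hq hD A hAR hπK true

/-- Block (W) for a prime known to be `ker red₂` (any height proof). -/
theorem wfacts_ker₂ (h : TwoComponents red₁ red₂ ι V rbar W q (algebraMap R B π))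
    (hπ0 : algebraMap R B π ≠ 0) (hπ₁ : red₁ (algebraMap R B π) = 0)
    (hπ₂ : red₂ (algebraMap R B π) = 0) (hq : 2 ≤ q) (hD : ¬ IsField D)
    (A : ValuationSubring K) (hAR : ∀ x ∈ A, ∃ r : R, algebraMap R K r = x)
    {πK : K} (hπK : algebraMap R K π = πK)
    (P' : Ideal B) [hP' : P'.IsPrime] (hV : P'.height = 1) (hP'2 : P' = RingHom.ker red₂) :
    (∀ x : K, A.valuation x ≤ 1 →
      (valuationSubringAt (K := F) P' hV).valuation (algebraMap K F x) ≤ 1) ∧
    (valuationSubringAt (K := F) P' hV).valuation (algebraMap K F πK) < 1 ∧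
    (∀ x : F, x ≠ 0 → ∃ n : ℤ,
      (valuationSubringAt (K := F) P' hV).valuation (x * algebraMap K F πK ^ (-n)) = 1) := by
  subst hP'2
  exact wfacts_of_twoComponents' h hπ0 hπ₁ hπ₂ hq hD A hAR hπK false

end Gen

local notation "Qbar" => AlgebraicClosure ℚ

variable {A : ValuationSubring Qbar} {q : ℕ} [NeZero q]
variable (E0 : IntermediateField (unrCyclo q) Qbar)
variable (N : ℕ) [NeZero N] (hqN : q ∣ N)

/-- **Block (W) at the real types**, for `W := valuationSubringAt (vertTC ρ₁' ρ₂' k)`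
(`k = true`: `ker ρ₁'`, `k = false`: `ker ρ₂'`). -/
theorem wfacts_real
    [IsNoetherianRing ↥(H40.chartB (cutOver A E0) (H95.JK ↥E0 N q hqN))]
    [IsIntegrallyClosed ↥(H40.chartB (cutOver A E0) (H95.JK ↥E0 N q hqN))]
    [IsFractionRing ↥(H40.chartB (cutOver A E0) (H95.JK ↥E0 N q hqN))
      (modularFunctionFieldFullC ↥E0 N)]
    {D BM : Type*} [CommRing D] [IsDedekindDomain D] [CommRing BM]
    {ρ₁' ρ₂' : ↥(H40.chartB (cutOver A E0) (H95.JK ↥E0 N q hqN)) →+* D}
    {ι V : BM →+* ↥(H40.chartB (cutOver A E0) (H95.JK ↥E0 N q hqN))}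
    {rbar : BM →+* D} {W : D →+* D} {qn : ℕ}
    (TC : TwoComponents ρ₁' ρ₂' ι V rbar W qn
      (algebraMap (cutOver A E0) ↥(H40.chartB (cutOver A E0) (H95.JK ↥E0 N q hqN))
        ((q : ℕ) : cutOver A E0)))
    (hπ₁ : ρ₁' (algebraMap (cutOver A E0) ↥(H40.chartB (cutOver A E0) (H95.JK ↥E0 N q hqN))
      ((q : ℕ) : cutOver A E0)) = 0)
    (hπ₂ : ρ₂' (algebraMap (cutOver A E0) ↥(H40.chartB (cutOver A E0) (H95.JK ↥E0 N q hqN))
      ((q : ℕ) : cutOver A E0)) = 0)
    (hqn : 2 ≤ qn) (hD : ¬ IsField D)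
    (hπ0 : algebraMap (cutOver A E0) ↥(H40.chartB (cutOver A E0) (H95.JK ↥E0 N q hqN))
      ((q : ℕ) : cutOver A E0) ≠ 0) (k : Bool) :
    (∀ x : ↥E0, (cutOver A E0).valuation x ≤ 1 →
      (valuationSubringAt (K := modularFunctionFieldFullC ↥E0 N) (vertTC ρ₁' ρ₂' k)
        (height_vertTC' TC hπ0 hπ₁ hπ₂ hqn hD k)).valuation
          (algebraMap ↥E0 (modularFunctionFieldFullC ↥E0 N) x) ≤ 1) ∧
    (valuationSubringAt (K := modularFunctionFieldFullC ↥E0 N) (vertTC ρ₁' ρ₂' k)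
      (height_vertTC' TC hπ0 hπ₁ hπ₂ hqn hD k)).valuation
        (algebraMap ↥E0 (modularFunctionFieldFullC ↥E0 N) ((q : ℕ) : ↥E0)) < 1 ∧
    (∀ x : modularFunctionFieldFullC ↥E0 N, x ≠ 0 → ∃ n : ℤ,
      (valuationSubringAt (K := modularFunctionFieldFullC ↥E0 N) (vertTC ρ₁' ρ₂' k)
        (height_vertTC' TC hπ0 hπ₁ hπ₂ hqn hD k)).valuation
          (x * algebraMap ↥E0 (modularFunctionFieldFullC ↥E0 N) ((q : ℕ) : ↥E0) ^ (-n)) = 1) := by
  exact wfacts_of_twoComponents' (R := ↥(cutOver A E0)) (K := ↥E0)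
    (F := modularFunctionFieldFullC ↥E0 N) TC hπ0 hπ₁ hπ₂ hqn hD (cutOver A E0)
    (fun x hx => ⟨⟨x, hx⟩, rfl⟩) (map_natCast _ q) k

end Fermat.Agent.S36.H69
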