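import Mathlib
import Fermat.Agent.S36.H6_MiddleKronInst
import Fermat.Agent.S36.H95_CoordJ3Inst

/-!
S36 / (M4-K) = group (G4) of helper78's RULING 7 (helper6): `hne hpu hpw` (and `hq0`) for the
E-LEVEL `ThreeComponents` of `S36.H70.exists_threeComponents_chartBC(_unram)`, whose degeneracy maps
are `β.comp ιu`, `β.comp ιv`, `β.comp ιw` with `β` the chart-to-chart base change.

* generic in an injective ring hom `β : chartB A₁ J₃ →+* B''`:
  `hne_J3_comp`, `hpu_J3_comp`, `hpw_J3_comp` (helper72's #3526 spelling, `p` written with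
  `H17.kronMain q + C (C q) * Rk`), `hq0_J3_comp`;
* at `β := S36.H95.chartBC_J3K E (q * (q * L)) q _` (`B'' = chartB (cutOver A E) J₃`):
  `hne_J3_E`, `hpu_J3_E`, `hpw_J3_E`, `hq0_J3_E`.
-/

set_option autoImplicit false
set_option linter.unusedSectionVars false
set_option linter.style.haveILetI false
set_option synthInstance.maxHeartbeats 400000

noncomputable section

namespace Fermat.Agent.S36.H6

open ModularCurve Polynomial IsLocalRing Fermat.Agent.S28
open Fermat.Agent.S18 Fermat.Agent.S34.H92 Fermat.Agent.S34.H16 Fermat.Agent.S34.H55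
open Fermat.Agent.S36.H83 Fermat.Agent.S36.H17

local notation "Qbar" => AlgebraicClosure ℚ

/-- a root statement is preserved by a ring hom. -/
theorem eval_map_evalAt_map {A₀ A' : Type*} [CommRing A₀] [CommRing A'] (g : A₀ →+* A')
    (P : ℤ[X][X]) (v u : A₀) (h : (P.map (evalAt v)).eval u = 0) :
    (P.map (evalAt (g v))).eval (g u) = 0 := by
  rw [eval_map_evalAt] at h ⊢
  have h1 := congrArg g h
  rwa [Polynomial.hom_eval₂, comp_evalAt, map_zero] at h1

section MiddleKronE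

variable (L : ℕ) [NeZero L] (q : ℕ) [hq : Fact q.Prime] (hqL : ¬ q ∣ L)
  (A : ValuationSubring Qbar) (hA : A.LiesOverPrime q)

local notation "A₁" => H45.A0 A q
local notation "L₁" => H45.unrCyclo q

variable {B'' : Type*} [CommRing B'']
  (β : ↥(H40.chartB (H45.A0 A q) (J3N L (q := q))) →+* B'')

/-- **`hne`** for the degeneracy maps `β.comp ιu`, `β.comp ιw`. -/
theorem hne_J3_comp (hβ : Function.Injective β) :
    (β.comp (iU1 L q A)) (psiJ L q A) ≠ (β.comp (iW1 L q A)) (psiJ L q A) :=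
  fun h => hne_J3 L q A (hβ h)

/-- **`hpu`** for `β.comp ιu`, `β.comp ιv` (helper72's spelling). -/
theorem hpu_J3_comp (D : ModularPolynomialData q)
    (hD : ∀ (k : Type) [Field k] (ζ : kˣ), IsPrimitiveRoot ζ q → RootsAt k q ζ D.Φ)
    (Rk : ℤ[X][X]) (hRk : D.Φ = kronMain q + C (C (q : ℤ)) * Rk) :
    ((kronMain q + C (C (q : ℤ)) * Rk).map
      (evalAt ((β.comp (iV1 L q A)) (psiJ L q A)))).eval ((β.comp (iU1 L q A)) (psiJ L q A)) = 0 := by
  rw [← hRk]
  exact eval_map_evalAt_map β D.Φ _ _ (hpu_J3 L q A D hD)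

/-- **`hpw`** for `β.comp ιw`, `β.comp ιv` (helper72's spelling). -/
theorem hpw_J3_comp (D : ModularPolynomialData q)
    (Rk : ℤ[X][X]) (hRk : D.Φ = kronMain q + C (C (q : ℤ)) * Rk) :
    ((kronMain q + C (C (q : ℤ)) * Rk).map
      (evalAt ((β.comp (iV1 L q A)) (psiJ L q A)))).eval ((β.comp (iW1 L q A)) (psiJ L q A)) = 0 := by
  rw [← hRk]
  exact eval_map_evalAt_map β D.Φ _ _ (hpw_J3 L q A D)

/-- **`hq0`** in the target of an injective `β`. -/
theorem hq0_J3_comp (hβ : Function.Injective β) : ((q : ℕ) : B'') ≠ 0 := by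
  intro h
  apply hq0_J3 L q A
  apply hβ
  rw [map_natCast, map_zero, h]

/-! ### at the E-level chart `chartB (cutOver A E) J₃` -/

variable (E : IntermediateField (H45.unrCyclo q) Qbar)

/-- **`hne`** at the E-level chart 1 of level `q² L`. -/
theorem hne_J3_E :
    ((S36.H95.chartBC_J3K (A := A) E (q * (q * L)) q (hq2_dvd L)).comp (iU1 L q A)) (psiJ L q A) ≠
      ((S36.H95.chartBC_J3K (A := A) E (q * (q * L)) q (hq2_dvd L)).comp (iW1 L q A))
        (psiJ L q A) :=
  hne_J3_comp L q A _ (S36.H95.chartBC_J3K_injective E (q * (q * L)) q (hq2_dvd L))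

/-- **`hpu`** at the E-level chart 1 of level `q² L`. -/
theorem hpu_J3_E (D : ModularPolynomialData q)
    (hD : ∀ (k : Type) [Field k] (ζ : kˣ), IsPrimitiveRoot ζ q → RootsAt k q ζ D.Φ)
    (Rk : ℤ[X][X]) (hRk : D.Φ = kronMain q + C (C (q : ℤ)) * Rk) :
    ((kronMain q + C (C (q : ℤ)) * Rk).map
      (evalAt (((S36.H95.chartBC_J3K (A := A) E (q * (q * L)) q (hq2_dvd L)).comp (iV1 L q A))
        (psiJ L q A)))).eval
      (((S36.H95.chartBC_J3K (A := A) E (q * (q * L)) q (hq2_dvd L)).comp (iU1 L q A))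
        (psiJ L q A)) = 0 :=
  hpu_J3_comp L q A _ D hD Rk hRk

/-- **`hpw`** at the E-level chart 1 of level `q² L`. -/
theorem hpw_J3_E (D : ModularPolynomialData q)
    (Rk : ℤ[X][X]) (hRk : D.Φ = kronMain q + C (C (q : ℤ)) * Rk) :
    ((kronMain q + C (C (q : ℤ)) * Rk).map
      (evalAt (((S36.H95.chartBC_J3K (A := A) E (q * (q * L)) q (hq2_dvd L)).comp (iV1 L q A))
        (psiJ L q A)))).eval
      (((S36.H95.chartBC_J3K (A := A) E (q * (q * L)) q (hq2_dvd L)).comp (iW1 L q A))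
        (psiJ L q A)) = 0 :=
  hpw_J3_comp L q A _ D Rk hRk

/-- **`hq0`** at the E-level chart. -/
theorem hq0_J3_E :
    ((q : ℕ) : ↥(H40.chartB (H45.cutOver A E) (J3K ↥E (q * (q * L)) q (hq2_dvd L)))) ≠ 0 :=
  hq0_J3_comp L q A _ (S36.H95.chartBC_J3K_injective E (q * (q * L)) q (hq2_dvd L))

end MiddleKronE

end Fermat.Agent.S36.H6
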