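import Mathlib
import Fermat.Agent.S34.H6_L0Transport
import Fermat.Agent.S34.H6_ResidueDichotomy
import Fermat.Agent.S34.H90_I2
import Fermat.Agent.S16.H36_DeltaUnit

/-!
S36 / (M1)(e), input brick (helper6): the residue of `j_{q²}` at the place `PB` of level `q² L`.

* `eval₂_pow_jNK_ne_zero` — **swapped (I2)**: for `Q ≥ 2`, `Φ_N(j_N^Q, j) ≠ 0` in `k((t))`
  (`j = j(t)`, `j_N = j(t^N)`), by `CA.H90.false_of_iter` applied to the SWAP hom
  `σ : F_N → k((t))`, `(j, j_N) ↦ (j_N, j)`.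
* `eq_pow_of_relations` — `x : k((t))` (`char k = q ∤ L`) with `Φ̄_q(j̄(t^q), x) = 0` and
  `Φ̄_L(j̄(t^L)^(q²), x) = 0` is `j̄^(q²)`.
* `res_jq2_infty` — subring form (twin of `S34.H6.res_jq_zero`): `rS j_q = j̄(t^q)`,
  `rS u = j̄(t^L)^(q²)`, `Φ_q(j_q, j_{q²}) = 0`, `Φ_L(u, j_{q²}) = 0` force `rS j_{q²} = j̄^(q²)`.
-/

set_option autoImplicit false
set_option linter.unusedSectionVars false
set_option linter.style.haveILetI false
set_option synthInstance.maxHeartbeats 400000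

noncomputable section

namespace Fermat.Agent.S36.H6

open Polynomial ModularCurve Fermat.Agent.S28 Fermat.Agent.S18.H16

section SwapI2

variable (N : ℕ) [NeZero N] (K : Type) [Field K]

/-- **swapped (I2)**: for `Q ≥ 2`, `Φ_N(j_N^Q, j) ≠ 0` in `K((t))`. -/
theorem eval₂_pow_jNK_ne_zero (hNK : ((N : ℕ) : K) ≠ 0) (D : ModularPolynomialData N)
    (hD : ∀ (k : Type) [Field k] (ζ : kˣ), IsPrimitiveRoot ζ N → RootsAt k N ζ D.Φ)
    (hirr : Irreducible (redModPoly K D.Φ)) (Q : ℕ) (hQ : 2 ≤ Q) :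
    D.Φ.eval₂ (evalJ (qExpand K N (jqModC K) ^ Q)) (jqModC K) ≠ 0 := by
  intro h
  -- the swap hom
  obtain ⟨σ, hσj, hσN⟩ := S34.H90.exists_algHom_fullC N K hNK D hirr
    (qExpand K N (jqModC K)) (jqModC K) (S28.H50.transcendental_qExpand_jqModC (k := K) N)
    (by
      refine (S28.H50.eval₂_hom_congr ?_ D.Φ _).trans (S16.H36.modPoly_root_swap N D hD K)
      simp [evalJ])
  refine CA.H90.false_of_iter (K := K) (F := modularFunctionFieldFullC K N)
    (B := LaurentSeries K) D.Φ D.monic σ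
    (jK K N) (jNK K N) (transcendental_jK K N) ?_ ?_ Q hQ ?_
  · have h1 : Transcendental K (algebraMap (modularFunctionFieldFullC K N) (LaurentSeries K)
        (jNK K N)) := S28.H50.transcendental_qExpand_jqModC (k := K) N
    exact (transcendental_algebraMap_iff
      (algebraMap (modularFunctionFieldFullC K N) (LaurentSeries K)).injective).1 h1
  · intro x y hx hxy
    exact S34.H90.exists_algHom_fullC N K hNK D hirr x y hx hxy
  · rw [hσj, hσN]
    refine (S28.H50.eval₂_hom_congr ?_ D.Φ _).trans h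
    simp [evalJ]

end SwapI2

section Point

variable (q : ℕ) [Fact q.Prime] [NeZero q] (L : ℕ) [NeZero L]

/-- `x : k((t))` with (a) `Φ̄_q(j̄(t^q), x) = 0` and (b) `Φ̄_L(j̄(t^L)^(q²), x) = 0` is `j̄^(q²)`. -/
theorem eq_pow_of_relations (hqL : ¬ q ∣ L) (k : Type) [Field k] [CharP k q]
    (Dq : ModularPolynomialData q)
    (hDq : ∀ (k : Type) [Field k] (ζ : kˣ), IsPrimitiveRoot ζ q → RootsAt k q ζ Dq.Φ)
    (DL : ModularPolynomialData L)
    (hDL : ∀ (k : Type) [Field k] (ζ : kˣ), IsPrimitiveRoot ζ L → RootsAt k L ζ DL.Φ)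
    (x : LaurentSeries k)
    (ha : Dq.Φ.eval₂ (evalJ (qExpand k q (jqModC k))) x = 0)
    (hb : DL.Φ.eval₂ (evalJ (qExpand k L (jqModC k) ^ (q * q))) x = 0) :
    x = jqModC k ^ (q * q) := by
  rcases S34.H6.eq_jqModC_or_eq_pow q Dq hDq k x ha with h | h
  · exfalso
    have hLk : ((L : ℕ) : k) ≠ 0 := by
      rw [Ne, CharP.cast_eq_zero_iff k q]
      exact hqL
    have hirr := Fermat.Agent.S34.H36.irreducible_redModPoly_of_rootsAt L k hLk DL hDL
    have hq2 : 2 ≤ q * q := by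
      have := (Fact.out : q.Prime).two_le
      nlinarith
    subst h
    exact eval₂_pow_jNK_ne_zero L k hLk DL hDL hirr (q * q) hq2 hb
  · exact h

end Point

section Subring

variable (q : ℕ) [Fact q.Prime] [NeZero q] (k : Type) [Field k] [CharP k q]
  (Dq : ModularPolynomialData q)
  (hDq : ∀ (k : Type) [Field k] (ζ : kˣ), IsPrimitiveRoot ζ q → RootsAt k q ζ Dq.Φ)
  {F : Type*} [CommRing F] (S : Subring F) (rS : S →+* LaurentSeries k)

include hDq in
/-- **Residue of `j_{q²}` at the place `PB`** (subring form): `rS j_q = j̄(t^q)`,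
`rS u = j̄(t^L)^(q²)`, `Φ_q(j_q, j_{q²}) = 0` and `Φ_L(u, j_{q²}) = 0` force
`rS j_{q²} = j̄^(q²)`. -/
theorem res_jq2_infty (L : ℕ) [NeZero L] (hqL : ¬ q ∣ L) (DL : ModularPolynomialData L)
    (hDL : ∀ (k : Type) [Field k] (ζ : kˣ), IsPrimitiveRoot ζ L → RootsAt k L ζ DL.Φ)
    (φjq φu : ℤ[X] →+* F) {jq2 : F} (hjq : φjq X ∈ S) (hu : φu X ∈ S) (hjq2 : jq2 ∈ S)
    (hrel1 : Dq.Φ.eval₂ φjq jq2 = 0) (hrel2 : DL.Φ.eval₂ φu jq2 = 0)
    (hresjq : rS ⟨φjq X, hjq⟩ = qExpand k q (jqModC k))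
    (hresu : rS ⟨φu X, hu⟩ = qExpand k L (jqModC k) ^ (q * q)) :
    rS ⟨jq2, hjq2⟩ = jqModC k ^ (q * q) := by
  refine eq_pow_of_relations q L hqL k Dq hDq DL hDL _ ?_ ?_
  · exact S34.H6.eval₂_res_eq_zero S rS Dq.Φ φjq _ hjq hjq2 (by rw [evalJ_X, hresjq]) hrel1
  · exact S34.H6.eval₂_res_eq_zero S rS DL.Φ φu _ hu hjq2 (by rw [evalJ_X, hresu]) hrel2

end Subring

end Fermat.Agent.S36.H6
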