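import Mathlib
import Fermat.Agent.CA.H99_PlaceOverU
import Fermat.Agent.S36.H6_PlaceDVR

/-!
S36 / (M1) (helper6): `PlaceOverRam.toPlaceOverU` — a ramified place `PlaceOverRam ϖ θ τ n ι θb` over
a DVR (with `L / K` algebraic, `0 < n`) IS a `CA.H99.PlaceOverU τ θ ι θb` (uniformiser `t := τ`), so
that helper99's `PlaceOverU` consequences (DVR, fraction ring, `eq_of_eisenstein`, intersection
lemmas) apply to the Eisenstein place `PC`.  Same `O1` and `res1` (`toPlaceOverU_O1`,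
`toPlaceOverU_res1` are `rfl`).
-/

set_option autoImplicit false
set_option linter.unusedSectionVars false
set_option linter.style.haveILetI false

open Polynomial IsLocalRing

noncomputable section

namespace Fermat.Agent.S36.H6

variable {O : Type*} [CommRing O] [IsDomain O] [IsDiscreteValuationRing O]
variable {K : Type*} [Field K] [Algebra O K] [IsFractionRing O K]
variable {L : Type*} [Field L] [Algebra O L] [Algebra K L] [IsScalarTower O K L]
variable {Fk : Type*} [Field Fk]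
variable {ϖ : O} {θ τ : L} {n : ℕ} {ι : O →+* Fk} {θb : Fk}

/-- the uniformiser `τ` of a ramified place over a DVR is non-zero. -/
theorem PlaceOverRam.τ_ne_zero [Algebra.IsAlgebraic K L]
    (hϖ : maximalIdeal O = Ideal.span {ϖ}) (hn : 0 < n)
    (P : PlaceOverRam ϖ θ τ n ι θb) : τ ≠ 0 := by
  have hOL : Function.Injective (algebraMap O L) := S28.H98.algebraMap_injective_of_tower K
  have hirr : Irreducible ϖ :=
    (IsDiscreteValuationRing.irreducible_iff_uniformizer ϖ).2 hϖ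
  have hϖL : algebraMap O L ϖ ≠ 0 := fun h0 =>
    hirr.ne_zero (hOL (by rw [h0, map_zero]))
  obtain ⟨u, -, -, huτ⟩ := P.unif_eq
  rintro rfl
  rw [zero_pow hn.ne', mul_zero] at huτ
  exact hϖL huτ

/-- discreteness of a ramified place: every non-zero element is `τ ^ m * unit`. -/
theorem PlaceOverRam.exists_pow [Algebra.IsAlgebraic K L]
    (hϖ : maximalIdeal O = Ideal.span {ϖ}) (hn : 0 < n) (P : PlaceOverRam ϖ θ τ n ι θb)
    (y : L) (hy : y ∈ P.O1) (hy0 : y ≠ 0) :
    ∃ (m : ℕ) (z : L), z ∈ P.O1 ∧ z⁻¹ ∈ P.O1 ∧ y = τ ^ m * z := by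
  haveI := isDiscreteValuationRing_placeOverRam (K := K) hϖ hn P
  have hτ0 : tauOf P ≠ 0 := fun h0 => P.τ_ne_zero (K := K) hϖ hn (congrArg Subtype.val h0)
  have hirr : Irreducible (tauOf P) :=
    irreducible_of_place P.res1 (tauOf P) hτ0 (placeOverRam_hker P) (placeOverRam_hinv P)
  have hy0' : (⟨y, hy⟩ : P.O1) ≠ 0 := fun h0 => hy0 (congrArg Subtype.val h0)
  obtain ⟨m, u, hu⟩ := IsDiscreteValuationRing.eq_unit_mul_pow_irreducible hy0' hirr
  refine ⟨m, (u : P.O1), (u : P.O1).2, ?_, ?_⟩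
  · have h1 : ((u : P.O1) : L) * ((u⁻¹ : (P.O1)ˣ) : P.O1) = 1 := by
      have := congrArg Subtype.val (u.mul_inv)
      exact this
    have h2 : (((u : P.O1) : L))⁻¹ = ((u⁻¹ : (P.O1)ˣ) : P.O1) := by
      rw [inv_eq_of_mul_eq_one_right h1]
    rw [h2]
    exact ((u⁻¹ : (P.O1)ˣ) : P.O1).2
  · have h3 : y = (((u : P.O1) * tauOf P ^ m : P.O1) : L) := congrArg Subtype.val hu
    rw [h3]
    change ((u : P.O1) : L) * τ ^ m = τ ^ m * ((u : P.O1) : L)
    ring

/-- **a ramified place is a `PlaceOverU` with uniformiser `τ`.** -/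
def PlaceOverRam.toPlaceOverU [Algebra.IsAlgebraic K L]
    (hϖ : maximalIdeal O = Ideal.span {ϖ}) (hn : 0 < n) (P : PlaceOverRam ϖ θ τ n ι θb) :
    CA.H99.PlaceOverU τ θ ι θb where
  O1 := P.O1
  res1 := P.res1
  algebraMap_mem := P.algebraMap_mem
  res1_algebraMap := P.res1_algebraMap
  θ_mem := P.θ_mem
  res1_θ := P.res1_θ
  t_mem := P.τ_mem
  t_ne_zero := P.τ_ne_zero (K := K) hϖ hn
  res1_eq_zero_iff := P.res1_eq_zero_iff
  inv_mem := P.inv_mem
  mem_or_inv_mem := P.mem_or_inv_mem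
  exists_repr := P.exists_repr
  exists_pow := P.exists_pow (K := K) hϖ hn

@[simp] theorem PlaceOverRam.toPlaceOverU_O1 [Algebra.IsAlgebraic K L]
    (hϖ : maximalIdeal O = Ideal.span {ϖ}) (hn : 0 < n) (P : PlaceOverRam ϖ θ τ n ι θb) :
    (P.toPlaceOverU (K := K) hϖ hn).O1 = P.O1 := rfl

theorem PlaceOverRam.toPlaceOverU_res1 [Algebra.IsAlgebraic K L]
    (hϖ : maximalIdeal O = Ideal.span {ϖ}) (hn : 0 < n) (P : PlaceOverRam ϖ θ τ n ι θb) :
    (P.toPlaceOverU (K := K) hϖ hn).res1 = P.res1 := rfl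

end Fermat.Agent.S36.H6
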