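import Mathlib
import Fermat.Agent.S36.H83_L0ThreeExists
import Fermat.Agent.S36.H70_ThreeComponentsBCFinal
import Fermat.Agent.S36.H70_GenByUnram

/-!
# S36, row (E2), FINAL at both levels (helper70): `ThreeComponents` over `A₁` AND over `cutOver A E`

For ANY places `Pi P0 PA PB PC` of helper55's types and ANY finite UNRAMIFIED `E ⊇ L₁ = unrCyclo q`
(`hunr` = helper45's `S36.H45.maximalIdeal_cutOver_eq_span_natCast_of_fixed hq.out hA E hfix`),
ONE existential per chart containing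

* helper83's hypothesis-free `A₁`-level package `S36.H83.threeComponents_J3K(_inv)_real` VERBATIM
  (`red₁ red₂ red₃` on `chartB A₁ (J3N L)^(±1)`, the three place compatibilities, `red_i q = 0`,
  (hq2), `ThreeComponents`), and
* the `cutOver`-level package: `red₁'' red₂'' red₃''` on
  `chartB (cutOver A E) (J3K ↥E (q * (q * L)) q _)^(±1)` with `red_i'' ∘ chartBC_J3K = red_i`,
  `red_i'' q = 0`, (hq2)'' and `ThreeComponents red₁'' red₂'' red₃'' (chartBC_J3K ∘ chartMap eU ..)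
  (chartBC_J3K ∘ chartMap eV ..) (chartBC_J3K ∘ chartMap eW ..) rbar W q (q)` — SAME `D`, `rbar`,
  `W`, `BM` as at the `A₁`-level.
-/

set_option autoImplicit false
set_option linter.unusedSectionVars false
set_option linter.style.haveILetI false
set_option synthInstance.maxHeartbeats 400000
set_option maxHeartbeats 3200000

noncomputable section

namespace Fermat.Agent.S36.H70

open ModularCurve Polynomial IsLocalRing Fermat.Agent.S28
open Fermat.Agent.S18 Fermat.Agent.S34.H92 Fermat.Agent.S34.H16 Fermat.Agent.S34.H55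
open Fermat.Agent.S36.H83

local notation "Qbar" => AlgebraicClosure ℚ

section EReal

variable (L : ℕ) [NeZero L] {q : ℕ} [hq : Fact q.Prime] (hqL : ¬ q ∣ L)
  (A : ValuationSubring Qbar) (hA : A.LiesOverPrime q)
  (Pi : PlaceInf L hqL A hA) (P0 : PlaceZero L hqL A hA)
  (PA : S36.H55.PlaceA L hqL A hA P0) (PB : S36.H55.PlaceB L hqL A hA Pi)
  (PC : S36.H55.PlaceC L hqL A hA Pi)
  (E : IntermediateField (H45.unrCyclo q) Qbar) [FiniteDimensional (H45.unrCyclo q) E]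

local notation "kA" => IsLocalRing.ResidueField A
local notation "A₁" => H45.A0 A q
local notation "L₁" => H45.unrCyclo q
local notation "F0" => modularFunctionFieldFullC (H45.unrCyclo q) L
local notation "F2" => modularFunctionFieldFullC (H45.unrCyclo q) (q * (q * L))
local notation "FkL" => modularFunctionFieldFullC (IsLocalRing.ResidueField A) L

/-- **(E2) at both levels, chart `J₃`.** -/
theorem exists_threeComponentsE_J3K_real
    (hunr : maximalIdeal ↥(H45.cutOver A E) = Ideal.span {((q : ℕ) : ↥(H45.cutOver A E))}) :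
    ∃ red₁ red₂ red₃ : ↥(H40.chartB A₁ (J3N L (q := q))) →+* ↥(integralClosure (Algebra.adjoin kA {S18.H16.jK kA L}) FkL),
      (∀ (b : ↥(H40.chartB A₁ (J3N L (q := q)))) (h : (b : F2) ∈ S36.H55.QO1 L hqL A hA PB),
        inclk L A ((red₁ b : ↥(integralClosure (Algebra.adjoin kA {S18.H16.jK kA L}) FkL)) : FkL) = S36.H55.Qres1 L hqL A hA PB ⟨b, h⟩) ∧
      (∀ (b : ↥(H40.chartB A₁ (J3N L (q := q)))) (h : (b : F2) ∈ S36.H55.RO1 L hqL A hA PC),
        inclk L A ((red₂ b : ↥(integralClosure (Algebra.adjoin kA {S18.H16.jK kA L}) FkL)) : FkL) = S36.H55.Rres1 L hqL A hA PC ⟨b, h⟩) ∧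
      (∀ (b : ↥(H40.chartB A₁ (J3N L (q := q)))) (h : (b : F2) ∈ S36.H55.QO1 L hqL A hA PA),
        inclk L A ((red₃ b : ↥(integralClosure (Algebra.adjoin kA {S18.H16.jK kA L}) FkL)) : FkL) = S36.H55.Qres1 L hqL A hA PA ⟨b, h⟩) ∧
      red₁ (algebraMap A₁ ↥(H40.chartB A₁ (J3N L (q := q))) ((q : ℕ) : A₁)) = 0 ∧
      red₂ (algebraMap A₁ ↥(H40.chartB A₁ (J3N L (q := q))) ((q : ℕ) : A₁)) = 0 ∧
      red₃ (algebraMap A₁ ↥(H40.chartB A₁ (J3N L (q := q))) ((q : ℕ) : A₁)) = 0 ∧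
      (∃ t : ↥(H40.chartB A₁ (J3N L (q := q))), red₂ t ≠ 0 ∧
        t * algebraMap A₁ ↥(H40.chartB A₁ (J3N L (q := q))) ((q : ℕ) : A₁) ∈
          RingHom.ker red₂ ^ (q - 1)) ∧
      ThreeComponents red₁ red₂ red₃
        (chartMap (eU L (q := q)) (eU_algebraMap L A) (huint1 L A))
        (chartMap (eV L (q := q)) (eV_algebraMap L A) (hvint1 L A))
        (chartMap (eW L (q := q)) (eW_algebraMap L A) (hwint1 L A))
        (rbarB (Mod L hqL A hA) (Mod L hqL A hA).x_mem (Mod L hqL A hA).res1_x)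
        (WR (FrM L A hA) q (hFrx L A hA)) q
        (algebraMap A₁ ↥(H40.chartB A₁ (J3N L (q := q))) ((q : ℕ) : A₁)) ∧
      ∃ red₁'' red₂'' red₃'' : ↥(H40.chartB ↥(H45.cutOver A E) (J3K ↥E (q * (q * L)) q (hq2_dvd L))) →+* ↥(integralClosure (Algebra.adjoin kA {S18.H16.jK kA L}) FkL),
        (∀ b, red₁'' (S36.H95.chartBC_J3K (A := A) E (q * (q * L)) q (hq2_dvd L) b) = red₁ b) ∧
        (∀ b, red₂'' (S36.H95.chartBC_J3K (A := A) E (q * (q * L)) q (hq2_dvd L) b) = red₂ b) ∧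
        (∀ b, red₃'' (S36.H95.chartBC_J3K (A := A) E (q * (q * L)) q (hq2_dvd L) b) = red₃ b) ∧
        red₁'' (algebraMap ↥(H45.cutOver A E) _ ((q : ℕ) : ↥(H45.cutOver A E))) = 0 ∧
        red₂'' (algebraMap ↥(H45.cutOver A E) _ ((q : ℕ) : ↥(H45.cutOver A E))) = 0 ∧
        red₃'' (algebraMap ↥(H45.cutOver A E) _ ((q : ℕ) : ↥(H45.cutOver A E))) = 0 ∧
        (∃ t : ↥(H40.chartB ↥(H45.cutOver A E) (J3K ↥E (q * (q * L)) q (hq2_dvd L))), red₂'' t ≠ 0 ∧
          t * algebraMap ↥(H45.cutOver A E) _ ((q : ℕ) : ↥(H45.cutOver A E)) ∈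
            RingHom.ker red₂'' ^ (q - 1)) ∧
        ThreeComponents red₁'' red₂'' red₃''
          ((S36.H95.chartBC_J3K (A := A) E (q * (q * L)) q (hq2_dvd L)).comp
            (chartMap (eU L (q := q)) (eU_algebraMap L A) (huint1 L A)))
          ((S36.H95.chartBC_J3K (A := A) E (q * (q * L)) q (hq2_dvd L)).comp
            (chartMap (eV L (q := q)) (eV_algebraMap L A) (hvint1 L A)))
          ((S36.H95.chartBC_J3K (A := A) E (q * (q * L)) q (hq2_dvd L)).comp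
            (chartMap (eW L (q := q)) (eW_algebraMap L A) (hwint1 L A)))
          (rbarB (Mod L hqL A hA) (Mod L hqL A hA).x_mem (Mod L hqL A hA).res1_x)
          (WR (FrM L A hA) q (hFrx L A hA)) q
          (algebraMap ↥(H45.cutOver A E) ↥(H40.chartB ↥(H45.cutOver A E) (J3K ↥E (q * (q * L)) q (hq2_dvd L)))
            ((q : ℕ) : ↥(H45.cutOver A E))) := by
  haveI := S36.H95.isNoetherianRing_chartB_J3K_A0 (A := A) hq.out hA (q * (q * L)) q (hq2_dvd L)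
  haveI := finiteDimensional_J3K L₁ (q * (q * L)) q (hq2_dvd L)
    (S18.H99.natCast_ne_zero₀ (q * (q * L)) L₁)
  have hgen := genBy_of_unram hq.out hA E (q * (q * L)) (J3N L (q := q)) hunr
  have key := threeComponents_J3K_real L hqL A hA Pi P0 PA PB PC
  exact key.elim fun red₁ h => h.elim fun red₂ h => h.elim fun red₃ h =>
    ⟨red₁, red₂, red₃, h.1, h.2.1, h.2.2.1, h.2.2.2.1, h.2.2.2.2.1, h.2.2.2.2.2.1,
      h.2.2.2.2.2.2.1, h.2.2.2.2.2.2.2,
      exists_threeComponents_chartBC_unram hq.out hA E (q * (q * L)) (J3N L (q := q)) hgen hunr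
        (J3K ↥E (q * (q * L)) q (hq2_dvd L)) (S36.H95.baseChangeE_J3K E (q * (q * L)) q (hq2_dvd L))
        h.2.2.2.2.2.2.2 h.2.2.2.2.2.2.1 h.2.2.2.1 h.2.2.2.2.1 h.2.2.2.2.2.1⟩

/-- **(E2) at both levels, chart `J₃⁻¹`.** -/
theorem exists_threeComponentsE_J3K_inv_real
    (hunr : maximalIdeal ↥(H45.cutOver A E) = Ideal.span {((q : ℕ) : ↥(H45.cutOver A E))}) :
    ∃ red₁ red₂ red₃ : ↥(H40.chartB A₁ (J3N L (q := q))⁻¹) →+* ↥(integralClosure (Algebra.adjoin kA {(S18.H16.jK kA L)⁻¹}) FkL),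
      (∀ (b : ↥(H40.chartB A₁ (J3N L (q := q))⁻¹)) (h : (b : F2) ∈ S36.H55.QO1 L hqL A hA PB),
        inclk L A ((red₁ b : ↥(integralClosure (Algebra.adjoin kA {(S18.H16.jK kA L)⁻¹}) FkL)) : FkL) = S36.H55.Qres1 L hqL A hA PB ⟨b, h⟩) ∧
      (∀ (b : ↥(H40.chartB A₁ (J3N L (q := q))⁻¹)) (h : (b : F2) ∈ S36.H55.RO1 L hqL A hA PC),
        inclk L A ((red₂ b : ↥(integralClosure (Algebra.adjoin kA {(S18.H16.jK kA L)⁻¹}) FkL)) : FkL) = S36.H55.Rres1 L hqL A hA PC ⟨b, h⟩) ∧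
      (∀ (b : ↥(H40.chartB A₁ (J3N L (q := q))⁻¹)) (h : (b : F2) ∈ S36.H55.QO1 L hqL A hA PA),
        inclk L A ((red₃ b : ↥(integralClosure (Algebra.adjoin kA {(S18.H16.jK kA L)⁻¹}) FkL)) : FkL) = S36.H55.Qres1 L hqL A hA PA ⟨b, h⟩) ∧
      red₁ (algebraMap A₁ ↥(H40.chartB A₁ (J3N L (q := q))⁻¹) ((q : ℕ) : A₁)) = 0 ∧
      red₂ (algebraMap A₁ ↥(H40.chartB A₁ (J3N L (q := q))⁻¹) ((q : ℕ) : A₁)) = 0 ∧
      red₃ (algebraMap A₁ ↥(H40.chartB A₁ (J3N L (q := q))⁻¹) ((q : ℕ) : A₁)) = 0 ∧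
      (∃ t : ↥(H40.chartB A₁ (J3N L (q := q))⁻¹), red₂ t ≠ 0 ∧
        t * algebraMap A₁ ↥(H40.chartB A₁ (J3N L (q := q))⁻¹) ((q : ℕ) : A₁) ∈
          RingHom.ker red₂ ^ (q - 1)) ∧
      ThreeComponents red₁ red₂ red₃
        (chartMap (eU L (q := q)) (eU_algebraMap L A) (huint2 L A))
        (chartMap (eV L (q := q)) (eV_algebraMap L A) (hvint2 L A))
        (chartMap (eW L (q := q)) (eW_algebraMap L A) (hwint2 L A))
        (rbarB (Mod L hqL A hA) (hc2 L hqL A hA) (hcw2 L hqL A hA))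
        (WR (FrM L A hA) q (hFrx_inv L A hA)) q
        (algebraMap A₁ ↥(H40.chartB A₁ (J3N L (q := q))⁻¹) ((q : ℕ) : A₁)) ∧
      ∃ red₁'' red₂'' red₃'' : ↥(H40.chartB ↥(H45.cutOver A E) (J3K ↥E (q * (q * L)) q (hq2_dvd L))⁻¹) →+* ↥(integralClosure (Algebra.adjoin kA {(S18.H16.jK kA L)⁻¹}) FkL),
        (∀ b, red₁'' (S36.H95.chartBC_J3K_inv (A := A) E (q * (q * L)) q (hq2_dvd L) b) = red₁ b) ∧
        (∀ b, red₂'' (S36.H95.chartBC_J3K_inv (A := A) E (q * (q * L)) q (hq2_dvd L) b) = red₂ b) ∧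
        (∀ b, red₃'' (S36.H95.chartBC_J3K_inv (A := A) E (q * (q * L)) q (hq2_dvd L) b) = red₃ b) ∧
        red₁'' (algebraMap ↥(H45.cutOver A E) _ ((q : ℕ) : ↥(H45.cutOver A E))) = 0 ∧
        red₂'' (algebraMap ↥(H45.cutOver A E) _ ((q : ℕ) : ↥(H45.cutOver A E))) = 0 ∧
        red₃'' (algebraMap ↥(H45.cutOver A E) _ ((q : ℕ) : ↥(H45.cutOver A E))) = 0 ∧
        (∃ t : ↥(H40.chartB ↥(H45.cutOver A E) (J3K ↥E (q * (q * L)) q (hq2_dvd L))⁻¹), red₂'' t ≠ 0 ∧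
          t * algebraMap ↥(H45.cutOver A E) _ ((q : ℕ) : ↥(H45.cutOver A E)) ∈
            RingHom.ker red₂'' ^ (q - 1)) ∧
        ThreeComponents red₁'' red₂'' red₃''
          ((S36.H95.chartBC_J3K_inv (A := A) E (q * (q * L)) q (hq2_dvd L)).comp
            (chartMap (eU L (q := q)) (eU_algebraMap L A) (huint2 L A)))
          ((S36.H95.chartBC_J3K_inv (A := A) E (q * (q * L)) q (hq2_dvd L)).comp
            (chartMap (eV L (q := q)) (eV_algebraMap L A) (hvint2 L A)))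
          ((S36.H95.chartBC_J3K_inv (A := A) E (q * (q * L)) q (hq2_dvd L)).comp
            (chartMap (eW L (q := q)) (eW_algebraMap L A) (hwint2 L A)))
          (rbarB (Mod L hqL A hA) (hc2 L hqL A hA) (hcw2 L hqL A hA))
          (WR (FrM L A hA) q (hFrx_inv L A hA)) q
          (algebraMap ↥(H45.cutOver A E) ↥(H40.chartB ↥(H45.cutOver A E) (J3K ↥E (q * (q * L)) q (hq2_dvd L))⁻¹)
            ((q : ℕ) : ↥(H45.cutOver A E))) := by
  haveI := S36.H95.isNoetherianRing_chartB_J3K_inv_A0 (A := A) hq.out hA (q * (q * L)) q (hq2_dvd L)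
  haveI := finiteDimensional_J3K_inv L₁ (q * (q * L)) q (hq2_dvd L)
    (S18.H99.natCast_ne_zero₀ (q * (q * L)) L₁)
  have hgen := genBy_of_unram hq.out hA E (q * (q * L)) (J3N L (q := q))⁻¹ hunr
  have key := threeComponents_J3K_inv_real L hqL A hA Pi P0 PA PB PC
  exact key.elim fun red₁ h => h.elim fun red₂ h => h.elim fun red₃ h =>
    ⟨red₁, red₂, red₃, h.1, h.2.1, h.2.2.1, h.2.2.2.1, h.2.2.2.2.1, h.2.2.2.2.2.1,
      h.2.2.2.2.2.2.1, h.2.2.2.2.2.2.2,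
      exists_threeComponents_chartBC_unram hq.out hA E (q * (q * L)) (J3N L (q := q))⁻¹ hgen hunr
        (J3K ↥E (q * (q * L)) q (hq2_dvd L))⁻¹ (S36.H95.baseChangeE_J3K_inv E (q * (q * L)) q (hq2_dvd L))
        h.2.2.2.2.2.2.2 h.2.2.2.2.2.2.1 h.2.2.2.1 h.2.2.2.2.1 h.2.2.2.2.2.1⟩

/-- **(E2), existence at both levels**: ONE triple of places `PA PB PC` (with helper55's
`ThreePlacesFacts`) serving both charts, at the `A₁`-level and at the `cutOver A E`-level. -/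
theorem exists_threeComponentsE (D : ModularPolynomialData q)
    (hD : ∀ (k : Type) [Field k] (ζ : kˣ), IsPrimitiveRoot ζ q → RootsAt k q ζ D.Φ)
    (hunr : maximalIdeal ↥(H45.cutOver A E) = Ideal.span {((q : ℕ) : ↥(H45.cutOver A E))}) :
    ∃ (Pi : PlaceInf L hqL A hA) (P0 : PlaceZero L hqL A hA)
      (PA : S36.H55.PlaceA L hqL A hA P0) (PB : S36.H55.PlaceB L hqL A hA Pi)
      (PC : S36.H55.PlaceC L hqL A hA Pi),
      S36.H55.ThreePlacesFacts L hqL A hA Pi P0 PA PB PC ∧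
      (∃ red₁ red₂ red₃ : ↥(H40.chartB A₁ (J3N L (q := q))) →+* ↥(integralClosure (Algebra.adjoin kA {S18.H16.jK kA L}) FkL),
        (∀ (b : ↥(H40.chartB A₁ (J3N L (q := q)))) (h : (b : F2) ∈ S36.H55.QO1 L hqL A hA PB),
          inclk L A ((red₁ b : ↥(integralClosure (Algebra.adjoin kA {S18.H16.jK kA L}) FkL)) : FkL) = S36.H55.Qres1 L hqL A hA PB ⟨b, h⟩) ∧
        (∀ (b : ↥(H40.chartB A₁ (J3N L (q := q)))) (h : (b : F2) ∈ S36.H55.RO1 L hqL A hA PC),
          inclk L A ((red₂ b : ↥(integralClosure (Algebra.adjoin kA {S18.H16.jK kA L}) FkL)) : FkL) = S36.H55.Rres1 L hqL A hA PC ⟨b, h⟩) ∧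
        (∀ (b : ↥(H40.chartB A₁ (J3N L (q := q)))) (h : (b : F2) ∈ S36.H55.QO1 L hqL A hA PA),
          inclk L A ((red₃ b : ↥(integralClosure (Algebra.adjoin kA {S18.H16.jK kA L}) FkL)) : FkL) = S36.H55.Qres1 L hqL A hA PA ⟨b, h⟩) ∧
        red₁ (algebraMap A₁ ↥(H40.chartB A₁ (J3N L (q := q))) ((q : ℕ) : A₁)) = 0 ∧
        red₂ (algebraMap A₁ ↥(H40.chartB A₁ (J3N L (q := q))) ((q : ℕ) : A₁)) = 0 ∧
        red₃ (algebraMap A₁ ↥(H40.chartB A₁ (J3N L (q := q))) ((q : ℕ) : A₁)) = 0 ∧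
        (∃ t : ↥(H40.chartB A₁ (J3N L (q := q))), red₂ t ≠ 0 ∧
          t * algebraMap A₁ ↥(H40.chartB A₁ (J3N L (q := q))) ((q : ℕ) : A₁) ∈
            RingHom.ker red₂ ^ (q - 1)) ∧
        ThreeComponents red₁ red₂ red₃
          (chartMap (eU L (q := q)) (eU_algebraMap L A) (huint1 L A))
          (chartMap (eV L (q := q)) (eV_algebraMap L A) (hvint1 L A))
          (chartMap (eW L (q := q)) (eW_algebraMap L A) (hwint1 L A))
          (rbarB (Mod L hqL A hA) (Mod L hqL A hA).x_mem (Mod L hqL A hA).res1_x)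
          (WR (FrM L A hA) q (hFrx L A hA)) q
          (algebraMap A₁ ↥(H40.chartB A₁ (J3N L (q := q))) ((q : ℕ) : A₁)) ∧
        ∃ red₁'' red₂'' red₃'' : ↥(H40.chartB ↥(H45.cutOver A E) (J3K ↥E (q * (q * L)) q (hq2_dvd L))) →+* ↥(integralClosure (Algebra.adjoin kA {S18.H16.jK kA L}) FkL),
          (∀ b, red₁'' (S36.H95.chartBC_J3K (A := A) E (q * (q * L)) q (hq2_dvd L) b) = red₁ b) ∧
          (∀ b, red₂'' (S36.H95.chartBC_J3K (A := A) E (q * (q * L)) q (hq2_dvd L) b) = red₂ b) ∧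
          (∀ b, red₃'' (S36.H95.chartBC_J3K (A := A) E (q * (q * L)) q (hq2_dvd L) b) = red₃ b) ∧
          red₁'' (algebraMap ↥(H45.cutOver A E) _ ((q : ℕ) : ↥(H45.cutOver A E))) = 0 ∧
          red₂'' (algebraMap ↥(H45.cutOver A E) _ ((q : ℕ) : ↥(H45.cutOver A E))) = 0 ∧
          red₃'' (algebraMap ↥(H45.cutOver A E) _ ((q : ℕ) : ↥(H45.cutOver A E))) = 0 ∧
          (∃ t : ↥(H40.chartB ↥(H45.cutOver A E) (J3K ↥E (q * (q * L)) q (hq2_dvd L))), red₂'' t ≠ 0 ∧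
            t * algebraMap ↥(H45.cutOver A E) _ ((q : ℕ) : ↥(H45.cutOver A E)) ∈
              RingHom.ker red₂'' ^ (q - 1)) ∧
          ThreeComponents red₁'' red₂'' red₃''
            ((S36.H95.chartBC_J3K (A := A) E (q * (q * L)) q (hq2_dvd L)).comp
              (chartMap (eU L (q := q)) (eU_algebraMap L A) (huint1 L A)))
            ((S36.H95.chartBC_J3K (A := A) E (q * (q * L)) q (hq2_dvd L)).comp
              (chartMap (eV L (q := q)) (eV_algebraMap L A) (hvint1 L A)))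
            ((S36.H95.chartBC_J3K (A := A) E (q * (q * L)) q (hq2_dvd L)).comp
              (chartMap (eW L (q := q)) (eW_algebraMap L A) (hwint1 L A)))
            (rbarB (Mod L hqL A hA) (Mod L hqL A hA).x_mem (Mod L hqL A hA).res1_x)
            (WR (FrM L A hA) q (hFrx L A hA)) q
            (algebraMap ↥(H45.cutOver A E) ↥(H40.chartB ↥(H45.cutOver A E) (J3K ↥E (q * (q * L)) q (hq2_dvd L)))
              ((q : ℕ) : ↥(H45.cutOver A E)))) ∧
      (∃ red₁ red₂ red₃ : ↥(H40.chartB A₁ (J3N L (q := q))⁻¹) →+* ↥(integralClosure (Algebra.adjoin kA {(S18.H16.jK kA L)⁻¹}) FkL),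
        (∀ (b : ↥(H40.chartB A₁ (J3N L (q := q))⁻¹)) (h : (b : F2) ∈ S36.H55.QO1 L hqL A hA PB),
          inclk L A ((red₁ b : ↥(integralClosure (Algebra.adjoin kA {(S18.H16.jK kA L)⁻¹}) FkL)) : FkL) = S36.H55.Qres1 L hqL A hA PB ⟨b, h⟩) ∧
        (∀ (b : ↥(H40.chartB A₁ (J3N L (q := q))⁻¹)) (h : (b : F2) ∈ S36.H55.RO1 L hqL A hA PC),
          inclk L A ((red₂ b : ↥(integralClosure (Algebra.adjoin kA {(S18.H16.jK kA L)⁻¹}) FkL)) : FkL) = S36.H55.Rres1 L hqL A hA PC ⟨b, h⟩) ∧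
        (∀ (b : ↥(H40.chartB A₁ (J3N L (q := q))⁻¹)) (h : (b : F2) ∈ S36.H55.QO1 L hqL A hA PA),
          inclk L A ((red₃ b : ↥(integralClosure (Algebra.adjoin kA {(S18.H16.jK kA L)⁻¹}) FkL)) : FkL) = S36.H55.Qres1 L hqL A hA PA ⟨b, h⟩) ∧
        red₁ (algebraMap A₁ ↥(H40.chartB A₁ (J3N L (q := q))⁻¹) ((q : ℕ) : A₁)) = 0 ∧
        red₂ (algebraMap A₁ ↥(H40.chartB A₁ (J3N L (q := q))⁻¹) ((q : ℕ) : A₁)) = 0 ∧
        red₃ (algebraMap A₁ ↥(H40.chartB A₁ (J3N L (q := q))⁻¹) ((q : ℕ) : A₁)) = 0 ∧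
        (∃ t : ↥(H40.chartB A₁ (J3N L (q := q))⁻¹), red₂ t ≠ 0 ∧
          t * algebraMap A₁ ↥(H40.chartB A₁ (J3N L (q := q))⁻¹) ((q : ℕ) : A₁) ∈
            RingHom.ker red₂ ^ (q - 1)) ∧
        ThreeComponents red₁ red₂ red₃
          (chartMap (eU L (q := q)) (eU_algebraMap L A) (huint2 L A))
          (chartMap (eV L (q := q)) (eV_algebraMap L A) (hvint2 L A))
          (chartMap (eW L (q := q)) (eW_algebraMap L A) (hwint2 L A))
          (rbarB (Mod L hqL A hA) (hc2 L hqL A hA) (hcw2 L hqL A hA))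
          (WR (FrM L A hA) q (hFrx_inv L A hA)) q
          (algebraMap A₁ ↥(H40.chartB A₁ (J3N L (q := q))⁻¹) ((q : ℕ) : A₁)) ∧
        ∃ red₁'' red₂'' red₃'' : ↥(H40.chartB ↥(H45.cutOver A E) (J3K ↥E (q * (q * L)) q (hq2_dvd L))⁻¹) →+* ↥(integralClosure (Algebra.adjoin kA {(S18.H16.jK kA L)⁻¹}) FkL),
          (∀ b, red₁'' (S36.H95.chartBC_J3K_inv (A := A) E (q * (q * L)) q (hq2_dvd L) b) = red₁ b) ∧
          (∀ b, red₂'' (S36.H95.chartBC_J3K_inv (A := A) E (q * (q * L)) q (hq2_dvd L) b) = red₂ b) ∧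
          (∀ b, red₃'' (S36.H95.chartBC_J3K_inv (A := A) E (q * (q * L)) q (hq2_dvd L) b) = red₃ b) ∧
          red₁'' (algebraMap ↥(H45.cutOver A E) _ ((q : ℕ) : ↥(H45.cutOver A E))) = 0 ∧
          red₂'' (algebraMap ↥(H45.cutOver A E) _ ((q : ℕ) : ↥(H45.cutOver A E))) = 0 ∧
          red₃'' (algebraMap ↥(H45.cutOver A E) _ ((q : ℕ) : ↥(H45.cutOver A E))) = 0 ∧
          (∃ t : ↥(H40.chartB ↥(H45.cutOver A E) (J3K ↥E (q * (q * L)) q (hq2_dvd L))⁻¹), red₂'' t ≠ 0 ∧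
            t * algebraMap ↥(H45.cutOver A E) _ ((q : ℕ) : ↥(H45.cutOver A E)) ∈
              RingHom.ker red₂'' ^ (q - 1)) ∧
          ThreeComponents red₁'' red₂'' red₃''
            ((S36.H95.chartBC_J3K_inv (A := A) E (q * (q * L)) q (hq2_dvd L)).comp
              (chartMap (eU L (q := q)) (eU_algebraMap L A) (huint2 L A)))
            ((S36.H95.chartBC_J3K_inv (A := A) E (q * (q * L)) q (hq2_dvd L)).comp
              (chartMap (eV L (q := q)) (eV_algebraMap L A) (hvint2 L A)))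
            ((S36.H95.chartBC_J3K_inv (A := A) E (q * (q * L)) q (hq2_dvd L)).comp
              (chartMap (eW L (q := q)) (eW_algebraMap L A) (hwint2 L A)))
            (rbarB (Mod L hqL A hA) (hc2 L hqL A hA) (hcw2 L hqL A hA))
            (WR (FrM L A hA) q (hFrx_inv L A hA)) q
            (algebraMap ↥(H45.cutOver A E) ↥(H40.chartB ↥(H45.cutOver A E) (J3K ↥E (q * (q * L)) q (hq2_dvd L))⁻¹)
              ((q : ℕ) : ↥(H45.cutOver A E)))) :=
  (nonempty_placeInfty L hqL A hA D hD).elim fun Pi =>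
  (nonempty_placeZero L hqL A hA D hD).elim fun P0 =>
  (S36.H99.exists_three_places L hqL A hA D hD Pi P0).elim fun PA h =>
  h.elim fun PB h => h.elim fun PC h3 =>
    ⟨Pi, P0, PA, PB, PC,
      S36.H96.threePlacesFacts_of_exactly_three L hqL A hA Pi P0 PA PB PC h3,
      exists_threeComponentsE_J3K_real L hqL A hA Pi P0 PA PB PC E hunr,
      exists_threeComponentsE_J3K_inv_real L hqL A hA Pi P0 PA PB PC E hunr⟩

end EReal

end Fermat.Agent.S36.H70
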