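import Mathlib
import Fermat.Agent.S36.H70_Hq2Inst
import Fermat.Agent.S36.H70_ThreeComponentsBCFinal
import Fermat.Agent.S36.H70_GenByUnram

/-!
# S36, row (E2), base-change layer (helper70): the E-level `ThreeComponents` package at the L0 data

For an UNRAMIFIED `E ⊇ L₁ = unrCyclo q` (`hunr` = helper45's
`S36.H45.maximalIdeal_cutOver_eq_span_natCast_of_fixed`), the two pinned charts
`B_iE = chartB A'' (J3K ↥E (q * (q * L)) q _)^(±1)` (`A'' = cutOver A E`) and ANY `A₁`-level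
structure `TC : H83.ThreeComponents red₁ red₂ red₃ ιu ιv ιw rbar W q (q)` on
`chartB A₁ (J3N L)^(±1)` whose middle reduction is compatible with helper55's ramified place `PC`
(clause 2 of helper83's `threeComponents_J3K(_inv)`) and with `red_k q = 0` (clauses 4–6):
reductions `red_k'' : B_iE → D` with

* `red_k'' ∘ chartBC_J3K = red_k`, `red_k'' q = 0`,
* `∃ t, red₂'' t ≠ 0 ∧ t * q ∈ (ker red₂'') ^ (q - 1)`,
* `H83.ThreeComponents red₁'' red₂'' red₃'' (chartBC_J3K ∘ ιu) (chartBC_J3K ∘ ιv) (chartBC_J3K ∘ ιw)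
  rbar W q (q)`.

The hypothesis `hq2` of the abstract base change is discharged inside (`hq2_J3K(_inv)`).
-/

set_option autoImplicit false
set_option linter.unusedSectionVars false
set_option linter.style.haveILetI false
set_option synthInstance.maxHeartbeats 400000
set_option maxHeartbeats 3200000

noncomputable section

namespace Fermat.Agent.S36.H70

open ModularCurve Polynomial IsLocalRing Fermat.Agent.S28
open Fermat.Agent.S18 Fermat.Agent.S34.H92 Fermat.Agent.S34.H16 Fermat.Agent.S34.H55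
open Fermat.Agent.S36.H83

local notation "Qbar" => AlgebraicClosure ℚ

section Pkg

variable (L : ℕ) [NeZero L] {q : ℕ} [hq : Fact q.Prime] (hqL : ¬ q ∣ L)
  (A : ValuationSubring Qbar) (hA : A.LiesOverPrime q)
  (Pi : PlaceInf L hqL A hA) (P0 : PlaceZero L hqL A hA)
  (PA : S36.H55.PlaceA L hqL A hA P0) (PB : S36.H55.PlaceB L hqL A hA Pi)
  (PC : S36.H55.PlaceC L hqL A hA Pi)
  (E : IntermediateField (H45.unrCyclo q) Qbar) [FiniteDimensional (H45.unrCyclo q) E]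

local notation "kA" => IsLocalRing.ResidueField A
local notation "A₁" => H45.A0 A q
local notation "L₁" => H45.unrCyclo q
local notation "F0" => modularFunctionFieldFullC (H45.unrCyclo q) L
local notation "F2" => modularFunctionFieldFullC (H45.unrCyclo q) (q * (q * L))
local notation "FkL" => modularFunctionFieldFullC (IsLocalRing.ResidueField A) L

/-- **The E-level package, chart 1.** -/
theorem exists_threeComponentsE_J3K
    (resA_eU : ∀ (y : F0) (hy : y ∈ (Mod L hqL A hA).O1),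
      ∃ h : S36.H55.eU L (q := q) y ∈ S36.H55.QO1 L hqL A hA PA,
        S36.H55.Qres1 L hqL A hA PA ⟨_, h⟩ = inclk L A ((Mod L hqL A hA).res1 ⟨y, hy⟩))
    (resB_eU : ∀ (y : F0) (hy : y ∈ (Mod L hqL A hA).O1),
      ∃ h : S36.H55.eU L (q := q) y ∈ S36.H55.QO1 L hqL A hA PB,
        S36.H55.Qres1 L hqL A hA PB ⟨_, h⟩ =
          inclk L A (FrM L A hA (FrM L A hA ((Mod L hqL A hA).res1 ⟨y, hy⟩))))
    (resC_eU : ∀ (y : F0) (hy : y ∈ (Mod L hqL A hA).O1),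
      ∃ h : S36.H55.eU L (q := q) y ∈ S36.H55.RO1 L hqL A hA PC,
        S36.H55.Rres1 L hqL A hA PC ⟨_, h⟩ = inclk L A ((Mod L hqL A hA).res1 ⟨y, hy⟩))
    (hunr : maximalIdeal ↥(H45.cutOver A E) = Ideal.span {((q : ℕ) : ↥(H45.cutOver A E))})
    {BM : Type*} [CommRing BM]
    {red₁ red₂ red₃ : ↥(H40.chartB A₁ (J3N L (q := q))) →+*
      ↥(integralClosure (Algebra.adjoin kA {S18.H16.jK kA L}) FkL)}
    {ιu ιv ιw : BM →+* ↥(H40.chartB A₁ (J3N L (q := q)))}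
    {rbar : BM →+* ↥(integralClosure (Algebra.adjoin kA {S18.H16.jK kA L}) FkL)}
    (TC : ThreeComponents red₁ red₂ red₃ ιu ιv ιw rbar (WR (FrM L A hA) q (hFrx L A hA)) q
      (algebraMap A₁ ↥(H40.chartB A₁ (J3N L (q := q))) ((q : ℕ) : A₁)))
    (hc₂ : ∀ (b : ↥(H40.chartB A₁ (J3N L (q := q)))) (h : (b : F2) ∈ S36.H55.RO1 L hqL A hA PC),
      inclk L A ((red₂ b : ↥(integralClosure (Algebra.adjoin kA {S18.H16.jK kA L}) FkL)) : FkL)
        = S36.H55.Rres1 L hqL A hA PC ⟨b, h⟩)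
    (hq₁ : red₁ (algebraMap A₁ ↥(H40.chartB A₁ (J3N L (q := q))) ((q : ℕ) : A₁)) = 0)
    (hq₂ : red₂ (algebraMap A₁ ↥(H40.chartB A₁ (J3N L (q := q))) ((q : ℕ) : A₁)) = 0)
    (hq₃ : red₃ (algebraMap A₁ ↥(H40.chartB A₁ (J3N L (q := q))) ((q : ℕ) : A₁)) = 0) :
    ∃ red₁'' red₂'' red₃'' : ↥(H40.chartB ↥(H45.cutOver A E)
        (J3K ↥E (q * (q * L)) q (hq2_dvd L))) →+*
        ↥(integralClosure (Algebra.adjoin kA {S18.H16.jK kA L}) FkL),
      (∀ b, red₁'' (S36.H95.chartBC_J3K (A := A) E (q * (q * L)) q (hq2_dvd L) b) = red₁ b) ∧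
      (∀ b, red₂'' (S36.H95.chartBC_J3K (A := A) E (q * (q * L)) q (hq2_dvd L) b) = red₂ b) ∧
      (∀ b, red₃'' (S36.H95.chartBC_J3K (A := A) E (q * (q * L)) q (hq2_dvd L) b) = red₃ b) ∧
      red₁'' (algebraMap ↥(H45.cutOver A E) _ ((q : ℕ) : ↥(H45.cutOver A E))) = 0 ∧
      red₂'' (algebraMap ↥(H45.cutOver A E) _ ((q : ℕ) : ↥(H45.cutOver A E))) = 0 ∧
      red₃'' (algebraMap ↥(H45.cutOver A E) _ ((q : ℕ) : ↥(H45.cutOver A E))) = 0 ∧
      (∃ t : ↥(H40.chartB ↥(H45.cutOver A E) (J3K ↥E (q * (q * L)) q (hq2_dvd L))),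
        red₂'' t ≠ 0 ∧
        t * algebraMap ↥(H45.cutOver A E) _ ((q : ℕ) : ↥(H45.cutOver A E)) ∈
          RingHom.ker red₂'' ^ (q - 1)) ∧
      ThreeComponents red₁'' red₂'' red₃''
        ((S36.H95.chartBC_J3K (A := A) E (q * (q * L)) q (hq2_dvd L)).comp ιu)
        ((S36.H95.chartBC_J3K (A := A) E (q * (q * L)) q (hq2_dvd L)).comp ιv)
        ((S36.H95.chartBC_J3K (A := A) E (q * (q * L)) q (hq2_dvd L)).comp ιw) rbar
        (WR (FrM L A hA) q (hFrx L A hA)) q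
        (algebraMap ↥(H45.cutOver A E)
          ↥(H40.chartB ↥(H45.cutOver A E) (J3K ↥E (q * (q * L)) q (hq2_dvd L)))
          ((q : ℕ) : ↥(H45.cutOver A E))) := by
  have hq2 := hq2_J3K L hqL A hA Pi P0 PA PB PC resA_eU resB_eU resC_eU TC hc₂ hq₂
  haveI := S36.H95.isNoetherianRing_chartB_J3K_A0 (A := A) hq.out hA (q * (q * L)) q (hq2_dvd L)
  haveI := finiteDimensional_J3K L₁ (q * (q * L)) q (hq2_dvd L)
    (S18.H99.natCast_ne_zero₀ (q * (q * L)) L₁)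
  have hgen := genBy_of_unram hq.out hA E (q * (q * L)) (J3N L (q := q)) hunr
  exact exists_threeComponents_chartBC_unram hq.out hA E (q * (q * L)) (J3N L (q := q)) hgen hunr
    (J3K ↥E (q * (q * L)) q (hq2_dvd L)) (S36.H95.baseChangeE_J3K E (q * (q * L)) q (hq2_dvd L))
    TC hq2 hq₁ hq₂ hq₃

/-- **The E-level package, chart 2.** -/
theorem exists_threeComponentsE_J3K_inv
    (resA_eU : ∀ (y : F0) (hy : y ∈ (Mod L hqL A hA).O1),
      ∃ h : S36.H55.eU L (q := q) y ∈ S36.H55.QO1 L hqL A hA PA,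
        S36.H55.Qres1 L hqL A hA PA ⟨_, h⟩ = inclk L A ((Mod L hqL A hA).res1 ⟨y, hy⟩))
    (resB_eU : ∀ (y : F0) (hy : y ∈ (Mod L hqL A hA).O1),
      ∃ h : S36.H55.eU L (q := q) y ∈ S36.H55.QO1 L hqL A hA PB,
        S36.H55.Qres1 L hqL A hA PB ⟨_, h⟩ =
          inclk L A (FrM L A hA (FrM L A hA ((Mod L hqL A hA).res1 ⟨y, hy⟩))))
    (resC_eU : ∀ (y : F0) (hy : y ∈ (Mod L hqL A hA).O1),
      ∃ h : S36.H55.eU L (q := q) y ∈ S36.H55.RO1 L hqL A hA PC,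
        S36.H55.Rres1 L hqL A hA PC ⟨_, h⟩ = inclk L A ((Mod L hqL A hA).res1 ⟨y, hy⟩))
    (hunr : maximalIdeal ↥(H45.cutOver A E) = Ideal.span {((q : ℕ) : ↥(H45.cutOver A E))})
    {BM : Type*} [CommRing BM]
    {red₁ red₂ red₃ : ↥(H40.chartB A₁ (J3N L (q := q))⁻¹) →+*
      ↥(integralClosure (Algebra.adjoin kA {(S18.H16.jK kA L)⁻¹}) FkL)}
    {ιu ιv ιw : BM →+* ↥(H40.chartB A₁ (J3N L (q := q))⁻¹)}
    {rbar : BM →+* ↥(integralClosure (Algebra.adjoin kA {(S18.H16.jK kA L)⁻¹}) FkL)}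
    (TC : ThreeComponents red₁ red₂ red₃ ιu ιv ιw rbar (WR (FrM L A hA) q (hFrx_inv L A hA)) q
      (algebraMap A₁ ↥(H40.chartB A₁ (J3N L (q := q))⁻¹) ((q : ℕ) : A₁)))
    (hc₂ : ∀ (b : ↥(H40.chartB A₁ (J3N L (q := q))⁻¹)) (h : (b : F2) ∈ S36.H55.RO1 L hqL A hA PC),
      inclk L A ((red₂ b : ↥(integralClosure (Algebra.adjoin kA {(S18.H16.jK kA L)⁻¹}) FkL)) : FkL)
        = S36.H55.Rres1 L hqL A hA PC ⟨b, h⟩)
    (hq₁ : red₁ (algebraMap A₁ ↥(H40.chartB A₁ (J3N L (q := q))⁻¹) ((q : ℕ) : A₁)) = 0)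
    (hq₂ : red₂ (algebraMap A₁ ↥(H40.chartB A₁ (J3N L (q := q))⁻¹) ((q : ℕ) : A₁)) = 0)
    (hq₃ : red₃ (algebraMap A₁ ↥(H40.chartB A₁ (J3N L (q := q))⁻¹) ((q : ℕ) : A₁)) = 0) :
    ∃ red₁'' red₂'' red₃'' : ↥(H40.chartB ↥(H45.cutOver A E)
        (J3K ↥E (q * (q * L)) q (hq2_dvd L))⁻¹) →+*
        ↥(integralClosure (Algebra.adjoin kA {(S18.H16.jK kA L)⁻¹}) FkL),
      (∀ b, red₁'' (S36.H95.chartBC_J3K_inv (A := A) E (q * (q * L)) q (hq2_dvd L) b) = red₁ b) ∧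
      (∀ b, red₂'' (S36.H95.chartBC_J3K_inv (A := A) E (q * (q * L)) q (hq2_dvd L) b) = red₂ b) ∧
      (∀ b, red₃'' (S36.H95.chartBC_J3K_inv (A := A) E (q * (q * L)) q (hq2_dvd L) b) = red₃ b) ∧
      red₁'' (algebraMap ↥(H45.cutOver A E) _ ((q : ℕ) : ↥(H45.cutOver A E))) = 0 ∧
      red₂'' (algebraMap ↥(H45.cutOver A E) _ ((q : ℕ) : ↥(H45.cutOver A E))) = 0 ∧
      red₃'' (algebraMap ↥(H45.cutOver A E) _ ((q : ℕ) : ↥(H45.cutOver A E))) = 0 ∧
      (∃ t : ↥(H40.chartB ↥(H45.cutOver A E) (J3K ↥E (q * (q * L)) q (hq2_dvd L))⁻¹),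
        red₂'' t ≠ 0 ∧
        t * algebraMap ↥(H45.cutOver A E) _ ((q : ℕ) : ↥(H45.cutOver A E)) ∈
          RingHom.ker red₂'' ^ (q - 1)) ∧
      ThreeComponents red₁'' red₂'' red₃''
        ((S36.H95.chartBC_J3K_inv (A := A) E (q * (q * L)) q (hq2_dvd L)).comp ιu)
        ((S36.H95.chartBC_J3K_inv (A := A) E (q * (q * L)) q (hq2_dvd L)).comp ιv)
        ((S36.H95.chartBC_J3K_inv (A := A) E (q * (q * L)) q (hq2_dvd L)).comp ιw) rbar
        (WR (FrM L A hA) q (hFrx_inv L A hA)) q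
        (algebraMap ↥(H45.cutOver A E)
          ↥(H40.chartB ↥(H45.cutOver A E) (J3K ↥E (q * (q * L)) q (hq2_dvd L))⁻¹)
          ((q : ℕ) : ↥(H45.cutOver A E))) := by
  have hq2 := hq2_J3K_inv L hqL A hA Pi P0 PA PB PC resA_eU resB_eU resC_eU TC hc₂ hq₂
  haveI := S36.H95.isNoetherianRing_chartB_J3K_inv_A0 (A := A) hq.out hA (q * (q * L)) q (hq2_dvd L)
  haveI := finiteDimensional_J3K_inv L₁ (q * (q * L)) q (hq2_dvd L)
    (S18.H99.natCast_ne_zero₀ (q * (q * L)) L₁)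
  have hgen := genBy_of_unram hq.out hA E (q * (q * L)) (J3N L (q := q))⁻¹ hunr
  exact exists_threeComponents_chartBC_unram hq.out hA E (q * (q * L)) (J3N L (q := q))⁻¹ hgen hunr
    (J3K ↥E (q * (q * L)) q (hq2_dvd L))⁻¹ (S36.H95.baseChangeE_J3K_inv E (q * (q * L)) q (hq2_dvd L))
    TC hq2 hq₁ hq₂ hq₃

end Pkg

end Fermat.Agent.S36.H70
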