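/-
helper71: S36, (E2-int) addendum, **CHART 2** (`J₃ ≠ 0`): only the EXISTENCE hints of the two level
maps `α₂ = chartMap ι₂`, `β₂ = chartMap V₂ : chartB A₁ J⁻¹ →+* chartB A₁ J₃⁻¹`
(the `hint` arguments of `S34.H55.chartMap`).

NOTE: on chart 2 the maps exist, but `chartB A₁ J₃⁻¹` is NOT integral over their images (board
#3456); chart 2 is handled by overlap + cusps (`S36.H85.hpt_two_charts_of_first`).
-/
import Fermat.Agent.S36.H71_ChartMapIntegralInst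

set_option autoImplicit false
set_option linter.unusedSectionVars false
set_option linter.style.haveILetI false
set_option synthInstance.maxHeartbeats 400000

noncomputable section

namespace Fermat.Agent.S36.H71

open ModularCurve Polynomial IsLocalRing Fermat.Agent.S28
open Fermat.Agent.S18 Fermat.Agent.S34.H92 Fermat.Agent.S34.H16 Fermat.Agent.S34.H55

local notation "Qbar" => AlgebraicClosure ℚ

section Inst

variable (L : ℕ) [NeZero L] {q : ℕ} [hq : Fact q.Prime]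
  (A : ValuationSubring Qbar)

local notation "A₁" => H45.A0 A q
local notation "L₁" => H45.unrCyclo q

/-- `ι₂ J⁻¹ = j⁻¹ · j_q⁻¹`. -/
theorem iotaMN_JN_inv : iotaMN (q * L) (ℓ := q) (JN L (ℓ := q))⁻¹ =
    (S18.H16.jK L₁ (q * (q * L)))⁻¹ *
      (S18.H99.jdK L₁ (q * (q * L)) q (Dvd.intro (q * L) rfl))⁻¹ := by
  rw [map_inv₀, iotaMN_JN, ← mul_inv]
  rfl

/-- `V₂ J⁻¹ = j_q⁻¹ · j_{q²}⁻¹`. -/
theorem VMN_JN_inv : VMN (q * L) (ℓ := q) (JN L (ℓ := q))⁻¹ =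
    (S18.H99.jdK L₁ (q * (q * L)) q (Dvd.intro (q * L) rfl))⁻¹ *
      (S18.H99.jdK L₁ (q * (q * L)) (q * q) (S36.H83.hq2_dvd L))⁻¹ := by
  rw [map_inv₀, VMN_JN, ← mul_inv]

/-- **`hint` for `α` on chart 2**: `ι₂ J⁻¹` is integral over `A₁[J₃⁻¹]`. -/
theorem hint_alpha2 : IsIntegral (Algebra.adjoin A₁ {(S36.H83.J3N L (q := q))⁻¹})
    (iotaMN (q * L) (ℓ := q) (JN L (ℓ := q))⁻¹) := by
  obtain ⟨D, hD⟩ := S28.H16.hasModPoly q
  rw [iotaMN_JN_inv]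
  have h := S36.H95.isIntegral_adjoin_J3K_inv (R0 := A₁) L₁ (q * (q * L)) q
    (Dvd.intro (q * L) rfl) (S36.H83.hq2_dvd L) D hD
  exact h.1.mul h.2.1

/-- **`hint` for `β` on chart 2**: `V₂ J⁻¹` is integral over `A₁[J₃⁻¹]`. -/
theorem hint_beta2 : IsIntegral (Algebra.adjoin A₁ {(S36.H83.J3N L (q := q))⁻¹})
    (VMN (q * L) (ℓ := q) (JN L (ℓ := q))⁻¹) := by
  obtain ⟨D, hD⟩ := S28.H16.hasModPoly q
  rw [VMN_JN_inv]
  have h := S36.H95.isIntegral_adjoin_J3K_inv (R0 := A₁) L₁ (q * (q * L)) q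
    (Dvd.intro (q * L) rfl) (S36.H83.hq2_dvd L) D hD
  exact h.2.1.mul h.2.2

/-- the canonical `α` of chart 2. -/
abbrev alpha2 :
    ↥(H40.chartB A₁ (JN L (ℓ := q))⁻¹) →+* ↥(H40.chartB A₁ (S36.H83.J3N L (q := q))⁻¹) :=
  chartMap (iotaMN (q * L) (ℓ := q)) (iotaMN_algebraMap (q * L) A) (hint_alpha2 L A)

/-- the canonical `β` of chart 2. -/
abbrev beta2 :
    ↥(H40.chartB A₁ (JN L (ℓ := q))⁻¹) →+* ↥(H40.chartB A₁ (S36.H83.J3N L (q := q))⁻¹) :=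
  chartMap (VMN (q * L) (ℓ := q)) (VMN_algebraMap (q * L) A) (hint_beta2 L A)

end Inst

end Fermat.Agent.S36.H71
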