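/-
helper71: S36, seam (E2) → (E6): the chart-level consequences of the level-map identities
`red₁ ∘ φ = red₁'`, `red₂ ∘ φ = red₁'`, `red₃ ∘ φ = W ∘ red₂'` (α tower; β tower = mirror)

* `huniq_alpha` / `huniq_beta` : the hypothesis `huniq` of
  `S36.H47.unitIn_norm_locSubring_ringHom` (`TowerLoc.hNunit`), from `S36.H71.eq_of_comap_eq`;
* `hCs_of_compat`, `hCm_of_compat`, `hCi_of_compat` : the hypotheses `hCs hCm hCi` of
  `S36.H85.towerLoc_of_chart` (`∀ y, ∃ y', y ^ r - φ y' ∈ P`);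
* `hls_of_compat`, `hli_of_compat` : the same in the spelling `red (φ b') = red b ^ r`.
-/
import Mathlib
import Fermat.Agent.S36.H71_UniqueAbove

set_option autoImplicit false

namespace Fermat.Agent.S36.H71

section Compat

variable {B' B D : Type*} [CommRing B'] [CommRing B] [CommRing D]

/-- `hls` / `hlm`: lifting along a component lying birationally over a component below. -/
theorem hls_of_compat (φ : B' →+* B) (red : B →+* D) (red' : B' →+* D)
    (c : ∀ b, red (φ b) = red' b) (hred' : Function.Surjective red') (b : B) :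
    ∃ b' : B', red (φ b') = red b := by
  obtain ⟨b', hb'⟩ := hred' (red b)
  exact ⟨b', by rw [c, hb']⟩

/-- `hli`: lifting of `q`-th powers along the purely inseparable component. -/
theorem hli_of_compat (φ : B' →+* B) (red : B →+* D) (red' : B' →+* D) (W : D →+* D) (q : ℕ)
    (c : ∀ b, red (φ b) = W (red' b)) (hred' : Function.Surjective red')
    (hW : ∀ r : D, ∃ r₂ : D, W r₂ = r ^ q) (b : B) :
    ∃ b' : B', red (φ b') = red b ^ q := by
  obtain ⟨r₂, hr₂⟩ := hW (red b)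
  obtain ⟨b', hb'⟩ := hred' r₂
  exact ⟨b', by rw [c, hb', hr₂]⟩

/-- `hCs` / `hCm` of `H85.towerLoc_of_chart`, with `P = ker red`. -/
theorem hCs_of_compat (φ : B' →+* B) (red : B →+* D) (red' : B' →+* D)
    (c : ∀ b, red (φ b) = red' b) (hred' : Function.Surjective red') (y : B) :
    ∃ y' : B', y - φ y' ∈ RingHom.ker red := by
  obtain ⟨y', hy'⟩ := hls_of_compat φ red red' c hred' y
  exact ⟨y', by rw [RingHom.mem_ker, map_sub, hy', sub_self]⟩

/-- `hCs` / `hCm` for an ideal `P` given as `P = ker red`. -/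
theorem hCs_of_compat' (φ : B' →+* B) (red : B →+* D) (red' : B' →+* D)
    (c : ∀ b, red (φ b) = red' b) (hred' : Function.Surjective red') (P : Ideal B)
    (hP : P = RingHom.ker red) (y : B) : ∃ y' : B', y - φ y' ∈ P := by
  rw [hP]
  exact hCs_of_compat φ red red' c hred' y

/-- `hCi` of `H85.towerLoc_of_chart`, with `P = ker red`. -/
theorem hCi_of_compat (φ : B' →+* B) (red : B →+* D) (red' : B' →+* D) (W : D →+* D) (q : ℕ)
    (c : ∀ b, red (φ b) = W (red' b)) (hred' : Function.Surjective red')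
    (hW : ∀ r : D, ∃ r₂ : D, W r₂ = r ^ q) (y : B) :
    ∃ y' : B', y ^ q - φ y' ∈ RingHom.ker red := by
  obtain ⟨y', hy'⟩ := hli_of_compat φ red red' W q c hred' hW y
  exact ⟨y', by rw [RingHom.mem_ker, map_sub, map_pow, hy', sub_self]⟩

/-- `hCi` for an ideal `P` given as `P = ker red`. -/
theorem hCi_of_compat' (φ : B' →+* B) (red : B →+* D) (red' : B' →+* D) (W : D →+* D) (q : ℕ)
    (c : ∀ b, red (φ b) = W (red' b)) (hred' : Function.Surjective red')
    (hW : ∀ r : D, ∃ r₂ : D, W r₂ = r ^ q) (P : Ideal B) (hP : P = RingHom.ker red) (y : B) :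
    ∃ y' : B', y ^ q - φ y' ∈ P := by
  rw [hP]
  exact hCi_of_compat φ red red' W q c hred' hW y

end Compat

section Huniq

variable {B' B D : Type*} [CommRing B'] [CommRing B] [IsDomain B] [IsNoetherianRing B]
  [CommRing D] [IsDomain D]

/-- **`huniq` of `S36.H47.unitIn_norm_locSubring_ringHom`, `α` tower.**  `n` a closed point of
`B` whose image `n' = n.comap φ` lies on the second component of `B'`, cut out there by the one
equation `y'`. -/
theorem huniq_alpha (φ : B' →+* B) (red₁ red₂ red₃ : B →+* D) (red₁' red₂' : B' →+* D)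
    (W : D →+* D) (q : ℕ) (hq : 0 < q) (qB : B) (qB' : B') (hqφ : φ qB' = qB)
    (h3 : ∀ P : Ideal B, P.IsPrime → qB ∈ P →
      RingHom.ker red₁ ≤ P ∨ RingHom.ker red₂ ≤ P ∨ RingHom.ker red₃ ≤ P)
    (hk1 : RingHom.ker red₁ ≠ ⊥) (hk2 : RingHom.ker red₂ ≠ ⊥)
    (c1 : ∀ b, red₁ (φ b) = red₁' b) (c2 : ∀ b, red₂ (φ b) = red₁' b)
    (c3 : ∀ b, red₃ (φ b) = W (red₂' b))
    (hred₂' : Function.Surjective red₂') (hW : ∀ r : D, ∃ r₂ : D, W r₂ = r ^ q)
    (n : Ideal B) (hn : n.IsMaximal) (hker' : RingHom.ker red₂' ≤ n.comap φ)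
    (hq' : red₂' qB' = 0) (y' : B') (hy1 : red₁' y' ≠ 0) (hy2 : red₂' y' = 0)
    (hy' : ∀ z, red₂' z = 0 → ∃ t, t ∉ n.comap φ ∧ t * z ∈ Ideal.span {y'}) :
    ∀ P : Ideal B, P.IsMaximal → P.comap φ = n.comap φ → P = n := fun P hP hPn =>
  eq_of_comap_eq φ red₁ red₂ red₃ red₁' red₂' W q hq qB qB' hqφ h3 hk1 hk2 c1 c2 c3 hred₂' hW
    (n.comap φ) hker' hq' y' hy1 hy2 hy' P n hP hn hPn rfl

/-- **`huniq` of `S36.H47.unitIn_norm_locSubring_ringHom`, `β` tower.** -/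
theorem huniq_beta (φ : B' →+* B) (red₁ red₂ red₃ : B →+* D) (red₁' red₂' : B' →+* D)
    (W : D →+* D) (q : ℕ) (hq : 0 < q) (qB : B) (qB' : B') (hqφ : φ qB' = qB)
    (h3 : ∀ P : Ideal B, P.IsPrime → qB ∈ P →
      RingHom.ker red₁ ≤ P ∨ RingHom.ker red₂ ≤ P ∨ RingHom.ker red₃ ≤ P)
    (hk2 : RingHom.ker red₂ ≠ ⊥) (hk3 : RingHom.ker red₃ ≠ ⊥)
    (c1 : ∀ b, red₁ (φ b) = W (red₁' b)) (c2 : ∀ b, red₂ (φ b) = red₂' b)
    (c3 : ∀ b, red₃ (φ b) = red₂' b)
    (hred₁' : Function.Surjective red₁') (hW : ∀ r : D, ∃ r₂ : D, W r₂ = r ^ q)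
    (n : Ideal B) (hn : n.IsMaximal) (hker' : RingHom.ker red₁' ≤ n.comap φ)
    (hq' : red₁' qB' = 0) (x' : B') (hx2 : red₂' x' ≠ 0) (hx1 : red₁' x' = 0)
    (hx' : ∀ z, red₁' z = 0 → ∃ t, t ∉ n.comap φ ∧ t * z ∈ Ideal.span {x'}) :
    ∀ P : Ideal B, P.IsMaximal → P.comap φ = n.comap φ → P = n := fun P hP hPn =>
  eq_of_comap_eq_beta φ red₁ red₂ red₃ red₁' red₂' W q hq qB qB' hqφ h3 hk2 hk3 c1 c2 c3 hred₁' hW
    (n.comap φ) hker' hq' x' hx2 hx1 hx' P n hP hn hPn rfl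

end Huniq

end Fermat.Agent.S36.H71
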