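/-
helper71: S36, seam (E2) → (E6): **`TowerLoc.hNunit` in one call** at a closed point of the
level `q² L` chart lying over a node of the level `q L` chart:
`S36.H47.unitIn_norm_locSubring_ringHom` (helper47, norms of units are units when the point above
is unique) composed with `S36.H71.huniq_alpha` / `huniq_beta` (uniqueness of the point above).
-/
import Mathlib
import Fermat.Agent.S36.H47_NormUnit
import Fermat.Agent.S36.H71_LevelMapsCompat

set_option autoImplicit false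

namespace Fermat.Agent.S36.H71

open Fermat.Agent.S34

section

variable {B' B F1 F2 D : Type*} [CommRing B'] [IsDomain B'] [CommRing B] [IsDomain B]
  [IsNoetherianRing B] [Field F1] [Field F2] [Algebra B' F1] [IsFractionRing B' F1]
  [Algebra B F2] [IsFractionRing B F2] [IsIntegrallyClosed B'] [CommRing D] [IsDomain D]

/-- **`hNunit`, `α` tower.** -/
theorem hNunit_alpha (a : F1 →+* F2) (Na : F2 →*₀ F1)
    (hfd : letI := a.toAlgebra; FiniteDimensional F1 F2)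
    (hNa : ∀ x : F2, Na x = (letI := a.toAlgebra; Algebra.norm F1 x))
    (φ : B' →+* B) (hφ : ∀ b' : B', algebraMap B F2 (φ b') = a (algebraMap B' F1 b'))
    (hint : ∀ b : B, φ.IsIntegralElem b)
    (red₁ red₂ red₃ : B →+* D) (red₁' red₂' : B' →+* D)
    (W : D →+* D) (q : ℕ) (hq : 0 < q) (qB : B) (qB' : B') (hqφ : φ qB' = qB)
    (h3 : ∀ P : Ideal B, P.IsPrime → qB ∈ P →
      RingHom.ker red₁ ≤ P ∨ RingHom.ker red₂ ≤ P ∨ RingHom.ker red₃ ≤ P)
    (hk1 : RingHom.ker red₁ ≠ ⊥) (hk2 : RingHom.ker red₂ ≠ ⊥)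
    (c1 : ∀ b, red₁ (φ b) = red₁' b) (c2 : ∀ b, red₂ (φ b) = red₁' b)
    (c3 : ∀ b, red₃ (φ b) = W (red₂' b))
    (hred₂' : Function.Surjective red₂') (hW : ∀ r : D, ∃ r₂ : D, W r₂ = r ^ q)
    (n : Ideal B) [hn : n.IsMaximal] (n' : Ideal B') [hn' : n'.IsMaximal]
    (hnn' : n.comap φ = n') (hker' : RingHom.ker red₂' ≤ n')
    (hq' : red₂' qB' = 0) (y' : B') (hy1 : red₁' y' ≠ 0) (hy2 : red₂' y' = 0)
    (hy' : ∀ z, red₂' z = 0 → ∃ t, t ∉ n' ∧ t * z ∈ Ideal.span {y'}) :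
    ∀ e : F2, H47.UnitIn (H21.locSubring (F := F2) n) e →
      H47.UnitIn (H21.locSubring (F := F1) n') (Na e) := by
  subst hnn'
  exact S36.H47.unitIn_norm_locSubring_ringHom a Na hfd hNa φ hφ hint (n.comap φ) n
    (huniq_alpha φ red₁ red₂ red₃ red₁' red₂' W q hq qB qB' hqφ h3 hk1 hk2 c1 c2 c3 hred₂' hW n hn
      hker' hq' y' hy1 hy2 hy')

/-- **`hNunit`, `β` tower.** -/
theorem hNunit_beta (a : F1 →+* F2) (Na : F2 →*₀ F1)
    (hfd : letI := a.toAlgebra; FiniteDimensional F1 F2)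
    (hNa : ∀ x : F2, Na x = (letI := a.toAlgebra; Algebra.norm F1 x))
    (φ : B' →+* B) (hφ : ∀ b' : B', algebraMap B F2 (φ b') = a (algebraMap B' F1 b'))
    (hint : ∀ b : B, φ.IsIntegralElem b)
    (red₁ red₂ red₃ : B →+* D) (red₁' red₂' : B' →+* D)
    (W : D →+* D) (q : ℕ) (hq : 0 < q) (qB : B) (qB' : B') (hqφ : φ qB' = qB)
    (h3 : ∀ P : Ideal B, P.IsPrime → qB ∈ P →
      RingHom.ker red₁ ≤ P ∨ RingHom.ker red₂ ≤ P ∨ RingHom.ker red₃ ≤ P)
    (hk2 : RingHom.ker red₂ ≠ ⊥) (hk3 : RingHom.ker red₃ ≠ ⊥)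
    (c1 : ∀ b, red₁ (φ b) = W (red₁' b)) (c2 : ∀ b, red₂ (φ b) = red₂' b)
    (c3 : ∀ b, red₃ (φ b) = red₂' b)
    (hred₁' : Function.Surjective red₁') (hW : ∀ r : D, ∃ r₂ : D, W r₂ = r ^ q)
    (n : Ideal B) [hn : n.IsMaximal] (n' : Ideal B') [hn' : n'.IsMaximal]
    (hnn' : n.comap φ = n') (hker' : RingHom.ker red₁' ≤ n')
    (hq' : red₁' qB' = 0) (x' : B') (hx2 : red₂' x' ≠ 0) (hx1 : red₁' x' = 0)
    (hx' : ∀ z, red₁' z = 0 → ∃ t, t ∉ n' ∧ t * z ∈ Ideal.span {x'}) :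
    ∀ e : F2, H47.UnitIn (H21.locSubring (F := F2) n) e →
      H47.UnitIn (H21.locSubring (F := F1) n') (Na e) := by
  subst hnn'
  exact S36.H47.unitIn_norm_locSubring_ringHom a Na hfd hNa φ hφ hint (n.comap φ) n
    (huniq_beta φ red₁ red₂ red₃ red₁' red₂' W q hq qB qB' hqφ h3 hk2 hk3 c1 c2 c3 hred₁' hW n hn
      hker' hq' x' hx2 hx1 hx')

end

end Fermat.Agent.S36.H71
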