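/-
helper96 — S36 (A-hor) bridge: the valuation subring `S34.H56.valuationSubringAt p h1` of a
height-one prime `p` of a noetherian integrally closed domain `B` (inside `K = Frac B`) is a
discrete valuation ring, local generators of `p` are its uniformisers, and its value group is
generated by the value of a uniformiser.  This is what `CA.H32.deriv_mem` /
`CA.H32.valuation_deriv_uniformiser_eq_one` (`[IsDiscreteValuationRing O]`, `Irreducible ϖ`) and
`CA.H33.exists_pow_bound_of_denominator` need at the real types.
-/
import Mathlib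
import Fermat.Agent.S34.H56_PrimeVal

set_option autoImplicit false
set_option linter.unusedSectionVars false

namespace Fermat.Agent.S36.H96

open Fermat.Agent.S34 Fermat.Agent.CA.H42

variable {B K : Type*} [CommRing B] [IsDomain B] [Field K] [Algebra B K] [IsFractionRing B K]

section Lift

variable (K) (p : Ideal B) [hp : p.IsPrime]

/-- Elements outside `p` are units of `K`. -/
theorem isUnit_algebraMap_primeCompl (y : p.primeCompl) : IsUnit (algebraMap B K y) := by
  refine IsUnit.mk0 _ ?_
  intro h
  have : (y : B) = 0 := (IsFractionRing.injective B K) (by rw [h, map_zero])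
  exact y.2 (this ▸ p.zero_mem)

/-- The canonical map `B_p → K`. -/
noncomputable def locToField : Localization.AtPrime p →+* K :=
  IsLocalization.lift (M := p.primeCompl) (g := algebraMap B K) (isUnit_algebraMap_primeCompl K p)

theorem locToField_algebraMap (b : B) :
    locToField K p (algebraMap B (Localization.AtPrime p) b) = algebraMap B K b :=
  IsLocalization.lift_eq _ b

theorem locToField_injective : Function.Injective (locToField K p) := by
  rw [injective_iff_map_eq_zero]
  intro y hy
  obtain ⟨⟨a, b⟩, hab⟩ := IsLocalization.surj p.primeCompl y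
  have h1 := congrArg (locToField K p) hab
  rw [map_mul, hy, zero_mul, locToField_algebraMap] at h1
  have ha : a = 0 := (IsFractionRing.injective B K) (by rw [← h1, map_zero])
  rw [ha, map_zero] at hab
  have hb : algebraMap B (Localization.AtPrime p) (b : B) ≠ 0 := by
    intro h
    have h2 := congrArg (locToField K p) h
    rw [locToField_algebraMap, map_zero] at h2
    exact (isUnit_algebraMap_primeCompl K p b).ne_zero h2
  exact (mul_eq_zero.mp hab).resolve_right hb

theorem memAt_locToField (y : Localization.AtPrime p) : H56.MemAt p (locToField K p y) := by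
  obtain ⟨⟨a, b⟩, hab⟩ := IsLocalization.surj p.primeCompl y
  refine ⟨a, b, b.2, ?_⟩
  have h1 := congrArg (locToField K p) hab
  rwa [map_mul, locToField_algebraMap, locToField_algebraMap] at h1

theorem exists_locToField_eq {x : K} (hx : H56.MemAt p x) :
    ∃ y : Localization.AtPrime p, locToField K p y = x := by
  obtain ⟨a, b, hb, hab⟩ := hx
  refine ⟨IsLocalization.mk' (Localization.AtPrime p) a (⟨b, hb⟩ : p.primeCompl), ?_⟩
  have hb0 : algebraMap B K b ≠ 0 :=
    (isUnit_algebraMap_primeCompl K p (⟨b, hb⟩ : p.primeCompl)).ne_zero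
  have h1 : locToField K p (IsLocalization.mk' (Localization.AtPrime p) a (⟨b, hb⟩ : p.primeCompl)) *
      algebraMap B K b = algebraMap B K a := by
    rw [← locToField_algebraMap K p b, ← map_mul]
    have := IsLocalization.mk'_spec (Localization.AtPrime p) a (⟨b, hb⟩ : p.primeCompl)
    rw [this, locToField_algebraMap]
  exact mul_right_cancel₀ hb0 (h1.trans hab.symm)

end Lift

section DVR

variable [IsNoetherianRing B] [IsIntegrallyClosed B] (p : Ideal B) [hp : p.IsPrime]
  (h1 : p.height = 1)

/-- `B_p ≃ V_p`: the localisation at a height-one prime is the valuation subring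
`H56.valuationSubringAt p h1` of `K`. -/
noncomputable def locEquiv :
    Localization.AtPrime p ≃+* ↥(H56.valuationSubringAt (K := K) p h1) :=
  RingEquiv.ofBijective
    ((locToField K p).codRestrict (H56.valuationSubringAt (K := K) p h1).toSubring
      (fun y => memAt_locToField K p y))
    ⟨fun a b hab => locToField_injective K p (congrArg Subtype.val hab),
     fun x => by
      obtain ⟨y, hy⟩ := exists_locToField_eq K p ((H56.mem_valuationSubringAt h1).mp x.2)
      exact ⟨y, Subtype.ext hy⟩⟩

theorem coe_locEquiv (y : Localization.AtPrime p) :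
    ((locEquiv (K := K) p h1 y : ↥(H56.valuationSubringAt (K := K) p h1)) : K) =
      locToField K p y := rfl

/-- **`V_p` is a discrete valuation ring.** -/
theorem isDiscreteValuationRing_valuationSubringAt :
    IsDiscreteValuationRing ↥(H56.valuationSubringAt (K := K) p h1) := by
  have : IsDiscreteValuationRing (Localization.AtPrime p) :=
    isDiscreteValuationRing_of_height_eq_one p h1 (Localization.AtPrime p)
  exact IsDiscreteValuationRing.RingEquivClass.isDiscreteValuationRing (locEquiv (K := K) p h1)

include h1 in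
/-- A local generator of `p` is nonzero (since `p ≠ ⊥`). -/
theorem ne_zero_of_localGen {π : B}
    (hgen : ∀ z ∈ p, ∃ t : B, t ∉ p ∧ t * z ∈ Ideal.span {π}) : π ≠ 0 := by
  rintro rfl
  have hbot : p = ⊥ := by
    rw [eq_bot_iff]
    intro z hz
    obtain ⟨t, ht, htz⟩ := hgen z hz
    rw [Ideal.span_singleton_zero, Ideal.mem_bot] at htz
    rcases mul_eq_zero.mp htz with h | h
    · exact absurd (h ▸ p.zero_mem) ht
    · exact h
  rw [hbot, Ideal.height_bot] at h1
  exact zero_ne_one h1

/-- **Local generators are uniformisers**: if `π ∈ p` generates `p` locally at `p`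
(`∀ z ∈ p, ∃ t ∉ p, t * z ∈ (π)`), then `π` is irreducible in the DVR `V_p`. -/
theorem irreducible_of_localGen {π : B} (hπp : π ∈ p)
    (hgen : ∀ z ∈ p, ∃ t : B, t ∉ p ∧ t * z ∈ Ideal.span {π}) :
    Irreducible (⟨algebraMap B K π, H56.algebraMap_mem_valuationSubringAt h1 π⟩ :
      ↥(H56.valuationSubringAt (K := K) p h1)) := by
  have hdvr := isDiscreteValuationRing_valuationSubringAt (K := K) p h1
  have hπB : π ≠ 0 := ne_zero_of_localGen p h1 hgen
  have hπ0 : algebraMap B K π ≠ 0 := fun h =>
    hπB ((IsFractionRing.injective B K) (by rw [h, map_zero]))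
  -- `ϖ` lies in the maximal ideal
  have hϖm : (⟨algebraMap B K π, H56.algebraMap_mem_valuationSubringAt h1 π⟩ :
      ↥(H56.valuationSubringAt (K := K) p h1)) ∈
      IsLocalRing.maximalIdeal ↥(H56.valuationSubringAt (K := K) p h1) :=
    ((H56.valuationSubringAt (K := K) p h1).valuation_lt_one_iff _).mpr
      ((H56.algebraMap_mem_nonunits_iff h1 π).mpr hπp)
  -- every element of the maximal ideal is a multiple of `ϖ`
  have hle : IsLocalRing.maximalIdeal ↥(H56.valuationSubringAt (K := K) p h1) ≤
      Ideal.span {(⟨algebraMap B K π, H56.algebraMap_mem_valuationSubringAt h1 π⟩ :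
      ↥(H56.valuationSubringAt (K := K) p h1))} := by
    intro x hx
    have hx' : (H56.valuationSubringAt (K := K) p h1).valuation (x : K) < 1 :=
      ((H56.valuationSubringAt (K := K) p h1).valuation_lt_one_iff x).mp hx
    obtain ⟨a, b, hb, hab⟩ := (H56.mem_valuationSubringAt h1).mp x.2
    have hb0 : algebraMap B K b ≠ 0 :=
      (isUnit_algebraMap_primeCompl K p (⟨b, hb⟩ : p.primeCompl)).ne_zero
    -- `a ∈ p`
    have ha : a ∈ p := by
      rw [← H56.algebraMap_mem_nonunits_iff (K := K) h1, ← hab, map_mul]
      have hb1 : (H56.valuationSubringAt (K := K) p h1).valuation (algebraMap B K b) ≤ 1 :=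
        ((H56.valuationSubringAt (K := K) p h1).valuation_le_one_iff _).mpr
          (H56.algebraMap_mem_valuationSubringAt h1 b)
      calc (H56.valuationSubringAt (K := K) p h1).valuation (x : K) *
            (H56.valuationSubringAt (K := K) p h1).valuation (algebraMap B K b)
          ≤ (H56.valuationSubringAt (K := K) p h1).valuation (x : K) * 1 := by gcongr
        _ = (H56.valuationSubringAt (K := K) p h1).valuation (x : K) := mul_one _
        _ < 1 := hx'
    obtain ⟨t, ht, htz⟩ := hgen a ha
    obtain ⟨c, hc⟩ := Ideal.mem_span_singleton'.mp htz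
    have ht0 : algebraMap B K t ≠ 0 :=
      (isUnit_algebraMap_primeCompl K p (⟨t, ht⟩ : p.primeCompl)).ne_zero
    have htb : t * b ∉ p := fun h => (hp.mem_or_mem h).elim ht hb
    have h2 : algebraMap B K c * algebraMap B K π = algebraMap B K t * algebraMap B K a := by
      rw [← map_mul, ← map_mul, hc]
    have hy : H56.MemAt p ((x : K) * (algebraMap B K π)⁻¹) := by
      refine ⟨c, t * b, htb, ?_⟩
      rw [map_mul]
      rw [← hab] at h2
      field_simp
      linear_combination (-1 : K) * h2
    rw [Ideal.mem_span_singleton']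
    refine ⟨⟨(x : K) * (algebraMap B K π)⁻¹, (H56.mem_valuationSubringAt h1).mpr hy⟩, ?_⟩
    apply Subtype.ext
    show (x : K) * (algebraMap B K π)⁻¹ * algebraMap B K π = (x : K)
    rw [mul_assoc, inv_mul_cancel₀ hπ0, mul_one]
  have heq : IsLocalRing.maximalIdeal ↥(H56.valuationSubringAt (K := K) p h1) =
      Ideal.span {(⟨algebraMap B K π, H56.algebraMap_mem_valuationSubringAt h1 π⟩ :
      ↥(H56.valuationSubringAt (K := K) p h1))} :=
    le_antisymm hle ((Ideal.span_singleton_le_iff_mem _).mpr hϖm)
  exact (IsDiscreteValuationRing.irreducible_iff_uniformizer _).mpr heq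

omit [Field K] [Algebra B K] [IsFractionRing B K] in
include h1 in
/-- **Existence of a local generator** of a height-one prime: some `π ∈ p` generates `p B_p`,
in the `∃ t ∉ p, t * z ∈ (π)` spelling. -/
theorem exists_localGen :
    ∃ π ∈ p, ∀ z ∈ p, ∃ t : B, t ∉ p ∧ t * z ∈ Ideal.span {π} := by
  have hdvr := isDiscreteValuationRing_valuationSubringAt (K := FractionRing B) p h1
  obtain ⟨ϖ, hϖ⟩ := IsDiscreteValuationRing.exists_irreducible
    ↥(H56.valuationSubringAt (K := FractionRing B) p h1)
  have hmax := (IsDiscreteValuationRing.irreducible_iff_uniformizer ϖ).mp hϖ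
  obtain ⟨a, b, hb, hab⟩ := (H56.mem_valuationSubringAt h1).mp ϖ.2
  have hb0 : algebraMap B (FractionRing B) b ≠ 0 :=
    (isUnit_algebraMap_primeCompl (FractionRing B) p (⟨b, hb⟩ : p.primeCompl)).ne_zero
  have hϖ0 : (ϖ : FractionRing B) ≠ 0 := fun h => hϖ.ne_zero (Subtype.ext h)
  have ha0 : algebraMap B (FractionRing B) a ≠ 0 := by rw [← hab]; exact mul_ne_zero hϖ0 hb0
  -- `a ∈ p`
  have hϖlt : (H56.valuationSubringAt (K := FractionRing B) p h1).valuation (ϖ : FractionRing B) < 1 := by
    refine ((H56.valuationSubringAt (K := FractionRing B) p h1).valuation_lt_one_iff ϖ).mp ?_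
    rw [hmax]; exact Ideal.mem_span_singleton_self ϖ
  have ha : a ∈ p := by
    rw [← H56.algebraMap_mem_nonunits_iff (K := FractionRing B) h1, ← hab, map_mul]
    have hb1 : (H56.valuationSubringAt (K := FractionRing B) p h1).valuation (algebraMap B (FractionRing B) b) ≤ 1 :=
      ((H56.valuationSubringAt (K := FractionRing B) p h1).valuation_le_one_iff _).mpr
        (H56.algebraMap_mem_valuationSubringAt h1 b)
    calc (H56.valuationSubringAt (K := FractionRing B) p h1).valuation (ϖ : FractionRing B) *
          (H56.valuationSubringAt (K := FractionRing B) p h1).valuation (algebraMap B (FractionRing B) b)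
        ≤ (H56.valuationSubringAt (K := FractionRing B) p h1).valuation (ϖ : FractionRing B) * 1 := by gcongr
      _ = (H56.valuationSubringAt (K := FractionRing B) p h1).valuation (ϖ : FractionRing B) := mul_one _
      _ < 1 := hϖlt
  refine ⟨a, ha, fun z hz => ?_⟩
  -- `z ∈ p` is a non-unit of `V_p`, hence a multiple of `ϖ`
  have hzm : (⟨algebraMap B (FractionRing B) z, H56.algebraMap_mem_valuationSubringAt h1 z⟩ :
      ↥(H56.valuationSubringAt (K := FractionRing B) p h1)) ∈
      IsLocalRing.maximalIdeal ↥(H56.valuationSubringAt (K := FractionRing B) p h1) :=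
    ((H56.valuationSubringAt (K := FractionRing B) p h1).valuation_lt_one_iff _).mpr
      ((H56.algebraMap_mem_nonunits_iff h1 z).mpr hz)
  rw [hmax, Ideal.mem_span_singleton'] at hzm
  obtain ⟨y, hy⟩ := hzm
  have hy' : (y : FractionRing B) * (ϖ : FractionRing B) = algebraMap B (FractionRing B) z := congrArg Subtype.val hy
  obtain ⟨c, d, hd, hcd⟩ := (H56.mem_valuationSubringAt h1).mp y.2
  have hd0 : algebraMap B (FractionRing B) d ≠ 0 :=
    (isUnit_algebraMap_primeCompl (FractionRing B) p (⟨d, hd⟩ : p.primeCompl)).ne_zero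
  refine ⟨d * b, fun h => (hp.mem_or_mem h).elim hd hb, ?_⟩
  rw [Ideal.mem_span_singleton']
  refine ⟨c, (IsFractionRing.injective B (FractionRing B)) ?_⟩
  rw [map_mul, map_mul, map_mul, ← hy', ← hcd, ← hab]
  ring

end DVR

section ValueGroup

variable {F : Type*} [Field F] (O : ValuationSubring F) [IsDiscreteValuationRing O]

/-- In a valuation subring which is a DVR the value of every nonzero element is an integral
power of the value of a uniformiser (the hypothesis `hd₀` of
`CA.H33.exists_pow_bound_of_denominator`). -/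
theorem exists_zpow_valuation_eq {ϖ : O} (hϖ : Irreducible ϖ) (d : F) (hd : d ≠ 0) :
    ∃ n : ℤ, O.valuation d = O.valuation (ϖ : F) ^ n := by
  have hϖ0 : (ϖ : F) ≠ 0 := fun h => hϖ.ne_zero (Subtype.ext h)
  rcases O.mem_or_inv_mem d with hdO | hdO
  · have hd0' : (⟨d, hdO⟩ : O) ≠ 0 := fun h => hd (congrArg Subtype.val h)
    obtain ⟨n, u, hu⟩ := IsDiscreteValuationRing.associated_pow_irreducible hd0' hϖ
    have h2 : d * ((u : O) : F) = (ϖ : F) ^ n := by
      have := congrArg (Subtype.val) hu
      simpa using this
    have h3 : O.valuation (((u : O)) : F) = 1 := (O.valuation_eq_one_iff (u : O)).mp u.isUnit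
    refine ⟨(n : ℤ), ?_⟩
    rw [zpow_natCast, ← map_pow, ← h2, map_mul, h3, mul_one]
  · have hdi0 : d⁻¹ ≠ 0 := inv_ne_zero hd
    have hd0' : (⟨d⁻¹, hdO⟩ : O) ≠ 0 := fun h => hdi0 (congrArg Subtype.val h)
    obtain ⟨n, u, hu⟩ := IsDiscreteValuationRing.associated_pow_irreducible hd0' hϖ
    have h2 : d⁻¹ * ((u : O) : F) = (ϖ : F) ^ n := by
      have := congrArg (Subtype.val) hu
      simpa using this
    have h3 : O.valuation (((u : O)) : F) = 1 := (O.valuation_eq_one_iff (u : O)).mp u.isUnit
    refine ⟨-(n : ℤ), ?_⟩
    have h4 : O.valuation d⁻¹ = O.valuation (ϖ : F) ^ n := by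
      rw [← map_pow, ← h2, map_mul, h3, mul_one]
    rw [zpow_neg, zpow_natCast, ← h4, map_inv₀, inv_inv]

end ValueGroup

end Fermat.Agent.S36.H96
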