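/-
helper71: S36, (E7)/(r5) seam: **a closed point of chart 2 at which the chart coordinate `J⁻¹` does
not vanish is a closed point of chart 1, with the same local ring and the same incidences.**

Why it is needed: `hint_alpha`/`hint_beta` (`B` integral over `φ(B')`) are FALSE on chart 2
(`Spec B₂ = {J₃ ≠ 0}` is a proper open subset of `α⁻¹ {j j_q ≠ 0}`), so `TripleLoc` at a triple
point `n` of chart 2 must be obtained from chart 1; `TripleLoc` and the point classification only
see the subring `O = locSubring n ⊆ F` and the incidences `P k ≤ n`.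

* `mem_locSubring_of_isIntegral` : `B_n` is integrally closed in `F` (`B` integrally closed);
* `le_iff_locSubring_le` : `p ≤ n ↔ B_n ⊆ B_p` (incidence read off the local rings);
* `exists_point_chart_one` : the generic two-chart statement;
* `exists_inl_of_inr` : the same in the `ClosedPt / ptO / primeThr` vocabulary of `S34.H21`.
-/
import Mathlib
import Fermat.Agent.S34.H21_ModelHypCharts
import Fermat.Agent.S36.H96_ValAtDVR

set_option autoImplicit false
set_option linter.unusedSectionVars false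
set_option linter.style.haveILetI false

namespace Fermat.Agent.S36.H71

open Fermat.Agent.S34

section OneChart

variable {B F : Type*} [CommRing B] [IsDomain B] [Field F] [Algebra B F] [IsFractionRing B F]

/-- **`B_n` is integrally closed in `F`.** -/
theorem mem_locSubring_of_isIntegral [IsIntegrallyClosed B] (n : Ideal B) [hn : n.IsPrime]
    {x : F} (hx : IsIntegral ↥(H21.locSubring (F := F) n) x) : x ∈ H21.locSubring (F := F) n := by
  letI : Algebra (Localization.AtPrime n) F := (H96.locToField F n).toAlgebra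
  haveI : IsScalarTower B (Localization.AtPrime n) F :=
    IsScalarTower.of_algebraMap_eq fun b => (H96.locToField_algebraMap F n b).symm
  -- the isomorphism `B_n ≃ locSubring n`
  let e : Localization.AtPrime n ≃+* ↥(H21.locSubring (F := F) n) :=
    RingEquiv.ofBijective
      ((H96.locToField F n).codRestrict (H21.locSubring (F := F) n)
        (fun y => H96.memAt_locToField F n y))
      ⟨fun a b hab => H96.locToField_injective F n (congrArg Subtype.val hab),
       fun z => by
        obtain ⟨y, hy⟩ := H96.exists_locToField_eq F n z.2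
        exact ⟨y, Subtype.ext hy⟩⟩
  have hx' : IsIntegral (Localization.AtPrime n) x := by
    have := IsIntegral.map_of_comp_eq (R := ↥(H21.locSubring (F := F) n)) (S := F)
      (T := Localization.AtPrime n) (U := F) (e.symm : ↥(H21.locSubring (F := F) n) →+* _)
      (RingHom.id F) (RingHom.ext fun z => by
        obtain ⟨y, rfl⟩ := e.surjective z
        simp only [RingHom.coe_comp, RingHom.coe_coe, Function.comp_apply,
          RingEquiv.symm_apply_apply, RingHom.id_apply]
        rfl) hx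
    simpa using this
  obtain ⟨m, hm⟩ := IsIntegral.exists_multiple_integral_of_isLocalization n.primeCompl x hx'
  obtain ⟨b, hb⟩ := IsIntegrallyClosed.isIntegral_iff.mp hm
  refine ⟨b, m, m.2, ?_⟩
  rw [hb, Submonoid.smul_def, Algebra.smul_def, mul_comm]

/-- a non-zero element of `B` outside `n` is a unit of `B_n`. -/
theorem unitIn_algebraMap_of_not_mem (n : Ideal B) [hn : n.IsPrime] {s : B} (hs : s ∉ n) :
    H47.UnitIn (H21.locSubring (F := F) n) (algebraMap B F s) := by
  rw [H21.unitIn_locSubring_iff]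
  exact ⟨s, 1, hs, (Ideal.ne_top_iff_one n).mp hn.ne_top, by rw [map_one, mul_one]⟩

/-- an element of `n` is a non-unit of `B_n`. -/
theorem not_unitIn_algebraMap_of_mem (n : Ideal B) [hn : n.IsPrime] {s : B} (hs : s ∈ n) :
    ¬ H47.UnitIn (H21.locSubring (F := F) n) (algebraMap B F s) := by
  rw [H21.unitIn_locSubring_iff]
  rintro ⟨a, b, ha, hb, hab⟩
  have h1 : s * b = a := IsFractionRing.injective B F (by rw [map_mul, hab])
  exact ha (h1 ▸ n.mul_mem_right b hs)

/-- **Incidence from the local rings**: `p ≤ n ↔ B_n ⊆ B_p`. -/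
theorem le_iff_locSubring_le (p n : Ideal B) [hp : p.IsPrime] [hn : n.IsPrime] :
    p ≤ n ↔ H21.locSubring (F := F) n ≤ H21.locSubring (F := F) p := by
  constructor
  · rintro hpn x ⟨a, s, hs, has⟩
    exact ⟨a, s, fun h => hs (hpn h), has⟩
  · intro hle b hb
    by_contra hbn
    have h1 := (unitIn_algebraMap_of_not_mem (F := F) n hbn)
    have h2 : H47.UnitIn (H21.locSubring (F := F) p) (algebraMap B F b) :=
      ⟨hle h1.1, hle h1.2.1, h1.2.2⟩
    exact not_unitIn_algebraMap_of_mem (F := F) p hb h2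

end OneChart

section Adjoin

variable {R F : Type*} [CommRing R] [Field F] [Algebra R F]

/-- `x` integral over `R[J]`, `R ⊆ O`, `J ∈ O` ⟹ `x` integral over `O`. -/
theorem isIntegral_subring_of_adjoin {O : Subring F} (hRO : ∀ r : R, algebraMap R F r ∈ O)
    {J : F} (hJO : J ∈ O) {x : F} (hx : IsIntegral (Algebra.adjoin R {J}) x) :
    IsIntegral ↥O x := by
  have hle : ∀ y ∈ Algebra.adjoin R {J}, y ∈ O := by
    intro y hy
    induction hy using Algebra.adjoin_induction with
    | mem z hz =>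
      rw [Set.mem_singleton_iff] at hz
      subst hz
      exact hJO
    | algebraMap r => exact hRO r
    | add a b _ _ ha hb => exact O.add_mem ha hb
    | mul a b _ _ ha hb => exact O.mul_mem ha hb
  let incl : ↥(Algebra.adjoin R {J}) →+* ↥O :=
    { toFun := fun y => ⟨y.1, hle y.1 y.2⟩
      map_one' := rfl
      map_mul' := fun _ _ => rfl
      map_zero' := rfl
      map_add' := fun _ _ => rfl }
  have := IsIntegral.map_of_comp_eq (R := ↥(Algebra.adjoin R {J})) (S := F) (T := ↥O) (U := F)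
    incl (RingHom.id F) (RingHom.ext fun y => rfl) hx
  simpa using this

end Adjoin

section TwoCharts

variable {R F : Type*} [CommRing R] [Field F] [Algebra R F]
  (B₁ B₂ : Subalgebra R F) [IsFractionRing B₁ F] [IsFractionRing B₂ F]
  [IsIntegrallyClosed B₁] [IsIntegrallyClosed B₂]

omit [IsIntegrallyClosed B₁] [IsIntegrallyClosed B₂] [IsFractionRing B₁ F] in
/-- `¬ UnitIn` is stable under negation. -/
theorem not_unitIn_neg {O : Subring F} {b : F} (hb : ¬ H47.UnitIn O b) : ¬ H47.UnitIn O (-b) := by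
  rintro ⟨h1, h2, h3⟩
  refine hb ⟨by simpa using O.neg_mem h1, ?_, by simpa using h3⟩
  have : b⁻¹ = -(-b)⁻¹ := by rw [inv_neg, neg_neg]
  rw [this]
  exact O.neg_mem h2

/-- **A closed point of chart 2 off `J⁻¹ = 0` is a closed point of chart 1 with the same local
ring.**  `B₁ ⊆` the integral closure of `R[J]`, `B₂ ⊆` the integral closure of `R[J⁻¹]`, both
integrally closed with fraction field `F`; `n` a prime of `B₂` containing `π`, `k`-rational
(`hres`), with `J⁻¹ ∉ n`; `R` local with maximal ideal `(π)` (`hRπ`). -/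
theorem exists_point_chart_one (J : F) (hJ₁ : J ∈ B₁) (hJ₂ : J⁻¹ ∈ B₂)
    (h1 : ∀ b : B₁, IsIntegral (Algebra.adjoin R {J}) (b : F))
    (h2 : ∀ b : B₂, IsIntegral (Algebra.adjoin R {J⁻¹}) (b : F))
    (π : R) (hRπ : ∀ c : R, π ∣ c ∨ IsUnit c)
    (n : Ideal B₂) [hn : n.IsPrime] (hπn : algebraMap R B₂ π ∈ n)
    (hres : ∀ b : B₂, ∃ c : R, b - algebraMap R B₂ c ∈ n)
    (hJn : (⟨J⁻¹, hJ₂⟩ : B₂) ∉ n) :
    ∃ (n₁ : Ideal B₁) (hn₁ : n₁.IsMaximal), algebraMap R B₁ π ∈ n₁ ∧
      (haveI := hn₁.isPrime; H21.locSubring (F := F) n₁) = H21.locSubring (F := F) n := by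
  classical
  set O : Subring F := H21.locSubring (F := F) n with hO
  have hRO : ∀ r : R, algebraMap R F r ∈ O := fun r =>
    H21.algebraMap_mem_locSubring n (algebraMap R B₂ r)
  -- `J` is a unit of `O`
  have hJinvU : H47.UnitIn O J⁻¹ := unitIn_algebraMap_of_not_mem (F := F) n hJn
  have hJU : H47.UnitIn O J := by simpa using hJinvU.inv
  -- `B₁ ⊆ O`
  have hB₁O : ∀ b : B₁, (b : F) ∈ O := fun b =>
    mem_locSubring_of_isIntegral n (isIntegral_subring_of_adjoin hRO hJU.1 (h1 b))
  have hB₂O : ∀ b : B₂, (b : F) ∈ O := fun b => H21.algebraMap_mem_locSubring n b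
  have hlocal : ∀ {a b : F}, H47.UnitIn O a → b ∈ O → ¬ H47.UnitIn O b → H47.UnitIn O (a + b) :=
    fun ha hb hbu => H21.locSubring_local n ha hb hbu
  -- the prime `n₁`
  let n₁ : Ideal B₁ :=
    { carrier := {b | ¬ H47.UnitIn O (b : F)}
      add_mem' := by
        intro a b ha hb hab
        have h := hlocal hab (O.neg_mem (hB₁O b)) (not_unitIn_neg hb)
        have e : ((a + b : B₁) : F) + -(b : F) = (a : F) := by push_cast; ring
        rw [e] at h
        exact ha h
      zero_mem' := fun h => h.2.2 rfl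
      smul_mem' := by
        intro c b hb hcb
        apply hb
        have hcb' : H47.UnitIn O ((c : F) * (b : F)) := by simpa using hcb
        have hb0 : (b : F) ≠ 0 := fun h0 => hcb'.2.2 (by rw [h0, mul_zero])
        have hc0 : (c : F) ≠ 0 := fun h0 => hcb'.2.2 (by rw [h0, zero_mul])
        refine ⟨hB₁O b, ?_, hb0⟩
        have e : (b : F)⁻¹ = (c : F) * ((c : F) * (b : F))⁻¹ := by
          field_simp
        rw [e]
        exact O.mul_mem (hB₁O c) hcb'.2.1 }
  have hmem₁ : ∀ b : B₁, b ∈ n₁ ↔ ¬ H47.UnitIn O (b : F) := fun b => Iff.rfl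
  have hone : H47.UnitIn O (1 : F) := ⟨O.one_mem, by simpa using O.one_mem, one_ne_zero⟩
  have hπO : ¬ H47.UnitIn O (algebraMap R F π) :=
    not_unitIn_algebraMap_of_mem (F := F) n hπn
  have hπn₁ : algebraMap R B₁ π ∈ n₁ := hπO
  -- every element of `B₁` is congruent to a constant modulo `n₁`
  have hres₁ : ∀ b : B₁, ∃ c : R, b - algebraMap R B₁ c ∈ n₁ := by
    intro b
    obtain ⟨a, s, hs, has⟩ := hB₁O b
    obtain ⟨ca, hca⟩ := hres a
    obtain ⟨cs, hcs⟩ := hres s
    have hcsu : IsUnit cs := by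
      rcases hRπ cs with ⟨c', hc'⟩ | h
      · exfalso
        apply hs
        have h1 : algebraMap R B₂ cs ∈ n := by
          rw [hc', map_mul]
          exact n.mul_mem_right _ hπn
        have := n.add_mem hcs h1
        rwa [sub_add_cancel] at this
      · exact h
    obtain ⟨d, hd⟩ := hcsu.exists_right_inv
    refine ⟨ca * d, ?_⟩
    rw [hmem₁]
    intro hU
    -- `(b - c) * s = t` with `t ∈ n`
    set t : B₂ := (a - algebraMap R B₂ ca) + algebraMap R B₂ (ca * d) * (algebraMap R B₂ cs - s)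
      with ht
    have htn : t ∈ n := by
      refine n.add_mem hca (n.mul_mem_left _ ?_)
      have := n.neg_mem hcs
      rwa [neg_sub] at this
    have hts : ((b - algebraMap R B₁ (ca * d) : B₁) : F) * algebraMap B₂ F s = algebraMap B₂ F t := by
      have e1 : algebraMap B₂ F t = algebraMap B₂ F a - algebraMap R F ca +
          algebraMap R F (ca * d) * (algebraMap R F cs - algebraMap B₂ F s) := by
        rw [ht]
        simp only [map_add, map_sub, map_mul]
        rfl
      have e2 : algebraMap R F (ca * d) * algebraMap R F cs = algebraMap R F ca := by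
        rw [← map_mul, mul_assoc, mul_comm d cs, hd, mul_one]
      have e3 : ((b - algebraMap R B₁ (ca * d) : B₁) : F) = (b : F) - algebraMap R F (ca * d) := rfl
      rw [e1, e3, sub_mul, has, mul_sub, e2]
      ring
    have hsU : H47.UnitIn O (algebraMap B₂ F s) := unitIn_algebraMap_of_not_mem (F := F) n hs
    have htU : H47.UnitIn O (algebraMap B₂ F t) := hts ▸ hU.mul hsU
    exact not_unitIn_algebraMap_of_mem (F := F) n htn htU
  -- `n₁` is maximal
  have hn₁max : n₁.IsMaximal := by
    rw [Ideal.isMaximal_iff]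
    refine ⟨fun h => h (by simpa using hone), ?_⟩
    intro I b hle hb hbI
    obtain ⟨c, hc⟩ := hres₁ b
    have hcu : IsUnit c := by
      rcases hRπ c with ⟨c', hc'⟩ | h
      · exfalso
        apply hb
        have h1 : algebraMap R B₁ c ∈ n₁ := by
          rw [hc', map_mul]
          exact n₁.mul_mem_right _ hπn₁
        have := n₁.add_mem hc h1
        rwa [sub_add_cancel] at this
      · exact h
    obtain ⟨d, hd⟩ := hcu.exists_right_inv
    have e : (1 : B₁) = b * algebraMap R B₁ d - (b - algebraMap R B₁ c) * algebraMap R B₁ d := by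
      rw [sub_mul, sub_sub_cancel, ← map_mul, hd, map_one]
    rw [e]
    exact I.sub_mem (I.mul_mem_right _ hbI) (I.mul_mem_right _ (hle hc))
  haveI hn₁p : n₁.IsPrime := hn₁max.isPrime
  refine ⟨n₁, hn₁max, hπn₁, ?_⟩
  set O₁ : Subring F := H21.locSubring (F := F) n₁ with hO₁
  apply le_antisymm
  · -- `O₁ ⊆ O`
    rintro x ⟨a, s, hs, has⟩
    have hsU : H47.UnitIn O (s : F) := not_not.mp hs
    have hx : x = (a : F) * (s : F)⁻¹ := by
      have hs0 : (s : F) ≠ 0 := hsU.2.2
      field_simp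
      exact has
    rw [hx]
    exact O.mul_mem (hB₁O a) hsU.2.1
  · -- `O ⊆ O₁`
    have hRO₁ : ∀ r : R, algebraMap R F r ∈ O₁ := fun r =>
      H21.algebraMap_mem_locSubring n₁ (algebraMap R B₁ r)
    have hJ₁n₁ : (⟨J, hJ₁⟩ : B₁) ∉ n₁ := fun h => h hJU
    have hJU₁ : H47.UnitIn O₁ J := unitIn_algebraMap_of_not_mem (F := F) n₁ hJ₁n₁
    have hB₂O₁ : ∀ b : B₂, (b : F) ∈ O₁ := fun b =>
      mem_locSubring_of_isIntegral n₁ (isIntegral_subring_of_adjoin hRO₁ hJU₁.2.1 (h2 b))
    rintro x ⟨a, s, hs, has⟩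
    have hsU : H47.UnitIn O (algebraMap B₂ F s) := unitIn_algebraMap_of_not_mem (F := F) n hs
    -- `s` is a unit of `O₁`
    have hsU₁ : H47.UnitIn O₁ (algebraMap B₂ F s) := by
      obtain ⟨a₁, t₁, ht₁, hat₁⟩ := hB₂O₁ s
      have ht₁U : H47.UnitIn O (t₁ : F) := not_not.mp ht₁
      have ha₁n₁ : a₁ ∉ n₁ := by
        intro h
        apply h
        show H47.UnitIn O (algebraMap B₁ F a₁)
        rw [← hat₁]
        exact hsU.mul ht₁U
      rw [H21.unitIn_locSubring_iff]
      exact ⟨a₁, t₁, ha₁n₁, ht₁, hat₁⟩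
    have hx : x = algebraMap B₂ F a * (algebraMap B₂ F s)⁻¹ := by
      have hs0 : algebraMap B₂ F s ≠ 0 := hsU.2.2
      field_simp
      exact has
    rw [hx]
    exact O₁.mul_mem (hB₂O₁ a) hsU₁.2.1

end TwoCharts

section Wrapper

variable {R F : Type*} [CommRing R] [IsDomain R] [IsDiscreteValuationRing R]
  [Field F] [Algebra R F]
  (B₁ B₂ : Subalgebra R F) [IsFractionRing B₁ F] [IsFractionRing B₂ F]
  [IsIntegrallyClosed B₁] [IsIntegrallyClosed B₂]

omit [IsIntegrallyClosed B₁] [IsIntegrallyClosed B₂] [IsFractionRing B₁ F] [IsFractionRing B₂ F]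
  [Algebra R F] in
/-- in a DVR with uniformiser `π`, every element is divisible by `π` or a unit. -/
theorem dvd_or_isUnit_of_irreducible {π : R} (hπ : Irreducible π) (c : R) : π ∣ c ∨ IsUnit c := by
  by_cases hc : IsUnit c
  · exact Or.inr hc
  · left
    have h1 : c ∈ IsLocalRing.maximalIdeal R := (IsLocalRing.mem_maximalIdeal c).2 hc
    rw [hπ.maximalIdeal_eq] at h1
    exact Ideal.mem_span_singleton.1 h1

/-- **`hpt` on chart 2 from `hpt` on chart 1**: a closed point `n` of chart 2 with `J⁻¹ ∉ n` is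
`Sum.inl n₁` for a closed point `n₁` of chart 1 with the same local ring `ptO` and the same
incidences `primeThr` (for families of primes `P₁ k ⊆ B₁`, `P₂ k ⊆ B₂` with the same local
rings, e.g. `valuationSubringAt (P₁ k) = valuationSubringAt (P₂ k)`). -/
theorem exists_inl_of_inr (J : F) (hJ₁ : J ∈ B₁) (hJ₂ : J⁻¹ ∈ B₂)
    (h1 : ∀ b : B₁, IsIntegral (Algebra.adjoin R {J}) (b : F))
    (h2 : ∀ b : B₂, IsIntegral (Algebra.adjoin R {J⁻¹}) (b : F))
    {π : R} (hπ : Irreducible π) (n : H21.ClosedPt B₂ π)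
    (hres : ∀ b : B₂, ∃ c : R, b - algebraMap R B₂ c ∈ n.1)
    (hJn : (⟨J⁻¹, hJ₂⟩ : B₂) ∉ n.1)
    {κ : Type*} (P₁ : κ → Ideal B₁) (P₂ : κ → Ideal B₂)
    [hP₁ : ∀ k, (P₁ k).IsPrime] [hP₂ : ∀ k, (P₂ k).IsPrime]
    (hV : ∀ k (x : F), H56.MemAt (P₁ k) x ↔ H56.MemAt (P₂ k) x) :
    ∃ n₁ : H21.ClosedPt B₁ π,
      H21.ptO B₁ B₂ π (Sum.inl n₁) = H21.ptO B₁ B₂ π (Sum.inr n) ∧
      ∀ k, H21.primeThr (π := π) P₁ P₂ (Sum.inl n₁) k ↔
        H21.primeThr (π := π) P₁ P₂ (Sum.inr n) k := by
  haveI hnp : n.1.IsPrime := n.2.1.isPrime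
  obtain ⟨n₁, hn₁, hπn₁, hloc⟩ := exists_point_chart_one B₁ B₂ J hJ₁ hJ₂ h1 h2 π
    (dvd_or_isUnit_of_irreducible hπ) n.1 n.2.2 hres hJn
  haveI hn₁p : n₁.IsPrime := hn₁.isPrime
  refine ⟨⟨n₁, hn₁, hπn₁⟩, hloc, fun k => ?_⟩
  show P₁ k ≤ n₁ ↔ P₂ k ≤ n.1
  have hPeq : H21.locSubring (F := F) (P₁ k) = H21.locSubring (F := F) (P₂ k) :=
    SetLike.ext fun x => hV k x
  rw [le_iff_locSubring_le (F := F) (P₁ k) n₁, le_iff_locSubring_le (F := F) (P₂ k) n.1, hPeq]
  have hloc' : H21.locSubring (F := F) n₁ = H21.locSubring (F := F) n.1 := hloc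
  rw [hloc']

/-- the hypothesis `hV` of `exists_inl_of_inr` from equality of the vertical valuation rings. -/
theorem memAt_iff_of_valuationSubringAt_eq [IsNoetherianRing B₁] [IsNoetherianRing B₂]
    {P₁ : Ideal B₁} {P₂ : Ideal B₂} [P₁.IsPrime] [P₂.IsPrime] (hh₁ : P₁.height = 1) (hh₂ : P₂.height = 1)
    (hVeq : H56.valuationSubringAt (K := F) P₁ hh₁ = H56.valuationSubringAt (K := F) P₂ hh₂)
    (x : F) : H56.MemAt P₁ x ↔ H56.MemAt P₂ x := by
  rw [← H56.mem_valuationSubringAt hh₁, ← H56.mem_valuationSubringAt hh₂, hVeq]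

end Wrapper

end Fermat.Agent.S36.H71
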