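/-
helper72 — S36 row (D2) AUX LEVEL, part 3: norm base change in the mixed square
`exp_d : F_{M₀} → F_{M₁}`, `exp_d : F_{M₂} → F_M` (norm direction) against the inclusions
`F_{M₀} ⊆ F_{M₂}`, `F_{M₁} ⊆ F_M` (pull-back direction).

* `finite_expHom` : `F_M` is finite over `exp_d (F_{M₂})`;
* `span_range_inclHom_exp` : `F_M` is spanned over `exp_d (F_{M₂})` by `F_{M₁}`  (`M = d M₂`);
* `normAlong_expHom_inclHom` : `Nm_{exp_d}(incl g) = incl (Nm_{exp_d} g)`.
-/
import Mathlib
import Fermat.Agent.S29.H87_HeckeFuncComm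
import Fermat.Agent.S37.H8_HeckeInputs

set_option autoImplicit false
set_option linter.unusedSectionVars false
set_option linter.style.haveILetI false
set_option synthInstance.maxHeartbeats 400000

noncomputable section

namespace Fermat.Agent.S36.H72

open ModularCurve AlgebraicCurve IntermediateField
open Fermat.Agent.S24 Fermat.Agent.S29.H87

section Abstract

/-- Tower law in a commutative square of fields. -/
theorem finrank_square {A B C D : Type*} [Field A] [Field B] [Field C] [Field D]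
    (i₀ : A →+* B) (e₂ : B →+* D) (e₀ : A →+* C) (i₁ : C →+* D)
    (h : ∀ x, e₂ (i₀ x) = i₁ (e₀ x)) :
    (letI := i₀.toAlgebra; Module.finrank A B) * (letI := e₂.toAlgebra; Module.finrank B D)
      = (letI := e₀.toAlgebra; Module.finrank A C) * (letI := i₁.toAlgebra; Module.finrank C D) := by
  letI algI₀ : Algebra A B := i₀.toAlgebra
  letI algE₂ : Algebra B D := e₂.toAlgebra
  letI algE₀ : Algebra A C := e₀.toAlgebra
  letI algI₁ : Algebra C D := i₁.toAlgebra
  letI algD : Algebra A D := (e₂.comp i₀).toAlgebra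
  haveI tw₁ : IsScalarTower A B D := IsScalarTower.of_algebraMap_eq fun x => rfl
  haveI tw₂ : IsScalarTower A C D := IsScalarTower.of_algebraMap_eq fun x => h x
  have t₁ : Module.finrank A B * Module.finrank B D = Module.finrank A D :=
    Module.finrank_mul_finrank _ _ _
  have t₂ : Module.finrank A C * Module.finrank C D = Module.finrank A D :=
    Module.finrank_mul_finrank _ _ _
  exact t₁.trans t₂.symm

end Abstract

section Finite

variable {M₂ M d : ℕ} [NeZero M₂] [NeZero M] [NeZero d]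

/-- every `Qbar`-embedding between the fields `FN` is finite. -/
theorem finiteAlong_FN {A B : ℕ} [NeZero A] [NeZero B] (φ : FN A →ₐ[Qbar] FN B) :
    FiniteAlong Qbar φ := by
  haveI := H40.finiteDimensional_FN A
  haveI := H40.finiteDimensional_FN B
  exact Fermat.Agent.S37.H8.finiteAlong_of_transcendental (K := Qbar) (jBar A) (jBar B)
    (H40.transcendental_jBar A) (H40.transcendental_jBar B) φ

theorem finite_expHom (h₂ : M₂ * d ∣ M) :
    letI := (expHom Qbar d M₂ M h₂).toRingHom.toAlgebra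
    Module.Finite (FN M₂) (FN M) :=
  finiteAlong_FN (expHom Qbar d M₂ M h₂)

end Finite

section Generation

variable {M₁ M₂ M d : ℕ} [NeZero M₁] [NeZero M₂] [NeZero M] [NeZero d]

/-- `FN M` is spanned over `exp_d (FN M₂)` by the image of `FN M₁ ⊆ FN M` (`M = d M₂`). -/
theorem span_range_inclHom_exp (h₁ : M₁ ∣ M) (h₂ : M₂ * d ∣ M) (hM : M = d * M₂) :
    letI := (expHom Qbar d M₂ M h₂).toRingHom.toAlgebra
    ⊤ ≤ Submodule.span (FN M₂) (Set.range (inclHom Qbar M₁ M h₁)) := by
  letI alg : Algebra (FN M₂) (FN M) := (expHom Qbar d M₂ M h₂).toRingHom.toAlgebra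
  haveI : Module.Finite (FN M₂) (FN M) := finite_expHom h₂
  set S : Subalgebra (FN M₂) (FN M) :=
    Algebra.adjoin (FN M₂) (Set.range (inclHom Qbar M₁ M h₁)) with hS
  have hspan : Subalgebra.toSubmodule S
      = Submodule.span (FN M₂) (Set.range (inclHom Qbar M₁ M h₁)) := by
    rw [hS, Algebra.adjoin_eq_span]
    congr 1
    have := Submonoid.closure_eq (MonoidHom.mrange
      ((inclHom Qbar M₁ M h₁ : FN M₁ →+* FN M) : FN M₁ →* FN M))
    rw [MonoidHom.coe_mrange] at this
    exact congrArg _ this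
  have hall : ∀ x : FN M, x ∈ S := by
    intro x
    have hx : x ∈ IntermediateField.adjoin Qbar ({jBar M, jd M M dvd_rfl} : Set (FN M)) := by
      rw [adjoin_jBar_jd_eq_top]
      exact IntermediateField.mem_top
    induction hx using IntermediateField.adjoin_induction with
    | mem y hy =>
      rcases hy with rfl | hy
      · rw [← inclHom_jBar h₁]
        exact Algebra.subset_adjoin ⟨_, rfl⟩
      · rw [Set.mem_singleton_iff] at hy
        rw [hy, ← expHom_jd h₂ hM]
        exact S.algebraMap_mem (jd M₂ M₂ dvd_rfl)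
    | algebraMap r =>
      have : algebraMap Qbar (FN M) r = algebraMap (FN M₂) (FN M) (algebraMap Qbar (FN M₂) r) :=
        ((expHom Qbar d M₂ M h₂).commutes r).symm
      rw [this]
      exact S.algebraMap_mem _
    | add y z _ _ hy hz => exact S.add_mem hy hz
    | inv y _ hy =>
      exact S.inv_mem_of_algebraic (x := ⟨y, hy⟩) (Algebra.IsAlgebraic.isAlgebraic y)
    | mul y z _ _ hy hz => exact S.mul_mem hy hz
  intro x _
  rw [← hspan]
  exact hall x

end Generation

section BaseChange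

variable {M₀ M₁ M₂ M d : ℕ} [NeZero M₀] [NeZero M₁] [NeZero M₂] [NeZero M] [NeZero d]

/-- The two `exp_d`-degrees in the mixed square agree (tower law + the `ψ`-formula for the
inclusions). -/
theorem finrank_expHom_eq (h₀₂ : M₀ ∣ M₂) (hb : M₀ * d ∣ M₁) (h₁ : M₁ ∣ M) (hB : M₂ * d ∣ M)
    (hpsi : dedekindPsi M * dedekindPsi M₀ = dedekindPsi M₁ * dedekindPsi M₂) :
    (letI := (expHom Qbar d M₂ M hB).toRingHom.toAlgebra; Module.finrank (FN M₂) (FN M))
      = (letI := (expHom Qbar d M₀ M₁ hb).toRingHom.toAlgebra; Module.finrank (FN M₀) (FN M₁)) := by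
  have hsq := finrank_square (inclHom Qbar M₀ M₂ h₀₂).toRingHom (expHom Qbar d M₂ M hB).toRingHom
    (expHom Qbar d M₀ M₁ hb).toRingHom (inclHom Qbar M₁ M h₁).toRingHom (fun x => Subtype.ext (by
      show ((expHom Qbar d M₂ M hB (inclHom Qbar M₀ M₂ h₀₂ x) : FN M) : LaurentSeries Qbar)
        = ((inclHom Qbar M₁ M h₁ (expHom Qbar d M₀ M₁ hb x) : FN M) : LaurentSeries Qbar)
      rw [coe_expHom, coe_inclHom, coe_inclHom, coe_expHom]))
  have e₀ := finrank_incl_mul_psi h₀₂
  have e₁ := finrank_incl_mul_psi h₁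
  have p₁ := dedekindPsi_pos' M₁
  have p₂ := dedekindPsi_pos' M₂
  revert hsq e₀ e₁
  generalize (letI := (inclHom Qbar M₀ M₂ h₀₂).toRingHom.toAlgebra;
    Module.finrank (FN M₀) (FN M₂)) = a
  generalize (letI := (expHom Qbar d M₂ M hB).toRingHom.toAlgebra;
    Module.finrank (FN M₂) (FN M)) = b
  generalize (letI := (expHom Qbar d M₀ M₁ hb).toRingHom.toAlgebra;
    Module.finrank (FN M₀) (FN M₁)) = c
  generalize (letI := (inclHom Qbar M₁ M h₁).toRingHom.toAlgebra;
    Module.finrank (FN M₁) (FN M)) = e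
  intro hsq e₀ e₁
  have hmain : b * (dedekindPsi M₂ * dedekindPsi M₁) = c * (dedekindPsi M₂ * dedekindPsi M₁) := by
    calc b * (dedekindPsi M₂ * dedekindPsi M₁)
        = (a * b) * dedekindPsi M₀ * dedekindPsi M₁ := by rw [← e₀]; ring
      _ = (c * e) * dedekindPsi M₀ * dedekindPsi M₁ := by rw [hsq]
      _ = c * (dedekindPsi M * dedekindPsi M₀) := by rw [← e₁]; ring
      _ = c * (dedekindPsi M₂ * dedekindPsi M₁) := by rw [hpsi]; ring
  exact Nat.eq_of_mul_eq_mul_right (Nat.mul_pos p₂ p₁) hmain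

/-- **Norm base change in the mixed square**: `Nm_{exp_d : F_{M₂} → F_M}(g) = Nm_{exp_d : F_{M₀} →
F_{M₁}}(g)` for `g ∈ F_{M₁} ⊆ F_M`. -/
theorem normAlong_expHom_inclHom (h₀₂ : M₀ ∣ M₂) (hb : M₀ * d ∣ M₁) (h₁ : M₁ ∣ M)
    (hB : M₂ * d ∣ M) (hM : M = d * M₂)
    (hpsi : dedekindPsi M * dedekindPsi M₀ = dedekindPsi M₁ * dedekindPsi M₂) (g : FN M₁) :
    normAlong (expHom Qbar d M₂ M hB) (inclHom Qbar M₁ M h₁ g)
      = inclHom Qbar M₀ M₂ h₀₂ (normAlong (expHom Qbar d M₀ M₁ hb) g) := by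
  have hrank := finrank_expHom_eq h₀₂ hb h₁ hB hpsi
  letI algE₂ : Algebra (FN M₂) (FN M) := (expHom Qbar d M₂ M hB).toRingHom.toAlgebra
  letI algE₀ : Algebra (FN M₀) (FN M₁) := (expHom Qbar d M₀ M₁ hb).toRingHom.toAlgebra
  haveI : Module.Finite (FN M₀) (FN M₁) := finite_expHom hb
  have hcomm : ∀ x : FN M₀, (inclHom Qbar M₁ M h₁ : FN M₁ →+* FN M) (algebraMap (FN M₀) (FN M₁) x)
      = algebraMap (FN M₂) (FN M) ((inclHom Qbar M₀ M₂ h₀₂ : FN M₀ →+* FN M₂) x) := by
    intro x
    apply Subtype.ext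
    show ((inclHom Qbar M₁ M h₁ (expHom Qbar d M₀ M₁ hb x) : FN M) : LaurentSeries Qbar)
      = ((expHom Qbar d M₂ M hB (inclHom Qbar M₀ M₂ h₀₂ x) : FN M) : LaurentSeries Qbar)
    rw [coe_inclHom, coe_expHom, coe_expHom, coe_inclHom]
  exact norm_baseChange (inclHom Qbar M₀ M₂ h₀₂ : FN M₀ →+* FN M₂)
    (inclHom Qbar M₁ M h₁ : FN M₁ →+* FN M) hcomm hrank (span_range_inclHom_exp h₁ hB hM) g

end BaseChange

end Fermat.Agent.S36.H72
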