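/-
helper72 — S36, review of (M4-K) / group (G4) of (M4-real): transfer of helper6's Kronecker inputs
(`S36/H6_MiddleKronInst`: `hpu_J3`, `hpw_J3`, `hne_J3` at the `A₁`-level chart 1 of level `q² L`)
along an injective ring homomorphism `g` out of that chart (in the application
`g := S34.H95.chartBC E _ (J3N L) J_E hJ`, injective by `S34.H95.chartBC_injective`), in the
spelling consumed by `H9.middleUnit_of_rows` / `H65.exists_rigid_pair`:

  `hne : ιu ψ ≠ ιw ψ`,
  `hpu hpw : ((kronMain q + C (C q) * Rk).map (evalAt (ιv ψ))).eval (ιu ψ resp. ιw ψ) = 0`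

with `ιu := g.comp (iU1 L q A)`, `ιv := g.comp (iV1 L q A)`, `ιw := g.comp (iW1 L q A)`,
`ψ := psiJ L q A`.
-/
import Mathlib
import Fermat.Agent.S36.H6_MiddleKronInst

set_option autoImplicit false

noncomputable section

namespace Fermat.Agent.S36.H72

open Polynomial ModularCurve
open Fermat.Agent.S18 Fermat.Agent.S34.H92 Fermat.Agent.S36.H83 Fermat.Agent.S36.H17

section Generic

variable {A A' : Type*} [CommRing A] [CommRing A']

/-- evaluation of `P(v, u)` commutes with ring homomorphisms. -/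
theorem eval_map_evalAt_hom (g : A →+* A') (P : ℤ[X][X]) (v u : A) :
    (P.map (evalAt (g v))).eval (g u) = g ((P.map (evalAt v)).eval u) := by
  rw [eval_map_evalAt, eval_map_evalAt, Polynomial.hom_eval₂, comp_evalAt]

/-- a root relation `Φ(v, u) = 0`, `Φ = kronMain q + q Rk`, transported along `g`, in the
Kronecker spelling. -/
theorem kron_root_hom (g : A →+* A') {q : ℕ} {Φ Rk : ℤ[X][X]}
    (hRk : Φ = kronMain q + C (C (q : ℤ)) * Rk) {v u : A}
    (h : (Φ.map (evalAt v)).eval u = 0) :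
    ((kronMain q + C (C (q : ℤ)) * Rk).map (evalAt (g v))).eval (g u) = 0 := by
  rw [← hRk, eval_map_evalAt_hom, h, map_zero]

end Generic

section Real

local notation "Qbar" => AlgebraicClosure ℚ

variable (L : ℕ) [NeZero L] (q : ℕ) [hq : Fact q.Prime]
  (A : ValuationSubring Qbar)

/-- **Group (G4) of (M4-real)** along any injective ring homomorphism `g` out of the `A₁`-level
chart 1 of level `q² L`: `hne`, `hpu`, `hpw` for `ιu ιv ιw := g ∘ iU1, g ∘ iV1, g ∘ iW1` and
`ψ := j`. -/
theorem middleKron_of_injective {B : Type*} [CommRing B]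
    (g : ↥(H40.chartB (H45.A0 A q) (J3N L (q := q))) →+* B) (hg : Function.Injective g)
    (D : ModularPolynomialData q)
    (hD : ∀ (k : Type) [Field k] (ζ : kˣ), IsPrimitiveRoot ζ q → Fermat.Agent.S28.RootsAt k q ζ D.Φ)
    (Rk : ℤ[X][X]) (hRk : D.Φ = kronMain q + C (C (q : ℤ)) * Rk) :
    (g.comp (H6.iU1 L q A)) (H6.psiJ L q A) ≠ (g.comp (H6.iW1 L q A)) (H6.psiJ L q A) ∧
    ((kronMain q + C (C (q : ℤ)) * Rk).map
        (evalAt ((g.comp (H6.iV1 L q A)) (H6.psiJ L q A)))).eval
      ((g.comp (H6.iU1 L q A)) (H6.psiJ L q A)) = 0 ∧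
    ((kronMain q + C (C (q : ℤ)) * Rk).map
        (evalAt ((g.comp (H6.iV1 L q A)) (H6.psiJ L q A)))).eval
      ((g.comp (H6.iW1 L q A)) (H6.psiJ L q A)) = 0 := by
  refine ⟨fun h => H6.hne_J3 L q A (hg h), ?_, ?_⟩
  · exact kron_root_hom g hRk (H6.hpu_J3 L q A D hD)
  · exact kron_root_hom g hRk (H6.hpw_J3 L q A D)

end Real

end Fermat.Agent.S36.H72
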