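import Mathlib
import Fermat.Agent.S36.H17_OmegaInst
import Fermat.Agent.S36.H17_RegQSeries
import Fermat.Agent.S35.H70_TwoComponentsBCPkg

/-!
S36 / (M4-real), group (G2) (helper76): the level-`q L` block of `H9.middleUnit_of_rows`
(`ψ hW hY Rk U hrel hid Om hUOm hq0'`) AT THE E-LEVEL chart 1
`B'' = chartB (cutOver A E) (JK ↥E (ℓ * M) ℓ _)` of `S35.H70.exists_twoComponentsE_JK`, whose
degeneracy maps are `ι'' = chartBC_JK ∘ ι`, `V'' = chartBC_JK ∘ V` with `ι V` the `A₁`-level maps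
of `S35.H55.exists_l0Pkg` (chart 1), and whose `rbar`, `W` are those of the `A₁`-level package.

Everything is the push-forward along the ring hom `chartBC_JK` of helper17's `A₁`-level data
`H17.exists_chart_data_JK`; `hW`, `hY` only involve `rbar`, `W`, `ψ₀` and are
`H17.hW_psi0`, `H17.hY_psi0` verbatim.
-/

set_option autoImplicit false
set_option linter.unusedSectionVars false
set_option linter.style.haveILetI false
set_option synthInstance.maxHeartbeats 400000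
set_option maxHeartbeats 3200000

noncomputable section

namespace Fermat.Agent.S36.H76

open ModularCurve Polynomial IsLocalRing Fermat.Agent.S28
open Fermat.Agent.S18 Fermat.Agent.S34 Fermat.Agent.S34.H55

local notation "Qbar" => AlgebraicClosure ℚ

/-! ### generic push-forward of helper17's block along a ring hom -/

section Generic

variable {B B'' BM : Type*} [CommRing B] [CommRing B''] [CommRing BM]

/-- The level-`q L` block `(U, Ω, hrel, hid, hUOm)` of `H17_RegQTC` / `H17_OmegaTC` /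
`H9.middleUnit_of_rows` is transported by any ring hom `g : B → B''`, with
`ι'' = g ∘ ι`, `V'' = g ∘ V`. -/
theorem map_chart_block (g : B →+* B'') (ι V : BM →+* B) (ψ : BM) (q : ℕ) (Rk : ℤ[X][X])
    (U Om : B)
    (hrel : (V ψ - ι ψ ^ q) * (V ψ ^ q - ι ψ) +
      (q : B) * Rk.eval₂ (H17.evalAt (ι ψ)) (V ψ) = 0)
    (hid : H17.phiXVal Rk q (H17.evalAt (ι ψ)) (V ψ) ^ 6 * (V ψ ^ 4 * (V ψ - 1728) ^ 3) * U =
      (q : B) ^ 6 * (H17.phiYVal Rk q (H17.evalAt (ι ψ)) (V ψ) ^ 6 *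
        (ι ψ ^ 4 * (ι ψ - 1728) ^ 3)))
    (hUOm : U * Om = (q : B) ^ 12) :
    ((g.comp V) ψ - (g.comp ι) ψ ^ q) * ((g.comp V) ψ ^ q - (g.comp ι) ψ) +
        (q : B'') * Rk.eval₂ (H17.evalAt ((g.comp ι) ψ)) ((g.comp V) ψ) = 0 ∧
      H17.phiXVal Rk q (H17.evalAt ((g.comp ι) ψ)) ((g.comp V) ψ) ^ 6 *
          ((g.comp V) ψ ^ 4 * ((g.comp V) ψ - 1728) ^ 3) * g U =
        (q : B'') ^ 6 * (H17.phiYVal Rk q (H17.evalAt ((g.comp ι) ψ)) ((g.comp V) ψ) ^ 6 *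
          ((g.comp ι) ψ ^ 4 * ((g.comp ι) ψ - 1728) ^ 3)) ∧
      g U * g Om = (q : B'') ^ 12 := by
  refine ⟨H17.map_rel g q Rk (ι ψ) (V ψ) hrel, H17.map_id g q Rk (ι ψ) (V ψ) U hid, ?_⟩
  rw [← map_mul, hUOm, map_pow, map_natCast]

end Generic

/-! ### the E-level chart 1 of level `ℓ M` -/

section ELevel

variable (M : ℕ) [NeZero M] {ℓ : ℕ} [hℓ : Fact ℓ.Prime] (hℓM : ¬ ℓ ∣ M)
  (A : ValuationSubring Qbar) (hA : A.LiesOverPrime ℓ)
  (E : IntermediateField (H45.unrCyclo ℓ) Qbar)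

local notation "kA" => IsLocalRing.ResidueField A
local notation "A₁" => H45.A0 A ℓ
local notation "L₁" => H45.unrCyclo ℓ

/-- the E-level function field of level `ℓ M`. -/
abbrev FNE : Type := ↥(modularFunctionFieldFullC ↥E (ℓ * M))

/-- the E-level chart 1 of level `ℓ M`. -/
abbrev BE : Type :=
  ↥(H40.chartB ↥(H45.cutOver A E) (H95.JK ↥E (ℓ * M) ℓ (Dvd.intro M rfl)))

/-- the base change `chartB A₁ (JN M) → chartB (cutOver A E) (JK ↥E (ℓ * M) ℓ _)`. -/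
abbrev gE : ↥(H40.chartB A₁ (JN M (ℓ := ℓ))) →+* BE M A E :=
  H95.chartBC_JK (A := A) E (ℓ * M) ℓ (Dvd.intro M rfl)

/-- `ι'' = chartBC_JK ∘ ι` (the first degeneracy map of `S35.H70.exists_twoComponentsE_JK`). -/
abbrev iotaE : ↥(H40.chartB A₁ (S18.H16.jK L₁ M)) →+* BE M A E :=
  (gE M A E).comp (chartMap (iotaMN M (ℓ := ℓ)) (iotaMN_algebraMap M A) (hιint1 M A))

/-- `V'' = chartBC_JK ∘ V`. -/
abbrev VE : ↥(H40.chartB A₁ (S18.H16.jK L₁ M)) →+* BE M A E :=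
  (gE M A E).comp (chartMap (VMN M (ℓ := ℓ)) (VMN_algebraMap M A) (hVint1 M A))

/-- `ℓ ≠ 0` in the E-level chart. -/
theorem natCast_chartE_ne_zero : ((ℓ : ℕ) : BE M A E) ≠ 0 := by
  intro h0
  have h1 : (((ℓ : ℕ) : BE M A E) : FNE M E) = 0 := by rw [h0]; rfl
  push_cast at h1
  have h2 : ((ℓ : ℕ) : ↥E) ≠ 0 := Nat.cast_ne_zero.2 hℓ.out.ne_zero
  apply h2
  have h3 : algebraMap ↥E (FNE M E) ((ℓ : ℕ) : ↥E) = 0 := by rw [map_natCast]; exact h1
  exact (map_eq_zero _).mp h3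

/-- **(G2)**: the level-`ℓ M` block of `H9.middleUnit_of_rows` at the E-level chart 1:
`U'' = chartBC_JK U`, `Ω'' = chartBC_JK Ω` with `hrel`, `hid` for `ι'' ψ₀`, `V'' ψ₀` and
`U'' Ω'' = ℓ^12`. -/
theorem exists_chart_data_E (D : ModularPolynomialData ℓ) (Rk : ℤ[X][X])
    (hRk : D.Φ = H17.kronMain ℓ + C (C (ℓ : ℤ)) * Rk) :
    ∃ U Om : BE M A E,
      (VE M A E (H17.psi0 M A) - iotaE M A E (H17.psi0 M A) ^ ℓ) *
          (VE M A E (H17.psi0 M A) ^ ℓ - iotaE M A E (H17.psi0 M A)) +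
        ((ℓ : ℕ) : BE M A E) *
          Rk.eval₂ (H17.evalAt (iotaE M A E (H17.psi0 M A))) (VE M A E (H17.psi0 M A)) = 0 ∧
      H17.phiXVal Rk ℓ (H17.evalAt (iotaE M A E (H17.psi0 M A))) (VE M A E (H17.psi0 M A)) ^ 6 *
          (VE M A E (H17.psi0 M A) ^ 4 * (VE M A E (H17.psi0 M A) - 1728) ^ 3) * U =
        ((ℓ : ℕ) : BE M A E) ^ 6 *
          (H17.phiYVal Rk ℓ (H17.evalAt (iotaE M A E (H17.psi0 M A)))
              (VE M A E (H17.psi0 M A)) ^ 6 *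
            (iotaE M A E (H17.psi0 M A) ^ 4 * (iotaE M A E (H17.psi0 M A) - 1728) ^ 3)) ∧
      U * Om = ((ℓ : ℕ) : BE M A E) ^ 12 ∧
      ∃ U₀ Om₀ : ↥(H40.chartB A₁ (JN M (ℓ := ℓ))), U = gE M A E U₀ ∧ Om = gE M A E Om₀ ∧
        U₀ * Om₀ = ((ℓ : ℕ) : ↥(H40.chartB A₁ (JN M (ℓ := ℓ)))) ^ 12 := by
  obtain ⟨U₀, Om₀, -, -, hrel, hid, hUOm⟩ := H17.exists_chart_data_JK M A D Rk hRk
  obtain ⟨h1, h2, h3⟩ := map_chart_block (gE M A E)
    (chartMap (iotaMN M (ℓ := ℓ)) (iotaMN_algebraMap M A) (hιint1 M A))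
    (chartMap (VMN M (ℓ := ℓ)) (VMN_algebraMap M A) (hVint1 M A))
    (H17.psi0 M A) ℓ Rk U₀ Om₀ hrel hid hUOm
  exact ⟨gE M A E U₀, gE M A E Om₀, h1, h2, h3, U₀, Om₀, rfl, rfl, hUOm⟩

end ELevel

end Fermat.Agent.S36.H76
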