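import Mathlib
import Fermat.Agent.S36.H76_MiddleLevelQ

/-!
S36 / (M4-real), group (G2) in the (S2)-GENERIC chart spelling of Ruling 8 (helper76):
the level-`q L` block of `H9.middleUnit_of_rows` on `chartB (cutOver A E) J_E` for ANY coordinate
`J_E` with `hJ : baseChangeE E (ℓ * M) (JN M) = J_E`, the degeneracy maps being
`ι'' = chartBC E _ (JN M) J_E hJ ∘ ι`, `V'' = chartBC E _ (JN M) J_E hJ ∘ V`.
`hJ := rfl` is the (S1) spelling, `hJ := H95.baseChangeE_JK ..` the literal `JK` chart.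
-/

set_option autoImplicit false
set_option linter.unusedSectionVars false
set_option linter.style.haveILetI false
set_option synthInstance.maxHeartbeats 400000
set_option maxHeartbeats 3200000

noncomputable section

namespace Fermat.Agent.S36.H76

open ModularCurve Polynomial IsLocalRing Fermat.Agent.S28
open Fermat.Agent.S18 Fermat.Agent.S34 Fermat.Agent.S34.H55

local notation "Qbar" => AlgebraicClosure ℚ

section S2

variable (M : ℕ) [NeZero M] {ℓ : ℕ} [hℓ : Fact ℓ.Prime]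
  (A : ValuationSubring Qbar)
  (E : IntermediateField (H45.unrCyclo ℓ) Qbar)
  (J_E : modularFunctionFieldFullC ↥E (ℓ * M))
  (hJ : H45.baseChangeE E (ℓ * M) (JN M (ℓ := ℓ)) = J_E)

local notation "A₁" => H45.A0 A ℓ
local notation "L₁" => H45.unrCyclo ℓ

/-- `ℓ ≠ 0` in any E-level chart. -/
theorem natCast_chartS2_ne_zero :
    ((ℓ : ℕ) : ↥(H40.chartB ↥(H45.cutOver A E) J_E)) ≠ 0 := by
  intro h0
  have h1 : (((ℓ : ℕ) : ↥(H40.chartB ↥(H45.cutOver A E) J_E)) : FNE M E) = 0 := by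
    rw [h0]; rfl
  push_cast at h1
  have h2 : ((ℓ : ℕ) : ↥E) ≠ 0 := Nat.cast_ne_zero.2 hℓ.out.ne_zero
  apply h2
  have h3 : algebraMap ↥E (FNE M E) ((ℓ : ℕ) : ↥E) = 0 := by rw [map_natCast]; exact h1
  exact (map_eq_zero _).mp h3

/-- **(G2), (S2)-generic form**: the block on `chartB (cutOver A E) J_E` for the maps
`ι'' = g ∘ ι`, `V'' = g ∘ V`, `g := H95.chartBC E (ℓ * M) (JN M) J_E hJ`, stated through an
abstract name `g` for the base change (so that nothing is elaborated at the concrete chart type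
more than once). -/
theorem exists_chart_data_S2 (D : ModularPolynomialData ℓ) (Rk : ℤ[X][X])
    (hRk : D.Φ = H17.kronMain ℓ + C (C (ℓ : ℤ)) * Rk)
    {B'' : Type*} [CommRing B''] (g : ↥(H40.chartB A₁ (JN M (ℓ := ℓ))) →+* B'') :
    ∃ U₀ Om₀ : ↥(H40.chartB A₁ (JN M (ℓ := ℓ))),
      U₀ * Om₀ = ((ℓ : ℕ) : ↥(H40.chartB A₁ (JN M (ℓ := ℓ)))) ^ 12 ∧
      ((g.comp (chartMap (VMN M (ℓ := ℓ)) (VMN_algebraMap M A) (hVint1 M A))) (H17.psi0 M A) -
          (g.comp (chartMap (iotaMN M (ℓ := ℓ)) (iotaMN_algebraMap M A) (hιint1 M A)))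
            (H17.psi0 M A) ^ ℓ) *
          ((g.comp (chartMap (VMN M (ℓ := ℓ)) (VMN_algebraMap M A) (hVint1 M A)))
              (H17.psi0 M A) ^ ℓ -
            (g.comp (chartMap (iotaMN M (ℓ := ℓ)) (iotaMN_algebraMap M A) (hιint1 M A)))
              (H17.psi0 M A)) +
        ((ℓ : ℕ) : B'') *
          Rk.eval₂ (H17.evalAt ((g.comp (chartMap (iotaMN M (ℓ := ℓ)) (iotaMN_algebraMap M A)
            (hιint1 M A))) (H17.psi0 M A)))
            ((g.comp (chartMap (VMN M (ℓ := ℓ)) (VMN_algebraMap M A) (hVint1 M A)))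
              (H17.psi0 M A)) = 0 ∧
      H17.phiXVal Rk ℓ (H17.evalAt ((g.comp (chartMap (iotaMN M (ℓ := ℓ)) (iotaMN_algebraMap M A)
            (hιint1 M A))) (H17.psi0 M A)))
          ((g.comp (chartMap (VMN M (ℓ := ℓ)) (VMN_algebraMap M A) (hVint1 M A)))
            (H17.psi0 M A)) ^ 6 *
          ((g.comp (chartMap (VMN M (ℓ := ℓ)) (VMN_algebraMap M A) (hVint1 M A)))
              (H17.psi0 M A) ^ 4 *
            ((g.comp (chartMap (VMN M (ℓ := ℓ)) (VMN_algebraMap M A) (hVint1 M A)))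
              (H17.psi0 M A) - 1728) ^ 3) * g U₀ =
        ((ℓ : ℕ) : B'') ^ 6 *
          (H17.phiYVal Rk ℓ (H17.evalAt ((g.comp (chartMap (iotaMN M (ℓ := ℓ))
              (iotaMN_algebraMap M A) (hιint1 M A))) (H17.psi0 M A)))
            ((g.comp (chartMap (VMN M (ℓ := ℓ)) (VMN_algebraMap M A) (hVint1 M A)))
              (H17.psi0 M A)) ^ 6 *
            ((g.comp (chartMap (iotaMN M (ℓ := ℓ)) (iotaMN_algebraMap M A) (hιint1 M A)))
                (H17.psi0 M A) ^ 4 *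
              ((g.comp (chartMap (iotaMN M (ℓ := ℓ)) (iotaMN_algebraMap M A) (hιint1 M A)))
                (H17.psi0 M A) - 1728) ^ 3)) ∧
      g U₀ * g Om₀ = ((ℓ : ℕ) : B'') ^ 12 := by
  obtain ⟨U₀, Om₀, -, -, hrel, hid, hUOm⟩ := H17.exists_chart_data_JK M A D Rk hRk
  obtain ⟨h1, h2, h3⟩ := map_chart_block g
    (chartMap (iotaMN M (ℓ := ℓ)) (iotaMN_algebraMap M A) (hιint1 M A))
    (chartMap (VMN M (ℓ := ℓ)) (VMN_algebraMap M A) (hVint1 M A))
    (H17.psi0 M A) ℓ Rk U₀ Om₀ hrel hid hUOm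
  exact ⟨U₀, Om₀, hUOm, h1, h2, h3⟩

end S2

end Fermat.Agent.S36.H76
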