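/-
helper83: S36, row (E7), **the CHART-2 block of the top** (helper18 #3712 (3)), (S1) spelling.

Binders = helper18's rule: `L hqL A hA E0 hunr` + the `A₁`-level pieces `ρ₁ ρ₂ ρ₃ hr₁ hr₂ hr₃` and the
`A₁`-level `ThreeComponents` conjunct `h3` of `S36.H70.threeComponentsS1_J3K_inv` (VERBATIM); no
`A₁`-level data is hidden in an existential.  Conclusion = the conjunction of the binders
`hD₂ hr1 hr2 hr3 hW2' hW4' hcusp hM4r2` of `S36.H18.geoFn36E_of_rows` at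
`J' := baseChangeE E0 N (J3N L)⁻¹` (`N = q (q L)`), `ρ_i := S35.H70.redE .. (J3N L)⁻¹ (q : R) hunr
(S36.H70.genBy_J3N_inv L A hA E0 hunr) ρ_i hr_i`, `P₂ := ![ker ρ₁E, ker ρ₂E, ker ρ₃E]`.
(`h₂` itself = the last conjunct of `threeComponentsS1_J3K_inv`; `[IsDedekindDomain D₂]` =
`S36.H35BR.isDedekindDomain_D2 L hqL A hA`.)
-/
import Mathlib
import Fermat.Agent.S36.H85_CuspTransferJ3
import Fermat.Agent.S36.H89_MidCuspInstE
import Fermat.Agent.S36.H35_BranchRings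
import Fermat.Agent.S36.H70_HW4Inst
import Fermat.Agent.S36.H70_Hq2Inst

set_option autoImplicit false
set_option linter.unusedSectionVars false
set_option linter.style.haveILetI false
set_option synthInstance.maxHeartbeats 400000
set_option maxHeartbeats 3200000

noncomputable section

namespace Fermat.Agent.S36.H83

open ModularCurve Polynomial IsLocalRing Fermat.Agent.S28
open Fermat.Agent.S18 Fermat.Agent.S34 Fermat.Agent.S34.H55 Fermat.Agent.S34.H16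

local notation "Qbar" => AlgebraicClosure ℚ

section Chart2

variable (L : ℕ) [NeZero L] {q : ℕ} [hq : Fact q.Prime] (hqL : ¬ q ∣ L)
  (A : ValuationSubring Qbar) (hA : A.LiesOverPrime q)
  (E : IntermediateField (H45.unrCyclo q) Qbar) [FiniteDimensional (H45.unrCyclo q) E]

set_option quotPrecheck false
local notation "kA" => IsLocalRing.ResidueField A
local notation "A₁" => H45.A0 A q
local notation "L₁" => H45.unrCyclo q
local notation "F2" => modularFunctionFieldFullC (H45.unrCyclo q) (q * (q * L))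
local notation "FE2" => modularFunctionFieldFullC ↥E (q * (q * L))
local notation "FkL" => modularFunctionFieldFullC (IsLocalRing.ResidueField A) L
local notation "RE" => ↥(H45.cutOver A E)
local notation "πE" => (((q : ℕ) : ↥(H45.cutOver A E)))
local notation "D₂" => ↥(integralClosure (Algebra.adjoin kA {(S18.H16.jK kA L)⁻¹}) FkL)
local notation "J'E" => H45.baseChangeE E (q * (q * L)) (J3N L (q := q))⁻¹
local notation "W₂" => WR (FrM L A hA) q (hFrx_inv L A hA)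

local instance (priority := 10000) shortcutAlgE83 (N : ℕ) [NeZero N] :
    Algebra ↥E ↥(modularFunctionFieldFullC ↥E N) :=
  SubalgebraClass.toAlgebra (modularFunctionFieldFullC ↥E N)
local instance (priority := 10000) shortcutAlg83 (N : ℕ) [NeZero N] :
    Algebra ↥(H45.cutOver A E) ↥(modularFunctionFieldFullC ↥E N) :=
  Algebra.ofSubsemiring (H45.cutOver A E)

include hA in
/-- The (S1) reductions restrict to the `A₁`-level ones along `chartBC .. rfl`. -/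
theorem redE_chartBC_rfl
    (hunr : maximalIdeal RE = Ideal.span {πE})
    {R₀ : Type*} [CommRing R₀]
    (ρ : ↥(H40.chartB A₁ (J3N L (q := q))⁻¹) →+* R₀)
    (hr : ρ (algebraMap A₁ ↥(H40.chartB A₁ (J3N L (q := q))⁻¹) ((q : ℕ) : A₁)) = 0)
    (b : ↥(H40.chartB A₁ (J3N L (q := q))⁻¹)) :
    S35.H70.redE hq.out hA E (q * (q * L)) (J3N L (q := q))⁻¹ πE hunr
        (S36.H70.genBy_J3N_inv L A hA E hunr) ρ hr
      (S34.H95.chartBC (A := A) E (q * (q * L)) (J3N L (q := q))⁻¹ J'E rfl b) = ρ b := by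
  rw [S35.H70.chartBC_eq_chartMapE]
  exact S35.H70.redE_chartMapE hq.out hA E (q * (q * L)) (J3N L (q := q))⁻¹ πE hunr
    (S36.H70.genBy_J3N_inv L A hA E hunr) ρ hr b

include hqL hA in
/-- **`hcusp` of `H18.geoFn36E_of_rows` in the (S1) spelling**, `P₂ := ![ker ρ₁E, ker ρ₂E, ker ρ₃E]`. -/
theorem hcusp_S1
    (hunr : maximalIdeal RE = Ideal.span {πE})
    {ρ₁ ρ₂ ρ₃ : ↥(H40.chartB A₁ (J3N L (q := q))⁻¹) →+* D₂}
    (hr₁ : ρ₁ (algebraMap A₁ ↥(H40.chartB A₁ (J3N L (q := q))⁻¹) ((q : ℕ) : A₁)) = 0)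
    (hr₂ : ρ₂ (algebraMap A₁ ↥(H40.chartB A₁ (J3N L (q := q))⁻¹) ((q : ℕ) : A₁)) = 0)
    (hr₃ : ρ₃ (algebraMap A₁ ↥(H40.chartB A₁ (J3N L (q := q))⁻¹) ((q : ℕ) : A₁)) = 0)
    (h3 : ThreeComponents ρ₁ ρ₂ ρ₃
        (chartMap (eU L (q := q)) (eU_algebraMap L A) (huint2 L A))
        (chartMap (eV L (q := q)) (eV_algebraMap L A) (hvint2 L A))
        (chartMap (eW L (q := q)) (eW_algebraMap L A) (hwint2 L A))
        (rbarB (Mod L hqL A hA) (hc2 L hqL A hA) (hcw2 L hqL A hA))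
        W₂ q (algebraMap A₁ ↥(H40.chartB A₁ (J3N L (q := q))⁻¹) ((q : ℕ) : A₁))) :
    ∀ n₂ : S34.H21.ClosedPt (H40.chartB (H45.cutOver A E) J'E) πE,
      (⟨J'E, H40.self_mem_chartB J'E⟩ : ↥(H40.chartB (H45.cutOver A E) J'E)) ∈ n₂.1 →
      ∃ i₀ : Fin 3, ∀ i,
        (![RingHom.ker (S35.H70.redE hq.out hA E (q * (q * L)) (J3N L (q := q))⁻¹ πE hunr
            (S36.H70.genBy_J3N_inv L A hA E hunr) ρ₁ hr₁),
          RingHom.ker (S35.H70.redE hq.out hA E (q * (q * L)) (J3N L (q := q))⁻¹ πE hunr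
            (S36.H70.genBy_J3N_inv L A hA E hunr) ρ₂ hr₂),
          RingHom.ker (S35.H70.redE hq.out hA E (q * (q * L)) (J3N L (q := q))⁻¹ πE hunr
            (S36.H70.genBy_J3N_inv L A hA E hunr) ρ₃ hr₃)] :
          Fin 3 → Ideal ↥(H40.chartB (H45.cutOver A E) J'E)) i ≤ n₂.1 → i = i₀ :=
  S36.H85.hcusp_J3_inv L hqL A hA E J'E rfl hunr h3 _ _ _
    (redE_chartBC_rfl L A hA E hunr ρ₁ hr₁) (redE_chartBC_rfl L A hA E hunr ρ₂ hr₂)
    (redE_chartBC_rfl L A hA E hunr ρ₃ hr₃) _ rfl rfl rfl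
    (S36.H89I.hresB_S2 L A hA E hunr J'E rfl)

include hqL hA in
/-- **The CHART-2 block of the top, (S1) spelling.** -/
theorem chart2_block_S1
    (hunr : maximalIdeal RE = Ideal.span {πE})
    {ρ₁ ρ₂ ρ₃ : ↥(H40.chartB A₁ (J3N L (q := q))⁻¹) →+* D₂}
    (hr₁ : ρ₁ (algebraMap A₁ ↥(H40.chartB A₁ (J3N L (q := q))⁻¹) ((q : ℕ) : A₁)) = 0)
    (hr₂ : ρ₂ (algebraMap A₁ ↥(H40.chartB A₁ (J3N L (q := q))⁻¹) ((q : ℕ) : A₁)) = 0)
    (hr₃ : ρ₃ (algebraMap A₁ ↥(H40.chartB A₁ (J3N L (q := q))⁻¹) ((q : ℕ) : A₁)) = 0)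
    (h3 : ThreeComponents ρ₁ ρ₂ ρ₃
        (chartMap (eU L (q := q)) (eU_algebraMap L A) (huint2 L A))
        (chartMap (eV L (q := q)) (eV_algebraMap L A) (hvint2 L A))
        (chartMap (eW L (q := q)) (eW_algebraMap L A) (hwint2 L A))
        (rbarB (Mod L hqL A hA) (hc2 L hqL A hA) (hcw2 L hqL A hA))
        W₂ q (algebraMap A₁ ↥(H40.chartB A₁ (J3N L (q := q))⁻¹) ((q : ℕ) : A₁))) :
    -- hD₂
    (¬ IsField D₂) ∧
    -- hr1 hr2 hr3
    (S35.H70.redE hq.out hA E (q * (q * L)) (J3N L (q := q))⁻¹ πE hunr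
        (S36.H70.genBy_J3N_inv L A hA E hunr) ρ₁ hr₁
      (algebraMap RE ↥(H40.chartB (H45.cutOver A E) J'E) πE) = 0) ∧
    (S35.H70.redE hq.out hA E (q * (q * L)) (J3N L (q := q))⁻¹ πE hunr
        (S36.H70.genBy_J3N_inv L A hA E hunr) ρ₂ hr₂
      (algebraMap RE ↥(H40.chartB (H45.cutOver A E) J'E) πE) = 0) ∧
    (S35.H70.redE hq.out hA E (q * (q * L)) (J3N L (q := q))⁻¹ πE hunr
        (S36.H70.genBy_J3N_inv L A hA E hunr) ρ₃ hr₃
      (algebraMap RE ↥(H40.chartB (H45.cutOver A E) J'E) πE) = 0) ∧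
    -- hW2' hW4'
    (∃ d : D₂, W₂ (W₂ d) ≠ d) ∧ (∃ d : D₂, W₂ (W₂ (W₂ (W₂ d))) ≠ d) ∧
    -- hcusp
    (∀ n₂ : S34.H21.ClosedPt (H40.chartB (H45.cutOver A E) J'E) πE,
      (⟨J'E, H40.self_mem_chartB J'E⟩ : ↥(H40.chartB (H45.cutOver A E) J'E)) ∈ n₂.1 →
      ∃ i₀ : Fin 3, ∀ i,
        (![RingHom.ker (S35.H70.redE hq.out hA E (q * (q * L)) (J3N L (q := q))⁻¹ πE hunr
            (S36.H70.genBy_J3N_inv L A hA E hunr) ρ₁ hr₁),
          RingHom.ker (S35.H70.redE hq.out hA E (q * (q * L)) (J3N L (q := q))⁻¹ πE hunr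
            (S36.H70.genBy_J3N_inv L A hA E hunr) ρ₂ hr₂),
          RingHom.ker (S35.H70.redE hq.out hA E (q * (q * L)) (J3N L (q := q))⁻¹ πE hunr
            (S36.H70.genBy_J3N_inv L A hA E hunr) ρ₃ hr₃)] :
          Fin 3 → Ideal ↥(H40.chartB (H45.cutOver A E) J'E)) i ≤ n₂.1 → i = i₀) ∧
    -- hM4r2
    (∀ n₂ : S34.H21.ClosedPt (H40.chartB (H45.cutOver A E) J'E) πE,
      (⟨J'E, H40.self_mem_chartB J'E⟩ : ↥(H40.chartB (H45.cutOver A E) J'E)) ∈ n₂.1 →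
      RingHom.ker (S35.H70.redE hq.out hA E (q * (q * L)) (J3N L (q := q))⁻¹ πE hunr
        (S36.H70.genBy_J3N_inv L A hA E hunr) ρ₂ hr₂) ≤ n₂.1 →
      ∃ θ : ↥(H40.chartB (H45.cutOver A E) J'E),
        S35.H70.redE hq.out hA E (q * (q * L)) (J3N L (q := q))⁻¹ πE hunr
          (S36.H70.genBy_J3N_inv L A hA E hunr) ρ₂ hr₂ θ = 0 ∧ θ ≠ 0 ∧
        ∃ e t : ↥(H40.chartB (H45.cutOver A E) J'E), e ∉ n₂.1 ∧ t ∉ n₂.1 ∧
          t * θ ^ (q - 1) = e * algebraMap RE ↥(H40.chartB (H45.cutOver A E) J'E) πE) :=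
  ⟨S36.H35BR.not_isField_D2 L A,
    S35.H70.redE_pi hq.out hA E (q * (q * L)) (J3N L (q := q))⁻¹ πE hunr
      (S36.H70.genBy_J3N_inv L A hA E hunr) ρ₁ hr₁,
    S35.H70.redE_pi hq.out hA E (q * (q * L)) (J3N L (q := q))⁻¹ πE hunr
      (S36.H70.genBy_J3N_inv L A hA E hunr) ρ₂ hr₂,
    S35.H70.redE_pi hq.out hA E (q * (q * L)) (J3N L (q := q))⁻¹ πE hunr
      (S36.H70.genBy_J3N_inv L A hA E hunr) ρ₃ hr₃,
    S36.H70.hW2_J3K_inv L A hA, S36.H70.hW4_J3K_inv L A hA,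
    hcusp_S1 L hqL A hA E hunr hr₁ hr₂ hr₃ h3,
    S36.H89I.hM4r2_S1 L hqL A hA E hunr (S36.H70.genBy_J3N_inv L A hA E hunr) h3 hr₂⟩

end Chart2

end Fermat.Agent.S36.H83
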