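/-
helper83: S36, row (E2), vertical block: **the special fibre of the two-chart normal model is
connected, WITHOUT reducedness** (twin of `S34.H83.colouring_const` / `hconn_of_no_split` with the
hypothesis `hred` replaced by `hmult`: every vertical prime has multiplicity at most `N`).

The idempotents modulo the radical of `π` produced by the colouring are lifted to idempotents
modulo `π` by iterating the cubic `x ↦ 3 x² - 2 x³`; on the overlap two idempotents modulo `π`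
which are congruent modulo the radical are congruent modulo `π` (`d³ ≡ d`).  Then
`S34.H83.no_split_special_fibre'` (which has no reducedness hypothesis) applies.

* `hconn_of_no_split_mult` : verbatim the hypothesis `hconn` of
  `S36.H67.kummer_descent_pow_rad`, from its own hypotheses `hmult₁ hmult₂ hsat₁ hsat₂ hsat₁₂
  hcomp₁ hcomp₂` (and `hcl`).
-/
import Mathlib
import Fermat.Agent.S34.H83_Connected

set_option autoImplicit false

namespace Fermat.Agent.S36.H83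

open Polynomial IntermediateField
open Fermat.Agent.S18 Fermat.Agent.S34

/-! ### Lifting idempotents along the cubic `3 x² - 2 x³` -/

section Lift

variable {B : Type*} [CommRing B]

/-- the cubic `3 x² - 2 x³`. -/
def cubicLift (x : B) : B := 3 * x ^ 2 - 2 * x ^ 3

theorem cubicLift_sub (x : B) : cubicLift x - x = -(2 * x - 1) * (x * (x - 1)) := by
  unfold cubicLift; ring

theorem cubicLift_mul (x : B) :
    cubicLift x * (cubicLift x - 1) = -((3 - 2 * x) * (2 * x + 1)) * (x * (x - 1)) ^ 2 := by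
  unfold cubicLift; ring

/-- after `k` iterations: `e_k ≡ e` modulo `t = e (e - 1)` and `e_k (e_k - 1) ∈ (t ^ (2 ^ k))`. -/
theorem iterate_cubicLift (e : B) (k : ℕ) :
    ∃ a b : B, cubicLift^[k] e - e = a * (e * (e - 1)) ∧
      cubicLift^[k] e * (cubicLift^[k] e - 1) = b * (e * (e - 1)) ^ (2 ^ k) := by
  induction k with
  | zero => exact ⟨0, 1, by simp, by simp⟩
  | succ k ih =>
    obtain ⟨a, b, h1, h2⟩ := ih
    rw [Function.iterate_succ_apply']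
    set x := cubicLift^[k] e with hx
    set t := e * (e - 1) with ht
    have hpos : 2 ^ k = (2 ^ k - 1) + 1 := by
      have : 1 ≤ 2 ^ k := Nat.one_le_two_pow
      omega
    refine ⟨-(2 * x - 1) * b * t ^ (2 ^ k - 1) + a, -((3 - 2 * x) * (2 * x + 1)) * b ^ 2, ?_, ?_⟩
    · have e1 : cubicLift x - e = (cubicLift x - x) + (x - e) := by ring
      rw [e1, cubicLift_sub, h2, h1]
      have e2 : t ^ (2 ^ k) = t ^ (2 ^ k - 1) * t := by rw [← pow_succ, ← hpos]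
      rw [e2]
      ring
    · rw [cubicLift_mul, h2, pow_succ 2 k, pow_mul]
      ring

/-- **Lifting**: if `π ∣ (e (e - 1)) ^ N` there is `e' ≡ e` modulo `e (e - 1)` with
`π ∣ e' (e' - 1)`. -/
theorem exists_idem_lift (π e : B) (N : ℕ) (h : π ∣ (e * (e - 1)) ^ N) :
    ∃ e' a : B, e' - e = a * (e * (e - 1)) ∧ π ∣ e' * (e' - 1) := by
  obtain ⟨a, b, h1, h2⟩ := iterate_cubicLift e N
  refine ⟨cubicLift^[N] e, a, h1, ?_⟩
  rw [h2]
  have hle : N ≤ 2 ^ N := Nat.lt_two_pow_self.le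
  exact Dvd.dvd.mul_left (h.trans (pow_dvd_pow _ hle)) b

/-- two idempotents modulo `π`: `d = e - f` satisfies `d ^ 3 ≡ d`. -/
theorem cube_sub_dvd (π e f : B) (he : π ∣ e * (e - 1)) (hf : π ∣ f * (f - 1)) :
    π ∣ (e - f) ^ 3 - (e - f) := by
  obtain ⟨a, ha⟩ := he
  obtain ⟨b, hb⟩ := hf
  refine ⟨(1 + e - 3 * f) * a + (3 * e - 1 - f) * b, ?_⟩
  linear_combination (1 + e - 3 * f) * ha + (3 * e - 1 - f) * hb

/-- `d ^ 3 ≡ d` implies `d ^ (3 ^ m) ≡ d`. -/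
theorem pow_three_pow_sub_dvd (π d : B) (h : π ∣ d ^ 3 - d) (m : ℕ) : π ∣ d ^ (3 ^ m) - d := by
  induction m with
  | zero => simp
  | succ m ih =>
    have e1 : d ^ (3 ^ (m + 1)) - d =
        (d ^ (3 ^ m) - d) * ((d ^ (3 ^ m)) ^ 2 + d ^ (3 ^ m) * d + d ^ 2) + (d ^ 3 - d) := by
      rw [pow_succ 3 m, pow_mul]
      ring
    rw [e1]
    exact dvd_add (Dvd.dvd.mul_right ih _) h

/-- if `π ∣ s * d ^ M` for some `M` and `d ^ 3 ≡ d` then `π ∣ s * d`. -/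
theorem dvd_mul_of_dvd_mul_pow (π s d : B) (h3 : π ∣ d ^ 3 - d) (M : ℕ) (h : π ∣ s * d ^ M) :
    π ∣ s * d := by
  have hle : M ≤ 3 ^ M := Nat.lt_pow_self (by norm_num : 1 < 3) |>.le
  have h1 : π ∣ s * d ^ (3 ^ M) := by
    have e : d ^ (3 ^ M) = d ^ M * d ^ (3 ^ M - M) := by
      rw [← pow_add]; congr 1; omega
    rw [e, ← mul_assoc]
    exact Dvd.dvd.mul_right h _
  have h2 : π ∣ s * (d ^ (3 ^ M) - d) := Dvd.dvd.mul_left (pow_three_pow_sub_dvd π d h3 M) s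
  have e : s * d = s * d ^ (3 ^ M) - s * (d ^ (3 ^ M) - d) := by ring
  rw [e]
  exact dvd_sub h1 h2

/-- **Overlap**: `π ∣ s₁ x ^ N`, `π ∣ s₂ y ^ N` ⟹ `π ∣ s (x - y) ^ M` with `s` a power of
`s₁ s₂`. -/
theorem exists_dvd_mul_sub_pow (π s₁ s₂ x y : B) (N : ℕ) (hx : π ∣ s₁ * x ^ N)
    (hy : π ∣ s₂ * y ^ N) :
    π ∣ (s₁ * s₂) ^ (N + 1 + N) * (x - y) ^ (N + 1 + N) := by
  have h1 : (s₁ * s₂ * x) ^ (N + 1) ∈ Ideal.span {π} := by
    rw [Ideal.mem_span_singleton]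
    have e : (s₁ * s₂ * x) ^ (N + 1) = (s₁ * x ^ N) * (s₁ ^ N * s₂ ^ (N + 1) * x) := by
      rw [mul_pow, mul_pow, pow_succ s₁ N, pow_succ x N]
      ring
    rw [e]
    exact Dvd.dvd.mul_right hx _
  have h2 : (-(s₁ * s₂ * y)) ^ (N + 1) ∈ Ideal.span {π} := by
    rw [Ideal.mem_span_singleton, neg_pow]
    have e : (s₁ * s₂ * y) ^ (N + 1) = (s₂ * y ^ N) * (s₂ ^ N * s₁ ^ (N + 1) * y) := by
      rw [mul_pow, mul_pow, pow_succ s₂ N, pow_succ y N]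
      ring
    rw [e]
    exact Dvd.dvd.mul_left (Dvd.dvd.mul_right hy _) _
  have h3 := (Ideal.span {π}).add_pow_mem_of_pow_mem_of_le h1 h2
    (show (N + 1) + (N + 1) ≤ (N + 1 + N) + 1 by omega)
  rw [Ideal.mem_span_singleton] at h3
  have e : (s₁ * s₂ * x + -(s₁ * s₂ * y)) ^ (N + 1 + N) =
      (s₁ * s₂) ^ (N + 1 + N) * (x - y) ^ (N + 1 + N) := by
    rw [← mul_pow]; congr 1; ring
  rwa [e] at h3

end Lift

/-! ### `⋂ P i ⊆ rad (π)` with exponent `N` -/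

section Rad

variable {B : Type*} [CommRing B] {ι : Type*}

/-- `b ∈ ⋂ P i` ⟹ `π ∣ b ^ N`, from `hmult` + `hsat`. -/
theorem dvd_pow_of_forall_mem (P : ι → Ideal B) (π : B) (N : ℕ)
    (hmult : ∀ i, ∀ b ∈ P i, ∃ s, s ∉ P i ∧ π ∣ s * b ^ N)
    (hsat : ∀ b : B, (∀ i, ∃ s, s ∉ P i ∧ π ∣ s * b) → π ∣ b)
    (b : B) (hb : ∀ i, b ∈ P i) : π ∣ b ^ N :=
  hsat _ fun i => hmult i b (hb i)

end Rad

/-! ### Connectedness of the special fibre, multiplicity form -/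

section Connected

variable {R : Type*} [CommRing R] [IsDomain R] [IsNoetherianRing R] [IsIntegrallyClosed R]
  {K : Type*} [Field K] [Algebra R K] [IsFractionRing R K]
  {F : Type*} [Field F] [Algebra R F] [Algebra K F] [IsScalarTower R K F]

omit [IsDomain R] [IsNoetherianRing R] [IsIntegrallyClosed R] in
/-- divisibility by `π` transported along a subalgebra inclusion. -/
theorem inclusion_dvd {S T : Subalgebra R F} (hST : S ≤ T) (π : R) {b : ↥S}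
    (h : algebraMap R ↥S π ∣ b) : algebraMap R ↥T π ∣ Subalgebra.inclusion hST b := by
  have := map_dvd (Subalgebra.inclusion hST) h
  rwa [AlgHom.commutes] at this

set_option maxHeartbeats 1600000 in
/-- **Connectedness of the special fibre, colouring form, multiplicities allowed.** -/
theorem colouring_const_mult (J : F) (htr : Transcendental K J)
    [FiniteDimensional K⟮J⟯ F] [Algebra.IsSeparable K⟮J⟯ F]
    (hcl : ∀ z : F, IsAlgebraic K z → z ∈ (algebraMap K F).range)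
    (π : R) (hπ : Prime π) (N : ℕ)
    {ι₁ ι₂ ι₁₂ : Type*} [Finite ι₁] [Finite ι₂]
    (P₁ : ι₁ → Ideal ↥(H40.chartB R J)) (P₂ : ι₂ → Ideal ↥(H40.chartB R J⁻¹))
    (P₁₂ : ι₁₂ → Ideal ↥(S34.H83.chart12 R J))
    (hP₁ : ∀ i, (P₁ i).IsPrime) (hP₁₂ : ∀ k, (P₁₂ k).IsPrime)
    (hπP₁ : ∀ i, algebraMap R ↥(H40.chartB R J) π ∈ P₁ i)
    (hmult₁ : ∀ i, ∀ b ∈ P₁ i, ∃ s, s ∉ P₁ i ∧ algebraMap R ↥(H40.chartB R J) π ∣ s * b ^ N)
    (hmult₂ : ∀ i, ∀ b ∈ P₂ i, ∃ s, s ∉ P₂ i ∧ algebraMap R ↥(H40.chartB R J⁻¹) π ∣ s * b ^ N)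
    (hsat₁ : ∀ b : ↥(H40.chartB R J),
      (∀ i, ∃ s, s ∉ P₁ i ∧ algebraMap R ↥(H40.chartB R J) π ∣ s * b) →
      algebraMap R ↥(H40.chartB R J) π ∣ b)
    (hsat₂ : ∀ b : ↥(H40.chartB R J⁻¹),
      (∀ i, ∃ s, s ∉ P₂ i ∧ algebraMap R ↥(H40.chartB R J⁻¹) π ∣ s * b) →
      algebraMap R ↥(H40.chartB R J⁻¹) π ∣ b)
    (hsat₁₂ : ∀ b : ↥(S34.H83.chart12 R J),
      (∀ k, ∃ s, s ∉ P₁₂ k ∧ algebraMap R ↥(S34.H83.chart12 R J) π ∣ s * b) →
      algebraMap R ↥(S34.H83.chart12 R J) π ∣ b)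
    (c₁ : ι₁ → Prop) (c₂ : ι₂ → Prop)
    (hloc₁ : ∀ n : Ideal ↥(H40.chartB R J), n.IsMaximal → ∀ i i', P₁ i ≤ n → P₁ i' ≤ n →
      (c₁ i ↔ c₁ i'))
    (hloc₂ : ∀ n : Ideal ↥(H40.chartB R J⁻¹), n.IsMaximal → ∀ i i', P₂ i ≤ n → P₂ i' ≤ n →
      (c₂ i ↔ c₂ i'))
    (hlink : ∀ k : ι₁₂, ∃ i i',
      (∀ s : ↥(H40.chartB R J), s ∉ P₁ i →
        Subalgebra.inclusion (S34.H83.chartB_le_chart12 (R := R) J) s ∉ P₁₂ k) ∧
      (∀ s : ↥(H40.chartB R J⁻¹), s ∉ P₂ i' →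
        Subalgebra.inclusion (S34.H83.chartB_inv_le_chart12 (R := R) J) s ∉ P₁₂ k) ∧
      (c₁ i ↔ c₂ i')) :
    (∀ i, c₁ i) ∨ (∀ i, ¬ c₁ i) := by
  classical
  -- the two idempotents modulo the radical of `π`
  obtain ⟨e₁', he₁T', he₁F'⟩ := S34.H83.exists_idem_of_colouring P₁ c₁ hloc₁
  obtain ⟨e₂', he₂T', he₂F'⟩ := S34.H83.exists_idem_of_colouring P₂ c₂ hloc₂
  have hrad₁ : ∀ i, e₁' * (e₁' - 1) ∈ P₁ i := fun i => by
    by_cases hc : c₁ i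
    · exact Ideal.mul_mem_left _ _ (he₁T' i hc)
    · exact Ideal.mul_mem_right _ _ (he₁F' i hc)
  have hrad₂ : ∀ i, e₂' * (e₂' - 1) ∈ P₂ i := fun i => by
    by_cases hc : c₂ i
    · exact Ideal.mul_mem_left _ _ (he₂T' i hc)
    · exact Ideal.mul_mem_right _ _ (he₂F' i hc)
  -- lift them to idempotents modulo `π`
  obtain ⟨e₁, a₁, hea₁, hidem₁⟩ := exists_idem_lift _ e₁' N
    (dvd_pow_of_forall_mem P₁ _ N hmult₁ hsat₁ _ hrad₁)
  obtain ⟨e₂, a₂, hea₂, hidem₂⟩ := exists_idem_lift _ e₂' N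
    (dvd_pow_of_forall_mem P₂ _ N hmult₂ hsat₂ _ hrad₂)
  have he₁T : ∀ i, c₁ i → e₁ - 1 ∈ P₁ i := fun i hc => by
    have e : e₁ - 1 = (e₁ - e₁') + (e₁' - 1) := by ring
    rw [e, hea₁]
    exact add_mem (Ideal.mul_mem_left _ _ (hrad₁ i)) (he₁T' i hc)
  have he₁F : ∀ i, ¬ c₁ i → e₁ ∈ P₁ i := fun i hc => by
    have e : e₁ = (e₁ - e₁') + e₁' := by ring
    rw [e, hea₁]
    exact add_mem (Ideal.mul_mem_left _ _ (hrad₁ i)) (he₁F' i hc)
  have he₂T : ∀ i, c₂ i → e₂ - 1 ∈ P₂ i := fun i hc => by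
    have e : e₂ - 1 = (e₂ - e₂') + (e₂' - 1) := by ring
    rw [e, hea₂]
    exact add_mem (Ideal.mul_mem_left _ _ (hrad₂ i)) (he₂T' i hc)
  have he₂F : ∀ i, ¬ c₂ i → e₂ ∈ P₂ i := fun i hc => by
    have e : e₂ = (e₂ - e₂') + e₂' := by ring
    rw [e, hea₂]
    exact add_mem (Ideal.mul_mem_left _ _ (hrad₂ i)) (he₂F' i hc)
  -- the images in the overlap ring
  set φ₁ := Subalgebra.inclusion (S34.H83.chartB_le_chart12 (R := R) J) with hφ₁
  set φ₂ := Subalgebra.inclusion (S34.H83.chartB_inv_le_chart12 (R := R) J) with hφ₂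
  set πT := algebraMap R ↥(S34.H83.chart12 R J) π with hπT
  have hid₁ : πT ∣ φ₁ e₁ * (φ₁ e₁ - 1) := by
    have := inclusion_dvd (S34.H83.chartB_le_chart12 (R := R) J) π hidem₁
    rwa [map_mul, map_sub, map_one] at this
  have hid₂ : πT ∣ φ₂ e₂ * (φ₂ e₂ - 1) := by
    have := inclusion_dvd (S34.H83.chartB_inv_le_chart12 (R := R) J) π hidem₂
    rwa [map_mul, map_sub, map_one] at this
  have hcube : πT ∣ (φ₁ e₁ - φ₂ e₂) ^ 3 - (φ₁ e₁ - φ₂ e₂) := cube_sub_dvd πT _ _ hid₁ hid₂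
  -- compatibility on the overlap
  have hcompat : πT ∣ φ₁ e₁ - φ₂ e₂ := by
    refine hsat₁₂ _ fun k => ?_
    obtain ⟨i, i', ho₁, ho₂, hcc⟩ := hlink k
    -- a common constant `ε ∈ {0, 1}`
    obtain ⟨ε, hε₁, hε₂⟩ : ∃ ε : R, e₁ - algebraMap R _ ε ∈ P₁ i ∧
        e₂ - algebraMap R _ ε ∈ P₂ i' := by
      by_cases hc : c₁ i
      · exact ⟨1, by rw [map_one]; exact he₁T i hc, by rw [map_one]; exact he₂T i' (hcc.1 hc)⟩
      · have hc' : ¬ c₂ i' := fun h => hc (hcc.2 h)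
        exact ⟨0, by rw [map_zero, sub_zero]; exact he₁F i hc,
          by rw [map_zero, sub_zero]; exact he₂F i' hc'⟩
    obtain ⟨s₁, hs₁, hd₁⟩ := hmult₁ i _ hε₁
    obtain ⟨s₂, hs₂, hd₂⟩ := hmult₂ i' _ hε₂
    have hx : πT ∣ φ₁ s₁ * (φ₁ e₁ - algebraMap R _ ε) ^ N := by
      have := inclusion_dvd (S34.H83.chartB_le_chart12 (R := R) J) π hd₁
      rwa [map_mul, map_pow, map_sub, AlgHom.commutes] at this
    have hy : πT ∣ φ₂ s₂ * (φ₂ e₂ - algebraMap R _ ε) ^ N := by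
      have := inclusion_dvd (S34.H83.chartB_inv_le_chart12 (R := R) J) π hd₂
      rwa [map_mul, map_pow, map_sub, AlgHom.commutes] at this
    have key := exists_dvd_mul_sub_pow πT _ _ _ _ N hx hy
    have e : (φ₁ e₁ - algebraMap R _ ε) - (φ₂ e₂ - algebraMap R _ ε) = φ₁ e₁ - φ₂ e₂ := by ring
    rw [e] at key
    refine ⟨(φ₁ s₁ * φ₂ s₂) ^ (N + 1 + N), fun h => ?_,
      dvd_mul_of_dvd_mul_pow πT _ _ hcube (N + 1 + N) key⟩
    have := (hP₁₂ k).mem_of_pow_mem _ h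
    rcases (hP₁₂ k).mem_or_mem this with h' | h'
    · exact ho₁ s₁ hs₁ h'
    · exact ho₂ s₂ hs₂ h'
  -- translate to `F` and apply STEP 5 to `F` itself
  have hi₁ : ∃ a ∈ H40.chartB R J, (e₁ : F) ^ 2 - e₁ = π • a := by
    obtain ⟨a, ha, h⟩ := S34.H83.coe_eq_smul_of_dvd π hidem₁
    refine ⟨a, ha, ?_⟩
    rw [← h, Subalgebra.coe_mul, Subalgebra.coe_sub, Subalgebra.coe_one]
    ring
  have hi₂ : ∃ a ∈ H40.chartB R J⁻¹, (e₂ : F) ^ 2 - e₂ = π • a := by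
    obtain ⟨a, ha, h⟩ := S34.H83.coe_eq_smul_of_dvd π hidem₂
    refine ⟨a, ha, ?_⟩
    rw [← h, Subalgebra.coe_mul, Subalgebra.coe_sub, Subalgebra.coe_one]
    ring
  have h₁₂ : ∃ y ∈ S34.H83.chart12 R J, (e₁ : F) - e₂ = π • y := by
    obtain ⟨a, ha, h⟩ := S34.H83.coe_eq_smul_of_dvd π hcompat
    refine ⟨a, ha, ?_⟩
    rw [← h, Subalgebra.coe_sub, hφ₁, hφ₂, Subalgebra.coe_inclusion, Subalgebra.coe_inclusion]
  rcases S34.H83.no_split_special_fibre' J htr π hπ (S34.H83.hconst_of_hcl hcl) e₁.2 e₂.2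
    hi₁ hi₂ h₁₂ with ⟨a, ha, h⟩ | ⟨a, ha, h⟩
  · right
    intro i hc
    have hmem : e₁ ∈ P₁ i :=
      Ideal.mem_of_dvd _ (S34.H83.dvd_of_coe_eq_smul π ha h) (hπP₁ i)
    have h1 : (1 : ↥(H40.chartB R J)) ∈ P₁ i := by
      have := sub_mem hmem (he₁T i hc)
      simpa using this
    exact (hP₁ i).ne_top ((Ideal.eq_top_iff_one _).2 h1)
  · left
    intro i
    by_contra hc
    have hmem : e₁ - 1 ∈ P₁ i :=
      Ideal.mem_of_dvd _ (S34.H83.dvd_of_coe_eq_smul π ha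
        (by rw [Subalgebra.coe_sub, Subalgebra.coe_one]; exact h)) (hπP₁ i)
    have h1 : (1 : ↥(H40.chartB R J)) ∈ P₁ i := by
      have := sub_mem (he₁F i hc) hmem
      simpa using this
    exact (hP₁ i).ne_top ((Ideal.eq_top_iff_one _).2 h1)

/-- **Connectedness of the special fibre**, one index type, `ℕ`-valued colourings, multiplicities
allowed: verbatim the hypothesis `hconn` of `S36.H67.kummer_descent_pow_rad`. -/
theorem hconn_of_no_split_mult (J : F) (htr : Transcendental K J)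
    [FiniteDimensional K⟮J⟯ F] [Algebra.IsSeparable K⟮J⟯ F]
    (hcl : ∀ z : F, IsAlgebraic K z → z ∈ (algebraMap K F).range)
    (π : R) (hπ : Prime π) (N : ℕ)
    {ι : Type*} [Finite ι]
    (P₁ : ι → Ideal ↥(H40.chartB R J)) (P₂ : ι → Ideal ↥(H40.chartB R J⁻¹))
    (P₁₂ : ι → Ideal ↥(S34.H83.chart12 R J))
    (hP₁ : ∀ i, (P₁ i).IsPrime) (hP₁₂ : ∀ k, (P₁₂ k).IsPrime)
    (hπP₁ : ∀ i, algebraMap R ↥(H40.chartB R J) π ∈ P₁ i)
    (hcomp₁ : ∀ k, ∀ s : ↥(H40.chartB R J), s ∉ P₁ k →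
      Subalgebra.inclusion (S34.H83.chartB_le_chart12 (R := R) J) s ∉ P₁₂ k)
    (hcomp₂ : ∀ k, ∀ s : ↥(H40.chartB R J⁻¹), s ∉ P₂ k →
      Subalgebra.inclusion (S34.H83.chartB_inv_le_chart12 (R := R) J) s ∉ P₁₂ k)
    (hmult₁ : ∀ i, ∀ b ∈ P₁ i, ∃ s, s ∉ P₁ i ∧ algebraMap R ↥(H40.chartB R J) π ∣ s * b ^ N)
    (hmult₂ : ∀ i, ∀ b ∈ P₂ i, ∃ s, s ∉ P₂ i ∧ algebraMap R ↥(H40.chartB R J⁻¹) π ∣ s * b ^ N)
    (hsat₁ : ∀ b : ↥(H40.chartB R J),
      (∀ i, ∃ s, s ∉ P₁ i ∧ algebraMap R ↥(H40.chartB R J) π ∣ s * b) →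
      algebraMap R ↥(H40.chartB R J) π ∣ b)
    (hsat₂ : ∀ b : ↥(H40.chartB R J⁻¹),
      (∀ i, ∃ s, s ∉ P₂ i ∧ algebraMap R ↥(H40.chartB R J⁻¹) π ∣ s * b) →
      algebraMap R ↥(H40.chartB R J⁻¹) π ∣ b)
    (hsat₁₂ : ∀ b : ↥(S34.H83.chart12 R J),
      (∀ k, ∃ s, s ∉ P₁₂ k ∧ algebraMap R ↥(S34.H83.chart12 R J) π ∣ s * b) →
      algebraMap R ↥(S34.H83.chart12 R J) π ∣ b)
    (c : ι → ℕ)
    (h₁ : ∀ n : Ideal ↥(H40.chartB R J), n.IsMaximal → ∀ k k', P₁ k ≤ n → P₁ k' ≤ n →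
      c k = c k')
    (h₂ : ∀ n : Ideal ↥(H40.chartB R J⁻¹), n.IsMaximal → ∀ k k', P₂ k ≤ n → P₂ k' ≤ n →
      c k = c k') :
    ∀ k k', c k = c k' := by
  intro k₀ k'
  have key := colouring_const_mult J htr hcl π hπ N P₁ P₂ P₁₂ hP₁ hP₁₂ hπP₁ hmult₁ hmult₂
    hsat₁ hsat₂ hsat₁₂ (fun k => c k = c k₀) (fun k => c k = c k₀)
    (fun n hn i i' hi hi' => by rw [h₁ n hn i i' hi hi'])
    (fun n hn i i' hi hi' => by rw [h₂ n hn i i' hi hi'])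
    (fun k => ⟨k, k, hcomp₁ k, hcomp₂ k, Iff.rfl⟩)
  rcases key with h | h
  · exact (h k').symm
  · exact absurd rfl (h k₀)

end Connected

end Fermat.Agent.S36.H83
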