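/-
helper83: S36, row (E2), **(hq2) from a place**: `q ∈ P₂^((q-1))` up to an element outside `P₂`.

`B` a noetherian integrally closed domain with fraction field `F`, `red₂ : B →+* D` (`D` a domain)
with kernel `p` of height one; `Oc ⊆ F` a valuation subring containing `B`, with "uniformiser" `τ`
(the non-units of `Oc` are the multiples of `τ`) and centre `p` on `B`
(`red₂ b = 0 ↔ b ∈ τ Oc`).  Then `B_p = Oc` (helper67's `valuationSubringAt_eq_of_centre`), so every
element of `Oc` is a fraction with denominator outside `p`; if `qB = u τ ^ n` with `u ∈ Oc`, then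
`t * qB ∈ p ^ n` for some `t ∉ p`.

This is the hypothesis `hq2` of helper70's base change `S36.H70.exists_threeComponents_chartBC_unram`
and of helper47's `hsat_of_three`.
-/
import Fermat.Agent.S36.H67_ValBridge
import Fermat.Agent.S36.H6_EisensteinPlace

set_option autoImplicit false
set_option linter.unusedSectionVars false
set_option linter.style.haveILetI false

namespace Fermat.Agent.S36.H83

open Fermat.Agent.S34

section Hq2OfPlace

variable {B F D : Type*} [CommRing B] [IsDomain B] [IsNoetherianRing B] [IsIntegrallyClosed B]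
  [Field F] [Algebra B F] [IsFractionRing B F] [CommRing D] [IsDomain D]

/-- every element of the place ring is a fraction `a / s` with `red₂ s ≠ 0`. -/
theorem exists_frac_of_place (red₂ : B →+* D) (h1 : (RingHom.ker red₂).height = 1)
    (Oc : Subring F) (hmem : ∀ y : F, y ∈ Oc ∨ y⁻¹ ∈ Oc)
    (hB : ∀ b : B, algebraMap B F b ∈ Oc) (τ : F)
    (hker : ∀ b : B, red₂ b = 0 ↔ ∃ z ∈ Oc, algebraMap B F b = τ * z)
    (hnu : ∀ y ∈ Oc, (∃ z ∈ Oc, y = τ * z) ∨ y⁻¹ ∈ Oc)
    (hτ : τ ∈ Oc) (hτinv : τ⁻¹ ∉ Oc) (y : F) (hy : y ∈ Oc) :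
    ∃ a s : B, red₂ s ≠ 0 ∧ y * algebraMap B F s = algebraMap B F a := by
  haveI hp : (RingHom.ker red₂).IsPrime := RingHom.ker_isPrime red₂
  let W : ValuationSubring F := { Oc with mem_or_inv_mem' := hmem }
  have hWmem : ∀ x : F, x ∈ W ↔ x ∈ Oc := fun x => Iff.rfl
  have hτlt : W.valuation τ < 1 := by
    by_contra hle
    have h1' : (1 : _) ≤ W.valuation τ := not_lt.1 hle
    have hτ0 : τ ≠ 0 := by
      rintro rfl
      rw [map_zero] at h1'
      exact (not_le.2 zero_lt_one) h1'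
    apply hτinv
    rw [← hWmem, ← W.valuation_le_one_iff, map_inv₀]
    exact inv_le_one_of_one_le₀ h1'
  have hred : ∀ b : B, b ∈ RingHom.ker red₂ ↔ W.valuation (algebraMap B F b) < 1 := by
    intro b
    rw [RingHom.mem_ker]
    constructor
    · intro hb
      obtain ⟨z, hz, e⟩ := (hker b).1 hb
      rw [e, map_mul]
      have hz1 : W.valuation z ≤ 1 := (W.valuation_le_one_iff z).2 ((hWmem z).2 hz)
      calc W.valuation τ * W.valuation z ≤ W.valuation τ * 1 := by gcongr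
        _ = W.valuation τ := mul_one _
        _ < 1 := hτlt
    · intro hlt
      rcases hnu _ (hB b) with h | h
      · exact (hker b).2 h
      · by_cases hb0 : algebraMap B F b = 0
        · exact (hker b).2 ⟨0, Oc.zero_mem, by rw [hb0, mul_zero]⟩
        · exfalso
          have h2 : W.valuation (algebraMap B F b)⁻¹ ≤ 1 :=
            (W.valuation_le_one_iff _).2 ((hWmem _).2 h)
          rw [map_inv₀] at h2
          have hv0 : W.valuation (algebraMap B F b) ≠ 0 := (map_ne_zero _).2 hb0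
          have h3 : 1 ≤ W.valuation (algebraMap B F b) :=
            (inv_le_one₀ (zero_lt_iff.2 hv0)).1 h2
          exact (not_lt.2 h3) hlt
  have hW : H56.valuationSubringAt (K := F) (RingHom.ker red₂) h1 = W :=
    S36.H67.valuationSubringAt_eq_of_centre W (RingHom.ker red₂) h1
      (fun b => (hWmem _).2 (hB b)) hred
  have hyW : y ∈ H56.valuationSubringAt (K := F) (RingHom.ker red₂) h1 := by
    rw [hW]
    exact (hWmem y).2 hy
  obtain ⟨a, s, hs, e⟩ := (H56.mem_valuationSubringAt h1).1 hyW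
  exact ⟨a, s, fun h0 => hs ((RingHom.mem_ker).2 h0), e⟩

/-- **(hq2) from a place.** -/
theorem hq2_of_place (red₂ : B →+* D) (h1 : (RingHom.ker red₂).height = 1)
    (Oc : Subring F) (hmem : ∀ y : F, y ∈ Oc ∨ y⁻¹ ∈ Oc)
    (hB : ∀ b : B, algebraMap B F b ∈ Oc) (τ : F)
    (hker : ∀ b : B, red₂ b = 0 ↔ ∃ z ∈ Oc, algebraMap B F b = τ * z)
    (hnu : ∀ y ∈ Oc, (∃ z ∈ Oc, y = τ * z) ∨ y⁻¹ ∈ Oc)
    (hτ : τ ∈ Oc) (hτinv : τ⁻¹ ∉ Oc)
    (n : ℕ) (qB : B) (u : F) (hu : u ∈ Oc) (hqB : algebraMap B F qB = u * τ ^ n) :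
    ∃ t : B, red₂ t ≠ 0 ∧ t * qB ∈ RingHom.ker red₂ ^ n := by
  obtain ⟨a, s, hs, ea⟩ := exists_frac_of_place red₂ h1 Oc hmem hB τ hker hnu hτ hτinv τ hτ
  obtain ⟨b, s', hs', eb⟩ := exists_frac_of_place red₂ h1 Oc hmem hB τ hker hnu hτ hτinv u hu
  have ha : a ∈ RingHom.ker red₂ :=
    (RingHom.mem_ker).2 ((hker a).2 ⟨algebraMap B F s, hB s, ea.symm⟩)
  refine ⟨s' * s ^ n, ?_, ?_⟩
  · rw [map_mul, map_pow]
    exact mul_ne_zero hs' (pow_ne_zero n hs)
  · have e : s' * s ^ n * qB = b * a ^ n := by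
      apply IsFractionRing.injective B F
      rw [map_mul, map_mul, map_pow, map_mul, map_pow, hqB, ← eb, ← ea]
      ring
    rw [e]
    exact Ideal.mul_mem_left _ b (Ideal.pow_mem_pow ha n)

end Hq2OfPlace

/-! ### The same from a ramified place `S36.H6.PlaceOverRam` -/

section OfPlaceOverRam

variable {O L Fk : Type*} [CommRing O] [Field L] [Algebra O L] [Field Fk]
  {ϖ : O} {θ τ : L} {n : ℕ} {ι : O →+* Fk} {θb : Fk}

/-- the uniformiser of a ramified place is not a unit of its ring. -/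
theorem placeOverRam_inv_tau_not_mem (P : S36.H6.PlaceOverRam ϖ θ τ n ι θb) (hτ0 : τ ≠ 0) :
    τ⁻¹ ∉ P.O1 := by
  intro hmem
  have h1 : P.res1 ⟨1, P.O1.one_mem⟩ = 0 :=
    (P.res1_eq_zero_iff 1 P.O1.one_mem).2 ⟨_, hmem, (mul_inv_cancel₀ hτ0).symm⟩
  have h2 : P.res1 ⟨1, P.O1.one_mem⟩ = 1 := P.res1.map_one
  rw [h2] at h1
  exact one_ne_zero h1

theorem placeOverRam_tau_ne_zero (P : S36.H6.PlaceOverRam ϖ θ τ n ι θb) (hn : n ≠ 0)
    (hϖ0 : algebraMap O L ϖ ≠ 0) : τ ≠ 0 := by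
  obtain ⟨v, -, -, hv⟩ := P.unif_eq
  intro h0
  rw [h0, zero_pow hn, mul_zero] at hv
  exact hϖ0 hv

variable {B D : Type*} [CommRing B] [IsDomain B] [IsNoetherianRing B] [IsIntegrallyClosed B]
  [Algebra B L] [IsFractionRing B L] [CommRing D] [IsDomain D]

/-- **(hq2) from a ramified place** `ϖ = u τ ^ n` whose centre on `B` is `ker red₂` (of height
one). -/
theorem hq2_of_placeOverRam (P : S36.H6.PlaceOverRam ϖ θ τ n ι θb) (hn : n ≠ 0)
    (hϖ0 : algebraMap O L ϖ ≠ 0)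
    (red₂ : B →+* D) (h1 : (RingHom.ker red₂).height = 1)
    (hB : ∀ b : B, algebraMap B L b ∈ P.O1)
    (hcompat : ∀ b : B, red₂ b = 0 ↔ P.res1 ⟨algebraMap B L b, hB b⟩ = 0)
    (qB : B) (hqB : algebraMap B L qB = algebraMap O L ϖ) :
    ∃ t : B, red₂ t ≠ 0 ∧ t * qB ∈ RingHom.ker red₂ ^ n := by
  obtain ⟨v, hv, -, hvq⟩ := P.unif_eq
  have hτ0 : τ ≠ 0 := placeOverRam_tau_ne_zero P hn hϖ0
  exact hq2_of_place red₂ h1 P.O1 P.mem_or_inv_mem hB τ
    (fun b => (hcompat b).trans (P.res1_eq_zero_iff _ (hB b)))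
    (fun y hy => by
      by_cases h0 : P.res1 ⟨y, hy⟩ = 0
      · exact Or.inl ((P.res1_eq_zero_iff y hy).1 h0)
      · exact Or.inr (P.inv_mem y hy h0))
    P.τ_mem (placeOverRam_inv_tau_not_mem P hτ0) n qB v hv (hqB.trans hvq)

end OfPlaceOverRam

end Fermat.Agent.S36.H83
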