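/-
helper83: S36, row (E2), (E2-lvl-E), generic part (Mathlib + `H83_LevelMaps` only).

`B₀' B₀` = the two charts over `A₁`, `B' B` = the two charts over `R = A''`, `ψ' : B₀' → B'`,
`ψ : B₀ → B` the chart-to-chart base changes.  If `B'` is generated as a ring by `ψ'(B₀')` and the
constants `R`, and `R = A₁ + π R`, then every identity `red ∘ ι = Wk ∘ rbar` between reductions of
the `A₁`-charts passes to ARBITRARY reductions `red''`, `rbar''` of the `R`-charts which restrict to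
`red`, `rbar` along `ψ`, `ψ'` and kill `π`, and to an arbitrary chart map `ι'' : B' → B` over `ι`
fixing the constants.  Hence `LevelMaps` passes from the `A₁`-charts to the `R`-charts for
arbitrary witnesses (`levelMaps_of_gen`).
-/
import Mathlib
import Fermat.Agent.S36.H83_LevelMaps

set_option autoImplicit false

namespace Fermat.Agent.S36.H83

section Gen

variable {A₁ R B₀' B₀ B' B D : Type*} [CommRing A₁] [CommRing R] [CommRing B₀'] [CommRing B₀]
  [CommRing B'] [CommRing B] [CommRing D]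
  [Algebra A₁ R] [Algebra A₁ B₀'] [Algebra A₁ B₀] [Algebra R B'] [Algebra R B]

/-- Two ring homs on `B'` agreeing on `ψ'(B₀')` and on the constants `R` are equal when `B'` is
generated by these. -/
theorem ringHom_ext_of_gen (ψ' : B₀' →+* B')
    (hgen : ∀ z : B', z ∈ Subring.closure (Set.range ψ' ∪ Set.range (algebraMap R B')))
    (f g : B' →+* D) (h₁ : ∀ b, f (ψ' b) = g (ψ' b))
    (h₂ : ∀ a : R, f (algebraMap R B' a) = g (algebraMap R B' a)) (z : B') : f z = g z := by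
  induction hgen z using Subring.closure_induction with
  | mem x hx =>
    rcases hx with ⟨b, rfl⟩ | ⟨a, rfl⟩
    · exact h₁ b
    · exact h₂ a
  | zero => rw [map_zero, map_zero]
  | one => rw [map_one, map_one]
  | add x y _ _ hx hy => rw [map_add, map_add, hx, hy]
  | neg x _ hx => rw [map_neg, map_neg, hx]
  | mul x y _ _ hx hy => rw [map_mul, map_mul, hx, hy]

/-- The value of a reduction `red''` of the `R`-chart on a constant `a = c + π a'`. -/
theorem red_const_of_compat (ψ : B₀ →+* B)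
    (hψA : ∀ c : A₁, ψ (algebraMap A₁ B₀ c) = algebraMap R B (algebraMap A₁ R c))
    {π : R} {red : B₀ →+* D} {red'' : B →+* D} (hc : ∀ b, red'' (ψ b) = red b)
    (hπ : red'' (algebraMap R B π) = 0) {a : R} {c : A₁} {a' : R}
    (ha : a = algebraMap A₁ R c + π * a') :
    red'' (algebraMap R B a) = red (algebraMap A₁ B₀ c) := by
  rw [ha, map_add, map_mul, map_add, map_mul, hπ, zero_mul, add_zero, ← hψA, hc]

/-- **One identity `red ∘ ι = Wk ∘ rbar` passes to the `R`-charts, arbitrary witnesses.** -/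
theorem levelId_of_gen (ψ' : B₀' →+* B') (ψ : B₀ →+* B)
    (hψ'A : ∀ c : A₁, ψ' (algebraMap A₁ B₀' c) = algebraMap R B' (algebraMap A₁ R c))
    (hψA : ∀ c : A₁, ψ (algebraMap A₁ B₀ c) = algebraMap R B (algebraMap A₁ R c))
    (hgen : ∀ z : B', z ∈ Subring.closure (Set.range ψ' ∪ Set.range (algebraMap R B')))
    {π : R} (hdec : ∀ a : R, ∃ c : A₁, ∃ a' : R, a = algebraMap A₁ R c + π * a')
    {red : B₀ →+* D} {rbar : B₀' →+* D} {ι : B₀' →+* B₀} (Wk : D →+* D)
    (hι : ∀ z, red (ι z) = Wk (rbar z))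
    (hιA : ∀ c : A₁, ι (algebraMap A₁ B₀' c) = algebraMap A₁ B₀ c)
    {red'' : B →+* D} (hc : ∀ b, red'' (ψ b) = red b) (hπ : red'' (algebraMap R B π) = 0)
    {rbar'' : B' →+* D} (hc' : ∀ b, rbar'' (ψ' b) = rbar b)
    (hπ' : rbar'' (algebraMap R B' π) = 0)
    {ι'' : B' →+* B} (hιψ : ∀ b, ι'' (ψ' b) = ψ (ι b))
    (hιR : ∀ a : R, ι'' (algebraMap R B' a) = algebraMap R B a) (z : B') :
    red'' (ι'' z) = Wk (rbar'' z) := by
  refine ringHom_ext_of_gen (R := R) ψ' hgen (red''.comp ι'') (Wk.comp rbar'') ?_ ?_ z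
  · intro b
    rw [RingHom.comp_apply, RingHom.comp_apply, hιψ, hc, hc', hι]
  · intro a
    obtain ⟨c, a', ha⟩ := hdec a
    rw [RingHom.comp_apply, RingHom.comp_apply, hιR,
      red_const_of_compat ψ hψA hc hπ ha, red_const_of_compat ψ' hψ'A hc' hπ' ha, ← hιA, hι]

/-- **`LevelMaps` passes from the `A₁`-charts to the `R`-charts, arbitrary witnesses.** -/
theorem levelMaps_of_gen (ψ' : B₀' →+* B') (ψ : B₀ →+* B)
    (hψ'A : ∀ c : A₁, ψ' (algebraMap A₁ B₀' c) = algebraMap R B' (algebraMap A₁ R c))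
    (hψA : ∀ c : A₁, ψ (algebraMap A₁ B₀ c) = algebraMap R B (algebraMap A₁ R c))
    (hgen : ∀ z : B', z ∈ Subring.closure (Set.range ψ' ∪ Set.range (algebraMap R B')))
    {π : R} (hdec : ∀ a : R, ∃ c : A₁, ∃ a' : R, a = algebraMap A₁ R c + π * a')
    {red₁ red₂ red₃ : B₀ →+* D} {red₁' red₂' : B₀' →+* D} {α β : B₀' →+* B₀} {W : D →+* D}
    (LM : LevelMaps red₁ red₂ red₃ red₁' red₂' α β W)
    (hαA : ∀ c : A₁, α (algebraMap A₁ B₀' c) = algebraMap A₁ B₀ c)
    (hβA : ∀ c : A₁, β (algebraMap A₁ B₀' c) = algebraMap A₁ B₀ c)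
    {red₁'' red₂'' red₃'' : B →+* D}
    (hc₁ : ∀ b, red₁'' (ψ b) = red₁ b) (hc₂ : ∀ b, red₂'' (ψ b) = red₂ b)
    (hc₃ : ∀ b, red₃'' (ψ b) = red₃ b)
    (hπ₁ : red₁'' (algebraMap R B π) = 0) (hπ₂ : red₂'' (algebraMap R B π) = 0)
    (hπ₃ : red₃'' (algebraMap R B π) = 0)
    {red₁''' red₂''' : B' →+* D}
    (hc₁' : ∀ b, red₁''' (ψ' b) = red₁' b) (hc₂' : ∀ b, red₂''' (ψ' b) = red₂' b)
    (hπ₁' : red₁''' (algebraMap R B' π) = 0) (hπ₂' : red₂''' (algebraMap R B' π) = 0)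
    {α'' β'' : B' →+* B}
    (hαψ : ∀ b, α'' (ψ' b) = ψ (α b)) (hαR : ∀ a : R, α'' (algebraMap R B' a) = algebraMap R B a)
    (hβψ : ∀ b, β'' (ψ' b) = ψ (β b)) (hβR : ∀ a : R, β'' (algebraMap R B' a) = algebraMap R B a) :
    LevelMaps red₁'' red₂'' red₃'' red₁''' red₂''' α'' β'' W where
  h1α := levelId_of_gen ψ' ψ hψ'A hψA hgen hdec (RingHom.id D) (fun z => LM.h1α z) hαA
    hc₁ hπ₁ hc₁' hπ₁' hαψ hαR
  h1β := levelId_of_gen ψ' ψ hψ'A hψA hgen hdec W (fun z => LM.h1β z) hβA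
    hc₁ hπ₁ hc₁' hπ₁' hβψ hβR
  h2α := levelId_of_gen ψ' ψ hψ'A hψA hgen hdec (RingHom.id D) (fun z => LM.h2α z) hαA
    hc₂ hπ₂ hc₁' hπ₁' hαψ hαR
  h2β := levelId_of_gen ψ' ψ hψ'A hψA hgen hdec (RingHom.id D) (fun z => LM.h2β z) hβA
    hc₂ hπ₂ hc₂' hπ₂' hβψ hβR
  h3α := levelId_of_gen ψ' ψ hψ'A hψA hgen hdec W (fun z => LM.h3α z) hαA
    hc₃ hπ₃ hc₂' hπ₂' hαψ hαR
  h3β := levelId_of_gen ψ' ψ hψ'A hψA hgen hdec (RingHom.id D) (fun z => LM.h3β z) hβA
    hc₃ hπ₃ hc₂' hπ₂' hβψ hβR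

end Gen

section Closure

/-! ### From the field-level `GenBy` statement to the closure statement inside the chart -/

variable {F : Type*} [Field F] {R : Type*} [CommRing R] [Algebra R F] {B' : Subalgebra R F}
  {B₀' : Type*} [CommRing B₀']

/-- If every element of the subalgebra `B' ⊆ F` lies in the subring of `F` generated by the
image of `ψ'` and the constants, then `B'` is generated (as a ring) by `ψ'(B₀')` and `R`. -/
theorem mem_closure_of_field_closure (ψ' : B₀' →+* ↥B')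
    (h : ∀ z : F, z ∈ B' → z ∈ Subring.closure
      (Set.range (fun b : B₀' => ((ψ' b : ↥B') : F)) ∪ Set.range (algebraMap R F)))
    (z : ↥B') :
    z ∈ Subring.closure (Set.range ψ' ∪ Set.range (algebraMap R ↥B')) := by
  have hz := h (z : F) z.2
  have himg : (Set.range (fun b : B₀' => ((ψ' b : ↥B') : F)) ∪ Set.range (algebraMap R F)) =
      (B'.val.toRingHom : ↥B' →+* F) '' (Set.range ψ' ∪ Set.range (algebraMap R ↥B')) := by
    rw [Set.image_union, ← Set.range_comp, ← Set.range_comp]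
    rfl
  rw [himg, ← RingHom.map_closure] at hz
  obtain ⟨z', hz', hzz'⟩ := hz
  have : z' = z := Subtype.ext hzz'
  rw [← this]
  exact hz'

end Closure

end Fermat.Agent.S36.H83
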