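/-
helper83: S36, row (E2), (E2-lvl-E), **(S2)-generic chart form** (Ruling 8 item 4).

`A₁ = A0 A ℓ`, `A'' = cutOver A E`; levels `N` (`= q² L`) and `M` (`= q L`), chart coordinates
`J₁ : F₁(N)`, `c₁ : F₁(M)`, E-level coordinates `(J_E) (hJ : baseChangeE E N J₁ = J_E)`,
`(c_E) (hc : baseChangeE E M c₁ = c_E)`.  For ARBITRARY reductions `red_i'' : chartB A'' J_E → R₀`,
`red_j''' : chartB A'' c_E → R₀` with the two clauses (`red'' ∘ chartBC = red`, `red'' π = 0`) and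
ARBITRARY chart maps `α'' β'' : chartB A'' c_E → chartB A'' J_E` which are restrictions of field
maps `αE βE : F_E(M) → F_E(N)` lying over `α β` and fixing the constants:

  `LevelMaps red₁ red₂ red₃ red₁' red₂' α β W  ⟹  LevelMaps red₁'' red₂'' red₃'' red₁''' red₂''' α'' β'' W`.

NO integrality of `α β` is used (it fails on chart 2), only `GenBy` at the lower level `M`;
helper89's `H89L.exists_levelMaps_chartBC` is the companion with integrality (chart 1).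
-/
import Mathlib
import Fermat.Agent.S36.H83_LevelMapsEGen
import Fermat.Agent.S35.H70_TwoComponentsBCInst
import Fermat.Agent.S34.H95_ChartBC

set_option autoImplicit false
set_option linter.unusedSectionVars false
set_option linter.style.haveILetI false
set_option synthInstance.maxHeartbeats 400000
set_option maxHeartbeats 1600000

noncomputable section

namespace Fermat.Agent.S36.H83

open ModularCurve IsLocalRing
open Fermat.Agent.S18

local notation "Qbar" => AlgebraicClosure ℚ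

variable {A : ValuationSubring Qbar} {ℓ : ℕ} (hℓ : ℓ.Prime) (hA : A.LiesOverPrime ℓ)
variable (E : IntermediateField (H45.unrCyclo ℓ) Qbar) (N : ℕ) [NeZero N] (M : ℕ) [NeZero M]

/-- `GenBy` in the chart: `chartB A'' c_E` is generated, as a ring, by the image of `chartBC` and
the constants. -/
theorem mem_closure_chartBC (c₁ : ↥(modularFunctionFieldFullC ↥(H45.unrCyclo ℓ) M))
    (hM : S35.H70.GenBy (A := A) E M c₁)
    (c_E : ↥(modularFunctionFieldFullC ↥E M)) (hc : H45.baseChangeE E M c₁ = c_E)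
    (z : ↥(H40.chartB ↥(H45.cutOver A E) c_E)) :
    z ∈ Subring.closure (Set.range (S34.H95.chartBC (A := A) E M c₁ c_E hc) ∪
      Set.range (algebraMap ↥(H45.cutOver A E) ↥(H40.chartB ↥(H45.cutOver A E) c_E))) := by
  subst hc
  exact mem_closure_of_field_closure (S34.H95.chartBC (A := A) E M c₁ _ rfl)
    (fun z hz => (hM z).1 hz) z

include hℓ hA in
/-- **`LevelMaps` over `A''`, (S2)-generic chart form, arbitrary witnesses, no integrality.** -/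
theorem levelMaps_chartBC
    (J₁ : ↥(modularFunctionFieldFullC ↥(H45.unrCyclo ℓ) N))
    (c₁ : ↥(modularFunctionFieldFullC ↥(H45.unrCyclo ℓ) M))
    (π : ↥(H45.cutOver A E)) (hπ : maximalIdeal ↥(H45.cutOver A E) = Ideal.span {π})
    (hM : S35.H70.GenBy (A := A) E M c₁)
    (J_E : ↥(modularFunctionFieldFullC ↥E N)) (hJ : H45.baseChangeE E N J₁ = J_E)
    (c_E : ↥(modularFunctionFieldFullC ↥E M)) (hc : H45.baseChangeE E M c₁ = c_E)
    {R₀ : Type*} [CommRing R₀]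
    {red₁ red₂ red₃ : ↥(H40.chartB ↥(H45.A0 A ℓ) J₁) →+* R₀}
    {red₁' red₂' : ↥(H40.chartB ↥(H45.A0 A ℓ) c₁) →+* R₀}
    {α β : ↥(H40.chartB ↥(H45.A0 A ℓ) c₁) →+* ↥(H40.chartB ↥(H45.A0 A ℓ) J₁)} {W : R₀ →+* R₀}
    (LM : LevelMaps red₁ red₂ red₃ red₁' red₂' α β W)
    (hαA₁ : ∀ c : ↥(H45.A0 A ℓ),
      α (algebraMap ↥(H45.A0 A ℓ) ↥(H40.chartB ↥(H45.A0 A ℓ) c₁) c) =
        algebraMap ↥(H45.A0 A ℓ) ↥(H40.chartB ↥(H45.A0 A ℓ) J₁) c)
    (hβA₁ : ∀ c : ↥(H45.A0 A ℓ),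
      β (algebraMap ↥(H45.A0 A ℓ) ↥(H40.chartB ↥(H45.A0 A ℓ) c₁) c) =
        algebraMap ↥(H45.A0 A ℓ) ↥(H40.chartB ↥(H45.A0 A ℓ) J₁) c)
    (αE βE : ↥(modularFunctionFieldFullC ↥E M) →+* ↥(modularFunctionFieldFullC ↥E N))
    (hαbc : ∀ b : ↥(H40.chartB ↥(H45.A0 A ℓ) c₁),
      αE (H45.baseChangeE E M (b : ↥(modularFunctionFieldFullC ↥(H45.unrCyclo ℓ) M))) =
        H45.baseChangeE E N
          ((α b : ↥(H40.chartB ↥(H45.A0 A ℓ) J₁)) :
            ↥(modularFunctionFieldFullC ↥(H45.unrCyclo ℓ) N)))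
    (hαc : ∀ a : ↥(H45.cutOver A E),
      αE (algebraMap ↥(H45.cutOver A E) ↥(modularFunctionFieldFullC ↥E M) a) =
        algebraMap ↥(H45.cutOver A E) ↥(modularFunctionFieldFullC ↥E N) a)
    (hβbc : ∀ b : ↥(H40.chartB ↥(H45.A0 A ℓ) c₁),
      βE (H45.baseChangeE E M (b : ↥(modularFunctionFieldFullC ↥(H45.unrCyclo ℓ) M))) =
        H45.baseChangeE E N
          ((β b : ↥(H40.chartB ↥(H45.A0 A ℓ) J₁)) :
            ↥(modularFunctionFieldFullC ↥(H45.unrCyclo ℓ) N)))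
    (hβc : ∀ a : ↥(H45.cutOver A E),
      βE (algebraMap ↥(H45.cutOver A E) ↥(modularFunctionFieldFullC ↥E M) a) =
        algebraMap ↥(H45.cutOver A E) ↥(modularFunctionFieldFullC ↥E N) a)
    {red₁'' red₂'' red₃'' : ↥(H40.chartB ↥(H45.cutOver A E) J_E) →+* R₀}
    (hcl₁ : ∀ b, red₁'' (S34.H95.chartBC (A := A) E N J₁ J_E hJ b) = red₁ b)
    (hcl₂ : ∀ b, red₂'' (S34.H95.chartBC (A := A) E N J₁ J_E hJ b) = red₂ b)
    (hcl₃ : ∀ b, red₃'' (S34.H95.chartBC (A := A) E N J₁ J_E hJ b) = red₃ b)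
    (hπ₁ : red₁'' (algebraMap ↥(H45.cutOver A E) ↥(H40.chartB ↥(H45.cutOver A E) J_E) π) = 0)
    (hπ₂ : red₂'' (algebraMap ↥(H45.cutOver A E) ↥(H40.chartB ↥(H45.cutOver A E) J_E) π) = 0)
    (hπ₃ : red₃'' (algebraMap ↥(H45.cutOver A E) ↥(H40.chartB ↥(H45.cutOver A E) J_E) π) = 0)
    {red₁''' red₂''' : ↥(H40.chartB ↥(H45.cutOver A E) c_E) →+* R₀}
    (hcl₁' : ∀ b, red₁''' (S34.H95.chartBC (A := A) E M c₁ c_E hc b) = red₁' b)
    (hcl₂' : ∀ b, red₂''' (S34.H95.chartBC (A := A) E M c₁ c_E hc b) = red₂' b)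
    (hπ₁' : red₁''' (algebraMap ↥(H45.cutOver A E) ↥(H40.chartB ↥(H45.cutOver A E) c_E) π) = 0)
    (hπ₂' : red₂''' (algebraMap ↥(H45.cutOver A E) ↥(H40.chartB ↥(H45.cutOver A E) c_E) π) = 0)
    {α'' β'' : ↥(H40.chartB ↥(H45.cutOver A E) c_E) →+* ↥(H40.chartB ↥(H45.cutOver A E) J_E)}
    (hα'' : ∀ x, ((α'' x : ↥(H40.chartB ↥(H45.cutOver A E) J_E)) :
      ↥(modularFunctionFieldFullC ↥E N)) = αE (x : ↥(modularFunctionFieldFullC ↥E M)))
    (hβ'' : ∀ x, ((β'' x : ↥(H40.chartB ↥(H45.cutOver A E) J_E)) :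
      ↥(modularFunctionFieldFullC ↥E N)) = βE (x : ↥(modularFunctionFieldFullC ↥E M))) :
    LevelMaps red₁'' red₂'' red₃'' red₁''' red₂''' α'' β'' W :=
  levelMaps_of_gen (A₁ := ↥(H45.A0 A ℓ)) (R := ↥(H45.cutOver A E))
    (S34.H95.chartBC (A := A) E M c₁ c_E hc) (S34.H95.chartBC (A := A) E N J₁ J_E hJ)
    (fun c => S34.H95.chartBC_algebraMap E M c₁ c_E hc c)
    (fun c => S34.H95.chartBC_algebraMap E N J₁ J_E hJ c)
    (mem_closure_chartBC E M c₁ hM c_E hc)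
    (fun a => S34.H95.exists_A0_add_mul hℓ hA E π hπ a)
    LM hαA₁ hβA₁ hcl₁ hcl₂ hcl₃ hπ₁ hπ₂ hπ₃ hcl₁' hcl₂' hπ₁' hπ₂'
    (fun b => Subtype.ext ((hα'' _).trans (hαbc b)))
    (fun a => Subtype.ext ((hα'' _).trans (hαc a)))
    (fun b => Subtype.ext ((hβ'' _).trans (hβbc b)))
    (fun a => Subtype.ext ((hβ'' _).trans (hβc a)))

end Fermat.Agent.S36.H83
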