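/-
helper83: S36, row (E2), (E2-lvl-E), **the real-types call**, both charts, (S2)-generic E-level
coordinates `(J_E) (hJ)`, `(c_E) (hc)` (so (S1) at `hJ := rfl`, literal `J3K`/`JK` at
`S36.H95.baseChangeE_J3K(_inv)` / `S34.H95.baseChangeE_JK(_inv)`).

Field maps in the spelling of the top: `αE = H18.alphaK ↥E (q L) (q (q L)) _`,
`βE = H18.betaK ↥E q (q L) (q (q L)) _`.  Inputs: the `A₁`-level `LevelMaps` (helper96's
`H96.levelMaps_J3(_inv)`, or any chart maps `α β` over `ι₂ V₂`), ARBITRARY E-level reductions with the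
two clauses (helper70's packages), ARBITRARY E-level chart maps `α'' β''` restricting `αE βE`.
No integrality is used: this is the form needed on chart 2 (`hL₂`) and it also serves chart 1.
-/
import Mathlib
import Fermat.Agent.S36.H83_LevelMapsEBC
import Fermat.Agent.S36.H83_LevelFieldE
import Fermat.Agent.S36.H96_LevelMapsChart
import Fermat.Agent.S35.H70_TwoComponentsBCL0

set_option autoImplicit false
set_option linter.unusedSectionVars false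
set_option linter.style.haveILetI false
set_option synthInstance.maxHeartbeats 400000
set_option maxHeartbeats 1600000

noncomputable section

namespace Fermat.Agent.S36.H83

open ModularCurve IsLocalRing
open Fermat.Agent.S18 Fermat.Agent.S34.H55

local notation "Qbar" => AlgebraicClosure ℚ

section Real

variable (L : ℕ) [NeZero L] {q : ℕ} [hq : Fact q.Prime] (hqL : ¬ q ∣ L)
  (A : ValuationSubring Qbar) (hA : A.LiesOverPrime q)
  (E : IntermediateField (H45.unrCyclo q) Qbar)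

set_option quotPrecheck false
local notation "A₁" => H45.A0 A q
local notation "L₁" => H45.unrCyclo q
local notation "A''" => H45.cutOver A E
local notation "F1" => modularFunctionFieldFullC (H45.unrCyclo q) (q * L)
local notation "F2" => modularFunctionFieldFullC (H45.unrCyclo q) (q * (q * L))
local notation "F1E" => modularFunctionFieldFullC ↥E (q * L)
local notation "F2E" => modularFunctionFieldFullC ↥E (q * (q * L))
local notation "aE" => S36.H18.alphaK ↥E (q * L) (q * (q * L)) (dvd_mul_left (q * L) q)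
local notation "bE" => S36.H18.betaK ↥E q (q * L) (q * (q * L)) dvd_rfl

include hA in
/-- **`LevelMaps` at the E-level, any chart coordinates `c₁` (level `q L`), `J₁` (level `q² L`),
any chart maps over `ι₂`, `V₂`.** -/
theorem levelMapsE_of_coe {c₁ : F1} {J₁ : F2}
    (π : A'') (hπ : maximalIdeal A'' = Ideal.span {π})
    (hM : S35.H70.GenBy (A := A) E (q * L) c₁)
    (J_E : F2E) (hJ : H45.baseChangeE E (q * (q * L)) J₁ = J_E)
    (c_E : F1E) (hc : H45.baseChangeE E (q * L) c₁ = c_E)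
    {R₀ : Type*} [CommRing R₀]
    {red₁ red₂ red₃ : ↥(H40.chartB A₁ J₁) →+* R₀} {red₁' red₂' : ↥(H40.chartB A₁ c₁) →+* R₀}
    {α β : ↥(H40.chartB A₁ c₁) →+* ↥(H40.chartB A₁ J₁)} {W : R₀ →+* R₀}
    (LM : LevelMaps red₁ red₂ red₃ red₁' red₂' α β W)
    (hα : ∀ b, ((α b : ↥(H40.chartB A₁ J₁)) : F2) = iotaMN (q * L) (ℓ := q) (b : F1))
    (hβ : ∀ b, ((β b : ↥(H40.chartB A₁ J₁)) : F2) = VMN (q * L) (ℓ := q) (b : F1))
    {red₁'' red₂'' red₃'' : ↥(H40.chartB A'' J_E) →+* R₀}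
    (hcl₁ : ∀ b, red₁'' (S34.H95.chartBC (A := A) E (q * (q * L)) J₁ J_E hJ b) = red₁ b)
    (hcl₂ : ∀ b, red₂'' (S34.H95.chartBC (A := A) E (q * (q * L)) J₁ J_E hJ b) = red₂ b)
    (hcl₃ : ∀ b, red₃'' (S34.H95.chartBC (A := A) E (q * (q * L)) J₁ J_E hJ b) = red₃ b)
    (hπ₁ : red₁'' (algebraMap A'' ↥(H40.chartB A'' J_E) π) = 0)
    (hπ₂ : red₂'' (algebraMap A'' ↥(H40.chartB A'' J_E) π) = 0)
    (hπ₃ : red₃'' (algebraMap A'' ↥(H40.chartB A'' J_E) π) = 0)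
    {red₁''' red₂''' : ↥(H40.chartB A'' c_E) →+* R₀}
    (hcl₁' : ∀ b, red₁''' (S34.H95.chartBC (A := A) E (q * L) c₁ c_E hc b) = red₁' b)
    (hcl₂' : ∀ b, red₂''' (S34.H95.chartBC (A := A) E (q * L) c₁ c_E hc b) = red₂' b)
    (hπ₁' : red₁''' (algebraMap A'' ↥(H40.chartB A'' c_E) π) = 0)
    (hπ₂' : red₂''' (algebraMap A'' ↥(H40.chartB A'' c_E) π) = 0)
    {α'' β'' : ↥(H40.chartB A'' c_E) →+* ↥(H40.chartB A'' J_E)}
    (hα'' : ∀ x, ((α'' x : ↥(H40.chartB A'' J_E)) : F2E) = aE (x : F1E))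
    (hβ'' : ∀ x, ((β'' x : ↥(H40.chartB A'' J_E)) : F2E) = bE (x : F1E)) :
    LevelMaps red₁'' red₂'' red₃'' red₁''' red₂''' α'' β'' W :=
  levelMaps_chartBC hq.out hA E (q * (q * L)) (q * L) J₁ c₁ π hπ hM J_E hJ c_E hc LM
    (hαA₁_of_coe L A α hα) (hβA₁_of_coe L A β hβ) aE bE
    (hαbc_of_coe L A E α hα) (aE_algebraMap L A E) (hβbc_of_coe L A E β hβ) (bE_algebraMap L A E)
    hcl₁ hcl₂ hcl₃ hπ₁ hπ₂ hπ₃ hcl₁' hcl₂' hπ₁' hπ₂' hα'' hβ''

variable [FiniteDimensional (H45.unrCyclo q) E]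

include hqL hA in
/-- **Chart 1** (`c₁ = j j_q`, `J₁ = J₃`), helper96's `α β`. -/
theorem levelMapsE_J3 (π : A'') (hπ : maximalIdeal A'' = Ideal.span {π})
    (J_E : F2E) (hJ : H45.baseChangeE E (q * (q * L)) (J3N L (q := q)) = J_E)
    (c_E : F1E) (hc : H45.baseChangeE E (q * L) (JN L (ℓ := q)) = c_E)
    {R₀ : Type*} [CommRing R₀]
    {red₁ red₂ red₃ : ↥(H40.chartB A₁ (J3N L (q := q))) →+* R₀}
    {red₁' red₂' : ↥(H40.chartB A₁ (JN L (ℓ := q))) →+* R₀} {W : R₀ →+* R₀}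
    (LM : LevelMaps red₁ red₂ red₃ red₁' red₂'
      (chartMap (iotaMN (q * L) (ℓ := q)) (iotaMN_algebraMap (q * L) A) (S36.H96.hinta1 L A))
      (chartMap (VMN (q * L) (ℓ := q)) (VMN_algebraMap (q * L) A) (S36.H96.hintb1 L A)) W)
    {red₁'' red₂'' red₃'' : ↥(H40.chartB A'' J_E) →+* R₀}
    (hcl₁ : ∀ b, red₁'' (S34.H95.chartBC (A := A) E (q * (q * L)) _ J_E hJ b) = red₁ b)
    (hcl₂ : ∀ b, red₂'' (S34.H95.chartBC (A := A) E (q * (q * L)) _ J_E hJ b) = red₂ b)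
    (hcl₃ : ∀ b, red₃'' (S34.H95.chartBC (A := A) E (q * (q * L)) _ J_E hJ b) = red₃ b)
    (hπ₁ : red₁'' (algebraMap A'' ↥(H40.chartB A'' J_E) π) = 0)
    (hπ₂ : red₂'' (algebraMap A'' ↥(H40.chartB A'' J_E) π) = 0)
    (hπ₃ : red₃'' (algebraMap A'' ↥(H40.chartB A'' J_E) π) = 0)
    {red₁''' red₂''' : ↥(H40.chartB A'' c_E) →+* R₀}
    (hcl₁' : ∀ b, red₁''' (S34.H95.chartBC (A := A) E (q * L) _ c_E hc b) = red₁' b)
    (hcl₂' : ∀ b, red₂''' (S34.H95.chartBC (A := A) E (q * L) _ c_E hc b) = red₂' b)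
    (hπ₁' : red₁''' (algebraMap A'' ↥(H40.chartB A'' c_E) π) = 0)
    (hπ₂' : red₂''' (algebraMap A'' ↥(H40.chartB A'' c_E) π) = 0)
    {α'' β'' : ↥(H40.chartB A'' c_E) →+* ↥(H40.chartB A'' J_E)}
    (hα'' : ∀ x, ((α'' x : ↥(H40.chartB A'' J_E)) : F2E) = aE (x : F1E))
    (hβ'' : ∀ x, ((β'' x : ↥(H40.chartB A'' J_E)) : F2E) = bE (x : F1E)) :
    LevelMaps red₁'' red₂'' red₃'' red₁''' red₂''' α'' β'' W :=
  levelMapsE_of_coe L A hA E π hπ (S35.H70.genBy_JN L hqL A hA E) J_E hJ c_E hc LM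
    (fun _ => rfl) (fun _ => rfl) hcl₁ hcl₂ hcl₃ hπ₁ hπ₂ hπ₃ hcl₁' hcl₂' hπ₁' hπ₂' hα'' hβ''

include hqL hA in
/-- **Chart 2** (`c₁ = (j j_q)⁻¹`, `J₁ = J₃⁻¹`), helper96's `α β`. -/
theorem levelMapsE_J3_inv (π : A'') (hπ : maximalIdeal A'' = Ideal.span {π})
    (J_E : F2E) (hJ : H45.baseChangeE E (q * (q * L)) (J3N L (q := q))⁻¹ = J_E)
    (c_E : F1E) (hc : H45.baseChangeE E (q * L) (JN L (ℓ := q))⁻¹ = c_E)
    {R₀ : Type*} [CommRing R₀]
    {red₁ red₂ red₃ : ↥(H40.chartB A₁ (J3N L (q := q))⁻¹) →+* R₀}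
    {red₁' red₂' : ↥(H40.chartB A₁ (JN L (ℓ := q))⁻¹) →+* R₀} {W : R₀ →+* R₀}
    (LM : LevelMaps red₁ red₂ red₃ red₁' red₂'
      (chartMap (iotaMN (q * L) (ℓ := q)) (iotaMN_algebraMap (q * L) A) (S36.H96.hinta2 L A))
      (chartMap (VMN (q * L) (ℓ := q)) (VMN_algebraMap (q * L) A) (S36.H96.hintb2 L A)) W)
    {red₁'' red₂'' red₃'' : ↥(H40.chartB A'' J_E) →+* R₀}
    (hcl₁ : ∀ b, red₁'' (S34.H95.chartBC (A := A) E (q * (q * L)) _ J_E hJ b) = red₁ b)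
    (hcl₂ : ∀ b, red₂'' (S34.H95.chartBC (A := A) E (q * (q * L)) _ J_E hJ b) = red₂ b)
    (hcl₃ : ∀ b, red₃'' (S34.H95.chartBC (A := A) E (q * (q * L)) _ J_E hJ b) = red₃ b)
    (hπ₁ : red₁'' (algebraMap A'' ↥(H40.chartB A'' J_E) π) = 0)
    (hπ₂ : red₂'' (algebraMap A'' ↥(H40.chartB A'' J_E) π) = 0)
    (hπ₃ : red₃'' (algebraMap A'' ↥(H40.chartB A'' J_E) π) = 0)
    {red₁''' red₂''' : ↥(H40.chartB A'' c_E) →+* R₀}
    (hcl₁' : ∀ b, red₁''' (S34.H95.chartBC (A := A) E (q * L) _ c_E hc b) = red₁' b)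
    (hcl₂' : ∀ b, red₂''' (S34.H95.chartBC (A := A) E (q * L) _ c_E hc b) = red₂' b)
    (hπ₁' : red₁''' (algebraMap A'' ↥(H40.chartB A'' c_E) π) = 0)
    (hπ₂' : red₂''' (algebraMap A'' ↥(H40.chartB A'' c_E) π) = 0)
    {α'' β'' : ↥(H40.chartB A'' c_E) →+* ↥(H40.chartB A'' J_E)}
    (hα'' : ∀ x, ((α'' x : ↥(H40.chartB A'' J_E)) : F2E) = aE (x : F1E))
    (hβ'' : ∀ x, ((β'' x : ↥(H40.chartB A'' J_E)) : F2E) = bE (x : F1E)) :
    LevelMaps red₁'' red₂'' red₃'' red₁''' red₂''' α'' β'' W :=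
  levelMapsE_of_coe L A hA E π hπ (S35.H70.genBy_JN_inv L hqL A hA E) J_E hJ c_E hc LM
    (fun _ => rfl) (fun _ => rfl) hcl₁ hcl₂ hcl₃ hπ₁ hπ₂ hπ₃ hcl₁' hcl₂' hπ₁' hπ₂' hα'' hβ''

end Real

end Fermat.Agent.S36.H83
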