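/-
S36 / (E2) -> (E6) seam, helper84: **evaluation at a rational closed point, with ONE residue field
for all points.**

`S36.H85.TripleLoc` / `GlueRelsAt` / `radDatum_of_towers` use residue maps `ev : O n →+* k` into
ONE field `k` for ALL closed points `n`.  For a local subring `O ⊆ F` over a base ring `R` whose
residue field at `π` is `R ⧸ (π)` (the point is rational: `hres`), we construct
`ev : O →+* R ⧸ (π)` with kernel the non-units and `ev c = c mod π` on `R`
(`exists_ev`), characterise it (`ev_eq_mk_of_not_unitIn`), prove compatibility with a local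
`R`-linear field map `a : F1 →+* F2` (`ev_comp`), and `ev x = 1` for `1`-units of valuation rings
containing `O` (`ev_oneU`).
-/
import Mathlib
import Fermat.Agent.S36.H84_TowerAdapters

set_option autoImplicit false
set_option linter.unusedSectionVars false
set_option linter.style.haveILetI false

namespace Fermat.Agent.S36.H84

open Fermat.Agent.S34 Fermat.Agent.S34.H47

section Ev

variable {R F : Type*} [CommRing R] [Field F] [Algebra R F]

/-- **The evaluation map of a rational local subring.** -/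
theorem exists_ev (O : Subring F)
    (hloc : ∀ a b : F, UnitIn O a → b ∈ O → ¬ UnitIn O b → UnitIn O (a + b))
    (hRO : ∀ c : R, algebraMap R F c ∈ O) (π : R) [hπ : (Ideal.span {π}).IsMaximal]
    (hπO : ¬ UnitIn O (algebraMap R F π))
    (hres : ∀ x ∈ O, ∃ c : R, ¬ UnitIn O (x - algebraMap R F c)) :
    ∃ ev : O →+* R ⧸ Ideal.span {π}, (∀ x : O, ev x = 0 ↔ ¬ UnitIn O (x : F)) ∧
      ∀ c : R, ev ⟨algebraMap R F c, hRO c⟩ = Ideal.Quotient.mk _ c := by
  classical
  haveI := isLocalRing_of_unitIn O hloc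
  let g : R →+* O := (algebraMap R F).codRestrict O hRO
  let ρ : O →+* IsLocalRing.ResidueField O := IsLocalRing.residue O
  have hmem : ∀ x : O, ρ x = 0 ↔ ¬ UnitIn O (x : F) := by
    intro x
    rw [IsLocalRing.residue_eq_zero_iff, IsLocalRing.mem_maximalIdeal, mem_nonunits_iff,
      isUnit_iff_unitIn]
  have hgπ : (ρ.comp g) π = 0 := (hmem (g π)).2 hπO
  have hker : ∀ r ∈ Ideal.span {π}, (ρ.comp g) r = 0 := by
    intro r hr
    obtain ⟨c, rfl⟩ := Ideal.mem_span_singleton'.1 hr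
    rw [map_mul, hgπ, mul_zero]
  let φ : R ⧸ Ideal.span {π} →+* IsLocalRing.ResidueField O :=
    Ideal.Quotient.lift _ (ρ.comp g) hker
  letI : Field (R ⧸ Ideal.span {π}) := Ideal.Quotient.field _
  have hinj : Function.Injective φ := φ.injective
  have hφ : ∀ c : R, φ (Ideal.Quotient.mk _ c) = ρ (g c) := fun c => rfl
  have hsurj : Function.Surjective φ := by
    intro y
    obtain ⟨x, rfl⟩ := IsLocalRing.residue_surjective y
    obtain ⟨c, hc⟩ := hres x x.2
    refine ⟨Ideal.Quotient.mk _ c, ?_⟩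
    have h0 : ρ (x - g c) = 0 := (hmem _).2 hc
    rw [map_sub, sub_eq_zero] at h0
    rw [hφ, h0]
  let e : R ⧸ Ideal.span {π} ≃+* IsLocalRing.ResidueField O :=
    RingEquiv.ofBijective φ ⟨hinj, hsurj⟩
  refine ⟨(e.symm : IsLocalRing.ResidueField O →+* R ⧸ Ideal.span {π}).comp ρ, ?_, ?_⟩
  · intro x
    rw [RingHom.comp_apply, RingHom.coe_coe, ← hmem x]
    exact e.symm.map_eq_zero_iff
  · intro c
    rw [RingHom.comp_apply, RingHom.coe_coe, RingEquiv.symm_apply_eq]
    exact (hφ c).symm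

variable {O : Subring F} {π : R} (hRO : ∀ c : R, algebraMap R F c ∈ O)
  (ev : O →+* R ⧸ Ideal.span {π})
  (hev0 : ∀ x : O, ev x = 0 ↔ ¬ UnitIn O (x : F))
  (hevc : ∀ c : R, ev ⟨algebraMap R F c, hRO c⟩ = Ideal.Quotient.mk _ c)

include hev0 hevc in
/-- `ev x` is the class of any `c ∈ R` with `x - c` a non-unit. -/
theorem ev_eq_mk_of_not_unitIn {x : F} (hx : x ∈ O) {c : R}
    (h : ¬ UnitIn O (x - algebraMap R F c)) : ev ⟨x, hx⟩ = Ideal.Quotient.mk _ c := by
  have h1 : ev (⟨x, hx⟩ - ⟨algebraMap R F c, hRO c⟩) = 0 := (hev0 _).2 h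
  rw [map_sub, sub_eq_zero] at h1
  rw [h1, hevc]

include hev0 in
/-- `ev x = 1` for a `1`-unit `x ∈ O` of a valuation ring containing `O`. -/
theorem ev_oneU {V : ValuationSubring F} (hOV : ∀ x ∈ O, x ∈ V) (x : F) (hx : x ∈ O)
    (h : OneU V x) : ev ⟨x, hx⟩ = 1 := by
  have h1 : ev (⟨x, hx⟩ - 1) = 0 := by
    rw [hev0]
    intro hu
    have hv : V.valuation (x - 1) = 1 := valuation_eq_one_of_unitIn_le hOV hu
    have hlt : V.valuation (x - 1) < 1 := h
    rw [hv] at hlt
    exact lt_irrefl _ hlt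
  rw [map_sub, sub_eq_zero, map_one] at h1
  exact h1

end Ev

section Comp

variable {R F1 F2 : Type*} [CommRing R] [Field F1] [Field F2] [Algebra R F1] [Algebra R F2]
  {O' : Subring F1} {O : Subring F2} {π : R}

/-- **Compatibility of the evaluations along a local `R`-linear field map.** -/
theorem ev_comp (a : F1 →+* F2) (haR : ∀ c : R, a (algebraMap R F1 c) = algebraMap R F2 c)
    (hRO' : ∀ c : R, algebraMap R F1 c ∈ O') (hRO : ∀ c : R, algebraMap R F2 c ∈ O)
    (halocal : ∀ x ∈ O', ¬ UnitIn O' x → ¬ UnitIn O (a x))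
    (hres' : ∀ x ∈ O', ∃ c : R, ¬ UnitIn O' (x - algebraMap R F1 c))
    (ev : O →+* R ⧸ Ideal.span {π}) (ev' : O' →+* R ⧸ Ideal.span {π})
    (hev0 : ∀ x : O, ev x = 0 ↔ ¬ UnitIn O (x : F2))
    (hevc : ∀ c : R, ev ⟨algebraMap R F2 c, hRO c⟩ = Ideal.Quotient.mk _ c)
    (hev0' : ∀ x : O', ev' x = 0 ↔ ¬ UnitIn O' (x : F1))
    (hevc' : ∀ c : R, ev' ⟨algebraMap R F1 c, hRO' c⟩ = Ideal.Quotient.mk _ c)
    (x : F1) (hx : x ∈ O') (hx2 : a x ∈ O) : ev ⟨a x, hx2⟩ = ev' ⟨x, hx⟩ := by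
  obtain ⟨c, hc⟩ := hres' x hx
  rw [ev_eq_mk_of_not_unitIn hRO' ev' hev0' hevc' hx hc]
  refine ev_eq_mk_of_not_unitIn hRO ev hev0 hevc hx2 ?_
  have h1 : a x - algebraMap R F2 c = a (x - algebraMap R F1 c) := by
    rw [map_sub, haR]
  rw [h1]
  exact halocal _ (O'.sub_mem hx (hRO' c)) hc

end Comp

end Fermat.Agent.S36.H84
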