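/-
helper84 -- S36 row (r5)-inst, a real-types seam: the binders `hfda hNa hfdb hNb` of
`S36.H85.hpt_of_levelMaps_fixed` / `hpt_of_rows_normalised` / `S36.H84.hpt_chart`
(`letI := a.toAlgebra; FiniteDimensional F1 F2` and
`∀ x, Na x = (letI := a.toAlgebra; Algebra.norm F1 x)`) at helper18's real-types vocabulary
`a := H18.alphaK K N1 N2 hN`, `Na := H18.normAlphaK K N1 N2 hN` (and `β`), `N2 = q * N1`, `q ∣ N1`.
-/
import Mathlib
import Fermat.Agent.S36.H18_Geo36Consts

set_option autoImplicit false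
set_option linter.unusedSectionVars false
set_option linter.style.haveILetI false
set_option synthInstance.maxHeartbeats 400000

noncomputable section

namespace Fermat.Agent.S36.H84

open ModularCurve Fermat.Agent.S34 Fermat.Agent.S36.H18

variable (K : Type) [Field K] (q N1 N2 : ℕ) [NeZero q] [NeZero N1] [NeZero N2]
  (hN : N1 ∣ N2) (hqN : q * N1 ∣ N2)

/-- `hfda` at the real types. -/
theorem finiteDimensional_alphaK_toAlgebra (hq : q.Prime) (hqN1 : q ∣ N1) (hN2 : N2 = q * N1)
    (hNK : ((N2 : ℕ) : K) ≠ 0) :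
    letI := (alphaK K N1 N2 hN).toAlgebra
    FiniteDimensional (modularFunctionFieldFullC K N1) (modularFunctionFieldFullC K N2) :=
  S36.H16.finiteDimensional_fullC_prime_dvd K N1 N2 hN q hq hqN1 hN2 hNK

/-- `hNa` at the real types. -/
theorem normAlphaK_eq_norm_toAlgebra (hq : q.Prime) (hqN1 : q ∣ N1) (hN2 : N2 = q * N1)
    (hNK : ((N2 : ℕ) : K) ≠ 0) (x : modularFunctionFieldFullC K N2) :
    normAlphaK K N1 N2 hN x =
      (letI := (alphaK K N1 N2 hN).toAlgebra
       Algebra.norm (modularFunctionFieldFullC K N1) x) := by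
  letI := H16.degAlgebra K N1 N2 hN
  haveI : FiniteDimensional (modularFunctionFieldFullC K N1) (modularFunctionFieldFullC K N2) :=
    S36.H16.finiteDimensional_fullC_prime_dvd K N1 N2 hN q hq hqN1 hN2 hNK
  exact normZ_eq_norm x

/-- `hfdb` at the real types. -/
theorem finiteDimensional_betaK_toAlgebra (hq : q.Prime) (hqN1 : q ∣ N1) (hN2 : N2 = q * N1)
    (hNK : ((N2 : ℕ) : K) ≠ 0) :
    letI := (betaK K q N1 N2 hqN).toAlgebra
    FiniteDimensional (modularFunctionFieldFullC K N1) (modularFunctionFieldFullC K N2) :=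
  S36.H16.finiteDimensional_vSub_dvd K N1 N2 q hq hqN1 hN2 hNK

/-- `hNb` at the real types. -/
theorem normBetaK_eq_norm_toAlgebra (hq : q.Prime) (hqN1 : q ∣ N1) (hN2 : N2 = q * N1)
    (hNK : ((N2 : ℕ) : K) ≠ 0) (x : modularFunctionFieldFullC K N2) :
    normBetaK K q N1 N2 hqN x =
      (letI := (betaK K q N1 N2 hqN).toAlgebra
       Algebra.norm (modularFunctionFieldFullC K N1) x) := by
  letI := S35.H16.vAlgebra K q N1 N2 hqN
  haveI : FiniteDimensional (modularFunctionFieldFullC K N1) (modularFunctionFieldFullC K N2) :=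
    S36.H16.finiteDimensional_vSub_dvd K N1 N2 q hq hqN1 hN2 hNK
  exact normZ_eq_norm x

end Fermat.Agent.S36.H84
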