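/-
helper84 -- S36, the (W) block of `H18.geoFn36E_of_radicalDatum` (`hWFπ`, `hWVπ`): **`q` is a
uniformiser of the two vertical valuations of the level-`(L, q)` model**, read off from the landed
`S34.H83.TwoComponents` package (`hinf : ker red₁ ∩ ker red₂ ⊆ (q)`).

* `not_mem_symbSq_of_localGen` : `p` height one, `τ ∈ p`, `p` locally generated by `τ`
  (`∀ z ∈ p, ∃ t ∉ p, t * z ∈ (τ)`) ⟹ `τ ∉ p^(2)` (`H62.symbSq`);
* `exists_zpow_valuation_eq_one_of_localGen` : then every `x ≠ 0` of the fraction field is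
  `τ ^ n` times a unit of `H56.valuationSubringAt p`;
* `TwoComponents.exists_zpow_valuation_eq_one_first/_second` : the instance at `ker red₁`, `ker red₂`
  with a separating element;
* `vertical_facts_first/_second` : the three facts `hWint hWq hWπ` of the consumer in one call, for
  a base field `K0` with valuation subring `A0` whose elements all come from the base ring `R`.
-/
import Mathlib
import Fermat.Agent.S34.H83_L0Target
import Fermat.Agent.S36.H62_Uniformisers

set_option autoImplicit false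
set_option linter.unusedSectionVars false
set_option linter.unusedVariables false
set_option linter.style.haveILetI false

namespace Fermat.Agent.S36.H84

open Fermat.Agent.CA.H42 Fermat.Agent.S34.H56 Fermat.Agent.S36.H62

section Generic

variable {B K : Type*} [CommRing B] [IsDomain B] [Field K] [Algebra B K] [IsFractionRing B K]
  [IsNoetherianRing B] [IsIntegrallyClosed B]

/-- A local generator of a height-one prime is not in its symbolic square. -/
theorem not_mem_symbSq_of_localGen (p : Ideal B) [hp : p.IsPrime] (h1 : p.height = 1) (τ : B)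
    (hgen : ∀ z ∈ p, ∃ t : B, t ∉ p ∧ t * z ∈ Ideal.span {τ}) : τ ∉ symbSq p := by
  intro hτ
  apply not_le_symbSq p h1
  intro z hz
  obtain ⟨t, ht, htz⟩ := hgen z hz
  obtain ⟨c, hc⟩ := Ideal.mem_span_singleton'.1 htz
  -- `t * z = c * τ ∈ p^(2)` and `t ∉ p`
  have h2 : algebraMap B (Localization.AtPrime p) (t * z) ∈
      IsLocalRing.maximalIdeal (Localization.AtPrime p) ^ 2 := by
    rw [← hc, map_mul]
    exact Ideal.mul_mem_left _ _ hτ
  have hu : IsUnit (algebraMap B (Localization.AtPrime p) t) :=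
    (IsLocalization.AtPrime.isUnit_to_map_iff (Localization.AtPrime p) p t).mpr ht
  rw [map_mul] at h2
  show algebraMap B (Localization.AtPrime p) z ∈
    IsLocalRing.maximalIdeal (Localization.AtPrime p) ^ 2
  obtain ⟨u, hu'⟩ := hu
  have : algebraMap B (Localization.AtPrime p) z =
      (↑u⁻¹ : Localization.AtPrime p) *
        (algebraMap B (Localization.AtPrime p) t * algebraMap B (Localization.AtPrime p) z) := by
    rw [← hu', ← mul_assoc, Units.inv_mul, one_mul]
  rw [this]
  exact Ideal.mul_mem_left _ _ h2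

/-- A local generator of a height-one prime is a uniformiser of its valuation subring. -/
theorem exists_zpow_valuation_eq_one_of_localGen (p : Ideal B) [hp : p.IsPrime]
    (h1 : p.height = 1) (τ : B) (hτp : τ ∈ p)
    (hgen : ∀ z ∈ p, ∃ t : B, t ∉ p ∧ t * z ∈ Ideal.span {τ}) (x : K) (hx : x ≠ 0) :
    ∃ n : ℤ, (valuationSubringAt (K := K) p h1).valuation (x * algebraMap B K τ ^ (-n)) = 1 := by
  have hirr := irreducible_algebraMap_of_not_mem_symbSq p h1 τ hτp
    (not_mem_symbSq_of_localGen p h1 τ hgen)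
  obtain ⟨n, hn⟩ := exists_isUnitAt_mul_zpow (K := K) p h1 τ hirr x hx
  exact ⟨n, (valuation_eq_one_iff h1).mpr hn⟩

end Generic

section TwoComp

open Fermat.Agent.S34.H83

variable {B D BM : Type*} [CommRing B] [CommRing D] [CommRing BM]
  {red₁ red₂ : B →+* D} {ι V : BM →+* B} {rbar : BM →+* D} {W : D →+* D} {q : ℕ} {qB : B}

/-- `ker red₁` is locally generated by `qB` (multiplier: a separating element). -/
theorem localGen_first (h : TwoComponents red₁ red₂ ι V rbar W q qB) {s : B}
    (hs₂ : red₂ s = 0) (hs₁ : red₁ s ≠ 0) :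
    ∀ z ∈ RingHom.ker red₁, ∃ t : B, t ∉ RingHom.ker red₁ ∧ t * z ∈ Ideal.span {qB} := by
  intro z hz
  refine ⟨s, fun hs => hs₁ ((RingHom.mem_ker).mp hs), h.hinf _ ?_ ?_⟩
  · rw [map_mul, (RingHom.mem_ker).mp hz, mul_zero]
  · rw [map_mul, hs₂, zero_mul]

/-- `ker red₂` is locally generated by `qB` (multiplier: a separating element). -/
theorem localGen_second (h : TwoComponents red₁ red₂ ι V rbar W q qB) {s : B}
    (hs₁ : red₁ s = 0) (hs₂ : red₂ s ≠ 0) :
    ∀ z ∈ RingHom.ker red₂, ∃ t : B, t ∉ RingHom.ker red₂ ∧ t * z ∈ Ideal.span {qB} := by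
  intro z hz
  refine ⟨s, fun hs => hs₂ ((RingHom.mem_ker).mp hs), h.hinf _ ?_ ?_⟩
  · rw [map_mul, hs₁, zero_mul]
  · rw [map_mul, (RingHom.mem_ker).mp hz, mul_zero]

variable [IsDomain B] {K : Type*} [Field K] [Algebra B K] [IsFractionRing B K]
  [IsNoetherianRing B] [IsIntegrallyClosed B]

/-- **`qB` is a uniformiser of the valuation of the first vertical prime.** -/
theorem exists_zpow_valuation_eq_one_first (h : TwoComponents red₁ red₂ ι V rbar W q qB)
    (hq₁ : red₁ qB = 0) {s : B} (hs₂ : red₂ s = 0) (hs₁ : red₁ s ≠ 0)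
    [hp : (RingHom.ker red₁).IsPrime] (hh : (RingHom.ker red₁).height = 1) (x : K) (hx : x ≠ 0) :
    ∃ n : ℤ, (valuationSubringAt (K := K) (RingHom.ker red₁) hh).valuation
      (x * algebraMap B K qB ^ (-n)) = 1 :=
  exists_zpow_valuation_eq_one_of_localGen _ hh qB ((RingHom.mem_ker).mpr hq₁)
    (localGen_first h hs₂ hs₁) x hx

/-- **`qB` is a uniformiser of the valuation of the second vertical prime.** -/
theorem exists_zpow_valuation_eq_one_second (h : TwoComponents red₁ red₂ ι V rbar W q qB)
    (hq₂ : red₂ qB = 0) {s : B} (hs₁ : red₁ s = 0) (hs₂ : red₂ s ≠ 0)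
    [hp : (RingHom.ker red₂).IsPrime] (hh : (RingHom.ker red₂).height = 1) (x : K) (hx : x ≠ 0) :
    ∃ n : ℤ, (valuationSubringAt (K := K) (RingHom.ker red₂) hh).valuation
      (x * algebraMap B K qB ^ (-n)) = 1 :=
  exists_zpow_valuation_eq_one_of_localGen _ hh qB ((RingHom.mem_ker).mpr hq₂)
    (localGen_second h hs₁ hs₂) x hx

end TwoComp

section Base

/-! The three `(W)` facts of `H18.geoFn36E_of_radicalDatum` for `W := valuationSubringAt p` on a
chart `B` over a base ring `R` whose image in the constant field `K0` is the valuation subring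
`A0`. -/

variable {R K0 B F : Type*} [CommRing R] [Field K0] [Algebra R K0]
  [CommRing B] [IsDomain B] [Field F] [Algebra B F] [IsFractionRing B F]
  [IsNoetherianRing B] [IsIntegrallyClosed B]
  [Algebra R B] [Algebra R F] [Algebra K0 F] [IsScalarTower R B F] [IsScalarTower R K0 F]

/-- `hWint`: the base valuation ring lands in `valuationSubringAt p`. -/
theorem valuation_algebraMap_le_one_of_base (A0 : ValuationSubring K0)
    (hA0 : ∀ x : K0, x ∈ A0 → ∃ r : R, algebraMap R K0 r = x)
    (p : Ideal B) [hp : p.IsPrime] (h1 : p.height = 1) (x : K0) (hx : A0.valuation x ≤ 1) :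
    (valuationSubringAt (K := F) p h1).valuation (algebraMap K0 F x) ≤ 1 := by
  obtain ⟨r, rfl⟩ := hA0 x ((A0.valuation_le_one_iff x).mp hx)
  rw [← IsScalarTower.algebraMap_apply R K0 F, IsScalarTower.algebraMap_apply R B F]
  exact ((valuationSubringAt (K := F) p h1).valuation_le_one_iff _).mpr
    (algebraMap_mem_valuationSubringAt h1 _)

/-- `hWq`: an element of the base ring lying in `p` has valuation `< 1`. -/
theorem valuation_algebraMap_lt_one_of_base (p : Ideal B) [hp : p.IsPrime] (h1 : p.height = 1)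
    (τ : R) (hτp : algebraMap R B τ ∈ p) {qK : K0} (hqK : algebraMap R K0 τ = qK) :
    (valuationSubringAt (K := F) p h1).valuation (algebraMap K0 F qK) < 1 := by
  rw [← hqK, ← IsScalarTower.algebraMap_apply R K0 F, IsScalarTower.algebraMap_apply R B F]
  exact (algebraMap_mem_nonunits_iff h1 _).mpr hτp

/-- `hWπ`: a local generator of `p` coming from the base ring is a uniformiser. -/
theorem exists_zpow_valuation_eq_one_of_base (p : Ideal B) [hp : p.IsPrime] (h1 : p.height = 1)
    (τ : R) (hτp : algebraMap R B τ ∈ p)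
    (hgen : ∀ z ∈ p, ∃ t : B, t ∉ p ∧ t * z ∈ Ideal.span {algebraMap R B τ})
    {qK : K0} (hqK : algebraMap R K0 τ = qK) (x : F) (hx : x ≠ 0) :
    ∃ n : ℤ, (valuationSubringAt (K := F) p h1).valuation
      (x * algebraMap K0 F qK ^ (-n)) = 1 := by
  rw [← hqK, ← IsScalarTower.algebraMap_apply R K0 F, IsScalarTower.algebraMap_apply R B F]
  exact exists_zpow_valuation_eq_one_of_localGen p h1 _ hτp hgen x hx

/-- **The `(W)` block in one call.** -/
theorem vertical_facts (A0 : ValuationSubring K0)
    (hA0 : ∀ x : K0, x ∈ A0 → ∃ r : R, algebraMap R K0 r = x)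
    (p : Ideal B) [hp : p.IsPrime] (h1 : p.height = 1)
    (τ : R) (hτp : algebraMap R B τ ∈ p)
    (hgen : ∀ z ∈ p, ∃ t : B, t ∉ p ∧ t * z ∈ Ideal.span {algebraMap R B τ})
    {qK : K0} (hqK : algebraMap R K0 τ = qK) :
    (∀ x : K0, A0.valuation x ≤ 1 →
      (valuationSubringAt (K := F) p h1).valuation (algebraMap K0 F x) ≤ 1) ∧
    (valuationSubringAt (K := F) p h1).valuation (algebraMap K0 F qK) < 1 ∧
    ∀ x : F, x ≠ 0 → ∃ n : ℤ, (valuationSubringAt (K := F) p h1).valuation
      (x * algebraMap K0 F qK ^ (-n)) = 1 :=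
  ⟨valuation_algebraMap_le_one_of_base A0 hA0 p h1,
    valuation_algebraMap_lt_one_of_base p h1 τ hτp hqK,
    exists_zpow_valuation_eq_one_of_base p h1 τ hτp hgen hqK⟩

end Base

end Fermat.Agent.S36.H84
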