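/-
S36, row (M4-hell) (helper85; coordinator NOTE 7 #3482): the PRODUCER of the hypothesis
`hell : a * (ψ - c₀) = ε * s ^ e` (`ιw a, ιw ε ∉ n`) of `S36.H65.hE_middle_elliptic`.

It is (E4) Step 2 at the level `L` for `u := ψ - c₀`, `m := e`:

* `exists_mul_eq_mul_pow_of_unitIn` : clearing denominators.  `B` integrally closed, `b` a prime,
  `u ∈ B`, `G ∈ F` with `u / G ^ e` a unit of `B_b`  ⟹  `a u = ε s ^ e` in `B` with `a, ε ∉ b`
  (`G ∈ B_b` because `B_b` is root closed).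
* `exists_elliptic_power` : ONE chart `B` (noetherian, integrally closed, over `R`, `k = R[1/π]`),
  `b` a prime with `B_b` factorial, `u ∈ B` not in any vertical height-one prime through `b`, and
  `e ∣ ord_v u` at every place `v` of `F / k` with `ord_v u > 0`  ⟹  `a u = ε s ^ e`, `a, ε ∉ b`.
  (Only places with `ord_v u > 0` are constrained: the poles of `j - c₀` at the cusps are free.)
* `exists_elliptic_power_of_red` : the same with `B_b` factorial DERIVED from
  `rbar : B → D` onto a Dedekind domain with kernel `(π)` (`S36.H62.ufd_localization_of_localGen`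
  with `x := π`), and the vertical hypothesis reduced to `rbar u ≠ 0`.
* `isMaximal_of_hres` : a proper ideal over the closed point of the local ring `R` with residue
  field that of `R` is maximal.
* `exists_hell_comap` : the H65 spelling: `b := n.comap ιw`, conclusion
  `∃ a ε s, ιw a ∉ n ∧ ιw ε ∉ n ∧ a * (ψ - c₀) = ε * s ^ e`.
* `isMaximal_comap_of_hres` : `b = ιw⁻¹ n` is maximal when `n` has residue field that of `R`
  and `ιw` is `R`-linear (a producer of the hypothesis `hb` below).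
* `hE_middle_elliptic_of_places`, `locGen_middle_elliptic_of_places` : `S36.H65.hE_middle_elliptic`
  / `locGen_middle_elliptic` with `a ε s ha hε hell` DISCHARGED (`qM := algebraMap R BM π`).
* `exists_hell_zero`, `exists_hell_1728` : `(c₀, e) = (0, 3)`, `(1728, 2)` with the e-data in
  helper13's ORD form `hE` (`S36.H13.isUnitAt_sixfold_of_horizontal`) VERBATIM.
-/
import Mathlib
import Fermat.Agent.S36.H21_StepTwoPlaces
import Fermat.Agent.S36.H62_M3Chart
import Fermat.Agent.S36.H65_MiddleElliptic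

set_option autoImplicit false
set_option linter.unusedSectionVars false
set_option linter.style.haveILetI false

namespace Fermat.Agent.S36.H85

open Fermat.Agent.S34 Fermat.Agent.S34.H56 Fermat.Agent.S34.H3 AlgebraicCurve Polynomial

section Clear

variable {B F : Type*} [CommRing B] [IsDomain B] [Field F] [Algebra B F] [IsFractionRing B F]
  [IsIntegrallyClosed B]

/-- **Clearing denominators.**  If `u / G ^ e` is a unit of `B_b` (`u ∈ B`, `B` integrally
closed), then `a u = ε s ^ e` in `B` with `a, ε ∉ b`. -/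
theorem exists_mul_eq_mul_pow_of_unitIn (b : Ideal B) [hb : b.IsPrime] {u : B} {G : F} {e : ℕ}
    (he : 0 < e)
    (hG : H47.UnitIn (H21.locSubring (F := F) b) (algebraMap B F u / G ^ e)) :
    ∃ a ε s : B, a ∉ b ∧ ε ∉ b ∧ a * u = ε * s ^ e := by
  have hinj : Function.Injective (algebraMap B F) := IsFractionRing.injective B F
  have hη := hG
  obtain ⟨-, hη2, hη0⟩ := hG
  have hGe0 : G ^ e ≠ 0 := by
    intro h0; apply hη0; rw [h0, div_zero]
  have hu0 : algebraMap B F u ≠ 0 := by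
    intro h0; apply hη0; rw [h0, zero_div]
  -- `G ^ e = u η⁻¹ ∈ B_b`
  have hGe : G ^ e ∈ H21.locSubring (F := F) b := by
    have : G ^ e = algebraMap B F u * (algebraMap B F u / G ^ e)⁻¹ := by
      field_simp
    rw [this]
    exact Subring.mul_mem _ (H21.algebraMap_mem_locSubring b u) hη2
  obtain ⟨s, t, ht, hst⟩ := H21.locSubring_root_closed b he hGe
  obtain ⟨a', s', ha', hs', hrel⟩ := (H21.unitIn_locSubring_iff).1 hη
  refine ⟨s' * t ^ e, a', s, ?_, ha', ?_⟩
  · intro hmem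
    rcases hb.mem_or_mem hmem with h | h
    · exact hs' h
    · exact ht (hb.mem_of_pow_mem _ h)
  · apply hinj
    simp only [map_mul, map_pow]
    rw [← hrel, ← hst, mul_pow]
    field_simp

end Clear

section OneChart

variable {R k B F : Type*} [CommRing R] [IsDomain R] [Field k] [Algebra R k]
  [CommRing B] [IsDomain B] [Field F] [Algebra B F] [IsFractionRing B F]
  [Algebra R B] [Algebra k F] [Algebra R F] [IsScalarTower R B F] [IsScalarTower R k F]
  [IsNoetherianRing B] [IsIntegrallyClosed B]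

/-- **(M4-hell), one chart, `B_b` factorial.**  `u ∈ B` outside every vertical height-one prime
through `b`, with `e ∣ ord_v u` at every place `v` of `F / k` where `ord_v u > 0`: then
`a u = ε s ^ e` with `a, ε ∉ b`. -/
theorem exists_elliptic_power (π : R) [IsLocalization.Away π k]
    (b : Ideal B) [hb : b.IsPrime] [UniqueFactorizationMonoid (Localization.AtPrime b)]
    {u : B} (hu : u ≠ 0) {e : ℕ} (he : 0 < e)
    (hE : ∀ v : Place k F, 0 < v.ord (algebraMap B F u) → (e : ℤ) ∣ v.ord (algebraMap B F u))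
    (hvert : ∀ P : Ideal B, P.IsPrime → P.height = 1 → P ≤ b → algebraMap R B π ∈ P → u ∉ P) :
    ∃ a ε s : B, a ∉ b ∧ ε ∉ b ∧ a * u = ε * s ^ e := by
  have hinj : Function.Injective (algebraMap B F) := IsFractionRing.injective B F
  have hu0 : algebraMap B F u ≠ 0 := fun h => hu (hinj (by rw [h, map_zero]))
  obtain ⟨G, -, hG⟩ := H21.exists_unitIn_div_pow (F := F) b hu0 he (fun P hP h1 hPb => by
    haveI := hP
    by_cases hπP : algebraMap R B π ∈ P
    · -- vertical
      refine ⟨1, one_ne_zero, ?_⟩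
      rw [one_pow, div_one]
      exact ⟨u, 1, hvert P hP h1 hPb hπP, (Ideal.ne_top_iff_one P).1 hP.ne_top,
        by rw [map_one, mul_one]⟩
    · -- horizontal
      obtain ⟨w, -, -, hw0, hwn⟩ := exists_place_of_horizontal (k := k) (F := F) π P h1 hπP
      have hord : 0 ≤ w.ord (algebraMap B F u) :=
        (hwn _ hu0).2 (memAt_algebraMap P hP.ne_top u)
      have hdiv : (e : ℤ) ∣ w.ord (algebraMap B F u) := by
        rcases hord.lt_or_eq with h | h
        · exact hE w h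
        · rw [← h]; exact dvd_zero _
      obtain ⟨g, hg0, hg⟩ := H21.exists_ord_div_pow_eq_zero w hu0 hdiv
      exact ⟨g, hg0, (hw0 _ (div_ne_zero hu0 (pow_ne_zero _ hg0))).mp hg⟩)
  exact exists_mul_eq_mul_pow_of_unitIn b he hG

/-- **(M4-hell), one chart, regular special fibre.**  `rbar : B → D` onto a Dedekind domain with
kernel `(π)`, `b` a closed point of the special fibre, `rbar u ≠ 0`. -/
theorem exists_elliptic_power_of_red {D : Type*} [CommRing D] [IsDedekindDomain D] (π : R)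
    [IsLocalization.Away π k] {rbar : B →+* D} (hrbar : Function.Surjective rbar)
    (hD : ¬ IsField D) (hker : RingHom.ker rbar = Ideal.span {algebraMap R B π})
    (hπ0 : algebraMap R B π ≠ 0) (b : Ideal B) (hb : b.IsMaximal) (hπb : algebraMap R B π ∈ b)
    {u : B} (hu : rbar u ≠ 0) {e : ℕ} (he : 0 < e)
    (hE : ∀ v : Place k F, 0 < v.ord (algebraMap B F u) → (e : ℤ) ∣ v.ord (algebraMap B F u)) :
    ∃ a ε s : B, a ∉ b ∧ ε ∉ b ∧ a * u = ε * s ^ e := by
  haveI hbp : b.IsPrime := hb.isPrime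
  have hkb : RingHom.ker rbar ≤ b := by
    rw [hker, Ideal.span_singleton_le_iff_mem]; exact hπb
  have hπk : rbar (algebraMap R B π) = 0 := by
    rw [← RingHom.mem_ker, hker]; exact Ideal.mem_span_singleton_self _
  haveI : UniqueFactorizationMonoid (Localization.AtPrime b) :=
    H62.ufd_localization_of_localGen hrbar hD b hb hkb hπ0 hπk (fun z hz => by
      refine ⟨1, (Ideal.ne_top_iff_one b).1 hbp.ne_top, ?_⟩
      rw [one_mul, ← hker]; exact hz)
  have hu0 : u ≠ 0 := fun h => hu (by rw [h, map_zero])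
  refine exists_elliptic_power (k := k) (F := F) π b hu0 he hE (fun P hP h1 _ hπP huP => hu ?_)
  haveI := hP
  haveI hQ : (RingHom.ker rbar).IsPrime := RingHom.ker_isPrime rbar
  have hQ0 : RingHom.ker rbar ≠ ⊥ := by
    intro h0
    apply hπ0
    have : algebraMap R B π ∈ RingHom.ker rbar := (RingHom.mem_ker).2 hπk
    rw [h0] at this
    exact (Ideal.mem_bot).1 this
  have hQP : RingHom.ker rbar ≤ P := by
    rw [hker, Ideal.span_singleton_le_iff_mem]; exact hπP
  have heq : RingHom.ker rbar = P := H62.eq_of_le_of_height_eq_one _ P hQ0 hQP h1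
  rw [← heq] at huP
  exact (RingHom.mem_ker).1 huP

end OneChart

section Maximal

variable {R B : Type*} [CommRing R] [IsLocalRing R] [CommRing B] [Algebra R B]

/-- A proper ideal `b` of `B` containing `𝔪_R` with `R → B / b` onto is maximal. -/
theorem isMaximal_of_hres (b : Ideal B) (h1 : (1 : B) ∉ b)
    (hR : ∀ r : R, r ∈ IsLocalRing.maximalIdeal R → algebraMap R B r ∈ b)
    (hres : ∀ x : B, ∃ c : R, x - algebraMap R B c ∈ b) : b.IsMaximal := by
  rw [Ideal.isMaximal_iff]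
  refine ⟨h1, ?_⟩
  intro I x hle hx hxI
  obtain ⟨c, hc⟩ := hres x
  have hcI : algebraMap R B c ∈ I := by
    have : algebraMap R B c = x - (x - algebraMap R B c) := by ring
    rw [this]
    exact I.sub_mem hxI (hle hc)
  have hcu : IsUnit c := by
    by_contra hnu
    apply hx
    have h1' : algebraMap R B c ∈ b := hR c ((IsLocalRing.mem_maximalIdeal c).2 hnu)
    have : x = (x - algebraMap R B c) + algebraMap R B c := by ring
    rw [this]
    exact b.add_mem hc h1'
  obtain ⟨u, hu⟩ := hcu.exists_right_inv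
  have : (1 : B) = algebraMap R B u * algebraMap R B c := by
    rw [← map_mul, mul_comm, hu, map_one]
  rw [this]
  exact I.mul_mem_left _ hcI

/-- `b := ιw⁻¹ n` is maximal when `n` lies over the closed point of `R` with residue field that
of `R` and `ιw` is `R`-linear. -/
theorem isMaximal_comap_of_hres {B' : Type*} [CommRing B'] [Algebra R B'] (ιw : B →+* B')
    (hιw : ∀ c : R, ιw (algebraMap R B c) = algebraMap R B' c) (n : Ideal B') (h1 : (1 : B') ∉ n)
    (hR : ∀ r : R, r ∈ IsLocalRing.maximalIdeal R → algebraMap R B' r ∈ n)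
    (hres : ∀ x : B', ∃ c : R, x - algebraMap R B' c ∈ n) : (n.comap ιw).IsMaximal := by
  refine isMaximal_of_hres (R := R) (n.comap ιw) ?_ ?_ ?_
  · rw [Ideal.mem_comap, map_one]; exact h1
  · intro r hr
    rw [Ideal.mem_comap, hιw]; exact hR r hr
  · intro x
    obtain ⟨c, hc⟩ := hres (ιw x)
    refine ⟨c, ?_⟩
    rw [Ideal.mem_comap, map_sub, hιw]; exact hc

end Maximal

section H65Shape

variable {R k BM F : Type*} [CommRing R] [IsDomain R] [Field k] [Algebra R k]
  [CommRing BM] [IsDomain BM] [Field F] [Algebra BM F] [IsFractionRing BM F]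
  [Algebra R BM] [Algebra k F] [Algebra R F] [IsScalarTower R BM F] [IsScalarTower R k F]
  [IsNoetherianRing BM] [IsIntegrallyClosed BM]
  {B D : Type*} [CommRing B] [CommRing D] [IsDedekindDomain D]

/-- **(M4-hell) in the spelling of `S36.H65.hE_middle_elliptic`**: `n` a prime of the level
`q² L` chart `B`, `ιw : BM → B`, `b := ιw⁻¹ n` a closed point of the level `L` chart `BM`
(`hb`), `rbar : BM → D` onto a Dedekind domain with kernel `(π)`. -/
theorem exists_hell_comap (π : R) [IsLocalization.Away π k] {rbar : BM →+* D}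
    (hrbar : Function.Surjective rbar) (hD : ¬ IsField D)
    (hker : RingHom.ker rbar = Ideal.span {algebraMap R BM π}) (hπ0 : algebraMap R BM π ≠ 0)
    (ιw : BM →+* B) (n : Ideal B) (hb : (n.comap ιw).IsMaximal)
    (hπn : ιw (algebraMap R BM π) ∈ n) (ψ c₀ : BM) (hZ0 : rbar (ψ - c₀) ≠ 0) {e : ℕ} (he : 0 < e)
    (hE : ∀ v : Place k F, 0 < v.ord (algebraMap BM F (ψ - c₀)) →
      (e : ℤ) ∣ v.ord (algebraMap BM F (ψ - c₀))) :
    ∃ a ε s : BM, ιw a ∉ n ∧ ιw ε ∉ n ∧ a * (ψ - c₀) = ε * s ^ e := by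
  obtain ⟨a, ε, s, ha, hε, h⟩ := exists_elliptic_power_of_red (k := k) (F := F) π hrbar hD hker
    hπ0 (n.comap ιw) hb (Ideal.mem_comap.2 hπn) hZ0 he hE
  exact ⟨a, ε, s, fun h' => ha (Ideal.mem_comap.2 h'), fun h' => hε (Ideal.mem_comap.2 h'), h⟩

/-- **(M4-hell) over `j = 0`**: `a ψ = ε s ^ 3`. -/
theorem exists_hell_zero (π : R) [IsLocalization.Away π k] {rbar : BM →+* D}
    (hrbar : Function.Surjective rbar) (hD : ¬ IsField D)
    (hker : RingHom.ker rbar = Ideal.span {algebraMap R BM π}) (hπ0 : algebraMap R BM π ≠ 0)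
    (ιw : BM →+* B) (n : Ideal B) (hb : (n.comap ιw).IsMaximal)
    (hπn : ιw (algebraMap R BM π) ∈ n) (ψ : BM) (hZ0 : rbar (ψ - 0) ≠ 0)
    (hE : ∀ v : Place k F, 0 ≤ v.ord (algebraMap BM F ψ) →
      (0 < v.ord (algebraMap BM F ψ) → v.ord (algebraMap BM F ψ) = 3) ∧
      (0 < v.ord (algebraMap BM F ψ - algebraMap k F 1728) →
        v.ord (algebraMap BM F ψ - algebraMap k F 1728) = 2) ∧
      (v.ord (algebraMap BM F ψ) = 0 → v.ord (algebraMap BM F ψ - algebraMap k F 1728) = 0 →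
        ∃ p : k[X], v.ord (aeval (algebraMap BM F ψ) p) = 1)) :
    ∃ a ε s : BM, ιw a ∉ n ∧ ιw ε ∉ n ∧ a * (ψ - 0) = ε * s ^ 3 := by
  refine exists_hell_comap (k := k) (F := F) π hrbar hD hker hπ0 ιw n hb hπn ψ 0 hZ0
    (by norm_num) (fun v hv => ?_)
  rw [sub_zero] at hv ⊢
  rw [(hE v hv.le).1 hv]
  exact dvd_refl _

/-- **(M4-hell) over `j = 1728`**: `a (ψ - 1728) = ε s ^ 2`. -/
theorem exists_hell_1728 (π : R) [IsLocalization.Away π k] {rbar : BM →+* D}
    (hrbar : Function.Surjective rbar) (hD : ¬ IsField D)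
    (hker : RingHom.ker rbar = Ideal.span {algebraMap R BM π}) (hπ0 : algebraMap R BM π ≠ 0)
    (ιw : BM →+* B) (n : Ideal B) (hb : (n.comap ιw).IsMaximal)
    (hπn : ιw (algebraMap R BM π) ∈ n) (ψ : BM) (hZ0 : rbar (ψ - 1728) ≠ 0)
    (hE : ∀ v : Place k F, 0 ≤ v.ord (algebraMap BM F ψ) →
      (0 < v.ord (algebraMap BM F ψ) → v.ord (algebraMap BM F ψ) = 3) ∧
      (0 < v.ord (algebraMap BM F ψ - algebraMap k F 1728) →
        v.ord (algebraMap BM F ψ - algebraMap k F 1728) = 2) ∧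
      (v.ord (algebraMap BM F ψ) = 0 → v.ord (algebraMap BM F ψ - algebraMap k F 1728) = 0 →
        ∃ p : k[X], v.ord (aeval (algebraMap BM F ψ) p) = 1)) :
    ∃ a ε s : BM, ιw a ∉ n ∧ ιw ε ∉ n ∧ a * (ψ - 1728) = ε * s ^ 2 := by
  refine exists_hell_comap (k := k) (F := F) π hrbar hD hker hπ0 ιw n hb hπn ψ 1728 hZ0
    (by norm_num) (fun v hv => ?_)
  have e1 : algebraMap BM F (ψ - 1728) = algebraMap BM F ψ - algebraMap k F 1728 := by
    rw [map_sub, map_ofNat, map_ofNat]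
  rw [e1] at hv ⊢
  -- `0 ≤ ord_v j`
  have hj : 0 ≤ v.ord (algebraMap BM F ψ) := by
    by_cases hj0 : algebraMap BM F ψ = 0
    · rw [hj0, Place.ord_zero]
    · rw [ord_nonneg_iff_mem v hj0]
      have hne : algebraMap BM F ψ - algebraMap k F 1728 ≠ 0 := by
        intro h0
        rw [h0, Place.ord_zero] at hv
        exact lt_irrefl _ hv
      have h1 : algebraMap BM F ψ - algebraMap k F 1728 ∈ v.toValuationSubring :=
        (ord_nonneg_iff_mem v hne).1 hv.le
      have : algebraMap BM F ψ =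
          (algebraMap BM F ψ - algebraMap k F 1728) + algebraMap k F 1728 := by ring
      rw [this]
      exact v.toValuationSubring.add_mem _ _ h1 (v.algebraMap_mem' _)
  rw [(hE v hj).2.1 hv]
  exact dvd_refl _

end H65Shape

section Wired

open Fermat.Agent.S36.H83

variable {R k BM F : Type*} [CommRing R] [IsDomain R] [Field k] [Algebra R k]
  [CommRing BM] [IsDomain BM] [Field F] [Algebra BM F] [IsFractionRing BM F]
  [Algebra R BM] [Algebra k F] [Algebra R F] [IsScalarTower R BM F] [IsScalarTower R k F]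
  [IsNoetherianRing BM] [IsIntegrallyClosed BM]
  {B D : Type*} [CommRing B] [IsDomain B] [CommRing D] [IsDedekindDomain D]
  {red₁ red₂ red₃ : B →+* D} {ιu ιv ιw : BM →+* B} {rbar : BM →+* D} {W : D →+* D}
  {q : ℕ} {qB : B}

/-- **`S36.H65.hE_middle_elliptic` with `hell` discharged by Step 2 at the level `L`.**  New
inputs: `π` (`qM := algebraMap R BM π`), `ker rbar = (π)`, `b := ιw⁻¹ n` maximal, and the e-data
`hE` at the places of `F / k` where `ψ - c₀` vanishes. -/
theorem hE_middle_elliptic_of_places [IsNoetherianRing B]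
    (h : ThreeComponents red₁ red₂ red₃ ιu ιv ιw rbar W q qB) (hq3 : 3 ≤ q)
    (hqB0 : qB ≠ 0) (hrq : red₂ qB = 0) (n : Ideal B) (hn : n.IsMaximal)
    (h1 : ∃ s : B, red₁ s = 0 ∧ s ∉ n) (h3 : ∃ s : B, red₃ s = 0 ∧ s ∉ n)
    (hker : RingHom.ker red₂ ≤ n)
    (π : R) [IsLocalization.Away π k] (hD : ¬ IsField D)
    (hkerM : RingHom.ker rbar = Ideal.span {algebraMap R BM π})
    (hb : (n.comap ιw).IsMaximal)
    {s' : BM} (hqu : ιu (algebraMap R BM π) = qB) (hqw : ιw (algebraMap R BM π) = qB)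
    (hs' : ιw s' ∈ n)
    (hconst : ∀ ψ : BM, ∃ c : BM, ιu c = ιw c ∧ ιw (ψ - c) ∈ n)
    (hreg : ∀ ψ : BM, ιw ψ ∈ n →
      ∃ a ψ₁ ψ₂ : BM, ιw a ∉ n ∧ a * ψ = s' * ψ₁ + algebraMap R BM π * ψ₂)
    (ψ : BM) {tj cj : B} (htj : tj ∉ n) (hj : tj * (ιu ψ - ιw ψ) ^ (q - 1) = cj * qB)
    {G H : D} {m : ℕ} (hm0 : m ≠ 0) (hII : red₂ cj ^ m * G = red₂ tj ^ m * H)
    {c₀ : BM} {e EG K : ℕ} (he : e ≠ 0) (hc₀ : ιu c₀ = ιw c₀)
    (hE : ∀ v : Place k F, 0 < v.ord (algebraMap BM F (ψ - c₀)) →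
      (e : ℤ) ∣ v.ord (algebraMap BM F (ψ - c₀)))
    (hexp : e * K = (q - 1) * m * (e - 1)) {G' H' : D}
    (hH : H = rbar (ψ - c₀) ^ (EG + K) * H') (hG : G = rbar (ψ - c₀) ^ EG * G')
    (hH' : H' ∉ Ideal.map red₂ n) (hZ0 : rbar (ψ - c₀) ≠ 0) :
    ∃ e' t : B, e' ∉ n ∧ t ∉ n ∧ t * (ιu s' - ιw s') ^ (q - 1) = e' * qB := by
  have hπ0 : algebraMap R BM π ≠ 0 := by
    intro h0
    apply hqB0
    rw [← hqw, h0, map_zero]
  have hπn : ιw (algebraMap R BM π) ∈ n := by
    rw [hqw]; exact hker ((RingHom.mem_ker).2 hrq)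
  obtain ⟨a, ε, s, ha, hε, hell⟩ := exists_hell_comap (k := k) (F := F) π h.hrbar hD hkerM hπ0
    ιw n hb hπn ψ c₀ hZ0 (Nat.pos_of_ne_zero he) hE
  exact H65.hE_middle_elliptic h hq3 hqB0 hrq n hn h1 h3 hker hqu hqw hs' hconst hreg ψ htj hj
    hm0 hII he hc₀ ha hε hell hexp hH hG hH' hZ0

/-- **`S36.H65.locGen_middle_elliptic` with `hell` discharged.** -/
theorem locGen_middle_elliptic_of_places [IsNoetherianRing B]
    (h : ThreeComponents red₁ red₂ red₃ ιu ιv ιw rbar W q qB) (hq3 : 3 ≤ q)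
    (hqB0 : qB ≠ 0) (hrq : red₂ qB = 0) (hD : ¬ IsField D) (n : Ideal B) (hn : n.IsMaximal)
    (hqn : qB ∈ n)
    (h1 : ∃ s : B, red₁ s = 0 ∧ s ∉ n) (h3 : ∃ s : B, red₃ s = 0 ∧ s ∉ n)
    (π : R) [IsLocalization.Away π k]
    (hkerM : RingHom.ker rbar = Ideal.span {algebraMap R BM π})
    (hb : (n.comap ιw).IsMaximal)
    {s' : BM} (hqu : ιu (algebraMap R BM π) = qB) (hqw : ιw (algebraMap R BM π) = qB)
    (hs' : ιw s' ∈ n) (hs'0 : ιu s' ≠ ιw s')
    (hconst : ∀ ψ : BM, ∃ c : BM, ιu c = ιw c ∧ ιw (ψ - c) ∈ n)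
    (hreg : ∀ ψ : BM, ιw ψ ∈ n →
      ∃ a ψ₁ ψ₂ : BM, ιw a ∉ n ∧ a * ψ = s' * ψ₁ + algebraMap R BM π * ψ₂)
    (ψ : BM) {tj cj : B} (htj : tj ∉ n) (hj : tj * (ιu ψ - ιw ψ) ^ (q - 1) = cj * qB)
    {G H : D} {m : ℕ} (hm0 : m ≠ 0) (hII : red₂ cj ^ m * G = red₂ tj ^ m * H)
    {c₀ : BM} {e EG K : ℕ} (he : e ≠ 0) (hc₀ : ιu c₀ = ιw c₀)
    (hE : ∀ v : Place k F, 0 < v.ord (algebraMap BM F (ψ - c₀)) →
      (e : ℤ) ∣ v.ord (algebraMap BM F (ψ - c₀)))
    (hexp : e * K = (q - 1) * m * (e - 1)) {G' H' : D}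
    (hH : H = rbar (ψ - c₀) ^ (EG + K) * H') (hG : G = rbar (ψ - c₀) ^ EG * G')
    (hH' : H' ∉ Ideal.map red₂ n) (hZ0 : rbar (ψ - c₀) ≠ 0) :
    ∃ τ ∈ n, ∀ z ∈ n, ∃ t : B, t ∉ n ∧ t * z ∈ Ideal.span {ιu s' - ιw s', τ} := by
  have hπ0 : algebraMap R BM π ≠ 0 := by
    intro h0
    apply hqB0
    rw [← hqw, h0, map_zero]
  have hπn : ιw (algebraMap R BM π) ∈ n := by
    rw [hqw]; exact hqn
  obtain ⟨a, ε, s, ha, hε, hell⟩ := exists_hell_comap (k := k) (F := F) π h.hrbar hD hkerM hπ0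
    ιw n hb hπn ψ c₀ hZ0 (Nat.pos_of_ne_zero he) hE
  exact H65.locGen_middle_elliptic h hq3 hqB0 hrq hD n hn hqn h1 h3 hqu hqw hs' hs'0 hconst hreg
    ψ htj hj hm0 hII he hc₀ ha hε hell hexp hH hG hH' hZ0

end Wired

end Fermat.Agent.S36.H85
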