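/-
S36, row (r5) (helper85): **`hpt` of `S36.H18.geoFn36E_of_twoCharts` from the rows, second form**:
the chart-2 inputs are taken either as the two abstract statements `hcusp` / `hoverlap`
(`hpt_of_rows_gen`: plug `S36.H62.hoverlap_chartB` and ANY producer of (OVL-b)), or, for the
points at infinity, in helper89's lighter `ThreeComponents` vocabulary
(`hpt_of_rows_three`: NO `LevelMaps` on chart 2, NO (M2-cusp); only `ThreeComponents` on chart 2,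
`ψ₀ = 1/j`, and `Fu = v^q/u`, `Fw = v^q/w ∈ B₂`, `S36.H89W.cuspidal_class`).

* `exists_unique_of_class` : helper89's disjunction `(¬2 ∧ ¬3) ∨ (¬1 ∧ ¬3) ∨ (¬1 ∧ ¬2)` ⟹ the
  left disjunct of `hpt` (`∃ i₀, ∀ i, P i ≤ n → i = i₀`).
* `hcusp_of_threeComponents` : the `hcusp` hypothesis of `H85.hpt_two_charts_of_first`.
-/
import Mathlib
import Fermat.Agent.S36.H85_HptRows
import Fermat.Agent.S36.H89_MidCuspSeam

set_option autoImplicit false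
set_option linter.unusedSectionVars false
set_option linter.unusedVariables false
set_option linter.style.haveILetI false

namespace Fermat.Agent.S36.H85

open Fermat.Agent.S34 Fermat.Agent.S34.H47 Fermat.Agent.S36

universe u

section Class

variable {B D : Type*} [CommRing B] [CommRing D] {red₁ red₂ red₃ : B →+* D}

/-- At most one of the three kernels below `n` ⟹ the left disjunct of `hpt`. -/
theorem exists_unique_of_class (P : Fin 3 → Ideal B) (hP0 : P 0 = RingHom.ker red₁)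
    (hP1 : P 1 = RingHom.ker red₂) (hP2 : P 2 = RingHom.ker red₃) (n : Ideal B)
    (hclass : (¬ RingHom.ker red₂ ≤ n ∧ ¬ RingHom.ker red₃ ≤ n) ∨
      (¬ RingHom.ker red₁ ≤ n ∧ ¬ RingHom.ker red₃ ≤ n) ∨
      (¬ RingHom.ker red₁ ≤ n ∧ ¬ RingHom.ker red₂ ≤ n)) :
    ∃ i₀, ∀ i, P i ≤ n → i = i₀ := by
  rw [← hP0, ← hP1, ← hP2] at hclass
  rcases hclass with ⟨n1, n2⟩ | ⟨n0, n2⟩ | ⟨n0, n1⟩
  · refine ⟨0, fun i hi => ?_⟩
    fin_cases i
    · rfl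
    · exact absurd hi n1
    · exact absurd hi n2
  · refine ⟨1, fun i hi => ?_⟩
    fin_cases i
    · exact absurd hi n0
    · rfl
    · exact absurd hi n2
  · refine ⟨2, fun i hi => ?_⟩
    fin_cases i
    · exact absurd hi n0
    · exact absurd hi n1
    · rfl

end Class

section RowsB

variable {R : Type u} {F2 : Type*} [CommRing R] [IsDomain R] [IsDiscreteValuationRing R]
  [Field F2] [Algebra R F2]
  (B₁ B₂ : Subalgebra R F2) [IsFractionRing B₁ F2] [IsFractionRing B₂ F2]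
  [IsNoetherianRing B₁] [IsNoetherianRing B₂] [IsIntegrallyClosed B₁] [IsIntegrallyClosed B₂]
  (π : R)
  (P₁ : Fin 3 → Ideal B₁) (P₂ : Fin 3 → Ideal B₂)
  [hP₁ : ∀ i, (P₁ i).IsPrime] [hP₂ : ∀ i, (P₂ i).IsPrime]
  (hh₁ : ∀ i, (P₁ i).height = 1) (hh₂ : ∀ i, (P₂ i).height = 1)
  {B' F1 : Type*} [CommRing B'] [IsDomain B'] [Field F1] [Algebra B' F1] [IsFractionRing B' F1]
  [IsNoetherianRing B'] [IsIntegrallyClosed B'] [Algebra R F1] [Algebra R B']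
  [IsScalarTower R B' F1]
  {D : Type*} [CommRing D] [IsDomain D]
  {red₁ red₂ red₃ : B₁ →+* D} {red₁' red₂' : B' →+* D} {α β : B' →+* B₁} {W : D →+* D}
  {K : Type*} [Field K] [Algebra R K] [Algebra K F1] [IsScalarTower R K F1]

/-- **The `hcusp` hypothesis of `H85.hpt_two_charts_of_first` in helper89's vocabulary**
(`S36.H89W.cuspidal_class`): `ThreeComponents` on chart 2, `ψ₀ = 1/j`, `Fu`, `Fw`. -/
theorem hcusp_of_threeComponents {D₂ BM : Type*} [CommRing D₂] [IsDomain D₂] [CommRing BM]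
    {ρ₁ ρ₂ ρ₃ : B₂ →+* D₂} {ιu ιv ιw : BM →+* B₂} {rbar : BM →+* D₂} {W₂ : D₂ →+* D₂}
    {q : ℕ} {qB₂ : B₂}
    (h₂ : H83.ThreeComponents ρ₁ ρ₂ ρ₃ ιu ιv ιw rbar W₂ q qB₂) (hq2 : 2 ≤ q)
    (ψ₀ : BM) (hψ₀ : rbar ψ₀ ≠ 0) (hW₂ : W₂ (rbar ψ₀) = rbar ψ₀ ^ q)
    (Fu Fw : B₂) (hFu : Fu * ιu ψ₀ = ιv ψ₀ ^ q) (hFw : Fw * ιw ψ₀ = ιv ψ₀ ^ q)
    {Jinv : B₂} (hJinv : Jinv = ιu ψ₀ * ιv ψ₀ * ιw ψ₀)
    (hQ0 : P₂ 0 = RingHom.ker ρ₁) (hQ1 : P₂ 1 = RingHom.ker ρ₂) (hQ2 : P₂ 2 = RingHom.ker ρ₃)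
    (n : H21.ClosedPt B₂ π) (hJn : Jinv ∈ n.1) : ∃ i₀, ∀ i, P₂ i ≤ n.1 → i = i₀ :=
  exists_unique_of_class P₂ hQ0 hQ1 hQ2 n.1
    (H89W.cuspidal_class h₂ hq2 ψ₀ hψ₀ hW₂ Fu Fw hFu hFw n.1 n.2.1.isPrime (hJinv ▸ hJn))

/-- **`hpt` from the rows, chart-2 inputs abstract** (`hcusp` = (OVL-b), `hoverlap` = (OVL-a)).
Conclusion = the `hpt` binder of `S36.H18.geoFn36E_of_twoCharts` VERBATIM. -/
theorem hpt_of_rows_gen (hπ : Irreducible π)
    -- chart 1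
    (h : H83.LevelMaps red₁ red₂ red₃ red₁' red₂' α β W) {q m : ℕ} (hq : 0 < q) (hm : 0 < m)
    {qB : B₁} {qB' : B'} (hqα : α qB' = qB) (hqβ : β qB' = qB)
    (hthree : ∀ P : Ideal B₁, P.IsPrime → qB ∈ P →
      RingHom.ker red₁ ≤ P ∨ RingHom.ker red₂ ≤ P ∨ RingHom.ker red₃ ≤ P)
    (hred₁' : Function.Surjective red₁') (hred₂' : Function.Surjective red₂')
    (hW : ∀ r : D, ∃ r₂ : D, W r₂ = r ^ q)
    (hq1' : red₁' qB' = 0) (hq2' : red₂' qB' = 0)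
    (hintα : α.IsIntegral) (hintβ : β.IsIntegral)
    {s₁ : B'} (hs11 : red₁' s₁ = 0) (hs12 : red₂' s₁ ≠ 0)
    {s₂ : B'} (hs22 : red₂' s₂ = 0) (hs21 : red₁' s₂ ≠ 0)
    (a b : F1 →+* F2)
    (haα : ∀ x, algebraMap B₁ F2 (α x) = a (algebraMap B' F1 x))
    (hbβ : ∀ x, algebraMap B₁ F2 (β x) = b (algebraMap B' F1 x))
    (hαR : ∀ c : R, α (algebraMap R B' c) = algebraMap R B₁ c)
    (hβR : ∀ c : R, β (algebraMap R B' c) = algebraMap R B₁ c)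
    (Na Nb : F2 →*₀ F1)
    (hfda : letI := a.toAlgebra; FiniteDimensional F1 F2)
    (hNa : ∀ x : F2, Na x = (letI := a.toAlgebra; Algebra.norm F1 x))
    (hfdb : letI := b.toAlgebra; FiniteDimensional F1 F2)
    (hNb : ∀ x : F2, Nb x = (letI := b.toAlgebra; Algebra.norm F1 x))
    (hP0 : P₁ 0 = RingHom.ker red₁) (hP1 : P₁ 1 = RingHom.ker red₂)
    (hP2 : P₁ 2 = RingHom.ker red₃)
    (P'F P'V : Ideal B') [hP'F : P'F.IsPrime] [hP'V : P'V.IsPrime]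
    (hF : P'F.height = 1) (hV : P'V.height = 1)
    (hP'F1 : P'F = RingHom.ker red₁') (hP'V2 : P'V = RingHom.ker red₂')
    {WF WV : ValuationSubring F1}
    (hWF : WF = H56.valuationSubringAt (K := F1) P'F hF)
    (hWV : WV = H56.valuationSubringAt (K := F1) P'V hV)
    (hres₁ : ∀ n : H21.ClosedPt B₁ π, ∀ b : B₁, ∃ c : R, b - algebraMap R B₁ c ∈ n.1)
    -- chart 2
    (Jinv : B₂)
    (hcusp : ∀ n : H21.ClosedPt B₂ π, Jinv ∈ n.1 → ∃ i₀, ∀ i, P₂ i ≤ n.1 → i = i₀)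
    (hoverlap : ∀ n : H21.ClosedPt B₂ π, Jinv ∉ n.1 → ∃ n1 : H21.ClosedPt B₁ π,
      H21.ptO B₁ B₂ π (Sum.inl n1) = H21.ptO B₁ B₂ π (Sum.inr n) ∧
      ∀ i, P₁ i ≤ n1.1 ↔ P₂ i ≤ n.1)
    -- constants
    (A : ValuationSubring K) (hAR : ∀ x ∈ A, ∃ r : R, algebraMap R K r = x) :
    ∀ ζ : K, IsPrimitiveRoot ζ m → A.valuation ζ = 1 →
      ∀ ca cb : K, H69.NormalisedConst A WF WV ca → H69.NormalisedConst A WF WV cb → ∀ n,
      (∃ i₀, ∀ i, H21.primeThr (π := π) P₁ P₂ n i → i = i₀) ∨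
      ((∀ i, H21.primeThr (π := π) P₁ P₂ n i) ∧ ∃ (κ : Type u) (_ : Field κ),
        TripleLoc a b Na Nb q m (fun i => H56.valuationSubringAt (K := F2) (P₁ i) (hh₁ i))
          WF WV (algebraMap K F1 ζ) (algebraMap K F1 ca) (algebraMap K F1 cb) κ
          (H21.ptO B₁ B₂ π n)) :=
  fun ζ _ hζ ca cb hca hcb =>
    hpt_two_charts_of_first P₁ P₂
      (fun O => ∃ (κ : Type u) (_ : Field κ),
        TripleLoc a b Na Nb q m (fun i => H56.valuationSubringAt (K := F2) (P₁ i) (hh₁ i))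
          WF WV (algebraMap K F1 ζ) (algebraMap K F1 ca) (algebraMap K F1 cb) κ O) Jinv
      (fun n1 => hpt_chart1_of_rows B₁ B₂ π P₁ hh₁ hπ h hq hm hqα hqβ hthree hred₁' hred₂' hW
        hq1' hq2' hintα hintβ hs11 hs12 hs22 hs21 a b haα hbβ hαR hβR Na Nb hfda hNa hfdb hNb hP0
        hP1 hP2 P'F P'V hF hV hP'F1 hP'V2 hWF hWV hres₁
        (fun n' _ => unitIn_locSubring_const (R := R) A hAR hζ n')
        (fun n' _ => unitIn_locSubring_const (R := R) A hAR hca.1 n')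
        (fun n' _ => unitIn_locSubring_const (R := R) A hAR hcb.1 n') n1)
      hcusp hoverlap

end RowsB

end Fermat.Agent.S36.H85
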