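/-
S36, row (r5)-inst (helper85): the four norm/finiteness binders `hfda hNa hfdb hNb` of
`H85.hpt_of_levelMaps_fixed` / `H85.hpt_of_rows*` / `H84.tripleLoc_of_charts` /
`H71.hNunit_alpha_gd` AT THE REAL TYPES `a := H18.alphaK`, `Na := H18.normAlphaK`,
`b := H18.betaK`, `Nb := H18.normBetaK` (any coefficient field `K`, levels `N2 = q * N1`,
`q ∣ N1`): the algebra structures `(alphaK ..).toAlgebra`, `(betaK ..).toAlgebra` ARE
`S34.H16.degAlgebra`, `S35.H16.vAlgebra`.
-/
import Mathlib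
import Fermat.Agent.S36.H18_Geo36Base
import Fermat.Agent.S36.H16_RelDegQ

set_option autoImplicit false
set_option linter.unusedSectionVars false
set_option linter.style.haveILetI false
set_option synthInstance.maxHeartbeats 400000

noncomputable section

namespace Fermat.Agent.S36.H85

open ModularCurve
open Fermat.Agent.S18 Fermat.Agent.S34 Fermat.Agent.S36.H18

section Real

variable (K : Type) [Field K] (q N1 N2 : ℕ) [NeZero q] [NeZero N1] [NeZero N2]
  (hN : N1 ∣ N2) (hqN : q * N1 ∣ N2)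

/-- `(alphaK ..).toAlgebra` is `degAlgebra`. -/
theorem alphaK_toAlgebra : (alphaK K N1 N2 hN).toAlgebra = H16.degAlgebra K N1 N2 hN :=
  Algebra.algebra_ext _ _ (fun _ => rfl)

/-- `(betaK ..).toAlgebra` is `vAlgebra`. -/
theorem betaK_toAlgebra : (betaK K q N1 N2 hqN).toAlgebra = S35.H16.vAlgebra K q N1 N2 hqN :=
  Algebra.algebra_ext _ _ (fun _ => rfl)

/-- `hfda` at the real types. -/
theorem finiteDimensional_alphaK (hq : q.Prime) (hqN1 : q ∣ N1) (hN2 : N2 = q * N1)
    (hNK : ((N2 : ℕ) : K) ≠ 0) :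
    letI := (alphaK K N1 N2 hN).toAlgebra
    FiniteDimensional (modularFunctionFieldFullC K N1) (modularFunctionFieldFullC K N2) := by
  rw [alphaK_toAlgebra]
  exact S36.H16.finiteDimensional_fullC_prime_dvd K N1 N2 hN q hq hqN1 hN2 hNK

/-- `hNa` at the real types. -/
theorem normAlphaK_eq_norm (hq : q.Prime) (hqN1 : q ∣ N1) (hN2 : N2 = q * N1)
    (hNK : ((N2 : ℕ) : K) ≠ 0) (x : modularFunctionFieldFullC K N2) :
    normAlphaK K N1 N2 hN x =
      (letI := (alphaK K N1 N2 hN).toAlgebra; Algebra.norm (modularFunctionFieldFullC K N1) x) := by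
  rw [alphaK_toAlgebra]
  letI := H16.degAlgebra K N1 N2 hN
  haveI := S36.H16.finiteDimensional_fullC_prime_dvd K N1 N2 hN q hq hqN1 hN2 hNK
  exact normZ_eq_norm x

/-- `hfdb` at the real types. -/
theorem finiteDimensional_betaK (hq : q.Prime) (hqN1 : q ∣ N1) (hN2 : N2 = q * N1)
    (hNK : ((N2 : ℕ) : K) ≠ 0) :
    letI := (betaK K q N1 N2 hqN).toAlgebra
    FiniteDimensional (modularFunctionFieldFullC K N1) (modularFunctionFieldFullC K N2) := by
  rw [betaK_toAlgebra]
  exact S36.H16.finiteDimensional_vSub_dvd K N1 N2 q hq hqN1 hN2 hNK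

/-- `hNb` at the real types. -/
theorem normBetaK_eq_norm (hq : q.Prime) (hqN1 : q ∣ N1) (hN2 : N2 = q * N1)
    (hNK : ((N2 : ℕ) : K) ≠ 0) (x : modularFunctionFieldFullC K N2) :
    normBetaK K q N1 N2 hqN x =
      (letI := (betaK K q N1 N2 hqN).toAlgebra; Algebra.norm (modularFunctionFieldFullC K N1) x) := by
  rw [betaK_toAlgebra]
  letI := S35.H16.vAlgebra K q N1 N2 hqN
  haveI := S36.H16.finiteDimensional_vSub_dvd K N1 N2 q hq hqN1 hN2 hNK
  exact normZ_eq_norm x

end Real

end Fermat.Agent.S36.H85
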