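/-
FAST TWIN of `S36/H85_HptReal` (same statement, theorem `hpt_real_fast`): three LOCAL shortcut
instances (`Algebra ↥E0 F_N`, `Algebra ↥(cutOver A E0) F_N`, `IsScalarTower ↥(cutOver A E0) ↥E0 F_N`)
replace the 8 s / 8 s / 20 s instance searches that are re-run at every change of the local
instance set; elaboration 6 s instead of 95 s.  The shortcut instances are reducible and unfold
to the instances found by the search, so the statement is interchangeable with `hpt_real`.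

helper85 — S36 row (E6)/(r5) AT THE REAL TYPES: the hypothesis `hpt` of helper18's
`S36.H18.geoFn36E_of_twoCharts`, VERBATIM, from the chart-level outputs of the rows
(binder block of `geoFn36E_of_twoCharts`: `K := ↥E0`, `R := ↥(cutOver A E0)`, `π := (q : R)`,
`F₁ := F_K(q L)`, `F₂ := F_K(q (q L))`, `a b Na Nb := alphaK betaK normAlphaK normBetaK`,
`B₁ B₂ : Subalgebra R F₂` the two charts, `B' : Subalgebra R F₁` the level `q L` chart 1,
`m := p ^ k`).

* chart 1: (E2-lvl) `LevelMaps` + integrality (E2-int) + the level `q L` package facts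
  (binder list of `H85.hpt_of_levelMaps_fixed`);
* chart 2: (OVL-b) `hcusp` (`H85.hcusp_of_threeComponents` or `H85.hcusp_of_rows`) and (OVL-a)
  `hoverlap` (`S36.H62.hoverlap_chartB`);
* DISCHARGED here: `Irreducible (q : R)` ((D1b)), the four norm binders `hfda hNa hfdb hNb`
  (`H85_NormAlgReal`), the constants (`A := cutOver A E0` is the image of `R`).
-/
import Mathlib
import Fermat.Agent.S36.H18_Geo36TwoCharts
import Fermat.Agent.S36.H85_HptRowsB
import Fermat.Agent.S36.H85_NormAlgReal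

set_option autoImplicit false
set_option linter.unusedSectionVars false
set_option linter.unusedVariables false
set_option linter.style.haveILetI false
set_option synthInstance.maxHeartbeats 400000

noncomputable section

namespace Fermat.Agent.S36.H85

open ModularCurve AlgebraicCurve IntermediateField
open Fermat.Agent.S18 Fermat.Agent.S18.H45 Fermat.Agent.S34 Fermat.Agent.S34.H47
open Fermat.Agent.S36.H18 Fermat.Agent.S36.H69

local notation "Qbar" => AlgebraicClosure ℚ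

section Real

variable (L q : ℕ) [NeZero L] [NeZero q] (hq : q.Prime)
  {A : ValuationSubring Qbar} (hA : A.LiesOverPrime q)
  (E0 : IntermediateField (unrCyclo q) Qbar) [FiniteDimensional (unrCyclo q) E0]
  (hfix : ∀ σ ∈ A.inertiaSubgroupIn ℚ, ∀ x : E0, σ ((x : E0) : Qbar) = ((x : E0) : Qbar))

set_option quotPrecheck false
local notation "F₁" => ↥(modularFunctionFieldFullC ↥E0 (q * L))
local notation "F₂" => ↥(modularFunctionFieldFullC ↥E0 (q * (q * L)))
local notation "RR" => ↥(cutOver A E0)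
local notation "aα" => alphaK ↥E0 (q * L) (q * (q * L)) (dvd_mul_left (q * L) q)
local notation "bβ" => betaK ↥E0 q (q * L) (q * (q * L)) dvd_rfl
local notation "Nα" => normAlphaK ↥E0 (q * L) (q * (q * L)) (dvd_mul_left (q * L) q)
local notation "Nβ" => normBetaK ↥E0 q (q * L) (q * (q * L)) dvd_rfl
local notation "πq" => (((q : ℕ) : ↥(cutOver A E0)))

/-- shortcut: `F_N` is an `↥E0`-algebra (an intermediate field of `LaurentSeries ↥E0`). -/
local instance (priority := 10000) shortcutAlgE (N : ℕ) [NeZero N] :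
    Algebra ↥E0 ↥(modularFunctionFieldFullC ↥E0 N) :=
  SubalgebraClass.toAlgebra (modularFunctionFieldFullC ↥E0 N)

/-- shortcut: `F_N` is a `cutOver A E0`-algebra. -/
local instance (priority := 10000) shortcutAlg (N : ℕ) [NeZero N] :
    Algebra ↥(cutOver A E0) ↥(modularFunctionFieldFullC ↥E0 N) :=
  Algebra.ofSubsemiring (cutOver A E0)

/-- shortcut: the tower `cutOver A E0 → E0 → F_N`. -/
local instance (priority := 10000) shortcutTower (N : ℕ) [NeZero N] :
    IsScalarTower ↥(cutOver A E0) ↥E0 ↥(modularFunctionFieldFullC ↥E0 N) :=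
  IsScalarTower.of_algebraMap_eq (fun _ => rfl)

set_option maxHeartbeats 1600000 in
include hq hA hfix in
/-- **`hpt` of `S36.H18.geoFn36E_of_twoCharts`, verbatim, from the row outputs.** -/
theorem hpt_real_fast {p : ℕ} (k : ℕ) (hm : 0 < p ^ k)
    {B₁ B₂ : Subalgebra RR F₂} [IsFractionRing B₁ F₂] [IsFractionRing B₂ F₂]
    [IsNoetherianRing B₁] [IsNoetherianRing B₂] [IsIntegrallyClosed B₁] [IsIntegrallyClosed B₂]
    (P₁ : Fin 3 → Ideal B₁) (P₂ : Fin 3 → Ideal B₂)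
    [hP₁ : ∀ i, (P₁ i).IsPrime] [hP₂ : ∀ i, (P₂ i).IsPrime]
    (hh₁ : ∀ i, (P₁ i).height = 1) (hh₂ : ∀ i, (P₂ i).height = 1)
    (WF WV : ValuationSubring F₁)
    -- chart 1
    {B' : Subalgebra RR F₁} [IsFractionRing B' F₁] [IsNoetherianRing B'] [IsIntegrallyClosed B']
    {D : Type*} [CommRing D] [IsDomain D]
    {red₁ red₂ red₃ : B₁ →+* D} {red₁' red₂' : B' →+* D} {α β : B' →+* B₁} {W : D →+* D}
    (h : H83.LevelMaps red₁ red₂ red₃ red₁' red₂' α β W)
    {qB' : B'} (hqα : α qB' = algebraMap RR B₁ πq) (hqβ : β qB' = algebraMap RR B₁ πq)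
    (hthree : ∀ P : Ideal B₁, P.IsPrime → algebraMap RR B₁ πq ∈ P →
      RingHom.ker red₁ ≤ P ∨ RingHom.ker red₂ ≤ P ∨ RingHom.ker red₃ ≤ P)
    (hred₁' : Function.Surjective red₁') (hred₂' : Function.Surjective red₂')
    (hW : ∀ r : D, ∃ r₂ : D, W r₂ = r ^ q)
    (hq1' : red₁' qB' = 0) (hq2' : red₂' qB' = 0)
    (hintα : α.IsIntegral) (hintβ : β.IsIntegral)
    {s₁ : B'} (hs11 : red₁' s₁ = 0) (hs12 : red₂' s₁ ≠ 0)
    {s₂ : B'} (hs22 : red₂' s₂ = 0) (hs21 : red₁' s₂ ≠ 0)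
    (haα : ∀ x, algebraMap B₁ F₂ (α x) = aα (algebraMap B' F₁ x))
    (hbβ : ∀ x, algebraMap B₁ F₂ (β x) = bβ (algebraMap B' F₁ x))
    (hαR : ∀ c : RR, α (algebraMap RR B' c) = algebraMap RR B₁ c)
    (hβR : ∀ c : RR, β (algebraMap RR B' c) = algebraMap RR B₁ c)
    (hP0 : P₁ 0 = RingHom.ker red₁) (hP1 : P₁ 1 = RingHom.ker red₂)
    (hP2 : P₁ 2 = RingHom.ker red₃)
    (P'F P'V : Ideal B') [hP'F : P'F.IsPrime] [hP'V : P'V.IsPrime]
    (hF : P'F.height = 1) (hV : P'V.height = 1)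
    (hP'F1 : P'F = RingHom.ker red₁') (hP'V2 : P'V = RingHom.ker red₂')
    (hWF : WF = H56.valuationSubringAt (K := F₁) P'F hF)
    (hWV : WV = H56.valuationSubringAt (K := F₁) P'V hV)
    (hres₁ : ∀ n : H21.ClosedPt B₁ πq, ∀ b : B₁, ∃ c : RR, b - algebraMap RR B₁ c ∈ n.1)
    -- chart 2
    (Jinv : B₂)
    (hcusp : ∀ n : H21.ClosedPt B₂ πq, Jinv ∈ n.1 → ∃ i₀, ∀ i, P₂ i ≤ n.1 → i = i₀)
    (hoverlap : ∀ n : H21.ClosedPt B₂ πq, Jinv ∉ n.1 → ∃ n1 : H21.ClosedPt B₁ πq,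
      H21.ptO B₁ B₂ πq (Sum.inl n1) = H21.ptO B₁ B₂ πq (Sum.inr n) ∧
      ∀ i, P₁ i ≤ n1.1 ↔ P₂ i ≤ n.1) :
    ∀ ζ : ↥E0, IsPrimitiveRoot ζ (p ^ k) → (cutOver A E0).valuation ζ = 1 →
      ∀ ca cb : ↥E0, NormalisedConst (cutOver A E0) WF WV ca →
        NormalisedConst (cutOver A E0) WF WV cb → ∀ n,
      (∃ i₀, ∀ i, H21.primeThr (π := πq) P₁ P₂ n i → i = i₀) ∨
      ((∀ i, H21.primeThr (π := πq) P₁ P₂ n i) ∧ ∃ (κ : Type) (_ : Field κ),
        TripleLoc aα bβ Nα Nβ q (p ^ k)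
          (fun i => H56.valuationSubringAt (K := F₂) (P₁ i) (hh₁ i))
          WF WV (algebraMap ↥E0 F₁ ζ) (algebraMap ↥E0 F₁ ca) (algebraMap ↥E0 F₁ cb) κ
          (H21.ptO B₁ B₂ πq n)) := by
  haveI := isDiscreteValuationRing_cutOver hq hA E0
  have hπ : Irreducible πq := S36.H45.irreducible_natCast_cutOver_of_fixed hq hA E0 hfix
  have hNK : (((q * (q * L) : ℕ) : ℕ) : ↥E0) ≠ 0 :=
    Nat.cast_ne_zero.mpr (NeZero.ne (q * (q * L)))
  have hqN1 : q ∣ q * L := dvd_mul_right q L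
  exact hpt_of_rows_gen (K := ↥E0) B₁ B₂ πq P₁ P₂ hh₁ hπ h hq.pos hm hqα hqβ hthree hred₁'
    hred₂' hW hq1' hq2' hintα hintβ hs11 hs12 hs22 hs21 aα bβ haα hbβ hαR hβR Nα Nβ
    (finiteDimensional_alphaK ↥E0 q (q * L) (q * (q * L)) (dvd_mul_left (q * L) q) hq hqN1 rfl
      hNK)
    (normAlphaK_eq_norm ↥E0 q (q * L) (q * (q * L)) (dvd_mul_left (q * L) q) hq hqN1 rfl hNK)
    (finiteDimensional_betaK ↥E0 q (q * L) (q * (q * L)) dvd_rfl hq hqN1 rfl hNK)
    (normBetaK_eq_norm ↥E0 q (q * L) (q * (q * L)) dvd_rfl hq hqN1 rfl hNK)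
    hP0 hP1 hP2 P'F P'V hF hV hP'F1 hP'V2 hWF hWV hres₁ Jinv hcusp hoverlap
    (cutOver A E0) (fun x hx => ⟨⟨x, hx⟩, rfl⟩)

end Real

end Fermat.Agent.S36.H85
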