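import Mathlib
import Fermat.Agent.S35.H90_ALMer

/-!
# S36 / row N36 (helper90), part 1: the Atkin–Lehner matrix `W_Q` for an ARBITRARY `Q` prime to `M`

`D : ALData M Q` (`Q x - M y = 1`, so `Q` is prime to `M`, but `Q` need not be prime: we use
`Q = q ^ 2`).  `W = alPos D = [[Q x, y],[M Q, Q]]`.  For `M = d' e`, `Q = e₁ e₂`:

  `diag(d' e₁, 1) · W = e₁ · γ · diag(d' e₂, 1)`,   `γ = [[e₁ x, d' y],[e, e₂]] ∈ SL₂(ℤ)`,

hence `(θ j_{d' e₁}) ∘ W = θ j_{d' e₂}` (`actGL_alPos_thetaC_jdC_gen`): `W` permutes the generators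
`j_d`, `d ∣ M Q`, of the function field of `X₀(M Q)`.
-/

set_option autoImplicit false
set_option linter.unusedSectionVars false
set_option linter.style.haveILetI false

open UpperHalfPlane ModularCurve CongruenceSubgroup Matrix.SpecialLinearGroup ModularForm
open scoped MatrixGroups Manifold

noncomputable section

namespace Fermat.Agent.S36.H90

open Fermat.Agent Fermat.Agent.S24 Fermat.Agent.S29
open Fermat.Agent.S24.H81 (Hol Mer)
open Fermat.Agent.S29.H25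
open Fermat.Agent.S41.H85 (gl)
open Fermat.Agent.S41.H72 Fermat.Agent.S41.H65
open Fermat.Agent.S35.H90 (Jmer actGL_slp_Jmer thetaC_jdC_eq scalarPos actGL_scalarPos alPos
  val_mapGL_sl2)
open P2MW.S_ModularForm_heckeT_slash_eq_self_of_mem_Gamma0.ModularForm.HeckeSlashInvariance

variable {M Q : ℕ}

/-- `γ = [[e₁ x, d' y],[e, e₂]]`, `M = d' e`, `Q = e₁ e₂`. -/
def gamE (D : ALData M Q) (d' e e₁ e₂ : ℕ) (hde : M = d' * e) (hQ : Q = e₁ * e₂) : SL(2, ℤ) :=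
  sl2 (e₁ * D.x) (d' * D.y) e e₂ (by
    have h := D.h
    have hM : (M : ℤ) = d' * e := by exact_mod_cast hde
    have hQ' : (Q : ℤ) = e₁ * e₂ := by exact_mod_cast hQ
    linear_combination h + D.y * hM - D.x * hQ')

/-- `diag(d' e₁,1) · W = e₁ · γ · diag(d' e₂,1)`. -/
theorem diagPos_mul_alPos_gen (D : ALData M Q) (hQ0 : Q ≠ 0) (d' e e₁ e₂ : ℕ)
    (hde : M = d' * e) (hQ : Q = e₁ * e₂) (h1 : d' * e₁ ≠ 0) (h2 : d' * e₂ ≠ 0) (he₁ : e₁ ≠ 0) :
    H65.diagPos (d' * e₁) h1 * alPos D hQ0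
      = scalarPos e₁ he₁ * H65.slp (gamE D d' e e₁ e₂ hde hQ) * H65.diagPos (d' * e₂) h2 := by
  apply Subtype.ext
  show heckeDiagMatrix (d' * e₁) * alGL D hQ0
    = scalarGL e₁ he₁ * mapGL ℝ (gamE D d' e e₁ e₂ hde hQ) * heckeDiagMatrix (d' * e₂)
  have hM : (M : ℝ) = d' * e := by exact_mod_cast hde
  have hQ' : (Q : ℝ) = e₁ * e₂ := by exact_mod_cast hQ
  apply Units.ext
  simp only [Units.val_mul, val_alGL, val_scalarGL, val_heckeDiagMatrix h1,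
    val_heckeDiagMatrix h2, gamE, val_mapGL_sl2, Matrix.mul_fin_two, hM, hQ']
  push_cast
  ext a b
  fin_cases a <;> fin_cases b <;> simp <;> ring

variable [NeZero M] [NeZero Q]

/-- `(θ j_{d' e₁}) ∘ W = θ j_{d' e₂}` for `d' ∣ M`, `Q = e₁ e₂`. -/
theorem actGL_alPos_thetaC_jdC_gen (D : ALData M Q) (d' e₁ e₂ : ℕ) [NeZero (d' * e₁)]
    [NeZero (d' * e₂)] (hd' : d' ∣ M) (hQ : Q = e₁ * e₂)
    (hd1 : d' * e₁ ∣ M * Q) (hd2 : d' * e₂ ∣ M * Q) :
    H65.actGL (alPos D (NeZero.ne Q)) (thetaC (M * Q) (jdC (M * Q) (d' * e₁) hd1))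
      = thetaC (M * Q) (jdC (M * Q) (d' * e₂) hd2) := by
  obtain ⟨e, hde⟩ := hd'
  have he₁ : e₁ ≠ 0 := fun h => by
    have := NeZero.ne (d' * e₁)
    rw [h, mul_zero] at this
    exact this rfl
  rw [thetaC_jdC_eq, thetaC_jdC_eq, ← H65.actGL_mul,
    diagPos_mul_alPos_gen D (NeZero.ne Q) d' e e₁ e₂ hde hQ (NeZero.ne (d' * e₁))
      (NeZero.ne (d' * e₂)) he₁,
    H65.actGL_mul, H65.actGL_mul, actGL_scalarPos, actGL_slp_Jmer]

end Fermat.Agent.S36.H90
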