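import Mathlib
import Fermat.Agent.S36.H90_ALMerQ
import Fermat.Agent.S35.H90_ALField

/-!
# S36 / row N36 (helper90), part 2: the Atkin–Lehner involution `w_Q` of the function field of
`X₀(M Q)` for an ARBITRARY `Q` prime to `M`

`D : ALData M Q`, `W = alPos D`.  The `ℂ`-algebra involution

  `alEquivQ D : FC (M Q) ≃ₐ[ℂ] FC (M Q)`,   `thetaC (w x) = (thetaC x) ∘ W`,

(`w` maps the generator `j_d`, `d = gcd(d,M) gcd(d,Q)`, to `j_{gcd(d,M) Q / gcd(d,Q)}`).  This is
the S36 twin of `S35.H90.alEquiv` (which needs `Q` prime); used with `Q = q ^ 2`.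
-/

set_option autoImplicit false
set_option linter.unusedSectionVars false
set_option linter.style.haveILetI false

open UpperHalfPlane ModularCurve AlgebraicCurve CongruenceSubgroup Matrix.SpecialLinearGroup
  ModularForm
open scoped MatrixGroups Manifold

noncomputable section

namespace Fermat.Agent.S36.H90

open Fermat.Agent Fermat.Agent.S24 Fermat.Agent.S29
open Fermat.Agent.S24.H81 (Hol Mer)
open Fermat.Agent.S29.H25
open Fermat.Agent.S41.H85 (gl)
open Fermat.Agent.S41.H72 Fermat.Agent.S41.H65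
open Fermat.Agent.S35.H90 (alPos alEmb alEmb_apply alEmb_algebraMap alSub mem_alSub
  alPos_mul_alPos actGL_scalarPos)
open P2MW.S_ModularForm_heckeT_slash_eq_self_of_mem_Gamma0.ModularForm.HeckeSlashInvariance

variable {M Q : ℕ}

theorem coprime_of_alData (D : ALData M Q) : Nat.Coprime Q M := by
  rw [← Nat.isCoprime_iff_coprime]
  exact ⟨D.x, -D.y, by have h := D.h; linear_combination h⟩

variable [NeZero M] [NeZero Q]

theorem alEmb_gensQ (D : ALData M Q) (x : FC (M * Q)) (hx : x ∈ gensC (M * Q)) :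
    alEmb D x ∈ (thetaC (M * Q)).fieldRange := by
  obtain ⟨d, hne, hd, rfl⟩ := hx
  have hcop : Nat.Coprime M Q := (coprime_of_alData D).symm
  -- `d = gcd(d,M) * gcd(d,Q)`
  have hdd : d = Nat.gcd d M * Nat.gcd d Q := by
    have h1 := Nat.Coprime.gcd_mul d hcop
    rw [Nat.gcd_eq_left hd] at h1
    exact h1
  set d' := Nat.gcd d M with hd'
  set e₁ := Nat.gcd d Q with he₁
  have hd'M : d' ∣ M := Nat.gcd_dvd_right d M
  have he₁Q : e₁ ∣ Q := Nat.gcd_dvd_right d Q
  obtain ⟨e₂, hQ⟩ := he₁Q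
  have hd'0 : d' ≠ 0 := fun h => by
    have := hne.out
    rw [hdd, h, zero_mul] at this
    exact this rfl
  have he₂0 : e₂ ≠ 0 := fun h => by
    have := NeZero.ne Q
    rw [hQ, h, mul_zero] at this
    exact this rfl
  haveI : NeZero (d' * e₁) := ⟨by rw [← hdd]; exact hne.out⟩
  haveI : NeZero (d' * e₂) := ⟨mul_ne_zero hd'0 he₂0⟩
  have hd1 : d' * e₁ ∣ M * Q := by rw [← hdd]; exact hd
  have hd2 : d' * e₂ ∣ M * Q := mul_dvd_mul hd'M ⟨e₁, by rw [hQ, mul_comm]⟩
  have key := actGL_alPos_thetaC_jdC_gen D d' e₁ e₂ hd'M hQ hd1 hd2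
  refine ⟨jdC (M * Q) (d' * e₂) hd2, ?_⟩
  rw [alEmb_apply, ← key]
  congr 2
  -- `jdC (M*Q) d hd = jdC (M*Q) (d' * e₁) hd1`
  have : ∀ (a b : ℕ) (hab : a = b) [NeZero a] [NeZero b] (ha : a ∣ M * Q) (hb : b ∣ M * Q),
      jdC (M * Q) a ha = jdC (M * Q) b hb := by
    intro a b hab _ _ ha hb
    subst hab
    rfl
  exact this _ _ hdd.symm _ _

theorem alSub_eq_topQ (D : ALData M Q) : alSub D = ⊤ := by
  rw [eq_top_iff, ← adjoin_gensC_eq_top (M * Q), IntermediateField.adjoin_le_iff]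
  exact fun x hx => alEmb_gensQ D x hx

theorem exists_thetaC_eq_alEmbQ (D : ALData M Q) (x : FC (M * Q)) :
    ∃ y : FC (M * Q), thetaC (M * Q) y = alEmb D x := by
  have hx : x ∈ alSub D := by rw [alSub_eq_topQ D]; exact IntermediateField.mem_top
  exact (mem_alSub D x).mp hx

/-- The underlying function of the Atkin–Lehner involution `w_Q`. -/
def alFunQ (D : ALData M Q) (x : FC (M * Q)) : FC (M * Q) :=
  Classical.choose (exists_thetaC_eq_alEmbQ D x)

theorem thetaC_alFunQ (D : ALData M Q) (x : FC (M * Q)) :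
    thetaC (M * Q) (alFunQ D x) = alEmb D x :=
  Classical.choose_spec (exists_thetaC_eq_alEmbQ D x)

/-- The Atkin–Lehner endomorphism `w_Q` of `FC (M Q)`: `thetaC (w x) = (thetaC x) ∘ W`. -/
def alHomQ (D : ALData M Q) : FC (M * Q) →ₐ[ℂ] FC (M * Q) where
  toFun := alFunQ D
  map_one' := thetaC_injective (M * Q) (by
    rw [thetaC_alFunQ, RingHom.map_one, RingHom.map_one])
  map_mul' x y := thetaC_injective (M * Q) (by
    rw [thetaC_alFunQ, RingHom.map_mul, RingHom.map_mul, thetaC_alFunQ, thetaC_alFunQ])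
  map_zero' := thetaC_injective (M * Q) (by
    rw [thetaC_alFunQ, RingHom.map_zero, RingHom.map_zero])
  map_add' x y := thetaC_injective (M * Q) (by
    rw [thetaC_alFunQ, RingHom.map_add, RingHom.map_add, thetaC_alFunQ, thetaC_alFunQ])
  commutes' c := thetaC_injective (M * Q) (by rw [thetaC_alFunQ, alEmb_algebraMap])

theorem thetaC_alHomQ (D : ALData M Q) (x : FC (M * Q)) :
    thetaC (M * Q) (alHomQ D x)
      = H65.actGL (alPos D (NeZero.ne Q)) (thetaC (M * Q) x) :=
  thetaC_alFunQ D x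

/-- `w ∘ w = id`. -/
theorem alHomQ_alHomQ (D : ALData M Q) (x : FC (M * Q)) :
    alHomQ D (alHomQ D x) = x := by
  apply thetaC_injective (M * Q)
  rw [thetaC_alHomQ, thetaC_alHomQ, ← H65.actGL_mul, alPos_mul_alPos, H65.actGL_mul,
    actGL_scalarPos, H65.actGL_glp_thetaC]

/-- **The Atkin–Lehner involution `w_Q` of the function field of `X₀(M Q)`**, `Q` prime to `M`. -/
def alEquivQ (D : ALData M Q) : FC (M * Q) ≃ₐ[ℂ] FC (M * Q) :=
  AlgEquiv.ofAlgHom (alHomQ D) (alHomQ D)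
    (AlgHom.ext fun x => alHomQ_alHomQ D x) (AlgHom.ext fun x => alHomQ_alHomQ D x)

@[simp] theorem alEquivQ_apply (D : ALData M Q) (x : FC (M * Q)) :
    alEquivQ D x = alHomQ D x := rfl

@[simp] theorem alEquivQ_symm_apply (D : ALData M Q) (x : FC (M * Q)) :
    (alEquivQ D).symm x = alHomQ D x := rfl

theorem thetaC_alEquivQ (D : ALData M Q) (x : FC (M * Q)) :
    thetaC (M * Q) (alEquivQ D x)
      = H65.actGL (alPos D (NeZero.ne Q)) (thetaC (M * Q) x) :=
  thetaC_alHomQ D x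

end Fermat.Agent.S36.H90
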