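import Mathlib
import Fermat.Agent.S35.H90_ALMer
import Fermat.Agent.S35.H16_RelDegV
import Fermat.Agent.S35.H86_NormBaseChange
import Fermat.Agent.S29.H90_NormAnFinal
import Fermat.Agent.S24.H17_Theta
import Fermat.Agent.S24.H15_Conjugates

/-!
# S36 / row N36 (B3)+(B4) (helper90): degree and analytic norm formula for
`β = heckeBetaBar ℂ M q : F_M → F_{Mq}` when `q ∣ M`

`q` prime, `q ∣ M`.

* (B3) `finrankAlong_beta_of_dvd : [F_{Mq} : β F_M] = q` (over any field `L ⊇ ℚ`);
* (B4) `thetaC_normAlong_beta_eq_prod_heckeMatrix` :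
  `thetaC M (Nm_β x) = ∏ j : ZMod q, actGL [[1,j],[0,q]] (thetaC (M q) x)`.
-/

set_option autoImplicit false
set_option linter.unusedSectionVars false
set_option linter.style.haveILetI false
set_option synthInstance.maxHeartbeats 400000

open UpperHalfPlane AlgebraicCurve ModularCurve CongruenceSubgroup Module ModularForm
open scoped MatrixGroups Manifold

noncomputable section

namespace Fermat.Agent.S36.H90

open Fermat.Agent Fermat.Agent.S24 Fermat.Agent.S29 Fermat.Agent.S18
open Fermat.Agent.S24.H81 (Hol Mer)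
open Fermat.Agent.S29.H25
open P2MW.S_ModularForm_heckeT_slash_eq_self_of_mem_Gamma0.ModularForm.HeckeSlashInvariance

/-! ### (B3) the degree of `V_q` at `q ∣ M` -/

section Degree

variable (K : Type) [Field K]

open Fermat.Agent.S35.H16 Fermat.Agent.S34.H16 in
/-- `[F_N : V_q(F_M)] = q` for `N = q * M`, `q` prime, `q ∣ M`. -/
theorem relfinrank_vRange_fullC_of_dvd (q M N : ℕ) [NeZero q] [NeZero M] [NeZero N] (hq : q.Prime)
    (hqM : q ∣ M) (hN : N = q * M) (hNK : ((N : ℕ) : K) ≠ 0) :
    IntermediateField.relfinrank (vRange K q M) (modularFunctionFieldFullC K N) = q := by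
  have hqN : q ∣ N := hN ▸ Dvd.intro M rfl
  have hMN : M ∣ N := hN ▸ Dvd.intro_left q rfl
  have h1 := relfinrank_kJq_vRange K q M (natCast_ne_zero_of_dvd K hMN hNK)
  have h2 := relfinrank_kJq_fullC K q N hqN hNK
  have h3 := IntermediateField.relfinrank_mul_relfinrank (kJq_le_vRange K q M)
    (vRange_le_fullC K q M N hN)
  rw [h1, h2] at h3
  have hψ : dedekindPsi N = dedekindPsi M * q := by
    rw [hN, S28.H64.dedekindPsi_prime_mul hq (Nat.pos_of_ne_zero (NeZero.ne M)), if_pos hqM]
  rw [hψ] at h3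
  exact Nat.eq_of_mul_eq_mul_left (S18.H16.dedekindPsi_pos' M) h3

open Fermat.Agent.S35.H16 Fermat.Agent.S34.H16 in
/-- **`[F_N : F_M] = q` for the algebra structure `V_q`**, `q ∣ M`. -/
theorem finrank_vSub_of_dvd (q M N : ℕ) [NeZero q] [NeZero M] [NeZero N] (hq : q.Prime)
    (hqM : q ∣ M) (hN : N = q * M) (hNK : ((N : ℕ) : K) ≠ 0) :
    letI := vAlgebra K q M N (dvd_of_eq hN.symm)
    Module.finrank (modularFunctionFieldFullC K M) (modularFunctionFieldFullC K N) = q := by
  letI := vAlgebra K q M N (dvd_of_eq hN.symm)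
  refine Eq.trans ?_ (relfinrank_vRange_fullC_of_dvd K q M N hq hqM hN hNK)
  rw [IntermediateField.relfinrank_eq_finrank_of_le (vRange_le_fullC K q M N hN)]
  let i : modularFunctionFieldFullC K M ≃+* vRange K q M :=
    (IntermediateField.equivMap (modularFunctionFieldFullC K M) (qExpandAlgHomC K q)).toRingEquiv
  let j : modularFunctionFieldFullC K N ≃+*
      (IntermediateField.extendScalars (vRange_le_fullC K q M N hN)) :=
    { toFun := fun x => ⟨x.1, x.2⟩
      invFun := fun x => ⟨x.1, x.2⟩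
      left_inv := fun _ => rfl
      right_inv := fun _ => rfl
      map_mul' := fun _ _ => rfl
      map_add' := fun _ _ => rfl }
  refine Algebra.finrank_eq_of_equiv_equiv i j ?_
  apply RingHom.ext
  intro x
  apply Subtype.ext
  rfl

end Degree

section BetaDegree

variable (M q : ℕ) [NeZero M] [NeZero q]

/-- **(B3)** `[F_{Mq}(L) : β F_M(L)] = q` over ANY field `L ⊇ ℚ` (`q` prime, `q ∣ M`). -/
theorem finrankAlong_heckeBetaBar_of_dvd_gen (L : Type) [Field L] [Algebra ℚ L]
    (hq : q.Prime) (hqM : q ∣ M) :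
    finrankAlong L (heckeBetaBar L M q) = q := by
  haveI : CharZero L := charZero_of_injective_algebraMap (algebraMap ℚ L).injective
  letI algK := S35.H16.vAlgebra L q M (M * q) (dvd_of_eq (Nat.mul_comm q M))
  letI algQ : Algebra (laurentBaseChange L (modularFunctionFieldFull M))
      (laurentBaseChange L (modularFunctionFieldFull (M * q))) := algebraAlong (heckeBetaBar L M q)
  have hNK : ((M * q : ℕ) : L) ≠ 0 := Nat.cast_ne_zero.mpr (NeZero.ne (M * q))
  have h1 := finrank_vSub_of_dvd L q M (M * q) hq hqM (Nat.mul_comm M q) hNK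
  show finrank (laurentBaseChange L (modularFunctionFieldFull M))
    (laurentBaseChange L (modularFunctionFieldFull (M * q))) = q
  refine Eq.trans ?_ h1
  symm
  refine Algebra.finrank_eq_of_equiv_equiv
    (IntermediateField.equivOfEq (H99.fullC_eq_laurentBaseChange L M)).toRingEquiv
    (IntermediateField.equivOfEq (H99.fullC_eq_laurentBaseChange L (M * q))).toRingEquiv ?_
  refine RingHom.ext fun x => Subtype.ext ?_
  show ((heckeBetaBar L M q (IntermediateField.equivOfEq (H99.fullC_eq_laurentBaseChange L M) x) :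
      laurentBaseChange L (modularFunctionFieldFull (M * q))) : LaurentSeries L)
    = ((IntermediateField.equivOfEq (H99.fullC_eq_laurentBaseChange L (M * q))
        (algebraMap (modularFunctionFieldFullC L M) (modularFunctionFieldFullC L (M * q)) x) :
          laurentBaseChange L (modularFunctionFieldFull (M * q))) : LaurentSeries L)
  rw [coe_heckeBetaBar]
  show qExpand L q (x : LaurentSeries L)
    = ((algebraMap (modularFunctionFieldFullC L M) (modularFunctionFieldFullC L (M * q)) x :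
        modularFunctionFieldFullC L (M * q)) : LaurentSeries L)
  rw [S35.H16.vAlgebra_algebraMap_coe]

/-- `[F_{Mq}(ℂ) : β F_M(ℂ)] = q` (`q` prime, `q ∣ M`). -/
theorem finrankAlong_beta_of_dvd (hq : q.Prime) (hqM : q ∣ M) :
    finrankAlong ℂ (heckeBetaBar ℂ M q) = q :=
  finrankAlong_heckeBetaBar_of_dvd_gen M q ℂ hq hqM

/-- `[F_{Mq}(Qbar) : β F_M(Qbar)] = q` (`q` prime, `q ∣ M`). -/
theorem finrankAlong_beta_of_dvd_Qbar (hq : q.Prime) (hqM : q ∣ M) :
    finrankAlong (AlgebraicClosure ℚ) (heckeBetaBar (AlgebraicClosure ℚ) M q) = q :=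
  finrankAlong_heckeBetaBar_of_dvd_gen M q (AlgebraicClosure ℚ) hq hqM

end BetaDegree

/-! ### (B4) the analytic norm formula along `β` at `q ∣ M` -/

section Norm

open Fermat.Agent.S41.H72 Fermat.Agent.S41.H65 Fermat.Agent.S35.H90
open Matrix.SpecialLinearGroup

variable (M q : ℕ) [NeZero M] [NeZero q]

/-- `[[1,j],[0,q]]` in `GL(2,ℝ)⁺`. -/
def uPos (j : ℕ) : GL(2, ℝ)⁺ := ⟨heckeMatrix q j, H65.heckeMatrix_mem_glPos (NeZero.ne q) j⟩

@[simp] theorem coe_uPos (j : ℕ) :
    ((uPos q j : GL(2, ℝ)⁺) : GL (Fin 2) ℝ) = heckeMatrix q j := rfl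

/-- The translation `T^j = [[1,j],[0,1]]`. -/
def tPow (j : ℕ) : SL(2, ℤ) := sl2 1 j 0 1 (by ring)

omit [NeZero M] in
theorem tPow_mem (j : ℕ) : tPow j ∈ Gamma0 M := by
  rw [Gamma0_mem]
  simp [tPow]

/-- `diag(q,1) · [[1,j],[0,q]] = q · T^j`. -/
theorem diagPos_mul_uPos (j : ℕ) :
    H65.diagPos q (NeZero.ne q) * uPos q j
      = scalarPos q (NeZero.ne q) * H65.slp (tPow j) := by
  apply Subtype.ext
  show heckeDiagMatrix q * heckeMatrix q j = scalarGL q (NeZero.ne q) * mapGL ℝ (tPow j)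
  apply Units.ext
  simp only [Units.val_mul, val_scalarGL, val_heckeDiagMatrix (NeZero.ne q),
    val_heckeMatrix (NeZero.ne q), tPow, val_mapGL_sl2, Matrix.mul_fin_two]
  push_cast
  ext a b
  fin_cases a <;> fin_cases b <;> simp

/-- `σ_j ∘ β = thetaC M`: the conjugate embedding `actGL [[1,j],[0,q]] ∘ thetaC (M q)` extends
`thetaC M` along `β`. -/
theorem actGL_uPos_thetaC_beta (j : ℕ) (f : FC M) :
    H65.actGL (uPos q j) (thetaC (M * q) (heckeBetaBar ℂ M q f)) = thetaC M f := by
  rw [H47.thetaC_heckeBetaBar, S29.H90.scaleMer_eq_actGL, ← H65.actGL_mul, diagPos_mul_uPos,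
    H65.actGL_mul, actGL_scalarPos, H65.actGL_slp]
  exact merComp_thetaC M (tPow_mem M j) f

/-- `[[1,j],[0,q]] τ = (τ + j)/q`. -/
theorem uPos_smul (j : ℕ) (τ : ℍ) :
    ((uPos q j : GL(2, ℝ)⁺) : GL (Fin 2) ℝ) • τ
      = H15.aff 1 j q one_pos (Nat.pos_of_ne_zero (NeZero.ne q)) τ := by
  apply UpperHalfPlane.ext
  rw [UpperHalfPlane.coe_smul_of_det_pos (H65.glPos_det_pos (uPos q j))]
  simp [UpperHalfPlane.num, UpperHalfPlane.denom, val_heckeMatrix (NeZero.ne q), H15.coe_aff]

/-- The conjugates `J((τ + j)/q)`, `j ∈ ℤ/q`, are pairwise distinct. -/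
theorem eq_of_actGL_uPos_Jmer_eq (j j' : ZMod q)
    (h : H65.actGL (uPos q j.val) Jmer = H65.actGL (uPos q j'.val) Jmer) : j = j' := by
  unfold Jmer at h
  rw [H65.actGL_algebraMap, H65.actGL_algebraMap] at h
  have h2 := IsFractionRing.injective Hol Mer h
  have hq0 : 0 < q := Nat.pos_of_ne_zero (NeZero.ne q)
  have key := H15.conj_injective H28.J H17.tendsto_qParam_mul_J 1 j.val q 1 j'.val q
    one_pos hq0 one_pos hq0 rfl (ZMod.val_lt j) (ZMod.val_lt j') (fun τ => by
      have := congrArg (fun k : Hol => (k : ℍ → ℂ) τ) h2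
      simpa only [H65.compHol_apply, uPos_smul] using this)
  exact ZMod.val_injective q key.2.1

/-- **(B4) NORM-AN for `β` at `q ∣ M`**: the norm along `β` is the product of the conjugates by
the matrices `[[1,j],[0,q]]`, `j ∈ ℤ/q`. -/
theorem thetaC_normAlong_beta_eq_prod_heckeMatrix (hq : q.Prime) (hqM : q ∣ M)
    (x : FC (M * q)) :
    thetaC M (S29.H90.normAlong (heckeBetaBar ℂ M q) x) =
      ∏ j : ZMod q, H65.actGL (uPos q j.val) (thetaC (M * q) x) := by
  haveI : CharZero (FC M) :=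
    charZero_of_injective_algebraMap (algebraMap ℂ (FC M)).injective
  have h := S29.H90.normAlong_eq_prod (heckeBetaBar ℂ M q) (thetaC M)
    (fun j : ZMod q => (H65.actGL (uPos q j.val)).comp (thetaC (M * q)))
    (fun j a => actGL_uPos_thetaC_beta M q j.val a)
    (fun j j' hjj' => by
      apply eq_of_actGL_uPos_Jmer_eq q j j'
      have := congrArg (fun φ : FC (M * q) →+* Mer => φ (jC (M * q))) hjj'
      simp only [RingHom.comp_apply, thetaC_jC] at this
      exact this)
    (by rw [ZMod.card, finrankAlong_beta_of_dvd M q hq hqM]) x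
  simpa using h

end Norm

end Fermat.Agent.S36.H90
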