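import Mathlib
import Fermat.Agent.S36.H90_NormBetaQ
import Fermat.Agent.S36.H90_VerAlpha
import Fermat.Agent.S35.H90_NormEquivBeta

/-!
# S36 / row N36 (B5) (helper90): NORM-EQUIV for `β` at `q ∣ M`, for ANY coset datum with
representatives `[[1,j],[0,q]]`

`q` prime, `q ∣ M`.  Let `D : CosetDatum (gl (M q)) (gl M) (ZMod q)` be ANY coset datum whose
representatives are the matrices `heckeMatrix q j = [[1,j],[0,q]]` (`hα`).  Then, with the analytic
norm formula `thetaC_normAlong_beta_eq_prod_heckeMatrix` of `H90_NormBetaQ`,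

  `lam_M (ζ_n ^ D.opPar x) = β_* (lam_{Mq} (ζ_n ^ x))`              (`lam_opPar_of_heckeMatrix`)
  `lamW_M (verBOf D x) = β_* (lamW_{Mq} x)`, `verBOf D := w_M ∘ D.opPar ∘ w_{Mq}`   (`lamW_verBOf`)

the twins of `S35.H90.lam_corcPar`, `lamW_verB`.
-/

set_option autoImplicit false
set_option linter.unusedSectionVars false
set_option linter.style.haveILetI false

open UpperHalfPlane AlgebraicCurve ModularCurve CongruenceSubgroup ModularForm
open scoped MatrixGroups Manifold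

noncomputable section

namespace Fermat.Agent.S36.H90

open Fermat.Agent Fermat.Agent.S24 Fermat.Agent.S24.H81 Fermat.Agent.S29
open Fermat.Agent.S41.H85 (gl CosetDatum Lat)
open Fermat.Agent.S29.H85 (kummerSetupFinal chiLat charX admUnits thetaAlg actAlg)
open Fermat.Agent.S41.H72 Fermat.Agent.S41.H65
open Fermat.Agent.S35.H90 (betaPush lam_push isIntegral_FC finiteAlong_FC normFormulaAlong_FC
  scalarPos wPar_injective)
open ModularCurve.Period Matrix.SpecialLinearGroup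

attribute [local instance] H85.merAlgebra

variable {M q : ℕ} [NeZero M] [NeZero q]

/-! ### `[[1,j],[0,q]]` stabilises the cusp ring -/

/-- `S = [[0,-1],[1,0]]`. -/
def sMat : SL(2, ℤ) := sl2 0 (-1) 1 0 (by ring)

/-- `S⁻¹ = [[0,1],[-1,0]]`. -/
def sInv : SL(2, ℤ) := sl2 0 1 (-1) 0 (by ring)

/-- `[[1,j],[0,q]] = S⁻¹ · diag(q,1) · S · T^j`. -/
theorem uPos_eq_mul (j : ℕ) :
    uPos q j = H65.slp sInv * H65.diagPos q (NeZero.ne q) * H65.slp sMat * H65.slp (tPow j) := by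
  apply Subtype.ext
  show heckeMatrix q j
    = mapGL ℝ sInv * heckeDiagMatrix q * mapGL ℝ sMat * mapGL ℝ (tPow j)
  apply Units.ext
  simp only [Units.val_mul, val_heckeDiagMatrix (NeZero.ne q), val_heckeMatrix (NeZero.ne q),
    tPow, sMat, sInv, S35.H90.val_mapGL_sl2, Matrix.mul_fin_two]
  push_cast
  ext a b
  fin_cases a <;> fin_cases b <;> simp

theorem uPos_mem_cuspStab (j : ℕ) : uPos q j ∈ H72.cuspStab := by
  rw [uPos_eq_mul]
  exact H72.cuspStab.mul_mem
    (H72.cuspStab.mul_mem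
      (H72.cuspStab.mul_mem (H72.slp_mem_cuspStab _) (H72.diagPos_mem_cuspStab q _))
      (H72.slp_mem_cuspStab _))
    (H72.slp_mem_cuspStab _)

/-! ### The datum in `GL(2,ℝ)⁺` -/

section datum

variable (D : CosetDatum (gl (M * q)) (gl M) (ZMod q))
  (hα : ∀ j : ZMod q, D.α j = heckeMatrix q j.val)

/-- A coset datum with representatives `[[1,j],[0,q]]`, as a coset datum for `GL(2,ℝ)⁺`. -/
def uPosDatum : CosetDatum (H65.glp (M * q)) (H65.glp M) (ZMod q) :=
  H65.posDatum D (fun j => by rw [hα]; exact H65.heckeMatrix_mem_glPos (NeZero.ne q) _)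

theorem uPosDatum_α (j : ZMod q) : (uPosDatum D hα).α j = uPos q j.val :=
  Subtype.ext (hα j)

end datum

section main

open H88 H65.CosetDatumMul

variable (D : CosetDatum (gl (M * q)) (gl M) (ZMod q))
  (hα : ∀ j : ZMod q, D.α j = heckeMatrix q j.val)

include hα

/-- **NORM-EQUIV for `β` at `q ∣ M`, character form.** -/
theorem lam_opMul_uPosDatum (hq : q.Prime) (hqM : q ∣ M) {n : ℕ} (hn : 0 < n)
    {χ : Gamma0 (M * q) →* ℂˣ} (hχ : χ ∈ charX (Gamma0 (M * q)) n)
    (hχ' : opMul (uPosDatum D hα) χ ∈ charX (Gamma0 M) n) :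
    (kummerSetupFinal M hn).lam hn (Additive.ofMul ⟨opMul (uPosDatum D hα) χ, hχ'⟩)
      = betaPush M q ((kummerSetupFinal (M * q) hn).lam hn (Additive.ofMul ⟨χ, hχ⟩)) := by
  have hX : ∀ χ ∈ charX (Gamma0 (M * q)) n,
      opMul (uPosDatum D hα) χ ∈ charX (Gamma0 M) n := by
    rintro _ ⟨x, rfl⟩
    rw [H85.opMul_expChar]
    exact ⟨⟨_, Fermat.Agent.S41.H85.op_mem_parabolicHoms D ℤ x.2⟩, rfl⟩
  exact lam_push (kummerSetupFinal M hn) (kummerSetupFinal (M * q) hn) hn (heckeBetaBar ℂ M q)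
    (isIntegral_FC _) (finiteAlong_FC _) (normFormulaAlong_FC _)
    (H65.heckeMer (uPosDatum D hα)) (opMul (uPosDatum D hα))
    (fun Φ hΦ => H72.heckeMer_mem_admUnits (uPosDatum D hα)
      (fun i => by
        rw [uPosDatum_α]
        exact uPos_mem_cuspStab _) hΦ)
    hX
    (fun χ _ Φ _ haut =>
      (H65.isAut_iff (fun c => rfl) (H85.actAlg_eq_actGL M) _ _).mpr
        (H65.IsAut.heckeMer (uPosDatum D hα)
          ((H65.isAut_iff (fun c => rfl) (H85.actAlg_eq_actGL (M * q)) χ Φ).mp haut)))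
    (fun f Φ hΦ => by
      rw [H65.heckeMer_val, ← hΦ]
      refine (thetaC_normAlong_beta_eq_prod_heckeMatrix M q hq hqM f).trans ?_
      refine Finset.prod_congr rfl fun i _ => ?_
      rw [uPosDatum_α]
      rfl)
    hχ

/-- **NORM-EQUIV for `β` at `q ∣ M`, lattice form**:
`lam_M (ζ_n ^ D.opPar x) = β_* (lam_{Mq} (ζ_n ^ x))`. -/
theorem lam_opPar_of_heckeMatrix (hq : q.Prime) (hqM : q ∣ M) {n : ℕ} (hn : 0 < n)
    (x : Lat (M * q)) :
    (kummerSetupFinal M hn).lam hn (chiLat (Gamma0 M) n (D.opPar ℤ ℤ x))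
      = betaPush M q ((kummerSetupFinal (M * q) hn).lam hn (chiLat (Gamma0 (M * q)) n x)) := by
  have hχ : H85.expChar (H85.zetaC n) (x : Additive (Gamma0 (M * q)) →+ ℤ)
      ∈ charX (Gamma0 (M * q)) n := H85.expChar_mem_charX x
  have hχ' : opMul (uPosDatum D hα)
      (H85.expChar (H85.zetaC n) (x : Additive (Gamma0 (M * q)) →+ ℤ))
      ∈ charX (Gamma0 M) n := by
    rw [H85.opMul_expChar]
    exact H85.expChar_mem_charX (D.opPar ℤ ℤ x)
  have key := lam_opMul_uPosDatum D hα hq hqM hn hχ hχ'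
  have e1 : chiLat (Gamma0 (M * q)) n x = Additive.ofMul ⟨_, hχ⟩ := rfl
  have e2 : chiLat (Gamma0 M) n (D.opPar ℤ ℤ x) = Additive.ofMul ⟨_, hχ'⟩ := by
    apply Additive.toMul.injective
    apply Subtype.ext
    show H85.expChar (H85.zetaC n) _ = opMul (uPosDatum D hα) _
    rw [H85.opMul_expChar]
    rfl
  rw [e1, e2]
  exact key

omit hα in
/-- `Ver_B := w_M ∘ D.opPar ∘ w_{Mq}`, the `[[1,j],[0,q]]`-transfer in the `lamW`-normalisation. -/
def verBOf : Lat (M * q) →+ Lat M :=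
  (H65.wPar (NeZero.ne M)).comp
    ((D.opPar ℤ ℤ).toAddMonoidHom.comp (H65.wPar (NeZero.ne (M * q))))

omit hα in
theorem verBOf_apply (x : Lat (M * q)) :
    verBOf D x = H65.wPar (NeZero.ne M) (D.opPar ℤ ℤ (H65.wPar (NeZero.ne (M * q)) x)) := rfl

/-- **NORM-EQUIV for `β` at `q ∣ M`, `lamW`-form**: `lamW_M (Ver_B x) = β_* (lamW_{Mq} x)`. -/
theorem lamW_verBOf (hq : q.Prime) (hqM : q ∣ M) {n : ℕ} (hn : 0 < n) (x : Lat (M * q)) :
    H65.lamW (kummerSetupFinal M hn) hn (verBOf D x)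
      = betaPush M q (H65.lamW (kummerSetupFinal (M * q) hn) hn x) := by
  rw [H65.lamW_apply, H65.lamW_apply, verBOf_apply, H65.wPar_wPar]
  exact lam_opPar_of_heckeMatrix D hα hq hqM hn _

omit hα in
theorem verBOf_eq_zero_iff (x : Lat (M * q)) :
    verBOf D x = 0 ↔ D.opPar ℤ ℤ (H65.wPar (NeZero.ne (M * q)) x) = 0 := by
  rw [verBOf_apply]
  constructor
  · intro h
    exact wPar_injective (NeZero.ne M) (h.trans (map_zero _).symm)
  · intro h
    rw [h, map_zero]

/-- Kernel form: `Ver_B x = 0 → β_* (lamW x) = 0`. -/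
theorem betaPush_lamW_eq_zero_of_verBOf (hq : q.Prime) (hqM : q ∣ M) {n : ℕ} (hn : 0 < n)
    (x : Lat (M * q)) (h : verBOf D x = 0) :
    betaPush M q (H65.lamW (kummerSetupFinal (M * q) hn) hn x) = 0 := by
  rw [← lamW_verBOf D hα hq hqM hn x, h, map_zero]

end main

end Fermat.Agent.S36.H90
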