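import Mathlib
import Fermat.Agent.S36.H90_VerBetaQ
import Fermat.Agent.S41.H85_HeckeModule
import Fermat.Agent.S41.H65_DegHecke

/-!
# S36 / row N36 (B1)+(B2) (helper90): the `[[1,j],[0,q]]`-transfer `Lat (M q) → Lat M` at `q ∣ M`
and its commutation with `T_ℓ`

`q ∣ M`.  The cosets `Γ₀(M q) [[1,j],[0,q]]`, `j ∈ ℤ/q`, are stable under right multiplication by
`Γ₀(M)` (`heckeMatrix_mul_of_dvd`: the new lower-left entry is `q γ₁₀`), so they define a coset
datum `uDat M q hqM : CosetDatum (gl (M q)) (gl M) (ZMod q)`.  Its operator satisfies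
`res ∘ uDat.op = U_q` (level `M q`), `res` is injective on `ℤ`-valued homomorphisms, and `T_ℓ`
commutes with `res` and with `U_q`; hence `uDat.op` commutes with `T_ℓ`, `ℓ ∤ M q`.
-/

set_option autoImplicit false
set_option linter.unusedSectionVars false
set_option linter.style.haveILetI false

open CongruenceSubgroup Matrix.SpecialLinearGroup ModularForm ModularCurve ModularCurve.Period
open scoped MatrixGroups
open P2MW.S_ModularForm_heckeT_slash_eq_self_of_mem_Gamma0.ModularForm.HeckeSlashInvariance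

noncomputable section

namespace Fermat.Agent.S36.H90

open Fermat.Agent Fermat.Agent.S29
open Fermat.Agent.S41.H85 Fermat.Agent.S41.H72 Fermat.Agent.S41.H65

attribute [local instance] S29.H85.merAlgebra

variable (M q : ℕ)

/-! ### (B1) the datum -/

/-- The family `[[1,j],[0,q]]` is stable under right multiplication by `Γ₀(M)`, with cocycle in
`Γ₀(M q)`, when `q ∣ M`. -/
theorem stable_uMat [NeZero q] (hqM : q ∣ M) (γ : Gamma0 M) (x : ZMod q) :
    ∃ (y : ZMod q) (g : Gamma0 (M * q)),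
      heckeMatrix q x.val * gl M γ = gl (M * q) g * heckeMatrix q y.val := by
  have hN : (M : ℤ) ∣ (γ : SL(2, ℤ)) 1 0 := dvd_of_mem_Gamma0 γ.2
  have hc : (q : ℤ) ∣ (γ : SL(2, ℤ)) 1 0 := (Int.natCast_dvd_natCast.mpr hqM).trans hN
  obtain ⟨g', hg', h⟩ := heckeMatrix_mul_of_dvd (γ : SL(2, ℤ)) hc x
  refine ⟨_, ⟨g', mem_Gamma0_of_dvd ?_⟩, h⟩
  rw [hg']
  push_cast
  rw [mul_comm (M : ℤ) (q : ℤ)]
  exact mul_dvd_mul_left (q : ℤ) hN

/-- **(B1)** the coset datum of the cosets `Γ₀(M q) [[1,j],[0,q]]`, `j ∈ ℤ/q`, from level `M q` to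
level `M` (`q ∣ M`). -/
def uDat [NeZero q] (hqM : q ∣ M) : CosetDatum (gl (M * q)) (gl M) (ZMod q) :=
  CosetDatum.ofReduced (isReduced_heckeMatrix (M * q) q) (stable_uMat M q hqM)

theorem uDat_α [NeZero q] (hqM : q ∣ M) (j : ZMod q) :
    (uDat M q hqM).α j = heckeMatrix q j.val := rfl

theorem uDat_isReduced [NeZero q] (hqM : q ∣ M) :
    IsReduced (gl (M * q)) (uDat M q hqM).α := isReduced_heckeMatrix (M * q) q

/-! ### (B2) `res ∘ uDat.op = U_q` and commutation with `T_ℓ` -/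

section hom

variable {A : Type*} [AddCommGroup A]

/-- `res ∘ uDat.op = U_q` at level `M q`: same representatives, same cocycle. -/
theorem res_uDat_op [NeZero q] (hqM : q ∣ M) (ψ : Additive (Gamma0 (M * q)) →+ A) :
    res A M q ((uDat M q hqM).op ψ) = heckeUHom A (Dvd.intro_left M rfl : q ∣ M * q) ψ := by
  refine AddMonoidHom.ext fun γ => ?_
  obtain ⟨γ, rfl⟩ := Additive.ofMul.surjective γ
  rw [res_apply_apply]
  show (uDat M q hqM).op ψ (Additive.ofMul (inclHom M q γ))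
    = (heckeUDatum (M * q) q (Dvd.intro_left M rfl)).op ψ (Additive.ofMul γ)
  rw [CosetDatum.op_apply, CosetDatum.op_apply]
  refine Finset.sum_congr rfl fun x _ => ?_
  -- the two cocycles are chosen from the same (definitionally equal) existence statement
  rfl

/-- `res` is injective on `ℤ`-valued homomorphisms (`Γ₀(M q)` has finite index). -/
theorem res_int_injective [NeZero M] [NeZero q] :
    Function.Injective (res ℤ M q) := by
  rw [injective_iff_map_eq_zero]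
  intro φ hφ
  refine AddMonoidHom.ext fun γ => ?_
  obtain ⟨γ, rfl⟩ := Additive.ofMul.surjective γ
  rw [AddMonoidHom.zero_apply]
  have hfin : ((Gamma0 (M * q)).subgroupOf (Gamma0 M)).index ≠ 0 := by
    have h1 : (Gamma0 (M * q)).relIndex (Gamma0 M) ≠ 0 := by
      intro h0
      have h2 := Subgroup.relIndex_mul_index (S29.H90.Gamma0_mul_le M q)
      rw [h0, zero_mul] at h2
      exact (Subgroup.FiniteIndex.index_ne_zero (H := Gamma0 (M * q))) h2.symm
    exact h1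
  obtain ⟨n, hn0, -, hn⟩ := Subgroup.exists_pow_mem_of_index_ne_zero hfin γ
  rw [Subgroup.mem_subgroupOf] at hn
  have h1 := congrArg (fun f : Additive (Gamma0 (M * q)) →+ ℤ =>
    f (Additive.ofMul (⟨((γ ^ n : Gamma0 M) : SL(2, ℤ)), hn⟩ : Gamma0 (M * q)))) hφ
  simp only [AddMonoidHom.zero_apply] at h1
  rw [res_apply_apply] at h1
  have h2 : inclHom M q ⟨((γ ^ n : Gamma0 M) : SL(2, ℤ)), hn⟩ = γ ^ n := Subtype.ext rfl
  rw [h2, ofMul_pow, map_nsmul] at h1
  rcases smul_eq_zero.mp h1 with h | h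
  · exact absurd h hn0.ne'
  · exact h

end hom

/-! ### The transfer on the lattice -/

section lat

variable [NeZero M] [NeZero q]

/-- The `[[1,j],[0,q]]`-transfer `Lat (M q) → Lat M`, `q ∣ M`. -/
def corB (hqM : q ∣ M) : Lat (M * q) →ₗ[ℤ] Lat M := (uDat M q hqM).opPar ℤ ℤ

theorem coe_corB (hqM : q ∣ M) (x : Lat (M * q)) :
    (corB M q hqM x : Additive (Gamma0 M) →+ ℤ) = (uDat M q hqM).op x.1 := rfl

/-- **(B2)** the `[[1,j],[0,q]]`-transfer commutes with `T_ℓ`, `ℓ ∤ M q`. -/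
theorem corB_heckeTPar (hq : q.Prime) (hqM : q ∣ M) {ℓ : ℕ} (hℓ : ℓ.Prime)
    (hℓM : ¬ ℓ ∣ M * q) (y : Lat (M * q)) :
    corB M q hqM (heckeTPar ℤ ℤ hℓ hℓM y)
      = heckeTPar ℤ ℤ hℓ (not_dvd_left_of_not_dvd_mul hℓM) (corB M q hqM y) := by
  apply Subtype.ext
  apply res_int_injective M q
  rw [coe_corB, res_uDat_op, coe_heckeTPar_apply, coe_heckeTPar_apply, ← heckeTHom_res hℓ hℓM,
    coe_corB, res_uDat_op]
  have hc := commute_heckeTPar_heckeUPar_int (N := M * q) hℓ hℓM hq (Dvd.intro_left M rfl)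
  have h1 := congrArg (fun f : Lat (M * q) →ₗ[ℤ] Lat (M * q) =>
    ((f y : Lat (M * q)) : Additive (Gamma0 (M * q)) →+ ℤ)) hc.eq
  simp only [Module.End.mul_apply, coe_heckeTPar_apply, coe_heckeUPar_apply] at h1
  exact h1.symm

/-- `Ver_B' := w_M ∘ corB ∘ w_{Mq}`. -/
def verB' (hqM : q ∣ M) : Lat (M * q) →+ Lat M := verBOf (uDat M q hqM)

theorem verB'_apply (hqM : q ∣ M) (x : Lat (M * q)) :
    verB' M q hqM x
      = H65.wPar (NeZero.ne M) (corB M q hqM (H65.wPar (NeZero.ne (M * q)) x)) := rfl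

/-- **NORM-EQUIV for `β` at `q ∣ M`, `lamW`-form**: `lamW_M (Ver_B' x) = β_* (lamW_{Mq} x)`. -/
theorem lamW_verB' (hq : q.Prime) (hqM : q ∣ M) {n : ℕ} (hn : 0 < n) (x : Lat (M * q)) :
    H65.lamW (H85.kummerSetupFinal M hn) hn (verB' M q hqM x)
      = S35.H90.betaPush M q (H65.lamW (H85.kummerSetupFinal (M * q) hn) hn x) :=
  lamW_verBOf (uDat M q hqM) (uDat_α M q hqM) hq hqM hn x

/-- **`Ver_B' ∘ T_ℓ = T_ℓ ∘ Ver_B'`**, `ℓ ∤ M q`. -/
theorem verB'_heckeTPar (hq : q.Prime) (hqM : q ∣ M) {ℓ : ℕ} (hℓ : ℓ.Prime)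
    (hℓM : ¬ ℓ ∣ M * q) (x : Lat (M * q)) :
    verB' M q hqM (heckeTPar ℤ ℤ hℓ hℓM x)
      = heckeTPar ℤ ℤ hℓ (not_dvd_left_of_not_dvd_mul hℓM) (verB' M q hqM x) := by
  rw [verB'_apply, verB'_apply, S35.H90.wPar_heckeTPar, corB_heckeTPar M q hq hqM,
    S35.H90.wPar_heckeTPar]

/-- `Ver_B' ∘ cohT_ℓ = cohT_ℓ ∘ Ver_B'`, `ℓ ∤ M q`. -/
theorem verB'_cohT (hq : q.Prime) (hqM : q ∣ M) (ℓ : Nat.Primes) (hℓM : ¬ (ℓ : ℕ) ∣ M * q)
    (x : Lat (M * q)) :
    verB' M q hqM (H80.cohT (M * q) ℓ x) = H80.cohT M ℓ (verB' M q hqM x) := by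
  rw [S35.H90.cohT_of_not_dvd ℓ hℓM,
    S35.H90.cohT_of_not_dvd ℓ (not_dvd_left_of_not_dvd_mul hℓM)]
  exact verB'_heckeTPar M q hq hqM ℓ.2 hℓM x

/-- Kernel form: `Ver_B' x = 0 → β_* (lamW x) = 0`. -/
theorem betaPush_lamW_eq_zero' (hq : q.Prime) (hqM : q ∣ M) {n : ℕ} (hn : 0 < n)
    (x : Lat (M * q)) (h : verB' M q hqM x = 0) :
    S35.H90.betaPush M q (H65.lamW (H85.kummerSetupFinal (M * q) hn) hn x) = 0 := by
  rw [← lamW_verB' M q hq hqM hn x, h, map_zero]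

end lat

end Fermat.Agent.S36.H90
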