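import Mathlib
import Fermat.Agent.S36.H57_S36OfGeo
import Fermat.Agent.S36.H90_BetaHecke

/-!
# S36 / row N36, final (helper90): the lattice model of `β_*` at `q ∣ N`, and the frozen S36 from
(IF-GEO36) ALONE

* `hasLatModel_pushBeta N q hq hqN : S36.H57.HasLatModel N q (H86.pushBeta N q)` for every prime
  `q ∣ N`: the model is `verB' N q hqN = w_N ∘ corB ∘ w_{Nq}` (`corB` = the transfer of the cosets
  `Γ₀(N q) [[1,j],[0,q]]`), with `lamW_verB'` (NORM-EQUIV) and `verB'_heckeTPar`.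
  This discharges the hypothesis `hB36` of helper57's `s36_of_geo36`.
* `s36_of_ifGeo36`, `s36_of_ifGeo36'` : the frozen S36 conclusion from (IF-GEO36) only.
-/

set_option autoImplicit false
set_option linter.style.haveILetI false

namespace Fermat.Agent.S36.H90

open Polynomial CuspForm IsLocalRing ModularCurve AlgebraicCurve
open Fermat.Agent.S35 Fermat.Agent.S29.H80

local notation "Qbar" => AlgebraicClosure ℚ

/-- **(N36-β)**: `verB'` is a lattice model of `β_* : J₀(N q) → J₀(N)` for every prime `q ∣ N`. -/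
theorem hasLatModel_pushBeta (N q : ℕ) [NeZero N] [NeZero q] (hq : q.Prime) (hqN : q ∣ N) :
    S36.H57.HasLatModel N q (H86.pushBeta N q) :=
  S36.H57.hasLatModel_pushBeta_of_lamW N q (verB' N q hqN)
    (fun _ hℓ hℓN x => verB'_heckeTPar N q hq hqN hℓ hℓN x)
    (fun _ hn x => lamW_verB' N q hq hqN hn x)

/-- **The frozen S36 from (IF-GEO36) alone** (place-dependent constant). -/
theorem s36_of_ifGeo36
    (hGEO36 : ∀ (M0 q : ℕ) [NeZero M0] [NeZero q], q.Prime → ¬ q ∣ M0 → ∀ p : ℕ, p.Prime →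
      p ≠ q →
      ∃ A : ValuationSubring Qbar, A.LiesOverPrime q ∧ ∃ c : ℕ, c ≠ 0 ∧
        ∀ y : JZero ((M0 * q) * q), (∃ k : ℕ, p ^ k • y = 0) →
          H86.pushAlpha (M0 * q) q y = 0 → H86.pushBeta (M0 * q) q y = 0 →
          (∀ σ ∈ A.inertiaSubgroupIn ℚ, σ • y = y) → c • y = 0)
    {M : ℕ} [NeZero M] {g : CuspForm (CongruenceSubgroup.Gamma0 M) 2} (hg : g.IsNewform)
    (lam : ℕ) [Fact lam.Prime]
    (S : Finset ℕ)
    (O' : Type) [CommRing O'] [IsDomain O'] [IsDiscreteValuationRing O']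
    [IsAdicComplete (IsLocalRing.maximalIdeal O') O'] [Finite (IsLocalRing.ResidueField O')]
    [CharZero O'] (hlamO' : (lam : O') ∈ IsLocalRing.maximalIdeal O')
    (hlam2 : lam ≠ 2)
    (chig : CuspForm.heckeAlgebra M 2 (↑S : Set ℕ) →+* ℂ)
    (hchig : ∀ (ℓ : ℕ) (hℓ : ℓ.Prime) (hℓM : ¬ ℓ ∣ M) (hℓS : ℓ ∉ (↑S : Set ℕ)),
      chig (CuspForm.heckeAlgebra.T hℓ hℓM hℓS) = ModularFormClass.qCoeff g ℓ)
    (iota : chig.range →+* O')
    (hlamS : lam ∈ S) (hMS : ∀ q : ℕ, q.Prime → q ∣ M → q ∈ S) :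
    ∃ (O'' : Type) (_ : CommRing O'') (_ : IsDomain O'') (_ : IsDiscreteValuationRing O'')
      (_ : IsAdicComplete (IsLocalRing.maximalIdeal O'') O'')
      (_ : Finite (IsLocalRing.ResidueField O''))
      (_ : CharZero O'') (_ : Algebra O' O'') (_ : Module.Finite O' O'')
      (_ : IsLocalHom (algebraMap O' O'')),
      Function.Injective (algebraMap O' O'') ∧
      ∃ ρ : GaloisRepAdic O'',
        (∀ (ℓ : ℕ) (hℓ : ℓ.Prime) (hℓM : ¬ ℓ ∣ M) (hℓS : ℓ ∉ (↑S : Set ℕ)),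
          ∀ A : ValuationSubring (AlgebraicClosure ℚ), A.LiesOverPrime ℓ →
            ∀ σ : AlgebraicClosure ℚ ≃ₐ[ℚ] AlgebraicClosure ℚ, A.IsFrobeniusAt σ ℓ →
              LinearMap.charpoly (ρ.ρ σ) =
                X ^ 2 - C (algebraMap O' O''
                  ((iota.comp chig.rangeRestrict) (CuspForm.heckeAlgebra.T hℓ hℓM hℓS))) * X
                  + C ((ℓ : O''))) ∧
        (∀ q : ℕ, q.Prime → q ≠ lam → M.factorization q = 2 →
          ¬ ρ.IsUnipotentOnInertiaAt q) :=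
  S36.H57.s36_of_geo36 hGEO36 (fun N q _ _ hq hqN => hasLatModel_pushBeta N q hq hqN)
    hg lam S O' hlamO' hlam2 chig hchig iota hlamS hMS

/-- **The frozen S36 from (IF-GEO36) alone**, (IF-GEO36) in helper78's TARGET shape
(`c` uniform in the place `A` over `q`). -/
theorem s36_of_ifGeo36'
    (hGEO36 : ∀ (M0 q : ℕ) [NeZero M0] [NeZero q], q.Prime → ¬ q ∣ M0 → ∀ p : ℕ, p.Prime →
      p ≠ q → ∃ c : ℕ, 0 < c ∧
        ∀ (k : ℕ) (A : ValuationSubring Qbar), A.LiesOverPrime q →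
          ∀ y : JZero ((M0 * q) * q), p ^ k • y = 0 →
          (∀ σ ∈ A.inertiaSubgroupIn ℚ, σ • y = y) →
          H86.pushAlpha (M0 * q) q y = 0 → H86.pushBeta (M0 * q) q y = 0 → c • y = 0)
    {M : ℕ} [NeZero M] {g : CuspForm (CongruenceSubgroup.Gamma0 M) 2} (hg : g.IsNewform)
    (lam : ℕ) [Fact lam.Prime]
    (S : Finset ℕ)
    (O' : Type) [CommRing O'] [IsDomain O'] [IsDiscreteValuationRing O']
    [IsAdicComplete (IsLocalRing.maximalIdeal O') O'] [Finite (IsLocalRing.ResidueField O')]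
    [CharZero O'] (hlamO' : (lam : O') ∈ IsLocalRing.maximalIdeal O')
    (hlam2 : lam ≠ 2)
    (chig : CuspForm.heckeAlgebra M 2 (↑S : Set ℕ) →+* ℂ)
    (hchig : ∀ (ℓ : ℕ) (hℓ : ℓ.Prime) (hℓM : ¬ ℓ ∣ M) (hℓS : ℓ ∉ (↑S : Set ℕ)),
      chig (CuspForm.heckeAlgebra.T hℓ hℓM hℓS) = ModularFormClass.qCoeff g ℓ)
    (iota : chig.range →+* O')
    (hlamS : lam ∈ S) (hMS : ∀ q : ℕ, q.Prime → q ∣ M → q ∈ S) :
    ∃ (O'' : Type) (_ : CommRing O'') (_ : IsDomain O'') (_ : IsDiscreteValuationRing O'')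
      (_ : IsAdicComplete (IsLocalRing.maximalIdeal O'') O'')
      (_ : Finite (IsLocalRing.ResidueField O''))
      (_ : CharZero O'') (_ : Algebra O' O'') (_ : Module.Finite O' O'')
      (_ : IsLocalHom (algebraMap O' O'')),
      Function.Injective (algebraMap O' O'') ∧
      ∃ ρ : GaloisRepAdic O'',
        (∀ (ℓ : ℕ) (hℓ : ℓ.Prime) (hℓM : ¬ ℓ ∣ M) (hℓS : ℓ ∉ (↑S : Set ℕ)),
          ∀ A : ValuationSubring (AlgebraicClosure ℚ), A.LiesOverPrime ℓ →
            ∀ σ : AlgebraicClosure ℚ ≃ₐ[ℚ] AlgebraicClosure ℚ, A.IsFrobeniusAt σ ℓ →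
              LinearMap.charpoly (ρ.ρ σ) =
                X ^ 2 - C (algebraMap O' O''
                  ((iota.comp chig.rangeRestrict) (CuspForm.heckeAlgebra.T hℓ hℓM hℓS))) * X
                  + C ((ℓ : O''))) ∧
        (∀ q : ℕ, q.Prime → q ≠ lam → M.factorization q = 2 →
          ¬ ρ.IsUnipotentOnInertiaAt q) :=
  S36.H57.s36_of_geo36' hGEO36 (fun N q _ _ hq hqN => hasLatModel_pushBeta N q hq hqN)
    hg lam S O' hlamO' hlam2 chig hchig iota hlamS hMS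

end Fermat.Agent.S36.H90
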