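import Mathlib
import Fermat.Agent.S36.H90_VerAlpha
import Fermat.Agent.S35.H72_N3Final

/-!
# S36 / row N36 (helper90): NORM-EQUIV over `ℚ̄` at ARBITRARY levels `(M, M q)` (`q ∣ M` allowed)

The S36 twin of helper72's `S35/H72_N3Final`: glue of the `ℂ`-level statement `lamW_verA'`
(`S36/H90_VerAlpha`), helper86's `ℚ̄`-level push-forwards `H86.pushAlpha`, `H86.pushBeta` and
helper72's base change `alphaPush_lamQ_eq`, `betaPush_lamQ_eq` (all general in `M q`).

* `pushAlpha_lamQ'` : `pushAlpha M q (lamQ (M q) hn x) = lamQ M hn (verA' M q x)`, unconditional;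
* `pushBeta_lamQ_of'` : the same for `β` and ANY map `VB` satisfying the `ℂ`-level statement
  `lamW_M (VB x) = β_* (lamW_{Mq} x)` (to be fed with helper86's `verB36`);
* kernel forms and `push_lam_of_canonical'`.
-/

set_option autoImplicit false
set_option linter.style.haveILetI false
set_option linter.unusedSectionVars false

noncomputable section

namespace Fermat.Agent.S36.H90

open AlgebraicCurve ModularCurve Fermat.Agent.S29
open Fermat.Agent.S35
open Fermat.Agent.S35.H72 (lamQ alphaPush_lamQ_eq betaPush_lamQ_eq alphaPush_qbar_eq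
  betaPush_qbar_eq alphaPush_complex_eq betaPush_complex_eq eq_lamQ_of_canonical)

attribute [local instance] Fermat.Agent.S29.H85.merAlgebra

variable (M q : ℕ) [NeZero M] [NeZero q]

/-- **NORM-EQUIV for `α` over `ℚ̄`**: `α_* (lamQ_{Mq} x) = lamQ_M (Ver_A' x)`, any `M q`. -/
theorem pushAlpha_lamQ' {n : ℕ} (hn : 0 < n) (x : H80.Lat (M * q)) :
    H86.pushAlpha M q (lamQ (M * q) hn x) = lamQ M hn (verA' M q x) := by
  rw [← alphaPush_qbar_eq]
  refine alphaPush_lamQ_eq M q hn x _ ?_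
  rw [alphaPush_complex_eq]
  exact (lamW_verA' M q hn x).symm

/-- **NORM-EQUIV for `β` over `ℚ̄`** from the `ℂ`-level statement, for ANY candidate `VB`. -/
theorem pushBeta_lamQ_of' {n : ℕ} (hn : 0 < n) (VB : H80.Lat (M * q) →+ H80.Lat M)
    (hB : ∀ x : H80.Lat (M * q), H65.lamW (H85.kummerSetupFinal M hn) hn (VB x)
        = S35.H90.betaPush M q (H65.lamW (H85.kummerSetupFinal (M * q) hn) hn x))
    (x : H80.Lat (M * q)) :
    H86.pushBeta M q (lamQ (M * q) hn x) = lamQ M hn (VB x) := by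
  rw [← betaPush_qbar_eq]
  refine betaPush_lamQ_eq M q hn x _ ?_
  rw [betaPush_complex_eq]
  exact (hB x).symm

/-- Kernel form for `α`. -/
theorem pushAlpha_eq_zero_of_verA'_eq_zero {n : ℕ} (hn : 0 < n) (x : H80.Lat (M * q))
    (hx : verA' M q x = 0) : H86.pushAlpha M q (lamQ (M * q) hn x) = 0 := by
  rw [pushAlpha_lamQ' M q hn x, hx, map_zero]

/-- Kernel form for `β`. -/
theorem pushBeta_eq_zero_of_eq_zero_of' {n : ℕ} (hn : 0 < n)
    (VB : H80.Lat (M * q) →+ H80.Lat M)
    (hB : ∀ x : H80.Lat (M * q), H65.lamW (H85.kummerSetupFinal M hn) hn (VB x)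
        = S35.H90.betaPush M q (H65.lamW (H85.kummerSetupFinal (M * q) hn) hn x))
    (x : H80.Lat (M * q)) (hx : VB x = 0) :
    H86.pushBeta M q (lamQ (M * q) hn x) = 0 := by
  rw [pushBeta_lamQ_of' M q hn VB hB x, hx, map_zero]

/-- helper57's shape: for ANY `lamN` with `bcJ ∘ lamN = lamW` at level `M q`. -/
theorem push_lam_of_canonical' {n : ℕ} (hn : 0 < n)
    (VB : H80.Lat (M * q) →+ H80.Lat M)
    (hB : ∀ x : H80.Lat (M * q), H65.lamW (H85.kummerSetupFinal M hn) hn (VB x)
        = S35.H90.betaPush M q (H65.lamW (H85.kummerSetupFinal (M * q) hn) hn x))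
    (lamN : H80.Lat (M * q) →+ JZero (M * q))
    (hcan : ∀ x, H80.bcJ (M * q) (lamN x)
        = H65.lamW (H85.kummerSetupFinal (M * q) hn) hn x) :
    ∃ lamM : H80.Lat M →+ JZero M,
      (∀ x, H86.pushAlpha M q (lamN x) = lamM (verA' M q x)) ∧
      (∀ x, H86.pushBeta M q (lamN x) = lamM (VB x)) := by
  have h := eq_lamQ_of_canonical (M * q) hn lamN hcan
  subst h
  exact ⟨lamQ M hn, pushAlpha_lamQ' M q hn, pushBeta_lamQ_of' M q hn VB hB⟩

end Fermat.Agent.S36.H90
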