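/-
helper94: S36, (M1)(e) glue: the three `e_u` transports `resA_eU resB_eU resC_eU`
(= the first three fields of `S36.H55.ThreePlacesFacts`) at helper55's real types, for ARBITRARY
places `Pi P0 PA PB PC`, from helper96's structure-agnostic `S36.H96.beta_of_over_*`
(`S36/H96_PlaceLevelBeta.lean`) and the landed S34 formulas `HiV`, `H0V`.

`e_u = V₂ ∘ V`, so `e_u y = V₂ z` with `z := V y ∈ PO1 Pi ∩ PO1 P0`
(`Pres1 Pi z = ȳ(t^q)`, `Pres1 P0 z = ȳ`), and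
* `res_B (V₂ z) = (Pres1 Pi z)(t^q) = ȳ(t^(q²))`  (`beta_of_over_inf_inf`, `T := PB`);
* `res_C (V₂ z) = Pres1 P0 z = ȳ`               (`beta_of_over_inf_zero`, `T := PC`);
* `res_A (V₂ z) = Pres1 P0 z = ȳ`               (`beta_of_over_zero`, `T := PA`).

Also the place-level forms on ALL of `PO1 Pi` / `PO1 P0` (`V2_resB`, `V2_resC`, `V2_resA`) and the
packaged `threePlacesFacts_of_exactly_three`.
-/
import Fermat.Agent.S36.H55_L0ThreeBase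
import Fermat.Agent.S36.H96_PlaceLevelBeta

set_option autoImplicit false
set_option linter.unusedSectionVars false
set_option linter.style.haveILetI false
set_option synthInstance.maxHeartbeats 400000

noncomputable section

namespace Fermat.Agent.S36.H94

open ModularCurve Polynomial IsLocalRing
open Fermat.Agent.S18 Fermat.Agent.S34.H92 Fermat.Agent.S34.H16 Fermat.Agent.S34.H55
open Fermat.Agent.S36.H55

local notation "Qbar" => AlgebraicClosure ℚ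

section L0ThreeEU

variable (L : ℕ) [NeZero L] {q : ℕ} [hq : Fact q.Prime] (hqL : ¬ q ∣ L)
  (A : ValuationSubring Qbar) (hA : A.LiesOverPrime q)

local notation "kA" => IsLocalRing.ResidueField A
local notation "L₁" => H45.unrCyclo q
local notation "F0" => modularFunctionFieldFullC (H45.unrCyclo q) L
local notation "F1" => modularFunctionFieldFullC (H45.unrCyclo q) (q * L)
local notation "F2" => modularFunctionFieldFullC (H45.unrCyclo q) (q * (q * L))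

attribute [local instance] algPO1F2

/-! ### The hypotheses of helper96's `beta_of_over_*` at the three places -/

theorem hinvB (Pi : PlaceInf L hqL A hA) (PB : PlaceB L hqL A hA Pi) :
    ∀ (z : ↥F2) (hz : z ∈ QO1 L hqL A hA PB),
      Qres1 L hqL A hA PB ⟨z, hz⟩ ≠ 0 → z⁻¹ ∈ QO1 L hqL A hA PB :=
  fun z hz hne => PB.inv_mem z hz hne

theorem hinvA (P0 : PlaceZero L hqL A hA) (PA : PlaceA L hqL A hA P0) :
    ∀ (z : ↥F2) (hz : z ∈ QO1 L hqL A hA PA),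
      Qres1 L hqL A hA PA ⟨z, hz⟩ ≠ 0 → z⁻¹ ∈ QO1 L hqL A hA PA :=
  fun z hz hne => PA.inv_mem z hz hne

theorem hinvC (Pi : PlaceInf L hqL A hA) (PC : PlaceC L hqL A hA Pi) :
    ∀ (z : ↥F2) (hz : z ∈ RO1 L hqL A hA PC),
      Rres1 L hqL A hA PC ⟨z, hz⟩ ≠ 0 → z⁻¹ ∈ RO1 L hqL A hA PC :=
  fun z hz hne => PC.inv_mem z hz hne

theorem hTαB (Pi : PlaceInf L hqL A hA) (PB : PlaceB L hqL A hA Pi) :
    ∀ (z : ↥F1) (hz : z ∈ PO1 L hqL A hA Pi),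
      ∃ h : iotaMN (q * L) (ℓ := q) z ∈ QO1 L hqL A hA PB,
        Qres1 L hqL A hA PB ⟨_, h⟩ = Pres1 L hqL A hA Pi ⟨z, hz⟩ :=
  fun z hz => iota2_mem_QO1 L hqL A hA PB z hz

theorem hTαC (Pi : PlaceInf L hqL A hA) (PC : PlaceC L hqL A hA Pi) :
    ∀ (z : ↥F1) (hz : z ∈ PO1 L hqL A hA Pi),
      ∃ h : iotaMN (q * L) (ℓ := q) z ∈ RO1 L hqL A hA PC,
        Rres1 L hqL A hA PC ⟨_, h⟩ = Pres1 L hqL A hA Pi ⟨z, hz⟩ :=
  fun z hz => iota2_mem_RO1 L hqL A hA PC z hz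

theorem hTαA (P0 : PlaceZero L hqL A hA) (PA : PlaceA L hqL A hA P0) :
    ∀ (z : ↥F1) (hz : z ∈ PO1 L hqL A hA P0),
      ∃ h : iotaMN (q * L) (ℓ := q) z ∈ QO1 L hqL A hA PA,
        Qres1 L hqL A hA PA ⟨_, h⟩ =
          qExpand (IsLocalRing.ResidueField A) q (Pres1 L hqL A hA P0 ⟨z, hz⟩) :=
  fun z hz => iota2_mem_QO1 L hqL A hA PA z hz

theorem hθB (Pi : PlaceInf L hqL A hA) (PB : PlaceB L hqL A hA Pi) :
    ∃ h : S18.H16.jNK L₁ (q * (q * L)) ∈ QO1 L hqL A hA PB,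
      Qres1 L hqL A hA PB ⟨_, h⟩ = (resM L hqL A hA (jMV L hqL A hA) ^ q) ^ q :=
  theta2_mem_QO1 L hqL A hA PB

theorem hθA (P0 : PlaceZero L hqL A hA) (PA : PlaceA L hqL A hA P0) :
    ∃ h : S18.H16.jNK L₁ (q * (q * L)) ∈ QO1 L hqL A hA PA,
      Qres1 L hqL A hA PA ⟨_, h⟩ = resM L hqL A hA (jMV L hqL A hA) :=
  theta2_mem_QO1 L hqL A hA PA

theorem hθC (Pi : PlaceInf L hqL A hA) (PC : PlaceC L hqL A hA Pi) :
    ∃ h : S18.H16.jNK L₁ (q * (q * L)) ∈ RO1 L hqL A hA PC,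
      Rres1 L hqL A hA PC ⟨_, h⟩ = resM L hqL A hA (jMV L hqL A hA) := by
  obtain ⟨h, hh⟩ := theta2_mem_RO1 L hqL A hA PC
  exact ⟨h, hh.trans (Pres1_wO L hqL A hA Pi)⟩

/-! ### `res ∘ V₂` on all of `PO1 Pi`, `PO1 P0` -/

/-- `res_B ∘ V₂ = (t ↦ t^q) ∘ res_∞` on `PO1 Pi`. -/
theorem V2_resB (Pi : PlaceInf L hqL A hA) (PB : PlaceB L hqL A hA Pi) :
    ∀ (z : ↥F1) (hz : z ∈ PO1 L hqL A hA Pi),
      ∃ h : VMN (q * L) (ℓ := q) z ∈ QO1 L hqL A hA PB,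
        Qres1 L hqL A hA PB ⟨_, h⟩ =
          qExpand (IsLocalRing.ResidueField A) q (Pres1 L hqL A hA Pi ⟨z, hz⟩) :=
  S36.H96.beta_of_over_inf_inf L hqL A hA Pi (QO1 L hqL A hA PB) (Qres1 L hqL A hA PB)
    (hinvB L hqL A hA Pi PB) (hTαB L hqL A hA Pi PB) (hθB L hqL A hA Pi PB)

/-- `res_C ∘ V₂ = res_0` on `PO1 P0`. -/
theorem V2_resC (Pi : PlaceInf L hqL A hA) (P0 : PlaceZero L hqL A hA)
    (PC : PlaceC L hqL A hA Pi) :
    ∀ (z : ↥F1) (hz : z ∈ PO1 L hqL A hA P0),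
      ∃ h : VMN (q * L) (ℓ := q) z ∈ RO1 L hqL A hA PC,
        Rres1 L hqL A hA PC ⟨_, h⟩ = Pres1 L hqL A hA P0 ⟨z, hz⟩ :=
  S36.H96.beta_of_over_inf_zero L hqL A hA Pi P0 (RO1 L hqL A hA PC) (Rres1 L hqL A hA PC)
    (hinvC L hqL A hA Pi PC) (hTαC L hqL A hA Pi PC) (hθC L hqL A hA Pi PC)

/-- `res_A ∘ V₂ = res_0` on `PO1 P0`. -/
theorem V2_resA (P0 : PlaceZero L hqL A hA) (PA : PlaceA L hqL A hA P0) :
    ∀ (z : ↥F1) (hz : z ∈ PO1 L hqL A hA P0),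
      ∃ h : VMN (q * L) (ℓ := q) z ∈ QO1 L hqL A hA PA,
        Qres1 L hqL A hA PA ⟨_, h⟩ = Pres1 L hqL A hA P0 ⟨z, hz⟩ :=
  S36.H96.beta_of_over_zero L hqL A hA P0 (QO1 L hqL A hA PA) (Qres1 L hqL A hA PA)
    (hinvA L hqL A hA P0 PA) (hTαA L hqL A hA P0 PA) (hθA L hqL A hA P0 PA)

/-! ### The three `e_u` transports (fields of `S36.H55.ThreePlacesFacts`, verbatim) -/

/-- at `B`: `res (y(t^(q²))) = ȳ(t^(q²))`. -/
theorem resB_eU (Pi : PlaceInf L hqL A hA) (PB : PlaceB L hqL A hA Pi)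
    (y : F0) (hy : y ∈ (Mod L hqL A hA).O1) :
    ∃ h : eU L (q := q) y ∈ QO1 L hqL A hA PB,
      Qres1 L hqL A hA PB ⟨_, h⟩ =
        inclk L A (FrM L A hA (FrM L A hA ((Mod L hqL A hA).res1 ⟨y, hy⟩))) := by
  obtain ⟨h1, h2⟩ := HiV L hqL A hA Pi y hy
  obtain ⟨h3, h4⟩ := V2_resB L hqL A hA Pi PB _ h1
  refine ⟨h3, h4.trans ?_⟩
  rw [h2, ← inclk_FrM]

/-- at `C`: `res (y(t^(q²))) = ȳ`. -/
theorem resC_eU (Pi : PlaceInf L hqL A hA) (P0 : PlaceZero L hqL A hA)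
    (PC : PlaceC L hqL A hA Pi) (y : F0) (hy : y ∈ (Mod L hqL A hA).O1) :
    ∃ h : eU L (q := q) y ∈ RO1 L hqL A hA PC,
      Rres1 L hqL A hA PC ⟨_, h⟩ = inclk L A ((Mod L hqL A hA).res1 ⟨y, hy⟩) := by
  obtain ⟨h1, h2⟩ := H0V L hqL A hA P0 y hy
  obtain ⟨h3, h4⟩ := V2_resC L hqL A hA Pi P0 PC _ h1
  exact ⟨h3, h4.trans h2⟩

/-- at `A`: `res (y(t^(q²))) = ȳ`. -/
theorem resA_eU (P0 : PlaceZero L hqL A hA) (PA : PlaceA L hqL A hA P0)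
    (y : F0) (hy : y ∈ (Mod L hqL A hA).O1) :
    ∃ h : eU L (q := q) y ∈ QO1 L hqL A hA PA,
      Qres1 L hqL A hA PA ⟨_, h⟩ = inclk L A ((Mod L hqL A hA).res1 ⟨y, hy⟩) := by
  obtain ⟨h1, h2⟩ := H0V L hqL A hA P0 y hy
  obtain ⟨h3, h4⟩ := V2_resA L hqL A hA P0 PA _ h1
  exact ⟨h3, h4.trans h2⟩

/-- `ThreePlacesFacts` from `exactly_three` alone. -/
theorem threePlacesFacts_of_exactly_three (Pi : PlaceInf L hqL A hA) (P0 : PlaceZero L hqL A hA)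
    (PA : PlaceA L hqL A hA P0) (PB : PlaceB L hqL A hA Pi) (PC : PlaceC L hqL A hA Pi)
    (hex3 : ∀ W : ValuationSubring ↥F2,
      (∀ (y : F0), y ∈ (Mod L hqL A hA).O1 → eW L (q := q) y ∈ W) →
      ((q : ℕ) : F2) ∈ W.nonunits →
      W.toSubring = QO1 L hqL A hA PA ∨ W.toSubring = QO1 L hqL A hA PB ∨
        W.toSubring = RO1 L hqL A hA PC) :
    ThreePlacesFacts L hqL A hA Pi P0 PA PB PC where
  resA_eU := resA_eU L hqL A hA P0 PA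
  resB_eU := resB_eU L hqL A hA Pi PB
  resC_eU := resC_eU L hqL A hA Pi P0 PC
  exactly_three := hex3

end L0ThreeEU

end Fermat.Agent.S36.H94
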