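/-
helper94: S36, row (E2-place), THE TERM helper83 asked for (#3473):
`S36.H83.PlaceSide L hqL A hA (QO1 PB) (Qres1 PB) (RO1 PC) (Rres1 PC) (QO1 PA) (Qres1 PA) tauC`
at helper55's three places `PB : PlaceB`, `PC : PlaceC`, `PA : PlaceA` (`S36/H55_L0ThreeBase`).

* the 14 place-side fields: `S36/H94_L0ThreePlaceSide`;
* the six tower transports (`f(z)`, `f(qz)` at the three places): helper55's `resB_eW resB_eV
  resC_eW resC_eV resA_eW resA_eV` (his `eW = f(z)` is `H83.eU`, his `eV` is `H83.eV`);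
* the three transports of `f(q²z)` (his `eU`, `H83.eW`): hypotheses, in the exact shape of the
  fields `resA_eU resB_eU resC_eU` of `S36.H55.ThreePlacesFacts` (`placeSide_of_facts`) or as three
  separate hypotheses (`placeSide_of_eU`).
-/
import Fermat.Agent.S36.H83_L0ThreePre
import Fermat.Agent.S36.H94_L0ThreePlaceSide

set_option autoImplicit false
set_option linter.unusedSectionVars false
set_option linter.style.haveILetI false
set_option synthInstance.maxHeartbeats 400000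

noncomputable section

namespace Fermat.Agent.S36.H94

open ModularCurve Polynomial IsLocalRing
open Fermat.Agent.S18 Fermat.Agent.S34.H92 Fermat.Agent.S34.H16 Fermat.Agent.S34.H55
open Fermat.Agent.S36

local notation "Qbar" => AlgebraicClosure ℚ

section Inst

variable (L : ℕ) [NeZero L] {q : ℕ} [hq : Fact q.Prime] (hqL : ¬ q ∣ L)
  (A : ValuationSubring Qbar) (hA : A.LiesOverPrime q)

local notation "F0" => modularFunctionFieldFullC (H45.unrCyclo q) L

/-- helper83's `eU` (`f(z)`) is helper55's `eW`. -/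
theorem H83_eU_eq : H83.eU L (q := q) = S36.H55.eW L (q := q) := rfl

/-- helper83's `eV` (`f(qz)`) is helper55's `eV`. -/
theorem H83_eV_eq : H83.eV L (q := q) = S36.H55.eV L (q := q) := rfl

/-- helper83's `eW` (`f(q²z)`) is helper55's `eU`. -/
theorem H83_eW_eq : H83.eW L (q := q) = S36.H55.eU L (q := q) := rfl

/-- **(E2-place)**: the `PlaceSide` term from the three `f(q²z)`-transports. -/
theorem placeSide_of_eU (Pi : PlaceInf L hqL A hA) (P0 : PlaceZero L hqL A hA)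
    (PA : S36.H55.PlaceA L hqL A hA P0) (PB : S36.H55.PlaceB L hqL A hA Pi)
    (PC : S36.H55.PlaceC L hqL A hA Pi)
    (hA_eU : ∀ (y : F0) (hy : y ∈ (Mod L hqL A hA).O1),
      ∃ h : S36.H55.eU L (q := q) y ∈ S36.H55.QO1 L hqL A hA PA,
        S36.H55.Qres1 L hqL A hA PA ⟨_, h⟩ = inclk L A ((Mod L hqL A hA).res1 ⟨y, hy⟩))
    (hB_eU : ∀ (y : F0) (hy : y ∈ (Mod L hqL A hA).O1),
      ∃ h : S36.H55.eU L (q := q) y ∈ S36.H55.QO1 L hqL A hA PB,
        S36.H55.Qres1 L hqL A hA PB ⟨_, h⟩ =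
          inclk L A (FrM L A hA (FrM L A hA ((Mod L hqL A hA).res1 ⟨y, hy⟩))))
    (hC_eU : ∀ (y : F0) (hy : y ∈ (Mod L hqL A hA).O1),
      ∃ h : S36.H55.eU L (q := q) y ∈ S36.H55.RO1 L hqL A hA PC,
        S36.H55.Rres1 L hqL A hA PC ⟨_, h⟩ = inclk L A ((Mod L hqL A hA).res1 ⟨y, hy⟩)) :
    H83.PlaceSide L hqL A hA
      (S36.H55.QO1 L hqL A hA PB) (S36.H55.Qres1 L hqL A hA PB)
      (S36.H55.RO1 L hqL A hA PC) (S36.H55.Rres1 L hqL A hA PC)
      (S36.H55.QO1 L hqL A hA PA) (S36.H55.Qres1 L hqL A hA PA)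
      (tauC L hqL A hA Pi) where
  hra := hra L hqL A hA Pi PB
  hrc := hrc L hqL A hA Pi PC
  hrb := hrb L hqL A hA P0 PA
  hconsta := hconsta L hqL A hA Pi PB
  hconstc := hconstc L hqL A hA Pi PC
  hconstb := hconstb L hqL A hA P0 PA
  hOica := hOica L hqL A hA Pi PB
  hOicc := hOicc L hqL A hA Pi PC
  hOicb := hOicb L hqL A hA P0 PA
  Hau := S36.H55.resB_eW L hqL A hA Pi PB
  Hav := S36.H55.resB_eV L hqL A hA Pi PB
  Haw := hB_eU
  Hcu := S36.H55.resC_eW L hqL A hA Pi PC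
  Hcv := S36.H55.resC_eV L hqL A hA Pi PC
  Hcw := hC_eU
  Hbu := S36.H55.resA_eW L hqL A hA P0 PA
  Hbv := S36.H55.resA_eV L hqL A hA P0 PA
  Hbw := hA_eU
  hkera := hkera L hqL A hA Pi PB
  hkerb := hkerb L hqL A hA P0 PA
  hkerc := hkerc L hqL A hA Pi PC
  hτpow := hτpow L hqL A hA Pi PC
  hinvc := hinvc L hqL A hA Pi PC

/-- **(E2-place)**: the `PlaceSide` term from helper55's `ThreePlacesFacts`. -/
theorem placeSide_of_facts (Pi : PlaceInf L hqL A hA) (P0 : PlaceZero L hqL A hA)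
    (PA : S36.H55.PlaceA L hqL A hA P0) (PB : S36.H55.PlaceB L hqL A hA Pi)
    (PC : S36.H55.PlaceC L hqL A hA Pi)
    (hF : S36.H55.ThreePlacesFacts L hqL A hA Pi P0 PA PB PC) :
    H83.PlaceSide L hqL A hA
      (S36.H55.QO1 L hqL A hA PB) (S36.H55.Qres1 L hqL A hA PB)
      (S36.H55.RO1 L hqL A hA PC) (S36.H55.Rres1 L hqL A hA PC)
      (S36.H55.QO1 L hqL A hA PA) (S36.H55.Qres1 L hqL A hA PA)
      (tauC L hqL A hA Pi) :=
  placeSide_of_eU L hqL A hA Pi P0 PA PB PC hF.resA_eU hF.resB_eU hF.resC_eU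

end Inst

end Fermat.Agent.S36.H94
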