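/-
helper97: S36, row (M4r2) MIDDLE CUSPS, leaf (I-main-E): the binder `hM4r2` of
`S36.H56.hE4_of_rows` / `S36.H18.hE4_real` / `S36.H69.geo36_chartB` at the REAL types of chart 2 of
level `q² L` over `R = cutOver A E`, in the (S2)-generic chart spelling of RULING 8:
`J_E` any element with `hJ : baseChangeE E N (J3N L)⁻¹ = J_E` (so `hJ := rfl` is the (S1)
spelling, `baseChangeE_J3K_inv` / `map_inv₀` the others), `red₂''` ANY map with the clause
`red₂'' ∘ chartBC = red₂` (helper70's `exists_threeComponents_chartBC_unram`).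

= helper25's `S36.H25.hM4r2_A1_coord` (the `A₁`-level theorem, real types) fed into helper89's
`S36.H89T.hM4r2_chartBC` (transfer along `chartBC`, residue fields instead of integrality).
-/
import Mathlib
import Fermat.Agent.S36.H25_MidCuspInstA1
import Fermat.Agent.S36.H89_MidCuspTransferE
import Fermat.Agent.S34.H21_ModelHypCharts
import Fermat.Agent.S36.H45_UnramifiedFixed
import Fermat.Agent.S36.H62_ChartGlueInst
import Fermat.Agent.S36.H95_CoordJ3Inst
import Fermat.Agent.S34.H83_L1Inst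

set_option autoImplicit false
set_option linter.unusedSectionVars false
set_option linter.style.haveILetI false
set_option synthInstance.maxHeartbeats 400000

noncomputable section

namespace Fermat.Agent.S36.H97

open ModularCurve Polynomial IsLocalRing Fermat.Agent.S28
open Fermat.Agent.S18 Fermat.Agent.S18.H45 Fermat.Agent.S34.H92 Fermat.Agent.S34.H16
open Fermat.Agent.S34.H55 Fermat.Agent.S34.H95 Fermat.Agent.S36.H83

local notation "Qbar" => AlgebraicClosure ℚ

/-- Local shortcut (reducible, `:= inferInstance`, helper95's recipe): the synthesis of this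
instance takes ~7 s per occurrence.  It unfolds to the canonical instance, so the statements below
are the canonical ones. -/
local instance (priority := 2000) algCutOverFullC {A : ValuationSubring Qbar} {ℓ : ℕ}
    (E : IntermediateField (unrCyclo ℓ) Qbar) (N : ℕ) :
    Algebra ↥(cutOver A E) ↥(modularFunctionFieldFullC ↥E N) := inferInstance

section InstE

variable (L : ℕ) [NeZero L] {q : ℕ} [hq : Fact q.Prime] (hqL : ¬ q ∣ L)
  (A : ValuationSubring Qbar) (hA : A.LiesOverPrime q)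
  (E : IntermediateField (unrCyclo q) Qbar)

local notation "kA" => IsLocalRing.ResidueField A
local notation "A₁" => H45.A0 A q
local notation "L₁" => H45.unrCyclo q
local notation "F2" => modularFunctionFieldFullC (H45.unrCyclo q) (q * (q * L))
local notation "FkL" => modularFunctionFieldFullC (IsLocalRing.ResidueField A) L

set_option maxHeartbeats 1600000 in
/-- **(M4r2)(I-main-E)**: the middle cusps of chart 2 at the real types over `cutOver A E`. -/
theorem hM4r2_E
    (J_E : modularFunctionFieldFullC ↥E (q * (q * L))) (hJ : baseChangeE E (q * (q * L)) (J3N L (q := q))⁻¹ = J_E)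
    (hunr : maximalIdeal ↥(cutOver A E) = Ideal.span {((q : ℕ) : ↥(cutOver A E))})
    {red₁ red₂ red₃ : ↥(H40.chartB A₁ (J3N L (q := q))⁻¹) →+*
        ↥(integralClosure (Algebra.adjoin kA {(S18.H16.jK kA L)⁻¹}) FkL)}
    (h3 : ThreeComponents red₁ red₂ red₃
        (chartMap (eU L (q := q)) (eU_algebraMap L A) (huint2 L (q := q) A))
        (chartMap (eV L (q := q)) (eV_algebraMap L A) (hvint2 L (q := q) A))
        (chartMap (eW L (q := q)) (eW_algebraMap L A) (hwint2 L (q := q) A))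
        (rbarB (Mod L hqL A hA) (hc2 L hqL A hA) (hcw2 L hqL A hA))
        (WR (FrM L A hA) q (hFrx_inv L A hA)) q
        (algebraMap A₁ ↥(H40.chartB A₁ (J3N L (q := q))⁻¹) ((q : ℕ) : A₁)))
    (red₂'' : ↥(H40.chartB (cutOver A E) J_E) →+*
        ↥(integralClosure (Algebra.adjoin kA {(S18.H16.jK kA L)⁻¹}) FkL))
    (hred : ∀ b, red₂'' (chartBC E (q * (q * L)) (J3N L (q := q))⁻¹ J_E hJ b) = red₂ b)
    (hresB : ∀ n₂ : S34.H21.ClosedPt (H40.chartB (cutOver A E) J_E) ((q : ℕ) : ↥(cutOver A E)),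
      ∀ b'' : ↥(H40.chartB (cutOver A E) J_E), ∃ r : ↥(cutOver A E),
        b'' - algebraMap ↥(cutOver A E) ↥(H40.chartB (cutOver A E) J_E) r ∈ n₂.1) :
    ∀ n₂ : S34.H21.ClosedPt (H40.chartB (cutOver A E) J_E) ((q : ℕ) : ↥(cutOver A E)),
      (⟨J_E, H40.self_mem_chartB J_E⟩ : ↥(H40.chartB (cutOver A E) J_E)) ∈ n₂.1 →
      RingHom.ker red₂'' ≤ n₂.1 →
      ∃ θ : ↥(H40.chartB (cutOver A E) J_E), red₂'' θ = 0 ∧ θ ≠ 0 ∧
        ∃ e t : ↥(H40.chartB (cutOver A E) J_E), e ∉ n₂.1 ∧ t ∉ n₂.1 ∧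
          t * θ ^ (q - 1) =
            e * algebraMap ↥(cutOver A E) ↥(H40.chartB (cutOver A E) J_E)
              ((q : ℕ) : ↥(cutOver A E)) := by
  intro n₂ hc hker
  have hA1 := S36.H25.hM4r2_A1_coord L hqL A hA h3
  exact S36.H89T.hM4r2_chartBC hq.out hA E (q * (q * L)) (J3N L (q := q))⁻¹ J_E hJ hunr
    red₂ red₂'' hred q hA1 n₂.1 n₂.2.1 n₂.2.2 (hresB n₂) hc hker

set_option maxHeartbeats 1600000 in
/-- **(M4r2)(I-main-E), one call**: the same with `hunr` and `hresB` DISCHARGED (`E` finite over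
`unrCyclo q` and fixed by inertia: `q` is a uniformiser of `cutOver A E`, the residue field is
algebraically closed, chart 2 is of finite type).  Remaining inputs: the `A₁`-level
`ThreeComponents` structure `h3` (last conjunct of `S36.H83.threeComponents_J3K_inv`) and ANY
`red₂''` with the clause `red₂'' ∘ chartBC = red₂`. -/
theorem hM4r2_E_of_fixed [FiniteDimensional (unrCyclo q) E]
    (hfix : ∀ σ ∈ A.inertiaSubgroupIn ℚ, ∀ x : E, σ ((x : E) : Qbar) = ((x : E) : Qbar))
    (J_E : modularFunctionFieldFullC ↥E (q * (q * L)))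
    (hJ : baseChangeE E (q * (q * L)) (J3N L (q := q))⁻¹ = J_E)
    {red₁ red₂ red₃ : ↥(H40.chartB A₁ (J3N L (q := q))⁻¹) →+*
        ↥(integralClosure (Algebra.adjoin kA {(S18.H16.jK kA L)⁻¹}) FkL)}
    (h3 : ThreeComponents red₁ red₂ red₃
        (chartMap (eU L (q := q)) (eU_algebraMap L A) (huint2 L (q := q) A))
        (chartMap (eV L (q := q)) (eV_algebraMap L A) (hvint2 L (q := q) A))
        (chartMap (eW L (q := q)) (eW_algebraMap L A) (hwint2 L (q := q) A))
        (rbarB (Mod L hqL A hA) (hc2 L hqL A hA) (hcw2 L hqL A hA))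
        (WR (FrM L A hA) q (hFrx_inv L A hA)) q
        (algebraMap A₁ ↥(H40.chartB A₁ (J3N L (q := q))⁻¹) ((q : ℕ) : A₁)))
    (red₂'' : ↥(H40.chartB (cutOver A E) J_E) →+*
        ↥(integralClosure (Algebra.adjoin kA {(S18.H16.jK kA L)⁻¹}) FkL))
    (hred : ∀ b, red₂'' (chartBC E (q * (q * L)) (J3N L (q := q))⁻¹ J_E hJ b) = red₂ b) :
    ∀ n₂ : S34.H21.ClosedPt (H40.chartB (cutOver A E) J_E) ((q : ℕ) : ↥(cutOver A E)),
      (⟨J_E, H40.self_mem_chartB J_E⟩ : ↥(H40.chartB (cutOver A E) J_E)) ∈ n₂.1 →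
      RingHom.ker red₂'' ≤ n₂.1 →
      ∃ θ : ↥(H40.chartB (cutOver A E) J_E), red₂'' θ = 0 ∧ θ ≠ 0 ∧
        ∃ e t : ↥(H40.chartB (cutOver A E) J_E), e ∉ n₂.1 ∧ t ∉ n₂.1 ∧
          t * θ ^ (q - 1) =
            e * algebraMap ↥(cutOver A E) ↥(H40.chartB (cutOver A E) J_E)
              ((q : ℕ) : ↥(cutOver A E)) := by
  haveI : NeZero q := ⟨hq.out.ne_zero⟩
  haveI := isDiscreteValuationRing_cutOver hq.out hA E
  haveI := isAlgClosed_residueField_cutOver hq.out hA E
  have hπ : Irreducible ((q : ℕ) : ↥(cutOver A E)) :=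
    S36.H45.irreducible_natCast_cutOver_of_fixed hq.out hA E hfix
  have hunr : maximalIdeal ↥(cutOver A E) = Ideal.span {((q : ℕ) : ↥(cutOver A E))} :=
    hπ.maximalIdeal_eq
  have hJ' : J_E = (S36.H83.J3K ↥E (q * (q * L)) q (hq2_dvd L))⁻¹ := by
    rw [← hJ]
    exact S36.H95.baseChangeE_J3K_inv E (q * (q * L)) q (hq2_dvd L)
  haveI : Algebra.FiniteType ↥(cutOver A E) ↥(H40.chartB (cutOver A E) J_E) := by
    rw [hJ']
    haveI := S36.H83.finiteDimensional_J3K_inv ↥E (q * (q * L)) q (hq2_dvd L)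
      (H99.natCast_ne_zero₀ (q * (q * L)) ↥E)
    haveI := S36.H83.isSeparable_J3K_inv ↥E (q * (q * L)) q (hq2_dvd L)
    exact S34.H83.finiteType_chartB (R := ↥(cutOver A E)) (K := ↥E)
      (S36.H83.J3K ↥E (q * (q * L)) q (hq2_dvd L))⁻¹
      (S36.H83.transcendental_J3K_inv ↥E (q * (q * L)) q (hq2_dvd L))
  exact hM4r2_E L hqL A hA E J_E hJ hunr h3 red₂'' hred
    (fun n₂ b'' => S36.H62.hres_closedPt (H40.chartB (cutOver A E) J_E) hπ n₂ b'')

end InstE

end Fermat.Agent.S36.H97
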