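/-
helper97: S36, row (M4r2) MIDDLE CUSPS, leaf (I-rel): the modular relations at the real types in
the `S36.H19.PhiAt` spelling.

For `q` prime and `D : ModularPolynomialData q` with the `RootsAt` property there is ONE symmetric
family `r : ℕ → ℕ → ℤ` (helper25's `S36.H25.exists_eval₂_modPoly_shape'`) such that in EVERY
function field `F_N = modularFunctionFieldFullC K N`, for all `d`, `n = d q ∣ N`,

  `PhiAt q r j_n j_d = 0`   and   `PhiAt q r j_d j_n = 0`      (`j_d = j(t ^ d)`).
-/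
import Mathlib
import Fermat.Agent.S34.H16_RelDeg
import Fermat.Agent.S36.H25_ModPolyShape
import Fermat.Agent.S36.H19_MidCuspPoly

set_option autoImplicit false

noncomputable section

namespace Fermat.Agent.S36.H97

open ModularCurve Polynomial Fermat.Agent.S28 Fermat.Agent.S36.H19

/-- `PhiAt` is symmetric when `r` is. -/
theorem phiAt_comm {F : Type*} [CommRing F] (q : ℕ) (r : ℕ → ℕ → ℤ) (hr : ∀ a b, r a b = r b a)
    (x y : F) : PhiAt q r x y = PhiAt q r y x := by
  unfold PhiAt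
  have h1 : (x - y ^ q) * (x ^ q - y) = (y - x ^ q) * (y ^ q - x) := by ring
  have h2 : ∑ a ∈ Finset.range (q + 1), ∑ b ∈ Finset.range (q + 1), (r a b : F) * x ^ a * y ^ b =
      ∑ a ∈ Finset.range (q + 1), ∑ b ∈ Finset.range (q + 1), (r a b : F) * y ^ a * x ^ b := by
    rw [Finset.sum_comm]
    refine Finset.sum_congr rfl fun a _ => Finset.sum_congr rfl fun b _ => ?_
    rw [hr b a]
    ring
  rw [h1, h2]

/-- **(I-rel).**  One symmetric `r` serving all the modular relations of degree `q` in all the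
function fields `F_N`, in the `PhiAt` spelling. -/
theorem exists_phiAt_jdK (q : ℕ) [hq : Fact q.Prime] [NeZero q] (D : ModularPolynomialData q)
    (hD : ∀ (k : Type) [Field k] (ζ : kˣ), IsPrimitiveRoot ζ q → RootsAt k q ζ D.Φ) :
    ∃ r : ℕ → ℕ → ℤ, (∀ a b, r a b = r b a) ∧
      ∀ (K : Type) [Field K] (N : ℕ) [NeZero N] (d : ℕ) [NeZero d] (n : ℕ) [NeZero n]
        (_ : n = d * q) (hd : d ∣ N) (hnN : n ∣ N),
        PhiAt q r (S18.H99.jdK K N n hnN) (S18.H99.jdK K N d hd) = 0 ∧
        PhiAt q r (S18.H99.jdK K N d hd) (S18.H99.jdK K N n hnN) = 0 := by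
  obtain ⟨r, hr, h⟩ := S36.H25.exists_eval₂_modPoly_shape' q D hD
  refine ⟨r, hr, fun K _ N _ d _ n _ hn hd hnN => ?_⟩
  have h1 : PhiAt q r (S18.H99.jdK K N n hnN) (S18.H99.jdK K N d hd) = 0 := by
    have h2 := S34.H16.relFK K N q D d n hn hd hnN
    rw [h (S34.H16.evalF K N (S18.H99.jdK K N d hd)) (S18.H99.jdK K N n hnN),
      S34.H16.evalF_X] at h2
    exact h2
  exact ⟨h1, by rw [phiAt_comm q r hr]; exact h1⟩

end Fermat.Agent.S36.H97
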