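/-
helper97: S36, row (M4r2) MIDDLE CUSPS, the structure-level WRAPPER.

`S34.H83.TwoComponents` (chart 2 of level `q L`) + `S36.H83.ThreeComponents` (chart 2 of level
`q² L`) + ONE level map `g : B₁ → B` (`alpha`: `(ι', V') ↦ (ιu, ιv)`, or `beta`:
`(ι', V') ↦ (ιv, ιw)`) + the modular relations in Kronecker form (`S36.H19.PhiAt`, with the `r` of
`S36.H25.exists_eval₂_modPoly_shape'`) give, at EVERY maximal ideal `n ∋ q` of `B` lying on the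
middle component only and on the cuspidal divisor (`ιu ψ₀ ∈ n`, `ψ₀ = 1/j`), the hypotheses
`hθ hθ0 hE` of `S36.H83.ThreeComponents.localGen_middle`, hence `n B_n = (θ, τ)`.
-/
import Mathlib
import Fermat.Agent.S34.H83_L0Target
import Fermat.Agent.S36.H83_ThreeComponents
import Fermat.Agent.S36.H97_MidCuspBridge

set_option autoImplicit false

noncomputable section

namespace Fermat.Agent.S36.H97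

open Fermat.Agent.S36.H19 Fermat.Agent.S36.H83

section Wrap

variable {B₁ B D BM K₁ K : Type*} [CommRing B₁] [IsDomain B₁] [IsIntegrallyClosed B₁]
  [Field K₁] [Algebra B₁ K₁] [IsFractionRing B₁ K₁]
  [CommRing B] [IsDomain B] [IsIntegrallyClosed B] [Field K] [Algebra B K] [IsFractionRing B K]
  [CommRing D] [IsDedekindDomain D] [CommRing BM]
  {red₁' red₂' : B₁ →+* D} {ι' V' : BM →+* B₁} {rbar : BM →+* D} {W : D →+* D} {q : ℕ}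
  [hqp : Fact q.Prime] {qB₁ : B₁}
  {red₁ red₂ red₃ : B →+* D} {ιu ιv ιw : BM →+* B} {qB : B}

/-- **Middle cusps, `alpha` copy** (`g ∘ ι' = ιu`, `g ∘ V' = ιv`): the hypotheses `hθ hθ0 hE` of
`localGen_middle`. -/
theorem exists_hE_midCusp_alpha
    (h2 : S34.H83.TwoComponents red₁' red₂' ι' V' rbar W q qB₁)
    (h3 : ThreeComponents red₁ red₂ red₃ ιu ιv ιw rbar W q qB)
    (hqB₁ : qB₁ = (q : B₁)) (hqB : qB = (q : B)) (hq0 : (q : B) ≠ 0)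
    (g : B₁ →+* B) (hgι : ∀ ψ, g (ι' ψ) = ιu ψ) (hgV : ∀ ψ, g (V' ψ) = ιv ψ)
    (ψ₀ : BM) (hW : W (rbar ψ₀) = rbar ψ₀ ^ q) (hψ₀ : rbar ψ₀ ≠ 0) (hne : ιw ψ₀ ≠ ιu ψ₀)
    (r : ℕ → ℕ → ℤ)
    (hΦ₁ : PhiAt q r (algebraMap B₁ K₁ (ι' ψ₀))⁻¹ (algebraMap B₁ K₁ (V' ψ₀))⁻¹ = 0)
    (hΦ₁' : PhiAt q r (algebraMap B₁ K₁ (V' ψ₀))⁻¹ (algebraMap B₁ K₁ (ι' ψ₀))⁻¹ = 0)
    (hΦ : PhiAt q r (algebraMap B K (ιu ψ₀))⁻¹ (algebraMap B K (ιv ψ₀))⁻¹ = 0)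
    (hΦ' : PhiAt q r (algebraMap B K (ιw ψ₀))⁻¹ (algebraMap B K (ιv ψ₀))⁻¹ = 0)
    (n : Ideal B) (hn : n.IsMaximal) (hqn : qB ∈ n)
    (h1 : ∃ s : B, red₁ s = 0 ∧ s ∉ n) (h3' : ∃ s : B, red₃ s = 0 ∧ s ∉ n)
    (hcusp : ιu ψ₀ ∈ n) :
    ∃ θ : B, red₂ θ = 0 ∧ θ ≠ 0 ∧
      ∃ e t : B, e ∉ n ∧ t ∉ n ∧ t * θ ^ (q - 1) = e * qB := by
  have := hn
  have hker : RingHom.ker red₂ ≤ n := h3.ker_le_middle n hn hqn h1 h3'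
  have hinf : ∀ z : B₁, red₁' z = 0 → red₂' z = 0 → z ∈ Ideal.span {(q : B₁)} := by
    intro z hz1 hz2
    rw [← hqB₁]
    exact h2.hinf z hz1 hz2
  rw [hqB] at hqn ⊢
  refine exists_hE_of_levelQ (K₁ := K₁) (K := K) red₁' red₂' q r hinf (ι' ψ₀) (V' ψ₀)
    (by rw [h2.h1V, h2.h1ι, hW]) (by rw [h2.h1ι]; exact hψ₀)
    (by rw [h2.h2ι, h2.h2V, hW]) (by rw [h2.h2V]; exact hψ₀) hΦ₁ hΦ₁' g red₂ n hker hqn hq0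
    (ιw ψ₀) (by rw [hgι]; exact hcusp) (by rw [hgι, h3.h2w, h3.h2u])
    (by rw [hgι, h3.h2u]; exact hψ₀) (by rw [hgV, hgι, h3.h2v, h3.h2u, hW])
    (by rw [hgι]; exact hne) (by rw [hgι, hgV]; exact hΦ) (by rw [hgV]; exact hΦ')

/-- **Middle cusps, `beta` copy** (`g ∘ ι' = ιv`, `g ∘ V' = ιw`): the hypotheses `hθ hθ0 hE` of
`localGen_middle`. -/
theorem exists_hE_midCusp_beta
    (h2 : S34.H83.TwoComponents red₁' red₂' ι' V' rbar W q qB₁)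
    (h3 : ThreeComponents red₁ red₂ red₃ ιu ιv ιw rbar W q qB)
    (hqB₁ : qB₁ = (q : B₁)) (hqB : qB = (q : B)) (hq0 : (q : B) ≠ 0)
    (g : B₁ →+* B) (hgι : ∀ ψ, g (ι' ψ) = ιv ψ) (hgV : ∀ ψ, g (V' ψ) = ιw ψ)
    (ψ₀ : BM) (hW : W (rbar ψ₀) = rbar ψ₀ ^ q) (hψ₀ : rbar ψ₀ ≠ 0) (hne : ιu ψ₀ ≠ ιw ψ₀)
    (r : ℕ → ℕ → ℤ)
    (hΦ₁ : PhiAt q r (algebraMap B₁ K₁ (V' ψ₀))⁻¹ (algebraMap B₁ K₁ (ι' ψ₀))⁻¹ = 0)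
    (hΦ₁' : PhiAt q r (algebraMap B₁ K₁ (ι' ψ₀))⁻¹ (algebraMap B₁ K₁ (V' ψ₀))⁻¹ = 0)
    (hΦ : PhiAt q r (algebraMap B K (ιw ψ₀))⁻¹ (algebraMap B K (ιv ψ₀))⁻¹ = 0)
    (hΦ' : PhiAt q r (algebraMap B K (ιu ψ₀))⁻¹ (algebraMap B K (ιv ψ₀))⁻¹ = 0)
    (n : Ideal B) (hn : n.IsMaximal) (hqn : qB ∈ n)
    (h1 : ∃ s : B, red₁ s = 0 ∧ s ∉ n) (h3' : ∃ s : B, red₃ s = 0 ∧ s ∉ n)
    (hcusp : ιw ψ₀ ∈ n) :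
    ∃ θ : B, red₂ θ = 0 ∧ θ ≠ 0 ∧
      ∃ e t : B, e ∉ n ∧ t ∉ n ∧ t * θ ^ (q - 1) = e * qB := by
  have := hn
  have hker : RingHom.ker red₂ ≤ n := h3.ker_le_middle n hn hqn h1 h3'
  have hinf : ∀ z : B₁, red₂' z = 0 → red₁' z = 0 → z ∈ Ideal.span {(q : B₁)} := by
    intro z hz2 hz1
    rw [← hqB₁]
    exact h2.hinf z hz1 hz2
  rw [hqB] at hqn ⊢
  refine exists_hE_of_levelQ (K₁ := K₁) (K := K) red₂' red₁' q r hinf (V' ψ₀) (ι' ψ₀)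
    (by rw [h2.h2V, h2.h2ι, hW]) (by rw [h2.h2V]; exact hψ₀)
    (by rw [h2.h1ι, h2.h1V, hW]) (by rw [h2.h1ι]; exact hψ₀) hΦ₁ hΦ₁' g red₂ n hker hqn hq0
    (ιu ψ₀) (by rw [hgV]; exact hcusp) (by rw [hgV, h3.h2w, h3.h2u])
    (by rw [hgV, h3.h2w]; exact hψ₀) (by rw [hgV, hgι, h3.h2v, h3.h2w, hW])
    (by rw [hgV]; exact hne) (by rw [hgι, hgV]; exact hΦ) (by rw [hgι]; exact hΦ')

omit [IsDomain B] [IsIntegrallyClosed B] [IsDedekindDomain D] hqp in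
/-- On the middle component, `ιu ψ ∈ n ↔ ιw ψ ∈ n`. -/
theorem ιu_mem_iff_ιw_mem (h3 : ThreeComponents red₁ red₂ red₃ ιu ιv ιw rbar W q qB)
    (n : Ideal B) (hker : RingHom.ker red₂ ≤ n) (ψ : BM) : ιu ψ ∈ n ↔ ιw ψ ∈ n := by
  have h : ιu ψ - ιw ψ ∈ n := hker ((RingHom.mem_ker).2 (h3.red₂_sub ψ))
  constructor
  · intro hu
    have := sub_mem hu h
    simpa using this
  · intro hw
    have := add_mem h hw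
    simpa using this

/-- **Middle cusps: `n B_n = (θ, τ)`** (`alpha` copy).  The conclusion of
`H83.ThreeComponents.locGen_middle` at every closed point of the middle component lying on the
cuspidal divisor. -/
theorem locGen_midCusp_alpha
    (h2 : S34.H83.TwoComponents red₁' red₂' ι' V' rbar W q qB₁)
    (h3 : ThreeComponents red₁ red₂ red₃ ιu ιv ιw rbar W q qB)
    (hqB₁ : qB₁ = (q : B₁)) (hqB : qB = (q : B)) (hq0 : (q : B) ≠ 0)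
    (g : B₁ →+* B) (hgι : ∀ ψ, g (ι' ψ) = ιu ψ) (hgV : ∀ ψ, g (V' ψ) = ιv ψ)
    (ψ₀ : BM) (hW : W (rbar ψ₀) = rbar ψ₀ ^ q) (hψ₀ : rbar ψ₀ ≠ 0) (hne : ιw ψ₀ ≠ ιu ψ₀)
    (r : ℕ → ℕ → ℤ)
    (hΦ₁ : PhiAt q r (algebraMap B₁ K₁ (ι' ψ₀))⁻¹ (algebraMap B₁ K₁ (V' ψ₀))⁻¹ = 0)
    (hΦ₁' : PhiAt q r (algebraMap B₁ K₁ (V' ψ₀))⁻¹ (algebraMap B₁ K₁ (ι' ψ₀))⁻¹ = 0)
    (hΦ : PhiAt q r (algebraMap B K (ιu ψ₀))⁻¹ (algebraMap B K (ιv ψ₀))⁻¹ = 0)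
    (hΦ' : PhiAt q r (algebraMap B K (ιw ψ₀))⁻¹ (algebraMap B K (ιv ψ₀))⁻¹ = 0)
    (hD : ¬ IsField D) (n : Ideal B) (hn : n.IsMaximal) (hqn : qB ∈ n)
    (h1 : ∃ s : B, red₁ s = 0 ∧ s ∉ n) (h3' : ∃ s : B, red₃ s = 0 ∧ s ∉ n)
    (hcusp : ιu ψ₀ ∈ n) :
    ∃ θ : B, red₂ θ = 0 ∧ θ ≠ 0 ∧ (∃ e t : B, e ∉ n ∧ t ∉ n ∧ t * θ ^ (q - 1) = e * qB) ∧
      (∀ z ∈ RingHom.ker red₂, ∃ t : B, t ∉ n ∧ t * z ∈ Ideal.span {θ}) ∧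
      ∃ τ ∈ n, ∀ z ∈ n, ∃ t : B, t ∉ n ∧ t * z ∈ Ideal.span {θ, τ} := by
  obtain ⟨θ, hθ, hθ0, hE⟩ := exists_hE_midCusp_alpha (K₁ := K₁) (K := K) h2 h3 hqB₁ hqB hq0 g
    hgι hgV ψ₀ hW hψ₀ hne r hΦ₁ hΦ₁' hΦ hΦ' n hn hqn h1 h3' hcusp
  exact ⟨θ, hθ, hθ0, hE, h3.localGen_middle hqp.out.two_le n hn h1 h3' hθ hθ0 hE,
    h3.locGen_middle hqp.out.two_le hD n hn hqn h1 h3' hθ hθ0 hE⟩

/-- **Middle cusps: `n B_n = (θ, τ)`** (`beta` copy). -/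
theorem locGen_midCusp_beta
    (h2 : S34.H83.TwoComponents red₁' red₂' ι' V' rbar W q qB₁)
    (h3 : ThreeComponents red₁ red₂ red₃ ιu ιv ιw rbar W q qB)
    (hqB₁ : qB₁ = (q : B₁)) (hqB : qB = (q : B)) (hq0 : (q : B) ≠ 0)
    (g : B₁ →+* B) (hgι : ∀ ψ, g (ι' ψ) = ιv ψ) (hgV : ∀ ψ, g (V' ψ) = ιw ψ)
    (ψ₀ : BM) (hW : W (rbar ψ₀) = rbar ψ₀ ^ q) (hψ₀ : rbar ψ₀ ≠ 0) (hne : ιu ψ₀ ≠ ιw ψ₀)
    (r : ℕ → ℕ → ℤ)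
    (hΦ₁ : PhiAt q r (algebraMap B₁ K₁ (V' ψ₀))⁻¹ (algebraMap B₁ K₁ (ι' ψ₀))⁻¹ = 0)
    (hΦ₁' : PhiAt q r (algebraMap B₁ K₁ (ι' ψ₀))⁻¹ (algebraMap B₁ K₁ (V' ψ₀))⁻¹ = 0)
    (hΦ : PhiAt q r (algebraMap B K (ιw ψ₀))⁻¹ (algebraMap B K (ιv ψ₀))⁻¹ = 0)
    (hΦ' : PhiAt q r (algebraMap B K (ιu ψ₀))⁻¹ (algebraMap B K (ιv ψ₀))⁻¹ = 0)
    (hD : ¬ IsField D) (n : Ideal B) (hn : n.IsMaximal) (hqn : qB ∈ n)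
    (h1 : ∃ s : B, red₁ s = 0 ∧ s ∉ n) (h3' : ∃ s : B, red₃ s = 0 ∧ s ∉ n)
    (hcusp : ιu ψ₀ ∈ n) :
    ∃ θ : B, red₂ θ = 0 ∧ θ ≠ 0 ∧ (∃ e t : B, e ∉ n ∧ t ∉ n ∧ t * θ ^ (q - 1) = e * qB) ∧
      (∀ z ∈ RingHom.ker red₂, ∃ t : B, t ∉ n ∧ t * z ∈ Ideal.span {θ}) ∧
      ∃ τ ∈ n, ∀ z ∈ n, ∃ t : B, t ∉ n ∧ t * z ∈ Ideal.span {θ, τ} := by
  have hker : RingHom.ker red₂ ≤ n := h3.ker_le_middle n hn hqn h1 h3'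
  obtain ⟨θ, hθ, hθ0, hE⟩ := exists_hE_midCusp_beta (K₁ := K₁) (K := K) h2 h3 hqB₁ hqB hq0 g
    hgι hgV ψ₀ hW hψ₀ hne r hΦ₁ hΦ₁' hΦ hΦ' n hn hqn h1 h3'
    ((ιu_mem_iff_ιw_mem h3 n hker ψ₀).1 hcusp)
  exact ⟨θ, hθ, hθ0, hE, h3.localGen_middle hqp.out.two_le n hn h1 h3' hθ hθ0 hE,
    h3.locGen_middle hqp.out.two_le hD n hn hqn h1 h3' hθ hθ0 hE⟩

end Wrap

end Fermat.Agent.S36.H97
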