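import Mathlib
import Fermat.Agent.S36.H99_ClaimInfty
import Fermat.Agent.S36.H27_MidRoots

/-!
# S36 / (M1)(d), CLOSED: `Φ_X(j_M, j_{ℓM}) = ℓ · unit` at the `∞`-place of `F_{ℓM}` over `V_M`

helper27's series identity (`S36.H27.phiX_eq_C_mul_coeffMap_midZInt`,
`coeffMap_midZInt_ne_zero`) + the `q`-expansion principle at the `∞`-place
(`S36.H99.exists_mem_placeInfty_of_up`) give hypothesis `hder` of `S36.H6.places_caseV`
unconditionally.
-/

set_option autoImplicit false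
set_option linter.unusedSectionVars false
set_option linter.style.haveILetI false
set_option synthInstance.maxHeartbeats 400000

noncomputable section

namespace Fermat.Agent.S36.H99

open ModularCurve Polynomial IsLocalRing Fermat.Agent.S28
open Fermat.Agent.S18 Fermat.Agent.S34.H92 Fermat.Agent.S34.H16 Fermat.Agent.S18.H92

local notation "Qbar" => AlgebraicClosure ℚ

section Claim

variable (M : ℕ) [NeZero M] {ℓ : ℕ} [hℓ : Fact ℓ.Prime] (hℓM : ¬ ℓ ∣ M)
  (A : ValuationSubring Qbar) (hA : A.LiesOverPrime ℓ)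

local notation "kA" => IsLocalRing.ResidueField A
local notation "A₁" => H45.A0 A ℓ
local notation "L₁" => H45.unrCyclo ℓ
local notation "FN" => modularFunctionFieldFullC (H45.unrCyclo ℓ) (ℓ * M)

include hA in
/-- the series identity in the shape of `exists_unit_deriv_infty`. -/
theorem hser_midZ (D : ModularPolynomialData ℓ)
    (hD : ∀ (k : Type) [Field k] (ζ : kˣ), IsPrimitiveRoot ζ ℓ → RootsAt k ℓ ζ D.Φ) :
    ∃ z : LaurentSeries A₁, coeffMap (H45.resA0 A ℓ) z ≠ 0 ∧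
      (derivative D.Φ).eval₂ (evalJ (qExpand A₁ (ℓ * M) (jqModC A₁))) (qExpand A₁ M (jqModC A₁))
        = ((ℓ : ℕ) : LaurentSeries A₁) * z := by
  haveI : CharP kA ℓ := Fermat.Agent.S18.H92.charP_residueField A hA
  refine ⟨coeffMap (Int.castRingHom A₁) (H27.midZInt ℓ M D), ?_, ?_⟩
  · rw [coeffMap_coeffMap]
    have h := H27.coeffMap_midZInt_ne_zero ℓ M D hD kA
    have he : (H45.resA0 A ℓ).comp (Int.castRingHom A₁) = Int.castRingHom kA :=
      RingHom.ext_int _ _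
    rw [he]
    exact h
  · have h := H27.phiX_eq_C_mul_coeffMap_midZInt ℓ M D hD A₁
    rw [H27.phiX] at h
    rw [h]
    congr 1

/-- **(M1)(d), unconditional**: `Φ_X(j_M, j_N) = ℓ * y`, `y` a unit of every `∞`-place of `F_N`. -/
theorem exists_unit_deriv_infty_final (D : ModularPolynomialData ℓ)
    (hD : ∀ (k : Type) [Field k] (ζ : kˣ), IsPrimitiveRoot ζ ℓ → RootsAt k ℓ ζ D.Φ)
    (ψ : ℤ[X] →+* FN) (hψ : ψ X = S18.H16.jNK L₁ (ℓ * M)) :
    letI := algebraVMFN M hℓM A hA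
    ∀ (P : CA.H99.PlaceOver (L := ↥FN) (((ℓ : ℕ) : ↥(VM M hℓM A hA))) (S18.H16.jNK L₁ (ℓ * M))
        (resM M hℓM A hA) (resM M hℓM A hA (jMV M hℓM A hA) ^ ℓ)),
      ∃ (y : FN) (hy : y ∈ P.O1), P.res1 ⟨y, hy⟩ ≠ 0 ∧ y⁻¹ ∈ P.O1 ∧
        (derivative (D.Φ.map ψ)).eval (S18.H99.jdK L₁ (ℓ * M) M (dvd_level' M)) =
          ((ℓ : ℕ) : FN) * y :=
  exists_unit_deriv_infty M hℓM A hA D (hser_midZ M A hA D hD) ψ hψ

end Claim

end Fermat.Agent.S36.H99
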