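import Mathlib
import Fermat.Agent.CA.H39_FiniteOverParam
import Fermat.Agent.CA.H59_BigBallTheta
import Fermat.Agent.S36.H92_GaussPi

/-!
# S36 (M2e)(A-exp) (helper99): the `t`-expansion and the residue of `ω_s = (1/ℓ) ∂(V s)/∂(ι s)`

`F ⊆ K((t))` a function field of one variable over a field `K` of characteristic zero, `σ ∈ F` a
parameter (transcendental over `K`), `D = ∂/∂σ` the `K`-derivation of `F` with `D σ = 1`.

* `thetaCoeDer F` : `θ ∘ coe` (`θ = t d/dt`) as a `K`-derivation `F → K((t))`;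
* **(G1)** `thetaOp_coe_eq_mul` : `θ x = (D x) · θ σ` in `K((t))` for every `x ∈ F`;
* **(G2)** `exists_omega_bigBall` : if `τ ∈ F` has expansion `σ(t^ℓ)` and `σ` lies in helper92's big
  Gauss ball with `θ σ̄ ≠ 0`, then `D τ = ℓ ω` with `ω` in the big ball and
  `ω̄ = (θ σ̄)(t^ℓ) / θ σ̄`;
* **(R)** `exists_omega_placeInf` : at the real types of `S34.H55` (level pair `(M, ℓ)`), for
  `s ∈ V_M` with `θ (resM s) ≠ 0` and any `L₁`-derivation `D` of `F_N` with `D (ι s) = 1`: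
  `D (V s) = ℓ ω`, `ω` lies in the ring of EVERY `∞`-place `Pi` and
  `Pres1 Pi ω = (θ s̄)(t^ℓ) / θ s̄` (`= P_s` of helper78's Note 2 (A)).
-/

set_option autoImplicit false
set_option linter.unusedSectionVars false
set_option linter.style.haveILetI false
set_option synthInstance.maxHeartbeats 400000
set_option maxHeartbeats 1600000

noncomputable section

namespace Fermat.Agent.S36.H99

open ModularCurve Polynomial IntermediateField
open Fermat.Agent.S28 Fermat.Agent.S28.H39 Fermat.Agent.CA.H92 Fermat.Agent.CA.H59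
  Fermat.Agent.S18.H92

section Generic

variable {K : Type*} [Field K]

/-- `θ ∘ coe` as a `K`-derivation `F → K((t))` for a subfield `F` of `K((t))`. -/
def thetaCoeDer (F : IntermediateField K (LaurentSeries K)) :
    @Derivation K F (LaurentSeries K) _ _ _ _ _ Algebra.toModule :=
  letI : Module K (LaurentSeries K) := Algebra.toModule
  (thetaDer (R := K)).compAlgebraMap F

theorem thetaCoeDer_apply (F : IntermediateField K (LaurentSeries K)) (x : F) :
    thetaCoeDer F x = thetaOp (x : LaurentSeries K) := rfl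

/-- **(G1)** the chain rule for `θ = t d/dt` on a function field `F ⊆ K((t))` with parameter `σ`:
`θ x = (∂x/∂σ) · θ σ`. -/
theorem thetaOp_coe_eq_mul [CharZero K] (F : IntermediateField K (LaurentSeries K)) (J σ : F)
    [FiniteDimensional K⟮J⟯ F] (hσ : Transcendental K σ) (D : Derivation K F F) (hD : D σ = 1)
    (x : F) :
    thetaOp (x : LaurentSeries K) =
      ((D x : F) : LaurentSeries K) * thetaOp (σ : LaurentSeries K) := by
  let _i : Module K (LaurentSeries K) := Algebra.toModule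
  have h := Fermat.Agent.CA.H39.derivation_eq_smul_of_charZero J σ hσ D hD (thetaCoeDer F) x
  rw [thetaCoeDer_apply, thetaCoeDer_apply] at h
  rw [h]
  rfl

/-- `θ σ ≠ 0` for a parameter `σ` (else `θ` would vanish on all of `F`, but `θ` sees `σ`). In the
form we need: if the reduction of `θ σ` is non-zero then `θ σ ≠ 0`. -/
theorem thetaOp_ne_zero_of_bigResFun_ne_zero {k : Type*} [Field k] {A : ValuationSubring K}
    {π : A →+* k} {f : LaurentSeries K} (h : bigResFun A π (thetaOp f) ≠ 0) : thetaOp f ≠ 0 := by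
  intro h0
  rw [h0, bigResFun_zero] at h
  exact h rfl

/-- **(G2)** `D τ = ℓ ω` with `ω` in the big Gauss ball and residue `(θ σ̄)(t^ℓ) / θ σ̄`, where
`τ = σ(t^ℓ)`. -/
theorem exists_omega_bigBall [CharZero K] {k : Type*} [Field k] (A : ValuationSubring K)
    (π : A →+* k) (ℓ : ℕ) [NeZero ℓ] (F : IntermediateField K (LaurentSeries K)) (J σ τ : F)
    [FiniteDimensional K⟮J⟯ F] (hσ : Transcendental K σ) (D : Derivation K F F) (hD : D σ = 1)
    (hτ : (τ : LaurentSeries K) = qExpand K ℓ (σ : LaurentSeries K))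
    (hmem : (σ : LaurentSeries K) ∈ bigBall A π)
    (hθ : thetaOp (bigResFun A π (σ : LaurentSeries K)) ≠ 0) :
    ∃ ω : F, D τ = ((ℓ : ℕ) : F) * ω ∧
      (ω : LaurentSeries K) * thetaOp (σ : LaurentSeries K) =
        qExpand K ℓ (thetaOp (σ : LaurentSeries K)) ∧
      (ω : LaurentSeries K) ∈ bigBall A π ∧
      bigResFun A π (ω : LaurentSeries K) =
        qExpand k ℓ (thetaOp (bigResFun A π (σ : LaurentSeries K))) /
          thetaOp (bigResFun A π (σ : LaurentSeries K)) := by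
  have hℓ0 : ((ℓ : ℕ) : F) ≠ 0 := Nat.cast_ne_zero.mpr (NeZero.ne ℓ)
  have hℓL : ((ℓ : ℕ) : LaurentSeries K) ≠ 0 := by
    have : CharZero (LaurentSeries K) :=
      charZero_of_injective_algebraMap (algebraMap K (LaurentSeries K)).injective
    exact Nat.cast_ne_zero.mpr (NeZero.ne ℓ)
  have hθmem : thetaOp (σ : LaurentSeries K) ∈ bigBall A π := thetaOp_mem_bigBall hmem
  have hθres : bigResFun A π (thetaOp (σ : LaurentSeries K)) =
      thetaOp (bigResFun A π (σ : LaurentSeries K)) := bigResFun_thetaOp hmem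
  have hθres0 : bigResFun A π (thetaOp (σ : LaurentSeries K)) ≠ 0 := by rw [hθres]; exact hθ
  have hqmem : qExpand K ℓ (thetaOp (σ : LaurentSeries K)) ∈ bigBall A π :=
    qExpand_mem_bigBall ℓ hθmem
  have hqres : bigResFun A π (qExpand K ℓ (thetaOp (σ : LaurentSeries K))) =
      qExpand k ℓ (thetaOp (bigResFun A π (σ : LaurentSeries K))) := by
    rw [bigResFun_qExpand ℓ hθmem, hθres]
  -- the chain rule at `τ`
  have h1 := thetaOp_coe_eq_mul F J σ hσ D hD τ
  rw [hτ, thetaOp_qExpand] at h1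
  refine ⟨(((ℓ : ℕ) : F))⁻¹ * D τ, by rw [mul_inv_cancel_left₀ hℓ0], ?_⟩
  have hω : (((((ℓ : ℕ) : F))⁻¹ * D τ : F) : LaurentSeries K) * thetaOp (σ : LaurentSeries K) =
      qExpand K ℓ (thetaOp (σ : LaurentSeries K)) := by
    have e1 : (((((ℓ : ℕ) : F))⁻¹ * D τ : F) : LaurentSeries K) =
        ((ℓ : ℕ) : LaurentSeries K)⁻¹ * ((D τ : F) : LaurentSeries K) := by
      push_cast
      rfl
    rw [e1, mul_assoc, ← h1, inv_mul_cancel_left₀ hℓL]
  refine ⟨hω, ?_⟩
  obtain ⟨h2, h3⟩ := mem_bigBall_of_mul_eq hθmem hqmem hθres0 hω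
  exact ⟨h2, by rw [h3, hqres, hθres]⟩

/-- an element with `D σ = 1` for a `K`-derivation `D` (characteristic zero) is transcendental. -/
theorem transcendental_of_derivation_eq_one [CharZero K] {F : Type*} [Field F] [Algebra K F]
    (D : Derivation K F F) {σ : F} (h : D σ = 1) : Transcendental K σ := by
  intro halg
  have hint : IsIntegral K σ := halg.isIntegral
  have hsep : IsSeparable K σ := (minpoly.irreducible hint).separable
  have h0 := Fermat.Agent.CA.H39.derivation_eq_of_isSeparable (E := K) D 0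
    (fun e => by rw [Derivation.map_algebraMap, Derivation.map_algebraMap]) σ hsep
  rw [h] at h0
  exact one_ne_zero h0

end Generic

/-! ### (R) the real types of `S34.H55` -/

section Real

open Fermat.Agent.S18 Fermat.Agent.S34 Fermat.Agent.S34.H92 Fermat.Agent.S34.H16
  Fermat.Agent.S34.H55 Fermat.Agent.S36.H92

local notation "Qbar" => AlgebraicClosure ℚ

variable (M : ℕ) [NeZero M] {ℓ : ℕ} [hℓ : Fact ℓ.Prime] (hℓM : ¬ ℓ ∣ M)
  (A : ValuationSubring Qbar) (hA : A.LiesOverPrime ℓ)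

local notation "kA" => IsLocalRing.ResidueField A
local notation "A₁" => H45.A0 A ℓ
local notation "L₁" => H45.unrCyclo ℓ
local notation "FM" => modularFunctionFieldFullC (H45.unrCyclo ℓ) M
local notation "FN" => modularFunctionFieldFullC (H45.unrCyclo ℓ) (ℓ * M)
local notation "V" => VM M hℓM A hA
local notation "G'" => bigBall (H45.A0 A ℓ) (H45.resA0 A ℓ)

theorem finiteDimensional_FN :
    FiniteDimensional L₁⟮S18.H16.jK L₁ (ℓ * M)⟯ FN :=
  S18.H16.finiteDimensional_fullC_gen (ℓ * M) L₁ (Nat.cast_ne_zero.mpr (NeZero.ne (ℓ * M)))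

include hA in
/-- **(A-exp) in the big ball**: for `s ∈ V_M` with `θ s̄ ≠ 0` and `D = ∂/∂(ι s)` on `F_N`,
`D (V s) = ℓ ω` where the `t`-expansion of `ω` is `(θ s)(t^ℓ) / θ s`, a big-ball element with
reduction `(θ s̄)(t^ℓ) / θ s̄`. -/
theorem exists_omega_coe (s : ↥V) (hθ : thetaOp (resM M hℓM A hA s) ≠ 0)
    (D : Derivation L₁ FN FN) (hD : D (iotaMN M (ℓ := ℓ) ((s : V) : FM)) = 1) :
    ∃ ω : FN, D (VMN M (ℓ := ℓ) ((s : V) : FM)) = ((ℓ : ℕ) : FN) * ω ∧
      ((ω : FN) : LaurentSeries L₁) * thetaOp (((s : V) : FM) : LaurentSeries L₁) =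
        qExpand L₁ ℓ (thetaOp (((s : V) : FM) : LaurentSeries L₁)) ∧
      ((ω : FN) : LaurentSeries L₁) ∈ G' ∧
      bigResFun (H45.A0 A ℓ) (H45.resA0 A ℓ) ((ω : FN) : LaurentSeries L₁) =
        qExpand kA ℓ (thetaOp (resM M hℓM A hA s)) / thetaOp (resM M hℓM A hA s) := by
  haveI := finiteDimensional_FN M (ℓ := ℓ)
  obtain ⟨hmem, hres⟩ := coe_VM_mem_bigBall M hℓM A hA s
  have hσ : ((iotaMN M (ℓ := ℓ) ((s : V) : FM) : FN) : LaurentSeries L₁) =
      (((s : V) : FM) : LaurentSeries L₁) := coe_iotaMN M _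
  have hτ : ((VMN M (ℓ := ℓ) ((s : V) : FM) : FN) : LaurentSeries L₁) =
      qExpand L₁ ℓ ((iotaMN M (ℓ := ℓ) ((s : V) : FM) : FN) : LaurentSeries L₁) := by
    rw [coe_VMN, hσ]
  have hmem' : ((iotaMN M (ℓ := ℓ) ((s : V) : FM) : FN) : LaurentSeries L₁) ∈ G' := by
    rw [hσ]; exact hmem
  have hθ' : thetaOp (bigResFun (H45.A0 A ℓ) (H45.resA0 A ℓ)
      ((iotaMN M (ℓ := ℓ) ((s : V) : FM) : FN) : LaurentSeries L₁)) ≠ 0 := by
    rw [hσ, hres]; exact hθ
  obtain ⟨ω, h1, h2, h3, h4⟩ := exists_omega_bigBall (H45.A0 A ℓ) (H45.resA0 A ℓ) ℓ FN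
    (S18.H16.jK L₁ (ℓ * M)) (iotaMN M (ℓ := ℓ) ((s : V) : FM)) (VMN M (ℓ := ℓ) ((s : V) : FM))
    (transcendental_of_derivation_eq_one D hD) D hD hτ hmem' hθ'
  refine ⟨ω, h1, ?_, h3, ?_⟩
  · rw [← hσ]; exact h2
  · rw [h4, hσ, hres]

include hA in
/-- a Gauss-integral `s` whose reduction is not killed by `θ` is non-constant. -/
theorem transcendental_iotaMN_of_thetaOp_ne_zero (s : ↥V)
    (hθ : thetaOp (resM M hℓM A hA s) ≠ 0) :
    Transcendental L₁ (iotaMN M (ℓ := ℓ) ((s : V) : FM)) := by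
  intro halg
  have hint : IsIntegral L₁ (iotaMN M (ℓ := ℓ) ((s : V) : FM)) := halg.isIntegral
  have hsep : IsSeparable L₁ (iotaMN M (ℓ := ℓ) ((s : V) : FM)) :=
    (minpoly.irreducible hint).separable
  let _i : Module L₁ (LaurentSeries L₁) := Algebra.toModule
  have h0 := Fermat.Agent.CA.H39.derivation_eq_of_isSeparable (E := L₁) (thetaCoeDer FN) 0
    (fun e => by rw [Derivation.map_algebraMap, Derivation.map_algebraMap]) _ hsep
  rw [thetaCoeDer_apply, coe_iotaMN] at h0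
  obtain ⟨hmem, hres⟩ := coe_VM_mem_bigBall M hℓM A hA s
  apply hθ
  rw [← hres, ← bigResFun_thetaOp hmem, h0]
  exact bigResFun_zero

include hA in
/-- the reduction `P_s = (θ s̄)(t^ℓ) / θ s̄` is never zero. -/
theorem omega_residue_ne_zero (s : ↥V) (hθ : thetaOp (resM M hℓM A hA s) ≠ 0) :
    qExpand kA ℓ (thetaOp (resM M hℓM A hA s)) / thetaOp (resM M hℓM A hA s) ≠ 0 :=
  div_ne_zero (fun h => hθ (qExpand_injective ℓ (by rw [h, map_zero]))) hθ

section Place

attribute [local instance] Fermat.Agent.S34.H16.algebraVMFN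

include hA in
/-- **(A-exp)**: `ω_s = (1/ℓ) ∂(V s)/∂(ι s)` is a unit of the ring of every `∞`-place `Pi` of `F_N`,
with residue `P_s = (θ s̄)(t^ℓ) / θ s̄`. -/
theorem exists_omega_placeInf (s : ↥V) (hθ : thetaOp (resM M hℓM A hA s) ≠ 0)
    (D : Derivation L₁ FN FN) (hD : D (iotaMN M (ℓ := ℓ) ((s : V) : FM)) = 1) :
    ∃ ω : FN, D (VMN M (ℓ := ℓ) ((s : V) : FM)) = ((ℓ : ℕ) : FN) * ω ∧
      ∀ Pi : PlaceInf M hℓM A hA, ∃ h : ω ∈ PO1 M hℓM A hA Pi,
        ω⁻¹ ∈ PO1 M hℓM A hA Pi ∧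
        Pres1 M hℓM A hA Pi ⟨ω, h⟩ =
          qExpand kA ℓ (thetaOp (resM M hℓM A hA s)) / thetaOp (resM M hℓM A hA s) := by
  obtain ⟨ω, h1, _, h3, h4⟩ := exists_omega_coe M hℓM A hA s hθ D hD
  refine ⟨ω, h1, fun Pi => ?_⟩
  have h0 : bigResFun (H45.A0 A ℓ) (H45.resA0 A ℓ) ((ω : FN) : LaurentSeries L₁) ≠ 0 := by
    rw [h4]; exact omega_residue_ne_zero M hℓM A hA s hθ
  obtain ⟨hω, hinv⟩ := mem_and_inv_mem_PO1_inf M hℓM A hA Pi ω h3 h0
  refine ⟨hω, hinv, ?_⟩
  rw [Pres1_inf_eq M hℓM A hA Pi ⟨ω, hω⟩]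
  exact h4

include hA in
/-- **(A-exp), packaged with the derivation**: for `s ∈ V_M` with `θ s̄ ≠ 0` there is a unique
`L₁`-derivation `D` of `F_N` with `D (ι s) = 1`, and `D (V s) = ℓ ω` with `ω` a unit at every
`∞`-place, of residue `P_s`. -/
theorem exists_derivation_omega_placeInf (s : ↥V) (hθ : thetaOp (resM M hℓM A hA s) ≠ 0) :
    ∃ D : Derivation L₁ FN FN, D (iotaMN M (ℓ := ℓ) ((s : V) : FM)) = 1 ∧
      (∀ D' : Derivation L₁ FN FN, D' (iotaMN M (ℓ := ℓ) ((s : V) : FM)) = 1 → D' = D) ∧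
      ∃ ω : FN, D (VMN M (ℓ := ℓ) ((s : V) : FM)) = ((ℓ : ℕ) : FN) * ω ∧
        ∀ Pi : PlaceInf M hℓM A hA, ∃ h : ω ∈ PO1 M hℓM A hA Pi,
          ω⁻¹ ∈ PO1 M hℓM A hA Pi ∧
          Pres1 M hℓM A hA Pi ⟨ω, h⟩ =
            qExpand kA ℓ (thetaOp (resM M hℓM A hA s)) / thetaOp (resM M hℓM A hA s) := by
  haveI := finiteDimensional_FN M (ℓ := ℓ)
  obtain ⟨D, hD, huniq⟩ := Fermat.Agent.CA.H39.existsUnique_derivation_eq_one_of_charZero
    (S18.H16.jK L₁ (ℓ * M)) (iotaMN M (ℓ := ℓ) ((s : V) : FM))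
    (transcendental_iotaMN_of_thetaOp_ne_zero M hℓM A hA s hθ)
  exact ⟨D, hD, fun D' hD' => huniq D' hD', exists_omega_placeInf M hℓM A hA s hθ D hD⟩

end Place

end Real

end Fermat.Agent.S36.H99
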